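import Mathlib
import Fermat.Prelude.Def_EllipticCurve_FrobeniusTrace

set_option autoImplicit false

namespace Fermat.Agent.Lib.FrobExists

open scoped Pointwise

theorem horner_mem {L : Type*} [Field L] (V : ValuationSubring L) (c : ℕ → ℤ) (n r : ℕ) (a : L)
    (ha : a ≠ 0) (h : ∑ i ∈ Finset.range (n + 1), (c i : L) * a ^ i = 0) :
    (∑ i ∈ (Finset.range (n + 1)).filter (r ≤ ·), (c i : L) * a ^ (i - r)) ∈ V ∧
    a * (∑ i ∈ (Finset.range (n + 1)).filter (r ≤ ·), (c i : L) * a ^ (i - r)) ∈ V := by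
  rcases V.mem_or_inv_mem a with haV | haV
  · have h1 : (∑ i ∈ (Finset.range (n + 1)).filter (r ≤ ·), (c i : L) * a ^ (i - r)) ∈ V :=
      sum_mem fun i _ => mul_mem (intCast_mem V (c i)) (pow_mem haV _)
    exact ⟨h1, mul_mem haV h1⟩
  · have key : (∑ i ∈ (Finset.range (n + 1)).filter (r ≤ ·), (c i : L) * a ^ (i - r)) =
        -(∑ i ∈ (Finset.range (n + 1)).filter (fun i => ¬ r ≤ i), (c i : L) * a⁻¹ ^ (r - i)) := by
      have har : a ^ r ≠ 0 := pow_ne_zero r ha
      rw [eq_neg_iff_add_eq_zero]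
      apply mul_left_cancel₀ har
      rw [mul_zero, mul_add, Finset.mul_sum, Finset.mul_sum, ← h,
        ← Finset.sum_filter_add_sum_filter_not (Finset.range (n + 1)) (r ≤ ·)]
      congr 1
      · apply Finset.sum_congr rfl
        intro i hi
        rw [Finset.mem_filter] at hi
        rw [mul_left_comm, ← pow_add, Nat.add_sub_cancel' hi.2]
      · apply Finset.sum_congr rfl
        intro i hi
        rw [Finset.mem_filter, not_le] at hi
        have : a ^ r = a ^ i * a ^ (r - i) := by rw [← pow_add, Nat.add_sub_cancel' hi.2.le]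
        rw [mul_left_comm, this, mul_assoc, ← mul_pow, mul_inv_cancel₀ ha, one_pow, mul_one]
    have hw : (∑ i ∈ (Finset.range (n + 1)).filter (fun i => ¬ r ≤ i),
        (c i : L) * a⁻¹ ^ (r - i)) ∈ V :=
      sum_mem fun i _ => mul_mem (intCast_mem V (c i)) (pow_mem haV _)
    refine ⟨key ▸ neg_mem hw, ?_⟩
    rw [key, mul_neg, Finset.mul_sum]
    refine neg_mem (sum_mem fun i hi => ?_)
    rw [Finset.mem_filter, not_le] at hi
    have : a⁻¹ ^ (r - i) = a⁻¹ ^ (r - i - 1) * a⁻¹ := by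
      rw [← pow_succ, Nat.sub_add_cancel (Nat.sub_pos_of_lt hi.2)]
    rw [this, mul_left_comm, mul_comm (a⁻¹ ^ (r - i - 1)), ← mul_assoc a, mul_inv_cancel₀ ha,
      one_mul]
    exact mul_mem (intCast_mem V (c i)) (pow_mem haV _)

theorem isIntegral_of_forall_mem {L : Type*} [Field L] (x : L)
    (h : ∀ V : ValuationSubring L, x ∈ V) : IsIntegral ℤ x := by
  have h1 : x ∈ (⨅ V : {V : ValuationSubring L // (∅ : Set L) ⊆ V.toSubring}, V.1.toSubring) := by
    rw [Subring.mem_iInf]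
    intro V
    exact h V.1
  rw [iInf_valuationSubring_superset] at h1
  have h2 : IsIntegral (Subring.closure (∅ : Set L)) x := h1
  have : Algebra.IsIntegral ℤ (Subring.closure (∅ : Set L)) := by
    constructor
    rintro ⟨y, hy⟩
    rw [Subring.closure_empty, Subring.mem_bot] at hy
    obtain ⟨n, rfl⟩ := hy
    have : (⟨(n : L), hy⟩ : Subring.closure (∅ : Set L)) = algebraMap ℤ _ n := by
      apply Subtype.ext
      simp
    rw [this]
    exact isIntegral_algebraMap
  exact isIntegral_trans x h2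

theorem mem_of_isIntegral {L : Type*} [Field L] (V : ValuationSubring L) (x : L)
    (h : IsIntegral ℤ x) : x ∈ V := by
  have := iInf_valuationSubring_superset (K := L) (s := ∅)
  have h2 : x ∈ (integralClosure (Subring.closure (∅ : Set L)) L).toSubring := by
    change IsIntegral (Subring.closure (∅ : Set L)) x
    exact h.tower_top
  rw [← this, Subring.mem_iInf] at h2
  exact h2 ⟨V, Set.empty_subset _⟩

theorem nonunits_mul_mem {L : Type*} [Field L] (A : ValuationSubring L) {x y : L}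
    (hx : x ∈ A.nonunits) (hy : y ∈ A) : x * y ∈ A.nonunits := by
  rw [ValuationSubring.mem_nonunits_iff] at hx ⊢
  rw [map_mul]
  exact lt_of_le_of_lt (mul_le_of_le_one_right' ((A.valuation_le_one_iff y).mpr hy)) hx

theorem one_notMem_nonunits {L : Type*} [Field L] (A : ValuationSubring L) :
    (1 : L) ∉ A.nonunits := by
  rw [ValuationSubring.mem_nonunits_iff, map_one]
  exact lt_irrefl _

theorem exists_integral_fraction {L : Type*} [Field L] [CharZero L] (A : ValuationSubring L)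
    (ℓ : ℕ) (hℓ : ℓ.Prime) (hA : (ℓ : L) ∈ A.nonunits) (a : L) (ha : a ∈ A)
    (halg : IsAlgebraic ℤ a) :
    ∃ y : L, IsIntegral ℤ y ∧ IsIntegral ℤ (a * y) ∧ y ∉ A.nonunits := by
  by_cases ha0 : a = 0
  · refine ⟨1, isIntegral_one, ?_, one_notMem_nonunits A⟩
    rw [ha0, zero_mul]
    exact isIntegral_zero
  obtain ⟨f, hf0, hfa⟩ := halg
  have hga : Polynomial.aeval a f.primPart = 0 := by
    have h1 := f.eq_C_content_mul_primPart
    rw [h1, map_mul, Polynomial.aeval_C] at hfa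
    rcases mul_eq_zero.mp hfa with h | h
    · exfalso
      have : f.content ≠ 0 := Polynomial.content_eq_zero_iff.not.mpr hf0
      rw [eq_intCast, Int.cast_eq_zero] at h
      exact this h
    · exact h
  set g := f.primPart with hg
  have hprim : g.IsPrimitive := f.isPrimitive_primPart
  have hex : ∃ i, ¬ (ℓ : ℤ) ∣ g.coeff i := by
    by_contra hcon
    push Not at hcon
    have h1 : Polynomial.C (ℓ : ℤ) ∣ g := (Polynomial.C_dvd_iff_dvd_coeff _ _).mpr hcon
    have h2 := hprim _ h1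
    rw [Int.isUnit_iff] at h2
    have := hℓ.one_lt
    omega
  set n := g.natDegree with hn
  let s := (Finset.range (n + 1)).filter (fun i => ¬ (ℓ : ℤ) ∣ g.coeff i)
  have hs : s.Nonempty := by
    obtain ⟨i, hi⟩ := hex
    refine ⟨i, Finset.mem_filter.mpr ⟨?_, hi⟩⟩
    rw [Finset.mem_range, Nat.lt_succ_iff]
    apply Polynomial.le_natDegree_of_ne_zero
    rintro h0
    exact hi (h0 ▸ dvd_zero _)
  set r := s.max' hs with hr
  have hrs : r ∈ s := s.max'_mem hs
  have hrmem : r ∈ Finset.range (n + 1) := (Finset.mem_filter.mp hrs).1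
  have hrdvd : ¬ (ℓ : ℤ) ∣ g.coeff r := (Finset.mem_filter.mp hrs).2
  have hbig : ∀ i ∈ Finset.range (n + 1), r < i → (ℓ : ℤ) ∣ g.coeff i := by
    intro i hi hri
    by_contra hcon
    have : i ≤ r := s.le_max' i (Finset.mem_filter.mpr ⟨hi, hcon⟩)
    omega
  have hsum : ∑ i ∈ Finset.range (n + 1), ((g.coeff i : ℤ) : L) * a ^ i = 0 := by
    rw [Polynomial.aeval_eq_sum_range] at hga
    rw [← hga]
    apply Finset.sum_congr rfl
    intro i _
    rw [zsmul_eq_mul]
  set y := ∑ i ∈ (Finset.range (n + 1)).filter (r ≤ ·), ((g.coeff i : ℤ) : L) * a ^ (i - r)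
    with hy
  refine ⟨y, ?_, ?_, ?_⟩
  · exact isIntegral_of_forall_mem _ fun V => (horner_mem V (fun i => g.coeff i) n r a ha0 hsum).1
  · exact isIntegral_of_forall_mem _ fun V => (horner_mem V (fun i => g.coeff i) n r a ha0 hsum).2
  · intro hyn
    have hrmem' : r ∈ (Finset.range (n + 1)).filter (r ≤ ·) :=
      Finset.mem_filter.mpr ⟨hrmem, le_refl r⟩
    have hsplit := Finset.add_sum_erase ((Finset.range (n + 1)).filter (r ≤ ·))
      (fun i => ((g.coeff i : ℤ) : L) * a ^ (i - r)) hrmem'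
    have hrest : (∑ i ∈ ((Finset.range (n + 1)).filter (r ≤ ·)).erase r,
        ((g.coeff i : ℤ) : L) * a ^ (i - r)) ∈ A.nonunits := by
      refine sum_mem fun i hi => ?_
      rw [Finset.mem_erase, Finset.mem_filter] at hi
      obtain ⟨d, hd⟩ := hbig i hi.2.1 (lt_of_le_of_ne hi.2.2 (Ne.symm hi.1))
      rw [hd, Int.cast_mul, Int.cast_natCast, mul_assoc]
      exact nonunits_mul_mem A hA (mul_mem (intCast_mem A d) (pow_mem ha _))
    have hcr : ((g.coeff r : ℤ) : L) ∈ A.nonunits := by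
      have h3 : ((g.coeff r : ℤ) : L) = y - ∑ i ∈ ((Finset.range (n + 1)).filter (r ≤ ·)).erase r,
          ((g.coeff i : ℤ) : L) * a ^ (i - r) := by
        rw [hy, ← hsplit]
        simp
      rw [h3]
      exact sub_mem hyn hrest
    have hcop : IsCoprime (ℓ : ℤ) (g.coeff r) :=
      ((Nat.prime_iff_prime_int.mp hℓ).irreducible.coprime_iff_not_dvd).mpr hrdvd
    obtain ⟨u, v, huv⟩ := hcop
    have h1 : ((u * (ℓ : ℤ) + v * g.coeff r : ℤ) : L) ∈ A.nonunits := by
      push_cast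
      refine add_mem ?_ ?_
      · rw [mul_comm]
        exact nonunits_mul_mem A hA (intCast_mem A u)
      · rw [mul_comm]
        exact nonunits_mul_mem A hcr (intCast_mem A v)
    rw [huv, Int.cast_one] at h1
    exact one_notMem_nonunits A h1

instance isAlgebraicQbar : Algebra.IsAlgebraic ℚ (AlgebraicClosure ℚ) := by
  have h : (DivisionRing.toRatAlgebra : Algebra ℚ (AlgebraicClosure ℚ)) =
      AlgebraicClosure.instAlgebra ℚ := Subsingleton.elim _ _
  rw [h]
  exact AlgebraicClosure.isAlgebraic ℚ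

instance isAlgClosureQbar : IsAlgClosure ℚ (AlgebraicClosure ℚ) := ⟨inferInstance, inferInstance⟩

noncomputable instance galActionIntegralClosure :
    MulSemiringAction (AlgebraicClosure ℚ ≃ₐ[ℚ] AlgebraicClosure ℚ)
      (integralClosure ℤ (AlgebraicClosure ℚ)) where
  smul σ b := ⟨σ b.1, map_isIntegral_int (σ : AlgebraicClosure ℚ →+* AlgebraicClosure ℚ) b.2⟩
  one_smul _ := Subtype.ext rfl
  mul_smul _ _ _ := Subtype.ext rfl
  smul_zero σ := Subtype.ext (map_zero σ)
  smul_add σ b c := Subtype.ext (map_add σ b.1 c.1)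
  smul_one σ := Subtype.ext (map_one σ)
  smul_mul σ b c := Subtype.ext (map_mul σ b.1 c.1)

theorem coe_smul_integralClosure (σ : AlgebraicClosure ℚ ≃ₐ[ℚ] AlgebraicClosure ℚ)
    (b : integralClosure ℤ (AlgebraicClosure ℚ)) : ((σ • b : integralClosure ℤ (AlgebraicClosure ℚ)) : AlgebraicClosure ℚ) = σ b.1 := rfl

instance smulCommClassIntegralClosure :
    SMulCommClass (AlgebraicClosure ℚ ≃ₐ[ℚ] AlgebraicClosure ℚ) ℤ
      (integralClosure ℤ (AlgebraicClosure ℚ)) where
  smul_comm σ n b := Subtype.ext (by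
    show σ (n • b).1 = n • σ b.1
    rw [← map_zsmul]
    rfl)

instance isInvariantIntegralClosure :
    Algebra.IsInvariant ℤ (integralClosure ℤ (AlgebraicClosure ℚ))
      (AlgebraicClosure ℚ ≃ₐ[ℚ] AlgebraicClosure ℚ) where
  isInvariant b hb := by
    have h1 : ∀ g : AlgebraicClosure ℚ ≃ₐ[ℚ] AlgebraicClosure ℚ, g b.1 = b.1 :=
      fun g => congrArg Subtype.val (hb g)
    obtain ⟨q, hq⟩ := (InfiniteGalois.mem_range_algebraMap_iff_fixed b.1).mpr h1
    have hint : IsIntegral ℤ q := by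
      have h2 := b.2
      rw [← hq] at h2
      exact (isIntegral_algebraMap_iff (algebraMap ℚ (AlgebraicClosure ℚ)).injective).mp h2
    obtain ⟨n, hn⟩ := IsIntegrallyClosed.isIntegral_iff.mp hint
    refine ⟨n, Subtype.ext ?_⟩
    rw [← hq, ← hn]
    simp

theorem continuousSMulIntegralClosure :
    letI : TopologicalSpace (integralClosure ℤ (AlgebraicClosure ℚ)) := ⊥
    ContinuousSMul (AlgebraicClosure ℚ ≃ₐ[ℚ] AlgebraicClosure ℚ)
      (integralClosure ℤ (AlgebraicClosure ℚ)) := by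
  let _ : TopologicalSpace (integralClosure ℤ (AlgebraicClosure ℚ)) := ⊥
  have : DiscreteTopology (integralClosure ℤ (AlgebraicClosure ℚ)) := ⟨rfl⟩
  rw [continuousSMul_iff_stabilizer_isOpen]
  intro b
  have h := stabilizer_isOpen_of_isIntegral (K := ℚ) (L := AlgebraicClosure ℚ) b.1
  convert h using 1
  ext g
  simp only [SetLike.mem_coe, MulAction.mem_stabilizer_iff]
  constructor
  · intro hg
    exact congrArg Subtype.val hg
  · intro hg
    exact Subtype.ext hg

/-- The inclusion of the ring of algebraic integers into a valuation subring. -/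
noncomputable def incl (A : ValuationSubring (AlgebraicClosure ℚ)) :
    integralClosure ℤ (AlgebraicClosure ℚ) →+* A where
  toFun b := ⟨b.1, mem_of_isIntegral A b.1 b.2⟩
  map_one' := rfl
  map_mul' _ _ := rfl
  map_zero' := rfl
  map_add' _ _ := rfl

/-- The center of a valuation subring on the ring of algebraic integers. -/
noncomputable def center (A : ValuationSubring (AlgebraicClosure ℚ)) :
    Ideal (integralClosure ℤ (AlgebraicClosure ℚ)) :=
  (IsLocalRing.maximalIdeal A).comap (incl A)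

instance center_isPrime (A : ValuationSubring (AlgebraicClosure ℚ)) : (center A).IsPrime :=
  Ideal.comap_isPrime (incl A) _

theorem mem_center (A : ValuationSubring (AlgebraicClosure ℚ))
    (b : integralClosure ℤ (AlgebraicClosure ℚ)) : b ∈ center A ↔ b.1 ∈ A.nonunits := by
  rw [center, Ideal.mem_comap, ← ValuationSubring.coe_mem_nonunits_iff]
  rfl

theorem natCast_mem_center (A : ValuationSubring (AlgebraicClosure ℚ)) (ℓ : ℕ)
    (hA : A.LiesOverPrime ℓ) : (ℓ : integralClosure ℤ (AlgebraicClosure ℚ)) ∈ center A := by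
  rw [mem_center]
  exact hA

theorem charP_quot_center (A : ValuationSubring (AlgebraicClosure ℚ)) (ℓ : ℕ) (hℓ : ℓ.Prime)
    (hA : A.LiesOverPrime ℓ) : CharP (integralClosure ℤ (AlgebraicClosure ℚ) ⧸ center A) ℓ := by
  obtain ⟨c, hc⟩ := CharP.exists (integralClosure ℤ (AlgebraicClosure ℚ) ⧸ center A)
  have h0 : ((ℓ : ℕ) : integralClosure ℤ (AlgebraicClosure ℚ) ⧸ center A) = 0 := by
    have := natCast_mem_center A ℓ hA
    rw [← Ideal.Quotient.eq_zero_iff_mem, map_natCast] at this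
    exact this
  have hdvd : c ∣ ℓ := (CharP.cast_eq_zero_iff _ c ℓ).mp h0
  rcases (Nat.dvd_prime hℓ).mp hdvd with h1 | h1
  · exfalso
    exact CharP.char_ne_one (integralClosure ℤ (AlgebraicClosure ℚ) ⧸ center A) c h1
  · exact h1 ▸ hc

/-- The Frobenius automorphism of the residue ring at the center. -/
noncomputable def frobAlgEquiv (A : ValuationSubring (AlgebraicClosure ℚ)) (ℓ : ℕ) (hℓ : ℓ.Prime)
    (hA : A.LiesOverPrime ℓ) :
    (integralClosure ℤ (AlgebraicClosure ℚ) ⧸ center A) ≃ₐ[ℤ ⧸ (center A).under ℤ]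
      (integralClosure ℤ (AlgebraicClosure ℚ) ⧸ center A) :=
  haveI := charP_quot_center A ℓ hℓ hA
  haveI : Fact ℓ.Prime := ⟨hℓ⟩
  AlgEquiv.ofBijective
    { toRingHom := frobenius (integralClosure ℤ (AlgebraicClosure ℚ) ⧸ center A) ℓ
      commutes' := by
        intro r
        obtain ⟨n, rfl⟩ := Ideal.Quotient.mk_surjective r
        rw [Ideal.Quotient.algebraMap_mk_of_liesOver, eq_intCast, map_intCast]
        exact map_intCast (frobenius (integralClosure ℤ (AlgebraicClosure ℚ) ⧸ center A) ℓ) n }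
    (by
      constructor
      · exact frobenius_inj (integralClosure ℤ (AlgebraicClosure ℚ) ⧸ center A) ℓ
      · intro x
        obtain ⟨b, rfl⟩ := Ideal.Quotient.mk_surjective x
        obtain ⟨c, hc⟩ := IsAlgClosed.exists_pow_nat_eq b.1 hℓ.pos
        have hcint : IsIntegral ℤ c := IsIntegral.of_pow hℓ.pos (hc ▸ b.2)
        refine ⟨Ideal.Quotient.mk _ ⟨c, hcint⟩, ?_⟩
        show (Ideal.Quotient.mk (center A)
          (⟨c, hcint⟩ : integralClosure ℤ (AlgebraicClosure ℚ))) ^ ℓ = _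
        rw [← map_pow]
        congr 1
        exact Subtype.ext hc)

theorem frobAlgEquiv_apply (A : ValuationSubring (AlgebraicClosure ℚ)) (ℓ : ℕ) (hℓ : ℓ.Prime)
    (hA : A.LiesOverPrime ℓ) (x : integralClosure ℤ (AlgebraicClosure ℚ) ⧸ center A) :
    frobAlgEquiv A ℓ hℓ hA x = x ^ ℓ := rfl

theorem exists_frob_integralClosure (A : ValuationSubring (AlgebraicClosure ℚ)) (ℓ : ℕ)
    (hℓ : ℓ.Prime) (hA : A.LiesOverPrime ℓ) :
    ∃ σ : AlgebraicClosure ℚ ≃ₐ[ℚ] AlgebraicClosure ℚ,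
      ∀ b : integralClosure ℤ (AlgebraicClosure ℚ), σ • b - b ^ ℓ ∈ center A := by
  let _ : TopologicalSpace (integralClosure ℤ (AlgebraicClosure ℚ)) := ⊥
  have : DiscreteTopology (integralClosure ℤ (AlgebraicClosure ℚ)) := ⟨rfl⟩
  have : ContinuousSMul (AlgebraicClosure ℚ ≃ₐ[ℚ] AlgebraicClosure ℚ)
      (integralClosure ℤ (AlgebraicClosure ℚ)) := continuousSMulIntegralClosure
  obtain ⟨g, hg⟩ := Ideal.Quotient.stabilizerHom_surjective_of_profinite
    (G := AlgebraicClosure ℚ ≃ₐ[ℚ] AlgebraicClosure ℚ) ((center A).under ℤ) (center A)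
    (frobAlgEquiv A ℓ hℓ hA)
  refine ⟨g.1, fun b => ?_⟩
  have h1 := congrArg (fun f => f (Ideal.Quotient.mk (center A) b)) hg
  simp only [Ideal.Quotient.stabilizerHom_apply, frobAlgEquiv_apply] at h1
  rw [← map_pow] at h1
  exact Ideal.Quotient.eq.mp h1

theorem map_mem_of_stable (A : ValuationSubring (AlgebraicClosure ℚ)) (ℓ : ℕ) (hℓ : ℓ.Prime)
    (hA : A.LiesOverPrime ℓ) (τ : AlgebraicClosure ℚ ≃ₐ[ℚ] AlgebraicClosure ℚ)
    (hτ : ∀ b : integralClosure ℤ (AlgebraicClosure ℚ), τ • b ∈ center A → b ∈ center A)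
    (a : AlgebraicClosure ℚ) (ha : a ∈ A) : τ a ∈ A := by
  have halg : IsAlgebraic ℤ a :=
    (IsFractionRing.isAlgebraic_iff ℤ ℚ (AlgebraicClosure ℚ)).mpr
      (Algebra.IsAlgebraic.isAlgebraic a)
  obtain ⟨y, hy, hay, hyn⟩ := exists_integral_fraction A ℓ hℓ hA a ha halg
  have h1 : τ y ∉ A.nonunits := fun h =>
    hyn ((mem_center A ⟨y, hy⟩).mp (hτ ⟨y, hy⟩ ((mem_center A (τ • ⟨y, hy⟩)).mpr h)))
  rw [ValuationSubring.mem_nonunits_iff_or, not_or, not_not] at h1
  have h2 : τ (a * y) ∈ A :=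
    mem_of_isIntegral A _ (map_isIntegral_int (τ : AlgebraicClosure ℚ →+* AlgebraicClosure ℚ) hay)
  have h3 : τ a = τ (a * y) * (τ y)⁻¹ := by rw [map_mul, mul_inv_cancel_right₀ h1.1]
  rw [h3]
  exact mul_mem h2 h1.2

theorem exists_isFrobeniusAt (A : ValuationSubring (AlgebraicClosure ℚ)) (ℓ : ℕ) (hℓ : ℓ.Prime)
    (hA : A.LiesOverPrime ℓ) :
    ∃ σ : AlgebraicClosure ℚ ≃ₐ[ℚ] AlgebraicClosure ℚ, A.IsFrobeniusAt σ ℓ := by
  obtain ⟨σ, hσ⟩ := exists_frob_integralClosure A ℓ hℓ hA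
  have hst : ∀ b : integralClosure ℤ (AlgebraicClosure ℚ), σ • b ∈ center A ↔ b ∈ center A := by
    intro b
    have h := hσ b
    constructor
    · intro hb
      have h1 : b ^ ℓ ∈ center A := by
        have h2 := (center A).sub_mem hb h
        rwa [sub_sub_cancel] at h2
      exact (center_isPrime A).mem_of_pow_mem ℓ h1
    · intro hb
      have h1 : σ • b = (σ • b - b ^ ℓ) + b ^ ℓ := by ring
      rw [h1]
      exact add_mem h (Ideal.pow_mem_of_mem _ hb ℓ hℓ.pos)
  have hst' : ∀ b : integralClosure ℤ (AlgebraicClosure ℚ), σ⁻¹ • b ∈ center A → b ∈ center A := by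
    intro b hb
    have h1 := (hst (σ⁻¹ • b)).mpr hb
    rwa [smul_inv_smul] at h1
  have hσA : σ ∈ A.decompositionSubgroup ℚ := by
    rw [MulAction.mem_stabilizer_iff]
    apply ValuationSubring.ext
    intro x
    rw [ValuationSubring.mem_pointwise_smul_iff_inv_smul_mem]
    constructor
    · intro hx
      have h1 := map_mem_of_stable A ℓ hℓ hA σ (fun b hb => (hst b).mp hb) _ hx
      rwa [← AlgEquiv.smul_def, smul_inv_smul] at h1
    · intro hx
      exact map_mem_of_stable A ℓ hℓ hA σ⁻¹ hst' x hx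
  refine ⟨σ, hσA, ?_⟩
  have hB : ∀ b : integralClosure ℤ (AlgebraicClosure ℚ),
      (⟨σ, hσA⟩ : A.decompositionSubgroup ℚ) • IsLocalRing.residue A (incl A b) =
        (IsLocalRing.residue A (incl A b)) ^ ℓ := by
    intro b
    rw [← IsLocalRing.ResidueField.residue_smul, ← map_pow]
    have h1 : (⟨σ, hσA⟩ : A.decompositionSubgroup ℚ) • incl A b = incl A (σ • b) :=
      Subtype.ext rfl
    rw [h1, ← map_pow (incl A), ← sub_eq_zero, ← map_sub, IsLocalRing.residue_eq_zero_iff,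
      ← map_sub]
    exact hσ b
  intro x
  obtain ⟨a, rfl⟩ := IsLocalRing.residue_surjective x
  have halg : IsAlgebraic ℤ a.1 :=
    (IsFractionRing.isAlgebraic_iff ℤ ℚ (AlgebraicClosure ℚ)).mpr
      (Algebra.IsAlgebraic.isAlgebraic a.1)
  obtain ⟨y, hy, hay, hyn⟩ := exists_integral_fraction A ℓ hℓ hA a.1 a.2 halg
  have hz : incl A ⟨a.1 * y, hay⟩ = a * incl A ⟨y, hy⟩ := Subtype.ext rfl
  have hy0 : IsLocalRing.residue A (incl A ⟨y, hy⟩) ≠ 0 := by
    rw [Ne, IsLocalRing.residue_eq_zero_iff, ← ValuationSubring.coe_mem_nonunits_iff]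
    exact hyn
  have e1 := hB ⟨a.1 * y, hay⟩
  rw [hz, map_mul, smul_mul', hB ⟨y, hy⟩, mul_pow] at e1
  exact mul_right_cancel₀ (pow_ne_zero ℓ hy0) e1

theorem exists_liesOverPrime (ℓ : ℕ) (hℓ : ℓ.Prime) :
    ∃ A : ValuationSubring (AlgebraicClosure ℚ), A.LiesOverPrime ℓ := by
  have hI : Ideal.span {(ℓ : (⊥ : Subring (AlgebraicClosure ℚ)))} ≠ ⊤ := by
    rw [Ne, Ideal.span_singleton_eq_top]
    rintro hu
    obtain ⟨⟨v, hv⟩, hv1⟩ := hu.exists_right_inv
    rw [Subring.mem_bot] at hv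
    obtain ⟨m, rfl⟩ := hv
    have h2 := congrArg Subtype.val hv1
    simp only [Subring.coe_mul, Subring.coe_natCast, Subring.coe_one] at h2
    have h3 : ((ℓ * m : ℤ) : AlgebraicClosure ℚ) = ((1 : ℤ) : AlgebraicClosure ℚ) := by
      push_cast
      exact h2
    have h4 : (ℓ : ℤ) * m = 1 := Int.cast_injective h3
    have h5 : IsUnit (ℓ : ℤ) := IsUnit.of_mul_eq_one _ h4
    rw [Int.isUnit_iff] at h5
    have := hℓ.one_lt
    omega
  obtain ⟨A, -, hA⟩ := Ideal.image_subset_nonunits_valuationSubring _ hI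
  refine ⟨A, hA ⟨(ℓ : (⊥ : Subring (AlgebraicClosure ℚ))), Ideal.subset_span rfl, rfl⟩⟩

theorem exists_liesOverPrime_isFrobeniusAt (ℓ : ℕ) (hℓ : ℓ.Prime) :
    ∃ (A : ValuationSubring (AlgebraicClosure ℚ))
      (σ : AlgebraicClosure ℚ ≃ₐ[ℚ] AlgebraicClosure ℚ),
      A.LiesOverPrime ℓ ∧ A.IsFrobeniusAt σ ℓ := by
  obtain ⟨A, hA⟩ := exists_liesOverPrime ℓ hℓ
  obtain ⟨σ, hσ⟩ := exists_isFrobeniusAt A ℓ hℓ hA
  exact ⟨A, σ, hA, hσ⟩

end Fermat.Agent.Lib.FrobExists
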