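import Mathlib
import Fermat.Prelude.Def_FLTPrelim_Ramification
import Fermat.Agent.Lib.FrobExists

set_option autoImplicit false

/-!
# Lifting inertia from finite level to `Gal(Q̄/ℚ)` and the Minkowski glue

Main results (`Qb = AlgebraicClosure ℚ`, `Gam = Qb ≃ₐ[ℚ] Qb`):

* `mem_inertiaSubgroupIn_of_sub_mem` : `σ` lies in the (Prelude) inertia subgroup of a valuation
  subring `A` as soon as `σ x - x` is a non-unit of `A` for all `x ∈ A`.
* `exists_integral_mul_eq` : a valuation subring of an algebraic extension of `ℚ` is the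
  localisation of the ring of algebraic integers at its centre.
* `exists_mul_mem_inertia`, `exists_inertia_lift` : inertia elements at finite level lift to the
  inertia subgroup in the absolute Galois group.
* `eq_top_of_inertia_le`, `eq_top_of_inertia_le_of_finite` : an open normal subgroup of
  `Gal(Q̄/ℚ)` containing all inertia subgroups at all primes is everything (Minkowski).
-/

namespace Fermat.Agent.Lib.InertiaLift

open scoped Pointwise
open Fermat.Agent.Lib.FrobExists

section General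

variable {K L : Type*} [Field K] [Field L] [Algebra K L] (A : ValuationSubring L)

theorem apply_mem_of_sub_mem (σ : L ≃ₐ[K] L) (hσ : ∀ x ∈ A, σ x - x ∈ A.nonunits) {x : L}
    (hx : x ∈ A) : σ x ∈ A := by
  have h := A.nonunits_subset (hσ x hx)
  have : σ x = (σ x - x) + x := by ring
  rw [this]
  exact A.add_mem _ _ h hx

theorem symm_apply_mem_of_sub_mem (σ : L ≃ₐ[K] L) (hσ : ∀ x ∈ A, σ x - x ∈ A.nonunits) {x : L}
    (hx : x ∈ A) : σ.symm x ∈ A := by
  by_contra hy
  set y := σ.symm x with hy_def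
  have hy0 : y ≠ 0 := fun h0 => hy (h0 ▸ A.zero_mem)
  have h1 : y⁻¹ ∈ A.nonunits := A.inv_mem_nonunits_iff.mpr (Or.inr hy)
  have h2 := hσ y⁻¹ (A.nonunits_subset h1)
  have h3 : σ y⁻¹ = x⁻¹ := by
    rw [map_inv₀, hy_def, AlgEquiv.apply_symm_apply]
  rw [h3] at h2
  rw [ValuationSubring.mem_nonunits_iff] at h1 h2
  have h4 : A.valuation x⁻¹ < 1 := by
    have : x⁻¹ = (x⁻¹ - y⁻¹) + y⁻¹ := by ring
    rw [this]
    exact lt_of_le_of_lt (A.valuation.map_add _ _) (max_lt h2 h1)
  have h5 : A.valuation x ≤ 1 := (A.valuation_le_one_iff x).mpr hx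
  have hx0 : x ≠ 0 := by
    rintro rfl
    exact hy0 (by rw [hy_def, map_zero])
  have h6 : A.valuation x * A.valuation x⁻¹ = 1 := by
    rw [← map_mul, mul_inv_cancel₀ hx0, map_one]
  have h7 : A.valuation x * A.valuation x⁻¹ < 1 := by
    calc A.valuation x * A.valuation x⁻¹ ≤ 1 * A.valuation x⁻¹ := by gcongr
      _ = A.valuation x⁻¹ := one_mul _
      _ < 1 := h4
  exact absurd h6 (ne_of_lt h7)

theorem mem_decomposition_of_sub_mem (σ : L ≃ₐ[K] L) (hσ : ∀ x ∈ A, σ x - x ∈ A.nonunits) :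
    σ ∈ A.decompositionSubgroup K := by
  show σ • A = A
  ext x
  rw [ValuationSubring.mem_pointwise_smul_iff_inv_smul_mem]
  constructor
  · intro hx
    have := apply_mem_of_sub_mem A σ hσ hx
    have h2 : σ (σ⁻¹ • x) = x := σ.apply_symm_apply x
    rwa [h2] at this
  · intro hx
    exact symm_apply_mem_of_sub_mem A σ hσ hx

theorem mem_inertiaSubgroupIn_of_sub_mem (σ : L ≃ₐ[K] L) (hσ : ∀ x ∈ A, σ x - x ∈ A.nonunits) :
    σ ∈ A.inertiaSubgroupIn K := by
  have hD := mem_decomposition_of_sub_mem A σ hσ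
  refine ⟨⟨σ, hD⟩, ?_, rfl⟩
  show MulSemiringAction.toRingAut (A.decompositionSubgroup K)
      (IsLocalRing.ResidueField A) ⟨σ, hD⟩ = 1
  ext r
  obtain ⟨a, rfl⟩ := IsLocalRing.residue_surjective r
  show (⟨σ, hD⟩ : A.decompositionSubgroup K) • IsLocalRing.residue A a = IsLocalRing.residue A a
  rw [← IsLocalRing.ResidueField.residue_smul]
  apply Ideal.Quotient.eq.mpr
  rw [← ValuationSubring.coe_mem_nonunits_iff]
  exact hσ a a.2

end General


section Horner

variable {L : Type*} [Field L]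

theorem isIntegral_of_forall_mem (y : L) (h : ∀ V : ValuationSubring L, y ∈ V) :
    IsIntegral ℤ y := by
  have h1 : y ∈ (⨅ V : {V : ValuationSubring L // (∅ : Set L) ⊆ V.toSubring}, V.1.toSubring) := by
    rw [Subring.mem_iInf]
    intro V
    exact h V.1
  rw [iInf_valuationSubring_superset] at h1
  have h2 : IsIntegral (Subring.closure (∅ : Set L)) y := h1
  have h3 : Algebra.IsIntegral ℤ (Subring.closure (∅ : Set L)) := by
    constructor
    rintro ⟨z, hz⟩
    rw [Subring.closure_empty, Subring.mem_bot] at hz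
    obtain ⟨n, rfl⟩ := hz
    have : (⟨(n : L), hz⟩ : Subring.closure (∅ : Set L)) = algebraMap ℤ _ n := by
      ext; simp
    rw [this]
    exact isIntegral_algebraMap
  exact isIntegral_trans y h2

theorem mem_of_isIntegral_int (A : ValuationSubring L) {y : L} (hy : IsIntegral ℤ y) : y ∈ A := by
  have h1 : IsIntegral A y := hy.tower_top
  obtain ⟨a, ha⟩ := (IsIntegrallyClosed.isIntegral_iff (R := A) (K := L)).mp h1
  rw [← ha]
  exact a.2

theorem coeff_iterate_divX (f : Polynomial ℤ) (j n : ℕ) :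
    (Polynomial.divX^[j] f).coeff n = f.coeff (n + j) := by
  induction j generalizing n with
  | zero => simp
  | succ j ih =>
    rw [Function.iterate_succ_apply', Polynomial.coeff_divX, ih]
    congr 1
    ring

theorem horner_step (f : Polynomial ℤ) (x : L) (j : ℕ) :
    Polynomial.aeval x (Polynomial.divX^[j] f) =
      Polynomial.aeval x (Polynomial.divX^[j + 1] f) * x + (f.coeff j : L) := by
  have h := Polynomial.divX_mul_X_add (Polynomial.divX^[j] f)
  rw [coeff_iterate_divX, zero_add] at h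
  conv_lhs => rw [← h]
  rw [Function.iterate_succ_apply']
  simp

theorem horner_mem_of_mem (V : ValuationSubring L) (g : Polynomial ℤ) (x : L) (hx : x ∈ V) :
    Polynomial.aeval x g ∈ V := by
  rw [Polynomial.aeval_eq_sum_range]
  refine V.toSubring.sum_mem fun i _ => ?_
  exact V.toSubring.zsmul_mem (V.toSubring.pow_mem hx i) _

theorem horner_mem_of_inv_mem (V : ValuationSubring L) (f : Polynomial ℤ) (x : L)
    (hx : x⁻¹ ∈ V) (hx0 : x ≠ 0) (hf : Polynomial.aeval x f = 0) (j : ℕ) :
    Polynomial.aeval x (Polynomial.divX^[j] f) ∈ V := by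
  induction j with
  | zero => simp [hf]
  | succ j ih =>
    have h := horner_step f x j
    have h2 : Polynomial.aeval x (Polynomial.divX^[j + 1] f) =
        (Polynomial.aeval x (Polynomial.divX^[j] f) - (f.coeff j : L)) * x⁻¹ := by
      rw [h]; field_simp; ring
    rw [h2]
    refine V.mul_mem _ _ (V.toSubring.sub_mem ih ?_) hx
    exact intCast_mem V.toSubring _

theorem horner_isIntegral (f : Polynomial ℤ) (x : L) (hx0 : x ≠ 0)
    (hf : Polynomial.aeval x f = 0) (j : ℕ) :
    IsIntegral ℤ (Polynomial.aeval x (Polynomial.divX^[j] f)) := by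
  refine isIntegral_of_forall_mem _ fun V => ?_
  rcases V.mem_or_inv_mem x with h | h
  · exact horner_mem_of_mem V _ x h
  · exact horner_mem_of_inv_mem V f x h hx0 hf j

theorem exists_integral_mul_eq_of_aeval (A : ValuationSubring L) (f : Polynomial ℤ) (x : L)
    (hx : x ∈ A) (hf : Polynomial.aeval x f = 0) (k : ℕ)
    (hk : ((f.coeff k : ℤ) : L) ∉ A.nonunits) :
    ∃ a b : L, IsIntegral ℤ a ∧ IsIntegral ℤ b ∧ b ∉ A.nonunits ∧ x * b = a := by
  rcases eq_or_ne x 0 with rfl | hx0
  · refine ⟨0, 1, isIntegral_zero, isIntegral_one, ?_, by simp⟩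
    rw [ValuationSubring.mem_nonunits_iff, map_one]
    exact lt_irrefl _
  set u : ℕ → L := fun j => Polynomial.aeval x (Polynomial.divX^[j] f) with hu
  have hint : ∀ j, IsIntegral ℤ (u j) := fun j => horner_isIntegral f x hx0 hf j
  have hstep : ∀ j, u j = u (j + 1) * x + (f.coeff j : L) := fun j => horner_step f x j
  have hu0 : u 0 = 0 := by simp [hu, hf]
  have hc : IsIntegral ℤ ((f.coeff k : ℤ) : L) := by
    have : ((f.coeff k : ℤ) : L) = algebraMap ℤ L (f.coeff k) := by simp
    rw [this]; exact isIntegral_algebraMap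
  by_cases huk : u k ∈ A.nonunits
  · -- `x * u (k+1) = u k - c_k` is a unit of `A`
    refine ⟨u k - (f.coeff k : L), u (k + 1), (hint k).sub hc, hint (k + 1), ?_, ?_⟩
    · have h1 : A.valuation (u k - (f.coeff k : L)) = 1 := by
        have hck : A.valuation ((f.coeff k : ℤ) : L) = 1 := by
          have h2 : A.valuation ((f.coeff k : ℤ) : L) ≤ 1 :=
            (A.valuation_le_one_iff _).mpr (mem_of_isIntegral_int A hc)
          rw [ValuationSubring.mem_nonunits_iff, not_lt] at hk
          exact le_antisymm h2 hk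
        rw [ValuationSubring.mem_nonunits_iff] at huk
        rw [Valuation.map_sub_eq_of_lt_right _ (by rw [hck]; exact huk), hck]
      have h3 : u k - (f.coeff k : L) = u (k + 1) * x := by rw [hstep k]; ring
      rw [h3, map_mul] at h1
      have hxv : A.valuation x ≤ 1 := (A.valuation_le_one_iff _).mpr hx
      have huv : A.valuation (u (k + 1)) ≤ 1 :=
        (A.valuation_le_one_iff _).mpr (mem_of_isIntegral_int A (hint (k + 1)))
      rw [ValuationSubring.mem_nonunits_iff, not_lt]
      calc (1 : _) = A.valuation (u (k + 1)) * A.valuation x := h1.symm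
        _ ≤ A.valuation (u (k + 1)) * 1 := by gcongr
        _ = A.valuation (u (k + 1)) := mul_one _
    · rw [hstep k]; ring
  · -- `u k` is a unit of `A`, `k ≥ 1`
    rcases Nat.eq_zero_or_pos k with rfl | hkpos
    · exfalso
      apply huk
      rw [hu0, ValuationSubring.mem_nonunits_iff, map_zero]
      exact zero_lt_one
    obtain ⟨k', rfl⟩ : ∃ k', k = k' + 1 := ⟨k - 1, by omega⟩
    have hc' : IsIntegral ℤ ((f.coeff k' : ℤ) : L) := by
      have : ((f.coeff k' : ℤ) : L) = algebraMap ℤ L (f.coeff k') := by simp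
      rw [this]; exact isIntegral_algebraMap
    refine ⟨u k' - (f.coeff k' : L), u (k' + 1), (hint k').sub hc', hint (k' + 1), huk, ?_⟩
    rw [hstep k']; ring

theorem exists_unit_coeff (A : ValuationSubring L) (f : Polynomial ℤ) (hf : f.IsPrimitive) :
    ∃ k : ℕ, ((f.coeff k : ℤ) : L) ∉ A.nonunits := by
  by_contra hcon
  push Not at hcon
  let I : Ideal ℤ :=
    { carrier := {n : ℤ | ((n : ℤ) : L) ∈ A.nonunits}
      add_mem' := by
        intro a b ha hb
        simp only [Set.mem_ofPred_eq, ValuationSubring.mem_nonunits_iff] at ha hb ⊢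
        rw [Int.cast_add]
        exact lt_of_le_of_lt (A.valuation.map_add _ _) (max_lt ha hb)
      zero_mem' := by
        simp only [Set.mem_ofPred_eq, ValuationSubring.mem_nonunits_iff, Int.cast_zero, map_zero]
        exact zero_lt_one
      smul_mem' := by
        intro c a ha
        simp only [Set.mem_ofPred_eq, ValuationSubring.mem_nonunits_iff, smul_eq_mul,
          Int.cast_mul, map_mul] at ha ⊢
        have hc1 : A.valuation ((c : ℤ) : L) ≤ 1 :=
          (A.valuation_le_one_iff _).mpr (intCast_mem A.toSubring c)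
        calc A.valuation (c : L) * A.valuation (a : L) ≤ 1 * A.valuation (a : L) := by gcongr
          _ = A.valuation (a : L) := one_mul _
          _ < 1 := ha }
  obtain ⟨d, hd⟩ : ∃ d : ℤ, I = Ideal.span {d} :=
    ⟨_, (Ideal.span_singleton_generator I).symm⟩
  have hdvd : ∀ k, d ∣ f.coeff k := by
    intro k
    have : f.coeff k ∈ I := hcon k
    rw [hd, Ideal.mem_span_singleton] at this
    exact this
  have hC : Polynomial.C d ∣ f := (Polynomial.C_dvd_iff_dvd_coeff d f).mpr hdvd
  have hunit : IsUnit d := hf d hC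
  have h1 : (1 : ℤ) ∈ I := by
    rw [hd, Ideal.mem_span_singleton]
    exact hunit.dvd
  have h2 : A.valuation ((1 : ℤ) : L) < 1 := by
    rw [← ValuationSubring.mem_nonunits_iff]; exact h1
  simp at h2

theorem exists_integral_mul_eq [CharZero L] [Algebra.IsAlgebraic ℚ L] (A : ValuationSubring L)
    {x : L} (hx : x ∈ A) :
    ∃ a b : L, IsIntegral ℤ a ∧ IsIntegral ℤ b ∧ b ∉ A.nonunits ∧ x * b = a := by
  have halg : IsAlgebraic ℤ x :=
    (IsFractionRing.isAlgebraic_iff ℤ ℚ L).mpr (Algebra.IsAlgebraic.isAlgebraic x)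
  obtain ⟨p, hp0, hp⟩ := halg
  have hprim : p.primPart.IsPrimitive := p.isPrimitive_primPart
  have hroot : Polynomial.aeval x p.primPart = 0 := by
    have h1 := p.eq_C_content_mul_primPart
    rw [h1, map_mul, Polynomial.aeval_C] at hp
    have hc : algebraMap ℤ L p.content ≠ 0 := by
      simp only [algebraMap_int_eq, eq_intCast, ne_eq, Int.cast_eq_zero]
      exact Polynomial.content_eq_zero_iff.not.mpr hp0
    exact (mul_eq_zero.mp hp).resolve_left hc
  obtain ⟨k, hk⟩ := exists_unit_coeff A p.primPart hprim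
  exact exists_integral_mul_eq_of_aeval A p.primPart x hx hroot k hk

end Horner


noncomputable section

abbrev Qb := AlgebraicClosure ℚ
abbrev Gam := Qb ≃ₐ[ℚ] Qb
abbrev Zb := integralClosure ℤ Qb


theorem smul_def_sub (H : Subgroup Gam) (h : H) (b : Zb) : h • b = (h : Gam) • b := rfl

instance smulCommClassFixed (H : Subgroup Gam) :
    SMulCommClass H (FixedPoints.subring Zb H) Zb where
  smul_comm h a b := by
    show h • ((a : Zb) * b) = (a : Zb) * h • b
    rw [smul_mul']
    congr 1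
    exact a.2 h

instance isInvariantFixed (H : Subgroup Gam) :
    Algebra.IsInvariant (FixedPoints.subring Zb H) Zb H where
  isInvariant b hb := ⟨⟨b, hb⟩, rfl⟩

theorem exists_smul_center_eq (H : Subgroup Gam) (hH : IsClosed (H : Set Gam))
    (P Q : Ideal Zb) [P.IsPrime] [Q.IsPrime]
    (hPQ : P.under (FixedPoints.subring Zb H) = Q.under (FixedPoints.subring Zb H)) :
    ∃ h ∈ H, Q = h • P := by
  let _ : TopologicalSpace Zb := ⊥
  have : DiscreteTopology Zb := ⟨rfl⟩
  have : ContinuousSMul Gam Zb := continuousSMulIntegralClosure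
  have : CompactSpace H := isCompact_iff_compactSpace.mp hH.isCompact
  obtain ⟨g, hg⟩ := Algebra.IsInvariant.exists_smul_of_under_eq_of_profinite
    (A := FixedPoints.subring Zb H) (G := H) P Q hPQ
  exact ⟨g.1, g.2, hg⟩

theorem exists_stab_smul_sub_mem (H : Subgroup Gam) (hH : IsClosed (H : Set Gam))
    (Q : Ideal Zb) [Q.IsPrime]
    (φ : (Zb ⧸ Q) ≃ₐ[FixedPoints.subring Zb H ⧸ Q.under (FixedPoints.subring Zb H)] (Zb ⧸ Q)) :
    ∃ ρ ∈ H, ρ • Q = Q ∧ ∀ b : Zb, φ (Ideal.Quotient.mk Q b) = Ideal.Quotient.mk Q (ρ • b) := by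
  let _ : TopologicalSpace Zb := ⊥
  have : DiscreteTopology Zb := ⟨rfl⟩
  have : ContinuousSMul Gam Zb := continuousSMulIntegralClosure
  have : CompactSpace H := isCompact_iff_compactSpace.mp hH.isCompact
  obtain ⟨ρ, hρ⟩ := Ideal.Quotient.stabilizerHom_surjective_of_profinite
    (G := H) (Q.under (FixedPoints.subring Zb H)) Q φ
  refine ⟨ρ.1.1, ρ.1.2, ρ.2, fun b => ?_⟩
  rw [← hρ]
  rfl

theorem fixed_smul_of_normal (H : Subgroup Gam) [H.Normal] (σ : Gam) (a : Zb)
    (ha : ∀ h ∈ H, h • a = a) : ∀ h ∈ H, h • σ • a = σ • a := by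
  intro h hh
  have h1 : σ⁻¹ * h * σ ∈ H := by
    have := ‹H.Normal›.conj_mem h hh σ⁻¹
    rwa [inv_inv] at this
  have h2 := ha _ h1
  have h3 : h • σ • a = σ • (σ⁻¹ * h * σ) • a := by
    rw [← mul_smul, ← mul_smul]
    congr 1
    group
  rw [h3, h2]

/-- Core lifting statement on the ring of all algebraic integers. -/
theorem exists_mul_smul_sub_mem (H : Subgroup Gam) [H.Normal] (hH : IsClosed (H : Set Gam))
    (Q : Ideal Zb) [Q.IsPrime] (σ₀ : Gam)
    (h₀ : ∀ a : Zb, (∀ h ∈ H, h • a = a) → σ₀ • a - a ∈ Q) :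
    ∃ h ∈ H, ∀ b : Zb, (h * σ₀) • b - b ∈ Q := by
  -- Step 1: conjugate `σ₀ • Q` back to `Q` inside `H`.
  have hPQ : (σ₀ • Q).under (FixedPoints.subring Zb H) = Q.under (FixedPoints.subring Zb H) := by
    ext a
    rw [Ideal.mem_comap, Ideal.mem_comap]
    have ha : ∀ h ∈ H, h • (a : Zb) = a := fun h hh => a.2 ⟨h, hh⟩
    show (a : Zb) ∈ σ₀ • Q ↔ (a : Zb) ∈ Q
    rw [Ideal.mem_pointwise_smul_iff_inv_smul_mem]
    have h1 := h₀ (σ₀⁻¹ • (a : Zb)) (fixed_smul_of_normal H σ₀⁻¹ a ha)
    rw [smul_inv_smul] at h1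
    constructor
    · intro h2
      have := Q.add_mem h1 h2
      rwa [sub_add_cancel] at this
    · intro h2
      have := Q.sub_mem h2 h1
      rwa [sub_sub_cancel] at this
  obtain ⟨g, hg, hgQ⟩ := exists_smul_center_eq H hH (σ₀ • Q) Q hPQ
  have hσ₁ : (g * σ₀) • Q = Q := by rw [mul_smul]; exact hgQ.symm
  -- Step 2: the automorphism of `Zb ⧸ Q` induced by `σ₁ = g * σ₀`.
  have hmap : Q = Q.map ((MulSemiringAction.toRingEquiv Gam Zb (g * σ₀) : Zb ≃+* Zb) : Zb →+* Zb) := by
    conv_lhs => rw [← hσ₁]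
    rfl
  let e : (Zb ⧸ Q) ≃+* (Zb ⧸ Q) :=
    Ideal.quotientEquiv Q Q (MulSemiringAction.toRingEquiv Gam Zb (g * σ₀)) hmap
  have he : ∀ b : Zb, e (Ideal.Quotient.mk Q b) = Ideal.Quotient.mk Q ((g * σ₀) • b) :=
    fun b => rfl
  have hcomm : ∀ r : FixedPoints.subring Zb H ⧸ Q.under (FixedPoints.subring Zb H),
      e (algebraMap _ (Zb ⧸ Q) r) = algebraMap _ (Zb ⧸ Q) r := by
    intro r
    obtain ⟨a, rfl⟩ := Ideal.Quotient.mk_surjective r
    rw [Ideal.Quotient.algebraMap_mk_of_liesOver]
    show e (Ideal.Quotient.mk Q (a : Zb)) = Ideal.Quotient.mk Q (a : Zb)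
    rw [he, Ideal.Quotient.eq]
    have ha : ∀ h ∈ H, h • (a : Zb) = a := fun h hh => a.2 ⟨h, hh⟩
    have h1 : (g * σ₀) • (a : Zb) = σ₀ • (a : Zb) := by
      rw [mul_smul]
      exact fixed_smul_of_normal H σ₀ a ha g hg
    rw [h1]
    exact h₀ a ha
  let φ : (Zb ⧸ Q) ≃ₐ[FixedPoints.subring Zb H ⧸ Q.under (FixedPoints.subring Zb H)] (Zb ⧸ Q) :=
    AlgEquiv.ofRingEquiv (f := e) hcomm
  obtain ⟨ρ, hρ, hρQ, hρφ⟩ := exists_stab_smul_sub_mem H hH Q φ
  refine ⟨ρ⁻¹ * g, H.mul_mem (H.inv_mem hρ) hg, fun b => ?_⟩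
  have h1 : Ideal.Quotient.mk Q ((g * σ₀) • b) = Ideal.Quotient.mk Q (ρ • b) := by
    rw [← hρφ b, ← he b]
    rfl
  rw [Ideal.Quotient.eq] at h1
  have h2 : (ρ⁻¹ * g * σ₀) • b - b = ρ⁻¹ • ((g * σ₀) • b - ρ • b) := by
    rw [smul_sub, inv_smul_smul, ← mul_smul, mul_assoc]
  rw [h2]
  have h3 : (g * σ₀) • b - ρ • b ∈ ρ • Q := by rw [hρQ]; exact h1
  rwa [Ideal.mem_pointwise_smul_iff_inv_smul_mem] at h3

/-- **Inertia lifting, group form.** Let `H` be a closed normal subgroup of `Gal(Q̄/ℚ)`, `A` a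
valuation subring of `Q̄`, and `σ₀` an automorphism that moves every `H`-fixed algebraic integer
only inside the maximal ideal of `A`.  Then some `H`-translate of `σ₀` lies in the inertia
subgroup of `A`. -/
theorem exists_mul_mem_inertia (H : Subgroup Gam) [H.Normal] (hH : IsClosed (H : Set Gam))
    (A : ValuationSubring Qb) (σ₀ : Gam)
    (h₀ : ∀ b : Qb, IsIntegral ℤ b → (∀ h ∈ H, h b = b) → σ₀ b - b ∈ A.nonunits) :
    ∃ h ∈ H, h * σ₀ ∈ A.inertiaSubgroupIn ℚ := by
  obtain ⟨h, hh, hb⟩ := exists_mul_smul_sub_mem H hH (center A) σ₀ (by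
    intro a ha
    rw [mem_center]
    exact h₀ a.1 a.2 (fun h hh => congrArg Subtype.val (ha h hh)))
  refine ⟨h, hh, mem_inertiaSubgroupIn_of_sub_mem A _ ?_⟩
  intro x hx
  obtain ⟨a, b, ha, hb', hbn, hxb⟩ := exists_integral_mul_eq A hx
  set σ : Gam := h * σ₀ with hσ
  have h1 : σ a - a ∈ A.nonunits := (mem_center A _).mp (hb ⟨a, ha⟩)
  have h2 : σ b - b ∈ A.nonunits := (mem_center A _).mp (hb ⟨b, hb'⟩)
  rw [ValuationSubring.mem_nonunits_iff] at h1 h2 ⊢
  have hva : A.valuation a ≤ 1 := (A.valuation_le_one_iff _).mpr (mem_of_isIntegral_int A ha)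
  have hvb : A.valuation b = 1 := by
    have h3 : A.valuation b ≤ 1 := (A.valuation_le_one_iff _).mpr (mem_of_isIntegral_int A hb')
    rw [ValuationSubring.mem_nonunits_iff, not_lt] at hbn
    exact le_antisymm h3 hbn
  have hvσb : A.valuation (σ b) = 1 := by
    have : σ b = (σ b - b) + b := by ring
    rw [this, Valuation.map_add_eq_of_lt_right _ (by rw [hvb]; exact h2), hvb]
  have key : (σ x - x) * (b * σ b) = (σ a - a) * b - a * (σ b - b) := by
    have e1 : σ x * σ b = σ a := by rw [← map_mul, hxb]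
    calc (σ x - x) * (b * σ b) = (σ x * σ b) * b - (x * b) * σ b := by ring
      _ = σ a * b - a * σ b := by rw [e1, hxb]
      _ = (σ a - a) * b - a * (σ b - b) := by ring
  have hv : A.valuation ((σ x - x) * (b * σ b)) < 1 := by
    rw [key]
    refine lt_of_le_of_lt (A.valuation.map_sub _ _) (max_lt ?_ ?_)
    · rw [map_mul, hvb, mul_one]; exact h1
    · rw [map_mul]
      calc A.valuation a * A.valuation (σ b - b) ≤ 1 * A.valuation (σ b - b) := by gcongr
        _ = A.valuation (σ b - b) := one_mul _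
        _ < 1 := h2
  rwa [map_mul, map_mul, hvb, hvσb, mul_one, mul_one] at hv

/-- the inclusion of the ring of integers of a subfield of `Q̄` into the ring of all algebraic
integers -/
def toZb (F : IntermediateField ℚ Qb) : NumberField.RingOfIntegers F →+* Zb where
  toFun x := ⟨((x : F) : Qb), map_isIntegral_int (F.val : F →+* Qb)
    (NumberField.RingOfIntegers.isIntegral_coe x)⟩
  map_one' := rfl
  map_mul' _ _ := rfl
  map_zero' := rfl
  map_add' _ _ := rfl

theorem coe_toZb (F : IntermediateField ℚ Qb) (x : NumberField.RingOfIntegers F) :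
    ((toZb F x : Zb) : Qb) = ((x : F) : Qb) := rfl

/-- A nontrivial finite Galois subextension `F/ℚ` of `Q̄` carries, for some prime `p` and every
valuation subring `A` over `p`, a nontrivial automorphism which is inertial at `A`. -/
theorem exists_inertial_ne_one (F : IntermediateField ℚ Qb) [FiniteDimensional ℚ F]
    [IsGalois ℚ F] (hrank : 1 < Module.finrank ℚ F) :
    ∃ p : ℕ, p.Prime ∧ ∀ A : ValuationSubring Qb, A.LiesOverPrime p →
      ∃ τ : F ≃ₐ[ℚ] F, τ ≠ 1 ∧
        ∀ x : F, IsIntegral ℤ x → ((τ x : F) : Qb) - (x : Qb) ∈ A.nonunits := by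
  have hnf : NumberField F := { to_charZero := inferInstance, to_finiteDimensional := inferInstance }
  obtain ⟨p, hp, hram⟩ := NumberField.exists_not_isUnramifiedAt_int_of_isGalois
    (K := F) (𝒪 := NumberField.RingOfIntegers F) hrank
  refine ⟨p, hp, fun A hA => ?_⟩
  let P : Ideal (NumberField.RingOfIntegers F) := (center A).comap (toZb F)
  have hPprime : P.IsPrime := Ideal.comap_isPrime (toZb F) _
  have hpP : (p : NumberField.RingOfIntegers F) ∈ P := by
    show toZb F (p : NumberField.RingOfIntegers F) ∈ center A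
    rw [map_natCast]
    exact natCast_mem_center A p hA
  have h1 : ¬ Algebra.IsUnramifiedAt ℤ P := hram P hPprime hpP
  have h2 : P.ramificationIdx ℤ ≠ 1 := fun h => h1 (Ideal.ramificationIdx_eq_one_iff.mp h)
  have h3 : Nat.card (P.inertia (F ≃ₐ[ℚ] F)) =
      (P.under ℤ).ramificationIdxIn (NumberField.RingOfIntegers F) :=
    Ideal.card_inertia_eq_ramificationIdxIn (P.under ℤ) P
  have h4 : (P.under ℤ).ramificationIdxIn (NumberField.RingOfIntegers F) = P.ramificationIdx ℤ :=
    Ideal.ramificationIdxIn_eq_ramificationIdx (P.under ℤ) P (F ≃ₐ[ℚ] F)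
  have h5 : Nat.card (P.inertia (F ≃ₐ[ℚ] F)) ≠ 1 := by rw [h3, h4]; exact h2
  obtain ⟨τ, hτ, hτ1⟩ : ∃ τ ∈ P.inertia (F ≃ₐ[ℚ] F), τ ≠ 1 := by
    by_contra hcon
    push Not at hcon
    apply h5
    have : P.inertia (F ≃ₐ[ℚ] F) = ⊥ := (Subgroup.eq_bot_iff_forall _).mpr hcon
    rw [this]; simp
  refine ⟨τ, hτ1, fun x hx => ?_⟩
  let X : NumberField.RingOfIntegers F := ⟨x, hx⟩
  have h6 : τ • X - X ∈ P := hτ X
  have h7 : toZb F (τ • X - X) ∈ center A := h6
  rw [mem_center] at h7
  exact h7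

/-- **Inertia lifting, field form.** If `K/ℚ` is a normal subextension of `Q̄` and `τ ∈ Gal(K/ℚ)`
is inertial at the valuation subring `A` (it moves every algebraic integer of `K` only inside the
maximal ideal of `A`), then `τ` is the restriction of an element of the inertia subgroup of `A`
in `Gal(Q̄/ℚ)`. -/
theorem exists_inertia_lift (K : IntermediateField ℚ Qb) [Normal ℚ K] (A : ValuationSubring Qb)
    (τ : K ≃ₐ[ℚ] K)
    (hτ : ∀ x : K, IsIntegral ℤ x → ((τ x : K) : Qb) - (x : Qb) ∈ A.nonunits) :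
    ∃ σ ∈ A.inertiaSubgroupIn ℚ, ∀ x : K, σ (x : Qb) = ((τ x : K) : Qb) := by
  have hgal : IsGalois ℚ K := ⟨⟩
  have hnorm : K.fixingSubgroup.Normal := (InfiniteGalois.normal_iff_isGalois K).mpr hgal
  have hclosed : IsClosed (K.fixingSubgroup : Set Gam) := InfiniteGalois.fixingSubgroup_isClosed K
  have hlift : ∀ x : K, (τ.liftNormal Qb) (x : Qb) = ((τ x : K) : Qb) :=
    fun x => τ.liftNormal_commutes Qb x
  obtain ⟨h, hh, hI⟩ := exists_mul_mem_inertia K.fixingSubgroup hclosed A (τ.liftNormal Qb) (by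
    intro b hb hfix
    have hbK : b ∈ K := by
      rw [← InfiniteGalois.fixedField_fixingSubgroup K, IntermediateField.mem_fixedField_iff]
      exact hfix
    have hint : IsIntegral ℤ (⟨b, hbK⟩ : K) :=
      (isIntegral_algebraMap_iff (algebraMap K Qb).injective).mp hb
    have := hτ ⟨b, hbK⟩ hint
    rw [← hlift] at this
    exact this)
  refine ⟨_, hI, fun x => ?_⟩
  rw [AlgEquiv.mul_apply, hlift]
  exact hh ⟨_, (τ x).2⟩

/-- **Minkowski glue.** A normal subgroup of `Gal(Q̄/ℚ)` that is open (contains the fixing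
subgroup of a finite extension) and contains the inertia subgroup of every valuation subring
of `Q̄` lying over a prime is the whole group. -/
theorem eq_top_of_inertia_le (N : Subgroup Gam) [N.Normal] (K : IntermediateField ℚ Qb)
    [FiniteDimensional ℚ K] (hK : K.fixingSubgroup ≤ N)
    (h : ∀ q : ℕ, q.Prime → ∀ A : ValuationSubring Qb, A.LiesOverPrime q →
      A.inertiaSubgroupIn ℚ ≤ N) : N = ⊤ := by
  have hopen : IsOpen (N : Set Gam) := Subgroup.isOpen_mono hK K.fixingSubgroup_isOpen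
  have hclosed : IsClosed (N : Set Gam) := Subgroup.isClosed_of_isOpen N hopen
  set F : IntermediateField ℚ Qb := IntermediateField.fixedField N with hF
  have hFN : F.fixingSubgroup = N := InfiniteGalois.fixingSubgroup_fixedField ⟨N, hclosed⟩
  have hFK : F ≤ K := by
    have h1 := InfiniteGalois.fixedField_fixingSubgroup K
    rw [← h1]
    exact IntermediateField.fixedField_antitone hK
  have hfd : FiniteDimensional ℚ F :=
    Module.Finite.of_injective (IntermediateField.inclusion hFK).toLinearMap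
      (IntermediateField.inclusion hFK).injective
  have hnorm : F.fixingSubgroup.Normal := hFN ▸ inferInstance
  have hgal : IsGalois ℚ F := (InfiniteGalois.normal_iff_isGalois F).mp hnorm
  by_contra hN
  have hrank : 1 < Module.finrank ℚ F := by
    have hpos : 0 < Module.finrank ℚ F := Module.finrank_pos
    have hne : Module.finrank ℚ F ≠ 1 := by
      intro h1
      apply hN
      rw [IntermediateField.finrank_eq_one_iff] at h1
      rw [← hFN, h1, IntermediateField.fixingSubgroup_bot]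
    omega
  obtain ⟨p, hp, hτ⟩ := exists_inertial_ne_one F hrank
  obtain ⟨A, hA⟩ := exists_liesOverPrime p hp
  obtain ⟨τ, hτ1, hτ2⟩ := hτ A hA
  obtain ⟨σ, hσ, hσF⟩ := exists_inertia_lift F A τ hτ2
  have hσN : σ ∈ F.fixingSubgroup := hFN ▸ h p hp A hA hσ
  apply hτ1
  ext x
  have h1 := hσF x
  have h2 : σ (x : Qb) = x := hσN ⟨x, x.2⟩
  rw [h2] at h1
  exact h1.symm

/-- Variant of `eq_top_of_inertia_le` where openness is witnessed by a finite set of elements
of `Q̄` (e.g. the coordinates of the `p`-torsion points). -/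
theorem eq_top_of_inertia_le_of_finite (N : Subgroup Gam) [N.Normal] (S : Set Qb)
    (hS : S.Finite) (hSN : ∀ σ : Gam, (∀ x ∈ S, σ x = x) → σ ∈ N)
    (h : ∀ q : ℕ, q.Prime → ∀ A : ValuationSubring Qb, A.LiesOverPrime q →
      A.inertiaSubgroupIn ℚ ≤ N) : N = ⊤ := by
  have hfin : Finite S := hS.to_subtype
  have hfd : FiniteDimensional ℚ (IntermediateField.adjoin ℚ S) :=
    IntermediateField.finiteDimensional_adjoin (fun x _ => (Algebra.IsIntegral.isIntegral x))
  refine eq_top_of_inertia_le N (IntermediateField.adjoin ℚ S) ?_ h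
  intro σ hσ
  refine hSN σ fun x hx => ?_
  exact hσ ⟨x, IntermediateField.subset_adjoin ℚ S hx⟩

end

end Fermat.Agent.Lib.InertiaLift
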