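import Mathlib
import Fermat.Prelude.Def_FLTPrelim_Ramification

/-!
# Minkowski glue: fixed fields of normal subgroups of the absolute Galois group of `ℚ`
and ramified primes at finite level.

* `fixedField_glue`: the fixed field of a normal subgroup `N` of finite level is a finite Galois
  extension of `ℚ` whose fixing subgroup is `N`.
* `exists_ramified_tau`: a finite Galois extension `K ≠ ℚ` inside the algebraic closure has a
  prime `q` such that for every valuation subring `A` over `q` some nontrivial automorphism of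
  `K` is congruent to the identity modulo the maximal ideal of `A` on the integers of `K`.
* `eq_top_of_lift`: the two statements above, plus a lifting statement for finite-level
  automorphisms, give the triviality of a normal subgroup containing one inertia group per prime.
-/

set_option autoImplicit false

namespace Fermat.Agent.Lib.InertiaGlue

open NumberField

/-- The algebraic closure of `ℚ` used in the frozen statements. -/
abbrev Qb := AlgebraicClosure ℚ

/-- `Qb` is Galois over `ℚ` for the algebra structure found by instance search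
(`DivisionRing.toRatAlgebra`), the one used in the frozen statements. -/
theorem isGalois_rat_Qb : IsGalois ℚ Qb := by
  have h : (DivisionRing.toRatAlgebra : Algebra ℚ (AlgebraicClosure ℚ)) =
      AlgebraicClosure.instAlgebra ℚ := Subsingleton.elim _ _
  rw [h]
  infer_instance

attribute [local instance] isGalois_rat_Qb

/-- A subgroup containing the fixing subgroup of a finite extension has finite level. -/
theorem isOpen_of_fixingSubgroup_le (N : Subgroup (Qb ≃ₐ[ℚ] Qb))
    (F : IntermediateField ℚ Qb) [FiniteDimensional ℚ F] (hF : F.fixingSubgroup ≤ N) :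
    IsOpen (N : Set (Qb ≃ₐ[ℚ] Qb)) :=
  Subgroup.isOpen_mono hF ((InfiniteGalois.isOpen_iff_finite F).mpr inferInstance)

/-- The fixed field of a normal subgroup of finite level is a finite Galois extension of `ℚ`
whose fixing subgroup is the subgroup we started with. -/
theorem fixedField_glue (N : Subgroup (Qb ≃ₐ[ℚ] Qb)) [N.Normal]
    (hN : IsOpen (N : Set (Qb ≃ₐ[ℚ] Qb))) :
    FiniteDimensional ℚ ↥(IntermediateField.fixedField N) ∧
      IsGalois ℚ ↥(IntermediateField.fixedField N) ∧
      (IntermediateField.fixedField N).fixingSubgroup = N := by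
  have hcl : IsClosed (N : Set (Qb ≃ₐ[ℚ] Qb)) := N.isClosed_of_isOpen hN
  have hfix : (IntermediateField.fixedField N).fixingSubgroup = N :=
    InfiniteGalois.fixingSubgroup_fixedField (⟨N, hcl⟩ : ClosedSubgroup (Qb ≃ₐ[ℚ] Qb))
  refine ⟨?_, ?_, hfix⟩
  · refine (InfiniteGalois.isOpen_iff_finite _).mp ?_
    rw [hfix]
    exact hN
  · refine (InfiniteGalois.normal_iff_isGalois _).mp ?_
    rw [hfix]
    infer_instance

theorem eq_top_of_fixedField_eq_bot (N : Subgroup (Qb ≃ₐ[ℚ] Qb)) [N.Normal]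
    (hN : IsOpen (N : Set (Qb ≃ₐ[ℚ] Qb))) (h : IntermediateField.fixedField N = ⊥) : N = ⊤ := by
  have hfix := (fixedField_glue N hN).2.2
  rw [h, IntermediateField.fixingSubgroup_bot] at hfix
  exact hfix.symm

/-- Elements of `Qb` integral over `ℤ` lie in every valuation subring. -/
theorem mem_of_isIntegral (A : ValuationSubring Qb) {x : Qb} (hx : IsIntegral ℤ x) : x ∈ A := by
  have h1 : IsIntegral A x := hx.tower_top
  obtain ⟨y, rfl⟩ := IsIntegrallyClosed.isIntegral_iff.mp h1
  exact y.2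

/-- The ring hom from the integers of a subfield `K` of `Qb` to a valuation subring of `Qb`. -/
noncomputable def toValuationSubring (K : IntermediateField ℚ Qb) (A : ValuationSubring Qb) :
    𝓞 K →+* A :=
  ((algebraMap K Qb).comp (algebraMap (𝓞 K) K)).codRestrict A.toSubring fun y =>
    mem_of_isIntegral A ((RingOfIntegers.isIntegral_coe y).map (algebraMap K Qb).toIntAlgHom)

theorem coe_toValuationSubring (K : IntermediateField ℚ Qb) (A : ValuationSubring Qb) (y : 𝓞 K) :
    ((toValuationSubring K A y : A) : Qb) = ((algebraMap (𝓞 K) K y : K) : Qb) := rfl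

/-- The prime of the integers of `K` below the maximal ideal of `A`. -/
noncomputable def primeBelow (K : IntermediateField ℚ Qb) (A : ValuationSubring Qb) :
    Ideal (𝓞 K) :=
  (IsLocalRing.maximalIdeal A).comap (toValuationSubring K A)

instance (K : IntermediateField ℚ Qb) (A : ValuationSubring Qb) : (primeBelow K A).IsPrime := by
  unfold primeBelow
  infer_instance

theorem mem_primeBelow (K : IntermediateField ℚ Qb) (A : ValuationSubring Qb) (y : 𝓞 K) :
    y ∈ primeBelow K A ↔ ((algebraMap (𝓞 K) K y : K) : Qb) ∈ A.nonunits := by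
  rw [primeBelow, Ideal.mem_comap, ← ValuationSubring.coe_mem_nonunits_iff, coe_toValuationSubring]

theorem exists_ramified_tau (K : IntermediateField ℚ Qb) [FiniteDimensional ℚ K] [IsGalois ℚ K]
    (hK : K ≠ ⊥) :
    ∃ q : ℕ, q.Prime ∧ ∀ A : ValuationSubring Qb, A.LiesOverPrime q →
      ∃ τ : K ≃ₐ[ℚ] K, τ ≠ 1 ∧
        ∀ x : K, IsIntegral ℤ x → ((τ x : K) : Qb) - (x : Qb) ∈ A.nonunits := by
  have : NumberField K := ⟨⟩
  have hrank : 1 < Module.finrank ℚ K := by
    have h1 : Module.finrank ℚ K ≠ 1 := fun h => hK (IntermediateField.finrank_eq_one_iff.mp h)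
    have h0 : 0 < Module.finrank ℚ K := Module.finrank_pos
    omega
  obtain ⟨p, hp, hram⟩ :=
    NumberField.exists_not_isUnramifiedAt_int_of_isGalois (K := K) (𝒪 := 𝓞 K) hrank
  refine ⟨p, hp, fun A hA => ?_⟩
  have hpP : (p : 𝓞 K) ∈ primeBelow K A := by
    rw [mem_primeBelow]
    have hA' : ((p : ℕ) : Qb) ∈ A.nonunits := hA
    simpa using hA'
  have hr := hram (primeBelow K A) inferInstance hpP
  let _ : MulSemiringAction Gal(K/ℚ) (𝓞 K) := IsIntegralClosure.MulSemiringAction ℤ ℚ K (𝓞 K)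
  have := IsGaloisGroup.of_isFractionRing Gal(K/ℚ) ℤ (𝓞 K) ℚ K
  have h1 : (primeBelow K A).ramificationIdx ℤ ≠ 1 :=
    fun h => hr (Ideal.ramificationIdx_eq_one_iff.mp h)
  have h2 : ((primeBelow K A).under ℤ).ramificationIdxIn (𝓞 K) = (primeBelow K A).ramificationIdx ℤ :=
    Ideal.ramificationIdxIn_eq_ramificationIdx ((primeBelow K A).under ℤ) (primeBelow K A) Gal(K/ℚ)
  have h3 : Nat.card (Ideal.inertia Gal(K/ℚ) (primeBelow K A)) =
      ((primeBelow K A).under ℤ).ramificationIdxIn (𝓞 K) :=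
    Ideal.card_inertia_eq_ramificationIdxIn ((primeBelow K A).under ℤ) (primeBelow K A)
  have h4 : Ideal.inertia Gal(K/ℚ) (primeBelow K A) ≠ ⊥ := by
    intro hbot
    rw [Subgroup.eq_bot_iff_card, h3, h2] at hbot
    exact h1 hbot
  obtain ⟨⟨τ, hτ⟩, hτ1⟩ := (Subgroup.ne_bot_iff_exists_ne_one).mp h4
  refine ⟨τ, fun h => hτ1 (Subtype.ext h), fun x hx => ?_⟩
  obtain ⟨y, rfl⟩ := (IsIntegralClosure.isIntegral_iff (A := 𝓞 K)).mp hx
  have h5 : τ • y - y ∈ primeBelow K A := hτ y
  rw [mem_primeBelow] at h5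
  have h6 : algebraMap (𝓞 K) K (τ • y) = τ (algebraMap (𝓞 K) K y) :=
    algebraMap_galRestrict_apply ℤ τ y
  rw [map_sub, h6] at h5
  exact h5

/-- The shape of the lifting statement for finite-level automorphisms: an automorphism of a
finite normal extension `K` of `ℚ` inside `Qb` which is congruent to the identity on the integers
of `K` modulo the maximal ideal of `A` is the restriction of an element of the inertia group
of `A`. -/
def LiftStatement : Prop :=
  ∀ (K : IntermediateField ℚ Qb) [FiniteDimensional ℚ K] [Normal ℚ K] (A : ValuationSubring Qb)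
    (τ : K ≃ₐ[ℚ] K),
    (∀ x : K, IsIntegral ℤ x → ((τ x : K) : Qb) - (x : Qb) ∈ A.nonunits) →
    ∃ σ ∈ A.inertiaSubgroupIn ℚ, ∀ x : K, σ (x : Qb) = ((τ x : K) : Qb)

/-- The lifting statement restricted to valuation subrings lying over a prime number (the only
case used below). -/
def LiftStatementOver : Prop :=
  ∀ (K : IntermediateField ℚ Qb) [FiniteDimensional ℚ K] [Normal ℚ K] (A : ValuationSubring Qb)
    (q : ℕ), q.Prime → A.LiesOverPrime q → ∀ (τ : K ≃ₐ[ℚ] K),
    (∀ x : K, IsIntegral ℤ x → ((τ x : K) : Qb) - (x : Qb) ∈ A.nonunits) →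
    ∃ σ ∈ A.inertiaSubgroupIn ℚ, ∀ x : K, σ (x : Qb) = ((τ x : K) : Qb)

theorem LiftStatement.toOver (lift : LiftStatement) : LiftStatementOver :=
  fun K _ _ A _ _ _ τ hτ => lift K A τ hτ

/-- Given the lifting statement: a finite Galois extension `K ≠ ℚ` inside `Qb` has a prime `q`
such that for every valuation subring `A` over `q` the inertia group of `A` moves `K`. -/
theorem exists_mem_inertia_ne_of_liftOver (lift : LiftStatementOver)
    (K : IntermediateField ℚ Qb) [FiniteDimensional ℚ K] [IsGalois ℚ K] (hK : K ≠ ⊥) :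
    ∃ q : ℕ, q.Prime ∧ ∀ A : ValuationSubring Qb, A.LiesOverPrime q →
      ∃ σ ∈ A.inertiaSubgroupIn ℚ, ∃ x ∈ K, σ x ≠ x := by
  obtain ⟨q, hq, hall⟩ := exists_ramified_tau K hK
  refine ⟨q, hq, fun A hA => ?_⟩
  obtain ⟨τ, hτ1, hτ⟩ := hall A hA
  obtain ⟨σ, hσ, hστ⟩ := lift K A q hq hA τ hτ
  refine ⟨σ, hσ, ?_⟩
  by_contra hcon
  apply hτ1
  refine AlgEquiv.ext fun x => Subtype.ext ?_
  have h1 := hστ x
  have h2 : σ (x : Qb) = (x : Qb) := by
    by_contra h3
    exact hcon ⟨x, x.2, h3⟩
  rw [h2] at h1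
  exact h1.symm

theorem exists_mem_inertia_ne_of_lift (lift : LiftStatement) (K : IntermediateField ℚ Qb)
    [FiniteDimensional ℚ K] [IsGalois ℚ K] (hK : K ≠ ⊥) :
    ∃ q : ℕ, q.Prime ∧ ∀ A : ValuationSubring Qb, A.LiesOverPrime q →
      ∃ σ ∈ A.inertiaSubgroupIn ℚ, ∃ x ∈ K, σ x ≠ x :=
  exists_mem_inertia_ne_of_liftOver lift.toOver K hK

/-- Minkowski glue, given the lifting statement: a normal subgroup of finite level of the
absolute Galois group of `ℚ` which contains, for every prime `q`, the inertia group of one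
valuation subring over `q`, is the whole group. -/
theorem eq_top_of_liftOver (lift : LiftStatementOver) (N : Subgroup (Qb ≃ₐ[ℚ] Qb)) [N.Normal]
    (hN : IsOpen (N : Set (Qb ≃ₐ[ℚ] Qb)))
    (h : ∀ q : ℕ, q.Prime →
      ∃ A : ValuationSubring Qb, A.LiesOverPrime q ∧ A.inertiaSubgroupIn ℚ ≤ N) : N = ⊤ := by
  by_contra hne
  obtain ⟨hfd, hgal, hfix⟩ := fixedField_glue N hN
  have hK : IntermediateField.fixedField N ≠ ⊥ :=
    fun hbot => hne (eq_top_of_fixedField_eq_bot N hN hbot)
  obtain ⟨q, hq, hall⟩ :=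
    exists_mem_inertia_ne_of_liftOver lift (IntermediateField.fixedField N) hK
  obtain ⟨A, hA, hle⟩ := h q hq
  obtain ⟨σ, hσ, x, hx, hσx⟩ := hall A hA
  have hσN : σ ∈ (IntermediateField.fixedField N).fixingSubgroup := by
    rw [hfix]
    exact hle hσ
  exact hσx ((IntermediateField.mem_fixingSubgroup_iff _ σ).mp hσN x hx)

theorem eq_top_of_lift (lift : LiftStatement) (N : Subgroup (Qb ≃ₐ[ℚ] Qb)) [N.Normal]
    (hN : IsOpen (N : Set (Qb ≃ₐ[ℚ] Qb)))
    (h : ∀ q : ℕ, q.Prime →
      ∃ A : ValuationSubring Qb, A.LiesOverPrime q ∧ A.inertiaSubgroupIn ℚ ≤ N) : N = ⊤ :=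
  eq_top_of_liftOver lift.toOver N hN h

/-- Variant with the finite level given by a finite extension `F` whose fixing subgroup is
contained in `N`. -/
theorem eq_top_of_liftOver_of_fixingSubgroup_le (lift : LiftStatementOver)
    (N : Subgroup (Qb ≃ₐ[ℚ] Qb)) [N.Normal]
    (F : IntermediateField ℚ Qb) [FiniteDimensional ℚ F] (hF : F.fixingSubgroup ≤ N)
    (h : ∀ q : ℕ, q.Prime →
      ∃ A : ValuationSubring Qb, A.LiesOverPrime q ∧ A.inertiaSubgroupIn ℚ ≤ N) : N = ⊤ :=
  eq_top_of_liftOver lift N (isOpen_of_fixingSubgroup_le N F hF) h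

theorem eq_top_of_lift_of_fixingSubgroup_le (lift : LiftStatement)
    (N : Subgroup (Qb ≃ₐ[ℚ] Qb)) [N.Normal]
    (F : IntermediateField ℚ Qb) [FiniteDimensional ℚ F] (hF : F.fixingSubgroup ≤ N)
    (h : ∀ q : ℕ, q.Prime →
      ∃ A : ValuationSubring Qb, A.LiesOverPrime q ∧ A.inertiaSubgroupIn ℚ ≤ N) : N = ⊤ :=
  eq_top_of_liftOver_of_fixingSubgroup_le lift.toOver N F hF h

/-- Variant for the kernel of a group homomorphism. -/
theorem forall_eq_one_of_liftOver {H : Type*} [Group H] (lift : LiftStatementOver)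
    (χ : (Qb ≃ₐ[ℚ] Qb) →* H)
    (F : IntermediateField ℚ Qb) [FiniteDimensional ℚ F] (hF : F.fixingSubgroup ≤ χ.ker)
    (h : ∀ q : ℕ, q.Prime →
      ∃ A : ValuationSubring Qb, A.LiesOverPrime q ∧ ∀ σ ∈ A.inertiaSubgroupIn ℚ, χ σ = 1)
    (σ : Qb ≃ₐ[ℚ] Qb) : χ σ = 1 := by
  have htop : χ.ker = ⊤ := by
    refine eq_top_of_liftOver_of_fixingSubgroup_le lift χ.ker F hF fun q hq => ?_
    obtain ⟨A, hA, hAχ⟩ := h q hq
    exact ⟨A, hA, fun τ hτ => MonoidHom.mem_ker.mpr (hAχ τ hτ)⟩
  have : σ ∈ χ.ker := by rw [htop]; trivial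
  exact MonoidHom.mem_ker.mp this

theorem forall_eq_one_of_lift {H : Type*} [Group H] (lift : LiftStatement)
    (χ : (Qb ≃ₐ[ℚ] Qb) →* H)
    (F : IntermediateField ℚ Qb) [FiniteDimensional ℚ F] (hF : F.fixingSubgroup ≤ χ.ker)
    (h : ∀ q : ℕ, q.Prime →
      ∃ A : ValuationSubring Qb, A.LiesOverPrime q ∧ ∀ σ ∈ A.inertiaSubgroupIn ℚ, χ σ = 1)
    (σ : Qb ≃ₐ[ℚ] Qb) : χ σ = 1 :=
  forall_eq_one_of_liftOver lift.toOver χ F hF h σ

end Fermat.Agent.Lib.InertiaGlue
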