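import Mathlib

/-!
# Inertia groups in a Galois tower of number fields

`F ⊆ M ⊆ E` number fields with `E / F` and `M / F` Galois, `𝔔` a nonzero prime of `𝓞 E` and
`Q = 𝔔 ∩ 𝓞 M`.

* `exists_inertia_lift` : every element of the inertia group of `Q` in `Gal(M/F)` is the
  restriction of an element of the inertia group of `𝔔` in `Gal(E/F)`.
* `inertia_apply_root` : an element of the inertia group of `𝔔` fixes the `r`-th roots of unity
  when `r ∉ 𝔔`.
* `inertia_eq_bot_of_fix` : if every automorphism of `E / F` fixing the `r`-th roots of unity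
  fixes `M`, then `M / F` is unramified at the primes not containing `r`.
-/

set_option autoImplicit false

open scoped NumberField Pointwise

namespace Fermat.Agent.Lib.InertiaTower

section Basic

variable {K L : Type*} [Field K] [Field L] [Algebra K L]

theorem coe_smul_int (σ : L ≃ₐ[K] L) (x : 𝓞 L) : ((σ • x : 𝓞 L) : L) = σ (x : L) :=
  algebraMap.smul' σ x L

end Basic

variable {F M E : Type*} [Field F] [NumberField F] [Field M] [NumberField M] [Field E]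
  [NumberField E] [Algebra F M] [Algebra M E] [Algebra F E] [IsScalarTower F M E]
  [IsGalois F M] [IsGalois F E]

omit [NumberField F] [NumberField M] [NumberField E] [IsGalois F E] in
/-- The action of `Gal(E/F)` on `𝓞 E` restricts to the action of `Gal(M/F)` on `𝓞 M`. -/
theorem smul_algebraMap (σ : E ≃ₐ[F] E) (y : 𝓞 M) :
    σ • algebraMap (𝓞 M) (𝓞 E) y =
      algebraMap (𝓞 M) (𝓞 E) (AlgEquiv.restrictNormalHom M σ • y) := by
  apply NumberField.RingOfIntegers.ext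
  change ((σ • algebraMap (𝓞 M) (𝓞 E) y : 𝓞 E) : E) =
    algebraMap M E ((AlgEquiv.restrictNormalHom M σ • y : 𝓞 M) : M)
  rw [coe_smul_int, coe_smul_int]
  exact (AlgEquiv.restrictNormal_commutes σ M (y : M)).symm

omit [NumberField F] [NumberField M] [NumberField E] [IsGalois F M] [IsGalois F E] in
theorem restrictScalars_smul (ρ : E ≃ₐ[M] E) (x : 𝓞 E) :
    (ρ.restrictScalars F) • x = ρ • x := by
  apply NumberField.RingOfIntegers.ext
  rw [coe_smul_int, coe_smul_int]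
  rfl

omit [NumberField F] [NumberField M] [NumberField E] [IsGalois F E] in
theorem restrict_restrictScalars (ρ : E ≃ₐ[M] E) :
    AlgEquiv.restrictNormalHom M (ρ.restrictScalars F) = 1 := by
  ext x
  apply (algebraMap M E).injective
  have h1 : algebraMap M E (AlgEquiv.restrictNormalHom M (ρ.restrictScalars F) x) =
      (ρ.restrictScalars F) (algebraMap M E x) :=
    AlgEquiv.restrictNormal_commutes (ρ.restrictScalars F) M x
  rw [h1]
  exact ρ.commutes x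

omit [NumberField F] in
/-- Inertia groups surject in a Galois tower. -/
theorem exists_inertia_lift (𝔔 : Ideal (𝓞 E)) [𝔔.IsPrime] (τ : M ≃ₐ[F] M)
    (hτ : τ ∈ (𝔔.under (𝓞 M)).inertia (M ≃ₐ[F] M)) :
    ∃ τ' : E ≃ₐ[F] E, AlgEquiv.restrictNormalHom M τ' = τ ∧ τ' ∈ 𝔔.inertia (E ≃ₐ[F] E) := by
  have hME : IsGalois M E := IsGalois.tower_top_of_isGalois F M E
  -- a first lift
  obtain ⟨τ₁, hτ₁⟩ := AlgEquiv.restrictNormalHom_surjective (F := F) (K₁ := M) E τ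
  -- `τ₁ • 𝔔` lies over the same prime of `M`
  have hunder : (τ₁ • 𝔔).under (𝓞 M) = 𝔔.under (𝓞 M) := by
    ext y
    rw [Ideal.under_def, Ideal.mem_comap, Ideal.mem_pointwise_smul_iff_inv_smul_mem,
      smul_algebraMap, map_inv, hτ₁, Ideal.under_def, Ideal.mem_comap]
    have h1 : τ⁻¹ • y - y ∈ 𝔔.under (𝓞 M) := (inv_mem hτ) y
    rw [Ideal.under_def, Ideal.mem_comap, map_sub] at h1
    constructor
    · intro h
      have := sub_mem h h1
      rwa [sub_sub_cancel] at this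
    · intro h
      have := add_mem h1 h
      rwa [sub_add_cancel] at this
  -- move back to `𝔔` with an element of `Gal(E/M)`
  obtain ⟨ρ, hρ⟩ := Algebra.IsInvariant.exists_smul_of_under_eq (𝓞 M) (𝓞 E) (E ≃ₐ[M] E)
    (τ₁ • 𝔔) 𝔔 hunder
  set τ₂ : E ≃ₐ[F] E := ρ.restrictScalars F * τ₁ with hτ₂def
  have hτ₂res : AlgEquiv.restrictNormalHom M τ₂ = τ := by
    rw [hτ₂def, map_mul, restrict_restrictScalars, one_mul, hτ₁]
  have hτ₂stab : ∀ x : 𝓞 E, x ∈ 𝔔 ↔ τ₂ • x ∈ 𝔔 := by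
    intro x
    conv_rhs => rw [hρ]
    rw [hτ₂def, mul_smul, restrictScalars_smul, Ideal.smul_mem_pointwise_smul_iff,
      Ideal.smul_mem_pointwise_smul_iff]
  have hτ₂smul : τ₂ • 𝔔 = 𝔔 := by
    ext x
    rw [Ideal.mem_pointwise_smul_iff_inv_smul_mem, hτ₂stab (τ₂⁻¹ • x), smul_inv_smul]
  -- the automorphism of the residue field induced by `τ₂`, over the residue field of `M`
  let e₂ : 𝓞 E ≃+* 𝓞 E := MulSemiringAction.toRingEquiv (E ≃ₐ[F] E) (𝓞 E) τ₂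
  have hmap : 𝔔 = 𝔔.map (e₂ : 𝓞 E →+* 𝓞 E) := by
    conv_lhs => rw [← hτ₂smul]
    rfl
  let e : (𝓞 E ⧸ 𝔔) ≃+* (𝓞 E ⧸ 𝔔) := Ideal.quotientEquiv 𝔔 𝔔 e₂ hmap
  have he : ∀ x : 𝓞 E, e (Ideal.Quotient.mk 𝔔 x) = Ideal.Quotient.mk 𝔔 (τ₂ • x) := fun x => rfl
  have hcomm : ∀ y : 𝓞 M ⧸ 𝔔.under (𝓞 M),
      e (algebraMap (𝓞 M ⧸ 𝔔.under (𝓞 M)) (𝓞 E ⧸ 𝔔) y) =
        algebraMap (𝓞 M ⧸ 𝔔.under (𝓞 M)) (𝓞 E ⧸ 𝔔) y := by
    intro y
    obtain ⟨y, rfl⟩ := Ideal.Quotient.mk_surjective y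
    rw [Ideal.Quotient.algebraMap_mk_of_liesOver, he, smul_algebraMap, hτ₂res,
      Ideal.Quotient.eq, ← map_sub, ← Ideal.mem_comap]
    exact hτ y
  let α : (𝓞 E ⧸ 𝔔) ≃ₐ[𝓞 M ⧸ 𝔔.under (𝓞 M)] (𝓞 E ⧸ 𝔔) := AlgEquiv.ofRingEquiv (f := e) hcomm
  obtain ⟨⟨ρ', hρ'mem⟩, hρ₂⟩ :=
    Ideal.Quotient.stabilizerHom_surjective (E ≃ₐ[M] E) (𝔔.under (𝓞 M)) 𝔔 α
  have hρ₂x : ∀ x : 𝓞 E, τ₂ • x - ρ' • x ∈ 𝔔 := by
    intro x
    have h1 := DFunLike.congr_fun hρ₂ (Ideal.Quotient.mk 𝔔 x)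
    rw [Ideal.Quotient.stabilizerHom_apply] at h1
    have h2 : α (Ideal.Quotient.mk 𝔔 x) = Ideal.Quotient.mk 𝔔 (τ₂ • x) := rfl
    rw [h2, Ideal.Quotient.eq] at h1
    have := neg_mem h1
    rwa [neg_sub] at this
  have hstab : ρ' • 𝔔 = 𝔔 := hρ'mem
  have hρ₂stab : ∀ z : 𝓞 E, ρ' • z ∈ 𝔔 ↔ z ∈ 𝔔 := by
    intro z
    constructor
    · intro hz
      rw [← hstab] at hz
      exact Ideal.smul_mem_pointwise_smul_iff.mp hz
    · intro hz
      have := (Ideal.smul_mem_pointwise_smul_iff (a := ρ')).mpr hz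
      rwa [hstab] at this
  refine ⟨(ρ'.restrictScalars F)⁻¹ * τ₂, ?_, ?_⟩
  · rw [map_mul, map_inv, restrict_restrictScalars, inv_one, one_mul, hτ₂res]
  · intro x
    change ((ρ'.restrictScalars F)⁻¹ * τ₂) • x - x ∈ 𝔔
    rw [← hρ₂stab, smul_sub, ← restrictScalars_smul (F := F), smul_smul, mul_inv_cancel_left]
    exact hρ₂x x

end Fermat.Agent.Lib.InertiaTower
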