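import Mathlib

set_option autoImplicit false

open scoped NumberField nonZeroDivisors

namespace Fermat.Agent.Lib.CycloRecip

section NormCongr

variable {F : Type*} [Field F] [NumberField F]

/-- Elements of `𝓞 F` congruent modulo `r` have norms congruent modulo `r`. -/
theorem norm_congr_of_sub_mem_span (r : ℕ) (a b : 𝓞 F)
    (h : a - b ∈ Ideal.span {(r : 𝓞 F)}) :
    ((Algebra.norm ℤ a : ℤ) : ZMod r) = ((Algebra.norm ℤ b : ℤ) : ZMod r) := by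
  classical
  obtain ⟨w, hw⟩ := Ideal.mem_span_singleton'.mp h
  have hab : a = b + w * (r : 𝓞 F) := by rw [hw]; ring
  let bas := NumberField.RingOfIntegers.basis F
  rw [Algebra.norm_eq_matrix_det bas a, Algebra.norm_eq_matrix_det bas b]
  have h1 : ((Int.castRingHom (ZMod r)) ((Algebra.leftMulMatrix bas a).det)) =
      ((Int.castRingHom (ZMod r)) ((Algebra.leftMulMatrix bas b).det)) := by
    rw [RingHom.map_det, RingHom.map_det]
    congr 1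
    rw [hab, map_add, map_mul, map_add, map_mul]
    have : (Int.castRingHom (ZMod r)).mapMatrix ((Algebra.leftMulMatrix bas) (r : 𝓞 F)) = 0 := by
      have h2 : ((r : 𝓞 F)) = algebraMap ℤ (𝓞 F) (r : ℤ) := by simp
      rw [h2, AlgHom.commutes]
      ext i j
      simp
    rw [this, mul_zero, add_zero]
  simpa using h1

/-- Elements of `𝓞 F` congruent modulo every prime above `r` have norms congruent modulo `r`. -/
theorem norm_congr_of_forall_prime (r : ℕ) [Fact r.Prime] (y y' : 𝓞 F)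
    (h : ∀ v : Ideal (𝓞 F), v.IsPrime → (r : 𝓞 F) ∈ v → y - y' ∈ v) :
    ((Algebra.norm ℤ y : ℤ) : ZMod r) = ((Algebra.norm ℤ y' : ℤ) : ZMod r) := by
  have hr : r.Prime := Fact.out
  have hrad : y - y' ∈ (Ideal.span {(r : 𝓞 F)}).radical := by
    rw [Ideal.radical_eq_sInf, Ideal.mem_sInf]
    rintro J ⟨hJ, hJp⟩
    exact h J hJp (hJ (Ideal.subset_span rfl))
  obtain ⟨e, he⟩ := hrad
  have hle : e ≤ r ^ e := (Nat.lt_pow_self hr.one_lt).le
  have hpow : (y - y') ^ r ^ e ∈ Ideal.span {(r : 𝓞 F)} := by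
    rw [← Nat.sub_add_cancel hle, pow_add]
    exact Ideal.mul_mem_left _ _ he
  obtain ⟨w, hw⟩ := exists_add_pow_prime_pow_eq hr y' (y - y') e
  have hmem : y ^ r ^ e - y' ^ r ^ e ∈ Ideal.span {(r : 𝓞 F)} := by
    have : y ^ r ^ e - y' ^ r ^ e = (y - y') ^ r ^ e + (r : 𝓞 F) * (y' * (y - y') * w) := by
      have : y = y' + (y - y') := by ring
      conv_lhs => rw [this, hw]
      ring
    rw [this]
    exact Ideal.add_mem _ hpow (Ideal.mul_mem_right _ _ (Ideal.subset_span rfl))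
  have h2 := norm_congr_of_sub_mem_span r _ _ hmem
  rw [map_pow, map_pow, Int.cast_pow, Int.cast_pow, ZMod.pow_card_pow, ZMod.pow_card_pow] at h2
  exact h2

end NormCongr

section Frob

variable {F N : Type*} [Field F] [NumberField F] [Field N] [NumberField N] [Algebra F N]

omit [NumberField F] [NumberField N] in
theorem coe_smul_int (σ : N ≃ₐ[F] N) (x : 𝓞 N) : ((σ • x : 𝓞 N) : N) = σ (x : N) :=
  algebraMap.smul' σ x N

variable [IsGalois F N]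

/-- An arithmetic Frobenius at a prime `Q` not containing `r` raises every `r`-th root of unity
to the power `N(Q ∩ 𝓞 F)`. -/
theorem frob_apply_root {r : ℕ} {ζ : N} (hζ : ζ ^ r = 1) (hr0 : r ≠ 0) (σ : N ≃ₐ[F] N)
    (Q : Ideal (𝓞 N)) (hσ : IsArithFrobAt (𝓞 F) σ Q) (hrQ : (r : 𝓞 N) ∉ Q) :
    σ ζ = ζ ^ Nat.card (𝓞 F ⧸ Q.under (𝓞 F)) := by
  have hint : IsIntegral ℤ ζ :=
    ⟨Polynomial.X ^ r - 1, Polynomial.monic_X_pow_sub_C 1 hr0, by simp [hζ]⟩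
  let ζ' : 𝓞 N := ⟨ζ, hint⟩
  have h1 : ζ' ^ r = 1 := by
    apply NumberField.RingOfIntegers.ext
    simp [ζ', hζ]
  have h3 := AlgHom.IsArithFrobAt.apply_of_pow_eq_one hσ h1 hrQ
  have h2 := congrArg (fun y : 𝓞 N => (y : N)) h3
  simp only [MulSemiringAction.toAlgHom_apply] at h2
  rw [coe_smul_int] at h2
  simpa [ζ'] using h2

omit [NumberField F] [NumberField N] [IsGalois F N] in
theorem pow_apply_root {ζ : N} {a : ℕ} (σ : N ≃ₐ[F] N) (h : σ ζ = ζ ^ a) (k : ℕ) :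
    (σ ^ k) ζ = ζ ^ (a ^ k) := by
  induction k with
  | zero => simp
  | succ k ih =>
    rw [pow_succ, AlgEquiv.mul_apply, h, map_pow, ih, ← pow_mul, pow_succ]

end Frob

section Tower

variable {F M N : Type*} [Field F] [NumberField F] [Field M] [NumberField M] [Field N]
  [NumberField N] [Algebra F M] [Algebra M N] [Algebra F N] [IsScalarTower F M N]
  [IsGalois F M] [IsGalois F N]

omit [NumberField F] [NumberField M] [NumberField N] [Algebra F M] [Algebra F N]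
  [IsScalarTower F M N] [IsGalois F M] [IsGalois F N] in
theorem coe_algebraMap_int (y : 𝓞 M) :
    ((algebraMap (𝓞 M) (𝓞 N) y : 𝓞 N) : N) = algebraMap M N (y : M) :=
  rfl

/-- The restriction of an arithmetic Frobenius is an arithmetic Frobenius. -/
theorem isArithFrobAt_restrict (σ : N ≃ₐ[F] N) (𝔔 : Ideal (𝓞 N))
    (hσ : IsArithFrobAt (𝓞 F) σ 𝔔) :
    IsArithFrobAt (𝓞 F) (AlgEquiv.restrictNormalHom M σ) (𝔔.under (𝓞 M)) := by
  intro y
  have h := hσ (algebraMap (𝓞 M) (𝓞 N) y)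
  rw [Ideal.under_under]
  rw [Ideal.under_def, Ideal.mem_comap, map_sub, map_pow]
  convert h using 2
  apply NumberField.RingOfIntegers.ext
  simp only [MulSemiringAction.toAlgHom_apply]
  rw [coe_algebraMap_int, coe_smul_int, coe_smul_int, coe_algebraMap_int]
  exact AlgEquiv.restrictNormal_commutes σ M (y : M)

/-- Lifting the Artin symbol of an ideal prime to `r` to the cyclotomic extension: there is an
automorphism restricting to the symbol and raising `ζ` to the absolute norm. -/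
theorem exists_lift_of_coprime (r : ℕ) [Fact r.Prime] (ζ : N) (hζ : ζ ^ r = 1)
    (φ : Ideal (𝓞 F) → (M ≃ₐ[F] M)) (hφ1 : φ ⊤ = 1)
    (hφmul : ∀ I J : Ideal (𝓞 F), I ≠ ⊥ → J ≠ ⊥ → φ (I * J) = φ I * φ J)
    (hφ : ∀ (P : Ideal (𝓞 F)) (Q : Ideal (𝓞 M)), P.IsPrime → P ≠ ⊥ → (r : 𝓞 F) ∉ P →
      Q.IsPrime → Q.under (𝓞 F) = P → IsArithFrobAt (𝓞 F) (φ P) Q)
    (hunr : ∀ Q : Ideal (𝓞 M), Q.IsPrime → Q ≠ ⊥ → (r : 𝓞 M) ∉ Q →
      Q.inertia (M ≃ₐ[F] M) = ⊥)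
    (I : Ideal (𝓞 F)) (hI : I ≠ ⊥)
    (hcop : ∀ v : Ideal (𝓞 F), v.IsPrime → (r : 𝓞 F) ∈ v → ¬ I ≤ v) :
    ∃ σ : N ≃ₐ[F] N, AlgEquiv.restrictNormalHom M σ = φ I ∧ σ ζ = ζ ^ Ideal.absNorm I := by
  have hr : r.Prime := Fact.out
  induction I using UniqueFactorizationMonoid.induction_on_prime with
  | h₁ => exact absurd rfl hI
  | h₂ I hu =>
    rw [Ideal.isUnit_iff] at hu
    subst hu
    exact ⟨1, by rw [map_one, hφ1], by simp⟩
  | h₃ J P hJ hP ih =>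
    have hPp : P.IsPrime := Ideal.isPrime_of_prime hP
    have hP0 : P ≠ ⊥ := hP.ne_zero
    have hrP : (r : 𝓞 F) ∉ P := fun h => hcop P hPp h Ideal.mul_le_left
    obtain ⟨σJ, hσJ, hσJζ⟩ := ih hJ
      (fun v hv hrv hJv => hcop v hv hrv (Ideal.mul_le_right.trans hJv))
    obtain ⟨𝔔, -, h𝔔p, h𝔔P⟩ :=
      Ideal.exists_ideal_over_prime_of_isIntegral P (⊥ : Ideal (𝓞 N)) (by simp)
    have h𝔔0 : 𝔔 ≠ ⊥ := by
      rintro rfl
      apply hP0
      rw [← h𝔔P]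
      exact Ideal.comap_bot_of_injective _ (FaithfulSMul.algebraMap_injective (𝓞 F) (𝓞 N))
    have hfin : Finite (𝓞 N ⧸ 𝔔) := Ideal.finiteQuotientOfFreeOfNeBot 𝔔 h𝔔0
    obtain ⟨σP, hσP⟩ := IsArithFrobAt.exists_of_isInvariant (𝓞 F) (N ≃ₐ[F] N) 𝔔
    have hr𝔔 : (r : 𝓞 N) ∉ 𝔔 := by
      intro h
      apply hrP
      rw [← h𝔔P, Ideal.mem_comap, map_natCast]
      exact h
    have hσPζ := frob_apply_root hζ hr.ne_zero σP 𝔔 hσP hr𝔔
    have hunder : 𝔔.under (𝓞 F) = P := h𝔔P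
    rw [hunder] at hσPζ
    have hcard : Nat.card (𝓞 F ⧸ P) = Ideal.absNorm P := by
      rw [Ideal.absNorm_apply, Submodule.cardQuot_apply]
    rw [hcard] at hσPζ
    -- the prime of `M` below `𝔔`
    have hQp : (𝔔.under (𝓞 M)).IsPrime := Ideal.comap_isPrime _ _
    have hQP : (𝔔.under (𝓞 M)).under (𝓞 F) = P := by rw [Ideal.under_under, hunder]
    have hQ0 : 𝔔.under (𝓞 M) ≠ ⊥ := by
      intro h
      apply hP0
      rw [← hQP, h]
      exact Ideal.comap_bot_of_injective _ (FaithfulSMul.algebraMap_injective (𝓞 F) (𝓞 M))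
    have hrQ : (r : 𝓞 M) ∉ 𝔔.under (𝓞 M) := by
      intro h
      apply hr𝔔
      rw [Ideal.under_def, Ideal.mem_comap, map_natCast] at h
      exact h
    have h1 := hφ P (𝔔.under (𝓞 M)) hPp hP0 hrP hQp hQP
    have h2 := isArithFrobAt_restrict (M := M) σP 𝔔 hσP
    have h3 := IsArithFrobAt.mul_inv_mem_inertia h2 h1
    rw [hunr _ hQp hQ0 hrQ, Subgroup.mem_bot, mul_inv_eq_one] at h3
    refine ⟨σP * σJ, ?_, ?_⟩
    · rw [map_mul, h3, hσJ, hφmul P J hP0 hJ]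
    · rw [AlgEquiv.mul_apply, hσJζ, map_pow, hσPζ, ← pow_mul, map_mul]

end Tower

section Main

variable {F M N : Type*} [Field F] [NumberField F] [Field M] [NumberField M] [Field N]
  [NumberField N] [Algebra F M] [Algebra M N] [Algebra F N] [IsScalarTower F M N]
  [IsGalois F M] [IsGalois F N]

omit [NumberField F] in
theorem exists_prime_mem_natCast (r : ℕ) (hr : r.Prime) [NumberField F] :
    ∃ v : Ideal (𝓞 F), v.IsPrime ∧ (r : 𝓞 F) ∈ v := by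
  have hp : (Ideal.span {(r : ℤ)}).IsPrime :=
    (Ideal.span_singleton_prime (by exact_mod_cast hr.ne_zero)).mpr (Nat.prime_iff_prime_int.mp hr)
  obtain ⟨Q, -, hQp, hQ⟩ :=
    Ideal.exists_ideal_over_prime_of_isIntegral (Ideal.span {(r : ℤ)}) (⊥ : Ideal (𝓞 F))
      (by
        rw [Ideal.comap_bot_of_injective _ (FaithfulSMul.algebraMap_injective ℤ (𝓞 F))]
        exact bot_le)
  refine ⟨Q, hQp, ?_⟩
  have : (r : ℤ) ∈ Ideal.comap (algebraMap ℤ (𝓞 F)) Q := by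
    rw [hQ]; exact Ideal.subset_span rfl
  simpa using this

theorem natAbs_sq_cast (r : ℕ) (a : ℤ) : ((a.natAbs : ℕ) : ZMod r) ^ 2 = ((a : ℤ) : ZMod r) ^ 2 := by
  have h : ((a.natAbs : ℕ) : ZMod r) = (((a.natAbs : ℕ) : ℤ) : ZMod r) :=
    (Int.cast_natCast _).symm
  rw [h, ← Int.cast_pow, Int.natAbs_sq, Int.cast_pow]

/-- **Cyclotomic reciprocity**, global form.  `M / F` is Galois of odd degree `p` inside
`N = F(ζ)`, `ζ` an `r`-th root of unity; `φ` is multiplicative on nonzero ideals and is an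
arithmetic Frobenius at the primes not containing `r`, where `M / F` is unramified.  If `x` is
prime to `r` and congruent to a `p`-th power `z ^ p` modulo every prime above `r`, then
`φ (x) = 1`. -/
theorem artin_span_eq_one_of_pow (p r : ℕ) [Fact r.Prime] (hp : Odd p)
    (hdeg : Module.finrank F M = p) (ζ : N) (hζ : ζ ^ r = 1)
    (hgen : ∀ σ : N ≃ₐ[F] N, σ ζ = ζ → σ = 1)
    (φ : Ideal (𝓞 F) → (M ≃ₐ[F] M)) (hφ1 : φ ⊤ = 1)
    (hφmul : ∀ I J : Ideal (𝓞 F), I ≠ ⊥ → J ≠ ⊥ → φ (I * J) = φ I * φ J)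
    (hφ : ∀ (P : Ideal (𝓞 F)) (Q : Ideal (𝓞 M)), P.IsPrime → P ≠ ⊥ → (r : 𝓞 F) ∉ P →
      Q.IsPrime → Q.under (𝓞 F) = P → IsArithFrobAt (𝓞 F) (φ P) Q)
    (hunr : ∀ Q : Ideal (𝓞 M), Q.IsPrime → Q ≠ ⊥ → (r : 𝓞 M) ∉ Q →
      Q.inertia (M ≃ₐ[F] M) = ⊥)
    (x z : 𝓞 F)
    (hx : ∀ v : Ideal (𝓞 F), v.IsPrime → (r : 𝓞 F) ∈ v → x ∉ v ∧ x - z ^ p ∈ v) :
    φ (Ideal.span {x}) = 1 := by
  have hr : r.Prime := Fact.out
  have hp0 : p ≠ 0 := by rintro rfl; simp at hp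
  obtain ⟨v₀, hv₀, hrv₀⟩ := exists_prime_mem_natCast (F := F) r hr
  have hx0 : x ≠ 0 := by rintro rfl; exact (hx v₀ hv₀ hrv₀).1 (zero_mem _)
  have hzv : ∀ v : Ideal (𝓞 F), v.IsPrime → (r : 𝓞 F) ∈ v → z ∉ v := by
    intro v hv hrv hz
    obtain ⟨h1, h2⟩ := hx v hv hrv
    apply h1
    have : x = (x - z ^ p) + z ^ p := by ring
    rw [this]
    exact Ideal.add_mem _ h2 (Ideal.pow_mem_of_mem _ hz p (Nat.pos_of_ne_zero hp0))
  have hz0 : z ≠ 0 := by rintro rfl; exact hzv v₀ hv₀ hrv₀ (zero_mem _)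
  have hIx : Ideal.span {x} ≠ ⊥ := by simpa [Ideal.span_singleton_eq_bot] using hx0
  have hIz : Ideal.span {z} ≠ ⊥ := by simpa [Ideal.span_singleton_eq_bot] using hz0
  obtain ⟨σx, hσx, hσxζ⟩ := exists_lift_of_coprime (N := N) r ζ hζ φ hφ1 hφmul hφ hunr
    (Ideal.span {x}) hIx (fun v hv hrv hle => (hx v hv hrv).1 (hle (Ideal.subset_span rfl)))
  obtain ⟨σz, hσz, hσzζ⟩ := exists_lift_of_coprime (N := N) r ζ hζ φ hφ1 hφmul hφ hunr
    (Ideal.span {z}) hIz (fun v hv hrv hle => hzv v hv hrv (hle (Ideal.subset_span rfl)))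
  rw [Ideal.absNorm_span_singleton] at hσxζ hσzζ
  -- the norm congruence
  have hnorm : ((Algebra.norm ℤ x : ℤ) : ZMod r) = ((Algebra.norm ℤ z : ℤ) : ZMod r) ^ p := by
    have := norm_congr_of_forall_prime r x (z ^ p) (fun v hv hrv => (hx v hv hrv).2)
    rw [this, map_pow, Int.cast_pow]
  have hexp : (((Algebra.norm ℤ x).natAbs ^ 2 : ℕ) : ZMod r) =
      ((((Algebra.norm ℤ z).natAbs ^ p) ^ 2 : ℕ) : ZMod r) := by
    push_cast
    rw [natAbs_sq_cast, hnorm, pow_right_comm, pow_right_comm _ p 2, natAbs_sq_cast]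
  have hζpow : ζ ^ ((Algebra.norm ℤ x).natAbs ^ 2) = ζ ^ (((Algebra.norm ℤ z).natAbs ^ p) ^ 2) := by
    rw [pow_eq_pow_mod _ hζ, pow_eq_pow_mod (((Algebra.norm ℤ z).natAbs ^ p) ^ 2) hζ]
    congr 1
    exact (ZMod.natCast_eq_natCast_iff' _ _ _).mp hexp
  have h1 : (σx ^ 2) ζ = ((σz ^ p) ^ 2) ζ := by
    rw [pow_apply_root σx hσxζ 2, pow_apply_root (σz ^ p) (pow_apply_root σz hσzζ p) 2]
    exact hζpow
  have h2 : σx ^ 2 = (σz ^ p) ^ 2 := by
    have : (((σz ^ p) ^ 2)⁻¹ * σx ^ 2) ζ = ζ := by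
      rw [AlgEquiv.mul_apply, h1]
      exact ((σz ^ p) ^ 2).symm_apply_apply ζ
    have := hgen _ this
    rwa [inv_mul_eq_one, eq_comm] at this
  have hcard : Nat.card (M ≃ₐ[F] M) = p := by
    rw [IsGalois.card_aut_eq_finrank, hdeg]
  have hpow : ∀ g : M ≃ₐ[F] M, g ^ p = 1 := fun g => by
    rw [← hcard]; exact pow_card_eq_one'
  have h3 : (φ (Ideal.span {x})) ^ 2 = 1 := by
    rw [← hσx, ← map_pow, h2, map_pow, map_pow, hpow, one_pow]
  obtain ⟨k, hk⟩ := hp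
  have h4 := hpow (φ (Ideal.span {x}))
  rw [hk, pow_succ, pow_mul, h3, one_pow, one_mul] at h4
  exact h4

end Main

section Variants

variable {F M N : Type*} [Field F] [NumberField F] [Field M] [NumberField M] [Field N]
  [NumberField N] [Algebra F M] [Algebra M N] [Algebra F N] [IsScalarTower F M N]
  [IsGalois F M] [IsGalois F N]

omit [NumberField N] [IsGalois F N] [NumberField F] in
/-- In a cyclotomic extension an automorphism fixing a primitive root is trivial. -/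
theorem eq_one_of_apply_root (r : ℕ) [NeZero r] [IsCyclotomicExtension {r} F N] {ζ : N}
    (hζ : IsPrimitiveRoot ζ r) (σ : N ≃ₐ[F] N) (h : σ ζ = ζ) : σ = 1 := by
  have htop := IsCyclotomicExtension.adjoin_primitive_root_eq_top (A := F) (B := N) hζ
  have : (σ : N →ₐ[F] N) = (AlgHom.id F N) := by
    apply AlgHom.ext_of_adjoin_eq_top htop
    intro y hy
    rw [Set.mem_singleton_iff] at hy
    subst hy
    simpa using h
  ext y
  exact DFunLike.congr_fun this y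

/-- A simultaneous `p`-th root modulo the primes above `r`. -/
theorem exists_global_root (p r : ℕ) [Fact r.Prime] (x : 𝓞 F)
    (hx : ∀ v : Ideal (𝓞 F), v.IsPrime → (r : 𝓞 F) ∈ v → ∃ z : 𝓞 F, x - z ^ p ∈ v) :
    ∃ z : 𝓞 F, ∀ v : Ideal (𝓞 F), v.IsPrime → (r : 𝓞 F) ∈ v → x - z ^ p ∈ v := by
  classical
  have hr : r.Prime := Fact.out
  have hI : Ideal.span {(r : 𝓞 F)} ≠ ⊥ := by
    rw [Ne, Ideal.span_singleton_eq_bot]
    exact_mod_cast hr.ne_zero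
  let s : Finset (Ideal (𝓞 F)) :=
    (UniqueFactorizationMonoid.normalizedFactors (Ideal.span {(r : 𝓞 F)})).toFinset
  have hs : ∀ v : Ideal (𝓞 F), v ∈ s ↔ v.IsPrime ∧ (r : 𝓞 F) ∈ v := by
    intro v
    rw [Multiset.mem_toFinset, Ideal.mem_normalizedFactors_iff hI,
      Ideal.span_singleton_le_iff_mem]
  have hz : ∀ v : s, ∃ z : 𝓞 F, x - z ^ p ∈ (v : Ideal (𝓞 F)) := fun v =>
    hx v ((hs v).mp v.2).1 ((hs v).mp v.2).2
  choose zv hzv using hz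
  obtain ⟨z, hz⟩ := IsDedekindDomain.exists_forall_sub_mem_ideal (s := s) (fun v => v)
    (fun _ => 1)
    (fun v hv => Ideal.prime_of_isPrime (by
      have := ((hs v).mp hv).1
      rintro rfl
      have h1 : (r : 𝓞 F) = 0 := by simpa using ((hs ⊥).mp hv).2
      exact hr.ne_zero (by exact_mod_cast h1)) ((hs v).mp hv).1)
    (fun v _ w _ h => h) zv
  refine ⟨z, fun v hv hrv => ?_⟩
  have hvs : v ∈ s := (hs v).mpr ⟨hv, hrv⟩
  have h1 := hz v hvs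
  rw [pow_one] at h1
  have h2 := hzv ⟨v, hvs⟩
  have h3 : z ^ p - zv ⟨v, hvs⟩ ^ p ∈ v := by
    have := sub_dvd_pow_sub_pow z (zv ⟨v, hvs⟩) p
    obtain ⟨c, hc⟩ := this
    rw [hc]
    exact Ideal.mul_mem_right _ _ h1
  have : x - z ^ p = (x - zv ⟨v, hvs⟩ ^ p) - (z ^ p - zv ⟨v, hvs⟩ ^ p) := by ring
  rw [this]
  exact Ideal.sub_mem _ h2 h3

/-- **Cyclotomic reciprocity**, local form: `x` is prime to `r` and a `p`-th power residue at
every prime above `r`. -/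
theorem artin_span_eq_one (p r : ℕ) [Fact r.Prime] (hp : Odd p)
    (hdeg : Module.finrank F M = p) (ζ : N) (hζ : ζ ^ r = 1)
    (hgen : ∀ σ : N ≃ₐ[F] N, σ ζ = ζ → σ = 1)
    (φ : Ideal (𝓞 F) → (M ≃ₐ[F] M)) (hφ1 : φ ⊤ = 1)
    (hφmul : ∀ I J : Ideal (𝓞 F), I ≠ ⊥ → J ≠ ⊥ → φ (I * J) = φ I * φ J)
    (hφ : ∀ (P : Ideal (𝓞 F)) (Q : Ideal (𝓞 M)), P.IsPrime → P ≠ ⊥ → (r : 𝓞 F) ∉ P →
      Q.IsPrime → Q.under (𝓞 F) = P → IsArithFrobAt (𝓞 F) (φ P) Q)
    (hunr : ∀ Q : Ideal (𝓞 M), Q.IsPrime → Q ≠ ⊥ → (r : 𝓞 M) ∉ Q →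
      Q.inertia (M ≃ₐ[F] M) = ⊥)
    (x : 𝓞 F)
    (hx : ∀ v : Ideal (𝓞 F), v.IsPrime → (r : 𝓞 F) ∈ v → x ∉ v ∧ ∃ z : 𝓞 F, x - z ^ p ∈ v) :
    φ (Ideal.span {x}) = 1 := by
  obtain ⟨z, hz⟩ := exists_global_root p r x (fun v hv hrv => (hx v hv hrv).2)
  exact artin_span_eq_one_of_pow (N := N) p r hp hdeg ζ hζ hgen φ hφ1 hφmul hφ hunr x z
    (fun v hv hrv => ⟨(hx v hv hrv).1, hz v hv hrv⟩)

/-- **Cyclotomic reciprocity** for a homomorphism on the monoid of nonzero ideals, in the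
cyclotomic extension `N = F(ζ_r)`. -/
theorem artinHom_span_eq_one (p r : ℕ) [Fact r.Prime] (hp : Odd p)
    (hdeg : Module.finrank F M = p) [IsCyclotomicExtension {r} F N]
    (φ : (Ideal (𝓞 F))⁰ →* (M ≃ₐ[F] M))
    (hφ : ∀ (P : (Ideal (𝓞 F))⁰) (Q : Ideal (𝓞 M)), (P : Ideal (𝓞 F)).IsPrime →
      (r : 𝓞 F) ∉ (P : Ideal (𝓞 F)) → Q.IsPrime → Q.under (𝓞 F) = P →
      IsArithFrobAt (𝓞 F) (φ P) Q)
    (hunr : ∀ Q : Ideal (𝓞 M), Q.IsPrime → Q ≠ ⊥ → (r : 𝓞 M) ∉ Q →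
      Q.inertia (M ≃ₐ[F] M) = ⊥)
    (x : 𝓞 F)
    (hx : ∀ v : Ideal (𝓞 F), v.IsPrime → (r : 𝓞 F) ∈ v → x ∉ v ∧ ∃ z : 𝓞 F, x - z ^ p ∈ v)
    (I : (Ideal (𝓞 F))⁰) (hI : (I : Ideal (𝓞 F)) = Ideal.span {x}) : φ I = 1 := by
  classical
  have hr : r.Prime := Fact.out
  have : NeZero r := ⟨hr.ne_zero⟩
  obtain ⟨ζ, hζ⟩ := IsCyclotomicExtension.exists_isPrimitiveRoot F N (Set.mem_singleton r)
    hr.ne_zero
  let φ' : Ideal (𝓞 F) → (M ≃ₐ[F] M) := fun J =>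
    if h : J ≠ ⊥ then φ ⟨J, mem_nonZeroDivisors_of_ne_zero h⟩ else 1
  have hφ'def : ∀ J : (Ideal (𝓞 F))⁰, φ' J = φ J := by
    intro J
    have hJ : (J : Ideal (𝓞 F)) ≠ ⊥ := nonZeroDivisors.coe_ne_zero J
    simp only [φ', dif_pos hJ]
  have h1 : φ' ⊤ = 1 := by
    have := hφ'def 1
    rw [map_one] at this
    rw [← Ideal.one_eq_top]
    exact this
  have hmul : ∀ I J : Ideal (𝓞 F), I ≠ ⊥ → J ≠ ⊥ → φ' (I * J) = φ' I * φ' J := by
    intro I J hI hJ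
    have := hφ'def (⟨I, mem_nonZeroDivisors_of_ne_zero hI⟩ * ⟨J, mem_nonZeroDivisors_of_ne_zero hJ⟩)
    rw [map_mul, ← hφ'def, ← hφ'def] at this
    exact this
  have hfrob : ∀ (P : Ideal (𝓞 F)) (Q : Ideal (𝓞 M)), P.IsPrime → P ≠ ⊥ → (r : 𝓞 F) ∉ P →
      Q.IsPrime → Q.under (𝓞 F) = P → IsArithFrobAt (𝓞 F) (φ' P) Q := by
    intro P Q hP hP0 hrP hQ hQP
    have := hφ ⟨P, mem_nonZeroDivisors_of_ne_zero hP0⟩ Q hP hrP hQ hQP
    rwa [← hφ'def] at this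
  have := artin_span_eq_one (N := N) p r hp hdeg ζ hζ.pow_eq_one
    (fun σ h => eq_one_of_apply_root r hζ σ h) φ' h1 hmul hfrob hunr x hx
  rw [← hI, hφ'def] at this
  exact this

end Variants

section Quotient

variable {F M N : Type*} [Field F] [NumberField F] [Field M] [NumberField M] [Field N]
  [NumberField N] [Algebra F M] [Algebra M N] [Algebra F N] [IsScalarTower F M N]
  [IsGalois F M] [IsGalois F N]

/-- **Cyclotomic reciprocity** for a quotient `a / b`: if `a`, `b` are prime to `r` and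
`a ≡ z ^ p * b` at every prime above `r`, then the symbols of `(a)` and `(b)` agree. -/
theorem artinHom_span_eq_span (p r : ℕ) [Fact r.Prime] (hp : Odd p)
    (hdeg : Module.finrank F M = p) [IsCyclotomicExtension {r} F N]
    (φ : (Ideal (𝓞 F))⁰ →* (M ≃ₐ[F] M))
    (hφ : ∀ (P : (Ideal (𝓞 F))⁰) (Q : Ideal (𝓞 M)), (P : Ideal (𝓞 F)).IsPrime →
      (r : 𝓞 F) ∉ (P : Ideal (𝓞 F)) → Q.IsPrime → Q.under (𝓞 F) = P →
      IsArithFrobAt (𝓞 F) (φ P) Q)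
    (hunr : ∀ Q : Ideal (𝓞 M), Q.IsPrime → Q ≠ ⊥ → (r : 𝓞 M) ∉ Q →
      Q.inertia (M ≃ₐ[F] M) = ⊥)
    (a b : 𝓞 F)
    (hab : ∀ v : Ideal (𝓞 F), v.IsPrime → (r : 𝓞 F) ∈ v →
      a ∉ v ∧ b ∉ v ∧ ∃ z : 𝓞 F, a - z ^ p * b ∈ v)
    (I J : (Ideal (𝓞 F))⁰) (hI : (I : Ideal (𝓞 F)) = Ideal.span {a})
    (hJ : (J : Ideal (𝓞 F)) = Ideal.span {b}) : φ I = φ J := by
  obtain ⟨k, hk⟩ := hp
  have hcard : Nat.card (M ≃ₐ[F] M) = p := by
    rw [IsGalois.card_aut_eq_finrank, hdeg]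
  have hpow : ∀ g : M ≃ₐ[F] M, g ^ p = 1 := fun g => by
    rw [← hcard]; exact pow_card_eq_one'
  have h1 : φ (I * J ^ (2 * k)) = 1 := by
    apply artinHom_span_eq_one (N := N) p r ⟨k, hk⟩ hdeg φ hφ hunr (a * b ^ (2 * k))
    · intro v hv hrv
      obtain ⟨ha, hb, z, hz⟩ := hab v hv hrv
      refine ⟨fun h => ?_, z * b, ?_⟩
      · rcases hv.mem_or_mem h with h | h
        · exact ha h
        · exact hb (hv.mem_of_pow_mem _ h)
      · have : a * b ^ (2 * k) - (z * b) ^ p = b ^ (2 * k) * (a - z ^ p * b) := by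
          rw [hk]; ring
        rw [this]
        exact Ideal.mul_mem_left _ _ hz
    · rw [Submonoid.coe_mul, SubmonoidClass.coe_pow, hI, hJ, Ideal.span_singleton_pow,
        Ideal.span_singleton_mul_span_singleton]
  rw [map_mul, map_pow] at h1
  have h2 := hpow (φ J)
  rw [hk, pow_succ] at h2
  calc φ I = φ I * (φ J ^ (2 * k) * φ J) := by rw [h2, mul_one]
    _ = (φ I * φ J ^ (2 * k)) * φ J := by rw [mul_assoc]
    _ = φ J := by rw [h1, one_mul]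

end Quotient

end Fermat.Agent.Lib.CycloRecip
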