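import Mathlib

/-!
# The adjugate lemma and Burnside's theorem

Let `E` be a field of characteristic `≠ 2`, `G` a group, `δ : G →* Eˣ` a character and `ρ` a
finite-dimensional representation of `G` on `U` such that

  `ρ g + δ g • ρ g⁻¹ = t g • 1`      for all `g`.

If `ρ(G)` spans `End U` (e.g. `ρ` irreducible over an algebraically closed field: Burnside),
then `dim U ≤ 2`, and if `dim U = 2` then `det ρ g = δ g` and `tr ρ g = t g` for all `g`,
i.e. `charpoly (ρ g) = X² - t g X + δ g`.

Proof: `τ : End U → E`, `ρ g ↦ t g` is a well defined linear form (if `∑ c_i ρ g_i = 0` and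
`∑ c_i t g_i ≠ 0` then every `ρ h` is a scalar), `ι a := τ a - a` is an anti-automorphism of
`End U` (`ι (ρ g) = δ g • ρ g⁻¹`), so `ι (a²) = (ι a)²` gives a monic quadratic relation for
every endomorphism `a`; hence `dim U ≤ 2`, and for `dim U = 2` Cayley–Hamilton identifies
`τ = tr`, `ι = adj`.
-/

set_option autoImplicit false

namespace Fermat.Agent.Lib.AdjugateLemma

open Module Polynomial

variable {E : Type*} [Field E] {U : Type*} [AddCommGroup U] [Module E U]

/-! ### Linear algebra preliminaries -/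

/-- In dimension `≥ 2` there is a non-scalar endomorphism. -/
lemma exists_not_scalar [FiniteDimensional E U] (h : 2 ≤ finrank E U) :
    ∃ a : End E U, ∀ c : E, a ≠ c • (1 : End E U) := by
  classical
  let b := Module.finBasis E U
  let i0 : Fin (finrank E U) := ⟨0, by omega⟩
  let i1 : Fin (finrank E U) := ⟨1, by omega⟩
  have h01 : i0 ≠ i1 := by simp [i0, i1, Fin.ext_iff]
  refine ⟨b.constr E (fun i => if i = i0 then b i1 else 0), fun c hc => ?_⟩
  have h1 := LinearMap.congr_fun hc (b i0)
  rw [Basis.constr_basis, if_pos rfl, LinearMap.smul_apply, Module.End.one_apply] at h1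
  have h2 := congrArg (fun u => b.repr u i1) h1
  simp [h01] at h2

/-- If every endomorphism satisfies a monic quadratic relation, then `dim U ≤ 2`. -/
lemma finrank_le_two_of_quadratic [FiniteDimensional E U]
    (h : ∀ a : End E U, ∃ r s : E, a * a = r • a + s • (1 : End E U)) : finrank E U ≤ 2 := by
  classical
  by_contra hlt
  rw [not_le] at hlt
  let b := Module.finBasis E U
  let i0 : Fin (finrank E U) := ⟨0, by omega⟩
  let i1 : Fin (finrank E U) := ⟨1, by omega⟩
  let i2 : Fin (finrank E U) := ⟨2, by omega⟩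
  have h01 : i0 ≠ i1 := by simp [i0, i1, Fin.ext_iff]
  have h02 : i0 ≠ i2 := by simp [i0, i2, Fin.ext_iff]
  have h12 : i1 ≠ i2 := by simp [i1, i2, Fin.ext_iff]
  obtain ⟨r, s, hrs⟩ :=
    h (b.constr E (fun i => if i = i0 then b i1 else if i = i1 then b i2 else 0))
  have h1 := LinearMap.congr_fun hrs (b i0)
  rw [Module.End.mul_apply, LinearMap.add_apply, LinearMap.smul_apply, LinearMap.smul_apply,
    Module.End.one_apply, Basis.constr_basis, if_pos rfl, Basis.constr_basis, if_neg h01.symm,
    if_pos rfl] at h1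
  have h2 := congrArg (fun u => b.repr u i2) h1
  simp [h02, h12] at h2

/-- Cayley–Hamilton in dimension `2`. -/
lemma mul_self_eq_of_finrank_two [FiniteDimensional E U] (h : finrank E U = 2) (a : End E U) :
    a * a = LinearMap.trace E U a • a - LinearMap.det a • (1 : End E U) := by
  classical
  let b : Basis (Fin 2) E U := Module.finBasisOfFinrankEq E U h
  have h1 : a.charpoly = X ^ 2 - C (LinearMap.trace E U a) * X + C (LinearMap.det a) := by
    rw [← LinearMap.charpoly_toMatrix a b, Matrix.charpoly_fin_two,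
      LinearMap.trace_eq_matrix_trace E b a, LinearMap.det_toMatrix b a]
  have h2 := LinearMap.aeval_self_charpoly a
  rw [h1] at h2
  simp only [map_add, map_sub, map_mul, map_pow, aeval_X, aeval_C,
    Algebra.algebraMap_eq_smul_one] at h2
  rw [pow_two, smul_mul_assoc, one_mul] at h2
  rw [eq_sub_iff_add_eq, ← sub_eq_zero, ← h2]
  abel

/-- The characteristic polynomial in dimension `2`. -/
lemma charpoly_of_finrank_two [FiniteDimensional E U] (h : finrank E U = 2) (a : End E U) :
    a.charpoly = X ^ 2 - C (LinearMap.trace E U a) * X + C (LinearMap.det a) := by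
  classical
  let b : Basis (Fin 2) E U := Module.finBasisOfFinrankEq E U h
  rw [← LinearMap.charpoly_toMatrix a b, Matrix.charpoly_fin_two,
    LinearMap.trace_eq_matrix_trace E b a, LinearMap.det_toMatrix b a]

/-- In dimension `1` every endomorphism is a scalar. -/
lemma exists_eq_smul_one_of_finrank_one (h : finrank E U = 1) (a : End E U) :
    ∃ c : E, a = c • (1 : End E U) := by
  obtain ⟨v, _, hv⟩ := finrank_eq_one_iff'.mp h
  obtain ⟨c, hc⟩ := hv (a v)
  refine ⟨c, LinearMap.ext fun w => ?_⟩
  obtain ⟨d, rfl⟩ := hv w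
  rw [map_smul, ← hc, LinearMap.smul_apply, Module.End.one_apply, smul_comm]

lemma smul_one_injective [Nontrivial U] {c d : E} (h : c • (1 : End E U) = d • (1 : End E U)) :
    c = d := by
  have h1 : (c - d) • (1 : End E U) = 0 := by rw [sub_smul, h, sub_self]
  rcases smul_eq_zero.mp h1 with h2 | h2
  · exact sub_eq_zero.mp h2
  · exact absurd h2 one_ne_zero

/-! ### The adjugate lemma -/

section Adjugate

variable {G : Type*} [Group G] (ρ : Representation E G U) (δ : G →* Eˣ) (t : G → E)

/-- The basic relation in the form `δ g • ρ g⁻¹ = t g • 1 - ρ g`. -/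
lemma smul_inv_eq (hρ : ∀ g, ρ g + (δ g : E) • ρ g⁻¹ = t g • LinearMap.id) (g : G) :
    (δ g : E) • ρ g⁻¹ = t g • (1 : End E U) - ρ g := by
  rw [eq_sub_iff_add_eq, add_comm]
  exact hρ g

/-- `ρ (g h) = t (g h) - δ h • ρ h⁻¹ (t g - ρ g)`. -/
lemma rho_mul_eq (hρ : ∀ g, ρ g + (δ g : E) • ρ g⁻¹ = t g • LinearMap.id) (g h : G) :
    ρ (g * h) = t (g * h) • (1 : End E U)
      - (δ h : E) • (ρ h⁻¹ * (t g • (1 : End E U) - ρ g)) := by
  have h1 := smul_inv_eq ρ δ t hρ (g * h)
  rw [mul_inv_rev, map_mul ρ, map_mul δ, Units.val_mul] at h1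
  rw [← smul_inv_eq ρ δ t hρ g, mul_smul_comm, smul_smul, mul_comm (δ h : E), h1]
  abel

/-- If some `ρ h` is not a scalar, the linear form `∑ c_g g ↦ ∑ c_g t g` vanishes on the kernel of
`∑ c_g g ↦ ∑ c_g ρ g`. -/
lemma lc_t_eq_zero (hρ : ∀ g, ρ g + (δ g : E) • ρ g⁻¹ = t g • LinearMap.id)
    (hns : ∃ h : G, ∀ c : E, ρ h ≠ c • (1 : End E U)) (x : G →₀ E)
    (hx : Finsupp.linearCombination E (fun g => ρ g) x = 0) :
    Finsupp.linearCombination E t x = 0 := by
  by_contra hτ
  obtain ⟨h, hh⟩ := hns
  -- the identity, linear in `x`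
  have key : ∀ y : G →₀ E, Finsupp.linearCombination E (fun g => ρ g) y * ρ h⁻¹ =
      Finsupp.linearCombination E (fun g => t (g * h⁻¹)) y • (1 : End E U)
        - (δ h⁻¹ : E) • (ρ h * (Finsupp.linearCombination E t y • (1 : End E U)
          - Finsupp.linearCombination E (fun g => ρ g) y)) := by
    intro y
    induction y using Finsupp.induction_linear with
    | zero => simp
    | add y z hy hz =>
      rw [map_add, map_add, map_add, add_mul, hy, hz]
      simp only [add_smul, mul_add, mul_sub, smul_add, smul_sub]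
      abel
    | single g c =>
      simp only [Finsupp.linearCombination_single]
      have h1 := rho_mul_eq ρ δ t hρ g h⁻¹
      rw [map_mul, inv_inv] at h1
      rw [smul_mul_assoc, h1]
      simp only [smul_sub, mul_sub, mul_smul_comm, smul_eq_mul, mul_one]
      module
  have h1 := key x
  rw [hx, zero_mul, sub_zero, mul_smul_comm, mul_one, smul_smul] at h1
  refine hh (Finsupp.linearCombination E (fun g => t (g * h⁻¹)) x
    / ((δ h⁻¹ : E) * Finsupp.linearCombination E t x)) ?_
  have h2 : (δ h⁻¹ : E) * Finsupp.linearCombination E t x ≠ 0 :=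
    mul_ne_zero (Units.ne_zero _) hτ
  have h3 : ((δ h⁻¹ : E) * Finsupp.linearCombination E t x) • ρ h
      = Finsupp.linearCombination E (fun g => t (g * h⁻¹)) x • (1 : End E U) := by
    rw [eq_comm, ← sub_eq_zero]
    exact h1.symm
  rw [div_eq_inv_mul, ← smul_smul, ← h3, smul_smul, inv_mul_cancel₀ h2, one_smul]

/-- Scalars form a submodule: everything in the span of scalar endomorphisms is a scalar. -/
lemma scalar_of_mem_span {s : Set (End E U)} (hs : ∀ a ∈ s, ∃ c : E, a = c • (1 : End E U))
    {a : End E U} (ha : a ∈ Submodule.span E s) : ∃ c : E, a = c • (1 : End E U) := by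
  induction ha using Submodule.span_induction with
  | mem x hx => exact hs x hx
  | zero => exact ⟨0, by simp⟩
  | add x y _ _ hx hy =>
    obtain ⟨c, rfl⟩ := hx
    obtain ⟨d, rfl⟩ := hy
    exact ⟨c + d, by rw [add_smul]⟩
  | smul r x _ hx =>
    obtain ⟨c, rfl⟩ := hx
    exact ⟨r * c, by rw [smul_smul]⟩

/-- The linear form `τ : End U → E` with `τ (ρ g) = t g`, in dimension `≥ 2`. -/
lemma exists_tau [FiniteDimensional E U] (hρ : ∀ g, ρ g + (δ g : E) • ρ g⁻¹ = t g • LinearMap.id)
    (hspan : Submodule.span E (Set.range ρ) = ⊤) (hd : 2 ≤ finrank E U) :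
    ∃ τ : End E U →ₗ[E] E, ∀ g, τ (ρ g) = t g := by
  -- some `ρ h` is not a scalar
  have hns : ∃ h : G, ∀ c : E, ρ h ≠ c • (1 : End E U) := by
    by_contra hcon
    push Not at hcon
    obtain ⟨a, ha⟩ := exists_not_scalar (E := E) (U := U) hd
    have h1 : a ∈ Submodule.span E (Set.range ρ) := by rw [hspan]; trivial
    obtain ⟨c, hc⟩ := scalar_of_mem_span (s := Set.range ρ) (by
      rintro _ ⟨h, rfl⟩
      exact hcon h) h1
    exact ha c hc
  have hsurj : LinearMap.range (Finsupp.linearCombination E (fun g => ρ g)) = ⊤ := by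
    rw [Finsupp.range_linearCombination]
    exact hspan
  obtain ⟨sec, hsec⟩ := LinearMap.exists_rightInverse_of_surjective _ hsurj
  refine ⟨(Finsupp.linearCombination E t).comp sec, fun g => ?_⟩
  have h1 : Finsupp.linearCombination E (fun g => ρ g) (sec (ρ g) - Finsupp.single g 1) = 0 := by
    rw [map_sub, ← LinearMap.comp_apply, hsec, Finsupp.linearCombination_single, one_smul]
    simp
  have h2 := lc_t_eq_zero ρ δ t hρ hns _ h1
  rw [map_sub, Finsupp.linearCombination_single, sub_eq_zero] at h2
  rw [LinearMap.comp_apply, h2]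
  simp

/-- **The adjugate lemma** (span form).  If `ρ g + δ g • ρ g⁻¹ = t g • 1` for all `g`, and `ρ(G)`
spans `End U`, then `dim U ≤ 2`, and for `dim U = 2`: `det ρ g = δ g`, `tr ρ g = t g`. -/
theorem adjugate_of_span (h2 : (2 : E) ≠ 0) [FiniteDimensional E U]
    (hρ : ∀ g, ρ g + (δ g : E) • ρ g⁻¹ = t g • LinearMap.id)
    (hspan : Submodule.span E (Set.range ρ) = ⊤) :
    finrank E U ≤ 2 ∧ (finrank E U = 2 →
      ∀ g, LinearMap.det (ρ g) = (δ g : E) ∧ LinearMap.trace E U (ρ g) = t g) := by
  by_cases hd : finrank E U ≤ 1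
  · exact ⟨by omega, fun h => by omega⟩
  rw [not_le] at hd
  have hnt : Nontrivial U := Module.nontrivial_of_finrank_pos (R := E) (by omega)
  obtain ⟨τ, hτ⟩ := exists_tau ρ δ t hρ hspan hd
  have hmem : ∀ a : End E U, a ∈ Submodule.span E (Set.range ρ) := fun a => by
    rw [hspan]; trivial
  -- the anti-automorphism `ι a = τ a - a`
  have hι : ∀ g, τ (ρ g) • (1 : End E U) - ρ g = (δ g : E) • ρ g⁻¹ := fun g => by
    rw [hτ, smul_inv_eq ρ δ t hρ g]
  have hanti0 : ∀ g h : G, τ (ρ g * ρ h) • (1 : End E U) - ρ g * ρ h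
      = (τ (ρ h) • (1 : End E U) - ρ h) * (τ (ρ g) • (1 : End E U) - ρ g) := by
    intro g h
    rw [← map_mul, hι, hι, hι, mul_inv_rev, map_mul ρ, map_mul δ, Units.val_mul,
      smul_mul_smul_comm, mul_comm (δ h : E)]
  have hanti1 : ∀ (a : End E U) (h : G), τ (a * ρ h) • (1 : End E U) - a * ρ h
      = (τ (ρ h) • (1 : End E U) - ρ h) * (τ a • (1 : End E U) - a) := by
    intro a h
    induction hmem a using Submodule.span_induction with
    | mem x hx =>
      obtain ⟨g, rfl⟩ := hx
      exact hanti0 g h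
    | zero => simp
    | add x y _ _ hx hy =>
      rw [add_mul, map_add, add_smul, map_add, add_smul, add_sub_add_comm, hx, hy, ← mul_add]
      congr 1
      abel
    | smul r x _ hx =>
      rw [smul_mul_assoc, map_smul, map_smul, smul_eq_mul, smul_eq_mul, ← smul_smul, ← smul_sub,
        hx, ← smul_smul, ← smul_sub, mul_smul_comm]
  have hanti : ∀ a b : End E U, τ (a * b) • (1 : End E U) - a * b
      = (τ b • (1 : End E U) - b) * (τ a • (1 : End E U) - a) := by
    intro a b
    induction hmem b using Submodule.span_induction with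
    | mem x hx =>
      obtain ⟨h, rfl⟩ := hx
      exact hanti1 a h
    | zero => simp
    | add x y _ _ hx hy =>
      rw [mul_add, map_add, add_smul, map_add, add_smul, add_sub_add_comm, hx, hy, ← add_mul]
      congr 1
      abel
    | smul r x _ hx =>
      rw [mul_smul_comm, map_smul, map_smul, smul_eq_mul, smul_eq_mul, ← smul_smul, ← smul_sub,
        hx, ← smul_smul, ← smul_sub, smul_mul_assoc]
  -- the quadratic relation
  have hquad : ∀ a : End E U,
      a * a = τ a • a + ((τ (a * a) - τ a * τ a) / 2) • (1 : End E U) := by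
    intro a
    have h1 := hanti a a
    rw [sub_mul, mul_sub, mul_sub, smul_mul_smul_comm, mul_one, smul_mul_assoc, one_mul,
      mul_smul_comm, mul_one] at h1
    have hc : (2 : E) * ((τ (a * a) - τ a * τ a) / 2) = τ (a * a) - τ a * τ a :=
      mul_div_cancel₀ _ h2
    have h3 : (2 : E) • (a * a)
        = (2 : E) • (τ a • a + ((τ (a * a) - τ a * τ a) / 2) • (1 : End E U)) := by
      rw [smul_add, smul_smul 2 ((τ (a * a) - τ a * τ a) / 2), hc]
      linear_combination (norm := module) (-1 : E) • h1
    exact smul_right_injective _ h2 h3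
  refine ⟨finrank_le_two_of_quadratic fun a => ⟨_, _, hquad a⟩, fun hd2 g => ?_⟩
  -- dimension two: `τ = trace`
  have hCH := mul_self_eq_of_finrank_two (E := E) (U := U) hd2
  have htr_ns : ∀ a : End E U, (∀ c : E, a ≠ c • (1 : End E U)) → τ a = LinearMap.trace E U a := by
    intro a ha
    by_contra hne
    have h1 := hCH a
    rw [hquad a] at h1
    have h3 : (LinearMap.trace E U a - τ a) • a
        = (((τ (a * a) - τ a * τ a) / 2) + LinearMap.det a) • (1 : End E U) := by
      linear_combination (norm := module) (-1 : E) • h1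
    have h4 : LinearMap.trace E U a - τ a ≠ 0 := sub_ne_zero.mpr (Ne.symm hne)
    refine ha ((LinearMap.trace E U a - τ a)⁻¹ * (((τ (a * a) - τ a * τ a) / 2) + LinearMap.det a)) ?_
    rw [← smul_smul, ← h3, smul_smul, inv_mul_cancel₀ h4, one_smul]
  obtain ⟨a0, ha0⟩ := exists_not_scalar (E := E) (U := U) (le_of_eq hd2.symm)
  have htr : ∀ a : End E U, τ a = LinearMap.trace E U a := by
    intro a
    by_cases ha : ∀ c : E, a ≠ c • (1 : End E U)
    · exact htr_ns a ha
    · push Not at ha
      obtain ⟨c, rfl⟩ := ha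
      have h1 : ∀ d : E, c • (1 : End E U) + a0 ≠ d • (1 : End E U) := by
        intro d hd'
        refine ha0 (d - c) ?_
        rw [sub_smul, ← hd']
        abel
      have h3 := htr_ns _ h1
      rw [map_add, map_add, htr_ns a0 ha0] at h3
      exact add_right_cancel h3
  refine ⟨?_, ?_⟩
  · have h1 := hι g
    rw [htr] at h1
    have h3 : LinearMap.det (ρ g) • (1 : End E U) = (δ g : E) • (1 : End E U) := by
      have h4 : ρ g * ((δ g : E) • ρ g⁻¹) = (δ g : E) • (1 : End E U) := by
        rw [mul_smul_comm, ← map_mul, mul_inv_cancel, map_one]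
      rw [← h4, ← h1, mul_sub, mul_smul_comm, mul_one, hCH (ρ g)]
      abel
    exact smul_one_injective h3
  · rw [← htr, hτ]

end Adjugate

/-! ### Burnside's theorem -/

section Burnside

variable {G : Type*} [Monoid G] (ρ : Representation E G U)

/-- Schur's lemma over an algebraically closed field, elementary form: an endomorphism commuting
with an irreducible family is a scalar. -/
lemma schur_scalar [IsAlgClosed E] [FiniteDimensional E U] [Nontrivial U]
    (hirr : ∀ W : Submodule E U, (∀ g, ∀ u ∈ W, ρ g u ∈ W) → W = ⊥ ∨ W = ⊤)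
    (φ : End E U) (hφ : ∀ g u, φ (ρ g u) = ρ g (φ u)) : ∃ c : E, ∀ u, φ u = c • u := by
  obtain ⟨c, hc⟩ := Module.End.exists_eigenvalue φ
  refine ⟨c, fun u => ?_⟩
  have h1 : Module.End.eigenspace φ c = ⊤ := by
    rcases hirr (Module.End.eigenspace φ c) (fun g u hu => by
      rw [Module.End.mem_eigenspace_iff] at hu ⊢
      rw [hφ, hu, map_smul]) with h | h
    · exact absurd h hc
    · exact h
  have h2 : u ∈ Module.End.eigenspace φ c := by rw [h1]; trivial
  exact Module.End.mem_eigenspace_iff.mp h2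

/-- **Burnside's theorem**: an irreducible finite-dimensional representation over an
algebraically closed field spans the full endomorphism algebra. -/
theorem burnside [IsAlgClosed E] [FiniteDimensional E U] [Nontrivial U]
    (hirr : ∀ W : Submodule E U, (∀ g, ∀ u ∈ W, ρ g u ∈ W) → W = ⊥ ∨ W = ⊤) :
    Submodule.span E (Set.range ρ) = ⊤ := by
  classical
  -- the subalgebra generated by `ρ(G)` is its span
  let S : Subalgebra E (End E U) := Algebra.adjoin E (Set.range ρ)
  have hSspan : Subalgebra.toSubmodule S = Submodule.span E (Set.range ρ) := by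
    have h1 : (Submonoid.closure (Set.range ρ) : Set (End E U)) = Set.range ρ := by
      rw [← MonoidHom.coe_mrange, Submonoid.closure_eq]
    rw [Algebra.adjoin_eq_span, h1]
  have hρS : ∀ g, ρ g ∈ S := fun g => Algebra.subset_adjoin ⟨g, rfl⟩
  have hsmul : ∀ (r : S) (u : U), r • u = (r : End E U) u := fun r u => rfl
  -- `U` is a simple `S`-module
  have hsimple : IsSimpleModule S U := by
    rw [isSimpleModule_iff]
    refine { exists_pair_ne := ⟨⊥, ⊤, bot_ne_top⟩, eq_bot_or_eq_top := fun W => ?_ }
    let W' : Submodule E U :=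
      { carrier := W
        add_mem' := W.add_mem
        zero_mem' := W.zero_mem
        smul_mem' := fun c u hu => by
          have h1 := W.smul_mem (algebraMap E S c) hu
          rw [hsmul] at h1
          simpa using h1 }
    rcases hirr W' (fun g u hu => by
      have h1 := W.smul_mem (⟨ρ g, hρS g⟩ : S) hu
      exact h1) with h | h
    · left
      ext u
      have h1 : u ∈ W' ↔ u ∈ (⊥ : Submodule E U) := by rw [h]
      exact h1
    · right
      ext u
      have h1 : u ∈ W' ↔ u ∈ (⊤ : Submodule E U) := by rw [h]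
      exact ⟨fun _ => trivial, fun _ => h1.mpr trivial⟩
  -- every `S`-endomorphism is a scalar
  have hschur : ∀ φ : End S U, ∃ c : E, ∀ u, φ u = c • u := by
    intro φ
    let φE : End E U :=
      { toFun := φ
        map_add' := φ.map_add
        map_smul' := fun c u => by
          have h1 := φ.map_smul (algebraMap E S c) u
          rw [hsmul, hsmul] at h1
          simp }
    exact schur_scalar ρ hirr φE (fun g u => φ.map_smul (⟨ρ g, hρS g⟩ : S) u)
  rw [eq_top_iff]
  intro f0 _
  -- `f0` is linear over `End S U`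
  let f : End (End S U) U :=
    { toFun := f0
      map_add' := f0.map_add
      map_smul' := fun φ u => by
        obtain ⟨c, hc⟩ := hschur φ
        simp only [RingHom.id_apply, Module.End.smul_def, hc, map_smul] }
  let b := Module.finBasis E U
  obtain ⟨r, hr⟩ := jacobson_density (R := S) f (Finset.univ.image b)
  have h1 : f0 = (r : End E U) := by
    refine b.ext fun i => ?_
    exact hr (b i) (Finset.mem_image_of_mem _ (Finset.mem_univ i))
  rw [← hSspan, h1]
  exact r.2

end Burnside

/-! ### Consumer forms -/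

section Consumer

variable {G : Type*} [Group G] (ρ : Representation E G U) (δ : G →* Eˣ) (t : G → E)

/-- Adjugate lemma, characteristic polynomial form: `dim U = 2`, `ρ(G)` spans `End U`. -/
theorem charpoly_eq_of_span (h2 : (2 : E) ≠ 0) [FiniteDimensional E U]
    (hρ : ∀ g, ρ g + (δ g : E) • ρ g⁻¹ = t g • LinearMap.id)
    (hspan : Submodule.span E (Set.range ρ) = ⊤) (hd : finrank E U = 2) (g : G) :
    (ρ g).charpoly = X ^ 2 - C (t g) * X + C (δ g : E) := by
  obtain ⟨h1, h3⟩ := (adjugate_of_span ρ δ t h2 hρ hspan).2 hd g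
  rw [charpoly_of_finrank_two hd, h1, h3]

/-- **Adjugate lemma for irreducible representations over an algebraically closed field.** -/
theorem adjugate_of_irreducible [IsAlgClosed E] (h2 : (2 : E) ≠ 0) [FiniteDimensional E U]
    [Nontrivial U] (hρ : ∀ g, ρ g + (δ g : E) • ρ g⁻¹ = t g • LinearMap.id)
    (hirr : ∀ W : Submodule E U, (∀ g, ∀ u ∈ W, ρ g u ∈ W) → W = ⊥ ∨ W = ⊤) :
    (finrank E U = 1 ∨ finrank E U = 2) ∧ (finrank E U = 2 →
      ∀ g, (ρ g).charpoly = X ^ 2 - C (t g) * X + C (δ g : E)) := by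
  have hspan := burnside ρ hirr
  have h1 := (adjugate_of_span ρ δ t h2 hρ hspan).1
  have h3 : 0 < finrank E U := Module.finrank_pos
  exact ⟨by omega, fun hd g => charpoly_eq_of_span ρ δ t h2 hρ hspan hd g⟩

/-- The dimension one case: `ρ = ψ` is a character with `ψ + δ ψ⁻¹ = t`. -/
theorem exists_character_of_finrank_one (hd : finrank E U = 1)
    (hρ : ∀ g, ρ g + (δ g : E) • ρ g⁻¹ = t g • LinearMap.id) :
    ∃ ψ : G →* Eˣ, (∀ g, ρ g = (ψ g : E) • (1 : End E U)) ∧
      ∀ g, (ψ g : E) + (δ g : E) * (ψ g : E)⁻¹ = t g := by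
  have hnt : Nontrivial U := Module.nontrivial_of_finrank_pos (R := E) (by omega)
  choose c hc using fun g => exists_eq_smul_one_of_finrank_one hd (ρ g)
  have hc1 : c 1 = 1 := by
    apply smul_one_injective (U := U)
    rw [← hc, map_one, one_smul]
  have hcm : ∀ g h, c (g * h) = c g * c h := by
    intro g h
    apply smul_one_injective (U := U)
    rw [← hc, map_mul, hc g, hc h, smul_mul_smul_comm, mul_one]
  have hc0 : ∀ g, c g ≠ 0 := by
    intro g h0
    have h1 := hcm g g⁻¹
    rw [mul_inv_cancel, hc1, h0, zero_mul] at h1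
    exact one_ne_zero h1
  let ψ : G →* Eˣ :=
    { toFun := fun g => Units.mk0 (c g) (hc0 g)
      map_one' := Units.ext hc1
      map_mul' := fun g h => Units.ext (hcm g h) }
  refine ⟨ψ, hc, fun g => ?_⟩
  have h1 := hρ g
  have h3 : c g⁻¹ = (c g)⁻¹ := by
    have h4 := hcm g g⁻¹
    rw [mul_inv_cancel, hc1] at h4
    exact eq_inv_of_mul_eq_one_right h4.symm
  rw [hc g, hc g⁻¹, smul_smul, ← add_smul, h3] at h1
  exact smul_one_injective (U := U) h1

end Consumer

/-! ### Packaged form: a stable subspace of dimension `≤ 2` -/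

section Packaged

variable {G : Type*} [Group G] (ρ : Representation E G U)

/-- The restriction of a representation to a stable subspace. -/
def resRep (W : Submodule E U) (hW : ∀ g, ∀ u ∈ W, ρ g u ∈ W) : Representation E G W where
  toFun g := (ρ g).restrict (hW g)
  map_one' := by
    ext u
    simp
  map_mul' g h := by
    ext u
    simp

@[simp] lemma resRep_apply (W : Submodule E U) (hW : ∀ g, ∀ u ∈ W, ρ g u ∈ W) (g : G) (u : W) :
    (resRep ρ W hW g u : U) = ρ g u := rfl

/-- A minimal nonzero stable subspace exists in finite dimension. -/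
lemma exists_minimal_stable [FiniteDimensional E U] [Nontrivial U] :
    ∃ W : Submodule E U, W ≠ ⊥ ∧ (∀ g, ∀ u ∈ W, ρ g u ∈ W) ∧
      ∀ W' : Submodule E U, W' ≤ W → (∀ g, ∀ u ∈ W', ρ g u ∈ W') → W' = ⊥ ∨ W' = W := by
  classical
  have hex : ∃ n : ℕ, ∃ W : Submodule E U, W ≠ ⊥ ∧ (∀ g, ∀ u ∈ W, ρ g u ∈ W) ∧
      finrank E W = n := ⟨_, ⊤, top_ne_bot, fun _ _ _ => trivial, rfl⟩
  obtain ⟨W, hW0, hWs, hWn⟩ := Nat.find_spec hex
  refine ⟨W, hW0, hWs, fun W' hle hs => ?_⟩
  by_cases h0 : W' = ⊥
  · exact Or.inl h0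
  · right
    have h1 : Nat.find hex ≤ finrank E W' := Nat.find_min' hex ⟨W', h0, hs, rfl⟩
    exact Submodule.eq_of_le_of_finrank_le hle (by omega)

/-- **Packaged adjugate lemma.**  Over an algebraically closed field of characteristic `≠ 2`, a
nonzero finite-dimensional representation with `ρ g + δ g • ρ g⁻¹ = t g • 1` contains a stable
subspace `W` which is either of dimension `2` with `charpoly (ρ g | W) = X² - t g X + δ g`, or a
line on which `G` acts through a character `ψ` with `ψ + δ ψ⁻¹ = t`. -/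
theorem exists_stable_charpoly [IsAlgClosed E] (h2 : (2 : E) ≠ 0) [FiniteDimensional E U]
    [Nontrivial U] (δ : G →* Eˣ) (t : G → E)
    (hρ : ∀ g, ρ g + (δ g : E) • ρ g⁻¹ = t g • LinearMap.id) :
    ∃ (W : Submodule E U) (hW : ∀ g, ∀ u ∈ W, ρ g u ∈ W),
      (finrank E W = 2 ∧
        ∀ g, (resRep ρ W hW g).charpoly = X ^ 2 - C (t g) * X + C (δ g : E)) ∨
      (finrank E W = 1 ∧ ∃ ψ : G →* Eˣ, (∀ g, ∀ u ∈ W, ρ g u = (ψ g : E) • u) ∧
        ∀ g, (ψ g : E) + (δ g : E) * (ψ g : E)⁻¹ = t g) := by
  obtain ⟨W, hW0, hWs, hWmin⟩ := exists_minimal_stable ρ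
  refine ⟨W, hWs, ?_⟩
  have hnt : Nontrivial W := (Submodule.nontrivial_iff_ne_bot).mpr hW0
  have hρW : ∀ g, resRep ρ W hWs g + (δ g : E) • resRep ρ W hWs g⁻¹ = t g • LinearMap.id := by
    intro g
    ext u
    have h1 := LinearMap.congr_fun (hρ g) (u : U)
    simpa using h1
  have hirr : ∀ V : Submodule E W, (∀ g, ∀ u ∈ V, resRep ρ W hWs g u ∈ V) → V = ⊥ ∨ V = ⊤ := by
    intro V hV
    rcases hWmin (V.map W.subtype) (Submodule.map_subtype_le W V) (by
      rintro g _ ⟨u, hu, rfl⟩
      exact ⟨resRep ρ W hWs g u, hV g u hu, rfl⟩) with h | h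
    · left
      apply Submodule.map_injective_of_injective W.injective_subtype
      rw [h, Submodule.map_bot]
    · right
      apply Submodule.map_injective_of_injective W.injective_subtype
      rw [h, Submodule.map_subtype_top]
  obtain ⟨hdim, hcp⟩ := adjugate_of_irreducible (resRep ρ W hWs) δ t h2 hρW hirr
  rcases hdim with hd | hd
  · right
    obtain ⟨ψ, hψ, hψt⟩ := exists_character_of_finrank_one (resRep ρ W hWs) δ t hd hρW
    refine ⟨hd, ψ, fun g u hu => ?_, hψt⟩
    have h1 := LinearMap.congr_fun (hψ g) ⟨u, hu⟩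
    have h3 := congrArg Subtype.val h1
    simpa using h3
  · exact Or.inl ⟨hd, hcp hd⟩

end Packaged

end Fermat.Agent.Lib.AdjugateLemma
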