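import Mathlib

set_option autoImplicit false

namespace Fermat.Agent.Lib.ArtinCharpoly

open Polynomial Module

section blockDiagonal

variable {R : Type*} [CommRing R] {o : Type*} [Fintype o] [DecidableEq o]
  {n : o → Type*} [∀ i, Fintype (n i)] [∀ i, DecidableEq (n i)]

/-- Determinant of a block diagonal matrix with blocks of varying size. -/
theorem det_blockDiagonal' (M : ∀ i, Matrix (n i) (n i) R) :
    (Matrix.blockDiagonal' M).det = ∏ i, (M i).det := by
  let _ : LinearOrder o := LinearOrder.lift' (Fintype.equivFin o) (Fintype.equivFin o).injective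
  rw [(Matrix.blockTriangular_blockDiagonal' M).det_fintype]
  refine Finset.prod_congr rfl fun i _ => ?_
  let e : n i ≃ {x : Σ i, n i // x.1 = i} :=
    { toFun := fun a => ⟨⟨i, a⟩, rfl⟩
      invFun := fun x => x.2 ▸ x.1.2
      left_inv := fun a => rfl
      right_inv := by
        rintro ⟨⟨j, a⟩, h⟩
        cases h
        rfl }
  rw [← Matrix.det_submatrix_equiv_self e]
  congr 1
  ext a b
  simp [Matrix.toSquareBlock_def, e, Matrix.blockDiagonal'_apply]

theorem charmatrix_blockDiagonal' (M : ∀ i, Matrix (n i) (n i) R) :
    (Matrix.blockDiagonal' M).charmatrix =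
      Matrix.blockDiagonal' fun i => (M i).charmatrix := by
  ext ⟨i, a⟩ ⟨j, b⟩
  by_cases hij : i = j
  · subst hij
    by_cases hab : a = b
    · subst hab
      simp
    · have : (⟨i, a⟩ : Σ i, n i) ≠ ⟨i, b⟩ := fun h => hab (by simpa using h)
      simp [Matrix.charmatrix_apply, Matrix.diagonal_apply_ne _ this,
        Matrix.diagonal_apply_ne _ hab]
  · have : (⟨i, a⟩ : Σ i, n i) ≠ ⟨j, b⟩ := fun h => hij (by simpa using congrArg Sigma.fst h)
    simp [Matrix.charmatrix_apply, Matrix.diagonal_apply_ne _ this,
      Matrix.blockDiagonal'_apply_ne _ _ _ hij]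

/-- Characteristic polynomial of a block diagonal matrix with blocks of varying size. -/
theorem charpoly_blockDiagonal' (M : ∀ i, Matrix (n i) (n i) R) :
    (Matrix.blockDiagonal' M).charpoly = ∏ i, (M i).charpoly := by
  simp only [Matrix.charpoly, charmatrix_blockDiagonal', det_blockDiagonal']

end blockDiagonal

section pi

variable {R : Type*} [CommRing R] {ι : Type*} [Fintype ι] [DecidableEq ι]
  {V : ι → Type*} [∀ i, AddCommGroup (V i)] [∀ i, Module R (V i)]
  [∀ i, Module.Free R (V i)] [∀ i, Module.Finite R (V i)]

/-- Characteristic polynomial of a componentwise endomorphism of a finite product of finite free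
modules. -/
theorem charpoly_pi (φ : ∀ i, V i →ₗ[R] V i) :
    (LinearMap.pi fun i => φ i ∘ₗ LinearMap.proj i : (∀ i, V i) →ₗ[R] ∀ i, V i).charpoly =
      ∏ i, (φ i).charpoly := by
  classical
  let b : ∀ i, Basis (Free.ChooseBasisIndex R (V i)) R (V i) := fun i => Free.chooseBasis R (V i)
  let B := Pi.basis b
  have key : LinearMap.toMatrix B B (LinearMap.pi fun i => φ i ∘ₗ LinearMap.proj i) =
      Matrix.blockDiagonal' fun i => LinearMap.toMatrix (b i) (b i) (φ i) := by
    ext ⟨i₁, i₂⟩ ⟨j₁, j₂⟩
    simp only [LinearMap.toMatrix_apply, Matrix.blockDiagonal'_apply, B, Pi.basis_apply,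
      Pi.basis_repr, LinearMap.pi_apply, LinearMap.coe_comp, Function.comp_apply,
      LinearMap.coe_proj, Function.eval]
    split_ifs with h
    · subst h
      simp
    · rw [Pi.single_eq_of_ne h]
      simp
  rw [← LinearMap.charpoly_toMatrix _ B, key, charpoly_blockDiagonal']
  exact Finset.prod_congr rfl fun i _ => LinearMap.charpoly_toMatrix (φ i) (b i)

end pi

section nilpotent

variable {R V : Type*} [CommRing R] [IsDomain R] [AddCommGroup V] [Module R V]
  [Module.Finite R V] [Module.Free R V]

/-- An endomorphism which is a scalar plus a nilpotent has characteristic polynomial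
`(X - c) ^ rank`. -/
theorem charpoly_eq_pow_of_isNilpotent_sub (φ : Module.End R V) (c : R)
    (h : IsNilpotent (φ - c • (1 : Module.End R V))) :
    φ.charpoly = (X - C c) ^ finrank R V := by
  have h1 := h.charpoly_eq_X_pow_finrank
  rw [LinearMap.charpoly_sub_smul] at h1
  have h2 := congrArg (fun p : R[X] => p.comp (X - C c)) h1
  simp only [Polynomial.comp_assoc] at h2
  simpa using h2

end nilpotent

section artinian

variable {k R : Type*} [Field k] [CommRing R] [Algebra k R] [Module.Finite k R]

/-- In an Artinian ring, the image of an element of a prime `q` in the localization at `q`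
is nilpotent. -/
theorem isNilpotent_algebraMap_localization [IsArtinianRing R] (q : Ideal R) [q.IsPrime]
    {x : R} (hx : x ∈ q) : IsNilpotent (algebraMap R (Localization.AtPrime q) x) := by
  obtain ⟨n, hn⟩ := IsArtinianRing.isNilpotent_jacobson_bot (R := Localization.AtPrime q)
  refine ⟨n, ?_⟩
  have h1 : algebraMap R (Localization.AtPrime q) x ∈
      IsLocalRing.maximalIdeal (Localization.AtPrime q) :=
    (IsLocalization.AtPrime.to_map_mem_maximal_iff (Localization.AtPrime q) q x).mpr hx
  rw [← IsLocalRing.jacobson_eq_maximalIdeal ⊥ bot_ne_top] at h1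
  have h2 := Ideal.pow_mem_pow h1 n
  rw [hn] at h2
  simpa using h2

/-- **Characteristic polynomial on a finite algebra over a field** (Artinian form): if `b`
takes the value `c q ∈ k` at every prime `q` of the finite `k`-algebra `R`, then the
characteristic polynomial of multiplication by `b` is `∏ q, (X - c q) ^ dim_k R_q`. -/
theorem charpoly_lmul_eq_prod [Fintype (PrimeSpectrum R)] (b : R) (c : PrimeSpectrum R → k)
    (hc : ∀ q : PrimeSpectrum R, b - algebraMap k R (c q) ∈ q.asIdeal) :
    (Algebra.lmul k R b).charpoly =
      ∏ q : PrimeSpectrum R, (X - C (c q)) ^ finrank k (Localization.AtPrime q.asIdeal) := by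
  classical
  have : IsArtinianRing R := IsArtinianRing.of_finite k R
  have hfin (q : PrimeSpectrum R) : Module.Finite k (Localization.AtPrime q.asIdeal) :=
    Module.Finite.of_surjective (Algebra.algHom k R (Localization.AtPrime q.asIdeal)).toLinearMap
      (IsArtinianRing.localization_surjective q.asIdeal.primeCompl _)
  let e : R ≃ₗ[k] PrimeSpectrum.PiLocalization R :=
    ((PrimeSpectrum.toPiLocalizationEquiv R).restrictScalars k).toLinearEquiv
  have key : e.conj (Algebra.lmul k R b) = LinearMap.pi fun q =>
      (Algebra.lmul k (Localization.AtPrime q.asIdeal) (algebraMap R _ b)) ∘ₗ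
        LinearMap.proj q := by
    apply LinearMap.ext
    intro y
    obtain ⟨x, rfl⟩ := e.surjective y
    ext q
    simp [e, LinearEquiv.conj_apply]
  rw [← LinearEquiv.charpoly_conj e, key, charpoly_pi]
  refine Finset.prod_congr rfl fun q _ => ?_
  apply charpoly_eq_pow_of_isNilpotent_sub
  have h1 : Algebra.lmul k (Localization.AtPrime q.asIdeal) (algebraMap R _ b) -
      c q • (1 : Module.End k (Localization.AtPrime q.asIdeal)) =
      Algebra.lmul k (Localization.AtPrime q.asIdeal)
        (algebraMap R _ (b - algebraMap k R (c q))) := by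
    apply LinearMap.ext
    intro y
    simp [Algebra.smul_def, ← IsScalarTower.algebraMap_apply]
  rw [h1]
  exact (isNilpotent_algebraMap_localization q.asIdeal (hc q)).map
    (Algebra.lmul k (Localization.AtPrime q.asIdeal))

end artinian

section fibre

variable {A : Type*} [CommRing A] (p : Ideal A) [p.IsPrime] (B : Type*) [CommRing B] [Algebra A B]

open IsLocalRing OrderIso PrimeSpectrum Ideal in
/-- Termwise form of Mathlib's `Ideal.sum_ramification_inertia_eq_finrank_fiber`: the local
degree of the fibre at a prime is `e * f`. -/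
theorem finrank_localization_fiber [Algebra.QuasiFinite A B] (q : PrimeSpectrum (p.Fiber B)) :
    finrank p.ResidueField (Localization.AtPrime q.asIdeal) =
      ((primesOverOrderIsoFiber A B p).symm q).1.ramificationIdx A *
        ((primesOverOrderIsoFiber A B p).symm q).1.inertiaDeg A := by
  symm
  simp_rw [coe_primesOverOrderIsoFiber_symm_apply]
  set r := q.1.comap Algebra.TensorProduct.includeRight
  let := Localization.AtPrime.algebraOfLiesOver p r
  rw [ramificationIdx_eq p r, inertiaDeg_eq p r]
  let Rp := Localization.AtPrime p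
  let Sq := Localization.AtPrime q.1
  let Sr := Localization.AtPrime r
  let κp := p.ResidueField
  let κr := r.ResidueField
  let A' := Sr ⧸ p.map (algebraMap A Sr)
  suffices length Sr A' * finrank κp κr = finrank κp Sq by simpa using congr_arg ENat.toNat this
  calc length Sr A' * finrank κp κr = length Sr A' * length κp κr := by rw [length_eq_finrank]
    _ = length Rp A' := (length_restrictScalars Rp Sr A').symm
    _ = length Rp Sq := (Fiber.localizationAlgEquivQuotient p q.1).toLinearEquiv.length_eq.symm
    _ = length κp Sq := length_eq_of_surjective residue_surjective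
    _ = finrank κp Sq := length_eq_finrank κp Sq

open Ideal PrimeSpectrum TensorProduct in
/-- **Characteristic polynomial at a prime = product over the fibre.**  `B` a finite free
`A`-algebra, `p` a prime of `A`, and `b : B` taking the value `c Q ∈ A` modulo each prime `Q` of
`B` over `p`.  Then the characteristic polynomial of `b` over `A`, read in the residue field
of `p`, is `∏_Q (X - c Q) ^ (e(Q|p) * f(Q|p))`. -/
theorem charpoly_map_residueField_eq_prod [Module.Free A B] [Module.Finite A B]
    [Fintype (p.primesOver B)] (b : B) (c : p.primesOver B → A)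
    (hc : ∀ Q : p.primesOver B, b - algebraMap A B (c Q) ∈ Q.1) :
    (Algebra.lmul A B b).charpoly.map (algebraMap A p.ResidueField) =
      ∏ Q : p.primesOver B, (X - C (algebraMap A p.ResidueField (c Q))) ^
        (Q.1.ramificationIdx A * Q.1.inertiaDeg A) := by
  classical
  let := Fintype.ofFinite (PrimeSpectrum (p.Fiber B))
  rw [← LinearMap.charpoly_baseChange, Algebra.baseChange_lmul]
  have h := charpoly_lmul_eq_prod (k := p.ResidueField) (R := p.Fiber B) ((1 : p.ResidueField) ⊗ₜ[A] b)
    (fun q => algebraMap A p.ResidueField (c ((primesOverOrderIsoFiber A B p).symm q))) ?_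
  · rw [h]
    refine Fintype.prod_equiv (primesOverOrderIsoFiber A B p).symm.toEquiv _ _ fun q => ?_
    rw [finrank_localization_fiber]
    rfl
  · intro q
    have h1 := hc ((primesOverOrderIsoFiber A B p).symm q)
    rw [coe_primesOverOrderIsoFiber_symm_apply, Ideal.mem_comap] at h1
    convert h1 using 1
    rw [Algebra.TensorProduct.includeRight_apply, TensorProduct.tmul_sub,
      Algebra.TensorProduct.algebraMap_apply, Algebra.algebraMap_eq_smul_one (A := B),
      Algebra.algebraMap_eq_smul_one (A := p.ResidueField), TensorProduct.tmul_smul,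
      TensorProduct.smul_tmul']
    congr 2
    simp [Algebra.smul_def]

open Ideal in
/-- Variant of `charpoly_map_residueField_eq_prod` read through any ring hom `φ : A →+* k` to a
field with kernel `p` (e.g. evaluation at a place): the characteristic polynomial of `b`,
mapped by `φ`, is `∏_Q (X - φ (c Q)) ^ (e(Q|p) * f(Q|p))`. -/
theorem charpoly_map_eq_prod {k : Type*} [Field k] (φ : A →+* k) (hφ : RingHom.ker φ = p)
    [Module.Free A B] [Module.Finite A B] [Fintype (p.primesOver B)] (b : B)
    (c : p.primesOver B → A) (hc : ∀ Q : p.primesOver B, b - algebraMap A B (c Q) ∈ Q.1) :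
    (Algebra.lmul A B b).charpoly.map φ =
      ∏ Q : p.primesOver B, (X - C (φ (c Q))) ^ (Q.1.ramificationIdx A * Q.1.inertiaDeg A) := by
  have hunit : p.primeCompl ≤ (IsUnit.submonoid k).comap φ := by
    intro x hx
    have hx' : φ x ≠ 0 := fun h0 => hx (hφ ▸ (RingHom.mem_ker.mpr h0))
    exact hx'.isUnit
  let ψ : p.ResidueField →+* k := Ideal.ResidueField.lift p φ hφ.ge hunit
  have hψ : ψ.comp (algebraMap A p.ResidueField) = φ :=
    RingHom.ext fun r => Ideal.ResidueField.lift_algebraMap p φ hφ.ge hunit r
  have h := congrArg (Polynomial.map ψ) (charpoly_map_residueField_eq_prod p B b c hc)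
  rw [Polynomial.map_map, hψ, Polynomial.map_prod] at h
  rw [h]
  refine Finset.prod_congr rfl fun Q _ => ?_
  have hc' : ψ (algebraMap A p.ResidueField (c Q)) = φ (c Q) := by
    rw [← RingHom.comp_apply, hψ]
  rw [Polynomial.map_pow, Polynomial.map_sub, Polynomial.map_X, Polynomial.map_C, hc']

open Ideal in
/-- A prime `Q` over a maximal ideal `p` whose residue field is hit by `A` has inertia degree
one. -/
theorem inertiaDeg_eq_one_of_forall_exists [p.IsMaximal] (Q : Ideal B) [Q.IsMaximal]
    [Q.LiesOver p] (h : ∀ x : B, ∃ a : A, x - algebraMap A B a ∈ Q) : Q.inertiaDeg A = 1 := by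
  rw [inertiaDeg_eq_of_isMaximal p Q]
  let _ : Field (A ⧸ p) := Quotient.field p
  let _ : Field (B ⧸ Q) := Quotient.field Q
  have hs : Function.Surjective (algebraMap (A ⧸ p) (B ⧸ Q)) := by
    intro y
    obtain ⟨x, rfl⟩ := Ideal.Quotient.mk_surjective y
    obtain ⟨a, ha⟩ := h x
    refine ⟨Ideal.Quotient.mk p a, ?_⟩
    rw [Ideal.Quotient.algebraMap_mk_of_liesOver, eq_comm, Ideal.Quotient.eq]
    exact ha
  rw [← Subalgebra.bot_eq_top_iff_finrank_eq_one]
  exact (Algebra.surjective_algebraMap_iff.mp hs).symm

open Ideal in
/-- **Residue degree one form** (e.g. algebraically closed residue field): `p` maximal and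
every residue class of `B` modulo a prime over `p` is represented by an element of `A`. Then
`χ_b` read through `φ` is `∏_Q (X - φ (c Q)) ^ e(Q|p)`. -/
theorem charpoly_map_eq_prod_ramificationIdx {k : Type*} [Field k] (φ : A →+* k)
    (hφ : RingHom.ker φ = p) [p.IsMaximal] [Module.Free A B] [Module.Finite A B]
    [Fintype (p.primesOver B)]
    (hres : ∀ Q : p.primesOver B, ∀ x : B, ∃ a : A, x - algebraMap A B a ∈ Q.1) (b : B)
    (c : p.primesOver B → A) (hc : ∀ Q : p.primesOver B, b - algebraMap A B (c Q) ∈ Q.1) :
    (Algebra.lmul A B b).charpoly.map φ =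
      ∏ Q : p.primesOver B, (X - C (φ (c Q))) ^ (Q.1.ramificationIdx A) := by
  rw [charpoly_map_eq_prod p B φ hφ b c hc]
  refine Finset.prod_congr rfl fun Q _ => ?_
  have hQp : Q.1.IsPrime := Q.2.1
  have hQl : Q.1.LiesOver p := Q.2.2
  have hQm : Q.1.IsMaximal := by
    have : Algebra.IsIntegral A B := Algebra.IsIntegral.of_finite A B
    exact Ideal.IsMaximal.of_liesOver_isMaximal Q.1 p
  rw [inertiaDeg_eq_one_of_forall_exists p B Q.1 (hres Q), mul_one]

end fibre

section localization

variable (R : Type*) {S : Type*} [CommRing R] [CommRing S] [Algebra R S]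
variable {Rₘ Sₘ : Type*} [CommRing Rₘ] [Algebra R Rₘ] [CommRing Sₘ] [Algebra S Sₘ]
variable (M : Submonoid R)
variable [IsLocalization M Rₘ] [IsLocalization (Algebra.algebraMapSubmonoid S M) Sₘ]
variable [Algebra Rₘ Sₘ] [Algebra R Sₘ] [IsScalarTower R Rₘ Sₘ] [IsScalarTower R S Sₘ]

include M in
/-- The characteristic polynomial of multiplication commutes with localisation (e.g. passage to
fraction fields): companion of Mathlib's `Algebra.norm_localization`. -/
theorem charpoly_lmul_localization [Module.Free R S] [Module.Finite R S]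
    [Module.Free Rₘ Sₘ] [Module.Finite Rₘ Sₘ] (a : S) :
    (Algebra.lmul Rₘ Sₘ (algebraMap S Sₘ a)).charpoly =
      (Algebra.lmul R S a).charpoly.map (algebraMap R Rₘ) := by
  classical
  let b := Module.Free.chooseBasis R S
  rw [← LinearMap.charpoly_toMatrix _ (b.localizationLocalization Rₘ M Sₘ),
    ← LinearMap.charpoly_toMatrix (Algebra.lmul R S a) b, ← Matrix.charpoly_map]
  congr 1
  exact (Algebra.map_leftMulMatrix_localization R M b a).symm

end localization

section field

open Ideal in
/-- **Field form.**  `A` a domain with fraction field `F`, `B` a finite free `A`-algebra whose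
localisation at `A \ {0}` is the field `F'` (e.g. `B` the integral closure of a DVR `A` in a
finite separable extension `F'` of `F`), `p` a prime of `A`, `φ : A →+* k` with kernel `p`.
For `b : B` taking the value `c Q` modulo each prime `Q` over `p`, the characteristic polynomial
of `b` over `F` has coefficients in `A` and its image under `φ` is
`∏_Q (X - φ (c Q)) ^ (e(Q|p) * f(Q|p))`. -/
theorem exists_charpoly_eq_map_and_map_eq_prod
    {A B F F' k : Type*} [CommRing A] [CommRing B] [Algebra A B] [Field F] [Field F']
    [Algebra A F] [Algebra B F'] [Algebra F F'] [Algebra A F'] [IsScalarTower A F F']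
    [IsScalarTower A B F'] (M : Submonoid A) [IsLocalization M F]
    [IsLocalization (Algebra.algebraMapSubmonoid B M) F']
    [FiniteDimensional F F'] [Module.Free A B] [Module.Finite A B]
    (p : Ideal A) [p.IsPrime] [Field k] (φ : A →+* k) (hφ : RingHom.ker φ = p)
    [Fintype (p.primesOver B)] (b : B) (c : p.primesOver B → A)
    (hc : ∀ Q : p.primesOver B, b - algebraMap A B (c Q) ∈ Q.1) :
    ∃ P : A[X], (Algebra.lmul F F' (algebraMap B F' b)).charpoly = P.map (algebraMap A F) ∧
      P.Monic ∧ P.natDegree = finrank F F' ∧
      P.map φ = ∏ Q : p.primesOver B,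
        (X - C (φ (c Q))) ^ (Q.1.ramificationIdx A * Q.1.inertiaDeg A) := by
  have h1 := charpoly_lmul_localization A (Rₘ := F) (Sₘ := F') M b
  refine ⟨(Algebra.lmul A B b).charpoly, h1, LinearMap.charpoly_monic _, ?_,
    charpoly_map_eq_prod p B φ hφ b c hc⟩
  have h2 := congrArg Polynomial.natDegree h1
  rw [LinearMap.charpoly_natDegree, (LinearMap.charpoly_monic _).natDegree_map] at h2
  exact h2.symm

end field

end Fermat.Agent.Lib.ArtinCharpoly
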