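/-
P5 (S30), block [DESC], sub-leaf (D1) = the Σ-kit (helper89).  Mathlib only.

`K ⊆ Ω` fields, `Ω` algebraically closed, `Σ := Ω ≃ₐ[K] Ω`.

* `exists_algEquiv_add`            : `t` transcendental over `K`, `c : K` ⟹ some `σ ∈ Σ` has
                                      `σ t = t + c` (transcendence basis through `t`, shift
                                      automorphism of the polynomial ring, extension to `Ω`);
* `infinite_orbit_of_transcendental`: in characteristic zero the `Σ`-orbit of a transcendental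
                                      element is infinite;
* `isAlgebraic_of_finite_orbit`, `isAlgebraic_of_fixed`;
* `mem_range_of_fixed`, `mem_range_of_finite_orbit`, `mem_range_iff_fixed` : for `K`
  algebraically closed, `Ω^Σ = K` and every element with finite orbit lies in `K`;
* `mem_range_of_fixed_of_finiteIndex` : same for an element fixed by a finite-index subgroup.
-/
import Mathlib

set_option autoImplicit false

namespace Fermat.Agent.Lib.AutTranscendental

open MvPolynomial

section Shift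

variable {K : Type*} [CommRing K] {ι : Type*} [DecidableEq ι]

/-- The substitution `X i₀ ↦ X i₀ + c` on `MvPolynomial ι K`. -/
noncomputable def shift (i₀ : ι) (c : K) : MvPolynomial ι K →ₐ[K] MvPolynomial ι K :=
  aeval (fun i => if i = i₀ then X i₀ + C c else X i)

theorem shift_X_self (i₀ : ι) (c : K) : shift i₀ c (X i₀) = X i₀ + C c := by
  simp [shift]

theorem shift_X_of_ne (i₀ : ι) (c : K) {i : ι} (h : i ≠ i₀) : shift i₀ c (X i) = X i := by
  simp [shift, h]

theorem shift_comp_shift_neg (i₀ : ι) (c : K) :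
    (shift i₀ c).comp (shift i₀ (-c)) = AlgHom.id K (MvPolynomial ι K) := by
  ext i
  by_cases h : i = i₀
  · subst h
    simp [shift_X_self]
  · simp [shift_X_of_ne _ _ h]

/-- The shift `X i₀ ↦ X i₀ + c` as an automorphism. -/
noncomputable def shiftEquiv (i₀ : ι) (c : K) : MvPolynomial ι K ≃ₐ[K] MvPolynomial ι K :=
  AlgEquiv.ofAlgHom (shift i₀ c) (shift i₀ (-c)) (shift_comp_shift_neg i₀ c)
    (by simpa using shift_comp_shift_neg i₀ (-c))

theorem shiftEquiv_X_self (i₀ : ι) (c : K) : shiftEquiv i₀ c (X i₀) = X i₀ + C c :=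
  shift_X_self i₀ c

end Shift

variable {K Ω : Type*} [Field K] [Field Ω] [Algebra K Ω] [IsAlgClosed Ω]

/-- A transcendental element of an algebraically closed extension `Ω/K` can be moved to
`t + c` by a `K`-automorphism of `Ω`, for every `c : K`. -/
theorem exists_algEquiv_add (t : Ω) (ht : Transcendental K t) (c : K) :
    ∃ σ : Ω ≃ₐ[K] Ω, σ t = t + algebraMap K Ω c := by
  classical
  have hs : AlgebraicIndepOn K id ({t} : Set Ω) := by
    show AlgebraicIndependent K (fun x : ({t} : Set Ω) => id (x : Ω))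
    rw [algebraicIndependent_unique_type_iff]
    exact ht
  obtain ⟨B, hB, hBt⟩ := exists_isTranscendenceBasis_superset hs
  have htB : t ∈ B := hB rfl
  have : IsAlgClosure (Algebra.adjoin K (Set.range ((↑) : B → Ω))) Ω :=
    IsAlgClosed.isAlgClosure_of_transcendence_basis _ hBt
  let e' : Algebra.adjoin K (Set.range ((↑) : B → Ω)) ≃ₐ[K]
      Algebra.adjoin K (Set.range ((↑) : B → Ω)) :=
    hBt.1.aevalEquiv.symm.trans ((shiftEquiv (⟨t, htB⟩ : B) c).trans hBt.1.aevalEquiv)
  let σ : Ω ≃+* Ω := IsAlgClosure.equivOfEquiv Ω Ω e'.toRingEquiv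
  have hσ : ∀ x : Algebra.adjoin K (Set.range ((↑) : B → Ω)), σ (x : Ω) = (e' x : Ω) := by
    intro x
    exact IsAlgClosure.equivOfEquiv_algebraMap Ω Ω e'.toRingEquiv x
  have hσK : ∀ a : K, σ (algebraMap K Ω a) = algebraMap K Ω a := by
    intro a
    have h1 := hσ (algebraMap K _ a)
    rw [AlgEquiv.commutes] at h1
    exact h1
  refine ⟨AlgEquiv.ofRingEquiv (f := σ) hσK, ?_⟩
  have h2 : hBt.1.aevalEquiv (X (⟨t, htB⟩ : B)) =
      (⟨t, Algebra.subset_adjoin ⟨⟨t, htB⟩, rfl⟩⟩ : Algebra.adjoin K (Set.range ((↑) : B → Ω))) := by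
    apply Subtype.ext
    simp
  have h3 := hσ ⟨t, Algebra.subset_adjoin ⟨⟨t, htB⟩, rfl⟩⟩
  show σ t = _
  rw [h3]
  show ((hBt.1.aevalEquiv (shiftEquiv (⟨t, htB⟩ : B) c (hBt.1.aevalEquiv.symm _)) :
    Algebra.adjoin K (Set.range ((↑) : B → Ω))) : Ω) = _
  rw [← h2, AlgEquiv.symm_apply_apply, shiftEquiv_X_self]
  simp

/-- In characteristic zero, a transcendental element of an algebraically closed extension
`Ω/K` has infinite orbit under `Aut(Ω/K)`. -/
theorem infinite_orbit_of_transcendental [CharZero K] (t : Ω) (ht : Transcendental K t) :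
    (Set.range fun σ : Ω ≃ₐ[K] Ω => σ t).Infinite := by
  have : CharZero Ω := charZero_of_injective_algebraMap (algebraMap K Ω).injective
  have hinj : Function.Injective (fun n : ℕ => t + (n : Ω)) := by
    intro m n h
    exact Nat.cast_injective (add_left_cancel h)
  refine (Set.infinite_range_of_injective hinj).mono ?_
  rintro _ ⟨n, rfl⟩
  obtain ⟨σ, hσ⟩ := exists_algEquiv_add t ht (n : K)
  exact ⟨σ, hσ.trans (by rw [map_natCast])⟩

/-- An element of an algebraically closed extension `Ω/K` with finite orbit under `Aut(Ω/K)` is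
algebraic over `K` (characteristic zero). -/
theorem isAlgebraic_of_finite_orbit [CharZero K] (t : Ω)
    (h : (Set.range fun σ : Ω ≃ₐ[K] Ω => σ t).Finite) : IsAlgebraic K t := by
  by_contra ht
  exact infinite_orbit_of_transcendental t ht h

/-- An element of an algebraically closed extension `Ω/K` fixed by `Aut(Ω/K)` is algebraic
over `K`. -/
theorem isAlgebraic_of_fixed (t : Ω) (h : ∀ σ : Ω ≃ₐ[K] Ω, σ t = t) : IsAlgebraic K t := by
  by_contra ht
  obtain ⟨σ, hσ⟩ := exists_algEquiv_add t ht (1 : K)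
  rw [h σ, map_one] at hσ
  exact one_ne_zero (left_eq_add.mp hσ)

omit [IsAlgClosed Ω] in
/-- Over an algebraically closed base, algebraic elements are in the base. -/
theorem mem_range_of_isAlgebraic [IsAlgClosed K] (t : Ω) (h : IsAlgebraic K t) :
    t ∈ Set.range (algebraMap K Ω) := by
  have hint : IsIntegral K t := h.isIntegral
  exact minpoly.mem_range_of_degree_eq_one K t
    (IsAlgClosed.degree_eq_one_of_irreducible K (minpoly.irreducible hint))

/-- `Ω^{Aut(Ω/K)} = K` for `K ⊆ Ω` algebraically closed fields. -/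
theorem mem_range_of_fixed [IsAlgClosed K] (t : Ω) (h : ∀ σ : Ω ≃ₐ[K] Ω, σ t = t) :
    t ∈ Set.range (algebraMap K Ω) :=
  mem_range_of_isAlgebraic t (isAlgebraic_of_fixed t h)

/-- For `K ⊆ Ω` algebraically closed fields of characteristic zero, an element with finite
orbit under `Aut(Ω/K)` lies in `K`. -/
theorem mem_range_of_finite_orbit [IsAlgClosed K] [CharZero K] (t : Ω)
    (h : (Set.range fun σ : Ω ≃ₐ[K] Ω => σ t).Finite) : t ∈ Set.range (algebraMap K Ω) :=
  mem_range_of_isAlgebraic t (isAlgebraic_of_finite_orbit t h)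

/-- `t ∈ K` iff `t` is fixed by `Aut(Ω/K)` (`K ⊆ Ω` algebraically closed). -/
theorem mem_range_iff_fixed [IsAlgClosed K] (t : Ω) :
    t ∈ Set.range (algebraMap K Ω) ↔ ∀ σ : Ω ≃ₐ[K] Ω, σ t = t :=
  ⟨by rintro ⟨a, rfl⟩ σ; exact σ.commutes a, mem_range_of_fixed t⟩

omit [IsAlgClosed Ω] in
/-- The orbit of `t` under `Aut(Ω/K)` is finite as soon as `t` is fixed by a subgroup of finite
index. -/
theorem finite_orbit_of_fixed_of_finiteIndex (H : Subgroup (Ω ≃ₐ[K] Ω)) [H.FiniteIndex] (t : Ω)
    (h : ∀ σ ∈ H, σ t = t) : (Set.range fun σ : Ω ≃ₐ[K] Ω => σ t).Finite := by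
  classical
  -- the orbit map factors through the finite quotient `G ⧸ H`
  have hfin : Finite ((Ω ≃ₐ[K] Ω) ⧸ H) := Subgroup.finite_quotient_of_finiteIndex
  let f : (Ω ≃ₐ[K] Ω) ⧸ H → Ω := Quotient.lift (fun σ : Ω ≃ₐ[K] Ω => σ t) (by
    intro a b hab
    have h1 : a⁻¹ * b ∈ H := QuotientGroup.leftRel_apply.mp hab
    have h2 : a⁻¹ (b t) = t := h _ h1
    show a t = b t
    exact (congrArg a h2.symm).trans (AlgEquiv.apply_symm_apply a (b t)))
  refine (Set.finite_range f).subset ?_
  rintro _ ⟨σ, rfl⟩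
  exact ⟨(σ : (Ω ≃ₐ[K] Ω) ⧸ H), rfl⟩

/-- (text of helper36, [DESC] (D1)) For `K ⊆ Ω` algebraically closed of characteristic zero, an
element of `Ω` fixed by a finite-index subgroup of `Aut(Ω/K)` lies in `K`. -/
theorem mem_range_of_fixed_of_finiteIndex [IsAlgClosed K] [CharZero K]
    (H : Subgroup (Ω ≃ₐ[K] Ω)) [H.FiniteIndex] (t : Ω) (h : ∀ σ ∈ H, σ t = t) :
    t ∈ Set.range (algebraMap K Ω) :=
  mem_range_of_finite_orbit t (finite_orbit_of_fixed_of_finiteIndex H t h)

end Fermat.Agent.Lib.AutTranscendental
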