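import Mathlib
import Fermat.Agent.S16.ThetaLower.Contracts

/-!
# Choice of an auxiliary prime (Dirichlet + quadratic reciprocity)

For an odd prime `p` there are arbitrarily large primes `d ≡ 3 mod 4` such that `p` is a
non-residue mod `d` (equivalently `-d` is a non-residue mod `p`, i.e. `p` is inert in
`ℚ(√-d)`).  Used for the theta-series lower bound of S16 (helper11).
-/

set_option autoImplicit false

namespace Fermat.Agent.Lib.AuxPrime

/-- For `d ≡ 3 mod 4` and odd `p`: `J(p | d) = J(-d | p)`. -/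
theorem jacobiSym_eq_jacobiSym_neg (p d : ℕ) (hp : Odd p) (hd : d % 4 = 3) :
    jacobiSym (p : ℤ) d = jacobiSym (-(d : ℤ)) p := by
  have hdo : Odd d := by rw [Nat.odd_iff]; omega
  rw [jacobiSym.neg _ hp]
  rcases Nat.odd_mod_four_iff.mp (Nat.odd_iff.mp hp) with h1 | h3
  · rw [jacobiSym.quadratic_reciprocity_one_mod_four h1 hdo, ZMod.χ₄_nat_one_mod_four h1,
      one_mul]
  · rw [jacobiSym.quadratic_reciprocity_three_mod_four h3 hd, ZMod.χ₄_nat_three_mod_four h3]
    ring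

/-- **Auxiliary prime.** For an odd prime `p` and any bound `B` there is a prime `d > B`,
`d ≡ 3 mod 4`, `d ≠ p`, with `(p/d) = -1` and `(-d/p) = -1`. -/
theorem exists_aux_prime_gt (p : ℕ) (hp : p.Prime) (hp2 : p ≠ 2) (B : ℕ) :
    ∃ d : ℕ, B < d ∧ d.Prime ∧ d % 4 = 3 ∧ d ≠ p ∧
      jacobiSym (p : ℤ) d = -1 ∧ jacobiSym (-(d : ℤ)) p = -1 := by
  haveI : Fact p.Prime := ⟨hp⟩
  have hpodd : Odd p := hp.odd_of_ne_two hp2
  obtain ⟨s, hs⟩ := FiniteField.exists_nonsquare (F := ZMod p)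
    (by rw [ZMod.ringChar_zmod_n]; exact hp2)
  have hs0 : s ≠ 0 := by
    rintro rfl
    exact hs (IsSquare.zero)
  have hco : Nat.Coprime 4 p := by
    have h2 : Nat.Coprime 2 p := (Nat.coprime_primes Nat.prime_two hp).mpr (Ne.symm hp2)
    exact Nat.Coprime.pow_left 2 h2
  obtain ⟨a, ha4, hap⟩ := Nat.chineseRemainder hco 3 ((-s).val)
  have hacast : (a : ZMod p) = -s := by
    have := (ZMod.natCast_eq_natCast_iff a ((-s).val) p).mpr hap
    rw [this, ZMod.natCast_zmod_val]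
  have hacop : a.Coprime (4 * p) := by
    refine Nat.Coprime.mul_right ?_ ?_
    · have h34 : Nat.Coprime 3 4 := by decide
      have : Nat.gcd a 4 = Nat.gcd 3 4 := Nat.ModEq.gcd_eq ha4
      rw [Nat.Coprime, this]; exact h34
    · rw [Nat.coprime_comm, Nat.Prime.coprime_iff_not_dvd hp]
      intro hdvd
      have : (a : ZMod p) = 0 := (ZMod.natCast_eq_zero_iff a p).mpr hdvd
      rw [hacast, neg_eq_zero] at this
      exact hs0 this
  have h4p : 4 * p ≠ 0 := by
    have := hp.pos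
    omega
  obtain ⟨d, hdB, hdp, hda⟩ := Nat.forall_exists_prime_gt_and_modEq (max B p) h4p hacop
  have hd4 : d % 4 = 3 := by
    have h1 : d ≡ a [MOD 4] := hda.of_mul_right p
    have h2 : d ≡ 3 [MOD 4] := h1.trans ha4
    exact h2
  have hdcast : (d : ZMod p) = -s := by
    have h1 : d ≡ a [MOD p] := hda.of_mul_left 4
    rw [← hacast]
    exact (ZMod.natCast_eq_natCast_iff d a p).mpr h1
  have hJ : jacobiSym (-(d : ℤ)) p = -1 := by
    rw [ZMod.nonsquare_iff_jacobiSym_eq_neg_one]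
    have : ((-(d : ℤ) : ℤ) : ZMod p) = s := by
      push_cast
      rw [hdcast, neg_neg]
    rw [this]
    exact hs
  refine ⟨d, lt_of_le_of_lt (le_max_left _ _) hdB, hdp, hd4, ?_, ?_, hJ⟩
  · exact (lt_of_le_of_lt (le_max_right _ _) hdB).ne'
  · rw [jacobiSym_eq_jacobiSym_neg p d hpodd hd4]
    exact hJ

/-- **Auxiliary prime**, without the bound. -/
theorem exists_aux_prime (p : ℕ) (hp : p.Prime) (hp2 : p ≠ 2) :
    ∃ d : ℕ, d.Prime ∧ d % 4 = 3 ∧ d ≠ p ∧
      jacobiSym (p : ℤ) d = -1 ∧ jacobiSym (-(d : ℤ)) p = -1 := by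
  obtain ⟨d, -, h⟩ := exists_aux_prime_gt p hp hp2 0
  exact ⟨d, h⟩

/-- Legendre-symbol form: the quadratic character mod `d` takes the value `-1` at `p`. -/
theorem legendreSym_eq_neg_one_of_jacobiSym {p d : ℕ} [Fact d.Prime]
    (h : jacobiSym (p : ℤ) d = -1) : legendreSym d (p : ℤ) = -1 := by
  rw [jacobiSym.legendreSym.to_jacobiSym]
  exact h

/-- `p` is not a square mod `d`. -/
theorem not_isSquare_of_jacobiSym {p d : ℕ} [Fact d.Prime]
    (h : jacobiSym (p : ℤ) d = -1) : ¬ IsSquare ((p : ℕ) : ZMod d) := by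
  have := (ZMod.nonsquare_iff_jacobiSym_eq_neg_one (a := (p : ℤ)) (p := d)).mp h
  simpa using this

/-- Package P7 of the theta lower bound of S16 (contract `AuxPrimeStmt` of
`Fermat.Agent.S16.ThetaLower.Contracts`). -/
theorem auxPrime {p : ℕ} (hp : p.Prime) (hp5 : 5 ≤ p) :
    Fermat.Agent.S16.ThetaLower.AuxPrimeStmt p := by
  obtain ⟨d, hd, hd4, hdp, hJ, -⟩ := exists_aux_prime p hp (by omega)
  exact ⟨d, hd, hd4, hdp.symm, hJ⟩

end Fermat.Agent.Lib.AuxPrime
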