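/-
P5 [DESC.DEG] algebra core (helper31): degree of a coefficient extension of function fields.
`φ : A → B` a homomorphism of fields over `ι : K₀ → K₁` preserving linear independence over
the constants, `B` generated by `K₁` and `φ(A)`; then for `x₀ ∈ A` transcendental with `A`
finite over `K₀(x₀)`: `[B : K₁(φ x₀)] = [A : K₀(x₀)]`. Mathlib only.
-/
import Mathlib

set_option autoImplicit false

namespace Fermat.Agent.Lib.BaseChangeDegree

open IntermediateField Polynomial

section Pow

variable {K A : Type*} [Field K] [CommRing A] [Algebra K A]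

theorem linearIndependent_pow_of_transcendental {x : A} (hx : Transcendental K x) :
    LinearIndependent K (fun m : ℕ => x ^ m) := by
  classical
  rw [linearIndependent_iff']
  intro s g hg i hi
  have hp : aeval x (∑ j ∈ s, monomial j (g j) : K[X]) = 0 := by
    rw [map_sum, ← hg]
    refine Finset.sum_congr rfl fun j _ => ?_
    rw [aeval_monomial, Algebra.smul_def]
  have h0 := (transcendental_iff.mp hx) _ hp
  have := congrArg (fun q : K[X] => q.coeff i) h0
  simpa [Polynomial.finsetSum_coeff, Polynomial.coeff_monomial, hi] using this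

theorem transcendental_of_linearIndependent_pow {x : A}
    (h : LinearIndependent K (fun m : ℕ => x ^ m)) : Transcendental K x := by
  rw [transcendental_iff]
  intro p hp
  rw [aeval_eq_sum_range] at hp
  have h0 := (linearIndependent_iff'.mp h) (Finset.range (p.natDegree + 1)) p.coeff hp
  ext i
  by_cases hi : i ∈ Finset.range (p.natDegree + 1)
  · simpa using h0 i hi
  · rw [Finset.mem_range, not_lt] at hi
    simpa using coeff_eq_zero_of_natDegree_lt (Nat.lt_of_succ_le hi)

end Pow

section Main

variable {K₀ K₁ A B : Type*} [Field K₀] [Field K₁] [Field A] [Field B] [Algebra K₀ A]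
  [Algebra K₁ B]

/-- A map preserving linear independence of finite families preserves it for all families. -/
theorem linearIndependent_map_of_fin (φ : A →+* B)
    (hLD : ∀ (n : ℕ) (v : Fin n → A), LinearIndependent K₀ v →
      LinearIndependent K₁ (fun i => φ (v i)))
    {J : Type*} (v : J → A) (hv : LinearIndependent K₀ v) :
    LinearIndependent K₁ (fun j => φ (v j)) := by
  classical
  rw [linearIndependent_iff_finset_linearIndependent]
  intro s
  have hs : LinearIndependent K₀ (fun i : s => v i) := hv.comp _ Subtype.val_injective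
  let e := s.equivFin
  have h1 : LinearIndependent K₀ (fun i : Fin s.card => v (e.symm i)) :=
    hs.comp _ e.symm.injective
  have h2 := hLD _ _ h1
  have h3 : LinearIndependent K₁ (fun i : s => φ (v (e.symm (e i)))) := h2.comp _ e.injective
  have h4 : (fun i : s => φ (v (e.symm (e i)))) = (fun j => φ (v j)) ∘ Subtype.val := by
    funext i; simp
  rw [← h4]; exact h3

theorem map_aeval (ι : K₀ →+* K₁) (φ : A →+* B)
    (hφ : ∀ c, φ (algebraMap K₀ A c) = algebraMap K₁ B (ι c)) (p : K₀[X]) (x : A) :
    φ (aeval x p) = aeval (φ x) (p.map ι) := by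
  induction p using Polynomial.induction_on' with
  | add p q hp hq => simp [hp, hq]
  | monomial n a => simp [aeval_monomial, hφ]

theorem map_mem_adjoin_simple (ι : K₀ →+* K₁) (φ : A →+* B)
    (hφ : ∀ c, φ (algebraMap K₀ A c) = algebraMap K₁ B (ι c)) {x₀ r : A}
    (hr : r ∈ K₀⟮x₀⟯) : φ r ∈ K₁⟮φ x₀⟯ := by
  obtain ⟨p, q, rfl⟩ := (mem_adjoin_simple_iff K₀ r).mp hr
  rw [map_div₀, map_aeval ι φ hφ, map_aeval ι φ hφ]
  exact (mem_adjoin_simple_iff K₁ _).mpr ⟨_, _, rfl⟩

theorem transcendental_map (φ : A →+* B)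
    (hLD : ∀ (n : ℕ) (v : Fin n → A), LinearIndependent K₀ v →
      LinearIndependent K₁ (fun i => φ (v i)))
    {x₀ : A} (hx : Transcendental K₀ x₀) : Transcendental K₁ (φ x₀) := by
  apply transcendental_of_linearIndependent_pow
  have := linearIndependent_map_of_fin φ hLD _ (linearIndependent_pow_of_transcendental hx)
  simpa using this

open scoped IntermediateField.algebraAdjoinAdjoin in
/-- **Independence.** If `φ` preserves linear independence over the constants, `x₀` is
transcendental and `b` is linearly independent over `K₀(x₀)`, then `φ ∘ b` is linearly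
independent over `K₁(φ x₀)`. -/
theorem linearIndependent_adjoin_map (φ : A →+* B)
    (hLD : ∀ (n : ℕ) (v : Fin n → A), LinearIndependent K₀ v →
      LinearIndependent K₁ (fun i => φ (v i)))
    {x₀ : A} (hx : Transcendental K₀ x₀) {n : ℕ} (b : Fin n → A)
    (hb : LinearIndependent K₀⟮x₀⟯ b) :
    LinearIndependent K₁⟮φ x₀⟯ (fun i => φ (b i)) := by
  classical
  set y := φ x₀ with hy
  -- powers of the generator are independent over the constants
  have hpow : LinearIndependent K₀ (fun m : ℕ => (AdjoinSimple.gen K₀ x₀) ^ m) := by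
    apply LinearIndependent.of_comp (K₀⟮x₀⟯.val.toLinearMap)
    have h := linearIndependent_pow_of_transcendental hx
    have e : (K₀⟮x₀⟯.val.toLinearMap ∘ fun m : ℕ => (AdjoinSimple.gen K₀ x₀) ^ m) =
        fun m : ℕ => x₀ ^ m := by
      funext m; simp
    rw [e]; exact h
  have hprod : LinearIndependent K₀
      (fun p : ℕ × Fin n => (AdjoinSimple.gen K₀ x₀) ^ p.1 • b p.2) :=
    linearIndependent_smul hpow hb
  have hprod' : LinearIndependent K₁ (fun p : ℕ × Fin n => y ^ p.1 * φ (b p.2)) := by
    have := linearIndependent_map_of_fin φ hLD _ hprod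
    convert this using 2 with p
    rw [IntermediateField.smul_def, smul_eq_mul, map_mul]
    simp [hy]
  -- independence over the polynomial subalgebra `K₁[y]`
  have hadj : LinearIndependent (Algebra.adjoin K₁ {y}) (fun i => φ (b i)) := by
    rw [Fintype.linearIndependent_iff]
    intro g hg
    have hP : ∀ i, ∃ P : K₁[X], aeval y P = (g i : B) := by
      intro i
      have h2 : (g i : B) ∈ (aeval y : K₁[X] →ₐ[K₁] B).range := by
        rw [← Algebra.adjoin_singleton_eq_range_aeval]; exact (g i).2
      exact h2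
    choose P hP using hP
    obtain ⟨D, hD⟩ : ∃ D : ℕ, ∀ i, (P i).natDegree < D :=
      ⟨(Finset.univ.sup fun i => (P i).natDegree) + 1, fun i =>
        Nat.lt_succ_of_le (Finset.le_sup (f := fun i => (P i).natDegree) (Finset.mem_univ i))⟩
    have hsub : LinearIndependent K₁ (fun p : Fin D × Fin n => y ^ (p.1 : ℕ) * φ (b p.2)) :=
      hprod'.comp (fun p : Fin D × Fin n => ((p.1 : ℕ), p.2)) (by
        intro p q h
        simp only [Prod.mk.injEq] at h
        exact Prod.ext (Fin.ext h.1) h.2)
    have hsum : ∑ p : Fin D × Fin n, (P p.2).coeff (p.1 : ℕ) • (y ^ (p.1 : ℕ) * φ (b p.2)) = 0 := by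
      rw [Fintype.sum_prod_type, Finset.sum_comm]
      have : ∀ i : Fin n, ∑ m : Fin D, (P i).coeff (m : ℕ) • (y ^ (m : ℕ) * φ (b i)) =
          (g i : B) * φ (b i) := by
        intro i
        rw [← hP i, aeval_eq_sum_range' (hD i), Finset.sum_mul, ← Fin.sum_univ_eq_sum_range
          (fun m => (P i).coeff m • y ^ m * φ (b i)) D]
        refine Finset.sum_congr rfl fun m _ => ?_
        rw [smul_mul_assoc]
      rw [Finset.sum_congr rfl fun i _ => this i]
      rw [← hg]
      refine Finset.sum_congr rfl fun i _ => ?_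
      rfl
    have hzero := (Fintype.linearIndependent_iff.mp hsub) _ hsum
    intro i
    have hPi : P i = 0 := by
      ext m
      by_cases hm : m < D
      · simpa using hzero (⟨m, hm⟩, i)
      · rw [coeff_eq_zero_of_natDegree_lt (lt_of_lt_of_le (hD i) (not_lt.mp hm))]; simp
    apply Subtype.ext
    rw [← hP i, hPi]; simp
  exact (LinearIndependent.iff_fractionRing (Algebra.adjoin K₁ {y}) K₁⟮y⟯).mp hadj

/-- **Spanning.** If `B` is generated as a field by the constants `K₁` and `φ(A)`, and `b`
spans `A` over `K₀(x₀)`, then `φ ∘ b` spans `B` over `K₁(φ x₀)`. -/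
theorem span_adjoin_map_eq_top (ι : K₀ →+* K₁) (φ : A →+* B)
    (hφ : ∀ c, φ (algebraMap K₀ A c) = algebraMap K₁ B (ι c))
    (hgen : ∀ T : Subfield B, (∀ c, algebraMap K₁ B c ∈ T) → (∀ a, φ a ∈ T) → ∀ z : B, z ∈ T)
    {x₀ : A} {n : ℕ} (b : Fin n → A) (hb : Submodule.span K₀⟮x₀⟯ (Set.range b) = ⊤) :
    Submodule.span K₁⟮φ x₀⟯ (Set.range fun i => φ (b i)) = ⊤ := by
  set y := φ x₀ with hy
  set W : Submodule K₁⟮y⟯ B := Submodule.span K₁⟮y⟯ (Set.range fun i => φ (b i)) with hW
  -- (i) `φ(A) ⊆ W`
  have hφW : ∀ a, φ a ∈ W := by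
    intro a
    have ha : a ∈ Submodule.span K₀⟮x₀⟯ (Set.range b) := hb ▸ Submodule.mem_top
    induction ha using Submodule.span_induction with
    | mem x hx => obtain ⟨i, rfl⟩ := hx; exact Submodule.subset_span ⟨i, rfl⟩
    | zero => simp
    | add x z _ _ hx hz => rw [map_add]; exact W.add_mem hx hz
    | smul r x _ hx =>
      rw [IntermediateField.smul_def, smul_eq_mul, map_mul]
      have hr : φ (r : A) ∈ K₁⟮y⟯ := map_mem_adjoin_simple ι φ hφ r.2
      have : φ (r : A) * φ x = (⟨φ r, hr⟩ : K₁⟮y⟯) • φ x := rfl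
      rw [this]; exact W.smul_mem _ hx
  -- (ii) `W` is closed under multiplication
  have hmul : ∀ u v, u ∈ W → v ∈ W → u * v ∈ W := by
    intro u v hu hv
    induction hu using Submodule.span_induction with
    | mem x hx =>
      obtain ⟨i, rfl⟩ := hx
      induction hv using Submodule.span_induction with
      | mem z hz => obtain ⟨j, rfl⟩ := hz; rw [← map_mul]; exact hφW _
      | zero => simp
      | add z w _ _ hz hw => rw [mul_add]; exact W.add_mem hz hw
      | smul r z _ hz => rw [mul_smul_comm]; exact W.smul_mem _ hz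
    | zero => simp
    | add x z _ _ hx hz => rw [add_mul]; exact W.add_mem hx hz
    | smul r x _ hx => rw [smul_mul_assoc]; exact W.smul_mem _ hx
  have hone : (1 : B) ∈ W := by simpa using hφW 1
  let S : Subalgebra K₁⟮y⟯ B := W.toSubalgebra hone hmul
  have hfin : Module.Finite K₁⟮y⟯ S :=
    FiniteDimensional.span_of_finite K₁⟮y⟯ (Set.finite_range fun i => φ (b i))
  have hinv : ∀ u, u ∈ W → u⁻¹ ∈ W := by
    intro u hu
    have hint : IsIntegral K₁⟮y⟯ (⟨u, hu⟩ : S) := IsIntegral.of_finite _ _
    have halg : IsAlgebraic K₁⟮y⟯ u := (hint.map S.val).isAlgebraic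
    exact Subalgebra.inv_mem_of_algebraic (A := S) (x := ⟨u, hu⟩) halg
  let T : Subfield B :=
    { carrier := W
      mul_mem' := fun hu hv => hmul _ _ hu hv
      one_mem' := hone
      add_mem' := fun hu hv => W.add_mem hu hv
      zero_mem' := W.zero_mem
      neg_mem' := fun hu => W.neg_mem hu
      inv_mem' := hinv }
  have hT : ∀ z : B, z ∈ T := by
    refine hgen T (fun c => ?_) hφW
    have : algebraMap K₁ B c = (algebraMap K₁ K₁⟮y⟯ c) • (1 : B) := by
      rw [Algebra.smul_def, mul_one]; rfl
    rw [this]; exact W.smul_mem _ hone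
  rw [Submodule.eq_top_iff']
  exact hT

/-- **Degree of a coefficient extension.** Let `φ : A → B` be a homomorphism of fields over
`ι : K₀ → K₁` which preserves linear independence over the constants, such that `B` is
generated as a field by `K₁` and `φ(A)`. If `x₀ ∈ A` is transcendental over `K₀` and `A` is
finite over `K₀(x₀)`, then `B` is finite over `K₁(φ x₀)` of the same degree (and `φ` maps
every `K₀(x₀)`-basis of `A` to a `K₁(φ x₀)`-basis of `B`). -/
theorem finrank_adjoin_map (ι : K₀ →+* K₁) (φ : A →+* B)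
    (hφ : ∀ c, φ (algebraMap K₀ A c) = algebraMap K₁ B (ι c))
    (hLD : ∀ (n : ℕ) (v : Fin n → A), LinearIndependent K₀ v →
      LinearIndependent K₁ (fun i => φ (v i)))
    (hgen : ∀ T : Subfield B, (∀ c, algebraMap K₁ B c ∈ T) → (∀ a, φ a ∈ T) → ∀ z : B, z ∈ T)
    {x₀ : A} (hx : Transcendental K₀ x₀) [FiniteDimensional K₀⟮x₀⟯ A] :
    FiniteDimensional K₁⟮φ x₀⟯ B ∧
      Module.finrank K₁⟮φ x₀⟯ B = Module.finrank K₀⟮x₀⟯ A := by
  let b := Module.finBasis K₀⟮x₀⟯ A
  have hli := linearIndependent_adjoin_map φ hLD hx b b.linearIndependent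
  have hsp := span_adjoin_map_eq_top ι φ hφ hgen b b.span_eq
  let b' : Module.Basis (Fin (Module.finrank K₀⟮x₀⟯ A)) K₁⟮φ x₀⟯ B :=
    Module.Basis.mk hli hsp.ge
  exact ⟨Module.Finite.of_basis b', by rw [Module.finrank_eq_card_basis b', Fintype.card_fin]⟩

end Main

end Fermat.Agent.Lib.BaseChangeDegree
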