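import Mathlib

/-!
# Representation numbers of the principal binary form of discriminant `-d` and a parity lemma

For a prime `d ≡ 3 mod 4` let `Q(x, y) = x² + x y + ((d+1)/4) y²` (the norm form of the maximal
order of `ℚ(√-d)`) and `r_d(n) = #{v ∈ ℤ² : Q v = n}`.  Then

* `r_d(0) = 1`, `r_d(n)` is even for `n ≥ 1`, and `r_d(d n) = r_d(n)` (multiplication by `√-d`);
* with `θ = ∑ r_d(n) qⁿ` and `F = θ · V_p θ` (the `q`-expansion of `θ_d(z) θ_d(p z)`), `p ≠ d` prime: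
  `F_0 = 1` and `4 ∣ F_n + F_{d n}` for `n ≥ 1`.  Hence `(F + U_d F)/2 ∈ 1 + 2 q ℤ[[q]]`.

Pure arithmetic (Mathlib only); used for the theta-series lower bound of S16 (helper11).
-/

set_option autoImplicit false

namespace Fermat.Agent.Lib.BinFormParity

open PowerSeries

/-! ## The form and its fibres -/

/-- The principal binary quadratic form of discriminant `-d` (for `d ≡ 3 mod 4`):
`x² + x y + ((d+1)/4) y²`. -/
def binQ (d : ℕ) (v : ℤ × ℤ) : ℤ :=
  v.1 ^ 2 + v.1 * v.2 + (((d + 1) / 4 : ℕ) : ℤ) * v.2 ^ 2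

theorem four_mul_kappa (d : ℕ) (hd : d % 4 = 3) : (4 : ℤ) * (((d + 1) / 4 : ℕ) : ℤ) = d + 1 := by
  have h : 4 * ((d + 1) / 4) = d + 1 := by omega
  exact_mod_cast h

/-- `4 Q(x, y) = (2x + y)² + d y²`. -/
theorem four_mul_binQ (d : ℕ) (hd : d % 4 = 3) (v : ℤ × ℤ) :
    4 * binQ d v = (2 * v.1 + v.2) ^ 2 + (d : ℤ) * v.2 ^ 2 := by
  have h := four_mul_kappa d hd
  unfold binQ
  linear_combination v.2 ^ 2 * h

@[simp] theorem binQ_zero (d : ℕ) : binQ d 0 = 0 := by simp [binQ]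

@[simp] theorem binQ_neg (d : ℕ) (v : ℤ × ℤ) : binQ d (-v) = binQ d v := by
  simp only [binQ, Prod.fst_neg, Prod.snd_neg]; ring

theorem binQ_nonneg (d : ℕ) (hd : d % 4 = 3) (v : ℤ × ℤ) : 0 ≤ binQ d v := by
  have h := four_mul_binQ d hd v
  have h1 : 0 ≤ (2 * v.1 + v.2) ^ 2 := sq_nonneg _
  have h2 : 0 ≤ (d : ℤ) * v.2 ^ 2 := mul_nonneg (Int.natCast_nonneg d) (sq_nonneg _)
  linarith

theorem binQ_eq_zero_iff (d : ℕ) (hd : d % 4 = 3) (v : ℤ × ℤ) : binQ d v = 0 ↔ v = 0 := by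
  constructor
  · intro hv
    have h := four_mul_binQ d hd v
    rw [hv, mul_zero] at h
    have hdpos : (0 : ℤ) < d := by
      have : 0 < d := by omega
      exact_mod_cast this
    have h1 : 0 ≤ (2 * v.1 + v.2) ^ 2 := sq_nonneg _
    have h2 : 0 ≤ (d : ℤ) * v.2 ^ 2 := mul_nonneg hdpos.le (sq_nonneg _)
    have h3 : (d : ℤ) * v.2 ^ 2 = 0 := by linarith
    have h4 : (2 * v.1 + v.2) ^ 2 = 0 := by linarith
    have hy : v.2 = 0 := by
      rcases mul_eq_zero.mp h3 with h5 | h5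
      · exact absurd h5 hdpos.ne'
      · exact pow_eq_zero_iff (two_ne_zero) |>.mp h5
    have hx : 2 * v.1 + v.2 = 0 := pow_eq_zero_iff (two_ne_zero) |>.mp h4
    have hx' : v.1 = 0 := by omega
    exact Prod.ext hx' hy
  · rintro rfl
    exact binQ_zero d

theorem abs_le_of_sq_le {a m : ℤ} (h : a ^ 2 ≤ m) : |a| ≤ m := by
  have h1 : |a| ≤ |a| ^ 2 := by
    rcases eq_or_ne a 0 with rfl | ha
    · simp
    · have : 1 ≤ |a| := Int.one_le_abs ha
      nlinarith
  rw [sq_abs] at h1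
  exact h1.trans h

/-- The fibres of `Q` are finite. -/
theorem finite_fiber (d : ℕ) (hd : d % 4 = 3) (n : ℤ) : {v : ℤ × ℤ | binQ d v = n}.Finite := by
  refine Set.Finite.subset (Set.finite_Icc ((-(4 * n), -(4 * n)) : ℤ × ℤ) (4 * n, 4 * n)) ?_
  intro v hv
  have hv' : binQ d v = n := hv
  have h := four_mul_binQ d hd v
  rw [hv'] at h
  have hd1 : (1 : ℤ) ≤ d := by
    have : 1 ≤ d := by omega
    exact_mod_cast this
  have h1 : 0 ≤ (2 * v.1 + v.2) ^ 2 := sq_nonneg _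
  have h2 : v.2 ^ 2 ≤ (d : ℤ) * v.2 ^ 2 := le_mul_of_one_le_left (sq_nonneg _) hd1
  have hy : |v.2| ≤ 4 * n := abs_le_of_sq_le (by linarith)
  have hxy : |2 * v.1 + v.2| ≤ 4 * n := abs_le_of_sq_le (by nlinarith [sq_nonneg v.2])
  rw [abs_le] at hy hxy
  simp only [Set.mem_Icc, Prod.le_def]
  refine ⟨⟨?_, ?_⟩, ⟨?_, ?_⟩⟩ <;> omega

instance instFiniteFiber (d : ℕ) [h : Fact (d % 4 = 3)] (n : ℤ) :
    Finite {v : ℤ × ℤ // binQ d v = n} :=
  (finite_fiber d h.out n).to_subtype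

/-- The representation number `r_d(n)`. -/
noncomputable def rep (d n : ℕ) : ℕ := Nat.card {v : ℤ × ℤ // binQ d v = (n : ℤ)}

theorem rep_zero (d : ℕ) (hd : d % 4 = 3) : rep d 0 = 1 := by
  unfold rep
  rw [Nat.card_eq_one_iff_unique]
  refine ⟨⟨?_⟩, ⟨⟨0, by simp⟩⟩⟩
  rintro ⟨a, ha⟩ ⟨b, hb⟩
  have ha' : binQ d a = 0 := by simpa using ha
  have hb' : binQ d b = 0 := by simpa using hb
  rw [binQ_eq_zero_iff d hd] at ha' hb'
  subst ha' hb'
  rfl

/-- A finite set of integer vectors stable under negation and not containing `0` has even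
cardinality. -/
theorem even_card_of_neg_mem (s : Finset (ℤ × ℤ)) (hneg : ∀ v ∈ s, -v ∈ s)
    (h0 : (0 : ℤ × ℤ) ∉ s) : Even s.card := by
  have hsum : ∑ _v ∈ s, (1 : ZMod 2) = 0 := by
    refine Finset.sum_involution (fun v _ => -v) ?_ ?_ ?_ ?_
    · intro v _
      decide
    · intro v hv _ hvv
      apply h0
      have hv0 : v = 0 := by
        have h1 := congrArg Prod.fst hvv
        have h2 := congrArg Prod.snd hvv
        simp only [Prod.fst_neg, Prod.snd_neg] at h1 h2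
        exact Prod.ext (by simp only [Prod.fst_zero]; omega) (by simp only [Prod.snd_zero]; omega)
      rw [← hv0]
      exact hv
    · intro v hv
      exact hneg v hv
    · intro v _
      exact neg_neg v
  rw [Finset.sum_const, nsmul_eq_mul, mul_one] at hsum
  exact (ZMod.natCast_eq_zero_iff_even).mp hsum

theorem even_rep (d : ℕ) (hd : d % 4 = 3) (n : ℕ) (hn : 1 ≤ n) : Even (rep d n) := by
  have hfin := finite_fiber d hd (n : ℤ)
  have hcard : rep d n = hfin.toFinset.card := by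
    unfold rep
    rw [← Set.ncard_eq_toFinset_card _ hfin]
    exact Nat.card_coe_set_eq _
  rw [hcard]
  apply even_card_of_neg_mem
  · intro v hv
    rw [Set.Finite.mem_toFinset] at hv ⊢
    show binQ d (-v) = n
    rw [binQ_neg]
    exact hv
  · intro h
    rw [Set.Finite.mem_toFinset] at h
    have h' : binQ d 0 = (n : ℤ) := h
    rw [binQ_zero] at h'
    have : (n : ℤ) = 0 := h'.symm
    have : n = 0 := by exact_mod_cast this
    omega

/-! ## Multiplication by `√-d` -/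

/-- Multiplication by `√-d = 2ω - 1` on `ℤ[ω]`, `ω = (1+√-d)/2`, in the basis `1, ω`. -/
def mulSqrt (d : ℕ) (v : ℤ × ℤ) : ℤ × ℤ :=
  (-v.1 - 2 * (((d + 1) / 4 : ℕ) : ℤ) * v.2, 2 * v.1 + v.2)

theorem binQ_mulSqrt (d : ℕ) (hd : d % 4 = 3) (v : ℤ × ℤ) :
    binQ d (mulSqrt d v) = (d : ℤ) * binQ d v := by
  have h := four_mul_kappa d hd
  unfold binQ mulSqrt
  simp only
  linear_combination (v.1 ^ 2 + v.1 * v.2 + (((d + 1) / 4 : ℕ) : ℤ) * v.2 ^ 2) * h

theorem mulSqrt_injective (d : ℕ) (hd : d % 4 = 3) : Function.Injective (mulSqrt d) := by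
  intro v w hvw
  have h := four_mul_kappa d hd
  have h1 := congrArg Prod.fst hvw
  have h2 := congrArg Prod.snd hvw
  simp only [mulSqrt] at h1 h2
  have hdpos : (0 : ℤ) < d := by
    have : 0 < d := by omega
    exact_mod_cast this
  -- d * (v.2 - w.2) = 0
  have h3 : (d : ℤ) * (v.2 - w.2) = 0 := by
    linear_combination (-2 : ℤ) * h1 - h2 - (v.2 - w.2) * h
  have h4 : v.2 = w.2 := by
    rcases mul_eq_zero.mp h3 with h5 | h5
    · exact absurd h5 hdpos.ne'
    · linarith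
  have h5 : v.1 = w.1 := by
    rw [h4] at h2
    linarith
  exact Prod.ext h5 h4

theorem exists_mulSqrt_eq (d : ℕ) (hdp : d.Prime) (hd : d % 4 = 3) (w : ℤ × ℤ) (n : ℤ)
    (hw : binQ d w = (d : ℤ) * n) : ∃ v : ℤ × ℤ, mulSqrt d v = w := by
  have hk := four_mul_kappa d hd
  have h := four_mul_binQ d hd w
  rw [hw] at h
  have hdvd : (d : ℤ) ∣ (2 * w.1 + w.2) ^ 2 := by
    refine ⟨4 * n - w.2 ^ 2, ?_⟩
    linear_combination -h
  have hprime : Prime (d : ℤ) := Nat.prime_iff_prime_int.mp hdp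
  obtain ⟨y', hy'⟩ := hprime.dvd_of_dvd_pow hdvd
  -- 2 w.1 + w.2 = d * y'; put y = -y'
  have hdodd : (d : ℤ) % 2 = 1 := by
    have : d % 2 = 1 := by omega
    exact_mod_cast this
  have hpar : (w.2 + y') % 2 = 0 := by
    have h1 : (2 * w.1 + w.2) % 2 = ((d : ℤ) * y') % 2 := by rw [hy']
    have h2 : ((d : ℤ) * y') % 2 = y' % 2 := by
      rw [Int.mul_emod, hdodd, one_mul, Int.emod_emod_of_dvd _ (dvd_refl 2)]
    omega
  obtain ⟨x, hx⟩ : ∃ x : ℤ, w.2 + y' = 2 * x := ⟨(w.2 + y') / 2, by omega⟩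
  refine ⟨(x, -y'), ?_⟩
  unfold mulSqrt
  apply Prod.ext
  · simp only
    -- -x + 2κ y' = w.1 :  2 w.1 = d y' - w.2 = d y' - 2x + y' = (d+1) y' - 2x = 4κ y' - 2x
    have : (2 : ℤ) * (-x - 2 * (((d + 1) / 4 : ℕ) : ℤ) * -y') = 2 * w.1 := by
      linear_combination hx - hy' + y' * hk
    linarith
  · simp only
    linarith

/-- `r_d(d n) = r_d(n)`. -/
theorem rep_mul (d : ℕ) (hdp : d.Prime) (hd : d % 4 = 3) (n : ℕ) : rep d (d * n) = rep d n := by
  unfold rep
  symm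
  have hdne : (d : ℤ) ≠ 0 := by
    have : d ≠ 0 := hdp.ne_zero
    exact_mod_cast this
  let f : {v : ℤ × ℤ // binQ d v = (n : ℤ)} → {v : ℤ × ℤ // binQ d v = ((d * n : ℕ) : ℤ)} :=
    fun v => ⟨mulSqrt d v.1, by rw [binQ_mulSqrt d hd, v.2]; push_cast; ring⟩
  refine Nat.card_eq_of_bijective f ⟨?_, ?_⟩
  · intro a b hab
    have : mulSqrt d a.1 = mulSqrt d b.1 := congrArg Subtype.val hab
    exact Subtype.ext (mulSqrt_injective d hd this)
  · rintro ⟨w, hw⟩
    have hw' : binQ d w = (d : ℤ) * (n : ℤ) := by rw [hw]; push_cast; ring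
    obtain ⟨v, hv⟩ := exists_mulSqrt_eq d hdp hd w n hw'
    have hvn : binQ d v = (n : ℤ) := by
      have h1 := binQ_mulSqrt d hd v
      rw [hv, hw'] at h1
      exact (mul_left_cancel₀ hdne h1).symm
    exact ⟨⟨v, hvn⟩, Subtype.ext hv⟩

/-! ## Power series -/

/-- `V_p` on power series (`q ↦ q^p`). -/
noncomputable def psV {R : Type*} [Semiring R] (p : ℕ) (A : PowerSeries R) : PowerSeries R :=
  PowerSeries.mk fun n => if p ∣ n then PowerSeries.coeff (n / p) A else 0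

/-- `U_p` on power series. -/
noncomputable def psU {R : Type*} [Semiring R] (p : ℕ) (A : PowerSeries R) : PowerSeries R :=
  PowerSeries.mk fun n => PowerSeries.coeff (p * n) A

theorem coeff_psV {R : Type*} [Semiring R] (p : ℕ) (A : PowerSeries R) (n : ℕ) :
    PowerSeries.coeff n (psV p A) = if p ∣ n then PowerSeries.coeff (n / p) A else 0 := by
  simp [psV]

theorem coeff_psU {R : Type*} [Semiring R] (p : ℕ) (A : PowerSeries R) (n : ℕ) :
    PowerSeries.coeff n (psU p A) = PowerSeries.coeff (p * n) A := by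
  simp [psU]

theorem map_psV {R S : Type*} [Semiring R] [Semiring S] (f : R →+* S) (p : ℕ)
    (A : PowerSeries R) : PowerSeries.map f (psV p A) = psV p (PowerSeries.map f A) := by
  ext n
  simp only [PowerSeries.coeff_map, coeff_psV]
  split_ifs <;> simp

theorem map_psU {R S : Type*} [Semiring R] [Semiring S] (f : R →+* S) (p : ℕ)
    (A : PowerSeries R) : PowerSeries.map f (psU p A) = psU p (PowerSeries.map f A) := by
  ext n
  simp only [PowerSeries.coeff_map, coeff_psU]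

/-- The theta series `∑ r_d(n) qⁿ` as an integral power series. -/
noncomputable def thetaPS (d : ℕ) : PowerSeries ℤ := PowerSeries.mk fun n => (rep d n : ℤ)

@[simp] theorem coeff_thetaPS (d n : ℕ) : PowerSeries.coeff n (thetaPS d) = (rep d n : ℤ) := by
  simp [thetaPS]

/-- The `q`-expansion of `θ_d(z) θ_d(p z)`. -/
noncomputable def FPS (d p : ℕ) : PowerSeries ℤ := thetaPS d * psV p (thetaPS d)

/-- Generic lemma: if `A, B ∈ 1 + 2 q ℤ[[q]]` then `(AB)_n ≡ A_n + B_n mod 4` for `n ≥ 1`. -/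
theorem four_dvd_coeff_mul_sub (A B : PowerSeries ℤ)
    (hA0 : PowerSeries.coeff 0 A = 1) (hB0 : PowerSeries.coeff 0 B = 1)
    (hA : ∀ n, 1 ≤ n → (2 : ℤ) ∣ PowerSeries.coeff n A)
    (hB : ∀ n, 1 ≤ n → (2 : ℤ) ∣ PowerSeries.coeff n B) (n : ℕ) (hn : 1 ≤ n) :
    (4 : ℤ) ∣ PowerSeries.coeff n (A * B) - PowerSeries.coeff n A - PowerSeries.coeff n B := by
  have key : ∀ (C : PowerSeries ℤ), PowerSeries.coeff 0 C = 1 →
      (∀ n, 1 ≤ n → (2 : ℤ) ∣ PowerSeries.coeff n C) →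
      ∀ i, (2 : ℤ) ∣ PowerSeries.coeff i (C - 1) := by
    intro C hC0 hC i
    rcases Nat.eq_zero_or_pos i with rfl | hi
    · rw [map_sub, hC0, PowerSeries.coeff_one, if_pos rfl, sub_self]
      exact dvd_zero _
    · have : PowerSeries.coeff i (C - 1) = PowerSeries.coeff i C := by
        rw [map_sub, PowerSeries.coeff_one, if_neg (by omega), sub_zero]
      rw [this]
      exact hC i hi
  have h4 : (4 : ℤ) ∣ PowerSeries.coeff n ((A - 1) * (B - 1)) := by
    rw [PowerSeries.coeff_mul]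
    refine Finset.dvd_sum fun x _ => ?_
    have h22 : (4 : ℤ) = 2 * 2 := by norm_num
    rw [h22]
    exact mul_dvd_mul (key A hA0 hA x.1) (key B hB0 hB x.2)
  have hexp : (A - 1) * (B - 1) = A * B - A - B + 1 := by ring
  rw [hexp] at h4
  simp only [map_add, map_sub, PowerSeries.coeff_one] at h4
  rw [if_neg (by omega), add_zero] at h4
  exact h4

theorem coeff_psV_thetaPS_zero (d p : ℕ) (hd : d % 4 = 3) :
    PowerSeries.coeff 0 (psV p (thetaPS d)) = 1 := by
  rw [coeff_psV, if_pos (dvd_zero p), Nat.zero_div, coeff_thetaPS, rep_zero d hd]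
  rfl

theorem two_dvd_coeff_thetaPS (d : ℕ) (hd : d % 4 = 3) (n : ℕ) (hn : 1 ≤ n) :
    (2 : ℤ) ∣ PowerSeries.coeff n (thetaPS d) := by
  rw [coeff_thetaPS]
  have := (even_rep d hd n hn).two_dvd
  exact_mod_cast this

theorem two_dvd_coeff_psV_thetaPS (d p : ℕ) (hp : 0 < p) (hd : d % 4 = 3) (n : ℕ) (hn : 1 ≤ n) :
    (2 : ℤ) ∣ PowerSeries.coeff n (psV p (thetaPS d)) := by
  rw [coeff_psV]
  split_ifs with h
  · refine two_dvd_coeff_thetaPS d hd (n / p) ?_
    exact Nat.div_pos (Nat.le_of_dvd (by omega) h) hp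
  · exact dvd_zero _

theorem coeff_FPS_zero (d p : ℕ) (hd : d % 4 = 3) : PowerSeries.coeff 0 (FPS d p) = 1 := by
  unfold FPS
  have h1 : PowerSeries.coeff 0 (thetaPS d) = 1 := by
    rw [coeff_thetaPS, rep_zero d hd]; rfl
  have h2 := coeff_psV_thetaPS_zero d p hd
  rw [PowerSeries.coeff_mul, Finset.Nat.antidiagonal_zero, Finset.sum_singleton, h1, h2, mul_one]

/-- `F_n ≡ θ_n + (V_p θ)_n mod 4` for `n ≥ 1`. -/
theorem four_dvd_coeff_FPS_sub (d p : ℕ) (hp : 0 < p) (hd : d % 4 = 3) (n : ℕ) (hn : 1 ≤ n) :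
    (4 : ℤ) ∣ PowerSeries.coeff n (FPS d p) - PowerSeries.coeff n (thetaPS d) -
      PowerSeries.coeff n (psV p (thetaPS d)) := by
  refine four_dvd_coeff_mul_sub _ _ ?_ (coeff_psV_thetaPS_zero d p hd)
    (two_dvd_coeff_thetaPS d hd) (two_dvd_coeff_psV_thetaPS d p hp hd) n hn
  rw [coeff_thetaPS, rep_zero d hd]; rfl

theorem coeff_psV_thetaPS_mul (d p : ℕ) (hdp : d.Prime) (hd : d % 4 = 3) (hp : p.Prime)
    (hpd : p ≠ d) (n : ℕ) :
    PowerSeries.coeff (d * n) (psV p (thetaPS d)) = PowerSeries.coeff n (psV p (thetaPS d)) := by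
  rw [coeff_psV, coeff_psV]
  have hnd : ¬ p ∣ d := fun h => hpd ((Nat.prime_dvd_prime_iff_eq hp hdp).mp h)
  by_cases h : p ∣ n
  · rw [if_pos (Dvd.dvd.mul_left h d), if_pos h, coeff_thetaPS, coeff_thetaPS,
      Nat.mul_div_assoc d h, rep_mul d hdp hd]
  · have h' : ¬ p ∣ d * n := fun hh => (hp.dvd_mul.mp hh).elim hnd h
    rw [if_neg h', if_neg h]

/-- **Parity.** `4 ∣ F_n + F_{d n}` for `n ≥ 1`. -/
theorem four_dvd_coeff_FPS_add (d p : ℕ) (hdp : d.Prime) (hd : d % 4 = 3) (hp : p.Prime)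
    (hpd : p ≠ d) (n : ℕ) (hn : 1 ≤ n) :
    (4 : ℤ) ∣ PowerSeries.coeff n (FPS d p) + PowerSeries.coeff (d * n) (FPS d p) := by
  have hdn : 1 ≤ d * n := Nat.mul_pos hdp.pos hn
  have h1 := four_dvd_coeff_FPS_sub d p hp.pos hd n hn
  have h2 := four_dvd_coeff_FPS_sub d p hp.pos hd (d * n) hdn
  rw [coeff_psV_thetaPS_mul d p hdp hd hp hpd n] at h2
  have h3 : PowerSeries.coeff (d * n) (thetaPS d) = PowerSeries.coeff n (thetaPS d) := by
    rw [coeff_thetaPS, coeff_thetaPS, rep_mul d hdp hd]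
  rw [h3] at h2
  obtain ⟨a, ha⟩ := two_dvd_coeff_thetaPS d hd n hn
  obtain ⟨b, hb⟩ := two_dvd_coeff_psV_thetaPS d p hp.pos hd n hn
  obtain ⟨c1, hc1⟩ := h1
  obtain ⟨c2, hc2⟩ := h2
  refine ⟨c1 + c2 + a + b, ?_⟩
  linear_combination hc1 + hc2 + 2 * ha + 2 * hb

/-- **The form `F₁ = (F + U_d F)/2` lies in `1 + 2 q ℤ[[q]]`.** -/
theorem exists_F1 (d p : ℕ) (hdp : d.Prime) (hd : d % 4 = 3) (hp : p.Prime) (hpd : p ≠ d) :
    ∃ G : PowerSeries ℤ, PowerSeries.coeff 0 G = 1 ∧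
      (∀ n, 1 ≤ n → (2 : ℤ) ∣ PowerSeries.coeff n G) ∧
      ∀ n, 2 * PowerSeries.coeff n G =
        PowerSeries.coeff n (FPS d p) + PowerSeries.coeff (d * n) (FPS d p) := by
  have h0 := coeff_FPS_zero d p hd
  refine ⟨PowerSeries.mk fun n =>
    (PowerSeries.coeff n (FPS d p) + PowerSeries.coeff (d * n) (FPS d p)) / 2, ?_, ?_, ?_⟩
  · rw [PowerSeries.coeff_mk, Nat.mul_zero, h0]
    norm_num
  · intro n hn
    rw [PowerSeries.coeff_mk]
    obtain ⟨c, hc⟩ := four_dvd_coeff_FPS_add d p hdp hd hp hpd n hn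
    rw [hc]
    refine ⟨c, ?_⟩
    omega
  · intro n
    rw [PowerSeries.coeff_mk]
    rcases Nat.eq_zero_or_pos n with rfl | hn
    · rw [Nat.mul_zero, h0]; norm_num
    · obtain ⟨c, hc⟩ := four_dvd_coeff_FPS_add d p hdp hd hp hpd n hn
      rw [hc]
      omega

/-- Same statement with the operators: `2 G = F + U_d F`. -/
theorem exists_F1' (d p : ℕ) (hdp : d.Prime) (hd : d % 4 = 3) (hp : p.Prime) (hpd : p ≠ d) :
    ∃ G : PowerSeries ℤ, PowerSeries.coeff 0 G = 1 ∧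
      (∀ n, 1 ≤ n → (2 : ℤ) ∣ PowerSeries.coeff n G) ∧
      2 * G = FPS d p + psU d (FPS d p) := by
  obtain ⟨G, h0, h1, h2⟩ := exists_F1 d p hdp hd hp hpd
  refine ⟨G, h0, h1, ?_⟩
  ext n
  rw [two_mul, map_add, map_add, coeff_psU, ← h2 n, two_mul]

/-! ## Convolution form (bridge to a quaternary representation count) -/

/-- The coefficients of `FPS d p` as a convolution over `b` with `p b ≤ n`. -/
theorem coeff_FPS_eq_sum (d p : ℕ) (hp : 0 < p) (n : ℕ) :
    PowerSeries.coeff n (FPS d p) =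
      ∑ b ∈ Finset.range (n + 1),
        if p * b ≤ n then (rep d (n - p * b) : ℤ) * (rep d b : ℤ) else 0 := by
  unfold FPS
  rw [mul_comm, PowerSeries.coeff_mul, Finset.Nat.sum_antidiagonal_eq_sum_range_succ_mk]
  simp only [coeff_psV, coeff_thetaPS]
  rw [← Finset.sum_filter (fun b => p * b ≤ n)]
  have hL : ∑ k ∈ Finset.range n.succ,
      (if p ∣ k then (rep d (k / p) : ℤ) else 0) * (rep d (n - k) : ℤ) =
      ∑ k ∈ (Finset.range n.succ).filter (fun k => p ∣ k),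
        (rep d (k / p) : ℤ) * (rep d (n - k) : ℤ) := by
    rw [Finset.sum_filter]
    refine Finset.sum_congr rfl fun k _ => ?_
    split_ifs <;> simp
  rw [hL]
  refine Finset.sum_nbij' (fun k => k / p) (fun b => p * b) ?_ ?_ ?_ ?_ ?_
  · intro k hk
    simp only [Finset.mem_filter, Finset.mem_range] at hk ⊢
    obtain ⟨hk1, c, rfl⟩ := hk
    rw [Nat.mul_div_cancel_left c hp]
    have : c ≤ p * c := Nat.le_mul_of_pos_left c hp
    exact ⟨by omega, by omega⟩
  · intro b hb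
    simp only [Finset.mem_filter, Finset.mem_range] at hb ⊢
    exact ⟨by omega, dvd_mul_right p b⟩
  · intro k hk
    simp only [Finset.mem_filter, Finset.mem_range] at hk
    exact Nat.mul_div_cancel' hk.2
  · intro b _
    exact Nat.mul_div_cancel_left b hp
  · intro k hk
    simp only [Finset.mem_filter, Finset.mem_range] at hk
    rw [Nat.mul_div_cancel' hk.2, mul_comm]

/-- **Bridge.** If `r2` is the convolution `r2 n = ∑_{p b ≤ n} r_d(n - p b) r_d(b)` (e.g. the number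
of representations by the quaternary form `Q ⊕ p Q`), then `r2 n` is the `n`-th coefficient of
`FPS d p`. -/
theorem natCast_eq_coeff_FPS_of_conv (d p : ℕ) (hp : 0 < p) (r2 : ℕ → ℕ)
    (hconv : ∀ n, r2 n = ∑ b ∈ Finset.range (n + 1),
      if p * b ≤ n then rep d (n - p * b) * rep d b else 0) (n : ℕ) :
    (r2 n : ℤ) = PowerSeries.coeff n (FPS d p) := by
  rw [coeff_FPS_eq_sum d p hp n, hconv n]
  push_cast
  refine Finset.sum_congr rfl fun b _ => ?_
  split_ifs <;> simp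

/-- **Bridge.** `4 ∣ r2 n + r2 (d n)` for `n ≥ 1`, for the convolution `r2`. -/
theorem four_dvd_of_conv (d p : ℕ) (hdp : d.Prime) (hd : d % 4 = 3) (hp : p.Prime) (hpd : p ≠ d)
    (r2 : ℕ → ℕ)
    (hconv : ∀ n, r2 n = ∑ b ∈ Finset.range (n + 1),
      if p * b ≤ n then rep d (n - p * b) * rep d b else 0) (n : ℕ) (hn : 1 ≤ n) :
    4 ∣ r2 n + r2 (d * n) := by
  have key := natCast_eq_coeff_FPS_of_conv d p hp.pos r2 hconv
  have h := four_dvd_coeff_FPS_add d p hdp hd hp hpd n hn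
  rw [← key, ← key] at h
  exact_mod_cast h

/-- **Bridge.** `r2 0 = 1` for the convolution `r2`. -/
theorem zero_of_conv (d p : ℕ) (hd : d % 4 = 3) (hp : 0 < p) (r2 : ℕ → ℕ)
    (hconv : ∀ n, r2 n = ∑ b ∈ Finset.range (n + 1),
      if p * b ≤ n then rep d (n - p * b) * rep d b else 0) : r2 0 = 1 := by
  have key := natCast_eq_coeff_FPS_of_conv d p hp r2 hconv 0
  rw [coeff_FPS_zero d p hd] at key
  exact_mod_cast key

end Fermat.Agent.Lib.BinFormParity
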