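/-
`Fermat.Agent.Lib.ClassCoprime` (helper36; leaf (L3) of the S14 Route-A [SI-analytic] plan).

Every ideal class of a Dedekind domain contains an integral ideal prime to a given nonzero
ideal `𝔪`.
-/
import Mathlib

namespace Fermat.Agent.Lib.ClassCoprime

open scoped nonZeroDivisors

/-- A nonzero ideal `J₀` of a Dedekind domain has a principal multiple `J₀ * J = (a)` with
`J` prime to a given nonzero ideal `𝔪`. -/
theorem exists_mul_eq_span_coprime (R : Type*) [CommRing R] [IsDedekindDomain R]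
    (𝔪 J₀ : Ideal R) (h𝔪 : 𝔪 ≠ ⊥) (hJ₀ : J₀ ≠ ⊥) :
    ∃ (a : R) (J : Ideal R), J₀ * J = Ideal.span {a} ∧ J ⊔ 𝔪 = ⊤ := by
  have hI : J₀ * 𝔪 ≠ 0 := mul_ne_zero hJ₀ h𝔪
  obtain ⟨a, ha⟩ := IsDedekindDomain.exists_sup_span_eq (I := J₀ * 𝔪) (J := J₀)
    Ideal.mul_le_left hI
  have hle : Ideal.span {a} ≤ J₀ := ha ▸ le_sup_right
  obtain ⟨J, hJ⟩ := Ideal.dvd_iff_le.mpr hle
  refine ⟨a, J, hJ.symm, ?_⟩
  have h1 : J₀ * (J ⊔ 𝔪) = J₀ * ⊤ := by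
    rw [Ideal.mul_sup, ← hJ, Ideal.mul_top, sup_comm]
    exact ha
  exact mul_left_cancel₀ hJ₀ h1

/-- **(L3)** Every ideal class of a Dedekind domain is the class of an integral ideal prime
to a given nonzero ideal `𝔪`. -/
theorem exists_mk0_eq_coprime (R : Type*) [CommRing R] [IsDedekindDomain R] (𝔪 : Ideal R)
    (h𝔪 : 𝔪 ≠ ⊥) (d : ClassGroup R) :
    ∃ J : (Ideal R)⁰, ClassGroup.mk0 J = d ∧ (J : Ideal R) ⊔ 𝔪 = ⊤ := by
  by_cases htop : 𝔪 = ⊤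
  · obtain ⟨J, hJ⟩ := ClassGroup.mk0_surjective d
    exact ⟨J, hJ, by rw [htop, sup_top_eq]⟩
  obtain ⟨J₀, hJ₀⟩ := ClassGroup.mk0_surjective d⁻¹
  have hJ₀ne : (J₀ : Ideal R) ≠ ⊥ := nonZeroDivisors.coe_ne_zero J₀
  obtain ⟨a, J, hJ, hcop⟩ := exists_mul_eq_span_coprime R 𝔪 (J₀ : Ideal R) h𝔪 hJ₀ne
  have hJne : J ≠ ⊥ := by
    rintro rfl
    rw [bot_sup_eq] at hcop
    exact htop hcop
  have hJmem : J ∈ (Ideal R)⁰ := mem_nonZeroDivisors_of_ne_zero hJne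
  refine ⟨⟨J, hJmem⟩, ?_, hcop⟩
  have hprod : ClassGroup.mk0 (J₀ * ⟨J, hJmem⟩) = 1 := by
    rw [ClassGroup.mk0_eq_one_iff]
    exact ⟨⟨a, by simpa using hJ⟩⟩
  rw [map_mul, hJ₀] at hprod
  exact (inv_mul_eq_one.mp hprod).symm
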