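import Mathlib

/-!
# Quantitative lattice point counting

Generic, Mathlib-only.  For a `ℤ`-lattice `L` in a finite dimensional real normed space `E` and a
bounded measurable set `D`, the number of points of `L` in `D` times the covolume of `L` differs
from the volume of `D` by at most the volume of a thickening of the frontier of `D`
(`abs_card_mul_covolume_sub_le`).  If the frontier of `D` is covered by finitely many Lipschitz
images of cubes of dimension `dim E - 1`, the thickening has volume `O(ε)`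
(`measure_cthickening_image_le`), which gives `#(L ∩ t • D) = t ^ n vol(D)/covol(L) + O(t ^ (n-1))`
(`exists_card_smul_bound`).
-/

namespace Fermat.Agent.Lib.LatticeCountLip

open MeasureTheory Metric Set Module Submodule Bornology
open scoped Pointwise NNReal ENNReal

section Cell

variable {E : Type*} [NormedAddCommGroup E] [NormedSpace ℝ E]

/-- A segment from a point of `D` to a point outside `D` meets the frontier of `D`. -/
theorem exists_mem_segment_frontier {D : Set E} {x y : E} (hx : x ∈ D) (hy : y ∉ D) :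
    ∃ z ∈ segment ℝ x y, z ∈ frontier D := by
  by_contra h
  push Not at h
  have hpre : IsPreconnected (segment ℝ x y) := (convex_segment x y).isPreconnected
  have hcov : segment ℝ x y ⊆ interior D ∪ (closure D)ᶜ := by
    intro z hz
    by_cases hzc : z ∈ closure D
    · left
      by_contra hzi
      exact h z hz ⟨hzc, hzi⟩
    · right; exact hzc
  have h1 : (segment ℝ x y ∩ interior D).Nonempty := by
    refine ⟨x, left_mem_segment ℝ x y, ?_⟩
    by_contra hxi
    exact h x (left_mem_segment ℝ x y) ⟨subset_closure hx, hxi⟩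
  have h2 : (segment ℝ x y ∩ (closure D)ᶜ).Nonempty := by
    refine ⟨y, right_mem_segment ℝ x y, ?_⟩
    intro hyc
    exact h y (right_mem_segment ℝ x y) ⟨hyc, fun hyi => hy (interior_subset hyi)⟩
  obtain ⟨z, -, hz1, hz2⟩ := hpre _ _ isOpen_interior isClosed_closure.isOpen_compl hcov h1 h2
  exact hz2 (subset_closure (interior_subset hz1))

/-- If exactly one of two points lies in `D`, both lie in the closed thickening of the frontier
of `D` of radius their distance. -/
theorem mem_cthickening_frontier {D : Set E} {x y : E} {δ : ℝ} (hxy : dist x y ≤ δ)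
    (h : ¬ (x ∈ D ↔ y ∈ D)) : x ∈ cthickening δ (frontier D) := by
  have key : ∀ {a b : E}, a ∈ D → b ∉ D → dist a b ≤ δ →
      a ∈ cthickening δ (frontier D) ∧ b ∈ cthickening δ (frontier D) := by
    intro a b ha hb hab
    obtain ⟨z, hz, hzf⟩ := exists_mem_segment_frontier ha hb
    have hδ : 0 ≤ δ := dist_nonneg.trans hab
    constructor
    · refine mem_cthickening_of_dist_le a z δ _ hzf ?_
      rw [dist_eq_norm, ← norm_neg, neg_sub]
      exact (norm_sub_le_of_mem_segment hz).trans (by rwa [dist_eq_norm, ← norm_neg, neg_sub] at hab)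
    · refine mem_cthickening_of_dist_le b z δ _ hzf ?_
      rw [dist_eq_norm, ← norm_neg, neg_sub]
      rw [segment_symm] at hz
      exact (norm_sub_le_of_mem_segment hz).trans (by rwa [dist_eq_norm] at hab)
  by_cases hx : x ∈ D
  · have hy : y ∉ D := fun hy => h ⟨fun _ => hy, fun _ => hx⟩
    exact (key hx hy hxy).1
  · have hy : y ∈ D := by
      by_contra hy
      exact h ⟨fun hx' => (hx hx').elim, fun hy' => (hy hy').elim⟩
    exact (key hy hx (by rwa [dist_comm])).2

end Cell

section Cell2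

variable {E : Type*} [NormedAddCommGroup E] [NormedSpace ℝ E] [FiniteDimensional ℝ E]
  [MeasurableSpace E] [BorelSpace E] (μ : Measure E) [μ.IsAddHaarMeasure]
  {ι : Type*} [Fintype ι] (b : Basis ι ℝ E)

theorem mem_vadd_fundamentalDomain_iff {l : E} (hl : l ∈ span ℤ (Set.range b)) (x : E) :
    x ∈ l +ᵥ ZSpan.fundamentalDomain b ↔ (ZSpan.floor b x : E) = l := by
  rw [Set.mem_vadd_set_iff_neg_vadd_mem, vadd_eq_add]
  constructor
  · intro h
    have h1 : ZSpan.fract b (-l + x) = -l + x := ZSpan.fract_eq_self.2 h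
    rw [ZSpan.fract_zSpan_add b x (neg_mem hl), ZSpan.fract_apply] at h1
    have : (ZSpan.floor b x : E) = x - (-l + x) := by rw [← h1]; abel
    rw [this]; abel
  · intro h
    have : -l + x = ZSpan.fract b x := by rw [ZSpan.fract_apply, h]; abel
    rw [this]
    exact ZSpan.fract_mem_fundamentalDomain b x

theorem dist_floor_le (x : E) : dist x (ZSpan.floor b x : E) ≤ ∑ i, ‖b i‖ := by
  rw [dist_eq_norm, ← ZSpan.fract_apply]
  exact ZSpan.norm_fract_le b x

/-- The union of the cells attached to the lattice points in `D`. -/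
theorem measure_setOf_floor_mem (D : Set E) (hDb : IsBounded D) :
    μ {x | (ZSpan.floor b x : E) ∈ D} =
      (Nat.card ↥(D ∩ (span ℤ (Set.range b) : Set E)) : ENNReal) * μ (ZSpan.fundamentalDomain b) := by
  classical
  have hfin : (D ∩ (span ℤ (Set.range b) : Set E)).Finite := ZSpan.setFinite_inter b hDb
  have hset : {x | (ZSpan.floor b x : E) ∈ D} =
      ⋃ l ∈ hfin.toFinset, (l +ᵥ ZSpan.fundamentalDomain b) := by
    ext x
    simp only [mem_ofPred_eq, mem_iUnion, Set.Finite.mem_toFinset, exists_prop]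
    constructor
    · intro hx
      exact ⟨(ZSpan.floor b x : E), ⟨hx, (ZSpan.floor b x).2⟩,
        (mem_vadd_fundamentalDomain_iff b (ZSpan.floor b x).2 x).2 rfl⟩
    · rintro ⟨l, ⟨hlD, hl⟩, hx⟩
      rw [(mem_vadd_fundamentalDomain_iff b hl x).1 hx]
      exact hlD
  rw [hset, measure_biUnion_finset]
  · have : ∀ l ∈ hfin.toFinset, μ (l +ᵥ ZSpan.fundamentalDomain b) =
        μ (ZSpan.fundamentalDomain b) := fun l _ => measure_vadd μ l _
    rw [Finset.sum_congr rfl this, Finset.sum_const, nsmul_eq_mul, Nat.card_coe_set_eq,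
      Set.ncard_eq_toFinset_card _ hfin]
  · intro l hl l' hl' hne
    simp only [Finset.mem_coe, Set.Finite.mem_toFinset] at hl hl'
    rw [Function.onFun, Set.disjoint_left]
    intro x hx hx'
    exact hne (((mem_vadd_fundamentalDomain_iff b hl.2 x).1 hx).symm.trans
      ((mem_vadd_fundamentalDomain_iff b hl'.2 x).1 hx'))
  · intro l _
    exact (ZSpan.fundamentalDomain_measurableSet b).const_vadd l

theorem card_mul_measure_le (D : Set E) (hDb : IsBounded D) :
    (Nat.card ↥(D ∩ (span ℤ (Set.range b) : Set E)) : ENNReal) * μ (ZSpan.fundamentalDomain b) ≤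
      μ D + μ (cthickening (∑ i, ‖b i‖) (frontier D)) := by
  rw [← measure_setOf_floor_mem μ b D hDb]
  refine (measure_mono ?_).trans (measure_union_le _ _)
  intro x hx
  by_cases hxD : x ∈ D
  · exact Or.inl hxD
  · refine Or.inr (mem_cthickening_frontier (dist_floor_le b x) ?_)
    intro h
    exact hxD (h.2 hx)

theorem measure_le_card_mul (D : Set E) (hDb : IsBounded D) :
    μ D ≤ (Nat.card ↥(D ∩ (span ℤ (Set.range b) : Set E)) : ENNReal) *
      μ (ZSpan.fundamentalDomain b) + μ (cthickening (∑ i, ‖b i‖) (frontier D)) := by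
  rw [← measure_setOf_floor_mem μ b D hDb]
  refine (measure_mono ?_).trans (measure_union_le _ _)
  intro x hxD
  by_cases hx : (ZSpan.floor b x : E) ∈ D
  · exact Or.inl hx
  · refine Or.inr (mem_cthickening_frontier (dist_floor_le b x) ?_)
    intro h
    exact hx (h.1 hxD)

end Cell2

section Cover

variable {E : Type*} [NormedAddCommGroup E] [NormedSpace ℝ E] [FiniteDimensional ℝ E]
  [MeasurableSpace E] [BorelSpace E] (μ : Measure E) [μ.IsAddHaarMeasure]

/-- Covering of a thickened Lipschitz image of a cube by balls centred at the images of the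
grid points. -/
theorem cthickening_image_subset {κ : Type*} [Fintype κ] (Φ : (κ → ℝ) → E) (K : ℝ≥0)
    (hΦ : LipschitzOnWith K Φ (Icc 0 1)) (N : ℕ) (hN : 0 < N) {δ : ℝ} (hδ : 0 < δ) :
    cthickening δ (Φ '' Icc 0 1) ⊆
      ⋃ k : κ → Fin (N + 1), closedBall (Φ fun i => ((k i : ℕ) : ℝ) / N) (K / N + 2 * δ) := by
  intro x hx
  have hx2 : x ∈ thickening (2 * δ) (Φ '' Icc 0 1) :=
    cthickening_subset_thickening' (by linarith) (by linarith) _ hx
  obtain ⟨_, ⟨u, hu, rfl⟩, hxu⟩ := mem_thickening_iff.1 hx2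
  have hNpos : (0 : ℝ) < N := Nat.cast_pos.mpr hN
  have hu0 : ∀ i, 0 ≤ u i := fun i => hu.1 i
  have hu1 : ∀ i, u i ≤ 1 := fun i => hu.2 i
  have hk : ∀ i, ⌊(N : ℝ) * u i⌋₊ < N + 1 := by
    intro i
    have : (N : ℝ) * u i ≤ N := by nlinarith [hu1 i]
    have h2 : ⌊(N : ℝ) * u i⌋₊ ≤ N := by
      exact_mod_cast (Nat.floor_le_floor this).trans (by simp)
    omega
  set k : κ → Fin (N + 1) := fun i => ⟨⌊(N : ℝ) * u i⌋₊, hk i⟩ with hkdef
  set g : κ → ℝ := fun i => ((k i : ℕ) : ℝ) / N with hgdef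
  have hg_le : ∀ i, g i ≤ u i := by
    intro i
    simp only [hgdef, hkdef]
    rw [div_le_iff₀ hNpos]
    exact (Nat.floor_le (mul_nonneg hNpos.le (hu0 i))).trans (mul_comm _ _).le
  have hg_ge : ∀ i, u i - 1 / N ≤ g i := by
    intro i
    simp only [hgdef, hkdef]
    rw [sub_le_iff_le_add, ← add_div, le_div_iff₀ hNpos]
    exact (mul_comm _ _).le.trans (Nat.lt_floor_add_one _).le
  have hg0 : ∀ i, 0 ≤ g i := fun i => div_nonneg (Nat.cast_nonneg _) hNpos.le
  have hgmem : g ∈ Icc (0 : κ → ℝ) 1 := ⟨fun i => hg0 i, fun i => (hg_le i).trans (hu1 i)⟩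
  have hdist : dist u g ≤ 1 / N := by
    rw [dist_pi_le_iff (by positivity)]
    intro i
    rw [Real.dist_eq, abs_le]
    constructor <;> linarith [hg_le i, hg_ge i]
  have hΦd : dist (Φ u) (Φ g) ≤ K / N := by
    have := hΦ.dist_le_mul u hu g hgmem
    calc dist (Φ u) (Φ g) ≤ K * dist u g := this
      _ ≤ K * (1 / N) := by gcongr
      _ = K / N := by ring
  refine mem_iUnion.2 ⟨k, ?_⟩
  rw [mem_closedBall]
  calc dist x (Φ g) ≤ dist x (Φ u) + dist (Φ u) (Φ g) := dist_triangle _ _ _
    _ ≤ K / N + 2 * δ := by linarith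

theorem measure_cthickening_image_le {κ : Type*} [Fintype κ] (Φ : (κ → ℝ) → E) (K : ℝ≥0)
    (hΦ : LipschitzOnWith K Φ (Icc 0 1)) (N : ℕ) (hN : 0 < N) {δ : ℝ} (hδ : 0 < δ) :
    μ (cthickening δ (Φ '' Icc 0 1)) ≤
      ((N + 1) ^ Fintype.card κ : ℕ) * μ (closedBall (0 : E) (K / N + 2 * δ)) := by
  classical
  refine (measure_mono (cthickening_image_subset Φ K hΦ N hN hδ)).trans ?_
  refine (measure_iUnion_fintype_le μ _).trans ?_
  simp only [Measure.addHaar_closedBall_center]
  rw [Finset.sum_const, Finset.card_univ, nsmul_eq_mul]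
  simp

end Cover

section Thick

variable {E : Type*} [NormedAddCommGroup E] [NormedSpace ℝ E] [FiniteDimensional ℝ E]
  [MeasurableSpace E] [BorelSpace E] (μ : Measure E) [μ.IsAddHaarMeasure]

/-- A set `S` has *thin thickenings* if the closed `ε`-thickening of `S` has volume `O(ε)`
for `ε ≤ 1`. -/
def ThinThickening (S : Set E) : Prop :=
  ∃ C : ℝ, 0 ≤ C ∧ ∀ ε : ℝ, 0 < ε → ε ≤ 1 → μ (cthickening ε S) ≤ ENNReal.ofReal (C * ε)

variable {μ}

theorem ThinThickening.mono {S T : Set E} (hT : ThinThickening μ T) (h : S ⊆ T) :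
    ThinThickening μ S := by
  obtain ⟨C, hC0, hC⟩ := hT
  exact ⟨C, hC0, fun ε hε hε1 =>
    (measure_mono (cthickening_subset_of_subset ε h)).trans (hC ε hε hε1)⟩

theorem ThinThickening.union {S T : Set E} (hS : ThinThickening μ S) (hT : ThinThickening μ T) :
    ThinThickening μ (S ∪ T) := by
  obtain ⟨C, hC0, hC⟩ := hS
  obtain ⟨C', hC'0, hC'⟩ := hT
  refine ⟨C + C', by positivity, fun ε hε hε1 => ?_⟩
  rw [cthickening_union, add_mul, ENNReal.ofReal_add (by positivity) (by positivity)]
  exact (measure_union_le _ _).trans (add_le_add (hC ε hε hε1) (hC' ε hε hε1))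

theorem thinThickening_empty : ThinThickening μ (∅ : Set E) :=
  ⟨0, le_rfl, fun ε _ _ => by simp⟩

theorem ThinThickening.biUnion_finset {J : Type*} (s : Finset J) {S : J → Set E}
    (hS : ∀ j ∈ s, ThinThickening μ (S j)) : ThinThickening μ (⋃ j ∈ s, S j) := by
  classical
  induction s using Finset.induction_on with
  | empty => simpa using thinThickening_empty
  | insert a s ha ih =>
    rw [Finset.set_biUnion_insert]
    exact (hS a (Finset.mem_insert_self a s)).union
      (ih fun j hj => hS j (Finset.mem_insert_of_mem hj))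

theorem ThinThickening.iUnion {J : Type*} [Finite J] {S : J → Set E}
    (hS : ∀ j, ThinThickening μ (S j)) : ThinThickening μ (⋃ j, S j) := by
  classical
  cases nonempty_fintype J
  have := ThinThickening.biUnion_finset (μ := μ) (Finset.univ : Finset J) (S := S)
    (fun j _ => hS j)
  simpa using this

variable (μ)

/-- The closed `ε`-thickening of a Lipschitz image of a cube of dimension `< dim E` has
volume `O(ε)`. -/
theorem thinThickening_image {κ : Type*} [Fintype κ] (Φ : (κ → ℝ) → E) (K : ℝ≥0)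
    (hΦ : LipschitzOnWith K Φ (Icc 0 1)) (hdim : Fintype.card κ + 1 ≤ finrank ℝ E) :
    ThinThickening μ (Φ '' Icc 0 1) := by
  set m := Fintype.card κ with hm
  set n := finrank ℝ E with hn
  set V := μ.real (ball (0 : E) 1) with hV
  have hVnn : 0 ≤ V := measureReal_nonneg
  refine ⟨3 ^ m * ((K : ℝ) + 2) ^ n * V, by positivity, fun ε hε hε1 => ?_⟩
  set N := ⌈1 / ε⌉₊ with hNdef
  have hinv : 1 ≤ 1 / ε := by rw [le_div_iff₀ hε]; linarith
  have hN : 0 < N := Nat.ceil_pos.2 (by positivity)
  have hN1 : 1 / ε ≤ N := Nat.le_ceil _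
  have hN2 : (N : ℝ) + 1 ≤ 3 / ε := by
    have h := Nat.ceil_lt_add_one (by positivity : 0 ≤ 1 / ε)
    have : 3 / ε = 1 / ε + 1 / ε + 1 / ε := by ring
    linarith
  have hKN : (K : ℝ) / N ≤ K * ε := by
    rw [div_le_iff₀ (by positivity)]
    calc (K : ℝ) = K * ε * (1 / ε) := by field_simp
      _ ≤ K * ε * N := by gcongr
  have hr : (K : ℝ) / N + 2 * ε ≤ (K + 2) * ε := by linarith
  have hr0 : 0 ≤ ((K : ℝ) + 2) * ε := by positivity
  refine (measure_cthickening_image_le μ Φ K hΦ N hN hε).trans ?_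
  have hball : μ (closedBall (0 : E) (K / N + 2 * ε)) ≤
      ENNReal.ofReal ((((K : ℝ) + 2) * ε) ^ n * V) := by
    refine (measure_mono (closedBall_subset_closedBall hr)).trans ?_
    rw [Measure.addHaar_closedBall μ 0 hr0, ENNReal.ofReal_mul (by positivity)]
    gcongr
    exact (ENNReal.ofReal_toReal (measure_ball_lt_top).ne).ge
  have hcard : (((N + 1) ^ m : ℕ) : ℝ≥0∞) ≤ ENNReal.ofReal ((3 / ε) ^ m) := by
    rw [← ENNReal.ofReal_natCast]
    apply ENNReal.ofReal_le_ofReal
    push_cast
    gcongr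
  calc (((N + 1) ^ m : ℕ) : ℝ≥0∞) * μ (closedBall (0 : E) (K / N + 2 * ε))
      ≤ ENNReal.ofReal ((3 / ε) ^ m) * ENNReal.ofReal ((((K : ℝ) + 2) * ε) ^ n * V) :=
        mul_le_mul' hcard hball
    _ = ENNReal.ofReal ((3 / ε) ^ m * ((((K : ℝ) + 2) * ε) ^ n * V)) :=
        (ENNReal.ofReal_mul (by positivity)).symm
    _ ≤ ENNReal.ofReal (3 ^ m * ((K : ℝ) + 2) ^ n * V * ε) := by
        apply ENNReal.ofReal_le_ofReal
        obtain ⟨j, hj⟩ : ∃ j, n = m + 1 + j := Nat.exists_eq_add_of_le hdim
        have hεj : ε ^ j ≤ 1 := pow_le_one₀ hε.le hε1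
        have key : (3 / ε) ^ m * ε ^ n = 3 ^ m * ε * ε ^ j := by
          rw [hj, div_pow, pow_add, pow_add, pow_one]
          field_simp
        calc (3 / ε) ^ m * ((((K : ℝ) + 2) * ε) ^ n * V)
            = ((3 / ε) ^ m * ε ^ n) * (((K : ℝ) + 2) ^ n * V) := by rw [mul_pow]; ring
          _ = 3 ^ m * ε * ε ^ j * (((K : ℝ) + 2) ^ n * V) := by rw [key]
          _ ≤ 3 ^ m * ε * 1 * (((K : ℝ) + 2) ^ n * V) := by gcongr
          _ = 3 ^ m * ((K : ℝ) + 2) ^ n * V * ε := by ring

end Thick

section Homogeneous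

variable {E : Type*} [NormedAddCommGroup E] [NormedSpace ℝ E]

theorem frontier_smul_set {t : ℝ} (ht : t ≠ 0) (D : Set E) :
    frontier (t • D) = t • frontier D := by
  have := (Homeomorph.smulOfNeZero t ht).image_frontier D
  rw [← Set.image_smul, ← Set.image_smul]
  exact this.symm

theorem cthickening_smul_subset {t : ℝ} (ht : 0 < t) (δ : ℝ) (S : Set E) :
    cthickening δ (t • S) ⊆ t • cthickening (δ / t) S := by
  intro x hx
  refine (Set.mem_smul_set_iff_inv_smul_mem₀ ht.ne' _ _).2 ?_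
  rw [mem_cthickening_iff] at hx ⊢
  have h1 : infEDist x (t • S) = ‖t‖₊ • infEDist (t⁻¹ • x) S := by
    rw [← infEDist_smul₀ ht.ne' S (t⁻¹ • x), smul_inv_smul₀ ht.ne']
  rw [h1, ENNReal.smul_def, smul_eq_mul] at hx
  have ht' : ((‖t‖₊ : ℝ≥0) : ℝ≥0∞) = ENNReal.ofReal t := by
    rw [ENNReal.ofReal, Real.toNNReal_of_nonneg ht.le]
    congr 1
    ext
    simp [abs_of_nonneg ht.le]
  rw [ht'] at hx
  rw [ENNReal.ofReal_div_of_pos ht, ENNReal.le_div_iff_mul_le (Or.inl (by simp [ht]))
    (Or.inl ENNReal.ofReal_ne_top), mul_comm]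
  exact hx

end Homogeneous

section Main

variable {E : Type*} [NormedAddCommGroup E] [NormedSpace ℝ E] [FiniteDimensional ℝ E]
  [MeasurableSpace E] [BorelSpace E] (μ : Measure E) [μ.IsAddHaarMeasure]

theorem abs_toReal_sub_le {a b c : ℝ≥0∞} (ha : a ≠ ⊤) (hb : b ≠ ⊤) (hc : c ≠ ⊤)
    (h1 : a ≤ b + c) (h2 : b ≤ a + c) : |a.toReal - b.toReal| ≤ c.toReal := by
  have h1' : a.toReal ≤ b.toReal + c.toReal := by
    rw [← ENNReal.toReal_add hb hc]
    exact ENNReal.toReal_mono (ENNReal.add_ne_top.2 ⟨hb, hc⟩) h1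
  have h2' : b.toReal ≤ a.toReal + c.toReal := by
    rw [← ENNReal.toReal_add ha hc]
    exact ENNReal.toReal_mono (ENNReal.add_ne_top.2 ⟨ha, hc⟩) h2
  rw [abs_le]; constructor <;> linarith

/-- The cell estimate in real form, for the lattice spanned by a real basis. -/
theorem abs_card_mul_sub_le {ι : Type*} [Fintype ι] (b : Basis ι ℝ E) (D : Set E)
    (hDb : IsBounded D) :
    |(Nat.card ↥(D ∩ (span ℤ (Set.range b) : Set E)) : ℝ) * μ.real (ZSpan.fundamentalDomain b)
        - μ.real D| ≤ μ.real (cthickening (∑ i, ‖b i‖) (frontier D)) := by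
  have hF : μ (ZSpan.fundamentalDomain b) ≠ ⊤ :=
    (ZSpan.fundamentalDomain_isBounded b).measure_lt_top.ne
  have hD : μ D ≠ ⊤ := hDb.measure_lt_top.ne
  have hT : μ (cthickening (∑ i, ‖b i‖) (frontier D)) ≠ ⊤ :=
    (hDb.closure.subset frontier_subset_closure).cthickening.measure_lt_top.ne
  have := abs_toReal_sub_le (ENNReal.mul_ne_top (ENNReal.natCast_ne_top _) hF) hD hT
    (card_mul_measure_le μ b D hDb) (measure_le_card_mul μ b D hDb)
  simpa [ENNReal.toReal_mul, measureReal_def] using this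

/-- **Lattice point count with error term** for the dilates of a bounded set whose frontier has
thickenings of volume `O(ε)`. -/
theorem exists_card_smul_bound (L : Submodule ℤ E) [DiscreteTopology L] [IsZLattice ℝ L]
    (D : Set E) (hDb : IsBounded D) (hth : ThinThickening μ (frontier D))
    (hn : 0 < finrank ℝ E) :
    ∃ B : ℝ, ∀ t : ℝ, 1 ≤ t →
      |(Nat.card ↥((t • D) ∩ (L : Set E)) : ℝ) * ZLattice.covolume L μ -
        t ^ finrank ℝ E * μ.real D| ≤ B * t ^ (finrank ℝ E - 1) := by
  classical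
  obtain ⟨C, -, hC⟩ := hth
  set b₀ := Free.chooseBasis ℤ L with hb₀
  set b := b₀.ofZLatticeBasis ℝ L with hb
  have hspan : span ℤ (Set.range b) = L := b₀.ofZLatticeBasis_span ℝ
  have hcov : ZLattice.covolume L μ = μ.real (ZSpan.fundamentalDomain b) :=
    ZLattice.covolume_eq_measure_fundamentalDomain L μ (ZLattice.isAddFundamentalDomain b₀ μ)
  set δ₀ := ∑ i, ‖b i‖ with hδ₀
  have hδ₀nn : 0 ≤ δ₀ := Finset.sum_nonneg fun i _ => norm_nonneg _
  set δ₁ := δ₀ + 1 with hδ₁def
  have hδ₁ : 1 ≤ δ₁ := by linarith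
  obtain ⟨R₀, hR₀⟩ : ∃ R, D ⊆ closedBall 0 R := hDb.subset_closedBall 0
  set R := max R₀ 0 with hRdef
  have hRnn : 0 ≤ R := le_max_right _ _
  have hR : D ⊆ closedBall 0 R := hR₀.trans (closedBall_subset_closedBall (le_max_left _ _))
  set M := μ.real (closedBall (0 : E) (δ₁ * R + δ₁)) with hM
  have hMnn : 0 ≤ M := measureReal_nonneg
  refine ⟨|C| * δ₁ + M, fun t ht => ?_⟩
  have ht0 : 0 < t := by linarith
  have hcell := abs_card_mul_sub_le μ b (t • D) (hDb.smul₀ t)
  rw [hspan] at hcell
  have hvol : μ.real (t • D) = t ^ finrank ℝ E * μ.real D := by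
    rw [measureReal_def, Measure.addHaar_smul_of_nonneg μ ht0.le, ENNReal.toReal_mul,
      ENNReal.toReal_ofReal (by positivity), measureReal_def]
  rw [hcov, ← hvol]
  refine hcell.trans ?_
  rw [frontier_smul_set ht0.ne']
  have htn : t ^ finrank ℝ E = t ^ (finrank ℝ E - 1) * t := by
    rw [← pow_succ, Nat.sub_add_cancel hn]
  have htn1 : (1 : ℝ) ≤ t ^ (finrank ℝ E - 1) := one_le_pow₀ ht
  by_cases htδ : δ₁ ≤ t
  · have hsub : cthickening δ₀ (t • frontier D) ⊆ t • cthickening (δ₁ / t) (frontier D) :=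
      (cthickening_mono (by linarith) _).trans (cthickening_smul_subset ht0 δ₁ _)
    have hε : δ₁ / t ≤ 1 := (div_le_one ht0).2 htδ
    have hε0 : 0 < δ₁ / t := by positivity
    have hfin : μ (t • cthickening (δ₁ / t) (frontier D)) ≠ ⊤ :=
      ((hDb.closure.subset frontier_subset_closure).cthickening.smul₀ t).measure_lt_top.ne
    have h1 : μ.real (cthickening (δ₁ / t) (frontier D)) ≤ |C| * (δ₁ / t) := by
      refine ENNReal.toReal_le_of_le_ofReal (by positivity) ((hC _ hε0 hε).trans ?_)
      exact ENNReal.ofReal_le_ofReal (mul_le_mul_of_nonneg_right (le_abs_self C) hε0.le)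
    calc μ.real (cthickening δ₀ (t • frontier D))
        ≤ μ.real (t • cthickening (δ₁ / t) (frontier D)) := measureReal_mono hsub hfin
      _ = t ^ finrank ℝ E * μ.real (cthickening (δ₁ / t) (frontier D)) := by
          rw [measureReal_def, Measure.addHaar_smul_of_nonneg μ ht0.le, ENNReal.toReal_mul,
            ENNReal.toReal_ofReal (by positivity), measureReal_def]
      _ ≤ t ^ finrank ℝ E * (|C| * (δ₁ / t)) := by gcongr
      _ = |C| * δ₁ * t ^ (finrank ℝ E - 1) := by
          rw [htn]; field_simp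
      _ ≤ (|C| * δ₁ + M) * t ^ (finrank ℝ E - 1) := by
          gcongr; linarith
  · push Not at htδ
    have hsub : cthickening δ₀ (t • frontier D) ⊆ closedBall (0 : E) (δ₁ * R + δ₁) := by
      have h1 : t • frontier D ⊆ closedBall (0 : E) (δ₁ * R) := by
        rintro _ ⟨y, hy, rfl⟩
        have hy' : y ∈ closedBall (0 : E) R :=
          (closure_minimal hR isClosed_closedBall) (frontier_subset_closure hy)
        rw [mem_closedBall_zero_iff] at hy' ⊢
        rw [norm_smul, Real.norm_of_nonneg ht0.le]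
        exact mul_le_mul htδ.le hy' (norm_nonneg _) (by linarith)
      calc cthickening δ₀ (t • frontier D) ⊆ cthickening δ₀ (closedBall (0 : E) (δ₁ * R)) :=
            cthickening_subset_of_subset δ₀ h1
        _ = closedBall (0 : E) (δ₀ + δ₁ * R) :=
            cthickening_closedBall hδ₀nn (by positivity) (0 : E)
        _ ⊆ closedBall (0 : E) (δ₁ * R + δ₁) := closedBall_subset_closedBall (by linarith)
    calc μ.real (cthickening δ₀ (t • frontier D)) ≤ M :=
          measureReal_mono hsub (measure_closedBall_lt_top).ne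
      _ ≤ (|C| * δ₁ + M) * 1 := by
          have : 0 ≤ |C| * δ₁ := by positivity
          linarith
      _ ≤ (|C| * δ₁ + M) * t ^ (finrank ℝ E - 1) := by
          gcongr

end Main

end Fermat.Agent.Lib.LatticeCountLip
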