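import Mathlib

/-!
# A Lipschitz cover of the frontier of `normLeOne K`

For a number field `K` of degree `n`, the frontier of the region
`NumberField.mixedEmbedding.fundamentalCone.normLeOne K` of the mixed space is covered by
finitely many images of the unit cube of dimension `n - 1` under maps that are Lipschitz on
that cube.
-/

namespace Fermat.Agent.Lib.NormLeOneCover

open NumberField NumberField.InfinitePlace NumberField.mixedEmbedding
  NumberField.mixedEmbedding.fundamentalCone NumberField.Units
  NumberField.Units.dirichletUnitTheorem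

noncomputable section

open scoped Classical

variable (K : Type*) [Field K] [NumberField K]

/-- The index type of the `n`-dimensional parameter cube: one coordinate for each infinite
place (the coordinate at `w₀` is the radial one) and one angle for each complex place. -/
abbrev Idx : Type _ := InfinitePlace K ⊕ {w : InfinitePlace K // IsComplex w}

/-- The logarithmic parameter attached to a point of the parameter space: the coordinates at
the places `w ≠ w₀`, and `0` at `w₀`. -/
def logParam (p : Idx K → ℝ) : realSpace K :=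
  fun w => if w = w₀ then 0 else p (Sum.inl w)

/-- The positive real vector attached to a point of the parameter space. -/
def posPart (p : Idx K → ℝ) : realSpace K :=
  fun w => Real.exp ((w.mult : ℝ)⁻¹ *
    ∑ i : InfinitePlace K, logParam K p i * completeBasis K i w)

theorem posPart_eq (p : Idx K → ℝ) : posPart K p = expMapBasis (logParam K p) := by
  ext w
  rw [expMapBasis_apply, expMap_apply, Module.Basis.equivFun_symm_apply]
  simp [posPart, Finset.sum_apply]

/-- The master parametrisation: radial coordinate, logarithmic coordinates, signs at the real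
places and angles at the complex places. -/
def master (ε : {w : InfinitePlace K // IsReal w} → Bool) (p : Idx K → ℝ) : mixedSpace K :=
  p (Sum.inl w₀) •
    ((fun w => (if ε w then (1 : ℝ) else -1) * posPart K p w.1,
      fun w => (posPart K p w.1 : ℂ) *
        Complex.exp (((2 * Real.pi * p (Sum.inr w) - Real.pi : ℝ) : ℂ) * Complex.I)) :
      mixedSpace K)

theorem contDiff_logParam (i : InfinitePlace K) :
    ContDiff ℝ 1 (fun p : Idx K → ℝ => logParam K p i) := by
  unfold logParam
  by_cases h : i = w₀
  · simp only [h, if_true]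
    exact contDiff_const
  · simp only [h, if_false]
    exact contDiff_apply ℝ ℝ (Sum.inl i)

theorem contDiff_posPart (w : InfinitePlace K) :
    ContDiff ℝ 1 (fun p : Idx K → ℝ => posPart K p w) := by
  unfold posPart
  refine Real.contDiff_exp.comp (contDiff_const.mul ?_)
  refine ContDiff.sum fun i _ => ?_
  exact (contDiff_logParam K i).mul contDiff_const

theorem contDiff_master (ε : {w : InfinitePlace K // IsReal w} → Bool) :
    ContDiff ℝ 1 (master K ε) := by
  unfold master
  refine (contDiff_apply ℝ ℝ (Sum.inl w₀)).smul ?_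
  refine ContDiff.prodMk ?_ ?_
  · refine contDiff_pi.mpr fun w => ?_
    exact contDiff_const.mul (contDiff_posPart K w.1)
  · refine contDiff_pi.mpr fun w => ?_
    refine (Complex.ofRealCLM.contDiff.comp (contDiff_posPart K w.1)).mul ?_
    refine Complex.contDiff_exp.comp ?_
    refine ContDiff.mul ?_ contDiff_const
    refine Complex.ofRealCLM.contDiff.comp ?_
    exact (contDiff_const.mul (contDiff_apply ℝ ℝ (Sum.inr w))).sub contDiff_const

/-- The union of the boundary faces of the unit cube. -/
def cubeBoundary (ι : Type*) : Set (ι → ℝ) :=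
  {p | p ∈ Set.Icc (0 : ι → ℝ) 1 ∧ ∃ i, p i = 0 ∨ p i = 1}

theorem master_eq_of {x : mixedSpace K} {y : realSpace K}
    (hyx : expMapBasis y = normAtAllPlaces x) (p : Idx K → ℝ)
    (hp0 : p (Sum.inl w₀) = Real.exp (y w₀))
    (hp1 : ∀ w, w ≠ w₀ → p (Sum.inl w) = y w)
    (hp2 : ∀ w : {w : InfinitePlace K // IsComplex w},
      2 * Real.pi * p (Sum.inr w) - Real.pi = Complex.arg (x.2 w)) :
    master K (fun w => decide (0 ≤ x.1 w)) p = x := by
  have hlog : logParam K p = fun i => if i = w₀ then 0 else y i := by
    funext i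
    unfold logParam
    by_cases h : i = w₀
    · simp [h]
    · simp [h, hp1 i h]
  have hE : ∀ w, Real.exp (y w₀) * posPart K p w = normAtPlace w x := by
    intro w
    have h1 := congrFun hyx w
    rw [expMapBasis_apply'' y, ← hlog, ← posPart_eq] at h1
    simpa using h1
  unfold master
  rw [hp0]
  refine Prod.ext ?_ ?_
  · funext w
    have h2 := hE w.1
    rw [normAtPlace_apply_of_isReal w.2] at h2
    simp only [Prod.smul_fst, Pi.smul_apply, smul_eq_mul, decide_eq_true_eq]
    rw [mul_left_comm, h2, Real.norm_eq_abs]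
    by_cases h : 0 ≤ x.1 w
    · simp [h, abs_of_nonneg h]
    · simp [h, abs_of_neg (not_le.mp h)]
  · funext w
    have h2 := hE w.1
    rw [normAtPlace_apply_of_isComplex w.2] at h2
    simp only [Prod.smul_snd, Pi.smul_apply]
    rw [hp2 w, Complex.real_smul, ← mul_assoc, ← Complex.ofReal_mul, h2]
    exact Complex.norm_mul_exp_arg_mul_I _

theorem frontier_normLeOne_subset :
    frontier (normLeOne K) ⊆
      {0} ∪ ⋃ ε : {w : InfinitePlace K // IsReal w} → Bool,
        master K ε '' cubeBoundary (Idx K) := by
  intro x hx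
  obtain ⟨hx1, hx2⟩ := hx
  have hcl : normAtAllPlaces x ∈ compactSet K := closure_normLeOne_subset K hx1
  have hint : normAtAllPlaces x ∉ expMapBasis '' interior (paramSet K) :=
    fun h => hx2 (subset_interior_normLeOne K h)
  rw [compactSet_eq_union] at hcl
  rcases hcl with ⟨y, hy, hyx⟩ | h0
  · right
    have hy' : y ∉ interior (paramSet K) := fun h => hint ⟨y, h, hyx⟩
    rw [closure_paramSet, Set.mem_univ_pi] at hy
    rw [interior_paramSet, Set.mem_univ_pi] at hy'
    have hw0 : y w₀ ≤ 0 := by simpa using hy w₀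
    have hw : ∀ w, w ≠ w₀ → y w ∈ Set.Icc (0 : ℝ) 1 := fun w h => by simpa [h] using hy w
    have hpi : 0 < 2 * Real.pi := by positivity
    let p : Idx K → ℝ := Sum.elim (fun w => if w = w₀ then Real.exp (y w₀) else y w)
      (fun w => (Complex.arg (x.2 w) + Real.pi) / (2 * Real.pi))
    have hp0 : p (Sum.inl w₀) = Real.exp (y w₀) := by simp [p]
    have hp1 : ∀ w, w ≠ w₀ → p (Sum.inl w) = y w := fun w h => by simp [p, h]
    have hp2 : ∀ w : {w : InfinitePlace K // IsComplex w},
        2 * Real.pi * p (Sum.inr w) - Real.pi = Complex.arg (x.2 w) := by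
      intro w
      simp only [p, Sum.elim_inr]
      field_simp
      ring
    refine Set.mem_iUnion.mpr ⟨fun w => decide (0 ≤ x.1 w), p, ⟨?_, ?_⟩,
      master_eq_of K hyx p hp0 hp1 hp2⟩
    · -- `p` lies in the unit cube
      rw [Set.mem_Icc]
      constructor
      · intro i
        rcases i with w | w
        · by_cases h : w = w₀
          · subst h
            rw [hp0]
            exact (Real.exp_pos _).le
          · rw [hp1 w h]
            exact (hw w h).1
        · simp only [p, Sum.elim_inr, Pi.zero_apply]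
          have := Complex.neg_pi_lt_arg (x.2 w)
          exact div_nonneg (by linarith) hpi.le
      · intro i
        rcases i with w | w
        · by_cases h : w = w₀
          · subst h
            rw [hp0]
            exact Real.exp_le_one_iff.mpr hw0
          · rw [hp1 w h]
            exact (hw w h).2
        · simp only [p, Sum.elim_inr, Pi.one_apply]
          have := Complex.arg_le_pi (x.2 w)
          rw [div_le_one hpi]
          linarith
    · -- `p` lies on a face
      by_contra hcon
      push Not at hcon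
      refine hy' fun w => ?_
      by_cases h : w = w₀
      · subst h
        simp only [if_true, Set.mem_Iio]
        refine lt_of_le_of_ne hw0 fun h0 => ?_
        have := (hcon (Sum.inl w₀)).2
        rw [hp0, h0, Real.exp_zero] at this
        exact this rfl
      · simp only [h, if_false, Set.mem_Ioo]
        have h1 := hcon (Sum.inl w)
        rw [hp1 w h] at h1
        exact ⟨lt_of_le_of_ne (hw w h).1 (Ne.symm h1.1), lt_of_le_of_ne (hw w h).2 h1.2⟩
  · left
    rw [Set.mem_singleton_iff] at h0 ⊢
    exact forall_normAtPlace_eq_zero_iff.mp fun w => congrFun h0 w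

section Generic

variable {ι : Type*}

/-- Insert the value `a` at the coordinate `i`, after reindexing the other coordinates by
`Fin m`. -/
def faceMap {m : ℕ} (i : ι) (a : ℝ) (e : {j : ι // j ≠ i} ≃ Fin m) (q : Fin m → ℝ) : ι → ℝ :=
  fun j => if h : j = i then a else q (e ⟨j, h⟩)

theorem lipschitzWith_faceMap [Fintype ι] {m : ℕ} (i : ι) (a : ℝ)
    (e : {j : ι // j ≠ i} ≃ Fin m) : LipschitzWith 1 (faceMap i a e) := by
  refine LipschitzWith.of_dist_le_mul fun q q' => ?_
  rw [NNReal.coe_one, one_mul]
  refine (dist_pi_le_iff dist_nonneg).mpr fun j => ?_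
  unfold faceMap
  by_cases h : j = i
  · simp [h]
  · simp only [h, dite_false]
    exact dist_le_pi_dist q q' (e ⟨j, h⟩)

theorem faceMap_mem_Icc {m : ℕ} (i : ι) {a : ℝ} (ha : a ∈ Set.Icc (0 : ℝ) 1)
    (e : {j : ι // j ≠ i} ≃ Fin m) {q : Fin m → ℝ} (hq : q ∈ Set.Icc (0 : Fin m → ℝ) 1) :
    faceMap i a e q ∈ Set.Icc (0 : ι → ℝ) 1 := by
  rw [Set.mem_Icc] at hq ⊢
  constructor
  · intro j
    unfold faceMap
    by_cases h : j = i
    · simp [h, ha.1]
    · simp only [h, dite_false]
      exact hq.1 _
  · intro j
    unfold faceMap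
    by_cases h : j = i
    · simp [h, ha.2]
    · simp only [h, dite_false]
      exact hq.2 _

theorem exists_faceMap_eq {m : ℕ} (i : ι) (e : {j : ι // j ≠ i} ≃ Fin m) {p : ι → ℝ}
    (hp : p ∈ Set.Icc (0 : ι → ℝ) 1) :
    ∃ q ∈ Set.Icc (0 : Fin m → ℝ) 1, faceMap i (p i) e q = p := by
  rw [Set.mem_Icc] at hp
  refine ⟨fun k => p (e.symm k).1, ?_, ?_⟩
  · rw [Set.mem_Icc]
    exact ⟨fun k => hp.1 _, fun k => hp.2 _⟩
  · funext j
    unfold faceMap
    by_cases h : j = i
    · simp [h]
    · simp [h]

end Generic

theorem card_idx : Fintype.card (Idx K) = Module.finrank ℚ K := by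
  rw [Fintype.card_sum, card_eq_nrRealPlaces_add_nrComplexPlaces,
    ← card_add_two_mul_card_eq_rank K]
  ring

/-- **Lipschitz cover of the frontier of `normLeOne K`.** -/
theorem exists_lipschitz_cover_frontier_normLeOne :
    ∃ (J : ℕ) (C : NNReal) (Φ : Fin J → (Fin (Module.finrank ℚ K - 1) → ℝ) → mixedSpace K),
      (∀ j, LipschitzOnWith C (Φ j) (Set.Icc 0 1)) ∧
        frontier (normLeOne K) ⊆ ⋃ j, Φ j '' Set.Icc 0 1 := by
  have hLip : ∀ ε : {w : InfinitePlace K // IsReal w} → Bool,
      ∃ C : NNReal, LipschitzOnWith C (master K ε) (Set.Icc (0 : Idx K → ℝ) 1) := fun ε =>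
    (contDiff_master K ε).contDiffOn.exists_lipschitzOnWith one_ne_zero (convex_Icc 0 1)
      isCompact_Icc
  choose C hC using hLip
  have hcard : ∀ i : Idx K,
      Fintype.card {j : Idx K // j ≠ i} = Module.finrank ℚ K - 1 := by
    intro i
    rw [Fintype.card_subtype_compl, Fintype.card_subtype_eq, card_idx]
  let e : ∀ i : Idx K, {j : Idx K // j ≠ i} ≃ Fin (Module.finrank ℚ K - 1) :=
    fun i => Fintype.equivFinOfCardEq (hcard i)
  let T : Type _ := Option (({w : InfinitePlace K // IsReal w} → Bool) × Idx K × Bool)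
  let Φ' : T → (Fin (Module.finrank ℚ K - 1) → ℝ) → mixedSpace K := fun t =>
    match t with
    | none => fun _ => 0
    | some (ε, i, b) => master K ε ∘ faceMap i (if b then 1 else 0) (e i)
  let Cmax : NNReal := Finset.univ.sup C
  have hΦ' : ∀ t, LipschitzOnWith Cmax (Φ' t) (Set.Icc 0 1) := by
    intro t
    rcases t with _ | ⟨ε, i, b⟩
    · exact (LipschitzWith.const (0 : mixedSpace K)).lipschitzOnWith.weaken bot_le
    · have hb : (if b then (1 : ℝ) else 0) ∈ Set.Icc (0 : ℝ) 1 := by
        cases b <;> simp
      have := (hC ε).comp (lipschitzWith_faceMap i (if b then 1 else 0) (e i)).lipschitzOnWith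
        (fun q hq => faceMap_mem_Icc i hb (e i) hq)
      refine this.weaken ?_
      rw [mul_one]
      exact Finset.le_sup (f := C) (Finset.mem_univ ε)
  have hcov : frontier (normLeOne K) ⊆ ⋃ t, Φ' t '' Set.Icc 0 1 := by
    intro x hx
    rcases frontier_normLeOne_subset K hx with h0 | h1
    · rw [Set.mem_singleton_iff] at h0
      refine Set.mem_iUnion.mpr ⟨none, 0, ?_, h0.symm⟩
      rw [Set.mem_Icc]
      exact ⟨le_rfl, zero_le_one⟩
    · obtain ⟨ε, p, ⟨hp, i, hi⟩, rfl⟩ := Set.mem_iUnion.mp h1
      obtain ⟨q, hq, hqp⟩ := exists_faceMap_eq i (e i) hp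
      rcases hi with hi | hi
      · refine Set.mem_iUnion.mpr ⟨some (ε, i, false), q, hq, ?_⟩
        rw [hi] at hqp
        simp [Φ', hqp]
      · refine Set.mem_iUnion.mpr ⟨some (ε, i, true), q, hq, ?_⟩
        rw [hi] at hqp
        simp [Φ', hqp]
  refine ⟨Fintype.card T, Cmax, fun j => Φ' ((Fintype.equivFin T).symm j), fun j => hΦ' _, ?_⟩
  intro x hx
  obtain ⟨t, ht⟩ := Set.mem_iUnion.mp (hcov hx)
  refine Set.mem_iUnion.mpr ⟨Fintype.equivFin T t, ?_⟩
  simpa using ht

/-- The same cover for the region in the euclidean model of the mixed space, which is the set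
used by the lattice point count. -/
theorem exists_lipschitz_cover_frontier_euclidean :
    ∃ (J : ℕ) (C : NNReal)
      (Φ : Fin J → (Fin (Module.finrank ℚ K - 1) → ℝ) → euclidean.mixedSpace K),
      (∀ j, LipschitzOnWith C (Φ j) (Set.Icc 0 1)) ∧
        frontier {x : euclidean.mixedSpace K | x ∈ (euclidean.toMixed K) ⁻¹' fundamentalCone K ∧
          mixedEmbedding.norm (euclidean.toMixed K x) ≤ 1} ⊆ ⋃ j, Φ j '' Set.Icc 0 1 := by
  obtain ⟨J, C, Φ, h1, h2⟩ := exists_lipschitz_cover_frontier_normLeOne K
  have hset : {x : euclidean.mixedSpace K | x ∈ (euclidean.toMixed K) ⁻¹' fundamentalCone K ∧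
      mixedEmbedding.norm (euclidean.toMixed K x) ≤ 1} = (euclidean.toMixed K) ⁻¹' normLeOne K := by
    ext x
    simp
  obtain ⟨D, hD⟩ : ∃ D : NNReal, LipschitzWith D (euclidean.toMixed K).symm :=
    ⟨_, (euclidean.toMixed K).symm.lipschitz⟩
  refine ⟨J, D * C, fun j => (euclidean.toMixed K).symm ∘ Φ j,
    fun j => hD.comp_lipschitzOnWith (h1 j), ?_⟩
  rw [hset, ← (euclidean.toMixed K).coe_toHomeomorph, ← Homeomorph.preimage_frontier,
    (euclidean.toMixed K).coe_toHomeomorph]
  intro x hx
  obtain ⟨j, q, hq, hqx⟩ := Set.mem_iUnion.mp (h2 hx)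
  refine Set.mem_iUnion.mpr ⟨j, q, hq, ?_⟩
  simp [hqx]

end

end Fermat.Agent.Lib.NormLeOneCover
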