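import Mathlib
import Fermat.Agent.Lib.LatticeCountLip
import Fermat.Agent.Lib.NormLeOneCover

/-!
# Counting ideals of bounded norm in an ideal class, with a power-saving error term

For a number field `K` of degree `n`, there are constants `κ`, `B` such that for every ideal
class `C` and every `x ≥ 1`

  `|#{I ≠ 0 : N(I) ≤ x, [I] = C} - κ x| ≤ B x ^ (1 - 1/n)`.

The constant `κ` does not depend on `C`.  This is the error-term version of Mathlib's
`NumberField.Ideal.tendsto_norm_le_and_mk_eq_div_atTop`.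
-/

set_option autoImplicit false

open scoped NumberField nonZeroDivisors Pointwise

open NumberField NumberField.InfinitePlace NumberField.mixedEmbedding
  NumberField.mixedEmbedding.fundamentalCone NumberField.Units MeasureTheory Module Ideal

namespace Fermat.Agent.Lib.ClassCountError

open Fermat.Agent.Lib.LatticeCountLip Fermat.Agent.Lib.NormLeOneCover

open scoped Classical

variable (K : Type*) [Field K] [NumberField K]

/-- The frontier of `normLeOne K` has thin thickenings. -/
theorem thinThickening_frontier_normLeOne :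
    ThinThickening (volume : Measure (mixedSpace K)) (frontier (normLeOne K)) := by
  obtain ⟨J, C, Φ, hΦ, hcov⟩ := exists_lipschitz_cover_frontier_normLeOne K
  have hdim : Fintype.card (Fin (finrank ℚ K - 1)) + 1 ≤ finrank ℝ (mixedSpace K) := by
    rw [Fintype.card_fin, mixedEmbedding.finrank]
    have := finrank_pos (R := ℚ) (M := K)
    omega
  exact (ThinThickening.iUnion
    (fun j => thinThickening_image volume (Φ j) C (hΦ j) hdim)).mono hcov

/-- The part of the fundamental cone of norm `≤ c` is a dilate of `normLeOne K`. -/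
theorem setOf_norm_le_eq_smul {c : ℝ} (hc : 0 < c) :
    {x : mixedSpace K | x ∈ fundamentalCone K ∧ mixedEmbedding.norm x ≤ c} =
      (c ^ (1 / (finrank ℚ K : ℝ))) • normLeOne K := by
  have hn : 0 < finrank ℚ K := finrank_pos
  have hn' : (0 : ℝ) < finrank ℚ K := Nat.cast_pos.mpr hn
  set t : ℝ := c ^ (1 / (finrank ℚ K : ℝ)) with ht
  have ht0 : 0 < t := Real.rpow_pos_of_pos hc _
  have htn : t ^ finrank ℚ K = c := by
    rw [ht, ← Real.rpow_natCast, ← Real.rpow_mul hc.le, one_div, inv_mul_cancel₀ hn'.ne',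
      Real.rpow_one]
  ext x
  rw [Set.mem_smul_set_iff_inv_smul_mem₀ ht0.ne', mem_normLeOne,
    smul_mem_iff_mem (inv_ne_zero ht0.ne'), mixedEmbedding.norm_smul, Set.mem_ofPred_eq,
    abs_of_pos (inv_pos.mpr ht0), inv_pow, htn, inv_mul_le_iff₀ hc, mul_one]

/-- The lattice-point count with error term for the cone points of bounded norm in the lattice
of an ideal. -/
theorem exists_card_idealSet_bound (J : (Ideal (𝓞 K))⁰) :
    ∃ B : ℝ, ∀ c : ℝ, 1 ≤ c →
      |(Nat.card {a : idealSet K J // mixedEmbedding.norm (a : mixedSpace K) ≤ c} : ℝ) *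
          ZLattice.covolume (idealLattice K (FractionalIdeal.mk0 K J)) -
        c * (volume : Measure (mixedSpace K)).real (normLeOne K)| ≤
        B * c ^ (1 - 1 / (finrank ℚ K : ℝ)) := by
  have hn : 0 < finrank ℚ K := finrank_pos
  have hn' : (0 : ℝ) < finrank ℚ K := Nat.cast_pos.mpr hn
  obtain ⟨B, hB⟩ := exists_card_smul_bound (volume : Measure (mixedSpace K))
    (idealLattice K (FractionalIdeal.mk0 K J)) (normLeOne K) (isBounded_normLeOne K)
    (thinThickening_frontier_normLeOne K) (by rw [mixedEmbedding.finrank]; exact hn)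
  refine ⟨B, fun c hc => ?_⟩
  have hc0 : 0 < c := lt_of_lt_of_le one_pos hc
  set t : ℝ := c ^ (1 / (finrank ℚ K : ℝ)) with ht
  have ht1 : 1 ≤ t := Real.one_le_rpow hc (by positivity)
  have htn : t ^ finrank ℚ K = c := by
    rw [ht, ← Real.rpow_natCast, ← Real.rpow_mul hc0.le, one_div, inv_mul_cancel₀ hn'.ne',
      Real.rpow_one]
  have htn1 : t ^ (finrank ℚ K - 1) = c ^ (1 - 1 / (finrank ℚ K : ℝ)) := by
    rw [ht, ← Real.rpow_natCast, ← Real.rpow_mul hc0.le, Nat.cast_sub hn, Nat.cast_one]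
    congr 1
    field_simp
  have hcard : Nat.card {a : idealSet K J // mixedEmbedding.norm (a : mixedSpace K) ≤ c} =
      Nat.card ↥((t • normLeOne K) ∩
        (idealLattice K (FractionalIdeal.mk0 K J) : Set (mixedSpace K))) := by
    rw [ht, ← setOf_norm_le_eq_smul K hc0]
    refine Nat.card_congr ?_
    exact
      { toFun := fun a => ⟨a.1.1, ⟨a.1.2.1, a.2⟩, a.1.2.2⟩
        invFun := fun x => ⟨⟨x.1, x.2.1.1, x.2.2⟩, x.2.1.2⟩
        left_inv := fun _ => rfl
        right_inv := fun _ => rfl }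
  have := hB t ht1
  rw [mixedEmbedding.finrank, htn, htn1, ← hcard] at this
  exact this

/-- Ideals of bounded norm in the class `C` correspond to principal ideals of bounded norm
divisible by a fixed ideal `J` of the inverse class. -/
theorem card_norm_le_and_mk_eq {C : ClassGroup (𝓞 K)} {J : (Ideal (𝓞 K))⁰}
    (hJ : ClassGroup.mk0 J = C⁻¹) (s : ℝ) :
    Nat.card {I : (Ideal (𝓞 K))⁰ // absNorm (I : Ideal (𝓞 K)) ≤ s ∧ ClassGroup.mk0 I = C}
      = Nat.card {I : (Ideal (𝓞 K))⁰ // (J : Ideal (𝓞 K)) ∣ I ∧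
        Submodule.IsPrincipal (I : Ideal (𝓞 K)) ∧
        absNorm (I : Ideal (𝓞 K)) ≤ s * absNorm (J : Ideal (𝓞 K))} := by
  simp_rw [← nonZeroDivisors_dvd_iff_dvd_coe]
  refine Nat.card_congr ?_
  refine ((Equiv.dvd J).subtypeEquiv fun I ↦ ?_).trans
    (Equiv.subtypeSubtypeEquivSubtypeInter (fun I : (Ideal (𝓞 K))⁰ ↦ J ∣ I) _)
  rw [← ClassGroup.mk0_eq_one_iff (SetLike.coe_mem _)]
  simp_rw [Equiv.dvd_apply, Submonoid.coe_mul, ← Submonoid.mul_def, _root_.map_mul, hJ,
    inv_mul_eq_one, Nat.cast_mul, mul_comm s, eq_comm, and_comm, and_congr_left_iff]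
  exact fun _ ↦
    (mul_le_mul_iff_of_pos_left (Nat.cast_pos.mpr (absNorm_pos_of_nonZeroDivisors J))).symm

/-- The density of ideals in an ideal class (independent of the class). -/
noncomputable def kappa : ℝ :=
  (volume : Measure (mixedSpace K)).real (normLeOne K) /
    ((torsionOrder K : ℝ) * ((2⁻¹ : ℝ) ^ nrComplexPlaces K * √|(discr K : ℝ)|))

theorem exists_classCount_bound_aux (C : ClassGroup (𝓞 K)) :
    ∃ B : ℝ, ∀ x : ℝ, 1 ≤ x →
      |(Nat.card {I : (Ideal (𝓞 K))⁰ //
          absNorm (I : Ideal (𝓞 K)) ≤ x ∧ ClassGroup.mk0 I = C} : ℝ) - kappa K * x| ≤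
        B * x ^ (1 - 1 / (finrank ℚ K : ℝ)) := by
  obtain ⟨J, hJ⟩ := ClassGroup.mk0_surjective C⁻¹
  obtain ⟨B, hB⟩ := exists_card_idealSet_bound K J
  set N : ℝ := (absNorm (J : Ideal (𝓞 K)) : ℝ) with hN
  have hN1 : 1 ≤ N := by
    rw [hN]
    exact_mod_cast absNorm_pos_of_nonZeroDivisors J
  have hN0 : 0 < N := lt_of_lt_of_le one_pos hN1
  set w : ℝ := (torsionOrder K : ℝ) with hw
  have hw0 : 0 < w := by
    rw [hw]
    exact_mod_cast Nat.pos_of_ne_zero (torsionOrder_ne_zero K)
  set d : ℝ := (2⁻¹ : ℝ) ^ nrComplexPlaces K * √|(discr K : ℝ)| with hd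
  have hd0 : 0 < d := by
    rw [hd]
    have : (0 : ℝ) < |(discr K : ℝ)| := abs_pos.mpr (Int.cast_ne_zero.mpr (discr_ne_zero K))
    positivity
  have hcov : ZLattice.covolume (idealLattice K (FractionalIdeal.mk0 K J)) = N * d := by
    rw [covolume_idealLattice, FractionalIdeal.coe_mk0, FractionalIdeal.coeIdeal_absNorm,
      Rat.cast_natCast, hd, hN, mul_assoc]
  set θ : ℝ := 1 - 1 / (finrank ℚ K : ℝ) with hθ
  refine ⟨|B| * N ^ θ / (w * N * d), fun x hx => ?_⟩
  have hx0 : 0 < x := lt_of_lt_of_le one_pos hx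
  have hc : 1 ≤ x * N := by nlinarith
  have h1 := hB (x * N) hc
  have hcard : (Nat.card {I : (Ideal (𝓞 K))⁰ //
      absNorm (I : Ideal (𝓞 K)) ≤ x ∧ ClassGroup.mk0 I = C} : ℝ) * w =
      (Nat.card {a : idealSet K J // mixedEmbedding.norm (a : mixedSpace K) ≤ x * N} : ℝ) := by
    rw [card_norm_le_and_mk_eq K hJ x, hw, ← Nat.cast_mul, card_isPrincipal_dvd_norm_le]
  rw [← hcard, hcov, Real.mul_rpow hx0.le hN0.le] at h1
  set M : ℝ := (Nat.card {I : (Ideal (𝓞 K))⁰ //
      absNorm (I : Ideal (𝓞 K)) ≤ x ∧ ClassGroup.mk0 I = C} : ℝ) with hM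
  have hkey : M - kappa K * x =
      (M * w * (N * d) - x * N * (volume : Measure (mixedSpace K)).real (normLeOne K)) /
        (w * N * d) := by
    have hκ : kappa K = (volume : Measure (mixedSpace K)).real (normLeOne K) / (w * d) := rfl
    rw [hκ]
    field_simp
  rw [hkey, abs_div, abs_of_pos (by positivity : 0 < w * N * d), div_le_iff₀ (by positivity)]
  calc |M * w * (N * d) - x * N * (volume : Measure (mixedSpace K)).real (normLeOne K)|
      ≤ B * (x ^ θ * N ^ θ) := h1
    _ ≤ |B| * (x ^ θ * N ^ θ) := by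
        gcongr
        exact le_abs_self B
    _ = |B| * N ^ θ / (w * N * d) * x ^ θ * (w * N * d) := by
        field_simp

/-- **Ideal count in a class with power-saving error term.** -/
theorem exists_classCount_bound :
    ∃ κ B : ℝ, ∀ (C : ClassGroup (𝓞 K)) (x : ℝ), 1 ≤ x →
      |(Nat.card {I : (Ideal (𝓞 K))⁰ //
          absNorm (I : Ideal (𝓞 K)) ≤ x ∧ ClassGroup.mk0 I = C} : ℝ) - κ * x| ≤
        B * x ^ (1 - 1 / (finrank ℚ K : ℝ)) := by
  choose B hB using exists_classCount_bound_aux K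
  refine ⟨kappa K, ∑ C, |B C|, fun C x hx => (hB C x hx).trans ?_⟩
  have hx0 : 0 < x := lt_of_lt_of_le one_pos hx
  gcongr
  exact (le_abs_self _).trans
    (Finset.single_le_sum (f := fun C => |B C|) (fun _ _ => abs_nonneg _) (Finset.mem_univ C))

end Fermat.Agent.Lib.ClassCountError
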