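import Fermat.Agent.Lib.IdealEuler

/-!
# Euler products for number fields: Dedekind zeta and class-character L-series (real `s > 1`)
-/

set_option autoImplicit false
set_option linter.unusedSectionVars false

namespace Fermat.Agent.Lib.IdealEulerNF

open NumberField Ideal IsDedekindDomain Filter Topology
open scoped nonZeroDivisors

noncomputable section

variable (K : Type*) [Field K] [NumberField K]

/-- `I ↦ N(I)^(-s)` (and `0` at `⊥`) as a monoid-with-zero hom on the ideals of `𝓞 K`. -/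
def normPow (s : ℝ) : Ideal (𝓞 K) →*₀ ℝ where
  toFun I := if I = ⊥ then 0 else (absNorm I : ℝ) ^ (-s)
  map_zero' := by simp
  map_one' := by simp
  map_mul' I J := by
    by_cases hI : I = ⊥
    · simp [hI]
    by_cases hJ : J = ⊥
    · simp [hJ]
    have hIJ : I * J ≠ ⊥ := mul_ne_zero hI hJ
    simp only [hI, hJ, hIJ, if_false, map_mul, Nat.cast_mul]
    exact Real.mul_rpow (Nat.cast_nonneg _) (Nat.cast_nonneg _)

variable {K}

lemma normPow_apply (s : ℝ) (I : Ideal (𝓞 K)) :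
    normPow K s I = if I = ⊥ then 0 else (absNorm I : ℝ) ^ (-s) := rfl

lemma normPow_of_ne_bot (s : ℝ) {I : Ideal (𝓞 K)} (hI : I ≠ ⊥) :
    normPow K s I = (absNorm I : ℝ) ^ (-s) := by simp [normPow_apply, hI]

@[simp] lemma normPow_bot (s : ℝ) : normPow K s ⊥ = 0 := by simp [normPow_apply]

lemma normPow_of_ne_zero {s : ℝ} (hs : s ≠ 0) (I : Ideal (𝓞 K)) :
    normPow K s I = (absNorm I : ℝ) ^ (-s) := by
  by_cases hI : I = ⊥
  · subst hI
    simp [Real.zero_rpow (neg_ne_zero.mpr hs)]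
  · exact normPow_of_ne_bot s hI

lemma normPow_nonneg (s : ℝ) (I : Ideal (𝓞 K)) : 0 ≤ normPow K s I := by
  rw [normPow_apply]; split_ifs
  · exact le_rfl
  · positivity

lemma one_le_absNorm {I : Ideal (𝓞 K)} (hI : I ≠ ⊥) : 1 ≤ absNorm I :=
  Nat.one_le_iff_ne_zero.mpr (fun h => hI (absNorm_eq_zero_iff.mp h))

lemma normPow_le_one {s : ℝ} (hs : 0 ≤ s) (I : Ideal (𝓞 K)) : normPow K s I ≤ 1 := by
  rw [normPow_apply]; split_ifs with hI
  · exact zero_le_one
  · exact Real.rpow_le_one_of_one_le_of_nonpos (by exact_mod_cast one_le_absNorm hI)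
      (neg_nonpos.mpr hs)

variable (K)

/-- The number of ideals of norm `n` (the coefficients of the Dedekind zeta function). -/
def idealCount (n : ℕ) : ℕ := Nat.card {I : Ideal (𝓞 K) // absNorm I = n}

/-- The L-series defining `dedekindZeta K` converges at every real `s > 1`. -/
theorem lseriesSummable_idealCount {s : ℝ} (hs : 1 < s) :
    LSeriesSummable (fun n ↦ (Nat.card {I : Ideal (𝓞 K) // absNorm I = n} : ℂ)) (s : ℂ) := by
  have hf : Tendsto (fun n : ℕ ↦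
      (∑ k ∈ Finset.Icc 1 n, (Nat.card {I : Ideal (𝓞 K) // absNorm I = k} : ℝ)) / (n : ℝ))
      atTop (𝓝 (dedekindZeta_residue K)) := by
    refine ((Ideal.tendsto_norm_le_div_atTop₀ K).comp tendsto_natCast_atTop_atTop).congr fun n ↦ ?_
    simp only [Function.comp_apply, Nat.cast_le, ← Nat.cast_sum]
    congr
    rw [← add_left_inj 1, ← card_norm_le_eq_card_norm_le_add_one,
      show Finset.Icc 1 n = Finset.Ioc 0 n from Finset.Icc_succ_left_eq_Ioc _ _,
      show 1 = Nat.card {I : Ideal (𝓞 K) // absNorm I = 0} by simp [Ideal.absNorm_eq_zero_iff],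
      Finset.sum_Ioc_add_eq_sum_Icc (n.zero_le),
      ← Finset.card_preimage_eq_sum_card_image_eq (fun k _ ↦ finite_setOfPred_absNorm_eq k)]
    simp [Set.coe_eq_subtype]
  have := LSeriesSummable_of_sum_norm_bigO_and_nonneg
    (f := fun n ↦ (Nat.card {I : Ideal (𝓞 K) // absNorm I = n} : ℝ)) (r := 1) (s := (s : ℂ))
    (Asymptotics.isBigO_atTop_natCast_rpow_of_tendsto_div_rpow (by simpa using hf))
    (fun _ ↦ Nat.cast_nonneg _) zero_le_one (by simpa using hs)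
  exact this

/-- The real terms of the Dedekind zeta series at real `s`. -/
def zetaTerm (s : ℝ) (n : ℕ) : ℝ :=
  (Nat.card {I : Ideal (𝓞 K) // absNorm I = n} : ℝ) * (if n = 0 then 0 else (n : ℝ) ^ (-s))

lemma lseries_term_eq (s : ℝ) (n : ℕ) :
    LSeries.term (fun n ↦ (Nat.card {I : Ideal (𝓞 K) // absNorm I = n} : ℂ)) (s : ℂ) n =
      ((zetaTerm K s n : ℝ) : ℂ) := by
  rcases eq_or_ne n 0 with rfl | hn
  · simp [zetaTerm]
  · rw [LSeries.term_of_ne_zero hn, zetaTerm, if_neg hn, Real.rpow_neg (Nat.cast_nonneg n),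
      ← div_eq_mul_inv]
    push_cast
    rw [Complex.ofReal_cpow (Nat.cast_nonneg n)]
    simp

lemma summable_zetaTerm {s : ℝ} (hs : 1 < s) : Summable (zetaTerm K s) := by
  have h := lseriesSummable_idealCount K hs
  rw [LSeriesSummable] at h
  have h2 : Summable (fun n => ((zetaTerm K s n : ℝ) : ℂ)) := by
    convert h using 1
    funext n
    exact (lseries_term_eq K s n).symm
  exact Complex.summable_ofReal.mp h2

lemma tsum_fiber_normPow (s : ℝ) (n : ℕ) :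
    ∑' I : {I : Ideal (𝓞 K) // absNorm I = n}, normPow K s (I : Ideal (𝓞 K)) = zetaTerm K s n := by
  have key : ∀ I : {I : Ideal (𝓞 K) // absNorm I = n},
      normPow K s (I : Ideal (𝓞 K)) = (if n = 0 then 0 else (n : ℝ) ^ (-s)) := by
    rintro ⟨I, hI⟩
    rw [normPow_apply]
    by_cases hn : n = 0
    · subst hn
      simp [absNorm_eq_zero_iff.mp hI]
    · have hI0 : I ≠ ⊥ := by
        rintro rfl
        simp at hI
        exact hn hI.symm
      simp [hI0, hn, hI]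
  simp_rw [key]
  rw [tsum_const, zetaTerm, nsmul_eq_mul]

/-- The fibrewise reindexing of `normPow`. -/
def normPowSigma (s : ℝ) : (Σ n : ℕ, {I : Ideal (𝓞 K) // absNorm I = n}) → ℝ :=
  fun x => normPow K s (x.2 : Ideal (𝓞 K))

lemma summable_normPowSigma {s : ℝ} (hs : 1 < s) : Summable (normPowSigma K s) := by
  have hnn : ∀ x, 0 ≤ normPowSigma K s x := fun x => normPow_nonneg s (x.2 : Ideal (𝓞 K))
  have h1 : ∀ n : ℕ, Summable (fun I : {I : Ideal (𝓞 K) // absNorm I = n} =>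
      normPowSigma K s ⟨n, I⟩) := by
    intro n
    have : Finite {I : Ideal (𝓞 K) // absNorm I = n} :=
      (finite_setOfPred_absNorm_eq n).to_subtype
    exact Summable.of_finite
  have h2 : Summable (fun n : ℕ => ∑' I : {I : Ideal (𝓞 K) // absNorm I = n},
      normPowSigma K s ⟨n, I⟩) := by
    have : (fun n : ℕ => ∑' I : {I : Ideal (𝓞 K) // absNorm I = n}, normPowSigma K s ⟨n, I⟩)
        = zetaTerm K s := by
      funext n
      exact tsum_fiber_normPow K s n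
    rw [this]
    exact summable_zetaTerm K hs
  exact (summable_sigma_of_nonneg (f := normPowSigma K s) hnn).mpr ⟨h1, h2⟩

/-- `∑_I N(I)^(-s)` converges for real `s > 1`. -/
theorem summable_normPow {s : ℝ} (hs : 1 < s) :
    Summable (fun I : Ideal (𝓞 K) => normPow K s I) := by
  have h := (Equiv.sigmaFiberEquiv (absNorm : Ideal (𝓞 K) → ℕ)).summable_iff
    (f := fun I : Ideal (𝓞 K) => normPow K s I)
  exact h.mp (summable_normPowSigma K hs)

/-- `∑_I N(I)^(-s) = ∑_n #{I : N(I) = n} n^(-s)`. -/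
theorem tsum_normPow_eq_tsum_zetaTerm {s : ℝ} (hs : 1 < s) :
    ∑' I : Ideal (𝓞 K), normPow K s I = ∑' n : ℕ, zetaTerm K s n := by
  have h1 : ∑' x, normPowSigma K s x = ∑' I : Ideal (𝓞 K), normPow K s I :=
    (Equiv.sigmaFiberEquiv (absNorm : Ideal (𝓞 K) → ℕ)).tsum_eq
      (fun I : Ideal (𝓞 K) => normPow K s I)
  have h2 : ∑' x, normPowSigma K s x =
      ∑' n : ℕ, ∑' I : {I : Ideal (𝓞 K) // absNorm I = n}, normPowSigma K s ⟨n, I⟩ := by
    refine Summable.tsum_sigma' (fun n => ?_) (summable_normPowSigma K hs)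
    have : Finite {I : Ideal (𝓞 K) // absNorm I = n} :=
      (finite_setOfPred_absNorm_eq n).to_subtype
    exact Summable.of_finite
  rw [← h1, h2]
  exact tsum_congr fun n => tsum_fiber_normPow K s n

/-- The sum over ideals equals Mathlib's `dedekindZeta` at real `s > 1`. -/
theorem tsum_normPow_eq_dedekindZeta {s : ℝ} (hs : 1 < s) :
    ((∑' I : Ideal (𝓞 K), normPow K s I : ℝ) : ℂ) = dedekindZeta K (s : ℂ) := by
  rw [tsum_normPow_eq_tsum_zetaTerm K hs, Complex.ofReal_tsum, dedekindZeta, LSeries]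
  exact tsum_congr fun n => (lseries_term_eq K s n).symm

/-- `dedekindZeta K s` is real for real `s > 1`, with real part the sum over ideals. -/
theorem dedekindZeta_re {s : ℝ} (hs : 1 < s) :
    (dedekindZeta K (s : ℂ)).re = ∑' I : Ideal (𝓞 K), normPow K s I := by
  rw [← tsum_normPow_eq_dedekindZeta K hs, Complex.ofReal_re]

/-- Euler product of the Dedekind zeta function at real `s > 1`. -/
theorem hasProd_normPow {s : ℝ} (hs : 1 < s) :
    HasProd (fun v : HeightOneSpectrum (𝓞 K) => (1 - normPow K s v.asIdeal)⁻¹)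
      (∑' I : Ideal (𝓞 K), normPow K s I) := by
  refine IdealEuler.eulerProduct_hasProd (normPow K s) ?_
  simpa [abs_of_nonneg (normPow_nonneg _ _)] using summable_normPow K hs

/-! ### The same statements in the raw spelling `(absNorm I : ℝ) ^ (-s)` -/

lemma normPow_eq_rpow {s : ℝ} (hs : 1 < s) :
    (fun I : Ideal (𝓞 K) => normPow K s I) = fun I : Ideal (𝓞 K) => (absNorm I : ℝ) ^ (-s) :=
  funext fun I => normPow_of_ne_zero (by linarith) I

/-- `∑_I N(I)^(-s)` converges for real `s > 1` (raw spelling; the term at `⊥` is `0`). -/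
theorem summable_absNorm_rpow {s : ℝ} (hs : 1 < s) :
    Summable (fun I : Ideal (𝓞 K) => (absNorm I : ℝ) ^ (-s)) := by
  rw [← normPow_eq_rpow K hs]
  exact summable_normPow K hs

/-- Raw spelling of `tsum_normPow_eq_dedekindZeta`. -/
theorem tsum_absNorm_rpow_eq_dedekindZeta {s : ℝ} (hs : 1 < s) :
    ((∑' I : Ideal (𝓞 K), (absNorm I : ℝ) ^ (-s) : ℝ) : ℂ) = dedekindZeta K (s : ℂ) := by
  rw [← tsum_normPow_eq_dedekindZeta K hs, normPow_eq_rpow K hs]

/-- Summability over the nonzero ideals. -/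
theorem summable_absNorm_rpow_nonZero {s : ℝ} (hs : 1 < s) :
    Summable (fun I : (Ideal (𝓞 K))⁰ => (absNorm (I : Ideal (𝓞 K)) : ℝ) ^ (-s)) :=
  (summable_absNorm_rpow K hs).comp_injective Subtype.val_injective

/-- Summability over the ideals of a given class: the first half of `ClassZetaStmt`. -/
theorem summable_absNorm_rpow_class (c : ClassGroup (𝓞 K)) {s : ℝ} (hs : 1 < s) :
    Summable (fun I : {I : (Ideal (𝓞 K))⁰ // ClassGroup.mk0 I = c} =>
      (absNorm (I.1 : Ideal (𝓞 K)) : ℝ) ^ (-s)) :=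
  (summable_absNorm_rpow_nonZero K hs).comp_injective Subtype.val_injective

/-- The sum over all ideals equals the sum over the nonzero ideals. -/
theorem tsum_absNorm_rpow_nonZero {s : ℝ} (hs : 1 < s) :
    ∑' I : (Ideal (𝓞 K))⁰, (absNorm (I : Ideal (𝓞 K)) : ℝ) ^ (-s) =
      ∑' I : Ideal (𝓞 K), (absNorm I : ℝ) ^ (-s) := by
  have hsupp : Function.support (fun I : Ideal (𝓞 K) => (absNorm I : ℝ) ^ (-s)) ⊆
      ((Ideal (𝓞 K))⁰ : Set (Ideal (𝓞 K))) := by
    intro I hI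
    rw [Function.mem_support] at hI
    rw [SetLike.mem_coe, mem_nonZeroDivisors_iff_ne_zero]
    rintro rfl
    apply hI
    have : (absNorm (0 : Ideal (𝓞 K)) : ℝ) = 0 := by simp
    rw [this, Real.zero_rpow (by linarith)]
  exact tsum_subtype_eq_of_support_subset hsupp

/-! ### Class characters -/

/-- The class of an ideal (junk value `1` at `⊥`). -/
def classOf (I : Ideal (𝓞 K)) : ClassGroup (𝓞 K) :=
  if h : I = ⊥ then 1 else ClassGroup.mk0 ⟨I, mem_nonZeroDivisors_iff_ne_zero.mpr h⟩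

lemma classOf_of_ne_bot {I : Ideal (𝓞 K)} (h : I ≠ ⊥) :
    classOf K I = ClassGroup.mk0 ⟨I, mem_nonZeroDivisors_iff_ne_zero.mpr h⟩ := by
  simp [classOf, h]

lemma classOf_coe (I : (Ideal (𝓞 K))⁰) : classOf K (I : Ideal (𝓞 K)) = ClassGroup.mk0 I := by
  have h : (I : Ideal (𝓞 K)) ≠ ⊥ := mem_nonZeroDivisors_iff_ne_zero.mp I.2
  rw [classOf_of_ne_bot K h]

lemma classOf_mul {I J : Ideal (𝓞 K)} (hI : I ≠ ⊥) (hJ : J ≠ ⊥) :
    classOf K (I * J) = classOf K I * classOf K J := by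
  have hIJ : I * J ≠ ⊥ := mul_ne_zero hI hJ
  rw [classOf_of_ne_bot K hI, classOf_of_ne_bot K hJ, classOf_of_ne_bot K hIJ, ← map_mul]
  rfl

lemma classOf_one : classOf K (1 : Ideal (𝓞 K)) = 1 := by
  have h : (1 : Ideal (𝓞 K)) ≠ ⊥ := one_ne_zero
  rw [classOf_of_ne_bot K h]
  exact map_one ClassGroup.mk0

/-- Values of a class group character have norm one. -/
lemma norm_classChar (ψ : ClassGroup (𝓞 K) →* ℂˣ) (c : ClassGroup (𝓞 K)) :
    ‖((ψ c : ℂˣ) : ℂ)‖ = 1 := by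
  have hn : orderOf c ≠ 0 := (orderOf_pos c).ne'
  have h1 : ((ψ c : ℂˣ) : ℂ) ^ orderOf c = 1 := by
    rw [← Units.val_pow_eq_pow_val, ← map_pow, pow_orderOf_eq_one, map_one, Units.val_one]
  exact Complex.norm_eq_one_of_pow_eq_one h1 hn

/-- `I ↦ ψ([I]) N(I)^(-s)` (and `0` at `⊥`) as a monoid-with-zero hom. -/
def charPow (ψ : ClassGroup (𝓞 K) →* ℂˣ) (s : ℝ) : Ideal (𝓞 K) →*₀ ℂ where
  toFun I := ((ψ (classOf K I) : ℂˣ) : ℂ) * ((normPow K s I : ℝ) : ℂ)
  map_zero' := by simp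
  map_one' := by rw [classOf_one, map_one, map_one]; simp
  map_mul' I J := by
    by_cases hI : I = ⊥
    · simp [hI]
    by_cases hJ : J = ⊥
    · simp [hJ]
    rw [classOf_mul K hI hJ, map_mul, map_mul]
    push_cast
    ring

lemma charPow_apply (ψ : ClassGroup (𝓞 K) →* ℂˣ) (s : ℝ) (I : Ideal (𝓞 K)) :
    charPow K ψ s I = ((ψ (classOf K I) : ℂˣ) : ℂ) * ((normPow K s I : ℝ) : ℂ) := rfl

lemma charPow_coe (ψ : ClassGroup (𝓞 K) →* ℂˣ) (s : ℝ) (I : (Ideal (𝓞 K))⁰) :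
    charPow K ψ s (I : Ideal (𝓞 K)) = ((ψ (ClassGroup.mk0 I) : ℂˣ) : ℂ) *
      (((absNorm (I : Ideal (𝓞 K)) : ℝ) ^ (-s) : ℝ) : ℂ) := by
  have h : (I : Ideal (𝓞 K)) ≠ ⊥ := mem_nonZeroDivisors_iff_ne_zero.mp I.2
  rw [charPow_apply, classOf_coe, normPow_of_ne_bot s h]

lemma norm_charPow (ψ : ClassGroup (𝓞 K) →* ℂˣ) (s : ℝ) (I : Ideal (𝓞 K)) :
    ‖charPow K ψ s I‖ = normPow K s I := by
  rw [charPow_apply, norm_mul, norm_classChar, one_mul, Complex.norm_real,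
    Real.norm_of_nonneg (normPow_nonneg s I)]

lemma charPow_one (s : ℝ) (I : Ideal (𝓞 K)) :
    charPow K (1 : ClassGroup (𝓞 K) →* ℂˣ) s I = ((normPow K s I : ℝ) : ℂ) := by
  simp [charPow_apply]

/-- Norm-summability of `I ↦ ψ([I]) N(I)^(-s)` for `s > 1`. -/
theorem summable_norm_charPow (ψ : ClassGroup (𝓞 K) →* ℂˣ) {s : ℝ} (hs : 1 < s) :
    Summable (fun I : Ideal (𝓞 K) => ‖charPow K ψ s I‖) := by
  simp_rw [norm_charPow]
  exact summable_normPow K hs

theorem summable_charPow (ψ : ClassGroup (𝓞 K) →* ℂˣ) {s : ℝ} (hs : 1 < s) :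
    Summable (fun I : Ideal (𝓞 K) => charPow K ψ s I) :=
  (summable_norm_charPow K ψ hs).of_norm

/-- The L-series of a class group character at real `s` (sum over all ideals; the term at `⊥`
is `0`). -/
def LFun (ψ : ClassGroup (𝓞 K) →* ℂˣ) (s : ℝ) : ℂ := ∑' I : Ideal (𝓞 K), charPow K ψ s I

/-- Euler product of `L(ψ, s)` for real `s > 1`. -/
theorem hasProd_charPow (ψ : ClassGroup (𝓞 K) →* ℂˣ) {s : ℝ} (hs : 1 < s) :
    HasProd (fun v : HeightOneSpectrum (𝓞 K) => (1 - charPow K ψ s v.asIdeal)⁻¹)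
      (LFun K ψ s) :=
  IdealEuler.eulerProduct_hasProd (charPow K ψ s) (summable_norm_charPow K ψ hs)

/-- `L(1, s) = ζ_K(s)`. -/
theorem LFun_one {s : ℝ} (hs : 1 < s) :
    LFun K (1 : ClassGroup (𝓞 K) →* ℂˣ) s = dedekindZeta K (s : ℂ) := by
  rw [← tsum_normPow_eq_dedekindZeta K hs, Complex.ofReal_tsum, LFun]
  exact tsum_congr fun I => charPow_one K s I

/-- `L(ψ, s)` as a sum over the nonzero ideals, in the spelling used by the consumers. -/
theorem LFun_eq_tsum_nonZero (ψ : ClassGroup (𝓞 K) →* ℂˣ) (s : ℝ) :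
    LFun K ψ s = ∑' I : (Ideal (𝓞 K))⁰, ((ψ (ClassGroup.mk0 I) : ℂˣ) : ℂ) *
      (((absNorm (I : Ideal (𝓞 K)) : ℝ) ^ (-s) : ℝ) : ℂ) := by
  have hsupp : Function.support (fun I : Ideal (𝓞 K) => charPow K ψ s I) ⊆
      ((Ideal (𝓞 K))⁰ : Set (Ideal (𝓞 K))) := by
    intro I hI
    rw [Function.mem_support] at hI
    rw [SetLike.mem_coe, mem_nonZeroDivisors_iff_ne_zero]
    rintro rfl
    exact hI (map_zero _)
  have h := tsum_subtype_eq_of_support_subset hsupp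
  rw [LFun, ← h]
  exact tsum_congr fun I => charPow_coe K ψ s I

/-- `L(ψ, s) = ∑_c ψ(c) ζ_c(s)`, with the partial zeta functions in the spelling of
`Thaine.classZeta`. -/
theorem LFun_eq_sum_class (ψ : ClassGroup (𝓞 K) →* ℂˣ) {s : ℝ} (hs : 1 < s) :
    LFun K ψ s = ∑ c : ClassGroup (𝓞 K), ((ψ c : ℂˣ) : ℂ) *
      ((∑' I : {I : (Ideal (𝓞 K))⁰ // ClassGroup.mk0 I = c},
        (absNorm (I.1 : Ideal (𝓞 K)) : ℝ) ^ (-s) : ℝ) : ℂ) := by
  rw [LFun_eq_tsum_nonZero]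
  set g : (Ideal (𝓞 K))⁰ → ℂ := fun I => ((ψ (ClassGroup.mk0 I) : ℂˣ) : ℂ) *
    (((absNorm (I : Ideal (𝓞 K)) : ℝ) ^ (-s) : ℝ) : ℂ) with hg
  have hgs : Summable g := by
    refine Summable.of_norm ?_
    have : (fun I => ‖g I‖) =
        fun I : (Ideal (𝓞 K))⁰ => (absNorm (I : Ideal (𝓞 K)) : ℝ) ^ (-s) := by
      funext I
      simp only [hg, norm_mul, norm_classChar, one_mul, Complex.norm_real]
      exact Real.norm_of_nonneg (by positivity)
    rw [this]
    exact summable_absNorm_rpow_nonZero K hs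
  let e := Equiv.sigmaFiberEquiv (ClassGroup.mk0 : (Ideal (𝓞 K))⁰ → ClassGroup (𝓞 K))
  have h1 : ∑' x, g (e x) = ∑' I, g I := e.tsum_eq g
  have hgs' : Summable (fun x => g (e x)) := (e.summable_iff (f := g)).mpr hgs
  rw [← h1, Summable.tsum_sigma' (fun c => hgs'.sigma_factor c) hgs', tsum_fintype]
  refine Finset.sum_congr rfl fun c _ => ?_
  rw [Complex.ofReal_tsum, ← tsum_mul_left]
  refine tsum_congr fun I => ?_
  show g I.1 = _
  simp only [hg]
  rw [I.2]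

/-! ### The product of the `L(ψ^k, s)`, `k < p` -/

/-- `∏_{k<p} (1 - z^k x) = 1 - x^p` for a primitive `p`-th root of unity `z`. -/
lemma prod_one_sub_pow_mul_of_primitive {z x : ℂ} {p : ℕ} (hp : 0 < p)
    (hz : IsPrimitiveRoot z p) :
    ∏ k ∈ Finset.range p, (1 - z ^ k * x) = 1 - x ^ p := by
  have h := hz.pow_sub_pow_eq_prod_sub_mul (1 : ℂ) x hp
  rw [one_pow] at h
  rw [h]
  have : NeZero p := ⟨hp.ne'⟩
  refine Finset.prod_nbij (fun k => z ^ k) ?_ ?_ ?_ ?_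
  · intro k _
    exact (Polynomial.mem_nthRootsFinset hp 1).2
      (by rw [← pow_mul, mul_comm, pow_mul, hz.pow_eq_one, one_pow])
  · intro i hi j hj hij
    exact hz.pow_inj (Finset.mem_range.mp hi) (Finset.mem_range.mp hj) hij
  · intro ξ hξ
    obtain ⟨i, hi, rfl⟩ := hz.eq_pow_of_pow_eq_one ((Polynomial.mem_nthRootsFinset hp 1).1 hξ)
    exact ⟨i, Finset.mem_range.mpr hi, rfl⟩
  · intro k _
    rfl

/-- The local factor `∏_{k<p} (1 - z^k x)⁻¹` for `z^p = 1`, `p` prime: it is `(1 - x)^(-p)` if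
`z = 1` and `(1 - x^p)⁻¹` otherwise. -/
lemma prod_inv_one_sub_pow_mul {p : ℕ} (hp : p.Prime) {z : ℂ} (hz : z ^ p = 1) (x : ℂ) :
    ∏ k ∈ Finset.range p, (1 - z ^ k * x)⁻¹ =
      if z = 1 then ((1 - x) ^ p)⁻¹ else (1 - x ^ p)⁻¹ := by
  rw [Finset.prod_inv_distrib]
  split_ifs with h1
  · subst h1
    simp
  · have := Fact.mk hp
    have hprim : IsPrimitiveRoot z p := by
      have h := orderOf_eq_prime hz h1
      rw [← h]
      exact IsPrimitiveRoot.orderOf z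
    rw [prod_one_sub_pow_mul_of_primitive hp.pos hprim]

lemma one_le_norm_localFactor {p : ℕ} (hp : p.Prime) {z : ℂ} (hz : z ^ p = 1) {x : ℝ}
    (hx0 : 0 ≤ x) (hx1 : x < 1) :
    1 ≤ ‖∏ k ∈ Finset.range p, (1 - z ^ k * (x : ℂ))⁻¹‖ := by
  rw [prod_inv_one_sub_pow_mul hp hz]
  split_ifs with h1
  · have h : ((1 - (x : ℂ)) ^ p)⁻¹ = (((1 - x) ^ p)⁻¹ : ℝ) := by push_cast; rfl
    have hpos : 0 < (1 - x) ^ p := pow_pos (by linarith) p
    have hnn : 0 ≤ ((1 - x) ^ p)⁻¹ := inv_nonneg.mpr hpos.le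
    rw [h, Complex.norm_real, Real.norm_of_nonneg hnn]
    exact (one_le_inv₀ hpos).mpr (pow_le_one₀ (by linarith) (by linarith))
  · have h : (1 - (x : ℂ) ^ p)⁻¹ = (((1 - x ^ p)⁻¹ : ℝ) : ℂ) := by push_cast; rfl
    have hxp : x ^ p < 1 := pow_lt_one₀ hx0 hx1 hp.ne_zero
    have hxp0 : 0 ≤ x ^ p := pow_nonneg hx0 p
    have hpos : 0 < 1 - x ^ p := by linarith
    have hnn : 0 ≤ (1 - x ^ p)⁻¹ := inv_nonneg.mpr hpos.le
    rw [h, Complex.norm_real, Real.norm_of_nonneg hnn]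
    exact (one_le_inv₀ hpos).mpr (by linarith)

lemma exp_le_norm_localFactor_one (p : ℕ) {x : ℝ} (hx1 : x < 1) :
    Real.exp (p * x) ≤ ‖∏ k ∈ Finset.range p, (1 - (1 : ℂ) ^ k * (x : ℂ))⁻¹‖ := by
  have h : ∏ k ∈ Finset.range p, (1 - (1 : ℂ) ^ k * (x : ℂ))⁻¹ = (((1 - x) ^ p)⁻¹ : ℝ) := by
    simp
  have hpos : 0 < 1 - x := by linarith
  rw [h, Complex.norm_real, Real.norm_of_nonneg (by positivity)]
  rw [le_inv_comm₀ (Real.exp_pos _) (pow_pos hpos p), ← Real.exp_neg]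
  calc (1 - x) ^ p ≤ (Real.exp (-x)) ^ p :=
        pow_le_pow_left₀ hpos.le (Real.one_sub_le_exp_neg x) p
    _ = Real.exp (-(p * x)) := by rw [← Real.exp_nat_mul]; ring_nf

lemma normPow_prime_lt_one {s : ℝ} (hs : 0 < s) (v : HeightOneSpectrum (𝓞 K)) :
    normPow K s v.asIdeal < 1 := by
  rw [normPow_of_ne_bot s v.ne_bot]
  have h1 : 1 < absNorm v.asIdeal := by
    have h0 := one_le_absNorm (K := K) v.ne_bot
    have hne : absNorm v.asIdeal ≠ 1 := fun h => v.isPrime.ne_top (absNorm_eq_one_iff.mp h)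
    omega
  exact Real.rpow_lt_one_of_one_lt_of_neg (by exact_mod_cast h1) (by linarith)

/-- **Lower bound for the product of the `L(ψ^k, s)`**: if `ψ^p = 1` (`p` prime) and `T` is a
finite set of primes at which `ψ` is trivial, then
`exp(p · Σ_{v ∈ T} N(v)^(-s)) ≤ ‖∏_{k<p} L(ψ^k, s)‖` for every real `s > 1`. -/
theorem exp_le_norm_prod_LFun {p : ℕ} (hp : p.Prime) (ψ : ClassGroup (𝓞 K) →* ℂˣ)
    (hψ : ∀ c, ψ c ^ p = 1) {s : ℝ} (hs : 1 < s) (T : Finset (HeightOneSpectrum (𝓞 K)))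
    (hT : ∀ v ∈ T, ψ (classOf K v.asIdeal) = 1) :
    Real.exp (p * ∑ v ∈ T, normPow K s v.asIdeal) ≤
      ‖∏ k ∈ Finset.range p, LFun K (ψ ^ k) s‖ := by
  have hprod : HasProd (fun v : HeightOneSpectrum (𝓞 K) =>
      ∏ k ∈ Finset.range p, (1 - charPow K (ψ ^ k) s v.asIdeal)⁻¹)
      (∏ k ∈ Finset.range p, LFun K (ψ ^ k) s) :=
    hasProd_prod (fun k _ => hasProd_charPow K (ψ ^ k) hs)
  have hnorm := hprod.norm
  have hloc : ∀ v : HeightOneSpectrum (𝓞 K),
      ∏ k ∈ Finset.range p, (1 - charPow K (ψ ^ k) s v.asIdeal)⁻¹ =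
      ∏ k ∈ Finset.range p, (1 - ((ψ (classOf K v.asIdeal) : ℂˣ) : ℂ) ^ k *
        ((normPow K s v.asIdeal : ℝ) : ℂ))⁻¹ := by
    intro v
    refine Finset.prod_congr rfl fun k _ => ?_
    rw [charPow_apply, MonoidHom.pow_apply, Units.val_pow_eq_pow_val]
  have hzp : ∀ v : HeightOneSpectrum (𝓞 K), ((ψ (classOf K v.asIdeal) : ℂˣ) : ℂ) ^ p = 1 := by
    intro v
    rw [← Units.val_pow_eq_pow_val, hψ, Units.val_one]
  have hx0 : ∀ v : HeightOneSpectrum (𝓞 K), 0 ≤ normPow K s v.asIdeal :=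
    fun v => normPow_nonneg s _
  have hx1 : ∀ v : HeightOneSpectrum (𝓞 K), normPow K s v.asIdeal < 1 :=
    fun v => normPow_prime_lt_one K (by linarith) v
  have hc1 : ∀ v : HeightOneSpectrum (𝓞 K),
      1 ≤ ‖∏ k ∈ Finset.range p, (1 - charPow K (ψ ^ k) s v.asIdeal)⁻¹‖ := by
    intro v
    rw [hloc v]
    exact one_le_norm_localFactor hp (hzp v) (hx0 v) (hx1 v)
  have hcT : ∀ v ∈ T, Real.exp (p * normPow K s v.asIdeal) ≤
      ‖∏ k ∈ Finset.range p, (1 - charPow K (ψ ^ k) s v.asIdeal)⁻¹‖ := by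
    intro v hv
    rw [hloc v, hT v hv, Units.val_one]
    exact exp_le_norm_localFactor_one p (hx1 v)
  have hle : ∏ v ∈ T, ‖∏ k ∈ Finset.range p, (1 - charPow K (ψ ^ k) s v.asIdeal)⁻¹‖ ≤
      ‖∏ k ∈ Finset.range p, LFun K (ψ ^ k) s‖ := by
    rw [HasProd, SummationFilter.unconditional] at hnorm
    refine ge_of_tendsto hnorm ?_
    filter_upwards [Filter.eventually_ge_atTop T] with S hS
    exact Finset.prod_le_prod_of_subset_of_one_le hS (fun v _ => zero_le_one.trans (hc1 v))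
      (fun v _ _ => hc1 v)
  calc Real.exp (p * ∑ v ∈ T, normPow K s v.asIdeal)
      = ∏ v ∈ T, Real.exp (p * normPow K s v.asIdeal) := by
        rw [Finset.mul_sum, Real.exp_sum]
    _ ≤ ∏ v ∈ T, ‖∏ k ∈ Finset.range p, (1 - charPow K (ψ ^ k) s v.asIdeal)⁻¹‖ :=
        Finset.prod_le_prod (fun _ _ => (Real.exp_pos _).le) hcT
    _ ≤ _ := hle

/-- Version of `exp_le_norm_prod_LFun` for a finite set of prime ideals given as ideals. -/
theorem exp_le_norm_prod_LFun_ideal {p : ℕ} (hp : p.Prime) (ψ : ClassGroup (𝓞 K) →* ℂˣ)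
    (hψ : ∀ c, ψ c ^ p = 1) {s : ℝ} (hs : 1 < s) (T : Finset (Ideal (𝓞 K)))
    (hT : ∀ Q ∈ T, Q.IsPrime ∧ Q ≠ ⊥ ∧ ψ (classOf K Q) = 1) :
    Real.exp (p * ∑ Q ∈ T, (absNorm Q : ℝ) ^ (-s)) ≤
      ‖∏ k ∈ Finset.range p, LFun K (ψ ^ k) s‖ := by
  classical
  let f : {Q // Q ∈ T} → HeightOneSpectrum (𝓞 K) :=
    fun Q => ⟨Q.1, (hT Q.1 Q.2).1, (hT Q.1 Q.2).2.1⟩
  have hf : Function.Injective f := by
    intro Q Q' h
    exact Subtype.ext (congrArg HeightOneSpectrum.asIdeal h)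
  have key := exp_le_norm_prod_LFun K hp ψ hψ hs (T.attach.map ⟨f, hf⟩) (by
    intro v hv
    obtain ⟨Q, -, rfl⟩ := Finset.mem_map.mp hv
    exact (hT Q.1 Q.2).2.2)
  have hsum : ∑ v ∈ T.attach.map ⟨f, hf⟩, normPow K s v.asIdeal =
      ∑ Q ∈ T, (absNorm Q : ℝ) ^ (-s) := by
    rw [Finset.sum_map, ← Finset.sum_attach T]
    refine Finset.sum_congr rfl fun Q _ => ?_
    exact normPow_of_ne_bot s (hT Q.1 Q.2).2.1
  rwa [hsum] at key

/-- `exp(Σ_{v ∈ T} N(v)^(-s)) ≤ ζ_K(s)` for every finite set `T` of primes. -/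
theorem exp_sum_le_tsum_normPow {s : ℝ} (hs : 1 < s) (T : Finset (HeightOneSpectrum (𝓞 K))) :
    Real.exp (∑ v ∈ T, normPow K s v.asIdeal) ≤ ∑' I : Ideal (𝓞 K), normPow K s I := by
  have hprod := hasProd_normPow K hs
  have hx0 : ∀ v : HeightOneSpectrum (𝓞 K), 0 ≤ normPow K s v.asIdeal :=
    fun v => normPow_nonneg s _
  have hx1 : ∀ v : HeightOneSpectrum (𝓞 K), normPow K s v.asIdeal < 1 :=
    fun v => normPow_prime_lt_one K (by linarith) v
  have hc : ∀ v : HeightOneSpectrum (𝓞 K),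
      Real.exp (normPow K s v.asIdeal) ≤ (1 - normPow K s v.asIdeal)⁻¹ := by
    intro v
    have hpos : 0 < 1 - normPow K s v.asIdeal := by linarith [hx1 v]
    rw [le_inv_comm₀ (Real.exp_pos _) hpos, ← Real.exp_neg]
    exact Real.one_sub_le_exp_neg _
  have hc1 : ∀ v : HeightOneSpectrum (𝓞 K), 1 ≤ (1 - normPow K s v.asIdeal)⁻¹ :=
    fun v => le_trans (Real.one_le_exp (hx0 v)) (hc v)
  rw [HasProd, SummationFilter.unconditional] at hprod
  have hle : ∏ v ∈ T, (1 - normPow K s v.asIdeal)⁻¹ ≤ ∑' I : Ideal (𝓞 K), normPow K s I := by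
    refine ge_of_tendsto hprod ?_
    filter_upwards [Filter.eventually_ge_atTop T] with S hS
    exact Finset.prod_le_prod_of_subset_of_one_le hS (fun v _ => zero_le_one.trans (hc1 v))
      (fun v _ _ => hc1 v)
  calc Real.exp (∑ v ∈ T, normPow K s v.asIdeal)
      = ∏ v ∈ T, Real.exp (normPow K s v.asIdeal) := Real.exp_sum _ _
    _ ≤ ∏ v ∈ T, (1 - normPow K s v.asIdeal)⁻¹ :=
        Finset.prod_le_prod (fun _ _ => (Real.exp_pos _).le) (fun v _ => hc v)
    _ ≤ _ := hle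

end

end Fermat.Agent.Lib.IdealEulerNF
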