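import Mathlib
import Fermat.Agent.Lib.ClassCountError
import Fermat.Agent.Lib.IdealEulerNF
import Fermat.Agent.S14.Thaine.Plan

/-!
# The partial zeta functions of two ideal classes differ by a bounded function on `(1, 2]`

From the ideal count with power-saving error term (`Lib/ClassCountError`) we deduce, by partial
summation, that `ζ_c(s) - ζ_{c'}(s)` is bounded on `(1, 2]` for any two ideal classes `c`, `c'`
of a number field.  This is the contract `Fermat.Agent.S14.Thaine.ClassZetaStmt`.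
-/

set_option autoImplicit false

open scoped NumberField nonZeroDivisors

open Filter Topology

namespace Fermat.Agent.Lib.ClassZetaAbel

section Generic

variable {ι : Type*} {ν : ι → ℕ}

/-- **Partial summation** over a set with a counting function: for `ν : ι → ℕ` with finite
sublevel sets `F N = {i | ν i ≤ N}`,
`∑_{i ∈ F N} g (ν i) = #F N · g N + ∑_{k < N} #F k · (g k - g (k + 1))`. -/
theorem sum_comp_eq_abel (hfin : ∀ N : ℕ, {i | ν i ≤ N}.Finite) (g : ℕ → ℝ) (N : ℕ) :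
    ∑ i ∈ (hfin N).toFinset, g (ν i) =
      ((hfin N).toFinset.card : ℝ) * g N +
        ∑ k ∈ Finset.range N, ((hfin k).toFinset.card : ℝ) * (g k - g (k + 1)) := by
  classical
  induction N with
  | zero =>
    simp only [Finset.range_zero, Finset.sum_empty, add_zero]
    have h0 : ∀ i ∈ (hfin 0).toFinset, g (ν i) = g 0 := by
      intro i hi
      rw [Set.Finite.mem_toFinset, Set.mem_ofPred_eq, Nat.le_zero] at hi
      rw [hi]
    rw [Finset.sum_congr rfl h0, Finset.sum_const, nsmul_eq_mul]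
  | succ N ih =>
    have hsub : (hfin N).toFinset ⊆ (hfin (N + 1)).toFinset := by
      intro i hi
      rw [Set.Finite.mem_toFinset, Set.mem_ofPred_eq] at hi ⊢
      exact Nat.le_succ_of_le hi
    have hdiff : ∀ i ∈ (hfin (N + 1)).toFinset \ (hfin N).toFinset, g (ν i) = g (N + 1) := by
      intro i hi
      rw [Finset.mem_sdiff, Set.Finite.mem_toFinset, Set.Finite.mem_toFinset, Set.mem_ofPred_eq,
        Set.mem_ofPred_eq] at hi
      have : ν i = N + 1 := by omega
      rw [this]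
    rw [← Finset.sum_sdiff hsub, Finset.sum_congr rfl hdiff, Finset.sum_const, nsmul_eq_mul, ih,
      Finset.sum_range_succ, Finset.card_sdiff_of_subset hsub,
      Nat.cast_sub (Finset.card_le_card hsub)]
    ring

theorem rpow_neg_succ_le_rpow_neg {s : ℝ} (hs : 0 ≤ s) (k : ℕ) (hk : 1 ≤ k) :
    ((k + 1 : ℕ) : ℝ) ^ (-s) ≤ (k : ℝ) ^ (-s) := by
  have hk0 : (0 : ℝ) < k := by exact_mod_cast hk
  apply Real.rpow_le_rpow_of_nonpos hk0 _ (neg_nonpos.mpr hs)
  push_cast
  linarith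

theorem rpow_neg_sub_rpow_neg_succ_le {s : ℝ} (hs : 1 ≤ s) (k : ℕ) (hk : 1 ≤ k) :
    (k : ℝ) ^ (-s) - ((k + 1 : ℕ) : ℝ) ^ (-s) ≤ s * (k : ℝ) ^ (-s - 1) := by
  have hx : (1 : ℝ) ≤ k := by exact_mod_cast hk
  set x : ℝ := (k : ℝ) with hxdef
  have hx0 : 0 < x := lt_of_lt_of_le one_pos hx
  have hy0 : 0 < x + 1 := by linarith
  have hcast : ((k + 1 : ℕ) : ℝ) = x + 1 := by push_cast; rfl
  rw [hcast]
  -- Bernoulli
  have hbern : 1 + s * (-(1 / (x + 1))) ≤ (1 + -(1 / (x + 1))) ^ s := by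
    apply one_add_mul_self_le_rpow_one_add _ hs
    rw [neg_le_neg_iff, div_le_one hy0]
    linarith
  have hquot : 1 + -(1 / (x + 1)) = x / (x + 1) := by
    field_simp
    ring
  rw [hquot] at hbern
  have hsplit : (x + 1) ^ (-s) = x ^ (-s) * (x / (x + 1)) ^ s := by
    rw [Real.div_rpow hx0.le hy0.le, Real.rpow_neg hy0.le, Real.rpow_neg hx0.le]
    have : x ^ s ≠ 0 := (Real.rpow_pos_of_pos hx0 s).ne'
    field_simp
  have hxs : 0 < x ^ (-s) := Real.rpow_pos_of_pos hx0 _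
  have h1 : x ^ (-s) - (x + 1) ^ (-s) ≤ x ^ (-s) * (s / (x + 1)) := by
    rw [hsplit]
    have : x ^ (-s) * (1 + s * (-(1 / (x + 1)))) ≤ x ^ (-s) * (x / (x + 1)) ^ s :=
      mul_le_mul_of_nonneg_left hbern hxs.le
    have e : x ^ (-s) * (1 + s * (-(1 / (x + 1)))) = x ^ (-s) - x ^ (-s) * (s / (x + 1)) := by
      ring
    linarith
  have h2 : x ^ (-s) * (s / (x + 1)) ≤ x ^ (-s) * (s / x) := by
    apply mul_le_mul_of_nonneg_left _ hxs.le
    apply div_le_div_of_nonneg_left (by linarith) hx0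
    linarith
  have h3 : x ^ (-s) * (s / x) = s * x ^ (-s - 1) := by
    rw [Real.rpow_sub hx0, Real.rpow_one]
    ring
  linarith

/-- The analytic estimate in the partial summation: if `|a k| ≤ B k ^ θ` with `θ < 1` then the
Abel transform of `∑ (a k - a (k - 1)) k ^ (-s)` is bounded uniformly in `s ∈ (1, 2]`. -/
theorem abs_abel_le {a : ℕ → ℝ} {B θ : ℝ} (hB : 0 ≤ B) (hθ : θ < 1) (ha0 : a 0 = 0)
    (ha : ∀ k : ℕ, 1 ≤ k → |a k| ≤ B * (k : ℝ) ^ θ) {s : ℝ} (hs : 1 < s) (hs2 : s ≤ 2)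
    (N : ℕ) (hN : 1 ≤ N) :
    |a N * (N : ℝ) ^ (-s) +
        ∑ k ∈ Finset.range N, a k * ((k : ℝ) ^ (-s) - ((k + 1 : ℕ) : ℝ) ^ (-s))| ≤
      B + 2 * B * ∑' k : ℕ, (k : ℝ) ^ (θ - 2) := by
  have hsum : Summable (fun k : ℕ => (k : ℝ) ^ (θ - 2)) :=
    Real.summable_nat_rpow.mpr (by linarith)
  have hN0 : (1 : ℝ) ≤ N := by exact_mod_cast hN
  have hNpos : (0 : ℝ) < N := lt_of_lt_of_le one_pos hN0
  -- first term
  have hfirst : |a N * (N : ℝ) ^ (-s)| ≤ B := by
    rw [abs_mul, abs_of_nonneg (Real.rpow_nonneg hNpos.le _)]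
    calc |a N| * (N : ℝ) ^ (-s) ≤ B * (N : ℝ) ^ θ * (N : ℝ) ^ (-s) :=
          mul_le_mul_of_nonneg_right (ha N hN) (Real.rpow_nonneg hNpos.le _)
      _ = B * (N : ℝ) ^ (θ + -s) := by rw [mul_assoc, ← Real.rpow_add hNpos]
      _ ≤ B * 1 :=
          mul_le_mul_of_nonneg_left
            (Real.rpow_le_one_of_one_le_of_nonpos hN0 (by linarith)) hB
      _ = B := mul_one B
  -- the other terms
  have hterm : ∀ k ∈ Finset.range N,
      |a k * ((k : ℝ) ^ (-s) - ((k + 1 : ℕ) : ℝ) ^ (-s))| ≤ 2 * B * (k : ℝ) ^ (θ - 2) := by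
    intro k _
    rcases Nat.eq_zero_or_pos k with hk | hk
    · rw [hk, ha0, zero_mul, abs_zero]
      have : (0 : ℝ) ≤ ((0 : ℕ) : ℝ) ^ (θ - 2) := Real.rpow_nonneg (by simp) _
      positivity
    · have hk1 : (1 : ℝ) ≤ k := by exact_mod_cast hk
      have hk0 : (0 : ℝ) < k := lt_of_lt_of_le one_pos hk1
      have hd0 : 0 ≤ (k : ℝ) ^ (-s) - ((k + 1 : ℕ) : ℝ) ^ (-s) :=
        sub_nonneg.mpr (rpow_neg_succ_le_rpow_neg (by linarith) k hk)
      rw [abs_mul, abs_of_nonneg hd0]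
      calc |a k| * ((k : ℝ) ^ (-s) - ((k + 1 : ℕ) : ℝ) ^ (-s))
          ≤ (B * (k : ℝ) ^ θ) * (s * (k : ℝ) ^ (-s - 1)) :=
            mul_le_mul (ha k hk) (rpow_neg_sub_rpow_neg_succ_le hs.le k hk) hd0
              (mul_nonneg hB (Real.rpow_nonneg hk0.le _))
        _ = s * B * (k : ℝ) ^ (θ + (-s - 1)) := by
            rw [Real.rpow_add hk0]
            ring
        _ ≤ 2 * B * (k : ℝ) ^ (θ - 2) := by
            apply mul_le_mul (mul_le_mul_of_nonneg_right hs2 hB) _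
              (Real.rpow_nonneg hk0.le _) (by positivity)
            exact Real.rpow_le_rpow_of_exponent_le hk1 (by linarith)
  calc |a N * (N : ℝ) ^ (-s) +
        ∑ k ∈ Finset.range N, a k * ((k : ℝ) ^ (-s) - ((k + 1 : ℕ) : ℝ) ^ (-s))|
      ≤ |a N * (N : ℝ) ^ (-s)| +
        |∑ k ∈ Finset.range N, a k * ((k : ℝ) ^ (-s) - ((k + 1 : ℕ) : ℝ) ^ (-s))| :=
        abs_add_le _ _
    _ ≤ B + ∑ k ∈ Finset.range N, 2 * B * (k : ℝ) ^ (θ - 2) :=
        add_le_add hfirst ((Finset.abs_sum_le_sum_abs _ _).trans (Finset.sum_le_sum hterm))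
    _ = B + 2 * B * ∑ k ∈ Finset.range N, (k : ℝ) ^ (θ - 2) := by rw [Finset.mul_sum]
    _ ≤ B + 2 * B * ∑' k : ℕ, (k : ℝ) ^ (θ - 2) := by
        have := hsum.sum_le_tsum (Finset.range N)
          (fun k _ => Real.rpow_nonneg (Nat.cast_nonneg k) _)
        have h2B : 0 ≤ 2 * B := by positivity
        have := mul_le_mul_of_nonneg_left this h2B
        linarith

end Generic

section NumberField

open Ideal

variable (K : Type*) [Field K] [NumberField K]

/-- The ideals of a class of norm at most `N` form a finite set. -/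
theorem finite_setOf_norm_le (c : ClassGroup (𝓞 K)) (N : ℕ) :
    {I : {I : (Ideal (𝓞 K))⁰ // ClassGroup.mk0 I = c} |
      absNorm (I.1 : Ideal (𝓞 K)) ≤ N}.Finite := by
  have h := Ideal.finite_setOfPred_absNorm_le₀ (S := 𝓞 K) N
  refine Set.Finite.of_finite_image (f := Subtype.val) (h.subset ?_) Subtype.val_injective.injOn
  rintro _ ⟨I, hI, rfl⟩
  exact hI

/-- The cardinality of the finite set of ideals of a class of norm at most `N`, in the
spelling of the counting theorem. -/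
theorem card_toFinset_eq (c : ClassGroup (𝓞 K)) (N : ℕ) :
    (finite_setOf_norm_le K c N).toFinset.card =
      Nat.card {I : (Ideal (𝓞 K))⁰ //
        absNorm (I : Ideal (𝓞 K)) ≤ (N : ℝ) ∧ ClassGroup.mk0 I = c} := by
  rw [← Set.ncard_eq_toFinset_card _ (finite_setOf_norm_le K c N), ← Nat.card_coe_set_eq]
  refine Nat.card_congr ?_
  exact
    { toFun := fun I => ⟨I.1.1, Nat.cast_le.mpr I.2, I.1.2⟩
      invFun := fun I => ⟨⟨I.1, I.2.2⟩, Nat.cast_le.mp I.2.1⟩
      left_inv := fun _ => rfl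
      right_inv := fun _ => rfl }

/-- The partial sums over the ideals of norm at most `N` converge to the partial zeta
function. -/
theorem tendsto_sum_norm_le (c : ClassGroup (𝓞 K)) {s : ℝ} (hs : 1 < s) :
    Tendsto (fun N : ℕ => ∑ I ∈ (finite_setOf_norm_le K c N).toFinset,
        ((absNorm (I.1.1 : Ideal (𝓞 K)) : ℕ) : ℝ) ^ (-s)) atTop
      (𝓝 (∑' I : {I : (Ideal (𝓞 K))⁰ // ClassGroup.mk0 I = c},
        (absNorm (I.1 : Ideal (𝓞 K)) : ℝ) ^ (-s))) := by
  have hsum := (Fermat.Agent.Lib.IdealEulerNF.summable_absNorm_rpow_class K c hs).hasSum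
  refine hsum.comp (tendsto_atTop_finset_of_monotone ?_ ?_)
  · intro N M hNM I hI
    rw [Set.Finite.mem_toFinset, Set.mem_ofPred_eq] at hI ⊢
    exact hI.trans hNM
  · intro I
    exact ⟨absNorm (I.1 : Ideal (𝓞 K)), by
      rw [Set.Finite.mem_toFinset, Set.mem_ofPred_eq]⟩

/-- **The partial zeta functions of two ideal classes differ by a bounded function on
`(1, 2]`.** -/
theorem exists_abs_tsum_sub_le (c c' : ClassGroup (𝓞 K)) :
    ∃ B : ℝ, ∀ s : ℝ, 1 < s → s ≤ 2 →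
      |(∑' I : {I : (Ideal (𝓞 K))⁰ // ClassGroup.mk0 I = c},
          (absNorm (I.1 : Ideal (𝓞 K)) : ℝ) ^ (-s)) -
        ∑' I : {I : (Ideal (𝓞 K))⁰ // ClassGroup.mk0 I = c'},
          (absNorm (I.1 : Ideal (𝓞 K)) : ℝ) ^ (-s)| ≤ B := by
  obtain ⟨κ, B, hB⟩ := Fermat.Agent.Lib.ClassCountError.exists_classCount_bound K
  set θ : ℝ := 1 - 1 / (Module.finrank ℚ K : ℝ) with hθdef
  have hn : (0 : ℝ) < Module.finrank ℚ K := Nat.cast_pos.mpr Module.finrank_pos
  have hθ : θ < 1 := by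
    rw [hθdef]
    have : 0 < 1 / (Module.finrank ℚ K : ℝ) := by positivity
    linarith
  have hB0 : 0 ≤ B := by
    have := hB c 1 le_rfl
    simp only [Real.one_rpow, mul_one] at this
    exact (abs_nonneg _).trans this
  -- the counting functions
  set a : ℕ → ℝ := fun k =>
    ((finite_setOf_norm_le K c k).toFinset.card : ℝ) -
      ((finite_setOf_norm_le K c' k).toFinset.card : ℝ) with hadef
  have hcard0 : ∀ d : ClassGroup (𝓞 K), (finite_setOf_norm_le K d 0).toFinset.card = 0 := by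
    intro d
    rw [Finset.card_eq_zero, Finset.eq_empty_iff_forall_notMem]
    intro I hI
    rw [Set.Finite.mem_toFinset, Set.mem_ofPred_eq, Nat.le_zero] at hI
    exact absNorm_ne_zero_of_nonZeroDivisors I.1 hI
  have ha0 : a 0 = 0 := by
    simp only [hadef, hcard0, Nat.cast_zero, sub_zero]
  have ha : ∀ k : ℕ, 1 ≤ k → |a k| ≤ 2 * B * (k : ℝ) ^ θ := by
    intro k hk
    have hk1 : (1 : ℝ) ≤ k := by exact_mod_cast hk
    have h1 := hB c k hk1
    have h2 := hB c' k hk1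
    rw [← card_toFinset_eq K c k] at h1
    rw [← card_toFinset_eq K c' k] at h2
    have : a k = (((finite_setOf_norm_le K c k).toFinset.card : ℝ) - κ * k) -
        (((finite_setOf_norm_le K c' k).toFinset.card : ℝ) - κ * k) := by
      simp only [hadef]
      ring
    rw [this]
    calc _ ≤ |((finite_setOf_norm_le K c k).toFinset.card : ℝ) - κ * k| +
          |((finite_setOf_norm_le K c' k).toFinset.card : ℝ) - κ * k| := abs_sub _ _
      _ ≤ B * (k : ℝ) ^ θ + B * (k : ℝ) ^ θ := add_le_add h1 h2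
      _ = 2 * B * (k : ℝ) ^ θ := by ring
  refine ⟨2 * B + 2 * (2 * B) * ∑' k : ℕ, (k : ℝ) ^ (θ - 2), fun s hs hs2 => ?_⟩
  have hlim := ((tendsto_sum_norm_le K c hs).sub (tendsto_sum_norm_le K c' hs)).abs
  refine le_of_tendsto hlim ?_
  filter_upwards [eventually_ge_atTop 1] with N hN
  have e1 := sum_comp_eq_abel (finite_setOf_norm_le K c) (fun k : ℕ => (k : ℝ) ^ (-s)) N
  have e2 := sum_comp_eq_abel (finite_setOf_norm_le K c') (fun k : ℕ => (k : ℝ) ^ (-s)) N
  have e3 : (∑ I ∈ (finite_setOf_norm_le K c N).toFinset,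
        ((absNorm (I.1.1 : Ideal (𝓞 K)) : ℕ) : ℝ) ^ (-s)) -
      ∑ I ∈ (finite_setOf_norm_le K c' N).toFinset,
        ((absNorm (I.1.1 : Ideal (𝓞 K)) : ℕ) : ℝ) ^ (-s) =
      a N * (N : ℝ) ^ (-s) +
        ∑ k ∈ Finset.range N, a k * ((k : ℝ) ^ (-s) - ((k + 1 : ℕ) : ℝ) ^ (-s)) := by
    rw [e1, e2]
    simp only [hadef, sub_mul, Finset.sum_sub_distrib]
    ring
  rw [e3]
  exact abs_abel_le (by positivity) hθ ha0 ha hs hs2 N hN

end NumberField

/-- **[ClassZeta]**, the contract of the Thaine route. -/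
theorem classZetaStmt : Fermat.Agent.S14.Thaine.ClassZetaStmt := by
  intro K _ _ c c'
  refine ⟨fun s hs => Fermat.Agent.Lib.IdealEulerNF.summable_absNorm_rpow_class K c hs, ?_⟩
  exact exists_abs_tsum_sub_le K c c'

end Fermat.Agent.Lib.ClassZetaAbel
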