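import Mathlib
import Fermat.Agent.Lib.ClassCountError
import Fermat.Agent.Lib.IdealEulerNF
import Fermat.Agent.S14.Thaine.Plan

/-!
# The partial zeta functions of two ideal classes differ by a bounded function on `(1, 2]`

From the class count with a power-saving error term (`Lib/ClassCountError`) we get, by Abel
summation, that `ζ_c(s) - ζ_c'(s)` is bounded on `(1, 2]` for any two ideal classes `c`, `c'`
of a number field.  This is `Fermat.Agent.S14.Thaine.ClassZetaStmt`.
-/

set_option autoImplicit false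

open scoped NumberField nonZeroDivisors

open NumberField Ideal Filter Topology

namespace Fermat.Agent.Lib.ClassZetaBound

noncomputable section

open scoped Classical

variable (K : Type*) [Field K] [NumberField K]

/-- The nonzero ideals of norm at most `M` in the class `c`. -/
def classFinset (c : ClassGroup (𝓞 K)) (M : ℕ) : Finset (Ideal (𝓞 K))⁰ :=
  (Ideal.finite_setOfPred_absNorm_le₀ (S := 𝓞 K) M).toFinset.filter
    (fun I => ClassGroup.mk0 I = c)

variable {K}

theorem mem_classFinset {c : ClassGroup (𝓞 K)} {M : ℕ} {I : (Ideal (𝓞 K))⁰} :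
    I ∈ classFinset K c M ↔ absNorm (I : Ideal (𝓞 K)) ≤ M ∧ ClassGroup.mk0 I = c := by
  simp [classFinset]

theorem classFinset_mono (c : ClassGroup (𝓞 K)) : Monotone (classFinset K c) := by
  intro M N hMN I hI
  rw [mem_classFinset] at hI ⊢
  exact ⟨hI.1.trans hMN, hI.2⟩

theorem classFinset_zero (c : ClassGroup (𝓞 K)) : classFinset K c 0 = ∅ := by
  ext I
  rw [mem_classFinset]
  have := absNorm_pos_of_nonZeroDivisors I
  simp only [Finset.notMem_empty, iff_false, not_and]
  intro h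
  omega

theorem natCard_eq_card_classFinset (c : ClassGroup (𝓞 K)) (k : ℕ) :
    Nat.card {I : (Ideal (𝓞 K))⁰ //
      (absNorm (I : Ideal (𝓞 K)) : ℝ) ≤ (k : ℝ) ∧ ClassGroup.mk0 I = c} =
      (classFinset K c k).card :=
  Nat.subtype_card _ fun I => by rw [mem_classFinset, Nat.cast_le]

/-- Abel summation ("layer cake") over the ideals of a class. -/
theorem sum_classFinset (c : ClassGroup (𝓞 K)) (g : ℕ → ℝ) (M : ℕ) :
    ∑ I ∈ classFinset K c M, g (absNorm (I : Ideal (𝓞 K))) =
      g M * (classFinset K c M).card +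
        ∑ k ∈ Finset.range M, (g k - g (k + 1)) * (classFinset K c k).card := by
  induction M with
  | zero => simp [classFinset_zero]
  | succ M ih =>
    have hsub : classFinset K c M ⊆ classFinset K c (M + 1) :=
      classFinset_mono c (Nat.le_succ M)
    have hlayer : ∀ I ∈ classFinset K c (M + 1) \ classFinset K c M,
        absNorm (I : Ideal (𝓞 K)) = M + 1 := by
      intro I hI
      rw [Finset.mem_sdiff, mem_classFinset, mem_classFinset] at hI
      have h2 : ¬ absNorm (I : Ideal (𝓞 K)) ≤ M := fun h => hI.2 ⟨h, hI.1.2⟩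
      have h1 := hI.1.1
      omega
    have h1 : ∑ I ∈ classFinset K c (M + 1), g (absNorm (I : Ideal (𝓞 K))) =
        ∑ I ∈ classFinset K c (M + 1) \ classFinset K c M, g (absNorm (I : Ideal (𝓞 K))) +
          ∑ I ∈ classFinset K c M, g (absNorm (I : Ideal (𝓞 K))) :=
      (Finset.sum_sdiff hsub).symm
    have h2 : ∑ I ∈ classFinset K c (M + 1) \ classFinset K c M,
        g (absNorm (I : Ideal (𝓞 K))) =
        g (M + 1) * (((classFinset K c (M + 1)).card : ℝ) - (classFinset K c M).card) := by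
      rw [Finset.sum_congr rfl (fun I hI => by rw [hlayer I hI]), Finset.sum_const,
        nsmul_eq_mul, Finset.card_sdiff_of_subset hsub, Nat.cast_sub (Finset.card_le_card hsub)]
      ring
    rw [h1, h2, ih, Finset.sum_range_succ]
    ring

/-- The partial sums over `classFinset` converge to the partial zeta function. -/
theorem tendsto_sum_classFinset (c : ClassGroup (𝓞 K)) {s : ℝ} (hs : 1 < s) :
    Tendsto (fun M : ℕ => ∑ I ∈ classFinset K c M, (absNorm (I : Ideal (𝓞 K)) : ℝ) ^ (-s))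
      atTop (𝓝 (∑' I : {I : (Ideal (𝓞 K))⁰ // ClassGroup.mk0 I = c},
        (absNorm (I.1 : Ideal (𝓞 K)) : ℝ) ^ (-s))) := by
  set f : (Ideal (𝓞 K))⁰ → ℝ := fun I => (absNorm (I : Ideal (𝓞 K)) : ℝ) ^ (-s) with hf
  set T : Set (Ideal (𝓞 K))⁰ := {I | ClassGroup.mk0 I = c} with hT
  have hsum : Summable (fun I : T => f I) :=
    Fermat.Agent.Lib.IdealEulerNF.summable_absNorm_rpow_class K c hs
  have hsum' : Summable (T.indicator f) := summable_subtype_iff_indicator.mp hsum
  have htsum : ∑' I : {I : (Ideal (𝓞 K))⁰ // ClassGroup.mk0 I = c},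
      (absNorm (I.1 : Ideal (𝓞 K)) : ℝ) ^ (-s) = ∑' I, T.indicator f I :=
    tsum_subtype T f
  rw [htsum]
  let G : ℕ → Finset (Ideal (𝓞 K))⁰ := fun M =>
    (Ideal.finite_setOfPred_absNorm_le₀ (S := 𝓞 K) M).toFinset
  have hG : Tendsto G atTop atTop := by
    refine tendsto_atTop_finset_of_monotone ?_ ?_
    · intro M N hMN I hI
      simp only [G, Set.Finite.mem_toFinset, Set.mem_ofPred_eq] at hI ⊢
      exact hI.trans hMN
    · intro I
      exact ⟨absNorm (I : Ideal (𝓞 K)), by simp [G]⟩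
  have h1 := hsum'.hasSum.comp hG
  refine h1.congr fun M => ?_
  simp only [Function.comp_apply]
  rw [Finset.sum_indicator_eq_sum_filter]
  rfl

/-- The weights of the Abel summation: `k ^ (-s) - (k + 1) ^ (-s) ≤ 2 / k ^ 2` for `1 ≤ s ≤ 2`. -/
theorem abs_rpow_sub_rpow_le {k : ℕ} (hk : 1 ≤ k) {s : ℝ} (hs1 : 1 ≤ s) (hs2 : s ≤ 2) :
    |(k : ℝ) ^ (-s) - ((k + 1 : ℕ) : ℝ) ^ (-s)| ≤ 2 * ((k : ℝ)⁻¹ * (k : ℝ)⁻¹) := by
  have ha : (1 : ℝ) ≤ k := by exact_mod_cast hk
  have ha0 : (0 : ℝ) < k := by linarith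
  have ha1 : (0 : ℝ) < (k : ℝ) + 1 := by linarith
  have hcast : ((k + 1 : ℕ) : ℝ) = (k : ℝ) + 1 := by push_cast; ring
  rw [hcast]
  have hmono : ((k : ℝ) + 1) ^ (-s) ≤ (k : ℝ) ^ (-s) :=
    Real.rpow_le_rpow_of_nonpos ha0 (by linarith) (by linarith)
  rw [abs_of_nonneg (by linarith)]
  -- Bernoulli
  have hbern : 1 + s * (-(1 / ((k : ℝ) + 1))) ≤ (1 + (-(1 / ((k : ℝ) + 1)))) ^ s := by
    refine one_add_mul_self_le_rpow_one_add ?_ hs1
    rw [neg_le_neg_iff, div_le_one ha1]
    linarith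
  have hratio : 1 + (-(1 / ((k : ℝ) + 1))) = (k : ℝ) / ((k : ℝ) + 1) := by
    field_simp
    ring
  rw [hratio, Real.div_rpow ha0.le ha1.le] at hbern
  have hks : (0 : ℝ) < (k : ℝ) ^ s := Real.rpow_pos_of_pos ha0 s
  have hk1s : (0 : ℝ) < ((k : ℝ) + 1) ^ s := Real.rpow_pos_of_pos ha1 s
  have e1 : ((k : ℝ) + 1) ^ (-s) = (k : ℝ) ^ (-s) * ((k : ℝ) ^ s / ((k : ℝ) + 1) ^ s) := by
    rw [Real.rpow_neg ha1.le, Real.rpow_neg ha0.le]
    field_simp
  have hkneg : (0 : ℝ) < (k : ℝ) ^ (-s) := Real.rpow_pos_of_pos ha0 _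
  have hle1 : (k : ℝ) ^ (-s) ≤ (k : ℝ)⁻¹ := by
    rw [← Real.rpow_neg_one]
    exact Real.rpow_le_rpow_of_exponent_le ha (by linarith)
  have hle2 : s / ((k : ℝ) + 1) ≤ 2 * (k : ℝ)⁻¹ := by
    rw [div_le_iff₀ ha1]
    have : 2 * (k : ℝ)⁻¹ * ((k : ℝ) + 1) = 2 + 2 * (k : ℝ)⁻¹ := by
      field_simp
    rw [this]
    have : (0 : ℝ) ≤ (k : ℝ)⁻¹ := by positivity
    linarith
  calc (k : ℝ) ^ (-s) - ((k : ℝ) + 1) ^ (-s)
      = (k : ℝ) ^ (-s) * (1 - (k : ℝ) ^ s / ((k : ℝ) + 1) ^ s) := by rw [e1]; ring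
    _ ≤ (k : ℝ) ^ (-s) * (s / ((k : ℝ) + 1)) := by
        apply mul_le_mul_of_nonneg_left _ hkneg.le
        have : s * (-(1 / ((k : ℝ) + 1))) = -(s / ((k : ℝ) + 1)) := by ring
        linarith
    _ ≤ (k : ℝ)⁻¹ * (2 * (k : ℝ)⁻¹) := by
        apply mul_le_mul hle1 hle2 (by positivity) (by positivity)
    _ = 2 * ((k : ℝ)⁻¹ * (k : ℝ)⁻¹) := by ring

/-- **Boundedness of `ζ_c - ζ_c'` on `(1, 2]`.** -/
theorem exists_bound_classZeta_sub (K : Type) [Field K] [NumberField K]
    (c c' : ClassGroup (𝓞 K)) :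
    ∃ B : ℝ, ∀ s : ℝ, 1 < s → s ≤ 2 →
      |Fermat.Agent.S14.Thaine.classZeta K c s - Fermat.Agent.S14.Thaine.classZeta K c' s|
        ≤ B := by
  obtain ⟨κ, B, hB⟩ := Fermat.Agent.Lib.ClassCountError.exists_classCount_bound K
  set n : ℝ := (Module.finrank ℚ K : ℝ) with hn
  have hn1 : (1 : ℝ) ≤ n := by
    have : 1 ≤ Module.finrank ℚ K := Module.finrank_pos
    rw [hn]
    exact_mod_cast this
  set θ : ℝ := 1 - 1 / n with hθ
  have hθ1 : θ < 1 := by
    have : 0 < 1 / n := by positivity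
    linarith
  have hB0 : 0 ≤ B := by
    have := hB c 1 le_rfl
    simp only [Real.one_rpow, mul_one] at this
    exact (abs_nonneg _).trans this
  -- differences of the counting functions
  have hΔ : ∀ k : ℕ, 1 ≤ k →
      |((classFinset K c k).card : ℝ) - (classFinset K c' k).card| ≤ 2 * B * (k : ℝ) ^ θ := by
    intro k hk
    have hk' : (1 : ℝ) ≤ k := by exact_mod_cast hk
    have h1 := hB c k hk'
    have h2 := hB c' k hk'
    rw [natCard_eq_card_classFinset] at h1 h2
    calc |((classFinset K c k).card : ℝ) - (classFinset K c' k).card|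
        = |(((classFinset K c k).card : ℝ) - κ * k)
            - (((classFinset K c' k).card : ℝ) - κ * k)| := by ring_nf
      _ ≤ |((classFinset K c k).card : ℝ) - κ * k|
            + |((classFinset K c' k).card : ℝ) - κ * k| := abs_sub _ _
      _ ≤ B * (k : ℝ) ^ θ + B * (k : ℝ) ^ θ := add_le_add h1 h2
      _ = 2 * B * (k : ℝ) ^ θ := by ring
  -- the convergent majorant
  have hsummable : Summable (fun k : ℕ => (k : ℝ) ^ (θ - 2)) :=
    Real.summable_nat_rpow.mpr (by linarith)
  set Z : ℝ := ∑' k : ℕ, (k : ℝ) ^ (θ - 2) with hZ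
  refine ⟨2 * B + 4 * B * Z, fun s hs1 hs2 => ?_⟩
  -- the bound at a finite level
  have hfin : ∀ M : ℕ, 1 ≤ M →
      |∑ I ∈ classFinset K c M, (absNorm (I : Ideal (𝓞 K)) : ℝ) ^ (-s)
        - ∑ I ∈ classFinset K c' M, (absNorm (I : Ideal (𝓞 K)) : ℝ) ^ (-s)|
        ≤ 2 * B + 4 * B * Z := by
    intro M hM
    have hM' : (1 : ℝ) ≤ M := by exact_mod_cast hM
    have hM0 : (0 : ℝ) < M := by linarith
    have e1 := sum_classFinset c (fun k : ℕ => (k : ℝ) ^ (-s)) M
    have e2 := sum_classFinset c' (fun k : ℕ => (k : ℝ) ^ (-s)) M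
    rw [e1, e2]
    have e3 : (M : ℝ) ^ (-s) * (classFinset K c M).card
          + ∑ k ∈ Finset.range M, ((k : ℝ) ^ (-s) - ((k + 1 : ℕ) : ℝ) ^ (-s))
              * (classFinset K c k).card
          - ((M : ℝ) ^ (-s) * (classFinset K c' M).card
          + ∑ k ∈ Finset.range M, ((k : ℝ) ^ (-s) - ((k + 1 : ℕ) : ℝ) ^ (-s))
              * (classFinset K c' k).card)
        = (M : ℝ) ^ (-s) * (((classFinset K c M).card : ℝ) - (classFinset K c' M).card)
          + ∑ k ∈ Finset.range M, ((k : ℝ) ^ (-s) - ((k + 1 : ℕ) : ℝ) ^ (-s))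
              * (((classFinset K c k).card : ℝ) - (classFinset K c' k).card) := by
      simp only [mul_sub, Finset.sum_sub_distrib]
      ring
    rw [e3]
    refine (abs_add_le _ _).trans (add_le_add ?_ ?_)
    · rw [abs_mul, abs_of_nonneg (Real.rpow_nonneg hM0.le _)]
      calc (M : ℝ) ^ (-s) * |((classFinset K c M).card : ℝ) - (classFinset K c' M).card|
          ≤ (M : ℝ) ^ (-s) * (2 * B * (M : ℝ) ^ θ) :=
            mul_le_mul_of_nonneg_left (hΔ M hM) (Real.rpow_nonneg hM0.le _)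
        _ = 2 * B * (M : ℝ) ^ (θ - s) := by
            rw [show θ - s = -s + θ by ring, Real.rpow_add hM0]
            ring
        _ ≤ 2 * B * 1 := by
            gcongr
            exact Real.rpow_le_one_of_one_le_of_nonpos hM' (by linarith)
        _ = 2 * B := mul_one _
    · calc |∑ k ∈ Finset.range M, ((k : ℝ) ^ (-s) - ((k + 1 : ℕ) : ℝ) ^ (-s))
              * (((classFinset K c k).card : ℝ) - (classFinset K c' k).card)|
          ≤ ∑ k ∈ Finset.range M, |((k : ℝ) ^ (-s) - ((k + 1 : ℕ) : ℝ) ^ (-s))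
              * (((classFinset K c k).card : ℝ) - (classFinset K c' k).card)| :=
            Finset.abs_sum_le_sum_abs _ _
        _ ≤ ∑ k ∈ Finset.range M, 4 * B * (k : ℝ) ^ (θ - 2) := by
            refine Finset.sum_le_sum fun k _ => ?_
            rcases Nat.eq_zero_or_pos k with rfl | hk
            · simp only [classFinset_zero, Finset.card_empty, Nat.cast_zero, sub_self, mul_zero,
                abs_zero]
              exact mul_nonneg (by positivity) (Real.rpow_nonneg le_rfl _)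
            · have hk0 : (0 : ℝ) < k := by exact_mod_cast hk
              rw [abs_mul]
              calc |(k : ℝ) ^ (-s) - ((k + 1 : ℕ) : ℝ) ^ (-s)|
                    * |((classFinset K c k).card : ℝ) - (classFinset K c' k).card|
                  ≤ (2 * ((k : ℝ)⁻¹ * (k : ℝ)⁻¹)) * (2 * B * (k : ℝ) ^ θ) :=
                    mul_le_mul (abs_rpow_sub_rpow_le hk hs1.le hs2) (hΔ k hk) (abs_nonneg _)
                      (by positivity)
                _ = 4 * B * (k : ℝ) ^ (θ - 2) := by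
                    rw [show θ - 2 = θ + (-1 + -1) by ring, Real.rpow_add hk0,
                      Real.rpow_add hk0, Real.rpow_neg_one]
                    ring
        _ = 4 * B * ∑ k ∈ Finset.range M, (k : ℝ) ^ (θ - 2) := by rw [Finset.mul_sum]
        _ ≤ 4 * B * Z := by
            gcongr
            exact hsummable.sum_le_tsum _ fun k _ => Real.rpow_nonneg (Nat.cast_nonneg k) _
  -- pass to the limit
  have hlim := ((tendsto_sum_classFinset c hs1).sub (tendsto_sum_classFinset c' hs1)).abs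
  refine le_of_tendsto hlim ?_
  filter_upwards [eventually_ge_atTop 1] with M hM using hfin M hM

/-- **[ClassZeta]**: the contract `Fermat.Agent.S14.Thaine.ClassZetaStmt`. -/
theorem classZetaStmt : Fermat.Agent.S14.Thaine.ClassZetaStmt := fun K _ _ c c' =>
  ⟨fun _ hs => Fermat.Agent.Lib.IdealEulerNF.summable_absNorm_rpow_class K c hs,
    exists_bound_classZeta_sub K c c'⟩

end

end Fermat.Agent.Lib.ClassZetaBound
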