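import Mathlib

set_option autoImplicit false

namespace Fermat.Agent.Lib.HeckeFinite

/-- The ring of `ℂ`-endomorphisms of `V` whose transpose preserves a `ℤ`-lattice `Λ ⊆ V*`. -/
def stabSubalgebra {V : Type*} [AddCommGroup V] [Module ℂ V]
    (Λ : Submodule ℤ (Module.Dual ℂ V)) : Subalgebra ℤ (Module.End ℂ V) where
  carrier := {T | ∀ l ∈ Λ, l ∘ₗ T ∈ Λ}
  mul_mem' := by
    intro a b ha hb l hl
    have := hb _ (ha l hl)
    simpa [LinearMap.comp_assoc, Module.End.mul_eq_comp] using this
  one_mem' := by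
    intro l hl
    have h : l ∘ₗ (1 : Module.End ℂ V) = l := LinearMap.comp_id l
    rw [h]
    exact hl
  add_mem' := by
    intro a b ha hb l hl
    rw [LinearMap.comp_add]
    exact Λ.add_mem (ha l hl) (hb l hl)
  zero_mem' := by
    intro l _
    rw [LinearMap.comp_zero]
    exact Λ.zero_mem
  algebraMap_mem' := by
    intro n l hl
    have h : l ∘ₗ (algebraMap ℤ (Module.End ℂ V) n) = n • l := by
      ext v
      simp
    rw [h]
    exact Λ.smul_mem n hl

/-- transpose action on the lattice, as a `ℤ`-linear map. -/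
def transposeMap {V : Type*} [AddCommGroup V] [Module ℂ V]
    (Λ : Submodule ℤ (Module.Dual ℂ V)) :
    stabSubalgebra Λ →ₗ[ℤ] (Λ →ₗ[ℤ] Λ) where
  toFun T :=
    { toFun := fun l => ⟨(l : Module.Dual ℂ V) ∘ₗ (T : Module.End ℂ V), T.2 _ l.2⟩
      map_add' := by
        intro l l'
        apply Subtype.ext
        simp [LinearMap.add_comp]
      map_smul' := by
        intro n l
        apply Subtype.ext
        ext v
        simp }
  map_add' := by
    intro T T'
    ext l v
    simp
  map_smul' := by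
    intro n T
    ext l v
    simp

theorem transposeMap_injective {V : Type*} [AddCommGroup V] [Module ℂ V]
    (Λ : Submodule ℤ (Module.Dual ℂ V))
    (hsep : ∀ v : V, (∀ l ∈ Λ, l v = 0) → v = 0) :
    Function.Injective (transposeMap Λ) := by
  rw [injective_iff_map_eq_zero]
  intro T hT
  apply Subtype.ext
  ext v
  apply hsep
  intro l hl
  have := congrArg (fun f : Λ →ₗ[ℤ] Λ => ((f ⟨l, hl⟩ : Λ) : Module.Dual ℂ V) v) hT
  simpa [transposeMap] using this

theorem finite_stabSubalgebra {V : Type*} [AddCommGroup V] [Module ℂ V]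
    (Λ : Submodule ℤ (Module.Dual ℂ V)) (hfg : Λ.FG)
    (hsep : ∀ v : V, (∀ l ∈ Λ, l v = 0) → v = 0) :
    Module.Finite ℤ (stabSubalgebra Λ) := by
  have h1 : Module.Finite ℤ Λ := Module.Finite.iff_fg.mpr hfg
  have h2 : Module.Free ℤ Λ := Module.free_of_finite_type_torsion_free'
  have h3 : Module.Finite ℤ (Λ →ₗ[ℤ] Λ) := Module.Finite.linearMap ℤ ℤ Λ Λ
  exact Module.Finite.of_injective (transposeMap Λ) (transposeMap_injective Λ hsep)

/-- Abstract finiteness lemma: a `ℤ`-algebra of `ℂ`-endomorphisms generated by operators whose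
transposes preserve a finitely generated point-separating lattice of functionals is a finite
`ℤ`-module. -/
theorem finite_adjoin_of_dual_lattice {V : Type*} [AddCommGroup V] [Module ℂ V]
    (gens : Set (Module.End ℂ V)) (Λ : Submodule ℤ (Module.Dual ℂ V)) (hfg : Λ.FG)
    (hstab : ∀ T ∈ gens, ∀ l ∈ Λ, l ∘ₗ T ∈ Λ)
    (hsep : ∀ v : V, (∀ l ∈ Λ, l v = 0) → v = 0) :
    Module.Finite ℤ (Algebra.adjoin ℤ gens) := by
  have h1 := finite_stabSubalgebra Λ hfg hsep
  have hle : Algebra.adjoin ℤ gens ≤ stabSubalgebra Λ :=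
    Algebra.adjoin_le (fun T hT => hstab T hT)
  exact Module.Finite.of_injective (Subalgebra.inclusion hle).toLinearMap
    (Subalgebra.inclusion_injective hle)

end Fermat.Agent.Lib.HeckeFinite
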