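import Mathlib
import Fermat.Prelude.Def_CuspForm_HeckeAlgebra
import Fermat.Prelude.Thm_ModularForm_sturm_bound_Gamma0
import Fermat.Prelude.Thm_CongruenceSubgroup_one_mem_strictPeriods_Gamma0

set_option autoImplicit false

namespace Fermat.Agent.Lib.HeckeTrivialWeights

open scoped MatrixGroups

/-- Cusp forms of weight `k ≤ 0` on `Γ₀(N)` vanish (Sturm bound: only the constant term matters). -/
theorem cuspForm_eq_zero_of_nonpos (N : ℕ) [NeZero N] {k : ℤ} (hk : k ≤ 0)
    (f : CuspForm (CongruenceSubgroup.Gamma0 N) k) : f = 0 := by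
  have hzero : (ModularFormClass.modularForm f :
      ModularForm (CongruenceSubgroup.Gamma0 N) k) = 0 := by
    apply ModularForm.sturm_bound_Gamma0 N
    intro n hn
    have hn0 : n = 0 := by
      have h1 : k * ((CongruenceSubgroup.Gamma0 N).index : ℤ) ≤ 0 :=
        mul_nonpos_of_nonpos_of_nonneg hk (Int.natCast_nonneg _)
      have h12 : (k * ((CongruenceSubgroup.Gamma0 N).index : ℤ)).toNat / 12 = 0 := by
        rw [Int.toNat_of_nonpos h1]
      omega
    subst hn0
    exact CuspFormClass.qExpansion_coeff_zero f one_pos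
      (CongruenceSubgroup.one_mem_strictPeriods_Gamma0 N)
  ext z
  have hz := congrArg (fun g : ModularForm _ _ => g z) hzero
  simpa using hz

theorem cuspForm_subsingleton_of_nonpos (N : ℕ) [NeZero N] {k : ℤ} (hk : k ≤ 0) :
    Subsingleton (CuspForm (CongruenceSubgroup.Gamma0 N) k) :=
  ⟨fun f g => by rw [cuspForm_eq_zero_of_nonpos N hk f, cuspForm_eq_zero_of_nonpos N hk g]⟩

theorem neg_one_mem_Gamma0 (N : ℕ) :
    (-1 : GL (Fin 2) ℝ) ∈
      ((CongruenceSubgroup.Gamma0 N : Subgroup SL(2, ℤ)) : Subgroup (GL (Fin 2) ℝ)) := by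
  refine ⟨-1, ?_, ?_⟩
  · simp [CongruenceSubgroup.Gamma0_mem]
  · ext; simp

/-- Cusp forms of odd weight on `Γ₀(N)` vanish (`-1 ∈ Γ₀(N)`). -/
theorem cuspForm_eq_zero_of_odd (N : ℕ) {k : ℤ} (hk : Odd k)
    (f : CuspForm (CongruenceSubgroup.Gamma0 N) k) : f = 0 := by
  have hzero : (ModularFormClass.modularForm f :
      ModularForm (CongruenceSubgroup.Gamma0 N) k) = 0 :=
    ModularForm.eq_zero_of_neg_one_mem (neg_one_mem_Gamma0 N) hk _
  ext z
  have hz := congrArg (fun g : ModularForm _ _ => g z) hzero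
  simpa using hz

theorem cuspForm_subsingleton_of_odd (N : ℕ) {k : ℤ} (hk : Odd k) :
    Subsingleton (CuspForm (CongruenceSubgroup.Gamma0 N) k) :=
  ⟨fun f g => by rw [cuspForm_eq_zero_of_odd N hk f, cuspForm_eq_zero_of_odd N hk g]⟩

/-- If the space of cusp forms is trivial, the Hecke algebra is a finite `ℤ`-module. -/
theorem finite_heckeAlgebra_of_subsingleton (N : ℕ) [NeZero N] (k : ℤ) (S : Set ℕ)
    (h : Subsingleton (CuspForm (CongruenceSubgroup.Gamma0 N) k)) :
    Module.Finite ℤ (CuspForm.heckeAlgebra N k S) := by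
  have h1 : Subsingleton (Module.End ℂ (CuspForm (CongruenceSubgroup.Gamma0 N) k)) :=
    ⟨fun a b => LinearMap.ext fun x => Subsingleton.elim _ _⟩
  have h2 : Subsingleton (CuspForm.heckeAlgebra N k S) :=
    ⟨fun a b => Subtype.ext (Subsingleton.elim _ _)⟩
  exact Module.Finite.of_finite

end Fermat.Agent.Lib.HeckeTrivialWeights
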