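import Mathlib
import Fermat.Prelude.Def_CuspForm_HeckeAlgebra
import Fermat.Prelude.Def_FLTPrelim_Modularity
import Fermat.Prelude.Thm_ModularForm_sturm_bound_Gamma0
import Fermat.Prelude.Thm_ModularFormClass_qCoeff_heckeT
import Fermat.Prelude.Thm_ModularFormClass_qCoeff_heckeU
import Fermat.Prelude.Thm_CongruenceSubgroup_one_mem_strictPeriods_Gamma0
import Fermat.Agent.Lib.HeckeFinite
import Fermat.Agent.Lib.HeckeTrivialWeights

set_option autoImplicit false

/-!
# Coefficient lattices: glue for the short route to finiteness of the Hecke algebra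

* `finite_heckeAlgebra_of_coeff_fg` : if every cusp form of level `Γ₀(N)` and weight `k` has all its
  `q`-expansion coefficients in a finitely generated `ℤ`-submodule of `ℂ`, then the Hecke algebra
  is a finite `ℤ`-module.
-/

namespace Fermat.Agent.Lib.CoeffLattice

open UpperHalfPlane CongruenceSubgroup
open scoped MatrixGroups

section Glue

variable (N : ℕ) (k : ℤ)

/-- The `n`-th `q`-expansion coefficient as a linear functional on cusp forms. -/
noncomputable def coeffLin (n : ℕ) : CuspForm (Gamma0 N) k →ₗ[ℂ] ℂ where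
  toFun f := (qExpansion 1 f).coeff n
  map_add' f g := by
    rw [FunLike.coe_add,
      ModularForm.qExpansion_add one_pos (one_mem_strictPeriods_Gamma0 N) f g]
    simp
  map_smul' c f := by
    rw [FunLike.coe_smul,
      ModularForm.qExpansion_smul one_pos (one_mem_strictPeriods_Gamma0 N) c f]
    simp

theorem coeffLin_apply (n : ℕ) (f : CuspForm (Gamma0 N) k) :
    coeffLin N k n f = (qExpansion 1 f).coeff n := rfl

theorem coeffLin_zero_index (f : CuspForm (Gamma0 N) k) : coeffLin N k 0 f = 0 :=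
  CuspFormClass.qExpansion_coeff_zero f one_pos (one_mem_strictPeriods_Gamma0 N)

theorem eq_zero_of_coeffLin (f : CuspForm (Gamma0 N) k) (h : ∀ n, coeffLin N k n f = 0) :
    f = 0 := by
  have hΓ := one_mem_strictPeriods_Gamma0 N
  have : Fact (IsCusp OnePoint.infty
      (Subgroup.map (Matrix.SpecialLinearGroup.mapGL ℝ) (Gamma0 N))) :=
    ⟨Subgroup.isCusp_of_mem_strictPeriods one_pos hΓ⟩
  have h0 : qExpansion 1 (⇑f) = 0 := by
    ext n
    simpa [coeffLin_apply] using h n
  have h1 := (qExpansion_eq_zero_iff one_pos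
    (SlashInvariantFormClass.periodic_comp_ofComplex f hΓ) (ModularFormClass.holo f)
    (ModularFormClass.bdd_at_infty f)).mp h0
  exact DFunLike.coe_injective h1

theorem coeffLin_heckeT {p : ℕ} (hp : p.Prime) (hpN : ¬ p ∣ N) (n : ℕ)
    (f : CuspForm (Gamma0 N) k) :
    coeffLin N k n (CuspForm.heckeTLin k hp hpN f) =
      coeffLin N k (n * p) f + if p ∣ n then (p : ℂ) ^ (k - 1) * coeffLin N k (n / p) f else 0 := by
  have h := ModularFormClass.qCoeff_heckeT f (one_mem_strictPeriods_Gamma0 N) hp.ne_zero n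
  rw [ModularForm.coeffHeckeT_apply] at h
  exact h

theorem coeffLin_heckeU [NeZero N] {p : ℕ} (hp : p.Prime) (hpN : p ∣ N) (n : ℕ)
    (f : CuspForm (Gamma0 N) k) :
    coeffLin N k n (CuspForm.heckeULin k hpN f) = coeffLin N k (n * p) f := by
  have h := ModularFormClass.qCoeff_heckeU f (one_mem_strictPeriods_Gamma0 N) hp.ne_zero n
  rw [ModularForm.coeffHeckeU_apply] at h
  exact h

/-- Cusp forms of level `Γ₀(N)` are finite-dimensional (Sturm bound). -/
theorem finiteDimensional_cuspForm [NeZero N] :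
    FiniteDimensional ℂ (CuspForm (Gamma0 N) k) := by
  set B : ℕ := (k * ((Gamma0 N).index : ℤ)).toNat / 12 with hB
  let Φ : CuspForm (Gamma0 N) k →ₗ[ℂ] (Fin (B + 1) → ℂ) :=
    LinearMap.pi fun i => coeffLin N k i
  have hΦ : Function.Injective Φ := by
    rw [injective_iff_map_eq_zero]
    intro f hf
    have hzero : (ModularFormClass.modularForm f : ModularForm (Gamma0 N) k) = 0 := by
      apply ModularForm.sturm_bound_Gamma0 N
      intro n hn
      have := congrFun hf ⟨n, Nat.lt_succ_of_le hn⟩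
      simpa [Φ, coeffLin_apply] using this
    ext z
    have hz := congrArg (fun g : ModularForm _ _ => g z) hzero
    simpa using hz
  exact FiniteDimensional.of_injective Φ hΦ

/-- The lattice of coefficient functionals. -/
noncomputable def coeffLattice : Submodule ℤ (Module.Dual ℂ (CuspForm (Gamma0 N) k)) :=
  Submodule.span ℤ (Set.range (coeffLin N k))

theorem coeffLin_mem (n : ℕ) : coeffLin N k n ∈ coeffLattice N k :=
  Submodule.subset_span ⟨n, rfl⟩

theorem coeffLattice_sep (v : CuspForm (Gamma0 N) k)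
    (h : ∀ l ∈ coeffLattice N k, l v = 0) : v = 0 :=
  eq_zero_of_coeffLin N k v fun n => h _ (coeffLin_mem N k n)

theorem coeffLattice_stab [NeZero N] (hk : 1 ≤ k) (S : Set ℕ) :
    ∀ T ∈ CuspForm.heckeGenerators N k S, ∀ l ∈ coeffLattice N k, l ∘ₗ T ∈ coeffLattice N k := by
  intro T hT l hl
  induction hl using Submodule.span_induction with
  | mem x hx =>
    obtain ⟨n, rfl⟩ := hx
    rcases hT with ⟨p, hp, hpN, -, rfl⟩ | ⟨q, hqN, hq, -, rfl⟩
    · by_cases hpn : p ∣ n
      · have hpow : (p : ℂ) ^ (k - 1) = (((p ^ (k - 1).toNat : ℕ) : ℤ) : ℂ) := by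
          have : k - 1 = ((k - 1).toNat : ℤ) := (Int.toNat_of_nonneg (by omega)).symm
          rw [this, zpow_natCast]
          simp
        have : coeffLin N k n ∘ₗ CuspForm.heckeTLin k hp hpN =
            coeffLin N k (n * p) + ((p ^ (k - 1).toNat : ℕ) : ℤ) • coeffLin N k (n / p) := by
          ext f
          simp only [LinearMap.comp_apply, LinearMap.add_apply, LinearMap.smul_apply]
          rw [coeffLin_heckeT, if_pos hpn, hpow]
          simp
        rw [this]
        exact Submodule.add_mem _ (coeffLin_mem N k _)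
          (Submodule.smul_mem _ _ (coeffLin_mem N k _))
      · have : coeffLin N k n ∘ₗ CuspForm.heckeTLin k hp hpN = coeffLin N k (n * p) := by
          ext f
          simp only [LinearMap.comp_apply]
          rw [coeffLin_heckeT, if_neg hpn, add_zero]
        rw [this]
        exact coeffLin_mem N k _
    · have : coeffLin N k n ∘ₗ CuspForm.heckeULin k hqN = coeffLin N k (n * q) := by
        ext f
        simp only [LinearMap.comp_apply]
        rw [coeffLin_heckeU N k hq hqN]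
      rw [this]
      exact coeffLin_mem N k _
  | zero => simp
  | add x y _ _ hx hy =>
    rw [LinearMap.add_comp]
    exact Submodule.add_mem _ hx hy
  | smul a x _ hx =>
    rw [LinearMap.smul_comp]
    exact Submodule.smul_mem _ _ hx

theorem coeffLattice_fg [NeZero N]
    (hK : ∀ f : CuspForm (Gamma0 N) k, ∃ Γ : Submodule ℤ ℂ, Γ.FG ∧
      ∀ n : ℕ, (qExpansion 1 f).coeff n ∈ Γ) :
    (coeffLattice N k).FG := by
  have := finiteDimensional_cuspForm N k
  set d := Module.finrank ℂ (CuspForm (Gamma0 N) k)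
  let b := Module.finBasis ℂ (CuspForm (Gamma0 N) k)
  choose Γ hΓfg hΓ using hK
  let Γ₀ : Submodule ℤ ℂ := ⨆ i, Γ (b i)
  have hΓ₀ : Γ₀.FG := Submodule.fg_iSup _ fun i => hΓfg (b i)
  let Ψ : Module.Dual ℂ (CuspForm (Gamma0 N) k) →ₗ[ℤ] (Fin d → ℂ) :=
    { toFun := fun l i => l (b i)
      map_add' := fun l l' => by ext i; simp
      map_smul' := fun c l => by ext i; simp }
  have hΨ : Function.Injective Ψ := by
    intro l l' h
    apply b.ext
    intro i
    exact congrFun h i
  have hP : (Submodule.pi Set.univ fun _ : Fin d => Γ₀).FG := Submodule.fg_pi fun _ => hΓ₀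
  have hle : (coeffLattice N k).map Ψ ≤ Submodule.pi Set.univ fun _ : Fin d => Γ₀ := by
    rw [Submodule.map_le_iff_le_comap]
    apply Submodule.span_le.mpr
    rintro _ ⟨n, rfl⟩
    intro i _
    exact (le_iSup (fun i => Γ (b i)) i) (hΓ (b i) n)
  exact Submodule.fg_of_fg_map_injective Ψ hΨ (hP.of_le hle)

/-- **Glue (K ⇒ S22).** If every cusp form has its `q`-expansion coefficients in a finitely
generated `ℤ`-submodule of `ℂ`, the Hecke algebra is a finite `ℤ`-module. -/
theorem finite_heckeAlgebra_of_coeff_fg [NeZero N] (S : Set ℕ)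
    (hK : ∀ f : CuspForm (Gamma0 N) k, ∃ Γ : Submodule ℤ ℂ, Γ.FG ∧
      ∀ n : ℕ, (qExpansion 1 f).coeff n ∈ Γ) :
    Module.Finite ℤ (CuspForm.heckeAlgebra N k S) := by
  rcases le_or_gt k 0 with hk | hk
  · exact HeckeTrivialWeights.finite_heckeAlgebra_of_subsingleton N k S
      (HeckeTrivialWeights.cuspForm_subsingleton_of_nonpos N hk)
  · exact HeckeFinite.finite_adjoin_of_dual_lattice (CuspForm.heckeGenerators N k S)
      (coeffLattice N k) (coeffLattice_fg N k hK) (coeffLattice_stab N k (by omega) S)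
      (coeffLattice_sep N k)

end Glue

section PowerSeriesAlgebra

open PowerSeries

/-- All coefficients of the power series lie in a finitely generated `ℤ`-submodule of `ℂ`. -/
def HasFGCoeffs (P : PowerSeries ℂ) : Prop :=
  ∃ Γ : Submodule ℤ ℂ, Γ.FG ∧ ∀ n, coeff n P ∈ Γ

theorem HasFGCoeffs.zero : HasFGCoeffs 0 :=
  ⟨⊥, Submodule.fg_bot, fun n => by simp⟩

theorem HasFGCoeffs.add {P Q : PowerSeries ℂ} (hP : HasFGCoeffs P) (hQ : HasFGCoeffs Q) :
    HasFGCoeffs (P + Q) := by
  obtain ⟨Γ, hΓ, h⟩ := hP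
  obtain ⟨Γ', hΓ', h'⟩ := hQ
  exact ⟨Γ ⊔ Γ', hΓ.sup hΓ', fun n => by
    rw [map_add]; exact Submodule.add_mem_sup (h n) (h' n)⟩

theorem HasFGCoeffs.mul {P Q : PowerSeries ℂ} (hP : HasFGCoeffs P) (hQ : HasFGCoeffs Q) :
    HasFGCoeffs (P * Q) := by
  obtain ⟨Γ, hΓ, h⟩ := hP
  obtain ⟨Γ', hΓ', h'⟩ := hQ
  refine ⟨Γ * Γ', hΓ.mul hΓ', fun n => ?_⟩
  rw [coeff_mul]
  exact Submodule.sum_mem _ fun p _ => Submodule.mul_mem_mul (h _) (h' _)

theorem HasFGCoeffs.smul (c : ℂ) {P : PowerSeries ℂ} (hP : HasFGCoeffs P) :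
    HasFGCoeffs (c • P) := by
  obtain ⟨Γ, hΓ, h⟩ := hP
  refine ⟨Γ.map (LinearMap.mulLeft ℤ c), hΓ.map _, fun n => ?_⟩
  rw [coeff_smul]
  exact ⟨_, h n, rfl⟩

theorem HasFGCoeffs.of_int {P : PowerSeries ℂ} (h : ∀ n, ∃ m : ℤ, coeff n P = m) :
    HasFGCoeffs P := by
  refine ⟨Submodule.span ℤ {1}, Submodule.fg_span_singleton 1, fun n => ?_⟩
  obtain ⟨m, hm⟩ := h n
  rw [hm, Submodule.mem_span_singleton]
  exact ⟨m, by simp⟩

theorem HasFGCoeffs.one : HasFGCoeffs 1 :=
  HasFGCoeffs.of_int fun n => by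
    rw [coeff_one]
    split_ifs
    · exact ⟨1, by simp⟩
    · exact ⟨0, by simp⟩

theorem HasFGCoeffs.of_subalgebra (A : Subalgebra ℤ ℂ) (hA : Module.Finite ℤ A)
    {P : PowerSeries ℂ} (h : ∀ n, coeff n P ∈ A) : HasFGCoeffs P :=
  ⟨Subalgebra.toSubmodule A, Module.Finite.iff_fg.mp hA, h⟩

theorem HasFGCoeffs.pow {P : PowerSeries ℂ} (hP : HasFGCoeffs P) (n : ℕ) :
    HasFGCoeffs (P ^ n) := by
  induction n with
  | zero => simpa using HasFGCoeffs.one
  | succ n ih => rw [pow_succ]; exact ih.mul hP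

theorem HasFGCoeffs.sum {ι : Type*} (s : Finset ι) {P : ι → PowerSeries ℂ}
    (h : ∀ i ∈ s, HasFGCoeffs (P i)) : HasFGCoeffs (∑ i ∈ s, P i) := by
  classical
  induction s using Finset.induction_on with
  | empty => simpa using HasFGCoeffs.zero
  | insert a s ha ih =>
    rw [Finset.sum_insert ha]
    exact (h a (Finset.mem_insert_self a s)).add
      (ih fun i hi => h i (Finset.mem_insert_of_mem hi))

theorem HasFGCoeffs.prod {ι : Type*} (s : Finset ι) {P : ι → PowerSeries ℂ}
    (h : ∀ i ∈ s, HasFGCoeffs (P i)) : HasFGCoeffs (∏ i ∈ s, P i) := by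
  classical
  induction s using Finset.induction_on with
  | empty => simpa using HasFGCoeffs.one
  | insert a s ha ih =>
    rw [Finset.prod_insert ha]
    exact (h a (Finset.mem_insert_self a s)).mul
      (ih fun i hi => h i (Finset.mem_insert_of_mem hi))

/-- A power series over `ℂ` with coefficients in the subalgebra `A` and constant coefficient `1`
has an inverse with coefficients in `A`. -/
theorem exists_inverse_coeff_mem (A : Subalgebra ℤ ℂ) {R : PowerSeries ℂ}
    (hR0 : coeff 0 R = 1) (hR : ∀ n, coeff n R ∈ A) :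
    ∃ S : PowerSeries ℂ, R * S = 1 ∧ ∀ n, coeff n S ∈ A := by
  let RA : PowerSeries A := PowerSeries.mk fun n => ⟨coeff n R, hR n⟩
  have hmap : PowerSeries.map (algebraMap A ℂ) RA = R := by
    ext n
    simp [RA]
  have hunit : IsUnit RA := by
    rw [PowerSeries.isUnit_iff_constantCoeff]
    have : constantCoeff RA = 1 := by
      rw [← coeff_zero_eq_constantCoeff_apply]
      apply Subtype.ext
      simpa [RA] using hR0
    rw [this]
    exact isUnit_one
  obtain ⟨SA, hSA⟩ := hunit.exists_right_inv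
  refine ⟨PowerSeries.map (algebraMap A ℂ) SA, ?_, fun n => ?_⟩
  · rw [← hmap, ← map_mul, hSA, map_one]
  · rw [coeff_map]
    exact (coeff n SA).2

/-- **Power series division.** If `P * (c • (X ^ μ * R)) = Q` with `c ≠ 0`, `R ∈ 1 + X A[[X]]` for a
subalgebra `A ⊆ ℂ` which is a finite `ℤ`-module, and `Q` has coefficients in a finitely generated
`ℤ`-module, then so has `P`. -/
theorem HasFGCoeffs.of_mul_eq {P Q R : PowerSeries ℂ} {c : ℂ} {μ : ℕ} (hc : c ≠ 0)
    (A : Subalgebra ℤ ℂ) (hA : Module.Finite ℤ A) (hR0 : coeff 0 R = 1)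
    (hR : ∀ n, coeff n R ∈ A) (hQ : HasFGCoeffs Q) (h : P * (c • (X ^ μ * R)) = Q) :
    HasFGCoeffs P := by
  obtain ⟨S, hRS, hS⟩ := exists_inverse_coeff_mem A hR0 hR
  have hQS : HasFGCoeffs (Q * S) := hQ.mul (HasFGCoeffs.of_subalgebra A hA hS)
  have key : c • (P * X ^ μ) = Q * S := by
    rw [← h]
    calc c • (P * X ^ μ) = c • (P * X ^ μ * (R * S)) := by rw [hRS, mul_one]
      _ = P * (c • (X ^ μ * R)) * S := by
        simp only [mul_smul_comm, smul_mul_assoc]
        ring_nf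
  obtain ⟨Γ, hΓ, hmem⟩ := hQS
  refine ⟨Γ.map (LinearMap.mulLeft ℤ c⁻¹), hΓ.map _, fun n => ?_⟩
  have h1 : c * coeff n P = coeff (n + μ) (Q * S) := by
    rw [← key, coeff_smul, coeff_mul_X_pow, smul_eq_mul]
  refine ⟨coeff (n + μ) (Q * S), hmem _, ?_⟩
  simp only [LinearMap.mulLeft_apply]
  rw [← h1, inv_mul_cancel_left₀ hc]

/-- `T = u • (X ^ n₀ * R)` with `u` a unit of `A` and `R ∈ 1 + X A[[X]]`. -/
def IsUnitalOver (A : Subalgebra ℤ ℂ) (T : PowerSeries ℂ) : Prop :=
  ∃ (u v : ℂ) (n₀ : ℕ) (R : PowerSeries ℂ), u ∈ A ∧ v ∈ A ∧ u * v = 1 ∧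
    (∀ n, coeff n R ∈ A) ∧ coeff 0 R = 1 ∧ T = u • (X ^ n₀ * R)

theorem IsUnitalOver.one (A : Subalgebra ℤ ℂ) : IsUnitalOver A 1 :=
  ⟨1, 1, 0, 1, A.one_mem, A.one_mem, by simp, fun n => by
    rw [coeff_one]
    split_ifs
    · exact A.one_mem
    · exact A.zero_mem, by simp, by simp⟩

theorem IsUnitalOver.mul {A : Subalgebra ℤ ℂ} {T T' : PowerSeries ℂ}
    (h : IsUnitalOver A T) (h' : IsUnitalOver A T') : IsUnitalOver A (T * T') := by
  obtain ⟨u, v, n₀, R, hu, hv, huv, hR, hR0, rfl⟩ := h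
  obtain ⟨u', v', n₀', R', hu', hv', huv', hR', hR0', rfl⟩ := h'
  refine ⟨u * u', v * v', n₀ + n₀', R * R', A.mul_mem hu hu', A.mul_mem hv hv', ?_, ?_, ?_, ?_⟩
  · calc u * u' * (v * v') = (u * v) * (u' * v') := by ring
      _ = 1 := by rw [huv, huv', mul_one]
  · intro n
    rw [coeff_mul]
    exact A.sum_mem fun p _ => A.mul_mem (hR _) (hR' _)
  · rw [coeff_zero_eq_constantCoeff_apply, map_mul, ← coeff_zero_eq_constantCoeff_apply,
      ← coeff_zero_eq_constantCoeff_apply, hR0, hR0', mul_one]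
  · simp only [smul_mul_smul_comm, pow_add]
    congr 1
    ring

theorem IsUnitalOver.prod {A : Subalgebra ℤ ℂ} {ι : Type*} (s : Finset ι)
    {T : ι → PowerSeries ℂ} (h : ∀ i ∈ s, IsUnitalOver A (T i)) :
    IsUnitalOver A (∏ i ∈ s, T i) := by
  classical
  induction s using Finset.induction_on with
  | empty => simpa using IsUnitalOver.one A
  | insert a s ha ih =>
    rw [Finset.prod_insert ha]
    exact (h a (Finset.mem_insert_self a s)).mul
      (ih fun i hi => h i (Finset.mem_insert_of_mem hi))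

/-- Criterion in terms of coefficients: all coefficients in `A`, the first nonzero one a unit. -/
theorem IsUnitalOver.of_coeff {A : Subalgebra ℤ ℂ} {T : PowerSeries ℂ}
    (hT : ∀ n, coeff n T ∈ A) (n₀ : ℕ) (u : ℂ) (hu : u ∈ A) (h1 : u * coeff n₀ T = 1)
    (h0 : ∀ n < n₀, coeff n T = 0) : IsUnitalOver A T := by
  refine ⟨coeff n₀ T, u, n₀, PowerSeries.mk fun n => u * coeff (n + n₀) T, hT n₀, hu, ?_,
    fun n => ?_, ?_, ?_⟩
  · rw [mul_comm]; exact h1
  · rw [coeff_mk]
    exact A.mul_mem hu (hT _)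
  · rw [coeff_mk, zero_add, h1]
  · ext n
    rw [coeff_smul, coeff_X_pow_mul', smul_eq_mul]
    split_ifs with hn
    · rw [coeff_mk, Nat.sub_add_cancel hn, ← mul_assoc, mul_comm (coeff n₀ T) u, h1, one_mul]
    · rw [h0 n (not_le.mp hn), mul_zero]

/-- The ring generated by a root of unity is a finite `ℤ`-module. -/
theorem finite_adjoin_of_pow_eq_one {ζ : ℂ} {n : ℕ} (hn : 0 < n) (h : ζ ^ n = 1) :
    Module.Finite ℤ (Algebra.adjoin ℤ {ζ}) := by
  have hint : IsIntegral ℤ ζ := IsIntegral.of_pow hn (by rw [h]; exact isIntegral_one)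
  exact Algebra.finite_adjoin_simple_of_isIntegral hint

/-- A finitely generated `ℤ`-submodule of `ℚ` has bounded denominators. -/
theorem exists_denominator_of_fg (Λ : Submodule ℤ ℚ) (hΛ : Λ.FG) :
    ∃ M : ℕ, 0 < M ∧ ∀ x ∈ Λ, ∃ m : ℤ, (M : ℚ) * x = m := by
  classical
  obtain ⟨s, rfl⟩ := hΛ
  refine ⟨∏ r ∈ s, r.den, Finset.prod_pos fun r _ => r.den_pos, fun x hx => ?_⟩
  induction hx using Submodule.span_induction with
  | mem x hx =>
    have hx' : x ∈ s := hx
    obtain ⟨t, ht⟩ : x.den ∣ ∏ r ∈ s, r.den := Finset.dvd_prod_of_mem _ hx'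
    refine ⟨t * x.num, ?_⟩
    rw [ht]
    push_cast
    have hden : (x.den : ℚ) * x = x.num := by
      rw [mul_comm]
      exact Rat.mul_den_eq_num x
    calc (x.den : ℚ) * t * x = t * ((x.den : ℚ) * x) := by ring
      _ = t * x.num := by rw [hden]
  | zero => exact ⟨0, by simp⟩
  | add x y _ _ hx hy =>
    obtain ⟨a, ha⟩ := hx
    obtain ⟨b, hb⟩ := hy
    exact ⟨a + b, by rw [mul_add, ha, hb]; push_cast; ring⟩
  | smul c x _ hx =>
    obtain ⟨a, ha⟩ := hx
    refine ⟨c * a, ?_⟩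
    rw [zsmul_eq_mul, mul_left_comm, ha]
    push_cast
    ring

/-- A power series with rational coefficients in a finitely generated `ℤ`-module has bounded
denominators. -/
theorem HasFGCoeffs.exists_denominator {P : PowerSeries ℂ} (hP : HasFGCoeffs P)
    (hrat : ∀ n, ∃ r : ℚ, coeff n P = r) :
    ∃ M : ℕ, 0 < M ∧ ∀ n, ∃ m : ℤ, (M : ℂ) * coeff n P = m := by
  obtain ⟨Γ, hΓ, hmem⟩ := hP
  let ι : ℚ →ₗ[ℤ] ℂ := (Rat.castHom ℂ).toAddMonoidHom.toIntLinearMap
  have hι : Function.Injective ι := (Rat.castHom ℂ).injective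
  have hfg : (Γ.comap ι).FG := by
    apply Submodule.fg_of_fg_map_injective ι hι
    exact hΓ.of_le (Submodule.map_comap_le ι Γ)
  obtain ⟨M, hM, h⟩ := exists_denominator_of_fg _ hfg
  refine ⟨M, hM, fun n => ?_⟩
  obtain ⟨r, hr⟩ := hrat n
  have hrmem : r ∈ Γ.comap ι := by
    rw [Submodule.mem_comap]
    have : ι r = coeff n P := hr.symm
    rw [this]
    exact hmem n
  obtain ⟨m, hm⟩ := h r hrmem
  refine ⟨m, ?_⟩
  rw [hr]
  exact_mod_cast hm

end PowerSeriesAlgebra

end Fermat.Agent.Lib.CoeffLattice
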