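import Mathlib

/-!
# Finite extensions of a complete discrete valuation ring

Let `O` be a complete discrete valuation ring of characteristic zero with finite residue field,
`K` its fraction field and `E` a finite extension of `K`.  Then the integral closure `O''` of `O`
in `E` is again a complete discrete valuation ring with finite residue field, finite and free over
`O`, with fraction field `E`, and `O → O''` is an injective local homomorphism.

The proof is purely algebraic (no norms): `O''` is finite free over `O`, hence complete for the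
ideal `𝔪_O · O''`; its quotient by that ideal is finite, so idempotents lift (Hensel), and a
complete domain with finite quotient is local.
-/

set_option autoImplicit false
set_option linter.unusedSectionVars false

namespace Fermat.Agent.Lib.CompleteDVRExt

open IsLocalRing Polynomial

/-! ### General lemmas -/

section General

/-- A module with a finite basis over an `I`-adically precomplete ring is `I`-adically
precomplete. -/
theorem isPrecomplete_of_basis {R M ι : Type*} [CommRing R] [AddCommGroup M] [Module R M]
    [Fintype ι] (I : Ideal R) [IsPrecomplete I R] (b : Module.Basis ι R M) :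
    IsPrecomplete I M := by
  refine ⟨fun f hf => ?_⟩
  have hI : ∀ k : ℕ, (I ^ k • ⊤ : Submodule R R) = I ^ k := fun k => by
    rw [← Ideal.one_eq_top, Ideal.smul_eq_mul, mul_one]
  have hcoord : ∀ i, ∀ {m n : ℕ}, m ≤ n →
      b.repr (f m) i ≡ b.repr (f n) i [SMOD (I ^ m • ⊤ : Submodule R R)] := by
    intro i m n hmn
    have h := hf hmn
    rw [SModEq.sub_mem] at h ⊢
    have h' : (b.coord i) (f m - f n) ∈ (I ^ m • ⊤ : Submodule R R) := by
      refine Submodule.smul_induction_on h ?_ ?_
      · intro r hr n _
        rw [map_smul]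
        exact Submodule.smul_mem_smul hr Submodule.mem_top
      · intro x y hx hy
        rw [map_add]
        exact Submodule.add_mem _ hx hy
    simpa using h'
  choose L hL using fun i => IsPrecomplete.prec' (I := I) (fun n => b.repr (f n) i) (hcoord i)
  refine ⟨∑ i, L i • b i, fun n => ?_⟩
  rw [SModEq.sub_mem]
  have h1 : f n - ∑ i, L i • b i = ∑ i, (b.repr (f n) i - L i) • b i := by
    conv_lhs => rw [← b.sum_repr (f n)]
    rw [← Finset.sum_sub_distrib]
    simp [sub_smul]
  rw [h1]
  refine Submodule.sum_mem _ (fun i _ => Submodule.smul_mem_smul ?_ Submodule.mem_top)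
  have h2 := hL i n
  rw [SModEq.sub_mem, hI] at h2
  exact h2

/-- If `J ^ e = I` with `0 < e` and the ring is `I`-adically precomplete, it is `J`-adically
precomplete. -/
theorem isPrecomplete_of_pow_eq {R : Type*} [CommRing R] {I J : Ideal R} {e : ℕ} (he : 0 < e)
    (h : J ^ e = I) [IsPrecomplete I R] : IsPrecomplete J R := by
  refine ⟨fun f hf => ?_⟩
  have hI : ∀ (K : Ideal R) (k : ℕ), (K ^ k • ⊤ : Submodule R R) = K ^ k := fun K k => by
    rw [← Ideal.one_eq_top, Ideal.smul_eq_mul, mul_one]
  obtain ⟨L, hL⟩ := IsPrecomplete.prec' (I := I) (fun k => f (e * k)) (by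
    intro m n hmn
    have h0 := hf (Nat.mul_le_mul_left e hmn)
    rw [hI, SModEq.sub_mem] at h0 ⊢
    rwa [← h, ← pow_mul])
  refine ⟨L, fun n => ?_⟩
  have h1 := hL n
  have h2 := hf (show n ≤ e * n from Nat.le_mul_of_pos_left n he)
  rw [hI, SModEq.sub_mem] at h1 h2 ⊢
  have h3 : f (e * n) - L ∈ J ^ n := by
    rw [← h, ← pow_mul] at h1
    exact Ideal.pow_le_pow_right (Nat.le_mul_of_pos_left n he) h1
  have h4 : f n - L = (f n - f (e * n)) + (f (e * n) - L) := by ring
  rw [h4]
  exact Ideal.add_mem _ h2 h3

/-- In a finite monoid every element has a positive power which is idempotent. -/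
theorem exists_pos_isIdempotentElem_pow {M : Type*} [Monoid M] [Finite M] (a : M) :
    ∃ n : ℕ, 0 < n ∧ IsIdempotentElem (a ^ n) := by
  obtain ⟨i, j, hij, h⟩ : ∃ i j : ℕ, i < j ∧ a ^ i = a ^ j := by
    obtain ⟨x, y, hne, hxy⟩ := Finite.exists_ne_map_eq_of_infinite (fun n : ℕ => a ^ n)
    rcases lt_or_gt_of_ne hne with h | h
    · exact ⟨x, y, h, hxy⟩
    · exact ⟨y, x, h, hxy.symm⟩
  have hm0 : 0 < j - i := Nat.sub_pos_of_lt hij
  have hstep : ∀ k, i ≤ k → a ^ (k + (j - i)) = a ^ k := by
    intro k hk
    obtain ⟨d, rfl⟩ := Nat.exists_eq_add_of_le hk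
    have h1 : i + d + (j - i) = j + d := by omega
    rw [h1, pow_add, ← h, ← pow_add]
  have hstep' : ∀ t k, i ≤ k → a ^ (k + t * (j - i)) = a ^ k := by
    intro t
    induction t with
    | zero => intro k _; simp
    | succ t ih =>
      intro k hk
      rw [Nat.succ_mul, ← add_assoc, hstep _ (by omega), ih k hk]
  refine ⟨(i + 1) * (j - i), Nat.mul_pos (Nat.succ_pos i) hm0, ?_⟩
  have hn : i ≤ (i + 1) * (j - i) := by nlinarith
  unfold IsIdempotentElem
  rw [← pow_add]
  exact hstep' (i + 1) _ hn

/-- A domain which is complete for an ideal with finite quotient is a local ring. -/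
theorem isLocalRing_of_isAdicComplete {B : Type*} [CommRing B] [IsDomain B] (I : Ideal B)
    [IsAdicComplete I B] [Finite (B ⧸ I)] : IsLocalRing B := by
  have hjac : I ≤ Ideal.jacobson ⊥ := IsAdicComplete.le_jacobson_bot I
  refine IsLocalRing.of_isUnit_or_isUnit_one_sub_self (fun x => ?_)
  obtain ⟨n, hn, hid⟩ := exists_pos_isIdempotentElem_pow (Ideal.Quotient.mk I x)
  have hid' : (x ^ n) * (x ^ n) - x ^ n ∈ I := by
    rw [← Ideal.Quotient.eq_zero_iff_mem, map_sub, map_mul, map_pow, sub_eq_zero]
    exact hid
  have hH : HenselianRing B I := inferInstance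
  obtain ⟨e, he, hea⟩ := hH.is_henselian (X ^ 2 - X) (by monicity!) (x ^ n)
    (by simpa [pow_two] using hid') (by
      have h1 : (Ideal.Quotient.mk I) (eval (x ^ n) (derivative (X ^ 2 - X : B[X])))
          = 2 * (Ideal.Quotient.mk I x) ^ n - 1 := by
        simp [one_add_one_eq_two, map_ofNat]
      rw [h1]
      refine IsUnit.of_mul_eq_one (2 * (Ideal.Quotient.mk I x) ^ n - 1) ?_
      have h2 : (Ideal.Quotient.mk I x) ^ n * (Ideal.Quotient.mk I x) ^ n
          = (Ideal.Quotient.mk I x) ^ n := hid
      linear_combination 4 * h2)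
  have he2 : e * (e - 1) = 0 := by
    have h1 : e ^ 2 - e = 0 := by simpa [IsRoot] using he
    linear_combination h1
  rcases mul_eq_zero.1 he2 with h0 | h1
  · -- `x ^ n ∈ I`, so `1 - x` is a unit
    right
    have h2 : x ^ n ∈ I := by
      have := I.neg_mem hea
      rwa [h0, zero_sub, neg_neg] at this
    have h3 : IsUnit (1 - x ^ n) := by
      refine Ideal.isUnit_of_sub_one_mem_jacobson_bot _ (hjac ?_)
      have : 1 - x ^ n - 1 = -(x ^ n) := by ring
      rw [this]
      exact I.neg_mem h2
    exact isUnit_of_dvd_unit (one_sub_dvd_one_sub_pow x n) h3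
  · -- `x ^ n ≡ 1`, so `x` is a unit
    left
    have h2 : x ^ n - 1 ∈ I := by
      have := I.neg_mem hea
      have h3 : e = 1 := sub_eq_zero.1 h1
      rwa [h3, neg_sub] at this
    have h3 : IsUnit (x ^ n) := Ideal.isUnit_of_sub_one_mem_jacobson_bot _ (hjac h2)
    exact (isUnit_pow_iff hn.ne').1 h3

end General

/-! ### The integral closure of a complete DVR in a finite extension of its fraction field -/

section Ext

variable (O : Type*) [CommRing O] [IsDomain O] [IsDiscreteValuationRing O] [CharZero O]
  (K : Type*) [Field K] [Algebra O K] [IsFractionRing O K]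
  (E : Type*) [Field E] [Algebra K E] [Algebra O E] [IsScalarTower O K E] [FiniteDimensional K E]

local notation "𝓒" => integralClosure O E

include O K

theorem charZero_frac : CharZero K :=
  charZero_of_injective_algebraMap (IsFractionRing.injective O K)

theorem algebraMap_injective : Function.Injective (algebraMap O E) := by
  rw [IsScalarTower.algebraMap_eq O K E]
  exact (algebraMap K E).injective.comp (IsFractionRing.injective O K)

theorem isTorsionFree : Module.IsTorsionFree O E :=
  Module.isTorsionFree_iff_algebraMap_injective.2 (algebraMap_injective O K E)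

theorem algebraMap_closure_injective : Function.Injective (algebraMap O 𝓒) := by
  intro a b h
  apply algebraMap_injective O K E
  have := congrArg (fun x : 𝓒 => (x : E)) h
  simpa using this

theorem isFractionRing_closure : IsFractionRing 𝓒 E :=
  haveI := charZero_frac O K
  haveI := isTorsionFree O K E
  IsIntegralClosure.isFractionRing_of_finite_extension O K E 𝓒

theorem isDedekindDomain_closure : IsDedekindDomain 𝓒 :=
  haveI := charZero_frac O K
  haveI := isTorsionFree O K E
  IsIntegralClosure.isDedekindDomain O K E 𝓒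

theorem finite_closure : Module.Finite O 𝓒 :=
  haveI := charZero_frac O K
  haveI := isTorsionFree O K E
  IsIntegralClosure.finite O K E 𝓒

theorem free_closure : Module.Free O 𝓒 :=
  haveI := charZero_frac O K
  haveI := isTorsionFree O K E
  IsIntegralClosure.module_free O K E 𝓒

theorem finrank_closure : Module.finrank O 𝓒 = Module.finrank K E :=
  haveI := charZero_frac O K
  haveI := isTorsionFree O K E
  IsIntegralClosure.rank O K E 𝓒

/-- The ideal `𝔪_O · O''`. -/
def extIdeal : Ideal 𝓒 := (maximalIdeal O).map (algebraMap O 𝓒)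

theorem extIdeal_ne_top : extIdeal O E ≠ ⊤ := by
  have hker : RingHom.ker (algebraMap O 𝓒) ≤ maximalIdeal O := by
    rw [(RingHom.injective_iff_ker_eq_bot _).1 (algebraMap_closure_injective O K E)]
    exact bot_le
  obtain ⟨Q, hQ, hQc⟩ := Ideal.exists_ideal_over_maximal_of_isIntegral (S := 𝓒)
    (maximalIdeal O) hker
  intro h
  have h1 : extIdeal O E ≤ Q := by
    unfold extIdeal
    rw [Ideal.map_le_iff_le_comap, hQc]
  rw [h] at h1
  exact hQ.ne_top (top_le_iff.1 h1)

/-- The image of a uniformizer is a nonzero non-unit. -/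
theorem not_isField_closure : ¬ IsField 𝓒 := by
  obtain ⟨ϖ, hϖ⟩ := IsDiscreteValuationRing.exists_irreducible O
  have hmem : algebraMap O 𝓒 ϖ ∈ extIdeal O E :=
    Ideal.mem_map_of_mem _ ((mem_maximalIdeal _).2 hϖ.not_isUnit)
  have hne : algebraMap O 𝓒 ϖ ≠ 0 := fun h =>
    hϖ.ne_zero (algebraMap_closure_injective O K E (h.trans (map_zero _).symm))
  intro hF
  obtain ⟨b, hb⟩ := hF.mul_inv_cancel hne
  apply extIdeal_ne_top O K E
  rw [Ideal.eq_top_iff_one, ← hb]
  exact Ideal.mul_mem_right _ _ hmem

theorem extIdeal_ne_bot : extIdeal O E ≠ ⊥ := by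
  obtain ⟨ϖ, hϖ⟩ := IsDiscreteValuationRing.exists_irreducible O
  have hmem : algebraMap O 𝓒 ϖ ∈ extIdeal O E :=
    Ideal.mem_map_of_mem _ ((mem_maximalIdeal _).2 hϖ.not_isUnit)
  have hne : algebraMap O 𝓒 ϖ ≠ 0 := fun h =>
    hϖ.ne_zero (algebraMap_closure_injective O K E (h.trans (map_zero _).symm))
  intro h
  rw [h, Ideal.mem_bot] at hmem
  exact hne hmem

/-- The quotient by `𝔪_O · O''` is finite. -/
theorem finite_quot_extIdeal [Finite (ResidueField O)] : Finite (𝓒 ⧸ extIdeal O E) := by
  have := finite_closure O K E
  have h0 : Finite (O ⧸ maximalIdeal O) := ‹Finite (ResidueField O)›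
  have h1 : Finite (TensorProduct O (O ⧸ maximalIdeal O) 𝓒) :=
    Module.finite_of_finite (O ⧸ maximalIdeal O)
  have h2 : Finite (𝓒 ⧸ (maximalIdeal O • ⊤ : Submodule O 𝓒)) :=
    Finite.of_equiv _ (TensorProduct.quotTensorEquivQuotSMul 𝓒 (maximalIdeal O)).toEquiv
  have h3 : (maximalIdeal O • ⊤ : Submodule O 𝓒) = (extIdeal O E).restrictScalars O :=
    Ideal.smul_top_eq_map _
  rw [h3] at h2
  exact Finite.of_equiv _ (Submodule.Quotient.restrictScalarsEquiv O (extIdeal O E)).toEquiv

variable [IsAdicComplete (maximalIdeal O) O]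

theorem isPrecomplete_extIdeal : IsPrecomplete (extIdeal O E) 𝓒 := by
  have := finite_closure O K E
  have := free_closure O K E
  have h : IsPrecomplete (maximalIdeal O) 𝓒 :=
    isPrecomplete_of_basis _ (Module.Free.chooseBasis O 𝓒)
  unfold extIdeal
  rw [IsPrecomplete.map_algebraMap_iff]
  exact h

theorem isAdicComplete_extIdeal : IsAdicComplete (extIdeal O E) 𝓒 := by
  have := isDedekindDomain_closure O K E
  have hP := isPrecomplete_extIdeal O K E
  have hH : IsHausdorff (extIdeal O E) 𝓒 := IsHausdorff.of_isDomain _ (extIdeal_ne_top O K E)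
  exact { toIsHausdorff := hH, toIsPrecomplete := hP }

variable [Finite (ResidueField O)]

/-- **The integral closure is a local ring.** -/
theorem isLocalRing_closure : IsLocalRing 𝓒 := by
  have := isAdicComplete_extIdeal O K E
  have := finite_quot_extIdeal O K E
  exact isLocalRing_of_isAdicComplete (extIdeal O E)

/-- **The integral closure is a discrete valuation ring.** -/
theorem isDiscreteValuationRing_closure : IsDiscreteValuationRing 𝓒 := by
  have := isLocalRing_closure O K E
  have hD := isDedekindDomain_closure O K E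
  exact ((IsDiscreteValuationRing.TFAE 𝓒 (not_isField_closure O K E)).out 0 2).2 hD

theorem extIdeal_le_maximalIdeal [IsLocalRing 𝓒] : extIdeal O E ≤ maximalIdeal 𝓒 :=
  IsLocalRing.le_maximalIdeal (extIdeal_ne_top O K E)

/-- `𝔪_O · O'' = 𝔪_{O''} ^ e` with `e > 0` (the ramification index). -/
theorem exists_maximalIdeal_pow_eq [IsLocalRing 𝓒] :
    ∃ e : ℕ, 0 < e ∧ maximalIdeal 𝓒 ^ e = extIdeal O E := by
  have := isDiscreteValuationRing_closure O K E
  obtain ⟨ϖ, hϖ⟩ := IsDiscreteValuationRing.exists_irreducible 𝓒
  obtain ⟨n, hn⟩ := IsDiscreteValuationRing.ideal_eq_span_pow_irreducible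
    (extIdeal_ne_bot O K E) hϖ
  refine ⟨n, Nat.pos_of_ne_zero ?_, ?_⟩
  · rintro rfl
    apply extIdeal_ne_top O K E
    rw [hn, pow_zero, Ideal.span_singleton_one]
  · rw [hn, hϖ.maximalIdeal_eq, Ideal.span_singleton_pow]

/-- **The integral closure is complete for its maximal ideal.** -/
theorem isAdicComplete_closure [IsLocalRing 𝓒] : IsAdicComplete (maximalIdeal 𝓒) 𝓒 := by
  have := isDedekindDomain_closure O K E
  obtain ⟨e, he, hpow⟩ := exists_maximalIdeal_pow_eq O K E
  have := isPrecomplete_extIdeal O K E
  have hP : IsPrecomplete (maximalIdeal 𝓒) 𝓒 := isPrecomplete_of_pow_eq he hpow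
  have hH : IsHausdorff (maximalIdeal 𝓒) 𝓒 := inferInstance
  exact { toIsHausdorff := hH, toIsPrecomplete := hP }

/-- **The residue field of the integral closure is finite.** -/
theorem finite_residueField_closure [IsLocalRing 𝓒] : Finite (ResidueField 𝓒) := by
  have := finite_quot_extIdeal O K E
  have hle := extIdeal_le_maximalIdeal O K E
  exact Finite.of_surjective (Ideal.Quotient.factor hle) (Ideal.Quotient.factor_surjective hle)

theorem charZero_closure : CharZero 𝓒 :=
  charZero_of_injective_algebraMap (algebraMap_closure_injective O K E)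

/-- `O → O''` is a local homomorphism. -/
theorem isLocalHom_algebraMap [IsLocalRing 𝓒] : IsLocalHom (algebraMap O 𝓒) := by
  refine ⟨fun a ha => ?_⟩
  by_contra hna
  have h1 : algebraMap O 𝓒 a ∈ maximalIdeal 𝓒 :=
    extIdeal_le_maximalIdeal O K E (Ideal.mem_map_of_mem _ ((mem_maximalIdeal _).2 hna))
  exact (mem_maximalIdeal _).1 h1 ha

end Ext

/-! ### Packaged form -/

section Packaged

/-- **Finite extension of a complete DVR**, packaged in the shape of the instance telescope of the
frozen statements: for a complete DVR `O` of characteristic zero with finite residue field,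
fraction field `K`, and a finite extension `E` of `K`, there is a complete DVR `O''` with finite
residue field, finite free over `O` of rank `[E : K]`, with fraction field `E`; the structure map
`O → O''` is injective and local.  (`O''` is the integral closure of `O` in `E`.) -/
theorem exists_ext (O : Type) [CommRing O] [IsDomain O] [IsDiscreteValuationRing O]
    [IsAdicComplete (maximalIdeal O) O] [Finite (ResidueField O)] [CharZero O]
    (K : Type*) [Field K] [Algebra O K] [IsFractionRing O K]
    (E : Type) [Field E] [Algebra K E] [Algebra O E] [IsScalarTower O K E]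
    [FiniteDimensional K E] :
    ∃ (O'' : Type) (_ : CommRing O'') (_ : IsDomain O'') (_ : IsDiscreteValuationRing O'')
      (_ : IsAdicComplete (maximalIdeal O'') O'') (_ : Finite (ResidueField O''))
      (_ : CharZero O'') (_ : Algebra O O'') (_ : Module.Finite O O'')
      (_ : IsLocalHom (algebraMap O O'')) (_ : Algebra O'' E) (_ : IsScalarTower O O'' E)
      (_ : IsFractionRing O'' E),
      Function.Injective (algebraMap O O'') ∧ Module.Free O O'' ∧
        Module.finrank O O'' = Module.finrank K E ∧
        ∀ x : E, IsIntegral O x ↔ x ∈ (algebraMap O'' E).range := by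
  have hDVR := isDiscreteValuationRing_closure O K E
  refine ⟨integralClosure O E, inferInstance, inferInstance, hDVR,
    isAdicComplete_closure O K E, finite_residueField_closure O K E, charZero_closure O K E,
    inferInstance, finite_closure O K E, isLocalHom_algebraMap O K E, inferInstance,
    inferInstance, isFractionRing_closure O K E, algebraMap_closure_injective O K E,
    free_closure O K E, finrank_closure O K E, fun x => ?_⟩
  constructor
  · intro hx
    exact ⟨⟨x, hx⟩, rfl⟩
  · rintro ⟨y, rfl⟩
    exact y.2

end Packaged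

end Fermat.Agent.Lib.CompleteDVRExt
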