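import Mathlib

/-!
# The completion of a Dedekind domain at a maximal ideal is a complete DVR

For a discrete valuation ring `R`, the adic completion `AdicCompletion (maximalIdeal R) R` is a
complete discrete valuation ring with the same residue field.  Applied to the localisation of a
Dedekind domain `A` at a nonzero maximal ideal `𝔭`, this gives a complete discrete valuation ring
`O` with a ring homomorphism `ι : A → O`, injective, with `ι⁻¹(𝔪_O) = 𝔭` and `A/𝔭 ≅ O/𝔪_O`.
-/

set_option autoImplicit false

namespace Fermat.Agent.Lib.CompleteDVRPrime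

open IsLocalRing

/-! ### A criterion for being a discrete valuation ring -/

section Criterion

variable {B : Type*} [CommRing B] [IsLocalRing B]

/-- In a Hausdorff local ring with principal maximal ideal `(ϖ)`, every nonzero element is a unit
times a power of `ϖ`. -/
theorem exists_eq_pow_mul_unit (ϖ : B) (hm : maximalIdeal B = Ideal.span {ϖ})
    [IsHausdorff (maximalIdeal B) B] {x : B} (hx : x ≠ 0) :
    ∃ (n : ℕ) (u : Bˣ), x = ϖ ^ n * u := by
  classical
  have hex : ∃ n : ℕ, x ∉ maximalIdeal B ^ n := by
    by_contra hcon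
    push Not at hcon
    apply hx
    refine IsHausdorff.haus' (I := maximalIdeal B) x (fun n => ?_)
    rw [SModEq.zero, Ideal.smul_eq_mul, Ideal.mul_top]
    exact hcon n
  have h0 : Nat.find hex ≠ 0 := by
    intro h
    have := Nat.find_spec hex
    rw [h, pow_zero, Ideal.one_eq_top] at this
    exact this Submodule.mem_top
  obtain ⟨n, hn⟩ := Nat.exists_eq_succ_of_ne_zero h0
  have hmem : x ∈ maximalIdeal B ^ n := by
    have := Nat.find_min hex (m := n) (by omega)
    rwa [not_not] at this
  have hnot : x ∉ maximalIdeal B ^ (n + 1) := by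
    have := Nat.find_spec hex
    rwa [hn] at this
  rw [hm, Ideal.span_singleton_pow, Ideal.mem_span_singleton] at hmem
  obtain ⟨u, rfl⟩ := hmem
  have hu : IsUnit u := by
    by_contra hu
    apply hnot
    have h1 : u ∈ maximalIdeal B := (mem_maximalIdeal u).2 hu
    rw [pow_succ]
    refine Ideal.mul_mem_mul ?_ h1
    rw [hm, Ideal.span_singleton_pow]
    exact Ideal.mem_span_singleton_self _
  exact ⟨n, hu.unit, rfl⟩

/-- A Hausdorff local ring with principal maximal ideal `(ϖ)`, `ϖ` not nilpotent, is a domain. -/
theorem isDomain_of_principal (ϖ : B) (hm : maximalIdeal B = Ideal.span {ϖ})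
    [IsHausdorff (maximalIdeal B) B] (hnil : ∀ n : ℕ, ϖ ^ n ≠ 0) : IsDomain B := by
  have : NoZeroDivisors B := by
    refine ⟨fun {x y} hxy => ?_⟩
    by_contra hcon
    push Not at hcon
    obtain ⟨a, u, rfl⟩ := exists_eq_pow_mul_unit ϖ hm hcon.1
    obtain ⟨b, v, rfl⟩ := exists_eq_pow_mul_unit ϖ hm hcon.2
    apply hnil (a + b)
    have h1 : ϖ ^ (a + b) * ((u * v : Bˣ) : B) = 0 := by
      rw [← hxy, pow_add, Units.val_mul]
      ring
    exact (Units.mul_left_eq_zero _).1 h1
  exact NoZeroDivisors.to_isDomain B

/-- A Hausdorff local ring with principal maximal ideal `(ϖ)`, `ϖ` not nilpotent, is a discrete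
valuation ring. -/
theorem isDiscreteValuationRing_of_principal [IsDomain B] (ϖ : B)
    (hm : maximalIdeal B = Ideal.span {ϖ}) [IsHausdorff (maximalIdeal B) B] (h0 : ϖ ≠ 0) :
    IsDiscreteValuationRing B := by
  have hnu : ¬ IsUnit ϖ := by
    rw [← mem_nonunits_iff, ← mem_maximalIdeal, hm]
    exact Ideal.mem_span_singleton_self _
  refine IsDiscreteValuationRing.ofHasUnitMulPowIrreducibleFactorization ⟨ϖ, ?_, ?_⟩
  · refine ⟨hnu, fun a b hab => ?_⟩
    by_contra hcon
    push Not at hcon
    have ha : a ∈ maximalIdeal B := (mem_maximalIdeal a).2 hcon.1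
    have hb : b ∈ maximalIdeal B := (mem_maximalIdeal b).2 hcon.2
    rw [hm, Ideal.mem_span_singleton] at ha hb
    obtain ⟨a', rfl⟩ := ha
    obtain ⟨b', rfl⟩ := hb
    have h1 : ϖ * (1 - ϖ * (a' * b')) = 0 := by
      linear_combination hab
    rcases mul_eq_zero.1 h1 with h | h
    · exact h0 h
    · exact hnu (IsUnit.of_mul_eq_one (a' * b') (by linear_combination -h))
  · intro x hx
    obtain ⟨n, u, rfl⟩ := exists_eq_pow_mul_unit ϖ hm hx
    exact ⟨n, u, rfl⟩

end Criterion

/-! ### The completion of a discrete valuation ring -/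

section DVR

variable (R : Type*) [CommRing R] [IsDomain R] [IsDiscreteValuationRing R]

local notation "Rhat" => AdicCompletion (maximalIdeal R) R

/-- `R → R̂` is injective. -/
theorem algebraMap_completion_injective : Function.Injective (algebraMap R Rhat) :=
  AdicCompletion.of_injective (I := maximalIdeal R) (M := R)

theorem exists_uniformizer_completion :
    ∃ ϖ : Rhat, maximalIdeal Rhat = Ideal.span {ϖ} ∧ ∀ n : ℕ, ϖ ^ n ≠ 0 := by
  obtain ⟨π, hπ⟩ := IsDiscreteValuationRing.exists_irreducible R
  refine ⟨algebraMap R Rhat π, ?_, fun n => ?_⟩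
  · rw [AdicCompletion.maximalIdeal_eq_map, hπ.maximalIdeal_eq, Ideal.map_span,
      Set.image_singleton]
  · rw [← map_pow]
    intro h
    exact pow_ne_zero n hπ.ne_zero
      (algebraMap_completion_injective R (h.trans (map_zero _).symm))

/-- The completion of a DVR is a domain. -/
theorem isDomain_completion : IsDomain Rhat := by
  obtain ⟨ϖ, hm, hnil⟩ := exists_uniformizer_completion R
  exact isDomain_of_principal ϖ hm hnil

/-- The completion of a DVR is a DVR. -/
theorem isDiscreteValuationRing_completion [IsDomain Rhat] : IsDiscreteValuationRing Rhat := by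
  obtain ⟨ϖ, hm, hnil⟩ := exists_uniformizer_completion R
  exact isDiscreteValuationRing_of_principal ϖ hm (by simpa using hnil 1)

theorem charZero_completion [CharZero R] : CharZero Rhat :=
  charZero_of_injective_algebraMap (algebraMap_completion_injective R)

theorem finite_residueField_completion [Finite (ResidueField R)] : Finite (ResidueField Rhat) :=
  Finite.of_surjective _ (AdicCompletion.residueField_map_bijective R).surjective

end DVR

/-! ### The completion of a Dedekind domain at a maximal ideal -/

section Dedekind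

variable (A : Type*) [CommRing A] [IsDedekindDomain A] (𝔭 : Ideal A) [𝔭.IsMaximal]

/-- The completion of the Dedekind domain `A` at the maximal ideal `𝔭`: the adic completion of the
localisation `A_𝔭` at its maximal ideal. -/
abbrev Completion : Type _ :=
  AdicCompletion (maximalIdeal (Localization.AtPrime 𝔭)) (Localization.AtPrime 𝔭)

/-- The canonical map `A → Â_𝔭`. -/
noncomputable def toCompletion : A →+* Completion A 𝔭 :=
  (algebraMap (Localization.AtPrime 𝔭) (Completion A 𝔭)).comp
    (algebraMap A (Localization.AtPrime 𝔭))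

omit [IsDedekindDomain A] in
theorem toCompletion_apply (a : A) :
    toCompletion A 𝔭 a
      = algebraMap (Localization.AtPrime 𝔭) (Completion A 𝔭)
          (algebraMap A (Localization.AtPrime 𝔭) a) := rfl

variable {𝔭} in
theorem isDiscreteValuationRing_localization (h0 : 𝔭 ≠ ⊥) :
    IsDiscreteValuationRing (Localization.AtPrime 𝔭) :=
  IsLocalization.AtPrime.isDiscreteValuationRing_of_dedekind_domain A h0 _

variable {𝔭} in
theorem toCompletion_injective (h0 : 𝔭 ≠ ⊥) : Function.Injective (toCompletion A 𝔭) := by
  have := isDiscreteValuationRing_localization A h0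
  exact (algebraMap_completion_injective (Localization.AtPrime 𝔭)).comp
    (IsLocalization.injective (Localization.AtPrime 𝔭) 𝔭.primeCompl_le_nonZeroDivisors)

/-- `ι⁻¹(𝔪) = 𝔭`. -/
theorem toCompletion_mem_maximalIdeal_iff (a : A) :
    toCompletion A 𝔭 a ∈ maximalIdeal (Completion A 𝔭) ↔ a ∈ 𝔭 := by
  rw [toCompletion_apply, ← Ideal.mem_comap,
    IsLocalRing.maximalIdeal_comap (algebraMap (Localization.AtPrime 𝔭) (Completion A 𝔭)),
    IsLocalization.AtPrime.to_map_mem_maximal_iff (Localization.AtPrime 𝔭) 𝔭]

/-- `A → Â_𝔭 → Â_𝔭 / 𝔪` is surjective (so `A/𝔭 ≅ Â_𝔭/𝔪`). -/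
theorem residue_comp_toCompletion_surjective :
    Function.Surjective ((residue (Completion A 𝔭)).comp (toCompletion A 𝔭)) := by
  intro y
  obtain ⟨z, rfl⟩ := (AdicCompletion.residueField_map_bijective (Localization.AtPrime 𝔭)).surjective y
  obtain ⟨a, rfl⟩ := Ideal.algebraMap_residueField_surjective 𝔭 z
  refine ⟨a, ?_⟩
  rw [RingHom.comp_apply, toCompletion_apply, ← IsLocalRing.ResidueField.map_residue,
    IsScalarTower.algebraMap_apply A (Localization.AtPrime 𝔭) 𝔭.ResidueField,
    IsLocalRing.ResidueField.algebraMap_eq]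

variable {𝔭} in
theorem isDomain_completion' (h0 : 𝔭 ≠ ⊥) : IsDomain (Completion A 𝔭) := by
  have := isDiscreteValuationRing_localization A h0
  exact isDomain_completion (Localization.AtPrime 𝔭)

variable {𝔭} in
theorem isDiscreteValuationRing_completion' (h0 : 𝔭 ≠ ⊥) [IsDomain (Completion A 𝔭)] :
    IsDiscreteValuationRing (Completion A 𝔭) := by
  have := isDiscreteValuationRing_localization A h0
  exact isDiscreteValuationRing_completion (Localization.AtPrime 𝔭)

variable {𝔭} in
theorem charZero_completion' [CharZero A] (h0 : 𝔭 ≠ ⊥) : CharZero (Completion A 𝔭) :=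
  charZero_of_injective_ringHom (toCompletion_injective A h0)

theorem finite_residueField_completion' [Finite (A ⧸ 𝔭)] :
    Finite (ResidueField (Completion A 𝔭)) := by
  have : Finite (ResidueField (Localization.AtPrime 𝔭)) :=
    inferInstanceAs (Finite 𝔭.ResidueField)
  exact Finite.of_surjective _
    (AdicCompletion.residueField_map_bijective (Localization.AtPrime 𝔭)).surjective

end Dedekind

/-! ### Packaged form -/

section Packaged

/-- **Completion of a Dedekind domain at a nonzero maximal ideal with finite residue field**: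
a complete discrete valuation ring `O` of characteristic zero with finite residue field (the
hypotheses on the coefficient ring in the frozen statements), with `ι : A → O` injective,
`ι⁻¹(𝔪_O) = 𝔭` and `A → O/𝔪_O` onto. -/
theorem exists_complete_dvr (A : Type) [CommRing A] [IsDedekindDomain A] [CharZero A]
    (𝔭 : Ideal A) [𝔭.IsMaximal] (h0 : 𝔭 ≠ ⊥) [Finite (A ⧸ 𝔭)] :
    ∃ (O : Type) (_ : CommRing O) (_ : IsDomain O) (_ : IsDiscreteValuationRing O)
      (_ : IsAdicComplete (maximalIdeal O) O) (_ : Finite (ResidueField O)) (_ : CharZero O)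
      (ι : A →+* O), Function.Injective ι ∧ (∀ a : A, ι a ∈ maximalIdeal O ↔ a ∈ 𝔭) ∧
        Function.Surjective ((residue O).comp ι) := by
  have hD := isDomain_completion' A h0
  have hDVR := isDiscreteValuationRing_completion' A h0
  have hR := isDiscreteValuationRing_localization A h0
  refine ⟨Completion A 𝔭, inferInstance, hD, hDVR, ?_, finite_residueField_completion' A 𝔭,
    charZero_completion' A h0, toCompletion A 𝔭, toCompletion_injective A h0,
    toCompletion_mem_maximalIdeal_iff A 𝔭, residue_comp_toCompletion_surjective A 𝔭⟩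
  exact AdicCompletion.isAdicComplete_of_fg (maximalIdeal (Localization.AtPrime 𝔭)).fg_of_isNoetherianRing

/-- The number field case: the completion of `𝓞 K` at a nonzero maximal ideal. -/
theorem exists_complete_dvr_numberField (K : Type) [Field K] [NumberField K]
    (𝔭 : Ideal (NumberField.RingOfIntegers K)) [𝔭.IsMaximal] (h0 : 𝔭 ≠ ⊥) :
    ∃ (O : Type) (_ : CommRing O) (_ : IsDomain O) (_ : IsDiscreteValuationRing O)
      (_ : IsAdicComplete (maximalIdeal O) O) (_ : Finite (ResidueField O)) (_ : CharZero O)
      (ι : NumberField.RingOfIntegers K →+* O), Function.Injective ι ∧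
        (∀ a : NumberField.RingOfIntegers K, ι a ∈ maximalIdeal O ↔ a ∈ 𝔭) ∧
        Function.Surjective ((residue O).comp ι) := by
  have : Finite (NumberField.RingOfIntegers K ⧸ 𝔭) := Ideal.finiteQuotientOfFreeOfNeBot 𝔭 h0
  exact exists_complete_dvr (NumberField.RingOfIntegers K) 𝔭 h0

end Packaged

end Fermat.Agent.Lib.CompleteDVRPrime
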