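import Mathlib

set_option autoImplicit false

namespace Fermat.Agent.Lib.CompleteLocal

open IsLocalRing

section Chevalley

variable {L : Type*} [CommRing L] [IsLocalRing L] [IsNoetherianRing L]

/-- In a Noetherian local ring, a downward directed family of ideals has, for each `n`,
a member `J` with `J ⊔ 𝔪^n` least among all `J' ⊔ 𝔪^n`. -/
theorem exists_min_sup_pow (JJ : Set (Ideal L)) (hne : JJ.Nonempty)
    (hdir : ∀ J₁ ∈ JJ, ∀ J₂ ∈ JJ, ∃ J₃ ∈ JJ, J₃ ≤ J₁ ⊓ J₂) (n : ℕ) :
    ∃ J ∈ JJ, ∀ J' ∈ JJ, J ⊔ maximalIdeal L ^ n ≤ J' ⊔ maximalIdeal L ^ n := by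
  rcases Nat.eq_zero_or_pos n with rfl | hn
  · obtain ⟨J, hJ⟩ := hne
    exact ⟨J, hJ, fun J' _ => by simp⟩
  have hne_top : maximalIdeal L ^ n ≠ ⊤ := by
    intro h
    have : maximalIdeal L = ⊤ := by
      rw [eq_top_iff]
      calc (⊤ : Ideal L) = maximalIdeal L ^ n := h.symm
        _ ≤ maximalIdeal L := Ideal.pow_le_self hn.ne'
    exact (maximalIdeal.isMaximal L).ne_top this
  have : Nontrivial (L ⧸ maximalIdeal L ^ n) := Ideal.Quotient.nontrivial_iff.mpr hne_top
  have : IsLocalRing (L ⧸ maximalIdeal L ^ n) :=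
    IsLocalRing.of_surjective' (Ideal.Quotient.mk (maximalIdeal L ^ n)) Ideal.Quotient.mk_surjective
  have : IsArtinianRing (L ⧸ maximalIdeal L ^ n) := by
    rw [isArtinianRing_iff_isNilpotent_maximalIdeal]
    refine ⟨n, ?_⟩
    rw [← IsLocalRing.map_maximalIdeal_of_surjective (Ideal.Quotient.mk (maximalIdeal L ^ n))
      Ideal.Quotient.mk_surjective, ← Ideal.map_pow, Ideal.map_quotient_self]
    rfl
  set π := Ideal.Quotient.mk (maximalIdeal L ^ n) with hπ
  have hwf : WellFoundedLT (Ideal (L ⧸ maximalIdeal L ^ n)) := inferInstance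
  obtain ⟨I, ⟨J, hJ, rfl⟩, hmin⟩ := hwf.wf.has_min ((fun J => J.map π) '' JJ) (hne.image _)
  refine ⟨J, hJ, fun J' hJ' => ?_⟩
  obtain ⟨J₃, hJ₃, hle⟩ := hdir J hJ J' hJ'
  have h3 : J₃.map π = J.map π := by
    by_contra hne'
    exact hmin _ ⟨J₃, hJ₃, rfl⟩ (lt_of_le_of_ne (Ideal.map_mono (hle.trans inf_le_left)) hne')
  have h4 : J.map π ≤ J'.map π := h3 ▸ Ideal.map_mono (hle.trans inf_le_right)
  have key : ∀ K : Ideal L, (K.map π).comap π = K ⊔ maximalIdeal L ^ n := by
    intro K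
    rw [Ideal.comap_map_of_surjective π Ideal.Quotient.mk_surjective, ← RingHom.ker_eq_comap_bot,
      Ideal.mk_ker]
  rw [← key, ← key]
  exact Ideal.comap_mono h4

theorem mem_of_forall_mem_sup_pow (J : Ideal L) (y : L)
    (h : ∀ N : ℕ, y ∈ J ⊔ maximalIdeal L ^ N) : y ∈ J := by
  have hH : IsHausdorff (maximalIdeal L) (L ⧸ J) := inferInstance
  rw [← Ideal.Quotient.eq_zero_iff_mem]
  refine hH.haus _ fun N => ?_
  rw [SModEq.zero]
  obtain ⟨j, hj, a, ha, rfl⟩ := Submodule.mem_sup.mp (h N)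
  rw [map_add, Ideal.Quotient.eq_zero_iff_mem.mpr hj, zero_add]
  have : (Ideal.Quotient.mk J a) = a • (1 : L ⧸ J) := by
    rw [Algebra.smul_def, mul_one]; rfl
  rw [this]
  exact Submodule.smul_mem_smul ha Submodule.mem_top

/-- **Chevalley-type lemma.** In a complete Noetherian local ring, a downward directed family
of ideals is cofinal, modulo its intersection, with the powers of the maximal ideal. -/
theorem chevalley [IsAdicComplete (maximalIdeal L) L] (JJ : Set (Ideal L)) (hne : JJ.Nonempty)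
    (hdir : ∀ J₁ ∈ JJ, ∀ J₂ ∈ JJ, ∃ J₃ ∈ JJ, J₃ ≤ J₁ ⊓ J₂) (n : ℕ) :
    ∃ J ∈ JJ, J ≤ sInf JJ ⊔ maximalIdeal L ^ n ∧
      ∀ J' ∈ JJ, J ⊔ maximalIdeal L ^ n ≤ J' ⊔ maximalIdeal L ^ n := by
  choose Jn hJn hmin using exists_min_sup_pow JJ hne hdir
  -- `E k = Jn k ⊔ 𝔪^k`
  have hstep : ∀ k : ℕ, ∀ x ∈ Jn k ⊔ maximalIdeal L ^ k,
      ∃ x' ∈ Jn (k + 1) ⊔ maximalIdeal L ^ (k + 1), x - x' ∈ maximalIdeal L ^ k := by
    intro k x hx
    obtain ⟨J₃, hJ₃, hle⟩ := hdir (Jn k) (hJn k) (Jn (k + 1)) (hJn (k + 1))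
    obtain ⟨j, hj, a, ha, rfl⟩ := Submodule.mem_sup.mp (hmin k J₃ hJ₃ hx)
    exact ⟨j, Ideal.mem_sup_left (hle.trans inf_le_right hj), by simpa using ha⟩
  refine ⟨Jn n, hJn n, ?_, hmin n⟩
  intro x hx0
  have hx : x ∈ Jn n ⊔ maximalIdeal L ^ n := Ideal.mem_sup_left hx0
  -- build the sequence
  choose! nxt hnxt_mem hnxt_sub using hstep
  let s : ℕ → L := fun i => Nat.rec x (fun i y => nxt (n + i) y) i
  have hs_mem : ∀ i, s i ∈ Jn (n + i) ⊔ maximalIdeal L ^ (n + i) := by
    intro i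
    induction i with
    | zero => exact hx
    | succ i ih => exact hnxt_mem (n + i) (s i) ih
  have hs_sub : ∀ i, s i - s (i + 1) ∈ maximalIdeal L ^ (n + i) := fun i =>
    hnxt_sub (n + i) (s i) (hs_mem i)
  have hs_chain : ∀ a b, a ≤ b → s a - s b ∈ maximalIdeal L ^ (n + a) := by
    intro a b hab
    induction b, hab using Nat.le_induction with
    | base => simp
    | succ b hab ih =>
      have h1 : s b - s (b + 1) ∈ maximalIdeal L ^ (n + a) :=
        Ideal.pow_le_pow_right (by omega) (hs_sub b)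
      have : s a - s (b + 1) = (s a - s b) + (s b - s (b + 1)) := by ring
      rw [this]
      exact Ideal.add_mem _ ih h1
  have hprec : IsPrecomplete (maximalIdeal L) L := inferInstance
  obtain ⟨y, hy⟩ := hprec.prec' s (by
    intro a b hab
    rw [SModEq.sub_mem, smul_eq_mul, Ideal.mul_top]
    exact Ideal.pow_le_pow_right (Nat.le_add_left a n) (hs_chain a b hab))
  have hy' : ∀ i, s i - y ∈ maximalIdeal L ^ i := by
    intro i
    have := hy i
    rwa [SModEq.sub_mem, smul_eq_mul, Ideal.mul_top] at this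
  -- `y` lies in every member of the family
  have hyJ : ∀ J ∈ JJ, y ∈ J := by
    intro J hJ
    refine mem_of_forall_mem_sup_pow J y fun N => ?_
    have h1 : s N ∈ J ⊔ maximalIdeal L ^ N :=
      (sup_le_sup_left (Ideal.pow_le_pow_right (Nat.le_add_left N n)) J) (hmin (n + N) J hJ (hs_mem N))
    have h2 : y = s N - (s N - y) := by ring
    rw [h2]
    exact Ideal.sub_mem _ h1 (Ideal.mem_sup_right (hy' N))
  have hxy : x - y ∈ maximalIdeal L ^ n := by
    have h1 : s 0 - s n ∈ maximalIdeal L ^ n := by simpa using hs_chain 0 n (Nat.zero_le n)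
    have h2 : x - y = (s 0 - s n) + (s n - y) := by
      show x - y = (x - s n) + (s n - y)
      ring
    rw [h2]
    exact Ideal.add_mem _ h1 (hy' n)
  have : x = y + (x - y) := by ring
  rw [this]
  exact Ideal.add_mem _ (Ideal.mem_sup_left (Ideal.mem_sInf.mpr fun {J} hJ => hyJ J hJ))
    (Ideal.mem_sup_right hxy)

/-- **Limit lemma.** Under the hypotheses of `chevalley`, a family of elements `x J`
(`J ∈ JJ`), compatible modulo the larger ideal, is induced by a single element of the ring: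
`L ⧸ sInf JJ` is the inverse limit of the `L ⧸ J`. -/
theorem exists_limit [IsAdicComplete (maximalIdeal L) L] (JJ : Set (Ideal L)) (hne : JJ.Nonempty)
    (hdir : ∀ J₁ ∈ JJ, ∀ J₂ ∈ JJ, ∃ J₃ ∈ JJ, J₃ ≤ J₁ ⊓ J₂) (x : Ideal L → L)
    (hx : ∀ J ∈ JJ, ∀ J' ∈ JJ, J ≤ J' → x J - x J' ∈ J') :
    ∃ y : L, ∀ J ∈ JJ, y - x J ∈ J := by
  choose Jn hJn hJn_le hmin using chevalley JJ hne hdir
  -- any two members are compatible modulo the sum
  have hcomp : ∀ J ∈ JJ, ∀ J' ∈ JJ, x J - x J' ∈ J ⊔ J' := by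
    intro J hJ J' hJ'
    obtain ⟨J₃, hJ₃, hle⟩ := hdir J hJ J' hJ'
    have h1 := hx J₃ hJ₃ J hJ (hle.trans inf_le_left)
    have h2 := hx J₃ hJ₃ J' hJ' (hle.trans inf_le_right)
    have : x J - x J' = (x J₃ - x J') - (x J₃ - x J) := by ring
    rw [this]
    exact Ideal.sub_mem _ (Ideal.mem_sup_right h2) (Ideal.mem_sup_left h1)
  -- differences of consecutive terms, split along `sInf JJ ⊔ 𝔪^n`
  have hsplit : ∀ n : ℕ, ∃ μ ∈ maximalIdeal L ^ n, x (Jn (n + 1)) - x (Jn n) - μ ∈ sInf JJ := by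
    intro n
    have h1 : x (Jn (n + 1)) - x (Jn n) ∈ sInf JJ ⊔ maximalIdeal L ^ n := by
      have := hcomp (Jn (n + 1)) (hJn (n + 1)) (Jn n) (hJn n)
      refine (sup_le ((hJn_le (n + 1)).trans
        (sup_le_sup_left (Ideal.pow_le_pow_right (Nat.le_succ n)) _)) (hJn_le n)) this
    obtain ⟨σ, hσ, μ, hμ, hsum⟩ := Submodule.mem_sup.mp h1
    exact ⟨μ, hμ, by rw [← hsum]; simpa using hσ⟩
  choose μ hμ hμ' using hsplit
  let t : ℕ → L := fun i => Nat.rec (x (Jn 0)) (fun i y => y + μ i) i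
  have ht_succ : ∀ i, t (i + 1) = t i + μ i := fun i => rfl
  have ht_inf : ∀ i, t i - x (Jn i) ∈ sInf JJ := by
    intro i
    induction i with
    | zero => simp [t]
    | succ i ih =>
      have : t (i + 1) - x (Jn (i + 1)) = (t i - x (Jn i)) - (x (Jn (i + 1)) - x (Jn i) - μ i) := by
        rw [ht_succ]; ring
      rw [this]
      exact Ideal.sub_mem _ ih (hμ' i)
  have ht_chain : ∀ a b, a ≤ b → t a - t b ∈ maximalIdeal L ^ a := by
    intro a b hab
    induction b, hab using Nat.le_induction with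
    | base => simp
    | succ b hab ih =>
      have : t a - t (b + 1) = (t a - t b) - μ b := by rw [ht_succ]; ring
      rw [this]
      exact Ideal.sub_mem _ ih (Ideal.pow_le_pow_right hab (hμ b))
  have hprec : IsPrecomplete (maximalIdeal L) L := inferInstance
  obtain ⟨y, hy⟩ := hprec.prec' t (by
    intro a b hab
    rw [SModEq.sub_mem, smul_eq_mul, Ideal.mul_top]
    exact ht_chain a b hab)
  have hy' : ∀ i, t i - y ∈ maximalIdeal L ^ i := by
    intro i
    have := hy i
    rwa [SModEq.sub_mem, smul_eq_mul, Ideal.mul_top] at this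
  refine ⟨y, fun J hJ => mem_of_forall_mem_sup_pow J _ fun N => ?_⟩
  have h1 : x (Jn N) - x J ∈ J ⊔ maximalIdeal L ^ N := by
    have := hcomp (Jn N) (hJn N) J hJ
    have hle : Jn N ⊔ J ≤ J ⊔ maximalIdeal L ^ N :=
      sup_le (le_sup_left.trans (hmin N J hJ)) le_sup_left
    exact hle this
  have h2 : t N - x (Jn N) ∈ J ⊔ maximalIdeal L ^ N :=
    Ideal.mem_sup_left (Ideal.mem_sInf.mp (ht_inf N) hJ)
  have h3 : y - x J = (x (Jn N) - x J) + (t N - x (Jn N)) - (t N - y) := by ring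
  rw [h3]
  exact Ideal.sub_mem _ (Ideal.add_mem _ h1 h2) (Ideal.mem_sup_right (hy' N))

end Chevalley

section PowerSeriesComplete

open PowerSeries

variable {S : Type*} [CommRing S] [IsLocalRing S]

theorem mem_maximalIdeal_powerSeries_iff {f : S⟦X⟧} :
    f ∈ maximalIdeal S⟦X⟧ ↔ constantCoeff f ∈ maximalIdeal S := by
  rw [mem_maximalIdeal, mem_maximalIdeal, mem_nonunits_iff, mem_nonunits_iff,
    PowerSeries.isUnit_iff_constantCoeff]

/-- The ideal of power series whose `i`-th coefficient lies in `𝔪^(n-i)`. -/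
def coeffIdeal (S : Type*) [CommRing S] [IsLocalRing S] (n : ℕ) : Ideal S⟦X⟧ where
  carrier := {f | ∀ i, coeff i f ∈ maximalIdeal S ^ (n - i)}
  add_mem' := by
    intro f g hf hg i
    rw [map_add]
    exact Ideal.add_mem _ (hf i) (hg i)
  zero_mem' := by
    intro i
    simp
  smul_mem' := by
    intro c f hf i
    rw [smul_eq_mul, PowerSeries.coeff_mul]
    refine Ideal.sum_mem _ fun p hp => ?_
    have hle : p.2 ≤ i := by
      have := Finset.HasAntidiagonal.mem_antidiagonal.mp hp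
      omega
    exact Ideal.mul_mem_left _ _ (Ideal.pow_le_pow_right (by omega) (hf p.2))

theorem mem_coeffIdeal {n : ℕ} {f : S⟦X⟧} :
    f ∈ coeffIdeal S n ↔ ∀ i, coeff i f ∈ maximalIdeal S ^ (n - i) := Iff.rfl

theorem coeffIdeal_mul_le (a b : ℕ) : coeffIdeal S a * coeffIdeal S b ≤ coeffIdeal S (a + b) := by
  rw [Ideal.mul_le]
  intro f hf g hg i
  rw [PowerSeries.coeff_mul]
  refine Ideal.sum_mem _ fun p hp => ?_
  have hpi : p.1 + p.2 = i := Finset.HasAntidiagonal.mem_antidiagonal.mp hp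
  have h1 := Ideal.mul_mem_mul (hf p.1) (hg p.2)
  rw [← pow_add] at h1
  exact Ideal.pow_le_pow_right (by omega) h1

theorem maximalIdeal_pow_le_coeffIdeal (n : ℕ) : maximalIdeal S⟦X⟧ ^ n ≤ coeffIdeal S n := by
  induction n with
  | zero =>
    intro f _ i
    simp
  | succ n ih =>
    rw [pow_succ]
    refine (Ideal.mul_mono ih ?_).trans (coeffIdeal_mul_le n 1)
    intro f hf i
    rcases Nat.eq_zero_or_pos i with rfl | hi
    · simpa using mem_maximalIdeal_powerSeries_iff.mp hf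
    · have : 1 - i = 0 := by omega
      rw [this]
      simp

theorem C_mem_maximalIdeal_pow {j : ℕ} {c : S} (hc : c ∈ maximalIdeal S ^ j) :
    (C c : S⟦X⟧) ∈ maximalIdeal S⟦X⟧ ^ j := by
  have h1 : (maximalIdeal S).map (C : S →+* S⟦X⟧) ≤ maximalIdeal S⟦X⟧ := by
    rw [Ideal.map_le_iff_le_comap]
    intro x hx
    rw [Ideal.mem_comap, mem_maximalIdeal_powerSeries_iff]
    simpa using hx
  have h2 := Ideal.mem_map_of_mem (C : S →+* S⟦X⟧) hc
  rw [Ideal.map_pow] at h2
  exact Ideal.pow_right_mono h1 j h2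

theorem X_mem_maximalIdeal : (X : S⟦X⟧) ∈ maximalIdeal S⟦X⟧ := by
  rw [mem_maximalIdeal_powerSeries_iff]
  simp

theorem coeffIdeal_le_maximalIdeal_pow (n : ℕ) : coeffIdeal S n ≤ maximalIdeal S⟦X⟧ ^ n := by
  induction n with
  | zero => simp
  | succ n ih =>
    intro f hf
    rw [PowerSeries.eq_shift_mul_X_add_const f]
    refine Ideal.add_mem _ ?_ ?_
    · rw [pow_succ]
      refine Ideal.mul_mem_mul (ih ?_) X_mem_maximalIdeal
      intro i
      rw [PowerSeries.coeff_mk]
      have := hf (i + 1)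
      rwa [show n + 1 - (i + 1) = n - i by omega] at this
    · refine C_mem_maximalIdeal_pow ?_
      have := hf 0
      simpa using this

theorem maximalIdeal_pow_eq_coeffIdeal (n : ℕ) : maximalIdeal S⟦X⟧ ^ n = coeffIdeal S n :=
  le_antisymm (maximalIdeal_pow_le_coeffIdeal n) (coeffIdeal_le_maximalIdeal_pow n)

/-- Power series over a local ring which is precomplete for its maximal ideal are precomplete
for their maximal ideal. -/
theorem isPrecomplete_powerSeries [IsPrecomplete (maximalIdeal S) S] :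
    IsPrecomplete (maximalIdeal S⟦X⟧) S⟦X⟧ := by
  refine ⟨fun f hf => ?_⟩
  have hS : IsPrecomplete (maximalIdeal S) S := inferInstance
  have hf' : ∀ a b, a ≤ b → f a - f b ∈ coeffIdeal S a := by
    intro a b hab
    have := hf hab
    rw [SModEq.sub_mem, smul_eq_mul, Ideal.mul_top, maximalIdeal_pow_eq_coeffIdeal] at this
    exact this
  have hc : ∀ i : ℕ, ∃ l : S, ∀ j : ℕ, coeff i (f (j + i)) - l ∈ maximalIdeal S ^ j := by
    intro i
    obtain ⟨l, hl⟩ := hS.prec' (fun j => coeff i (f (j + i))) (by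
      intro a b hab
      rw [SModEq.sub_mem, smul_eq_mul, Ideal.mul_top, ← map_sub]
      have := hf' (a + i) (b + i) (by omega) i
      rwa [show a + i - i = a by omega] at this)
    refine ⟨l, fun j => ?_⟩
    have := hl j
    rwa [SModEq.sub_mem, smul_eq_mul, Ideal.mul_top] at this
  choose l hl using hc
  refine ⟨PowerSeries.mk l, fun n => ?_⟩
  rw [SModEq.sub_mem, smul_eq_mul, Ideal.mul_top, maximalIdeal_pow_eq_coeffIdeal]
  intro i
  rw [map_sub, PowerSeries.coeff_mk]
  by_cases hin : i ≤ n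
  · have := hl i (n - i)
    rwa [show n - i + i = n by omega] at this
  · have : n - i = 0 := by omega
    rw [this]
    simp

/-- Power series over a complete Noetherian local ring are complete for their maximal ideal. -/
theorem isAdicComplete_powerSeries [IsNoetherianRing S] [IsAdicComplete (maximalIdeal S) S] :
    IsAdicComplete (maximalIdeal S⟦X⟧) S⟦X⟧ :=
  { toIsHausdorff := inferInstance
    toIsPrecomplete := isPrecomplete_powerSeries }

end PowerSeriesComplete

section MvPowerSeriesComplete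

variable (𝒪 : Type*) [CommRing 𝒪] [IsLocalRing 𝒪] [IsNoetherianRing 𝒪]
  [IsAdicComplete (maximalIdeal 𝒪) 𝒪]

theorem isAdicComplete_of_ringEquiv {A B : Type*} [CommRing A] [CommRing B] [IsLocalRing A]
    [IsLocalRing B] (e : A ≃+* B) (h : IsAdicComplete (maximalIdeal A) A) :
    IsAdicComplete (maximalIdeal B) B := by
  have := (IsAdicComplete.congr_ringEquiv (I := maximalIdeal A) e).mpr h
  rwa [IsLocalRing.map_ringEquiv_maximalIdeal] at this

/-- **(C1)** `𝒪⟦X₁,…,Xₑ⟧` is complete for its maximal ideal when `𝒪` is a complete Noetherian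
local ring. -/
theorem isAdicComplete_mvPowerSeries_fin (e : ℕ) :
    IsAdicComplete (maximalIdeal (MvPowerSeries (Fin e) 𝒪)) (MvPowerSeries (Fin e) 𝒪) := by
  induction e with
  | zero =>
    exact isAdicComplete_of_ringEquiv (MvPowerSeries.isEmptyEquiv (Fin 0) 𝒪).symm.toRingEquiv
      inferInstance
  | succ n ih =>
    have h1 : IsAdicComplete (maximalIdeal (PowerSeries (MvPowerSeries (Fin n) 𝒪)))
        (PowerSeries (MvPowerSeries (Fin n) 𝒪)) := isAdicComplete_powerSeries
    exact isAdicComplete_of_ringEquiv (MvPowerSeries.finSuccEquiv 𝒪 n).symm.toRingEquiv h1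

end MvPowerSeriesComplete

end Fermat.Agent.Lib.CompleteLocal
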