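import Mathlib
import Fermat.Agent.Lib.CompleteLocal

set_option autoImplicit false

namespace Fermat.Agent.Lib.CompleteLocalEval

open IsLocalRing

section Tail

variable {σ R : Type*} [CommRing R]

theorem algebraMap_X (i : σ) :
    algebraMap (MvPolynomial σ R) (MvPowerSeries σ R) (MvPolynomial.X i) = MvPowerSeries.X i := by
  rw [MvPowerSeries.algebraMap_apply', MvPolynomial.coe_X]
  simp

theorem algebraMap_eq_coe (p : MvPolynomial σ R) :
    algebraMap (MvPolynomial σ R) (MvPowerSeries σ R) p = (p : MvPowerSeries σ R) := by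
  rw [MvPowerSeries.algebraMap_apply']
  simp

/-- The image of `idealOfVars ^ n` in the power series ring lies in `(X) ^ n`. -/
theorem algebraMap_mem_span_X_pow {n : ℕ} {p : MvPolynomial σ R}
    (hp : p ∈ MvPolynomial.idealOfVars σ R ^ n) :
    algebraMap (MvPolynomial σ R) (MvPowerSeries σ R) p ∈
      (Ideal.span (Set.range (MvPowerSeries.X : σ → MvPowerSeries σ R))) ^ n := by
  have h1 := Ideal.mem_map_of_mem (algebraMap (MvPolynomial σ R) (MvPowerSeries σ R)) hp
  rw [Ideal.map_pow] at h1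
  refine Ideal.pow_right_mono ?_ n h1
  rw [Ideal.map_span, Ideal.span_le]
  rintro _ ⟨_, ⟨i, rfl⟩, rfl⟩
  rw [algebraMap_X]
  exact Ideal.subset_span ⟨i, rfl⟩

variable [Finite σ]

/-- **Tail lemma**: a power series differs from its total-degree truncation by an element of
`(X) ^ n`. -/
theorem sub_truncTotal_mem_span_X_pow (n : ℕ) (x : MvPowerSeries σ R) :
    x - algebraMap (MvPolynomial σ R) (MvPowerSeries σ R) (MvPowerSeries.truncTotal n x) ∈
      (Ideal.span (Set.range (MvPowerSeries.X : σ → MvPowerSeries σ R))) ^ n := by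
  set y := x - algebraMap (MvPolynomial σ R) (MvPowerSeries σ R) (MvPowerSeries.truncTotal n x)
    with hy
  have h0 : MvPowerSeries.truncTotalAlgHom σ R n y = 0 := by
    rw [hy, map_sub, AlgHom.commutes, sub_eq_zero]
    rfl
  have hker : MvPowerSeries.toAdicCompletionAlgEquiv σ R y ∈
      LinearMap.ker (AdicCompletion.eval (MvPolynomial.idealOfVars σ R) (MvPolynomial σ R) n) := by
    rw [LinearMap.mem_ker, AdicCompletion.eval_apply, MvPowerSeries.toAdicCompletionAlgEquiv_apply,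
      MvPowerSeries.toAdicCompletion_apply_eq_mk_truncTotal, Ideal.Quotient.eq_zero_iff_mem,
      smul_eq_mul, Ideal.mul_top]
    exact Ideal.Quotient.eq_zero_iff_mem.mp h0
  rw [← AdicCompletion.pow_smul_top_eq_ker_eval (MvPolynomial.idealOfVars_fg σ R)] at hker
  have hback : ∀ z ∈ (MvPolynomial.idealOfVars σ R ^ n • ⊤ :
      Submodule (MvPolynomial σ R) (AdicCompletion (MvPolynomial.idealOfVars σ R)
        (MvPolynomial σ R))),
      (MvPowerSeries.toAdicCompletionAlgEquiv σ R).symm z ∈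
        (Ideal.span (Set.range (MvPowerSeries.X : σ → MvPowerSeries σ R))) ^ n := by
    intro z hz
    refine Submodule.smul_induction_on hz ?_ ?_
    · intro r hr m _
      rw [map_smul, Algebra.smul_def]
      exact Ideal.mul_mem_right _ _ (algebraMap_mem_span_X_pow hr)
    · intro a b ha hb
      rw [map_add]
      exact Ideal.add_mem _ ha hb
  have := hback _ hker
  rwa [AlgEquiv.symm_apply_apply] at this

end Tail

section Eval

variable {𝒪 : Type*} [CommRing 𝒪] {A : Type*} [CommRing A] [IsLocalRing A] [Algebra 𝒪 A]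
  {d : ℕ}

theorem aeval_mem_pow (a : Fin d → A) (ha : ∀ i, a i ∈ maximalIdeal A) {n : ℕ}
    {p : MvPolynomial (Fin d) 𝒪} (hp : p ∈ MvPolynomial.idealOfVars (Fin d) 𝒪 ^ n) :
    MvPolynomial.aeval a p ∈ maximalIdeal A ^ n := by
  have h1 := Ideal.mem_map_of_mem
    ((MvPolynomial.aeval a : MvPolynomial (Fin d) 𝒪 →ₐ[𝒪] A) : MvPolynomial (Fin d) 𝒪 →+* A) hp
  rw [Ideal.map_pow] at h1
  refine Ideal.pow_right_mono ?_ n h1
  rw [Ideal.map_span, Ideal.span_le]
  rintro _ ⟨_, ⟨i, rfl⟩, rfl⟩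
  simpa using ha i

/-- The level-`n` evaluation map `𝒪⟦X⟧ → A ⧸ 𝔪^n`. -/
noncomputable def evalLevel (a : Fin d → A) (ha : ∀ i, a i ∈ maximalIdeal A) (n : ℕ) :
    MvPowerSeries (Fin d) 𝒪 →ₐ[𝒪] A ⧸ maximalIdeal A ^ n :=
  (Ideal.Quotient.liftₐ (MvPolynomial.idealOfVars (Fin d) 𝒪 ^ n)
      ((Ideal.Quotient.mkₐ 𝒪 (maximalIdeal A ^ n)).comp (MvPolynomial.aeval a))
      (fun p hp => by
        simpa using Ideal.Quotient.eq_zero_iff_mem.mpr (aeval_mem_pow a ha hp))).comp
    ((MvPowerSeries.truncTotalAlgHom (Fin d) 𝒪 n).restrictScalars 𝒪)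

theorem evalLevel_apply (a : Fin d → A) (ha : ∀ i, a i ∈ maximalIdeal A) (n : ℕ)
    (x : MvPowerSeries (Fin d) 𝒪) :
    evalLevel a ha n x =
      Ideal.Quotient.mk (maximalIdeal A ^ n) (MvPolynomial.aeval a (MvPowerSeries.truncTotal n x)) :=
  rfl

end Eval

section EvalHom

variable {𝒪 : Type*} [CommRing 𝒪] {A : Type*} [CommRing A] [IsLocalRing A] [Algebra 𝒪 A]
  {d : ℕ}

theorem evalLevel_compat (a : Fin d → A) (ha : ∀ i, a i ∈ maximalIdeal A) {m n : ℕ}
    (hle : m ≤ n) :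
    (Ideal.Quotient.factorₐ 𝒪 (Ideal.pow_le_pow_right hle)).comp (evalLevel (𝒪 := 𝒪) a ha n) =
      evalLevel a ha m := by
  refine AlgHom.ext fun x => ?_
  rw [AlgHom.comp_apply, evalLevel_apply, evalLevel_apply]
  show Ideal.Quotient.mk (maximalIdeal A ^ m) _ = _
  rw [Ideal.Quotient.eq, ← map_sub]
  exact aeval_mem_pow a ha
    (MvPowerSeries.truncTotal_sub_truncTotal_mem_pow_idealOfVars hle le_rfl x)

theorem eq_of_forall_mk_eq [IsHausdorff (maximalIdeal A) A] {x y : A}
    (h : ∀ n : ℕ, Ideal.Quotient.mk (maximalIdeal A ^ n) x =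
      Ideal.Quotient.mk (maximalIdeal A ^ n) y) : x = y := by
  rw [IsHausdorff.eq_iff_smodEq (I := maximalIdeal A)]
  intro n
  rw [SModEq.sub_mem, smul_eq_mul, Ideal.mul_top]
  exact Ideal.Quotient.eq.mp (h n)

theorem map_mem_pow_of_mem_span_X_pow (φ : MvPowerSeries (Fin d) 𝒪 →ₐ[𝒪] A)
    (hφ : ∀ i, φ (MvPowerSeries.X i) ∈ maximalIdeal A) {n : ℕ} {y : MvPowerSeries (Fin d) 𝒪}
    (hy : y ∈ (Ideal.span (Set.range (MvPowerSeries.X : Fin d → MvPowerSeries (Fin d) 𝒪))) ^ n) :
    φ y ∈ maximalIdeal A ^ n := by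
  have h1 := Ideal.mem_map_of_mem (φ : MvPowerSeries (Fin d) 𝒪 →+* A) hy
  rw [Ideal.map_pow] at h1
  refine Ideal.pow_right_mono ?_ n h1
  rw [Ideal.map_span, Ideal.span_le]
  rintro _ ⟨_, ⟨i, rfl⟩, rfl⟩
  exact hφ i

variable [IsAdicComplete (maximalIdeal A) A]

/-- **(C2)** Evaluation of power series at elements of the maximal ideal of a complete local
algebra. -/
noncomputable def evalHom (a : Fin d → A) (ha : ∀ i, a i ∈ maximalIdeal A) :
    MvPowerSeries (Fin d) 𝒪 →ₐ[𝒪] A :=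
  IsAdicComplete.liftAlgHom (maximalIdeal A) (evalLevel a ha)
    (fun hle => evalLevel_compat a ha hle)

theorem mk_evalHom (a : Fin d → A) (ha : ∀ i, a i ∈ maximalIdeal A) (n : ℕ)
    (x : MvPowerSeries (Fin d) 𝒪) :
    Ideal.Quotient.mk (maximalIdeal A ^ n) (evalHom a ha x) =
      Ideal.Quotient.mk (maximalIdeal A ^ n)
        (MvPolynomial.aeval a (MvPowerSeries.truncTotal n x)) := by
  have h := IsAdicComplete.mk_liftAlgHom (maximalIdeal A) (evalLevel (𝒪 := 𝒪) a ha)
    (fun hle => evalLevel_compat a ha hle) n x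
  unfold evalHom
  rw [h]
  rfl

theorem evalHom_algebraMap (a : Fin d → A) (ha : ∀ i, a i ∈ maximalIdeal A)
    (p : MvPolynomial (Fin d) 𝒪) :
    evalHom a ha (algebraMap (MvPolynomial (Fin d) 𝒪) (MvPowerSeries (Fin d) 𝒪) p) =
      MvPolynomial.aeval a p := by
  refine eq_of_forall_mk_eq fun n => ?_
  rw [mk_evalHom, Ideal.Quotient.eq, ← map_sub]
  refine aeval_mem_pow a ha ?_
  rw [MvPolynomial.mem_pow_idealOfVars_iff', algebraMap_eq_coe]
  intro x hx
  rw [MvPolynomial.coeff_sub, sub_eq_zero, MvPowerSeries.coeff_truncTotal _ hx,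
    MvPolynomial.coeff_coe]

@[simp]
theorem evalHom_X (a : Fin d → A) (ha : ∀ i, a i ∈ maximalIdeal A) (i : Fin d) :
    evalHom (𝒪 := 𝒪) a ha (MvPowerSeries.X i) = a i := by
  rw [← algebraMap_X, evalHom_algebraMap, MvPolynomial.aeval_X]

/-- Uniqueness of the evaluation map. -/
theorem evalHom_unique (a : Fin d → A) (ha : ∀ i, a i ∈ maximalIdeal A)
    (φ : MvPowerSeries (Fin d) 𝒪 →ₐ[𝒪] A) (hφ : ∀ i, φ (MvPowerSeries.X i) = a i) :
    φ = evalHom a ha := by
  refine AlgHom.ext fun x => eq_of_forall_mk_eq fun n => ?_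
  rw [mk_evalHom, Ideal.Quotient.eq]
  have hcomp : φ.comp (IsScalarTower.toAlgHom 𝒪 (MvPolynomial (Fin d) 𝒪)
      (MvPowerSeries (Fin d) 𝒪)) = MvPolynomial.aeval a := by
    refine MvPolynomial.algHom_ext fun i => ?_
    rw [AlgHom.comp_apply, IsScalarTower.toAlgHom_apply, algebraMap_X, hφ, MvPolynomial.aeval_X]
  have h2 : MvPolynomial.aeval a (MvPowerSeries.truncTotal n x) =
      φ (algebraMap (MvPolynomial (Fin d) 𝒪) (MvPowerSeries (Fin d) 𝒪)
        (MvPowerSeries.truncTotal n x)) := by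
    rw [← hcomp]; rfl
  rw [h2, ← map_sub]
  exact map_mem_pow_of_mem_span_X_pow φ (fun i => by rw [hφ]; exact ha i)
    (sub_truncTotal_mem_span_X_pow n x)

/-- Naturality of the evaluation map. -/
theorem comp_evalHom {B : Type*} [CommRing B] [IsLocalRing B] [Algebra 𝒪 B]
    [IsAdicComplete (maximalIdeal B) B] (u : A →ₐ[𝒪] B) (a : Fin d → A)
    (ha : ∀ i, a i ∈ maximalIdeal A) (hb : ∀ i, u (a i) ∈ maximalIdeal B) :
    u.comp (evalHom a ha) = evalHom (fun i => u (a i)) hb :=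
  evalHom_unique _ hb _ fun i => by rw [AlgHom.comp_apply, evalHom_X]

end EvalHom

section Surj

variable {A : Type*} [CommRing A] [IsLocalRing A]

/-- A ring hom of local rings inducing a surjection onto the residue field of the target is
local. -/
theorem map_mem_maximalIdeal_of_residue_surjective {Λ : Type*} [CommRing Λ] [IsLocalRing Λ]
    (φ : Λ →+* A) (hφ : Function.Surjective (residue A ∘ φ)) {x : Λ}
    (hx : x ∈ maximalIdeal Λ) : φ x ∈ maximalIdeal A := by
  have hker : RingHom.ker ((residue A).comp φ) = maximalIdeal Λ :=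
    IsLocalRing.eq_maximalIdeal (RingHom.ker_isMaximal_of_surjective _ hφ)
  have h : x ∈ RingHom.ker ((residue A).comp φ) := hker ▸ hx
  rw [RingHom.mem_ker, RingHom.comp_apply, residue_eq_zero_iff] at h
  exact h

theorem isLocalHom_of_residue_surjective {Λ : Type*} [CommRing Λ] [IsLocalRing Λ]
    (φ : Λ →+* A) (hφ : Function.Surjective (residue A ∘ φ)) : IsLocalHom φ := by
  refine ⟨fun x hx => ?_⟩
  by_contra hx'
  exact (map_mem_maximalIdeal_of_residue_surjective φ hφ
    ((IsLocalRing.mem_maximalIdeal x).mpr hx')) hx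

/-- **Successive approximation**: a ring hom `φ : Λ → A` of local rings, with `Λ` complete and
`A` separated, which is surjective on residue fields and satisfies `𝔪_A ≤ 𝔪_Λ A`, is
surjective. -/
theorem surjective_of_complete {Λ : Type*} [CommRing Λ] [IsLocalRing Λ]
    [IsPrecomplete (maximalIdeal Λ) Λ] [IsHausdorff (maximalIdeal A) A]
    (φ : Λ →+* A) (hres : Function.Surjective (residue A ∘ φ))
    (hgen : maximalIdeal A ≤ (maximalIdeal Λ).map φ) : Function.Surjective φ := by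
  have hloc : ∀ x ∈ maximalIdeal Λ, φ x ∈ maximalIdeal A := fun x hx =>
    map_mem_maximalIdeal_of_residue_surjective φ hres hx
  have hmaple : (maximalIdeal Λ).map φ ≤ maximalIdeal A := by
    rw [Ideal.map_le_iff_le_comap]
    exact fun x hx => hloc x hx
  have hmapeq : (maximalIdeal Λ).map φ = maximalIdeal A := le_antisymm hmaple hgen
  have hpow : ∀ n : ℕ, ∀ q ∈ maximalIdeal Λ ^ n, φ q ∈ maximalIdeal A ^ n := by
    intro n q hq
    have h1 := Ideal.mem_map_of_mem φ hq
    rw [Ideal.map_pow, hmapeq] at h1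
    exact h1
  have happrox : ∀ c : A, ∃ l : Λ, c - φ l ∈ maximalIdeal A := by
    intro c
    obtain ⟨l, hl⟩ := hres (residue A c)
    refine ⟨l, ?_⟩
    rw [← residue_eq_zero_iff, map_sub, sub_eq_zero]
    exact hl.symm
  have hstep : ∀ n : ℕ, ∀ y : A, y ∈ maximalIdeal A ^ n →
      ∃ q : Λ, q ∈ maximalIdeal Λ ^ n ∧ y - φ q ∈ maximalIdeal A ^ (n + 1) := by
    intro n y hy
    rw [← hmapeq, ← Ideal.map_pow] at hy
    change y ∈ Ideal.span (φ '' (maximalIdeal Λ ^ n : Ideal Λ)) at hy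
    refine Submodule.span_induction
      (p := fun y _ => ∃ q : Λ, q ∈ maximalIdeal Λ ^ n ∧ y - φ q ∈ maximalIdeal A ^ (n + 1))
      ?_ ?_ ?_ ?_ hy
    · rintro _ ⟨q, hq, rfl⟩
      exact ⟨q, hq, by simp⟩
    · exact ⟨0, zero_mem _, by simp⟩
    · rintro y1 y2 _ _ ⟨q1, hq1, h1⟩ ⟨q2, hq2, h2⟩
      refine ⟨q1 + q2, add_mem hq1 hq2, ?_⟩
      have : y1 + y2 - φ (q1 + q2) = (y1 - φ q1) + (y2 - φ q2) := by rw [map_add]; ring
      rw [this]
      exact add_mem h1 h2
    · rintro c y _ ⟨q, hq, h⟩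
      obtain ⟨l, hl⟩ := happrox c
      refine ⟨l * q, Ideal.mul_mem_left _ _ hq, ?_⟩
      have : c • y - φ (l * q) = c * (y - φ q) + (c - φ l) * φ q := by
        rw [map_mul, smul_eq_mul]; ring
      rw [this]
      refine add_mem (Ideal.mul_mem_left _ _ h) ?_
      rw [pow_succ']
      exact Ideal.mul_mem_mul hl (hpow n q hq)
  intro x
  choose! g hg1 hg2 using hstep
  let p : ℕ → Λ := fun n => Nat.rec 0 (fun n pn => pn + g n (x - φ pn)) n
  have hps : ∀ n, p (n + 1) = p n + g n (x - φ (p n)) := fun n => rfl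
  have hpx : ∀ n, x - φ (p n) ∈ maximalIdeal A ^ n := by
    intro n
    induction n with
    | zero => simp
    | succ n ih =>
      rw [hps, map_add, ← sub_sub]
      exact hg2 n _ ih
  have hpc : ∀ n, p (n + 1) - p n ∈ maximalIdeal Λ ^ n := by
    intro n
    rw [hps, add_sub_cancel_left]
    exact hg1 n _ (hpx n)
  have hcauchy : ∀ {m n : ℕ}, m ≤ n →
      p m ≡ p n [SMOD (maximalIdeal Λ ^ m • ⊤ : Submodule Λ Λ)] := by
    intro m n hmn
    induction n, hmn using Nat.le_induction with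
    | base => rfl
    | succ n hmn ih =>
      refine ih.trans ?_
      rw [SModEq.sub_mem, smul_eq_mul, Ideal.mul_top]
      have h1 := Ideal.pow_le_pow_right hmn (hpc n)
      have h2 : p n - p (n + 1) = -(p (n + 1) - p n) := by ring
      rw [h2]
      exact neg_mem h1
  obtain ⟨L, hL⟩ := IsPrecomplete.prec' (I := maximalIdeal Λ) p hcauchy
  refine ⟨L, ?_⟩
  rw [IsHausdorff.eq_iff_smodEq (I := maximalIdeal A)]
  intro n
  rw [SModEq.sub_mem, smul_eq_mul, Ideal.mul_top]
  have h1 : p n - L ∈ maximalIdeal Λ ^ n := by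
    have := hL n
    rwa [SModEq.sub_mem, smul_eq_mul, Ideal.mul_top] at this
  have h2 : φ L - x = -(φ (p n - L)) - (x - φ (p n)) := by rw [map_sub]; ring
  rw [h2]
  exact sub_mem (neg_mem (hpow n _ h1)) (hpx n)

end Surj

section EvalSurj

variable {𝒪 : Type*} [CommRing 𝒪] [IsLocalRing 𝒪] {A : Type*} [CommRing A] [IsLocalRing A]
  [Algebra 𝒪 A] {d : ℕ}

theorem mem_maximalIdeal_mvPowerSeries_iff {σ : Type*} {f : MvPowerSeries σ 𝒪} :
    f ∈ maximalIdeal (MvPowerSeries σ 𝒪) ↔ MvPowerSeries.constantCoeff f ∈ maximalIdeal 𝒪 := by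
  rw [IsLocalRing.mem_maximalIdeal, IsLocalRing.mem_maximalIdeal, mem_nonunits_iff,
    mem_nonunits_iff, MvPowerSeries.isUnit_iff_constantCoeff]

theorem X_mem_maximalIdeal_mvPowerSeries {σ : Type*} (i : σ) :
    (MvPowerSeries.X i : MvPowerSeries σ 𝒪) ∈ maximalIdeal (MvPowerSeries σ 𝒪) := by
  rw [mem_maximalIdeal_mvPowerSeries_iff, MvPowerSeries.constantCoeff_X]
  exact zero_mem _

theorem algebraMap_mem_maximalIdeal_mvPowerSeries {σ : Type*} {c : 𝒪}
    (hc : c ∈ maximalIdeal 𝒪) :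
    algebraMap 𝒪 (MvPowerSeries σ 𝒪) c ∈ maximalIdeal (MvPowerSeries σ 𝒪) := by
  rw [mem_maximalIdeal_mvPowerSeries_iff, MvPowerSeries.algebraMap_apply,
    MvPowerSeries.constantCoeff_C]
  exact hc

/-- **(C3)** If `A` is a complete local `𝒪`-algebra whose residue field is generated by `𝒪` and
whose maximal ideal is generated by `𝔪_𝒪` and `a 0, …, a (d-1)`, then evaluation at `a` is a
surjection `𝒪⟦X_0, …, X_{d-1}⟧ → A`. -/
theorem evalHom_surjective
    [IsPrecomplete (maximalIdeal (MvPowerSeries (Fin d) 𝒪)) (MvPowerSeries (Fin d) 𝒪)]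
    [IsAdicComplete (maximalIdeal A) A]
    (a : Fin d → A) (ha : ∀ i, a i ∈ maximalIdeal A)
    (hres : Function.Surjective (residue A ∘ algebraMap 𝒪 A))
    (hgen : maximalIdeal A ≤
      (maximalIdeal 𝒪).map (algebraMap 𝒪 A) ⊔ Ideal.span (Set.range a)) :
    Function.Surjective (evalHom (𝒪 := 𝒪) a ha) := by
  refine surjective_of_complete
    ((evalHom (𝒪 := 𝒪) a ha : MvPowerSeries (Fin d) 𝒪 →ₐ[𝒪] A) :
      MvPowerSeries (Fin d) 𝒪 →+* A) ?_ ?_
  · intro y
    obtain ⟨c, hc⟩ := hres y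
    refine ⟨algebraMap 𝒪 _ c, ?_⟩
    rw [← hc]
    simp
  · refine hgen.trans (sup_le ?_ ?_)
    · rw [Ideal.map_le_iff_le_comap]
      intro c hc
      rw [Ideal.mem_comap]
      have h1 : algebraMap 𝒪 A c = evalHom (𝒪 := 𝒪) a ha (algebraMap 𝒪 _ c) :=
        (AlgHom.commutes _ c).symm
      rw [h1]
      exact Ideal.mem_map_of_mem _ (algebraMap_mem_maximalIdeal_mvPowerSeries hc)
    · rw [Ideal.span_le]
      rintro _ ⟨i, rfl⟩
      rw [← evalHom_X (𝒪 := 𝒪) a ha i]
      exact Ideal.mem_map_of_mem _ (X_mem_maximalIdeal_mvPowerSeries i)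

/-- A complete local algebra over a complete Noetherian local ring `𝒪`, with residue field
generated by `𝒪` and maximal ideal generated by `𝔪_𝒪` and finitely many elements, is
Noetherian. -/
theorem isNoetherianRing_of_span [IsNoetherianRing 𝒪] [IsAdicComplete (maximalIdeal 𝒪) 𝒪]
    [IsAdicComplete (maximalIdeal A) A]
    (a : Fin d → A) (ha : ∀ i, a i ∈ maximalIdeal A)
    (hres : Function.Surjective (residue A ∘ algebraMap 𝒪 A))
    (hgen : maximalIdeal A ≤
      (maximalIdeal 𝒪).map (algebraMap 𝒪 A) ⊔ Ideal.span (Set.range a)) :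
    IsNoetherianRing A := by
  have := CompleteLocal.isAdicComplete_mvPowerSeries_fin 𝒪 d
  exact isNoetherianRing_of_surjective _ _
    ((evalHom (𝒪 := 𝒪) a ha : MvPowerSeries (Fin d) 𝒪 →ₐ[𝒪] A) :
      MvPowerSeries (Fin d) 𝒪 →+* A) (evalHom_surjective a ha hres hgen)

/-- A complete local algebra over a complete Noetherian local ring `𝒪`, with residue field
generated by `𝒪` and finitely generated maximal ideal, is Noetherian. -/
theorem isNoetherianRing_of_maximalIdeal_fg [IsNoetherianRing 𝒪] [IsAdicComplete (maximalIdeal 𝒪) 𝒪]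
    [IsAdicComplete (maximalIdeal A) A]
    (hres : Function.Surjective (residue A ∘ algebraMap 𝒪 A))
    (hfg : (maximalIdeal A).FG) : IsNoetherianRing A := by
  obtain ⟨d, a, ha⟩ := Submodule.fg_iff_exists_fin_generating_family.mp hfg
  refine isNoetherianRing_of_span (𝒪 := 𝒪) a (fun i => ?_) hres ?_
  · rw [← ha]
    exact Submodule.subset_span ⟨i, rfl⟩
  · rw [← ha]
    exact le_sup_right

end EvalSurj

end Fermat.Agent.Lib.CompleteLocalEval
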