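import Mathlib

set_option autoImplicit false

open UpperHalfPlane ModularForm MatrixGroups CongruenceSubgroup
open scoped Real

namespace Fermat.Agent.Lib.DeltaSlash

noncomputable section

/-- The function `z ↦ Δ(N z)` on the upper half plane. -/
def deltaN (N : ℕ) : ℍ → ℂ := fun z => ModularForm.discriminant (ofComplex ((N : ℂ) * z))

/-- Hermite normal form: `diag(N,1) * γ = δ * [a, b; 0, d]` with `δ ∈ SL(2,ℤ)`, `a d = N`,
`0 ≤ b < d`, and `d = 1` iff `γ ∈ Γ₀(N)`. -/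
lemma exists_decomp (N : ℕ) [NeZero N] (γ : SL(2, ℤ)) :
    ∃ (a b d : ℕ) (δ : SL(2, ℤ)), a * d = N ∧ b < d ∧ (d = 1 ↔ (N : ℤ) ∣ γ 1 0) ∧
      (δ 0 0 * a = N * γ 0 0) ∧ (δ 0 0 * b + δ 0 1 * d = N * γ 0 1) ∧
      (δ 1 0 * a = γ 1 0) ∧ (δ 1 0 * b + δ 1 1 * d = γ 1 1) := by
  have hN : N ≠ 0 := NeZero.ne N
  obtain ⟨p, hp⟩ : ∃ p : ℤ, p = γ 0 0 := ⟨_, rfl⟩
  obtain ⟨q, hq⟩ : ∃ q : ℤ, q = γ 0 1 := ⟨_, rfl⟩
  obtain ⟨r, hr⟩ : ∃ r : ℤ, r = γ 1 0 := ⟨_, rfl⟩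
  obtain ⟨s, hs⟩ : ∃ s : ℤ, s = γ 1 1 := ⟨_, rfl⟩
  have hdet : p * s - q * r = 1 := by
    have := γ.det_coe
    rw [Matrix.det_fin_two] at this
    rw [hp, hq, hr, hs]; linarith
  obtain ⟨a, ha⟩ : ∃ a : ℕ, a = Int.gcd (N : ℤ) r := ⟨_, rfl⟩
  have haN : (a : ℤ) ∣ (N : ℤ) := ha ▸ Int.gcd_dvd_left _ _
  have har : (a : ℤ) ∣ r := ha ▸ Int.gcd_dvd_right _ _
  have hapos : 0 < a := ha ▸ Int.gcd_pos_of_ne_zero_left _ (by exact_mod_cast hN)
  have haN' : a ∣ N := by exact_mod_cast haN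
  obtain ⟨d, hd⟩ := haN'
  obtain ⟨r', hr'⟩ := har
  have hdpos : 0 < d := by
    rcases Nat.eq_zero_or_pos d with h | h
    · subst h; simp at hd; exact absurd hd hN
    · exact h
  have hcop : IsCoprime r' (d : ℤ) := by
    rw [Int.isCoprime_iff_gcd_eq_one]
    have h2 : Int.gcd ((a : ℤ) * d) ((a : ℤ) * r') = a := by
      have h0 : ((a : ℤ) * d) = (N : ℤ) := by rw [hd]; push_cast; ring
      rw [h0, ← hr']; exact ha.symm
    rw [Int.gcd_mul_left] at h2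
    have h3 : (a : ℤ).natAbs = a := Int.natAbs_natCast a
    rw [h3] at h2
    have h4 : Int.gcd (d : ℤ) r' = 1 := by
      have : a * Int.gcd (d : ℤ) r' = a * 1 := by rw [h2, mul_one]
      exact Nat.eq_of_mul_eq_mul_left hapos this
    rw [Int.gcd_comm]; exact h4
  obtain ⟨u, v, huv⟩ := hcop
  obtain ⟨bz, hbz⟩ : ∃ bz : ℤ, bz = (s * u) % (d : ℤ) := ⟨_, rfl⟩
  have hbz0 : 0 ≤ bz := hbz ▸ Int.emod_nonneg _ (by exact_mod_cast hdpos.ne')
  have hbzlt : bz < d := hbz ▸ Int.emod_lt_of_pos _ (by exact_mod_cast hdpos)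
  obtain ⟨b, hb⟩ := Int.eq_ofNat_of_zero_le hbz0
  have hbd : b < d := by rw [hb] at hbzlt; exact_mod_cast hbzlt
  have hdvd : (d : ℤ) ∣ s - r' * b := by
    rw [← hb, hbz]
    refine ⟨s * v + r' * ((s * u) / (d : ℤ)), ?_⟩
    have h1 := Int.emod_add_mul_ediv (s * u) (d : ℤ)
    linear_combination (-s) * huv - r' * h1
  obtain ⟨e, he⟩ := hdvd
  have hdetδ : Matrix.det !![p * d, q * a - p * b; r', e] = 1 := by
    rw [Matrix.det_fin_two_of]
    linear_combination (-p) * he + hdet + q * hr'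
  refine ⟨a, b, d, ⟨!![p * d, q * a - p * b; r', e], hdetδ⟩, hd.symm, hbd, ?_, ?_, ?_, ?_, ?_⟩
  · rw [← hr]
    constructor
    · intro h1
      subst h1
      rw [mul_one] at hd
      rw [hd]; exact ⟨r', hr'⟩
    · intro h
      have h2 : Int.gcd (N : ℤ) r = N := by
        have := Int.gcd_eq_left (Int.natCast_nonneg N) h
        exact_mod_cast this
      rw [← ha] at h2
      rw [h2] at hd
      have : N * 1 = N * d := by rw [mul_one]; exact hd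
      exact (Nat.eq_of_mul_eq_mul_left (Nat.pos_of_ne_zero hN) this).symm
  · simp only [Matrix.of_apply, Matrix.cons_val_zero]
    rw [hd, ← hp]; push_cast; ring
  · simp only [Matrix.of_apply, Matrix.cons_val_zero,
      Matrix.cons_val_one]
    rw [hd, ← hq]; push_cast; ring
  · simp only [Matrix.of_apply, Matrix.cons_val_zero,
      Matrix.cons_val_one]
    rw [← hr, hr']; ring
  · simp only [Matrix.of_apply, Matrix.cons_val_zero,
      Matrix.cons_val_one]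
    rw [← hs]
    linear_combination (-1 : ℤ) * he

/-- Transformation law of `Δ` under `SL(2,ℤ)`, in explicit coordinates. -/
lemma discriminant_smul (δ : SL(2, ℤ)) (w : ℍ) :
    ModularForm.discriminant (δ • w) =
      ((δ 1 0 : ℂ) * w + (δ 1 1 : ℂ)) ^ 12 * ModularForm.discriminant w := by
  have h := SlashInvariantForm.slash_action_eqn''
    (Γ := (Matrix.SpecialLinearGroup.mapGL ℝ).range) CuspForm.discriminant
    (γ := (δ : GL (Fin 2) ℝ)) (MonoidHom.mem_range.mpr ⟨δ, rfl⟩) w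
  simp [denom] at h
  rw [← h, ModularGroup.sl_moeb]

lemma coe_sl_smul (γ : SL(2, ℤ)) (z : ℍ) : ((γ • z : ℍ) : ℂ) =
    ((γ 0 0 : ℂ) * z + (γ 0 1 : ℂ)) / ((γ 1 0 : ℂ) * z + (γ 1 1 : ℂ)) := by
  rw [UpperHalfPlane.coe_specialLinearGroup_apply]
  simp

lemma sl_denom_ne_zero (γ : SL(2, ℤ)) (z : ℍ) : (γ 1 0 : ℂ) * z + (γ 1 1 : ℂ) ≠ 0 := by
  have h := UpperHalfPlane.denom_ne_zero
    (Matrix.SpecialLinearGroup.toGL ((Matrix.SpecialLinearGroup.map (Int.castRingHom ℝ)) γ)) z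
  simpa [denom] using h

lemma im_affine_pos {a d : ℕ} (ha : a ≠ 0) (hd : d ≠ 0) (b : ℕ) (z : ℍ) :
    0 < (((a : ℂ) * z + b) / d).im := by
  have : (((a : ℂ) * z + b) / d) = (((a : ℝ) / d : ℝ) : ℂ) * z + ((b : ℝ) / d : ℝ) := by
    have hdC : (d : ℂ) ≠ 0 := by exact_mod_cast hd
    push_cast; field_simp
  rw [this]
  simp only [Complex.add_im, Complex.mul_im, Complex.ofReal_re, Complex.ofReal_im, zero_mul,
    add_zero]
  have hz := z.im_pos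
  have h1 : (0 : ℝ) < (a : ℝ) / d := by positivity
  simpa using mul_pos h1 hz

/-- Explicit formula for every `SL(2,ℤ)`-translate of `Δ(N z)`:
`(Δ(N·) ∣[12] γ)(z) = d⁻¹² Δ((a z + b)/d)` with `a d = N`, `0 ≤ b < d`,
and `d = 1` iff `γ ∈ Γ₀(N)`. -/
theorem deltaN_slash (N : ℕ) [NeZero N] (γ : SL(2, ℤ)) :
    ∃ a b d : ℕ, a * d = N ∧ b < d ∧ (d = 1 ↔ (N : ℤ) ∣ γ 1 0) ∧
      ∀ z : ℍ, (deltaN N ∣[(12 : ℤ)] γ) z =
        ((d : ℂ) ^ 12)⁻¹ * ModularForm.discriminant (ofComplex (((a : ℂ) * z + b) / d)) := by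
  obtain ⟨a, b, d, δ, had, hbd, hd1, h00, h01, h10, h11⟩ := exists_decomp N γ
  refine ⟨a, b, d, had, hbd, hd1, fun z => ?_⟩
  have hN0 : N ≠ 0 := NeZero.ne N
  have ha0 : a ≠ 0 := by rintro rfl; simp at had; exact hN0 had.symm
  have hd0 : d ≠ 0 := by rintro rfl; simp at had; exact hN0 had.symm
  have haC : (a : ℂ) ≠ 0 := by exact_mod_cast ha0
  have hdC : (d : ℂ) ≠ 0 := by exact_mod_cast hd0
  have hwim : 0 < (((a : ℂ) * z + b) / d).im := im_affine_pos ha0 hd0 b z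
  obtain ⟨w, hw⟩ : ∃ w : ℍ, (w : ℂ) = ((a : ℂ) * z + b) / d := ⟨⟨_, hwim⟩, rfl⟩
  have hden := sl_denom_ne_zero γ z
  have hdenδ := sl_denom_ne_zero δ w
  have c00 : (δ 0 0 : ℂ) * a = N * (γ 0 0 : ℂ) := by exact_mod_cast h00
  have c01 : (δ 0 0 : ℂ) * b + (δ 0 1 : ℂ) * d = N * (γ 0 1 : ℂ) := by exact_mod_cast h01
  have c10 : (δ 1 0 : ℂ) * a = (γ 1 0 : ℂ) := by exact_mod_cast h10
  have c11 : (δ 1 0 : ℂ) * b + (δ 1 1 : ℂ) * d = (γ 1 1 : ℂ) := by exact_mod_cast h11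
  have hdenrel : (δ 1 0 : ℂ) * w + (δ 1 1 : ℂ) = ((γ 1 0 : ℂ) * z + (γ 1 1 : ℂ)) / d := by
    rw [hw]; field_simp; linear_combination (z : ℂ) * c10 + c11
  have key : ofComplex ((N : ℂ) * ((γ • z : ℍ) : ℂ)) = δ • w := by
    have him : 0 < ((N : ℂ) * ((γ • z : ℍ) : ℂ)).im := by
      have : ((N : ℂ) * ((γ • z : ℍ) : ℂ)).im = N * (γ • z : ℍ).im := by simp
      rw [this]
      have := (γ • z : ℍ).im_pos
      positivity
    rw [ofComplex_apply_of_im_pos him]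
    apply UpperHalfPlane.ext
    show (N : ℂ) * ((γ • z : ℍ) : ℂ) = ((δ • w : ℍ) : ℂ)
    rw [coe_sl_smul, coe_sl_smul, hdenrel]
    have hnum : (δ 0 0 : ℂ) * w + (δ 0 1 : ℂ) =
        ((N : ℂ) * ((γ 0 0 : ℂ) * z + (γ 0 1 : ℂ))) / d := by
      rw [hw]; field_simp; linear_combination (z : ℂ) * c00 + c01
    rw [hnum]
    field_simp
  rw [SL_slash_apply]
  simp only [deltaN]
  rw [key, discriminant_smul, hdenrel]
  have : denom (Matrix.SpecialLinearGroup.toGL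
      ((Matrix.SpecialLinearGroup.map (Int.castRingHom ℝ)) γ)) z =
      (γ 1 0 : ℂ) * z + (γ 1 1 : ℂ) := by
    simp [denom]
  rw [this]
  have hw' : ofComplex (((a : ℂ) * z + b) / d) = w := by
    rw [ofComplex_apply_of_im_pos hwim]; exact UpperHalfPlane.ext hw.symm
  rw [hw']
  rw [zpow_neg, div_pow]
  have hz12 : ((γ 1 0 : ℂ) * z + (γ 1 1 : ℂ)) ^ (12 : ℤ) =
      ((γ 1 0 : ℂ) * z + (γ 1 1 : ℂ)) ^ 12 := by
    norm_cast
  rw [hz12]
  field_simp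

end

end Fermat.Agent.Lib.DeltaSlash
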