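import Mathlib
import Fermat.Agent.Lib.DeltaSlash

set_option autoImplicit false

namespace Fermat.Agent.Lib.DeltaLevelN

open UpperHalfPlane ModularForm Matrix Filter Complex CongruenceSubgroup
open Fermat.Agent.Lib.DeltaSlash
open scoped MatrixGroups ModularForm Manifold Topology Real

local notation "Δ" => ModularForm.discriminant

/-! ## The affine maps `z ↦ (a z + b) / d` -/

lemma im_ofComplex_affine {a d : ℕ} (ha : a ≠ 0) (hd : d ≠ 0) (b : ℕ) (z : ℍ) :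
    (ofComplex (((a : ℂ) * z + b) / d)).im = (a : ℝ) / d * z.im := by
  rw [ofComplex_apply_of_im_pos (im_affine_pos ha hd b z)]
  have hdC : (d : ℂ) ≠ 0 := by exact_mod_cast hd
  have : (((a : ℂ) * z + b) / d) = (((a : ℝ) / d : ℝ) : ℂ) * z + ((b : ℝ) / d : ℝ) := by
    push_cast; field_simp
  rw [mk_im, this]
  simp

lemma tendsto_im_atImInfty : Tendsto (fun z : ℍ => z.im) atImInfty atTop :=
  tendsto_comap

lemma tendsto_ofComplex_affine {a d : ℕ} (ha : a ≠ 0) (hd : d ≠ 0) (b : ℕ) :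
    Tendsto (fun z : ℍ => ofComplex (((a : ℂ) * z + b) / d)) atImInfty atImInfty := by
  rw [atImInfty, tendsto_comap_iff]
  have h1 : (UpperHalfPlane.im ∘ fun z : ℍ => ofComplex (((a : ℂ) * z + b) / d)) =
      fun z : ℍ => (a : ℝ) / d * z.im := by
    ext z
    exact im_ofComplex_affine ha hd b z
  rw [h1]
  have hpos : (0 : ℝ) < (a : ℝ) / d := by positivity
  exact (tendsto_im_atImInfty).const_mul_atTop hpos

lemma deltaN_eq_affine (N : ℕ) (z : ℍ) :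
    deltaN N z = Δ (ofComplex (((N : ℂ) * z + (0 : ℕ)) / (1 : ℕ))) := by
  simp [deltaN]

/-! ## Growth of `Δ` at `i∞` -/

/-- The product factor `Δ(z) / q`. -/
noncomputable def prodFactor (z : ℍ) : ℂ := ∏' n : ℕ, (1 - eta_q n z) ^ 24

lemma tendsto_prodFactor : Tendsto prodFactor atImInfty (𝓝 1) :=
  tendsto_atImInfty_tprod_one_sub_eta_q_pow

lemma norm_discriminant_eq (z : ℍ) :
    ‖Δ z‖ = Real.exp (-2 * π * z.im) * ‖prodFactor z‖ := by
  rw [discriminant_eq_q_prod, norm_mul]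
  congr 1
  simp [Function.Periodic.qParam, Complex.norm_exp]

lemma tendsto_exp_neg_mul_im {c : ℝ} (hc : 0 < c) :
    Tendsto (fun z : ℍ => Real.exp (-(c * z.im))) atImInfty (𝓝 0) :=
  Real.tendsto_exp_neg_atTop_nhds_zero.comp (tendsto_im_atImInfty.const_mul_atTop hc)

/-! ## The stabiliser of `Δ(N z)` -/

lemma mem_Gamma0_iff_dvd (N : ℕ) (γ : SL(2, ℤ)) : γ ∈ Gamma0 N ↔ (N : ℤ) ∣ γ 1 0 := by
  rw [Gamma0_mem]
  exact ZMod.intCast_zmod_eq_zero_iff_dvd _ _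

/-- `Δ(N z)` is invariant under `Γ₀(N)`. -/
theorem deltaN_slash_of_mem (N : ℕ) [NeZero N] {γ : SL(2, ℤ)} (hγ : γ ∈ Gamma0 N) :
    deltaN N ∣[(12 : ℤ)] γ = deltaN N := by
  obtain ⟨a, b, d, had, hbd, hd1, hform⟩ := deltaN_slash N γ
  have hd : d = 1 := hd1.mpr ((mem_Gamma0_iff_dvd N γ).mp hγ)
  subst hd
  have hb : b = 0 := by omega
  subst hb
  have ha : a = N := by simpa using had
  subst ha
  ext z
  rw [hform z, deltaN_eq_affine]
  simp

/-- `Δ(N z)` is not invariant under any element of `SL(2, ℤ)` outside `Γ₀(N)`. -/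
theorem deltaN_slash_ne (N : ℕ) [NeZero N] (γ : SL(2, ℤ)) (hγ : γ ∉ Gamma0 N) :
    deltaN N ∣[(12 : ℤ)] γ ≠ deltaN N := by
  intro heq
  obtain ⟨a, b, d, had, hbd, hd1, hform⟩ := deltaN_slash N γ
  have hN0 : N ≠ 0 := NeZero.ne N
  have ha0 : a ≠ 0 := by rintro rfl; simp at had; exact hN0 had.symm
  have hd0 : d ≠ 0 := by rintro rfl; simp at had; exact hN0 had.symm
  have hd1' : d ≠ 1 := fun h => hγ ((mem_Gamma0_iff_dvd N γ).mpr (hd1.mp h))
  have hd2 : 2 ≤ d := by omega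
  have t₁ : Tendsto (fun z : ℍ => ofComplex (((N : ℂ) * z + (0 : ℕ)) / (1 : ℕ)))
      atImInfty atImInfty := tendsto_ofComplex_affine hN0 one_ne_zero 0
  have t₂ : Tendsto (fun z : ℍ => ofComplex (((a : ℂ) * z + b) / d)) atImInfty atImInfty :=
    tendsto_ofComplex_affine ha0 hd0 b
  have hkey : ∀ z : ℍ, Δ (ofComplex (((N : ℂ) * z + (0 : ℕ)) / (1 : ℕ))) =
      ((d : ℂ) ^ 12)⁻¹ * Δ (ofComplex (((a : ℂ) * z + b) / d)) := by
    intro z
    rw [← deltaN_eq_affine, ← hform z, heq]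
  have hdR : (2 : ℝ) ≤ d := by exact_mod_cast hd2
  have haR : (1 : ℝ) ≤ a := by exact_mod_cast Nat.one_le_iff_ne_zero.mpr ha0
  have hNR : (N : ℝ) = a * d := by exact_mod_cast had.symm
  have hc : 0 < 2 * π * ((N : ℝ) - a / d) := by
    have h1 : (a : ℝ) / d < N := by
      rw [div_lt_iff₀ (by linarith), hNR]
      nlinarith [mul_le_mul haR hdR (by norm_num) (by linarith)]
    have := Real.pi_pos
    nlinarith
  have hnorm : ∀ z : ℍ, Real.exp (-(2 * π * ((N : ℝ) - a / d) * z.im)) *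
      ‖prodFactor (ofComplex (((N : ℂ) * z + (0 : ℕ)) / (1 : ℕ)))‖ =
      ((d : ℝ) ^ 12)⁻¹ * ‖prodFactor (ofComplex (((a : ℂ) * z + b) / d))‖ := by
    intro z
    have h := congrArg norm (hkey z)
    rw [norm_mul, norm_discriminant_eq, norm_discriminant_eq,
      im_ofComplex_affine hN0 one_ne_zero, im_ofComplex_affine ha0 hd0] at h
    have hsplit : Real.exp (-(2 * π * ((N : ℝ) - a / d) * z.im)) =
        Real.exp (-2 * π * ((N : ℝ) / (1 : ℕ) * z.im)) * Real.exp (2 * π * ((a : ℝ) / d * z.im)) := by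
      rw [← Real.exp_add]
      congr 1
      push_cast
      ring
    have hinv : Real.exp (2 * π * ((a : ℝ) / d * z.im)) * Real.exp (-2 * π * ((a : ℝ) / d * z.im))
        = 1 := by
      rw [← Real.exp_add]
      simp
    have hnd : ‖((d : ℂ) ^ 12)⁻¹‖ = ((d : ℝ) ^ 12)⁻¹ := by
      simp
    rw [hnd] at h
    rw [hsplit]
    calc Real.exp (-2 * π * ((N : ℝ) / (1 : ℕ) * z.im)) * Real.exp (2 * π * ((a : ℝ) / d * z.im)) *
          ‖prodFactor (ofComplex (((N : ℂ) * z + (0 : ℕ)) / (1 : ℕ)))‖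
        = Real.exp (2 * π * ((a : ℝ) / d * z.im)) *
          (Real.exp (-2 * π * ((N : ℝ) / (1 : ℕ) * z.im)) *
          ‖prodFactor (ofComplex (((N : ℂ) * z + (0 : ℕ)) / (1 : ℕ)))‖) := by ring
      _ = Real.exp (2 * π * ((a : ℝ) / d * z.im)) * (((d : ℝ) ^ 12)⁻¹ *
          (Real.exp (-2 * π * ((a : ℝ) / d * z.im)) *
          ‖prodFactor (ofComplex (((a : ℂ) * z + b) / d))‖)) := by rw [h]
      _ = (Real.exp (2 * π * ((a : ℝ) / d * z.im)) * Real.exp (-2 * π * ((a : ℝ) / d * z.im))) *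
          (((d : ℝ) ^ 12)⁻¹ * ‖prodFactor (ofComplex (((a : ℂ) * z + b) / d))‖) := by ring
      _ = ((d : ℝ) ^ 12)⁻¹ * ‖prodFactor (ofComplex (((a : ℂ) * z + b) / d))‖ := by
          rw [hinv, one_mul]
  have hL : Tendsto (fun z : ℍ => Real.exp (-(2 * π * ((N : ℝ) - a / d) * z.im)) *
      ‖prodFactor (ofComplex (((N : ℂ) * z + (0 : ℕ)) / (1 : ℕ)))‖) atImInfty (𝓝 (0 * ‖(1 : ℂ)‖)) :=
    (tendsto_exp_neg_mul_im hc).mul ((tendsto_prodFactor.comp t₁).norm)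
  have hR : Tendsto (fun z : ℍ => ((d : ℝ) ^ 12)⁻¹ *
      ‖prodFactor (ofComplex (((a : ℂ) * z + b) / d))‖) atImInfty
      (𝓝 (((d : ℝ) ^ 12)⁻¹ * ‖(1 : ℂ)‖)) :=
    ((tendsto_prodFactor.comp t₂).norm).const_mul _
  have hLR := tendsto_nhds_unique (hL.congr hnorm) hR
  rw [norm_one, zero_mul, mul_one] at hLR
  have : ((d : ℝ) ^ 12)⁻¹ ≠ 0 := by positivity
  exact this hLR.symm

/-- `Δ(N z) ∣ γ = Δ(N z)` exactly when `γ ∈ Γ₀(N)`. -/
theorem deltaN_slash_eq_iff (N : ℕ) [NeZero N] (γ : SL(2, ℤ)) :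
    deltaN N ∣[(12 : ℤ)] γ = deltaN N ↔ γ ∈ Gamma0 N :=
  ⟨fun h => by_contra fun hγ => deltaN_slash_ne N γ hγ h, fun h => deltaN_slash_of_mem N h⟩

/-- Translates of `Δ(N z)` by elements in different right cosets of `Γ₀(N)` are different. -/
theorem deltaN_slash_ne_slash (N : ℕ) [NeZero N] (γ₁ γ₂ : SL(2, ℤ))
    (h : γ₁ * γ₂⁻¹ ∉ Gamma0 N) :
    deltaN N ∣[(12 : ℤ)] γ₁ ≠ deltaN N ∣[(12 : ℤ)] γ₂ := by
  intro heq
  apply deltaN_slash_ne N _ h
  rw [SlashAction.slash_mul, heq, ← SlashAction.slash_mul, mul_inv_cancel, SlashAction.slash_one]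

/-! ## Holomorphy and vanishing at the cusps -/

theorem mdifferentiable_deltaN (N : ℕ) [NeZero N] : MDiff (deltaN N) := by
  rw [UpperHalfPlane.mdifferentiable_iff]
  have hΔ : DifferentiableOn ℂ (Δ ∘ ofComplex) {z | 0 < z.im} :=
    (UpperHalfPlane.mdifferentiable_iff).mp CuspForm.discriminant.holo'
  have hN0 : (0 : ℝ) < N := Nat.cast_pos.mpr (Nat.pos_of_ne_zero (NeZero.ne N))
  have hmaps : Set.MapsTo (fun w : ℂ => (N : ℂ) * w) {z | 0 < z.im} {z | 0 < z.im} := by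
    intro w hw
    simp only [Set.mem_ofPred_eq] at hw ⊢
    have : ((N : ℂ) * w).im = N * w.im := by simp
    rw [this]
    positivity
  have hmap : DifferentiableOn ℂ (fun w : ℂ => (N : ℂ) * w) {z | 0 < z.im} :=
    (differentiable_id.const_mul _).differentiableOn
  refine (hΔ.comp hmap hmaps).congr ?_
  intro w hw
  simp only [Set.mem_ofPred_eq] at hw
  simp [deltaN, ofComplex_apply_of_im_pos hw]

/-- Every `SL(2, ℤ)`-translate of `Δ(N z)` vanishes at `i∞`. -/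
theorem isZeroAtImInfty_deltaN_slash (N : ℕ) [NeZero N] (γ : SL(2, ℤ)) :
    IsZeroAtImInfty (deltaN N ∣[(12 : ℤ)] γ) := by
  obtain ⟨a, b, d, had, hbd, hd1, hform⟩ := deltaN_slash N γ
  have hN0 : N ≠ 0 := NeZero.ne N
  have ha0 : a ≠ 0 := by rintro rfl; simp at had; exact hN0 had.symm
  have hd0 : d ≠ 0 := by rintro rfl; simp at had; exact hN0 had.symm
  have h0 : Tendsto Δ atImInfty (𝓝 0) := discriminant_isZeroAtImInfty
  have h := (h0.comp (tendsto_ofComplex_affine ha0 hd0 b)).const_mul (((d : ℂ) ^ 12)⁻¹)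
  rw [mul_zero] at h
  exact h.congr (fun z => (hform z).symm)

/-- `Δ(N z)` as a cusp form of weight 12 and level `Γ₀(N)`. -/
noncomputable def deltaNForm (N : ℕ) [NeZero N] :
    CuspForm ((Gamma0 N).map (Matrix.SpecialLinearGroup.mapGL ℝ)) 12 where
  toFun := deltaN N
  slash_action_eq' A hA := by
    obtain ⟨γ, hγ, rfl⟩ := hA
    exact deltaN_slash_of_mem N hγ
  holo' := mdifferentiable_deltaN N
  zero_at_cusps' hc := by
    rw [Subgroup.IsArithmetic.isCusp_iff_isCusp_SL2Z] at hc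
    rw [OnePoint.isZeroAt_iff_forall_SL2Z hc]
    intro γ _
    exact isZeroAtImInfty_deltaN_slash N γ

@[simp] lemma coe_deltaNForm (N : ℕ) [NeZero N] : (deltaNForm N : ℍ → ℂ) = deltaN N := rfl

/-- `Δ(N z)` is the function of a cusp form of weight 12 on `Γ₀(N)`. -/
theorem exists_cuspForm_eq_deltaN (N : ℕ) [NeZero N] :
    ∃ G : CuspForm ((Gamma0 N).map (Matrix.SpecialLinearGroup.mapGL ℝ)) 12,
      (G : ℍ → ℂ) = deltaN N :=
  ⟨deltaNForm N, rfl⟩

theorem deltaN_ne_zero (N : ℕ) [NeZero N] (z : ℍ) : deltaN N z ≠ 0 :=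
  discriminant_ne_zero _

/-! ## Non-vanishing of the "different" -/

theorem mdifferentiable_deltaN_slash (N : ℕ) [NeZero N] (γ : SL(2, ℤ)) :
    MDiff (deltaN N ∣[(12 : ℤ)] γ) :=
  (mdifferentiable_deltaN N).slash 12 (Matrix.SpecialLinearGroup.mapGL ℝ γ)

/-- A finite product of differences `Δ(N z) - Δ(N z) ∣ γ i` with all `γ i ∉ Γ₀(N)` is not
identically zero. -/
theorem prod_deltaN_sub_slash_ne_zero (N : ℕ) [NeZero N] {ι : Type*} (s : Finset ι)
    (γ : ι → SL(2, ℤ)) (hγ : ∀ i ∈ s, γ i ∉ Gamma0 N) :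
    ∏ i ∈ s, (deltaN N - deltaN N ∣[(12 : ℤ)] γ i) ≠ 0 := by
  intro h
  rw [UpperHalfPlane.prod_eq_zero_iff
    (fun i _ => (mdifferentiable_deltaN N).sub (mdifferentiable_deltaN_slash N (γ i)))] at h
  obtain ⟨i, hi, h0⟩ := h
  exact deltaN_slash_ne N (γ i) (hγ i hi) (sub_eq_zero.mp h0).symm

/-- Pointwise form of `prod_deltaN_sub_slash_ne_zero`. -/
theorem exists_prod_deltaN_sub_slash_ne_zero (N : ℕ) [NeZero N] {ι : Type*} (s : Finset ι)
    (γ : ι → SL(2, ℤ)) (hγ : ∀ i ∈ s, γ i ∉ Gamma0 N) :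
    ∃ z : ℍ, ∏ i ∈ s, (deltaN N z - (deltaN N ∣[(12 : ℤ)] γ i) z) ≠ 0 := by
  by_contra hcon
  push Not at hcon
  apply prod_deltaN_sub_slash_ne_zero N s γ hγ
  ext z
  simpa [Finset.prod_apply] using hcon z

end Fermat.Agent.Lib.DeltaLevelN
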