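import Mathlib
import Fermat.Agent.Lib.DeltaLevelN

set_option autoImplicit false

open UpperHalfPlane ModularForm CongruenceSubgroup
open Fermat.Agent.Lib.DeltaSlash Fermat.Agent.Lib.DeltaLevelN
open scoped MatrixGroups ModularForm Manifold

namespace Fermat.Agent.Lib.ConjSeparate

variable (N : ℕ) [NeZero N]

/-- The conjugate of `Δ(N z)` attached to a left coset `g Γ₀(N)`: `Δ(N·) ∣ g⁻¹`. -/
noncomputable def conjFun (q : SL(2, ℤ) ⧸ Gamma0 N) : ℍ → ℂ :=
  deltaN N ∣[(12 : ℤ)] (q.out)⁻¹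

lemma mdiff_conjFun (q : SL(2, ℤ) ⧸ Gamma0 N) : MDiff (conjFun N q) :=
  mdifferentiable_deltaN_slash N _

lemma slash_eq_conjFun (γ : SL(2, ℤ)) :
    deltaN N ∣[(12 : ℤ)] γ = conjFun N (QuotientGroup.mk γ⁻¹) := by
  obtain ⟨h, hh⟩ := QuotientGroup.mk_out_eq_mul (Gamma0 N) γ⁻¹
  unfold conjFun
  rw [hh, mul_inv_rev, inv_inv, SlashAction.slash_mul,
    deltaN_slash_of_mem N (inv_mem h.2)]

lemma conjFun_injective : Function.Injective (conjFun N) := by
  intro q q' h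
  by_contra hne
  refine deltaN_slash_ne_slash N (q.out)⁻¹ (q'.out)⁻¹ ?_ h
  intro hmem
  apply hne
  rw [inv_inv] at hmem
  have := QuotientGroup.eq.mpr hmem
  rwa [QuotientGroup.out_eq', QuotientGroup.out_eq'] at this

/-- **Generic separation**: there is a point of `ℍ` at which the conjugates of `Δ(N z)`
attached to distinct cosets take distinct values. -/
theorem exists_generic : ∃ z : ℍ, ∀ γ γ' : SL(2, ℤ),
    (deltaN N ∣[(12 : ℤ)] γ) z = (deltaN N ∣[(12 : ℤ)] γ') z → γ * γ'⁻¹ ∈ Gamma0 N := by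
  classical
  have : Finite (SL(2, ℤ) ⧸ Gamma0 N) := Subgroup.finite_quotient_of_finiteIndex
  let := Fintype.ofFinite (SL(2, ℤ) ⧸ Gamma0 N)
  set s : Finset ((SL(2, ℤ) ⧸ Gamma0 N) × (SL(2, ℤ) ⧸ Gamma0 N)) :=
    Finset.univ.filter (fun p => p.1 ≠ p.2) with hs
  have hne : ∏ p ∈ s, (conjFun N p.1 - conjFun N p.2) ≠ 0 := by
    intro h
    rw [UpperHalfPlane.prod_eq_zero_iff
      (fun p _ => (mdiff_conjFun N p.1).sub (mdiff_conjFun N p.2))] at h
    obtain ⟨p, hp, h0⟩ := h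
    have hp' : p.1 ≠ p.2 := by simpa [hs] using hp
    exact hp' (conjFun_injective N (sub_eq_zero.mp h0))
  obtain ⟨z, hz⟩ : ∃ z : ℍ, (∏ p ∈ s, (conjFun N p.1 - conjFun N p.2)) z ≠ 0 := by
    by_contra hcon
    push Not at hcon
    exact hne (funext hcon)
  refine ⟨z, fun γ γ' h => ?_⟩
  rw [slash_eq_conjFun, slash_eq_conjFun] at h
  by_contra hmem
  have hq : (QuotientGroup.mk γ⁻¹ : SL(2, ℤ) ⧸ Gamma0 N) ≠ QuotientGroup.mk γ'⁻¹ := by
    intro he
    apply hmem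
    have := QuotientGroup.eq.mp he
    simpa using this
  apply hz
  rw [Finset.prod_apply]
  refine Finset.prod_eq_zero (i := (QuotientGroup.mk γ⁻¹, QuotientGroup.mk γ'⁻¹)) ?_ ?_
  · simp [hs, hq]
  · simp [h]

/-- The index type of Mathlib's norm/trace construction for `Γ₀(N) ⊆ SL(2, ℤ)`. -/
abbrev Q : Type :=
  𝒮ℒ ⧸ (((Gamma0 N).map (Matrix.SpecialLinearGroup.mapGL ℝ)).subgroupOf 𝒮ℒ)

/-- Generic separation in the language of `SlashInvariantForm.quotientFunc`. -/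
theorem exists_injective_quotientFunc :
    ∃ z : ℍ, Function.Injective
      (fun q : Q N => SlashInvariantForm.quotientFunc (deltaNForm N) q z) := by
  obtain ⟨z, hz⟩ := exists_generic N
  refine ⟨z, fun q q' h => ?_⟩
  induction q using Quotient.inductionOn with
  | h r =>
  induction q' using Quotient.inductionOn with
  | h r' =>
  obtain ⟨_, γ, rfl⟩ := r
  obtain ⟨_, γ', rfl⟩ := r'
  have e : ∀ δ : SL(2, ℤ), deltaN N ∣[(12 : ℤ)] δ⁻¹ =
      deltaN N ∣[(12 : ℤ)] ((Matrix.SpecialLinearGroup.mapGL ℝ δ)⁻¹) := fun δ => by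
    rw [← map_inv]; rfl
  have h1 : (deltaN N ∣[(12 : ℤ)] γ⁻¹) z = (deltaN N ∣[(12 : ℤ)] γ'⁻¹) z := by
    rw [e, e]; exact h
  have h2 := hz _ _ h1
  rw [inv_inv] at h2
  refine QuotientGroup.eq.mpr ?_
  rw [Subgroup.mem_subgroupOf]
  refine ⟨γ⁻¹ * γ', h2, ?_⟩
  simp

/-- Vandermonde form: at a generic point the matrix `((Δ(N·) ∣ q⁻¹)(z) ^ j)` is invertible. -/
theorem exists_vandermonde_ne_zero :
    ∃ z : ℍ, ∀ (n : ℕ) (e : Fin n ≃ Q N),
      (Matrix.vandermonde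
        (fun i : Fin n => SlashInvariantForm.quotientFunc (deltaNForm N) (e i) z)).det ≠ 0 := by
  obtain ⟨z, hz⟩ := exists_injective_quotientFunc N
  exact ⟨z, fun n e => Matrix.det_vandermonde_ne_zero_iff.mpr (hz.comp e.injective)⟩

end Fermat.Agent.Lib.ConjSeparate
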