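import Mathlib
import Fermat.Prelude.Def_AlgebraicCurve_Correspondence

/-!
# Correspondences commute with intertwining semilinear automorphisms (helper94)

Prelude vocabulary throughout (`AlgebraicCurve.SemilinearAut`, `SemilinearAut.IntertwinesAlong`,
`Place.restrict`, `Divisor.pullback`, `Divisor.pushforward`, `Divisor.correspondence`,
`Pic0.correspondence`).  `K` is any field, `F`, `F'` are any fields over `K`; no hypothesis on the
extension besides the integrality the Prelude needs.

If `g` (on `F`) and `g'` (on `F'`) are semilinear automorphisms with `g' (ι x) = ι (g x)`, then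
restriction of places, ramification indices, inertia degrees, pull-back and push-forward of
divisors are all equivariant; hence a correspondence `ψ_* ∘ φ^*` commutes with `(g, g')` as soon
as `g, g'` are intertwined along both `φ` and `ψ`.
-/

set_option autoImplicit false
set_option linter.unusedSectionVars false
set_option linter.style.haveILetI false

noncomputable section

namespace Fermat.Agent.Lib.CorrSemilinear

open AlgebraicCurve
open scoped Pointwise

section Restrict

variable {K F F' : Type*} [Field K] [Field F] [Field F'] [Algebra K F] [Algebra K F']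
  [Algebra F F'] [IsScalarTower K F F'] [Algebra.IsIntegral F F']
variable {g : SemilinearAut K F} {g' : SemilinearAut K F'}

/-- Restriction of places is equivariant. -/
theorem restrict_smul (h : SemilinearAut.IntertwinesAlong (algebraMap F F') g g')
    (w : Place K F') : (g' • w).restrict F = g • (w.restrict F) := by
  apply Place.ext
  ext f
  rw [Place.restrict_toValuationSubring, ValuationSubring.mem_comap,
    SemilinearAut.smul_toValuationSubring, SemilinearAut.smul_toValuationSubring,
    ValuationSubring.mem_pointwise_smul_iff_inv_smul_mem,
    ValuationSubring.mem_pointwise_smul_iff_inv_smul_mem, Place.restrict_toValuationSubring,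
    ValuationSubring.mem_comap, h.inv f]

omit [IsScalarTower K F F'] [Algebra.IsIntegral F F'] in
/-- Ramification indices are invariant. -/
theorem ramificationIndex_smul (h : SemilinearAut.IntertwinesAlong (algebraMap F F') g g')
    (w : Place K F') : (g' • w).ramificationIndex F = w.ramificationIndex F := by
  unfold Place.ramificationIndex
  congr 1
  ext n
  simp only [Set.mem_ofPred_eq]
  refine and_congr Iff.rfl ⟨?_, ?_⟩
  · rintro ⟨f, hf, hn⟩
    refine ⟨g⁻¹ • f, by simpa using hf, ?_⟩
    rw [← SemilinearAut.ord_smul g' w, h, smul_inv_smul]
    exact hn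
  · rintro ⟨f, hf, hn⟩
    refine ⟨g • f, by simpa using hf, ?_⟩
    rw [← h, SemilinearAut.ord_smul]
    exact hn

/-- The ring isomorphism between the valuation rings of `w|_F` and `(g' • w)|_F`. -/
def restrictSMulEquiv (h : SemilinearAut.IntertwinesAlong (algebraMap F F') g g')
    (w : Place K F') :
    (w.restrict F).toValuationSubring ≃+* ((g' • w).restrict F).toValuationSubring where
  toFun a := ⟨g • (a : F), by
    rw [Place.restrict_toValuationSubring, ValuationSubring.mem_comap, ← h,
      SemilinearAut.smul_toValuationSubring]
    exact ValuationSubring.smul_mem_pointwise_smul g' _ _ a.2⟩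
  invFun b := ⟨g⁻¹ • (b : F), by
    have hb : algebraMap F F' (b : F) ∈ (g' • w).toValuationSubring := b.2
    rw [SemilinearAut.smul_toValuationSubring,
      ValuationSubring.mem_pointwise_smul_iff_inv_smul_mem, h.inv] at hb
    exact hb⟩
  left_inv a := Subtype.ext (inv_smul_smul g (a : F))
  right_inv b := Subtype.ext (smul_inv_smul g (b : F))
  map_mul' a b := Subtype.ext (smul_mul' g (a : F) (b : F))
  map_add' a b := Subtype.ext (smul_add g (a : F) (b : F))

@[simp]
theorem coe_restrictSMulEquiv (h : SemilinearAut.IntertwinesAlong (algebraMap F F') g g')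
    (w : Place K F') (a : (w.restrict F).toValuationSubring) :
    ((restrictSMulEquiv h w a : ((g' • w).restrict F).toValuationSubring) : F) = g • (a : F) :=
  rfl

/-- Inertia degrees are invariant. -/
theorem inertiaDeg_smul (h : SemilinearAut.IntertwinesAlong (algebraMap F F') g g')
    (w : Place K F') : (g' • w).inertiaDeg F = w.inertiaDeg F := by
  symm
  refine Algebra.finrank_eq_of_equiv_equiv
    (IsLocalRing.ResidueField.mapEquiv (restrictSMulEquiv h w))
    (SemilinearAut.smulResidueRingEquiv g' w) ?_
  refine Ideal.Quotient.ringHom_ext (RingHom.ext fun a => ?_)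
  show algebraMap ((g' • w).restrict F).ResidueField (g' • w).ResidueField
      (IsLocalRing.ResidueField.mapEquiv (restrictSMulEquiv h w) (IsLocalRing.residue _ a)) =
    SemilinearAut.smulResidueRingEquiv g' w
      (algebraMap (w.restrict F).ResidueField w.ResidueField (IsLocalRing.residue _ a))
  rw [IsLocalRing.ResidueField.mapEquiv_apply, IsLocalRing.ResidueField.map_residue,
    Place.algebraMap_residueField_eq, Place.algebraMap_residueField_eq,
    Place.restrictResidueMap_residue, Place.restrictResidueMap_residue]
  show IsLocalRing.residue _ _ =
    IsLocalRing.ResidueField.mapEquiv _ (IsLocalRing.residue _ _)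
  rw [IsLocalRing.ResidueField.mapEquiv_apply, IsLocalRing.ResidueField.map_residue]
  refine congrArg _ (Subtype.ext ?_)
  show algebraMap F F' (g • (a : F)) = g' • algebraMap F F' (a : F)
  exact (h _).symm

/-- Push-forward of divisors is equivariant. -/
theorem smul_pushforward (h : SemilinearAut.IntertwinesAlong (algebraMap F F') g g')
    (E : Divisor K F') :
    g • Divisor.pushforward F E = Divisor.pushforward F (g' • E) := by
  induction E using Finsupp.induction with
  | zero => simp
  | single_add w n E _ _ ih =>
    rw [map_add, smul_add, smul_add, map_add, ih, Divisor.pushforward_single,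
      SemilinearAut.smul_single, SemilinearAut.smul_single, Divisor.pushforward_single,
      restrict_smul h, inertiaDeg_smul h]

/-- Pull-back of divisors is equivariant. -/
theorem smul_pullback [HasPrincipalDivisors K F']
    (h : SemilinearAut.IntertwinesAlong (algebraMap F F') g g') (D : Divisor K F) :
    g' • Divisor.pullback F' D = Divisor.pullback F' (g • D) := by
  ext w
  rw [SemilinearAut.divisor_smul_apply, Divisor.pullback_apply, Divisor.pullback_apply,
    restrict_smul h.inv, ramificationIndex_smul h.inv, SemilinearAut.divisor_smul_apply]

end Restrict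

section Along

variable {K F F' : Type*} [Field K] [Field F] [Field F'] [Algebra K F] [Algebra K F']
variable (φ ψ : F →ₐ[K] F') (hφ : φ.toRingHom.IsIntegral) (hψ : ψ.toRingHom.IsIntegral)
variable {g : SemilinearAut K F} {g' : SemilinearAut K F'}

theorem restrictAlong_smul (h : SemilinearAut.IntertwinesAlong (φ : F →+* F') g g')
    (w : Place K F') : (g' • w).restrictAlong φ hφ = g • w.restrictAlong φ hφ := by
  letI := algebraAlong φ
  haveI := isScalarTower_along φ
  haveI := isIntegral_along φ hφ
  exact restrict_smul h w

theorem ramificationIndexAlong_smul (h : SemilinearAut.IntertwinesAlong (φ : F →+* F') g g')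
    (w : Place K F') :
    (g' • w).ramificationIndexAlong φ = w.ramificationIndexAlong φ := by
  letI := algebraAlong φ
  exact ramificationIndex_smul h w

theorem inertiaDegAlong_smul (h : SemilinearAut.IntertwinesAlong (φ : F →+* F') g g')
    (w : Place K F') :
    (g' • w).inertiaDegAlong φ hφ = w.inertiaDegAlong φ hφ := by
  letI := algebraAlong φ
  haveI := isScalarTower_along φ
  haveI := isIntegral_along φ hφ
  exact inertiaDeg_smul h w

theorem smul_pushforwardAlong (h : SemilinearAut.IntertwinesAlong (ψ : F →+* F') g g')
    (E : Divisor K F') :
    g • Divisor.pushforwardAlong ψ hψ E = Divisor.pushforwardAlong ψ hψ (g' • E) := by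
  letI := algebraAlong ψ
  haveI := isScalarTower_along ψ
  haveI := isIntegral_along ψ hψ
  exact smul_pushforward h E

variable [HasPrincipalDivisors K F']

theorem smul_pullbackAlong (h : SemilinearAut.IntertwinesAlong (φ : F →+* F') g g')
    (D : Divisor K F) :
    g' • Divisor.pullbackAlong φ hφ D = Divisor.pullbackAlong φ hφ (g • D) := by
  letI := algebraAlong φ
  haveI := isScalarTower_along φ
  haveI := isIntegral_along φ hφ
  exact smul_pullback h D

/-- A correspondence commutes with semilinear automorphisms intertwined along both maps. -/
theorem smul_correspondence (h₁ : SemilinearAut.IntertwinesAlong (φ : F →+* F') g g')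
    (h₂ : SemilinearAut.IntertwinesAlong (ψ : F →+* F') g g') (D : Divisor K F) :
    g • Divisor.correspondence φ ψ hφ hψ D = Divisor.correspondence φ ψ hφ hψ (g • D) := by
  rw [Divisor.correspondence_apply, Divisor.correspondence_apply,
    smul_pushforwardAlong ψ hψ h₂, smul_pullbackAlong φ hφ h₁]

/-- The correspondence on `Pic⁰` commutes with semilinear automorphisms intertwined along both
maps. -/
theorem smul_pic0_correspondence (hFI : FundamentalIdentityAlong K φ hφ)
    (hfin : FiniteAlong K ψ) (hN : NormFormulaAlong K ψ hfin)
    (h₁ : SemilinearAut.IntertwinesAlong (φ : F →+* F') g g')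
    (h₂ : SemilinearAut.IntertwinesAlong (ψ : F →+* F') g g') (x : Pic0 K F) :
    g • Pic0.correspondence φ ψ hφ hψ hFI hfin hN x =
      Pic0.correspondence φ ψ hφ hψ hFI hfin hN (g • x) := by
  obtain ⟨D, rfl⟩ := Pic0.mk_surjective x
  rw [Pic0.correspondence_mk, SemilinearAut.pic0_smul_mk, SemilinearAut.pic0_smul_mk,
    Pic0.correspondence_mk]
  refine congrArg Pic0.mk (Subtype.ext ?_)
  rw [SemilinearAut.coe_degZeroSMulHom, Pic0.coe_degZeroCorrespondence,
    Pic0.coe_degZeroCorrespondence, SemilinearAut.coe_degZeroSMulHom]
  exact smul_correspondence φ ψ hφ hψ h₁ h₂ _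

end Along

end Fermat.Agent.Lib.CorrSemilinear
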