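import Mathlib

set_option autoImplicit false

namespace Fermat.Agent.Lib.CrossingHom

open UpperHalfPlane CongruenceSubgroup
open scoped MatrixGroups

noncomputable section

/-! ### The real part of `g • z` -/

/-- The numerator of `Re (g • z)`. -/
def qnum (g : SL(2, ℤ)) (z : ℍ) : ℝ :=
  ((g 0 0 : ℝ) * z.re + g 0 1) * ((g 1 0 : ℝ) * z.re + g 1 1)
    + (g 0 0 : ℝ) * (g 1 0 : ℝ) * z.im ^ 2

theorem normSq_denom_pos' (g : SL(2, ℤ)) (z : ℍ) :
    0 < Complex.normSq (((g 1 0 : ℤ) : ℂ) * (z : ℂ) + ((g 1 1 : ℤ) : ℂ)) := by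
  have h := UpperHalfPlane.denom_ne_zero (g : GL (Fin 2) ℝ) z
  rw [Complex.normSq_pos]
  simpa [UpperHalfPlane.denom] using h

theorem re_smul_eq (g : SL(2, ℤ)) (z : ℍ) :
    (g • z).re = qnum g z / Complex.normSq (((g 1 0 : ℤ) : ℂ) * (z : ℂ) + ((g 1 1 : ℤ) : ℂ)) := by
  have h := UpperHalfPlane.coe_specialLinearGroup_apply g z
  have h2 : (g • z).re = ((g • z : ℍ) : ℂ).re := rfl
  rw [h2, h, Complex.div_re]
  simp only [algebraMap_int_eq, eq_intCast, Complex.ofReal_intCast, Complex.add_re, Complex.mul_re,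
    Complex.intCast_re, Complex.intCast_im, Complex.add_im, Complex.mul_im, zero_mul, sub_zero,
    add_zero, UpperHalfPlane.coe_re, UpperHalfPlane.coe_im, qnum]
  rw [← add_div]
  congr 1
  ring

theorem re_smul_pos_iff (g : SL(2, ℤ)) (z : ℍ) : 0 < (g • z).re ↔ 0 < qnum g z := by
  rw [re_smul_eq, div_pos_iff_of_pos_right (normSq_denom_pos' g z)]

theorem re_smul_neg_iff (g : SL(2, ℤ)) (z : ℍ) : (g • z).re < 0 ↔ qnum g z < 0 := by
  rw [re_smul_eq, div_lt_iff₀ (normSq_denom_pos' g z), zero_mul]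

/-! ### The core estimate -/

theorem core_bound {a b c d : ℤ} (hdet : a * d - b * c = 1) (hc : c ≠ 0) (ha : a ≠ 0)
    {x y : ℝ} (hy : 0 < y)
    (h : ((a : ℝ) * c) * (((a : ℝ) * x + b) * ((c : ℝ) * x + d) + (a : ℝ) * c * y ^ 2) ≤ 0) :
    ((a : ℝ) * c) ^ 2 * y ^ 2 ≤ 1 / 4 ∧ |(a : ℝ) * x + b| < 1 ∧ |(c : ℝ) * x + d| < 1 := by
  have hdetR : (a : ℝ) * d - b * c = 1 := by exact_mod_cast hdet
  have hcR : (1 : ℝ) ≤ |(c : ℝ)| := by
    have : (1 : ℤ) ≤ |c| := Int.one_le_abs hc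
    exact_mod_cast this
  have haR : (1 : ℝ) ≤ |(a : ℝ)| := by
    have : (1 : ℤ) ≤ |a| := Int.one_le_abs ha
    exact_mod_cast this
  set A : ℝ := (c : ℝ) * ((a : ℝ) * x + b) with hA
  set B : ℝ := (a : ℝ) * ((c : ℝ) * x + d) with hB
  have hBA : B = A + 1 := by rw [hA, hB]; linarith
  have hac : 0 < ((a : ℝ) * c) ^ 2 * y ^ 2 := by
    have h1 : (a : ℝ) * c ≠ 0 := mul_ne_zero (by exact_mod_cast ha) (by exact_mod_cast hc)
    positivity
  have hAB : A * B + ((a : ℝ) * c) ^ 2 * y ^ 2 ≤ 0 := by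
    have : A * B + ((a : ℝ) * c) ^ 2 * y ^ 2
        = ((a : ℝ) * c) * (((a : ℝ) * x + b) * ((c : ℝ) * x + d) + (a : ℝ) * c * y ^ 2) := by
      rw [hA, hB]; ring
    rw [this]; exact h
  have hAneg : A * (A + 1) < 0 := by rw [← hBA]; linarith
  have hA1 : -1 < A := by nlinarith
  have hA0 : A < 0 := by nlinarith
  refine ⟨by nlinarith [sq_nonneg (A + 1 / 2)], ?_, ?_⟩
  · have h1 : |A| < 1 := by rw [abs_lt]; constructor <;> linarith
    have h2 : |A| = |(c : ℝ)| * |(a : ℝ) * x + b| := by rw [hA, abs_mul]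
    have h3 : |(a : ℝ) * x + b| ≤ |(c : ℝ)| * |(a : ℝ) * x + b| :=
      le_mul_of_one_le_left (abs_nonneg _) hcR
    linarith
  · have h1 : |B| < 1 := by rw [abs_lt, hBA]; constructor <;> linarith
    have h2 : |B| = |(a : ℝ)| * |(c : ℝ) * x + d| := by rw [hB, abs_mul]
    have h3 : |(c : ℝ) * x + d| ≤ |(a : ℝ)| * |(c : ℝ) * x + d| :=
      le_mul_of_one_le_left (abs_nonneg _) haR
    linarith

/-! ### Matrix entries of elements of `Γ₀(N)` -/

theorem det_eq (g : SL(2, ℤ)) : g 0 0 * g 1 1 - g 0 1 * g 1 0 = 1 := by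
  have h := g.det_coe
  rw [Matrix.det_fin_two] at h
  exact h

theorem dvd_of_mem {N : ℕ} {g : SL(2, ℤ)} (hg : g ∈ Gamma0 N) : (N : ℤ) ∣ g 1 0 := by
  rw [Gamma0_mem] at hg
  exact (ZMod.intCast_zmod_eq_zero_iff_dvd _ _).mp hg

theorem a_ne_zero {N : ℕ} (hN : 2 ≤ N) {g : SL(2, ℤ)} (hg : g ∈ Gamma0 N) : g 0 0 ≠ 0 := by
  intro h0
  have hdet := det_eq g
  rw [h0, zero_mul, zero_sub] at hdet
  obtain ⟨k, hk⟩ := dvd_of_mem hg
  have h1 : (N : ℤ) ∣ 1 := ⟨-(g 0 1 * k), by linear_combination (-1 : ℤ) * hdet - (g 0 1) * hk⟩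
  have h2 : (N : ℤ) ≤ 1 := Int.le_of_dvd one_pos h1
  omega

/-! ### The crossing terms -/

/-- Indicator of the right half plane. -/
def ind (z : ℍ) : ℤ := if 0 < z.re then 1 else 0

/-- Indicator of the left half plane. -/
def indNeg (z : ℍ) : ℤ := if z.re < 0 then 1 else 0

variable (N : ℕ)

/-- The crossing term attached to `g`. -/
def term (z w : ℍ) (g : Gamma0 N) : ℤ :=
  ind ((g : SL(2, ℤ)) • w) - ind ((g : SL(2, ℤ)) • z)

/-- The crossing term attached to `g`, left half plane version. -/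
def termNeg (z w : ℍ) (g : Gamma0 N) : ℤ :=
  indNeg ((g : SL(2, ℤ)) • w) - indNeg ((g : SL(2, ℤ)) • z)

variable {N}

theorem sign_change_of_term_ne_zero {z w : ℍ} {g : Gamma0 N} (h : term N z w g ≠ 0) :
    (qnum g z ≤ 0 ∧ 0 < qnum g w) ∨ (qnum g w ≤ 0 ∧ 0 < qnum g z) := by
  by_cases h1 : 0 < qnum (g : SL(2, ℤ)) w <;> by_cases h2 : 0 < qnum (g : SL(2, ℤ)) z
  · exfalso; apply h
    simp only [term, ind]
    rw [if_pos ((re_smul_pos_iff _ _).mpr h1), if_pos ((re_smul_pos_iff _ _).mpr h2)]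
    rfl
  · exact Or.inl ⟨not_lt.mp h2, h1⟩
  · exact Or.inr ⟨not_lt.mp h1, h2⟩
  · exfalso; apply h
    simp only [term, ind]
    rw [if_neg (mt (re_smul_pos_iff _ _).mp h1), if_neg (mt (re_smul_pos_iff _ _).mp h2)]
    rfl

theorem exists_inside {z w : ℍ} {g : Gamma0 N} (h : term N z w g ≠ 0)
    (ha : (g : SL(2, ℤ)) 0 0 ≠ 0) (hc : (g : SL(2, ℤ)) 1 0 ≠ 0) :
    ∃ v : ℍ, (v = z ∨ v = w) ∧
      (((g : SL(2, ℤ)) 0 0 : ℝ) * ((g : SL(2, ℤ)) 1 0 : ℝ)) * qnum g v ≤ 0 := by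
  have hac : (((g : SL(2, ℤ)) 0 0 : ℝ) * ((g : SL(2, ℤ)) 1 0 : ℝ)) ≠ 0 :=
    mul_ne_zero (by exact_mod_cast ha) (by exact_mod_cast hc)
  rcases lt_or_gt_of_ne hac with hneg | hpos
  · rcases sign_change_of_term_ne_zero h with ⟨_, h2⟩ | ⟨_, h2⟩
    · exact ⟨w, Or.inr rfl, (mul_neg_of_neg_of_pos hneg h2).le⟩
    · exact ⟨z, Or.inl rfl, (mul_neg_of_neg_of_pos hneg h2).le⟩
  · rcases sign_change_of_term_ne_zero h with ⟨h1, _⟩ | ⟨h1, _⟩
    · exact ⟨z, Or.inl rfl, mul_nonpos_of_nonneg_of_nonpos hpos.le h1⟩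
    · exact ⟨w, Or.inr rfl, mul_nonpos_of_nonneg_of_nonpos hpos.le h1⟩

/-- Entries of `g` with `c ≠ 0` and a point inside the closed half disc are bounded. -/
theorem entries_of_inside {g : SL(2, ℤ)} (ha : g 0 0 ≠ 0) (hc : g 1 0 ≠ 0) {v : ℍ}
    (h : ((g 0 0 : ℝ) * (g 1 0 : ℝ)) * qnum g v ≤ 0) :
    |(g 0 0 : ℝ)| * (2 * v.im) ≤ 1 ∧ |(g 1 0 : ℝ)| * (2 * v.im) ≤ 1 ∧
      |(g 0 1 : ℝ)| < |(g 0 0 : ℝ)| * |v.re| + 1 ∧ |(g 1 1 : ℝ)| < |(g 1 0 : ℝ)| * |v.re| + 1 := by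
  have hdet := det_eq g
  have hdet' : g 0 0 * g 1 1 - g 0 1 * g 1 0 = 1 := hdet
  obtain ⟨h1, h2, h3⟩ := core_bound (a := g 0 0) (b := g 0 1) (c := g 1 0) (d := g 1 1)
    hdet' hc ha v.im_pos h
  have hcR : (1 : ℝ) ≤ |(g 1 0 : ℝ)| := by
    have : (1 : ℤ) ≤ |g 1 0| := Int.one_le_abs hc
    exact_mod_cast this
  have haR : (1 : ℝ) ≤ |(g 0 0 : ℝ)| := by
    have : (1 : ℤ) ≤ |g 0 0| := Int.one_le_abs ha
    exact_mod_cast this
  have hy := v.im_pos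
  have key : (|(g 0 0 : ℝ)| * |(g 1 0 : ℝ)| * (2 * v.im)) ^ 2 ≤ 1 := by
    have : (|(g 0 0 : ℝ)| * |(g 1 0 : ℝ)| * (2 * v.im)) ^ 2
        = 4 * (((g 0 0 : ℝ) * (g 1 0 : ℝ)) ^ 2 * v.im ^ 2) := by
      rw [mul_pow, mul_pow, mul_pow, sq_abs, sq_abs]; ring
    rw [this]; linarith
  have key2 : |(g 0 0 : ℝ)| * |(g 1 0 : ℝ)| * (2 * v.im) ≤ 1 := by
    have hnn : 0 ≤ |(g 0 0 : ℝ)| * |(g 1 0 : ℝ)| * (2 * v.im) := by positivity
    nlinarith
  refine ⟨?_, ?_, ?_, ?_⟩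
  · have : |(g 0 0 : ℝ)| * (2 * v.im) ≤ |(g 0 0 : ℝ)| * |(g 1 0 : ℝ)| * (2 * v.im) := by
      have h5 : 0 ≤ |(g 0 0 : ℝ)| * (2 * v.im) := by positivity
      nlinarith
    linarith
  · have : |(g 1 0 : ℝ)| * (2 * v.im) ≤ |(g 0 0 : ℝ)| * |(g 1 0 : ℝ)| * (2 * v.im) := by
      have h5 : 0 ≤ |(g 1 0 : ℝ)| * (2 * v.im) := by positivity
      nlinarith
    linarith
  · have h4 : |(g 0 1 : ℝ)| ≤ |(g 0 0 : ℝ) * v.re + g 0 1| + |(g 0 0 : ℝ) * v.re| := by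
      have := abs_add_le ((g 0 0 : ℝ) * v.re + g 0 1) (-((g 0 0 : ℝ) * v.re))
      rw [abs_neg] at this
      simpa using this
    rw [abs_mul] at h4
    linarith
  · have h4 : |(g 1 1 : ℝ)| ≤ |(g 1 0 : ℝ) * v.re + g 1 1| + |(g 1 0 : ℝ) * v.re| := by
      have := abs_add_le ((g 1 0 : ℝ) * v.re + g 1 1) (-((g 1 0 : ℝ) * v.re))
      rw [abs_neg] at this
      simpa using this
    rw [abs_mul] at h4
    linarith

/-! ### Finiteness -/

theorem forall_entries {P : Fin 2 → Fin 2 → Prop} (h00 : P 0 0) (h01 : P 0 1) (h10 : P 1 0)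
    (h11 : P 1 1) : ∀ i j, P i j := by
  intro i j
  fin_cases i <;> fin_cases j <;> assumption

theorem finite_bounded (R : ℕ) : {g : SL(2, ℤ) | ∀ i j, |g i j| ≤ (R : ℤ)}.Finite := by
  have hS : (Set.pi Set.univ (fun _ : Fin 2 => Set.pi Set.univ
      (fun _ : Fin 2 => Set.Icc (-(R : ℤ)) R))).Finite :=
    Set.Finite.pi (fun _ => Set.Finite.pi (fun _ => Set.finite_Icc _ _))
  refine (hS.preimage (f := fun g : SL(2, ℤ) => (g : Matrix (Fin 2) (Fin 2) ℤ))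
    Subtype.val_injective.injOn).subset ?_
  intro g hg
  exact Set.mem_preimage.mpr (Set.mem_pi.mpr fun i _ => Set.mem_pi.mpr fun j _ =>
    Set.mem_Icc.mpr (abs_le.mp (hg i j)))

theorem exists_real_bound (hN : 2 ≤ N) (z w : ℍ) :
    ∃ R : ℝ, ∀ g : Gamma0 N, term N z w g ≠ 0 →
      ∀ i j, |(((g : SL(2, ℤ)) i j : ℤ) : ℝ)| ≤ R := by
  set y0 := min z.im w.im with hy0
  have hy0pos : 0 < y0 := lt_min z.im_pos w.im_pos
  set X := max |z.re| |w.re| with hX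
  have hX0 : 0 ≤ X := le_trans (abs_nonneg _) (le_max_left _ _)
  set K := 1 / (2 * y0) with hK
  have hKpos : 0 < K := by positivity
  have hKX : 0 ≤ K * X := mul_nonneg hKpos.le hX0
  refine ⟨K * X + K + X + 1, fun g hg => ?_⟩
  have hv : ∀ v : ℍ, v = z ∨ v = w → y0 ≤ v.im ∧ |v.re| ≤ X := by
    rintro v (rfl | rfl)
    · exact ⟨min_le_left _ _, le_max_left _ _⟩
    · exact ⟨min_le_right _ _, le_max_right _ _⟩
  by_cases hc : (g : SL(2, ℤ)) 1 0 = 0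
  · have hdet := det_eq (g : SL(2, ℤ))
    rw [hc, mul_zero, sub_zero] at hdet
    have hQ : ∀ v : ℍ, qnum g v =
        (((g : SL(2, ℤ)) 0 0 : ℝ) * v.re + (g : SL(2, ℤ)) 0 1) * ((g : SL(2, ℤ)) 1 1 : ℝ) := by
      intro v
      unfold qnum
      rw [hc]
      push_cast
      ring
    have hz := abs_le.mp (hv z (Or.inl rfl)).2
    have hw := abs_le.mp (hv w (Or.inr rfl)).2
    have hb : |(((g : SL(2, ℤ)) 0 1 : ℤ) : ℝ)| ≤ X := by
      rw [abs_le]
      rcases Int.eq_one_or_neg_one_of_mul_eq_one' hdet with ⟨ha, hd⟩ | ⟨ha, hd⟩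
      · rcases sign_change_of_term_ne_zero hg with ⟨h1, h2⟩ | ⟨h1, h2⟩
        · rw [hQ, ha, hd] at h1 h2
          push_cast at h1 h2
          constructor <;> linarith
        · rw [hQ, ha, hd] at h1 h2
          push_cast at h1 h2
          constructor <;> linarith
      · rcases sign_change_of_term_ne_zero hg with ⟨h1, h2⟩ | ⟨h1, h2⟩
        · rw [hQ, ha, hd] at h1 h2
          push_cast at h1 h2
          constructor <;> linarith
        · rw [hQ, ha, hd] at h1 h2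
          push_cast at h1 h2
          constructor <;> linarith
    have ha1 : |(((g : SL(2, ℤ)) 0 0 : ℤ) : ℝ)| = 1 := by
      rcases Int.eq_one_or_neg_one_of_mul_eq_one' hdet with ⟨ha, hd⟩ | ⟨ha, hd⟩ <;> rw [ha] <;> simp
    have hd1 : |(((g : SL(2, ℤ)) 1 1 : ℤ) : ℝ)| = 1 := by
      rcases Int.eq_one_or_neg_one_of_mul_eq_one' hdet with ⟨ha, hd⟩ | ⟨ha, hd⟩ <;> rw [hd] <;> simp
    refine forall_entries ?_ ?_ ?_ ?_
    · rw [ha1]; linarith
    · linarith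
    · rw [hc]; simp; linarith
    · rw [hd1]; linarith
  · have ha := a_ne_zero hN g.2
    obtain ⟨v, hvzw, hin⟩ := exists_inside hg ha hc
    obtain ⟨h1, h2, h3, h4⟩ := entries_of_inside ha hc hin
    obtain ⟨hvy, hvx⟩ := hv v hvzw
    have hK2 : ∀ t : ℝ, 0 ≤ t → t * (2 * v.im) ≤ 1 → t ≤ K := by
      intro t ht0 ht
      rw [hK, le_div_iff₀ (by positivity)]
      nlinarith
    have hA := hK2 _ (abs_nonneg _) h1
    have hC := hK2 _ (abs_nonneg _) h2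
    have hAx : |(((g : SL(2, ℤ)) 0 0 : ℤ) : ℝ)| * |v.re| ≤ K * X :=
      mul_le_mul hA hvx (abs_nonneg _) hKpos.le
    have hCx : |(((g : SL(2, ℤ)) 1 0 : ℤ) : ℝ)| * |v.re| ≤ K * X :=
      mul_le_mul hC hvx (abs_nonneg _) hKpos.le
    refine forall_entries ?_ ?_ ?_ ?_ <;> linarith

theorem term_finite (hN : 2 ≤ N) (z w : ℍ) : (Function.support (term N z w)).Finite := by
  obtain ⟨R, hR⟩ := exists_real_bound hN z w
  have hfin := (finite_bounded ⌈R⌉₊).preimage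
    (f := fun g : Gamma0 N => (g : SL(2, ℤ))) Subtype.val_injective.injOn
  refine hfin.subset fun g hg => ?_
  show ∀ i j, |(g : SL(2, ℤ)) i j| ≤ ((⌈R⌉₊ : ℕ) : ℤ)
  intro i j
  have h1 := hR g hg i j
  have h2 : |(((g : SL(2, ℤ)) i j : ℤ) : ℝ)| ≤ (⌈R⌉₊ : ℝ) := h1.trans (Nat.le_ceil R)
  have h3 : ((|(g : SL(2, ℤ)) i j| : ℤ) : ℝ) ≤ ((⌈R⌉₊ : ℤ) : ℝ) := by
    rw [Int.cast_abs]; exact_mod_cast h2
  exact_mod_cast h3

/-! ### The crossing number -/

variable (N) in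
/-- Twice the crossing number of the pair `(z, w)` with the `Γ₀(N)`-orbit of the geodesic
from `0` to `∞`. -/
def cross (z w : ℍ) : ℤ := ∑ᶠ g : Gamma0 N, term N z w g

theorem cross_add (hN : 2 ≤ N) (z w v : ℍ) : cross N z w + cross N w v = cross N z v := by
  unfold cross
  rw [← finsum_add_distrib (term_finite hN z w) (term_finite hN w v)]
  refine finsum_congr fun g => ?_
  unfold term
  ring

theorem cross_self (z : ℍ) : cross N z z = 0 := by
  unfold cross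
  refine finsum_eq_zero_of_forall_eq_zero fun g => ?_
  unfold term
  ring

theorem cross_smul (γ : Gamma0 N) (z w : ℍ) :
    cross N ((γ : SL(2, ℤ)) • z) ((γ : SL(2, ℤ)) • w) = cross N z w := by
  unfold cross
  have h : ∀ g : Gamma0 N, term N ((γ : SL(2, ℤ)) • z) ((γ : SL(2, ℤ)) • w) g
      = term N z w (Equiv.mulRight γ g) := by
    intro g
    unfold term
    rw [Equiv.coe_mulRight, Subgroup.coe_mul, mul_smul, mul_smul]
  rw [finsum_congr h]
  exact finsum_comp_equiv (Equiv.mulRight γ) (f := term N z w)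

theorem cross_base (hN : 2 ≤ N) (γ : Gamma0 N) (z z' : ℍ) :
    cross N z ((γ : SL(2, ℤ)) • z) = cross N z' ((γ : SL(2, ℤ)) • z') := by
  have h1 := cross_add hN z' z ((γ : SL(2, ℤ)) • z)
  have h2 := cross_add hN z' ((γ : SL(2, ℤ)) • z') ((γ : SL(2, ℤ)) • z)
  have h3 := cross_smul γ z' z
  linarith

/-! ### Evenness -/

variable (N) in
/-- The element `-1` of `Γ₀(N)`. -/
def negOne : Gamma0 N := ⟨-1, by rw [Gamma0_mem]; simp⟩

theorem coe_negOne_mul (g : Gamma0 N) :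
    ((negOne N * g : Gamma0 N) : SL(2, ℤ)) = -(g : SL(2, ℤ)) := by
  rw [Subgroup.coe_mul]
  show (-1 : SL(2, ℤ)) * (g : SL(2, ℤ)) = -(g : SL(2, ℤ))
  rw [neg_mul, one_mul]

theorem term_negOne_mul (z w : ℍ) (g : Gamma0 N) :
    term N z w (negOne N * g) = term N z w g := by
  unfold term
  rw [coe_negOne_mul, ModularGroup.SL_neg_smul, ModularGroup.SL_neg_smul]

theorem negOne_mul_ne (g : Gamma0 N) : negOne N * g ≠ g := by
  intro h
  have h1 := congrArg (fun x : Gamma0 N => (x : SL(2, ℤ)) 0 0) h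
  have h2 := congrArg (fun x : Gamma0 N => (x : SL(2, ℤ)) 0 1) h
  have h3 := congrArg (fun x : Gamma0 N => (x : SL(2, ℤ)) 1 0) h
  simp only [coe_negOne_mul, Matrix.SpecialLinearGroup.coe_neg, Matrix.neg_apply] at h1 h2 h3
  have hdet := det_eq (g : SL(2, ℤ))
  have ha : (g : SL(2, ℤ)) 0 0 = 0 := by omega
  have hb : (g : SL(2, ℤ)) 0 1 = 0 := by omega
  rw [ha, hb] at hdet
  simp at hdet

theorem negOne_mul_negOne_mul (g : Gamma0 N) : negOne N * (negOne N * g) = g := by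
  apply Subtype.ext
  rw [coe_negOne_mul, coe_negOne_mul, neg_neg]

theorem cross_even (hN : 2 ≤ N) (z w : ℍ) : (2 : ℤ) ∣ cross N z w := by
  classical
  have hfin := term_finite hN z w
  unfold cross
  rw [finsum_eq_sum_of_support_subset (s := hfin.toFinset) _ (by simp)]
  have key : ((∑ g ∈ hfin.toFinset, term N z w g : ℤ) : ZMod 2) = 0 := by
    push_cast
    refine Finset.sum_involution (fun g _ => negOne N * g) ?_ ?_ ?_ ?_
    · intro g _
      rw [term_negOne_mul]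
      exact CharTwo.add_self_eq_zero _
    · intro g _ _
      exact negOne_mul_ne g
    · intro g hg
      rw [Set.Finite.mem_toFinset, Function.mem_support] at hg ⊢
      rwa [term_negOne_mul]
    · intro g _
      exact negOne_mul_negOne_mul g
  exact_mod_cast (ZMod.intCast_zmod_eq_zero_iff_dvd _ 2).mp key

/-! ### The homomorphism -/

/-- A base point lying on no `SL(2, ℤ)`-translate of the imaginary axis. -/
def zstar : ℍ := ⟨⟨Real.sqrt 2, 1⟩, by simp⟩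

variable (N) in
/-- Twice the crossing homomorphism. -/
def psi (γ : Gamma0 N) : ℤ := cross N zstar ((γ : SL(2, ℤ)) • zstar)

theorem psi_mul (hN : 2 ≤ N) (γ δ : Gamma0 N) : psi N (γ * δ) = psi N γ + psi N δ := by
  unfold psi
  rw [Subgroup.coe_mul, mul_smul,
    ← cross_add hN zstar ((γ : SL(2, ℤ)) • zstar) ((γ : SL(2, ℤ)) • (δ : SL(2, ℤ)) • zstar),
    cross_smul]

theorem psi_one : psi N 1 = 0 := by
  unfold psi
  rw [OneMemClass.coe_one, one_smul, cross_self]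

theorem psi_even (hN : 2 ≤ N) (γ : Gamma0 N) : (2 : ℤ) ∣ psi N γ := cross_even hN _ _

variable (N) in
/-- The crossing homomorphism. -/
def crossHom (hN : 2 ≤ N) : Additive (Gamma0 N) →+ ℤ where
  toFun γ := psi N (Additive.toMul γ) / 2
  map_zero' := by
    show psi N 1 / 2 = 0
    rw [psi_one]; rfl
  map_add' γ δ := by
    show psi N (Additive.toMul γ * Additive.toMul δ) / 2 = _
    rw [psi_mul hN, Int.add_ediv_of_dvd_left (psi_even hN _)]

theorem crossHom_apply (hN : 2 ≤ N) (γ : Gamma0 N) :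
    crossHom N hN (Additive.ofMul γ) = psi N γ / 2 := rfl

/-! ### The value at `T` -/

/-- A base point for the computation of the value at `T`. -/
def zT : ℍ := ⟨⟨-1 / 2, 2⟩, by norm_num⟩

theorem zT_re : zT.re = -1 / 2 := rfl

theorem zT_im : zT.im = 2 := rfl

theorem T_zT_re : (ModularGroup.T • zT).re = 1 / 2 := by
  rw [UpperHalfPlane.modular_T_smul, UpperHalfPlane.vadd_re, zT_re]; norm_num

theorem T_zT_im : (ModularGroup.T • zT).im = 2 := by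
  rw [UpperHalfPlane.modular_T_smul, UpperHalfPlane.vadd_im, zT_im]

theorem eq_one_of_entries {g : Gamma0 N} (ha : (g : SL(2, ℤ)) 0 0 = 1)
    (hb : (g : SL(2, ℤ)) 0 1 = 0) (hc : (g : SL(2, ℤ)) 1 0 = 0) (hd : (g : SL(2, ℤ)) 1 1 = 1) :
    g = 1 := by
  apply Subtype.ext
  ext i j
  fin_cases i <;> fin_cases j <;> simp [ha, hb, hc, hd]

theorem eq_negOne_of_entries {g : Gamma0 N} (ha : (g : SL(2, ℤ)) 0 0 = -1)
    (hb : (g : SL(2, ℤ)) 0 1 = 0) (hc : (g : SL(2, ℤ)) 1 0 = 0) (hd : (g : SL(2, ℤ)) 1 1 = -1) :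
    g = negOne N := by
  apply Subtype.ext
  show (g : SL(2, ℤ)) = -1
  ext i j
  fin_cases i <;> fin_cases j <;> simp [ha, hb, hc, hd]

theorem int_eq_zero_of_real {b : ℤ} (h1 : -1 < (b : ℝ)) (h2 : (b : ℝ) < 1) : b = 0 := by
  have h3 : (-1 : ℤ) < b := by exact_mod_cast h1
  have h4 : b < (1 : ℤ) := by exact_mod_cast h2
  omega

theorem term_T_eq_zero (hN : 2 ≤ N) (g : Gamma0 N) (hg1 : g ≠ 1) (hg2 : g ≠ negOne N) :
    term N zT (ModularGroup.T • zT) g = 0 := by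
  by_contra h
  by_cases hc : (g : SL(2, ℤ)) 1 0 = 0
  · have hdet := det_eq (g : SL(2, ℤ))
    rw [hc, mul_zero, sub_zero] at hdet
    have hQ : ∀ v : ℍ, qnum g v =
        (((g : SL(2, ℤ)) 0 0 : ℝ) * v.re + (g : SL(2, ℤ)) 0 1) * ((g : SL(2, ℤ)) 1 1 : ℝ) := by
      intro v
      unfold qnum
      rw [hc]
      push_cast
      ring
    rcases Int.eq_one_or_neg_one_of_mul_eq_one' hdet with ⟨ha, hd⟩ | ⟨ha, hd⟩
    · have hb : (g : SL(2, ℤ)) 0 1 ≠ 0 := fun hb => hg1 (eq_one_of_entries ha hb hc hd)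
      rcases sign_change_of_term_ne_zero h with ⟨h1, h2⟩ | ⟨h1, h2⟩
      · rw [hQ, ha, hd, zT_re] at h1
        rw [hQ, ha, hd, T_zT_re] at h2
        push_cast at h1 h2
        exact hb (int_eq_zero_of_real (by linarith) (by linarith))
      · rw [hQ, ha, hd, T_zT_re] at h1
        rw [hQ, ha, hd, zT_re] at h2
        push_cast at h1 h2
        linarith
    · have hb : (g : SL(2, ℤ)) 0 1 ≠ 0 := fun hb => hg2 (eq_negOne_of_entries ha hb hc hd)
      rcases sign_change_of_term_ne_zero h with ⟨h1, h2⟩ | ⟨h1, h2⟩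
      · rw [hQ, ha, hd, zT_re] at h1
        rw [hQ, ha, hd, T_zT_re] at h2
        push_cast at h1 h2
        exact hb (int_eq_zero_of_real (by linarith) (by linarith))
      · rw [hQ, ha, hd, T_zT_re] at h1
        rw [hQ, ha, hd, zT_re] at h2
        push_cast at h1 h2
        linarith
  · have ha := a_ne_zero hN g.2
    obtain ⟨v, hvzw, hin⟩ := exists_inside h ha hc
    obtain ⟨h1, -, -, -⟩ := entries_of_inside ha hc hin
    have hvim : v.im = 2 := by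
      rcases hvzw with rfl | rfl
      · exact zT_im
      · exact T_zT_im
    have haR : (1 : ℝ) ≤ |(((g : SL(2, ℤ)) 0 0 : ℤ) : ℝ)| := by
      have : (1 : ℤ) ≤ |(g : SL(2, ℤ)) 0 0| := Int.one_le_abs ha
      exact_mod_cast this
    rw [hvim] at h1
    linarith

theorem cross_T (hN : 2 ≤ N) : cross N zT (ModularGroup.T • zT) = 2 := by
  classical
  unfold cross
  have hne : (1 : Gamma0 N) ≠ negOne N := fun h =>
    negOne_mul_ne (1 : Gamma0 N) (by rw [mul_one]; exact h.symm)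
  have h1 : term N zT (ModularGroup.T • zT) 1 = 1 := by
    unfold term ind
    rw [OneMemClass.coe_one, one_smul, one_smul, T_zT_re, zT_re, if_pos (by norm_num),
      if_neg (by norm_num)]
    rfl
  have h2 : term N zT (ModularGroup.T • zT) (negOne N) = 1 := by
    have h3 := term_negOne_mul zT (ModularGroup.T • zT) (1 : Gamma0 N)
    rw [mul_one] at h3
    rw [h3, h1]
  rw [finsum_eq_sum_of_support_subset (s := {1, negOne N}), Finset.sum_pair hne, h1, h2]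
  · rfl
  · intro g hg
    simp only [Finset.coe_insert, Finset.coe_singleton, Set.mem_insert_iff,
      Set.mem_singleton_iff]
    by_contra hcon
    rw [not_or] at hcon
    exact hg (term_T_eq_zero hN g hcon.1 hcon.2)

theorem crossHom_T (hN : 2 ≤ N) (t : Gamma0 N) (ht : (t : SL(2, ℤ)) = ModularGroup.T) :
    crossHom N hN (Additive.ofMul t) = 1 := by
  rw [crossHom_apply]
  unfold psi
  rw [cross_base hN t zstar zT, ht, cross_T hN]
  rfl

/-! ### The Fricke involution -/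

theorem normSq_fricke_pos (hN : 2 ≤ N) (z : ℍ) :
    0 < Complex.normSq ((N : ℂ) * (z : ℂ)) := by
  rw [Complex.normSq_pos]
  exact mul_ne_zero (by exact_mod_cast (by omega : N ≠ 0)) z.ne_zero

theorem fricke_aux_im (N : ℕ) (z : ℍ) :
    (-1 / ((N : ℂ) * (z : ℂ))).im = (N : ℝ) * z.im / Complex.normSq ((N : ℂ) * (z : ℂ)) := by
  rw [Complex.div_im]
  simp
  ring

theorem fricke_aux_re (N : ℕ) (z : ℍ) :
    (-1 / ((N : ℂ) * (z : ℂ))).re
      = -((N : ℝ) * z.re) / Complex.normSq ((N : ℂ) * (z : ℂ)) := by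
  rw [Complex.div_re]
  simp

variable (N) in
/-- The Fricke involution `z ↦ -1/(N z)` of the upper half plane. -/
def frickePt (hN : 2 ≤ N) (z : ℍ) : ℍ :=
  ⟨-1 / ((N : ℂ) * (z : ℂ)), by
    rw [fricke_aux_im]
    have hNpos : (0 : ℝ) < N := by exact_mod_cast (by omega : 0 < N)
    exact div_pos (mul_pos hNpos z.im_pos) (normSq_fricke_pos hN z)⟩

theorem coe_frickePt (hN : 2 ≤ N) (z : ℍ) :
    ((frickePt N hN z : ℍ) : ℂ) = -1 / ((N : ℂ) * (z : ℂ)) := rfl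

theorem frickePt_re (hN : 2 ≤ N) (z : ℍ) :
    (frickePt N hN z).re = -((N : ℝ) * z.re) / Complex.normSq ((N : ℂ) * (z : ℂ)) :=
  fricke_aux_re N z

theorem frickePt_re_pos_iff (hN : 2 ≤ N) (z : ℍ) : 0 < (frickePt N hN z).re ↔ z.re < 0 := by
  have hNpos : (0 : ℝ) < N := by exact_mod_cast (by omega : 0 < N)
  rw [frickePt_re, div_pos_iff_of_pos_right (normSq_fricke_pos hN z)]
  constructor
  · intro h; nlinarith
  · intro h; nlinarith

theorem frickePt_re_ne_zero (hN : 2 ≤ N) {z : ℍ} (hz : z.re ≠ 0) : (frickePt N hN z).re ≠ 0 := by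
  have hNpos : (0 : ℝ) < N := by exact_mod_cast (by omega : 0 < N)
  rw [frickePt_re]
  exact div_ne_zero (neg_ne_zero.mpr (mul_ne_zero hNpos.ne' hz)) (normSq_fricke_pos hN z).ne'

theorem ind_frickePt (hN : 2 ≤ N) (z : ℍ) : ind (frickePt N hN z) = indNeg z := by
  unfold ind indNeg
  by_cases h : z.re < 0
  · rw [if_pos ((frickePt_re_pos_iff hN z).mpr h), if_pos h]
  · rw [if_neg (mt (frickePt_re_pos_iff hN z).mp h), if_neg h]

theorem frickePt_frickePt (hN : 2 ≤ N) (z : ℍ) : frickePt N hN (frickePt N hN z) = z := by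
  apply UpperHalfPlane.ext
  rw [coe_frickePt, coe_frickePt]
  have hz : (z : ℂ) ≠ 0 := z.ne_zero
  have hNC : (N : ℂ) ≠ 0 := by exact_mod_cast (by omega : N ≠ 0)
  field_simp

variable (N) in
/-- `γ' = W γ W⁻¹` in terms of matrix entries, `W = [0, -1; N, 0]`. -/
def IsFrickeConj (γ γ' : SL(2, ℤ)) : Prop :=
  γ' 0 0 = γ 1 1 ∧ (N : ℤ) * γ' 0 1 = -γ 1 0 ∧ γ' 1 0 = -(N : ℤ) * γ 0 1 ∧ γ' 1 1 = γ 0 0

theorem num_ne_zero (γ : SL(2, ℤ)) (z : ℍ) :
    ((γ 0 0 : ℤ) : ℂ) * (z : ℂ) + ((γ 0 1 : ℤ) : ℂ) ≠ 0 := by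
  intro h
  have h1 := UpperHalfPlane.coe_specialLinearGroup_apply γ z
  simp only [algebraMap_int_eq, eq_intCast, Complex.ofReal_intCast] at h1
  rw [h, zero_div] at h1
  exact (γ • z).ne_zero h1

theorem den_ne_zero (γ : SL(2, ℤ)) (z : ℍ) :
    ((γ 1 0 : ℤ) : ℂ) * (z : ℂ) + ((γ 1 1 : ℤ) : ℂ) ≠ 0 := by
  have h := UpperHalfPlane.denom_ne_zero (γ : GL (Fin 2) ℝ) z
  simpa [UpperHalfPlane.denom] using h

theorem smul_frickePt (hN : 2 ≤ N) {γ γ' : SL(2, ℤ)} (h : IsFrickeConj N γ γ') (z : ℍ) :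
    γ' • frickePt N hN z = frickePt N hN (γ • z) := by
  apply UpperHalfPlane.ext
  rw [UpperHalfPlane.coe_specialLinearGroup_apply, coe_frickePt, coe_frickePt,
    UpperHalfPlane.coe_specialLinearGroup_apply]
  simp only [algebraMap_int_eq, eq_intCast, Complex.ofReal_intCast]
  obtain ⟨h00, h01, h10, h11⟩ := h
  have hz : (z : ℂ) ≠ 0 := z.ne_zero
  have hNC : (N : ℂ) ≠ 0 := by exact_mod_cast (by omega : N ≠ 0)
  have hnum := num_ne_zero γ z
  have hden := den_ne_zero γ z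
  have h01C : (N : ℂ) * ((γ' 0 1 : ℤ) : ℂ) = -((γ 1 0 : ℤ) : ℂ) := by exact_mod_cast h01
  have hb : ((γ' 0 1 : ℤ) : ℂ) = -((γ 1 0 : ℤ) : ℂ) / (N : ℂ) := by
    rw [eq_div_iff hNC, mul_comm]; exact h01C
  rw [h00, h10, h11, hb]
  push_cast
  have hden' : -(N : ℂ) * ((γ 0 1 : ℤ) : ℂ) * (-1 / ((N : ℂ) * (z : ℂ))) + ((γ 0 0 : ℤ) : ℂ)
      = (((γ 0 0 : ℤ) : ℂ) * (z : ℂ) + ((γ 0 1 : ℤ) : ℂ)) / (z : ℂ) := by
    field_simp
    ring
  have hnum' : ((γ 1 1 : ℤ) : ℂ) * (-1 / ((N : ℂ) * (z : ℂ))) + -((γ 1 0 : ℤ) : ℂ) / (N : ℂ)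
      = -(((γ 1 0 : ℤ) : ℂ) * (z : ℂ) + ((γ 1 1 : ℤ) : ℂ)) / ((N : ℂ) * (z : ℂ)) := by
    field_simp
    ring
  rw [hden', hnum']
  field_simp

/-! ### Conjugation by the Fricke involution on `Γ₀(N)` -/

theorem fconj_det (hN : 2 ≤ N) (g : Gamma0 N) :
    Matrix.det !![(g : SL(2, ℤ)) 1 1, -((g : SL(2, ℤ)) 1 0 / (N : ℤ));
      -((N : ℤ) * (g : SL(2, ℤ)) 0 1), (g : SL(2, ℤ)) 0 0] = 1 := by
  rw [Matrix.det_fin_two_of]
  obtain ⟨k, hk⟩ := dvd_of_mem g.2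
  have hN0 : (N : ℤ) ≠ 0 := by exact_mod_cast (by omega : N ≠ 0)
  have hdiv : (g : SL(2, ℤ)) 1 0 / (N : ℤ) = k := by
    rw [hk, Int.mul_ediv_cancel_left _ hN0]
  rw [hdiv]
  have hdet := det_eq (g : SL(2, ℤ))
  linear_combination hdet + ((g : SL(2, ℤ)) 0 1) * hk

variable (N) in
/-- Conjugation by the Fricke involution: `[a, b; c, d] ↦ [d, -c/N; -N b, a]`. -/
def fconj (hN : 2 ≤ N) (g : Gamma0 N) : Gamma0 N :=
  ⟨⟨!![(g : SL(2, ℤ)) 1 1, -((g : SL(2, ℤ)) 1 0 / (N : ℤ));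
      -((N : ℤ) * (g : SL(2, ℤ)) 0 1), (g : SL(2, ℤ)) 0 0], fconj_det hN g⟩,
    Gamma0_mem.mpr (by
      show (((-((N : ℤ) * (g : SL(2, ℤ)) 0 1) : ℤ)) : ZMod N) = 0
      simp)⟩

theorem fconj_00 (hN : 2 ≤ N) (g : Gamma0 N) :
    (fconj N hN g : SL(2, ℤ)) 0 0 = (g : SL(2, ℤ)) 1 1 := rfl

theorem fconj_01 (hN : 2 ≤ N) (g : Gamma0 N) :
    (fconj N hN g : SL(2, ℤ)) 0 1 = -((g : SL(2, ℤ)) 1 0 / (N : ℤ)) := rfl

theorem fconj_10 (hN : 2 ≤ N) (g : Gamma0 N) :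
    (fconj N hN g : SL(2, ℤ)) 1 0 = -((N : ℤ) * (g : SL(2, ℤ)) 0 1) := rfl

theorem fconj_11 (hN : 2 ≤ N) (g : Gamma0 N) :
    (fconj N hN g : SL(2, ℤ)) 1 1 = (g : SL(2, ℤ)) 0 0 := rfl

theorem isFrickeConj_fconj (hN : 2 ≤ N) (g : Gamma0 N) :
    IsFrickeConj N (g : SL(2, ℤ)) (fconj N hN g : SL(2, ℤ)) := by
  refine ⟨fconj_00 hN g, ?_, ?_, fconj_11 hN g⟩
  · rw [fconj_01, mul_neg, Int.mul_ediv_cancel' (dvd_of_mem g.2)]
  · rw [fconj_10, neg_mul]

theorem fconj_fconj (hN : 2 ≤ N) (g : Gamma0 N) : fconj N hN (fconj N hN g) = g := by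
  have hN0 : (N : ℤ) ≠ 0 := by exact_mod_cast (by omega : N ≠ 0)
  apply Subtype.ext
  ext i j
  fin_cases i <;> fin_cases j
  · exact (fconj_00 hN _).trans (fconj_11 hN g)
  · show (fconj N hN (fconj N hN g) : SL(2, ℤ)) 0 1 = (g : SL(2, ℤ)) 0 1
    rw [fconj_01, fconj_10, ← mul_neg, Int.mul_ediv_cancel_left _ hN0, neg_neg]
  · show (fconj N hN (fconj N hN g) : SL(2, ℤ)) 1 0 = (g : SL(2, ℤ)) 1 0
    rw [fconj_10, fconj_01, mul_neg, neg_neg, Int.mul_ediv_cancel' (dvd_of_mem g.2)]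
  · exact (fconj_11 hN _).trans (fconj_00 hN g)

variable (N) in
/-- Conjugation by the Fricke involution as a permutation of `Γ₀(N)`. -/
def fconjEquiv (hN : 2 ≤ N) : Gamma0 N ≃ Gamma0 N :=
  ⟨fconj N hN, fconj N hN, fconj_fconj hN, fconj_fconj hN⟩

theorem isFrickeConj_fconj' (hN : 2 ≤ N) (g : Gamma0 N) :
    IsFrickeConj N (fconj N hN g : SL(2, ℤ)) (g : SL(2, ℤ)) := by
  have h := isFrickeConj_fconj hN (fconj N hN g)
  rwa [fconj_fconj] at h

theorem cross_fricke (hN : 2 ≤ N) (z w : ℍ) :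
    cross N (frickePt N hN z) (frickePt N hN w) = ∑ᶠ g : Gamma0 N, termNeg N z w g := by
  unfold cross
  have h : ∀ g : Gamma0 N, termNeg N z w g
      = term N (frickePt N hN z) (frickePt N hN w) (fconjEquiv N hN g) := by
    intro g
    unfold term termNeg
    rw [show ((fconjEquiv N hN g : Gamma0 N) : SL(2, ℤ)) = (fconj N hN g : SL(2, ℤ)) from rfl,
      smul_frickePt hN (isFrickeConj_fconj hN g), smul_frickePt hN (isFrickeConj_fconj hN g),
      ind_frickePt, ind_frickePt]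
  rw [finsum_congr h]
  exact (finsum_comp_equiv (fconjEquiv N hN)
    (f := term N (frickePt N hN z) (frickePt N hN w))).symm

/-! ### Generic points -/

variable (N) in
/-- A point lying on no `Γ₀(N)`-translate of the imaginary axis. -/
def Generic (z : ℍ) : Prop := ∀ g : Gamma0 N, ((g : SL(2, ℤ)) • z).re ≠ 0

theorem termNeg_eq {z w : ℍ} (hz : Generic N z) (hw : Generic N w) (g : Gamma0 N) :
    termNeg N z w g = -term N z w g := by
  have key : ∀ v : ℍ, v.re ≠ 0 → indNeg v = 1 - ind v := by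
    intro v hv
    unfold ind indNeg
    rcases lt_or_gt_of_ne hv with h | h
    · rw [if_pos h, if_neg (not_lt.mpr h.le)]; rfl
    · rw [if_neg (not_lt.mpr h.le), if_pos h]; rfl
  unfold term termNeg
  rw [key _ (hz g), key _ (hw g)]
  ring

theorem cross_fricke_generic (hN : 2 ≤ N) {z w : ℍ} (hz : Generic N z) (hw : Generic N w) :
    cross N (frickePt N hN z) (frickePt N hN w) = -cross N z w := by
  rw [cross_fricke, finsum_congr (termNeg_eq hz hw)]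
  unfold cross
  exact finsum_neg_distrib _

theorem generic_smul {z : ℍ} (hz : Generic N z) (γ : Gamma0 N) :
    Generic N ((γ : SL(2, ℤ)) • z) := by
  intro g
  rw [← mul_smul]
  exact hz (g * γ)

theorem generic_frickePt (hN : 2 ≤ N) {z : ℍ} (hz : Generic N z) :
    Generic N (frickePt N hN z) := by
  intro g
  rw [smul_frickePt hN (isFrickeConj_fconj' hN g)]
  exact frickePt_re_ne_zero hN (hz (fconj N hN g))

theorem zstar_re : zstar.re = Real.sqrt 2 := rfl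

theorem zstar_im : zstar.im = 1 := rfl

theorem generic_zstar (N : ℕ) : Generic N zstar := by
  intro g
  rw [re_smul_eq]
  refine div_ne_zero ?_ (normSq_denom_pos' _ _).ne'
  have hdet := det_eq (g : SL(2, ℤ))
  have hm : (g : SL(2, ℤ)) 0 0 * (g : SL(2, ℤ)) 1 1 + (g : SL(2, ℤ)) 0 1 * (g : SL(2, ℤ)) 1 0 ≠ 0 := by
    intro h0
    generalize (g : SL(2, ℤ)) 0 0 * (g : SL(2, ℤ)) 1 1 = u at hdet h0
    generalize (g : SL(2, ℤ)) 0 1 * (g : SL(2, ℤ)) 1 0 = v at hdet h0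
    omega
  have hirr := ((irrational_sqrt_two.intCast_mul hm).intCast_add
    (3 * ((g : SL(2, ℤ)) 0 0 * (g : SL(2, ℤ)) 1 0) + (g : SL(2, ℤ)) 0 1 * (g : SL(2, ℤ)) 1 1)).ne_zero
  have hsq : Real.sqrt 2 * Real.sqrt 2 = 2 := Real.mul_self_sqrt (by norm_num)
  have heq : qnum (g : SL(2, ℤ)) zstar
      = ((3 * ((g : SL(2, ℤ)) 0 0 * (g : SL(2, ℤ)) 1 0)
          + (g : SL(2, ℤ)) 0 1 * (g : SL(2, ℤ)) 1 1 : ℤ) : ℝ)
        + (((g : SL(2, ℤ)) 0 0 * (g : SL(2, ℤ)) 1 1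
          + (g : SL(2, ℤ)) 0 1 * (g : SL(2, ℤ)) 1 0 : ℤ) : ℝ) * Real.sqrt 2 := by
    unfold qnum
    rw [zstar_re, zstar_im]
    push_cast
    linear_combination (((g : SL(2, ℤ)) 0 0 : ℝ) * ((g : SL(2, ℤ)) 1 0 : ℝ)) * hsq
  rw [heq]
  exact hirr

/-! ### Oddness under the Fricke involution -/

theorem psi_fricke (hN : 2 ≤ N) {γ γ' : Gamma0 N}
    (h : IsFrickeConj N (γ : SL(2, ℤ)) (γ' : SL(2, ℤ))) : psi N γ' = -psi N γ := by
  unfold psi
  have hg1 : Generic N (frickePt N hN zstar) := generic_frickePt hN (generic_zstar N)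
  have h2 : (γ' : SL(2, ℤ)) • zstar
      = frickePt N hN ((γ : SL(2, ℤ)) • frickePt N hN zstar) := by
    rw [← smul_frickePt hN h, frickePt_frickePt]
  calc cross N zstar ((γ' : SL(2, ℤ)) • zstar)
      = cross N (frickePt N hN (frickePt N hN zstar))
          (frickePt N hN ((γ : SL(2, ℤ)) • frickePt N hN zstar)) := by
        rw [h2, frickePt_frickePt]
    _ = -cross N (frickePt N hN zstar) ((γ : SL(2, ℤ)) • frickePt N hN zstar) :=
        cross_fricke_generic hN hg1 (generic_smul hg1 γ)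
    _ = -cross N zstar ((γ : SL(2, ℤ)) • zstar) := by
        rw [cross_base hN γ (frickePt N hN zstar) zstar]

theorem crossHom_fricke (hN : 2 ≤ N) {γ γ' : Gamma0 N}
    (h : IsFrickeConj N (γ : SL(2, ℤ)) (γ' : SL(2, ℤ))) :
    crossHom N hN (Additive.ofMul γ') = -crossHom N hN (Additive.ofMul γ) := by
  rw [crossHom_apply, crossHom_apply, psi_fricke hN h]
  obtain ⟨k, hk⟩ := psi_even hN γ
  rw [hk, ← mul_neg, Int.mul_ediv_cancel_left _ two_ne_zero,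
    Int.mul_ediv_cancel_left _ two_ne_zero]

/-- **The crossing homomorphism.**  For `N ≥ 2` there is a homomorphism `Γ₀(N) → ℤ` taking the
value `1` at `T` and odd under conjugation by the Fricke involution
`[a, b; c, d] ↦ [d, -c/N; -N b, a]`. -/
theorem exists_crossing_hom (N : ℕ) (hN : 2 ≤ N) :
    ∃ φ₁ : Additive (Gamma0 N) →+ ℤ,
      (∀ t : Gamma0 N, (t : SL(2, ℤ)) = ModularGroup.T → φ₁ (Additive.ofMul t) = 1) ∧
      ∀ γ γ' : Gamma0 N,
        ((γ' : SL(2, ℤ)) 0 0 = (γ : SL(2, ℤ)) 1 1 ∧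
          (N : ℤ) * (γ' : SL(2, ℤ)) 0 1 = -(γ : SL(2, ℤ)) 1 0 ∧
          (γ' : SL(2, ℤ)) 1 0 = -(N : ℤ) * (γ : SL(2, ℤ)) 0 1 ∧
          (γ' : SL(2, ℤ)) 1 1 = (γ : SL(2, ℤ)) 0 0) →
        φ₁ (Additive.ofMul γ') = -φ₁ (Additive.ofMul γ) :=
  ⟨crossHom N hN, fun t ht => crossHom_T hN t ht, fun _ _ h => crossHom_fricke hN h⟩

theorem T_mem_Gamma0 (N : ℕ) : ModularGroup.T ∈ Gamma0 N := by
  rw [Gamma0_mem]
  simp [ModularGroup.T]

/-- **The crossing homomorphism, two-generator form.**  For `N ≥ 2` there is a homomorphism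
`Γ₀(N) → ℤ` taking the value `1` at `T = [1, 1; 0, 1]` and at `[1, 0; N, 1]`, the generators of
the stabilisers of the cusps `∞` and `0`. -/
theorem exists_crossing_hom_generators (N : ℕ) (hN : 2 ≤ N) :
    ∃ φ₁ : Additive (Gamma0 N) →+ ℤ,
      (∀ t : Gamma0 N, (t : SL(2, ℤ)) = ModularGroup.T → φ₁ (Additive.ofMul t) = 1) ∧
      ∀ u : Gamma0 N, (u : SL(2, ℤ)) 0 0 = 1 → (u : SL(2, ℤ)) 0 1 = 0 →
        (u : SL(2, ℤ)) 1 0 = (N : ℤ) → (u : SL(2, ℤ)) 1 1 = 1 → φ₁ (Additive.ofMul u) = 1 := by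
  obtain ⟨φ₁, hT, hW⟩ := exists_crossing_hom N hN
  refine ⟨φ₁, hT, fun u h00 h01 h10 h11 => ?_⟩
  set t : Gamma0 N := ⟨ModularGroup.T, T_mem_Gamma0 N⟩ with ht
  have hcoe : ((t⁻¹ : Gamma0 N) : SL(2, ℤ)) = ModularGroup.T⁻¹ := rfl
  have hTinv : ((ModularGroup.T⁻¹ : SL(2, ℤ)) : Matrix (Fin 2) (Fin 2) ℤ) = !![1, -1; 0, 1] :=
    ModularGroup.coe_T_inv
  have e00 : ((t⁻¹ : Gamma0 N) : SL(2, ℤ)) 0 0 = 1 := by rw [hcoe, hTinv]; rfl
  have e01 : ((t⁻¹ : Gamma0 N) : SL(2, ℤ)) 0 1 = -1 := by rw [hcoe, hTinv]; rfl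
  have e10 : ((t⁻¹ : Gamma0 N) : SL(2, ℤ)) 1 0 = 0 := by rw [hcoe, hTinv]; rfl
  have e11 : ((t⁻¹ : Gamma0 N) : SL(2, ℤ)) 1 1 = 1 := by rw [hcoe, hTinv]; rfl
  have h := hW t⁻¹ u ⟨by rw [h00, e11], by rw [h01, e10]; simp, by rw [h10, e01]; simp,
    by rw [h11, e00]⟩
  have h2 : φ₁ (Additive.ofMul t⁻¹) = -φ₁ (Additive.ofMul t) := by
    rw [ofMul_inv, map_neg]
  rw [h, h2, neg_neg]
  exact hT t rfl

end

end Fermat.Agent.Lib.CrossingHom
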