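import Mathlib
import Fermat.Prelude.Def_ModularCurve_X0
import Fermat.Prelude.Def_ModularCurve_LaurentCoeff

/-!
# Laurent expansions at the cusp `i∞`

For a period `h > 0` we consider functions `f : ℍ → ℂ` which are holomorphic, `h`-periodic and
have at most a pole of finite order at `i∞` (`IsMerCusp h f`).  They form a subring
`merCusp h` of `ℍ → ℂ`, and the expansion in `t = exp (2πiτ/h)` is an injective ring
homomorphism `laurent h : merCusp h →+* LaurentSeries ℂ`.
-/

set_option autoImplicit false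

namespace Fermat.Agent.Lib.CuspLaurent

open Filter Function Complex
open UpperHalfPlane hiding I
open scoped Manifold Topology Real

local notation "𝕢" => Periodic.qParam

/-! ## Holomorphic periodic functions bounded at `i∞` -/

/-- `f` is holomorphic on `ℍ`, `h`-periodic and bounded at `i∞`. -/
structure IsHolCusp (h : ℝ) (f : ℍ → ℂ) : Prop where
  holo : MDiff f
  per : Periodic (f ∘ ofComplex) h
  bdd : IsBoundedAtImInfty f

section HolCusp

variable {h : ℝ} {f g : ℍ → ℂ}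

lemma IsHolCusp.analyticAt (hh : 0 < h) (hf : IsHolCusp h f) :
    AnalyticAt ℂ (cuspFunction h f) 0 :=
  analyticAt_cuspFunction_zero hh hf.per hf.holo hf.bdd

lemma IsHolCusp.const (h : ℝ) (c : ℂ) : IsHolCusp h (fun _ : ℍ => c) where
  per := fun _ => rfl
  holo := fun _ => mdifferentiableAt_const
  bdd := Filter.const_boundedAtFilter _ c

lemma IsHolCusp.zero (h : ℝ) : IsHolCusp h (0 : ℍ → ℂ) := IsHolCusp.const h 0

lemma IsHolCusp.one (h : ℝ) : IsHolCusp h (1 : ℍ → ℂ) := IsHolCusp.const h 1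

lemma IsHolCusp.add (hf : IsHolCusp h f) (hg : IsHolCusp h g) : IsHolCusp h (f + g) where
  per := fun w => by
    have h1 := hf.per w
    have h2 := hg.per w
    simp only [Function.comp_apply, Pi.add_apply] at h1 h2 ⊢
    rw [h1, h2]
  holo := hf.holo.add hg.holo
  bdd := hf.bdd.add hg.bdd

lemma IsHolCusp.mul (hf : IsHolCusp h f) (hg : IsHolCusp h g) : IsHolCusp h (f * g) where
  per := fun w => by
    have h1 := hf.per w
    have h2 := hg.per w
    simp only [Function.comp_apply, Pi.mul_apply] at h1 h2 ⊢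
    rw [h1, h2]
  holo := hf.holo.mul hg.holo
  bdd := hf.bdd.mul hg.bdd

lemma IsHolCusp.neg (hf : IsHolCusp h f) : IsHolCusp h (-f) := by
  have : -f = (fun _ : ℍ => (-1 : ℂ)) * f := by ext z; simp
  rw [this]
  exact (IsHolCusp.const h _).mul hf

lemma IsHolCusp.sub (hf : IsHolCusp h f) (hg : IsHolCusp h g) : IsHolCusp h (f - g) := by
  rw [sub_eq_add_neg]
  exact hf.add hg.neg

lemma IsHolCusp.pow (hf : IsHolCusp h f) (n : ℕ) : IsHolCusp h (f ^ n) := by
  induction n with
  | zero => simpa using IsHolCusp.one h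
  | succ n ih => rw [pow_succ]; exact ih.mul hf

lemma qParam_add_period {h : ℝ} (hh : h ≠ 0) (w : ℂ) : 𝕢 h (w + h) = 𝕢 h w := by
  simp only [Periodic.qParam]
  have hh' : (h : ℂ) ≠ 0 := by exact_mod_cast hh
  rw [show 2 * (π : ℂ) * I * (w + (h : ℂ)) / (h : ℂ) = 2 * π * I * w / h + 2 * π * I by
    field_simp]
  rw [Complex.exp_add, Complex.exp_two_pi_mul_I, mul_one]

/-- The parameter `t = exp (2πiτ/h)` as a function on `ℍ`. -/
noncomputable def tParam (h : ℝ) : ℍ → ℂ := fun τ => 𝕢 h (τ : ℂ)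

lemma tParam_ne_zero (h : ℝ) (τ : ℍ) : tParam h τ ≠ 0 := Periodic.qParam_ne_zero _

lemma isHolCusp_tParam (hh : 0 < h) : IsHolCusp h (tParam h) where
  holo := by
    rw [UpperHalfPlane.mdifferentiable_iff]
    have : DifferentiableOn ℂ (𝕢 h) {z : ℂ | 0 < z.im} :=
      (Periodic.differentiable_qParam).differentiableOn
    refine this.congr fun z hz => ?_
    simp [tParam, Function.comp_apply, ofComplex_apply_of_im_pos hz]
  per := fun w => by
    simp only [Function.comp_apply, tParam]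
    by_cases hw : 0 < w.im
    · have hw' : 0 < (w + h).im := by simpa using hw
      rw [ofComplex_apply_of_im_pos hw, ofComplex_apply_of_im_pos hw']
      exact qParam_add_period hh.ne' w
    · have hw' : ¬ 0 < (w + h).im := by simpa using hw
      rw [ofComplex_apply_eq_of_im_nonpos (not_lt.mp hw') (not_lt.mp hw)]
  bdd := by
    have := (UpperHalfPlane.qParam_tendsto_atImInfty hh)
    exact this.isBigO_one ℝ

/-- Uniqueness of `q`-expansion coefficients, for plain functions. -/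
lemma qExpansion_coeff_unique' {c : ℕ → ℂ} (hh : 0 < h)
    (hfanalytic : AnalyticAt ℂ (cuspFunction h f) 0)
    (hf : ∀ τ : ℍ, HasSum (fun m ↦ c m • 𝕢 h τ ^ m) (f τ)) (m : ℕ) :
    c m = (qExpansion h f).coeff m := by
  have h1 := (hasFPowerSeriesOnBall_cuspFunction hh hfanalytic hf).hasFPowerSeriesAt
  have h2 : HasFPowerSeriesAt (cuspFunction h f)
      (.ofScalars ℂ fun m => (qExpansion h f).coeff m) 0 := by
    simpa [qExpansion_coeff, div_eq_mul_inv, mul_comm] using hfanalytic.hasFPowerSeriesAt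
  simpa [FormalMultilinearSeries.coeff_ofScalars] using
    congr_arg (FormalMultilinearSeries.coeff · m) (h1.eq_formalMultilinearSeries h2)

lemma qExpansion_tParam (hh : 0 < h) : qExpansion h (tParam h) = PowerSeries.X := by
  ext m
  have key := qExpansion_coeff_unique' (f := tParam h)
    (c := fun m => if m = 1 then (1 : ℂ) else 0) hh
    ((isHolCusp_tParam hh).analyticAt hh) (fun τ => ?_) m
  · rw [← key, PowerSeries.coeff_X]
  · convert hasSum_single (f := fun m : ℕ => (if m = 1 then (1 : ℂ) else 0) • 𝕢 h (τ : ℂ) ^ m) 1 ?_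
      using 1
    · simp [tParam]
    · intro m hm
      simp [hm]

lemma IsHolCusp.qExpansion_mul (hh : 0 < h) (hf : IsHolCusp h f) (hg : IsHolCusp h g) :
    qExpansion h (f * g) = qExpansion h f * qExpansion h g :=
  UpperHalfPlane.qExpansion_mul (hf.analyticAt hh) (hg.analyticAt hh)

lemma IsHolCusp.qExpansion_add (hh : 0 < h) (hf : IsHolCusp h f) (hg : IsHolCusp h g) :
    qExpansion h (f + g) = qExpansion h f + qExpansion h g :=
  UpperHalfPlane.qExpansion_add (hf.analyticAt hh) (hg.analyticAt hh)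

lemma IsHolCusp.qExpansion_eq_zero_iff (hh : 0 < h) (hf : IsHolCusp h f) :
    qExpansion h f = 0 ↔ f = 0 :=
  UpperHalfPlane.qExpansion_eq_zero_iff hh hf.per hf.holo hf.bdd

lemma IsHolCusp.tParam_pow_mul (hh : 0 < h) (hf : IsHolCusp h f) (k : ℕ) :
    IsHolCusp h (tParam h ^ k * f) :=
  ((isHolCusp_tParam hh).pow k).mul hf

lemma qExpansion_tParam_pow (hh : 0 < h) (k : ℕ) :
    qExpansion h (tParam h ^ k) = PowerSeries.X ^ k := by
  induction k with
  | zero => simpa using qExpansion_one h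
  | succ k ih =>
    rw [pow_succ, ((isHolCusp_tParam hh).pow k).qExpansion_mul hh (isHolCusp_tParam hh), ih,
      qExpansion_tParam hh, pow_succ]

lemma IsHolCusp.qExpansion_tParam_pow_mul (hh : 0 < h) (hf : IsHolCusp h f) (k : ℕ) :
    qExpansion h (tParam h ^ k * f) = PowerSeries.X ^ k * qExpansion h f := by
  rw [((isHolCusp_tParam hh).pow k).qExpansion_mul hh hf, qExpansion_tParam_pow hh]

end HolCusp

/-! ## Finite order poles at `i∞` -/

/-- `f` is holomorphic on `ℍ`, `h`-periodic and has at most a pole of finite order at `i∞`. -/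
structure IsMerCusp (h : ℝ) (f : ℍ → ℂ) : Prop where
  holo : MDiff f
  per : Periodic (f ∘ ofComplex) h
  exists_bdd : ∃ k : ℕ, IsBoundedAtImInfty (tParam h ^ k * f)

section MerCusp

variable {h : ℝ} {f g : ℍ → ℂ}

lemma IsHolCusp.isMerCusp (hf : IsHolCusp h f) : IsMerCusp h f :=
  ⟨hf.holo, hf.per, 0, by simpa using hf.bdd⟩

lemma IsMerCusp.isHolCusp (hh : 0 < h) (hf : IsMerCusp h f) {k : ℕ}
    (hk : IsBoundedAtImInfty (tParam h ^ k * f)) : IsHolCusp h (tParam h ^ k * f) :=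
  ⟨((isHolCusp_tParam hh).pow k).holo.mul hf.holo, fun w => by
    have h1 := ((isHolCusp_tParam hh).pow k).per w
    have h2 := hf.per w
    simp only [Function.comp_apply, Pi.mul_apply] at h1 h2 ⊢
    rw [h1, h2], hk⟩

lemma isBounded_tParam_pow_mul_of_le (hh : 0 < h) {k l : ℕ} (hkl : k ≤ l)
    (hk : IsBoundedAtImInfty (tParam h ^ k * f)) : IsBoundedAtImInfty (tParam h ^ l * f) := by
  have : tParam h ^ l * f = tParam h ^ (l - k) * (tParam h ^ k * f) := by
    rw [← mul_assoc, ← pow_add, Nat.sub_add_cancel hkl]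
  rw [this]
  exact ((isHolCusp_tParam hh).pow (l - k)).bdd.mul hk

lemma IsMerCusp.add (hh : 0 < h) (hf : IsMerCusp h f) (hg : IsMerCusp h g) :
    IsMerCusp h (f + g) := by
  obtain ⟨k, hk⟩ := hf.exists_bdd
  obtain ⟨l, hl⟩ := hg.exists_bdd
  refine ⟨hf.holo.add hg.holo, fun w => ?_, max k l, ?_⟩
  · have h1 := hf.per w
    have h2 := hg.per w
    simp only [Function.comp_apply, Pi.add_apply] at h1 h2 ⊢
    rw [h1, h2]
  · rw [mul_add]
    exact (isBounded_tParam_pow_mul_of_le hh (le_max_left k l) hk).add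
      (isBounded_tParam_pow_mul_of_le hh (le_max_right k l) hl)

lemma IsMerCusp.mul (hf : IsMerCusp h f) (hg : IsMerCusp h g) :
    IsMerCusp h (f * g) := by
  obtain ⟨k, hk⟩ := hf.exists_bdd
  obtain ⟨l, hl⟩ := hg.exists_bdd
  refine ⟨hf.holo.mul hg.holo, fun w => ?_, k + l, ?_⟩
  · have h1 := hf.per w
    have h2 := hg.per w
    simp only [Function.comp_apply, Pi.mul_apply] at h1 h2 ⊢
    rw [h1, h2]
  · have : tParam h ^ (k + l) * (f * g) = (tParam h ^ k * f) * (tParam h ^ l * g) := by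
      rw [pow_add]; ring
    rw [this]
    exact hk.mul hl

lemma IsMerCusp.const (h : ℝ) (c : ℂ) : IsMerCusp h (fun _ : ℍ => c) :=
  (IsHolCusp.const h c).isMerCusp

lemma IsMerCusp.neg (hf : IsMerCusp h f) : IsMerCusp h (-f) := by
  have : -f = (fun _ : ℍ => (-1 : ℂ)) * f := by ext z; simp
  rw [this]
  exact (IsMerCusp.const h _).mul hf

/-- The Laurent series attached to a bound `k` on the pole order. -/
noncomputable def laurentAux (h : ℝ) (k : ℕ) (f : ℍ → ℂ) : LaurentSeries ℂ :=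
  HahnSeries.single (-(k : ℤ)) (1 : ℂ) *
    HahnSeries.ofPowerSeries ℤ ℂ (qExpansion h (tParam h ^ k * f))

lemma laurentAux_add_right (hh : 0 < h) (hf : IsMerCusp h f) {k : ℕ}
    (hk : IsBoundedAtImInfty (tParam h ^ k * f)) (m : ℕ) :
    laurentAux h (k + m) f = laurentAux h k f := by
  have e : tParam h ^ (k + m) * f = tParam h ^ m * (tParam h ^ k * f) := by
    rw [pow_add]; ring
  rw [laurentAux, laurentAux, e, (hf.isHolCusp hh hk).qExpansion_tParam_pow_mul hh m, map_mul,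
    map_pow, HahnSeries.ofPowerSeries_X, HahnSeries.single_pow, ← mul_assoc,
    HahnSeries.single_mul_single]
  congr 2
  · simp
  · simp

lemma laurentAux_eq (hh : 0 < h) (hf : IsMerCusp h f) {k l : ℕ}
    (hk : IsBoundedAtImInfty (tParam h ^ k * f)) (hl : IsBoundedAtImInfty (tParam h ^ l * f)) :
    laurentAux h k f = laurentAux h l f := by
  rw [← laurentAux_add_right hh hf hk l, ← laurentAux_add_right hh hf hl k, add_comm]

open Classical in
/-- The Laurent expansion at `i∞` in the parameter `t = exp (2πiτ/h)` (junk value `0` if `f` is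
not meromorphic at the cusp). -/
noncomputable def laurentFun (h : ℝ) (f : ℍ → ℂ) : LaurentSeries ℂ :=
  if hf : IsMerCusp h f then laurentAux h hf.exists_bdd.choose f else 0

lemma laurentFun_eq (hh : 0 < h) (hf : IsMerCusp h f) {k : ℕ}
    (hk : IsBoundedAtImInfty (tParam h ^ k * f)) : laurentFun h f = laurentAux h k f := by
  rw [laurentFun, dif_pos hf]
  exact laurentAux_eq hh hf hf.exists_bdd.choose_spec hk

lemma laurentFun_of_isHolCusp (hh : 0 < h) (hf : IsHolCusp h f) :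
    laurentFun h f = HahnSeries.ofPowerSeries ℤ ℂ (qExpansion h f) := by
  rw [laurentFun_eq hh hf.isMerCusp (k := 0) (by simpa using hf.bdd), laurentAux]
  simp

lemma laurentFun_add (hh : 0 < h) (hf : IsMerCusp h f) (hg : IsMerCusp h g) :
    laurentFun h (f + g) = laurentFun h f + laurentFun h g := by
  obtain ⟨k, hk⟩ := hf.exists_bdd
  obtain ⟨l, hl⟩ := hg.exists_bdd
  have hk' := isBounded_tParam_pow_mul_of_le hh (le_max_left k l) hk
  have hl' := isBounded_tParam_pow_mul_of_le hh (le_max_right k l) hl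
  have hfg : IsBoundedAtImInfty (tParam h ^ (max k l) * (f + g)) := by
    rw [mul_add]; exact hk'.add hl'
  rw [laurentFun_eq hh (hf.add hh hg) hfg, laurentFun_eq hh hf hk', laurentFun_eq hh hg hl',
    laurentAux, laurentAux, laurentAux, mul_add,
    (hf.isHolCusp hh hk').qExpansion_add hh (hg.isHolCusp hh hl'), map_add, mul_add]

lemma laurentFun_mul (hh : 0 < h) (hf : IsMerCusp h f) (hg : IsMerCusp h g) :
    laurentFun h (f * g) = laurentFun h f * laurentFun h g := by
  obtain ⟨k, hk⟩ := hf.exists_bdd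
  obtain ⟨l, hl⟩ := hg.exists_bdd
  have e : tParam h ^ (k + l) * (f * g) = (tParam h ^ k * f) * (tParam h ^ l * g) := by
    rw [pow_add]; ring
  have hfg : IsBoundedAtImInfty (tParam h ^ (k + l) * (f * g)) := by
    rw [e]; exact hk.mul hl
  rw [laurentFun_eq hh (hf.mul hg) hfg, laurentFun_eq hh hf hk, laurentFun_eq hh hg hl,
    laurentAux, laurentAux, laurentAux, e,
    (hf.isHolCusp hh hk).qExpansion_mul hh (hg.isHolCusp hh hl), map_mul]
  have : HahnSeries.single (-((k + l : ℕ) : ℤ)) (1 : ℂ)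
      = HahnSeries.single (-(k : ℤ)) (1 : ℂ) * HahnSeries.single (-(l : ℤ)) (1 : ℂ) := by
    rw [HahnSeries.single_mul_single]
    congr 1
    · rw [Nat.cast_add, neg_add]
    · simp
  rw [this]
  ring

lemma laurentFun_one (hh : 0 < h) : laurentFun h (1 : ℍ → ℂ) = 1 := by
  rw [laurentFun_of_isHolCusp hh (IsHolCusp.one h), qExpansion_one, map_one]

lemma laurentFun_zero (hh : 0 < h) : laurentFun h (0 : ℍ → ℂ) = 0 := by
  rw [laurentFun_of_isHolCusp hh (IsHolCusp.zero h), qExpansion_zero, map_zero]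

lemma laurentFun_eq_zero_iff (hh : 0 < h) (hf : IsMerCusp h f) :
    laurentFun h f = 0 ↔ f = 0 := by
  obtain ⟨k, hk⟩ := hf.exists_bdd
  rw [laurentFun_eq hh hf hk, laurentAux]
  constructor
  · intro H
    have h1 : HahnSeries.ofPowerSeries ℤ ℂ (qExpansion h (tParam h ^ k * f)) = 0 := by
      rcases mul_eq_zero.mp H with H | H
      · exact absurd H (by simp)
      · exact H
    have h2 : qExpansion h (tParam h ^ k * f) = 0 := by
      have := HahnSeries.ofPowerSeries_injective (Γ := ℤ) (R := ℂ)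
      exact this (by rw [h1, map_zero])
    have h3 := ((hf.isHolCusp hh hk).qExpansion_eq_zero_iff hh).mp h2
    ext τ
    have h4 := congrFun h3 τ
    simp only [Pi.mul_apply, Pi.pow_apply, Pi.zero_apply] at h4
    rcases mul_eq_zero.mp h4 with h5 | h5
    · exact absurd h5 (pow_ne_zero _ (tParam_ne_zero h τ))
    · simpa using h5
  · rintro rfl
    simp [qExpansion_zero]

/-! ### Coefficients -/

lemma laurentFun_coeff_sub (hh : 0 < h) (hf : IsMerCusp h f) {k : ℕ}
    (hk : IsBoundedAtImInfty (tParam h ^ k * f)) (m : ℕ) :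
    (laurentFun h f).coeff ((m : ℤ) - k) = (qExpansion h (tParam h ^ k * f)).coeff m := by
  rw [laurentFun_eq hh hf hk, laurentAux, HahnSeries.coeff_single_mul, one_mul, sub_neg_eq_add,
    sub_add_cancel, HahnSeries.ofPowerSeries_apply_coeff]

lemma laurentFun_coeff_of_lt (hh : 0 < h) (hf : IsMerCusp h f) {k : ℕ}
    (hk : IsBoundedAtImInfty (tParam h ^ k * f)) {n : ℤ} (hn : n < -(k : ℤ)) :
    (laurentFun h f).coeff n = 0 := by
  rw [laurentFun_eq hh hf hk, laurentAux, HahnSeries.coeff_single_mul, one_mul, sub_neg_eq_add]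
  exact ModularCurve.ofPowerSeries_coeff_of_neg _ (by omega)

/-- The Laurent expansion converges to the function. -/
lemma hasSum_laurentFun (hh : 0 < h) (hf : IsMerCusp h f) {k : ℕ}
    (hk : IsBoundedAtImInfty (tParam h ^ k * f)) (τ : ℍ) :
    HasSum (fun m : ℕ => (laurentFun h f).coeff ((m : ℤ) - k) * tParam h τ ^ m)
      (tParam h τ ^ k * f τ) := by
  have := hasSum_qExpansion hh (hf.isHolCusp hh hk).per (hf.isHolCusp hh hk).holo hk τ
  simpa [laurentFun_coeff_sub hh hf hk, tParam] using this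

/-- Uniqueness of the Laurent coefficients. -/
lemma laurentFun_coeff_unique (hh : 0 < h) (hf : IsMerCusp h f) {k : ℕ} {a : ℕ → ℂ}
    (ha : ∀ τ : ℍ, HasSum (fun m : ℕ => a m * tParam h τ ^ m) (tParam h τ ^ k * f τ)) (m : ℕ) :
    (laurentFun h f).coeff ((m : ℤ) - k) = a m := by
  have ha' : ∀ τ : ℍ, HasSum (fun m : ℕ => a m • 𝕢 h τ ^ m) ((tParam h ^ k * f) τ) := by
    intro τ
    simpa [tParam] using ha τ
  have hbdd : IsBoundedAtImInfty (tParam h ^ k * f) :=
    isBoundedAtImInfty_of_hasSum_qExpansion hh ha'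
  rw [laurentFun_coeff_sub hh hf hbdd]
  exact (qExpansion_coeff_unique' hh ((hf.isHolCusp hh hbdd).analyticAt hh) ha' m).symm

/-- A function whose Laurent expansion has no negative part is bounded at `i∞`. -/
lemma IsMerCusp.isHolCusp_of_coeff_neg (hh : 0 < h) (hf : IsMerCusp h f)
    (H : ∀ n : ℤ, n < 0 → (laurentFun h f).coeff n = 0) : IsHolCusp h f := by
  obtain ⟨k, hk⟩ := hf.exists_bdd
  refine ⟨hf.holo, hf.per, ?_⟩
  apply isBoundedAtImInfty_of_hasSum_qExpansion hh (c := fun m => (laurentFun h f).coeff m)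
  intro τ
  have h1 := hasSum_laurentFun hh hf hk τ
  have h2 := (hasSum_nat_add_iff' k).mpr h1
  have h3 : ∑ i ∈ Finset.range k, (laurentFun h f).coeff ((i : ℤ) - k) * tParam h τ ^ i = 0 := by
    apply Finset.sum_eq_zero
    intro i hi
    rw [H _ (by have := Finset.mem_range.mp hi; omega), zero_mul]
  rw [h3, sub_zero] at h2
  have ht : tParam h τ ^ k ≠ 0 := pow_ne_zero _ (tParam_ne_zero h τ)
  have h4 := h2.mul_left ((tParam h τ ^ k)⁻¹)
  have e1 : (fun m : ℕ => (laurentFun h f).coeff m • 𝕢 h (τ : ℂ) ^ m) = fun i : ℕ =>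
      (tParam h τ ^ k)⁻¹ *
        ((laurentFun h f).coeff (((i + k : ℕ) : ℤ) - k) * tParam h τ ^ (i + k)) := by
    funext m
    have : ((m + k : ℕ) : ℤ) - k = m := by push_cast; ring
    rw [this, pow_add, smul_eq_mul]
    simp only [tParam] at ht ⊢
    field_simp
  have e2 : f τ = (tParam h τ ^ k)⁻¹ * (tParam h τ ^ k * f τ) := by field_simp
  rw [e1, e2]
  exact h4

end MerCusp

/-! ## Substitution `τ ↦ (aτ + b)/d` -/

section Subst

variable {h₁ h₂ : ℝ} {g : ℍ → ℂ} {m : ℍ → ℍ} {a d e : ℕ} {b : ℤ}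

lemma im_affine (a d : ℕ) (b : ℤ) (z : ℂ) :
    (((a : ℂ) * z + b) / d).im = (a / d : ℝ) * z.im := by
  rw [Complex.div_natCast_im]
  simp only [Complex.add_im, Complex.mul_im, Complex.natCast_re, Complex.natCast_im,
    Complex.intCast_im, zero_mul, add_zero]
  ring

lemma im_comp_affine (hm : ∀ τ : ℍ, ((m τ : ℍ) : ℂ) = ((a : ℂ) * τ + b) / d) (τ : ℍ) :
    (m τ).im = (a / d : ℝ) * τ.im := by
  have := congrArg Complex.im (hm τ)
  rw [im_affine] at this
  exact this

lemma tendsto_affine (ha : 0 < a) (hd : 0 < d)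
    (hm : ∀ τ : ℍ, ((m τ : ℍ) : ℂ) = ((a : ℂ) * τ + b) / d) :
    Tendsto m atImInfty atImInfty := by
  rw [atImInfty, tendsto_comap_iff]
  have : (UpperHalfPlane.im ∘ m) = fun τ : ℍ => (a / d : ℝ) * τ.im :=
    funext (im_comp_affine hm)
  rw [this]
  exact Tendsto.const_mul_atTop (by positivity) tendsto_comap

/-- `t₁ ((aτ+b)/d) = ζ · t₂(τ)^e`. -/
lemma tParam_comp_affine (hh₁ : 0 < h₁) (hh₂ : 0 < h₂) (hd : 0 < d)
    (hm : ∀ τ : ℍ, ((m τ : ℍ) : ℂ) = ((a : ℂ) * τ + b) / d)
    (he : (e : ℝ) * (d * h₁) = a * h₂) (τ : ℍ) :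
    tParam h₁ (m τ) = Complex.exp (2 * π * I * b / (d * h₁)) * tParam h₂ τ ^ e := by
  have h1 : (h₁ : ℂ) ≠ 0 := by exact_mod_cast hh₁.ne'
  have h2 : (h₂ : ℂ) ≠ 0 := by exact_mod_cast hh₂.ne'
  have h3 : (d : ℂ) ≠ 0 := by exact_mod_cast hd.ne'
  have he' : (e : ℂ) * (d * h₁) = a * h₂ := by exact_mod_cast he
  simp only [tParam, Periodic.qParam]
  rw [hm τ, ← Complex.exp_nat_mul, ← Complex.exp_add]
  congr 1
  field_simp
  linear_combination (-(τ : ℂ)) * he'

lemma isBounded_comp_affine (hh₁ : 0 < h₁) (hh₂ : 0 < h₂) (ha : 0 < a) (hd : 0 < d)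
    (hm : ∀ τ : ℍ, ((m τ : ℍ) : ℂ) = ((a : ℂ) * τ + b) / d)
    (he : (e : ℝ) * (d * h₁) = a * h₂) {k : ℕ}
    (hk : IsBoundedAtImInfty (tParam h₁ ^ k * g)) :
    IsBoundedAtImInfty (tParam h₂ ^ (k * e) * (g ∘ m)) := by
  set ζ := Complex.exp (2 * π * I * b / (d * h₁)) with hζ
  have hζ0 : ζ ≠ 0 := Complex.exp_ne_zero _
  have e1 : tParam h₂ ^ (k * e) * (g ∘ m)
      = (fun _ : ℍ => (ζ⁻¹) ^ k) * ((tParam h₁ ^ k * g) ∘ m) := by
    funext τ
    simp only [Pi.mul_apply, Pi.pow_apply, Function.comp_apply]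
    rw [tParam_comp_affine hh₁ hh₂ hd hm he τ, ← hζ, mul_pow, ← pow_mul, inv_pow, mul_comm e k]
    field_simp
  rw [e1]
  refine (Filter.const_boundedAtFilter _ _).mul ?_
  exact hk.comp_tendsto (tendsto_affine ha hd hm)

theorem IsMerCusp.comp_affine (hh₁ : 0 < h₁) (hh₂ : 0 < h₂) (hg : IsMerCusp h₁ g)
    (ha : 0 < a) (hd : 0 < d)
    (hm : ∀ τ : ℍ, ((m τ : ℍ) : ℂ) = ((a : ℂ) * τ + b) / d)
    (he : (e : ℝ) * (d * h₁) = a * h₂) : IsMerCusp h₂ (g ∘ m) := by
  have hmaps : Set.MapsTo (fun z : ℂ => ((a : ℂ) * z + b) / d) {z | 0 < z.im} {z | 0 < z.im} := by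
    intro z hz
    have hz' : 0 < z.im := hz
    show 0 < (((a : ℂ) * z + b) / d).im
    rw [im_affine]
    positivity
  refine ⟨?_, ?_, ?_⟩
  · rw [UpperHalfPlane.mdifferentiable_iff]
    have hg' := UpperHalfPlane.mdifferentiable_iff.mp hg.holo
    have haff : DifferentiableOn ℂ (fun z : ℂ => ((a : ℂ) * z + b) / d) {z | 0 < z.im} := by
      fun_prop
    refine (hg'.comp haff hmaps).congr fun z hz => ?_
    simp only [Function.comp_apply]
    rw [ofComplex_apply_of_im_pos hz]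
    congr 1
    rw [← hm ⟨z, hz⟩]
    exact (ofComplex_apply _).symm
  · intro w
    simp only [Function.comp_apply]
    by_cases hw : 0 < w.im
    · have hw' : 0 < (w + h₂).im := by simpa using hw
      rw [ofComplex_apply_of_im_pos hw, ofComplex_apply_of_im_pos hw']
      have h3 : (d : ℂ) ≠ 0 := by exact_mod_cast hd.ne'
      have he' : (e : ℂ) * (d * h₁) = a * h₂ := by exact_mod_cast he
      have key : ((m ⟨w + h₂, hw'⟩ : ℍ) : ℂ) = ((m ⟨w, hw⟩ : ℍ) : ℂ) + e * h₁ := by
        rw [hm, hm]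
        field_simp
        linear_combination -he'
      have per := (hg.per.nat_mul e) ((m ⟨w, hw⟩ : ℍ) : ℂ)
      simp only [Function.comp_apply] at per
      rw [← key, ofComplex_apply, ofComplex_apply] at per
      exact per
    · have hw' : ¬ 0 < (w + h₂).im := by simpa using hw
      rw [ofComplex_apply_eq_of_im_nonpos (not_lt.mp hw') (not_lt.mp hw)]
  · obtain ⟨k, hk⟩ := hg.exists_bdd
    exact ⟨k * e, isBounded_comp_affine hh₁ hh₂ ha hd hm he hk⟩

/-- Laurent coefficients of `τ ↦ g ((aτ+b)/d)`: the coefficient of `g` at `n'` moves to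
`e·n'`, multiplied by `ζ^{n'}`, `ζ = exp (2πi b/(d h₁))`. -/
theorem laurentFun_comp_affine (hh₁ : 0 < h₁) (hh₂ : 0 < h₂) (hg : IsMerCusp h₁ g)
    (ha : 0 < a) (hd : 0 < d)
    (hm : ∀ τ : ℍ, ((m τ : ℍ) : ℂ) = ((a : ℂ) * τ + b) / d)
    (he : (e : ℝ) * (d * h₁) = a * h₂) (n : ℤ) :
    (laurentFun h₂ (g ∘ m)).coeff n =
      if (e : ℤ) ∣ n then
        Complex.exp (2 * π * I * b / (d * h₁)) ^ (n / e) * (laurentFun h₁ g).coeff (n / e)
      else 0 := by
  set ζ := Complex.exp (2 * π * I * b / (d * h₁)) with hζ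
  have hζ0 : ζ ≠ 0 := Complex.exp_ne_zero _
  have he0 : 0 < e := by
    rcases Nat.eq_zero_or_pos e with h0 | h0
    · exfalso
      rw [h0] at he
      have : (0 : ℝ) < a * h₂ := by positivity
      simp at he
      rcases he with he | he
      · exact absurd he (by exact_mod_cast ha.ne')
      · exact absurd he hh₂.ne'
    · exact h0
  have heZ : (0 : ℤ) < (e : ℤ) := by exact_mod_cast he0
  obtain ⟨k, hk⟩ := hg.exists_bdd
  have hgm := hg.comp_affine hh₁ hh₂ ha hd hm he
  have hbdd := isBounded_comp_affine hh₁ hh₂ ha hd hm he hk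
  have ht := tParam_comp_affine hh₁ hh₂ hd hm he
  rw [← hζ] at ht
  set A : ℕ → ℂ := fun M =>
    if e ∣ M then ζ ^ (((M / e : ℕ) : ℤ) - k) *
      (laurentFun h₁ g).coeff (((M / e : ℕ) : ℤ) - k) else 0 with hA
  have hAsum : ∀ τ : ℍ, HasSum (fun M : ℕ => A M * tParam h₂ τ ^ M)
      (tParam h₂ τ ^ (k * e) * (g ∘ m) τ) := by
    intro τ
    have h1 := hasSum_laurentFun hh₁ hg hk (m τ)
    have h2 := h1.mul_left (ζ⁻¹ ^ k)
    have hinj : Function.Injective (fun n : ℕ => e * n) :=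
      fun x y hxy => Nat.eq_of_mul_eq_mul_left he0 hxy
    rw [← hinj.hasSum_iff]
    · have e1 : ((fun M : ℕ => A M * tParam h₂ τ ^ M) ∘ fun n : ℕ => e * n)
          = fun n : ℕ => ζ⁻¹ ^ k * ((laurentFun h₁ g).coeff ((n : ℤ) - k) * tParam h₁ (m τ) ^ n) := by
        funext n
        simp only [Function.comp_apply, hA, dvd_mul_right, if_true, Nat.mul_div_cancel_left n he0]
        rw [ht τ, zpow_sub₀ hζ0, zpow_natCast, zpow_natCast, mul_pow, ← pow_mul, inv_pow]
        field_simp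
      have e2 : tParam h₂ τ ^ (k * e) * (g ∘ m) τ
          = ζ⁻¹ ^ k * (tParam h₁ (m τ) ^ k * g (m τ)) := by
        simp only [Function.comp_apply]
        rw [ht τ, mul_pow, ← pow_mul, inv_pow, mul_comm e k]
        field_simp
      rw [e1, e2]
      exact h2
    · intro M hM
      have : ¬ e ∣ M := by
        rintro ⟨n, rfl⟩
        exact hM ⟨n, rfl⟩
      simp [hA, this]
  have key := fun M => laurentFun_coeff_unique hh₂ hgm hAsum M
  by_cases hn : n < -((k * e : ℕ) : ℤ)
  · rw [laurentFun_coeff_of_lt hh₂ hgm hbdd hn]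
    split_ifs with hdiv
    · obtain ⟨n', rfl⟩ := hdiv
      rw [Int.mul_ediv_cancel_left _ heZ.ne']
      have hn' : n' < -(k : ℤ) := by
        push_cast at hn
        nlinarith
      rw [laurentFun_coeff_of_lt hh₁ hg hk hn', mul_zero]
    · rfl
  · have hn := not_lt.mp hn
    obtain ⟨M, hM⟩ : ∃ M : ℕ, (M : ℤ) = n + ((k * e : ℕ) : ℤ) :=
      ⟨(n + ((k * e : ℕ) : ℤ)).toNat, by omega⟩
    have hnM : n = (M : ℤ) - ((k * e : ℕ) : ℤ) := by omega
    have hkey := key M
    rw [← hnM] at hkey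
    rw [hkey]
    have hdvd : e ∣ M ↔ (e : ℤ) ∣ n := by
      rw [← Int.natCast_dvd_natCast, hM]
      push_cast
      exact Int.dvd_add_left (Dvd.intro_left _ rfl)
    simp only [hA]
    by_cases hdiv : (e : ℤ) ∣ n
    · rw [if_pos (hdvd.mpr hdiv), if_pos hdiv]
      obtain ⟨M', rfl⟩ := hdvd.mpr hdiv
      rw [Nat.mul_div_cancel_left M' he0]
      have : n / (e : ℤ) = (M' : ℤ) - k := by
        rw [hnM]
        push_cast
        rw [show (e : ℤ) * M' - k * e = e * (M' - k) by ring, Int.mul_ediv_cancel_left _ heZ.ne']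
      rw [this]
    · rw [if_neg (fun h => hdiv (hdvd.mp h)), if_neg hdiv]

/-- Translation `τ ↦ τ + b` multiplies the `n`-th Laurent coefficient by `exp (2πi b n/h)`. -/
theorem laurentFun_translate {h : ℝ} {f : ℍ → ℂ} (hh : 0 < h) (hf : IsMerCusp h f) {b : ℤ}
    (hm : ∀ τ : ℍ, ((m τ : ℍ) : ℂ) = τ + b) (n : ℤ) :
    (laurentFun h (f ∘ m)).coeff n =
      Complex.exp (2 * π * I * b / h) ^ n * (laurentFun h f).coeff n := by
  have hm' : ∀ τ : ℍ, ((m τ : ℍ) : ℂ) = (((1 : ℕ) : ℂ) * τ + b) / ((1 : ℕ) : ℂ) := by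
    intro τ; rw [hm τ]; simp
  have he : ((1 : ℕ) : ℝ) * (((1 : ℕ) : ℝ) * h) = ((1 : ℕ) : ℝ) * h := by simp
  have := laurentFun_comp_affine hh hh hf one_pos one_pos hm' he n
  simpa using this

lemma IsMerCusp.translate {h : ℝ} {f : ℍ → ℂ} (hh : 0 < h) (hf : IsMerCusp h f) {b : ℤ}
    (hm : ∀ τ : ℍ, ((m τ : ℍ) : ℂ) = τ + b) : IsMerCusp h (f ∘ m) := by
  have hm' : ∀ τ : ℍ, ((m τ : ℍ) : ℂ) = (((1 : ℕ) : ℂ) * τ + b) / ((1 : ℕ) : ℂ) := by
    intro τ; rw [hm τ]; simp
  have he : ((1 : ℕ) : ℝ) * (((1 : ℕ) : ℝ) * h) = ((1 : ℕ) : ℝ) * h := by simp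
  exact hf.comp_affine hh hh one_pos one_pos hm' he

/-- Enlarging the period from `h` to `e·h`. -/
lemma IsMerCusp.mul_period {h : ℝ} {f : ℍ → ℂ} (hh : 0 < h) (hf : IsMerCusp h f) {e : ℕ}
    (he : 0 < e) : IsMerCusp (e * h) f := by
  have hm' : ∀ τ : ℍ, (((id τ : ℍ)) : ℂ) = (((1 : ℕ) : ℂ) * τ + ((0 : ℤ) : ℂ)) / ((1 : ℕ) : ℂ) := by
    intro τ; simp
  have he' : (e : ℝ) * (((1 : ℕ) : ℝ) * h) = ((1 : ℕ) : ℝ) * (e * h) := by simp
  have := hf.comp_affine hh (by positivity : (0 : ℝ) < e * h) one_pos one_pos hm' he'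
  simpa using this

/-- Enlarging the period from `h` to `e·h` spreads out the Laurent coefficients. -/
theorem laurentFun_mul_period {h : ℝ} {f : ℍ → ℂ} (hh : 0 < h) (hf : IsMerCusp h f) {e : ℕ}
    (he : 0 < e) (n : ℤ) :
    (laurentFun (e * h) f).coeff n =
      if (e : ℤ) ∣ n then (laurentFun h f).coeff (n / e) else 0 := by
  have hm' : ∀ τ : ℍ, (((id τ : ℍ)) : ℂ) = (((1 : ℕ) : ℂ) * τ + ((0 : ℤ) : ℂ)) / ((1 : ℕ) : ℂ) := by
    intro τ; simp
  have he' : (e : ℝ) * (((1 : ℕ) : ℝ) * h) = ((1 : ℕ) : ℝ) * (e * h) := by simp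
  have := laurentFun_comp_affine hh (by positivity : (0 : ℝ) < e * h) hf one_pos one_pos hm' he' n
  simpa using this

/-- A function invariant under `τ ↦ τ + 1` has Laurent expansion in `t = exp (2πiτ/h)`
(`h` a positive integer) supported on multiples of `h`. -/
theorem laurentFun_coeff_eq_zero_of_translate_invariant {h : ℕ} {f : ℍ → ℂ} (hh : 0 < h)
    (hf : IsMerCusp (h : ℝ) f) (hm : ∀ τ : ℍ, ((m τ : ℍ) : ℂ) = τ + 1) (hinv : f ∘ m = f)
    {n : ℤ} (hn : ¬ (h : ℤ) ∣ n) : (laurentFun (h : ℝ) f).coeff n = 0 := by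
  have hh' : (0 : ℝ) < (h : ℝ) := by exact_mod_cast hh
  have hm' : ∀ τ : ℍ, ((m τ : ℍ) : ℂ) = τ + ((1 : ℤ) : ℂ) := by
    intro τ; rw [hm τ]; simp
  have h1 := laurentFun_translate hh' hf hm' n
  rw [hinv] at h1
  have h2 : Complex.exp (2 * π * I * ((1 : ℤ) : ℂ) / ((h : ℝ) : ℂ)) ^ n ≠ 1 := by
    rw [← Complex.exp_int_mul]
    intro H
    rw [Complex.exp_eq_one_iff] at H
    obtain ⟨r, hr⟩ := H
    apply hn
    refine ⟨r, ?_⟩
    have hhC : ((h : ℝ) : ℂ) ≠ 0 := by exact_mod_cast hh'.ne'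
    have hpi : (2 * (π : ℂ) * I) ≠ 0 := Complex.two_pi_I_ne_zero
    have h3 : (n : ℂ) = (h : ℂ) * r := by
      have h5 : ((h : ℝ) : ℂ) = (h : ℂ) := by push_cast; rfl
      rw [h5] at hr hhC
      field_simp at hr
      simpa using hr
    exact_mod_cast h3
  by_contra hne
  apply h2
  have h6 : (Complex.exp (2 * π * I * ((1 : ℤ) : ℂ) / ((h : ℝ) : ℂ)) ^ n - 1)
      * (laurentFun (h : ℝ) f).coeff n = 0 := by
    rw [sub_mul, one_mul, ← h1, sub_self]
  rcases mul_eq_zero.mp h6 with h7 | h7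
  · exact sub_eq_zero.mp h7
  · exact absurd h7 hne

end Subst

/-! ## The bundled ring homomorphism -/

section Bundled

variable (h : ℕ) [NeZero h]

lemma natCast_pos' : (0 : ℝ) < (h : ℝ) := Nat.cast_pos.mpr (NeZero.pos h)

/-- The ring of holomorphic `h`-periodic functions on `ℍ` with a pole of finite order at
`i∞`. -/
def merCusp : Subring (ℍ → ℂ) where
  carrier := {f | IsMerCusp (h : ℝ) f}
  mul_mem' hf hg := hf.mul hg
  one_mem' := IsMerCusp.const _ 1
  add_mem' hf hg := hf.add (natCast_pos' h) hg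
  zero_mem' := IsMerCusp.const _ 0
  neg_mem' hf := hf.neg

lemma mem_merCusp {f : ℍ → ℂ} : f ∈ merCusp h ↔ IsMerCusp (h : ℝ) f := Iff.rfl

/-- The Laurent expansion at `i∞`, as a ring homomorphism. -/
noncomputable def laurent : merCusp h →+* LaurentSeries ℂ where
  toFun f := laurentFun (h : ℝ) f
  map_one' := laurentFun_one (natCast_pos' h)
  map_mul' f g := laurentFun_mul (natCast_pos' h) f.2 g.2
  map_zero' := laurentFun_zero (natCast_pos' h)
  map_add' f g := laurentFun_add (natCast_pos' h) f.2 g.2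

lemma laurent_apply (f : merCusp h) : laurent h f = laurentFun (h : ℝ) f := rfl

lemma laurent_injective : Function.Injective (laurent h) := by
  rw [injective_iff_map_eq_zero]
  intro f hf
  exact Subtype.ext ((laurentFun_eq_zero_iff (natCast_pos' h) f.2).mp hf)

lemma laurent_mk_of_isHolCusp {f : ℍ → ℂ} (hf : IsHolCusp (h : ℝ) f) :
    laurent h ⟨f, hf.isMerCusp⟩ = HahnSeries.ofPowerSeries ℤ ℂ (qExpansion (h : ℝ) f) :=
  laurentFun_of_isHolCusp (natCast_pos' h) hf

lemma tParam_mem_merCusp : tParam (h : ℝ) ∈ merCusp h :=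
  (isHolCusp_tParam (natCast_pos' h)).isMerCusp

lemma laurent_tParam :
    laurent h ⟨tParam (h : ℝ), tParam_mem_merCusp h⟩ = HahnSeries.single (1 : ℤ) (1 : ℂ) := by
  rw [laurent_mk_of_isHolCusp h (isHolCusp_tParam (natCast_pos' h)),
    qExpansion_tParam (natCast_pos' h), HahnSeries.ofPowerSeries_X]

lemma tParam_inv_mem_merCusp : (tParam (h : ℝ))⁻¹ ∈ merCusp h := by
  have hh := natCast_pos' h
  refine ⟨?_, fun w => ?_, 1, ?_⟩
  · rw [UpperHalfPlane.mdifferentiable_iff]
    have h1 := UpperHalfPlane.mdifferentiable_iff.mp (isHolCusp_tParam hh).holo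
    refine (h1.inv fun z hz => ?_).congr fun z hz => ?_
    · simp only [Function.comp_apply]
      exact tParam_ne_zero _ _
    · simp [Function.comp_apply]
  · have h1 := (isHolCusp_tParam hh).per w
    simp only [Function.comp_apply, Pi.inv_apply] at h1 ⊢
    rw [h1]
  · have : tParam (h : ℝ) ^ 1 * (tParam (h : ℝ))⁻¹ = fun _ => (1 : ℂ) := by
      funext τ
      simp [tParam_ne_zero]
    rw [this]
    exact Filter.const_boundedAtFilter _ _

lemma laurent_tParam_inv :
    laurent h ⟨(tParam (h : ℝ))⁻¹, tParam_inv_mem_merCusp h⟩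
      = HahnSeries.single (-1 : ℤ) (1 : ℂ) := by
  have h1 : (⟨(tParam (h : ℝ))⁻¹, tParam_inv_mem_merCusp h⟩ : merCusp h)
      * ⟨tParam (h : ℝ), tParam_mem_merCusp h⟩ = 1 := by
    apply Subtype.ext
    funext τ
    simp [tParam_ne_zero]
  have h2 := congrArg (laurent h) h1
  rw [map_mul, map_one, laurent_tParam] at h2
  have h3 : HahnSeries.single (-1 : ℤ) (1 : ℂ) * HahnSeries.single (1 : ℤ) (1 : ℂ) = 1 := by
    rw [HahnSeries.single_mul_single]
    simp
  have h4 : (HahnSeries.single (1 : ℤ) (1 : ℂ) : LaurentSeries ℂ) ≠ 0 := by simp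
  exact mul_right_cancel₀ h4 (h2.trans h3.symm)

lemma const_mem_merCusp (c : ℂ) : (fun _ : ℍ => c) ∈ merCusp h := IsMerCusp.const _ c

lemma laurent_const (c : ℂ) :
    laurent h ⟨fun _ : ℍ => c, const_mem_merCusp h c⟩ = HahnSeries.C c := by
  rw [laurent_mk_of_isHolCusp h (IsHolCusp.const _ c)]
  have h1 : (fun _ : ℍ => c) = c • (1 : ℍ → ℂ) := by funext τ; simp
  have h2 : AnalyticAt ℂ (cuspFunction (h : ℝ) (1 : ℍ → ℂ)) 0 :=
    (IsHolCusp.one (h : ℝ)).analyticAt (natCast_pos' h)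
  rw [h1, qExpansion_smul h2, qExpansion_one, PowerSeries.smul_eq_C_mul, mul_one,
    HahnSeries.ofPowerSeries_C]

/-- `τ ↦ g ((aτ+b)/d)` is again meromorphic at the cusp (bundled, natural periods). -/
theorem comp_affine_mem_merCusp {h₁ h₂ : ℕ} [NeZero h₁] [NeZero h₂] {g : ℍ → ℂ}
    (hg : g ∈ merCusp h₁) {m : ℍ → ℍ} {a d e : ℕ} {b : ℤ} (ha : 0 < a) (hd : 0 < d)
    (hm : ∀ τ : ℍ, ((m τ : ℍ) : ℂ) = ((a : ℂ) * τ + b) / d)
    (he : e * (d * h₁) = a * h₂) : g ∘ m ∈ merCusp h₂ :=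
  IsMerCusp.comp_affine (natCast_pos' h₁) (natCast_pos' h₂) hg ha hd hm (by exact_mod_cast he)

/-- Laurent coefficients of `τ ↦ g ((aτ+b)/d)` (bundled, natural periods). -/
theorem laurent_comp_affine {h₁ h₂ : ℕ} [NeZero h₁] [NeZero h₂] {g : ℍ → ℂ}
    (hg : g ∈ merCusp h₁) {m : ℍ → ℍ} {a d e : ℕ} {b : ℤ} (ha : 0 < a) (hd : 0 < d)
    (hm : ∀ τ : ℍ, ((m τ : ℍ) : ℂ) = ((a : ℂ) * τ + b) / d)
    (he : e * (d * h₁) = a * h₂) (n : ℤ) :
    (laurent h₂ ⟨g ∘ m, comp_affine_mem_merCusp hg ha hd hm he⟩).coeff n =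
      if (e : ℤ) ∣ n then
        Complex.exp (2 * π * I * b / (d * (h₁ : ℝ))) ^ (n / e) *
          (laurent h₁ ⟨g, hg⟩).coeff (n / e)
      else 0 :=
  laurentFun_comp_affine (natCast_pos' h₁) (natCast_pos' h₂) hg ha hd hm
    (by exact_mod_cast he) n

/-- A `1`-periodic element of `merCusp h` has Laurent expansion supported on multiples of
`h`. -/
theorem laurent_coeff_eq_zero_of_not_dvd {f : ℍ → ℂ} (hf : f ∈ merCusp h) {m : ℍ → ℍ}
    (hm : ∀ τ : ℍ, ((m τ : ℍ) : ℂ) = τ + 1) (hinv : f ∘ m = f) {n : ℤ}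
    (hn : ¬ (h : ℤ) ∣ n) : (laurent h ⟨f, hf⟩).coeff n = 0 :=
  laurentFun_coeff_eq_zero_of_translate_invariant (NeZero.pos h) hf hm hinv hn

/-- An element of `merCusp h` whose Laurent expansion has no negative part is bounded at
`i∞`. -/
theorem isBoundedAtImInfty_of_coeff_neg {f : ℍ → ℂ} (hf : f ∈ merCusp h)
    (H : ∀ n : ℤ, n < 0 → (laurent h ⟨f, hf⟩).coeff n = 0) : IsBoundedAtImInfty f :=
  (IsMerCusp.isHolCusp_of_coeff_neg (natCast_pos' h) hf H).bdd

/-- For a function bounded at `i∞`, the constant Laurent coefficient is the value at `i∞`. -/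
theorem laurent_coeff_zero_of_isHolCusp {f : ℍ → ℂ} (hf : IsHolCusp (h : ℝ) f) :
    (laurent h ⟨f, hf.isMerCusp⟩).coeff 0 = valueAtInfty f := by
  rw [laurent_mk_of_isHolCusp h hf]
  have := HahnSeries.ofPowerSeries_apply_coeff (Γ := ℤ) (qExpansion (h : ℝ) f) 0
  simp only [Nat.cast_zero] at this
  rw [this, qExpansion_coeff_zero (natCast_pos' h) (hf.analyticAt (natCast_pos' h)) hf.per]

end Bundled

/-! ## Rational coefficients -/

section Rational

variable {K : Type*} [Field K] (ι : K →+* ℂ) (h : ℕ) [NeZero h]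

lemma coeffMap_injective : Function.Injective (ModularCurve.coeffMap ι) := by
  intro x y hxy
  ext n
  have := congrArg (fun z => z.coeff n) hxy
  simp only [ModularCurve.coeffMap_coeff] at this
  exact ι.injective this

lemma mem_range_coeffMap_iff (F : LaurentSeries ℂ) :
    F ∈ (ModularCurve.coeffMap ι).range ↔ ∀ n : ℤ, F.coeff n ∈ Set.range ι := by
  constructor
  · rintro ⟨G, rfl⟩ n
    exact ⟨G.coeff n, (ModularCurve.coeffMap_coeff ι G n).symm⟩
  · intro hF
    choose c hc using hF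
    have hsupp : Function.support c = F.support := by
      ext n
      simp only [Function.mem_support, HahnSeries.mem_support, ne_eq, ← hc n]
      exact (map_eq_zero ι).not.symm
    refine ⟨⟨c, hsupp ▸ F.isPWO_support⟩, ?_⟩
    ext n
    rw [ModularCurve.coeffMap_coeff]
    exact hc n

/-- Functions in `merCusp h` whose Laurent coefficients all lie in the image of `ι`. -/
noncomputable def ratCusp : Subring ↥(merCusp h) :=
  (ModularCurve.coeffMap ι).range.comap (laurent h)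

lemma mem_ratCusp_iff (f : merCusp h) :
    f ∈ ratCusp ι h ↔ ∀ n : ℤ, (laurent h f).coeff n ∈ Set.range ι := by
  rw [ratCusp, Subring.mem_comap, mem_range_coeffMap_iff]

lemma exists_coeffMap_eq (f : ratCusp ι h) :
    ∃ G : LaurentSeries K, ModularCurve.coeffMap ι G = laurent h f.1 := f.2

/-- The underlying function of `laurentK`. -/
noncomputable def laurentKFun (f : ratCusp ι h) : LaurentSeries K :=
  (exists_coeffMap_eq ι h f).choose

lemma coeffMap_laurentKFun (f : ratCusp ι h) :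
    ModularCurve.coeffMap ι (laurentKFun ι h f) = laurent h f.1 :=
  (exists_coeffMap_eq ι h f).choose_spec

/-- The Laurent expansion with coefficients in `K`. -/
noncomputable def laurentK : ↥(ratCusp ι h) →+* LaurentSeries K where
  toFun f := laurentKFun ι h f
  map_one' := by
    apply coeffMap_injective ι
    rw [coeffMap_laurentKFun]
    simp
  map_mul' f g := by
    apply coeffMap_injective ι
    rw [coeffMap_laurentKFun, map_mul, coeffMap_laurentKFun, coeffMap_laurentKFun]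
    simp
  map_zero' := by
    apply coeffMap_injective ι
    rw [coeffMap_laurentKFun]
    simp
  map_add' f g := by
    apply coeffMap_injective ι
    rw [coeffMap_laurentKFun, map_add, coeffMap_laurentKFun, coeffMap_laurentKFun]
    simp

lemma coeffMap_laurentK (f : ratCusp ι h) :
    ModularCurve.coeffMap ι (laurentK ι h f) = laurent h f.1 :=
  coeffMap_laurentKFun ι h f

lemma laurentK_coeff (f : ratCusp ι h) (n : ℤ) :
    ι ((laurentK ι h f).coeff n) = (laurent h f.1).coeff n := by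
  rw [← coeffMap_laurentK, ModularCurve.coeffMap_coeff]

lemma laurentK_injective : Function.Injective (laurentK ι h) := by
  intro f g hfg
  apply Subtype.ext
  apply laurent_injective h
  rw [← coeffMap_laurentK, ← coeffMap_laurentK, hfg]

end Rational

end Fermat.Agent.Lib.CuspLaurent
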