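import Mathlib

/-!
# The modular discriminant has an integral `q`-expansion

`qExpansion 1 Δ = PowerSeries.map (Int.castRingHom ℂ) DeltaZ` for an explicit
`DeltaZ : PowerSeries ℤ` with `DeltaZ.coeff 0 = 0` and `DeltaZ.coeff 1 = 1`.

Route: Mathlib's `Δ = (E₄³ - E₆²) / 1728`, the `q`-expansions `E₄ = 1 + 240 A`,
`E₆ = 1 - 504 B` with `A = Σ σ₃(n) qⁿ`, `B = Σ σ₅(n) qⁿ`, the polynomial identity
`(1 + 240 A)³ - (1 - 504 B)² = 144 (5 A + 7 B) + 1728 (100 A² + 8000 A³ - 147 B²)`
and the congruence `12 ∣ 5 d³ + 7 d⁵`.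
-/

namespace Fermat.Agent.Lib.DeltaInt

open UpperHalfPlane ModularForm EisensteinSeries
open scoped ArithmeticFunction.sigma MatrixGroups

/-- `Σ_{n ≥ 1} σ_j(n) qⁿ` as a power series with integer coefficients. -/
noncomputable def sigmaSeries (j : ℕ) : PowerSeries ℤ :=
  PowerSeries.mk fun n => ((σ j n : ℕ) : ℤ)

@[simp]
lemma coeff_sigmaSeries (j n : ℕ) : (sigmaSeries j).coeff n = ((σ j n : ℕ) : ℤ) := by
  simp [sigmaSeries]

lemma coeff_intCast_mul (a : ℤ) (f : PowerSeries ℤ) (n : ℕ) :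
    ((a : PowerSeries ℤ) * f).coeff n = a * f.coeff n := by
  have h : (a : PowerSeries ℤ) = PowerSeries.C a := by simp
  rw [h, PowerSeries.coeff_C_mul]

/-- The elementary congruence behind the integrality of `Δ`. -/
lemma twelve_dvd_pow (d : ℕ) : (12 : ℤ) ∣ 5 * (d : ℤ) ^ 3 + 7 * (d : ℤ) ^ 5 := by
  have h : ((5 * (d : ℤ) ^ 3 + 7 * (d : ℤ) ^ 5 : ℤ) : ZMod 12) = 0 := by
    push_cast
    generalize ((d : ℕ) : ZMod 12) = x
    revert x
    decide
  exact_mod_cast (ZMod.intCast_zmod_eq_zero_iff_dvd _ 12).mp h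

lemma twelve_dvd_sigma (n : ℕ) :
    (12 : ℤ) ∣ 5 * ((σ 3 n : ℕ) : ℤ) + 7 * ((σ 5 n : ℕ) : ℤ) := by
  rw [ArithmeticFunction.sigma_apply, ArithmeticFunction.sigma_apply]
  push_cast
  rw [Finset.mul_sum, Finset.mul_sum, ← Finset.sum_add_distrib]
  exact Finset.dvd_sum fun d _ => twelve_dvd_pow d

/-- `(5 A + 7 B) / 12` as an integral power series. -/
noncomputable def cSeries : PowerSeries ℤ :=
  PowerSeries.mk fun n => (5 * ((σ 3 n : ℕ) : ℤ) + 7 * ((σ 5 n : ℕ) : ℤ)) / 12

lemma twelve_mul_cSeries :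
    (12 : PowerSeries ℤ) * cSeries = 5 * sigmaSeries 3 + 7 * sigmaSeries 5 := by
  ext n
  have h12 : (12 : PowerSeries ℤ) = ((12 : ℤ) : PowerSeries ℤ) := by norm_num
  have h5 : (5 : PowerSeries ℤ) = ((5 : ℤ) : PowerSeries ℤ) := by norm_num
  have h7 : (7 : PowerSeries ℤ) = ((7 : ℤ) : PowerSeries ℤ) := by norm_num
  rw [h12, h5, h7, map_add, coeff_intCast_mul, coeff_intCast_mul, coeff_intCast_mul]
  simp only [cSeries, PowerSeries.coeff_mk, coeff_sigmaSeries]
  exact Int.mul_ediv_cancel' (twelve_dvd_sigma n)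

/-- The `q`-expansion of the modular discriminant, as an integral power series. -/
noncomputable def DeltaZ : PowerSeries ℤ :=
  cSeries + 100 * sigmaSeries 3 ^ 2 + 8000 * sigmaSeries 3 ^ 3 - 147 * sigmaSeries 5 ^ 2

lemma mul_DeltaZ :
    (1728 : PowerSeries ℤ) * DeltaZ =
      (1 + 240 * sigmaSeries 3) ^ 3 - (1 - 504 * sigmaSeries 5) ^ 2 := by
  have h := twelve_mul_cSeries
  unfold DeltaZ
  linear_combination 144 * h

/-- `E₄ = 1 + 240 Σ σ₃(n) qⁿ`. -/
theorem qExpansion_E₄ :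
    qExpansion 1 E₄ = PowerSeries.map (Int.castRingHom ℂ) (1 + 240 * sigmaSeries 3) := by
  ext n
  have h240 : (240 : PowerSeries ℤ) = ((240 : ℤ) : PowerSeries ℤ) := by norm_num
  rw [E_qExpansion_coeff _ ⟨2, rfl⟩, PowerSeries.coeff_map, map_add, h240, coeff_intCast_mul,
    PowerSeries.coeff_one, coeff_sigmaSeries]
  by_cases hn : n = 0
  · subst hn; simp
  · simp only [hn, if_false]
    norm_num [show bernoulli 4 = -1 / 30 by decide +kernel]

/-- `E₆ = 1 - 504 Σ σ₅(n) qⁿ`. -/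
theorem qExpansion_E₆ :
    qExpansion 1 E₆ = PowerSeries.map (Int.castRingHom ℂ) (1 - 504 * sigmaSeries 5) := by
  ext n
  have h504 : (504 : PowerSeries ℤ) = ((504 : ℤ) : PowerSeries ℤ) := by norm_num
  rw [E_qExpansion_coeff _ ⟨3, rfl⟩, PowerSeries.coeff_map, map_sub, h504, coeff_intCast_mul,
    PowerSeries.coeff_one, coeff_sigmaSeries]
  by_cases hn : n = 0
  · subst hn; simp
  · simp only [hn, if_false]
    norm_num [show bernoulli 6 = 1 / 42 by decide +kernel]

/-- `1728 Δ = E₄³ - E₆²` on `q`-expansions. -/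
theorem qExpansion_discriminant_smul :
    (1728 : ℂ) • qExpansion 1 ModularForm.discriminant =
      qExpansion 1 E₄ ^ 3 - qExpansion 1 E₆ ^ 2 := by
  set G : ModularForm 𝒮ℒ 12 :=
    ModularForm.mcast (by decide) (E₄.pow 3) - ModularForm.mcast (by decide) (E₆.pow 2) with hG
  have h1 : qExpansion 1 G = qExpansion 1 E₄ ^ 3 - qExpansion 1 E₆ ^ 2 := by
    simp only [hG, FunLike.coe_sub, coe_mcast,
      ModularForm.qExpansion_sub one_pos one_mem_strictPeriods_SL,
      ModularForm.qExpansion_pow one_pos one_mem_strictPeriods_SL]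
  have h2 : (G : ℍ → ℂ) = ((1728 : ℂ) • CuspForm.discriminant : ℍ → ℂ) := by
    funext z
    have hz := discriminant_eq_E₄_cube_sub_E₆_sq z
    simp only [hG, coe_mcast, coe_pow, sub_apply, Pi.pow_apply, Pi.smul_apply, smul_eq_mul,
      CuspForm.coe_discriminant]
    rw [hz]; ring
  have h3 := ModularForm.qExpansion_smul one_pos one_mem_strictPeriods_SL (1728 : ℂ)
    CuspForm.discriminant
  rw [← h1, h2, h3, CuspForm.coe_discriminant]

/-- **The `q`-expansion of `Δ` has integer coefficients.** -/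
theorem qExpansion_discriminant_eq :
    qExpansion 1 ModularForm.discriminant = PowerSeries.map (Int.castRingHom ℂ) DeltaZ := by
  have h := qExpansion_discriminant_smul
  rw [qExpansion_E₄, qExpansion_E₆, ← map_pow, ← map_pow, ← map_sub, ← mul_DeltaZ, map_mul] at h
  ext n
  have hn := congrArg (PowerSeries.coeff n) h
  have h1728 : (1728 : PowerSeries ℤ) = ((1728 : ℤ) : PowerSeries ℤ) := by norm_num
  rw [PowerSeries.coeff_smul, ← map_mul, PowerSeries.coeff_map, h1728, coeff_intCast_mul] at hn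
  rw [PowerSeries.coeff_map]
  have h0 : (1728 : ℂ) ≠ 0 := by norm_num
  apply mul_left_cancel₀ h0
  rw [← smul_eq_mul, hn]
  simp only [eq_intCast]
  push_cast
  ring

theorem discriminant_qExpansion_int (n : ℕ) :
    ∃ m : ℤ, (qExpansion 1 ModularForm.discriminant).coeff n = (m : ℂ) :=
  ⟨DeltaZ.coeff n, by rw [qExpansion_discriminant_eq, PowerSeries.coeff_map]; rfl⟩

/-- The same statement for the cusp form `CuspForm.discriminant`. -/
theorem qExpansion_cuspForm_discriminant_eq :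
    qExpansion 1 (CuspForm.discriminant : ℍ → ℂ) =
      PowerSeries.map (Int.castRingHom ℂ) DeltaZ := by
  rw [CuspForm.coe_discriminant, qExpansion_discriminant_eq]

theorem coeff_qExpansion_discriminant (n : ℕ) :
    (qExpansion 1 ModularForm.discriminant).coeff n = ((DeltaZ.coeff n : ℤ) : ℂ) := by
  rw [qExpansion_discriminant_eq, PowerSeries.coeff_map]; rfl

theorem DeltaZ_coeff_zero : DeltaZ.coeff 0 = 0 := by
  have h := CuspFormClass.qExpansion_coeff_zero CuspForm.discriminant one_pos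
    one_mem_strictPeriods_SL
  rw [CuspForm.coe_discriminant, coeff_qExpansion_discriminant] at h
  exact_mod_cast h

theorem DeltaZ_coeff_one : DeltaZ.coeff 1 = 1 := by
  have h := discriminant_qExpansion_coeff_one
  rw [coeff_qExpansion_discriminant] at h
  exact_mod_cast h

/-- `DeltaZ = q · (1 + …)`: the leading coefficient is a unit. -/
theorem exists_DeltaZ_eq_X_mul :
    ∃ U : PowerSeries ℤ, PowerSeries.constantCoeff U = 1 ∧ DeltaZ = PowerSeries.X * U := by
  have h0 : PowerSeries.constantCoeff DeltaZ = 0 := by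
    rw [← PowerSeries.coeff_zero_eq_constantCoeff_apply]; exact DeltaZ_coeff_zero
  obtain ⟨U, hU⟩ := PowerSeries.X_dvd_iff.mpr h0
  refine ⟨U, ?_, hU⟩
  have h1 := DeltaZ_coeff_one
  rw [hU, show (1 : ℕ) = 0 + 1 from rfl, PowerSeries.coeff_succ_X_mul] at h1
  rw [← PowerSeries.coeff_zero_eq_constantCoeff_apply]; exact h1

/-- `Δ(τ) = Σ τ(n) qⁿ` with the integers `τ(n) = DeltaZ.coeff n`. -/
theorem hasSum_discriminant (τ : ℍ) :
    HasSum (fun n : ℕ => ((DeltaZ.coeff n : ℤ) : ℂ) * Function.Periodic.qParam 1 τ ^ n)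
      (ModularForm.discriminant τ) := by
  have h := ModularForm.hasSum_qExpansion (f := CuspForm.discriminant) one_pos
    one_mem_strictPeriods_SL τ
  simp only [CuspForm.coe_discriminant, coeff_qExpansion_discriminant] at h
  exact h

end Fermat.Agent.Lib.DeltaInt
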