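import Mathlib
import Fermat.Agent.Lib.DeltaInt
import Fermat.Agent.S23.Defs

/-!
# Level-one analysis for the `j`-function

* `exists_j_eq`: `j = E₄³/Δ : ℍ → ℂ` is surjective.
* `exists_poly_of_invariant`: a holomorphic `SL₂(ℤ)`-invariant function on `ℍ` with at most a
  pole of order `m` at `i∞` is a polynomial of degree `≤ m` in `j`, with coefficients in any
  subfield containing the first `m + 1` `q`-expansion coefficients of `Δ^m f`.
-/

set_option autoImplicit false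

namespace Fermat.Agent.Lib.JSurjPoly

open UpperHalfPlane ModularForm EisensteinSeries Filter Function
open scoped MatrixGroups Manifold Topology ModularForm

open Fermat.Agent.S23 (Nice IsMF IsCF)

local notation "Δ" => ModularForm.discriminant

/-- The `j`-function, written as a quotient. -/
noncomputable def jF (τ : ℍ) : ℂ := E₄ τ ^ 3 / Δ τ

lemma nice_E₄ : Nice (E₄ : ℍ → ℂ) := (IsMF.coe E₄).niceSL

lemma nice_disc : Nice Δ := by
  have h := ((IsCF.coe CuspForm.discriminant).isMF).niceSL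
  rwa [CuspForm.coe_discriminant] at h

lemma disc_slash (γ : SL(2, ℤ)) : Δ ∣[(12 : ℤ)] γ = Δ :=
  SlashInvariantForm.slash_action_generators_SL2Z discriminant_S_invariant
    discriminant_T_invariant γ

lemma disc_smul (γ : SL(2, ℤ)) (τ : ℍ) : Δ (γ • τ) = denom γ τ ^ (12 : ℤ) * Δ τ :=
  (ModularForm.slash_action_eq'_iff 12 Δ γ τ).mp (congrFun (disc_slash γ) τ)

lemma E₄_smul (γ : SL(2, ℤ)) (τ : ℍ) : E₄ (γ • τ) = denom γ τ ^ (4 : ℤ) * E₄ τ := by
  have h : (E₄ : ℍ → ℂ) ∣[(4 : ℤ)] γ = E₄ := by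
    rw [ModularForm.SL_slash]
    exact SlashInvariantFormClass.slash_action_eq E₄ _ ⟨γ, rfl⟩
  exact (ModularForm.slash_action_eq'_iff 4 (E₄ : ℍ → ℂ) γ τ).mp (congrFun h τ)

lemma jF_smul (γ : SL(2, ℤ)) (τ : ℍ) : jF (γ • τ) = jF τ := by
  have hd : (denom γ τ : ℂ) ≠ 0 := denom_ne_zero γ τ
  have hΔ : Δ τ ≠ 0 := discriminant_ne_zero τ
  unfold jF
  rw [E₄_smul, disc_smul]
  have h4 : (denom γ τ : ℂ) ^ (4 : ℤ) = denom γ τ ^ 4 := by norm_cast
  have h12 : (denom γ τ : ℂ) ^ (12 : ℤ) = denom γ τ ^ 12 := by norm_cast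
  rw [h4, h12]
  field_simp

lemma jF_mdiff : MDiff jF := by
  have h1 : MDiff (fun τ : ℍ => E₄ τ ^ 3) := (nice_E₄.pow 3).holo
  have h2 : MDiff Δ := nice_disc.holo
  exact h1.div h2 discriminant_ne_zero

/-- An `SL₂(ℤ)`-invariant function is `1`-periodic. -/
lemma periodic_of_invariant {f : ℍ → ℂ}
    (hinv : ∀ (γ : SL(2, ℤ)) (τ : ℍ), f (γ • τ) = f τ) : Periodic (f ∘ ofComplex) 1 := by
  intro w
  by_cases! hw : 0 < w.im
  · have hw1 : 0 < (w + 1).im := by simpa using hw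
    simp only [comp_apply, ofComplex_apply_of_im_pos hw1, ofComplex_apply_of_im_pos hw]
    rw [← hinv ModularGroup.T ⟨w, hw⟩]
    congr 1
    ext
    rw [UpperHalfPlane.modular_T_smul]
    simp [add_comm]
  · have hw1 : (w + 1).im ≤ 0 := by simpa using hw
    simp [ofComplex_apply_of_im_nonpos hw1, ofComplex_apply_of_im_nonpos hw]

/-- A holomorphic `SL₂(ℤ)`-invariant function bounded at `i∞` is constant. -/
lemma const_of_invariant_bdd {f : ℍ → ℂ} (hf : MDiff f)
    (hinv : ∀ (γ : SL(2, ℤ)) (τ : ℍ), f (γ • τ) = f τ) (hb : IsBoundedAtImInfty f) :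
    ∃ c : ℂ, ∀ τ, f τ = c := by
  have hsl : ∀ γ : SL(2, ℤ), f ∣[(0 : ℤ)] γ = f := by
    intro γ
    ext τ
    rw [ModularForm.slash_action_eq'_iff, hinv γ τ]
    simp
  let G : ModularForm 𝒮ℒ 0 :=
    { toFun := f
      slash_action_eq' := by
        rintro _ ⟨γ, rfl⟩
        exact (ModularForm.SL_slash (f := f) (k := 0) γ).symm.trans (hsl γ)
      holo' := hf
      bdd_at_cusps' := by
        intro c hc
        rw [Subgroup.IsArithmetic.isCusp_iff_isCusp_SL2Z] at hc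
        rw [OnePoint.isBoundedAt_iff_forall_SL2Z hc]
        intro γ _
        rw [hsl γ]
        exact hb }
  obtain ⟨c, hc⟩ := ModularFormClass.levelOne_weight_zero_const G
  exact ⟨c, fun τ => congrFun hc τ⟩

/-- A nice function vanishing at `i∞` is divisible by `Δ` (boundedness of the quotient). -/
lemma bdd_div_disc {F : ℍ → ℂ} (hF : Nice F) (h0 : (qExpansion 1 F).coeff 0 = 0) :
    IsBoundedAtImInfty (fun τ => F τ / Δ τ) := by
  have hv : valueAtInfty F = 0 := by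
    rw [← qExpansion_coeff_zero one_pos hF.analyticAt hF.per]; exact h0
  have h1 := exp_decay_sub_atImInfty one_pos hF.per hF.holo hF.bdd
  simp only [hv, sub_zero, div_one] at h1
  have h2 : F =O[atImInfty] Δ := h1.trans exp_isBigO_discriminant
  have h3 := h2.mul (Asymptotics.isBigO_refl (fun τ : ℍ => (Δ τ)⁻¹) atImInfty)
  have h4 : (fun τ => F τ / Δ τ) =O[atImInfty] (fun _ : ℍ => (1 : ℂ)) := by
    refine h3.congr (fun τ => by rw [div_eq_mul_inv]) (fun τ => ?_)
    exact mul_inv_cancel₀ (discriminant_ne_zero τ)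
  exact h4.trans (Asymptotics.isBigO_of_le _ (fun τ => by simp))

/-- Division by `q · (1 + …)` with integral coefficients preserves a coefficient field. -/
lemma coeff_mem_of_X_mul (K₀ : Subfield ℂ) (U : PowerSeries ℤ)
    (hU : PowerSeries.constantCoeff U = 1) (G H : PowerSeries ℂ)
    (h : PowerSeries.map (Int.castRingHom ℂ) (PowerSeries.X * U) * G = H) (m : ℕ)
    (hH : ∀ n ≤ m + 1, H.coeff n ∈ K₀) : ∀ n ≤ m, G.coeff n ∈ K₀ := by
  intro n
  induction n using Nat.strong_induction_on with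
  | _ n ih =>
    intro hn
    have key : H.coeff (n + 1) =
        ∑ p ∈ Finset.HasAntidiagonal.antidiagonal n, ((U.coeff p.1 : ℤ) : ℂ) * G.coeff p.2 := by
      have hmap : PowerSeries.map (Int.castRingHom ℂ) (PowerSeries.X * U) =
          PowerSeries.X * PowerSeries.map (Int.castRingHom ℂ) U := by
        rw [map_mul, PowerSeries.map_X]
      rw [← h, hmap, mul_assoc, PowerSeries.coeff_succ_X_mul, PowerSeries.coeff_mul]
      refine Finset.sum_congr rfl fun p _ => ?_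
      rw [PowerSeries.coeff_map]
      rfl
    have hmem : (0, n) ∈ Finset.HasAntidiagonal.antidiagonal n := by simp
    rw [← Finset.add_sum_erase _ _ hmem] at key
    have h0 : ((U.coeff 0 : ℤ) : ℂ) = 1 := by
      rw [PowerSeries.coeff_zero_eq_constantCoeff_apply, hU]; simp
    simp only [h0, one_mul] at key
    have hG : G.coeff n = H.coeff (n + 1) -
        ∑ p ∈ (Finset.HasAntidiagonal.antidiagonal n).erase (0, n),
          ((U.coeff p.1 : ℤ) : ℂ) * G.coeff p.2 := by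
      rw [key]; ring
    rw [hG]
    refine K₀.sub_mem (hH _ (by omega)) (K₀.sum_mem fun p hp => ?_)
    obtain ⟨hne, hp'⟩ := Finset.mem_erase.mp hp
    have hsum : p.1 + p.2 = n := Finset.HasAntidiagonal.mem_antidiagonal.mp hp'
    have hlt : p.2 < n := by
      rcases Nat.eq_zero_or_pos p.1 with h1 | h1
      · exfalso; apply hne; ext <;> simp <;> omega
      · omega
    exact K₀.mul_mem (intCast_mem K₀ _) (ih p.2 hlt (by omega))

lemma qExpansion_const_coeff_zero (c : ℂ) : (qExpansion 1 (fun _ : ℍ => c)).coeff 0 = c := by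
  have h : (fun _ : ℍ => c) = c • (1 : ℍ → ℂ) := by funext τ; simp
  rw [h, Nice.one.qExp_smul, qExpansion_one]
  simp

/-- Main induction: an invariant holomorphic function with a pole of order `≤ m` at `i∞` is a
polynomial of degree `≤ m` in `j`, with coefficients in the field of its principal part. -/
theorem exists_coeffs (K₀ : Subfield ℂ) : ∀ (m : ℕ) (f : ℍ → ℂ), MDiff f →
    (∀ (γ : SL(2, ℤ)) (τ : ℍ), f (γ • τ) = f τ) →
    IsBoundedAtImInfty (fun τ => Δ τ ^ m * f τ) →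
    (∀ n ≤ m, (qExpansion 1 (fun τ => Δ τ ^ m * f τ)).coeff n ∈ K₀) →
    ∃ c : ℕ → ℂ, (∀ i, c i ∈ K₀) ∧
      ∀ τ, f τ = ∑ i ∈ Finset.range (m + 1), c i * jF τ ^ i := by
  intro m
  induction m with
  | zero =>
    intro f hf hinv hb hK
    have hb' : IsBoundedAtImInfty f := by simpa using hb
    obtain ⟨c, hc⟩ := const_of_invariant_bdd hf hinv hb'
    have hfc : (fun τ => Δ τ ^ 0 * f τ) = (fun _ : ℍ => c) := by funext τ; simp [hc τ]
    have hcK : c ∈ K₀ := by
      have h := hK 0 le_rfl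
      rwa [hfc, qExpansion_const_coeff_zero] at h
    exact ⟨fun _ => c, fun _ => hcK, fun τ => by simp [hc τ]⟩
  | succ m ih =>
    intro f hf hinv hb hK
    set F : ℍ → ℂ := fun τ => Δ τ ^ (m + 1) * f τ with hFdef
    have hfper := periodic_of_invariant hinv
    have hFnice : Nice F :=
      { per := by
          have h1 := (nice_disc.pow (m + 1)).per
          intro w
          have h1w := h1 w
          have h2w := hfper w
          simp only [comp_apply, Pi.pow_apply] at h1w h2w ⊢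
          simp only [hFdef]
          rw [h1w, h2w]
        holo := (nice_disc.pow (m + 1)).holo.mul hf
        bdd := hb }
    set c₀ : ℂ := (qExpansion 1 F).coeff 0 with hc₀
    have hc₀K : c₀ ∈ K₀ := hK 0 (Nat.zero_le _)
    set E : ℍ → ℂ := (E₄ : ℍ → ℂ) ^ (3 * (m + 1)) with hE
    have hEnice : Nice E := nice_E₄.pow _
    set G : ℍ → ℂ := F - c₀ • E with hG
    have hGnice : Nice G := hFnice.sub (hEnice.smul c₀)
    have hGq : qExpansion 1 G =
        qExpansion 1 F - c₀ • qExpansion 1 (E₄ : ℍ → ℂ) ^ (3 * (m + 1)) := by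
      rw [hG, hFnice.qExp_sub (hEnice.smul c₀), hEnice.qExp_smul, hE, nice_E₄.qExp_pow]
    have hG0 : (qExpansion 1 G).coeff 0 = 0 := by
      have h1 : (qExpansion 1 (E₄ : ℍ → ℂ) ^ (3 * (m + 1))).coeff 0 = 1 := by
        rw [PowerSeries.coeff_zero_eq_constantCoeff_apply, map_pow,
          ← PowerSeries.coeff_zero_eq_constantCoeff_apply, E_qExpansion_coeff_zero _ ⟨2, rfl⟩,
          one_pow]
      rw [hGq, map_sub, PowerSeries.coeff_smul, h1, ← hc₀]
      simp
    set f₁ : ℍ → ℂ := fun τ => f τ - c₀ * jF τ ^ (m + 1) with hf₁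
    have hf₁holo : MDiff f₁ := hf.sub (mdifferentiable_const.mul (jF_mdiff.pow (m + 1)))
    have hf₁inv : ∀ (γ : SL(2, ℤ)) (τ : ℍ), f₁ (γ • τ) = f₁ τ := by
      intro γ τ
      simp only [hf₁]
      rw [hinv, jF_smul]
    have hkey : ∀ τ, Δ τ ^ m * f₁ τ = G τ / Δ τ := by
      intro τ
      have hΔ : Δ τ ≠ 0 := discriminant_ne_zero τ
      have hj : (E₄ τ ^ 3 / Δ τ) ^ (m + 1) * Δ τ ^ (m + 1) = E₄ τ ^ (3 * (m + 1)) := by
        rw [div_pow, div_mul_cancel₀ _ (pow_ne_zero _ hΔ), ← pow_mul]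
      simp only [hf₁, hG, hFdef, hE, jF, Pi.sub_apply, Pi.smul_apply, smul_eq_mul, Pi.pow_apply]
      rw [eq_div_iff hΔ]
      linear_combination (-c₀) * hj
    set F₁ : ℍ → ℂ := fun τ => Δ τ ^ m * f₁ τ with hF₁
    have hb₁ : IsBoundedAtImInfty F₁ := by
      have h := bdd_div_disc hGnice hG0
      have hfun : F₁ = fun τ => G τ / Δ τ := funext hkey
      rw [hfun]
      exact h
    have hF₁nice : Nice F₁ :=
      { per := by
          have h1 := (nice_disc.pow m).per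
          have h2 := periodic_of_invariant hf₁inv
          intro w
          have h1w := h1 w
          have h2w := h2 w
          simp only [comp_apply, Pi.pow_apply] at h1w h2w ⊢
          simp only [hF₁]
          rw [h1w, h2w]
        holo := (nice_disc.pow m).holo.mul hf₁holo
        bdd := hb₁ }
    have hmul : Δ * F₁ = G := by
      funext τ
      have hΔ : Δ τ ≠ 0 := discriminant_ne_zero τ
      simp only [Pi.mul_apply, hF₁, hkey τ]
      field_simp
    have hq : qExpansion 1 Δ * qExpansion 1 F₁ = qExpansion 1 G := by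
      rw [← nice_disc.qExp_mul hF₁nice, hmul]
    obtain ⟨U, hU1, hU⟩ := Fermat.Agent.Lib.DeltaInt.exists_DeltaZ_eq_X_mul
    have hq' : PowerSeries.map (Int.castRingHom ℂ) (PowerSeries.X * U) * qExpansion 1 F₁ =
        qExpansion 1 G := by
      rw [← hU, ← Fermat.Agent.Lib.DeltaInt.qExpansion_discriminant_eq]
      exact hq
    have hGK : ∀ n ≤ m + 1, (qExpansion 1 G).coeff n ∈ K₀ := by
      intro n hn
      rw [hGq, map_sub, PowerSeries.coeff_smul]
      refine K₀.sub_mem (hK n hn) (K₀.mul_mem hc₀K ?_)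
      rw [Fermat.Agent.Lib.DeltaInt.qExpansion_E₄, ← map_pow, PowerSeries.coeff_map, eq_intCast]
      exact intCast_mem K₀ _
    have hK₁ := coeff_mem_of_X_mul K₀ U hU1 _ _ hq' m hGK
    obtain ⟨c, hcK, hc⟩ := ih f₁ hf₁holo hf₁inv hb₁ hK₁
    refine ⟨fun i => if i = m + 1 then c₀ else c i, fun i => ?_, fun τ => ?_⟩
    · by_cases hi : i = m + 1
      · simp only [hi, if_true]; exact hc₀K
      · simp only [hi, if_false]; exact hcK i
    · rw [Finset.sum_range_succ]
      have hsum : ∑ i ∈ Finset.range (m + 1), (if i = m + 1 then c₀ else c i) * jF τ ^ i =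
          ∑ i ∈ Finset.range (m + 1), c i * jF τ ^ i :=
        Finset.sum_congr rfl fun i hi => by
          rw [if_neg (by have := Finset.mem_range.mp hi; omega)]
      rw [hsum, ← hc τ]
      simp only [hf₁, if_true]
      ring

/-- **(A5′)** An `SL₂(ℤ)`-invariant holomorphic function on `ℍ` with `Δ^m f` bounded at `i∞`
is a polynomial of degree `≤ m` in `j = E₄³/Δ`; its coefficients lie in every subfield `K₀`
containing the first `m + 1` `q`-expansion coefficients of `Δ^m f`. -/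
theorem exists_poly_of_invariant_subfield (K₀ : Subfield ℂ) {f : ℍ → ℂ} (hf : MDiff f)
    (hinv : ∀ (γ : SL(2, ℤ)) (τ : ℍ), f (γ • τ) = f τ) (m : ℕ)
    (hbdd : IsBoundedAtImInfty (fun τ => Δ τ ^ m * f τ))
    (hK : ∀ n ≤ m, (qExpansion 1 (fun τ => Δ τ ^ m * f τ)).coeff n ∈ K₀) :
    ∃ p : Polynomial ℂ, p.natDegree ≤ m ∧ (∀ i, p.coeff i ∈ K₀) ∧
      ∀ τ : ℍ, f τ = p.eval (E₄ τ ^ 3 / Δ τ) := by
  obtain ⟨c, hcK, hc⟩ := exists_coeffs K₀ m f hf hinv hbdd hK
  refine ⟨∑ i ∈ Finset.range (m + 1), Polynomial.C (c i) * Polynomial.X ^ i, ?_, ?_, ?_⟩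
  · refine Polynomial.natDegree_sum_le_of_forall_le _ _ (fun i hi => ?_)
    exact (Polynomial.natDegree_C_mul_X_pow_le _ _).trans
      (by have := Finset.mem_range.mp hi; omega)
  · intro i
    rw [Polynomial.finsetSum_coeff]
    refine K₀.sum_mem fun k _ => ?_
    rw [Polynomial.coeff_C_mul, Polynomial.coeff_X_pow]
    split_ifs
    · simpa using hcK k
    · simp
  · intro τ
    rw [hc τ, Polynomial.eval_finsetSum]
    simp [jF]

/-- **(A5)** An `SL₂(ℤ)`-invariant holomorphic function on `ℍ` with `Δ^m f` bounded at `i∞`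
is a polynomial of degree `≤ m` in `j = E₄³/Δ`. -/
theorem exists_poly_of_invariant {f : ℍ → ℂ} (hf : MDiff f)
    (hinv : ∀ (γ : SL(2, ℤ)) (τ : ℍ), f (γ • τ) = f τ) (m : ℕ)
    (hbdd : IsBoundedAtImInfty (fun τ => Δ τ ^ m * f τ)) :
    ∃ p : Polynomial ℂ, p.natDegree ≤ m ∧ ∀ τ : ℍ, f τ = p.eval (E₄ τ ^ 3 / Δ τ) := by
  obtain ⟨p, hp, -, hpe⟩ := exists_poly_of_invariant_subfield ⊤ hf hinv m hbdd
    (fun _ _ => Subfield.mem_top _)
  exact ⟨p, hp, hpe⟩

/-- **(A5)**, denominator-free form. -/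
theorem exists_poly_of_invariant' {f : ℍ → ℂ} (hf : MDiff f)
    (hinv : ∀ (γ : SL(2, ℤ)) (τ : ℍ), f (γ • τ) = f τ) (m : ℕ)
    (hbdd : IsBoundedAtImInfty (fun τ => Δ τ ^ m * f τ)) :
    ∃ p : Polynomial ℂ, p.natDegree ≤ m ∧ ∀ τ : ℍ, f τ * Δ τ ^ p.natDegree =
      ∑ i ∈ Finset.range (p.natDegree + 1),
        p.coeff i * E₄ τ ^ (3 * i) * Δ τ ^ (p.natDegree - i) := by
  obtain ⟨p, hp, hpe⟩ := exists_poly_of_invariant hf hinv m hbdd
  refine ⟨p, hp, fun τ => ?_⟩
  have hΔ : Δ τ ≠ 0 := discriminant_ne_zero τ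
  rw [hpe τ, Polynomial.eval_eq_sum_range, Finset.sum_mul]
  refine Finset.sum_congr rfl fun i hi => ?_
  have hi' : i ≤ p.natDegree := by have := Finset.mem_range.mp hi; omega
  have h1 : Δ τ ^ p.natDegree = Δ τ ^ i * Δ τ ^ (p.natDegree - i) := by
    rw [← pow_add]; congr 1; omega
  rw [h1, div_pow, ← pow_mul]
  field_simp

/-! ### Surjectivity of `j` -/

lemma Nice_tendsto {f : ℍ → ℂ} (hf : Nice f) :
    Tendsto f atImInfty (𝓝 ((qExpansion 1 f).coeff 0)) := by
  have h0 : (qExpansion 1 f).coeff 0 = cuspFunction 1 f 0 := by simp [qExpansion_coeff]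
  have hcomp : (cuspFunction 1 f ∘ fun τ : ℍ => Function.Periodic.qParam 1 τ) = f := by
    funext τ
    simpa using eq_cuspFunction τ one_ne_zero hf.per
  rw [h0]
  simpa [hcomp] using
    hf.analyticAt.continuousAt.tendsto.comp (qParam_tendsto_atImInfty one_pos)

lemma tendsto_E₄ : Tendsto (E₄ : ℍ → ℂ) atImInfty (𝓝 1) := by
  have h := Nice_tendsto nice_E₄
  rwa [E_qExpansion_coeff_zero _ ⟨2, rfl⟩] at h

/-- `|j| → ∞` at `i∞`, in a denominator-free form. -/
lemma exists_im_bound (R : ℝ) : ∃ A : ℝ, ∀ τ : ℍ, A ≤ τ.im → R * ‖Δ τ‖ < ‖E₄ τ‖ ^ 3 := by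
  have h1 : ∀ᶠ τ in atImInfty, dist (E₄ τ) 1 < 1 / 2 :=
    (Metric.tendsto_nhds.mp tendsto_E₄) _ (by norm_num)
  have hΔ : Tendsto Δ atImInfty (𝓝 0) := discriminant_isZeroAtImInfty
  have h2 : ∀ᶠ τ in atImInfty, dist (Δ τ) 0 < 1 / (8 * (|R| + 1)) :=
    (Metric.tendsto_nhds.mp hΔ) _ (by positivity)
  obtain ⟨A, hA⟩ := (atImInfty_mem _).mp (h1.and h2)
  refine ⟨A, fun τ hτ => ?_⟩
  obtain ⟨hE, hD⟩ := hA τ hτ
  rw [dist_eq_norm] at hE
  rw [dist_zero_right] at hD
  have hE' : 1 / 2 < ‖E₄ τ‖ := by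
    have h := norm_sub_norm_le (1 : ℂ) (E₄ τ)
    rw [norm_one, norm_sub_rev] at h
    linarith
  have hE3 : (1 / 8 : ℝ) < ‖E₄ τ‖ ^ 3 := by
    have : (1 / 2 : ℝ) ^ 3 < ‖E₄ τ‖ ^ 3 := pow_lt_pow_left₀ hE' (by norm_num) (by norm_num)
    linarith
  have hpos : (0 : ℝ) < 8 * (|R| + 1) := by positivity
  have hD' : ‖Δ τ‖ * (8 * (|R| + 1)) < 1 := by
    rwa [lt_div_iff₀ hpos] at hD
  have hR : R * ‖Δ τ‖ ≤ |R| * ‖Δ τ‖ :=
    mul_le_mul_of_nonneg_right (le_abs_self R) (norm_nonneg _)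
  nlinarith [norm_nonneg (Δ τ), abs_nonneg R]

lemma jF_norm_gt {R : ℝ} {τ : ℍ} (h : R * ‖Δ τ‖ < ‖E₄ τ‖ ^ 3) : R < ‖jF τ‖ := by
  have hΔ : 0 < ‖Δ τ‖ := norm_pos_iff.mpr (discriminant_ne_zero τ)
  unfold jF
  rw [norm_div, norm_pow, lt_div_iff₀ hΔ]
  exact h

/-- `j` as a function on `ℂ` (junk outside the upper half plane). -/
noncomputable def jC (z : ℂ) : ℂ := jF (ofComplex z)

lemma jC_differentiableOn : DifferentiableOn ℂ jC upperHalfPlaneSet :=
  UpperHalfPlane.mdifferentiable_iff.mp jF_mdiff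

lemma range_jF_eq : Set.range jF = jC '' upperHalfPlaneSet := by
  ext c
  constructor
  · rintro ⟨τ, rfl⟩
    exact ⟨(τ : ℂ), τ.im_pos, by simp [jC]⟩
  · rintro ⟨z, -, rfl⟩
    exact ⟨ofComplex z, rfl⟩

lemma isOpen_range_jF : IsOpen (Set.range jF) := by
  rw [range_jF_eq]
  have han : AnalyticOnNhd ℂ jC upperHalfPlaneSet :=
    jC_differentiableOn.analyticOnNhd isOpen_upperHalfPlaneSet
  have hpre : IsPreconnected upperHalfPlaneSet := (convex_halfSpace_im_gt 0).isPreconnected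
  rcases han.is_constant_or_isOpen hpre with ⟨w, hw⟩ | hopen
  · exfalso
    obtain ⟨A, hA⟩ := exists_im_bound ‖w‖
    have hpos : 0 < (Complex.I * ((max A 1 : ℝ) : ℂ)).im := by
      simp
    let τ : ℍ := ⟨Complex.I * ((max A 1 : ℝ) : ℂ), hpos⟩
    have hτ : A ≤ τ.im := by
      show A ≤ (Complex.I * ((max A 1 : ℝ) : ℂ)).im
      simp
    have h1 := jF_norm_gt (hA τ hτ)
    have h2 : jF τ = w := by
      have := hw (τ : ℂ) τ.im_pos
      simpa [jC] using this
    rw [h2] at h1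
    exact lt_irrefl _ h1
  · exact hopen _ subset_rfl isOpen_upperHalfPlaneSet

open scoped Modular in
lemma isClosed_range_jF : IsClosed (Set.range jF) := by
  rw [← closure_subset_iff_isClosed]
  intro c hc
  obtain ⟨A, hA⟩ := exists_im_bound (‖c‖ + 1)
  set K : Set ℂ := Set.Icc (-(1 / 2 : ℝ)) (1 / 2) ×ℂ Set.Icc (1 / 2 : ℝ) (max A 1) with hK
  have hKc : IsCompact K := isCompact_Icc.reProdIm isCompact_Icc
  have hKU : K ⊆ upperHalfPlaneSet := by
    intro z hz
    have h := hz.2.1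
    show 0 < z.im
    linarith
  have hJK : IsCompact (jC '' K) :=
    hKc.image_of_continuousOn (jC_differentiableOn.continuousOn.mono hKU)
  have hsub : Set.range jF ∩ Metric.ball 0 (‖c‖ + 1) ⊆ jC '' K := by
    rintro _ ⟨⟨τ, rfl⟩, hτ⟩
    obtain ⟨γ, hγ⟩ := ModularGroup.exists_smul_mem_fd τ
    have hj : jF (γ • τ) = jF τ := jF_smul γ τ
    have him : (γ • τ).im < A := by
      by_contra hcon
      rw [not_lt] at hcon
      have h1 := jF_norm_gt (hA _ hcon)
      rw [hj] at h1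
      rw [Metric.mem_ball, dist_zero_right] at hτ
      linarith
    have h3 := ModularGroup.three_le_four_mul_im_sq_of_mem_fd hγ
    have hre : |(γ • τ).re| ≤ 1 / 2 := hγ.2
    have himpos : 0 < (γ • τ).im := (γ • τ).im_pos
    have him2 : 1 / 2 ≤ (γ • τ).im := by nlinarith
    refine ⟨((γ • τ : ℍ) : ℂ), ⟨⟨?_, ?_⟩, ⟨him2, ?_⟩⟩, ?_⟩
    · exact (abs_le.mp hre).1
    · exact (abs_le.mp hre).2
    · exact le_trans him.le (le_max_left A 1)
    · show jF (ofComplex ((γ • τ : ℍ) : ℂ)) = jF τ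
      rw [ofComplex_apply]
      exact hj
  have hc' : c ∈ closure (Set.range jF ∩ Metric.ball 0 (‖c‖ + 1)) := by
    rw [Metric.mem_closure_iff] at hc ⊢
    intro ε hε
    obtain ⟨b, hb, hbd⟩ := hc (min ε 1) (lt_min hε one_pos)
    refine ⟨b, ⟨hb, ?_⟩, lt_of_lt_of_le hbd (min_le_left _ _)⟩
    rw [Metric.mem_ball, dist_zero_right]
    have h1 : dist c b < 1 := lt_of_lt_of_le hbd (min_le_right _ _)
    rw [dist_eq_norm] at h1
    have h2 : ‖b‖ ≤ ‖c‖ + ‖c - b‖ := by
      have := norm_sub_le c (c - b)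
      simpa using this
    linarith
  have hc'' : c ∈ jC '' K := hJK.isClosed.closure_subset_iff.mpr hsub hc'
  rw [range_jF_eq]
  exact Set.image_mono hKU hc''

/-- `j = E₄³/Δ : ℍ → ℂ` is surjective. -/
theorem jF_surjective : Function.Surjective jF := by
  have h : Set.range jF = Set.univ :=
    IsClopen.eq_univ ⟨isClosed_range_jF, isOpen_range_jF⟩ (Set.range_nonempty jF)
  intro c
  have hc : c ∈ Set.range jF := h ▸ Set.mem_univ c
  exact hc

/-- **(A4)** `j : ℍ → ℂ` is surjective, denominator-free form. -/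
theorem exists_j_eq (c : ℂ) : ∃ τ : ℍ, E₄ τ ^ 3 = c * Δ τ := by
  obtain ⟨τ, hτ⟩ := jF_surjective c
  refine ⟨τ, ?_⟩
  have hΔ : Δ τ ≠ 0 := discriminant_ne_zero τ
  unfold jF at hτ
  rw [div_eq_iff hΔ] at hτ
  exact hτ

end Fermat.Agent.Lib.JSurjPoly
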