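import Mathlib
import Fermat.Agent.Lib.JSurjPoly

/-!
# Level-one invariants with coefficients in a subring

Subring version of `Fermat.Agent.Lib.JSurjPoly.exists_poly_of_invariant_subfield`
(the same proof: the induction only uses ring operations on the coefficients).

* `exists_poly_of_invariant_subring`: a holomorphic `SL₂(ℤ)`-invariant function on `ℍ` with
  `Δ^m f` bounded at `i∞` whose first `m + 1` `q`-expansion coefficients of `Δ^m f` lie in a
  subring `A ⊆ ℂ` is a polynomial of degree `≤ m` in `j = E₄³/Δ` with coefficients in `A`.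
* `exists_aeval_of_invariant_subring`: the same with a bundled `Polynomial A`.
-/

set_option autoImplicit false

namespace Fermat.Agent.Lib.JPolySubring

open UpperHalfPlane ModularForm EisensteinSeries Filter Function
open scoped MatrixGroups Manifold Topology ModularForm

open Fermat.Agent.S23 (Nice IsMF IsCF)
open Fermat.Agent.Lib.JSurjPoly

local notation "Δ" => ModularForm.discriminant

/-- Division by `q · (1 + …)` with integral coefficients preserves a coefficient ring. -/
lemma coeff_mem_of_X_mul_subring (A : Subring ℂ) (U : PowerSeries ℤ)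
    (hU : PowerSeries.constantCoeff U = 1) (G H : PowerSeries ℂ)
    (h : PowerSeries.map (Int.castRingHom ℂ) (PowerSeries.X * U) * G = H) (m : ℕ)
    (hH : ∀ n ≤ m + 1, H.coeff n ∈ A) : ∀ n ≤ m, G.coeff n ∈ A := by
  intro n
  induction n using Nat.strong_induction_on with
  | _ n ih =>
    intro hn
    have key : H.coeff (n + 1) =
        ∑ p ∈ Finset.HasAntidiagonal.antidiagonal n, ((U.coeff p.1 : ℤ) : ℂ) * G.coeff p.2 := by
      have hmap : PowerSeries.map (Int.castRingHom ℂ) (PowerSeries.X * U) =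
          PowerSeries.X * PowerSeries.map (Int.castRingHom ℂ) U := by
        rw [map_mul, PowerSeries.map_X]
      rw [← h, hmap, mul_assoc, PowerSeries.coeff_succ_X_mul, PowerSeries.coeff_mul]
      refine Finset.sum_congr rfl fun p _ => ?_
      rw [PowerSeries.coeff_map]
      rfl
    have hmem : (0, n) ∈ Finset.HasAntidiagonal.antidiagonal n := by simp
    rw [← Finset.add_sum_erase _ _ hmem] at key
    have h0 : ((U.coeff 0 : ℤ) : ℂ) = 1 := by
      rw [PowerSeries.coeff_zero_eq_constantCoeff_apply, hU]; simp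
    simp only [h0, one_mul] at key
    have hG : G.coeff n = H.coeff (n + 1) -
        ∑ p ∈ (Finset.HasAntidiagonal.antidiagonal n).erase (0, n),
          ((U.coeff p.1 : ℤ) : ℂ) * G.coeff p.2 := by
      rw [key]; ring
    rw [hG]
    refine A.sub_mem (hH _ (by omega)) (A.sum_mem fun p hp => ?_)
    obtain ⟨hne, hp'⟩ := Finset.mem_erase.mp hp
    have hsum : p.1 + p.2 = n := Finset.HasAntidiagonal.mem_antidiagonal.mp hp'
    have hlt : p.2 < n := by
      rcases Nat.eq_zero_or_pos p.1 with h1 | h1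
      · exfalso; apply hne; ext <;> simp <;> omega
      · omega
    exact A.mul_mem (intCast_mem A _) (ih p.2 hlt (by omega))

/-- Main induction: an invariant holomorphic function with a pole of order `≤ m` at `i∞` is a
polynomial of degree `≤ m` in `j`, with coefficients in the ring of its principal part. -/
theorem exists_coeffs_subring (A : Subring ℂ) : ∀ (m : ℕ) (f : ℍ → ℂ), MDiff f →
    (∀ (γ : SL(2, ℤ)) (τ : ℍ), f (γ • τ) = f τ) →
    IsBoundedAtImInfty (fun τ => Δ τ ^ m * f τ) →
    (∀ n ≤ m, (qExpansion 1 (fun τ => Δ τ ^ m * f τ)).coeff n ∈ A) →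
    ∃ c : ℕ → ℂ, (∀ i, c i ∈ A) ∧
      ∀ τ, f τ = ∑ i ∈ Finset.range (m + 1), c i * jF τ ^ i := by
  intro m
  induction m with
  | zero =>
    intro f hf hinv hb hK
    have hb' : IsBoundedAtImInfty f := by simpa using hb
    obtain ⟨c, hc⟩ := const_of_invariant_bdd hf hinv hb'
    have hfc : (fun τ => Δ τ ^ 0 * f τ) = (fun _ : ℍ => c) := by funext τ; simp [hc τ]
    have hcK : c ∈ A := by
      have h := hK 0 le_rfl
      rwa [hfc, qExpansion_const_coeff_zero] at h
    exact ⟨fun _ => c, fun _ => hcK, fun τ => by simp [hc τ]⟩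
  | succ m ih =>
    intro f hf hinv hb hK
    set F : ℍ → ℂ := fun τ => Δ τ ^ (m + 1) * f τ with hFdef
    have hfper := periodic_of_invariant hinv
    have hFnice : Nice F :=
      { per := by
          have h1 := (nice_disc.pow (m + 1)).per
          intro w
          have h1w := h1 w
          have h2w := hfper w
          simp only [comp_apply, Pi.pow_apply] at h1w h2w ⊢
          simp only [hFdef]
          rw [h1w, h2w]
        holo := (nice_disc.pow (m + 1)).holo.mul hf
        bdd := hb }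
    set c₀ : ℂ := (qExpansion 1 F).coeff 0 with hc₀
    have hc₀K : c₀ ∈ A := hK 0 (Nat.zero_le _)
    set E : ℍ → ℂ := (E₄ : ℍ → ℂ) ^ (3 * (m + 1)) with hE
    have hEnice : Nice E := nice_E₄.pow _
    set G : ℍ → ℂ := F - c₀ • E with hG
    have hGnice : Nice G := hFnice.sub (hEnice.smul c₀)
    have hGq : qExpansion 1 G =
        qExpansion 1 F - c₀ • qExpansion 1 (E₄ : ℍ → ℂ) ^ (3 * (m + 1)) := by
      rw [hG, hFnice.qExp_sub (hEnice.smul c₀), hEnice.qExp_smul, hE, nice_E₄.qExp_pow]
    have hG0 : (qExpansion 1 G).coeff 0 = 0 := by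
      have h1 : (qExpansion 1 (E₄ : ℍ → ℂ) ^ (3 * (m + 1))).coeff 0 = 1 := by
        rw [PowerSeries.coeff_zero_eq_constantCoeff_apply, map_pow,
          ← PowerSeries.coeff_zero_eq_constantCoeff_apply, E_qExpansion_coeff_zero _ ⟨2, rfl⟩,
          one_pow]
      rw [hGq, map_sub, PowerSeries.coeff_smul, h1, ← hc₀]
      simp
    set f₁ : ℍ → ℂ := fun τ => f τ - c₀ * jF τ ^ (m + 1) with hf₁
    have hf₁holo : MDiff f₁ := hf.sub (mdifferentiable_const.mul (jF_mdiff.pow (m + 1)))
    have hf₁inv : ∀ (γ : SL(2, ℤ)) (τ : ℍ), f₁ (γ • τ) = f₁ τ := by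
      intro γ τ
      simp only [hf₁]
      rw [hinv, jF_smul]
    have hkey : ∀ τ, Δ τ ^ m * f₁ τ = G τ / Δ τ := by
      intro τ
      have hΔ : Δ τ ≠ 0 := discriminant_ne_zero τ
      have hj : (E₄ τ ^ 3 / Δ τ) ^ (m + 1) * Δ τ ^ (m + 1) = E₄ τ ^ (3 * (m + 1)) := by
        rw [div_pow, div_mul_cancel₀ _ (pow_ne_zero _ hΔ), ← pow_mul]
      simp only [hf₁, hG, hFdef, hE, jF, Pi.sub_apply, Pi.smul_apply, smul_eq_mul, Pi.pow_apply]
      rw [eq_div_iff hΔ]
      linear_combination (-c₀) * hj
    set F₁ : ℍ → ℂ := fun τ => Δ τ ^ m * f₁ τ with hF₁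
    have hb₁ : IsBoundedAtImInfty F₁ := by
      have h := bdd_div_disc hGnice hG0
      have hfun : F₁ = fun τ => G τ / Δ τ := funext hkey
      rw [hfun]
      exact h
    have hF₁nice : Nice F₁ :=
      { per := by
          have h1 := (nice_disc.pow m).per
          have h2 := periodic_of_invariant hf₁inv
          intro w
          have h1w := h1 w
          have h2w := h2 w
          simp only [comp_apply, Pi.pow_apply] at h1w h2w ⊢
          simp only [hF₁]
          rw [h1w, h2w]
        holo := (nice_disc.pow m).holo.mul hf₁holo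
        bdd := hb₁ }
    have hmul : Δ * F₁ = G := by
      funext τ
      have hΔ : Δ τ ≠ 0 := discriminant_ne_zero τ
      simp only [Pi.mul_apply, hF₁, hkey τ]
      field_simp
    have hq : qExpansion 1 Δ * qExpansion 1 F₁ = qExpansion 1 G := by
      rw [← nice_disc.qExp_mul hF₁nice, hmul]
    obtain ⟨U, hU1, hU⟩ := Fermat.Agent.Lib.DeltaInt.exists_DeltaZ_eq_X_mul
    have hq' : PowerSeries.map (Int.castRingHom ℂ) (PowerSeries.X * U) * qExpansion 1 F₁ =
        qExpansion 1 G := by
      rw [← hU, ← Fermat.Agent.Lib.DeltaInt.qExpansion_discriminant_eq]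
      exact hq
    have hGK : ∀ n ≤ m + 1, (qExpansion 1 G).coeff n ∈ A := by
      intro n hn
      rw [hGq, map_sub, PowerSeries.coeff_smul]
      refine A.sub_mem (hK n hn) (A.mul_mem hc₀K ?_)
      rw [Fermat.Agent.Lib.DeltaInt.qExpansion_E₄, ← map_pow, PowerSeries.coeff_map, eq_intCast]
      exact intCast_mem A _
    have hK₁ := coeff_mem_of_X_mul_subring A U hU1 _ _ hq' m hGK
    obtain ⟨c, hcK, hc⟩ := ih f₁ hf₁holo hf₁inv hb₁ hK₁
    refine ⟨fun i => if i = m + 1 then c₀ else c i, fun i => ?_, fun τ => ?_⟩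
    · by_cases hi : i = m + 1
      · simp only [hi, if_true]; exact hc₀K
      · simp only [hi, if_false]; exact hcK i
    · rw [Finset.sum_range_succ]
      have hsum : ∑ i ∈ Finset.range (m + 1), (if i = m + 1 then c₀ else c i) * jF τ ^ i =
          ∑ i ∈ Finset.range (m + 1), c i * jF τ ^ i :=
        Finset.sum_congr rfl fun i hi => by
          rw [if_neg (by have := Finset.mem_range.mp hi; omega)]
      rw [hsum, ← hc τ]
      simp only [hf₁, if_true]
      ring

/-- **(A5′)** An `SL₂(ℤ)`-invariant holomorphic function on `ℍ` with `Δ^m f` bounded at `i∞`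
is a polynomial of degree `≤ m` in `j = E₄³/Δ`; its coefficients lie in every subring `A`
containing the first `m + 1` `q`-expansion coefficients of `Δ^m f`. -/
theorem exists_poly_of_invariant_subring (A : Subring ℂ) {f : ℍ → ℂ} (hf : MDiff f)
    (hinv : ∀ (γ : SL(2, ℤ)) (τ : ℍ), f (γ • τ) = f τ) (m : ℕ)
    (hbdd : IsBoundedAtImInfty (fun τ => Δ τ ^ m * f τ))
    (hK : ∀ n ≤ m, (qExpansion 1 (fun τ => Δ τ ^ m * f τ)).coeff n ∈ A) :
    ∃ p : Polynomial ℂ, p.natDegree ≤ m ∧ (∀ i, p.coeff i ∈ A) ∧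
      ∀ τ : ℍ, f τ = p.eval (E₄ τ ^ 3 / Δ τ) := by
  obtain ⟨c, hcK, hc⟩ := exists_coeffs_subring A m f hf hinv hbdd hK
  refine ⟨∑ i ∈ Finset.range (m + 1), Polynomial.C (c i) * Polynomial.X ^ i, ?_, ?_, ?_⟩
  · refine Polynomial.natDegree_sum_le_of_forall_le _ _ (fun i hi => ?_)
    exact (Polynomial.natDegree_C_mul_X_pow_le _ _).trans
      (by have := Finset.mem_range.mp hi; omega)
  · intro i
    rw [Polynomial.finsetSum_coeff]
    refine A.sum_mem fun k _ => ?_
    rw [Polynomial.coeff_C_mul, Polynomial.coeff_X_pow]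
    split_ifs
    · simpa using hcK k
    · simp
  · intro τ
    rw [hc τ, Polynomial.eval_finsetSum]
    simp [jF]

/-- Bundled form: the polynomial has coefficients in the subring `A`. -/
theorem exists_aeval_of_invariant_subring (A : Subring ℂ) {f : ℍ → ℂ} (hf : MDiff f)
    (hinv : ∀ (γ : SL(2, ℤ)) (τ : ℍ), f (γ • τ) = f τ) (m : ℕ)
    (hbdd : IsBoundedAtImInfty (fun τ => Δ τ ^ m * f τ))
    (hA : ∀ n ≤ m, (qExpansion 1 (fun τ => Δ τ ^ m * f τ)).coeff n ∈ A) :
    ∃ P : Polynomial A, P.natDegree ≤ m ∧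
      ∀ τ : ℍ, f τ = Polynomial.aeval (E₄ τ ^ 3 / Δ τ) P := by
  obtain ⟨p, hp, hpA, hpe⟩ := exists_poly_of_invariant_subring A hf hinv m hbdd hA
  have hlift : p ∈ Polynomial.lifts A.subtype := by
    rw [Polynomial.lifts_iff_coeff_lifts]
    intro i
    exact ⟨⟨p.coeff i, hpA i⟩, rfl⟩
  obtain ⟨P, hP, hdeg⟩ := Polynomial.exists_degree_eq_of_mem_lifts hlift
  refine ⟨P, ?_, fun τ => ?_⟩
  · have h1 : P.natDegree = p.natDegree := Polynomial.natDegree_eq_natDegree hdeg
    omega
  · rw [hpe τ, ← hP, Polynomial.aeval_def, Polynomial.eval_map]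
    rfl

end Fermat.Agent.Lib.JPolySubring
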