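import Mathlib
import Fermat.Prelude.Def_ModularCurve_X0
import Fermat.Agent.Lib.DeltaInt

/-!
# The analytic `j`-function and the Prelude's formal `jq`

Bridge between Mathlib's analytic level-one objects (`E₄`, `Δ = ModularForm.discriminant`) and
the formal `q`-series of `Fermat.Prelude.Def_ModularCurve_X0` (`eisenstein4`, `etaProd`,
`dedekindEtaUnit`, `jNum`, `jq`, `qExpand`).

Main exports:

* `jFun τ = E₄ τ ^ 3 / Δ τ`, with `jFun_smul`, `jFun_mdifferentiable`, `jFun_mul_discriminant`,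
  `jFun_sub_1728`, `jFun_vadd_one`;
* `qExpansion_E₄_eq : qExpansion 1 E₄ = map (Int.castRingHom ℂ) eisenstein4`;
* `qExpansion_discriminant_eq_X_mul :
    qExpansion 1 Δ = map (Int.castRingHom ℂ) (X * dedekindEtaUnit)` and `DeltaZ_eq_X_mul`;
* `hasSum_jFun`, `hasSum_jFun_int` : `j(τ) = Σ_n (jq.coeff n) q(τ)ⁿ`;
* `hasSum_qExpand`, `hasSum_jFun_dilate_int` : `j(d τ) = Σ_n ((qExpand ℚ d jq).coeff n) q(τ)ⁿ`;
* `tendsto_qParam_mul_jFun` : `q · j → 1` at the cusp.

Tools: `taylorPS` (Taylor series at `0` as a `PowerSeries ℂ`, multiplicative on analytic germs,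
continuous for locally uniform limits), `eulerFun` (the analytic Euler product on the unit disc)
with `taylorPS_eulerFun`, `cuspFunction_comp_qParam`, `qExpansion_comp_qParam`, `jNumFun`.
-/

namespace Fermat.Agent.Lib.JqAnalytic

open Filter Topology

/-- Taylor series at `0` of a function `ℂ → ℂ`, as a formal power series. -/
noncomputable def taylorPS (f : ℂ → ℂ) : PowerSeries ℂ :=
  PowerSeries.mk fun m => ((m.factorial : ℂ))⁻¹ * iteratedDeriv m f 0

lemma coeff_taylorPS (f : ℂ → ℂ) (m : ℕ) :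
    (taylorPS f).coeff m = ((m.factorial : ℂ))⁻¹ * iteratedDeriv m f 0 := by
  simp [taylorPS]

lemma qExpansion_eq_taylorPS (h : ℝ) (f : UpperHalfPlane → ℂ) :
    UpperHalfPlane.qExpansion h f = taylorPS (UpperHalfPlane.cuspFunction h f) := rfl

lemma taylorPS_congr {f g : ℂ → ℂ} (h : f =ᶠ[𝓝 0] g) : taylorPS f = taylorPS g := by
  ext m
  rw [coeff_taylorPS, coeff_taylorPS, h.iteratedDeriv_eq m]

lemma taylorPS_mul {f g : ℂ → ℂ} (hf : AnalyticAt ℂ f 0) (hg : AnalyticAt ℂ g 0) :
    taylorPS (f * g) = taylorPS f * taylorPS g := by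
  ext n
  simp only [coeff_taylorPS, iteratedDeriv_mul hf.contDiffAt hg.contDiffAt, Finset.mul_sum,
    PowerSeries.coeff_mul, Finset.Nat.sum_antidiagonal_eq_sum_range_succ_mk, Nat.succ_eq_add_one]
  refine Finset.sum_congr rfl fun i hi ↦ ?_
  rw [Nat.cast_choose _ (by grind)]
  field_simp [Nat.factorial_ne_zero]

lemma taylorPS_const (c : ℂ) : taylorPS (fun _ => c) = PowerSeries.C c := by
  ext m
  rw [coeff_taylorPS, PowerSeries.coeff_C]
  have h2 : iteratedDeriv m (fun _ : ℂ => c) 0 = if m = 0 then c else 0 := by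
    simpa [ite_apply] using! (iteratedDeriv_const (n := m) (c := c))
  rw [h2]
  by_cases hm : m = 0 <;> simp [hm]

lemma taylorPS_one : taylorPS (1 : ℂ → ℂ) = 1 := by
  have h := taylorPS_const 1
  rw [map_one] at h
  exact h

lemma taylorPS_pow_id (m : ℕ) : taylorPS (fun q : ℂ => q ^ m) = PowerSeries.X ^ m := by
  ext n
  rw [coeff_taylorPS, iteratedDeriv_fun_pow_zero, PowerSeries.coeff_X_pow]
  by_cases h : n = m
  · subst h
    simp [Nat.factorial_ne_zero]
  · simp [h]

lemma taylorPS_id : taylorPS (fun q : ℂ => q) = PowerSeries.X := by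
  have h := taylorPS_pow_id 1
  simpa using h

lemma taylorPS_sub {f g : ℂ → ℂ} (hf : AnalyticAt ℂ f 0) (hg : AnalyticAt ℂ g 0) :
    taylorPS (f - g) = taylorPS f - taylorPS g := by
  ext m
  simp only [coeff_taylorPS, map_sub]
  rw [iteratedDeriv_sub hf.contDiffAt hg.contDiffAt, mul_sub]

lemma taylorPS_pow {f : ℂ → ℂ} (hf : AnalyticAt ℂ f 0) (n : ℕ) :
    taylorPS (f ^ n) = taylorPS f ^ n := by
  induction n with
  | zero => rw [pow_zero, pow_zero, taylorPS_one]
  | succ n ih => rw [pow_succ, pow_succ, taylorPS_mul (hf.pow n) hf, ih]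

lemma taylorPS_prod {ι : Type*} (s : Finset ι) (f : ι → ℂ → ℂ)
    (hf : ∀ i ∈ s, AnalyticAt ℂ (f i) 0) :
    taylorPS (∏ i ∈ s, f i) = ∏ i ∈ s, taylorPS (f i) := by
  classical
  induction s using Finset.induction_on with
  | empty => rw [Finset.prod_empty, Finset.prod_empty, taylorPS_one]
  | insert a s ha ih =>
    rw [Finset.prod_insert ha, Finset.prod_insert ha,
      taylorPS_mul (hf a (Finset.mem_insert_self a s))
        (Finset.analyticAt_prod _ fun i hi => hf i (Finset.mem_insert_of_mem hi)),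
      ih fun i hi => hf i (Finset.mem_insert_of_mem hi)]

/-- Taylor coefficients at `0` are continuous for locally uniform convergence of holomorphic
functions. -/
lemma tendsto_coeff_taylorPS {ι : Type*} {φ : Filter ι} {F : ι → ℂ → ℂ} {f : ℂ → ℂ} {U : Set ℂ}
    (hF : TendstoLocallyUniformlyOn F f φ U) (hFd : ∀ᶠ n in φ, DifferentiableOn ℂ (F n) U)
    (hU : IsOpen U) (h0 : (0 : ℂ) ∈ U) (k : ℕ) :
    Tendsto (fun n => (taylorPS (F n)).coeff k) φ (𝓝 ((taylorPS f).coeff k)) := by
  have key : ∀ k : ℕ, TendstoLocallyUniformlyOn (fun n => iteratedDeriv k (F n))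
      (iteratedDeriv k f) φ U ∧ ∀ᶠ n in φ, DifferentiableOn ℂ (iteratedDeriv k (F n)) U := by
    intro k
    induction k with
    | zero =>
      simp only [iteratedDeriv_zero]
      exact ⟨hF, hFd⟩
    | succ k ih =>
      refine ⟨?_, ?_⟩
      · have h := ih.1.deriv ih.2 hU
        simp only [iteratedDeriv_succ]
        exact h
      · filter_upwards [ih.2] with n hn
        rw [iteratedDeriv_succ]
        exact hn.deriv hU
  have h1 := (key k).1.tendsto_at h0
  simp only [coeff_taylorPS]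
  exact h1.const_mul _

/-! ### The Euler product on the unit disc -/

/-- The analytic Euler product `∏ (1 - q^(n+1))` as a function on `ℂ` (junk outside the
open unit disc). -/
noncomputable def eulerFun (q : ℂ) : ℂ := ∏' n : ℕ, (1 - q ^ (n + 1))

lemma eulerFun_differentiableOn : DifferentiableOn ℂ eulerFun (Metric.ball (0 : ℂ) 1) :=
  ModularForm.differentiableOn_tprod_one_sub_pow

lemma eulerFun_analyticAt {q : ℂ} (hq : ‖q‖ < 1) : AnalyticAt ℂ eulerFun q :=
  eulerFun_differentiableOn.analyticAt (Metric.isOpen_ball.mem_nhds (by simpa using hq))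

lemma eulerFun_zero : eulerFun 0 = 1 := by
  simp [eulerFun]

lemma eulerFun_ne_zero {q : ℂ} (hq : ‖q‖ < 1) : eulerFun q ≠ 0 := by
  unfold eulerFun
  simp_rw [sub_eq_add_neg]
  refine tprod_one_add_ne_zero_of_summable (f := fun n ↦ -q ^ (n + 1)) ?_ ?_
  · intro i h
    have h1 : q ^ (i + 1) = 1 := by
      have := h
      linear_combination -this
    have h2 : ‖q‖ ^ (i + 1) = 1 := by rw [← norm_pow, h1, norm_one]
    have h3 : ‖q‖ ^ (i + 1) < 1 := pow_lt_one₀ (norm_nonneg _) hq (by omega)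
    linarith
  · simpa using (summable_nat_add_iff 1).mpr (summable_geometric_of_lt_one (norm_nonneg _) hq)

open scoped PowerSeries.WithPiTopology in
/-- The Taylor series of the analytic Euler product is the formal Euler product of the
Prelude. -/
theorem taylorPS_eulerFun :
    taylorPS eulerFun = PowerSeries.map (Int.castRingHom ℂ) ModularCurve.etaProd := by
  ext k
  -- analytic side
  have hF : TendstoLocallyUniformlyOn (fun (s : Finset ℕ) (q : ℂ) => ∏ n ∈ s, (1 - q ^ (n + 1)))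
      eulerFun atTop (Metric.ball (0 : ℂ) 1) :=
    ModularForm.multipliableLocallyUniformlyOn_one_sub_pow.hasProdLocallyUniformlyOn
  have hFd : ∀ᶠ s : Finset ℕ in atTop,
      DifferentiableOn ℂ (fun q : ℂ => ∏ n ∈ s, (1 - q ^ (n + 1))) (Metric.ball (0 : ℂ) 1) :=
    .of_forall fun s => by fun_prop
  have h1 := tendsto_coeff_taylorPS hF hFd Metric.isOpen_ball (Metric.mem_ball_self one_pos) k
  have h2 : ∀ s : Finset ℕ, taylorPS (fun q : ℂ => ∏ n ∈ s, (1 - q ^ (n + 1))) =
      PowerSeries.map (Int.castRingHom ℂ) (∏ n ∈ s, (1 - PowerSeries.X ^ (n + 1))) := by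
    intro s
    have e : (fun q : ℂ => ∏ n ∈ s, (1 - q ^ (n + 1))) =
        ∏ n ∈ s, ((1 : ℂ → ℂ) - fun q : ℂ => q ^ (n + 1)) := by
      funext q
      simp [Finset.prod_apply]
    rw [e, taylorPS_prod _ _ (fun i _ => by
      exact analyticAt_const.sub (analyticAt_id.pow _)), map_prod]
    refine Finset.prod_congr rfl fun n _ => ?_
    rw [taylorPS_sub (by exact analyticAt_const) (by exact analyticAt_id.pow _), taylorPS_one,
      taylorPS_pow_id]
    simp
  simp only [h2] at h1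
  -- formal side
  have h3 : Tendsto (fun s : Finset ℕ => ∏ n ∈ s, ((1 : PowerSeries ℤ) - PowerSeries.X ^ (n + 1)))
      atTop (𝓝 ModularCurve.etaProd) :=
    (PowerSeries.WithPiTopology.multipliable_one_sub_X_pow ℤ).hasProd
  have h4 := ((PowerSeries.WithPiTopology.continuous_coeff ℤ k).tendsto _).comp h3
  have h5 : Tendsto (fun s : Finset ℕ => (PowerSeries.map (Int.castRingHom ℂ)
      (∏ n ∈ s, (1 - PowerSeries.X ^ (n + 1)))).coeff k) atTop
      (𝓝 ((PowerSeries.map (Int.castRingHom ℂ) ModularCurve.etaProd).coeff k)) := by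
    have hc : Continuous (fun z : ℤ => (z : ℂ)) := continuous_of_discreteTopology
    have := (hc.tendsto _).comp h4
    simp only [PowerSeries.coeff_map, eq_intCast]
    exact this
  exact tendsto_nhds_unique h1 h5


/-! ### Functions of `q` on the upper half plane -/

open UpperHalfPlane ModularForm EisensteinSeries
open scoped MatrixGroups Manifold

local notation "𝕢" => Function.Periodic.qParam

/-- The cusp function of `τ ↦ G (q(τ))` is `G` on the open unit disc, if `G` is continuous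
at `0`. -/
lemma cuspFunction_comp_qParam {h : ℝ} (hh : 0 < h) {G : ℂ → ℂ} (hG : ContinuousAt G 0)
    {q : ℂ} (hq : ‖q‖ < 1) :
    cuspFunction h (fun τ : ℍ => G (𝕢 h τ)) q = G q := by
  have key : ∀ q : ℂ, ‖q‖ < 1 → q ≠ 0 →
      ((fun τ : ℍ => G (𝕢 h τ)) ∘ ofComplex) (Function.Periodic.invQParam h q) = G q := by
    intro q hq hq0
    have him := Function.Periodic.im_invQParam_pos_of_norm_lt_one hh hq hq0
    simp only [Function.comp_apply, ofComplex_apply_of_im_pos him]
    rw [Function.Periodic.qParam_right_inv hh.ne' hq0]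
  by_cases hq0 : q = 0
  · subst hq0
    unfold cuspFunction Function.Periodic.cuspFunction
    rw [Function.update_self]
    apply Tendsto.limUnder_eq
    have hG' : Tendsto G (𝓝[≠] 0) (𝓝 (G 0)) := hG.tendsto.mono_left nhdsWithin_le_nhds
    refine hG'.congr' ?_
    filter_upwards [self_mem_nhdsWithin,
      nhdsWithin_le_nhds (Metric.ball_mem_nhds (0 : ℂ) one_pos)] with q hq0 hq1
    exact (key q (by simpa using hq1) hq0).symm
  · rw [cuspFunction, Function.Periodic.cuspFunction_eq_of_nonzero h _ hq0]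
    exact key q hq hq0

/-- The `q`-expansion of `τ ↦ G (q(τ))` is the Taylor series of `G`. -/
lemma qExpansion_comp_qParam {h : ℝ} (hh : 0 < h) {G : ℂ → ℂ} (hG : ContinuousAt G 0) :
    qExpansion h (fun τ : ℍ => G (𝕢 h τ)) = taylorPS G := by
  rw [qExpansion_eq_taylorPS]
  apply taylorPS_congr
  filter_upwards [Metric.ball_mem_nhds (0 : ℂ) one_pos] with q hq
  exact cuspFunction_comp_qParam hh hG (by simpa using hq)

/-- `Δ(τ) = q · (∏ (1 - q^(n+1)))^24`. -/
lemma discriminant_eq_q_mul_eulerFun (τ : ℍ) :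
    ModularForm.discriminant τ = 𝕢 1 τ * eulerFun (𝕢 1 τ) ^ 24 := by
  rw [discriminant_eq_q_prod, eulerFun]
  congr 1
  exact (ModularForm.multipliable_one_sub_pow
    (by simpa using UpperHalfPlane.norm_qParam_lt_one 1 τ)).tprod_pow 24

/-- **(J2)** The `q`-expansion of `Δ` is `q · ∏ (1 - q^(n+1))^24` with the FORMAL product of the
Prelude. -/
theorem qExpansion_discriminant_eq_X_mul :
    qExpansion 1 ModularForm.discriminant =
      PowerSeries.map (Int.castRingHom ℂ) (PowerSeries.X * ModularCurve.dedekindEtaUnit) := by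
  have h0 : (ModularForm.discriminant : ℍ → ℂ) =
      fun τ : ℍ => (fun q : ℂ => q * eulerFun q ^ 24) (𝕢 1 τ) := by
    funext τ
    exact discriminant_eq_q_mul_eulerFun τ
  have hE : AnalyticAt ℂ eulerFun 0 := eulerFun_analyticAt (by simp)
  have hG : AnalyticAt ℂ (fun q : ℂ => q * eulerFun q ^ 24) 0 := analyticAt_id.mul (hE.pow 24)
  rw [h0, qExpansion_comp_qParam one_pos hG.continuousAt]
  have e : (fun q : ℂ => q * eulerFun q ^ 24) = (fun q : ℂ => q) * eulerFun ^ 24 := by
    funext q; simp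
  rw [e, taylorPS_mul (f := fun q : ℂ => q) analyticAt_id (hE.pow 24), taylorPS_pow hE,
    taylorPS_id, taylorPS_eulerFun,
    ModularCurve.dedekindEtaUnit, map_mul, map_pow, PowerSeries.map_X]


/-- **(J1)** The `q`-expansion of `E₄` is the integral series `eisenstein4` of the Prelude. -/
theorem qExpansion_E₄_eq :
    qExpansion 1 E₄ = PowerSeries.map (Int.castRingHom ℂ) ModularCurve.eisenstein4 := by
  rw [Fermat.Agent.Lib.DeltaInt.qExpansion_E₄]
  congr 1
  ext n
  have h240 : (240 : PowerSeries ℤ) = ((240 : ℤ) : PowerSeries ℤ) := by norm_num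
  rw [map_add, h240, Fermat.Agent.Lib.DeltaInt.coeff_intCast_mul, PowerSeries.coeff_one,
    Fermat.Agent.Lib.DeltaInt.coeff_sigmaSeries, ModularCurve.eisenstein4, PowerSeries.coeff_mk]
  by_cases hn : n = 0
  · subst hn; simp
  · simp only [hn, if_false, zero_add]
    rw [ArithmeticFunction.sigma_apply]
    push_cast
    rfl

/-- Corollary of (J2): the integral `Δ`-series of `Lib.DeltaInt` is the Prelude's formal
product. -/
theorem DeltaZ_eq_X_mul :
    Fermat.Agent.Lib.DeltaInt.DeltaZ = PowerSeries.X * ModularCurve.dedekindEtaUnit := by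
  have h := qExpansion_discriminant_eq_X_mul
  rw [Fermat.Agent.Lib.DeltaInt.qExpansion_discriminant_eq] at h
  exact PowerSeries.map_injective (Int.castRingHom ℂ) Int.cast_injective h

/-! ### The analytic `j`-function -/

/-- **(J0)** The analytic `j`-invariant `j(τ) = E₄(τ)³ / Δ(τ)` on the upper half plane. -/
noncomputable def jFun (τ : ℍ) : ℂ := E₄ τ ^ 3 / ModularForm.discriminant τ

lemma jFun_mul_discriminant (τ : ℍ) : jFun τ * ModularForm.discriminant τ = E₄ τ ^ 3 := by
  rw [jFun, div_mul_cancel₀ _ (discriminant_ne_zero τ)]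

lemma jFun_sub_1728 (τ : ℍ) : (jFun τ - 1728) * ModularForm.discriminant τ = E₆ τ ^ 2 := by
  rw [sub_mul, jFun_mul_discriminant, discriminant_eq_E₄_cube_sub_E₆_sq τ]
  ring

lemma jFun_smul (γ : SL(2, ℤ)) (τ : ℍ) : jFun (γ • τ) = jFun τ := by
  have i4 : SlashInvariantFormClass (ModularForm 𝒮ℒ 4) (CongruenceSubgroup.Gamma 1) 4 :=
    CongruenceSubgroup.Gamma_one_coe_eq_SL ▸ inferInstance
  have i12 : SlashInvariantFormClass (CuspForm 𝒮ℒ 12) (CongruenceSubgroup.Gamma 1) 12 :=
    CongruenceSubgroup.Gamma_one_coe_eq_SL ▸ inferInstance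
  have h4 := SlashInvariantForm.slash_action_eqn_SL'' E₄ (CongruenceSubgroup.mem_Gamma_one γ) τ
  have h12 := SlashInvariantForm.slash_action_eqn_SL'' CuspForm.discriminant
    (CongruenceSubgroup.mem_Gamma_one γ) τ
  rw [CuspForm.coe_discriminant] at h12
  have hd : denom γ τ ≠ 0 := denom_ne_zero _ _
  rw [jFun, jFun, h4, h12]
  have hΔ := discriminant_ne_zero τ
  field_simp

lemma jFun_mdifferentiable : MDiff jFun := by
  rw [UpperHalfPlane.mdifferentiable_iff]
  have h4 := UpperHalfPlane.mdifferentiable_iff.mp (ModularFormClass.holo E₄)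
  have h12 := UpperHalfPlane.mdifferentiable_iff.mp (ModularFormClass.holo CuspForm.discriminant)
  rw [CuspForm.coe_discriminant] at h12
  have : jFun ∘ ofComplex = fun z => (E₄ ∘ ofComplex) z ^ 3 /
      (ModularForm.discriminant ∘ ofComplex) z := by
    funext z; simp [jFun]
  rw [this]
  exact (h4.pow 3).div h12 fun z _ => discriminant_ne_zero _


/-! ### The Laurent expansion of `j` -/

lemma E₄_eq_cuspFunction (τ : ℍ) : cuspFunction 1 E₄ (𝕢 1 τ) = E₄ τ :=
  SlashInvariantFormClass.eq_cuspFunction E₄ τ one_mem_strictPeriods_SL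
    one_ne_zero

lemma cuspFunction_E₄_differentiableOn :
    DifferentiableOn ℂ (cuspFunction 1 E₄) (Metric.ball (0 : ℂ) 1) := fun q hq =>
  (ModularFormClass.differentiableAt_cuspFunction E₄ one_pos
    one_mem_strictPeriods_SL (by simpa using hq)).differentiableWithinAt

/-- The function `q ↦ q · j` on the unit disc: `E₄(q)³ / ∏ (1 - q^(n+1))^24`. -/
noncomputable def jNumFun (q : ℂ) : ℂ := cuspFunction 1 E₄ q ^ 3 / eulerFun q ^ 24

lemma jNumFun_differentiableOn : DifferentiableOn ℂ jNumFun (Metric.ball (0 : ℂ) 1) := by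
  unfold jNumFun
  exact (cuspFunction_E₄_differentiableOn.pow 3).div (eulerFun_differentiableOn.pow 24)
    fun q hq => pow_ne_zero _ (eulerFun_ne_zero (by simpa using hq))

lemma jNumFun_qParam (τ : ℍ) : jNumFun (𝕢 1 τ) = 𝕢 1 τ * jFun τ := by
  have hq : 𝕢 1 τ ≠ 0 := Function.Periodic.qParam_ne_zero _
  have he : eulerFun (𝕢 1 τ) ≠ 0 :=
    eulerFun_ne_zero (by simpa using UpperHalfPlane.norm_qParam_lt_one 1 τ)
  rw [jNumFun, jFun, E₄_eq_cuspFunction, discriminant_eq_q_mul_eulerFun]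
  field_simp

/-- The Taylor series of `q · j` is the integral series `jNum` of the Prelude. -/
theorem taylorPS_jNumFun :
    taylorPS jNumFun = PowerSeries.map (Int.castRingHom ℂ) ModularCurve.jNum := by
  have hE : AnalyticAt ℂ eulerFun 0 := eulerFun_analyticAt (by simp)
  have h4 : AnalyticAt ℂ (cuspFunction 1 E₄) 0 :=
    cuspFunction_E₄_differentiableOn.analyticAt (Metric.ball_mem_nhds _ one_pos)
  have hJ : AnalyticAt ℂ jNumFun 0 :=
    jNumFun_differentiableOn.analyticAt (Metric.ball_mem_nhds _ one_pos)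
  have h1 : jNumFun * eulerFun ^ 24 =ᶠ[𝓝 0] cuspFunction 1 E₄ ^ 3 := by
    filter_upwards [Metric.ball_mem_nhds (0 : ℂ) one_pos] with q hq
    have he : eulerFun q ≠ 0 := eulerFun_ne_zero (by simpa using hq)
    simp only [Pi.mul_apply, Pi.pow_apply, jNumFun]
    field_simp
  have h2 := taylorPS_congr h1
  rw [taylorPS_mul hJ (hE.pow 24), taylorPS_pow hE, taylorPS_pow h4, taylorPS_eulerFun,
    ← qExpansion_eq_taylorPS, qExpansion_E₄_eq, ← map_pow, ← map_pow] at h2
  have h3 : PowerSeries.map (Int.castRingHom ℂ) (ModularCurve.etaProd ^ 24) *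
      PowerSeries.map (Int.castRingHom ℂ) ModularCurve.dedekindEtaUnitInv = 1 := by
    rw [← map_mul]
    have := ModularCurve.dedekindEtaUnit_mul_inv
    rw [ModularCurve.dedekindEtaUnit] at this
    rw [this, map_one]
  calc taylorPS jNumFun
      = taylorPS jNumFun * (PowerSeries.map (Int.castRingHom ℂ) (ModularCurve.etaProd ^ 24) *
        PowerSeries.map (Int.castRingHom ℂ) ModularCurve.dedekindEtaUnitInv) := by
          rw [h3, mul_one]
    _ = PowerSeries.map (Int.castRingHom ℂ) (ModularCurve.eisenstein4 ^ 3) *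
        PowerSeries.map (Int.castRingHom ℂ) ModularCurve.dedekindEtaUnitInv := by
          rw [← mul_assoc, h2]
    _ = PowerSeries.map (Int.castRingHom ℂ) ModularCurve.jNum := by
          rw [ModularCurve.jNum, map_mul]

/-- `q · j = Σ_{n ≥ 0} jNum_n qⁿ` on the open unit disc. -/
theorem hasSum_jNumFun {q : ℂ} (hq : ‖q‖ < 1) :
    HasSum (fun n : ℕ => ((ModularCurve.jNum.coeff n : ℤ) : ℂ) * q ^ n) (jNumFun q) := by
  have h := Complex.hasSum_taylorSeries_on_ball jNumFun_differentiableOn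
    (z := q) (by simpa using hq)
  have hc : ∀ n : ℕ, ((ModularCurve.jNum.coeff n : ℤ) : ℂ) =
      ((n.factorial : ℂ))⁻¹ * iteratedDeriv n jNumFun 0 := by
    intro n
    rw [← coeff_taylorPS, taylorPS_jNumFun, PowerSeries.coeff_map]
    rfl
  have hfun : (fun n : ℕ => ((ModularCurve.jNum.coeff n : ℤ) : ℂ) * q ^ n) =
      fun n : ℕ => ((n.factorial : ℂ))⁻¹ • (q - 0) ^ n • iteratedDeriv n jNumFun 0 := by
    funext n
    rw [hc n, sub_zero, smul_eq_mul, smul_eq_mul]
    ring
  rw [hfun]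
  exact h

/-- The coefficients of the Prelude's `jq` are those of `jNum`, shifted by one. -/
lemma coeff_jq_natCast_sub_one (n : ℕ) :
    ModularCurve.jq.coeff ((n : ℤ) - 1) = ((ModularCurve.jNum.coeff n : ℤ) : ℚ) := by
  rw [ModularCurve.jq, HahnSeries.coeff_single_mul, one_mul, sub_neg_eq_add, sub_add_cancel,
    HahnSeries.ofPowerSeries_apply_coeff, ModularCurve.jNumQ, PowerSeries.coeff_map]
  rfl

/-- **(J3)** `q · j(τ) = Σ_{n ≥ 0} c_{n-1} qⁿ` with `c_k` the coefficients of the Prelude's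
formal Laurent series `jq`. -/
theorem hasSum_jFun (τ : ℍ) :
    HasSum (fun n : ℕ => ((ModularCurve.jq.coeff ((n : ℤ) - 1) : ℚ) : ℂ) * 𝕢 1 τ ^ n)
      (𝕢 1 τ * jFun τ) := by
  have h := hasSum_jNumFun (q := 𝕢 1 τ) (by simpa using UpperHalfPlane.norm_qParam_lt_one 1 τ)
  rw [jNumFun_qParam] at h
  have hfun : (fun n : ℕ => ((ModularCurve.jq.coeff ((n : ℤ) - 1) : ℚ) : ℂ) * 𝕢 1 τ ^ n) =
      fun n : ℕ => ((ModularCurve.jNum.coeff n : ℤ) : ℂ) * 𝕢 1 τ ^ n := by
    funext n
    rw [coeff_jq_natCast_sub_one]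
    push_cast
    rfl
  rw [hfun]
  exact h


/-- **(J3, `ℤ`-indexed)** `j(τ) = Σ_{n ∈ ℤ} c_n qⁿ` with `c_n` the coefficients of the Prelude's
formal Laurent series `jq` (which vanish for `n < -1`). -/
theorem hasSum_jFun_int (τ : ℍ) :
    HasSum (fun n : ℤ => ((ModularCurve.jq.coeff n : ℚ) : ℂ) * 𝕢 1 τ ^ n) (jFun τ) := by
  have hq : 𝕢 1 τ ≠ 0 := Function.Periodic.qParam_ne_zero _
  have hg : Function.Injective (fun n : ℕ => (n : ℤ) - 1) := fun a b hab => by
    simpa using hab
  refine (hg.hasSum_iff ?_).mp ?_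
  · intro k hk
    have hk' : k < -1 := by
      by_contra hcon
      exact hk ⟨(k + 1).toNat, by simp only []; omega⟩
    rw [ModularCurve.coeff_jq_of_lt hk']
    simp
  · have h := (hasSum_jFun τ).mul_right (𝕢 1 τ)⁻¹
    have e1 : 𝕢 1 τ * jFun τ * (𝕢 1 τ)⁻¹ = jFun τ := by field_simp
    rw [e1] at h
    have hfun : ((fun n : ℤ => ((ModularCurve.jq.coeff n : ℚ) : ℂ) * 𝕢 1 τ ^ n) ∘
        fun n : ℕ => (n : ℤ) - 1) = fun n : ℕ =>
        ((ModularCurve.jq.coeff ((n : ℤ) - 1) : ℚ) : ℂ) * 𝕢 1 τ ^ n * (𝕢 1 τ)⁻¹ := by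
      funext n
      simp only [Function.comp_apply]
      rw [zpow_sub₀ hq, zpow_natCast, zpow_one]
      ring
    rw [hfun]
    exact h

/-- `q(d·τ) = q(τ)^d`. -/
lemma qParam_dilate (d : ℕ) (τ τ' : ℍ) (h : (τ' : ℂ) = (d : ℂ) * (τ : ℂ)) :
    𝕢 1 τ' = 𝕢 1 τ ^ d := by
  simp only [Function.Periodic.qParam, h, ← Complex.exp_nat_mul]
  congr 1
  push_cast
  ring

/-- Dilation of `q`-expansions: if `f(τ) = Σ_{n ∈ ℤ} L_n q(τ)ⁿ` at the point `τ' = d·τ`,
then `f(d·τ) = Σ_n (qExpand d L)_n q(τ)ⁿ`, with `qExpand` the Prelude's substitution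
`q ↦ q^d` on formal Laurent series. -/
theorem hasSum_qExpand (d : ℕ) [NeZero d] (L : LaurentSeries ℚ) (q : ℂ) (a : ℂ)
    (h : HasSum (fun n : ℤ => ((L.coeff n : ℚ) : ℂ) * (q ^ d) ^ n) a) :
    HasSum (fun n : ℤ => (((ModularCurve.qExpand ℚ d L).coeff n : ℚ) : ℂ) * q ^ n) a := by
  have hd : (d : ℤ) ≠ 0 := by exact_mod_cast NeZero.ne d
  have hg : Function.Injective (fun k : ℤ => (d : ℤ) * k) := mul_right_injective₀ hd
  refine (hg.hasSum_iff ?_).mp ?_
  · intro n hn
    have hn' : ¬ (d : ℤ) ∣ n := fun ⟨c, hc⟩ => hn ⟨c, hc.symm⟩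
    rw [ModularCurve.qExpand_coeff_of_not_dvd d L hn']
    simp
  · have hfun : ((fun n : ℤ => (((ModularCurve.qExpand ℚ d L).coeff n : ℚ) : ℂ) * q ^ n) ∘
        fun k : ℤ => (d : ℤ) * k) = fun n : ℤ => ((L.coeff n : ℚ) : ℂ) * (q ^ d) ^ n := by
      funext k
      simp only [Function.comp_apply]
      rw [ModularCurve.qExpand_coeff_mul, zpow_mul, zpow_natCast]
    rw [hfun]
    exact h

/-- **(J4)** `j(d·τ) = Σ_{n ∈ ℤ} c_n qⁿ` with `c_n` the coefficients of the Prelude's
`qExpand ℚ d jq` (in particular of `jqN d`); `τ'` is any point of `ℍ` with `τ' = d·τ`. -/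
theorem hasSum_jFun_dilate_int (d : ℕ) [NeZero d] (τ τ' : ℍ) (h : (τ' : ℂ) = (d : ℂ) * (τ : ℂ)) :
    HasSum (fun n : ℤ => (((ModularCurve.qExpand ℚ d ModularCurve.jq).coeff n : ℚ) : ℂ) *
      𝕢 1 τ ^ n) (jFun τ') := by
  refine hasSum_qExpand d ModularCurve.jq (𝕢 1 τ) _ ?_
  rw [← qParam_dilate d τ τ' h]
  exact hasSum_jFun_int τ'


/-! ### Behaviour at the cusp -/

lemma jNumFun_zero : jNumFun 0 = 1 := by
  have h := coeff_taylorPS jNumFun 0
  rw [taylorPS_jNumFun, PowerSeries.coeff_map, PowerSeries.coeff_zero_eq_constantCoeff,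
    ModularCurve.constantCoeff_jNum] at h
  simpa using h.symm

/-- `q · j(τ) → 1` as `Im τ → ∞`: `j` has a simple pole at the cusp with residue `1`. -/
theorem tendsto_qParam_mul_jFun :
    Tendsto (fun τ : ℍ => 𝕢 1 τ * jFun τ) atImInfty (𝓝 1) := by
  have hJ : ContinuousAt jNumFun 0 :=
    (jNumFun_differentiableOn.differentiableAt (Metric.ball_mem_nhds _ one_pos)).continuousAt
  have h := hJ.tendsto.comp (UpperHalfPlane.qParam_tendsto_atImInfty one_pos)
  rw [jNumFun_zero] at h
  refine h.congr fun τ => ?_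
  simp only [Function.comp_apply]
  exact jNumFun_qParam τ

/-- `j(τ + 1) = j(τ)`. -/
lemma jFun_vadd_one (τ : ℍ) : jFun ((1 : ℝ) +ᵥ τ) = jFun τ := by
  have h := jFun_smul ModularGroup.T τ
  rwa [UpperHalfPlane.modular_T_smul] at h

end Fermat.Agent.Lib.JqAnalytic
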