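/-
Functions on `ℍ` with `A`-integral expansions at the cusp `i∞`, for a subring `A ⊆ ℂ`
(owner: helper68).

* `coeffSubring A` : Laurent series over `ℂ` with all coefficients in `A`;
* `intCusp A N`    : the subring of functions `ℍ → ℂ` that are holomorphic, `N`-periodic,
  meromorphic at `i∞`, with all coefficients of the expansion in `u = exp(2πiτ/N)` in `A`;
* `laurentInt A N` : the expansion `intCusp A N →+* LaurentSeries A` (injective);
* period descent   : a `1`-periodic element of `intCusp A N` lies in `intCusp A 1`;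
* `exists_aeval_of_invariant` : an `SL₂(ℤ)`-invariant element of `intCusp A N` is a polynomial
  in `j = E₄³/Δ` with coefficients in `A`.
-/
import Mathlib
import Fermat.Agent.Lib.CuspLaurent
import Fermat.Agent.Lib.DeltaLevelN
import Fermat.Agent.Lib.JqAnalytic
import Fermat.Agent.Lib.JPolySubring

set_option autoImplicit false

noncomputable section

namespace Fermat.Agent.Lib.CuspInvariant

open UpperHalfPlane Filter Topology
open scoped MatrixGroups Manifold Real
open Fermat.Agent.Lib.CuspLaurent Fermat.Agent.Lib.DeltaLevelN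

local notation "𝕢" => Function.Periodic.qParam
local notation "Δ" => ModularForm.discriminant

/-! ## Laurent series with coefficients in a subring -/

/-- Laurent series over `ℂ` all of whose coefficients lie in the subring `A`. -/
def coeffSubring (A : Subring ℂ) : Subring (LaurentSeries ℂ) :=
  (ModularCurve.coeffMap A.subtype).range

lemma mem_coeffSubring_iff {A : Subring ℂ} {F : LaurentSeries ℂ} :
    F ∈ coeffSubring A ↔ ∀ n : ℤ, F.coeff n ∈ A := by
  constructor
  · rintro ⟨G, rfl⟩ n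
    rw [ModularCurve.coeffMap_coeff]
    exact (G.coeff n).2
  · intro hF
    have hsupp : Function.support (fun n : ℤ => (⟨F.coeff n, hF n⟩ : A)) = F.support := by
      ext n
      simp only [Function.mem_support, HahnSeries.mem_support, ne_eq]
      constructor
      · intro h h0
        exact h (Subtype.ext h0)
      · intro h h0
        exact h (congrArg Subtype.val h0)
    refine ⟨⟨fun n : ℤ => (⟨F.coeff n, hF n⟩ : A), hsupp ▸ F.isPWO_support⟩, ?_⟩
    ext n
    rw [ModularCurve.coeffMap_coeff]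
    rfl

lemma coeffMap_subtype_injective (A : Subring ℂ) :
    Function.Injective (ModularCurve.coeffMap A.subtype) := by
  intro x y hxy
  ext n
  have := congrArg (fun z : LaurentSeries ℂ => z.coeff n) hxy
  simp only [ModularCurve.coeffMap_coeff] at this
  exact congrArg Subtype.val (Subtype.ext this)

lemma coeffSubring_mono {A B : Subring ℂ} (h : A ≤ B) : coeffSubring A ≤ coeffSubring B := by
  intro F hF
  rw [mem_coeffSubring_iff] at hF ⊢
  exact fun n => h (hF n)

lemma ofPowerSeries_map_int_mem (A : Subring ℂ) (p : PowerSeries ℤ) :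
    HahnSeries.ofPowerSeries ℤ ℂ (PowerSeries.map (Int.castRingHom ℂ) p) ∈ coeffSubring A := by
  rw [mem_coeffSubring_iff]
  intro n
  by_cases hn : n < 0
  · rw [ModularCurve.ofPowerSeries_coeff_of_neg _ hn]
    exact zero_mem _
  · obtain ⟨m, rfl⟩ : ∃ m : ℕ, n = (m : ℤ) := ⟨n.toNat, by omega⟩
    rw [HahnSeries.ofPowerSeries_apply_coeff, PowerSeries.coeff_map]
    exact intCast_mem _ _

/-! ## Functions with `A`-integral expansion at the cusp -/

/-- Functions `ℍ → ℂ` that are holomorphic, `N`-periodic, meromorphic at `i∞`, with all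
coefficients of the expansion in `u = exp(2πiτ/N)` in the subring `A`. -/
def intCusp (A : Subring ℂ) (N : ℕ) [NeZero N] : Subring (ℍ → ℂ) :=
  ((coeffSubring A).comap (laurent N)).map (merCusp N).subtype

section

variable {A : Subring ℂ} {N : ℕ} [NeZero N]

lemma mem_intCusp {f : ℍ → ℂ} :
    f ∈ intCusp A N ↔ ∃ hf : f ∈ merCusp N, ∀ n : ℤ, (laurent N ⟨f, hf⟩).coeff n ∈ A := by
  constructor
  · rintro ⟨g, hg, rfl⟩
    exact ⟨g.2, mem_coeffSubring_iff.mp hg⟩
  · rintro ⟨hf, h⟩
    exact ⟨⟨f, hf⟩, mem_coeffSubring_iff.mpr h, rfl⟩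

lemma intCusp_le_merCusp : intCusp A N ≤ merCusp N := fun _ hf => (mem_intCusp.mp hf).1

lemma laurent_coeff_mem {f : ℍ → ℂ} (hf : f ∈ intCusp A N) (n : ℤ) :
    (laurent N ⟨f, intCusp_le_merCusp hf⟩).coeff n ∈ A :=
  (mem_intCusp.mp hf).2 n

lemma intCusp_mono {B : Subring ℂ} (h : A ≤ B) : intCusp A N ≤ intCusp B N := by
  intro f hf
  obtain ⟨hfm, hc⟩ := mem_intCusp.mp hf
  exact mem_intCusp.mpr ⟨hfm, fun n => h (hc n)⟩

lemma mdiff_of_mem_intCusp {f : ℍ → ℂ} (hf : f ∈ intCusp A N) : MDiff f :=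
  (intCusp_le_merCusp hf).holo

lemma const_mem_intCusp {c : ℂ} (hc : c ∈ A) : (fun _ : ℍ => c) ∈ intCusp A N := by
  refine mem_intCusp.mpr ⟨const_mem_merCusp N c, fun n => ?_⟩
  rw [laurent_const]
  by_cases hn : n = 0
  · subst hn
    simpa [HahnSeries.C_apply] using hc
  · simp [HahnSeries.C_apply, HahnSeries.coeff_single_of_ne hn]

end

/-! ## The expansion with coefficients in `A` -/

section

variable (A : Subring ℂ) (N : ℕ) [NeZero N]

lemma exists_coeffMap_eq (f : intCusp A N) :
    ∃ G : LaurentSeries A,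
      ModularCurve.coeffMap A.subtype G = laurent N ⟨f.1, intCusp_le_merCusp f.2⟩ := by
  have h : laurent N ⟨f.1, intCusp_le_merCusp f.2⟩ ∈ coeffSubring A :=
    mem_coeffSubring_iff.mpr (laurent_coeff_mem f.2)
  exact h

/-- The underlying function of `laurentInt`. -/
def laurentIntFun (f : intCusp A N) : LaurentSeries A := (exists_coeffMap_eq A N f).choose

lemma coeffMap_laurentIntFun (f : intCusp A N) :
    ModularCurve.coeffMap A.subtype (laurentIntFun A N f) =
      laurent N ⟨f.1, intCusp_le_merCusp f.2⟩ :=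
  (exists_coeffMap_eq A N f).choose_spec

/-- The inclusion of `intCusp A N` into `merCusp N`. -/
def toMerCusp : intCusp A N →+* merCusp N := Subring.inclusion intCusp_le_merCusp

/-- The expansion at `i∞` in `u = exp(2πiτ/N)`, with coefficients in `A`. -/
def laurentInt : intCusp A N →+* LaurentSeries A where
  toFun := laurentIntFun A N
  map_one' := by
    apply coeffMap_subtype_injective A
    rw [coeffMap_laurentIntFun, map_one]
    exact map_one (laurent N)
  map_mul' f g := by
    apply coeffMap_subtype_injective A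
    rw [coeffMap_laurentIntFun, map_mul, coeffMap_laurentIntFun, coeffMap_laurentIntFun]
    exact map_mul (laurent N) (toMerCusp A N f) (toMerCusp A N g)
  map_zero' := by
    apply coeffMap_subtype_injective A
    rw [coeffMap_laurentIntFun, map_zero]
    exact map_zero (laurent N)
  map_add' f g := by
    apply coeffMap_subtype_injective A
    rw [coeffMap_laurentIntFun, map_add, coeffMap_laurentIntFun, coeffMap_laurentIntFun]
    exact map_add (laurent N) (toMerCusp A N f) (toMerCusp A N g)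

lemma coeffMap_laurentInt (f : intCusp A N) :
    ModularCurve.coeffMap A.subtype (laurentInt A N f) =
      laurent N ⟨f.1, intCusp_le_merCusp f.2⟩ :=
  coeffMap_laurentIntFun A N f

lemma laurentInt_coeff (f : intCusp A N) (n : ℤ) :
    (((laurentInt A N f).coeff n : A) : ℂ) =
      (laurent N ⟨f.1, intCusp_le_merCusp f.2⟩).coeff n := by
  rw [← coeffMap_laurentInt, ModularCurve.coeffMap_coeff]
  rfl

lemma laurentInt_injective : Function.Injective (laurentInt A N) := by
  intro f g hfg
  have h : laurent N (toMerCusp A N f) = laurent N (toMerCusp A N g) := by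
    have h1 := coeffMap_laurentInt A N f
    have h2 := coeffMap_laurentInt A N g
    rw [hfg] at h1
    exact h1.symm.trans h2
  have := laurent_injective N h
  exact Subtype.ext (congrArg (fun x : merCusp N => (x : ℍ → ℂ)) this)

/-- The constant functions, as a ring hom `A →+* intCusp A N`. -/
def constHom : A →+* intCusp A N where
  toFun c := ⟨fun _ => (c : ℂ), const_mem_intCusp c.2⟩
  map_one' := rfl
  map_mul' _ _ := rfl
  map_zero' := rfl
  map_add' _ _ := rfl

lemma laurentInt_constHom (c : A) : laurentInt A N (constHom A N c) = HahnSeries.C c := by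
  apply coeffMap_subtype_injective A
  rw [coeffMap_laurentInt]
  have h := laurent_const N (c : ℂ)
  have h' : laurent N ⟨((constHom A N c : intCusp A N) : ℍ → ℂ),
      intCusp_le_merCusp (constHom A N c).2⟩ = HahnSeries.C (c : ℂ) := h
  rw [h']
  ext n
  rw [ModularCurve.coeffMap_coeff]
  by_cases hn : n = 0
  · subst hn
    simp [HahnSeries.C_apply]
  · simp [HahnSeries.C_apply, HahnSeries.coeff_single_of_ne hn]

end

/-! ## `Δ` has an integral expansion -/

lemma periodic_comp_ofComplex {f : ℍ → ℂ} {h : ℝ} (hf : ∀ τ : ℍ, f (h +ᵥ τ) = f τ) :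
    Function.Periodic (f ∘ ofComplex) h := by
  intro w
  simp only [Function.comp_apply]
  by_cases hw : 0 < w.im
  · have hw' : 0 < (w + h).im := by simpa using hw
    rw [ofComplex_apply_of_im_pos hw, ofComplex_apply_of_im_pos hw']
    have e : (⟨w + h, hw'⟩ : ℍ) = h +ᵥ (⟨w, hw⟩ : ℍ) := by
      apply UpperHalfPlane.ext
      rw [UpperHalfPlane.coe_vadd]
      exact add_comm _ _
    rw [e, hf]
  · have hw' : ¬ 0 < (w + h).im := by simpa using hw
    rw [ofComplex_apply_eq_of_im_nonpos (not_lt.mp hw') (not_lt.mp hw)]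

lemma discriminant_vadd_one (τ : ℍ) : Δ ((1 : ℝ) +ᵥ τ) = Δ τ := by
  have h := Fermat.Agent.Lib.DeltaSlash.discriminant_smul ModularGroup.T τ
  rw [UpperHalfPlane.modular_T_smul] at h
  rw [h]
  simp [ModularGroup.T]

lemma discriminant_isHolCusp_one : IsHolCusp (1 : ℝ) Δ where
  holo := CuspForm.discriminant.holo'
  per := periodic_comp_ofComplex discriminant_vadd_one
  bdd := (ModularForm.discriminant_isZeroAtImInfty).isBigO_one ℝ

lemma discriminant_isMerCusp (N : ℕ) [NeZero N] : IsMerCusp (N : ℝ) Δ := by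
  have h := discriminant_isHolCusp_one.isMerCusp.mul_period one_pos (NeZero.pos N)
  simpa using h

theorem discriminant_mem_intCusp (A : Subring ℂ) (N : ℕ) [NeZero N] : Δ ∈ intCusp A N := by
  refine mem_intCusp.mpr ⟨discriminant_isMerCusp N, fun n => ?_⟩
  rw [laurent_apply]
  have h := laurentFun_mul_period one_pos discriminant_isHolCusp_one.isMerCusp (NeZero.pos N) n
  rw [mul_one] at h
  show (laurentFun (N : ℝ) Δ).coeff n ∈ A
  rw [h]
  split_ifs with hd
  · rw [laurentFun_of_isHolCusp one_pos discriminant_isHolCusp_one,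
      Fermat.Agent.Lib.JqAnalytic.qExpansion_discriminant_eq_X_mul]
    exact mem_coeffSubring_iff.mp (ofPowerSeries_map_int_mem A _) _
  · exact zero_mem _

/-! ## Period descent -/

section descent

variable {A : Subring ℂ} {N : ℕ} [NeZero N]

lemma tParam_one_eq (N : ℕ) [NeZero N] (τ : ℍ) :
    tParam ((1 : ℕ) : ℝ) τ = tParam (N : ℝ) τ ^ N := by
  have hN : (N : ℂ) ≠ 0 := by exact_mod_cast NeZero.ne N
  simp only [tParam, Function.Periodic.qParam]
  rw [← Complex.exp_nat_mul]
  congr 1
  push_cast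
  field_simp

/-- A `1`-periodic function which is meromorphic at the cusp with period `N` is meromorphic at
the cusp with period `1`. -/
theorem mem_merCusp_one_of_periodic {f : ℍ → ℂ} (hf : f ∈ merCusp N)
    (hper : ∀ τ : ℍ, f ((1 : ℝ) +ᵥ τ) = f τ) : f ∈ merCusp 1 := by
  have hf' : IsMerCusp (N : ℝ) f := hf
  obtain ⟨k, hk⟩ := hf'.exists_bdd
  have hh : (0 : ℝ) < (N : ℝ) := Nat.cast_pos.mpr (NeZero.pos N)
  refine ⟨hf'.holo, ?_, k, ?_⟩
  · rw [Nat.cast_one]
    exact periodic_comp_ofComplex hper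
  · have e : tParam ((1 : ℕ) : ℝ) ^ k * f = tParam (N : ℝ) ^ (N * k) * f := by
      funext τ
      simp only [Pi.mul_apply, Pi.pow_apply]
      rw [tParam_one_eq N, pow_mul]
    rw [e]
    exact isBounded_tParam_pow_mul_of_le hh (Nat.le_mul_of_pos_left k (NeZero.pos N)) hk

/-- Under period descent the `k`-th coefficient in `q` is the `N k`-th coefficient in
`u = q^{1/N}`. -/
theorem laurent_one_coeff {f : ℍ → ℂ} (hf : f ∈ merCusp N) (hf1 : f ∈ merCusp 1) (k : ℤ) :
    (laurent 1 ⟨f, hf1⟩).coeff k = (laurent N ⟨f, hf⟩).coeff ((N : ℤ) * k) := by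
  have hN : (N : ℤ) ≠ 0 := by exact_mod_cast NeZero.ne N
  have hf1' : IsMerCusp ((1 : ℕ) : ℝ) f := hf1
  have h := laurentFun_mul_period (h := ((1 : ℕ) : ℝ)) (by norm_num) hf1' (NeZero.pos N)
    ((N : ℤ) * k)
  rw [if_pos (dvd_mul_right _ _), Int.mul_ediv_cancel_left _ hN] at h
  have e : (N : ℝ) * ((1 : ℕ) : ℝ) = (N : ℝ) := by simp
  rw [e] at h
  rw [laurent_apply, laurent_apply]
  exact h.symm

/-- Period descent for `intCusp`. -/
theorem mem_intCusp_one_of_periodic {f : ℍ → ℂ} (hf : f ∈ intCusp A N)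
    (hper : ∀ τ : ℍ, f ((1 : ℝ) +ᵥ τ) = f τ) : f ∈ intCusp A 1 := by
  have hf1 := mem_merCusp_one_of_periodic (intCusp_le_merCusp hf) hper
  refine mem_intCusp.mpr ⟨hf1, fun k => ?_⟩
  rw [laurent_one_coeff (intCusp_le_merCusp hf) hf1 k]
  exact laurent_coeff_mem hf _

end descent

/-! ## Invariant functions with integral expansion are integral polynomials in `j` -/

lemma discriminant_mul_inv_tParam (τ : ℍ) :
    Δ τ * (tParam ((1 : ℕ) : ℝ) τ)⁻¹ = prodFactor τ := by
  have hq : tParam ((1 : ℕ) : ℝ) τ ≠ 0 := tParam_ne_zero _ _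
  have h : Δ τ = tParam ((1 : ℕ) : ℝ) τ * prodFactor τ := by
    rw [ModularForm.discriminant_eq_q_prod]
    simp [tParam, prodFactor]
  rw [h]
  field_simp

/-- For an element of `merCusp 1`, some `Δ^m · f` is bounded at `i∞`. -/
lemma exists_isBounded_discriminant_pow_mul {f : ℍ → ℂ} (hf : f ∈ merCusp 1) :
    ∃ m : ℕ, IsBoundedAtImInfty (fun τ : ℍ => Δ τ ^ m * f τ) := by
  have hf' : IsMerCusp ((1 : ℕ) : ℝ) f := hf
  obtain ⟨m, hm⟩ := hf'.exists_bdd
  refine ⟨m, ?_⟩
  have e : (fun τ : ℍ => Δ τ ^ m * f τ) =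
      (fun τ : ℍ => prodFactor τ) ^ m * (tParam ((1 : ℕ) : ℝ) ^ m * f) := by
    funext τ
    simp only [Pi.mul_apply, Pi.pow_apply]
    rw [← discriminant_mul_inv_tParam, mul_pow, inv_pow]
    have ht : tParam ((1 : ℕ) : ℝ) τ ≠ 0 := tParam_ne_zero _ _
    field_simp
  rw [e]
  have hP : IsBoundedAtImInfty (fun τ : ℍ => prodFactor τ) := tendsto_prodFactor.isBigO_one ℝ
  have hPm : IsBoundedAtImInfty ((fun τ : ℍ => prodFactor τ) ^ m) := by
    clear e hm
    induction m with
    | zero => rw [pow_zero]; exact Filter.const_boundedAtFilter atImInfty (1 : ℂ)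
    | succ k ih => rw [pow_succ]; exact ih.mul hP
  exact hPm.mul hm

/-- **Main theorem.** An `SL₂(ℤ)`-invariant function on `ℍ` whose expansion at `i∞` in
`u = exp(2πiτ/N)` has all coefficients in the subring `A` is a polynomial in `j = E₄³/Δ` with
coefficients in `A`. -/
theorem exists_aeval_of_invariant (A : Subring ℂ) (N : ℕ) [NeZero N] {f : ℍ → ℂ}
    (hf : f ∈ intCusp A N) (hinv : ∀ (γ : SL(2, ℤ)) (τ : ℍ), f (γ • τ) = f τ) :
    ∃ P : Polynomial A, ∀ τ : ℍ,
      f τ = Polynomial.aeval (ModularForm.E₄ τ ^ 3 / Δ τ) P := by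
  have hper : ∀ τ : ℍ, f ((1 : ℝ) +ᵥ τ) = f τ := fun τ => by
    rw [← UpperHalfPlane.modular_T_smul]
    exact hinv _ _
  have hf1 : f ∈ intCusp A 1 := mem_intCusp_one_of_periodic hf hper
  obtain ⟨m, hm⟩ := exists_isBounded_discriminant_pow_mul (intCusp_le_merCusp hf1)
  have hg : Δ ^ m * f ∈ intCusp A 1 :=
    mul_mem (pow_mem (discriminant_mem_intCusp A 1) m) hf1
  obtain ⟨hgm, hgc⟩ := mem_intCusp.mp hg
  have hgm' : IsMerCusp ((1 : ℕ) : ℝ) (Δ ^ m * f) := hgm
  have hgH : IsHolCusp ((1 : ℕ) : ℝ) (Δ ^ m * f) := ⟨hgm'.holo, hgm'.per, hm⟩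
  have hcoef : ∀ n : ℕ, (UpperHalfPlane.qExpansion 1 (fun τ : ℍ => Δ τ ^ m * f τ)).coeff n ∈ A := by
    intro n
    have h1 := laurent_mk_of_isHolCusp 1 hgH
    have h2 := hgc (n : ℤ)
    have h3 : laurent 1 ⟨Δ ^ m * f, hgm⟩ =
        HahnSeries.ofPowerSeries ℤ ℂ (UpperHalfPlane.qExpansion ((1 : ℕ) : ℝ) (Δ ^ m * f)) := h1
    rw [h3, HahnSeries.ofPowerSeries_apply_coeff, Nat.cast_one] at h2
    exact h2
  obtain ⟨P, -, hP⟩ := Fermat.Agent.Lib.JPolySubring.exists_aeval_of_invariant_subring A
    (mdiff_of_mem_intCusp hf) hinv m hm (fun n _ => hcoef n)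
  exact ⟨P, hP⟩

end Fermat.Agent.Lib.CuspInvariant
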