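/-
`j` and its affine translates as functions with `A`-integral expansions at the cusp
(owner: helper68).

For a subring `A ⊆ ℂ` and a level `N`:
* `jTw A z E`       : the formal series `j(z · u^E)` over any commutative ring `A` (`z` a unit);
                      `jTw A 1 N = jqNModC A N` is the formal `j(u^N)`;
* `jM_mem_intCusp`  : `τ ↦ j((aτ+b)/e)` (`e ∣ N`) lies in `intCusp A N` as soon as
                      `exp(2πi b/e)` is (the value of) a unit `z` of `A`, and then
                      `laurentInt_jM : laurentInt A N (jM a b e) = jTw A z (a·(N/e))`;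
* `jI A N`          : `j` itself as an element of `intCusp A N`, with expansion `jqNModC A N`;
* `evJ A N`         : evaluation of polynomials at `j`, `Polynomial A →+* intCusp A N`
                      (injective), and `evJq A N` its formal counterpart;
* `exists_evJ_eq`   : an `SL₂(ℤ)`-invariant element of `intCusp A N` is `evJ A N P`.
-/
import Mathlib
import Fermat.Agent.Lib.CuspInvariant
import Fermat.Agent.S24.ModRing
import Fermat.Prelude.Def_ModularCurve_JqCoeff

set_option autoImplicit false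

noncomputable section

namespace Fermat.Agent.Lib.CuspIntJ

open UpperHalfPlane Filter Topology
open scoped MatrixGroups Manifold Real
open Fermat.Agent.Lib.CuspLaurent Fermat.Agent.Lib.CuspInvariant Fermat.Agent.Lib.JStab
open Fermat.Agent.S24.Basic Fermat.Agent.S24.ModRing

/-! ## The formal series `j(z · u^E)` -/

section formal

variable (A : Type*) [CommRing A]

lemma jqModC_coeff_of_lt {m : ℤ} (hm : m < -1) : (ModularCurve.jqModC A).coeff m = 0 := by
  rw [ModularCurve.jqModC, HahnSeries.coeff_single_mul, one_mul]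
  exact ModularCurve.ofPowerSeries_coeff_of_neg _ (by omega)

lemma jqModC_coeff_neg_one : (ModularCurve.jqModC A).coeff (-1) = 1 := by
  rw [ModularCurve.jqModC, HahnSeries.coeff_single_mul, one_mul, sub_self,
    show (0 : ℤ) = ((0 : ℕ) : ℤ) from rfl, HahnSeries.ofPowerSeries_apply_coeff,
    PowerSeries.coeff_map, PowerSeries.coeff_zero_eq_constantCoeff,
    ModularCurve.constantCoeff_jNum]
  simp

/-- The coefficients of the formal series `j(z · u^E)`. -/
def jTwCoeff (z : Aˣ) (E : ℕ) (n : ℤ) : A :=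
  if (E : ℤ) ∣ n then
    ((z ^ (n / (E : ℤ)) : Aˣ) : A) * (ModularCurve.jqModC A).coeff (n / (E : ℤ))
  else 0

variable {A}

lemma jTwCoeff_of_lt (z : Aˣ) {E : ℕ} {n : ℤ} (hn : n < -(E : ℤ)) : jTwCoeff A z E n = 0 := by
  unfold jTwCoeff
  split_ifs with h
  · obtain ⟨m, rfl⟩ := h
    rcases Nat.eq_zero_or_pos E with hE | hE
    · subst hE
      simp at hn
    · have hE' : (E : ℤ) ≠ 0 := by exact_mod_cast hE.ne'
      have hEpos : (0 : ℤ) < (E : ℤ) := by exact_mod_cast hE
      rw [Int.mul_ediv_cancel_left _ hE']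
      have hm : m < -1 := by
        by_contra hcon
        push Not at hcon
        nlinarith
      rw [jqModC_coeff_of_lt A hm, mul_zero]
  · rfl

variable (A)

/-- The formal series `j(z · u^E)`: the substitution `q ↦ z · u^E` in `j(q) = q⁻¹ + 744 + ⋯`. -/
def jTw (z : Aˣ) (E : ℕ) : LaurentSeries A :=
  HahnSeries.ofSuppBddBelow (jTwCoeff A z E) ⟨-(E : ℤ), fun n hn => by
    by_contra h
    exact hn (jTwCoeff_of_lt z (not_le.mp h))⟩

variable {A}

@[simp] lemma jTw_coeff (z : Aˣ) (E : ℕ) (n : ℤ) : (jTw A z E).coeff n = jTwCoeff A z E n := rfl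

lemma jTw_coeff_of_lt (z : Aˣ) {E : ℕ} {n : ℤ} (hn : n < -(E : ℤ)) : (jTw A z E).coeff n = 0 :=
  jTwCoeff_of_lt z hn

lemma jTw_coeff_of_not_dvd (z : Aˣ) {E : ℕ} {n : ℤ} (hn : ¬ (E : ℤ) ∣ n) :
    (jTw A z E).coeff n = 0 := by
  rw [jTw_coeff, jTwCoeff, if_neg hn]

lemma jTw_coeff_mul (z : Aˣ) {E : ℕ} (hE : E ≠ 0) (m : ℤ) :
    (jTw A z E).coeff ((E : ℤ) * m) = ((z ^ m : Aˣ) : A) * (ModularCurve.jqModC A).coeff m := by
  have hE' : (E : ℤ) ≠ 0 := by exact_mod_cast hE
  rw [jTw_coeff, jTwCoeff, if_pos (dvd_mul_right _ _), Int.mul_ediv_cancel_left _ hE']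

/-- The leading coefficient of `j(z · u^E)` is `z⁻¹`, at `u^(-E)`. -/
lemma jTw_coeff_neg (z : Aˣ) {E : ℕ} (hE : E ≠ 0) :
    (jTw A z E).coeff (-(E : ℤ)) = ((z⁻¹ : Aˣ) : A) := by
  have h := jTw_coeff_mul z hE (-1)
  rw [mul_neg_one] at h
  rw [h, jqModC_coeff_neg_one, mul_one, zpow_neg_one]

/-- The formal series `j(z · u^E)` determines `E` and `z`. -/
lemma jTw_injective [Nontrivial A] {z z' : Aˣ} {E E' : ℕ} (hE : E ≠ 0) (hE' : E' ≠ 0)
    (h : jTw A z E = jTw A z' E') : E = E' ∧ z = z' := by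
  have key : ∀ {z z' : Aˣ} {E E' : ℕ}, E ≠ 0 → E' ≠ 0 → jTw A z E = jTw A z' E' → E ≤ E' := by
    intro z z' E E' hE hE' h
    by_contra hlt
    push Not at hlt
    have h1 := jTw_coeff_neg z hE
    have hlt' : -(E : ℤ) < -(E' : ℤ) := neg_lt_neg (by exact_mod_cast hlt)
    rw [h, jTw_coeff_of_lt z' hlt'] at h1
    exact (Units.ne_zero _) h1.symm
  have hEE : E = E' := le_antisymm (key hE hE' h) (key hE' hE h.symm)
  subst hEE
  refine ⟨rfl, ?_⟩
  have h1 := jTw_coeff_neg z hE
  rw [h, jTw_coeff_neg z' hE] at h1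
  exact inv_injective (Units.ext h1.symm)

/-- `j(1 · u^N)` is the Prelude's `jqNModC A N`. -/
lemma jTw_one_eq (N : ℕ) [NeZero N] : jTw A 1 N = ModularCurve.jqNModC A N := by
  have hN : (N : ℤ) ≠ 0 := by exact_mod_cast NeZero.ne N
  ext n
  rw [jTw_coeff, ModularCurve.jqNModC]
  by_cases h : (N : ℤ) ∣ n
  · obtain ⟨m, rfl⟩ := h
    rw [ModularCurve.qExpand_coeff_mul, jTwCoeff, if_pos (dvd_mul_right _ _),
      Int.mul_ediv_cancel_left _ hN]
    simp
  · rw [ModularCurve.qExpand_coeff_of_not_dvd _ _ h, jTwCoeff, if_neg h]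

end formal

/-! ## The translates `τ ↦ j((aτ+b)/e)` -/

section translates

variable {A : Subring ℂ}

lemma coe_zpow_unit (z : Aˣ) (m : ℤ) : (((z ^ m : Aˣ) : A) : ℂ) = ((z : A) : ℂ) ^ m := by
  have h := map_zpow (Units.map (A.subtype : A →* ℂ)) z m
  have h2 := congrArg (fun u : ℂˣ => (u : ℂ)) h
  simp only [Units.coe_map, MonoidHom.coe_coe, Subring.coe_subtype,
    Units.val_zpow_eq_zpow_val] at h2
  exact h2

lemma jqModC_coeff_cast (A : Subring ℂ) (m : ℤ) :
    (((ModularCurve.jqModC A).coeff m : A) : ℂ) = ((ModularCurve.jq.coeff m : ℚ) : ℂ) := by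
  rw [← ModularCurve.jqModC_rat, ModularCurve.jqModC_eq_map_intCast A,
    ModularCurve.jqModC_eq_map_intCast ℚ, HahnSeries.map_coeff, HahnSeries.map_coeff]
  simp

/-- The coefficients of the expansion of `τ ↦ j((aτ+b)/e)` in `u = exp(2πiτ/N)`. -/
theorem laurent_jM_coeff_eq {a e N : ℕ} [NeZero N] (ha : a ≠ 0) (he : e ≠ 0) (heN : e ∣ N)
    (b : ℕ) (z : Aˣ) (hz : ((z : A) : ℂ) = Complex.exp (2 * π * Complex.I * b / e)) (n : ℤ) :
    (laurent N ⟨jM a b e, jM_mem_merCusp ha he heN b⟩).coeff n =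
      ((jTwCoeff A z (a * (N / e)) n : A) : ℂ) := by
  rw [laurent_jM_coeff ha he heN b n]
  unfold jTwCoeff
  have hexp : Complex.exp (2 * π * Complex.I * ((b : ℤ) : ℂ) / (e * ((1 : ℕ) : ℝ))) =
      ((z : A) : ℂ) := by
    rw [hz]
    congr 1
    push_cast
    ring
  split_ifs with h
  · rw [hexp]
    push_cast
    rw [coe_zpow_unit, jqModC_coeff_cast]
  · simp

theorem jM_mem_intCusp {a e N : ℕ} [NeZero N] (ha : a ≠ 0) (he : e ≠ 0) (heN : e ∣ N)
    (b : ℕ) (z : Aˣ) (hz : ((z : A) : ℂ) = Complex.exp (2 * π * Complex.I * b / e)) :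
    jM a b e ∈ intCusp A N :=
  mem_intCusp.mpr ⟨jM_mem_merCusp ha he heN b, fun n => by
    rw [laurent_jM_coeff_eq ha he heN b z hz n]
    exact (jTwCoeff A z (a * (N / e)) n).2⟩

/-- The expansion of `τ ↦ j((aτ+b)/e)` in `u = exp(2πiτ/N)` is the formal `j(z · u^(a·(N/e)))`,
`z = exp(2πi b/e)`. -/
theorem laurentInt_jM {a e N : ℕ} [NeZero N] (ha : a ≠ 0) (he : e ≠ 0) (heN : e ∣ N)
    (b : ℕ) (z : Aˣ) (hz : ((z : A) : ℂ) = Complex.exp (2 * π * Complex.I * b / e)) :
    laurentInt A N ⟨jM a b e, jM_mem_intCusp ha he heN b z hz⟩ = jTw A z (a * (N / e)) := by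
  apply coeffMap_subtype_injective A
  rw [coeffMap_laurentInt]
  ext n
  rw [ModularCurve.coeffMap_coeff]
  exact laurent_jM_coeff_eq ha he heN b z hz n

end translates

/-! ## `j` itself -/

section jI

lemma jM_one_zero_one : jM 1 0 1 = jInv := by
  funext τ
  rw [jM_eq]
  congr 1
  apply UpperHalfPlane.ext
  rw [coe_aff one_ne_zero one_ne_zero]
  simp

variable (A : Subring ℂ) (N : ℕ) [NeZero N]

theorem jInv_mem_intCusp : jInv ∈ intCusp A N := by
  rw [← jM_one_zero_one]
  exact jM_mem_intCusp one_ne_zero one_ne_zero (one_dvd N) 0 1 (by simp)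

/-- `j` as an element of `intCusp A N`. -/
def jI : intCusp A N := ⟨jInv, jInv_mem_intCusp A N⟩

@[simp] lemma coe_jI : ((jI A N : intCusp A N) : ℍ → ℂ) = jInv := rfl

/-- The expansion of `j` in `u = exp(2πiτ/N)` is the Prelude's formal `j(u^N)`. -/
theorem laurentInt_jI : laurentInt A N (jI A N) = ModularCurve.jqNModC A N := by
  have h : jI A N = ⟨jM 1 0 1, jM_mem_intCusp one_ne_zero one_ne_zero (one_dvd N) 0 1
      (by simp)⟩ := Subtype.ext jM_one_zero_one.symm
  rw [h, laurentInt_jM one_ne_zero one_ne_zero (one_dvd N) 0 1 (by simp)]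
  rw [one_mul, Nat.div_one, jTw_one_eq]

/-- Evaluation of polynomials at `j`. -/
def evJ : Polynomial A →+* intCusp A N := Polynomial.eval₂RingHom (constHom A N) (jI A N)

/-- Evaluation at a point of `ℍ`, as a ring hom. -/
def evalAt (τ : ℍ) : intCusp A N →+* ℂ := (Pi.evalRingHom (fun _ : ℍ => ℂ) τ).comp (intCusp A N).subtype

lemma evalAt_apply (τ : ℍ) (f : intCusp A N) : evalAt A N τ f = (f : ℍ → ℂ) τ := rfl

variable {A N}

lemma evJ_apply (P : Polynomial A) (τ : ℍ) :
    ((evJ A N P : intCusp A N) : ℍ → ℂ) τ = Polynomial.aeval (jInv τ) P := by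
  rw [← evalAt_apply, evJ, Polynomial.coe_eval₂RingHom, Polynomial.hom_eval₂,
    Polynomial.aeval_def]
  rfl

variable (A N)

lemma evJ_C (a : A) : evJ A N (Polynomial.C a) = constHom A N a := by
  simp [evJ]

lemma evJ_X : evJ A N Polynomial.X = jI A N := by
  simp [evJ]

theorem evJ_injective : Function.Injective (evJ A N) := by
  rw [injective_iff_map_eq_zero]
  intro P hP
  have hroot : ∀ c : ℂ, (P.map A.subtype).IsRoot c := by
    intro c
    obtain ⟨τ, rfl⟩ := Fermat.Agent.Lib.JSurjPoly.jF_surjective c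
    have h := evJ_apply (N := N) P τ
    rw [hP] at h
    rw [Polynomial.IsRoot, Polynomial.eval_map]
    rw [Polynomial.aeval_def] at h
    exact h.symm
  have h0 : P.map A.subtype = 0 := by
    apply Polynomial.eq_zero_of_infinite_isRoot
    have huniv : {x | (P.map A.subtype).IsRoot x} = Set.univ := Set.eq_univ_of_forall hroot
    rw [huniv]
    exact Set.infinite_univ
  exact Polynomial.map_injective _ Subtype.val_injective (by rw [h0, Polynomial.map_zero])

/-- An `SL₂(ℤ)`-invariant element of `intCusp A N` is a polynomial in `j` over `A`. -/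
theorem exists_evJ_eq (f : intCusp A N)
    (hinv : ∀ (γ : SL(2, ℤ)) (τ : ℍ), (f : ℍ → ℂ) (γ • τ) = (f : ℍ → ℂ) τ) :
    ∃ P : Polynomial A, evJ A N P = f := by
  obtain ⟨P, hP⟩ := exists_aeval_of_invariant A N f.2 hinv
  refine ⟨P, Subtype.ext (funext fun τ => ?_)⟩
  rw [evJ_apply]
  exact (hP τ).symm

end jI

/-! ## The formal evaluation at `j(u^N)` -/

/-- Evaluation of polynomials at the formal series `j(u^N)`. -/
def evJq (A : Type*) [CommRing A] (N : ℕ) [NeZero N] : Polynomial A →+* LaurentSeries A :=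
  Polynomial.eval₂RingHom HahnSeries.C (ModularCurve.jqNModC A N)

lemma evJq_apply (A : Type*) [CommRing A] (N : ℕ) [NeZero N] (P : Polynomial A) :
    evJq A N P = Polynomial.eval₂ HahnSeries.C (ModularCurve.jqNModC A N) P := rfl

theorem laurentInt_comp_evJ (A : Subring ℂ) (N : ℕ) [NeZero N] :
    (laurentInt A N).comp (evJ A N) = evJq A N := by
  apply Polynomial.ringHom_ext
  · intro a
    simp [evJ, evJq, laurentInt_constHom]
  · simp [evJ, evJq, laurentInt_jI]

theorem laurentInt_evJ (A : Subring ℂ) (N : ℕ) [NeZero N] (P : Polynomial A) :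
    laurentInt A N (evJ A N P) = evJq A N P := by
  rw [← laurentInt_comp_evJ]
  rfl

theorem evJq_injective (A : Subring ℂ) (N : ℕ) [NeZero N] : Function.Injective (evJq A N) := by
  rw [← laurentInt_comp_evJ]
  exact (laurentInt_injective A N).comp (evJ_injective A N)

/-- Formal version of `exists_aeval_of_invariant`: the expansion of an invariant function with
`A`-integral expansion is an `A`-polynomial in the formal `j(u^N)`. -/
theorem exists_evJq_eq (A : Subring ℂ) (N : ℕ) [NeZero N] (f : intCusp A N)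
    (hinv : ∀ (γ : SL(2, ℤ)) (τ : ℍ), (f : ℍ → ℂ) (γ • τ) = (f : ℍ → ℂ) τ) :
    ∃ P : Polynomial A, laurentInt A N f = evJq A N P := by
  obtain ⟨P, hP⟩ := exists_evJ_eq A N f hinv
  exact ⟨P, by rw [← hP, laurentInt_evJ]⟩

/-! ## Complements: `j(Nτ)`, base change of `jTw`, roots of unity as units -/

section complements

/-- The formal series `j(z · u^E)` is compatible with ring homomorphisms. -/
theorem coeffMap_jTw {A B : Type*} [CommRing A] [CommRing B] (φ : A →+* B) (z : Aˣ) (E : ℕ) :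
    ModularCurve.coeffMap φ (jTw A z E) = jTw B (Units.map (φ : A →* B) z) E := by
  ext n
  rw [ModularCurve.coeffMap_coeff, jTw_coeff, jTw_coeff]
  unfold jTwCoeff
  split_ifs with h
  · rw [map_mul, ← map_zpow, Units.coe_map]
    congr 1
    rw [← ModularCurve.map_jqModC φ, HahnSeries.map_coeff]
  · exact map_zero φ

variable (A : Subring ℂ) (N : ℕ) [NeZero N]

omit [NeZero N] in
lemma jN_eq_jM : jN N = jM N 0 1 := by
  funext τ
  rw [jN_eq_affine]
  rfl

/-- `τ ↦ j(Nτ)` has an `A`-integral expansion in `u = exp(2πiτ/N)`, for every subring `A`. -/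
theorem jN_mem_intCusp : jN N ∈ intCusp A N := by
  rw [jN_eq_jM]
  exact jM_mem_intCusp (NeZero.ne N) one_ne_zero (one_dvd N) 0 1 (by simp)

/-- The expansion of `τ ↦ j(Nτ)` in `u = exp(2πiτ/N)` is the formal `j(u^(N²))`. -/
theorem laurentInt_jN :
    laurentInt A N ⟨jN N, jN_mem_intCusp A N⟩ =
      ModularCurve.qExpand A (N * N) (ModularCurve.jqModC A) := by
  have h : (⟨jN N, jN_mem_intCusp A N⟩ : intCusp A N) =
      ⟨jM N 0 1, jM_mem_intCusp (NeZero.ne N) one_ne_zero (one_dvd N) 0 1 (by simp)⟩ :=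
    Subtype.ext (jN_eq_jM N)
  rw [h, laurentInt_jM (NeZero.ne N) one_ne_zero (one_dvd N) 0 1 (by simp), Nat.div_one,
    jTw_one_eq]
  rfl

variable {A N}

lemma exp_pow_eq_one (N : ℕ) [NeZero N] : Complex.exp (2 * π * Complex.I / N) ^ N = 1 := by
  have hN : (N : ℂ) ≠ 0 := by exact_mod_cast NeZero.ne N
  rw [← Complex.exp_nat_mul]
  have e : (N : ℂ) * (2 * π * Complex.I / N) = 2 * π * Complex.I := by field_simp
  rw [e, Complex.exp_two_pi_mul_I]

/-- `exp(2πi/N)` as a unit of a subring containing it. -/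
def zetaUnit (hζ : Complex.exp (2 * π * Complex.I / N) ∈ A) : Aˣ where
  val := ⟨Complex.exp (2 * π * Complex.I / N), hζ⟩
  inv := ⟨Complex.exp (2 * π * Complex.I / N) ^ (N - 1), pow_mem hζ _⟩
  val_inv := Subtype.ext (by
    show Complex.exp (2 * π * Complex.I / N) * Complex.exp (2 * π * Complex.I / N) ^ (N - 1) = 1
    rw [← pow_succ', Nat.sub_add_cancel (NeZero.pos N), exp_pow_eq_one])
  inv_val := Subtype.ext (by
    show Complex.exp (2 * π * Complex.I / N) ^ (N - 1) * Complex.exp (2 * π * Complex.I / N) = 1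
    rw [← pow_succ, Nat.sub_add_cancel (NeZero.pos N), exp_pow_eq_one])

@[simp] lemma coe_zetaUnit (hζ : Complex.exp (2 * π * Complex.I / N) ∈ A) :
    (((zetaUnit hζ : Aˣ) : A) : ℂ) = Complex.exp (2 * π * Complex.I / N) := rfl

end complements

end Fermat.Agent.Lib.CuspIntJ
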