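import Mathlib
import Fermat.Prelude.Def_ModularCurve_GenusNumerics

set_option autoImplicit false

namespace Fermat.Agent.Lib.Gamma0Count

open Matrix MatrixGroups CongruenceSubgroup ModularGroup
variable (N : ℕ)

/-- lower-left entry of `g⁻¹ * g'`. -/
theorem inv_mul_apply_one_zero (g g' : SL(2, ℤ)) :
    (g⁻¹ * g') 1 0 = g 0 0 * g' 1 0 - g 1 0 * g' 0 0 := by
  rw [Matrix.SpecialLinearGroup.coe_mul, Matrix.SpecialLinearGroup.coe_inv,
    Matrix.adjugate_fin_two, Matrix.mul_apply, Fin.sum_univ_two]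
  simp
  ring

theorem mk_eq_mk_iff (g g' : SL(2, ℤ)) :
    (QuotientGroup.mk g : SL(2, ℤ) ⧸ Gamma0 N) = QuotientGroup.mk g' ↔
      (N : ℤ) ∣ g 0 0 * g' 1 0 - g 1 0 * g' 0 0 := by
  rw [QuotientGroup.eq, Gamma0_mem, ZMod.intCast_zmod_eq_zero_iff_dvd, inv_mul_apply_one_zero]

theorem S_mul_apply (g : SL(2, ℤ)) : (S * g) 0 0 = - g 1 0 ∧ (S * g) 1 0 = g 0 0 := by
  rw [Matrix.SpecialLinearGroup.coe_mul, coe_S]
  constructor <;> simp [Matrix.mul_apply, Fin.sum_univ_two]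

theorem T_mul_apply (g : SL(2, ℤ)) : (T * g) 0 0 = g 0 0 + g 1 0 ∧ (T * g) 1 0 = g 1 0 := by
  rw [Matrix.SpecialLinearGroup.coe_mul, coe_T]
  constructor <;> simp [Matrix.mul_apply, Fin.sum_univ_two]

theorem T_zpow_mul_apply (n : ℤ) (g : SL(2, ℤ)) :
    (T ^ n * g) 0 0 = g 0 0 + n * g 1 0 ∧ (T ^ n * g) 1 0 = g 1 0 := by
  rw [Matrix.SpecialLinearGroup.coe_mul, coe_T_zpow]
  constructor <;> simp [Matrix.mul_apply, Fin.sum_univ_two]

/-- the matrix with first column `(a, c)` obtained from a Bezout relation. -/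
theorem exists_SL2_col {a c : ℤ} (h : IsCoprime a c) :
    ∃ g : SL(2, ℤ), g 0 0 = a ∧ g 1 0 = c := by
  obtain ⟨u, v, huv⟩ := h
  refine ⟨⟨!![a, -v; c, u], ?_⟩, rfl, rfl⟩
  rw [Matrix.det_fin_two_of]
  linarith

theorem isCoprime_col (g : SL(2, ℤ)) : IsCoprime (g 0 0) (g 1 0) := by
  have h := g.det_coe
  rw [Matrix.det_fin_two] at h
  exact ⟨g 1 1, - g 0 1, by linarith⟩

/-- the matrix with first column `(a, 1)`. -/
def matA (a : ℤ) : SL(2, ℤ) := ⟨!![a, -1; 1, 0], by rw [Matrix.det_fin_two_of]; ring⟩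

@[simp] theorem matA_zero_zero (a : ℤ) : matA a 0 0 = a := rfl
@[simp] theorem matA_one_zero (a : ℤ) : matA a 1 0 = 1 := rfl

/-- Fixed points of an element acting on the cosets, when the fixed-point condition is a
quadratic congruence `a² + t a c + c² ≡ 0`. -/
theorem card_fixedBy_of (γ : SL(2, ℤ)) (t : ℤ)
    (h : ∀ g : SL(2, ℤ), (γ * g) 0 0 * g 1 0 - (γ * g) 1 0 * g 0 0
      = -(g 0 0 ^ 2 + t * g 0 0 * g 1 0 + g 1 0 ^ 2)) :
    Nat.card (MulAction.fixedBy (SL(2, ℤ) ⧸ Gamma0 N) γ)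
      = Nat.card {x : ZMod N // x ^ 2 + (t : ZMod N) * x + 1 = 0} := by
  have key : ∀ g : SL(2, ℤ), γ • (QuotientGroup.mk g : SL(2, ℤ) ⧸ Gamma0 N) = QuotientGroup.mk g ↔
      ((g 0 0 : ZMod N) ^ 2 + (t : ZMod N) * (g 0 0 : ZMod N) * (g 1 0 : ZMod N)
        + (g 1 0 : ZMod N) ^ 2 = 0) := by
    intro g
    rw [MulAction.Quotient.smul_mk, smul_eq_mul, mk_eq_mk_iff, h g, dvd_neg,
      ← ZMod.intCast_zmod_eq_zero_iff_dvd]
    push_cast
    rfl
  symm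
  refine Nat.card_congr (Equiv.ofBijective
    (fun x : {x : ZMod N // x ^ 2 + (t : ZMod N) * x + 1 = 0} =>
      (⟨QuotientGroup.mk (matA (ZMod.cast x.1)), by
        rw [MulAction.mem_fixedBy, key]
        simp only [matA_zero_zero, matA_one_zero, ZMod.intCast_zmod_cast, Int.cast_one, mul_one,
          one_pow]
        exact x.2⟩ : MulAction.fixedBy (SL(2, ℤ) ⧸ Gamma0 N) γ)) ⟨?_, ?_⟩)
  · intro x y hxy
    have h1 := congrArg Subtype.val hxy
    simp only at h1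
    rw [mk_eq_mk_iff] at h1
    simp only [matA_zero_zero, matA_one_zero, mul_one, one_mul] at h1
    rw [← ZMod.intCast_zmod_eq_zero_iff_dvd] at h1
    push_cast at h1
    exact Subtype.ext (sub_eq_zero.mp h1)
  · rintro ⟨q, hq⟩
    obtain ⟨g, rfl⟩ := QuotientGroup.mk_surjective q
    rw [MulAction.mem_fixedBy, key] at hq
    have hcop : IsCoprime (N : ℤ) (g 1 0) := by
      have h1 : IsCoprime (g 0 0 ^ 2 + g 1 0 * (t * g 0 0 + g 1 0)) (g 1 0) :=
        ((isCoprime_col g).pow_left).add_mul_left_left _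
      refine IsCoprime.of_isCoprime_of_dvd_left h1 ?_
      rw [← ZMod.intCast_zmod_eq_zero_iff_dvd]
      push_cast
      rw [← hq]; ring
    have hu : IsUnit ((g 1 0 : ℤ) : ZMod N) := (ZMod.coe_int_isUnit_iff_isCoprime _ _).mpr hcop
    have hinv : ((g 1 0 : ℤ) : ZMod N) * ((g 1 0 : ℤ) : ZMod N)⁻¹ = 1 := ZMod.mul_inv_of_unit _ hu
    set c : ZMod N := ((g 1 0 : ℤ) : ZMod N) with hc
    set a : ZMod N := ((g 0 0 : ℤ) : ZMod N) with ha
    have hx : (a * c⁻¹) ^ 2 + (t : ZMod N) * (a * c⁻¹) + 1 = 0 := by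
      have : (a * c⁻¹) ^ 2 + (t : ZMod N) * (a * c⁻¹) + 1
          = (a ^ 2 + (t : ZMod N) * a * c + c ^ 2) * (c⁻¹) ^ 2
            + (1 - c * c⁻¹) * (1 + c * c⁻¹ + (t : ZMod N) * a * c⁻¹) := by ring
      rw [this, hq, hinv]; ring
    refine ⟨⟨a * c⁻¹, hx⟩, Subtype.ext ?_⟩
    simp only
    rw [mk_eq_mk_iff]
    simp only [matA_zero_zero, matA_one_zero, one_mul]
    rw [← ZMod.intCast_zmod_eq_zero_iff_dvd]
    push_cast
    rw [← hc, ← ha, mul_assoc, mul_comm c⁻¹ c, hinv, mul_one, sub_self]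

theorem card_fixedBy_S :
    Nat.card (MulAction.fixedBy (SL(2, ℤ) ⧸ Gamma0 N) S) = ModularCurve.nuTwo N := by
  rw [card_fixedBy_of N S 0 (fun g => by rw [(S_mul_apply g).1, (S_mul_apply g).2]; ring),
    ModularCurve.nuTwo]
  simp

theorem card_fixedBy_ST :
    Nat.card (MulAction.fixedBy (SL(2, ℤ) ⧸ Gamma0 N) (S * T)) = ModularCurve.nuThree N := by
  rw [card_fixedBy_of N (S * T) 1 (fun g => by
    rw [mul_assoc, (S_mul_apply (T * g)).1, (S_mul_apply (T * g)).2, (T_mul_apply g).1,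
      (T_mul_apply g).2]; ring),
    ModularCurve.nuThree]
  simp

theorem card_quotient_of_surjective {G : Type*} [Group G] (H : Subgroup G) {T : Type*} (f : G → T)
    (hf : ∀ g g', f g = f g' ↔ g⁻¹ * g' ∈ H) (hs : Function.Surjective f) :
    Nat.card (G ⧸ H) = Nat.card T := by
  refine Nat.card_congr (Equiv.ofBijective
    (Quotient.lift f (fun a b hab => (hf a b).mpr (QuotientGroup.leftRel_apply.mp hab))) ⟨?_, ?_⟩)
  · intro x y
    induction x using Quotient.inductionOn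
    induction y using Quotient.inductionOn
    intro h
    exact Quotient.sound (QuotientGroup.leftRel_apply.mpr ((hf _ _).mp h))
  · intro t
    obtain ⟨g, rfl⟩ := hs t
    exact ⟨Quotient.mk _ g, rfl⟩

theorem dvd_of_mem_Gamma0 {M : ℕ} {γ : SL(2, ℤ)} (h : γ ∈ Gamma0 M) : (M : ℤ) ∣ γ 1 0 := by
  rwa [Gamma0_mem, ZMod.intCast_zmod_eq_zero_iff_dvd] at h

theorem mem_Gamma0_of_dvd {M : ℕ} {γ : SL(2, ℤ)} (h : (M : ℤ) ∣ γ 1 0) : γ ∈ Gamma0 M := by
  rwa [Gamma0_mem, ZMod.intCast_zmod_eq_zero_iff_dvd]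

theorem inv_mul_mem_Gamma0_mul_iff {M : ℕ} (hM : M ≠ 0) (p : ℕ) (γ γ' : SL(2, ℤ))
    (h : (M : ℤ) ∣ γ 1 0) (h' : (M : ℤ) ∣ γ' 1 0) :
    γ⁻¹ * γ' ∈ Gamma0 (p * M) ↔ (p : ℤ) ∣ γ 0 0 * (γ' 1 0 / M) - (γ 1 0 / M) * γ' 0 0 := by
  have hM' : (M : ℤ) ≠ 0 := by exact_mod_cast hM
  rw [Gamma0_mem, ZMod.intCast_zmod_eq_zero_iff_dvd, inv_mul_apply_one_zero]
  obtain ⟨c, hc⟩ := h
  obtain ⟨c', hc'⟩ := h'
  rw [hc, hc', Int.mul_ediv_cancel_left _ hM', Int.mul_ediv_cancel_left _ hM']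
  push_cast
  rw [show γ 0 0 * (↑M * c') - ↑M * c * γ' 0 0 = (M : ℤ) * (γ 0 0 * c' - c * γ' 0 0) by ring,
    mul_comm (p : ℤ) (M : ℤ)]
  exact mul_dvd_mul_iff_left hM'

theorem Gamma0_mul_le (p M : ℕ) : Gamma0 (p * M) ≤ Gamma0 M := by
  intro γ hγ
  refine mem_Gamma0_of_dvd (dvd_trans ?_ (dvd_of_mem_Gamma0 hγ))
  exact_mod_cast Dvd.intro_left p rfl

theorem relIndex_of_dvd {M p : ℕ} [hp : Fact p.Prime] (hM : M ≠ 0) (hpM : p ∣ M) :
    (Gamma0 (p * M)).relIndex (Gamma0 M) = p := by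
  rw [Subgroup.relIndex, Subgroup.index_eq_card]
  have hne : ∀ γ : Gamma0 M, (((γ : SL(2, ℤ)) 0 0 : ℤ) : ZMod p) ≠ 0 := by
    intro γ h0
    rw [ZMod.intCast_zmod_eq_zero_iff_dvd] at h0
    have h1 : (p : ℤ) ∣ (γ : SL(2, ℤ)) 1 0 :=
      dvd_trans (by exact_mod_cast hpM) (dvd_of_mem_Gamma0 γ.2)
    have := (isCoprime_col (γ : SL(2, ℤ))).isUnit_of_dvd' h0 h1
    rw [Int.isUnit_iff] at this
    have h2 := hp.out.one_lt
    omega
  rw [card_quotient_of_surjective _ (T := ZMod p)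
    (fun γ : Gamma0 M => ((((γ : SL(2, ℤ)) 1 0 / M : ℤ)) : ZMod p)
      * (((γ : SL(2, ℤ)) 0 0 : ℤ) : ZMod p)⁻¹) ?_ ?_]
  · simp
  · intro γ γ'
    rw [Subgroup.mem_subgroupOf, Subgroup.coe_mul, Subgroup.coe_inv,
      inv_mul_mem_Gamma0_mul_iff hM p _ _ (dvd_of_mem_Gamma0 γ.2) (dvd_of_mem_Gamma0 γ'.2),
      ← ZMod.intCast_zmod_eq_zero_iff_dvd]
    push_cast
    have h1 := hne γ
    have h2 := hne γ'
    rw [← div_eq_mul_inv, ← div_eq_mul_inv, div_eq_div_iff h1 h2]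
    constructor
    · intro h; rw [mul_comm, h]; ring
    · intro h; linear_combination -h
  · intro y
    obtain ⟨g, hg0, hg1⟩ := exists_SL2_col (a := 1) (c := (M : ℤ) * (ZMod.cast y : ℤ))
      (isCoprime_one_left)
    refine ⟨⟨g, mem_Gamma0_of_dvd (by rw [hg1]; exact Dvd.intro _ rfl)⟩, ?_⟩
    simp only
    rw [hg0, hg1, Int.mul_ediv_cancel_left _ (by exact_mod_cast hM)]
    simp

theorem relIndex_of_not_dvd {M p : ℕ} [hp : Fact p.Prime] (hM : M ≠ 0) (hpM : ¬ p ∣ M) :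
    (Gamma0 (p * M)).relIndex (Gamma0 M) = p + 1 := by
  classical
  rw [Subgroup.relIndex, Subgroup.index_eq_card]
  have hM' : (M : ℤ) ≠ 0 := by exact_mod_cast hM
  -- if `p ∣ a` then `p ∤ c / M`
  have hne : ∀ γ : Gamma0 M, (((γ : SL(2, ℤ)) 0 0 : ℤ) : ZMod p) = 0 →
      ((((γ : SL(2, ℤ)) 1 0 / M : ℤ)) : ZMod p) ≠ 0 := by
    intro γ h0 h1
    rw [ZMod.intCast_zmod_eq_zero_iff_dvd] at h0 h1
    have h2 : (p : ℤ) ∣ (γ : SL(2, ℤ)) 1 0 := by
      obtain ⟨c, hc⟩ := dvd_of_mem_Gamma0 γ.2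
      rw [hc, Int.mul_ediv_cancel_left _ hM'] at h1
      rw [hc]
      exact Dvd.dvd.mul_left h1 _
    have := (isCoprime_col (γ : SL(2, ℤ))).isUnit_of_dvd' h0 h2
    rw [Int.isUnit_iff] at this
    have h3 := hp.out.one_lt
    omega
  rw [card_quotient_of_surjective _ (T := Option (ZMod p))
    (fun γ : Gamma0 M => if (((γ : SL(2, ℤ)) 0 0 : ℤ) : ZMod p) = 0 then none else
      some (((((γ : SL(2, ℤ)) 1 0 / M : ℤ)) : ZMod p) * (((γ : SL(2, ℤ)) 0 0 : ℤ) : ZMod p)⁻¹)) ?_ ?_]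
  · rw [Nat.card_eq_fintype_card, Fintype.card_option, ZMod.card]
  · intro γ γ'
    rw [Subgroup.mem_subgroupOf, Subgroup.coe_mul, Subgroup.coe_inv,
      inv_mul_mem_Gamma0_mul_iff hM p _ _ (dvd_of_mem_Gamma0 γ.2) (dvd_of_mem_Gamma0 γ'.2),
      ← ZMod.intCast_zmod_eq_zero_iff_dvd]
    push_cast
    by_cases h1 : (((γ : SL(2, ℤ)) 0 0 : ℤ) : ZMod p) = 0 <;>
    by_cases h2 : (((γ' : SL(2, ℤ)) 0 0 : ℤ) : ZMod p) = 0
    · simp [h1, h2]
    · simp only [h1, h2, if_true, if_false, zero_mul, zero_sub, neg_eq_zero, mul_eq_zero,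
        reduceCtorEq, false_iff, not_or]
      exact ⟨hne γ h1, not_false⟩
    · simp only [h1, h2, if_true, if_false, mul_zero, sub_zero, mul_eq_zero,
        reduceCtorEq, false_iff, not_or]
      exact ⟨not_false, hne γ' h2⟩
    · simp only [h1, h2, if_false, Option.some.injEq]
      rw [← div_eq_mul_inv, ← div_eq_mul_inv, div_eq_div_iff h1 h2]
      constructor
      · intro h; rw [mul_comm, h]; ring
      · intro h; linear_combination -h
  · intro y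
    rcases y with _ | y
    · have hcop : IsCoprime (p : ℤ) (M : ℤ) := by
        rw [Nat.isCoprime_iff_coprime]
        exact (Nat.Prime.coprime_iff_not_dvd hp.out).mpr hpM
      obtain ⟨g, hg0, hg1⟩ := exists_SL2_col hcop
      refine ⟨⟨g, mem_Gamma0_of_dvd (by rw [hg1])⟩, ?_⟩
      simp only
      rw [hg0]
      simp
    · obtain ⟨g, hg0, hg1⟩ := exists_SL2_col (a := 1) (c := (M : ℤ) * (ZMod.cast y : ℤ))
        (isCoprime_one_left)
      refine ⟨⟨g, mem_Gamma0_of_dvd (by rw [hg1]; exact Dvd.intro _ rfl)⟩, ?_⟩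
      simp only
      rw [hg0, hg1, Int.mul_ediv_cancel_left _ hM']
      simp

theorem dedekindPsi_mul_of_dvd {p M : ℕ} (hp : p.Prime) (hM : M ≠ 0) (h : p ∣ M) :
    ModularCurve.dedekindPsi (p * M) = p * ModularCurve.dedekindPsi M := by
  unfold ModularCurve.dedekindPsi
  have hset : (Nat.divisors (p * M)).filter Squarefree = (Nat.divisors M).filter Squarefree := by
    ext d
    simp only [Finset.mem_filter, Nat.mem_divisors]
    constructor
    · rintro ⟨⟨hd, -⟩, hsq⟩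
      refine ⟨⟨?_, hM⟩, hsq⟩
      have : d ∣ M ^ 2 := dvd_trans hd (by rw [pow_two]; exact Nat.mul_dvd_mul_right h M)
      exact (hsq.dvd_pow_iff_dvd two_ne_zero).mp this
    · rintro ⟨⟨hd, -⟩, hsq⟩
      exact ⟨⟨dvd_mul_of_dvd_right hd p, mul_ne_zero hp.ne_zero hM⟩, hsq⟩
  rw [hset, Finset.mul_sum]
  refine Finset.sum_congr rfl fun d hd => ?_
  exact Nat.mul_div_assoc p (Nat.dvd_of_mem_divisors (Finset.mem_filter.mp hd).1)

theorem dedekindPsi_mul_of_not_dvd {p M : ℕ} (hp : p.Prime) (hM : M ≠ 0) (h : ¬ p ∣ M) :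
    ModularCurve.dedekindPsi (p * M) = (p + 1) * ModularCurve.dedekindPsi M := by
  unfold ModularCurve.dedekindPsi
  have hset : (Nat.divisors (p * M)).filter Squarefree
      = (Nat.divisors M).filter Squarefree ∪
        ((Nat.divisors M).filter Squarefree).image (p * ·) := by
    ext d
    simp only [Finset.mem_filter, Nat.mem_divisors, Finset.mem_union, Finset.mem_image]
    constructor
    · rintro ⟨⟨hd, -⟩, hsq⟩
      by_cases hpd : p ∣ d
      · right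
        obtain ⟨d', rfl⟩ := hpd
        exact ⟨d', ⟨⟨(Nat.mul_dvd_mul_iff_left hp.pos).mp hd, hM⟩, hsq.of_mul_right⟩, rfl⟩
      · left
        exact ⟨⟨Nat.Coprime.dvd_of_dvd_mul_left
          ((Nat.Prime.coprime_iff_not_dvd hp).mpr hpd).symm hd, hM⟩, hsq⟩
    · rintro (⟨⟨hd, -⟩, hsq⟩ | ⟨d', ⟨⟨hd, -⟩, hsq⟩, rfl⟩)
      · exact ⟨⟨dvd_mul_of_dvd_right hd p, mul_ne_zero hp.ne_zero hM⟩, hsq⟩
      · refine ⟨⟨Nat.mul_dvd_mul_left p hd, mul_ne_zero hp.ne_zero hM⟩, ?_⟩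
        rw [Nat.squarefree_mul_iff]
        exact ⟨(Nat.Prime.coprime_iff_not_dvd hp).mpr (fun h' => h (dvd_trans h' hd)),
          hp.squarefree, hsq⟩
  have hdisj : Disjoint ((Nat.divisors M).filter Squarefree)
      (((Nat.divisors M).filter Squarefree).image (p * ·)) := by
    rw [Finset.disjoint_left]
    intro d hd hd'
    simp only [Finset.mem_filter, Nat.mem_divisors, Finset.mem_image] at hd hd'
    obtain ⟨d', -, rfl⟩ := hd'
    exact h (dvd_trans (Dvd.intro _ rfl) hd.1.1)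
  rw [hset, Finset.sum_union hdisj, Finset.sum_image (fun x _ y _ hxy =>
    Nat.eq_of_mul_eq_mul_left hp.pos hxy), add_mul, one_mul, Finset.mul_sum]
  congr 1
  · refine Finset.sum_congr rfl fun d hd => ?_
    exact Nat.mul_div_assoc p (Nat.dvd_of_mem_divisors (Finset.mem_filter.mp hd).1)
  · refine Finset.sum_congr rfl fun d hd => ?_
    exact Nat.mul_div_mul_left M d hp.pos

theorem index_Gamma0 : ∀ N : ℕ, N ≠ 0 → (Gamma0 N).index = ModularCurve.dedekindPsi N := by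
  intro N
  induction N using Nat.strong_induction_on with
  | _ N ih =>
    intro hN
    rcases eq_or_ne N 1 with rfl | h1
    · have : Gamma0 1 = ⊤ := by
        ext γ
        simp only [Gamma0_mem, Subgroup.mem_top, iff_true]
        exact Subsingleton.elim _ _
      rw [this, Subgroup.index_top, ModularCurve.dedekindPsi_one]
    · obtain ⟨p, hp, M, rfl⟩ : ∃ p, p.Prime ∧ ∃ M, N = p * M :=
        ⟨N.minFac, Nat.minFac_prime h1, Nat.minFac_dvd N⟩
      have hM0 : M ≠ 0 := by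
        rintro rfl
        simp at hN
      have hlt : M < p * M := lt_mul_of_one_lt_left (Nat.pos_of_ne_zero hM0) hp.one_lt
      have : Fact p.Prime := ⟨hp⟩
      rw [← Subgroup.relIndex_mul_index (Gamma0_mul_le p M), ih M hlt hM0]
      by_cases hd : p ∣ M
      · rw [relIndex_of_dvd hM0 hd, dedekindPsi_mul_of_dvd hp hM0 hd]
      · rw [relIndex_of_not_dvd hM0 hd, dedekindPsi_mul_of_not_dvd hp hM0 hd]

theorem card_quotient (N : ℕ) [NeZero N] :
    Nat.card (SL(2, ℤ) ⧸ Gamma0 N) = ModularCurve.dedekindPsi N := by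
  rw [← Subgroup.index_eq_card, index_Gamma0 N (NeZero.ne N)]

/-- pure arithmetic: solvability of the translation congruence. -/
theorem exists_shift_iff {d e : ℤ} (hd : d ≠ 0) {a c1 a' c1' : ℤ} (g x y : ℤ)
    (hg1 : g ∣ d) (hg2 : g ∣ e) (hbez : g = d * x + e * y)
    (hc1 : IsCoprime c1 e) (hc1' : IsCoprime c1' e) :
    (∃ n : ℤ, d * e ∣ (a' + n * (d * c1')) * (d * c1) - (d * c1') * a) ↔
      g ∣ a * c1' - a' * c1 := by
  have key : ∀ n : ℤ, (a' + n * (d * c1')) * (d * c1) - (d * c1') * a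
      = d * (a' * c1 - c1' * a + n * d * c1 * c1') := by intro n; ring
  simp_rw [key, mul_dvd_mul_iff_left hd]
  constructor
  · rintro ⟨n, hn⟩
    have h1 : g ∣ a' * c1 - c1' * a + n * d * c1 * c1' := dvd_trans hg2 hn
    have h2 : g ∣ n * d * c1 * c1' :=
      Dvd.dvd.mul_right (Dvd.dvd.mul_right (Dvd.dvd.mul_left hg1 n) c1) c1'
    have h3 : g ∣ a' * c1 - c1' * a := (dvd_add_left h2).mp h1
    have h4 : a * c1' - a' * c1 = -(a' * c1 - c1' * a) := by ring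
    rw [h4]
    exact (dvd_neg).mpr h3
  · rintro ⟨k, hk⟩
    obtain ⟨w, z, hwz⟩ := hc1.mul_left hc1'
    refine ⟨x * k * w, ⟨-(k * (x * d * z + y)), ?_⟩⟩
    linear_combination (-1 : ℤ) * hk + (x * k * d) * hwz - k * hbez

/-- the gcd of the lower-left entry with `N` is an invariant of the `T`-orbit of the coset. -/
theorem gcd_eq_of_rel {N : ℕ} {a c a' c' : ℤ} (h : IsCoprime a c) (h' : IsCoprime a' c') (n : ℤ)
    (hn : (N : ℤ) ∣ (a' + n * c') * c - c' * a) : Int.gcd c N = Int.gcd c' N := by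
  apply Nat.dvd_antisymm
  · apply Int.natCast_dvd_natCast.mp
    apply Int.dvd_coe_gcd _ (Int.gcd_dvd_right _ _)
    have hD1 : (Int.gcd c N : ℤ) ∣ c := Int.gcd_dvd_left _ _
    have hD2 : (Int.gcd c N : ℤ) ∣ (a' + n * c') * c - c' * a :=
      dvd_trans (Int.gcd_dvd_right _ _) hn
    have hD3 : (Int.gcd c N : ℤ) ∣ c' * a := by
      have := dvd_sub (Dvd.dvd.mul_left hD1 (a' + n * c')) hD2
      simpa using this
    exact (IsCoprime.of_isCoprime_of_dvd_left h.symm hD1).dvd_of_dvd_mul_right hD3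
  · apply Int.natCast_dvd_natCast.mp
    apply Int.dvd_coe_gcd _ (Int.gcd_dvd_right _ _)
    have hD1 : (Int.gcd c' N : ℤ) ∣ c' := Int.gcd_dvd_left _ _
    have hD2 : (Int.gcd c' N : ℤ) ∣ (a' + n * c') * c - c' * a :=
      dvd_trans (Int.gcd_dvd_right _ _) hn
    have hD3 : (Int.gcd c' N : ℤ) ∣ c * a' := by
      have h1 : (Int.gcd c' N : ℤ) ∣ c' * (n * c - a) := Dvd.dvd.mul_right hD1 _
      have h2 := dvd_sub hD2 h1
      have h3 : (a' + n * c') * c - c' * a - c' * (n * c - a) = c * a' := by ring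
      rwa [h3] at h2
    exact (IsCoprime.of_isCoprime_of_dvd_left h'.symm hD1).dvd_of_dvd_mul_right hD3

/-- the second invariant of a `T`-orbit: `a * (c / d)⁻¹` modulo `gcd d (N / d)`. -/
noncomputable def invAt (N d : ℕ) (a c : ℤ) : ℕ :=
  ZMod.val (((a : ℤ) : ZMod (Nat.gcd d (N / d))) * ((c / d : ℤ) : ZMod (Nat.gcd d (N / d)))⁻¹)

theorem setup {N d : ℕ} (hN : N ≠ 0) {a c : ℤ} (h : IsCoprime a c) (hd : Int.gcd c N = d) :
    d ∣ N ∧ 0 < d ∧ (d : ℤ) ∣ c ∧ IsCoprime (c / d) ((N / d : ℕ) : ℤ) ∧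
      IsUnit ((a : ℤ) : ZMod (Nat.gcd d (N / d))) ∧
      IsUnit (((c / d : ℤ)) : ZMod (Nat.gcd d (N / d))) := by
  subst hd
  have hN' : (N : ℤ) ≠ 0 := by exact_mod_cast hN
  have hdN : Int.gcd c N ∣ N := Int.natCast_dvd_natCast.mp (Int.gcd_dvd_right c N)
  have hpos : 0 < Int.gcd c N := Int.gcd_pos_of_ne_zero_right c hN'
  have hdc : (Int.gcd c N : ℤ) ∣ c := Int.gcd_dvd_left c N
  have hcop : IsCoprime (c / (Int.gcd c N : ℤ)) ((N / Int.gcd c N : ℕ) : ℤ) := by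
    rw [Int.isCoprime_iff_gcd_eq_one, Int.natCast_div]
    exact Int.gcd_div_gcd_div_gcd hpos
  refine ⟨hdN, hpos, hdc, hcop, ?_, ?_⟩
  · rw [ZMod.coe_int_isUnit_iff_isCoprime]
    refine IsCoprime.of_isCoprime_of_dvd_left h.symm (dvd_trans ?_ hdc)
    exact Int.natCast_dvd_natCast.mpr (Nat.gcd_dvd_left _ _)
  · rw [ZMod.coe_int_isUnit_iff_isCoprime]
    refine IsCoprime.of_isCoprime_of_dvd_left hcop.symm ?_
    exact Int.natCast_dvd_natCast.mpr (Nat.gcd_dvd_right _ _)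

theorem invAt_eq_iff {N d : ℕ} (hN : N ≠ 0) {a c a' c' : ℤ} (h : IsCoprime a c)
    (h' : IsCoprime a' c') (hd : Int.gcd c N = d) (hd' : Int.gcd c' N = d) :
    invAt N d a c = invAt N d a' c' ↔ ∃ n : ℤ, (N : ℤ) ∣ (a' + n * c') * c - c' * a := by
  obtain ⟨hdN, hdpos, hdc, hcop, hua, huc⟩ := setup hN h hd
  obtain ⟨-, -, hdc', hcop', hua', huc'⟩ := setup hN h' hd'
  have hd0 : (d : ℤ) ≠ 0 := by exact_mod_cast hdpos.ne'
  have hgpos : 0 < Nat.gcd d (N / d) := Nat.gcd_pos_of_pos_left _ hdpos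
  have : NeZero (Nat.gcd d (N / d)) := ⟨hgpos.ne'⟩
  obtain ⟨c1, rfl⟩ := hdc
  obtain ⟨c1', rfl⟩ := hdc'
  rw [Int.mul_ediv_cancel_left _ hd0] at hcop huc hcop' huc'
  have hNde : (N : ℤ) = (d : ℤ) * ((N / d : ℕ) : ℤ) := by
    exact_mod_cast (Nat.mul_div_cancel' hdN).symm
  have i1 := ZMod.mul_inv_of_unit _ huc
  have i1' := ZMod.mul_inv_of_unit _ huc'
  unfold invAt
  rw [(ZMod.val_injective _).eq_iff, Int.mul_ediv_cancel_left _ hd0,
    Int.mul_ediv_cancel_left _ hd0, hNde,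
    exists_shift_iff hd0 ((Nat.gcd d (N / d) : ℕ) : ℤ) (Nat.gcdA d (N / d)) (Nat.gcdB d (N / d))
      (Int.natCast_dvd_natCast.mpr (Nat.gcd_dvd_left _ _))
      (Int.natCast_dvd_natCast.mpr (Nat.gcd_dvd_right _ _))
      (Nat.gcd_eq_gcd_ab d (N / d)) hcop hcop',
    ← ZMod.intCast_zmod_eq_zero_iff_dvd]
  push_cast
  set A : ZMod (Nat.gcd d (N / d)) := (a : ZMod (Nat.gcd d (N / d)))
  set A' : ZMod (Nat.gcd d (N / d)) := (a' : ZMod (Nat.gcd d (N / d)))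
  set C : ZMod (Nat.gcd d (N / d)) := (c1 : ZMod (Nat.gcd d (N / d)))
  set C' : ZMod (Nat.gcd d (N / d)) := (c1' : ZMod (Nat.gcd d (N / d)))
  constructor
  · intro hh
    have : A * C' - A' * C = (A * C⁻¹) * (C * C') - (A' * C'⁻¹) * (C * C')
        + A * C' * (1 - C * C⁻¹) - A' * C * (1 - C' * C'⁻¹) := by ring
    rw [this, hh, i1, i1']; ring
  · intro hh
    have h2 : A * C' = A' * C := sub_eq_zero.mp hh
    have : A * C⁻¹ = (A * C') * (C⁻¹ * C'⁻¹) + A * C⁻¹ * (1 - C' * C'⁻¹) := by ring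
    rw [this, h2, i1']
    have : A' * C * (C⁻¹ * C'⁻¹) + A * C⁻¹ * (1 - 1) = A' * C'⁻¹ * (C * C⁻¹) := by ring
    rw [this, i1, mul_one]

/-- the complete invariant of the `T`-orbit of a coset. -/
noncomputable def cuspInv (N : ℕ) (γ : SL(2, ℤ)) : Σ _ : ℕ, ℕ :=
  ⟨Int.gcd (γ 1 0) N, invAt N (Int.gcd (γ 1 0) N) (γ 0 0) (γ 1 0)⟩

/-- the index set of cusps. -/
def cuspSet (N : ℕ) : Finset (Σ _ : ℕ, ℕ) :=
  N.divisors.sigma
    (fun d => (Finset.range (Nat.gcd d (N / d))).filter (Nat.Coprime (Nat.gcd d (N / d))))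

theorem card_cuspSet (N : ℕ) : (cuspSet N).card = ModularCurve.cuspCount N := by
  rw [cuspSet, Finset.card_sigma]
  rfl

theorem cuspInv_mem {N : ℕ} (hN : N ≠ 0) (γ : SL(2, ℤ)) : cuspInv N γ ∈ cuspSet N := by
  obtain ⟨hdN, hdpos, -, -, hua, huc⟩ := setup hN (isCoprime_col γ) (rfl : Int.gcd (γ 1 0) N = _)
  have hgpos : 0 < Nat.gcd (Int.gcd (γ 1 0) N) (N / Int.gcd (γ 1 0) N) :=
    Nat.gcd_pos_of_pos_left _ hdpos
  have : NeZero (Nat.gcd (Int.gcd (γ 1 0) N) (N / Int.gcd (γ 1 0) N)) := ⟨hgpos.ne'⟩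
  rw [cuspSet, Finset.mem_sigma]
  refine ⟨Nat.mem_divisors.mpr ⟨hdN, hN⟩, ?_⟩
  rw [Finset.mem_filter, Finset.mem_range]
  refine ⟨ZMod.val_lt _, ?_⟩
  obtain ⟨v, hv⟩ := hua.mul (ZMod.isUnit_inv huc)
  show Nat.Coprime _ (invAt N _ _ _)
  unfold invAt
  rw [← hv]
  exact (ZMod.val_coe_unit_coprime v).symm

theorem cuspInv_eq_iff {N : ℕ} (hN : N ≠ 0) (γ γ' : SL(2, ℤ)) :
    cuspInv N γ = cuspInv N γ' ↔
      ∃ n : ℤ, (N : ℤ) ∣ (γ' 0 0 + n * γ' 1 0) * γ 1 0 - γ' 1 0 * γ 0 0 := by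
  constructor
  · intro h
    have h1 : Int.gcd (γ 1 0) N = Int.gcd (γ' 1 0) N := congrArg Sigma.fst h
    have h2 : invAt N (Int.gcd (γ 1 0) N) (γ 0 0) (γ 1 0)
        = invAt N (Int.gcd (γ' 1 0) N) (γ' 0 0) (γ' 1 0) := congrArg Sigma.snd h
    rw [← h1] at h2
    exact (invAt_eq_iff hN (isCoprime_col γ) (isCoprime_col γ') rfl h1.symm).mp h2
  · rintro ⟨n, hn⟩
    have h1 := gcd_eq_of_rel (isCoprime_col γ) (isCoprime_col γ') n hn
    have h2 := (invAt_eq_iff hN (isCoprime_col γ) (isCoprime_col γ') rfl h1.symm).mpr ⟨n, hn⟩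
    unfold cuspInv
    rw [← h1, h2]

theorem cuspInv_surj {N : ℕ} (_hN : N ≠ 0) (x : Σ _ : ℕ, ℕ) (hx : x ∈ cuspSet N) :
    ∃ γ : SL(2, ℤ), cuspInv N γ = x := by
  obtain ⟨d, r⟩ := x
  rw [cuspSet, Finset.mem_sigma, Finset.mem_filter, Finset.mem_range] at hx
  obtain ⟨hd, hr, hcop⟩ := hx
  simp only at hd hr hcop
  have hdN : d ∣ N := Nat.dvd_of_mem_divisors hd
  have hdpos : 0 < d := Nat.pos_of_mem_divisors hd
  have : NeZero d := ⟨hdpos.ne'⟩
  have hgpos : 0 < Nat.gcd d (N / d) := Nat.gcd_pos_of_pos_left _ hdpos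
  have : NeZero (Nat.gcd d (N / d)) := ⟨hgpos.ne'⟩
  obtain ⟨v, hv⟩ := ZMod.unitsMap_surjective (Nat.gcd_dvd_left d (N / d))
    (ZMod.unitOfCoprime r hcop.symm)
  have hcop_a : IsCoprime (((v : ZMod d).val : ℕ) : ℤ) (d : ℤ) :=
    Nat.isCoprime_iff_coprime.mpr (ZMod.val_coe_unit_coprime v)
  obtain ⟨γ, h0, h1⟩ := exists_SL2_col hcop_a
  refine ⟨γ, ?_⟩
  have hgcd : Int.gcd (d : ℤ) (N : ℤ) = d := by
    rw [Int.gcd_natCast_natCast]
    exact Nat.gcd_eq_left hdN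
  unfold cuspInv
  rw [h0, h1, hgcd]
  congr 1
  unfold invAt
  have hv' := congrArg Units.val hv
  rw [ZMod.unitsMap_def, Units.coe_map, ZMod.coe_unitOfCoprime] at hv'
  simp only [MonoidHom.coe_coe, ZMod.castHom_apply] at hv'
  rw [Int.ediv_self (by exact_mod_cast hdpos.ne'), Int.cast_one, Int.cast_natCast,
    ZMod.natCast_val, hv']
  have h11 : (1 : ZMod (Nat.gcd d (N / d)))⁻¹ = 1 := by
    have := ZMod.mul_inv_of_unit (1 : ZMod (Nat.gcd d (N / d))) isUnit_one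
    rwa [one_mul] at this
  rw [h11, mul_one]
  exact ZMod.val_natCast_of_lt hr

theorem card_quotient_setoid_of_surj {α γ β : Type*} (s : Setoid α) (π : γ → α)
    (hπ : Function.Surjective π) (f : γ → β) (hf : ∀ x y, f x = f y ↔ s.r (π x) (π y))
    (hs : Function.Surjective f) : Nat.card (Quotient s) = Nat.card β := by
  have hinv : ∀ a, π (Function.surjInv hπ a) = a := Function.surjInv_eq hπ
  refine Nat.card_congr (Equiv.ofBijective
    (Quotient.lift (fun a => f (Function.surjInv hπ a)) (fun a b hab => by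
      rw [hf, hinv, hinv]; exact hab)) ⟨?_, ?_⟩)
  · intro x y
    induction x using Quotient.inductionOn
    induction y using Quotient.inductionOn
    intro h
    simp only [Quotient.lift_mk] at h
    rw [hf, hinv, hinv] at h
    exact Quotient.sound h
  · intro t
    obtain ⟨g, rfl⟩ := hs t
    refine ⟨Quotient.mk _ (π g), ?_⟩
    simp only [Quotient.lift_mk]
    rw [hf, hinv]

theorem card_orbits_T (N : ℕ) [NeZero N] :
    Nat.card (MulAction.orbitRel.Quotient (Subgroup.zpowers T) (SL(2, ℤ) ⧸ Gamma0 N))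
      = ModularCurve.cuspCount N := by
  have hN := NeZero.ne N
  rw [← card_cuspSet, ← Nat.card_eq_finsetCard (cuspSet N)]
  refine card_quotient_setoid_of_surj (MulAction.orbitRel _ _) (QuotientGroup.mk)
    QuotientGroup.mk_surjective
    (fun γ => (⟨cuspInv N γ, cuspInv_mem hN γ⟩ : ↥(cuspSet N))) ?_ ?_
  · intro γ γ'
    rw [Subtype.mk.injEq, cuspInv_eq_iff hN]
    show _ ↔ MulAction.orbitRel _ _ _ _
    rw [MulAction.orbitRel_apply, MulAction.mem_orbit_iff]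
    constructor
    · rintro ⟨n, hn⟩
      refine ⟨⟨T ^ n, n, rfl⟩, ?_⟩
      show T ^ n • (QuotientGroup.mk γ' : SL(2, ℤ) ⧸ Gamma0 N) = QuotientGroup.mk γ
      rw [MulAction.Quotient.smul_mk, smul_eq_mul, mk_eq_mk_iff, (T_zpow_mul_apply n γ').1,
        (T_zpow_mul_apply n γ').2]
      exact hn
    · rintro ⟨⟨t, n, rfl⟩, ht⟩
      refine ⟨n, ?_⟩
      have ht' : T ^ n • (QuotientGroup.mk γ' : SL(2, ℤ) ⧸ Gamma0 N) = QuotientGroup.mk γ := ht
      rw [MulAction.Quotient.smul_mk, smul_eq_mul, mk_eq_mk_iff, (T_zpow_mul_apply n γ').1,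
        (T_zpow_mul_apply n γ').2] at ht'
      exact ht'
  · rintro ⟨x, hx⟩
    obtain ⟨γ, rfl⟩ := cuspInv_surj hN x hx
    exact ⟨γ, rfl⟩


end Fermat.Agent.Lib.Gamma0Count
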