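/-
Polynomials with conjugate roots: symmetric expressions in a family of functions with
`A`-integral expansions, permuted by `SL₂(ℤ)`, are `A`-polynomials in `j`
(owner: helper68).

Let `A ⊆ ℂ` be a subring, `N` a level, `F G : ι → ℍ → ℂ` finite families in `intCusp A N` which
`SL₂(ℤ)` permutes (compatibly).  Then
* `exists_conj_poly`     : `∏ i, (X - F i) = Φ(j)(X)` for a monic `Φ ∈ A[Y][X]` of degree `#ι`;
* `exists_lagrange_poly` : `∑ i, G i · ∏_{i' ≠ i} (X - F i') = Ψ(j)(X)` for some `Ψ ∈ A[Y][X]` of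
  degree `< #ι`;
both as identities of polynomials over `intCusp A N` (functions) and, after expansion at the
cusp, over `LaurentSeries A` (formal: `j ↦ jqNModC A N = j(u^N)`).

The conjugates `conj N h x = h ∘ x⁻¹` (`x ∈ SL₂(ℤ)/Γ₀(N)`) of a `Γ₀(N)`-invariant function `h`
form such a family (`conj_smul`).
-/
import Mathlib
import Fermat.Agent.Lib.CuspIntJ
import Fermat.Agent.Lib.Gamma0Count

set_option autoImplicit false

noncomputable section

namespace Fermat.Agent.Lib.CuspConjPoly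

open UpperHalfPlane Filter Topology CongruenceSubgroup
open scoped MatrixGroups Manifold Real
open Fermat.Agent.Lib.CuspLaurent Fermat.Agent.Lib.CuspInvariant Fermat.Agent.Lib.JStab
open Fermat.Agent.Lib.CuspIntJ Fermat.Agent.Lib.DeltaSlash Fermat.Agent.Lib.DeltaLevelN
open Fermat.Agent.S24.Basic Fermat.Agent.S24.ModRing

/-! ## Precomposition with an element of `SL₂(ℤ)` -/

/-- Precomposition with `γ`, as a ring endomorphism of the ring of functions on `ℍ`. -/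
def precomp (γ : SL(2, ℤ)) : (ℍ → ℂ) →+* (ℍ → ℂ) :=
  RingHom.pi fun τ => Pi.evalRingHom (fun _ : ℍ => ℂ) (γ • τ)

@[simp] lemma precomp_apply (γ : SL(2, ℤ)) (f : ℍ → ℂ) (τ : ℍ) : precomp γ f τ = f (γ • τ) := rfl

section general

variable (A : Subring ℂ) (N : ℕ) [NeZero N]

instance instNontrivialIntCusp : Nontrivial (intCusp A N) :=
  ⟨⟨0, 1, fun h => by
    have h1 := congrArg (fun f : intCusp A N => (f : ℍ → ℂ) UpperHalfPlane.I) h
    simp at h1⟩⟩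

/-- A polynomial over `intCusp A N` which, as a polynomial over functions, is fixed by all
precompositions with elements of `SL₂(ℤ)`, comes from a polynomial over `A[j]`. -/
theorem exists_map_evJ_eq (Q : Polynomial (intCusp A N))
    (hQ : ∀ γ : SL(2, ℤ),
      (Q.map (intCusp A N).subtype).map (precomp γ) = Q.map (intCusp A N).subtype) :
    ∃ Φ : Polynomial (Polynomial A), Φ.map (evJ A N) = Q := by
  rw [← Polynomial.mem_lifts, Polynomial.lifts_iff_coeff_lifts]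
  intro k
  obtain ⟨P, hP⟩ := exists_evJ_eq A N (Q.coeff k) (fun γ τ => by
    have h := congrArg (fun p : Polynomial (ℍ → ℂ) => p.coeff k) (hQ γ)
    simp only [Polynomial.coeff_map] at h
    exact congrFun h τ)
  exact ⟨P, hP⟩

variable {A N}

lemma natDegree_eq_of_map_evJ {Φ : Polynomial (Polynomial A)} {Q : Polynomial (intCusp A N)}
    (h : Φ.map (evJ A N) = Q) : Φ.natDegree = Q.natDegree := by
  rw [← h, Polynomial.natDegree_map_eq_of_injective (evJ_injective A N)]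

lemma degree_eq_of_map_evJ {Φ : Polynomial (Polynomial A)} {Q : Polynomial (intCusp A N)}
    (h : Φ.map (evJ A N) = Q) : Φ.degree = Q.degree := by
  rw [← h, Polynomial.degree_map_eq_of_injective (evJ_injective A N)]

lemma monic_of_map_evJ {Φ : Polynomial (Polynomial A)} {Q : Polynomial (intCusp A N)}
    (h : Φ.map (evJ A N) = Q) (hQ : Q.Monic) : Φ.Monic :=
  Polynomial.monic_of_injective (evJ_injective A N) (h ▸ hQ)

/-- Passing from functions to formal expansions. -/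
lemma map_evJq_eq {Φ : Polynomial (Polynomial A)} {Q : Polynomial (intCusp A N)}
    (h : Φ.map (evJ A N) = Q) : Φ.map (evJq A N) = Q.map (laurentInt A N) := by
  rw [← h, Polynomial.map_map, laurentInt_comp_evJ]

variable (A N)

/-- **Conjugate polynomial.**  If `SL₂(ℤ)` permutes the finite family `F` of functions with
`A`-integral expansions, then `∏ i, (X - F i)` is a monic polynomial of degree `#ι` with
coefficients in `A[j]`. -/
theorem exists_conj_poly {ι : Type*} [Fintype ι] (F : ι → ℍ → ℂ)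
    (hF : ∀ i, F i ∈ intCusp A N)
    (hperm : ∀ γ : SL(2, ℤ), ∃ σ : Equiv.Perm ι, ∀ i τ, F i (γ • τ) = F (σ i) τ) :
    ∃ Φ : Polynomial (Polynomial A), Φ.Monic ∧ Φ.natDegree = Fintype.card ι ∧
      Φ.map (evJ A N) = ∏ i, (Polynomial.X - Polynomial.C (⟨F i, hF i⟩ : intCusp A N)) ∧
      Φ.map (evJq A N) =
        ∏ i, (Polynomial.X - Polynomial.C (laurentInt A N ⟨F i, hF i⟩)) := by
  classical
  set Q : Polynomial (intCusp A N) :=
    ∏ i, (Polynomial.X - Polynomial.C (⟨F i, hF i⟩ : intCusp A N)) with hQdef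
  have hQ : ∀ γ : SL(2, ℤ),
      (Q.map (intCusp A N).subtype).map (precomp γ) = Q.map (intCusp A N).subtype := by
    intro γ
    obtain ⟨σ, hσ⟩ := hperm γ
    have hpre : ∀ i, precomp γ (F i) = F (σ i) := fun i => funext (hσ i)
    simp only [hQdef, Polynomial.map_prod, Polynomial.map_sub, Polynomial.map_X,
      Polynomial.map_C, Subring.coe_subtype, hpre]
    exact Equiv.prod_comp σ (fun i => (Polynomial.X - Polynomial.C (F i) : Polynomial (ℍ → ℂ)))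
  obtain ⟨Φ, hΦ⟩ := exists_map_evJ_eq A N Q hQ
  have hQmonic : Q.Monic :=
    Polynomial.monic_prod_of_monic _ _ (fun i _ => Polynomial.monic_X_sub_C _)
  have hQdeg : Q.natDegree = Fintype.card ι := by
    rw [hQdef, Polynomial.natDegree_prod_of_monic _ _ (fun i _ => Polynomial.monic_X_sub_C _)]
    simp
  refine ⟨Φ, monic_of_map_evJ hΦ hQmonic, (natDegree_eq_of_map_evJ hΦ).trans hQdeg, hΦ, ?_⟩
  rw [map_evJq_eq hΦ, hQdef]
  simp only [Polynomial.map_prod, Polynomial.map_sub, Polynomial.map_X, Polynomial.map_C]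

/-- **Lagrange numerator.**  If `SL₂(ℤ)` permutes the finite families `F`, `G` compatibly, then
`∑ i, G i · ∏_{i' ≠ i} (X - F i')` has coefficients in `A[j]` (and degree `< #ι`). -/
theorem exists_lagrange_poly {ι : Type*} [Fintype ι] [DecidableEq ι] (F G : ι → ℍ → ℂ)
    (hF : ∀ i, F i ∈ intCusp A N) (hG : ∀ i, G i ∈ intCusp A N)
    (hperm : ∀ γ : SL(2, ℤ), ∃ σ : Equiv.Perm ι,
      ∀ i τ, F i (γ • τ) = F (σ i) τ ∧ G i (γ • τ) = G (σ i) τ) :
    ∃ Ψ : Polynomial (Polynomial A), Ψ.degree < (Fintype.card ι : WithBot ℕ) ∧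
      Ψ.map (evJ A N) = ∑ i, Polynomial.C (⟨G i, hG i⟩ : intCusp A N) *
        ∏ i' ∈ Finset.univ.erase i,
          (Polynomial.X - Polynomial.C (⟨F i', hF i'⟩ : intCusp A N)) ∧
      Ψ.map (evJq A N) = ∑ i, Polynomial.C (laurentInt A N ⟨G i, hG i⟩) *
        ∏ i' ∈ Finset.univ.erase i,
          (Polynomial.X - Polynomial.C (laurentInt A N ⟨F i', hF i'⟩)) := by
  set Q : Polynomial (intCusp A N) := ∑ i, Polynomial.C (⟨G i, hG i⟩ : intCusp A N) *
        ∏ i' ∈ Finset.univ.erase i,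
          (Polynomial.X - Polynomial.C (⟨F i', hF i'⟩ : intCusp A N)) with hQdef
  have hQ : ∀ γ : SL(2, ℤ),
      (Q.map (intCusp A N).subtype).map (precomp γ) = Q.map (intCusp A N).subtype := by
    intro γ
    obtain ⟨σ, hσ⟩ := hperm γ
    have hpreF : ∀ i, precomp γ (F i) = F (σ i) := fun i => funext fun τ => (hσ i τ).1
    have hpreG : ∀ i, precomp γ (G i) = G (σ i) := fun i => funext fun τ => (hσ i τ).2
    simp only [hQdef, Polynomial.map_sum, Polynomial.map_mul, Polynomial.map_prod,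
      Polynomial.map_sub, Polynomial.map_X, Polynomial.map_C, Subring.coe_subtype, hpreF, hpreG]
    refine Fintype.sum_equiv σ _ _ (fun i => ?_)
    congr 1
    refine Finset.prod_equiv σ (fun i' => ?_) (fun i' _ => rfl)
    simp only [Finset.mem_erase, Finset.mem_univ, and_true, ne_eq, σ.injective.eq_iff]
  obtain ⟨Ψ, hΨ⟩ := exists_map_evJ_eq A N Q hQ
  refine ⟨Ψ, ?_, hΨ, ?_⟩
  · rw [degree_eq_of_map_evJ hΨ, hQdef]
    refine lt_of_le_of_lt (Polynomial.degree_sum_le _ _) ?_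
    rw [Finset.sup_lt_iff (WithBot.bot_lt_coe _)]
    intro i _
    refine lt_of_le_of_lt Polynomial.degree_le_natDegree ?_
    have hpos : 0 < Fintype.card ι := Fintype.card_pos_iff.mpr ⟨i⟩
    have hnat : (Polynomial.C (⟨G i, hG i⟩ : intCusp A N) *
        ∏ i' ∈ Finset.univ.erase i,
          (Polynomial.X - Polynomial.C (⟨F i', hF i'⟩ : intCusp A N))).natDegree <
        Fintype.card ι := by
      refine lt_of_le_of_lt (Polynomial.natDegree_C_mul_le _ _) ?_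
      rw [Polynomial.natDegree_prod_of_monic _ _ (fun i _ => Polynomial.monic_X_sub_C _)]
      simp only [Polynomial.natDegree_X_sub_C, Finset.sum_const, smul_eq_mul, mul_one,
        Finset.card_erase_of_mem (Finset.mem_univ i), Finset.card_univ]
      exact Nat.sub_lt hpos one_pos
    exact_mod_cast hnat
  · rw [map_evJq_eq hΨ, hQdef]
    simp only [Polynomial.map_sum, Polynomial.map_mul, Polynomial.map_prod, Polynomial.map_sub,
      Polynomial.map_X, Polynomial.map_C]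

end general

/-! ## Conjugates of a `Γ₀(N)`-invariant function -/

section conj

variable {N : ℕ} {h h' : ℍ → ℂ}

/-- The conjugate `h ∘ x⁻¹` of a `Γ₀(N)`-invariant function `h`, for `x ∈ SL₂(ℤ)/Γ₀(N)`. -/
def conj (N : ℕ) (h : ℍ → ℂ) (x : SL(2, ℤ) ⧸ Gamma0 N) : ℍ → ℂ :=
  fun τ => h ((Quotient.out x)⁻¹ • τ)

lemma conj_mk (hinv : ∀ g ∈ Gamma0 N, ∀ τ, h (g • τ) = h τ) (γ : SL(2, ℤ)) (τ : ℍ) :
    conj N h (QuotientGroup.mk γ) τ = h (γ⁻¹ • τ) := by
  obtain ⟨g, hg⟩ := QuotientGroup.mk_out_eq_mul (Gamma0 N) γ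
  unfold conj
  rw [hg, mul_inv_rev, mul_smul]
  exact hinv _ (inv_mem g.2) _

lemma conj_mk_one (hinv : ∀ g ∈ Gamma0 N, ∀ τ, h (g • τ) = h τ) :
    conj N h (QuotientGroup.mk 1) = h := by
  funext τ
  rw [conj_mk hinv, inv_one, one_smul]

lemma conj_smul (hinv : ∀ g ∈ Gamma0 N, ∀ τ, h (g • τ) = h τ) (γ : SL(2, ℤ))
    (x : SL(2, ℤ) ⧸ Gamma0 N) (τ : ℍ) : conj N h x (γ • τ) = conj N h (γ⁻¹ • x) τ := by
  induction x using QuotientGroup.induction_on with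
  | H g =>
    rw [MulAction.Quotient.smul_mk, conj_mk hinv, conj_mk hinv, smul_eq_mul, mul_inv_rev,
      inv_inv, mul_smul]

/-- `SL₂(ℤ)` permutes the conjugates of a `Γ₀(N)`-invariant function. -/
lemma conj_perm (hinv : ∀ g ∈ Gamma0 N, ∀ τ, h (g • τ) = h τ) (γ : SL(2, ℤ)) :
    ∃ σ : Equiv.Perm (SL(2, ℤ) ⧸ Gamma0 N), ∀ x τ, conj N h x (γ • τ) = conj N h (σ x) τ :=
  ⟨MulAction.toPerm γ⁻¹, fun x τ => conj_smul hinv γ x τ⟩

/-- `SL₂(ℤ)` permutes the conjugates of two `Γ₀(N)`-invariant functions compatibly. -/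
lemma conj_perm₂ (hinv : ∀ g ∈ Gamma0 N, ∀ τ, h (g • τ) = h τ)
    (hinv' : ∀ g ∈ Gamma0 N, ∀ τ, h' (g • τ) = h' τ) (γ : SL(2, ℤ)) :
    ∃ σ : Equiv.Perm (SL(2, ℤ) ⧸ Gamma0 N), ∀ x τ,
      conj N h x (γ • τ) = conj N h (σ x) τ ∧ conj N h' x (γ • τ) = conj N h' (σ x) τ :=
  ⟨MulAction.toPerm γ⁻¹, fun x τ => ⟨conj_smul hinv γ x τ, conj_smul hinv' γ x τ⟩⟩

end conj

/-! ## The conjugates of `j(Nτ)` -/

section jN

/-- From the Hermite equations `diag(N,1) γ = δ [a b; 0 d]`: `a = gcd(N, γ₁₀)`. -/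
lemma decomp_eq_gcd {N a d : ℕ} {γ δ : SL(2, ℤ)} (had : a * d = N)
    (h00 : δ 0 0 * a = N * γ 0 0) (h10 : δ 1 0 * a = γ 1 0) : a = Int.gcd N (γ 1 0) := by
  apply Nat.dvd_antisymm
  · apply Int.natCast_dvd_natCast.mp
    apply Int.dvd_coe_gcd
    · exact ⟨d, by rw [← had]; push_cast; ring⟩
    · exact ⟨δ 1 0, by rw [← h10]; ring⟩
  · apply Int.natCast_dvd_natCast.mp
    have hdet : δ 0 0 * δ 1 1 - δ 0 1 * δ 1 0 = 1 := by
      have := δ.det_coe
      rw [Matrix.det_fin_two] at this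
      exact this
    have ha : (a : ℤ) = δ 1 1 * ((N : ℤ) * γ 0 0) - δ 0 1 * γ 1 0 := by
      rw [← h00, ← h10]
      linear_combination (-(a : ℤ)) * hdet
    rw [ha]
    exact dvd_sub (dvd_mul_of_dvd_right (dvd_mul_of_dvd_left (Int.gcd_dvd_left _ _) _) _)
      (dvd_mul_of_dvd_right (Int.gcd_dvd_right _ _) _)

/-- The Hermite equations on points of `ℍ`. -/
lemma smul_affine_of_decomp {N a b d : ℕ} (hN0 : N ≠ 0) {γ δ : SL(2, ℤ)} (had : a * d = N)
    (h00 : δ 0 0 * a = N * γ 0 0) (h01 : δ 0 0 * b + δ 0 1 * d = N * γ 0 1)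
    (h10 : δ 1 0 * a = γ 1 0) (h11 : δ 1 0 * b + δ 1 1 * d = γ 1 1) (z : ℍ) :
    ofComplex ((N : ℂ) * ((γ • z : ℍ) : ℂ)) = δ • ofComplex (((a : ℂ) * z + b) / d) := by
  have ha0 : a ≠ 0 := by rintro rfl; simp at had; exact hN0 had.symm
  have hd0 : d ≠ 0 := by rintro rfl; simp at had; exact hN0 had.symm
  have haC : (a : ℂ) ≠ 0 := by exact_mod_cast ha0
  have hdC : (d : ℂ) ≠ 0 := by exact_mod_cast hd0
  have hwim : 0 < (((a : ℂ) * z + b) / d).im := im_affine_pos ha0 hd0 b z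
  obtain ⟨w, hw⟩ : ∃ w : ℍ, (w : ℂ) = ((a : ℂ) * z + b) / d := ⟨⟨_, hwim⟩, rfl⟩
  have hden := sl_denom_ne_zero γ z
  have hdenδ := sl_denom_ne_zero δ w
  have c00 : (δ 0 0 : ℂ) * a = N * (γ 0 0 : ℂ) := by exact_mod_cast h00
  have c01 : (δ 0 0 : ℂ) * b + (δ 0 1 : ℂ) * d = N * (γ 0 1 : ℂ) := by exact_mod_cast h01
  have c10 : (δ 1 0 : ℂ) * a = (γ 1 0 : ℂ) := by exact_mod_cast h10
  have c11 : (δ 1 0 : ℂ) * b + (δ 1 1 : ℂ) * d = (γ 1 1 : ℂ) := by exact_mod_cast h11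
  have hdenrel : (δ 1 0 : ℂ) * w + (δ 1 1 : ℂ) = ((γ 1 0 : ℂ) * z + (γ 1 1 : ℂ)) / d := by
    rw [hw]; field_simp; linear_combination (z : ℂ) * c10 + c11
  have hw' : ofComplex (((a : ℂ) * z + b) / d) = w := by
    rw [ofComplex_apply_of_im_pos hwim]; exact UpperHalfPlane.ext hw.symm
  rw [hw']
  have him : 0 < ((N : ℂ) * ((γ • z : ℍ) : ℂ)).im := by
    have : ((N : ℂ) * ((γ • z : ℍ) : ℂ)).im = N * (γ • z : ℍ).im := by simp
    rw [this]
    have := (γ • z : ℍ).im_pos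
    positivity
  rw [ofComplex_apply_of_im_pos him]
  apply UpperHalfPlane.ext
  show (N : ℂ) * ((γ • z : ℍ) : ℂ) = ((δ • w : ℍ) : ℂ)
  rw [coe_sl_smul, coe_sl_smul, hdenrel]
  have hnum : (δ 0 0 : ℂ) * w + (δ 0 1 : ℂ) =
      ((N : ℂ) * ((γ 0 0 : ℂ) * z + (γ 0 1 : ℂ))) / d := by
    rw [hw]; field_simp; linear_combination (z : ℂ) * c00 + c01
  rw [hnum]
  field_simp

/-- Every `SL₂(ℤ)`-translate of `j(Nτ)` is `τ ↦ j((aτ+b)/e)` with `a = gcd(N, γ₁₀)`, `a e = N`,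
`0 ≤ b < e`. -/
theorem exists_jN_smul_eq_jM (N : ℕ) [NeZero N] (γ : SL(2, ℤ)) :
    ∃ b e : ℕ, Int.gcd N (γ 1 0) * e = N ∧ b < e ∧
      (fun τ : ℍ => jN N (γ • τ)) = jM (Int.gcd N (γ 1 0)) b e := by
  obtain ⟨a, b, d, δ, had, hbd, -, h00, h01, h10, h11⟩ := exists_decomp N γ
  have ha : a = Int.gcd N (γ 1 0) := decomp_eq_gcd had h00 h10
  subst ha
  refine ⟨b, d, had, hbd, funext fun z => ?_⟩
  rw [jN, smul_affine_of_decomp (NeZero.ne N) had h00 h01 h10 h11 z, jInv_smul]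
  rfl

variable {A : Subring ℂ} {N : ℕ} [NeZero N]

lemma coe_unit_pow_eq {a b e : ℕ} (hae : a * e = N) (z : Aˣ)
    (hz : ((z : A) : ℂ) = Complex.exp (2 * π * Complex.I / N)) :
    (((z ^ (a * b) : Aˣ) : A) : ℂ) = Complex.exp (2 * π * Complex.I * b / e) := by
  have hN0 : N ≠ 0 := NeZero.ne N
  have ha0 : a ≠ 0 := by rintro rfl; simp at hae; exact hN0 hae.symm
  have he0 : e ≠ 0 := by rintro rfl; simp at hae; exact hN0 hae.symm
  have haC : (a : ℂ) ≠ 0 := by exact_mod_cast ha0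
  have heC : (e : ℂ) ≠ 0 := by exact_mod_cast he0
  rw [Units.val_pow_eq_pow_val, Subring.coe_pow, hz, ← Complex.exp_nat_mul]
  congr 1
  rw [← hae]
  push_cast
  field_simp

lemma laurentInt_congr {f g : ℍ → ℂ} (hf : f ∈ intCusp A N) (hg : g ∈ intCusp A N)
    (h : f = g) : laurentInt A N ⟨f, hf⟩ = laurentInt A N ⟨g, hg⟩ := by
  subst h
  rfl

/-- Every `SL₂(ℤ)`-translate of `j(Nτ)` has an `A`-integral expansion in `u = exp(2πiτ/N)` as
soon as `exp(2πi/N)` is a unit of `A`. -/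
theorem jN_smul_mem_intCusp (z : Aˣ)
    (hz : ((z : A) : ℂ) = Complex.exp (2 * π * Complex.I / N)) (γ : SL(2, ℤ)) :
    (fun τ : ℍ => jN N (γ • τ)) ∈ intCusp A N := by
  have hN0 : N ≠ 0 := NeZero.ne N
  obtain ⟨b, e, hae, -, hfun⟩ := exists_jN_smul_eq_jM N γ
  have ha0 : Int.gcd N (γ 1 0) ≠ 0 := by
    intro h0; rw [h0] at hae; simp at hae; exact hN0 hae.symm
  have he0 : e ≠ 0 := by rintro rfl; simp at hae; exact hN0 hae.symm
  rw [hfun]
  exact jM_mem_intCusp ha0 he0 ⟨_, hae.symm.trans (mul_comm _ _)⟩ b _ (coe_unit_pow_eq hae z hz)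

/-- The expansion of the translate `τ ↦ j(N γτ)` in `u = exp(2πiτ/N)`: it is the formal series
`j(ζ^(a b) u^(a²))`, `a = gcd(N, γ₁₀)`, for some `0 ≤ b < N / a`. -/
theorem exists_laurentInt_jN_smul (z : Aˣ)
    (hz : ((z : A) : ℂ) = Complex.exp (2 * π * Complex.I / N)) (γ : SL(2, ℤ)) :
    ∃ b : ℕ, b < N / Int.gcd N (γ 1 0) ∧
      laurentInt A N ⟨fun τ : ℍ => jN N (γ • τ), jN_smul_mem_intCusp z hz γ⟩ =
        jTw A (z ^ (Int.gcd N (γ 1 0) * b)) (Int.gcd N (γ 1 0) * Int.gcd N (γ 1 0)) := by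
  have hN0 : N ≠ 0 := NeZero.ne N
  obtain ⟨b, e, hae, hbe, hfun⟩ := exists_jN_smul_eq_jM N γ
  have ha0 : Int.gcd N (γ 1 0) ≠ 0 := by
    intro h0; rw [h0] at hae; simp at hae; exact hN0 hae.symm
  have he0 : e ≠ 0 := by rintro rfl; simp at hae; exact hN0 hae.symm
  have heN : e ∣ N := ⟨_, hae.symm.trans (mul_comm _ _)⟩
  have hNe : N / e = Int.gcd N (γ 1 0) := Nat.div_eq_of_eq_mul_left (Nat.pos_of_ne_zero he0) hae.symm
  have hNa : N / Int.gcd N (γ 1 0) = e :=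
    Nat.div_eq_of_eq_mul_right (Nat.pos_of_ne_zero ha0) hae.symm
  refine ⟨b, by rw [hNa]; exact hbe, ?_⟩
  rw [laurentInt_congr (jN_smul_mem_intCusp z hz γ)
    (jM_mem_intCusp ha0 he0 heN b _ (coe_unit_pow_eq hae z hz)) hfun,
    laurentInt_jM ha0 he0 heN b _ (coe_unit_pow_eq hae z hz), hNe]

end jN

/-! ## The conjugates of `j(Nτ)`, indexed by `SL₂(ℤ)/Γ₀(N)` -/

section cosets

lemma gcd_dvd_gcd_mul {N : ℕ} {k : SL(2, ℤ)} (hk : k ∈ Gamma0 N) (m : SL(2, ℤ)) :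
    Int.gcd N (m 1 0) ∣ Int.gcd N ((k * m) 1 0) := by
  apply Int.natCast_dvd_natCast.mp
  apply Int.dvd_coe_gcd (Int.gcd_dvd_left _ _)
  have hk10 : (N : ℤ) ∣ k 1 0 := (mem_Gamma0_iff_dvd N k).mp hk
  have hmul : (k * m) 1 0 = k 1 0 * m 0 0 + k 1 1 * m 1 0 := by
    simp [Matrix.SpecialLinearGroup.coe_mul, Matrix.mul_apply, Fin.sum_univ_two]
  rw [hmul]
  exact dvd_add (dvd_mul_of_dvd_left ((Int.gcd_dvd_left _ _).trans hk10) _)
    (dvd_mul_of_dvd_right (Int.gcd_dvd_right _ _) _)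

/-- `gcd(N, γ₁₀)` only depends on the coset `Γ₀(N) γ`. -/
lemma gcd_mul_eq {N : ℕ} {k : SL(2, ℤ)} (hk : k ∈ Gamma0 N) (m : SL(2, ℤ)) :
    Int.gcd N ((k * m) 1 0) = Int.gcd N (m 1 0) := by
  apply Nat.dvd_antisymm
  · have h := gcd_dvd_gcd_mul (inv_mem hk) (k * m)
    rwa [inv_mul_cancel_left] at h
  · exact gcd_dvd_gcd_mul hk m

/-- The invariant `a = gcd(N, (x⁻¹)₁₀)` of a coset `x ∈ SL₂(ℤ)/Γ₀(N)`: the conjugate
`j(N x⁻¹τ)` is `j((aτ+b)/e)` with `a e = N`; `a² ` is the order of its pole in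
`u = exp(2πiτ/N)`. -/
def cuspA (N : ℕ) (x : SL(2, ℤ) ⧸ Gamma0 N) : ℕ := Int.gcd N ((Quotient.out x)⁻¹ 1 0)

lemma cuspA_mk (N : ℕ) (γ : SL(2, ℤ)) :
    cuspA N (QuotientGroup.mk γ) = Int.gcd N (γ⁻¹ 1 0) := by
  obtain ⟨g, hg⟩ := QuotientGroup.mk_out_eq_mul (Gamma0 N) γ
  unfold cuspA
  rw [hg, mul_inv_rev]
  exact gcd_mul_eq (inv_mem g.2) _

lemma cuspA_dvd (N : ℕ) (x : SL(2, ℤ) ⧸ Gamma0 N) : cuspA N x ∣ N :=
  Int.natCast_dvd_natCast.mp (Int.gcd_dvd_left _ _)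

lemma cuspA_ne_zero (N : ℕ) [NeZero N] (x : SL(2, ℤ) ⧸ Gamma0 N) : cuspA N x ≠ 0 := by
  intro h
  have h1 := cuspA_dvd N x
  rw [h] at h1
  exact NeZero.ne N (Nat.eq_zero_of_zero_dvd h1)

/-- `a = N` exactly for the trivial coset (the cusp `∞` itself). -/
lemma cuspA_eq_iff (N : ℕ) (x : SL(2, ℤ) ⧸ Gamma0 N) :
    cuspA N x = N ↔ x = QuotientGroup.mk 1 := by
  induction x using QuotientGroup.induction_on with
  | H γ =>
    rw [cuspA_mk, QuotientGroup.eq, mul_one, mem_Gamma0_iff_dvd]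
    constructor
    · intro h
      have h1 : ((Int.gcd N (γ⁻¹ 1 0) : ℕ) : ℤ) ∣ γ⁻¹ 1 0 := Int.gcd_dvd_right _ _
      rwa [h] at h1
    · intro h
      apply Nat.dvd_antisymm
      · exact Int.natCast_dvd_natCast.mp (Int.gcd_dvd_left _ _)
      · exact Int.natCast_dvd_natCast.mp (Int.dvd_coe_gcd dvd_rfl h)

variable {A : Subring ℂ} {N : ℕ} [NeZero N]

lemma jN_invariant (N : ℕ) [NeZero N] : ∀ g ∈ Gamma0 N, ∀ τ : ℍ, jN N (g • τ) = jN N τ :=
  fun _ hg τ => jN_smul_of_mem_self N hg τ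

/-- The conjugates of `j(Nτ)` have `A`-integral expansions once `exp(2πi/N)` is a unit of `A`. -/
theorem conj_jN_mem_intCusp (z : Aˣ)
    (hz : ((z : A) : ℂ) = Complex.exp (2 * π * Complex.I / N)) (x : SL(2, ℤ) ⧸ Gamma0 N) :
    conj N (jN N) x ∈ intCusp A N :=
  jN_smul_mem_intCusp z hz _

/-- **Expansions of the conjugates of `j(Nτ)`.**  There is `b : SL₂(ℤ)/Γ₀(N) → ℕ` with
`b x < N / a x` (`a = cuspA N`), such that `x ↦ (a x, b x)` is injective and the expansion of the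
conjugate `j(N x⁻¹τ)` in `u = exp(2πiτ/N)` is the formal series `j(ζ^(a b) · u^(a²))`. -/
theorem exists_hermite_data (z : Aˣ)
    (hz : ((z : A) : ℂ) = Complex.exp (2 * π * Complex.I / N)) :
    ∃ b : SL(2, ℤ) ⧸ Gamma0 N → ℕ, (∀ x, b x < N / cuspA N x) ∧
      Function.Injective (fun x => (cuspA N x, b x)) ∧
      ∀ x, laurentInt A N ⟨conj N (jN N) x, conj_jN_mem_intCusp z hz x⟩ =
        jTw A (z ^ (cuspA N x * b x)) (cuspA N x * cuspA N x) := by
  have hex : ∀ x : SL(2, ℤ) ⧸ Gamma0 N, ∃ b : ℕ, b < N / cuspA N x ∧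
      laurentInt A N ⟨conj N (jN N) x, conj_jN_mem_intCusp z hz x⟩ =
        jTw A (z ^ (cuspA N x * b)) (cuspA N x * cuspA N x) :=
    fun x => exists_laurentInt_jN_smul z hz _
  choose b hb hL using hex
  refine ⟨b, hb, ?_, hL⟩
  intro x y hxy
  simp only [Prod.mk.injEq] at hxy
  have h1 : laurentInt A N ⟨conj N (jN N) x, conj_jN_mem_intCusp z hz x⟩ =
      laurentInt A N ⟨conj N (jN N) y, conj_jN_mem_intCusp z hz y⟩ := by
    rw [hL x, hL y, hxy.1, hxy.2]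
  have h2 := congrArg Subtype.val (laurentInt_injective A N h1)
  have h3 : ∀ τ : ℍ, jN N ((Quotient.out x)⁻¹ • τ) = jN N ((Quotient.out y)⁻¹ • τ) :=
    fun τ => congrFun h2 τ
  have h4 := (jN_smul_eq_iff N _ _).mp h3
  rw [inv_inv] at h4
  have h5 : (QuotientGroup.mk (Quotient.out x) : SL(2, ℤ) ⧸ Gamma0 N) =
      QuotientGroup.mk (Quotient.out y) := QuotientGroup.eq.mpr h4
  rwa [QuotientGroup.out_eq', QuotientGroup.out_eq'] at h5

/-- **The modular equation.**  `∏_x (X - j(N x⁻¹τ))` is `Φ_N(j)(X)` for a monic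
`Φ_N ∈ A[Y][X]` of degree `ψ(N)`, as an identity of polynomials over `A((u))`. -/
theorem exists_modular_equation [Fintype (SL(2, ℤ) ⧸ Gamma0 N)] (z : Aˣ)
    (hz : ((z : A) : ℂ) = Complex.exp (2 * π * Complex.I / N)) :
    ∃ Φ : Polynomial (Polynomial A), Φ.Monic ∧ Φ.natDegree = ModularCurve.dedekindPsi N ∧
      Φ.map (evJq A N) = ∏ x : SL(2, ℤ) ⧸ Gamma0 N, (Polynomial.X -
        Polynomial.C (laurentInt A N ⟨conj N (jN N) x, conj_jN_mem_intCusp z hz x⟩)) := by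
  obtain ⟨Φ, hm, hd, -, hΦ⟩ := exists_conj_poly A N (conj N (jN N))
    (conj_jN_mem_intCusp z hz) (conj_perm (jN_invariant N))
  refine ⟨Φ, hm, ?_, hΦ⟩
  rw [hd, ← Nat.card_eq_fintype_card, Fermat.Agent.Lib.Gamma0Count.card_quotient]

/-- Crux input (i) for a `Γ₀(N)`-invariant function `h` all of whose conjugates have
`A`-integral expansions: `∏_x (X - h ∘ x⁻¹)` has coefficients in `A[j]`. -/
theorem exists_conj_poly_of_invariant [Fintype (SL(2, ℤ) ⧸ Gamma0 N)] {h : ℍ → ℂ}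
    (hinv : ∀ g ∈ Gamma0 N, ∀ τ, h (g • τ) = h τ) (hmem : ∀ x, conj N h x ∈ intCusp A N) :
    ∃ Φ : Polynomial (Polynomial A), Φ.Monic ∧ Φ.natDegree = ModularCurve.dedekindPsi N ∧
      Φ.map (evJq A N) = ∏ x : SL(2, ℤ) ⧸ Gamma0 N, (Polynomial.X -
        Polynomial.C (laurentInt A N ⟨conj N h x, hmem x⟩)) := by
  obtain ⟨Φ, hm, hd, -, hΦ⟩ := exists_conj_poly A N (conj N h) hmem (conj_perm hinv)
  refine ⟨Φ, hm, ?_, hΦ⟩
  rw [hd, ← Nat.card_eq_fintype_card, Fermat.Agent.Lib.Gamma0Count.card_quotient]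

/-- Crux input (ii): for a `Γ₀(N)`-invariant function `h` all of whose conjugates have
`A`-integral expansions, the Lagrange numerator `∑_x (h ∘ x⁻¹) ∏_{x' ≠ x} (X - j(N x'⁻¹τ))`
has coefficients in `A[j]` and degree `< ψ(N)`. -/
theorem exists_lagrange_of_invariant [Fintype (SL(2, ℤ) ⧸ Gamma0 N)]
    [DecidableEq (SL(2, ℤ) ⧸ Gamma0 N)] (z : Aˣ)
    (hz : ((z : A) : ℂ) = Complex.exp (2 * π * Complex.I / N)) {h : ℍ → ℂ}
    (hinv : ∀ g ∈ Gamma0 N, ∀ τ, h (g • τ) = h τ) (hmem : ∀ x, conj N h x ∈ intCusp A N) :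
    ∃ Ψ : Polynomial (Polynomial A), Ψ.degree < (ModularCurve.dedekindPsi N : WithBot ℕ) ∧
      Ψ.map (evJq A N) = ∑ x : SL(2, ℤ) ⧸ Gamma0 N,
        Polynomial.C (laurentInt A N ⟨conj N h x, hmem x⟩) *
          ∏ x' ∈ Finset.univ.erase x, (Polynomial.X -
            Polynomial.C (laurentInt A N ⟨conj N (jN N) x', conj_jN_mem_intCusp z hz x'⟩)) := by
  obtain ⟨Ψ, hd, -, hΨ⟩ := exists_lagrange_poly A N (conj N (jN N)) (conj N h)
    (conj_jN_mem_intCusp z hz) hmem (conj_perm₂ (jN_invariant N) hinv)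
  refine ⟨Ψ, ?_, hΨ⟩
  rwa [← Nat.card_eq_fintype_card, Fermat.Agent.Lib.Gamma0Count.card_quotient] at hd

end cosets

/-! ## Variants with the hypothesis `exp(2πi/N) ∈ A`, and separation after reduction -/

section separation

variable {A : Subring ℂ} {N : ℕ} [NeZero N]

/-- Every `SL₂(ℤ)`-translate of `j(Nτ)` has an `A`-integral expansion in `u = exp(2πiτ/N)` as
soon as `exp(2πi/N) ∈ A`. -/
theorem jN_smul_mem_intCusp_of_mem (hζ : Complex.exp (2 * π * Complex.I / N) ∈ A)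
    (γ : SL(2, ℤ)) : (fun τ : ℍ => jN N (γ • τ)) ∈ intCusp A N :=
  jN_smul_mem_intCusp (zetaUnit hζ) (coe_zetaUnit hζ) γ

/-- **Separation after reduction.**  Let `φ : A → k` be a ring hom to a field which maps
`ζ = exp(2πi/N)` to a primitive `N`-th root of unity.  If the reductions of the expansions of
two translates `j(N γ₁τ)`, `j(N γ₂τ)` coincide, then `γ₁`, `γ₂` are in the same coset of
`Γ₀(N)`. -/
theorem jN_smul_separated (z : Aˣ)
    (hz : ((z : A) : ℂ) = Complex.exp (2 * π * Complex.I / N)) {k : Type*} [Field k]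
    (φ : A →+* k) (hφ : IsPrimitiveRoot (φ z) N) (γ₁ γ₂ : SL(2, ℤ))
    (h : ModularCurve.coeffMap φ
        (laurentInt A N ⟨fun τ : ℍ => jN N (γ₁ • τ), jN_smul_mem_intCusp z hz γ₁⟩) =
      ModularCurve.coeffMap φ
        (laurentInt A N ⟨fun τ : ℍ => jN N (γ₂ • τ), jN_smul_mem_intCusp z hz γ₂⟩)) :
    γ₁ * γ₂⁻¹ ∈ Gamma0 N := by
  have hN0 : N ≠ 0 := NeZero.ne N
  obtain ⟨b₁, hb₁, hL₁⟩ := exists_laurentInt_jN_smul z hz γ₁
  obtain ⟨b₂, hb₂, hL₂⟩ := exists_laurentInt_jN_smul z hz γ₂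
  have ha₁ : Int.gcd N (γ₁ 1 0) ≠ 0 := by
    intro h0
    have := Int.gcd_eq_zero_iff.mp h0
    exact hN0 (by exact_mod_cast this.1)
  have ha₂ : Int.gcd N (γ₂ 1 0) ≠ 0 := by
    intro h0
    have := Int.gcd_eq_zero_iff.mp h0
    exact hN0 (by exact_mod_cast this.1)
  have hd₁ : Int.gcd N (γ₁ 1 0) ∣ N := Int.natCast_dvd_natCast.mp (Int.gcd_dvd_left _ _)
  have hd₂ : Int.gcd N (γ₂ 1 0) ∣ N := Int.natCast_dvd_natCast.mp (Int.gcd_dvd_left _ _)
  rw [hL₁, hL₂, coeffMap_jTw, coeffMap_jTw] at h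
  obtain ⟨hE, hzz⟩ := jTw_injective (mul_ne_zero ha₁ ha₁) (mul_ne_zero ha₂ ha₂) h
  have haa : Int.gcd N (γ₁ 1 0) = Int.gcd N (γ₂ 1 0) := Nat.mul_self_inj.mp hE
  have hlt₁ : Int.gcd N (γ₁ 1 0) * b₁ < N := by
    calc Int.gcd N (γ₁ 1 0) * b₁ < Int.gcd N (γ₁ 1 0) * (N / Int.gcd N (γ₁ 1 0)) :=
          Nat.mul_lt_mul_of_pos_left hb₁ (Nat.pos_of_ne_zero ha₁)
      _ = N := Nat.mul_div_cancel' hd₁
  have hlt₂ : Int.gcd N (γ₂ 1 0) * b₂ < N := by
    calc Int.gcd N (γ₂ 1 0) * b₂ < Int.gcd N (γ₂ 1 0) * (N / Int.gcd N (γ₂ 1 0)) :=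
          Nat.mul_lt_mul_of_pos_left hb₂ (Nat.pos_of_ne_zero ha₂)
      _ = N := Nat.mul_div_cancel' hd₂
  have hpow : φ z ^ (Int.gcd N (γ₁ 1 0) * b₁) = φ z ^ (Int.gcd N (γ₂ 1 0) * b₂) := by
    have h1 := congrArg (fun u : kˣ => (u : k)) hzz
    simpa using h1
  have hexp : Int.gcd N (γ₁ 1 0) * b₁ = Int.gcd N (γ₂ 1 0) * b₂ := hφ.pow_inj hlt₁ hlt₂ hpow
  have hfun : laurentInt A N ⟨fun τ : ℍ => jN N (γ₁ • τ), jN_smul_mem_intCusp z hz γ₁⟩ =
      laurentInt A N ⟨fun τ : ℍ => jN N (γ₂ • τ), jN_smul_mem_intCusp z hz γ₂⟩ := by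
    rw [hL₁, hL₂, hexp, haa]
  have h2 := congrArg Subtype.val (laurentInt_injective A N hfun)
  exact (jN_smul_eq_iff N γ₁ γ₂).mp (fun τ => congrFun h2 τ)

end separation

end Fermat.Agent.Lib.CuspConjPoly
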