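import Mathlib

/-!
# Spectral decomposition at `i∞` of vector valued functions permuted by `z ↦ z + 1`

Pure analysis/linear algebra (Mathlib only).  Given a finite type `Q`, a permutation `σ` of `Q`
with `σ ^ h = 1` and a vector valued holomorphic function `v : ℍ → Q → ℂ`, bounded at `i∞`, with
`v (z + 1) q = v z (σ q)`, we split `v` into the eigencomponents of `σ`, show that the `j`-th
component is `q_h ^ j` times a `1`-periodic function with a limit at `i∞` (the *leading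
coefficient*), and record the consequences used for the cusp analysis of modular forms of
higher level.
-/

set_option autoImplicit false

namespace Fermat.Agent.Lib.CuspDual

open UpperHalfPlane Filter Complex Finset Function
open scoped Topology Manifold Real

noncomputable section

local notation "𝕢" => Function.Periodic.qParam

section Scalar

theorem periodic_comp_ofComplex_of_vadd {g : ℍ → ℂ} (hg : ∀ z : ℍ, g ((1 : ℝ) +ᵥ z) = g z) :
    Function.Periodic (g ∘ ofComplex) 1 := by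
  intro w
  by_cases hw : 0 < w.im
  · have hw' : 0 < (w + 1).im := by simpa using hw
    simp only [Function.comp_apply, ofComplex_apply_of_im_pos hw, ofComplex_apply_of_im_pos hw']
    rw [← hg ⟨w, hw⟩]
    congr 1
    ext
    simp [add_comm]
  · have hw' : ¬ 0 < (w + 1).im := by simpa using hw
    simp only [Function.comp_apply, ofComplex_apply_of_im_nonpos (not_lt.mp hw),
      ofComplex_apply_of_im_nonpos (not_lt.mp hw')]

theorem mdiff_of_differentiableOn {f : ℂ → ℂ} (hf : DifferentiableOn ℂ f {z | 0 < z.im}) :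
    MDiff (fun z : ℍ => f z) := by
  rw [UpperHalfPlane.mdifferentiable_iff]
  refine hf.congr fun w hw => ?_
  simp [ofComplex_apply_of_im_pos hw]

theorem qParam_vadd (h : ℝ) (z : ℍ) :
    𝕢 h (((1 : ℝ) +ᵥ z : ℍ) : ℂ) = 𝕢 h z * 𝕢 h 1 := by
  simp only [Function.Periodic.qParam, UpperHalfPlane.coe_vadd]
  rw [← Complex.exp_add]
  congr 1
  push_cast
  ring

theorem qParam_one_pow_self {h : ℕ} (hh : 0 < h) : 𝕢 (h : ℝ) 1 ^ h = 1 := by
  have hne : (h : ℂ) ≠ 0 := by exact_mod_cast hh.ne'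
  simp only [Function.Periodic.qParam]
  rw [← Complex.exp_nat_mul]
  have : (h : ℂ) * (2 * π * Complex.I * 1 / ((h : ℝ) : ℂ)) = 2 * π * Complex.I := by
    push_cast
    field_simp
  rw [this, Complex.exp_two_pi_mul_I]

theorem qParam_one_isPrimitiveRoot {h : ℕ} (hh : 0 < h) : IsPrimitiveRoot (𝕢 (h : ℝ) 1) h := by
  have := Complex.isPrimitiveRoot_exp h hh.ne'
  convert this using 2
  simp [Function.Periodic.qParam]

theorem qParam_ne_zero' (h : ℝ) (z : ℂ) : 𝕢 h z ≠ 0 := Complex.exp_ne_zero _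

/-- `q_1 · q_h^{-j} = q_{h/(h-j)}` for `j < h`. -/
theorem qParam_one_mul_inv_pow {h j : ℕ} (hj : j < h) (z : ℂ) :
    𝕢 1 z * (𝕢 (h : ℝ) z ^ j)⁻¹ = 𝕢 ((h : ℝ) / ((h : ℝ) - j)) z := by
  have hne : (h : ℂ) ≠ 0 := by
    have : 0 < h := by omega
    exact_mod_cast this.ne'
  have hne' : (h : ℂ) - j ≠ 0 := by
    have : (j : ℂ) ≠ h := by exact_mod_cast hj.ne
    exact sub_ne_zero.mpr (Ne.symm this)
  simp only [Function.Periodic.qParam]
  rw [← Complex.exp_nat_mul, ← Complex.exp_neg, ← Complex.exp_add]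
  congr 1
  push_cast
  field_simp
  ring

theorem tendsto_qParam_one_mul_inv_pow {h j : ℕ} (hj : j < h) :
    Tendsto (fun z : ℍ => 𝕢 1 z * (𝕢 (h : ℝ) z ^ j)⁻¹) atImInfty (𝓝 0) := by
  have hpos : (0 : ℝ) < (h : ℝ) / ((h : ℝ) - j) := by
    have h1 : (j : ℝ) < h := by exact_mod_cast hj
    have h2 : (0 : ℝ) < h := by
      have : 0 < h := by omega
      exact_mod_cast this
    exact div_pos h2 (by linarith)
  have := UpperHalfPlane.qParam_tendsto_atImInfty hpos
  refine this.congr fun z => ?_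
  rw [qParam_one_mul_inv_pow hj]

/-- A `1`-periodic holomorphic function `g` on `ℍ` with `q · g → 0` at `i∞` is bounded at
`i∞`. -/
theorem isBoundedAtImInfty_of_qParam_mul {g : ℍ → ℂ}
    (hper : ∀ z : ℍ, g ((1 : ℝ) +ᵥ z) = g z) (hhol : MDiff g)
    (hz : IsZeroAtImInfty (fun z : ℍ => 𝕢 1 z * g z)) : IsBoundedAtImInfty g := by
  have hper1 : Function.Periodic ((fun z : ℍ => 𝕢 1 z * g z) ∘ ofComplex) ((1 : ℝ) : ℂ) := by
    have h1 : 𝕢 (1 : ℝ) 1 = 1 := by
      have := qParam_one_pow_self (h := 1) one_pos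
      simpa using this
    have := periodic_comp_ofComplex_of_vadd (g := fun z : ℍ => 𝕢 1 z * g z) (fun z => by
      show 𝕢 1 (((1 : ℝ) +ᵥ z : ℍ) : ℂ) * g ((1 : ℝ) +ᵥ z) = 𝕢 1 z * g z
      rw [qParam_vadd, hper, h1, mul_one])
    exact_mod_cast this
  have hhol1 : MDiff (fun z : ℍ => 𝕢 1 z * g z) := by
    refine MDifferentiable.mul ?_ hhol
    exact mdiff_of_differentiableOn
      (Function.Periodic.differentiable_qParam (h := 1)).differentiableOn
  have hO := hz.exp_decay_atImInfty one_pos hper1 hhol1 hz.isBoundedAtImInfty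
  obtain ⟨C, hC⟩ := hO.bound
  rw [IsBoundedAtImInfty, BoundedAtFilter]
  refine Asymptotics.IsBigO.of_bound C ?_
  filter_upwards [hC] with z hz'
  have hq : ‖𝕢 1 (z : ℂ)‖ = Real.exp (-2 * π * z.im / 1) := by
    rw [Function.Periodic.norm_qParam]; rfl
  rw [norm_mul, hq, Real.norm_eq_abs, abs_of_pos (Real.exp_pos _)] at hz'
  have hpos := Real.exp_pos (-2 * π * z.im / 1)
  have : ‖g z‖ ≤ C := by
    by_contra hcon
    rw [not_le] at hcon
    have := mul_lt_mul_of_pos_left hcon hpos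
    linarith
  simpa using this

end Scalar

section Proj

variable {Q : Type*} (σ : Equiv.Perm Q) (h j : ℕ)

/-- The projector onto the `ζ^j`-eigenspace of `x ↦ x ∘ σ` (`ζ = e^{2πi/h}`, `σ ^ h = 1`). -/
def proj (x : Q → ℂ) (q : Q) : ℂ :=
  (h : ℂ)⁻¹ * ∑ m ∈ range h, (𝕢 (h : ℝ) 1 ^ (j * m))⁻¹ * x ((σ ^ m) q)

variable {σ h j}

theorem geom_sum_qParam (hh : 0 < h) {i j : ℕ} (hi : i < h) (hj : j < h) :
    ∑ m ∈ range h, (𝕢 (h : ℝ) 1 ^ (j * m))⁻¹ * 𝕢 (h : ℝ) 1 ^ (i * m)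
      = if j = i then (h : ℂ) else 0 := by
  set ζ := 𝕢 (h : ℝ) 1 with hζ
  have hζ0 : ζ ≠ 0 := qParam_ne_zero' _ _
  have hprim : IsPrimitiveRoot ζ h := qParam_one_isPrimitiveRoot hh
  set w := (ζ ^ j)⁻¹ * ζ ^ i with hw
  have hterm : ∀ m, (ζ ^ (j * m))⁻¹ * ζ ^ (i * m) = w ^ m := by
    intro m
    rw [hw, mul_pow, inv_pow, ← pow_mul, ← pow_mul]
  simp_rw [hterm]
  split_ifs with hji
  · subst hji
    have : w = 1 := by rw [hw]; exact inv_mul_cancel₀ (pow_ne_zero _ hζ0)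
    simp [this]
  · have hw1 : w ≠ 1 := by
      intro h1
      rw [hw, inv_mul_eq_one₀ (pow_ne_zero _ hζ0)] at h1
      exact hji (hprim.pow_inj hj hi h1)
    have hwh : w ^ h = 1 := by
      rw [hw, mul_pow, inv_pow, ← pow_mul, ← pow_mul, mul_comm j h, mul_comm i h, pow_mul,
        pow_mul, hprim.pow_eq_one]
      simp
    have := mul_geom_sum w h
    rw [hwh, sub_self] at this
    exact (mul_eq_zero.mp this).resolve_left (sub_ne_zero.mpr hw1)

theorem sum_proj (hh : 0 < h) (x : Q → ℂ) (q : Q) :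
    ∑ j ∈ range h, proj σ h j x q = x q := by
  have hne : (h : ℂ) ≠ 0 := by exact_mod_cast hh.ne'
  simp only [proj]
  rw [← mul_sum, sum_comm]
  have : ∀ m ∈ range h, ∑ j ∈ range h, (𝕢 (h : ℝ) 1 ^ (j * m))⁻¹ * x ((σ ^ m) q)
      = (if m = 0 then (h : ℂ) else 0) * x ((σ ^ m) q) := by
    intro m hm
    rw [← sum_mul]
    congr 1
    have := geom_sum_qParam (h := h) hh (i := 0) (j := m) hh (mem_range.mp hm)
    simp only [zero_mul, pow_zero, mul_one] at this
    rw [← this]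
    refine sum_congr rfl fun j _ => ?_
    rw [mul_comm j m]
  rw [sum_congr rfl this]
  rw [sum_eq_single 0]
  · simp [hne]
  · intro m _ hm
    simp [hm]
  · intro h0
    exact absurd (mem_range.mpr hh) h0

theorem proj_perm (hh : 0 < h) (hσ : σ ^ h = 1) (x : Q → ℂ) (q : Q) :
    proj σ h j x (σ q) = 𝕢 (h : ℝ) 1 ^ j * proj σ h j x q := by
  simp only [proj]
  set ζ := 𝕢 (h : ℝ) 1 with hζ
  have hζ0 : ζ ≠ 0 := qParam_ne_zero' _ _
  have hζh : ζ ^ h = 1 := qParam_one_pow_self hh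
  rw [mul_left_comm]
  congr 1
  rw [mul_sum]
  -- shift the index
  set a : ℕ → ℂ := fun m => ζ ^ j * ((ζ ^ (j * m))⁻¹ * x ((σ ^ m) q)) with ha
  have h1 : ∀ m, (ζ ^ (j * m))⁻¹ * x ((σ ^ m) (σ q)) = a (m + 1) := by
    intro m
    rw [ha]
    simp only
    rw [← mul_assoc, mul_add, mul_one, pow_add, mul_inv, ← mul_assoc,
      mul_comm (ζ ^ j), mul_assoc _ (ζ ^ j), mul_inv_cancel₀ (pow_ne_zero _ hζ0), mul_one]
    congr 2
  simp_rw [h1]
  have h2 : ∑ m ∈ range h, a (m + 1) = ∑ m ∈ range h, a m + a h - a 0 := by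
    have e1 := Finset.sum_range_succ' a h
    have e2 := Finset.sum_range_succ a h
    rw [e1] at e2
    linear_combination e2
  rw [h2]
  have h3 : a h = a 0 := by
    rw [ha]
    simp only
    rw [hσ, mul_comm j h, pow_mul, hζh]
    simp
  rw [h3]
  ring

theorem proj_comp_perm (x : Q → ℂ) (q : Q) :
    proj σ h j (fun q => x (σ q)) q = proj σ h j x (σ q) := by
  simp only [proj]
  congr 1
  refine sum_congr rfl fun m _ => ?_
  congr 2
  rw [← Equiv.Perm.mul_apply, ← Equiv.Perm.mul_apply, ← pow_succ', ← pow_succ]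

theorem proj_of_eigen (hh : 0 < h) {i : ℕ} (hi : i < h) (hj : j < h) {x : Q → ℂ}
    (hx : ∀ q, x (σ q) = 𝕢 (h : ℝ) 1 ^ i * x q) (q : Q) :
    proj σ h j x q = if j = i then x q else 0 := by
  have hne : (h : ℂ) ≠ 0 := by exact_mod_cast hh.ne'
  have hpow : ∀ m q, x ((σ ^ m) q) = 𝕢 (h : ℝ) 1 ^ (i * m) * x q := by
    intro m
    induction m with
    | zero => intro q; simp
    | succ m ih =>
      intro q
      rw [pow_succ', Equiv.Perm.mul_apply, hx, ih, ← mul_assoc, ← pow_add]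
      congr 2
      ring
  simp only [proj]
  simp_rw [hpow, ← mul_assoc]
  rw [← sum_mul, geom_sum_qParam hh hi hj]
  split_ifs with hji
  · rw [← mul_assoc, inv_mul_cancel₀ hne, one_mul]
  · simp

theorem proj_sum {ι : Type*} (s : Finset ι) (c : ι → ℂ) (x : ι → Q → ℂ) (q : Q) :
    proj σ h j (fun q => ∑ i ∈ s, c i * x i q) q = ∑ i ∈ s, c i * proj σ h j (x i) q := by
  simp only [proj]
  simp_rw [mul_sum]
  rw [sum_comm]
  refine sum_congr rfl fun i _ => sum_congr rfl fun m _ => ?_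
  ring

end Proj

section Vec

variable {Q : Type*} (σ : Equiv.Perm Q) (h j : ℕ)

/-- A vector valued function on `ℍ`, holomorphic, bounded at `i∞`, permuted by `z ↦ z + 1`. -/
structure IsCuspVec (v : ℍ → Q → ℂ) : Prop where
  per : ∀ z q, v ((1 : ℝ) +ᵥ z) q = v z (σ q)
  holo : ∀ q, MDiff (fun z => v z q)
  bdd : ∀ q, IsBoundedAtImInfty (fun z => v z q)

/-- The `j`-th eigencomponent of `v`, divided by `q_h ^ j`: a `1`-periodic function. -/
def comp (v : ℍ → Q → ℂ) (q : Q) (z : ℍ) : ℂ :=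
  (𝕢 (h : ℝ) z ^ j)⁻¹ * proj σ h j (v z) q

/-- The leading coefficient of the `j`-th eigencomponent. -/
def lead (v : ℍ → Q → ℂ) (q : Q) : ℂ := valueAtInfty (comp σ h j v q)

variable {σ h j} {v : ℍ → Q → ℂ}

theorem lead_eq_of_tendsto {c : ℂ} {q : Q} (hc : Tendsto (comp σ h j v q) atImInfty (𝓝 c)) :
    lead σ h j v q = c := hc.limUnder_eq

theorem comp_vadd (hh : 0 < h) (hσ : σ ^ h = 1) (hv : IsCuspVec σ v) (q : Q) (z : ℍ) :
    comp σ h j v q ((1 : ℝ) +ᵥ z) = comp σ h j v q z := by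
  have hζ0 : 𝕢 (h : ℝ) 1 ≠ 0 := qParam_ne_zero' _ _
  have hz0 : 𝕢 (h : ℝ) z ≠ 0 := qParam_ne_zero' _ _
  simp only [comp]
  have e : v ((1 : ℝ) +ᵥ z) = fun q => v z (σ q) := funext fun q => hv.per z q
  rw [e, proj_comp_perm, proj_perm hh hσ, qParam_vadd, mul_pow, mul_inv]
  field_simp

theorem mdiff_proj [Finite Q] (hv : IsCuspVec σ v) (q : Q) :
    MDiff (fun z => proj σ h j (v z) q) := by
  simp only [proj]
  refine MDifferentiable.mul mdifferentiable_const ?_
  have : (fun z => ∑ m ∈ range h, (𝕢 (h : ℝ) 1 ^ (j * m))⁻¹ * v z ((σ ^ m) q))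
      = ∑ m ∈ range h, fun z => (𝕢 (h : ℝ) 1 ^ (j * m))⁻¹ * v z ((σ ^ m) q) := by
    ext z; simp
  rw [this]
  exact MDifferentiable.sum fun m _ => MDifferentiable.mul mdifferentiable_const (hv.holo _)

theorem bdd_proj (hv : IsCuspVec σ v) (q : Q) :
    IsBoundedAtImInfty (fun z => proj σ h j (v z) q) := by
  simp only [proj, IsBoundedAtImInfty]
  refine BoundedAtFilter.mul (const_boundedAtFilter _ _) ?_
  unfold BoundedAtFilter
  apply Asymptotics.IsBigO.fun_sum
  intro m _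
  exact BoundedAtFilter.mul (const_boundedAtFilter _ _) (hv.bdd _)

theorem mdiff_qParam_pow_inv (h : ℝ) (j : ℕ) : MDiff (fun z : ℍ => (𝕢 h z ^ j)⁻¹) := by
  refine mdiff_of_differentiableOn (f := fun w => (𝕢 h w ^ j)⁻¹) ?_
  refine DifferentiableOn.inv ?_ fun w _ => pow_ne_zero _ (qParam_ne_zero' _ _)
  exact ((Function.Periodic.differentiable_qParam (h := h)).pow j).differentiableOn

theorem mdiff_qParam_pow (h : ℝ) (j : ℕ) : MDiff (fun z : ℍ => 𝕢 h z ^ j) := by
  refine mdiff_of_differentiableOn (f := fun w => 𝕢 h w ^ j) ?_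
  exact ((Function.Periodic.differentiable_qParam (h := h)).pow j).differentiableOn

theorem mdiff_comp [Finite Q] (hv : IsCuspVec σ v) (q : Q) : MDiff (comp σ h j v q) :=
  MDifferentiable.mul (mdiff_qParam_pow_inv _ _) (mdiff_proj hv q)

theorem bdd_comp [Finite Q] (hh : 0 < h) (hσ : σ ^ h = 1) (hj : j < h) (hv : IsCuspVec σ v)
    (q : Q) : IsBoundedAtImInfty (comp σ h j v q) := by
  refine isBoundedAtImInfty_of_qParam_mul (comp_vadd hh hσ hv q) (mdiff_comp hv q) ?_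
  have : (fun z : ℍ => 𝕢 1 z * comp σ h j v q z)
      = (fun z : ℍ => 𝕢 1 z * (𝕢 (h : ℝ) z ^ j)⁻¹) * fun z => proj σ h j (v z) q := by
    ext z
    simp only [comp, Pi.mul_apply]
    ring
  rw [this]
  exact ZeroAtFilter.mul_boundedAtFilter (tendsto_qParam_one_mul_inv_pow hj) (bdd_proj hv q)

theorem comp_sub_lead_isBigO [Finite Q] (hh : 0 < h) (hσ : σ ^ h = 1) (hj : j < h)
    (hv : IsCuspVec σ v) (q : Q) :
    (fun z => comp σ h j v q z - lead σ h j v q) =O[atImInfty]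
      fun z => Real.exp (-2 * π * z.im) := by
  have := UpperHalfPlane.exp_decay_sub_atImInfty (h := 1) one_pos
    (by exact_mod_cast periodic_comp_ofComplex_of_vadd (comp_vadd hh hσ hv q))
    (mdiff_comp hv q) (bdd_comp hh hσ hj hv q)
  simpa [lead] using this

theorem tendsto_exp_atImInfty :
    Tendsto (fun z : ℍ => Real.exp (-2 * π * z.im)) atImInfty (𝓝 0) := by
  have h1 : Tendsto (fun z : ℍ => z.im) atImInfty atTop := tendsto_comap
  have h2 : Tendsto (fun y : ℝ => -2 * π * y) atTop atBot := by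
    refine Tendsto.const_mul_atTop_of_neg ?_ tendsto_id
    have := Real.pi_pos
    linarith
  exact Real.tendsto_exp_atBot.comp (h2.comp h1)

theorem tendsto_comp [Finite Q] (hh : 0 < h) (hσ : σ ^ h = 1) (hj : j < h) (hv : IsCuspVec σ v)
    (q : Q) : Tendsto (comp σ h j v q) atImInfty (𝓝 (lead σ h j v q)) := by
  have h0 := (comp_sub_lead_isBigO hh hσ hj hv q).trans_tendsto tendsto_exp_atImInfty
  have := h0.add_const (lead σ h j v q)
  simpa using this

theorem vec_eq_sum (hh : 0 < h) (v : ℍ → Q → ℂ) (z : ℍ) (q : Q) :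
    v z q = ∑ j ∈ range h, 𝕢 (h : ℝ) z ^ j * comp σ h j v q z := by
  have : ∀ j ∈ range h, 𝕢 (h : ℝ) z ^ j * comp σ h j v q z = proj σ h j (v z) q := by
    intro j _
    simp only [comp]
    rw [← mul_assoc, mul_inv_cancel₀ (pow_ne_zero _ (qParam_ne_zero' _ _)), one_mul]
  rw [sum_congr rfl this, sum_proj hh]

theorem norm_qParam_le_one (h : ℕ) (z : ℍ) : ‖𝕢 (h : ℝ) z‖ ≤ 1 := by
  rw [Function.Periodic.norm_qParam]
  refine Real.exp_le_one_iff.mpr ?_
  have h1 : (0 : ℝ) ≤ h := Nat.cast_nonneg h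
  have h2 := z.im_pos
  have h3 := Real.pi_pos
  have : 0 ≤ 2 * π * (z : ℂ).im / h := by positivity
  have e : -2 * π * (z : ℂ).im / h = -(2 * π * (z : ℂ).im / h) := by ring
  rw [e]
  linarith

/-- If all leading coefficients vanish then every coordinate is `O(exp(-2π Im z))`. -/
theorem isBigO_of_lead_eq_zero [Finite Q] (hh : 0 < h) (hσ : σ ^ h = 1) (hv : IsCuspVec σ v)
    (h0 : ∀ j < h, ∀ q, lead σ h j v q = 0) (q : Q) :
    (fun z => v z q) =O[atImInfty] fun z => Real.exp (-2 * π * z.im) := by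
  have e : (fun z => v z q) = fun z : ℍ => ∑ j ∈ range h, 𝕢 (h : ℝ) z ^ j * comp σ h j v q z :=
    funext fun z => vec_eq_sum hh v z q
  rw [e]
  apply Asymptotics.IsBigO.fun_sum
  intro j hj
  have hj' := mem_range.mp hj
  have h1 := comp_sub_lead_isBigO hh hσ hj' hv q
  rw [h0 j hj' q] at h1
  simp only [sub_zero] at h1
  have h2 : (fun z : ℍ => 𝕢 (h : ℝ) z ^ j) =O[atImInfty] (fun _ => (1 : ℝ)) := by
    refine Asymptotics.IsBigO.of_bound 1 (Eventually.of_forall fun z => ?_)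
    rw [norm_pow, norm_one, mul_one]
    exact pow_le_one₀ (norm_nonneg _) (norm_qParam_le_one h z)
  simpa using h2.mul h1

theorem tendsto_qParam_pow {j : ℕ} (hh : 0 < h) (hj : 0 < j) :
    Tendsto (fun z : ℍ => 𝕢 (h : ℝ) z ^ j) atImInfty (𝓝 0) := by
  have h1 : Tendsto (fun z : ℍ => 𝕢 (h : ℝ) z) atImInfty (𝓝 0) :=
    UpperHalfPlane.qParam_tendsto_atImInfty (by exact_mod_cast hh)
  have := h1.pow j
  simpa [hj.ne'] using this

/-- Every coordinate of `v` tends to the leading coefficient of its invariant component. -/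
theorem tendsto_vec [Finite Q] (hh : 0 < h) (hσ : σ ^ h = 1) (hv : IsCuspVec σ v) (q : Q) :
    Tendsto (fun z => v z q) atImInfty (𝓝 (lead σ h 0 v q)) := by
  have e : (fun z => v z q) = fun z : ℍ => ∑ j ∈ range h, 𝕢 (h : ℝ) z ^ j * comp σ h j v q z :=
    funext fun z => vec_eq_sum hh v z q
  rw [e]
  have hsum : lead σ h 0 v q = ∑ j ∈ range h, if j = 0 then lead σ h 0 v q else 0 := by
    rw [sum_ite_eq' (range h) 0 (fun _ => lead σ h 0 v q)]
    simp [hh]
  rw [hsum]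
  refine tendsto_finsetSum _ fun j hj => ?_
  have hj' := mem_range.mp hj
  rcases Nat.eq_zero_or_pos j with rfl | hpos
  · simpa using tendsto_comp hh hσ hh hv q
  · rw [if_neg hpos.ne']
    have := (tendsto_qParam_pow (h := h) hh hpos).mul (tendsto_comp hh hσ hj' hv q)
    simpa using this

/-- The leading coefficient of the `j`-th component is a `ζ^j`-eigenvector. -/
theorem lead_perm [Finite Q] (hh : 0 < h) (hσ : σ ^ h = 1) (hj : j < h) (hv : IsCuspVec σ v)
    (q : Q) : lead σ h j v (σ q) = 𝕢 (h : ℝ) 1 ^ j * lead σ h j v q := by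
  have h1 := tendsto_comp hh hσ hj hv (σ q)
  have h2 := (tendsto_comp hh hσ hj hv q).const_mul (𝕢 (h : ℝ) 1 ^ j)
  refine tendsto_nhds_unique h1 (h2.congr fun z => ?_)
  simp only [comp]
  rw [proj_perm hh hσ]
  ring

/-- Leading coefficients of a combination with scalar coefficient functions having limits. -/
theorem lead_combination [Finite Q] {ι : Type*} (s : Finset ι) (hh : 0 < h) (hσ : σ ^ h = 1)
    (hj : j < h) {w : ι → ℍ → Q → ℂ} (hw : ∀ i ∈ s, IsCuspVec σ (w i))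
    (a : ι → ℍ → ℂ) (α : ι → ℂ) (ha : ∀ i ∈ s, Tendsto (a i) atImInfty (𝓝 (α i)))
    (q : Q) :
    lead σ h j (fun z q => ∑ i ∈ s, a i z * w i z q) q = ∑ i ∈ s, α i * lead σ h j (w i) q := by
  refine lead_eq_of_tendsto ?_
  have e : comp σ h j (fun z q => ∑ i ∈ s, a i z * w i z q) q
      = fun z => ∑ i ∈ s, a i z * comp σ h j (w i) q z := by
    ext z
    simp only [comp]
    rw [proj_sum, mul_sum]
    refine sum_congr rfl fun i _ => ?_
    ring
  rw [e]
  exact tendsto_finsetSum _ fun i hi => (ha i hi).mul (tendsto_comp hh hσ hj (hw i hi) q)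

end Vec

section Mat

set_option linter.unusedSectionVars false

variable {Q : Type*} [Fintype Q] [DecidableEq Q] (σ : Equiv.Perm Q) (h : ℕ)

/-- The matrix of leading coefficients of a family of vectors. -/
def leadMat (Φ : ℍ → Matrix Q Q ℂ) : Matrix Q Q ℂ :=
  fun i q => ∑ j ∈ range h, lead σ h j (fun z q => Φ z i q) q

/-- The matrix `B(z)` of the components `comp`. -/
def compMat (Φ : ℍ → Matrix Q Q ℂ) (z : ℍ) : Matrix Q Q ℂ :=
  fun i q => ∑ j ∈ range h, comp σ h j (fun z q => Φ z i q) q z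

/-- The matrix `𝔼(z)` with `B(z) = Φ(z) * 𝔼(z)`. -/
def twistMat (z : ℍ) : Matrix Q Q ℂ :=
  fun q' q => ∑ j ∈ range h, (𝕢 (h : ℝ) z ^ j)⁻¹ *
    ((h : ℂ)⁻¹ * ∑ m ∈ range h, (𝕢 (h : ℝ) 1 ^ (j * m))⁻¹ * if q' = (σ ^ m) q then 1 else 0)

variable {σ h}

theorem compMat_eq (Φ : ℍ → Matrix Q Q ℂ) (z : ℍ) : compMat σ h Φ z = Φ z * twistMat σ h z := by
  ext i q
  simp only [compMat, comp, proj, Matrix.mul_apply, twistMat]
  simp_rw [mul_sum]
  conv_rhs => rw [Finset.sum_comm]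
  refine sum_congr rfl fun j _ => ?_
  conv_rhs => rw [Finset.sum_comm]
  refine sum_congr rfl fun m _ => ?_
  simp only [mul_ite, mul_one, mul_zero, Finset.sum_ite_eq', Finset.mem_univ, if_true]
  ring

theorem tendsto_compMat (hh : 0 < h) (hσ : σ ^ h = 1) {Φ : ℍ → Matrix Q Q ℂ}
    (hΦ : ∀ i, IsCuspVec σ (fun z q => Φ z i q)) :
    Tendsto (compMat σ h Φ) atImInfty (𝓝 (leadMat σ h Φ)) := by
  refine tendsto_pi_nhds.mpr fun i => tendsto_pi_nhds.mpr fun q => ?_
  simp only [compMat, leadMat]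
  exact tendsto_finsetSum _ fun j hj => tendsto_comp hh hσ (mem_range.mp hj) (hΦ i) q

theorem tendsto_mul_twistMat {D : ℍ → ℂ}
    (hD : D =O[atImInfty] fun z => Real.exp (-2 * π * z.im)) (q' q : Q) :
    Tendsto (fun z => D z * twistMat σ h z q' q) atImInfty (𝓝 0) := by
  have hD' : D =O[atImInfty] fun z : ℍ => 𝕢 1 z := by
    refine hD.trans (Asymptotics.IsBigO.of_bound 1 (Eventually.of_forall fun z => ?_))
    rw [Function.Periodic.norm_qParam, Real.norm_eq_abs, abs_of_pos (Real.exp_pos _), one_mul,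
      div_one]
    rfl
  simp only [twistMat]
  simp_rw [mul_sum]
  suffices hs : Tendsto (fun z => ∑ j ∈ range h, D z * ((𝕢 (h : ℝ) z ^ j)⁻¹ *
      ((h : ℂ)⁻¹ * ∑ m ∈ range h, (𝕢 (h : ℝ) 1 ^ (j * m))⁻¹ * if q' = (σ ^ m) q then 1 else 0)))
      atImInfty (𝓝 (∑ j ∈ range h, (0 : ℂ))) by
    simp only [sum_const_zero] at hs
    refine hs.congr fun z => ?_
    simp_rw [mul_sum]
  refine tendsto_finsetSum _ fun j hj => ?_
  have h1 : Tendsto (fun z : ℍ => D z * (𝕢 (h : ℝ) z ^ j)⁻¹) atImInfty (𝓝 0) :=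
    (hD'.mul (Asymptotics.isBigO_refl (fun z : ℍ => (𝕢 (h : ℝ) z ^ j)⁻¹) atImInfty)).trans_tendsto
      (tendsto_qParam_one_mul_inv_pow (mem_range.mp hj))
  have h2 := h1.mul_const
    ((h : ℂ)⁻¹ * ∑ m ∈ range h, (𝕢 (h : ℝ) 1 ^ (j * m))⁻¹ * if q' = (σ ^ m) q then 1 else 0)
  rw [zero_mul] at h2
  refine h2.congr fun z => ?_
  ring

/-- If the matrix of leading coefficients is invertible, then `D(z) • Φ(z)⁻¹ → 0` at `i∞` for
every `D = O(exp(-2π Im z))`. -/
theorem tendsto_mul_inv (hh : 0 < h) (hσ : σ ^ h = 1) {Φ : ℍ → Matrix Q Q ℂ}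
    (hΦ : ∀ i, IsCuspVec σ (fun z q => Φ z i q)) (hL : (leadMat σ h Φ).det ≠ 0) {D : ℍ → ℂ}
    (hD : D =O[atImInfty] fun z => Real.exp (-2 * π * z.im)) (q i : Q) :
    Tendsto (fun z => D z * (Φ z)⁻¹ q i) atImInfty (𝓝 0) := by
  have hB := tendsto_compMat hh hσ hΦ
  -- the inverse of `B` converges
  have hinv : ContinuousAt (Inv.inv : Matrix Q Q ℂ → Matrix Q Q ℂ) (leadMat σ h Φ) := by
    refine continuousAt_matrix_inv _ ?_
    have : (Ring.inverse : ℂ → ℂ) = Inv.inv := by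
      ext x; exact Ring.inverse_eq_inv x
    rw [this]
    exact continuousAt_inv₀ hL
  have hBinv : Tendsto (fun z => (compMat σ h Φ z)⁻¹) atImInfty (𝓝 (leadMat σ h Φ)⁻¹) :=
    hinv.tendsto.comp hB
  have hdet : ∀ᶠ z in atImInfty, (compMat σ h Φ z).det ≠ 0 := by
    have hc : Tendsto (fun z => (compMat σ h Φ z).det) atImInfty (𝓝 (leadMat σ h Φ).det) :=
      ((continuous_id.matrix_det).tendsto _).comp hB
    exact hc.eventually_ne hL
  have hev : ∀ᶠ z in atImInfty, D z * (Φ z)⁻¹ q i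
      = ∑ q', (D z * twistMat σ h z q q') * (compMat σ h Φ z)⁻¹ q' i := by
    filter_upwards [hdet] with z hz
    have hunit : IsUnit (compMat σ h Φ z).det := isUnit_iff_ne_zero.mpr hz
    have e : Φ z * (twistMat σ h z * (compMat σ h Φ z)⁻¹) = 1 := by
      rw [← mul_assoc, ← compMat_eq, Matrix.mul_nonsing_inv _ hunit]
    rw [Matrix.inv_eq_right_inv e, Matrix.mul_apply, mul_sum]
    refine sum_congr rfl fun q' _ => ?_
    ring
  have hlim : Tendsto (fun z => ∑ q', (D z * twistMat σ h z q q') * (compMat σ h Φ z)⁻¹ q' i)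
      atImInfty (𝓝 (∑ q' : Q, (0 : ℂ) * (leadMat σ h Φ)⁻¹ q' i)) := by
    refine tendsto_finsetSum _ fun q' _ => ?_
    refine (tendsto_mul_twistMat hD q q').mul ?_
    exact ((continuous_apply i).tendsto _).comp (((continuous_apply q').tendsto _).comp hBinv)
  simp only [zero_mul, sum_const_zero] at hlim
  exact hlim.congr' (hev.mono fun z hz => hz.symm)

end Mat

end

end Fermat.Agent.Lib.CuspDual
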