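import Mathlib
import Fermat.Agent.S23.Defs

/-!
# Elliptic class counts for a free homogeneous basis of `M(Γ₀(N))`

Package (I4) of the S20 programme.  Let `F i` (`i : Fin n`) be modular forms of weights `k i`
on `Γ₀(N)` such that the conjugate matrix `((F i ∣[k i] g⁻¹) z₀)` (rows indexed by the cosets
`g Γ₀(N)`) is square and has independent columns at `z₀ = i` and at `z₀ = ρ`.  Then a trace
computation gives the number of weights in each class mod `4` and mod `6` in terms of the number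
of fixed points of `S` and `S * T` on `SL(2, ℤ) ⧸ Γ₀(N)`.
-/

set_option autoImplicit false

namespace Fermat.Agent.Lib.EllipticCount

open UpperHalfPlane ModularForm Fermat.Agent.S23
open scoped MatrixGroups ModularForm

noncomputable section

variable {N : ℕ}

/-- Slash invariance under `Γ₀(N)`, in `SL(2, ℤ)` language. -/
lemma slash_eq_of_isMF {k : ℤ} {f : ℍ → ℂ} (hf : IsMF (G0 N) k f) (γ : SL(2, ℤ))
    (hγ : γ ∈ CongruenceSubgroup.Gamma0 N) : f ∣[k] γ = f := by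
  obtain ⟨G, rfl⟩ := hf
  exact SlashInvariantFormClass.slash_action_eq G _ (Subgroup.mem_map_of_mem _ hγ)

/-- The conjugate `f ∣[k] g⁻¹` of `f` attached to the left coset `x = g Γ₀(N)`. -/
def conjF (N : ℕ) (k : ℤ) (f : ℍ → ℂ) (x : SL(2, ℤ) ⧸ CongruenceSubgroup.Gamma0 N) : ℍ → ℂ :=
  f ∣[k] (x.out)⁻¹

lemma conjF_mk {k : ℤ} {f : ℍ → ℂ} (hf : IsMF (G0 N) k f) (g : SL(2, ℤ)) :
    conjF N k f (g : SL(2, ℤ) ⧸ CongruenceSubgroup.Gamma0 N) = f ∣[k] g⁻¹ := by
  obtain ⟨h, hh⟩ := QuotientGroup.mk_out_eq_mul (CongruenceSubgroup.Gamma0 N) g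
  unfold conjF
  rw [hh, mul_inv_rev, SlashAction.slash_mul, slash_eq_of_isMF hf _ (inv_mem h.2)]

lemma conjF_smul {k : ℤ} {f : ℍ → ℂ} (hf : IsMF (G0 N) k f) (γ : SL(2, ℤ))
    (x : SL(2, ℤ) ⧸ CongruenceSubgroup.Gamma0 N) :
    conjF N k f (γ • x) = (conjF N k f x) ∣[k] γ⁻¹ := by
  induction x using QuotientGroup.induction_on with
  | H g =>
    rw [MulAction.Quotient.smul_mk, conjF_mk hf, conjF_mk hf, smul_eq_mul, mul_inv_rev,
      SlashAction.slash_mul]

/-- Value of a conjugate at a point fixed by `γ`. -/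
lemma conjF_smul_apply_of_fixed {k : ℤ} {f : ℍ → ℂ} (hf : IsMF (G0 N) k f) (γ : SL(2, ℤ))
    (z₀ : ℍ) (hγ : γ • z₀ = z₀) (x : SL(2, ℤ) ⧸ CongruenceSubgroup.Gamma0 N) :
    conjF N k f (γ • x) z₀ = conjF N k f x z₀ * denom (γ⁻¹ : SL(2, ℤ)) z₀ ^ (-k) := by
  have h1 : (γ⁻¹ : SL(2, ℤ)) • z₀ = z₀ := by
    conv_lhs => rw [← hγ]
    rw [← mul_smul, inv_mul_cancel, one_smul]
  rw [conjF_smul hf, SL_slash_apply, h1]

section points

/-- `ρ = e^{2πi/3}` as a complex number. -/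
def rhoC : ℂ := -1 / 2 + ((Real.sqrt 3 / 2 : ℝ) : ℂ) * Complex.I

lemma rhoC_im : rhoC.im = Real.sqrt 3 / 2 := by
  simp [rhoC]

lemma rhoC_re : rhoC.re = -1 / 2 := by
  simp [rhoC]

lemma rhoC_sq : rhoC ^ 2 + rhoC + 1 = 0 := by
  have h3 : ((Real.sqrt 3 : ℝ) : ℂ) ^ 2 = 3 := by
    norm_cast
    exact Real.sq_sqrt (by norm_num)
  unfold rhoC
  push_cast
  linear_combination (1 / 4 : ℂ) * h3 * Complex.I ^ 2 + (3 / 4 : ℂ) * Complex.I_sq

lemma rhoC_cube : rhoC ^ 3 = 1 := by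
  linear_combination (rhoC - 1) * rhoC_sq

lemma rhoC_ne_zero : rhoC ≠ 0 := by
  intro h
  have := rhoC_cube
  rw [h] at this
  norm_num at this

/-- `ρ = e^{2πi/3}` as a point of the upper half plane: the fixed point of `S * T`. -/
def rho : ℍ := ⟨rhoC, by rw [rhoC_im]; positivity⟩

lemma coe_rho : (rho : ℂ) = rhoC := rfl

lemma ST_smul_rho : (ModularGroup.S * ModularGroup.T) • rho = rho := by
  rw [mul_smul, modular_T_smul, modular_S_smul]
  ext
  simp only [UpperHalfPlane.coe_vadd, coe_rho]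
  have h1 : -((1 : ℝ) + rhoC : ℂ) * rhoC = 1 := by
    push_cast
    linear_combination -rhoC_sq
  exact (eq_inv_of_mul_eq_one_right h1).symm

lemma S_smul_I : ModularGroup.S • UpperHalfPlane.I = UpperHalfPlane.I := by
  rw [UpperHalfPlane.modular_S_smul]
  ext
  simp

lemma neg_one_smul_H (z : ℍ) : (-1 : SL(2, ℤ)) • z = z := by
  rw [UpperHalfPlane.specialLinearGroup_apply]
  ext
  simp

lemma denom_S_inv_I : denom (ModularGroup.S⁻¹ : SL(2, ℤ)) UpperHalfPlane.I = -Complex.I := by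
  have h10 : ((ModularGroup.S⁻¹ : SL(2, ℤ)) : Matrix (Fin 2) (Fin 2) ℤ) 1 0 = -1 := by
    simp [Matrix.SpecialLinearGroup.coe_inv, Matrix.adjugate_fin_two, ModularGroup.coe_S]
  have h11 : ((ModularGroup.S⁻¹ : SL(2, ℤ)) : Matrix (Fin 2) (Fin 2) ℤ) 1 1 = 0 := by
    simp [Matrix.SpecialLinearGroup.coe_inv, Matrix.adjugate_fin_two, ModularGroup.coe_S]
  rw [ModularGroup.denom_apply, h10, h11]
  simp

lemma denom_ST_inv_rho :
    denom ((ModularGroup.S * ModularGroup.T)⁻¹ : SL(2, ℤ)) rho = -rhoC := by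
  have h10 : (((ModularGroup.S * ModularGroup.T)⁻¹ : SL(2, ℤ)) :
      Matrix (Fin 2) (Fin 2) ℤ) 1 0 = -1 := by
    simp [Matrix.SpecialLinearGroup.coe_inv, Matrix.adjugate_fin_two, ModularGroup.coe_S]
  have h11 : (((ModularGroup.S * ModularGroup.T)⁻¹ : SL(2, ℤ)) :
      Matrix (Fin 2) (Fin 2) ℤ) 1 1 = 0 := by
    simp [Matrix.SpecialLinearGroup.coe_inv, Matrix.adjugate_fin_two, ModularGroup.coe_S]
  rw [ModularGroup.denom_apply, h10, h11, coe_rho]
  simp

/-- `(-i)^(-k)` for even `k`. -/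
lemma negI_zpow_neg {k : ℤ} (hk : Even k) :
    (-Complex.I) ^ (-k) = if (4 : ℤ) ∣ k then 1 else -1 := by
  obtain ⟨j, rfl⟩ := hk
  have h1 : (-Complex.I) ^ (-(j + j)) = (-1 : ℂ) ^ j := by
    have h2 : (-Complex.I) ^ (-(j + j)) = ((-Complex.I) ^ (-2 : ℤ)) ^ j := by
      rw [← zpow_mul]; congr 1; ring
    rw [h2]
    congr 1
    rw [zpow_neg, zpow_ofNat, neg_sq, Complex.I_sq]
    norm_num
  rw [h1]
  rcases Int.even_or_odd j with hj | hj
  · rw [hj.neg_one_zpow, if_pos]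
    obtain ⟨i, rfl⟩ := hj
    exact ⟨i, by ring⟩
  · rw [hj.neg_one_zpow, if_neg]
    rintro ⟨i, hi⟩
    obtain ⟨l, rfl⟩ := hj
    omega

/-- `(-ρ)^(-k)` for even `k`. -/
lemma neg_rhoC_zpow_neg {k : ℤ} (hk : Even k) :
    (-rhoC) ^ (-k) = if k % 6 = 0 then 1 else if k % 6 = 2 then rhoC else rhoC ^ 2 := by
  obtain ⟨j, rfl⟩ := hk
  have h0 := rhoC_ne_zero
  have h1 : (-rhoC) ^ (-(j + j)) = rhoC ^ j := by
    have h2 : (-rhoC) ^ (-(j + j)) = ((-rhoC) ^ (-2 : ℤ)) ^ j := by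
      rw [← zpow_mul]; congr 1; ring
    rw [h2]
    congr 1
    rw [zpow_neg, zpow_ofNat, neg_sq]
    have h3 : rhoC ^ 2 * rhoC = 1 := by rw [← rhoC_cube]; ring
    field_simp
    linear_combination -h3
  rw [h1]
  have h3 : ∀ q : ℤ, rhoC ^ (3 * q) = 1 := by
    intro q
    rw [zpow_mul, zpow_ofNat, rhoC_cube, one_zpow]
  obtain ⟨q, hq⟩ : ∃ q : ℤ, j = 3 * q + j % 3 := ⟨j / 3, by omega⟩
  have hr : j % 3 = 0 ∨ j % 3 = 1 ∨ j % 3 = 2 := by omega
  rcases hr with hr | hr | hr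
  · rw [if_pos (by omega)]
    rw [hq, hr, add_zero, h3]
  · rw [if_neg (by omega), if_pos (by omega)]
    rw [hq, hr, zpow_add₀ h0, h3, zpow_one, one_mul]
  · rw [if_neg (by omega), if_neg (by omega)]
    rw [hq, hr, zpow_add₀ h0, h3, one_mul]
    norm_cast

end points

section trace

variable [NeZero N] {n : ℕ}

/-- **Trace identity.** If the conjugate matrix of the family `F` at `z₀` is square with
independent columns and `γ` fixes `z₀`, then the number of cosets fixed by `γ` is the sum of the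
automorphy factors. -/
theorem sum_denom_zpow_eq_card_fixedBy (k : Fin n → ℤ) (F : Fin n → ℍ → ℂ)
    (hF : ∀ i, IsMF (G0 N) (k i) (F i))
    (hcard : n = (CongruenceSubgroup.Gamma0 N).index) (z₀ : ℍ)
    (hinv : ∀ c : Fin n → ℂ, (∀ γ : SL(2, ℤ), ∑ i, c i * ((F i) ∣[k i] γ) z₀ = 0) → c = 0)
    (γ : SL(2, ℤ)) (hγ : γ • z₀ = z₀) :
    ∑ i, denom (γ⁻¹ : SL(2, ℤ)) z₀ ^ (-(k i)) =
      (Nat.card (MulAction.fixedBy (SL(2, ℤ) ⧸ CongruenceSubgroup.Gamma0 N) γ) : ℂ) := by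
  classical
  let _ : Fintype (SL(2, ℤ) ⧸ CongruenceSubgroup.Gamma0 N) := Fintype.ofFinite _
  set A : Matrix (SL(2, ℤ) ⧸ CongruenceSubgroup.Gamma0 N) (Fin n) ℂ :=
    Matrix.of fun x i => conjF N (k i) (F i) x z₀ with hA
  have hAapp : ∀ x i, A x i = conjF N (k i) (F i) x z₀ := fun x i => rfl
  -- the columns of `A` are independent
  have hker : LinearMap.ker (Matrix.toLin' A) = ⊥ := by
    rw [LinearMap.ker_eq_bot']
    intro c hc
    apply hinv
    intro g
    have h1 : ∑ i, A ((g⁻¹ : SL(2, ℤ)) : SL(2, ℤ) ⧸ CongruenceSubgroup.Gamma0 N) i * c i = 0 := by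
      have h2 := congrFun hc ((g⁻¹ : SL(2, ℤ)) : SL(2, ℤ) ⧸ CongruenceSubgroup.Gamma0 N)
      rw [Matrix.toLin'_apply] at h2
      exact h2
    rw [← h1]
    refine Finset.sum_congr rfl fun i _ => ?_
    rw [hAapp, conjF_mk (hF i), inv_inv, mul_comm]
  obtain ⟨g, hg⟩ := LinearMap.exists_leftInverse_of_injective (Matrix.toLin' A) hker
  set B : Matrix (Fin n) (SL(2, ℤ) ⧸ CongruenceSubgroup.Gamma0 N) ℂ := LinearMap.toMatrix' g with hB
  have hBA : B * A = 1 := by
    have h1 : LinearMap.toMatrix' (g ∘ₗ Matrix.toLin' A) = 1 := by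
      rw [hg]; exact LinearMap.toMatrix'_id
    rwa [LinearMap.toMatrix'_comp, LinearMap.toMatrix'_toLin'] at h1
  have hcardX : Fintype.card (SL(2, ℤ) ⧸ CongruenceSubgroup.Gamma0 N) = n := by
    rw [hcard, Subgroup.index_eq_card, Nat.card_eq_fintype_card]
  have e : Fin n ≃ (SL(2, ℤ) ⧸ CongruenceSubgroup.Gamma0 N) :=
    (Fintype.equivFinOfCardEq hcardX).symm
  have hAB : A * B = 1 := (Matrix.mul_eq_one_comm_of_equiv e).mp hBA
  set P : Matrix (SL(2, ℤ) ⧸ CongruenceSubgroup.Gamma0 N)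
      (SL(2, ℤ) ⧸ CongruenceSubgroup.Gamma0 N) ℂ :=
    Matrix.of fun x y => if y = γ • x then 1 else 0 with hP
  have hPapp : ∀ x y, P x y = if y = γ • x then 1 else 0 := fun x y => rfl
  set D : Matrix (Fin n) (Fin n) ℂ :=
    Matrix.diagonal fun i => denom (γ⁻¹ : SL(2, ℤ)) z₀ ^ (-(k i)) with hD
  have hPA : P * A = A * D := by
    ext x i
    rw [hD, Matrix.mul_diagonal, Matrix.mul_apply]
    simp only [hPapp, ite_mul, one_mul, zero_mul, Finset.sum_ite_eq', Finset.mem_univ, if_true]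
    rw [hAapp, hAapp]
    exact conjF_smul_apply_of_fixed (hF i) γ z₀ hγ x
  have htr : P.trace = D.trace := by
    calc P.trace = (P * (A * B)).trace := by rw [hAB, Matrix.mul_one]
      _ = ((A * D) * B).trace := by rw [← Matrix.mul_assoc, hPA]
      _ = (A * (D * B)).trace := by rw [Matrix.mul_assoc]
      _ = ((D * B) * A).trace := Matrix.trace_mul_comm _ _
      _ = D.trace := by rw [Matrix.mul_assoc, hBA, Matrix.mul_one]
  have hPtr : P.trace =
      (Nat.card (MulAction.fixedBy (SL(2, ℤ) ⧸ CongruenceSubgroup.Gamma0 N) γ) : ℂ) := by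
    rw [Matrix.trace]
    simp only [Matrix.diag_apply, hPapp]
    rw [Finset.sum_boole, Nat.card_eq_fintype_card, Fintype.card_subtype]
    congr 2
    ext x
    simp [MulAction.mem_fixedBy, eq_comm]
  rw [← hPtr, htr, hD, Matrix.trace_diagonal]

end trace

section counts

variable {n : ℕ}

lemma neg_one_mem_G0 (N : ℕ) : (-1 : GL (Fin 2) ℝ) ∈ G0 N := by
  refine ⟨-1, ?_, ?_⟩
  · simp [CongruenceSubgroup.Gamma0_mem]
  · ext i j
    simp [Matrix.SpecialLinearGroup.mapGL]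

/-- The weights of an independent family on `Γ₀(N)` are even. -/
theorem even_weight (k : Fin n → ℤ) (F : Fin n → ℍ → ℂ)
    (hF : ∀ i, IsMF (G0 N) (k i) (F i)) (z₀ : ℍ)
    (hinv : ∀ c : Fin n → ℂ, (∀ γ : SL(2, ℤ), ∑ i, c i * ((F i) ∣[k i] γ) z₀ = 0) → c = 0) :
    ∀ i, Even (k i) := by
  intro i
  by_contra hodd
  rw [Int.not_even_iff_odd] at hodd
  obtain ⟨G, hG⟩ := hF i
  have hG0 : G = 0 := ModularForm.eq_zero_of_neg_one_mem (neg_one_mem_G0 N) hodd G
  have hFi : F i = 0 := by rw [← hG, hG0]; rfl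
  have h1 := hinv (Pi.single i 1) (fun γ => by
    rw [Finset.sum_eq_single i]
    · rw [hFi]; simp
    · intro j _ hj
      simp [Pi.single_eq_of_ne hj]
    · simp)
  have h2 := congrFun h1 i
  simp at h2

lemma sum_ite_one_neg_one (p : Fin n → Prop) [DecidablePred p] :
    (∑ i, if p i then (1 : ℂ) else -1) = 2 * (Fintype.card {i // p i} : ℂ) - n := by
  have h1 : ∀ i, (if p i then (1 : ℂ) else -1) = 2 * (if p i then 1 else 0) - 1 := by
    intro i; split_ifs <;> ring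
  simp only [h1, Finset.sum_sub_distrib, ← Finset.mul_sum, Finset.sum_boole, Finset.sum_const,
    Finset.card_univ, Fintype.card_fin, Fintype.card_subtype]
  simp

lemma sum_boole_card (p : Fin n → Prop) [DecidablePred p] :
    (∑ i, if p i then (1 : ℂ) else 0) = (Fintype.card {i // p i} : ℂ) := by
  rw [Finset.sum_boole, Fintype.card_subtype]

variable [NeZero N]

/-- **Class count mod 4** (from the fixed point `i` of `S`). -/
theorem two_mul_card_four_dvd (k : Fin n → ℤ) (F : Fin n → ℍ → ℂ)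
    (hF : ∀ i, IsMF (G0 N) (k i) (F i))
    (hcard : n = (CongruenceSubgroup.Gamma0 N).index)
    (hinvI : ∀ c : Fin n → ℂ,
      (∀ γ : SL(2, ℤ), ∑ i, c i * ((F i) ∣[k i] γ) UpperHalfPlane.I = 0) → c = 0) :
    2 * Fintype.card {i // (4 : ℤ) ∣ k i} =
      n + Nat.card (MulAction.fixedBy (SL(2, ℤ) ⧸ CongruenceSubgroup.Gamma0 N) ModularGroup.S) := by
  classical
  have hev := even_weight k F hF _ hinvI
  have h := sum_denom_zpow_eq_card_fixedBy k F hF hcard _ hinvI ModularGroup.S S_smul_I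
  rw [denom_S_inv_I] at h
  have h2 : ∑ i, (-Complex.I) ^ (-(k i)) = ∑ i, if (4 : ℤ) ∣ k i then (1 : ℂ) else -1 :=
    Finset.sum_congr rfl fun i _ => negI_zpow_neg (hev i)
  rw [h2, sum_ite_one_neg_one] at h
  have h3 : ((2 * Fintype.card {i // (4 : ℤ) ∣ k i} : ℕ) : ℂ) =
      ((n + Nat.card (MulAction.fixedBy (SL(2, ℤ) ⧸ CongruenceSubgroup.Gamma0 N)
        ModularGroup.S) : ℕ) : ℂ) := by
    push_cast
    linear_combination h
  exact_mod_cast h3

/-- Auxiliary: the three class counts mod 6 (from the fixed point `ρ` of `S * T`). -/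
theorem card_mod_six_aux (k : Fin n → ℤ) (F : Fin n → ℍ → ℂ)
    (hF : ∀ i, IsMF (G0 N) (k i) (F i))
    (hcard : n = (CongruenceSubgroup.Gamma0 N).index)
    (hinvR : ∀ c : Fin n → ℂ,
      (∀ γ : SL(2, ℤ), ∑ i, c i * ((F i) ∣[k i] γ) rho = 0) → c = 0) :
    Fintype.card {i // k i % 6 = 2} = Fintype.card {i // k i % 6 = 4} ∧
    Fintype.card {i // k i % 6 = 0} + Fintype.card {i // k i % 6 = 2}
      + Fintype.card {i // k i % 6 = 4} = n ∧
    Fintype.card {i // k i % 6 = 0} = Fintype.card {i // k i % 6 = 2} +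
      Nat.card (MulAction.fixedBy (SL(2, ℤ) ⧸ CongruenceSubgroup.Gamma0 N)
        (ModularGroup.S * ModularGroup.T)) := by
  classical
  have hev := even_weight k F hF _ hinvR
  have hcases : ∀ i, k i % 6 = 0 ∨ k i % 6 = 2 ∨ k i % 6 = 4 := by
    intro i
    obtain ⟨j, hj⟩ := hev i
    omega
  have h := sum_denom_zpow_eq_card_fixedBy k F hF hcard _ hinvR
    (ModularGroup.S * ModularGroup.T) ST_smul_rho
  rw [denom_ST_inv_rho] at h
  set a0 := Fintype.card {i // k i % 6 = 0} with ha0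
  set a2 := Fintype.card {i // k i % 6 = 2} with ha2
  set a4 := Fintype.card {i // k i % 6 = 4} with ha4
  set fx := Nat.card (MulAction.fixedBy (SL(2, ℤ) ⧸ CongruenceSubgroup.Gamma0 N)
        (ModularGroup.S * ModularGroup.T)) with hfx
  have h2 : ∑ i, (-rhoC) ^ (-(k i)) =
      ∑ i, ((if k i % 6 = 0 then (1 : ℂ) else 0) + (if k i % 6 = 2 then (1 : ℂ) else 0) * rhoC
        + (if k i % 6 = 4 then (1 : ℂ) else 0) * rhoC ^ 2) := by
    refine Finset.sum_congr rfl fun i _ => ?_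
    rw [neg_rhoC_zpow_neg (hev i)]
    rcases hcases i with h0 | h0 | h0 <;> simp [h0]
  rw [h2, Finset.sum_add_distrib, Finset.sum_add_distrib, ← Finset.sum_mul, ← Finset.sum_mul,
    sum_boole_card, sum_boole_card, sum_boole_card] at h
  have hn : (n : ℂ) = (a0 : ℂ) + a2 + a4 := by
    have h3 : ∑ _i : Fin n, (1 : ℂ) =
        ∑ i, ((if k i % 6 = 0 then (1 : ℂ) else 0) + (if k i % 6 = 2 then (1 : ℂ) else 0)
          + (if k i % 6 = 4 then (1 : ℂ) else 0)) := by
      refine Finset.sum_congr rfl fun i _ => ?_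
      rcases hcases i with h0 | h0 | h0 <;> simp [h0]
    rw [Finset.sum_add_distrib, Finset.sum_add_distrib, sum_boole_card, sum_boole_card,
      sum_boole_card, Finset.sum_const, Finset.card_univ, Fintype.card_fin, nsmul_eq_mul,
      mul_one] at h3
    exact h3
  -- `ρ² = -1 - ρ`
  have hsq : rhoC ^ 2 = -1 - rhoC := by linear_combination rhoC_sq
  rw [hsq] at h
  have him := congrArg Complex.im h
  have hre := congrArg Complex.re h
  simp only [Complex.add_im, Complex.mul_im, Complex.natCast_im, Complex.natCast_re,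
    Complex.sub_im, Complex.neg_im, Complex.one_im, rhoC_im, rhoC_re, Complex.add_re,
    Complex.mul_re, Complex.sub_re, Complex.neg_re, Complex.one_re] at him hre
  have hs3 : (0 : ℝ) < Real.sqrt 3 := by positivity
  have e24 : (a2 : ℝ) = a4 := by
    have h5 : ((a2 : ℝ) - a4) * Real.sqrt 3 = 0 := by linarith
    rcases mul_eq_zero.mp h5 with h6 | h6
    · linarith
    · exact absurd h6 hs3.ne'
  have e24' : a2 = a4 := by exact_mod_cast e24
  refine ⟨e24', ?_, ?_⟩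
  · exact_mod_cast hn.symm
  · have h7 : (a0 : ℝ) = a2 + fx := by
      rw [e24] at hre
      linarith
    exact_mod_cast h7

/-- **Class count mod 6** (from the fixed point `ρ` of `S * T`). -/
theorem three_mul_card_six_dvd (k : Fin n → ℤ) (F : Fin n → ℍ → ℂ)
    (hF : ∀ i, IsMF (G0 N) (k i) (F i))
    (hcard : n = (CongruenceSubgroup.Gamma0 N).index)
    (hinvR : ∀ c : Fin n → ℂ,
      (∀ γ : SL(2, ℤ), ∑ i, c i * ((F i) ∣[k i] γ) rho = 0) → c = 0) :
    3 * Fintype.card {i // (6 : ℤ) ∣ k i} =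
      n + 2 * Nat.card (MulAction.fixedBy (SL(2, ℤ) ⧸ CongruenceSubgroup.Gamma0 N)
        (ModularGroup.S * ModularGroup.T)) := by
  classical
  obtain ⟨h1, h2, h3⟩ := card_mod_six_aux k F hF hcard hinvR
  have h4 : Fintype.card {i // (6 : ℤ) ∣ k i} = Fintype.card {i // k i % 6 = 0} :=
    Fintype.card_congr (Equiv.subtypeEquivRight fun i => Int.dvd_iff_emod_eq_zero)
  omega

/-- The classes `2` and `4` mod `6` have the same size. -/
theorem card_two_mod_six_eq (k : Fin n → ℤ) (F : Fin n → ℍ → ℂ)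
    (hF : ∀ i, IsMF (G0 N) (k i) (F i))
    (hcard : n = (CongruenceSubgroup.Gamma0 N).index)
    (hinvR : ∀ c : Fin n → ℂ,
      (∀ γ : SL(2, ℤ), ∑ i, c i * ((F i) ∣[k i] γ) rho = 0) → c = 0) :
    Fintype.card {i // k i % 6 = 2} = Fintype.card {i // k i % 6 = 4} :=
  (card_mod_six_aux k F hF hcard hinvR).1

end counts

end

end Fermat.Agent.Lib.EllipticCount
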