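import Mathlib

set_option autoImplicit false

namespace Fermat.Agent.Lib.LevelOneBracket

open UpperHalfPlane ModularForm EisensteinSeries Filter Derivative
open scoped MatrixGroups ModularForm Manifold Topology Real

/-- The derivative of a `1`-periodic holomorphic function bounded at `i∞` tends to `0` at `i∞`. -/
theorem isZeroAtImInfty_D {F : ℍ → ℂ} (hper : Function.Periodic (F ∘ ofComplex) 1)
    (hhol : MDiff F) (hbdd : IsBoundedAtImInfty F) : IsZeroAtImInfty (D F) := by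
  set f := cuspFunction 1 F with hf
  have hfd : DifferentiableOn ℂ f (Metric.ball 0 1) :=
    differentiableOn_cuspFunction_ball one_pos hper hhol hbdd
  have hfan : AnalyticAt ℂ f 0 :=
    hfd.analyticAt (Metric.ball_mem_nhds 0 one_pos)
  have hcont : ContinuousAt (deriv f) 0 := hfan.deriv.continuousAt
  -- formula for `D F`
  have key : ∀ τ : ℍ, D F τ = Function.Periodic.qParam 1 τ * deriv f (Function.Periodic.qParam 1 τ) := by
    intro τ
    have hq : ‖Function.Periodic.qParam 1 (τ : ℂ)‖ < 1 :=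
      Function.Periodic.norm_qParam_lt_one one_pos τ.im_pos
    have hfq : HasDerivAt f (deriv f (Function.Periodic.qParam 1 τ)) (Function.Periodic.qParam 1 τ) :=
      (hfd.differentiableAt (Metric.isOpen_ball.mem_nhds (by simpa using hq))).hasDerivAt
    have hqd : HasDerivAt (fun w : ℂ => Function.Periodic.qParam 1 w)
        (2 * π * Complex.I * Function.Periodic.qParam 1 (τ : ℂ)) (τ : ℂ) := by
      have h1 : HasDerivAt (fun w : ℂ => 2 * π * Complex.I * w / (1 : ℝ)) (2 * π * Complex.I) (τ : ℂ) := by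
        simpa using ((hasDerivAt_id (τ : ℂ)).const_mul (2 * π * Complex.I))
      have := h1.cexp
      simpa [Function.Periodic.qParam, mul_comm] using this
    have hcomp := hfq.comp (τ : ℂ) hqd
    have heq : (F ∘ ofComplex) =ᶠ[𝓝 (τ : ℂ)] (f ∘ fun w : ℂ => Function.Periodic.qParam 1 w) := by
      filter_upwards [isOpen_upperHalfPlaneSet.mem_nhds τ.im_pos] with w hw
      have := eq_cuspFunction (f := F) ⟨w, hw⟩ one_ne_zero hper
      simp only [Function.comp_apply, ofComplex_apply_of_im_pos hw]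
      exact this.symm
    have hd : deriv (F ∘ ofComplex) τ = deriv f (Function.Periodic.qParam 1 τ) *
        (2 * π * Complex.I * Function.Periodic.qParam 1 (τ : ℂ)) :=
      (hcomp.congr_of_eventuallyEq heq).deriv
    have hpi : (2 * π * Complex.I : ℂ) ≠ 0 := by
      simp [Real.pi_ne_zero]
    simp only [normalizedDerivOfComplex, hd]
    field_simp
  have hq0 : Tendsto (fun τ : ℍ => Function.Periodic.qParam 1 τ) atImInfty (𝓝 0) :=
    qParam_tendsto_atImInfty one_pos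
  have : Tendsto (fun τ : ℍ => Function.Periodic.qParam 1 τ * deriv f (Function.Periodic.qParam 1 τ))
      atImInfty (𝓝 (0 * deriv f 0)) :=
    hq0.mul (hcont.tendsto.comp hq0)
  rw [zero_mul] at this
  exact this.congr fun τ => (key τ).symm

/-- A level-one modular form tends to its constant `q`-coefficient at `i∞`. -/
theorem tendsto_levelOne {k : ℤ} (f : ModularForm 𝒮ℒ k) :
    Tendsto f atImInfty (𝓝 ((qExpansion 1 f).coeff 0)) := by
  have hper : Function.Periodic ((f : ℍ → ℂ) ∘ ofComplex) 1 :=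
    SlashInvariantFormClass.periodic_comp_ofComplex f one_mem_strictPeriods_SL
  have han : AnalyticAt ℂ (cuspFunction 1 f) 0 :=
    ModularFormClass.analyticAt_cuspFunction_zero f one_pos one_mem_strictPeriods_SL
  have h0 : (qExpansion 1 f).coeff 0 = cuspFunction 1 f 0 := by
    simp [qExpansion_coeff]
  rw [h0]
  have : (cuspFunction 1 f ∘ fun τ : ℍ ↦ Function.Periodic.qParam 1 τ : ℍ → ℂ) = f := by
    funext τ
    simpa using eq_cuspFunction (f := f) τ one_ne_zero hper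
  simpa [this] using han.continuousAt.tendsto.comp (qParam_tendsto_atImInfty one_pos)

theorem tendsto_E₄ : Tendsto E₄ atImInfty (𝓝 1) := by
  simpa [E_qExpansion_coeff_zero (k := 4) (by norm_num) ⟨2, rfl⟩] using tendsto_levelOne E₄

theorem tendsto_E₆ : Tendsto E₆ atImInfty (𝓝 1) := by
  simpa [E_qExpansion_coeff_zero (k := 6) (by norm_num) ⟨3, rfl⟩] using tendsto_levelOne E₆

/-- The first Rankin–Cohen bracket of `E₄` and `E₆` (up to normalisation). -/
noncomputable def bracket (z : ℍ) : ℂ := 3 * D E₄ z * E₆ z - 2 * E₄ z * D E₆ z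

lemma mdiff_E₄ : MDiff (E₄ : ℍ → ℂ) := ModularFormClass.holo E₄
lemma mdiff_E₆ : MDiff (E₆ : ℍ → ℂ) := ModularFormClass.holo E₆

lemma mdiff_bracket : MDiff bracket := by
  have h4 := normalizedDerivOfComplex_mdifferentiable mdiff_E₄
  have h6 := normalizedDerivOfComplex_mdifferentiable mdiff_E₆
  have : bracket = fun z => 3 * D E₄ z * E₆ z - 2 * E₄ z * D E₆ z := rfl
  rw [this]
  exact ((mdifferentiable_const.mul h4).mul mdiff_E₆).sub ((mdifferentiable_const.mul mdiff_E₄).mul h6)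

lemma levelOne_slash {k : ℤ} (f : ModularForm 𝒮ℒ k) (γ : SL(2, ℤ)) :
    (f : ℍ → ℂ) ∣[k] γ = f := by
  rw [ModularForm.SL_slash]
  exact SlashInvariantFormClass.slash_action_eq f _ ⟨γ, rfl⟩

lemma D_slash_levelOne {k : ℤ} (f : ModularForm 𝒮ℒ k) (γ : SL(2, ℤ)) (z : ℍ) :
    (D f ∣[k + 2] γ) z =
      D f z + (k : ℂ) * (2 * π * Complex.I)⁻¹ * (γ 1 0 / denom γ z) * f z := by
  have h := congrFun (normalizedDerivOfComplex_SL_slash (k := k) (ModularFormClass.holo f) (γ := γ)) z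
  rw [levelOne_slash f γ] at h
  simp only [Pi.sub_apply] at h
  rw [h]; ring

lemma bracket_slash (γ : SL(2, ℤ)) : bracket ∣[(12 : ℤ)] γ = bracket := by
  ext z
  have hd : denom γ z ≠ 0 := denom_ne_zero γ z
  have e4 := congrFun (levelOne_slash E₄ γ) z
  have e6 := congrFun (levelOne_slash E₆ γ) z
  have d4 := D_slash_levelOne E₄ γ z
  have d6 := D_slash_levelOne E₆ γ z
  rw [ModularForm.SL_slash_apply] at e4 e6 d4 d6 ⊢
  have z12a : denom γ z ^ (-(12 : ℤ)) = denom γ z ^ (-(4 + 2 : ℤ)) * denom γ z ^ (-(6 : ℤ)) := by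
    rw [← zpow_add₀ hd]; norm_num
  have z12b : denom γ z ^ (-(12 : ℤ)) = denom γ z ^ (-(4 : ℤ)) * denom γ z ^ (-(6 + 2 : ℤ)) := by
    rw [← zpow_add₀ hd]; norm_num
  have : bracket (γ • z) * denom γ z ^ (-(12 : ℤ)) =
      3 * (D E₄ (γ • z) * denom γ z ^ (-(4 + 2 : ℤ))) * (E₆ (γ • z) * denom γ z ^ (-(6 : ℤ)))
      - 2 * (E₄ (γ • z) * denom γ z ^ (-(4 : ℤ))) * (D E₆ (γ • z) * denom γ z ^ (-(6 + 2 : ℤ))) := by
    simp only [bracket, sub_mul]
    congr 1
    · rw [z12a]; ring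
    · rw [z12b]; ring
  rw [this, e4, e6, d4, d6]
  simp only [bracket]
  push_cast
  ring

lemma isZeroAtImInfty_D_levelOne {k : ℤ} (f : ModularForm 𝒮ℒ k) : IsZeroAtImInfty (D f) :=
  isZeroAtImInfty_D (SlashInvariantFormClass.periodic_comp_ofComplex f one_mem_strictPeriods_SL)
    (ModularFormClass.holo f) (ModularFormClass.bdd_at_infty f)

lemma isZeroAtImInfty_bracket : IsZeroAtImInfty bracket := by
  have h4 : Tendsto (D E₄) atImInfty (𝓝 0) := isZeroAtImInfty_D_levelOne E₄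
  have h6 : Tendsto (D E₆) atImInfty (𝓝 0) := isZeroAtImInfty_D_levelOne E₆
  have := ((h4.const_mul 3).mul tendsto_E₆).sub ((tendsto_E₄.const_mul 2).mul h6)
  simp only [mul_zero, mul_one, sub_zero] at this
  exact this

/-- The bracket as a cusp form of weight 12. -/
noncomputable def bracketForm : CuspForm 𝒮ℒ 12 where
  toFun := bracket
  slash_action_eq' A hA := by
    obtain ⟨A, rfl⟩ := hA
    exact bracket_slash A
  holo' := mdiff_bracket
  zero_at_cusps' hc := by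
    rw [Subgroup.IsArithmetic.isCusp_iff_isCusp_SL2Z] at hc
    rw [OnePoint.isZeroAt_iff_forall_SL2Z hc]
    intro γ _
    rw [bracket_slash]
    exact isZeroAtImInfty_bracket

lemma bracketForm_apply (z : ℍ) : bracketForm z = bracket z := rfl

theorem exists_bracket_eq : ∃ c : ℂ, ∀ z, bracket z = c * discriminant z := by
  obtain ⟨c, hc⟩ := CuspForm.exists_smul_discriminant_of_weight_eq_twelve bracketForm
  refine ⟨c, fun z => ?_⟩
  have h : (c • CuspForm.discriminant) z = bracketForm z := by rw [hc]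
  rw [← bracketForm_apply, ← h]
  rfl

lemma cube_sub_sq_ne_zero (z : ℍ) : E₄ z ^ 3 - E₆ z ^ 2 ≠ 0 := by
  intro h
  exact discriminant_ne_zero z (by rw [discriminant_eq_E₄_cube_sub_E₆_sq, h, zero_div])

theorem bracket_not_identically_zero : ¬ (∀ z, bracket z = 0) := by
  intro h0
  set a : ℂ → ℂ := (E₄ : ℍ → ℂ) ∘ ofComplex with ha
  set b : ℂ → ℂ := (E₆ : ℍ → ℂ) ∘ ofComplex with hb
  have hU : IsOpen upperHalfPlaneSet := isOpen_upperHalfPlaneSet
  have had : ∀ w ∈ upperHalfPlaneSet, HasDerivAt a (deriv a w) w := fun w hw =>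
    ((UpperHalfPlane.mdifferentiable_iff.mp mdiff_E₄).differentiableAt (hU.mem_nhds hw)).hasDerivAt
  have hbd : ∀ w ∈ upperHalfPlaneSet, HasDerivAt b (deriv b w) w := fun w hw =>
    ((UpperHalfPlane.mdifferentiable_iff.mp mdiff_E₆).differentiableAt (hU.mem_nhds hw)).hasDerivAt
  have hne : ∀ w ∈ upperHalfPlaneSet, a w ^ 3 - b w ^ 2 ≠ 0 := fun w hw => by
    simpa [ha, hb, ofComplex_apply_of_im_pos hw] using cube_sub_sq_ne_zero ⟨w, hw⟩
  have hpi : (2 * π * Complex.I : ℂ) ≠ 0 := by simp [Real.pi_ne_zero]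
  have hrel : ∀ w ∈ upperHalfPlaneSet, 3 * deriv a w * b w - 2 * a w * deriv b w = 0 := by
    intro w hw
    have h := h0 ⟨w, hw⟩
    simp only [bracket, normalizedDerivOfComplex] at h
    have e1 : (E₄ : ℍ → ℂ) (⟨w, hw⟩ : ℍ) = a w := by simp [ha, ofComplex_apply_of_im_pos hw]
    have e2 : (E₆ : ℍ → ℂ) (⟨w, hw⟩ : ℍ) = b w := by simp [hb, ofComplex_apply_of_im_pos hw]
    rw [e1, e2] at h
    have h' : (2 * π * Complex.I : ℂ)⁻¹ * (3 * deriv a w * b w - 2 * a w * deriv b w) = 0 := by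
      rw [← h]; simp only [ha, hb]; ring
    rcases mul_eq_zero.mp h' with h'' | h''
    · exact absurd h'' (inv_ne_zero hpi)
    · exact h''
  set H : ℂ → ℂ := fun w => a w ^ 3 / (a w ^ 3 - b w ^ 2) with hH
  have hHd : ∀ w ∈ upperHalfPlaneSet, HasDerivAt H 0 w := by
    intro w hw
    have h1 := (had w hw).pow 3
    have h2 := ((had w hw).pow 3).sub ((hbd w hw).pow 2)
    have h3 := h1.div h2 (hne w hw)
    have e : ((3 : ℕ) * a w ^ (3 - 1) * deriv a w * (a ^ 3 - b ^ 2) w -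
        (a ^ 3) w * ((3 : ℕ) * a w ^ (3 - 1) * deriv a w - (2 : ℕ) * b w ^ (2 - 1) * deriv b w)) /
      (a ^ 3 - b ^ 2) w ^ 2 = 0 := by
      have hn : (a ^ 3 - b ^ 2) w ≠ 0 := hne w hw
      rw [div_eq_zero_iff]
      left
      simp only [Pi.sub_apply, Pi.pow_apply]
      push_cast
      norm_num
      linear_combination (-(a w ^ 2 * b w)) * hrel w hw
    rw [e] at h3
    exact h3
  obtain ⟨κ, hκ⟩ := hU.exists_is_const_of_fderiv_eq_zero
      (convex_halfSpace_im_gt 0).isPreconnected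
      (fun w hw => (hHd w hw).differentiableAt.differentiableWithinAt)
      (fun w hw => by
        have := (hHd w hw).hasFDerivAt.fderiv
        simpa using this)
  have heq : ∀ τ : ℍ, E₄ τ ^ 3 = κ * (E₄ τ ^ 3 - E₆ τ ^ 2) := by
    intro τ
    have h := hκ τ τ.im_pos
    simp only [hH, ha, hb, Function.comp_apply, ofComplex_apply] at h
    rw [← h]
    field_simp [cube_sub_sq_ne_zero τ]
  have l1 : Tendsto (fun τ : ℍ => E₄ τ ^ 3) atImInfty (𝓝 1) := by
    simpa using tendsto_E₄.pow 3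
  have l2 : Tendsto (fun τ : ℍ => κ * (E₄ τ ^ 3 - E₆ τ ^ 2)) atImInfty (𝓝 0) := by
    simpa using ((tendsto_E₄.pow 3).sub (tendsto_E₆.pow 2)).const_mul κ
  have := tendsto_nhds_unique (l1.congr heq) l2
  exact one_ne_zero this

/-- **Key fact**: the bracket `3 D(E₄) E₆ - 2 E₄ D(E₆)` vanishes nowhere on `ℍ`. -/
theorem bracket_ne_zero (z : ℍ) : bracket z ≠ 0 := by
  obtain ⟨c, hc⟩ := exists_bracket_eq
  have hc0 : c ≠ 0 := by
    rintro rfl
    exact bracket_not_identically_zero fun z => by rw [hc z, zero_mul]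
  rw [hc z]
  exact mul_ne_zero hc0 (discriminant_ne_zero z)

/-- `E₄` and `E₆` have no common zero. -/
theorem not_both_zero (z : ℍ) : ¬ (E₄ z = 0 ∧ E₆ z = 0) := by
  rintro ⟨h4, h6⟩
  exact cube_sub_sq_ne_zero z (by rw [h4, h6]; ring)

/-- Zeros of `E₄` are simple. -/
theorem D_E₄_ne_zero {z : ℍ} (h : E₄ z = 0) : D E₄ z ≠ 0 := by
  intro hD
  exact bracket_ne_zero z (by simp [bracket, h, hD])

/-- Zeros of `E₆` are simple. -/
theorem D_E₆_ne_zero {z : ℍ} (h : E₆ z = 0) : D E₆ z ≠ 0 := by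
  intro hD
  exact bracket_ne_zero z (by simp [bracket, h, hD])

lemma two_pi_I_ne_zero : (2 * π * Complex.I : ℂ) ≠ 0 := by simp [Real.pi_ne_zero]

lemma D_ne_zero_iff (F : ℍ → ℂ) (z : ℍ) : D F z ≠ 0 ↔ deriv (F ∘ ofComplex) z ≠ 0 := by
  simp [normalizedDerivOfComplex, Real.pi_ne_zero]

/-- The level-one form `E₄³ E₆(z₀)² - E₄(z₀)³ E₆²` of weight 12 vanishing at `z₀`. -/
noncomputable def genericForm (z₀ : ℍ) (z : ℍ) : ℂ :=
  E₄ z ^ 3 * E₆ z₀ ^ 2 - E₄ z₀ ^ 3 * E₆ z ^ 2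

lemma genericForm_self (z₀ : ℍ) : genericForm z₀ z₀ = 0 := by
  unfold genericForm; ring

lemma D_genericForm (z₀ z : ℍ) :
    D (genericForm z₀) z =
      3 * E₄ z ^ 2 * D E₄ z * E₆ z₀ ^ 2 - E₄ z₀ ^ 3 * (2 * E₆ z * D E₆ z) := by
  have h4 : MDiff (E₄ : ℍ → ℂ) := mdiff_E₄
  have h6 : MDiff (E₆ : ℍ → ℂ) := mdiff_E₆
  have e : genericForm z₀ = (E₆ z₀ ^ 2) • ((E₄ : ℍ → ℂ) ^ 3) - (E₄ z₀ ^ 3) • ((E₆ : ℍ → ℂ) ^ 2) := by
    ext w; simp [genericForm]; ring
  rw [e, normalizedDerivOfComplex_sub _ _ ((h4.pow 3).const_smul _) ((h6.pow 2).const_smul _),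
    normalizedDerivOfComplex_smul _ _ (h4.pow 3), normalizedDerivOfComplex_smul _ _ (h6.pow 2),
    normalizedDerivOfComplex_pow _ _ h4, normalizedDerivOfComplex_pow _ _ h6]
  simp only [Pi.sub_apply, Pi.smul_apply, Pi.mul_apply, Pi.pow_apply, smul_eq_mul,
    Pi.natCast_apply]
  push_cast
  ring

/-- For `z₀` with `E₄ z₀ ≠ 0` and `E₆ z₀ ≠ 0`, the zero of `genericForm z₀` at `z₀` is simple. -/
theorem D_genericForm_ne_zero {z₀ : ℍ} (h4 : E₄ z₀ ≠ 0) (h6 : E₆ z₀ ≠ 0) :
    D (genericForm z₀) z₀ ≠ 0 := by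
  have : D (genericForm z₀) z₀ = E₄ z₀ ^ 2 * E₆ z₀ * bracket z₀ := by
    rw [D_genericForm]; simp only [bracket]; ring
  rw [this]
  exact mul_ne_zero (mul_ne_zero (pow_ne_zero 2 h4) h6) (bracket_ne_zero z₀)

end Fermat.Agent.Lib.LevelOneBracket
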