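import Mathlib
import Fermat.Agent.S23.Defs
import Fermat.Agent.Lib.EllipticCount
import Fermat.Agent.Lib.LevelOneBracket
import Fermat.Agent.Lib.CuspDualSpec

/-!
# Cusp analysis and the dual basis for a free basis of `M(Γ₀(N))` over `ℂ[E₄, E₆]`

Let `F i` (`i : Fin n`, weights `k i`) be a basis of the graded module of modular forms on
`Γ₀(N)` over the ring of level-one forms, with `n = [SL₂(ℤ) : Γ₀(N)]` and invertible conjugate
matrix `Φ(z) = (F i ∣ g⁻¹)(z)`.  Then the rows of `Δ(z) • Φ(z)⁻¹` are cusp forms of weight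
`12 - k i` on `Γ₀(N)`.  Consequences: `k i ≤ 10`, and the rows with `k i = 10` are linearly
independent cusp forms of weight `2`.
-/

set_option autoImplicit false

namespace Fermat.Agent.Lib.CuspDual

open UpperHalfPlane Filter Finset Function ModularForm Fermat.Agent.S23
open Fermat.Agent.Lib.EllipticCount (conjF conjF_mk conjF_smul slash_eq_of_isMF)
open scoped Topology Manifold Real MatrixGroups ModularForm

noncomputable section

local notation "𝕢" => Function.Periodic.qParam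

section Basic

variable {N : ℕ}

/-- The permutation of the cosets of `Γ₀(N)` induced by `z ↦ z + 1`. -/
def sig (N : ℕ) : Equiv.Perm (SL(2, ℤ) ⧸ CongruenceSubgroup.Gamma0 N) :=
  MulAction.toPerm (ModularGroup.T⁻¹ : SL(2, ℤ))

/-- The common width of the cusps above `i∞`: the order of `sig N`. -/
def wid (N : ℕ) : ℕ := orderOf (sig N)

theorem wid_pos (N : ℕ) [NeZero N] : 0 < wid N := orderOf_pos _

theorem sig_pow_wid (N : ℕ) : sig N ^ wid N = 1 := pow_orderOf_eq_one _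

theorem mdiff_isMF {Γ : Subgroup (GL (Fin 2) ℝ)} {k : ℤ} {g : ℍ → ℂ} (hg : IsMF Γ k g) :
    MDiff g := by
  obtain ⟨G, rfl⟩ := hg
  exact ModularFormClass.holo G

theorem slash_levelOne {m : ℤ} {a : ℍ → ℂ} (ha : IsMF 𝒮ℒ m a) (γ : SL(2, ℤ)) : a ∣[m] γ = a := by
  obtain ⟨G, rfl⟩ := ha
  exact SlashInvariantFormClass.slash_action_eq G _ ⟨γ, rfl⟩

theorem mdiff_conjF {k : ℤ} {F : ℍ → ℂ} (hF : IsMF (G0 N) k F)
    (x : SL(2, ℤ) ⧸ CongruenceSubgroup.Gamma0 N) : MDiff (conjF N k F x) :=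
  (mdiff_isMF hF).slash k _

theorem bdd_slash [NeZero N] {k : ℤ} {F : ℍ → ℂ} (hF : IsMF (G0 N) k F) (δ : SL(2, ℤ)) :
    IsBoundedAtImInfty (F ∣[k] δ) := by
  obtain ⟨G, rfl⟩ := hF
  have hc : IsCusp ((Matrix.SpecialLinearGroup.mapGL ℝ δ) • OnePoint.infty) 𝒮ℒ :=
    isCusp_SL2Z_iff'.mpr ⟨δ, rfl⟩
  have hc' : IsCusp ((Matrix.SpecialLinearGroup.mapGL ℝ δ) • OnePoint.infty) (G0 N) := by
    rw [Subgroup.IsArithmetic.isCusp_iff_isCusp_SL2Z]
    exact hc
  have := G.bdd_at_cusps' hc'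
  rw [OnePoint.isBoundedAt_iff_forall_SL2Z hc] at this
  exact this δ rfl

theorem bdd_conjF [NeZero N] {k : ℤ} {F : ℍ → ℂ} (hF : IsMF (G0 N) k F)
    (x : SL(2, ℤ) ⧸ CongruenceSubgroup.Gamma0 N) : IsBoundedAtImInfty (conjF N k F x) :=
  bdd_slash hF _

theorem slash_T_apply (k : ℤ) (f : ℍ → ℂ) (z : ℍ) :
    (f ∣[k] ModularGroup.T) z = f ((1 : ℝ) +ᵥ z) := by
  rw [SL_slash_apply, modular_T_smul]
  have : denom (ModularGroup.T : SL(2, ℤ)) z = 1 := by
    rw [ModularGroup.denom_apply]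
    simp [ModularGroup.T]
  rw [this, one_zpow, mul_one]

theorem conjF_vadd {k : ℤ} {F : ℍ → ℂ} (hF : IsMF (G0 N) k F)
    (x : SL(2, ℤ) ⧸ CongruenceSubgroup.Gamma0 N) (z : ℍ) :
    conjF N k F x ((1 : ℝ) +ᵥ z) = conjF N k F (sig N x) z := by
  have h1 : sig N x = (ModularGroup.T⁻¹ : SL(2, ℤ)) • x := rfl
  rw [h1, conjF_smul hF, inv_inv, slash_T_apply]

theorem isCuspVec_conjF [NeZero N] {k : ℤ} {F : ℍ → ℂ} (hF : IsMF (G0 N) k F) :
    IsCuspVec (sig N) (fun z x => conjF N k F x z) where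
  per := fun z x => conjF_vadd hF x z
  holo := fun x => mdiff_conjF hF x
  bdd := fun x => bdd_conjF hF x

/-- Conjugates of a product with a level-one form. -/
theorem conjF_mul_levelOne {m k : ℤ} {a F : ℍ → ℂ} (ha : IsMF 𝒮ℒ m a)
    (x : SL(2, ℤ) ⧸ CongruenceSubgroup.Gamma0 N) :
    conjF N (m + k) (a * F) x = a * conjF N k F x := by
  unfold conjF
  rw [ModularForm.mul_slash_SL2, slash_levelOne ha]

theorem conjF_sum {ι : Type*} (s : Finset ι) (K : ℤ) (f : ι → ℍ → ℂ)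
    (x : SL(2, ℤ) ⧸ CongruenceSubgroup.Gamma0 N) :
    conjF N K (∑ i ∈ s, f i) x = ∑ i ∈ s, conjF N K (f i) x := by
  unfold conjF
  rw [SlashAction.sum_slash]

theorem conjF_smul_const (K : ℤ) (c : ℂ) (f : ℍ → ℂ)
    (x : SL(2, ℤ) ⧸ CongruenceSubgroup.Gamma0 N) :
    conjF N K (c • f) x = c • conjF N K f x := by
  unfold conjF
  exact ModularForm.SL_smul_slash _ _ _ _

/-- A slash of a form of level `Γ₀(N)` is one of its conjugates. -/
theorem slash_eq_conjF {k : ℤ} {F : ℍ → ℂ} (hF : IsMF (G0 N) k F) (γ : SL(2, ℤ)) :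
    F ∣[k] γ = conjF N k F ((γ⁻¹ : SL(2, ℤ)) : SL(2, ℤ) ⧸ CongruenceSubgroup.Gamma0 N) := by
  rw [conjF_mk hF, inv_inv]

/-- Level-one forms of even weight `≥ 4` with value `1` at `i∞`. -/
theorem exists_levelOne_tendsto_one {m : ℤ} (hm : Even m) (h4 : 4 ≤ m) :
    ∃ a : ℍ → ℂ, IsMF 𝒮ℒ m a ∧ Tendsto a atImInfty (𝓝 1) := by
  have h4' : IsMF 𝒮ℒ 4 (E₄ : ℍ → ℂ) := IsMF.coe E₄
  have h6' : IsMF 𝒮ℒ 6 (E₆ : ℍ → ℂ) := IsMF.coe E₆
  have t4 := Fermat.Agent.Lib.LevelOneBracket.tendsto_E₄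
  have t6 := Fermat.Agent.Lib.LevelOneBracket.tendsto_E₆
  obtain ⟨r, hr⟩ := hm
  rcases Int.emod_two_eq_zero_or_one r with h2 | h2
  · -- `m = 4 * (r / 2)`
    obtain ⟨s, hs⟩ : ∃ s : ℕ, m = 4 * s := ⟨(r / 2).toNat, by omega⟩
    refine ⟨(E₄ : ℍ → ℂ) ^ s, (h4'.pow s).weight_congr (by omega), ?_⟩
    have := t4.pow s
    rw [one_pow] at this
    exact this
  · obtain ⟨s, hs⟩ : ∃ s : ℕ, m = 4 * s + 6 := ⟨((r - 3) / 2).toNat, by omega⟩
    refine ⟨(E₄ : ℍ → ℂ) ^ s * E₆, ((h4'.pow s).mul h6').weight_congr (by omega), ?_⟩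
    have := (t4.pow s).mul t6
    rw [one_pow, one_mul] at this
    exact this

theorem exists_tendsto_levelOne {m : ℤ} {a : ℍ → ℂ} (ha : IsMF 𝒮ℒ m a) :
    ∃ c : ℂ, Tendsto a atImInfty (𝓝 c) := by
  obtain ⟨G, rfl⟩ := ha
  exact ⟨_, Fermat.Agent.Lib.LevelOneBracket.tendsto_levelOne G⟩

end Basic

section Divide

variable {N : ℕ} [NeZero N]

theorem discriminant_isMF : IsMF 𝒮ℒ 12 (discriminant : ℍ → ℂ) :=
  (IsCF.coe CuspForm.discriminant).isMF

theorem discriminant_isBigO_exp :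
    (discriminant : ℍ → ℂ) =O[atImInfty] fun z => Real.exp (-2 * π * z.im) := by
  have := CuspFormClass.exp_decay_atImInfty (h := 1) CuspForm.discriminant one_pos
    one_mem_strictPeriods_SL
  simpa using this

/-- A form of level `Γ₀(N)` all of whose conjugates are `O(exp(-2π Im z))` at `i∞` is divisible
by `Δ`. -/
theorem div_delta {K : ℤ} {f : ℍ → ℂ} (hf : IsMF (G0 N) K f)
    (h0 : ∀ x, (conjF N K f x) =O[atImInfty] fun z => Real.exp (-2 * π * z.im)) :
    ∃ f' : ℍ → ℂ, IsMF (G0 N) (K - 12) f' ∧ f = discriminant * f' := by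
  have hΔ : ∀ γ : SL(2, ℤ), (discriminant : ℍ → ℂ) ∣[(12 : ℤ)] γ = discriminant :=
    slash_levelOne discriminant_isMF
  have hmd : MDiff (f / discriminant) :=
    (mdiff_isMF hf).div CuspForm.discriminant.holo' discriminant_ne_zero
  refine ⟨f / discriminant, ⟨{ toFun := f / discriminant
                               slash_action_eq' := ?_
                               holo' := hmd
                               bdd_at_cusps' := ?_ }, rfl⟩, ?_⟩
  · rintro _ ⟨γ, hγ, rfl⟩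
    have := div_slash_SL2 K 12 γ f discriminant
    rw [hΔ γ, slash_eq_of_isMF hf γ hγ] at this
    exact this
  · intro c hc
    rw [Subgroup.IsArithmetic.isCusp_iff_isCusp_SL2Z] at hc
    rw [OnePoint.isBoundedAt_iff_forall_SL2Z hc]
    intro δ _
    have h1 := div_slash_SL2 K 12 δ f discriminant
    rw [hΔ δ] at h1
    have h2 := h0 ((δ⁻¹ : SL(2, ℤ)) : SL(2, ℤ) ⧸ CongruenceSubgroup.Gamma0 N)
    rw [← slash_eq_conjF hf δ] at h2
    have h3 : (f ∣[K] δ) =O[atImInfty] (discriminant : ℍ → ℂ) :=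
      h2.trans exp_isBigO_discriminant
    change IsBoundedAtImInfty ((f / discriminant) ∣[K - 12] δ)
    rw [h1, IsBoundedAtImInfty, BoundedAtFilter]
    exact (Asymptotics.div_isBoundedUnder_of_isBigO h3).isBigO_one ℝ
  · ext z
    simp only [Pi.mul_apply, Pi.div_apply]
    rw [mul_div_cancel₀ _ (discriminant_ne_zero z)]

end Divide

section Indep

variable {N : ℕ} [NeZero N] {ι : Type*} [Fintype ι]

omit [NeZero N] in
theorem conjF_mul_levelOne' {m k K : ℤ} (hK : K = m + k) {a F : ℍ → ℂ} (ha : IsMF 𝒮ℒ m a)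
    (x : SL(2, ℤ) ⧸ CongruenceSubgroup.Gamma0 N) :
    conjF N K (a * F) x = a * conjF N k F x := by
  subst hK
  exact conjF_mul_levelOne ha x

/-- **Independence of the leading coefficients.**  If the family `F` generates the module of
modular forms on `Γ₀(N)` freely over the level-one forms, then the vectors of leading
coefficients of the conjugate vectors of the `F i` are linearly independent. -/
theorem lead_indep (k : ι → ℤ) (F : ι → ℍ → ℂ) (hF : ∀ i, IsMF (G0 N) (k i) (F i))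
    (heven : ∀ i, Even (k i))
    (hgen : ∀ (K : ℤ) (f : ℍ → ℂ), IsMF (G0 N) K f →
      ∃ a : ι → ℍ → ℂ, (∀ i, IsMF 𝒮ℒ (K - k i) (a i)) ∧ f = ∑ i, a i * F i)
    (hind : ∀ (K : ℤ) (a : ι → ℍ → ℂ), (∀ i, IsMF 𝒮ℒ (K - k i) (a i)) →
      ∑ i, a i * F i = 0 → ∀ i, a i = 0)
    (c : ι → ℂ)
    (h0 : ∀ j < wid N, ∀ x,
      ∑ i, c i * lead (sig N) (wid N) j (fun z x => conjF N (k i) (F i) x z) x = 0) :
    c = 0 := by
  classical
  set K : ℤ := 4 + 2 * ∑ i, |k i| with hK
  have hKi : ∀ i, 4 ≤ K - k i := by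
    intro i
    have h1 : |k i| ≤ ∑ j, |k j| :=
      Finset.single_le_sum (f := fun j => |k j|) (fun j _ => abs_nonneg (k j)) (Finset.mem_univ i)
    have h2 := le_abs_self (k i)
    have h3 := abs_nonneg (k i)
    rw [hK]; linarith
  have hKe : ∀ i, Even (K - k i) := by
    intro i
    have : Even K := by rw [hK]; exact (by decide : Even (4 : ℤ)).add (even_two_mul _)
    exact this.sub (heven i)
  choose a ha hat using fun i => exists_levelOne_tendsto_one (hKe i) (hKi i)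
  set f : ℍ → ℂ := ∑ i, (c i • a i) * F i with hf
  have hfi : ∀ i, IsMF (G0 N) K ((c i • a i) * F i) := fun i =>
    ((((ha i).smul (c i)).toG0 N).mul (hF i)).weight_congr (by ring)
  have hfMF : IsMF (G0 N) K f := IsMF.sum _ (fun i _ => hfi i)
  have hvec : (fun z x => conjF N K f x z)
      = fun z x => ∑ i, (c i * a i z) * conjF N (k i) (F i) x z := by
    funext z x
    rw [hf, conjF_sum, Finset.sum_apply]
    refine Finset.sum_congr rfl fun i _ => ?_
    rw [conjF_mul_levelOne' (by ring : K = (K - k i) + k i) ((ha i).smul (c i)) x]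
    simp [Pi.mul_apply, Pi.smul_apply]
  have hlead : ∀ j < wid N, ∀ x,
      lead (sig N) (wid N) j (fun z x => conjF N K f x z) x = 0 := by
    intro j hj x
    rw [hvec, lead_combination Finset.univ (wid_pos N) (sig_pow_wid N) hj
      (w := fun i z x => conjF N (k i) (F i) x z) (fun i _ => isCuspVec_conjF (hF i))
      (fun i z => c i * a i z) c (fun i _ => ?_) x]
    · exact h0 j hj x
    · simpa using (hat i).const_mul (c i)
  have hO : ∀ x, (conjF N K f x) =O[atImInfty] fun z => Real.exp (-2 * π * z.im) := fun x =>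
    isBigO_of_lead_eq_zero (wid_pos N) (sig_pow_wid N) (isCuspVec_conjF hfMF) hlead x
  obtain ⟨f', hf', hff'⟩ := div_delta hfMF hO
  obtain ⟨b, hb, hfb⟩ := hgen (K - 12) f' hf'
  have hrel : ∑ i, (c i • a i - discriminant * b i) * F i = 0 := by
    have : ∑ i, (c i • a i - discriminant * b i) * F i = f - discriminant * f' := by
      rw [hf, hfb, Finset.mul_sum, ← Finset.sum_sub_distrib]
      refine Finset.sum_congr rfl fun i _ => ?_
      ring
    rw [this, ← hff', sub_self]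
  have hcoef : ∀ i, IsMF 𝒮ℒ (K - k i) (c i • a i - discriminant * b i) := fun i =>
    ((ha i).smul (c i)).sub ((discriminant_isMF.mul (hb i)).weight_congr (by ring))
  have hz := hind K _ hcoef hrel
  funext i
  obtain ⟨β, hβ⟩ := exists_tendsto_levelOne (hb i)
  have hlim : Tendsto (fun z => c i * a i z - discriminant z * b i z) atImInfty
      (𝓝 (c i * 1 - 0 * β)) :=
    ((hat i).const_mul (c i)).sub (discriminant_isZeroAtImInfty.mul hβ)
  have hzero : (fun z => c i * a i z - discriminant z * b i z) = fun _ => 0 := by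
    funext z
    have := congrFun (hz i) z
    simpa using this
  rw [hzero] at hlim
  have := tendsto_nhds_unique hlim tendsto_const_nhds
  simpa using this

end Indep

section MatHolo

variable {Q : Type} [Fintype Q] [DecidableEq Q]

/-- The determinant of a matrix of holomorphic functions is holomorphic. -/
theorem mdiff_det (A : ℍ → Matrix Q Q ℂ) (hA : ∀ i j, MDiff (fun z => A z i j)) :
    MDiff (fun z => (A z).det) := by
  have e : (fun z => (A z).det)
      = ∑ σ : Equiv.Perm Q, (fun _ : ℍ => ((Equiv.Perm.sign σ : ℤ) : ℂ)) *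
          ∏ i, fun z => A z (σ i) i := by
    funext z
    rw [Matrix.det_apply, Finset.sum_apply]
    refine Finset.sum_congr rfl fun σ _ => ?_
    rw [Pi.mul_apply, Finset.prod_apply]
    simp [Units.smul_def]
  rw [e]
  apply MDifferentiable.sum
  intro σ _
  apply MDifferentiable.mul mdifferentiable_const
  apply MDifferentiable.prod
  intro i _
  exact hA (σ i) i

/-- The entries of the inverse of an everywhere invertible matrix of holomorphic functions are
holomorphic. -/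
theorem mdiff_inv (A : ℍ → Matrix Q Q ℂ) (hA : ∀ i j, MDiff (fun z => A z i j))
    (hdet : ∀ z, (A z).det ≠ 0) (i j : Q) : MDiff (fun z => (A z)⁻¹ i j) := by
  have e : (fun z => (A z)⁻¹ i j)
      = fun z => ((A z).updateRow j (Pi.single i 1)).det / (A z).det := by
    funext z
    rw [Matrix.inv_def, Matrix.smul_apply, Matrix.adjugate_apply, Ring.inverse_eq_inv',
      smul_eq_mul, div_eq_inv_mul]
  rw [e]
  refine MDifferentiable.div ?_ (mdiff_det A hA) hdet
  refine mdiff_det _ fun i' j' => ?_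
  by_cases h : i' = j
  · have : (fun z => (A z).updateRow j (Pi.single i 1) i' j')
        = fun _ => (Pi.single i 1 : Q → ℂ) j' := by
      funext z
      rw [Matrix.updateRow_apply, if_pos h]
    rw [this]
    exact mdifferentiable_const
  · have : (fun z => (A z).updateRow j (Pi.single i 1) i' j') = fun z => A z i' j' := by
      funext z
      rw [Matrix.updateRow_apply, if_neg h]
    rw [this]
    exact hA i' j'

end MatHolo

section Dual

set_option linter.unusedSectionVars false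

/-- Local `Fintype` structure on the cosets of `Γ₀(N)`. -/
local instance cosetFintype (N : ℕ) [NeZero N] :
    Fintype (SL(2, ℤ) ⧸ CongruenceSubgroup.Gamma0 N) := Fintype.ofFinite _

/-- Local decidable equality on the cosets of `Γ₀(N)`. -/
local instance cosetDecEq (N : ℕ) : DecidableEq (SL(2, ℤ) ⧸ CongruenceSubgroup.Gamma0 N) :=
  Classical.decEq _

variable {N : ℕ} [NeZero N] {ι : Type*} [Fintype ι]
  (k : ι → ℤ) (F : ι → ℍ → ℂ) (e : ι ≃ (SL(2, ℤ) ⧸ CongruenceSubgroup.Gamma0 N))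

/-- The conjugate matrix: rows are indexed by the basis (through `e`), columns by the cosets. -/
def PhiMat (z : ℍ) : Matrix (SL(2, ℤ) ⧸ CongruenceSubgroup.Gamma0 N)
    (SL(2, ℤ) ⧸ CongruenceSubgroup.Gamma0 N) ℂ :=
  fun x' x => conjF N (k (e.symm x')) (F (e.symm x')) x z

/-- The entries of `Δ(z) • Φ(z)⁻¹`. -/
def dualFun (x x' : SL(2, ℤ) ⧸ CongruenceSubgroup.Gamma0 N) (z : ℍ) : ℂ :=
  discriminant z * (PhiMat k F e z)⁻¹ x x'

variable {k F e}

theorem det_PhiMat_ne_zero (hF : ∀ i, IsMF (G0 N) (k i) (F i))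
    (hinv : ∀ (z : ℍ) (c : ι → ℂ),
      (∀ γ : SL(2, ℤ), ∑ i, c i * ((F i) ∣[k i] γ) z = 0) → c = 0) (z : ℍ) :
    (PhiMat k F e z).det ≠ 0 := by
  intro hdet
  obtain ⟨v, hv, hv0⟩ := Matrix.exists_vecMul_eq_zero_iff.mpr hdet
  apply hv
  have hc := hinv z (fun i => v (e i)) (fun γ => ?_)
  · funext x
    have := congrFun hc (e.symm x)
    simpa using this
  · have h1 := congrFun hv0 ((γ⁻¹ : SL(2, ℤ)) : SL(2, ℤ) ⧸ CongruenceSubgroup.Gamma0 N)
    simp only [Matrix.vecMul, dotProduct, PhiMat, Pi.zero_apply] at h1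
    rw [← h1, ← e.sum_comp]
    refine Finset.sum_congr rfl fun i _ => ?_
    rw [Equiv.symm_apply_apply, slash_eq_conjF (hF i)]

theorem isCuspVec_PhiMat (hF : ∀ i, IsMF (G0 N) (k i) (F i))
    (x' : SL(2, ℤ) ⧸ CongruenceSubgroup.Gamma0 N) :
    IsCuspVec (sig N) (fun z x => PhiMat k F e z x' x) :=
  isCuspVec_conjF (hF (e.symm x'))

theorem det_leadMat_ne_zero (hF : ∀ i, IsMF (G0 N) (k i) (F i)) (heven : ∀ i, Even (k i))
    (hgen : ∀ (K : ℤ) (f : ℍ → ℂ), IsMF (G0 N) K f →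
      ∃ a : ι → ℍ → ℂ, (∀ i, IsMF 𝒮ℒ (K - k i) (a i)) ∧ f = ∑ i, a i * F i)
    (hind : ∀ (K : ℤ) (a : ι → ℍ → ℂ), (∀ i, IsMF 𝒮ℒ (K - k i) (a i)) →
      ∑ i, a i * F i = 0 → ∀ i, a i = 0) :
    (leadMat (sig N) (wid N) (PhiMat k F e)).det ≠ 0 := by
  intro hdet
  obtain ⟨v, hv, hv0⟩ := Matrix.exists_vecMul_eq_zero_iff.mpr hdet
  apply hv
  set w : ℕ → (SL(2, ℤ) ⧸ CongruenceSubgroup.Gamma0 N) → ℂ := fun j x =>
    ∑ x', v x' * lead (sig N) (wid N) j (fun z x => PhiMat k F e z x' x) x with hwdef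
  have hsum : ∀ x, ∑ j ∈ range (wid N), w j x = 0 := by
    intro x
    have h1 := congrFun hv0 x
    simp only [Matrix.vecMul, dotProduct, leadMat, Pi.zero_apply] at h1
    rw [← h1, hwdef, Finset.sum_comm]
    refine Finset.sum_congr rfl fun x' _ => ?_
    rw [Finset.mul_sum]
  have hweig : ∀ j < wid N, ∀ x, w j (sig N x) = 𝕢 (wid N : ℝ) 1 ^ j * w j x := by
    intro j hj x
    simp only [hwdef]
    rw [Finset.mul_sum]
    refine Finset.sum_congr rfl fun x' _ => ?_
    rw [lead_perm (wid_pos N) (sig_pow_wid N) hj (isCuspVec_PhiMat hF x')]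
    ring
  have hw : ∀ j < wid N, ∀ x, w j x = 0 := by
    intro j hj x
    have h1 : proj (sig N) (wid N) j (fun x => ∑ j' ∈ range (wid N), 1 * w j' x) x
        = ∑ j' ∈ range (wid N), 1 * proj (sig N) (wid N) j (w j') x := proj_sum _ _ _ _
    have h2 : (fun x => ∑ j' ∈ range (wid N), 1 * w j' x) = fun _ => 0 := by
      funext x
      simpa using hsum x
    have h3 : proj (sig N) (wid N) j
        (fun _ : SL(2, ℤ) ⧸ CongruenceSubgroup.Gamma0 N => (0 : ℂ)) x = 0 := by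
      simp [proj]
    rw [h2, h3] at h1
    have h4 : ∑ j' ∈ range (wid N), 1 * proj (sig N) (wid N) j (w j') x = w j x := by
      rw [Finset.sum_eq_single j]
      · rw [proj_of_eigen (wid_pos N) hj hj (hweig j hj)]
        simp
      · intro j' hj' hne
        rw [proj_of_eigen (wid_pos N) (mem_range.mp hj') hj (hweig j' (mem_range.mp hj'))]
        simp [hne.symm]
      · intro h
        exact absurd (mem_range.mpr hj) h
    rw [h4] at h1
    exact h1.symm
  have hc := lead_indep k F hF heven hgen hind (fun i => v (e i)) (fun j hj x => ?_)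
  · funext x
    have := congrFun hc (e.symm x)
    simpa using this
  · have h5 : ∑ x', v x' * lead (sig N) (wid N) j (fun z x => PhiMat k F e z x' x) x = 0 :=
      hw j hj x
    rw [← h5, ← e.sum_comp]
    refine Finset.sum_congr rfl fun i _ => ?_
    simp [PhiMat]

theorem PhiMat_smul (hF : ∀ i, IsMF (G0 N) (k i) (F i)) (γ : SL(2, ℤ)) (z : ℍ)
    (x' x : SL(2, ℤ) ⧸ CongruenceSubgroup.Gamma0 N) :
    PhiMat k F e (γ • z) x' x
      = PhiMat k F e z x' ((γ⁻¹ : SL(2, ℤ)) • x) * denom γ z ^ (k (e.symm x')) := by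
  simp only [PhiMat]
  rw [conjF_smul (hF _) γ⁻¹ x, inv_inv, SL_slash_apply, mul_assoc,
    ← zpow_add₀ (denom_ne_zero γ z), neg_add_cancel, zpow_zero, mul_one]

theorem PhiMat_inv_smul (hF : ∀ i, IsMF (G0 N) (k i) (F i))
    (hdet : ∀ z, (PhiMat k F e z).det ≠ 0) (γ : SL(2, ℤ)) (z : ℍ)
    (x x' : SL(2, ℤ) ⧸ CongruenceSubgroup.Gamma0 N) :
    (PhiMat k F e (γ • z))⁻¹ x x'
      = (PhiMat k F e z)⁻¹ ((γ⁻¹ : SL(2, ℤ)) • x) x' * denom γ z ^ (-(k (e.symm x'))) := by
  set M : Matrix (SL(2, ℤ) ⧸ CongruenceSubgroup.Gamma0 N)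
      (SL(2, ℤ) ⧸ CongruenceSubgroup.Gamma0 N) ℂ := fun x x' =>
    (PhiMat k F e z)⁻¹ ((γ⁻¹ : SL(2, ℤ)) • x) x' * denom γ z ^ (-(k (e.symm x'))) with hM
  have hd : denom γ z ≠ 0 := denom_ne_zero γ z
  have hright : PhiMat k F e (γ • z) * M = 1 := by
    ext x' x''
    rw [Matrix.mul_apply]
    have h1 : ∀ x, PhiMat k F e (γ • z) x' x * M x x''
        = (denom γ z ^ (k (e.symm x')) * denom γ z ^ (-(k (e.symm x'')))) *
          (PhiMat k F e z x' ((γ⁻¹ : SL(2, ℤ)) • x) *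
            (PhiMat k F e z)⁻¹ ((γ⁻¹ : SL(2, ℤ)) • x) x'') := by
      intro x
      rw [PhiMat_smul hF, hM]
      ring
    simp_rw [h1]
    rw [← Finset.mul_sum]
    have h2 : ∑ x, PhiMat k F e z x' ((γ⁻¹ : SL(2, ℤ)) • x) *
          (PhiMat k F e z)⁻¹ ((γ⁻¹ : SL(2, ℤ)) • x) x''
        = ∑ y, PhiMat k F e z x' y * (PhiMat k F e z)⁻¹ y x'' :=
      Equiv.sum_comp (MulAction.toPerm (γ⁻¹ : SL(2, ℤ)))
        (fun y => PhiMat k F e z x' y * (PhiMat k F e z)⁻¹ y x'')
    rw [h2, ← Matrix.mul_apply, Matrix.mul_nonsing_inv _ (isUnit_iff_ne_zero.mpr (hdet z)),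
      Matrix.one_apply]
    split_ifs with hxx
    · subst hxx
      rw [← zpow_add₀ hd, add_neg_cancel, zpow_zero, mul_one]
    · rw [mul_zero]
  rw [Matrix.inv_eq_right_inv hright]

theorem discriminant_smul (γ : SL(2, ℤ)) (z : ℍ) :
    discriminant (γ • z) = discriminant z * denom γ z ^ (12 : ℤ) := by
  have h1 := congrFun (slash_levelOne discriminant_isMF γ) z
  rw [SL_slash_apply] at h1
  rw [← h1, mul_assoc, ← zpow_add₀ (denom_ne_zero γ z), neg_add_cancel, zpow_zero, mul_one]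

theorem dualFun_smul_apply (hF : ∀ i, IsMF (G0 N) (k i) (F i))
    (hdet : ∀ z, (PhiMat k F e z).det ≠ 0) (γ : SL(2, ℤ)) (z : ℍ)
    (x x' : SL(2, ℤ) ⧸ CongruenceSubgroup.Gamma0 N) :
    dualFun k F e x x' (γ • z)
      = dualFun k F e ((γ⁻¹ : SL(2, ℤ)) • x) x' z * denom γ z ^ (12 - k (e.symm x')) := by
  simp only [dualFun]
  rw [PhiMat_inv_smul hF hdet, discriminant_smul, sub_eq_add_neg,
    zpow_add₀ (denom_ne_zero γ z)]
  ring

theorem dualFun_slash (hF : ∀ i, IsMF (G0 N) (k i) (F i))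
    (hdet : ∀ z, (PhiMat k F e z).det ≠ 0) (γ : SL(2, ℤ))
    (x x' : SL(2, ℤ) ⧸ CongruenceSubgroup.Gamma0 N) :
    (dualFun k F e x x') ∣[12 - k (e.symm x')] γ = dualFun k F e ((γ⁻¹ : SL(2, ℤ)) • x) x' := by
  ext z
  rw [SL_slash_apply, dualFun_smul_apply hF hdet, mul_assoc,
    ← zpow_add₀ (denom_ne_zero γ z), add_neg_cancel, zpow_zero, mul_one]

theorem mdiff_dualFun (hF : ∀ i, IsMF (G0 N) (k i) (F i))
    (hdet : ∀ z, (PhiMat k F e z).det ≠ 0)
    (x x' : SL(2, ℤ) ⧸ CongruenceSubgroup.Gamma0 N) : MDiff (dualFun k F e x x') := by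
  have h1 : MDiff (fun z => (PhiMat k F e z)⁻¹ x x') :=
    mdiff_inv (PhiMat k F e) (fun i j => mdiff_conjF (hF (e.symm i)) j) hdet x x'
  exact MDifferentiable.mul CuspForm.discriminant.holo' h1

theorem tendsto_dualFun (hF : ∀ i, IsMF (G0 N) (k i) (F i))
    (hL : (leadMat (sig N) (wid N) (PhiMat k F e)).det ≠ 0)
    (x x' : SL(2, ℤ) ⧸ CongruenceSubgroup.Gamma0 N) :
    Tendsto (dualFun k F e x x') atImInfty (𝓝 0) :=
  tendsto_mul_inv (wid_pos N) (sig_pow_wid N) (fun x' => isCuspVec_PhiMat hF x') hL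
    discriminant_isBigO_exp x x'

theorem smul_one_coset {γ : SL(2, ℤ)} (hγ : γ ∈ CongruenceSubgroup.Gamma0 N) :
    (γ⁻¹ : SL(2, ℤ)) • (((1 : SL(2, ℤ)) : SL(2, ℤ) ⧸ CongruenceSubgroup.Gamma0 N))
      = ((1 : SL(2, ℤ)) : SL(2, ℤ) ⧸ CongruenceSubgroup.Gamma0 N) := by
  rw [MulAction.Quotient.smul_mk, smul_eq_mul, mul_one]
  exact QuotientGroup.eq.mpr (by simpa using hγ)

/-- **The dual basis consists of cusp forms.** -/
theorem dualFun_isCF (hF : ∀ i, IsMF (G0 N) (k i) (F i))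
    (hdet : ∀ z, (PhiMat k F e z).det ≠ 0)
    (hL : (leadMat (sig N) (wid N) (PhiMat k F e)).det ≠ 0)
    (x' : SL(2, ℤ) ⧸ CongruenceSubgroup.Gamma0 N) :
    IsCF (G0 N) (12 - k (e.symm x'))
      (dualFun k F e ((1 : SL(2, ℤ)) : SL(2, ℤ) ⧸ CongruenceSubgroup.Gamma0 N) x') := by
  refine ⟨{ toFun := dualFun k F e ((1 : SL(2, ℤ)) : SL(2, ℤ) ⧸ CongruenceSubgroup.Gamma0 N) x'
            slash_action_eq' := ?_
            holo' := mdiff_dualFun hF hdet _ _
            zero_at_cusps' := ?_ }, rfl⟩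
  · rintro _ ⟨γ, hγ, rfl⟩
    have := dualFun_slash hF hdet γ
      ((1 : SL(2, ℤ)) : SL(2, ℤ) ⧸ CongruenceSubgroup.Gamma0 N) x'
    rw [smul_one_coset hγ] at this
    exact this
  · intro c hc
    rw [Subgroup.IsArithmetic.isCusp_iff_isCusp_SL2Z] at hc
    rw [OnePoint.isZeroAt_iff_forall_SL2Z hc]
    intro δ _
    change IsZeroAtImInfty
      ((dualFun k F e ((1 : SL(2, ℤ)) : SL(2, ℤ) ⧸ CongruenceSubgroup.Gamma0 N) x')
        ∣[12 - k (e.symm x')] δ)
    rw [dualFun_slash hF hdet δ]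
    exact tendsto_dualFun hF hL _ _

theorem dualFun_ne_zero (hF : ∀ i, IsMF (G0 N) (k i) (F i))
    (hdet : ∀ z, (PhiMat k F e z).det ≠ 0)
    (x' : SL(2, ℤ) ⧸ CongruenceSubgroup.Gamma0 N) :
    dualFun k F e ((1 : SL(2, ℤ)) : SL(2, ℤ) ⧸ CongruenceSubgroup.Gamma0 N) x' ≠ 0 := by
  intro h0
  -- then the whole column `x'` of the inverse vanishes
  have hall : ∀ (x : SL(2, ℤ) ⧸ CongruenceSubgroup.Gamma0 N) (z : ℍ),
      (PhiMat k F e z)⁻¹ x x' = 0 := by
    intro x z
    induction x using QuotientGroup.induction_on with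
    | H g =>
      have h1 := dualFun_smul_apply hF hdet (g⁻¹ : SL(2, ℤ)) z
        ((1 : SL(2, ℤ)) : SL(2, ℤ) ⧸ CongruenceSubgroup.Gamma0 N) x'
      rw [h0, inv_inv, MulAction.Quotient.smul_mk, smul_eq_mul, mul_one] at h1
      have h2 : dualFun k F e (g : SL(2, ℤ) ⧸ CongruenceSubgroup.Gamma0 N) x' z = 0 := by
        have h3 : denom (g⁻¹ : SL(2, ℤ)) z ^ (12 - k (e.symm x')) ≠ 0 :=
          zpow_ne_zero _ (denom_ne_zero _ z)
        have h4 : dualFun k F e (g : SL(2, ℤ) ⧸ CongruenceSubgroup.Gamma0 N) x' z *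
            denom (g⁻¹ : SL(2, ℤ)) z ^ (12 - k (e.symm x')) = 0 := by
          rw [← h1]; rfl
        exact (mul_eq_zero.mp h4).resolve_right h3
      simp only [dualFun] at h2
      exact (mul_eq_zero.mp h2).resolve_left (discriminant_ne_zero z)
  have h5 : (PhiMat k F e UpperHalfPlane.I * (PhiMat k F e UpperHalfPlane.I)⁻¹) x' x' = 1 := by
    rw [Matrix.mul_nonsing_inv _ (isUnit_iff_ne_zero.mpr (hdet _)), Matrix.one_apply_eq]
  rw [Matrix.mul_apply] at h5
  simp only [hall, mul_zero, Finset.sum_const_zero] at h5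
  exact zero_ne_one h5

/-- **D1.** The weights of the basis are `< 12`. -/
theorem weight_lt_twelve (hF : ∀ i, IsMF (G0 N) (k i) (F i))
    (hdet : ∀ z, (PhiMat k F e z).det ≠ 0)
    (hL : (leadMat (sig N) (wid N) (PhiMat k F e)).det ≠ 0) (i : ι) : k i < 12 := by
  by_contra hk
  have hcf := dualFun_isCF hF hdet hL (e i)
  rw [Equiv.symm_apply_apply] at hcf
  have hne := dualFun_ne_zero hF hdet (e i)
  apply hne
  rcases lt_or_eq_of_le (show 12 - k i ≤ 0 by omega) with hneg | hzero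
  · obtain ⟨G, hG⟩ := hcf.isMF
    have := ModularForm.isZero_of_neg_weight hneg G
    rw [← hG, this]
    rfl
  · obtain ⟨G, hG⟩ := (hcf.weight_congr hzero).isMF
    obtain ⟨c, hc⟩ := ModularForm.eq_const_of_weight_zero G
    rw [hG] at hc
    have ht := tendsto_dualFun hF hL
      ((1 : SL(2, ℤ)) : SL(2, ℤ) ⧸ CongruenceSubgroup.Gamma0 N) (e i)
    rw [hc] at ht
    have hc0 : c = 0 := tendsto_nhds_unique tendsto_const_nhds ht
    rw [hc, hc0]
    rfl

/-- Evaluation of cusp forms at a point, as a linear map. -/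
def evalCF (Γ : Subgroup (GL (Fin 2) ℝ)) [Γ.HasDetOne] (w : ℤ) (z : ℍ) : CuspForm Γ w →ₗ[ℂ] ℂ where
  toFun G := G z
  map_add' _ _ := rfl
  map_smul' _ _ := rfl

/-- **Lower bound.** The dual functions of weight `2` are linearly independent cusp forms. -/
theorem card_ten_le_finrank_aux (hF : ∀ i, IsMF (G0 N) (k i) (F i))
    (hdet : ∀ z, (PhiMat k F e z).det ≠ 0)
    (hL : (leadMat (sig N) (wid N) (PhiMat k F e)).det ≠ 0)
    [FiniteDimensional ℂ (CuspForm (G0 N) 2)] :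
    Fintype.card {i // k i = 10} ≤ Module.finrank ℂ (CuspForm (G0 N) 2) := by
  classical
  have hcf : ∀ s : {i // k i = 10}, IsCF (G0 N) 2
      (dualFun k F e ((1 : SL(2, ℤ)) : SL(2, ℤ) ⧸ CongruenceSubgroup.Gamma0 N) (e s)) := by
    intro s
    have := dualFun_isCF hF hdet hL (e s)
    rw [Equiv.symm_apply_apply] at this
    exact this.weight_congr (by rw [s.2]; norm_num)
  choose G hG using hcf
  have hli : LinearIndependent ℂ G := by
    rw [Fintype.linearIndependent_iff]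
    intro g hg s₀
    -- the relation at the identity coset
    have h1 : ∀ z, ∑ s, g s *
        dualFun k F e ((1 : SL(2, ℤ)) : SL(2, ℤ) ⧸ CongruenceSubgroup.Gamma0 N) (e s) z = 0 := by
      intro z
      have := congrArg (evalCF (G0 N) 2 z) hg
      rw [map_sum, map_zero] at this
      rw [← this]
      refine Finset.sum_congr rfl fun s _ => ?_
      rw [map_smul, smul_eq_mul]
      have := congrFun (hG s) z
      rw [← this]
      rfl
    -- the relation at every coset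
    have h2 : ∀ (x : SL(2, ℤ) ⧸ CongruenceSubgroup.Gamma0 N) (z : ℍ),
        ∑ s : {i // k i = 10}, g s * (PhiMat k F e z)⁻¹ x (e s) = 0 := by
      intro x z
      induction x using QuotientGroup.induction_on with
      | H γ =>
        have h3 := h1 ((γ⁻¹ : SL(2, ℤ)) • z)
        have h4 : ∀ s : {i // k i = 10},
            g s * dualFun k F e ((1 : SL(2, ℤ)) : SL(2, ℤ) ⧸ CongruenceSubgroup.Gamma0 N) (e s)
              ((γ⁻¹ : SL(2, ℤ)) • z)
            = (discriminant z * denom (γ⁻¹ : SL(2, ℤ)) z ^ (2 : ℤ)) *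
              (g s * (PhiMat k F e z)⁻¹ (γ : SL(2, ℤ) ⧸ CongruenceSubgroup.Gamma0 N) (e s)) := by
          intro s
          rw [dualFun_smul_apply hF hdet, inv_inv, MulAction.Quotient.smul_mk, smul_eq_mul,
            mul_one, Equiv.symm_apply_apply, s.2]
          simp only [dualFun]
          norm_num
          ring
        simp_rw [h4] at h3
        rw [← Finset.mul_sum] at h3
        have h5 : discriminant z * denom (γ⁻¹ : SL(2, ℤ)) z ^ (2 : ℤ) ≠ 0 :=
          mul_ne_zero (discriminant_ne_zero z) (zpow_ne_zero _ (denom_ne_zero _ z))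
        exact (mul_eq_zero.mp h3).resolve_left h5
    -- invert
    have h6 : ∀ s : {i // k i = 10},
        (PhiMat k F e UpperHalfPlane.I * (PhiMat k F e UpperHalfPlane.I)⁻¹) (e s₀) (e s)
          = if s = s₀ then 1 else 0 := by
      intro s
      rw [Matrix.mul_nonsing_inv _ (isUnit_iff_ne_zero.mpr (hdet _)), Matrix.one_apply]
      have : (e (s₀ : ι) = e (s : ι)) ↔ s = s₀ := by
        rw [e.apply_eq_iff_eq, ← Subtype.ext_iff, eq_comm]
      simp only [this]
    have h7 : g s₀ = ∑ s : {i // k i = 10}, g s *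
        (PhiMat k F e UpperHalfPlane.I * (PhiMat k F e UpperHalfPlane.I)⁻¹) (e s₀) (e s) := by
      simp_rw [h6]
      simp
    rw [h7]
    simp_rw [Matrix.mul_apply, Finset.mul_sum]
    rw [Finset.sum_comm]
    refine Finset.sum_eq_zero fun x _ => ?_
    have h8 := h2 x UpperHalfPlane.I
    have h9 : ∑ s : {i // k i = 10}, g s * (PhiMat k F e UpperHalfPlane.I (e s₀) x *
        (PhiMat k F e UpperHalfPlane.I)⁻¹ x (e s))
        = PhiMat k F e UpperHalfPlane.I (e s₀) x *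
          ∑ s : {i // k i = 10}, g s * (PhiMat k F e UpperHalfPlane.I)⁻¹ x (e s) := by
      rw [Finset.mul_sum]
      refine Finset.sum_congr rfl fun s _ => ?_
      ring
    rw [h9, h8, mul_zero]
  exact hli.fintype_card_le_finrank

end Dual

section Main

/-- Local `Fintype` structure on the cosets of `Γ₀(N)`. -/
local instance cosetFintype' (N : ℕ) [NeZero N] :
    Fintype (SL(2, ℤ) ⧸ CongruenceSubgroup.Gamma0 N) := Fintype.ofFinite _

/-- Local decidable equality on the cosets of `Γ₀(N)`. -/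
local instance cosetDecEq' (N : ℕ) : DecidableEq (SL(2, ℤ) ⧸ CongruenceSubgroup.Gamma0 N) :=
  Classical.decEq _

variable (N : ℕ) [NeZero N] {n : ℕ} (k : Fin n → ℤ) (F : Fin n → ℍ → ℂ)

theorem exists_equiv_cosets (hcard : n = (CongruenceSubgroup.Gamma0 N).index) :
    Nonempty (Fin n ≃ (SL(2, ℤ) ⧸ CongruenceSubgroup.Gamma0 N)) := by
  refine ⟨Fintype.equivOfCardEq ?_⟩
  rw [Fintype.card_fin, hcard, Subgroup.index_eq_card, Nat.card_eq_fintype_card]

/-- **Everything at once**: for a free homogeneous basis `F` of the modular forms on `Γ₀(N)` over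
the level-one forms whose conjugate matrix is everywhere invertible, there is a bijection `e`
between the basis and the cosets such that the conjugate matrix `PhiMat k F e z` and its matrix
of leading coefficients at `i∞` are invertible. -/
theorem exists_equiv_det_ne_zero
    (hF : ∀ i, IsMF (G0 N) (k i) (F i))
    (hgen : ∀ (K : ℤ) (f : ℍ → ℂ), IsMF (G0 N) K f →
      ∃ a : Fin n → ℍ → ℂ, (∀ i, IsMF 𝒮ℒ (K - k i) (a i)) ∧ f = ∑ i, a i * F i)
    (hind : ∀ (K : ℤ) (a : Fin n → ℍ → ℂ), (∀ i, IsMF 𝒮ℒ (K - k i) (a i)) →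
      ∑ i, a i * F i = 0 → ∀ i, a i = 0)
    (hinv : ∀ (z : ℍ) (c : Fin n → ℂ),
      (∀ γ : SL(2, ℤ), ∑ i, c i * ((F i) ∣[k i] γ) z = 0) → c = 0)
    (hcard : n = (CongruenceSubgroup.Gamma0 N).index) :
    ∃ e : Fin n ≃ (SL(2, ℤ) ⧸ CongruenceSubgroup.Gamma0 N),
      (∀ z, (PhiMat k F e z).det ≠ 0) ∧
      (leadMat (sig N) (wid N) (PhiMat k F e)).det ≠ 0 := by
  obtain ⟨e⟩ := exists_equiv_cosets N hcard
  have heven : ∀ i, Even (k i) :=
    Fermat.Agent.Lib.EllipticCount.even_weight k F hF UpperHalfPlane.I (hinv UpperHalfPlane.I)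
  exact ⟨e, fun z => det_PhiMat_ne_zero hF hinv z, det_leadMat_ne_zero hF heven hgen hind⟩

/-- **D1.** The weights of a free homogeneous basis of the modular forms on `Γ₀(N)` over the
level-one forms are at most `10`. -/
theorem weight_le_ten
    (hF : ∀ i, IsMF (G0 N) (k i) (F i))
    (hgen : ∀ (K : ℤ) (f : ℍ → ℂ), IsMF (G0 N) K f →
      ∃ a : Fin n → ℍ → ℂ, (∀ i, IsMF 𝒮ℒ (K - k i) (a i)) ∧ f = ∑ i, a i * F i)
    (hind : ∀ (K : ℤ) (a : Fin n → ℍ → ℂ), (∀ i, IsMF 𝒮ℒ (K - k i) (a i)) →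
      ∑ i, a i * F i = 0 → ∀ i, a i = 0)
    (hinv : ∀ (z : ℍ) (c : Fin n → ℂ),
      (∀ γ : SL(2, ℤ), ∑ i, c i * ((F i) ∣[k i] γ) z = 0) → c = 0)
    (hcard : n = (CongruenceSubgroup.Gamma0 N).index) : ∀ i, k i ≤ 10 := by
  obtain ⟨e, hdet, hL⟩ := exists_equiv_det_ne_zero N k F hF hgen hind hinv hcard
  intro i
  have h12 := weight_lt_twelve hF hdet hL i
  obtain ⟨r, hr⟩ :=
    Fermat.Agent.Lib.EllipticCount.even_weight k F hF UpperHalfPlane.I (hinv UpperHalfPlane.I) i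
  omega

/-- **Lower bound.** The number of basis elements of weight `10` is at most the dimension of the
space of cusp forms of weight `2`: the corresponding rows of `Δ • Φ⁻¹` are linearly independent
cusp forms of weight `2`. -/
theorem card_ten_le_finrank
    (hF : ∀ i, IsMF (G0 N) (k i) (F i))
    (hgen : ∀ (K : ℤ) (f : ℍ → ℂ), IsMF (G0 N) K f →
      ∃ a : Fin n → ℍ → ℂ, (∀ i, IsMF 𝒮ℒ (K - k i) (a i)) ∧ f = ∑ i, a i * F i)
    (hind : ∀ (K : ℤ) (a : Fin n → ℍ → ℂ), (∀ i, IsMF 𝒮ℒ (K - k i) (a i)) →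
      ∑ i, a i * F i = 0 → ∀ i, a i = 0)
    (hinv : ∀ (z : ℍ) (c : Fin n → ℂ),
      (∀ γ : SL(2, ℤ), ∑ i, c i * ((F i) ∣[k i] γ) z = 0) → c = 0)
    (hcard : n = (CongruenceSubgroup.Gamma0 N).index)
    [FiniteDimensional ℂ (CuspForm (G0 N) 2)] :
    Fintype.card {i // k i = 10} ≤ Module.finrank ℂ (CuspForm (G0 N) 2) := by
  obtain ⟨e, hdet, hL⟩ := exists_equiv_det_ne_zero N k F hF hgen hind hinv hcard
  exact card_ten_le_finrank_aux hF hdet hL

/-- The lower bound in the `Nat.card` form, with the level written as a coerced subgroup of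
`SL(2, ℤ)`. -/
theorem natCard_ten_le_finrank
    (hF : ∀ i, IsMF (G0 N) (k i) (F i))
    (hgen : ∀ (K : ℤ) (f : ℍ → ℂ), IsMF (G0 N) K f →
      ∃ a : Fin n → ℍ → ℂ, (∀ i, IsMF 𝒮ℒ (K - k i) (a i)) ∧ f = ∑ i, a i * F i)
    (hind : ∀ (K : ℤ) (a : Fin n → ℍ → ℂ), (∀ i, IsMF 𝒮ℒ (K - k i) (a i)) →
      ∑ i, a i * F i = 0 → ∀ i, a i = 0)
    (hinv : ∀ (z : ℍ) (c : Fin n → ℂ),
      (∀ γ : SL(2, ℤ), ∑ i, c i * ((F i) ∣[k i] γ) z = 0) → c = 0)
    (hcard : n = (CongruenceSubgroup.Gamma0 N).index)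
    [FiniteDimensional ℂ (CuspForm (CongruenceSubgroup.Gamma0 N) 2)] :
    Nat.card {i // k i = 10} ≤ Module.finrank ℂ (CuspForm (CongruenceSubgroup.Gamma0 N) 2) := by
  rw [Nat.card_eq_fintype_card]
  exact card_ten_le_finrank N k F hF hgen hind hinv hcard

end Main

end

end Fermat.Agent.Lib.CuspDual
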