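import Mathlib
import Fermat.Agent.Lib.CuspLaurent

/-!
# Cusp Laurent expansions from convergent `t`-series

Complements `Lib/CuspLaurent`: a function on `ℍ` which is given everywhere by a convergent
series in `t = exp (2πiτ/h)` with finitely many negative exponents is meromorphic at the cusp
(`IsMerCusp`), and its Laurent expansion is the given series.  Conversely every member of
`merCusp h` is the sum of its Laurent series.
-/

set_option autoImplicit false

namespace Fermat.Agent.Lib.CuspLaurentSum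

open Filter Function Complex
open UpperHalfPlane hiding I
open scoped Manifold Topology Real
open Fermat.Agent.Lib.CuspLaurent

local notation "𝕢" => Periodic.qParam

section RealPeriod

variable {h : ℝ}

/-- Every point of the punctured unit disc is a value of `tParam h`. -/
lemma exists_tParam_eq (hh : 0 < h) {z : ℂ} (hz : ‖z‖ < 1) (hz0 : z ≠ 0) :
    ∃ τ : ℍ, tParam h τ = z := by
  have h1 := Periodic.im_invQParam_pos_of_norm_lt_one hh hz hz0
  exact ⟨⟨Periodic.invQParam h z, h1⟩, Periodic.qParam_right_inv hh.ne' hz0⟩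

lemma norm_tParam_lt_one (hh : 0 < h) (τ : ℍ) : ‖tParam h τ‖ < 1 :=
  Periodic.norm_qParam_lt_one hh τ.im_pos

/-- A power series which converges at all values of `t` on `ℍ` converges on the unit disc. -/
lemma summable_of_summable_tParam (hh : 0 < h) {a : ℕ → ℂ}
    (hs : ∀ τ : ℍ, Summable (fun m : ℕ => a m * tParam h τ ^ m)) {z : ℂ} (hz : ‖z‖ < 1) :
    Summable (fun m : ℕ => a m * z ^ m) := by
  rcases eq_or_ne z 0 with rfl | hz0
  · refine summable_of_ne_finset_zero (s := {0}) fun m hm => ?_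
    have hm' : m ≠ 0 := by simpa using hm
    simp [hm']
  · obtain ⟨τ, rfl⟩ := exists_tParam_eq hh hz hz0
    exact hs τ

/-- The sum of such a power series is analytic on the unit disc. -/
lemma hasFPowerSeriesOnBall_of_summable (hh : 0 < h) {a : ℕ → ℂ}
    (hs : ∀ τ : ℍ, Summable (fun m : ℕ => a m * tParam h τ ^ m)) :
    HasFPowerSeriesOnBall (fun z : ℂ => ∑' m : ℕ, a m * z ^ m) (.ofScalars ℂ a) 0 1 := by
  constructor
  · refine le_of_forall_lt_imp_le_of_dense fun r hr ↦ ?_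
    lift r to NNReal using hr.ne_top
    apply FormalMultilinearSeries.le_radius_of_summable
    have := (summable_of_summable_tParam hh hs (z := (r : ℂ)) (by simpa using hr)).norm
    simpa [norm_mul, mul_comm] using this
  · simp
  · intro y hy
    rw [← ENNReal.coe_one, Metric.eball_coe, NNReal.coe_one, mem_ball_zero_iff] at hy
    simpa [mul_comm] using (summable_of_summable_tParam hh hs hy).hasSum

/-- A function given on all of `ℍ` by a convergent power series in `t` is holomorphic, periodic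
and bounded at `i∞`. -/
theorem isHolCusp_of_hasSum (hh : 0 < h) {F : ℍ → ℂ} {a : ℕ → ℂ}
    (ha : ∀ τ : ℍ, HasSum (fun m : ℕ => a m * tParam h τ ^ m) (F τ)) : IsHolCusp h F := by
  have hG := hasFPowerSeriesOnBall_of_summable hh (fun τ => (ha τ).summable)
  have hFG : ∀ τ : ℍ, F τ = ∑' m : ℕ, a m * tParam h τ ^ m := fun τ => (ha τ).tsum_eq.symm
  refine ⟨?_, ?_, ?_⟩
  · rw [UpperHalfPlane.mdifferentiable_iff]
    have hd : DifferentiableOn ℂ (fun z : ℂ => ∑' m : ℕ, a m * 𝕢 h z ^ m)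
        {z : ℂ | 0 < z.im} := by
      intro z hz
      have h1 : ‖𝕢 h z‖ < 1 := Periodic.norm_qParam_lt_one hh hz
      have h2 : DifferentiableAt ℂ (fun z : ℂ => ∑' m : ℕ, a m * z ^ m) (𝕢 h z) := by
        have h3 : 𝕢 h z ∈ Metric.eball (0 : ℂ) 1 := by
          rw [← ENNReal.coe_one, Metric.eball_coe, NNReal.coe_one, mem_ball_zero_iff]
          exact h1
        exact (hG.analyticAt_of_mem h3).differentiableAt
      exact (h2.comp z (Periodic.differentiable_qParam z)).differentiableWithinAt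
    refine hd.congr fun z hz => ?_
    simp only [Function.comp_apply, ofComplex_apply_of_im_pos hz, hFG]
    rfl
  · intro w
    simp only [Function.comp_apply]
    by_cases hw : 0 < w.im
    · have hw' : 0 < (w + h).im := by simpa using hw
      rw [hFG, hFG, ofComplex_apply_of_im_pos hw, ofComplex_apply_of_im_pos hw']
      have : tParam h ⟨w + h, hw'⟩ = tParam h ⟨w, hw⟩ := qParam_add_period hh.ne' w
      rw [this]
    · have hw' : ¬ 0 < (w + h).im := by simpa using hw
      rw [ofComplex_apply_eq_of_im_nonpos (not_lt.mp hw') (not_lt.mp hw)]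
  · exact isBoundedAtImInfty_of_hasSum_qExpansion hh (c := a) ha

lemma isMerCusp_tParam_inv (hh : 0 < h) : IsMerCusp h (tParam h)⁻¹ := by
  refine ⟨?_, fun w => ?_, 1, ?_⟩
  · rw [UpperHalfPlane.mdifferentiable_iff]
    have h1 := UpperHalfPlane.mdifferentiable_iff.mp (isHolCusp_tParam hh).holo
    refine (h1.inv fun z hz => ?_).congr fun z hz => ?_
    · simp only [Function.comp_apply]
      exact tParam_ne_zero _ _
    · simp [Function.comp_apply]
  · have h1 := (isHolCusp_tParam hh).per w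
    simp only [Function.comp_apply, Pi.inv_apply] at h1 ⊢
    rw [h1]
  · have : tParam h ^ 1 * (tParam h)⁻¹ = fun _ => (1 : ℂ) := by
      funext τ
      simp [tParam_ne_zero]
    rw [this]
    exact Filter.const_boundedAtFilter _ _

lemma isMerCusp_tParam_inv_pow (hh : 0 < h) (k : ℕ) : IsMerCusp h ((tParam h)⁻¹ ^ k) := by
  induction k with
  | zero => rw [pow_zero]; exact IsMerCusp.const h 1
  | succ k ih => rw [pow_succ]; exact ih.mul (isMerCusp_tParam_inv hh)

/-- **Membership criterion** (`ℕ`-indexed): if `t^k f` is given on all of `ℍ` by a convergent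
power series in `t`, then `f` is meromorphic at the cusp. -/
theorem isHolCusp_mul_of_hasSum (hh : 0 < h) {f : ℍ → ℂ} {k : ℕ} {a : ℕ → ℂ}
    (ha : ∀ τ : ℍ, HasSum (fun m : ℕ => a m * tParam h τ ^ m) (tParam h τ ^ k * f τ)) :
    IsHolCusp h (tParam h ^ k * f) :=
  isHolCusp_of_hasSum hh (F := tParam h ^ k * f) (by simpa using ha)

theorem isMerCusp_of_hasSum (hh : 0 < h) {f : ℍ → ℂ} {k : ℕ} {a : ℕ → ℂ}
    (ha : ∀ τ : ℍ, HasSum (fun m : ℕ => a m * tParam h τ ^ m) (tParam h τ ^ k * f τ)) :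
    IsMerCusp h f := by
  have h1 : IsHolCusp h (tParam h ^ k * f) := isHolCusp_mul_of_hasSum hh ha
  have h2 : f = (tParam h)⁻¹ ^ k * (tParam h ^ k * f) := by
    funext τ
    have := tParam_ne_zero h τ
    simp only [Pi.mul_apply, Pi.pow_apply, Pi.inv_apply]
    rw [inv_pow, ← mul_assoc, inv_mul_cancel₀ (pow_ne_zero k this), one_mul]
  rw [h2]
  exact (isMerCusp_tParam_inv_pow hh k).mul h1.isMerCusp

theorem isBounded_of_hasSum (hh : 0 < h) {f : ℍ → ℂ} {k : ℕ} {a : ℕ → ℂ}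
    (ha : ∀ τ : ℍ, HasSum (fun m : ℕ => a m * tParam h τ ^ m) (tParam h τ ^ k * f τ)) :
    IsBoundedAtImInfty (tParam h ^ k * f) :=
  (isHolCusp_mul_of_hasSum hh ha).bdd

/-- the `q`-expansion of `t^k f` is the given power series -/
theorem qExpansion_of_hasSum (hh : 0 < h) {f : ℍ → ℂ} {k : ℕ} {a : ℕ → ℂ}
    (ha : ∀ τ : ℍ, HasSum (fun m : ℕ => a m * tParam h τ ^ m) (tParam h τ ^ k * f τ)) :
    qExpansion h (tParam h ^ k * f) = PowerSeries.mk a := by
  ext m
  rw [PowerSeries.coeff_mk]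
  exact (qExpansion_coeff_unique' (f := tParam h ^ k * f) (c := a) hh
    ((isHolCusp_mul_of_hasSum hh ha).analyticAt hh) (fun τ => by simpa [tParam] using ha τ) m).symm

/-- **Identification** (`ℕ`-indexed): the Laurent expansion is `t^{-k} ∑ a_m t^m`. -/
theorem laurentFun_eq_of_hasSum (hh : 0 < h) {f : ℍ → ℂ} {k : ℕ} {a : ℕ → ℂ}
    (ha : ∀ τ : ℍ, HasSum (fun m : ℕ => a m * tParam h τ ^ m) (tParam h τ ^ k * f τ)) :
    laurentFun h f = HahnSeries.single (-(k : ℤ)) (1 : ℂ) *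
      HahnSeries.ofPowerSeries ℤ ℂ (PowerSeries.mk a) := by
  rw [laurentFun_eq hh (isMerCusp_of_hasSum hh ha) (isBounded_of_hasSum hh ha), laurentAux,
    qExpansion_of_hasSum hh ha]

theorem laurentFun_coeff_of_hasSum (hh : 0 < h) {f : ℍ → ℂ} {k : ℕ} {a : ℕ → ℂ}
    (ha : ∀ τ : ℍ, HasSum (fun m : ℕ => a m * tParam h τ ^ m) (tParam h τ ^ k * f τ))
    (m : ℕ) : (laurentFun h f).coeff ((m : ℤ) - k) = a m :=
  laurentFun_coeff_unique hh (isMerCusp_of_hasSum hh ha) ha m

theorem laurentFun_coeff_of_hasSum_of_lt (hh : 0 < h) {f : ℍ → ℂ} {k : ℕ} {a : ℕ → ℂ}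
    (ha : ∀ τ : ℍ, HasSum (fun m : ℕ => a m * tParam h τ ^ m) (tParam h τ ^ k * f τ))
    {n : ℤ} (hn : n < -(k : ℤ)) : (laurentFun h f).coeff n = 0 :=
  laurentFun_coeff_of_lt hh (isMerCusp_of_hasSum hh ha) (isBounded_of_hasSum hh ha) hn

/-! ### `ℤ`-indexed series -/

/-- from a `ℤ`-indexed series with finitely many negative terms to an `ℕ`-indexed one -/
theorem hasSum_nat_of_hasSum_int {a : ℤ → ℂ} {k : ℕ} (hk : ∀ n : ℤ, n < -(k : ℤ) → a n = 0)
    {t : ℂ} (ht : t ≠ 0) {s : ℂ} (hs : HasSum (fun n : ℤ => a n * t ^ n) s) :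
    HasSum (fun m : ℕ => a ((m : ℤ) - k) * t ^ m) (t ^ k * s) := by
  have hinj : Function.Injective (fun m : ℕ => (m : ℤ) - k) := fun x y hxy => by
    simpa using hxy
  have hzero : ∀ n : ℤ, n ∉ Set.range (fun m : ℕ => (m : ℤ) - k) → a n * t ^ n = 0 := by
    intro n hn
    have : n < -(k : ℤ) := by
      by_contra hcon
      push Not at hcon
      exact hn ⟨(n + k).toNat, by
        simp only
        rw [Int.toNat_of_nonneg (by omega)]
        ring⟩
    rw [hk n this, zero_mul]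
  have h1 := (hinj.hasSum_iff hzero).mpr hs
  have h2 := h1.mul_left (t ^ k)
  have key : (fun m : ℕ => a ((m : ℤ) - k) * t ^ m)
      = fun i : ℕ => t ^ k * ((fun x : ℤ => a x * t ^ x) ∘ fun m : ℕ => (m : ℤ) - k) i := by
    funext m
    simp only [Function.comp_apply]
    rw [zpow_sub₀ ht, zpow_natCast, zpow_natCast]
    field_simp
  rw [key]
  exact h2

/-- from an `ℕ`-indexed series to a `ℤ`-indexed one -/
theorem hasSum_int_of_hasSum_nat {a : ℤ → ℂ} {k : ℕ} (hk : ∀ n : ℤ, n < -(k : ℤ) → a n = 0)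
    {t : ℂ} (ht : t ≠ 0) {s : ℂ}
    (hs : HasSum (fun m : ℕ => a ((m : ℤ) - k) * t ^ m) (t ^ k * s)) :
    HasSum (fun n : ℤ => a n * t ^ n) s := by
  have hinj : Function.Injective (fun m : ℕ => (m : ℤ) - k) := fun x y hxy => by
    simpa using hxy
  have hzero : ∀ n : ℤ, n ∉ Set.range (fun m : ℕ => (m : ℤ) - k) → a n * t ^ n = 0 := by
    intro n hn
    have : n < -(k : ℤ) := by
      by_contra hcon
      push Not at hcon
      exact hn ⟨(n + k).toNat, by
        simp only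
        rw [Int.toNat_of_nonneg (by omega)]
        ring⟩
    rw [hk n this, zero_mul]
  refine (hinj.hasSum_iff hzero).mp ?_
  have h2 := hs.mul_left ((t ^ k)⁻¹)
  have hk0 : t ^ k ≠ 0 := pow_ne_zero _ ht
  rw [← mul_assoc, inv_mul_cancel₀ hk0, one_mul] at h2
  have key : ((fun x : ℤ => a x * t ^ x) ∘ fun m : ℕ => (m : ℤ) - k)
      = fun i : ℕ => (t ^ k)⁻¹ * (a ((i : ℤ) - k) * t ^ i) := by
    funext m
    simp only [Function.comp_apply]
    rw [zpow_sub₀ ht, zpow_natCast, zpow_natCast]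
    field_simp
  rw [key]
  exact h2

/-- spreading the exponents: `∑ c_n t^{e n} = ∑_m [e ∣ m] c_{m/e} t^m` -/
theorem hasSum_int_spread {c : ℤ → ℂ} {e : ℕ} (he : 0 < e) {t s : ℂ}
    (hs : HasSum (fun n : ℤ => c n * t ^ ((e : ℤ) * n)) s) :
    HasSum (fun m : ℤ => (if (e : ℤ) ∣ m then c (m / e) else 0) * t ^ m) s := by
  have he' : (e : ℤ) ≠ 0 := by exact_mod_cast he.ne'
  have hinj : Function.Injective (fun n : ℤ => (e : ℤ) * n) := fun x y hxy =>
    mul_left_cancel₀ he' hxy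
  have hzero : ∀ m : ℤ, m ∉ Set.range (fun n : ℤ => (e : ℤ) * n) →
      (if (e : ℤ) ∣ m then c (m / e) else 0) * t ^ m = 0 := by
    intro m hm
    have : ¬ (e : ℤ) ∣ m := fun ⟨n, hn⟩ => hm ⟨n, hn.symm⟩
    rw [if_neg this, zero_mul]
  refine (hinj.hasSum_iff hzero).mp ?_
  have key : ((fun m : ℤ => (if (e : ℤ) ∣ m then c (m / e) else 0) * t ^ m) ∘
      fun n : ℤ => (e : ℤ) * n) = fun n : ℤ => c n * t ^ ((e : ℤ) * n) := by
    funext n
    simp only [Function.comp_apply]
    rw [if_pos (dvd_mul_right _ _), Int.mul_ediv_cancel_left _ he']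
  rw [key]
  exact hs

/-- **Membership criterion** (`ℤ`-indexed). -/
theorem isMerCusp_of_hasSum_int (hh : 0 < h) {f : ℍ → ℂ} {a : ℤ → ℂ} {k : ℕ}
    (hk : ∀ n : ℤ, n < -(k : ℤ) → a n = 0)
    (ha : ∀ τ : ℍ, HasSum (fun n : ℤ => a n * tParam h τ ^ n) (f τ)) : IsMerCusp h f :=
  isMerCusp_of_hasSum hh (k := k) (a := fun m : ℕ => a ((m : ℤ) - k))
    fun τ => hasSum_nat_of_hasSum_int hk (tParam_ne_zero h τ) (ha τ)

theorem isBounded_of_hasSum_int (hh : 0 < h) {f : ℍ → ℂ} {a : ℤ → ℂ} {k : ℕ}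
    (hk : ∀ n : ℤ, n < -(k : ℤ) → a n = 0)
    (ha : ∀ τ : ℍ, HasSum (fun n : ℤ => a n * tParam h τ ^ n) (f τ)) :
    IsBoundedAtImInfty (tParam h ^ k * f) :=
  isBounded_of_hasSum hh (k := k) (a := fun m : ℕ => a ((m : ℤ) - k))
    fun τ => hasSum_nat_of_hasSum_int hk (tParam_ne_zero h τ) (ha τ)

/-- **Identification** (`ℤ`-indexed): the Laurent coefficients are the given ones. -/
theorem laurentFun_coeff_of_hasSum_int (hh : 0 < h) {f : ℍ → ℂ} {a : ℤ → ℂ} {k : ℕ}
    (hk : ∀ n : ℤ, n < -(k : ℤ) → a n = 0)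
    (ha : ∀ τ : ℍ, HasSum (fun n : ℤ => a n * tParam h τ ^ n) (f τ)) (n : ℤ) :
    (laurentFun h f).coeff n = a n := by
  have ha' : ∀ τ : ℍ, HasSum (fun m : ℕ => a ((m : ℤ) - k) * tParam h τ ^ m)
      (tParam h τ ^ k * f τ) :=
    fun τ => hasSum_nat_of_hasSum_int hk (tParam_ne_zero h τ) (ha τ)
  by_cases hn : n < -(k : ℤ)
  · rw [laurentFun_coeff_of_hasSum_of_lt hh ha' hn, hk n hn]
  · push Not at hn
    have h1 := laurentFun_coeff_of_hasSum hh ha' (n + k).toNat
    have h2 : (((n + k).toNat : ℕ) : ℤ) - k = n := by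
      rw [Int.toNat_of_nonneg (by omega)]
      ring
    rw [h2] at h1
    exact h1

/-- **Expansion**: every function meromorphic at the cusp is the sum of its Laurent series. -/
theorem hasSum_int_laurentFun (hh : 0 < h) {f : ℍ → ℂ} (hf : IsMerCusp h f) (τ : ℍ) :
    HasSum (fun n : ℤ => (laurentFun h f).coeff n * tParam h τ ^ n) (f τ) := by
  obtain ⟨k, hk⟩ := hf.exists_bdd
  exact hasSum_int_of_hasSum_nat (k := k) (fun n hn => laurentFun_coeff_of_lt hh hf hk hn)
    (tParam_ne_zero h τ) (hasSum_laurentFun hh hf hk τ)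

/-- a Laurent series has only finitely many negative terms -/
lemma exists_coeff_eq_zero_of_lt (L : LaurentSeries ℂ) :
    ∃ k : ℕ, ∀ n : ℤ, n < -(k : ℤ) → L.coeff n = 0 := by
  refine ⟨(-L.order).toNat, fun n hn => HahnSeries.coeff_eq_zero_of_lt_order ?_⟩
  have := Int.self_le_toNat (-L.order)
  omega

/-- **Membership + identification** for a series given as a `LaurentSeries`. -/
theorem isMerCusp_of_hasSum_laurent (hh : 0 < h) {f : ℍ → ℂ} {L : LaurentSeries ℂ}
    (ha : ∀ τ : ℍ, HasSum (fun n : ℤ => L.coeff n * tParam h τ ^ n) (f τ)) : IsMerCusp h f := by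
  obtain ⟨k, hk⟩ := exists_coeff_eq_zero_of_lt L
  exact isMerCusp_of_hasSum_int hh hk ha

theorem laurentFun_eq_of_hasSum_laurent (hh : 0 < h) {f : ℍ → ℂ} {L : LaurentSeries ℂ}
    (ha : ∀ τ : ℍ, HasSum (fun n : ℤ => L.coeff n * tParam h τ ^ n) (f τ)) :
    laurentFun h f = L := by
  obtain ⟨k, hk⟩ := exists_coeff_eq_zero_of_lt L
  ext n
  exact laurentFun_coeff_of_hasSum_int hh hk ha n

end RealPeriod

/-! ### Bundled versions (natural period) -/

section Bundled

variable (h : ℕ) [NeZero h] {f : ℍ → ℂ}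

theorem mem_merCusp_of_hasSum {k : ℕ} {a : ℕ → ℂ}
    (ha : ∀ τ : ℍ, HasSum (fun m : ℕ => a m * tParam (h : ℝ) τ ^ m)
      (tParam (h : ℝ) τ ^ k * f τ)) : f ∈ merCusp h :=
  isMerCusp_of_hasSum (natCast_pos' h) ha

theorem laurent_eq_of_hasSum {k : ℕ} {a : ℕ → ℂ}
    (ha : ∀ τ : ℍ, HasSum (fun m : ℕ => a m * tParam (h : ℝ) τ ^ m)
      (tParam (h : ℝ) τ ^ k * f τ)) :
    laurent h ⟨f, mem_merCusp_of_hasSum h ha⟩ = HahnSeries.single (-(k : ℤ)) (1 : ℂ) *
      HahnSeries.ofPowerSeries ℤ ℂ (PowerSeries.mk a) :=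
  laurentFun_eq_of_hasSum (natCast_pos' h) ha

theorem mem_merCusp_of_hasSum_int {a : ℤ → ℂ} {k : ℕ} (hk : ∀ n : ℤ, n < -(k : ℤ) → a n = 0)
    (ha : ∀ τ : ℍ, HasSum (fun n : ℤ => a n * tParam (h : ℝ) τ ^ n) (f τ)) : f ∈ merCusp h :=
  isMerCusp_of_hasSum_int (natCast_pos' h) hk ha

theorem laurent_coeff_of_hasSum_int {a : ℤ → ℂ} {k : ℕ} (hk : ∀ n : ℤ, n < -(k : ℤ) → a n = 0)
    (ha : ∀ τ : ℍ, HasSum (fun n : ℤ => a n * tParam (h : ℝ) τ ^ n) (f τ)) (n : ℤ) :
    (laurent h ⟨f, mem_merCusp_of_hasSum_int h hk ha⟩).coeff n = a n :=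
  laurentFun_coeff_of_hasSum_int (natCast_pos' h) hk ha n

/-- uniqueness form: any member of `merCusp h` with a convergent `ℤ`-indexed `t`-series has
that series as its Laurent expansion (no condition on the negative part needed beyond being the
coefficients of a Laurent series). -/
theorem laurent_eq_of_hasSum_laurent (f : merCusp h) {L : LaurentSeries ℂ}
    (ha : ∀ τ : ℍ, HasSum (fun n : ℤ => L.coeff n * tParam (h : ℝ) τ ^ n) (f.1 τ)) :
    laurent h f = L :=
  laurentFun_eq_of_hasSum_laurent (natCast_pos' h) ha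

theorem mem_merCusp_of_hasSum_laurent {L : LaurentSeries ℂ}
    (ha : ∀ τ : ℍ, HasSum (fun n : ℤ => L.coeff n * tParam (h : ℝ) τ ^ n) (f τ)) :
    f ∈ merCusp h :=
  isMerCusp_of_hasSum_laurent (natCast_pos' h) ha

/-- every member of `merCusp h` is the sum of its Laurent series -/
theorem hasSum_int_laurent (f : merCusp h) (τ : ℍ) :
    HasSum (fun n : ℤ => (laurent h f).coeff n * tParam (h : ℝ) τ ^ n) (f.1 τ) :=
  hasSum_int_laurentFun (natCast_pos' h) f.2 τ

end Bundled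

end Fermat.Agent.Lib.CuspLaurentSum
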