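import Mathlib
import Fermat.Agent.Lib.CuspLaurent
import Fermat.Agent.Lib.CuspLaurentSum
import Fermat.Agent.Lib.JqAnalytic
import Fermat.Agent.Lib.JSurjPoly

/-!
# The `q`-expansion principle in level one and weight zero

An `SL(2,ℤ)`-invariant function on `ℍ` which is meromorphic at the cusp and whose Laurent
coefficients (in `t = exp (2πiτ/N)`) lie in a subring `A ⊆ ℂ` is a polynomial in `j` with
coefficients in `A`.  Proof: induction on the pole order, subtracting `c · j^k`; uses only the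
Laurent engine `Lib/CuspLaurent` and "bounded invariant ⇒ constant".
-/

set_option autoImplicit false

namespace Fermat.Agent.Lib.CuspLaurentInv

open Filter Function Complex
open UpperHalfPlane hiding I
open scoped Manifold Topology Real MatrixGroups
open Fermat.Agent.Lib.CuspLaurent Fermat.Agent.Lib.CuspLaurentSum
open Fermat.Agent.Lib.JqAnalytic (jFun)

local notation "𝕢" => Periodic.qParam

/-! ### Laurent coefficients in a subring -/

section SubCusp

variable (A : Subring ℂ) (h : ℕ) [NeZero h]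

lemma mem_range_coeffMap_subtype_iff (F : LaurentSeries ℂ) :
    F ∈ (ModularCurve.coeffMap A.subtype).range ↔ ∀ n : ℤ, F.coeff n ∈ A := by
  constructor
  · rintro ⟨G, rfl⟩ n
    rw [ModularCurve.coeffMap_coeff]
    exact (G.coeff n).2
  · intro hF
    have hsupp : Function.support (fun n => (⟨F.coeff n, hF n⟩ : A)) = F.support := by
      ext n
      simp [Function.mem_support, HahnSeries.mem_support, Subtype.ext_iff]
    refine ⟨⟨fun n => ⟨F.coeff n, hF n⟩, hsupp ▸ F.isPWO_support⟩, ?_⟩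
    ext n
    rw [ModularCurve.coeffMap_coeff]
    rfl

/-- Functions in `merCusp h` whose Laurent coefficients all lie in the subring `A`. -/
noncomputable def subCusp : Subring ↥(merCusp h) :=
  (ModularCurve.coeffMap A.subtype).range.comap (laurent h)

lemma mem_subCusp_iff (f : merCusp h) :
    f ∈ subCusp A h ↔ ∀ n : ℤ, (laurent h f).coeff n ∈ A := by
  rw [subCusp, Subring.mem_comap, mem_range_coeffMap_subtype_iff]

lemma const_mem_subCusp {c : ℂ} (hc : c ∈ A) :
    (⟨fun _ => c, const_mem_merCusp h c⟩ : merCusp h) ∈ subCusp A h := by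
  rw [mem_subCusp_iff, laurent_const]
  intro n
  show (HahnSeries.single (0 : ℤ) c).coeff n ∈ A
  rw [HahnSeries.coeff_single]
  split_ifs
  · exact hc
  · exact A.zero_mem

/-- `ratCusp ι h` is `subCusp` for the range of `ι`. -/
lemma mem_ratCusp_iff_mem_subCusp {K : Type*} [Field K] (ι : K →+* ℂ) (f : merCusp h) :
    f ∈ ratCusp ι h ↔ f ∈ subCusp ι.range h := by
  rw [mem_ratCusp_iff, mem_subCusp_iff]
  rfl

end SubCusp

/-! ### The `j`-function at the cusp -/

section J

lemma jFun_isMerCusp : IsMerCusp ((1 : ℕ) : ℝ) jFun := by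
  refine isMerCusp_of_hasSum_int (natCast_pos' 1) (k := 1)
    (a := fun n => ((ModularCurve.jq.coeff n : ℚ) : ℂ)) (fun n hn => ?_) (fun τ => ?_)
  · rw [ModularCurve.coeff_jq_of_lt (by simpa using hn)]
    simp
  · have := Fermat.Agent.Lib.JqAnalytic.hasSum_jFun_int τ
    simpa [tParam] using this

lemma jFun_mem_merCusp : jFun ∈ merCusp 1 := jFun_isMerCusp

/-- `j` as an element of `merCusp 1`. -/
noncomputable def jMer : merCusp 1 := ⟨jFun, jFun_mem_merCusp⟩

@[simp] lemma coe_jMer : (jMer : ℍ → ℂ) = jFun := rfl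

lemma laurent_jMer_coeff (n : ℤ) :
    (laurent 1 jMer).coeff n = ((ModularCurve.jq.coeff n : ℚ) : ℂ) := by
  refine laurentFun_coeff_of_hasSum_int (natCast_pos' 1) (k := 1)
    (a := fun n => ((ModularCurve.jq.coeff n : ℚ) : ℂ)) (fun n hn => ?_) (fun τ => ?_) n
  · rw [ModularCurve.coeff_jq_of_lt (by simpa using hn)]
    simp
  · have := Fermat.Agent.Lib.JqAnalytic.hasSum_jFun_int τ
    simpa [tParam] using this

/-- The Laurent expansion of `j` is the Prelude's formal series `jq`. -/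
lemma laurent_jMer :
    laurent 1 jMer = ModularCurve.coeffMap (algebraMap ℚ ℂ) ModularCurve.jq := by
  ext n
  rw [laurent_jMer_coeff, ModularCurve.coeffMap_coeff]
  rfl

lemma laurent_jMer_pow (m : ℕ) :
    laurent 1 (jMer ^ m) = ModularCurve.coeffMap (algebraMap ℚ ℂ) (ModularCurve.jq ^ m) := by
  rw [map_pow, laurent_jMer, map_pow]

lemma laurent_jMer_pow_coeff_self (m : ℕ) : (laurent 1 (jMer ^ m)).coeff (-(m : ℤ)) = 1 := by
  rw [laurent_jMer_pow, ModularCurve.coeffMap_coeff, ModularCurve.coeff_jq_pow_self]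
  simp

lemma laurent_jMer_pow_coeff_of_lt {m : ℕ} {n : ℤ} (hn : n < -(m : ℤ)) :
    (laurent 1 (jMer ^ m)).coeff n = 0 := by
  rw [laurent_jMer_pow, ModularCurve.coeffMap_coeff, ModularCurve.coeff_jq_pow_of_lt hn]
  simp

/-- the coefficients of `jq` are integers -/
lemma exists_int_coeff_jq (n : ℤ) : ∃ z : ℤ, ModularCurve.jq.coeff n = (z : ℚ) := by
  by_cases hn : n < -1
  · exact ⟨0, by rw [ModularCurve.coeff_jq_of_lt hn]; simp⟩
  · push Not at hn
    have h1 := Fermat.Agent.Lib.JqAnalytic.coeff_jq_natCast_sub_one (n + 1).toNat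
    have h2 : (((n + 1).toNat : ℕ) : ℤ) - 1 = n := by
      rw [Int.toNat_of_nonneg (by omega)]
      ring
    rw [h2] at h1
    exact ⟨_, h1⟩

lemma jMer_mem_subCusp (A : Subring ℂ) : jMer ∈ subCusp A 1 := by
  rw [mem_subCusp_iff]
  intro n
  rw [laurent_jMer_coeff]
  obtain ⟨z, hz⟩ := exists_int_coeff_jq n
  rw [hz]
  push_cast
  exact intCast_mem A z

end J

/-! ### The `q`-expansion principle -/

section Principle

/-- Induction on the pole order. -/
theorem exists_poly_of_invariant_aux (A : Subring ℂ) : ∀ (k : ℕ) (F : merCusp 1),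
    (∀ (γ : SL(2, ℤ)) (τ : ℍ), (F : ℍ → ℂ) (γ • τ) = (F : ℍ → ℂ) τ) →
    (∀ n : ℤ, n < -(k : ℤ) → (laurent 1 F).coeff n = 0) →
    F ∈ subCusp A 1 →
    ∃ p : Polynomial ℂ, p.natDegree ≤ k ∧ (∀ i, p.coeff i ∈ A) ∧
      ∀ τ, (F : ℍ → ℂ) τ = p.eval (jFun τ) := by
  intro k
  induction k with
  | zero =>
    intro F hinv hpole hA
    have hb : IsBoundedAtImInfty (F : ℍ → ℂ) :=
      isBoundedAtImInfty_of_coeff_neg 1 F.2 (fun n hn => hpole n (by simpa using hn))
    obtain ⟨c, hc⟩ := Fermat.Agent.Lib.JSurjPoly.const_of_invariant_bdd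
      (f := (F : ℍ → ℂ)) F.2.holo hinv hb
    have hF : F = ⟨fun _ => c, const_mem_merCusp 1 c⟩ := Subtype.ext (funext hc)
    have hcA : c ∈ A := by
      have h0 := (mem_subCusp_iff A 1 F).mp hA 0
      rw [hF, laurent_const] at h0
      have h1 : (HahnSeries.C c : LaurentSeries ℂ).coeff 0 = c := by
        show (HahnSeries.single (0 : ℤ) c).coeff 0 = c
        rw [HahnSeries.coeff_single_same]
      rwa [h1] at h0
    refine ⟨Polynomial.C c, by simp, fun i => ?_, fun τ => ?_⟩
    · rw [Polynomial.coeff_C]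
      split_ifs
      · exact hcA
      · exact A.zero_mem
    · rw [hc τ, Polynomial.eval_C]
  | succ k ih =>
    intro F hinv hpole hA
    set c : ℂ := (laurent 1 F).coeff (-((k + 1 : ℕ) : ℤ)) with hc
    have hcA : c ∈ A := (mem_subCusp_iff A 1 F).mp hA _
    set Cc : merCusp 1 := ⟨fun _ => c, const_mem_merCusp 1 c⟩ with hCc
    set G : merCusp 1 := F - Cc * jMer ^ (k + 1) with hG
    have hGval : ∀ τ, (G : ℍ → ℂ) τ = (F : ℍ → ℂ) τ - c * jFun τ ^ (k + 1) := fun τ => rfl
    have hGinv : ∀ (γ : SL(2, ℤ)) (τ : ℍ), (G : ℍ → ℂ) (γ • τ) = (G : ℍ → ℂ) τ := by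
      intro γ τ
      rw [hGval, hGval, hinv γ τ, Fermat.Agent.Lib.JqAnalytic.jFun_smul]
    have hGA : G ∈ subCusp A 1 :=
      (subCusp A 1).sub_mem hA ((subCusp A 1).mul_mem (const_mem_subCusp A 1 hcA)
        ((subCusp A 1).pow_mem (jMer_mem_subCusp A) _))
    have hGcoeff : ∀ n : ℤ, (laurent 1 G).coeff n
        = (laurent 1 F).coeff n - c * (laurent 1 (jMer ^ (k + 1))).coeff n := by
      intro n
      rw [hG, map_sub, map_mul, hCc, laurent_const, HahnSeries.coeff_sub]
      congr 1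
      show (HahnSeries.single (0 : ℤ) c * _).coeff n = _
      rw [HahnSeries.coeff_single_mul, sub_zero]
    have hGpole : ∀ n : ℤ, n < -(k : ℤ) → (laurent 1 G).coeff n = 0 := by
      intro n hn
      rw [hGcoeff]
      rcases eq_or_lt_of_le (show n ≤ -((k + 1 : ℕ) : ℤ) by push_cast; omega) with h1 | h1
      · rw [h1, laurent_jMer_pow_coeff_self, mul_one, sub_self]
      · rw [hpole n h1, laurent_jMer_pow_coeff_of_lt h1, mul_zero, sub_zero]
    obtain ⟨p, hpdeg, hpA, hp⟩ := ih G hGinv hGpole hGA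
    refine ⟨p + Polynomial.C c * Polynomial.X ^ (k + 1), ?_, fun i => ?_, fun τ => ?_⟩
    · refine (Polynomial.natDegree_add_le _ _).trans (max_le (by omega) ?_)
      exact Polynomial.natDegree_C_mul_X_pow_le _ _
    · rw [Polynomial.coeff_add, Polynomial.coeff_C_mul_X_pow]
      refine A.add_mem (hpA i) ?_
      split_ifs
      · exact hcA
      · exact A.zero_mem
    · have := hGval τ
      rw [hp τ] at this
      rw [Polynomial.eval_add, Polynomial.eval_mul, Polynomial.eval_C, Polynomial.eval_pow,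
        Polynomial.eval_X, this]
      ring

/-- **`q`-expansion principle, level one**: an `SL(2,ℤ)`-invariant function meromorphic at the
cusp with Laurent coefficients in a subring `A` is a polynomial in `j` with coefficients in
`A`. -/
theorem exists_poly_of_invariant_subring (A : Subring ℂ) {f : ℍ → ℂ} (hf : f ∈ merCusp 1)
    (hinv : ∀ (γ : SL(2, ℤ)) (τ : ℍ), f (γ • τ) = f τ)
    (hA : ∀ n : ℤ, (laurent 1 ⟨f, hf⟩).coeff n ∈ A) :
    ∃ p : Polynomial ℂ, (∀ i, p.coeff i ∈ A) ∧ ∀ τ, f τ = p.eval (jFun τ) := by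
  obtain ⟨k, hk⟩ := exists_coeff_eq_zero_of_lt (laurent 1 ⟨f, hf⟩)
  obtain ⟨p, -, hpA, hp⟩ := exists_poly_of_invariant_aux A k ⟨f, hf⟩ hinv hk
    ((mem_subCusp_iff A 1 _).mpr hA)
  exact ⟨p, hpA, hp⟩

/-! ### Period descent -/

lemma tParam_eq_pow {h : ℝ} (hh : 0 < h) {e : ℕ} (he : 0 < e) (τ : ℍ) :
    tParam h τ = tParam (e * h) τ ^ e := by
  have h1 : (0 : ℝ) < e * h := mul_pos (Nat.cast_pos.mpr he) hh
  have := tParam_comp_affine (h₁ := h) (h₂ := e * h) (m := id) (a := 1) (d := 1) (e := e) (b := 0)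
    hh h1 one_pos (fun τ => by simp) (by push_cast; ring) τ
  simpa using this

/-- a function meromorphic at the cusp for the period `e * h` and `h`-periodic is meromorphic
at the cusp for the period `h` -/
lemma isMerCusp_of_periodic {h : ℝ} (hh : 0 < h) {e : ℕ} (he : 0 < e) {f : ℍ → ℂ}
    (hf : IsMerCusp (e * h) f) (hper : Periodic (f ∘ ofComplex) h) : IsMerCusp h f := by
  have h1 : (0 : ℝ) < e * h := mul_pos (Nat.cast_pos.mpr he) hh
  obtain ⟨k, hk⟩ := hf.exists_bdd
  refine ⟨hf.holo, hper, k, ?_⟩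
  have h2 : tParam h ^ k * f = tParam (e * h) ^ (e * k) * f := by
    funext τ
    simp only [Pi.mul_apply, Pi.pow_apply]
    rw [tParam_eq_pow hh he τ, ← pow_mul]
  rw [h2]
  exact isBounded_tParam_pow_mul_of_le h1 (Nat.le_mul_of_pos_left k he) hk

/-- **`q`-expansion principle, level `N`**: the same with the expansion in `t = exp (2πiτ/N)`. -/
theorem exists_poly_of_invariant_subring_level (A : Subring ℂ) (N : ℕ) [NeZero N] {f : ℍ → ℂ}
    (hf : f ∈ merCusp N) (hinv : ∀ (γ : SL(2, ℤ)) (τ : ℍ), f (γ • τ) = f τ)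
    (hA : ∀ n : ℤ, (laurent N ⟨f, hf⟩).coeff n ∈ A) :
    ∃ p : Polynomial ℂ, (∀ i, p.coeff i ∈ A) ∧ ∀ τ, f τ = p.eval (jFun τ) := by
  have hN : 0 < N := NeZero.pos N
  have hper : Periodic (f ∘ ofComplex) (((1 : ℕ) : ℝ) : ℂ) := by
    simpa using Fermat.Agent.Lib.JSurjPoly.periodic_of_invariant hinv
  have hfN : IsMerCusp ((N : ℝ) * ((1 : ℕ) : ℝ)) f := by
    rw [Nat.cast_one, mul_one]
    exact hf
  have hf1 : IsMerCusp ((1 : ℕ) : ℝ) f := isMerCusp_of_periodic (natCast_pos' 1) hN hfN hper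
  refine exists_poly_of_invariant_subring A (f := f) hf1 hinv (fun n => ?_)
  have h1 := laurentFun_mul_period (natCast_pos' 1) hf1 hN ((N : ℤ) * n)
  have hN' : (N : ℤ) ≠ 0 := by exact_mod_cast hN.ne'
  rw [if_pos (dvd_mul_right _ _), Int.mul_ediv_cancel_left _ hN'] at h1
  have h2 : laurentFun ((N : ℝ) * ((1 : ℕ) : ℝ)) f = laurentFun (N : ℝ) f := by
    rw [Nat.cast_one, mul_one]
  rw [h2] at h1
  rw [laurent_apply]
  show (laurentFun ((1 : ℕ) : ℝ) f).coeff n ∈ A
  rw [← h1]
  exact hA _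

/-- **Rational form**: coefficients in the image of a field embedding `ι : K → ℂ`. -/
theorem exists_poly_of_invariant_ringHom {K : Type*} [Field K] (ι : K →+* ℂ) (N : ℕ) [NeZero N]
    {f : ℍ → ℂ} (hf : f ∈ merCusp N) (hinv : ∀ (γ : SL(2, ℤ)) (τ : ℍ), f (γ • τ) = f τ)
    (hK : (⟨f, hf⟩ : merCusp N) ∈ ratCusp ι N) :
    ∃ p : Polynomial K, ∀ τ, f τ = (p.map ι).eval (jFun τ) := by
  obtain ⟨p, hpA, hp⟩ := exists_poly_of_invariant_subring_level ι.range N hf hinv
    ((mem_subCusp_iff ι.range N _).mp ((mem_ratCusp_iff_mem_subCusp N ι _).mp hK))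
  have hlift : p ∈ Polynomial.lifts ι := by
    rw [Polynomial.lifts_iff_coeff_lifts]
    intro n
    exact hpA n
  obtain ⟨q, hq⟩ := (Polynomial.mem_lifts p).mp hlift
  exact ⟨q, fun τ => by rw [hq]; exact hp τ⟩

end Principle

end Fermat.Agent.Lib.CuspLaurentInv
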