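import Mathlib

/-!
# Ramification in `F = K(ζ_q)` over `K`  (leaf [R3] of the Thaine relation, S14)

`K ⊆ F` are number fields (as types, `[Algebra K F]`), `q` is a prime number and `ζ : 𝓞 F` is a
primitive `q`-th root of unity, `lam = 1 - ζ`.

* `unramified_outside` : if `F = K(ζ)`, every nonzero prime of `𝓞 F` not containing `q` is
  unramified over `K` (in the form `¬ (P ∩ 𝓞 K) 𝓞 F ≤ P ^ 2`).
* `totally_ramified` : if `[F : K] = q - 1` and `q` is unramified at the prime `Q ∋ q` of `𝓞 K`,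
  then for the prime `𝔔` of `𝓞 F` over `Q`: `Q 𝓞 F = 𝔔 ^ (q - 1)`, `lam ∈ 𝔔`, `lam ∉ 𝔔 ^ 2`,
  and `𝔔` is the only prime over `Q`.
* `map_one_sub_sub_mem`, `map_one_sub_sub_mem_sq` : `σ ζ = ζ ^ g ⇒ σ lam - g * lam ∈ (lam ^ 2)`.
* `exists_generator` : the Galois group is generated by `ζ ↦ ζ ^ g`, `g` a primitive root mod `q`.
* `finrank_and_irreducible`, `unramified_of_cyclotomic` : the hypotheses hold for
  `K = ℚ(ζ_p)`, `p ≠ q`.
* `thaine_ramification` : everything together for `K = ℚ(ζ_p)`, `F = K(ζ_q)`.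
-/

open NumberField Polynomial

namespace Fermat.Agent.Lib.CycloRamify

/-! ### Generic ring lemmas -/

/-- In a domain, `q` is associated to `(1 - ζ)^(q-1)` for a primitive `q`-th root of unity `ζ`,
`q` prime. -/
theorem associated_one_sub_pow {A : Type*} [CommRing A] [IsDomain A] {q : ℕ} (hq : q.Prime)
    {ζ : A} (hζ : IsPrimitiveRoot ζ q) :
    Associated ((1 - ζ) ^ (q - 1)) (q : A) := by
  obtain ⟨n, rfl⟩ : ∃ n, q = n + 1 := ⟨q - 1, (Nat.succ_pred_eq_of_pos hq.pos).symm⟩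
  have h := hζ.prod_one_sub_pow_eq_order
  have h2 : Associated (∏ _k ∈ Finset.range n, (1 - ζ))
      (∏ k ∈ Finset.range n, (1 - ζ ^ (k + 1))) := by
    refine Associated.prod _ _ _ fun k hk => ?_
    have hk' : k + 1 < n + 1 := by simpa using Finset.mem_range.mp hk
    have hcop : (k + 1).Coprime (n + 1) :=
      Nat.Coprime.symm ((Nat.Prime.coprime_iff_not_dvd hq).mpr
        (Nat.not_dvd_of_pos_of_lt (Nat.succ_pos k) hk'))
    have := (hζ.associated_sub_one_pow_sub_one_of_coprime hcop).neg_neg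
    simpa using this
  rw [h, Finset.prod_const, Finset.card_range] at h2
  simpa using h2

/-- If `σ ζ = ζ ^ g` then `σ (1 - ζ) - g * (1 - ζ) ∈ ((1 - ζ)^2)`. -/
theorem map_one_sub_sub_mem {A : Type*} [CommRing A] (σ : A →+* A) (ζ : A) (g : ℕ)
    (hσ : σ ζ = ζ ^ g) :
    σ (1 - ζ) - (g : A) * (1 - ζ) ∈ Ideal.span {(1 - ζ) ^ 2} := by
  have h1 : (1 - ζ) ∣ (∑ j ∈ Finset.range g, ζ ^ j) - (g : A) := by
    have : (∑ j ∈ Finset.range g, ζ ^ j) - (g : A) = ∑ j ∈ Finset.range g, (ζ ^ j - 1) := by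
      simp [Finset.sum_sub_distrib]
    rw [this]
    refine Finset.dvd_sum fun j _ => ?_
    have h := sub_dvd_pow_sub_pow ζ 1 j
    rw [one_pow] at h
    rw [← neg_sub ζ 1]
    exact (neg_dvd).mpr h
  obtain ⟨c, hc⟩ := h1
  refine Ideal.mem_span_singleton.mpr ⟨c, ?_⟩
  have h2 : (1 - ζ) * ∑ j ∈ Finset.range g, ζ ^ j = 1 - ζ ^ g := mul_neg_geom_sum ζ g
  rw [map_sub, map_one, hσ, ← h2]
  have : ∑ j ∈ Finset.range g, ζ ^ j = (g : A) + (1 - ζ) * c := by rw [← hc]; ring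
  rw [this]; ring

/-- If `σ ζ = ζ ^ g` and `1 - ζ ∈ I` then `σ (1 - ζ) - g * (1 - ζ) ∈ I ^ 2`. -/
theorem map_one_sub_sub_mem_sq {A : Type*} [CommRing A] (σ : A →+* A) (ζ : A) (g : ℕ)
    (hσ : σ ζ = ζ ^ g) (I : Ideal A) (hI : 1 - ζ ∈ I) :
    σ (1 - ζ) - (g : A) * (1 - ζ) ∈ I ^ 2 := by
  have h := map_one_sub_sub_mem σ ζ g hσ
  have hle : Ideal.span {(1 - ζ) ^ 2} ≤ I ^ 2 := by
    rw [Ideal.span_singleton_le_iff_mem]
    exact Ideal.pow_mem_pow hI 2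
  exact hle h

section NumberFields

variable {K F : Type*} [Field K] [NumberField K] [Field F] [NumberField F] [Algebra K F]

/-! ### (a) Unramified outside `q` -/

/-- `F = K(ζ)` with `ζ ^ q = 1`: a nonzero prime of `𝓞 F` not containing `q` is unramified
over `K`. -/
theorem unramified_outside {q : ℕ} {ζ : 𝓞 F} (hζ : ζ ^ q = 1)
    (hgen : Algebra.adjoin K {(ζ : F)} = ⊤) (P : Ideal (𝓞 F)) [P.IsPrime] (hP : P ≠ ⊥)
    (hqP : (q : 𝓞 F) ∉ P) :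
    ¬ (P.under (𝓞 K)).map (algebraMap (𝓞 K) (𝓞 F)) ≤ P ^ 2 := by
  intro h
  have hne : P.under (𝓞 K) ≠ ⊥ := mt Ideal.eq_bot_of_comap_eq_bot hP
  have hmax : (P.under (𝓞 K)).IsMaximal :=
    Ideal.IsPrime.isMaximal (inferInstance : (P.under (𝓞 K)).IsPrime) hne
  have h1 : P ^ (2 - 1) ∣ differentIdeal (𝓞 K) (𝓞 F) :=
    pow_sub_one_dvd_differentIdeal (𝓞 K) P 2 hne (Ideal.dvd_iff_le.mpr h)
  have h2 : differentIdeal (𝓞 K) (𝓞 F) ≤ P := by
    simpa using Ideal.dvd_iff_le.mp h1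
  have h3 : aeval ζ (derivative (minpoly (𝓞 K) ζ)) ∈ P :=
    h2 (aeval_derivative_mem_differentIdeal (𝓞 K) K F ζ hgen)
  have hint : IsIntegral (𝓞 K) ζ := Algebra.IsIntegral.isIntegral ζ
  have hdvd : minpoly (𝓞 K) ζ ∣ (X ^ q - 1 : (𝓞 K)[X]) :=
    minpoly.isIntegrallyClosed_dvd hint (by simp [hζ])
  obtain ⟨k, hk⟩ := hdvd
  have hder := congrArg (fun f => aeval ζ (derivative f)) hk
  simp only [derivative_sub, derivative_X_pow, derivative_one, sub_zero, derivative_mul,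
    map_add, map_mul, minpoly.aeval, zero_mul, add_zero, aeval_C, aeval_X_pow] at hder
  have h4 : (q : 𝓞 F) * ζ ^ (q - 1) ∈ P := by
    have : (q : 𝓞 F) * ζ ^ (q - 1) = aeval ζ (derivative (minpoly (𝓞 K) ζ)) * aeval ζ k := by
      rw [← hder]; simp
    rw [this]
    exact Ideal.mul_mem_right _ _ h3
  rcases (Ideal.IsPrime.mem_or_mem inferInstance h4) with h5 | h5
  · exact hqP h5
  · have h6 : ζ ∈ P := Ideal.IsPrime.mem_of_pow_mem inferInstance _ h5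
    have h7 : (1 : 𝓞 F) ∈ P := by
      rw [← hζ]
      have hq0 : q ≠ 0 := by
        rintro rfl
        simp at hqP
      exact Ideal.pow_mem_of_mem _ h6 _ (Nat.pos_of_ne_zero hq0)
    exact (Ideal.IsPrime.ne_top inferInstance) ((Ideal.eq_top_iff_one _).mpr h7)

/-- Version of `unramified_outside` for a cyclotomic extension `F = K(ζ_q)`, with the hypothesis
on the prime below. -/
theorem unramified_outside_of_cyclotomic {q : ℕ} [NeZero q] [IsCyclotomicExtension {q} K F]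
    (P : Ideal (𝓞 F)) [P.IsPrime] (hP : P ≠ ⊥) (hqP : (q : 𝓞 K) ∉ P.under (𝓞 K)) :
    ¬ (P.under (𝓞 K)).map (algebraMap (𝓞 K) (𝓞 F)) ≤ P ^ 2 := by
  have hz := IsCyclotomicExtension.zeta_spec q K F
  let ζ : 𝓞 F := hz.toInteger
  have hζ : ζ ^ q = 1 := hz.toInteger_isPrimitiveRoot.pow_eq_one
  have hgen : Algebra.adjoin K {(ζ : F)} = ⊤ :=
    IsCyclotomicExtension.adjoin_primitive_root_eq_top hz
  refine unramified_outside hζ hgen P hP fun h => hqP ?_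
  rw [Ideal.under_def, Ideal.mem_comap]
  simpa using h

/-! ### (b) Totally ramified over `q` -/

/-- Auxiliary: `lam ∈ 𝔔` and `Q 𝓞 F ⊆ 𝔔 ^ (q-1)`. -/
theorem map_le_pow {q : ℕ} (hq : q.Prime) {ζ : 𝓞 F} (hζ : IsPrimitiveRoot ζ q)
    (Q : Ideal (𝓞 K)) [Q.IsPrime] (hqQ : (q : 𝓞 K) ∈ Q)
    (hQunr : ¬ Ideal.span {(q : 𝓞 K)} ≤ Q ^ 2)
    (𝔔 : Ideal (𝓞 F)) [𝔔.IsPrime] (h𝔔 : 𝔔.under (𝓞 K) = Q) :
    (1 - ζ) ∈ 𝔔 ∧ Q.map (algebraMap (𝓞 K) (𝓞 F)) ≤ 𝔔 ^ (q - 1) ∧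
      ((1 - ζ) ∈ 𝔔 ^ 2 → Q.map (algebraMap (𝓞 K) (𝓞 F)) ≤ 𝔔 ^ (2 * (q - 1))) := by
  have hq0 : (q : 𝓞 K) ≠ 0 := by exact_mod_cast hq.ne_zero
  have hQ0 : Q ≠ ⊥ := by
    rintro rfl
    exact hq0 (by simpa using hqQ)
  have h𝔔0 : 𝔔 ≠ ⊥ := by
    rintro rfl
    apply hQ0
    rw [← h𝔔]
    exact Ideal.under_bot _ _
  have hprime : Prime 𝔔 := Ideal.prime_of_isPrime h𝔔0 inferInstance
  have hq𝔔 : (q : 𝓞 F) ∈ 𝔔 := by
    have : algebraMap (𝓞 K) (𝓞 F) (q : 𝓞 K) ∈ 𝔔 := by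
      have : (q : 𝓞 K) ∈ 𝔔.under (𝓞 K) := h𝔔 ▸ hqQ
      exact this
    simpa using this
  obtain ⟨u, hu⟩ := associated_one_sub_pow hq hζ
  have hlam : (1 - ζ) ∈ 𝔔 := by
    have : (1 - ζ) ^ (q - 1) * (u : 𝓞 F) ∈ 𝔔 := hu ▸ hq𝔔
    rcases Ideal.IsPrime.mem_or_mem inferInstance this with h | h
    · exact Ideal.IsPrime.mem_of_pow_mem inferInstance _ h
    · exact absurd (Ideal.eq_top_of_isUnit_mem _ h u.isUnit) (Ideal.IsPrime.ne_top inferInstance)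
  obtain ⟨J₀, hJ₀⟩ : Q ∣ Ideal.span {(q : 𝓞 K)} :=
    Ideal.dvd_iff_le.mpr ((Ideal.span_singleton_le_iff_mem _).mpr hqQ)
  have hJ₀Q : ¬ J₀ ≤ Q := by
    intro h
    apply hQunr
    rw [hJ₀, pow_two]
    exact Ideal.mul_mono_right h
  obtain ⟨j, hjJ, hjQ⟩ := SetLike.not_le_iff_exists.mp hJ₀Q
  have hJmap : ¬ 𝔔 ∣ J₀.map (algebraMap (𝓞 K) (𝓞 F)) := by
    intro h
    have h1 : algebraMap (𝓞 K) (𝓞 F) j ∈ 𝔔 := Ideal.dvd_iff_le.mp h (Ideal.mem_map_of_mem _ hjJ)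
    exact hjQ (h𝔔 ▸ (show j ∈ 𝔔.under (𝓞 K) from h1))
  have hspan : Ideal.span {(1 - ζ : 𝓞 F)} ^ (q - 1) =
      Q.map (algebraMap (𝓞 K) (𝓞 F)) * J₀.map (algebraMap (𝓞 K) (𝓞 F)) := by
    rw [← Ideal.map_mul, ← hJ₀, Ideal.map_span, Set.image_singleton, map_natCast,
      Ideal.span_singleton_pow, Ideal.span_singleton_eq_span_singleton]
    exact ⟨u, hu⟩
  have hdvd1 : 𝔔 ∣ Ideal.span {(1 - ζ : 𝓞 F)} :=
    Ideal.dvd_iff_le.mpr ((Ideal.span_singleton_le_iff_mem _).mpr hlam)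
  refine ⟨hlam, ?_, ?_⟩
  · have : 𝔔 ^ (q - 1) ∣ Q.map (algebraMap (𝓞 K) (𝓞 F)) * J₀.map (algebraMap (𝓞 K) (𝓞 F)) := by
      rw [← hspan]; exact pow_dvd_pow_of_dvd hdvd1 _
    exact Ideal.dvd_iff_le.mp (hprime.pow_dvd_of_dvd_mul_right _ hJmap this)
  · intro h2
    have hdvd2 : 𝔔 ^ 2 ∣ Ideal.span {(1 - ζ : 𝓞 F)} :=
      Ideal.dvd_iff_le.mpr ((Ideal.span_singleton_le_iff_mem _).mpr h2)
    have : 𝔔 ^ (2 * (q - 1)) ∣
        Q.map (algebraMap (𝓞 K) (𝓞 F)) * J₀.map (algebraMap (𝓞 K) (𝓞 F)) := by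
      rw [← hspan, pow_mul]; exact pow_dvd_pow_of_dvd hdvd2 _
    exact Ideal.dvd_iff_le.mp (hprime.pow_dvd_of_dvd_mul_right _ hJmap this)

/-- Generic: if `Q 𝓞 F ⊆ 𝔔 ^ n` with `n = [F : K]`, then `Q 𝓞 F = 𝔔 ^ n`, `𝔔` is the only prime
over `Q`, and `Q 𝓞 F ⊄ 𝔔 ^ (n + 1)`. -/
theorem eq_pow_of_le_pow_finrank (Q : Ideal (𝓞 K)) [Q.IsPrime] (hQ0 : Q ≠ ⊥)
    (𝔔 : Ideal (𝓞 F)) [𝔔.IsPrime] (h𝔔 : 𝔔.under (𝓞 K) = Q)
    (hle : Q.map (algebraMap (𝓞 K) (𝓞 F)) ≤ 𝔔 ^ (Module.finrank K F)) :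
    Q.map (algebraMap (𝓞 K) (𝓞 F)) = 𝔔 ^ (Module.finrank K F) ∧
    (∀ P : Ideal (𝓞 F), P.IsPrime → P.under (𝓞 K) = Q → P = 𝔔) ∧
    ¬ Q.map (algebraMap (𝓞 K) (𝓞 F)) ≤ 𝔔 ^ (Module.finrank K F + 1) := by
  set n := Module.finrank K F with hn
  have hQmax : Q.IsMaximal := Ideal.IsPrime.isMaximal inferInstance hQ0
  have : 𝔔.LiesOver Q := ⟨h𝔔.symm⟩
  have h𝔔0 : 𝔔 ≠ ⊥ := by
    rintro rfl
    apply hQ0
    rw [← h𝔔]
    exact Ideal.under_bot _ _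
  have hmap0 : Q.map (algebraMap (𝓞 K) (𝓞 F)) ≠ ⊥ := by
    rw [Ne, Ideal.map_eq_bot_iff_of_injective (FaithfulSMul.algebraMap_injective (𝓞 K) (𝓞 F))]
    exact hQ0
  have hprime : Prime 𝔔 := Ideal.prime_of_isPrime h𝔔0 inferInstance
  have hfin : FiniteMultiplicity 𝔔 (Q.map (algebraMap (𝓞 K) (𝓞 F))) :=
    FiniteMultiplicity.of_not_isUnit hprime.not_isUnit hmap0
  have he : 𝔔.ramificationIdx (𝓞 K) = multiplicity 𝔔 (Q.map (algebraMap (𝓞 K) (𝓞 F))) :=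
    Ideal.IsDedekindDomain.ramificationIdx_eq_multiplicity Q 𝔔 hmap0
  have he1 : n ≤ 𝔔.ramificationIdx (𝓞 K) := by
    rw [he]
    exact hfin.le_multiplicity_of_pow_dvd (Ideal.dvd_iff_le.mpr hle)
  have hsum := Ideal.sum_ramification_inertia_eq_finrank Q (𝓞 F)
  rw [← IsFractionRing.finrank_eq (𝓞 K) K (𝓞 F) F, ← hn] at hsum
  let 𝔔' : Q.primesOver (𝓞 F) := ⟨𝔔, ⟨inferInstance, inferInstance⟩⟩
  have hf : 0 < 𝔔.inertiaDeg (𝓞 K) := Ideal.inertiaDeg_pos 𝔔 (𝓞 K)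
  have huniq : ∀ P : Ideal (𝓞 F), P.IsPrime → P.under (𝓞 K) = Q → P = 𝔔 := by
    intro P hP hPQ
    by_contra hne
    have : P.LiesOver Q := ⟨hPQ.symm⟩
    let P' : Q.primesOver (𝓞 F) := ⟨P, ⟨hP, inferInstance⟩⟩
    have hne' : 𝔔' ≠ P' := fun h => hne (congrArg Subtype.val h).symm
    have h1 : ∑ x ∈ ({𝔔', P'} : Finset (Q.primesOver (𝓞 F))),
        x.1.ramificationIdx (𝓞 K) * x.1.inertiaDeg (𝓞 K) ≤ n := by
      rw [← hsum]
      exact Finset.sum_le_sum_of_subset (Finset.subset_univ _)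
    rw [Finset.sum_pair hne'] at h1
    have h2 : 0 < P.ramificationIdx (𝓞 K) * P.inertiaDeg (𝓞 K) :=
      Nat.mul_pos (Ideal.ramificationIdx_pos P (𝓞 K)) (Ideal.inertiaDeg_pos P (𝓞 K))
    have h3 : n ≤ 𝔔.ramificationIdx (𝓞 K) * 𝔔.inertiaDeg (𝓞 K) :=
      le_trans he1 (Nat.le_mul_of_pos_right _ hf)
    simp only [𝔔', P'] at h1
    omega
  have he2 : 𝔔.ramificationIdx (𝓞 K) ≤ n := by
    have h1 : 𝔔'.1.ramificationIdx (𝓞 K) * 𝔔'.1.inertiaDeg (𝓞 K) ≤ n := by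
      rw [← hsum]
      exact Finset.single_le_sum (f := fun x : Q.primesOver (𝓞 F) =>
        x.1.ramificationIdx (𝓞 K) * x.1.inertiaDeg (𝓞 K)) (fun _ _ => Nat.zero_le _)
        (Finset.mem_univ 𝔔')
    exact le_trans (Nat.le_mul_of_pos_right _ hf) h1
  have heq : multiplicity 𝔔 (Q.map (algebraMap (𝓞 K) (𝓞 F))) = n := by
    rw [← he]; exact le_antisymm he2 he1
  have hnot : ¬ Q.map (algebraMap (𝓞 K) (𝓞 F)) ≤ 𝔔 ^ (n + 1) := by
    intro h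
    have := hfin.le_multiplicity_of_pow_dvd (Ideal.dvd_iff_le.mpr h)
    omega
  refine ⟨?_, huniq, hnot⟩
  obtain ⟨J, hJ⟩ := Ideal.dvd_iff_le.mpr hle
  have hJtop : J = ⊤ := by
    by_contra hJne
    obtain ⟨P, hPmax, hJP⟩ := Ideal.exists_le_maximal J hJne
    have hPQ : P.under (𝓞 K) = Q := by
      have hle' : Q ≤ P.under (𝓞 K) := by
        rw [Ideal.under_def, ← Ideal.map_le_iff_le_comap, hJ]
        exact le_trans Ideal.mul_le_right hJP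
      have hne_top : P.under (𝓞 K) ≠ ⊤ := by
        have := hPmax.isPrime
        exact (Ideal.IsPrime.under (𝓞 K) P).ne_top
      exact (hQmax.eq_of_le hne_top hle').symm
    have hP𝔔 := huniq P hPmax.isPrime hPQ
    apply hnot
    rw [hJ, pow_succ]
    exact Ideal.mul_mono_right (hP𝔔 ▸ hJP)
  rw [hJ, hJtop, Ideal.mul_top]

/-- (b) `[F : K] = q - 1`, `ζ` a primitive `q`-th root of unity in `𝓞 F`, `Q ∋ q` a prime of
`𝓞 K` at which `q` is unramified, `𝔔` a prime of `𝓞 F` over `Q`. Then `Q 𝓞 F = 𝔔 ^ (q - 1)`,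
`1 - ζ ∈ 𝔔 \ 𝔔 ^ 2`, and `𝔔` is the only prime over `Q`. -/
theorem totally_ramified {q : ℕ} (hq : q.Prime) {ζ : 𝓞 F} (hζ : IsPrimitiveRoot ζ q)
    (hdeg : Module.finrank K F = q - 1)
    (Q : Ideal (𝓞 K)) [Q.IsPrime] (hqQ : (q : 𝓞 K) ∈ Q)
    (hQunr : ¬ Ideal.span {(q : 𝓞 K)} ≤ Q ^ 2)
    (𝔔 : Ideal (𝓞 F)) [𝔔.IsPrime] (h𝔔 : 𝔔.under (𝓞 K) = Q) :
    Q.map (algebraMap (𝓞 K) (𝓞 F)) = 𝔔 ^ (q - 1) ∧ (1 - ζ) ∈ 𝔔 ∧ (1 - ζ) ∉ 𝔔 ^ 2 ∧
      (∀ P : Ideal (𝓞 F), P.IsPrime → P.under (𝓞 K) = Q → P = 𝔔) := by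
  have hq0 : (q : 𝓞 K) ≠ 0 := by exact_mod_cast hq.ne_zero
  have hQ0 : Q ≠ ⊥ := by
    rintro rfl
    exact hq0 (by simpa using hqQ)
  obtain ⟨hlam, hle, hsq⟩ := map_le_pow hq hζ Q hqQ hQunr 𝔔 h𝔔
  rw [← hdeg] at hle
  obtain ⟨h1, h2, h3⟩ := eq_pow_of_le_pow_finrank Q hQ0 𝔔 h𝔔 hle
  rw [hdeg] at h1 h3
  refine ⟨h1, hlam, fun hmem => h3 ?_, h2⟩
  have h4 := hsq hmem
  have hq2 := hq.two_le
  have h5 : 𝔔 ^ (2 * (q - 1)) ≤ 𝔔 ^ (q - 1 + 1) := Ideal.pow_le_pow_right (by omega)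
  exact le_trans h4 h5

/-! ### (d) The generator of the Galois group -/

end NumberFields

/-- The Galois group of a cyclotomic extension of prime level `q` with irreducible cyclotomic
polynomial is generated by the automorphism `x ↦ x ^ g` on `q`-th roots of unity, `g` a primitive
root modulo `q`. -/
theorem exists_generator {K F : Type*} [Field K] [Field F] [Algebra K F] {q : ℕ} (hq : q.Prime)
    [IsCyclotomicExtension {q} K F] (hirr : Irreducible (cyclotomic q K))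
    (g : ℕ) (hg : orderOf (g : ZMod q) = q - 1) :
    ∃ τ : F ≃ₐ[K] F, (∀ x : F, x ^ q = 1 → τ x = x ^ g) ∧
      ∀ σ : F ≃ₐ[K] F, σ ∈ Subgroup.zpowers τ := by
  have : Fact q.Prime := ⟨hq⟩
  have : NeZero q := ⟨hq.ne_zero⟩
  let e := IsCyclotomicExtension.autEquivPow F hirr
  have hg0 : (g : ZMod q) ≠ 0 := by
    intro h
    rw [h, orderOf_zero] at hg
    have := hq.two_le
    omega
  let u : (ZMod q)ˣ := Units.mk0 (g : ZMod q) hg0
  have hu : orderOf u = q - 1 := by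
    rw [← hg, ← orderOf_units]
    rfl
  have hcard : Nat.card (ZMod q)ˣ = q - 1 := by
    rw [Nat.card_eq_fintype_card, ZMod.card_units_eq_totient, Nat.totient_prime hq]
  have hgen : ∀ v : (ZMod q)ˣ, v ∈ Subgroup.zpowers u := by
    intro v
    have : Subgroup.zpowers u = ⊤ := by
      apply Subgroup.eq_top_of_card_eq
      rw [Nat.card_zpowers, hu, hcard]
    rw [this]; trivial
  refine ⟨e.symm u, ?_, ?_⟩
  · intro x hx
    have hζ := IsCyclotomicExtension.zeta_spec q K F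
    obtain ⟨i, -, rfl⟩ := hζ.eq_pow_of_pow_eq_one hx
    have h1 : e (e.symm u) = u := e.apply_symm_apply u
    have h2 := hζ.autToPow_spec K (e.symm u)
    have h3 : hζ.autToPow K (e.symm u) = u := h1
    rw [h3] at h2
    have h4 : ((u : ZMod q)).val = g % q := by
      simp [u, ZMod.val_natCast]
    rw [map_pow, ← h2, h4, ← pow_eq_pow_mod g hζ.pow_eq_one, ← pow_mul, ← pow_mul, mul_comm]
  · intro σ
    obtain ⟨k, hk⟩ := Subgroup.mem_zpowers_iff.mp (hgen (e σ))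
    refine Subgroup.mem_zpowers_iff.mpr ⟨k, ?_⟩
    apply e.injective
    rw [map_zpow, e.apply_symm_apply, hk]

/-! ### (e) The case `K = ℚ(ζ_p)` -/

/-- For `K = ℚ(ζ_p)` and `F = K(ζ_q)`, `p ≠ q` primes: `[F : K] = q - 1` and the `q`-th
cyclotomic polynomial is irreducible over `K`. -/
theorem finrank_and_irreducible {p q : ℕ} (hp : p.Prime) (hq : q.Prime) (hpq : p ≠ q)
    (K F : Type*) [Field K] [CharZero K] [IsCyclotomicExtension {p} ℚ K] [Field F] [Algebra K F]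
    [IsCyclotomicExtension {q} K F] :
    Module.finrank K F = q - 1 ∧ Irreducible (cyclotomic q K) := by
  have : NeZero p := ⟨hp.ne_zero⟩
  have : NeZero q := ⟨hq.ne_zero⟩
  have : CharZero F := charZero_of_injective_algebraMap (algebraMap K F).injective
  have hfdK : FiniteDimensional ℚ K := IsCyclotomicExtension.finiteDimensional {p} ℚ K
  have hfdF : FiniteDimensional K F := IsCyclotomicExtension.finiteDimensional {q} K F
  have hfdQF : FiniteDimensional ℚ F := Module.Finite.trans K F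
  set ζ := IsCyclotomicExtension.zeta q K F with hζdef
  have hζ : IsPrimitiveRoot ζ q := IsCyclotomicExtension.zeta_spec q K F
  have hx : IsPrimitiveRoot (algebraMap K F (IsCyclotomicExtension.zeta p ℚ K)) p :=
    (IsCyclotomicExtension.zeta_spec p ℚ K).map_of_injective (algebraMap K F).injective
  have hcop : Nat.Coprime p q := (Nat.coprime_primes hp hq).mpr hpq
  have hlcm : Nat.lcm p q = p * q := hcop.lcm_eq_mul
  have h1 : (p * q).totient ≤ Module.finrank ℚ F := by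
    have := IsPrimitiveRoot.lcm_totient_le_finrank (K := ℚ) hx hζ
      (cyclotomic.irreducible_rat (Nat.lcm_pos hp.pos hq.pos))
    rwa [hlcm] at this
  rw [Nat.totient_mul hcop, Nat.totient_prime hp, Nat.totient_prime hq] at h1
  have h2 : Module.finrank ℚ K = p - 1 := by
    rw [IsCyclotomicExtension.finrank K (cyclotomic.irreducible_rat hp.pos), Nat.totient_prime hp]
  have h3 : Module.finrank ℚ K * Module.finrank K F = Module.finrank ℚ F :=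
    Module.finrank_mul_finrank ℚ K F
  have hint : IsIntegral K ζ := Algebra.IsIntegral.isIntegral ζ
  have hdvd : minpoly K ζ ∣ cyclotomic q K :=
    minpoly.dvd K ζ (by
      have := hζ.isRoot_cyclotomic hq.pos
      rwa [← map_cyclotomic q (algebraMap K F), IsRoot.def, eval_map, ← aeval_def] at this)
  have hdeg : (minpoly K ζ).natDegree = Module.finrank K F := by
    rw [(hζ.powerBasis K).finrank, IsPrimitiveRoot.powerBasis_dim]
  have hle : Module.finrank K F ≤ q - 1 := by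
    rw [← hdeg, ← Nat.totient_prime hq, ← natDegree_cyclotomic q K]
    exact natDegree_le_of_dvd hdvd (cyclotomic_ne_zero q K)
  have hp1 : 0 < p - 1 := by have := hp.two_le; omega
  have hge : q - 1 ≤ Module.finrank K F := by
    rw [← h3, h2] at h1
    exact Nat.le_of_mul_le_mul_left h1 hp1
  have heq : Module.finrank K F = q - 1 := le_antisymm hle hge
  refine ⟨heq, ?_⟩
  have hmin : cyclotomic q K = minpoly K ζ := by
    refine eq_of_monic_of_dvd_of_natDegree_le (minpoly.monic hint) (cyclotomic.monic q K) hdvd ?_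
    rw [natDegree_cyclotomic, Nat.totient_prime hq, hdeg, heq]
  rw [hmin]
  exact minpoly.irreducible hint

/-- A prime `q ≠ p` is unramified in `ℚ(ζ_p)`. -/
theorem unramified_of_cyclotomic {p q : ℕ} (hp : p.Prime) (hq : q.Prime) (hpq : p ≠ q)
    (K : Type*) [Field K] [NumberField K] [IsCyclotomicExtension {p} ℚ K]
    (Q : Ideal (𝓞 K)) [Q.IsPrime] (hqQ : (q : 𝓞 K) ∈ Q) :
    ¬ Ideal.span {(q : 𝓞 K)} ≤ Q ^ 2 := by
  have : NeZero p := ⟨hp.ne_zero⟩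
  have : Fact q.Prime := ⟨hq⟩
  have hover : Q.LiesOver (Ideal.span {(q : ℤ)}) := by
    constructor
    have hmax : (Ideal.span {(q : ℤ)}).IsMaximal :=
      PrincipalIdealRing.isMaximal_of_irreducible
        (Nat.prime_iff_prime_int.mp hq).irreducible
    refine hmax.eq_of_le (Ideal.IsPrime.under ℤ Q).ne_top ?_
    rw [Ideal.span_singleton_le_iff_mem, Ideal.under_def, Ideal.mem_comap]
    simpa using hqQ
  have hdvd : ¬ q ∣ p := fun h => hpq ((Nat.prime_dvd_prime_iff_eq hq hp).mp h).symm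
  have h1 : Q.ramificationIdx ℤ = 1 :=
    IsCyclotomicExtension.Rat.ramificationIdx_eq_of_not_dvd q K Q hdvd
  have hmap : Ideal.map (algebraMap ℤ (𝓞 K)) (Ideal.span {(q : ℤ)}) = Ideal.span {(q : 𝓞 K)} := by
    rw [Ideal.map_span, Set.image_singleton]; simp
  have hq0 : (q : 𝓞 K) ≠ 0 := by exact_mod_cast hq.ne_zero
  have hmap0 : Ideal.map (algebraMap ℤ (𝓞 K)) (Ideal.span {(q : ℤ)}) ≠ ⊥ := by
    rw [hmap, Ne, Ideal.span_singleton_eq_bot]; exact hq0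
  have h2 := Ideal.IsDedekindDomain.ramificationIdx_eq_multiplicity (Ideal.span {(q : ℤ)}) Q hmap0
  rw [h1, hmap] at h2
  intro hle
  have hQ0 : Q ≠ ⊥ := by
    rintro rfl
    exact hq0 (by simpa using hqQ)
  have hprime : Prime Q := Ideal.prime_of_isPrime hQ0 inferInstance
  have hfin : FiniteMultiplicity Q (Ideal.span {(q : 𝓞 K)}) :=
    FiniteMultiplicity.of_not_isUnit hprime.not_isUnit (by rwa [hmap] at hmap0)
  have := hfin.le_multiplicity_of_pow_dvd (Ideal.dvd_iff_le.mpr hle)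
  omega

/-! ### Everything together for `K = ℚ(ζ_p)`, `F = K(ζ_q)` -/

/-- `K = ℚ(ζ_p)`, `F = K(ζ_q)` with `p ≠ q` primes, `ζ : 𝓞 F` a primitive `q`-th root of unity,
`g` a primitive root modulo `q`. Then `F / K` is Galois of degree `q - 1`, with group generated
by an automorphism `τ` with `τ ζ = ζ ^ g`; every prime `Q ∋ q` of `𝓞 K` is totally ramified in
`F` (`Q 𝓞 F = 𝔔 ^ (q - 1)`) with uniformiser `1 - ζ` and `τ (1 - ζ) ≡ g (1 - ζ) mod 𝔔 ^ 2`;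
every nonzero prime of `𝓞 F` not over `q` is unramified over `K`. -/
theorem thaine_ramification {p q : ℕ} (hp : p.Prime) (hq : q.Prime) (hpq : p ≠ q)
    (K F : Type*) [Field K] [NumberField K] [IsCyclotomicExtension {p} ℚ K]
    [Field F] [NumberField F] [Algebra K F] [IsCyclotomicExtension {q} K F]
    (ζ : 𝓞 F) (hζ : IsPrimitiveRoot ζ q) (g : ℕ) (hg : orderOf (g : ZMod q) = q - 1) :
    Module.finrank K F = q - 1 ∧ IsGalois K F ∧
    ∃ τ : F ≃ₐ[K] F, (∀ σ : F ≃ₐ[K] F, σ ∈ Subgroup.zpowers τ) ∧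
      galRestrict (𝓞 K) K F (𝓞 F) τ ζ = ζ ^ g ∧
      (∀ (Q : Ideal (𝓞 K)) (𝔔 : Ideal (𝓞 F)), Q.IsPrime → (q : 𝓞 K) ∈ Q → 𝔔.IsPrime →
        𝔔.under (𝓞 K) = Q →
          Q.map (algebraMap (𝓞 K) (𝓞 F)) = 𝔔 ^ (q - 1) ∧ (1 - ζ) ∈ 𝔔 ∧ (1 - ζ) ∉ 𝔔 ^ 2 ∧
          galRestrict (𝓞 K) K F (𝓞 F) τ (1 - ζ) -
            algebraMap (𝓞 K) (𝓞 F) (g : 𝓞 K) * (1 - ζ) ∈ 𝔔 ^ 2 ∧
          (∀ P : Ideal (𝓞 F), P.IsPrime → P.under (𝓞 K) = Q → P = 𝔔)) ∧
      (∀ P : Ideal (𝓞 F), P.IsPrime → P ≠ ⊥ → (q : 𝓞 K) ∉ P.under (𝓞 K) →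
        ¬ (P.under (𝓞 K)).map (algebraMap (𝓞 K) (𝓞 F)) ≤ P ^ 2) := by
  have : NeZero q := ⟨hq.ne_zero⟩
  obtain ⟨hdeg, hirr⟩ := finrank_and_irreducible hp hq hpq K F
  obtain ⟨τ, hτ, hgen⟩ := exists_generator (F := F) hq hirr g hg
  have hτζ : galRestrict (𝓞 K) K F (𝓞 F) τ ζ = ζ ^ g := by
    apply FaithfulSMul.algebraMap_injective (𝓞 F) F
    rw [algebraMap_galRestrict_apply, map_pow]
    apply hτ
    rw [← map_pow, hζ.pow_eq_one, map_one]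
  refine ⟨hdeg, IsCyclotomicExtension.isGalois {q} K F, τ, hgen, hτζ, ?_, ?_⟩
  · intro Q 𝔔 hQ hqQ h𝔔p h𝔔
    have hQunr := unramified_of_cyclotomic hp hq hpq K Q hqQ
    obtain ⟨h1, h2, h3, h4⟩ := totally_ramified hq hζ hdeg Q hqQ hQunr 𝔔 h𝔔
    refine ⟨h1, h2, h3, ?_, h4⟩
    have h5 := map_one_sub_sub_mem_sq
      ((galRestrict (𝓞 K) K F (𝓞 F) τ : 𝓞 F ≃ₐ[𝓞 K] 𝓞 F) : 𝓞 F →+* 𝓞 F) ζ g hτζ 𝔔 h2
    simpa using h5
  · intro P hP hP0 hqP
    exact unramified_outside_of_cyclotomic P hP0 hqP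

end Fermat.Agent.Lib.CycloRamify
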