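import Fermat.Agent.Lib.CycloRamify

/-!
# Packaged form of `Lib/CycloRamify` for the Thaine relation (S14)

* `primesAbove K q` : the `Finset` of primes of `𝓞 K` containing `q`, with `mem_primesAbove`.
* `primeOver F Q` : a chosen prime of `𝓞 F` over the prime `Q` of `𝓞 K`.
* `thaine_pack` : for `K = ℚ(ζ_p)`, `F = K(ζ_q)`, the ramification data of `F / K` indexed by
  `S = primesAbove K q` and `𝔔 = primeOver F`, in the hypothesis shapes of the invariant-ideal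
  lemma (totally ramified on `S`, unramified outside `S`, common uniformiser `1 - ζ`,
  `τ (1 - ζ) ≡ g (1 - ζ) mod 𝔔 ^ 2`).
-/

open NumberField Polynomial

namespace Fermat.Agent.Lib.CycloRamify

open scoped Classical in
/-- The finite set of primes of `𝓞 K` containing the natural number `q` (for `q ≠ 0`). -/
noncomputable def primesAbove (K : Type*) [Field K] [NumberField K] (q : ℕ) :
    Finset (Ideal (𝓞 K)) :=
  (UniqueFactorizationMonoid.normalizedFactors (Ideal.span {(q : 𝓞 K)})).toFinset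

theorem mem_primesAbove {K : Type*} [Field K] [NumberField K] {q : ℕ} (hq : q ≠ 0)
    {Q : Ideal (𝓞 K)} : Q ∈ primesAbove K q ↔ Q.IsPrime ∧ (q : 𝓞 K) ∈ Q := by
  classical
  have hq0 : Ideal.span {(q : 𝓞 K)} ≠ ⊥ := by
    rw [Ne, Ideal.span_singleton_eq_bot]
    exact_mod_cast hq
  rw [primesAbove, Multiset.mem_toFinset, Ideal.mem_normalizedFactors_iff hq0,
    Ideal.span_singleton_le_iff_mem]

theorem ne_bot_of_mem_primesAbove {K : Type*} [Field K] [NumberField K] {q : ℕ} (hq : q ≠ 0)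
    {Q : Ideal (𝓞 K)} (hQ : Q ∈ primesAbove K q) : Q ≠ ⊥ := by
  rintro rfl
  have h := ((mem_primesAbove hq).mp hQ).2
  rw [Ideal.mem_bot] at h
  exact hq (by exact_mod_cast h)

section

variable {K : Type*} [Field K] [NumberField K] (F : Type*) [Field F] [NumberField F] [Algebra K F]

open scoped Classical in
/-- A chosen prime of `𝓞 F` lying over the prime `Q` of `𝓞 K` (junk value `⊥` if `Q` is not
prime). -/
noncomputable def primeOver (Q : Ideal (𝓞 K)) : Ideal (𝓞 F) :=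
  if h : Q.IsPrime then
    haveI := h
    ((Ideal.nonempty_primesOver (S := 𝓞 F) Q).some : Ideal (𝓞 F))
  else ⊥

variable {F}

omit [NumberField K] [NumberField F] in
theorem primeOver_isPrime {Q : Ideal (𝓞 K)} (hQ : Q.IsPrime) : (primeOver F Q).IsPrime := by
  rw [primeOver, dif_pos hQ]
  exact (Ideal.nonempty_primesOver (S := 𝓞 F) Q).some.2.1

omit [NumberField K] [NumberField F] in
theorem primeOver_under {Q : Ideal (𝓞 K)} (hQ : Q.IsPrime) :
    (primeOver F Q).under (𝓞 K) = Q := by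
  rw [primeOver, dif_pos hQ]
  exact ((Ideal.nonempty_primesOver (S := 𝓞 F) Q).some.2.2.over).symm

end

/-- `K = ℚ(ζ_p)`, `F = K(ζ_q)` with `p ≠ q` primes, `ζ : 𝓞 F` a primitive `q`-th root of unity,
`g` a primitive root modulo `q`; `S = primesAbove K q`, `𝔔 = primeOver F`. -/
theorem thaine_pack {p q : ℕ} (hp : p.Prime) (hq : q.Prime) (hpq : p ≠ q)
    (K F : Type*) [Field K] [NumberField K] [IsCyclotomicExtension {p} ℚ K]
    [Field F] [NumberField F] [Algebra K F] [IsCyclotomicExtension {q} K F]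
    (ζ : 𝓞 F) (hζ : IsPrimitiveRoot ζ q) (g : ℕ) (hg : orderOf (g : ZMod q) = q - 1) :
    Module.finrank K F = q - 1 ∧ IsGalois K F ∧
    ∃ τ : F ≃ₐ[K] F, (∀ σ : F ≃ₐ[K] F, σ ∈ Subgroup.zpowers τ) ∧
      galRestrict (𝓞 K) K F (𝓞 F) τ ζ = ζ ^ g ∧
      (∀ Q ∈ primesAbove K q, Q.IsPrime ∧ Q ≠ ⊥ ∧ (primeOver F Q).IsPrime ∧
        (primeOver F Q).under (𝓞 K) = Q) ∧
      (∀ Q ∈ primesAbove K q,
        Q.map (algebraMap (𝓞 K) (𝓞 F)) = primeOver F Q ^ (Module.finrank K F)) ∧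
      (∀ P : Ideal (𝓞 F), P.IsPrime → P ≠ ⊥ → P.under (𝓞 K) ∉ primesAbove K q →
        ¬ (P.under (𝓞 K)).map (algebraMap (𝓞 K) (𝓞 F)) ≤ P ^ 2) ∧
      (∀ Q ∈ primesAbove K q, (1 - ζ) ∈ primeOver F Q ∧ (1 - ζ) ∉ primeOver F Q ^ 2) ∧
      (∀ Q ∈ primesAbove K q,
        galRestrict (𝓞 K) K F (𝓞 F) τ (1 - ζ) -
          algebraMap (𝓞 K) (𝓞 F) (g : 𝓞 K) * (1 - ζ) ∈ primeOver F Q ^ 2) := by
  obtain ⟨hdeg, hgal, τ, hgen, hτζ, hram, hunr⟩ :=
    thaine_ramification hp hq hpq K F ζ hζ g hg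
  have key : ∀ Q ∈ primesAbove K q, Q.IsPrime ∧ (q : 𝓞 K) ∈ Q ∧ (primeOver F Q).IsPrime ∧
      (primeOver F Q).under (𝓞 K) = Q := by
    intro Q hQ
    obtain ⟨h1, h2⟩ := (mem_primesAbove hq.ne_zero).mp hQ
    exact ⟨h1, h2, primeOver_isPrime h1, primeOver_under h1⟩
  refine ⟨hdeg, hgal, τ, hgen, hτζ, ?_, ?_, ?_, ?_, ?_⟩
  · intro Q hQ
    obtain ⟨h1, -, h3, h4⟩ := key Q hQ
    exact ⟨h1, ne_bot_of_mem_primesAbove hq.ne_zero hQ, h3, h4⟩
  · intro Q hQ
    obtain ⟨h1, h2, h3, h4⟩ := key Q hQ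
    rw [hdeg]
    exact (hram Q (primeOver F Q) h1 h2 h3 h4).1
  · intro P hP hP0 hPS
    refine hunr P hP hP0 fun hq' => hPS ?_
    exact (mem_primesAbove hq.ne_zero).mpr ⟨Ideal.IsPrime.under (𝓞 K) P, hq'⟩
  · intro Q hQ
    obtain ⟨h1, h2, h3, h4⟩ := key Q hQ
    obtain ⟨-, h5, h6, -, -⟩ := hram Q (primeOver F Q) h1 h2 h3 h4
    exact ⟨h5, h6⟩
  · intro Q hQ
    obtain ⟨h1, h2, h3, h4⟩ := key Q hQ
    exact (hram Q (primeOver F Q) h1 h2 h3 h4).2.2.2.1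

end Fermat.Agent.Lib.CycloRamify
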