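import Mathlib

/-!
# Dedekind–Weber reduction (S18 generic package G4)

Mathlib-only.  Abstract setting: a field `E` with a `ℤᵐ⁰`-valued valuation `v` and uniformiser
`t`, and a ring `φ : R →+* E` containing `t⁻¹` whose units have valuation one and which contains
representatives of all residue classes (`Setup`).  The model is `R = κ[X]`, `E = κ(X)`,
`v` the valuation at infinity, `t = X⁻¹` (`setup_ratFunc`).

Main results:
* `Setup.exists_normal_form` (DW1): every `M ∈ GL_n(E)` is `P⁻¹ · diag (t ^ ν) · Q⁻¹` with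
  `P ∈ GL_n(R)`, `Q ∈ GL_n(O_v)`.
* `Setup.exists_normal_basis` (DW2): the normal basis of an `R`-lattice with respect to an
  `O_v`-lattice, with exponents `δ`.
* `exists_exponents` (DW3): the dimension formula `dim L(c) = ∑ max (0, c - δ i + 1)`.
* `val_det_bilin_toMatrix`, `val_discr_eq`, `exists_exponents_discr` (DW4): the Gram
  determinant identity `2 ∑ δ = deg disc_fin + ord_∞ disc_∞`.
-/

set_option autoImplicit false

namespace Fermat.Agent.Lib.DedekindWeber

open WithZero Matrix

section Abstract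

variable {E : Type*} [Field E] {R : Type*} [CommRing R]

/-- discreteness of `ℤᵐ⁰` -/
theorem lt_exp_iff_le_exp_sub_one (x : ℤᵐ⁰) (m : ℤ) : x < exp m ↔ x ≤ exp (m - 1) := by
  rcases eq_or_ne x 0 with rfl | hx
  · simp
  · obtain ⟨k, rfl⟩ : ∃ k : ℤ, x = exp k := ⟨log x, (exp_log hx).symm⟩
    rw [exp_lt_exp, exp_le_exp]
    omega

/-- The data for Dedekind–Weber reduction: a discrete valuation `v` on `E` with uniformiser `t`,
and a ring `R → E` (the "polynomial ring") containing `t⁻¹`, whose units have valuation one and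
which contains representatives ("constants") of all residue classes. -/
structure Setup (v : Valuation E ℤᵐ⁰) (φ : R →+* E) (t : E) : Prop where
  val_t : v t = exp (-1 : ℤ)
  inv_t : ∃ x : R, φ x = t⁻¹
  val_unit : ∀ u : R, IsUnit u → v (φ u) = 1
  res : ∀ a : E, v a ≤ 1 → ∃ c : R, v (a - φ c) < 1 ∧ (c = 0 ∨ IsUnit c)

variable {v : Valuation E ℤᵐ⁰} {φ : R →+* E} {t : E}

theorem Setup.t_ne_zero (S : Setup v φ t) : t ≠ 0 := by
  intro h
  have := S.val_t
  rw [h, map_zero] at this
  exact exp_ne_zero this.symm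

theorem Setup.val_zpow (S : Setup v φ t) (m : ℤ) : v (t ^ m) = exp (-m) := by
  rw [map_zpow₀, S.val_t, ← WithZero.exp_zsmul]
  simp

theorem Setup.val_const_le (S : Setup v φ t) {c : R} (hc : c = 0 ∨ IsUnit c) : v (φ c) ≤ 1 := by
  rcases hc with rfl | hc
  · simp
  · exact (S.val_unit c hc).le

/-- entries of valuation `≤ 1` give a determinant of valuation `≤ 1` -/
theorem val_det_le_one {n : Type*} [Fintype n] [DecidableEq n] (v : Valuation E ℤᵐ⁰)
    (U : Matrix n n E) (hU : ∀ i j, v (U i j) ≤ 1) : v U.det ≤ 1 := by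
  let UO : Matrix n n v.valuationSubring :=
    fun i j => ⟨U i j, (Valuation.mem_valuationSubring_iff v _).mpr (hU i j)⟩
  have h : U = (v.valuationSubring.subtype).mapMatrix UO := by ext i j; rfl
  rw [h, ← RingHom.map_det]
  exact (Valuation.mem_valuationSubring_iff v _).mp (UO.det).2

theorem residue_eq_zero_iff (v : Valuation E ℤᵐ⁰) (a : v.valuationSubring) :
    IsLocalRing.residue v.valuationSubring a = 0 ↔ v (a : E) < 1 := by
  rw [IsLocalRing.residue_eq_zero_iff, IsLocalRing.mem_maximalIdeal, mem_nonunits_iff]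
  have ha : v (a : E) ≤ 1 := (Valuation.mem_valuationSubring_iff v _).mp a.2
  constructor
  · intro hnu
    by_contra hlt
    have h1 : v (a : E) = 1 := le_antisymm ha (not_lt.mp hlt)
    apply hnu
    have ha0 : (a : E) ≠ 0 := by
      intro h0
      rw [h0, map_zero] at h1
      exact zero_ne_one h1
    have hinv : (a : E)⁻¹ ∈ v.valuationSubring := by
      rw [Valuation.mem_valuationSubring_iff, map_inv₀, h1, inv_one]
    exact IsUnit.of_mul_eq_one ⟨_, hinv⟩ (Subtype.ext (mul_inv_cancel₀ ha0))
  · intro hlt hu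
    obtain ⟨b, hb⟩ := hu.exists_right_inv
    have hb' : v (b : E) ≤ 1 := (Valuation.mem_valuationSubring_iff v _).mp b.2
    have h1 : v (a : E) * v (b : E) = 1 := by
      rw [← map_mul]
      have := congrArg (fun x : v.valuationSubring => v (x : E)) hb
      simpa using this
    have h2 : v (a : E) * v (b : E) < 1 :=
      lt_of_le_of_lt (mul_le_of_le_one_right' hb') hlt
    exact (ne_of_lt h2) h1

/-- **Residue lemma.** If `U` has entries of valuation `≤ 1` and `v (det U) < 1`, there is a
non-trivial combination of the rows of `U`, with *constant* coefficients (zero or units of `R`),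
all of whose entries have valuation `< 1`. -/
theorem Setup.exists_const_combination (S : Setup v φ t) {n : Type*} [Fintype n] [DecidableEq n]
    (U : Matrix n n E) (hU : ∀ i j, v (U i j) ≤ 1) (hdet : v U.det < 1) :
    ∃ c : n → R, (∃ i, c i ≠ 0) ∧ (∀ i, c i = 0 ∨ IsUnit (c i)) ∧
      ∀ j, v (∑ i, φ (c i) * U i j) < 1 := by
  classical
  let O := v.valuationSubring
  let UO : Matrix n n O :=
    fun i j => ⟨U i j, (Valuation.mem_valuationSubring_iff v _).mpr (hU i j)⟩
  have hUO : U = (O.subtype).mapMatrix UO := by ext i j; rfl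
  let res := IsLocalRing.residue O
  have hdet0 : (res.mapMatrix UO).det = 0 := by
    rw [← RingHom.map_det]
    rw [residue_eq_zero_iff]
    have : ((UO.det : O) : E) = U.det := by
      rw [hUO, ← RingHom.map_det]; rfl
    rw [this]; exact hdet
  obtain ⟨w, hw0, hw⟩ := (Matrix.exists_vecMul_eq_zero_iff).mpr hdet0
  -- lift `w` to `O`
  have hlift : ∀ i, ∃ a : O, res a = w i := fun i => IsLocalRing.residue_surjective (w i)
  choose a ha using hlift
  have hc : ∀ i, ∃ c : R, v ((a i : E) - φ c) < 1 ∧ (c = 0 ∨ IsUnit c) :=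
    fun i => S.res (a i : E) ((Valuation.mem_valuationSubring_iff v _).mp (a i).2)
  choose c hc1 hc2 using hc
  refine ⟨c, ?_, hc2, ?_⟩
  · obtain ⟨i, hi⟩ : ∃ i, w i ≠ 0 := by
      by_contra h
      push Not at h
      exact hw0 (funext h)
    refine ⟨i, fun hci => hi ?_⟩
    rw [← ha i, residue_eq_zero_iff]
    have := hc1 i
    rwa [hci, map_zero, sub_zero] at this
  · intro j
    have h1 : v (∑ i, (a i : E) * U i j) < 1 := by
      have hres : res (∑ i, a i * UO i j) = 0 := by
        have := congrFun hw j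
        simp only [Matrix.vecMul, dotProduct, Pi.zero_apply, RingHom.mapMatrix_apply,
          Matrix.map_apply] at this
        rw [map_sum]
        simp only [map_mul, ha]
        exact this
      rw [residue_eq_zero_iff] at hres
      have : ((∑ i, a i * UO i j : O) : E) = ∑ i, (a i : E) * U i j := by
        push_cast
        rfl
      rwa [this] at hres
    have h2 : v (∑ i, ((a i : E) - φ (c i)) * U i j) < 1 := by
      apply Valuation.map_sum_lt v one_ne_zero
      intro i _
      rw [map_mul]
      calc v ((a i : E) - φ (c i)) * v (U i j) ≤ v ((a i : E) - φ (c i)) * 1 := by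
            gcongr; exact hU i j
        _ = v ((a i : E) - φ (c i)) := mul_one _
        _ < 1 := hc1 i
    have h3 : ∑ i, φ (c i) * U i j
        = ∑ i, (a i : E) * U i j - ∑ i, ((a i : E) - φ (c i)) * U i j := by
      rw [← Finset.sum_sub_distrib]
      apply Finset.sum_congr rfl
      intro i _
      ring
    rw [h3]
    exact lt_of_le_of_lt (Valuation.map_sub v _ _) (max_lt h1 h2)

theorem isUnit_of_val_eq_one (v : Valuation E ℤᵐ⁰) (a : v.valuationSubring)
    (h : v (a : E) = 1) : IsUnit a := by
  rw [← IsLocalRing.notMem_maximalIdeal, ← IsLocalRing.residue_eq_zero_iff, residue_eq_zero_iff, h]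
  exact lt_irrefl _

section Reduction

variable {n : Type*} [Fintype n] [DecidableEq n]

theorem exp_sum_eq_prod (ν : n → ℤ) : (exp (∑ i, ν i) : ℤᵐ⁰) = ∏ i, exp (ν i) := by
  classical
  induction (Finset.univ : Finset n) using Finset.induction_on with
  | empty => simp
  | insert a s ha ih => rw [Finset.sum_insert ha, Finset.prod_insert ha, exp_add, ih]

/-- the valuation of the determinant of the rescaled matrix `diag(t^(-ν)) * (P * M)` -/
theorem Setup.val_det_scaled (S : Setup v φ t) (M : Matrix n n E) (P : Matrix n n R) (ν : n → ℤ)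
    (hP : IsUnit P.det) :
    v (Matrix.diagonal (fun i => t ^ (-ν i)) * (P.map φ * M)).det
      = v M.det * exp (∑ i, ν i) := by
  rw [Matrix.det_mul, Matrix.det_mul, Matrix.det_diagonal, map_mul, map_mul, map_prod]
  have h1 : (P.map φ).det = φ P.det := by
    rw [RingHom.map_det]; rfl
  rw [h1, S.val_unit _ hP, one_mul, exp_sum_eq_prod, mul_comm]
  congr 1
  apply Finset.prod_congr rfl
  intro i _
  rw [S.val_zpow, neg_neg]

theorem Setup.val_scaled_entry_le (S : Setup v φ t) (B : Matrix n n E) (ν : n → ℤ)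
    (hb : ∀ i j, v (B i j) ≤ exp (-ν i)) (i j : n) :
    v ((Matrix.diagonal (fun i => t ^ (-ν i)) * B) i j) ≤ 1 := by
  rw [Matrix.diagonal_mul, map_mul, S.val_zpow, neg_neg]
  calc exp (ν i) * v (B i j) ≤ exp (ν i) * exp (-ν i) := by gcongr; exact hb i j
    _ = 1 := by rw [← exp_add]; simp

/-- under the row bounds, `v (det M) * exp (∑ ν) ≤ 1` -/
theorem Setup.val_det_mul_exp_le_one (S : Setup v φ t) (M : Matrix n n E) (P : Matrix n n R)
    (ν : n → ℤ) (hP : IsUnit P.det) (hb : ∀ i j, v ((P.map φ * M) i j) ≤ exp (-ν i)) :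
    v M.det * exp (∑ i, ν i) ≤ 1 := by
  rw [← S.val_det_scaled M P ν hP]
  exact val_det_le_one v _ (S.val_scaled_entry_le _ ν hb)

/-- **The reduction step.** If the rescaled matrix is not yet unimodular at `v`, one row operation
over `R` raises one of the exponents `ν i` by one. -/
theorem Setup.step (S : Setup v φ t) (M : Matrix n n E) (P : Matrix n n R) (ν : n → ℤ)
    (hP : IsUnit P.det) (hb : ∀ i j, v ((P.map φ * M) i j) ≤ exp (-ν i))
    (hlt : v M.det * exp (∑ i, ν i) < 1) :
    ∃ (P' : Matrix n n R) (ν' : n → ℤ), IsUnit P'.det ∧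
      (∀ i j, v ((P'.map φ * M) i j) ≤ exp (-ν' i)) ∧ ∑ i, ν' i = ∑ i, ν i + 1 := by
  classical
  set B : Matrix n n E := P.map φ * M with hB
  set U : Matrix n n E := Matrix.diagonal (fun i => t ^ (-ν i)) * B with hUdef
  have hU : ∀ i j, v (U i j) ≤ 1 := S.val_scaled_entry_le B ν hb
  have hUdet : v U.det < 1 := by
    rw [hUdef, hB, S.val_det_scaled M P ν hP]; exact hlt
  obtain ⟨c, ⟨i1, hi1⟩, hc, hcU⟩ := S.exists_const_combination U hU hUdet
  obtain ⟨i0, hi0, hmin⟩ := Finset.exists_min_image (Finset.univ.filter (fun i => c i ≠ 0)) ν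
    ⟨i1, by simp [hi1]⟩
  have hci0 : c i0 ≠ 0 := by simpa using hi0
  have hmin' : ∀ k, c k ≠ 0 → ν i0 ≤ ν k := fun k hk => hmin k (by simp [hk])
  obtain ⟨x, hx⟩ := S.inv_t
  let a : n → R := fun k => c k * x ^ (ν k - ν i0).toNat
  have ha : ∀ k, φ (a k) = φ (c k) * t ^ (ν i0 - ν k) := by
    intro k
    by_cases hk : c k = 0
    · simp [a, hk]
    · have h1 : ((ν k - ν i0).toNat : ℤ) = ν k - ν i0 := Int.toNat_of_nonneg (by
        have := hmin' k hk; omega)
      simp only [a, map_mul, map_pow, hx]
      congr 1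
      rw [← zpow_natCast, h1, _root_.inv_zpow', neg_sub]
  have hai0 : a i0 = c i0 := by simp [a]
  refine ⟨P.updateRow i0 (∑ k, a k • P k), Function.update ν i0 (ν i0 + 1), ?_, ?_, ?_⟩
  · rw [Matrix.det_updateRow_sum, hai0, smul_eq_mul]
    exact ((hc i0).resolve_left hci0).mul hP
  · intro i j
    by_cases hi : i = i0
    · subst hi
      rw [Function.update_self]
      have hrow : ((P.updateRow i (∑ k, a k • P k)).map φ * M) i j
          = t ^ (ν i) * ∑ k, φ (c k) * U k j := by
        rw [Matrix.mul_apply]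
        simp only [Matrix.map_apply, Matrix.updateRow_self, Finset.sum_apply, Pi.smul_apply,
          smul_eq_mul, map_sum, map_mul]
        simp only [Finset.sum_mul]
        rw [Finset.sum_comm, Finset.mul_sum]
        apply Finset.sum_congr rfl
        intro k _
        have hUk : U k j = t ^ (-ν k) * ∑ l, φ (P k l) * M l j := by
          rw [hUdef, Matrix.diagonal_mul, hB, Matrix.mul_apply]
          simp only [Matrix.map_apply]
        rw [hUk, ha k, Finset.mul_sum, Finset.mul_sum, Finset.mul_sum]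
        apply Finset.sum_congr rfl
        intro l _
        have ht : t ^ (ν i - ν k) = t ^ (ν i) * t ^ (-ν k) := by
          rw [← zpow_add₀ S.t_ne_zero]; congr 1
        rw [ht]; ring
      rw [hrow, map_mul, S.val_zpow]
      have h1 : v (∑ k, φ (c k) * U k j) ≤ exp (-1 : ℤ) := by
        have := hcU j
        rw [← exp_zero, lt_exp_iff_le_exp_sub_one] at this
        simpa using this
      calc exp (-ν i) * v (∑ k, φ (c k) * U k j) ≤ exp (-ν i) * exp (-1 : ℤ) := by gcongr
        _ = exp (-(ν i + 1)) := by rw [← exp_add]; congr 1; ring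
    · rw [Function.update_of_ne hi]
      have : ((P.updateRow i0 (∑ k, a k • P k)).map φ * M) i j = (P.map φ * M) i j := by
        rw [Matrix.mul_apply, Matrix.mul_apply]
        simp only [Matrix.map_apply, Matrix.updateRow_ne hi]
      rw [this]; exact hb i j
  · rw [Finset.sum_update_of_mem (Finset.mem_univ i0), ← Finset.add_sum_erase _ _ (Finset.mem_univ i0)]
    rw [Finset.sdiff_singleton_eq_erase]
    ring

/-- iterating the reduction step: the process stops after at most `k` steps when
`exp (-k) ≤ v (det M) * exp (∑ ν)`. -/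
theorem Setup.exists_reduced (S : Setup v φ t) (M : Matrix n n E) (k : ℕ) :
    ∀ (P : Matrix n n R) (ν : n → ℤ), IsUnit P.det →
      (∀ i j, v ((P.map φ * M) i j) ≤ exp (-ν i)) →
      exp (-(k : ℤ)) ≤ v M.det * exp (∑ i, ν i) →
      ∃ (P' : Matrix n n R) (ν' : n → ℤ), IsUnit P'.det ∧
        (∀ i j, v ((P'.map φ * M) i j) ≤ exp (-ν' i)) ∧ v M.det * exp (∑ i, ν' i) = 1 := by
  induction k with
  | zero =>
    intro P ν hP hb hk
    refine ⟨P, ν, hP, hb, le_antisymm (S.val_det_mul_exp_le_one M P ν hP hb) ?_⟩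
    simpa using hk
  | succ k ih =>
    intro P ν hP hb hk
    rcases (S.val_det_mul_exp_le_one M P ν hP hb).lt_or_eq with hlt | heq
    · obtain ⟨P', ν', hP', hb', hsum⟩ := S.step M P ν hP hb hlt
      apply ih P' ν' hP' hb'
      rw [hsum, exp_add, ← mul_assoc]
      have h1 : exp (-(k : ℤ)) = exp (-((k + 1 : ℕ) : ℤ)) * exp (1 : ℤ) := by
        rw [← exp_add]; congr 1; push_cast; ring
      rw [h1]
      gcongr
    · exact ⟨P, ν, hP, hb, heq⟩

/-- every `x : ℤᵐ⁰` is bounded by some `exp m` -/
theorem exists_le_exp (x : ℤᵐ⁰) : ∃ m : ℤ, x ≤ exp m := by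
  rcases eq_or_ne x 0 with rfl | hx
  · exact ⟨0, zero_le⟩
  · exact ⟨log x, (exp_log hx).ge⟩

/-- every nonzero `x : ℤᵐ⁰` is bounded below by `exp (-k)` for some natural `k` -/
theorem exists_exp_neg_nat_le (x : ℤᵐ⁰) (hx : x ≠ 0) : ∃ k : ℕ, exp (-(k : ℤ)) ≤ x := by
  refine ⟨(-log x).toNat, ?_⟩
  conv_rhs => rw [← exp_log hx]
  rw [exp_le_exp]
  have := Int.self_le_toNat (-log x)
  omega

/-- **Dedekind–Weber reduction, matrix form (DW1).** For every invertible matrix `M` over `E`
there are `P ∈ GL_n(R)` and `Q ∈ GL_n(O_v)` with `P * M * Q = diag (t ^ ν i)`. -/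
theorem Setup.exists_normal_form (S : Setup v φ t) (M : Matrix n n E) (hM : IsUnit M.det) :
    ∃ (P : Matrix n n R) (Q : Matrix n n v.valuationSubring) (ν : n → ℤ),
      IsUnit P.det ∧ IsUnit Q.det ∧
      P.map φ * M * Q.map v.valuationSubring.subtype = Matrix.diagonal (fun i => t ^ ν i) := by
  classical
  -- a uniform bound for the entries of `M`
  obtain ⟨m0, hm0⟩ : ∃ m0 : ℤ, ∀ i j, v (M i j) ≤ exp (-m0) := by
    obtain ⟨X, hX⟩ := Finset.exists_le
      ((Finset.univ : Finset (n × n)).image (fun p => v (M p.1 p.2)))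
    obtain ⟨m, hm⟩ := exists_le_exp X
    refine ⟨-m, fun i j => ?_⟩
    rw [neg_neg]
    exact (hX _ (Finset.mem_image.mpr ⟨(i, j), Finset.mem_univ _, rfl⟩)).trans hm
  have hP1 : IsUnit (1 : Matrix n n R).det := by rw [Matrix.det_one]; exact isUnit_one
  have hb1 : ∀ i j, v (((1 : Matrix n n R).map φ * M) i j) ≤ exp (-(fun _ : n => m0) i) := by
    intro i j
    have : (1 : Matrix n n R).map φ = 1 := by
      rw [Matrix.map_one] <;> simp
    rw [this, one_mul]; exact hm0 i j
  have hne : v M.det * exp (∑ _i : n, m0) ≠ 0 := by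
    apply mul_ne_zero
    · rw [Valuation.ne_zero_iff]; exact hM.ne_zero
    · exact exp_ne_zero
  obtain ⟨k, hk⟩ := exists_exp_neg_nat_le _ hne
  obtain ⟨P, ν, hP, hb, hdet⟩ := S.exists_reduced M k 1 (fun _ => m0) hP1 hb1 hk
  set U : Matrix n n E := Matrix.diagonal (fun i => t ^ (-ν i)) * (P.map φ * M) with hUdef
  have hU : ∀ i j, v (U i j) ≤ 1 := S.val_scaled_entry_le _ ν hb
  have hUdet : v U.det = 1 := by rw [hUdef, S.val_det_scaled M P ν hP]; exact hdet
  let O := v.valuationSubring
  let UO : Matrix n n O :=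
    fun i j => ⟨U i j, (Valuation.mem_valuationSubring_iff v _).mpr (hU i j)⟩
  have hUO : U = UO.map O.subtype := by ext i j; rfl
  have hUOdet : IsUnit UO.det := by
    apply isUnit_of_val_eq_one
    have : ((UO.det : O) : E) = U.det := by
      rw [hUO]
      have := RingHom.map_det O.subtype UO
      exact this
    rw [this]; exact hUdet
  refine ⟨P, UO⁻¹, ν, hP, Matrix.isUnit_nonsing_inv_det _ hUOdet, ?_⟩
  have h1 : P.map φ * M = Matrix.diagonal (fun i => t ^ ν i) * U := by
    rw [hUdef, ← Matrix.mul_assoc, Matrix.diagonal_mul_diagonal]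
    have : (fun i => t ^ ν i * t ^ (-ν i)) = fun _ : n => (1 : E) := by
      funext i
      rw [← zpow_add₀ S.t_ne_zero]; simp
    rw [this, Matrix.diagonal_one, Matrix.one_mul]
  rw [h1, hUO, Matrix.mul_assoc, ← Matrix.map_mul, Matrix.mul_nonsing_inv _ hUOdet]
  rw [Matrix.map_one _ (map_zero _) (map_one _), Matrix.mul_one]

end Reduction

section Lattice

variable {n : Type*} [Fintype n] [DecidableEq n]

theorem val_eq_one_of_isUnit (v : Valuation E ℤᵐ⁰) (a : v.valuationSubring) (h : IsUnit a) :
    v (a : E) = 1 := by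
  by_contra hne
  have hle : v (a : E) ≤ 1 := (Valuation.mem_valuationSubring_iff v _).mp a.2
  have hlt : v (a : E) < 1 := lt_of_le_of_ne hle hne
  rw [← residue_eq_zero_iff, IsLocalRing.residue_eq_zero_iff] at hlt
  exact (IsLocalRing.notMem_maximalIdeal.mpr h) hlt

omit [DecidableEq n] in
/-- multiplication by a matrix over `O_v` does not increase the sup-norm -/
theorem vecMul_val_le (v : Valuation E ℤᵐ⁰) (Q : Matrix n n v.valuationSubring) (x : n → E)
    (γ : ℤᵐ⁰) (hx : ∀ i, v (x i) ≤ γ) (j : n) :
    v ((x ᵥ* Q.map v.valuationSubring.subtype) j) ≤ γ := by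
  simp only [Matrix.vecMul, dotProduct, Matrix.map_apply]
  apply Valuation.map_sum_le
  intro i _
  rw [map_mul]
  calc v (x i) * v (v.valuationSubring.subtype (Q i j)) ≤ γ * 1 :=
        mul_le_mul' (hx i) ((Valuation.mem_valuationSubring_iff v _).mp (Q i j).2)
    _ = γ := mul_one γ

/-- multiplication by a matrix in `GL_n(O_v)` preserves the sup-norm -/
theorem vecMul_val_le_iff (v : Valuation E ℤᵐ⁰) (Q : Matrix n n v.valuationSubring)
    (hQ : IsUnit Q.det) (x : n → E) (γ : ℤᵐ⁰) :
    (∀ j, v ((x ᵥ* Q.map v.valuationSubring.subtype) j) ≤ γ) ↔ ∀ i, v (x i) ≤ γ := by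
  refine ⟨fun h => ?_, fun h => vecMul_val_le v Q x γ h⟩
  have := vecMul_val_le v Q⁻¹ _ γ h
  rwa [Matrix.vecMul_vecMul, ← Matrix.map_mul, Matrix.mul_nonsing_inv _ hQ,
    Matrix.map_one _ (map_zero _) (map_one _), Matrix.vecMul_one] at this

variable {V : Type*} [AddCommGroup V] [Module E V]

omit [DecidableEq n] in
/-- coordinates with respect to two bases: `e.repr f = w0.repr f ᵥ* M` where
`M i j = e.repr (w0 i) j`. -/
theorem repr_eq_vecMul (w0 e : Module.Basis n E V) (f : V) :
    (e.repr f : n → E) = (w0.repr f : n → E) ᵥ* (e.toMatrix w0)ᵀ := by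
  rw [Matrix.vecMul_transpose]
  exact (Module.Basis.toMatrix_mulVec_repr w0 e f).symm

/-- **Dedekind–Weber normal basis (DW2).** Let `w0` span the `R`-lattice and `e` the
`O_v`-lattice.  There are a new basis `w` of the `R`-lattice (obtained from `w0` by a matrix in
`GL_n(R)`) and exponents `δ` such that `f` lies in `t^(-c)` times the `O_v`-lattice iff its
`w`-coordinates satisfy `v (w.repr f i) ≤ exp (c - δ i)`; moreover the change of basis matrix
between the two lattices has determinant of valuation `exp (∑ δ)`. -/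
theorem Setup.exists_normal_basis (S : Setup v φ t) (w0 e : Module.Basis n E V) :
    ∃ (w : Module.Basis n E V) (δ : n → ℤ) (P : Matrix n n R), IsUnit P.det ∧
      (∀ i, w i = ∑ k, φ (P i k) • w0 k) ∧
      (∀ f : V, (∀ i, w0.repr f i ∈ Set.range φ) ↔ ∀ i, w.repr f i ∈ Set.range φ) ∧
      (∀ (f : V) (c : ℤ), (∀ i, v (e.repr f i) ≤ exp c) ↔
        ∀ i, v (w.repr f i) ≤ exp (c - δ i)) ∧
      v (e.toMatrix w0).det = exp (∑ i, δ i) := by
  classical
  set M : Matrix n n E := (e.toMatrix w0)ᵀ with hM
  have hMdet : IsUnit M.det := by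
    rw [hM, Matrix.det_transpose]
    exact Module.Basis.isUnit_det e w0
  obtain ⟨P, Q, ν, hP, hQ, hPMQ⟩ := S.exists_normal_form M hMdet
  set A : Matrix n n E := P.map φ with hA
  have hAdet : A.det = φ P.det := by
    rw [hA, RingHom.map_det]; rfl
  have hAunit : IsUnit A.det := by rw [hAdet]; exact hP.map φ
  -- the new basis
  let g : V ≃ₗ[E] V := Matrix.toLinearEquiv w0 Aᵀ (by rwa [Matrix.det_transpose])
  let w : Module.Basis n E V := w0.map g
  have hw : ∀ i, w i = ∑ k, φ (P i k) • w0 k := by
    intro i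
    change g (w0 i) = _
    change Matrix.toLin w0 w0 Aᵀ (w0 i) = _
    rw [Matrix.toLin_self]
    rfl
  have h1 : ∀ f : V, (w0.repr f : n → E) = (w.repr f : n → E) ᵥ* A := by
    intro f
    have := repr_eq_vecMul w w0 f
    rw [this]
    congr 1
    ext i k
    rw [Matrix.transpose_apply, Module.Basis.toMatrix_apply, hw, map_sum]
    simp only [map_smul, Finsupp.coe_finsetSum, Finsupp.coe_smul, Finset.sum_apply,
      Pi.smul_apply, Module.Basis.repr_self, smul_eq_mul]
    rw [Finset.sum_eq_single k]
    · simp [hA]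
    · intro b _ hb; simp [hb]
    · intro h; exact absurd (Finset.mem_univ k) h
  have h2 : ∀ f : V, (e.repr f : n → E) = (w.repr f : n → E) ᵥ* (A * M) := by
    intro f
    rw [repr_eq_vecMul w0 e f, h1 f, Matrix.vecMul_vecMul]
  refine ⟨w, fun i => -ν i, P, hP, hw, ?_, ?_, ?_⟩
  · intro f
    constructor
    · intro h
      have h3 : (w.repr f : n → E) = (w0.repr f : n → E) ᵥ* (P⁻¹).map φ := by
        rw [h1 f, Matrix.vecMul_vecMul, hA, ← Matrix.map_mul, Matrix.mul_nonsing_inv _ hP,
          Matrix.map_one _ (map_zero _) (map_one _), Matrix.vecMul_one]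
      choose y hy using h
      intro i
      refine ⟨∑ k, y k * P⁻¹ k i, ?_⟩
      rw [h3]
      simp only [Matrix.vecMul, dotProduct, Matrix.map_apply, map_sum, map_mul, hy]
    · intro h
      choose y hy using h
      intro k
      refine ⟨∑ i, y i * P i k, ?_⟩
      rw [h1 f]
      simp only [Matrix.vecMul, dotProduct, hA, Matrix.map_apply, map_sum, map_mul, hy]
  · intro f c
    have hAM : A * M = Matrix.diagonal (fun i => t ^ ν i) * (Q⁻¹).map v.valuationSubring.subtype := by
      rw [← hPMQ, Matrix.mul_assoc (A * M), ← Matrix.map_mul, Matrix.mul_nonsing_inv _ hQ,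
        Matrix.map_one _ (map_zero _) (map_one _), Matrix.mul_one]
    have h3 : (e.repr f : n → E)
        = ((w.repr f : n → E) ᵥ* Matrix.diagonal (fun i => t ^ ν i)) ᵥ*
            (Q⁻¹).map v.valuationSubring.subtype := by
      rw [h2 f, hAM, Matrix.vecMul_vecMul]
    rw [h3, vecMul_val_le_iff v Q⁻¹ (Matrix.isUnit_nonsing_inv_det _ hQ)]
    apply forall_congr'
    intro i
    rw [Matrix.vecMul_diagonal, map_mul, S.val_zpow]
    have hc : (exp c : ℤᵐ⁰) = exp (c - -ν i) * exp (-ν i) := by
      rw [← exp_add]; congr 1; ring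
    rw [hc]
    exact mul_le_mul_iff_left₀ (exp_pos)
  · have hdet := congrArg Matrix.det hPMQ
    rw [Matrix.det_mul, Matrix.det_mul, Matrix.det_diagonal] at hdet
    have hQdet : v ((Q.map v.valuationSubring.subtype).det) = 1 := by
      have : (Q.map v.valuationSubring.subtype).det = ((Q.det : v.valuationSubring) : E) :=
        (RingHom.map_det v.valuationSubring.subtype Q).symm
      rw [this]
      exact val_eq_one_of_isUnit v _ hQ
    have hv := congrArg v hdet
    rw [map_mul, map_mul, hQdet, mul_one, hAdet, S.val_unit _ hP, one_mul, map_prod] at hv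
    rw [← Matrix.det_transpose, ← hM, hv, exp_sum_eq_prod]
    apply Finset.prod_congr rfl
    intro i _
    exact S.val_zpow (ν i)

/-- **Gram determinant identity (DW4), bilinear form version.** -/
theorem val_det_bilin_toMatrix (v : Valuation E ℤᵐ⁰) (w0 e : Module.Basis n E V)
    (B : LinearMap.BilinForm E V) :
    v (LinearMap.BilinForm.toMatrix w0 B).det
      = v (e.toMatrix w0).det ^ 2 * v (LinearMap.BilinForm.toMatrix e B).det := by
  rw [← LinearMap.BilinForm.toMatrix_mul_basis_toMatrix e w0 B, Matrix.det_mul, Matrix.det_mul,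
    Matrix.det_transpose, map_mul, map_mul, sq, mul_right_comm]

/-- **Gram determinant identity (DW4), discriminant version.** -/
theorem val_discr_eq (v : Valuation E ℤᵐ⁰) {L : Type*} [CommRing L] [Algebra E L]
    (w0 e : Module.Basis n E L) :
    v (Algebra.discr E w0) = v (e.toMatrix w0).det ^ 2 * v (Algebra.discr E e) := by
  have h : (w0 : n → L) = (e : n → L) ᵥ* (e.toMatrix w0).map (algebraMap E L) :=
    (Module.Basis.toMatrix_map_vecMul e w0).symm
  rw [h, Algebra.discr_of_matrix_vecMul, map_mul, map_pow, ← h]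

end Lattice

end Abstract

/-! ### The rational function field: `R = κ[X]`, `v` the valuation at infinity, `t = X⁻¹` -/

section RatFuncCase

open Polynomial

variable (κ : Type*) [Field κ] [DecidableEq (RatFunc κ)]

theorem inftyValuation_algebraMap {p : κ[X]} (hp : p ≠ 0) :
    RatFunc.inftyValuation κ (algebraMap κ[X] (RatFunc κ) p) = exp (p.natDegree : ℤ) := by
  rw [RatFunc.inftyValuation_apply]
  exact RatFunc.inftyValuation.polynomial κ hp

theorem inftyValuation_algebraMap_le_exp_iff (p : κ[X]) (m : ℤ) :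
    RatFunc.inftyValuation κ (algebraMap κ[X] (RatFunc κ) p) ≤ exp m ↔
      p ∈ Polynomial.degreeLT κ (m + 1).toNat := by
  rcases eq_or_ne p 0 with rfl | hp
  · simp
  · rw [inftyValuation_algebraMap κ hp, exp_le_exp, Polynomial.mem_degreeLT,
      Polynomial.degree_eq_natDegree hp, Nat.cast_lt, Int.lt_toNat]
    omega

/-- the Dedekind–Weber setup for `κ[X] ⊆ κ(X)` and the place at infinity -/
theorem setup_ratFunc :
    Setup (RatFunc.inftyValuation κ) (algebraMap κ[X] (RatFunc κ)) (RatFunc.X)⁻¹ where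
  val_t := by
    have := RatFunc.inftyValuation.X_inv κ
    rwa [one_div] at this
  inv_t := ⟨Polynomial.X, by rw [inv_inv, RatFunc.algebraMap_X]⟩
  val_unit := by
    intro u hu
    rw [inftyValuation_algebraMap κ hu.ne_zero, Polynomial.natDegree_eq_zero_of_isUnit hu]
    simp
  res := by
    intro a ha
    rcases ha.lt_or_eq with hlt | heq
    · exact ⟨0, by simpa using hlt, Or.inl rfl⟩
    · have ha0 : a ≠ 0 := by
        rintro rfl
        simp at heq
      have hdeg : a.num.natDegree = a.denom.natDegree := by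
        have h1 : RatFunc.inftyValuation κ a = exp a.intDegree := by
          rw [RatFunc.inftyValuation_apply]; exact RatFunc.inftyValuation_of_nonzero κ ha0
        rw [h1, ← exp_zero, exp_inj, RatFunc.intDegree] at heq
        omega
      set p := a.num with hp
      set q := a.denom with hq
      have hp0 : p ≠ 0 := RatFunc.num_ne_zero ha0
      have hq0 : q ≠ 0 := RatFunc.denom_ne_zero a
      have hqm : q.Monic := RatFunc.monic_denom a
      have hlc : p.leadingCoeff ≠ 0 := Polynomial.leadingCoeff_ne_zero.mpr hp0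
      refine ⟨Polynomial.C p.leadingCoeff, ?_, Or.inr (Polynomial.isUnit_C.mpr hlc.isUnit)⟩
      have hadiv : a = algebraMap κ[X] (RatFunc κ) p / algebraMap κ[X] (RatFunc κ) q :=
        (RatFunc.num_div_denom a).symm
      have hq0' : algebraMap κ[X] (RatFunc κ) q ≠ 0 := by
        rwa [Ne, map_eq_zero_iff _ (IsFractionRing.injective κ[X] (RatFunc κ))]
      have hsub : a - algebraMap κ[X] (RatFunc κ) (Polynomial.C p.leadingCoeff)
          = algebraMap κ[X] (RatFunc κ) (p - Polynomial.C p.leadingCoeff * q)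
              / algebraMap κ[X] (RatFunc κ) q := by
        rw [hadiv, map_sub, map_mul, sub_div, mul_div_assoc, div_self hq0', mul_one]
      rw [hsub, map_div₀, inftyValuation_algebraMap κ hq0]
      rw [div_lt_iff₀ exp_pos, one_mul]
      rcases eq_or_ne (p - Polynomial.C p.leadingCoeff * q) 0 with h0 | h0
      · rw [h0, map_zero, map_zero]; exact exp_pos
      · rw [inftyValuation_algebraMap κ h0, exp_lt_exp, Nat.cast_lt, ← hdeg]
        apply Polynomial.natDegree_lt_natDegree h0
        apply Polynomial.degree_sub_lt_left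
        · rw [Polynomial.degree_C_mul hlc, Polynomial.degree_eq_natDegree hp0,
            Polynomial.degree_eq_natDegree hq0, hdeg]
        · exact hp0
        · rw [Polynomial.leadingCoeff_mul, Polynomial.leadingCoeff_C, hqm.leadingCoeff, mul_one]

section Dimension

variable {n : Type*} [Fintype n] [DecidableEq n]
variable {V : Type*} [AddCommGroup V] [Module (RatFunc κ) V] [Module κ V]
  [IsScalarTower κ (RatFunc κ) V]

/-- The Riemann–Roch space of a pair of lattices: `w0` spans the `κ[X]`-lattice (finite part),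
`e` spans the lattice over the valuation ring at infinity; `LSpace κ w0 e c` consists of the
vectors whose `w0`-coordinates are polynomials and whose `e`-coordinates have degree `≤ c`,
i.e. (for a function field) `L(c · (x)_∞)`. -/
def LSpace (w0 e : Module.Basis n (RatFunc κ) V) (c : ℤ) : Submodule κ V where
  carrier := {f | (∀ i, w0.repr f i ∈ Set.range (algebraMap κ[X] (RatFunc κ))) ∧
    ∀ i, RatFunc.inftyValuation κ (e.repr f i) ≤ exp c}
  add_mem' := by
    rintro f g ⟨hf1, hf2⟩ ⟨hg1, hg2⟩
    refine ⟨fun i => ?_, fun i => ?_⟩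
    · obtain ⟨x, hx⟩ := hf1 i
      obtain ⟨y, hy⟩ := hg1 i
      exact ⟨x + y, by rw [map_add, hx, hy, map_add]; rfl⟩
    · rw [map_add]
      exact (Valuation.map_add _ _ _).trans (max_le (hf2 i) (hg2 i))
  zero_mem' := by
    refine ⟨fun i => ⟨0, by simp⟩, fun i => by simp⟩
  smul_mem' := by
    rintro a f ⟨hf1, hf2⟩
    have hsm : a • f = (algebraMap κ (RatFunc κ) a) • f := (algebraMap_smul (RatFunc κ) a f).symm
    refine ⟨fun i => ?_, fun i => ?_⟩
    · obtain ⟨x, hx⟩ := hf1 i
      refine ⟨Polynomial.C a * x, ?_⟩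
      rw [hsm, map_smul, Finsupp.smul_apply, smul_eq_mul, map_mul, hx]
      congr 1
    · rw [hsm, map_smul, Finsupp.smul_apply, smul_eq_mul, map_mul]
      have h1 : RatFunc.inftyValuation κ (algebraMap κ (RatFunc κ) a) ≤ 1 := by
        rcases eq_or_ne a 0 with rfl | ha
        · simp
        · exact (RatFunc.inftyValuation.C κ ha).le
      calc _ ≤ 1 * exp c := mul_le_mul' h1 (hf2 i)
        _ = exp c := one_mul _

omit [Fintype n] [DecidableEq n] in
theorem mem_LSpace (w0 e : Module.Basis n (RatFunc κ) V) (c : ℤ) (f : V) :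
    f ∈ LSpace κ w0 e c ↔ (∀ i, w0.repr f i ∈ Set.range (algebraMap κ[X] (RatFunc κ))) ∧
      ∀ i, RatFunc.inftyValuation κ (e.repr f i) ≤ exp c := Iff.rfl

/-- the parametrisation of the Riemann–Roch space by tuples of polynomials of bounded degree -/
noncomputable def paramMap (w : Module.Basis n (RatFunc κ) V) (d : n → ℕ) :
    (∀ i, Polynomial.degreeLT κ (d i)) →ₗ[κ] V where
  toFun p := ∑ i, algebraMap κ[X] (RatFunc κ) (p i : κ[X]) • w i
  map_add' p q := by
    rw [← Finset.sum_add_distrib]
    apply Finset.sum_congr rfl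
    intro i _
    rw [Pi.add_apply, Submodule.coe_add, map_add, add_smul]
  map_smul' a p := by
    rw [Finset.smul_sum]
    apply Finset.sum_congr rfl
    intro i _
    rw [Pi.smul_apply, Submodule.coe_smul, RingHom.id_apply, Algebra.smul_def, map_mul,
      mul_smul, ← IsScalarTower.algebraMap_apply, algebraMap_smul]

omit [DecidableEq (RatFunc κ)] [DecidableEq n] in
theorem paramMap_apply (w : Module.Basis n (RatFunc κ) V) (d : n → ℕ)
    (p : ∀ i, Polynomial.degreeLT κ (d i)) :
    paramMap κ w d p = ∑ i, algebraMap κ[X] (RatFunc κ) (p i : κ[X]) • w i := rfl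

omit [DecidableEq (RatFunc κ)] [DecidableEq n] in
theorem repr_paramMap (w : Module.Basis n (RatFunc κ) V) (d : n → ℕ)
    (p : ∀ i, Polynomial.degreeLT κ (d i)) (i : n) :
    w.repr (paramMap κ w d p) i = algebraMap κ[X] (RatFunc κ) (p i : κ[X]) := by
  rw [paramMap_apply, map_sum]
  simp only [map_smul, Finsupp.coe_finsetSum, Finsupp.coe_smul, Finset.sum_apply,
    Pi.smul_apply, Module.Basis.repr_self, smul_eq_mul]
  rw [Finset.sum_eq_single i]
  · simp
  · intro b _ hb; simp [hb]
  · intro h; exact absurd (Finset.mem_univ i) h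

omit [DecidableEq (RatFunc κ)] [DecidableEq n] in
theorem paramMap_injective (w : Module.Basis n (RatFunc κ) V) (d : n → ℕ) :
    Function.Injective (paramMap κ w d) := by
  intro p q hpq
  funext i
  have := congrArg (fun f => w.repr f i) hpq
  simp only [repr_paramMap] at this
  exact Subtype.ext (IsFractionRing.injective κ[X] (RatFunc κ) this)

omit [DecidableEq (RatFunc κ)] [DecidableEq n] in
theorem finrank_degreeLT_pi (d : n → ℕ) :
    Module.finrank κ (∀ i, Polynomial.degreeLT κ (d i)) = ∑ i, d i := by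
  rw [LinearEquiv.finrank_eq (LinearEquiv.piCongrRight (fun i => Polynomial.degreeLTEquiv κ (d i))),
    Module.finrank_pi_fintype]
  simp

/-- **Dimension formula (DW3) and the determinant/degree identity (DW4).**
There are exponents `δ i` with `dim_κ L(c) = ∑ max (0, c - δ i + 1)` for all `c`, and the
change-of-basis determinant between the two lattices has degree `∑ δ i`. -/
theorem exists_exponents (w0 e : Module.Basis n (RatFunc κ) V) :
    ∃ δ : n → ℤ,
      (∀ c : ℤ, Module.Finite κ (LSpace κ w0 e c) ∧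
        Module.finrank κ (LSpace κ w0 e c) = ∑ i, (c - δ i + 1).toNat) ∧
      RatFunc.inftyValuation κ (e.toMatrix w0).det = exp (∑ i, δ i) := by
  classical
  obtain ⟨w, δ, P, hP, hw, hA, hB, hC⟩ := (setup_ratFunc κ).exists_normal_basis w0 e
  refine ⟨δ, fun c => ?_, hC⟩
  set d : n → ℕ := fun i => (c - δ i + 1).toNat with hd
  have hrange : LSpace κ w0 e c = LinearMap.range (paramMap κ w d) := by
    ext f
    rw [mem_LSpace, hA f, hB f c, LinearMap.mem_range]
    constructor
    · rintro ⟨h1, h2⟩
      choose y hy using h1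
      have hmem : ∀ i, y i ∈ Polynomial.degreeLT κ (d i) := by
        intro i
        rw [hd, ← inftyValuation_algebraMap_le_exp_iff, hy i]
        exact h2 i
      refine ⟨fun i => ⟨y i, hmem i⟩, ?_⟩
      apply w.repr.injective
      ext i
      rw [repr_paramMap, hy i]
    · rintro ⟨p, rfl⟩
      refine ⟨fun i => ⟨p i, (repr_paramMap κ w d p i).symm⟩, fun i => ?_⟩
      rw [repr_paramMap, inftyValuation_algebraMap_le_exp_iff]
      exact (p i).2
  let Φ := LinearEquiv.ofInjective (paramMap κ w d) (paramMap_injective κ w d)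
  have hfin : Module.Finite κ (∀ i, Polynomial.degreeLT κ (d i)) :=
    Module.Finite.equiv (LinearEquiv.piCongrRight (fun i => Polynomial.degreeLTEquiv κ (d i))).symm
  rw [hrange]
  exact ⟨Module.Finite.equiv Φ, by rw [← LinearEquiv.finrank_eq Φ, finrank_degreeLT_pi]⟩

omit [DecidableEq (RatFunc κ)] [DecidableEq n] in
/-- for `c` large the dimension formula is linear in `c` -/
theorem sum_toNat_eq (δ : n → ℤ) (c : ℤ) (h : ∀ i, δ i ≤ c + 1) :
    ((∑ i, (c - δ i + 1).toNat : ℕ) : ℤ) = Fintype.card n * (c + 1) - ∑ i, δ i := by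
  rw [Nat.cast_sum]
  have : ∀ i ∈ (Finset.univ : Finset n), (((c - δ i + 1).toNat : ℕ) : ℤ) = (c + 1) - δ i := by
    intro i _
    rw [Int.toNat_of_nonneg (by have := h i; omega)]
    ring
  rw [Finset.sum_congr rfl this, Finset.sum_sub_distrib, Finset.sum_const, Finset.card_univ,
    nsmul_eq_mul]

/-- **Dimension formula together with the discriminant degree identity.**  If `V = L` is a
`κ(X)`-algebra and the discriminant of the finite basis `w0` is the polynomial `D`, then the
exponents satisfy `v_∞ (disc e) * exp (2 ∑ δ) = exp (deg D)`, i.e.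
`2 ∑ δ = deg D + ord_∞ (disc e)`. -/
theorem exists_exponents_discr {L : Type*} [CommRing L] [Algebra (RatFunc κ) L] [Algebra κ L]
    [IsScalarTower κ (RatFunc κ) L] (w0 e : Module.Basis n (RatFunc κ) L) (D : κ[X]) (hD : D ≠ 0)
    (hdisc : Algebra.discr (RatFunc κ) w0 = algebraMap κ[X] (RatFunc κ) D) :
    ∃ δ : n → ℤ,
      (∀ c : ℤ, Module.Finite κ (LSpace κ w0 e c) ∧
        Module.finrank κ (LSpace κ w0 e c) = ∑ i, (c - δ i + 1).toNat) ∧
      RatFunc.inftyValuation κ (Algebra.discr (RatFunc κ) e) * exp (2 * ∑ i, δ i)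
        = exp (D.natDegree : ℤ) := by
  obtain ⟨δ, h1, h2⟩ := exists_exponents κ w0 e
  refine ⟨δ, h1, ?_⟩
  have h3 := val_discr_eq (RatFunc.inftyValuation κ) w0 e
  rw [hdisc, inftyValuation_algebraMap κ hD, h2] at h3
  rw [h3, two_mul, exp_add, sq, mul_comm]

end Dimension

end RatFuncCase

end Fermat.Agent.Lib.DedekindWeber
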