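import Mathlib
import Fermat.Prelude.Def_AlgebraicCurve_DivisorClassGroup

set_option autoImplicit false

noncomputable section

namespace Fermat.Agent.Lib.FFPlaces

open AlgebraicCurve IsDedekindDomain WithZero

section Dedekind

variable {K F : Type*} [Field K] [Field F] [Algebra K F]
variable {R : Type*} [CommRing R] [IsDedekindDomain R] [Algebra R F] [IsFractionRing R F]

/-- A proper valuation subring of the fraction field of a Dedekind domain `R` containing `R`
is the valuation subring of a height one prime. -/
theorem exists_heightOneSpectrum_of_le (V : ValuationSubring F) (hV : V ≠ ⊤)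
    (hR : ∀ r : R, algebraMap R F r ∈ V) :
    ∃ w : HeightOneSpectrum R, V = (w.valuation F).valuationSubring := by
  classical
  -- the prime `P = 𝔪_V ∩ R`
  let φ : R →+* V := (algebraMap R F).codRestrict V.toSubring hR
  let P : Ideal R := (IsLocalRing.maximalIdeal V).comap φ
  have hPprime : P.IsPrime := Ideal.comap_isPrime φ _
  have hP0 : P ≠ ⊥ := by
    intro h0
    apply hV
    refine SetLike.ext fun y => ⟨fun _ => ValuationSubring.mem_top y, fun _ => ?_⟩
    obtain ⟨a, s, hs, rfl⟩ := IsFractionRing.div_surjective (A := R) y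
    have hs0 : s ≠ 0 := nonZeroDivisors.ne_zero hs
    have hsP : s ∉ P := by rw [h0]; simpa using hs0
    have hsu : IsUnit (φ s) := by
      by_contra hnu
      exact hsP ((IsLocalRing.mem_maximalIdeal _).mpr hnu)
    obtain ⟨u, hu⟩ := hsu
    have hinv : ((u⁻¹ : Vˣ) : V).1 = (algebraMap R F s)⁻¹ := by
      have h1 : (u : V) * ((u⁻¹ : Vˣ) : V) = 1 := Units.mul_inv u
      have h2 : (algebraMap R F s) * ((u⁻¹ : Vˣ) : V).1 = 1 := by
        have := congrArg Subtype.val h1
        rw [hu] at this
        simpa [φ] using this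
      exact eq_inv_of_mul_eq_one_right h2
    rw [div_eq_mul_inv, ← hinv]
    exact V.mul_mem _ _ (hR a) ((u⁻¹ : Vˣ) : V).2
  let w : HeightOneSpectrum R := ⟨P, hPprime, hP0⟩
  refine ⟨w, ?_⟩
  symm
  have : Ring.KrullDimLE 1 (w.valuation F).valuationSubring := by
    rw [← HeightOneSpectrum.valuationSubringAtPrime_eq_valuationSubring]
    infer_instance
  refine ValuationSubring.eq_of_le_of_ne_top _ ?_ hV
  intro y hy
  obtain ⟨n, d, hnd⟩ := w.exists_primeCompl_mul_eq_of_integer y
    ((Valuation.mem_valuationSubring_iff _ _).mp hy)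
  have hdP : (d : R) ∉ P := d.2
  have hdu : IsUnit (φ d) := by
    by_contra hnu
    exact hdP ((IsLocalRing.mem_maximalIdeal _).mpr hnu)
  obtain ⟨u, hu⟩ := hdu
  have hd0 : algebraMap R F d ≠ 0 := by
    intro h0
    apply hdP
    have : (d : R) = 0 := (IsFractionRing.injective R F) (by simpa using h0)
    rw [this]; exact P.zero_mem
  have hinv : ((u⁻¹ : Vˣ) : V).1 = (algebraMap R F d)⁻¹ := by
    have h1 : (u : V) * ((u⁻¹ : Vˣ) : V) = 1 := Units.mul_inv u
    have h2 : (algebraMap R F d) * ((u⁻¹ : Vˣ) : V).1 = 1 := by
      have := congrArg Subtype.val h1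
      rw [hu] at this
      simpa [φ] using this
    exact eq_inv_of_mul_eq_one_right h2
  have hy' : y = algebraMap R F n * (algebraMap R F d)⁻¹ := by
    rw [← hnd]; field_simp
  rw [hy', ← hinv]
  exact V.mul_mem _ _ (hR n) ((u⁻¹ : Vˣ) : V).2

/-- Units of the valuation subring of a height one prime. -/
theorem isUnit_iff_valuation_eq_one (w : HeightOneSpectrum R)
    (y : (w.valuation F).valuationSubring) :
    IsUnit y ↔ w.valuation F (y : F) = 1 :=
  (Valuation.valuationSubring.integers (w.valuation F)).isUnit_iff_valuation_eq_one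

/-- An element of valuation `exp (-1)` is irreducible in the valuation subring. -/
theorem irreducible_of_valuation_eq (w : HeightOneSpectrum R)
    (π : (w.valuation F).valuationSubring) (hπ : w.valuation F (π : F) = exp (-1 : ℤ)) :
    Irreducible π := by
  rw [irreducible_iff]
  refine ⟨?_, ?_⟩
  · rw [isUnit_iff_valuation_eq_one, hπ]
    intro h
    have := congrArg WithZero.log h
    simp at this
  · intro a b hab
    have ha1 : w.valuation F (a : F) ≤ 1 := (Valuation.mem_valuationSubring_iff _ _).mp a.2
    have hb1 : w.valuation F (b : F) ≤ 1 := (Valuation.mem_valuationSubring_iff _ _).mp b.2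
    have hmul : w.valuation F (a : F) * w.valuation F (b : F) = exp (-1 : ℤ) := by
      rw [← map_mul, ← hπ]
      congr 1
      exact (congrArg Subtype.val hab).symm
    have ha0 : w.valuation F (a : F) ≠ 0 := by
      intro h; rw [h, zero_mul] at hmul; exact WithZero.coe_ne_zero hmul.symm
    have hb0 : w.valuation F (b : F) ≠ 0 := by
      intro h; rw [h, mul_zero] at hmul; exact WithZero.coe_ne_zero hmul.symm
    rw [isUnit_iff_valuation_eq_one, isUnit_iff_valuation_eq_one]
    have hla : log (w.valuation F (a : F)) ≤ 0 := by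
      have := (log_le_log ha0 one_ne_zero).mpr ha1
      simpa using this
    have hlb : log (w.valuation F (b : F)) ≤ 0 := by
      have := (log_le_log hb0 one_ne_zero).mpr hb1
      simpa using this
    have hsum : log (w.valuation F (a : F)) + log (w.valuation F (b : F)) = -1 := by
      rw [← WithZero.log_mul ha0 hb0, hmul, log_exp]
    have hcase : log (w.valuation F (a : F)) = 0 ∨ log (w.valuation F (b : F)) = 0 := by omega
    rcases hcase with h | h
    · left
      rw [← exp_log ha0, h]; rfl
    · right
      rw [← exp_log hb0, h]; rfl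

/-- The Prelude `ord` of the place of a height one prime is minus the logarithm of the adic
valuation. -/
theorem ord_ofHeightOneSpectrum [Algebra K R] [IsScalarTower K R F] (w : HeightOneSpectrum R)
    (f : F) :
    (Place.ofHeightOneSpectrum (K := K) w).ord f = -WithZero.log (w.valuation F f) := by
  rcases eq_or_ne f 0 with rfl | hf
  · simp
  obtain ⟨π, hπ⟩ := w.valuation_exists_uniformizer F
  have hπ0 : π ≠ 0 := by
    intro h; rw [h, map_zero] at hπ; exact WithZero.coe_ne_zero hπ.symm
  have hf0 : w.valuation F f ≠ 0 := (Valuation.ne_zero_iff _).mpr hf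
  set n : ℤ := -WithZero.log (w.valuation F f) with hn
  have hπmem : π ∈ (w.valuation F).valuationSubring := by
    rw [Valuation.mem_valuationSubring_iff, hπ]
    exact (WithZero.exp_le_exp.mpr (by norm_num : (-1 : ℤ) ≤ 0))
  let π' : (Place.ofHeightOneSpectrum (K := K) w).toValuationSubring := ⟨π, hπmem⟩
  have hirr : Irreducible π' := irreducible_of_valuation_eq w ⟨π, hπmem⟩ hπ
  -- the unit part
  have hval : w.valuation F (f * π ^ (-n)) = 1 := by
    rw [map_mul, map_zpow₀, hπ, ← WithZero.exp_zsmul, hn]
    simp only [neg_neg, smul_eq_mul, mul_neg, mul_one]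
    rw [WithZero.exp_neg, WithZero.exp_log hf0]
    exact mul_inv_cancel₀ hf0
  have humem : f * π ^ (-n) ∈ (w.valuation F).valuationSubring := by
    rw [Valuation.mem_valuationSubring_iff, hval]
  have hunit : IsUnit (⟨f * π ^ (-n), humem⟩ : (w.valuation F).valuationSubring) := by
    rw [isUnit_iff_valuation_eq_one]; exact hval
  obtain ⟨u, hu⟩ := hunit
  have h1 : ((u : (w.valuation F).valuationSubring) : F) = f * π ^ (-n) := by rw [hu]
  have key : f = ((u : (w.valuation F).valuationSubring) : F) * (π ^ n) := by
    rw [h1, mul_assoc, ← zpow_add₀ hπ0]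
    simp
  have := (Place.ofHeightOneSpectrum (K := K) w).ord_unit_smul_zpow u hirr n
  rw [key]
  exact this

/-- Distinct height one primes give distinct places. -/
theorem valuationSubring_injective {w w' : HeightOneSpectrum R}
    (h : (w.valuation F).valuationSubring = (w'.valuation F).valuationSubring) : w = w' := by
  apply HeightOneSpectrum.ext
  -- `P = {r | r is not a unit of V}`
  have key : ∀ (w₁ w₂ : HeightOneSpectrum R),
      (w₁.valuation F).valuationSubring = (w₂.valuation F).valuationSubring →
      w₁.asIdeal ≤ w₂.asIdeal := by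
    intro w₁ w₂ h12 r hr
    by_contra hr2
    have h2 : w₂.valuation F (algebraMap R F r) = 1 :=
      (w₂.valuation_eq_one_iff_notMem (K := F)).mpr hr2
    have h1 : w₁.valuation F (algebraMap R F r) < 1 :=
      (HeightOneSpectrum.valuation_lt_one_iff_mem w₁ r).mpr hr
    have hr0 : algebraMap R F r ≠ 0 := by
      intro h0; rw [h0, map_zero] at h2; exact zero_ne_one h2
    have hinv2 : (algebraMap R F r)⁻¹ ∈ (w₂.valuation F).valuationSubring := by
      rw [Valuation.mem_valuationSubring_iff, map_inv₀, h2, inv_one]
    rw [← h12, Valuation.mem_valuationSubring_iff, map_inv₀] at hinv2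
    have hne : w₁.valuation F (algebraMap R F r) ≠ 0 := (Valuation.ne_zero_iff _).mpr hr0
    have : 1 ≤ w₁.valuation F (algebraMap R F r) := by
      have := (inv_le_one₀ (zero_lt_iff.mpr hne)).mp hinv2
      exact this
    exact absurd h1 (not_lt.mpr this)
  exact le_antisymm (key w w' h) (key w' w h.symm)

end Dedekind

section Residue

variable {K F : Type*} [Field K] [Field F] [Algebra K F]
variable {R : Type*} [CommRing R] [IsDedekindDomain R] [Algebra R F] [IsFractionRing R F]
variable [Algebra K R] [IsScalarTower K R F] [IsAlgClosed K] [Algebra.FiniteType K R]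

/-- Residue fields of a finite type Dedekind `K`-algebra over an algebraically closed field are
`K`. -/
theorem exists_sub_mem_asIdeal (w : HeightOneSpectrum R) (r : R) :
    ∃ a : K, r - algebraMap K R a ∈ w.asIdeal := by
  have hmax : w.asIdeal.IsMaximal := w.isMaximal
  let _ : Field (R ⧸ w.asIdeal) := Ideal.Quotient.field _
  have hfin : Module.Finite K (R ⧸ w.asIdeal) := finite_of_finite_type_of_isJacobsonRing K _
  have hint : Algebra.IsIntegral K (R ⧸ w.asIdeal) := inferInstance
  obtain ⟨a, ha⟩ := (IsAlgClosed.algebraMap_bijective_of_isIntegral (k := K)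
    (K := R ⧸ w.asIdeal)).2 (Ideal.Quotient.mk _ r)
  refine ⟨a, ?_⟩
  rw [← Ideal.Quotient.eq_zero_iff_mem, map_sub, ← ha]
  exact sub_self _

theorem exists_valuation_sub_lt_one (w : HeightOneSpectrum R) (y : F)
    (hy : w.valuation F y ≤ 1) :
    ∃ a : K, w.valuation F (y - algebraMap K F a) < 1 := by
  obtain ⟨n, d, hnd⟩ := w.exists_primeCompl_mul_eq_of_integer y hy
  obtain ⟨β, hβ⟩ := exists_sub_mem_asIdeal (K := K) w n
  obtain ⟨σ, hσ⟩ := exists_sub_mem_asIdeal (K := K) w (d : R)
  have hdP : (d : R) ∉ w.asIdeal := d.2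
  have hσ0 : σ ≠ 0 := by
    rintro rfl
    apply hdP
    simpa using hσ
  refine ⟨β / σ, ?_⟩
  have hd1 : w.valuation F (algebraMap R F d) = 1 :=
    (w.valuation_eq_one_iff_notMem (K := F)).mpr hdP
  have hd0 : algebraMap R F (d : R) ≠ 0 := by
    intro h0; rw [h0, map_zero] at hd1; exact zero_ne_one hd1
  -- numerator
  have hnum : n - algebraMap K R (β / σ) * d ∈ w.asIdeal := by
    have h1 : n - algebraMap K R (β / σ) * d =
        (n - algebraMap K R β) - algebraMap K R (β / σ) * ((d : R) - algebraMap K R σ) := by
      have : algebraMap K R (β / σ) * algebraMap K R σ = algebraMap K R β := by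
        rw [← map_mul]; congr 1; field_simp
      linear_combination -this
    rw [h1]
    exact w.asIdeal.sub_mem hβ (w.asIdeal.mul_mem_left _ hσ)
  have hval : w.valuation F (algebraMap R F (n - algebraMap K R (β / σ) * d)) < 1 :=
    (w.valuation_lt_one_iff_mem _).mpr hnum
  have heq : y - algebraMap K F (β / σ) =
      algebraMap R F (n - algebraMap K R (β / σ) * d) * (algebraMap R F d)⁻¹ := by
    have hc : algebraMap K F (β / σ) = algebraMap R F (algebraMap K R (β / σ)) :=
      IsScalarTower.algebraMap_apply K R F _
    rw [map_sub, map_mul, ← hnd, hc]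
    field_simp
  rw [heq, map_mul, map_inv₀, hd1, inv_one, mul_one]
  exact hval

/-- Places attached to height one primes have degree one. -/
theorem deg_ofHeightOneSpectrum (w : HeightOneSpectrum R) :
    (Place.ofHeightOneSpectrum (K := K) (F := F) w).deg = 1 := by
  set v := Place.ofHeightOneSpectrum (K := K) (F := F) w with hv
  show Module.finrank K v.ResidueField = 1
  rw [finrank_eq_one_iff']
  refine ⟨1, one_ne_zero, fun z => ?_⟩
  obtain ⟨y, rfl⟩ := IsLocalRing.residue_surjective z
  have hy : w.valuation F (y : F) ≤ 1 := (Valuation.mem_valuationSubring_iff _ _).mp y.2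
  obtain ⟨a, ha⟩ := exists_valuation_sub_lt_one (K := K) w (y : F) hy
  refine ⟨a, ?_⟩
  rw [Algebra.smul_def, mul_one]
  have hmem : y - algebraMap K v.toValuationSubring a ∈
      IsLocalRing.maximalIdeal v.toValuationSubring := by
    rw [IsLocalRing.mem_maximalIdeal, mem_nonunits_iff]
    intro hu
    have h1 := (isUnit_iff_valuation_eq_one w (y - algebraMap K v.toValuationSubring a)).mp hu
    have h2 : ((y - algebraMap K v.toValuationSubring a : v.toValuationSubring) : F) =
        (y : F) - algebraMap K F a := rfl
    rw [h2] at h1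
    exact absurd h1 (ne_of_lt ha)
  have := (Ideal.Quotient.eq (I := IsLocalRing.maximalIdeal v.toValuationSubring)).mpr hmem
  exact this.symm

end Residue

section PlaceBasic

variable {K F : Type*} [Field K] [Field F] [Algebra K F]

/-- Membership in the valuation ring of a place in terms of the Prelude `ord`. -/
theorem mem_iff_ord_nonneg (v : Place K F) {f : F} (hf : f ≠ 0) :
    f ∈ v.toValuationSubring ↔ 0 ≤ v.ord f := by
  obtain ⟨π, hπ⟩ := IsDiscreteValuationRing.exists_irreducible v.toValuationSubring
  obtain ⟨u, hu⟩ := v.exists_unit_mul_zpow hf hπ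
  have hπ0 : (π : F) ≠ 0 := by
    intro h
    exact hπ.ne_zero (Subtype.ext h)
  generalize v.ord f = n at hu
  constructor
  · intro hmem
    by_contra hneg
    have hneg' : n < 0 := not_le.mp hneg
    -- `u = f * π ^ (-n)` with `-n > 0`, so `u` would be a non-unit
    obtain ⟨k, hk⟩ : ∃ k : ℕ, -n = (k : ℤ) + 1 := ⟨(-n - 1).toNat, by omega⟩
    have hu' : ((u : v.toValuationSubring) : F) = f * (π : F) ^ (k + 1) := by
      have h1 : f * (π : F) ^ (-n) = ((u : v.toValuationSubring) : F) := by
        rw [hu, mul_assoc, ← zpow_add₀ hπ0]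
        simp
      rw [← h1, hk]
      norm_cast
    have hu'' : (u : v.toValuationSubring) = ⟨f, hmem⟩ * π ^ (k + 1) := Subtype.ext hu'
    have hdvd : π ∣ (u : v.toValuationSubring) := by
      rw [hu'']
      exact ⟨⟨f, hmem⟩ * π ^ k, by ring⟩
    exact hπ.not_isUnit (isUnit_of_dvd_unit hdvd u.isUnit)
  · intro hn
    obtain ⟨k, hk⟩ : ∃ k : ℕ, n = (k : ℤ) := ⟨n.toNat, by omega⟩
    rw [hu, hk, zpow_natCast]
    exact v.toValuationSubring.mul_mem _ _ (Subtype.mem _) (pow_mem (Subtype.mem π) k)

theorem ord_pos_iff (v : Place K F) {f : F} (hf : f ≠ 0) :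
    0 < v.ord f ↔ f ∈ v.toValuationSubring ∧ f⁻¹ ∉ v.toValuationSubring := by
  rw [mem_iff_ord_nonneg v hf, mem_iff_ord_nonneg v (inv_ne_zero hf), v.ord_inv]
  omega

theorem ord_neg_iff (v : Place K F) {f : F} (hf : f ≠ 0) :
    v.ord f < 0 ↔ f ∉ v.toValuationSubring := by
  rw [mem_iff_ord_nonneg v hf]
  omega

theorem ord_algebraMap (v : Place K F) (a : K) : v.ord (algebraMap K F a) = 0 := by
  rcases eq_or_ne a 0 with rfl | ha
  · simp
  have h0 : algebraMap K F a ≠ 0 := by simpa using ha
  have h1 := (mem_iff_ord_nonneg v h0).mp (v.algebraMap_mem' a)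
  have h2 := (mem_iff_ord_nonneg v (inv_ne_zero h0)).mp (by
    rw [← map_inv₀]; exact v.algebraMap_mem' a⁻¹)
  rw [v.ord_inv] at h2
  omega

end PlaceBasic

section Concrete

open IntermediateField IntermediateField.algebraAdjoinAdjoin

variable (K : Type*) {F : Type*} [Field K] [Field F] [Algebra K F] (x : F)

/-- The subring `K[x]` of `F`. -/
abbrev polyRing : Subalgebra K F := Algebra.adjoin K {x}

/-- The integral closure of `K[x]` in `F`. -/
abbrev intRing : Subalgebra (polyRing K x) F := integralClosure (polyRing K x) F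

/-- The evaluation map `K[X] → K[x]`. -/
def polyMap : Polynomial K →ₐ[K] polyRing K x :=
  (Polynomial.aeval x).codRestrict (polyRing K x) (fun p => by
    rw [polyRing, Algebra.adjoin_singleton_eq_range_aeval]
    exact ⟨p, rfl⟩)

theorem polyMap_surjective : Function.Surjective (polyMap K x) := by
  rintro ⟨y, hy⟩
  have hy' : y ∈ (Polynomial.aeval x : Polynomial K →ₐ[K] F).range := by
    rw [← Algebra.adjoin_singleton_eq_range_aeval]; exact hy
  obtain ⟨p, rfl⟩ := hy'
  exact ⟨p, rfl⟩

instance instIsPrincipalIdealRingPolyRing : IsPrincipalIdealRing (polyRing K x) :=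
  IsPrincipalIdealRing.of_surjective (polyMap K x).toRingHom (polyMap_surjective K x)

instance instFiniteTypePolyRing : Algebra.FiniteType K (polyRing K x) :=
  Algebra.FiniteType.of_surjective (polyMap K x) (polyMap_surjective K x)

variable {K x} in
/-- Elements of `K[x]` lie in every place containing `x`. -/
theorem polyRing_mem (v : Place K F) (hx : x ∈ v.toValuationSubring) (a : polyRing K x) :
    (a : F) ∈ v.toValuationSubring := by
  let S : Subalgebra K F :=
    { v.toValuationSubring.toSubring with algebraMap_mem' := v.algebraMap_mem' }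
  have hle : Algebra.adjoin K {x} ≤ S := Algebra.adjoin_le (Set.singleton_subset_iff.mpr hx)
  exact hle a.2

variable {K x} in
/-- Elements of the integral closure of `K[x]` lie in every place containing `x`. -/
theorem intRing_mem (v : Place K F) (hx : x ∈ v.toValuationSubring) (b : intRing K x) :
    (b : F) ∈ v.toValuationSubring := by
  obtain ⟨p, hp, hpb⟩ := b.2
  let φ : polyRing K x →+* v.toValuationSubring :=
    (algebraMap (polyRing K x) F).codRestrict v.toValuationSubring.toSubring
      (fun a => polyRing_mem v hx a)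
  have hint : IsIntegral v.toValuationSubring (b : F) := by
    refine ⟨p.map φ, hp.map φ, ?_⟩
    rw [Polynomial.eval₂_map]
    exact hpb
  obtain ⟨y, hy⟩ := IsIntegrallyClosed.isIntegral_iff.mp hint
  rw [← hy]
  exact y.2

variable [CharZero K] [FiniteDimensional K⟮x⟯ F]

instance instIsFractionRingIntRing : IsFractionRing (intRing K x) F :=
  integralClosure.isFractionRing_of_finite_extension K⟮x⟯ F

instance instIsDedekindDomainIntRing : IsDedekindDomain (intRing K x) :=
  integralClosure.isDedekindDomain (polyRing K x) K⟮x⟯ F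

instance instFiniteIntRing : Module.Finite (polyRing K x) (intRing K x) :=
  IsIntegralClosure.finite (polyRing K x) K⟮x⟯ F (intRing K x)

instance instFreeIntRing : Module.Free (polyRing K x) (intRing K x) :=
  IsIntegralClosure.module_free (polyRing K x) K⟮x⟯ F (intRing K x)

theorem finrank_intRing :
    Module.finrank (polyRing K x) (intRing K x) = Module.finrank K⟮x⟯ F :=
  IsIntegralClosure.rank (polyRing K x) K⟮x⟯ F (intRing K x)

instance instFiniteTypeIntRing : Algebra.FiniteType K (intRing K x) :=
  Algebra.FiniteType.trans (inferInstance : Algebra.FiniteType K (polyRing K x)) inferInstance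

variable {K x}

/-- A place containing `x` comes from a height one prime of the integral closure of `K[x]`. -/
theorem exists_heightOneSpectrum (v : Place K F) (hx : x ∈ v.toValuationSubring) :
    ∃ w : HeightOneSpectrum (intRing K x), v = Place.ofHeightOneSpectrum w := by
  obtain ⟨w, hw⟩ := exists_heightOneSpectrum_of_le (R := intRing K x) v.toValuationSubring
    v.ne_top' (fun r => intRing_mem v hx r)
  exact ⟨w, Place.ext hw⟩

theorem ofHeightOneSpectrum_injective :
    Function.Injective (Place.ofHeightOneSpectrum (K := K) (F := F) (R := intRing K x)) := by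
  intro w w' h
  exact valuationSubring_injective (congrArg Place.toValuationSubring h)

theorem exists_unique_heightOneSpectrum (v : Place K F) (hx : x ∈ v.toValuationSubring) :
    ∃! w : HeightOneSpectrum (intRing K x), v = Place.ofHeightOneSpectrum w := by
  obtain ⟨w, hw⟩ := exists_heightOneSpectrum v hx
  exact ⟨w, hw, fun w' hw' => ofHeightOneSpectrum_injective (hw'.symm.trans hw)⟩

/-- `x` as an element of the integral closure of `K[x]`. -/
def xInt : intRing K x :=
  ⟨x, (algebraMap (polyRing K x) F).isIntegralElem_map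
    (x := ⟨x, Algebra.self_mem_adjoin_singleton K x⟩)⟩

omit [CharZero K] [FiniteDimensional K⟮x⟯ F] in
@[simp] theorem coe_xInt : ((xInt (K := K) (x := x) : intRing K x) : F) = x := rfl

theorem mem_ofHeightOneSpectrum (w : HeightOneSpectrum (intRing K x)) :
    x ∈ (Place.ofHeightOneSpectrum (K := K) w).toValuationSubring := by
  show x ∈ (w.valuation F).valuationSubring
  rw [Valuation.mem_valuationSubring_iff]
  exact w.valuation_le_one (xInt (K := K) (x := x))

theorem deg_eq_one_of_mem [IsAlgClosed K] (v : Place K F) (hx : x ∈ v.toValuationSubring) :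
    v.deg = 1 := by
  obtain ⟨w, rfl⟩ := exists_heightOneSpectrum v hx
  exact deg_ofHeightOneSpectrum w

end Concrete

section Fundamental

open IntermediateField IntermediateField.algebraAdjoinAdjoin

variable {K F : Type*} [Field K] [Field F] [Algebra K F] {x : F}

/-- `x - a` as an element of `K[x]`. -/
def xSub (K : Type*) {F : Type*} [Field K] [Field F] [Algebra K F] (x : F) (a : K) :
    polyRing K x :=
  ⟨x - algebraMap K F a,
    sub_mem (Algebra.self_mem_adjoin_singleton K x) (Subalgebra.algebraMap_mem _ a)⟩

@[simp] theorem coe_xSub (a : K) : ((xSub K x a : polyRing K x) : F) = x - algebraMap K F a := rfl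

theorem sub_algebraMap_ne_zero (hxt : Transcendental K x) (a : K) :
    x - algebraMap K F a ≠ 0 := by
  intro h
  apply hxt
  rw [sub_eq_zero.mp h]
  exact isAlgebraic_algebraMap a

theorem xSub_ne_zero (hxt : Transcendental K x) (a : K) : xSub K x a ≠ 0 := by
  intro h
  exact sub_algebraMap_ne_zero hxt a (congrArg Subtype.val h)

/-- Every element of `K[x]` is congruent to a constant modulo `x - a`. -/
theorem exists_sub_mem_span_xSub (a : K) (r : polyRing K x) :
    ∃ c : K, r - algebraMap K (polyRing K x) c ∈ Ideal.span {xSub K x a} := by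
  obtain ⟨q, rfl⟩ := polyMap_surjective K x r
  refine ⟨q.eval a, ?_⟩
  have hroot : (q - Polynomial.C (q.eval a)).IsRoot a := by simp [Polynomial.IsRoot]
  obtain ⟨q', hq'⟩ := Polynomial.dvd_iff_isRoot.mpr hroot
  have h1 : polyMap K x q - algebraMap K (polyRing K x) (q.eval a) =
      polyMap K x (q - Polynomial.C (q.eval a)) := by
    rw [map_sub, ← Polynomial.algebraMap_eq, AlgHom.commutes]
  have h2 : polyMap K x (Polynomial.X - Polynomial.C a) = xSub K x a := by
    apply Subtype.ext
    simp [polyMap, xSub]
  rw [h1, hq', map_mul, h2]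
  exact Ideal.mul_mem_right _ _ (Ideal.mem_span_singleton_self _)

theorem span_xSub_ne_top (hxt : Transcendental K x) (a : K) :
    Ideal.span {xSub K x a} ≠ (⊤ : Ideal (polyRing K x)) := by
  intro h
  rw [Ideal.eq_top_iff_one, Ideal.mem_span_singleton'] at h
  obtain ⟨r, hr⟩ := h
  obtain ⟨q, rfl⟩ := polyMap_surjective K x r
  have h2 : polyMap K x (Polynomial.X - Polynomial.C a) = xSub K x a := by
    apply Subtype.ext
    simp [polyMap, xSub]
  rw [← h2, ← map_mul] at hr
  have h3 : Polynomial.aeval x (q * (Polynomial.X - Polynomial.C a) - 1) = 0 := by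
    have := congrArg Subtype.val hr
    simp only [polyMap, AlgHom.coe_codRestrict, OneMemClass.coe_one] at this
    rw [map_sub, this, map_one, sub_self]
  have h4 := (transcendental_iff.mp hxt) _ h3
  have h5 := congrArg (Polynomial.eval a) h4
  simp at h5

theorem isMaximal_span_xSub (hxt : Transcendental K x) (a : K) :
    (Ideal.span {xSub K x a}).IsMaximal := by
  rw [Ideal.isMaximal_iff]
  refine ⟨fun h => span_xSub_ne_top hxt a ((Ideal.eq_top_iff_one _).mpr h), ?_⟩
  intro J r hle hr hrJ
  obtain ⟨c, hc⟩ := exists_sub_mem_span_xSub a r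
  have hc0 : c ≠ 0 := by
    rintro rfl
    apply hr
    simpa using hc
  have hcJ : algebraMap K (polyRing K x) c ∈ J := by
    have : algebraMap K (polyRing K x) c = r - (r - algebraMap K (polyRing K x) c) := by ring
    rw [this]
    exact J.sub_mem hrJ (hle hc)
  have : (1 : polyRing K x) = algebraMap K (polyRing K x) c⁻¹ * algebraMap K (polyRing K x) c := by
    rw [← map_mul, inv_mul_cancel₀ hc0, map_one]
  rw [this]
  exact J.mul_mem_left _ hcJ

variable [CharZero K] [FiniteDimensional K⟮x⟯ F]

/-- `x - a` as an element of the integral closure. -/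
def xSubInt (K : Type*) {F : Type*} [Field K] [Field F] [Algebra K F] (x : F) (a : K) :
    intRing K x :=
  algebraMap (polyRing K x) (intRing K x) (xSub K x a)

omit [CharZero K] [FiniteDimensional K⟮x⟯ F] in
@[simp] theorem coe_xSubInt (a : K) :
    ((xSubInt K x a : intRing K x) : F) = x - algebraMap K F a := rfl

omit [CharZero K] [FiniteDimensional K⟮x⟯ F] in
theorem xSubInt_ne_zero (hxt : Transcendental K x) (a : K) : xSubInt K x a ≠ 0 := by
  intro h
  exact sub_algebraMap_ne_zero hxt a (congrArg Subtype.val h)

omit [CharZero K] [FiniteDimensional K⟮x⟯ F] in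
theorem map_span_xSub (a : K) :
    (Ideal.span {xSub K x a}).map (algebraMap (polyRing K x) (intRing K x)) =
      Ideal.span {xSubInt K x a} := by
  rw [Ideal.map_span, Set.image_singleton]
  rfl

omit [CharZero K] [FiniteDimensional K⟮x⟯ F] in
/-- A height one prime contains `x - a` iff it lies over `(x - a)`. -/
theorem liesOver_iff_mem (hxt : Transcendental K x) (a : K) (q : Ideal (intRing K x))
    [q.IsPrime] : q.LiesOver (Ideal.span {xSub K x a}) ↔ xSubInt K x a ∈ q := by
  constructor
  · intro h
    have h1 : xSub K x a ∈ q.under (polyRing K x) := by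
      rw [← h.over]
      exact Ideal.mem_span_singleton_self _
    exact h1
  · intro h
    refine ⟨?_⟩
    have hmax := isMaximal_span_xSub hxt a
    have hle : Ideal.span {xSub K x a} ≤ q.under (polyRing K x) := by
      rw [Ideal.span_le, Set.singleton_subset_iff]
      exact h
    have hne : q.under (polyRing K x) ≠ ⊤ := by
      have : (q.under (polyRing K x)).IsPrime := inferInstance
      exact this.ne_top
    exact hmax.eq_of_le hne hle

/-- The order of `x - a` at the place of a height one prime over `(x - a)` is the ramification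
index. -/
theorem ord_eq_ramificationIdx (hxt : Transcendental K x) (a : K)
    (w : HeightOneSpectrum (intRing K x)) (hw : xSubInt K x a ∈ w.asIdeal) :
    (Place.ofHeightOneSpectrum (K := K) w).ord (x - algebraMap K F a) =
      (w.asIdeal.ramificationIdx (polyRing K x) : ℤ) := by
  have hlo : w.asIdeal.LiesOver (Ideal.span {xSub K x a}) := (liesOver_iff_mem hxt a _).mpr hw
  have hne : (Ideal.span {xSub K x a}).map (algebraMap (polyRing K x) (intRing K x)) ≠ ⊥ := by
    rw [map_span_xSub, Ne, Ideal.span_singleton_eq_bot]
    exact xSubInt_ne_zero hxt a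
  rw [ord_ofHeightOneSpectrum,
    Ideal.IsDedekindDomain.ramificationIdx_eq_multiplicity (Ideal.span {xSub K x a}) w.asIdeal hne,
    map_span_xSub]
  have h1 : w.valuation F (x - algebraMap K F a) = w.intValuation (xSubInt K x a) := by
    rw [← w.valuation_of_algebraMap (K := F)]
    rfl
  rw [h1, w.intValuation_eq_exp_neg_multiplicity (xSubInt_ne_zero hxt a), log_exp, neg_neg]

end Fundamental

section Fundamental2

open IntermediateField IntermediateField.algebraAdjoinAdjoin

variable {K F : Type*} [Field K] [Field F] [Algebra K F] {x : F}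
variable [CharZero K] [FiniteDimensional K⟮x⟯ F]

omit [CharZero K] [FiniteDimensional K⟮x⟯ F] in
theorem ne_bot_of_xSubInt_mem (hxt : Transcendental K x) (a : K) (q : Ideal (intRing K x))
    (h : xSubInt K x a ∈ q) : q ≠ ⊥ := by
  intro hq
  rw [hq] at h
  exact xSubInt_ne_zero hxt a (by simpa using h)

/-- Inertia degrees are one. -/
theorem inertiaDeg_eq_one [IsAlgClosed K] (hxt : Transcendental K x) (a : K)
    (q : Ideal (intRing K x)) [hq : q.IsPrime] [hlo : q.LiesOver (Ideal.span {xSub K x a})] :
    q.inertiaDeg (polyRing K x) = 1 := by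
  have hmax := isMaximal_span_xSub hxt a
  have hq0 : q ≠ ⊥ := ne_bot_of_xSubInt_mem hxt a q ((liesOver_iff_mem hxt a q).mp hlo)
  have hqmax : q.IsMaximal := hq.isMaximal hq0
  rw [Ideal.inertiaDeg_eq_of_isMaximal (Ideal.span {xSub K x a}) q]
  have hinj : Function.Injective
      (Algebra.linearMap (polyRing K x ⧸ Ideal.span {xSub K x a}) (intRing K x ⧸ q)) :=
    FaithfulSMul.algebraMap_injective _ _
  have hsurj : Function.Surjective
      (Algebra.linearMap (polyRing K x ⧸ Ideal.span {xSub K x a}) (intRing K x ⧸ q)) := by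
    intro z
    obtain ⟨b, rfl⟩ := Ideal.Quotient.mk_surjective z
    obtain ⟨c, hc⟩ := exists_sub_mem_asIdeal (K := K)
      (⟨q, hq, hq0⟩ : HeightOneSpectrum (intRing K x)) b
    refine ⟨Ideal.Quotient.mk _ (algebraMap K (polyRing K x) c), ?_⟩
    rw [Algebra.linearMap_apply, Ideal.Quotient.algebraMap_mk_of_liesOver]
    symm
    exact (Ideal.Quotient.eq).mpr hc
  have hnt : Nontrivial (polyRing K x ⧸ Ideal.span {xSub K x a}) :=
    Ideal.Quotient.nontrivial_iff.mpr hmax.ne_top
  let _ : Module (polyRing K x ⧸ Ideal.span {xSub K x a}) (intRing K x ⧸ q) := Algebra.toModule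
  have e : (polyRing K x ⧸ Ideal.span {xSub K x a}) ≃ₗ[polyRing K x ⧸ Ideal.span {xSub K x a}]
      (intRing K x ⧸ q) :=
    LinearEquiv.ofBijective
      (Algebra.linearMap (polyRing K x ⧸ Ideal.span {xSub K x a}) (intRing K x ⧸ q)) ⟨hinj, hsurj⟩
  have h1 := e.finrank_eq
  rw [← h1]
  exact Module.finrank_self _

/-- Positivity of the order of `x - a` at the place of `w` is membership of `x - a` in `w`. -/
theorem ord_pos_iff_xSubInt_mem (hxt : Transcendental K x) (a : K)
    (w : HeightOneSpectrum (intRing K x)) :
    0 < (Place.ofHeightOneSpectrum (K := K) w).ord (x - algebraMap K F a) ↔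
      xSubInt K x a ∈ w.asIdeal := by
  rw [ord_ofHeightOneSpectrum]
  have h1 : w.valuation F (x - algebraMap K F a) = w.intValuation (xSubInt K x a) := by
    rw [← w.valuation_of_algebraMap (K := F)]
    rfl
  have hne : w.intValuation (xSubInt K x a) ≠ 0 :=
    w.intValuation_ne_zero _ (xSubInt_ne_zero hxt a)
  rw [h1, ← w.intValuation_lt_one_iff_mem, neg_pos, ← WithZero.log_lt_log hne one_ne_zero,
    WithZero.log_one]

/-- The place attached to a prime of the integral closure over `(x - a)`. -/
def placeOver (hxt : Transcendental K x) (a : K)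
    (q : (Ideal.span {xSub K x a}).primesOver (intRing K x)) : Place K F :=
  Place.ofHeightOneSpectrum (K := K)
    (⟨q.1, q.2.1, ne_bot_of_xSubInt_mem hxt a q.1 (by
      have := q.2.1
      exact (liesOver_iff_mem hxt a q.1).mp q.2.2)⟩ : HeightOneSpectrum (intRing K x))

theorem placeOver_injective (hxt : Transcendental K x) (a : K) :
    Function.Injective (placeOver hxt a) := by
  intro q q' h
  have h1 := ofHeightOneSpectrum_injective h
  exact Subtype.ext (congrArg HeightOneSpectrum.asIdeal h1)

/-- The places where `x - a` has a zero are exactly the places of the primes over `(x - a)`. -/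
theorem range_placeOver (hxt : Transcendental K x) (a : K) :
    Set.range (placeOver hxt a) = {v : Place K F | 0 < v.ord (x - algebraMap K F a)} := by
  ext v
  constructor
  · rintro ⟨q, rfl⟩
    have := q.2.1
    exact (ord_pos_iff_xSubInt_mem hxt a _).mpr ((liesOver_iff_mem hxt a q.1).mp q.2.2)
  · intro hv
    have hv' : 0 < v.ord (x - algebraMap K F a) := hv
    have hmem : x - algebraMap K F a ∈ v.toValuationSubring :=
      (mem_iff_ord_nonneg v (sub_algebraMap_ne_zero hxt a)).mpr hv'.le
    have hx : x ∈ v.toValuationSubring := by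
      have := v.toValuationSubring.add_mem _ _ hmem (v.algebraMap_mem' a)
      simpa using this
    obtain ⟨w, rfl⟩ := exists_heightOneSpectrum v hx
    have hw : xSubInt K x a ∈ w.asIdeal := (ord_pos_iff_xSubInt_mem hxt a w).mp hv'
    have := w.isPrime
    exact ⟨⟨w.asIdeal, w.isPrime, (liesOver_iff_mem hxt a w.asIdeal).mpr hw⟩, rfl⟩

/-- `x - a` has finitely many zeros. -/
theorem finite_zeros (hxt : Transcendental K x) (a : K) :
    {v : Place K F | 0 < v.ord (x - algebraMap K F a)}.Finite := by
  rw [← range_placeOver hxt a]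
  have : Finite ((Ideal.span {xSub K x a}).primesOver (intRing K x)) :=
    Algebra.QuasiFinite.finite_primesOver _
  exact Set.finite_range _

/-- **Fundamental identity**: the zeros of `x - a`, counted with multiplicity, are `[F : K(x)]`
many. -/
theorem sum_ord_zeros [IsAlgClosed K] (hxt : Transcendental K x) (a : K) :
    ∑ᶠ v ∈ {v : Place K F | 0 < v.ord (x - algebraMap K F a)}, v.ord (x - algebraMap K F a) =
      (Module.finrank K⟮x⟯ F : ℤ) := by
  have hmax := isMaximal_span_xSub hxt a
  have hfin : ((Ideal.span {xSub K x a}).primesOver (intRing K x)).Finite :=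
    Algebra.QuasiFinite.finite_primesOver _
  let _ : Fintype ((Ideal.span {xSub K x a}).primesOver (intRing K x)) := hfin.fintype
  rw [← range_placeOver hxt a, finsum_mem_range (placeOver_injective hxt a),
    finsum_eq_sum_of_fintype, ← finrank_intRing (K := K) (x := x),
    ← Ideal.sum_ramification_inertia_eq_finrank (Ideal.span {xSub K x a}) (intRing K x),
    Nat.cast_sum]
  refine Finset.sum_congr rfl fun q _ => ?_
  have := q.2.1
  have := q.2.2
  have hq : xSubInt K x a ∈ q.1 := (liesOver_iff_mem hxt a q.1).mp q.2.2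
  rw [inertiaDeg_eq_one hxt a q.1, mul_one]
  exact ord_eq_ramificationIdx hxt a _ hq

end Fundamental2

section Poles

open IntermediateField

variable {K F : Type*} [Field K] [Field F] [Algebra K F]

theorem adjoin_inv (x : F) : K⟮x⁻¹⟯ = K⟮x⟯ := by
  apply le_antisymm
  · rw [adjoin_simple_le_iff]
    exact inv_mem (mem_adjoin_simple_self K x)
  · rw [adjoin_simple_le_iff]
    have := inv_mem (mem_adjoin_simple_self K x⁻¹)
    rwa [inv_inv] at this

theorem adjoin_sub_algebraMap (x : F) (a : K) : K⟮x - algebraMap K F a⟯ = K⟮x⟯ := by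
  apply le_antisymm
  · rw [adjoin_simple_le_iff]
    exact sub_mem (mem_adjoin_simple_self K x) (IntermediateField.algebraMap_mem _ a)
  · rw [adjoin_simple_le_iff]
    have := add_mem (mem_adjoin_simple_self K (x - algebraMap K F a))
      (IntermediateField.algebraMap_mem K⟮x - algebraMap K F a⟯ a)
    rwa [sub_add_cancel] at this

theorem finiteDimensional_of_eq {E E' : IntermediateField K F} (h : E = E')
    [hE : FiniteDimensional E F] : FiniteDimensional E' F := by
  subst h
  exact hE

theorem finrank_of_eq {E E' : IntermediateField K F} (h : E = E') :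
    Module.finrank E F = Module.finrank E' F := by
  subst h
  rfl

theorem transcendental_inv {x : F} (hxt : Transcendental K x) : Transcendental K x⁻¹ :=
  fun h => hxt (IsAlgebraic.inv_iff.mp h)

theorem transcendental_sub_algebraMap {x : F} (hxt : Transcendental K x) (a : K) :
    Transcendental K (x - algebraMap K F a) := by
  intro h
  apply hxt
  have := h.add (isAlgebraic_algebraMap (R := K) (A := F) a)
  rwa [sub_add_cancel] at this

variable {x : F} [CharZero K] [FiniteDimensional K⟮x⟯ F]

omit [CharZero K] [FiniteDimensional K⟮x⟯ F] in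
theorem poles_eq (x : F) :
    {v : Place K F | v.ord x < 0} = {v : Place K F | 0 < v.ord (x⁻¹ - algebraMap K F 0)} := by
  ext v
  simp [Place.ord_inv]

/-- `x` has finitely many zeros. -/
theorem finite_zeros_self (hxt : Transcendental K x) : {v : Place K F | 0 < v.ord x}.Finite := by
  simpa using finite_zeros hxt 0

/-- The zeros of `x`, counted with multiplicity, are `[F : K(x)]` many. -/
theorem sum_ord_zeros_self [IsAlgClosed K] (hxt : Transcendental K x) :
    ∑ᶠ v ∈ {v : Place K F | 0 < v.ord x}, v.ord x = (Module.finrank K⟮x⟯ F : ℤ) := by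
  simpa using sum_ord_zeros hxt 0

/-- `x` has finitely many poles. -/
theorem finite_poles (hxt : Transcendental K x) : {v : Place K F | v.ord x < 0}.Finite := by
  have : FiniteDimensional K⟮x⁻¹⟯ F := finiteDimensional_of_eq (adjoin_inv (K := K) x).symm
  rw [poles_eq]
  exact finite_zeros (transcendental_inv hxt) 0

/-- The poles of `x`, counted with multiplicity, are `[F : K(x)]` many. -/
theorem sum_ord_poles [IsAlgClosed K] (hxt : Transcendental K x) :
    ∑ᶠ v ∈ {v : Place K F | v.ord x < 0}, v.ord x = -(Module.finrank K⟮x⟯ F : ℤ) := by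
  have : FiniteDimensional K⟮x⁻¹⟯ F := finiteDimensional_of_eq (adjoin_inv (K := K) x).symm
  have h := sum_ord_zeros (transcendental_inv hxt) 0
  rw [← poles_eq, finrank_of_eq (adjoin_inv (K := K) x)] at h
  have hneg : ∑ᶠ v ∈ {v : Place K F | v.ord x < 0}, v.ord x =
      ∑ᶠ v ∈ {v : Place K F | v.ord x < 0}, -(v.ord (x⁻¹ - algebraMap K F 0)) :=
    finsum_mem_congr rfl fun v _ => by simp [Place.ord_inv]
  rw [hneg, finsum_mem_neg_distrib _ (finite_poles hxt), h]

end Poles

end Fermat.Agent.Lib.FFPlaces
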