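import Fermat.Agent.Lib.LocalDisc

/-!
# The local discriminant lemma: counting the primes over `ϖ` (S18, generic package G5)

`R` a principal ideal domain, `ϖ` a prime element, `B` a finite `R`-algebra.  The primes of `B`
containing `ϖ` are maximal and finite in number, and

`length_R (B ⧸ rad (ϖ B)) = ∑_P length_R (B ⧸ P)`;

when every `R → B ⧸ P` is surjective (all residue degrees are one, e.g. over an algebraically
closed constant field) the length is the number of primes of `B` containing `ϖ`.  Combined with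
`Fermat.Agent.Lib.LocalDisc.pow_dvd_discr` this gives `ϖ ^ (n - #fibre) ∣ disc`, with equality of
exponents in the tame case.
-/

set_option autoImplicit false

namespace Fermat.Agent.Lib.LocalDisc

open Module

section Count

variable {R : Type*} [CommRing R] [IsPrincipalIdealRing R]
  {B : Type*} [CommRing B] [Algebra R B] [Module.Finite R B]

/-- A prime of `B` containing `ϖ` is maximal. -/
theorem isMaximal_of_mem {ϖ : R} (hϖ : Irreducible ϖ) {P : Ideal B} (hP : P.IsPrime)
    (hϖP : algebraMap R B ϖ ∈ P) : P.IsMaximal := by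
  have hmax : (Ideal.span {ϖ}).IsMaximal := PrincipalIdealRing.isMaximal_of_irreducible hϖ
  have hle : Ideal.span {ϖ} ≤ P.comap (algebraMap R B) := by
    rw [Ideal.span_singleton_le_iff_mem]
    exact hϖP
  have hcomap : (P.comap (algebraMap R B)).IsPrime := Ideal.comap_isPrime _ P
  have heq : Ideal.span {ϖ} = P.comap (algebraMap R B) := hmax.eq_of_le hcomap.ne_top hle
  exact Ideal.isMaximal_of_isIntegral_of_isMaximal_comap P (heq ▸ hmax)

/-- There are finitely many primes of `B` containing `ϖ`. -/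
theorem finite_primes_over {ϖ : R} (hϖ : Irreducible ϖ) :
    {P : Ideal B | P.IsPrime ∧ algebraMap R B ϖ ∈ P}.Finite := by
  have : IsNoetherianRing B := IsNoetherianRing.of_finite R B
  refine (Ideal.finite_minimalPrimes_of_isNoetherianRing B
    (Ideal.span {algebraMap R B ϖ})).subset ?_
  rintro P ⟨hP, hϖP⟩
  refine ⟨⟨hP, (Ideal.span_singleton_le_iff_mem _).mpr hϖP⟩, ?_⟩
  rintro Q ⟨hQ, hQle⟩ hQP
  have hQmax := isMaximal_of_mem hϖ hQ ((Ideal.span_singleton_le_iff_mem _).mp hQle)
  exact (hQmax.eq_of_le hP.ne_top hQP).ge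

omit [IsPrincipalIdealRing R] [Module.Finite R B] in
theorem radical_eq_iInf_primes (ϖ : R) :
    (Ideal.span {algebraMap R B ϖ}).radical
      = ⨅ P : {P : Ideal B // P.IsPrime ∧ algebraMap R B ϖ ∈ P}, P.1 := by
  apply le_antisymm
  · exact le_iInf fun P =>
      P.2.1.radical_le_iff.mpr ((Ideal.span_singleton_le_iff_mem _).mpr P.2.2)
  · rw [Ideal.radical_eq_sInf]
    exact le_sInf fun Q hQ =>
      iInf_le_of_le ⟨Q, hQ.2, (Ideal.span_singleton_le_iff_mem _).mp hQ.1⟩ le_rfl

/-- `length_R (B ⧸ rad (ϖ B))` is the sum of the lengths of the residue rings at the primes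
containing `ϖ`. -/
theorem length_quotient_radical_eq_sum {ϖ : R} (hϖ : Irreducible ϖ)
    [Fintype {P : Ideal B // P.IsPrime ∧ algebraMap R B ϖ ∈ P}] :
    Module.length R (B ⧸ (Ideal.span {algebraMap R B ϖ}).radical)
      = ∑ P : {P : Ideal B // P.IsPrime ∧ algebraMap R B ϖ ∈ P}, Module.length R (B ⧸ P.1) := by
  classical
  have hcop : Pairwise (Function.onFun IsCoprime
      fun P : {P : Ideal B // P.IsPrime ∧ algebraMap R B ϖ ∈ P} => P.1) := by
    intro P Q hPQ
    have hP := isMaximal_of_mem hϖ P.2.1 P.2.2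
    have hQ := isMaximal_of_mem hϖ Q.2.1 Q.2.2
    exact Ideal.isCoprime_iff_sup_eq.mpr (hP.coprime_of_ne hQ (fun h => hPQ (Subtype.ext h)))
  let e : (B ⧸ (Ideal.span {algebraMap R B ϖ}).radical) ≃ₐ[R]
      ∀ P : {P : Ideal B // P.IsPrime ∧ algebraMap R B ϖ ∈ P}, B ⧸ P.1 :=
    (Ideal.quotientEquivAlgOfEq R (radical_eq_iInf_primes ϖ)).trans
      { __ := Ideal.quotientInfRingEquivPiQuotient _ hcop
        commutes' := fun _ => rfl }
  rw [e.toLinearEquiv.length_eq, Module.length_pi_of_fintype]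

omit [Module.Finite R B] in
/-- If `R → B ⧸ P` is surjective, then `B ⧸ P` is a simple `R`-module. -/
theorem length_quotient_eq_one_of_surjective {ϖ : R} (hϖ : Irreducible ϖ) {P : Ideal B}
    (hP : P.IsPrime) (hϖP : algebraMap R B ϖ ∈ P)
    (hf : Function.Surjective (algebraMap R (B ⧸ P))) : Module.length R (B ⧸ P) = 1 := by
  have hmax : (Ideal.span {ϖ}).IsMaximal := PrincipalIdealRing.isMaximal_of_irreducible hϖ
  have hnt : Nontrivial (B ⧸ P) := Ideal.Quotient.nontrivial_iff.mpr hP.ne_top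
  obtain ⟨f, hfdef⟩ : ∃ f : R →ₗ[R] B ⧸ P, f = Algebra.linearMap R (B ⧸ P) := ⟨_, rfl⟩
  have hfs : Function.Surjective f := by
    rw [hfdef]
    exact hf
  have hker : Ideal.span {ϖ} = LinearMap.ker f := by
    refine hmax.eq_of_le ?_ ?_
    · intro h
      have h1 : (1 : R) ∈ LinearMap.ker f := h ▸ Submodule.mem_top
      rw [LinearMap.mem_ker, hfdef, Algebra.linearMap_apply, map_one] at h1
      exact one_ne_zero h1
    · rw [Ideal.span_singleton_le_iff_mem, LinearMap.mem_ker, hfdef, Algebra.linearMap_apply,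
        ← Ideal.Quotient.mk_algebraMap, Ideal.Quotient.eq_zero_iff_mem]
      exact hϖP
  rw [← (f.quotKerEquivOfSurjective hfs).length_eq, Module.length_eq_one_iff]
  exact isSimpleModule_iff_isCoatom.mpr (hker ▸ Ideal.isMaximal_def.mp hmax)

/-- When all residue degrees over `ϖ` are one, `length_R (B ⧸ rad (ϖ B))` is the number of primes
of `B` containing `ϖ`. -/
theorem length_quotient_radical_eq_card {ϖ : R} (hϖ : Irreducible ϖ)
    (hf : ∀ P : Ideal B, P.IsPrime → algebraMap R B ϖ ∈ P →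
      Function.Surjective (algebraMap R (B ⧸ P))) :
    Module.length R (B ⧸ (Ideal.span {algebraMap R B ϖ}).radical)
      = (Nat.card {P : Ideal B // P.IsPrime ∧ algebraMap R B ϖ ∈ P} : ℕ∞) := by
  have hfin : Finite {P : Ideal B // P.IsPrime ∧ algebraMap R B ϖ ∈ P} :=
    (finite_primes_over hϖ).to_subtype
  let _ : Fintype {P : Ideal B // P.IsPrime ∧ algebraMap R B ϖ ∈ P} := Fintype.ofFinite _
  have h1 : ∀ P : {P : Ideal B // P.IsPrime ∧ algebraMap R B ϖ ∈ P},
      Module.length R (B ⧸ P.1) = 1 := fun P =>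
    length_quotient_eq_one_of_surjective hϖ P.2.1 P.2.2 (hf P.1 P.2.1 P.2.2)
  rw [length_quotient_radical_eq_sum hϖ, Finset.sum_congr rfl (fun P _ => h1 P),
    Finset.sum_const, Finset.card_univ, Nat.card_eq_fintype_card, nsmul_eq_mul, mul_one]

omit [IsPrincipalIdealRing R] in
/-- Over an algebraically closed constant field `k` with `R ⧸ ϖ = k`, all residue degrees over
`ϖ` are one. -/
theorem surjective_algebraMap_quotient_of_isAlgClosed {k : Type*} [Field k] [IsAlgClosed k]
    (φ : k →+* R) {ϖ : R} (hk : ∀ r : R, ∃ a : k, ϖ ∣ r - φ a)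
    {P : Ideal B} (hP : P.IsPrime) (hϖP : algebraMap R B ϖ ∈ P) :
    Function.Surjective (algebraMap R (B ⧸ P)) := by
  have hdom : IsDomain (B ⧸ P) := Ideal.Quotient.isDomain P
  obtain ⟨ψ, hψ⟩ : ∃ ψ : k →+* B ⧸ P, ψ = (algebraMap R (B ⧸ P)).comp φ := ⟨_, rfl⟩
  have hϖ0 : algebraMap R (B ⧸ P) ϖ = 0 := by
    rw [← Ideal.Quotient.mk_algebraMap, Ideal.Quotient.eq_zero_iff_mem]
    exact hϖP
  have hrange : ∀ r : R, algebraMap R (B ⧸ P) r ∈ Set.range ψ := by
    intro r
    obtain ⟨a, t, ht⟩ := hk r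
    refine ⟨a, ?_⟩
    rw [hψ, RingHom.comp_apply]
    have h1 : r = φ a + ϖ * t := by linear_combination ht
    rw [h1, map_add, map_mul, hϖ0, zero_mul, add_zero]
  have hint : ψ.IsIntegral := by
    intro x
    obtain ⟨y, rfl⟩ := Ideal.Quotient.mk_surjective x
    obtain ⟨p, hp, hpy⟩ := Algebra.IsIntegral.isIntegral (R := R) y
    have hlift : p.map (algebraMap R (B ⧸ P)) ∈ Polynomial.lifts ψ := by
      rw [Polynomial.lifts_iff_coeff_lifts]
      intro n
      rw [Polynomial.coeff_map]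
      exact hrange _
    obtain ⟨q, hq, -, hqm⟩ := Polynomial.lifts_and_natDegree_eq_and_monic hlift (hp.map _)
    refine ⟨q, hqm, ?_⟩
    rw [Polynomial.eval₂_eq_eval_map, hq, ← Polynomial.eval₂_eq_eval_map]
    have h1 := congrArg (Ideal.Quotient.mk P) hpy
    rw [Polynomial.hom_eval₂, map_zero] at h1
    exact h1
  have hsurj := (IsAlgClosed.ringHom_bijective_of_isIntegral ψ hint).2
  intro x
  obtain ⟨a, rfl⟩ := hsurj x
  exact ⟨φ a, by rw [hψ]; rfl⟩

end Count

section Combined

variable {R : Type*} [CommRing R] [IsDomain R] [IsPrincipalIdealRing R]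
  {B : Type*} [CommRing B] [Algebra R B]
  {ι : Type*} [Fintype ι] [DecidableEq ι]

/-- **Local discriminant lemma, lower bound, residue degree one.**  `ϖ ^ (n - g) ∣ disc`, where
`g` is the number of primes of `B` containing `ϖ`. -/
theorem pow_dvd_discr_of_surjective [IsDomain B] {ϖ : R} (hϖ : Irreducible ϖ)
    (b : Basis ι R B)
    (hf : ∀ P : Ideal B, P.IsPrime → algebraMap R B ϖ ∈ P →
      Function.Surjective (algebraMap R (B ⧸ P))) :
    Nat.card {P : Ideal B // P.IsPrime ∧ algebraMap R B ϖ ∈ P} ≤ Fintype.card ι ∧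
      ϖ ^ (Fintype.card ι - Nat.card {P : Ideal B // P.IsPrime ∧ algebraMap R B ϖ ∈ P})
        ∣ Algebra.discr R b := by
  have : Module.Finite R B := Module.Finite.of_basis b
  obtain ⟨d, hlen, hdn, hdvd⟩ := pow_dvd_discr hϖ b
  rw [length_quotient_radical_eq_card hϖ hf] at hlen
  have hd : Nat.card {P : Ideal B // P.IsPrime ∧ algebraMap R B ϖ ∈ P} = d := by
    exact_mod_cast hlen
  rw [hd]
  exact ⟨hdn, hdvd⟩

/-- **Local discriminant lemma, exact form (tame case), residue degree one.**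
`disc = ϖ ^ (n - g) * t` with `ϖ ∤ t`, where `g` is the number of primes of `B` containing `ϖ`. -/
theorem discr_eq_pow_mul_not_dvd_of_surjective [IsDedekindDomain B] {ϖ : R}
    (hϖ : Irreducible ϖ) (hchar : ∀ m : ℕ, m ≠ 0 → ¬ ϖ ∣ (m : R)) (b : Basis ι R B)
    (hf : ∀ P : Ideal B, P.IsPrime → algebraMap R B ϖ ∈ P →
      Function.Surjective (algebraMap R (B ⧸ P))) :
    Nat.card {P : Ideal B // P.IsPrime ∧ algebraMap R B ϖ ∈ P} ≤ Fintype.card ι ∧
      ∃ t : R, ¬ ϖ ∣ t ∧ Algebra.discr R b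
        = ϖ ^ (Fintype.card ι - Nat.card {P : Ideal B // P.IsPrime ∧ algebraMap R B ϖ ∈ P}) * t := by
  have : Module.Finite R B := Module.Finite.of_basis b
  obtain ⟨d, hlen, hdn, t, ht, hdisc⟩ := discr_eq_pow_mul_not_dvd hϖ hchar b
  rw [length_quotient_radical_eq_card hϖ hf] at hlen
  have hd : Nat.card {P : Ideal B // P.IsPrime ∧ algebraMap R B ϖ ∈ P} = d := by
    exact_mod_cast hlen
  rw [hd]
  exact ⟨hdn, t, ht, hdisc⟩

/-- **Local discriminant lemma, lower bound, algebraically closed constants.**  If `R ⧸ ϖ = k`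
is algebraically closed, then `ϖ ^ (n - g) ∣ disc`, `g` the number of primes of `B` over `ϖ`. -/
theorem pow_dvd_discr_of_isAlgClosed [IsDomain B] {k : Type*} [Field k] [IsAlgClosed k]
    (φ : k →+* R) {ϖ : R} (hϖ : Irreducible ϖ) (hk : ∀ r : R, ∃ a : k, ϖ ∣ r - φ a)
    (b : Basis ι R B) :
    Nat.card {P : Ideal B // P.IsPrime ∧ algebraMap R B ϖ ∈ P} ≤ Fintype.card ι ∧
      ϖ ^ (Fintype.card ι - Nat.card {P : Ideal B // P.IsPrime ∧ algebraMap R B ϖ ∈ P})
        ∣ Algebra.discr R b := by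
  have : Module.Finite R B := Module.Finite.of_basis b
  exact pow_dvd_discr_of_surjective hϖ b fun P hP hϖP =>
    surjective_algebraMap_quotient_of_isAlgClosed φ hk hP hϖP

/-- **Local discriminant lemma, exact form, algebraically closed constants of characteristic
zero.**  `disc = ϖ ^ (n - g) * t` with `ϖ ∤ t`, `g` the number of primes of `B` over `ϖ`. -/
theorem discr_eq_pow_mul_not_dvd_of_isAlgClosed [IsDedekindDomain B] {k : Type*} [Field k]
    [IsAlgClosed k] [CharZero k]
    (φ : k →+* R) {ϖ : R} (hϖ : Irreducible ϖ) (hk : ∀ r : R, ∃ a : k, ϖ ∣ r - φ a)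
    (b : Basis ι R B) :
    Nat.card {P : Ideal B // P.IsPrime ∧ algebraMap R B ϖ ∈ P} ≤ Fintype.card ι ∧
      ∃ t : R, ¬ ϖ ∣ t ∧ Algebra.discr R b
        = ϖ ^ (Fintype.card ι - Nat.card {P : Ideal B // P.IsPrime ∧ algebraMap R B ϖ ∈ P}) * t := by
  have : Module.Finite R B := Module.Finite.of_basis b
  have hchar : ∀ m : ℕ, m ≠ 0 → ¬ ϖ ∣ (m : R) := by
    intro m hm hdvd
    have hu : IsUnit (m : R) := by
      have h1 : IsUnit (m : k) := isUnit_iff_ne_zero.mpr (Nat.cast_ne_zero.mpr hm)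
      have h2 := h1.map φ
      rwa [map_natCast] at h2
    exact hϖ.not_isUnit (isUnit_of_dvd_unit hdvd hu)
  exact discr_eq_pow_mul_not_dvd_of_surjective hϖ hchar b fun P hP hϖP =>
    surjective_algebraMap_quotient_of_isAlgClosed φ hk hP hϖP

end Combined

end Fermat.Agent.Lib.LocalDisc
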