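import Mathlib
import Fermat.Agent.S53.Defs

set_option autoImplicit false

namespace Fermat.Agent.Lib.DefMat

open Fermat.Agent.S53.Defs
open scoped TensorProduct

variable {A B : Type} [CommRing A] [IsLocalRing A] [CommRing B] [IsLocalRing B]

theorem map_maximalIdeal_pow_le (φ : A →+* B) (hφ : IsLocalHom φ) (n : ℕ) :
    (IsLocalRing.maximalIdeal A ^ n).map φ ≤ IsLocalRing.maximalIdeal B ^ n := by
  rw [Ideal.map_pow]
  exact Ideal.pow_right_mono (Ideal.map_le_iff_le_comap.mpr fun a ha =>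
    Ideal.mem_comap.mpr (haveI := hφ; map_nonunit φ a ha)) n

/-- (M1) continuity is preserved by pushing forward along a local homomorphism. -/
theorem isContMat_mapRep (φ : A →+* B) (hφ : IsLocalHom φ) {ρ : Γ →* M2 A}
    (hc : IsContMat A ρ) : IsContMat B (mapRep φ ρ) := by
  intro n
  obtain ⟨L, hL, h1⟩ := hc n
  refine ⟨L, hL, fun σ hσ i j => ?_⟩
  have h2 := map_maximalIdeal_pow_le φ hφ n (Ideal.mem_map_of_mem φ (h1 σ hσ i j))
  have h3 : (mapRep φ ρ σ - 1) i j = φ ((ρ σ - 1) i j) := by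
    rw [mapRep_apply, Matrix.sub_apply, Matrix.sub_apply, Matrix.map_apply, map_sub,
      Matrix.one_apply, Matrix.one_apply]
    split_ifs <;> simp
  rw [h3]
  exact h2

theorem piScalarRight_baseChange (φ : A →+* B) (M : M2 A) :
    letI : Algebra A B := φ.toAlgebra
    ∀ x : B ⊗[A] (Fin 2 → A),
      TensorProduct.piScalarRight A B B (Fin 2) ((Matrix.toLin' M).baseChange B x) =
        (M.map φ).mulVec (TensorProduct.piScalarRight A B B (Fin 2) x) := by
  let _ : Algebra A B := φ.toAlgebra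
  intro x
  induction x using TensorProduct.induction_on with
  | zero => simp
  | tmul b v =>
    rw [LinearMap.baseChange_tmul, TensorProduct.piScalarRight_apply,
      TensorProduct.piScalarRight_apply, TensorProduct.piScalarRightHom_tmul,
      TensorProduct.piScalarRightHom_tmul, Matrix.toLin'_apply]
    funext i
    simp only [Matrix.mulVec, dotProduct, Matrix.map_apply, Algebra.smul_def,
      RingHom.algebraMap_toAlgebra, map_sum, map_mul, Finset.sum_mul]
    refine Finset.sum_congr rfl fun j _ => ?_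
    ring
  | add x y hx hy => simp only [map_add, hx, hy, Matrix.mulVec_add]

/-- (M2) base change of `ofMat` is `ofMat` of the pushed-forward matrices. -/
theorem ofMat_baseChangeAlong (φ : A →+* B) (hφ : IsLocalHom φ) (ρ : Γ →* M2 A)
    (hc : IsContMat A ρ) (hc' : IsContMat B (mapRep φ ρ)) :
    ((ofMat ρ hc).baseChangeAlong φ hφ).IsEquiv (ofMat (mapRep φ ρ) hc') := by
  letI : Algebra A B := φ.toAlgebra
  refine ⟨{ toLinearEquiv := (TensorProduct.piScalarRight A B B (Fin 2) :
      B ⊗[A] (Fin 2 → A) ≃ₗ[B] (Fin 2 → B)), map_apply := ?_ }⟩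
  intro σ x
  exact piScalarRight_baseChange φ (ρ σ) x

/-- (M3) equivalence of `ofMat`s is conjugacy by an invertible matrix. -/
theorem ofMat_isEquiv_iff (ρ ρ' : Γ →* M2 A) (hc : IsContMat A ρ) (hc' : IsContMat A ρ') :
    (ofMat ρ hc).IsEquiv (ofMat ρ' hc') ↔
      ∃ X : M2 A, IsUnit X.det ∧ ∀ g, X * ρ g = ρ' g * X := by
  constructor
  · rintro ⟨e⟩
    let f : (Fin 2 → A) ≃ₗ[A] (Fin 2 → A) := e.toLinearEquiv
    refine ⟨LinearMap.toMatrix' (f : (Fin 2 → A) →ₗ[A] (Fin 2 → A)), ?_, fun g => ?_⟩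
    · rw [LinearMap.det_toMatrix']
      exact LinearEquiv.isUnit_det' f
    · apply Matrix.toLin'.injective
      refine LinearMap.ext fun x => ?_
      rw [Matrix.toLin'_mul, Matrix.toLin'_mul, Matrix.toLin'_toMatrix', LinearMap.comp_apply,
        LinearMap.comp_apply, Matrix.toLin'_apply, Matrix.toLin'_apply]
      exact e.map_apply g x
  · rintro ⟨X, hX, hconj⟩
    haveI : Invertible X := ((Matrix.isUnit_iff_isUnit_det X).mpr hX).invertible
    refine ⟨{ toLinearEquiv := Matrix.toLinearEquiv' X inferInstance, map_apply := ?_ }⟩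
    intro σ x
    have key : ∀ y : Fin 2 → A, X.mulVec ((ρ σ).mulVec y) = (ρ' σ).mulVec (X.mulVec y) :=
      fun y => by rw [Matrix.mulVec_mulVec, Matrix.mulVec_mulVec, hconj]
    exact key x

/-- (M4) every representation is `ofMat` of its matrices in a basis. -/
theorem exists_ofMat (ρA : GaloisRepAdic A) (b : Module.Basis (Fin 2) A ρA.V) :
    ∃ (r : Γ →* M2 A) (hc : IsContMat A r), ρA.IsEquiv (ofMat r hc) ∧
      ∀ σ, r σ = LinearMap.toMatrix b b (ρA.ρ σ) := by
  let r : Γ →* M2 A := (LinearMap.toMatrixAlgEquiv b).toAlgHom.toRingHom.toMonoidHom.comp ρA.ρ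
  have hr : ∀ σ, r σ = LinearMap.toMatrix b b (ρA.ρ σ) := fun σ => rfl
  have hmem : ∀ (n : ℕ) (w : ρA.V),
      w ∈ (IsLocalRing.maximalIdeal A ^ n) • (⊤ : Submodule A ρA.V) →
      ∀ i, b.repr w i ∈ IsLocalRing.maximalIdeal A ^ n := by
    intro n w hw i
    refine Submodule.smul_induction_on (p := fun w => b.repr w i ∈ IsLocalRing.maximalIdeal A ^ n)
      hw ?_ ?_
    · intro a ha v _
      rw [map_smul, Finsupp.smul_apply, smul_eq_mul]
      exact Ideal.mul_mem_right _ _ ha
    · intro x y hx hy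
      rw [map_add, Finsupp.add_apply]
      exact Ideal.add_mem _ hx hy
  have hc : IsContMat A r := by
    intro n
    obtain ⟨L, hL, h1⟩ := ρA.isAdicContinuous n
    refine ⟨L, hL, fun σ hσ i j => ?_⟩
    have h2 := hmem n _ (h1 σ hσ (b j)) i
    have h3 : (r σ - 1) i j = b.repr (ρA.ρ σ (b j) - b j) i := by
      rw [hr, Matrix.sub_apply, LinearMap.toMatrix_apply, map_sub, Finsupp.sub_apply,
        Matrix.one_apply, Module.Basis.repr_self, Finsupp.single_apply]
      congr 1
      by_cases hij : i = j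
      · simp [hij]
      · simp [hij, Ne.symm hij]
    rw [h3]
    exact h2
  refine ⟨r, hc, ⟨{ toLinearEquiv := b.equivFun, map_apply := ?_ }⟩, hr⟩
  intro σ x
  show b.equivFun (ρA.ρ σ x) = (r σ).mulVec (b.equivFun x)
  rw [hr]
  exact (LinearMap.toMatrix_mulVec_repr b b (ρA.ρ σ) x).symm

section conj

variable {G : Type} [Monoid G]

/-- (M5) conjugate of a matrix representation. -/
def conjRep (X Y : M2 A) (h : X * Y = 1) (h' : Y * X = 1) (ρ : G →* M2 A) : G →* M2 A where
  toFun σ := X * ρ σ * Y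
  map_one' := by rw [map_one, mul_one, h]
  map_mul' σ τ := by
    rw [map_mul]
    calc X * (ρ σ * ρ τ) * Y = X * ρ σ * 1 * ρ τ * Y := by simp only [mul_one, mul_assoc]
      _ = X * ρ σ * (Y * X) * ρ τ * Y := by rw [h']
      _ = X * ρ σ * Y * (X * ρ τ * Y) := by simp only [mul_assoc]

theorem conjRep_apply (X Y : M2 A) (h : X * Y = 1) (h' : Y * X = 1) (ρ : G →* M2 A) (σ : G) :
    conjRep X Y h h' ρ σ = X * ρ σ * Y := rfl

end conj

theorem mul_mem_entries (I : Ideal A) (X Z Y : M2 A) (hZ : ∀ i j, Z i j ∈ I) (i j : Fin 2) :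
    (X * Z * Y) i j ∈ I := by
  rw [Matrix.mul_apply]
  refine Ideal.sum_mem _ fun k _ => Ideal.mul_mem_right _ _ ?_
  rw [Matrix.mul_apply]
  exact Ideal.sum_mem _ fun l _ => Ideal.mul_mem_left _ _ (hZ l k)

theorem isContMat_conjRep (X Y : M2 A) (h : X * Y = 1) (h' : Y * X = 1) {ρ : Γ →* M2 A}
    (hc : IsContMat A ρ) : IsContMat A (conjRep X Y h h' ρ) := by
  intro n
  obtain ⟨L, hL, h1⟩ := hc n
  refine ⟨L, hL, fun σ hσ i j => ?_⟩
  have h3 : conjRep X Y h h' ρ σ - 1 = X * (ρ σ - 1) * Y := by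
    rw [conjRep_apply, mul_sub, sub_mul, mul_one, h]
  rw [h3]
  exact mul_mem_entries _ X _ Y (h1 σ hσ) i j

theorem ofMat_conjRep_isEquiv (X Y : M2 A) (h : X * Y = 1) (h' : Y * X = 1) (ρ : Γ →* M2 A)
    (hc : IsContMat A ρ) (hc' : IsContMat A (conjRep X Y h h' ρ)) :
    (ofMat ρ hc).IsEquiv (ofMat (conjRep X Y h h' ρ) hc') := by
  rw [ofMat_isEquiv_iff]
  refine ⟨X, ?_, fun g => ?_⟩
  · have : X.det * Y.det = 1 := by rw [← Matrix.det_mul, h, Matrix.det_one]
    exact IsUnit.of_mul_eq_one _ this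
  · rw [conjRep_apply, mul_assoc, mul_assoc, h', mul_one]

section residual

variable {k : Type} [Field k]

/-- two families of endomorphisms with equal matrices in two bases are intertwined by the
equivalence matching the bases. -/
theorem intertwine_of_toMatrix_eq {K V W : Type} [Field K] [AddCommGroup V] [Module K V]
    [AddCommGroup W] [Module K W] (bV : Module.Basis (Fin 2) K V) (bW : Module.Basis (Fin 2) K W)
    (f : V →ₗ[K] V) (g : W →ₗ[K] W)
    (h : LinearMap.toMatrix bV bV f = LinearMap.toMatrix bW bW g) (x : V) :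
    (bV.equivFun.trans bW.equivFun.symm) (f x) = g ((bV.equivFun.trans bW.equivFun.symm) x) := by
  apply bW.equivFun.injective
  rw [LinearEquiv.trans_apply, LinearEquiv.apply_symm_apply, LinearEquiv.trans_apply]
  have h1 := LinearMap.toMatrix_mulVec_repr bV bV f x
  have h2 := LinearMap.toMatrix_mulVec_repr bW bW g (bW.equivFun.symm (bV.equivFun x))
  have h3 : (bW.repr (bW.equivFun.symm (bV.equivFun x)) : Fin 2 → K) = bV.equivFun x :=
    bW.equivFun.apply_symm_apply _
  rw [h3] at h2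
  show (bV.repr (f x) : Fin 2 → K) = (bW.repr (g (bW.equivFun.symm (bV.equivFun x))) : Fin 2 → K)
  rw [← h1, ← h2, h]
  rfl

/-- (M6) residual criterion: matrices congruent to those of `ρbar` give a residual
equivalence. -/
theorem residual_isEquiv_of_basis (ρA : GaloisRepAdic A) (b : Module.Basis (Fin 2) A ρA.V)
    (ρbar : ResidualGaloisRep k) (b0 : Module.Basis (Fin 2) k ρbar.V)
    (ψ : k →+* IsLocalRing.ResidueField A)
    (h : ∀ σ i j, IsLocalRing.residue A (LinearMap.toMatrix b b (ρA.ρ σ) i j) =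
      ψ (LinearMap.toMatrix b0 b0 (ρbar.ρ σ) i j)) :
    ρA.residual.IsEquiv (ρbar.baseChangeAlong ψ) := by
  letI : Algebra k (IsLocalRing.ResidueField A) := ψ.toAlgebra
  let bV : Module.Basis (Fin 2) (IsLocalRing.ResidueField A)
      (IsLocalRing.ResidueField A ⊗[A] ρA.V) :=
    Algebra.TensorProduct.basis (IsLocalRing.ResidueField A) b
  let bW : Module.Basis (Fin 2) (IsLocalRing.ResidueField A)
      (IsLocalRing.ResidueField A ⊗[k] ρbar.V) :=
    Algebra.TensorProduct.basis (IsLocalRing.ResidueField A) b0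
  refine ⟨{ toLinearEquiv := bV.equivFun.trans bW.equivFun.symm, map_apply := ?_ }⟩
  intro σ x
  refine intertwine_of_toMatrix_eq bV bW ((ρA.ρ σ).baseChange (IsLocalRing.ResidueField A))
    ((ρbar.ρ σ).baseChange (IsLocalRing.ResidueField A)) ?_ x
  rw [LinearMap.toMatrix_baseChange, LinearMap.toMatrix_baseChange]
  ext i j
  rw [Matrix.map_apply, Matrix.map_apply]
  exact h σ i j

/-- (M6') residual criterion for `ofMat`. -/
theorem ofMat_residual_isEquiv (r : Γ →* M2 A) (hc : IsContMat A r)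
    (ρbar : ResidualGaloisRep k) (b0 : Module.Basis (Fin 2) k ρbar.V)
    (ψ : k →+* IsLocalRing.ResidueField A)
    (h : ∀ σ i j, IsLocalRing.residue A (r σ i j) =
      ψ (LinearMap.toMatrix b0 b0 (ρbar.ρ σ) i j)) :
    (ofMat r hc).residual.IsEquiv (ρbar.baseChangeAlong ψ) := by
  refine residual_isEquiv_of_basis (ofMat r hc) (Pi.basisFun A (Fin 2)) ρbar b0 ψ ?_
  intro σ i j
  have h1 : LinearMap.toMatrix (Pi.basisFun A (Fin 2)) (Pi.basisFun A (Fin 2))
      (Matrix.toLin' (r σ)) = r σ := by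
    rw [LinearMap.toMatrix_eq_toMatrix', LinearMap.toMatrix'_toLin']
  have h2 : LinearMap.toMatrix (Pi.basisFun A (Fin 2)) (Pi.basisFun A (Fin 2))
      ((ofMat r hc).ρ σ) = r σ := h1
  exact (congrArg (IsLocalRing.residue A) (congrFun (congrFun h2 i) j)).trans (h σ i j)

end residual

section rbar

variable {𝒪 : Type} [CommRing 𝒪] [IsLocalRing 𝒪]

/-- (M7) the residual representation is `ofMat` of its matrices. -/
theorem exists_isContMat_rbarMat (ρbar : ResidualGaloisRep (IsLocalRing.ResidueField 𝒪)) :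
    ∃ hc : IsContMat (IsLocalRing.ResidueField 𝒪) (rbarMat ρbar),
      (GaloisRepAdic.ofResidualGaloisRep ρbar).IsEquiv (ofMat (rbarMat ρbar) hc) := by
  obtain ⟨r, hc, he, hr⟩ := exists_ofMat (GaloisRepAdic.ofResidualGaloisRep ρbar) (rbarBasis ρbar)
  have : r = rbarMat ρbar := by
    ext σ : 1
    rw [hr, rbarMat_apply]
    rfl
  subst this
  exact ⟨hc, he⟩

end rbar

end Fermat.Agent.Lib.DefMat
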