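import Mathlib
import Fermat.Prelude.Def_GaloisRep_Residual

set_option autoImplicit false

namespace Fermat.Agent.Lib.DefNorm

open IsLocalRing Polynomial
open scoped TensorProduct

section Unique

variable {A : Type*} [CommRing A] [IsLocalRing A] {G : Type*}

omit [IsLocalRing A] in
theorem mul_entries_mem_left (I : Ideal A) (M N : Matrix (Fin 2) (Fin 2) A)
    (hM : ∀ a b, M a b ∈ I) (a b : Fin 2) : (M * N) a b ∈ I := by
  rw [Matrix.mul_apply]
  exact Ideal.sum_mem _ fun c _ => Ideal.mul_mem_right _ _ (hM a c)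

omit [IsLocalRing A] in
theorem mul_entries_mem_right (I : Ideal A) (M N : Matrix (Fin 2) (Fin 2) A)
    (hN : ∀ a b, N a b ∈ I) (a b : Fin 2) : (M * N) a b ∈ I := by
  rw [Matrix.mul_apply]
  exact Ideal.sum_mem _ fun c _ => Ideal.mul_mem_left _ _ (hN c b)

theorem isUnit_of_sub_mem {u v : A} (hu : IsUnit u) (h : u - v ∈ maximalIdeal A) : IsUnit v := by
  by_contra hv
  have hv' : v ∈ maximalIdeal A := (IsLocalRing.mem_maximalIdeal v).2 hv
  have : u ∈ maximalIdeal A := by
    have := Ideal.add_mem _ h hv'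
    simpa using this
  exact (IsLocalRing.mem_maximalIdeal u).1 this hu

/-- Two "normalised" families of `2×2` matrices over a local ring which are conjugate are equal. -/
theorem normalized_unique
    (r r' : G → Matrix (Fin 2) (Fin 2) A) (σ τ : G) (i j : Fin 2)
    (g : Matrix (Fin 2) (Fin 2) A) (hg : IsUnit g.det)
    (hconj : ∀ x, g * r x = r' x * g)
    (hres : ∀ x a b, r x a b - r' x a b ∈ maximalIdeal A)
    (hschur : ∀ M : Matrix (Fin 2) (Fin 2) A,
      (∀ x a b, (M * r x - r x * M) a b ∈ maximalIdeal A) →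
        ∃ c : A, ∀ a b, (M - c • (1 : Matrix (Fin 2) (Fin 2) A)) a b ∈ maximalIdeal A)
    (hσ0 : r σ 0 0 = 0) (hσ1 : r σ 1 0 = 1) (hσ0' : r' σ 0 0 = 0) (hσ1' : r' σ 1 0 = 1)
    (hτ : r τ i j = r' τ i j)
    (hunit : IsUnit ((r σ * r τ - r τ * r σ) i j)) :
    r = r' := by
  set m := maximalIdeal A with hm
  -- Step 1: g is scalar mod m
  obtain ⟨c, hc⟩ := hschur g (fun x a b => by
    have h1 : g * r x - r x * g = (r' x - r x) * g := by rw [hconj x, sub_mul]
    rw [h1]
    refine mul_entries_mem_left m _ _ (fun a b => ?_) a b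
    have := hres x a b
    rw [Matrix.sub_apply, ← neg_sub]
    exact neg_mem this)
  have h00 : g 0 0 - c ∈ m := by simpa using hc 0 0
  have h11 : g 1 1 - c ∈ m := by simpa using hc 1 1
  have h01 : g 0 1 ∈ m := by simpa using hc 0 1
  have h10 : g 1 0 ∈ m := by simpa using hc 1 0
  -- Step 2: g 0 0 is a unit
  have hx : IsUnit (g 0 0) := by
    by_contra hx
    have hx' : g 0 0 ∈ m := (IsLocalRing.mem_maximalIdeal _).2 hx
    have : g.det ∈ m := by
      rw [Matrix.det_fin_two]
      exact sub_mem (Ideal.mul_mem_right _ _ hx') (Ideal.mul_mem_right _ _ h01)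
    exact (IsLocalRing.mem_maximalIdeal _).1 this hg
  -- Step 3: columns
  have hcol : ∀ a, g a 1 = r' σ a 0 * g 0 0 + r' σ a 1 * g 1 0 := by
    intro a
    have h := congrFun (congrFun (hconj σ) a) 0
    rw [Matrix.mul_apply, Matrix.mul_apply, Fin.sum_univ_two, Fin.sum_univ_two, hσ0, hσ1] at h
    simpa using h
  have hgS : g = g 0 0 • (1 : Matrix (Fin 2) (Fin 2) A) + g 1 0 • r' σ := by
    ext a b
    fin_cases a <;> fin_cases b
    · simp [hσ0']
    · have := hcol 0
      simp only [hσ0'] at this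
      simp [this]
      ring
    · simp [hσ1']
    · have := hcol 1
      simp only [hσ1'] at this
      simp [this]
      ring
  -- Step 4: y = 0
  have hy : g 1 0 = 0 := by
    have h := congrFun (congrFun (hconj τ) i) j
    rw [hgS] at h
    simp only [Matrix.add_mul, Matrix.mul_add, Matrix.smul_mul, Matrix.mul_smul, Matrix.one_mul,
      Matrix.mul_one, Matrix.add_apply, Matrix.smul_apply, smul_eq_mul] at h
    rw [hτ] at h
    have h2 : g 1 0 * ((r' σ * r τ - r' τ * r' σ) i j) = 0 := by
      rw [Matrix.sub_apply, mul_sub]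
      linear_combination h
    have hu : IsUnit ((r' σ * r τ - r' τ * r' σ) i j) := by
      refine isUnit_of_sub_mem hunit ?_
      have hd : (r σ * r τ - r τ * r σ) - (r' σ * r τ - r' τ * r' σ)
          = (r σ - r' σ) * r τ - (r τ - r' τ) * r' σ - r τ * (r σ - r' σ) := by
        noncomm_ring
      rw [← Matrix.sub_apply, hd]
      simp only [Matrix.sub_apply]
      refine sub_mem (sub_mem ?_ ?_) ?_
      · exact mul_entries_mem_left m _ _ (fun a b => by simpa using hres σ a b) i j
      · exact mul_entries_mem_left m _ _ (fun a b => by simpa using hres τ a b) i j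
      · exact mul_entries_mem_right m _ _ (fun a b => by simpa using hres σ a b) i j
    exact (hu.mul_left_eq_zero).1 h2
  -- Step 5
  rw [hy, zero_smul, add_zero] at hgS
  funext t
  have h := hconj t
  rw [hgS] at h
  simp only [Matrix.smul_mul, Matrix.mul_smul, Matrix.one_mul, Matrix.mul_one] at h
  obtain ⟨u, hu⟩ := hx
  rw [← hu] at h
  have := congrArg (fun M => (↑u⁻¹ : A) • M) h
  simpa [smul_smul] using this

end Unique

section Exist

variable {A : Type*} [CommRing A] [IsLocalRing A] {G : Type*}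

/-- A quadratic `e + u y + w y^2` with `e ∈ m`, `u` a unit has a root in `m` (Henselian local). -/
theorem exists_root_quadratic [HenselianRing A (maximalIdeal A)] (e u w : A)
    (he : e ∈ maximalIdeal A) (hu : IsUnit u) :
    ∃ y ∈ maximalIdeal A, e + u * y + w * y ^ 2 = 0 := by
  let f : A[X] := X ^ 2 + C u * X + C (e * w)
  have hf : f.Monic := by
    have : f = X ^ 2 + (C u * X + C (e * w)) := by simp only [f]; ring
    rw [this]
    apply Polynomial.monic_X_pow_add
    refine lt_of_le_of_lt (Polynomial.degree_linear_le) ?_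
    norm_num
  have h0 : f.eval 0 ∈ maximalIdeal A := by
    simp only [f, eval_add, eval_pow, eval_X, eval_mul, eval_C]
    simpa using Ideal.mul_mem_right w _ he
  have h1 : IsUnit (Ideal.Quotient.mk (maximalIdeal A) (f.derivative.eval 0)) := by
    have : f.derivative.eval 0 = u := by
      simp [f, derivative_add, derivative_mul]
    rw [this]
    exact hu.map _
  obtain ⟨Y, hY, hYm⟩ := HenselianRing.is_henselian f hf 0 h0 h1
  rw [sub_zero] at hYm
  have hYu : IsUnit (Y + u) := by
    refine isUnit_of_sub_mem hu ?_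
    have : u - (Y + u) = -Y := by ring
    rw [this]; exact neg_mem hYm
  obtain ⟨v, hv⟩ := hYu
  have hroot : Y ^ 2 + u * Y + e * w = 0 := by
    have := hY
    simp only [f, IsRoot.def, eval_add, eval_pow, eval_X, eval_mul, eval_C] at this
    exact this
  refine ⟨-e * ↑v⁻¹, Ideal.mul_mem_right _ _ (neg_mem he), ?_⟩
  have hvv : (↑v : A) * ↑v⁻¹ = 1 := by simp
  have hYv : Y = (↑v : A) - u := by rw [hv]; ring
  -- w * y = Y  where y = -e * v⁻¹ :  w * (-e) * v⁻¹ = (Y^2 + uY) v⁻¹ = Y (Y+u) v⁻¹ = Y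
  have hwy : w * (-e * ↑v⁻¹) = Y := by
    have h2 : -(e * w) = Y * ↑v := by rw [hv]; linear_combination (-1 : A) * hroot
    calc w * (-e * ↑v⁻¹) = (-(e * w)) * ↑v⁻¹ := by ring
      _ = Y * ↑v * ↑v⁻¹ := by rw [h2]
      _ = Y := by rw [mul_assoc, hvv, mul_one]
  calc e + u * (-e * ↑v⁻¹) + w * (-e * ↑v⁻¹) ^ 2
      = e + u * (-e * ↑v⁻¹) + (w * (-e * ↑v⁻¹)) * (-e * ↑v⁻¹) := by ring
    _ = e + u * (-e * ↑v⁻¹) + Y * (-e * ↑v⁻¹) := by rw [hwy]
    _ = e - e * ((Y + u) * ↑v⁻¹) := by ring
    _ = e - e * (↑v * ↑v⁻¹) := by rw [hv]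
    _ = 0 := by rw [hvv]; ring

/-- Conjugating `T` by an element `1 + y S` (`y ∈ m`) of the centraliser of `S` one can prescribe
the `(i,j)` entry, provided `[S,T] i j` is a unit. -/
theorem exists_normalizing [HenselianRing A (maximalIdeal A)]
    (S T : Matrix (Fin 2) (Fin 2) A) (i j : Fin 2) (c : A)
    (hc : T i j - c ∈ maximalIdeal A)
    (hunit : IsUnit ((S * T - T * S) i j)) :
    ∃ g h : Matrix (Fin 2) (Fin 2) A, g * h = 1 ∧ h * g = 1 ∧
      (∀ a b, (g - 1) a b ∈ maximalIdeal A) ∧ g * S = S * g ∧ (g * T * h) i j = c := by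
  set t : A := S 0 0 + S 1 1 with ht
  set e : A := T i j - c with he
  set u : A := (S * T - T * S) i j + t * e with hu
  set w : A := (S * T * (t • (1 : Matrix (Fin 2) (Fin 2) A) - S)) i j - c * S.det with hw
  have huu : IsUnit u := by
    refine isUnit_of_sub_mem hunit ?_
    have : (S * T - T * S) i j - u = -(t * e) := by rw [hu]; ring
    rw [this]
    exact neg_mem (Ideal.mul_mem_left _ _ hc)
  obtain ⟨y, hy, hroot⟩ := exists_root_quadratic e u w hc huu
  set g : Matrix (Fin 2) (Fin 2) A := 1 + y • S with hg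
  set g' : Matrix (Fin 2) (Fin 2) A := 1 + y • (t • (1 : Matrix (Fin 2) (Fin 2) A) - S) with hg'
  set d : A := 1 + y * t + y ^ 2 * S.det with hd
  have hd_unit : IsUnit d := by
    refine isUnit_of_sub_mem isUnit_one ?_
    have : 1 - d = -(y * (t + y * S.det)) := by rw [hd]; ring
    rw [this]
    exact neg_mem (Ideal.mul_mem_right _ _ hy)
  have hgg' : g * g' = d • (1 : Matrix (Fin 2) (Fin 2) A) := by
    ext a b
    fin_cases a <;> fin_cases b <;>
      simp [hg, hg', hd, ht, Matrix.mul_apply, Fin.sum_univ_two, Matrix.det_fin_two,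
        Matrix.one_apply] <;> ring
  have hg'g : g' * g = d • (1 : Matrix (Fin 2) (Fin 2) A) := by
    ext a b
    fin_cases a <;> fin_cases b <;>
      simp [hg, hg', hd, ht, Matrix.mul_apply, Fin.sum_univ_two, Matrix.det_fin_two,
        Matrix.one_apply] <;> ring
  have hkey : (g * T * g') i j - c * d = e + u * y + w * y ^ 2 := by
    fin_cases i <;> fin_cases j <;>
      simp [hg, hg', hd, ht, he, hu, hw, Matrix.mul_apply, Fin.sum_univ_two, Matrix.det_fin_two,
        Matrix.one_apply] <;> ring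
  obtain ⟨dv, hdv⟩ := hd_unit
  refine ⟨g, (↑dv⁻¹ : A) • g', ?_, ?_, ?_, ?_, ?_⟩
  · rw [Matrix.mul_smul, hgg', smul_smul, ← hdv]; simp
  · rw [Matrix.smul_mul, hg'g, smul_smul, ← hdv]; simp
  · intro a b
    have : (g - 1) a b = y * S a b := by simp [hg]
    rw [this]
    exact Ideal.mul_mem_right _ _ hy
  · simp [hg, Matrix.add_mul, Matrix.mul_add]
  · rw [Matrix.mul_smul, Matrix.smul_apply, smul_eq_mul]
    have h1 : (g * T * g') i j = c * d := by
      have := hkey
      rw [hroot] at this
      exact sub_eq_zero.1 this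
    rw [h1, ← hdv]
    calc (↑dv⁻¹ : A) * (c * ↑dv) = c * (↑dv * ↑dv⁻¹) := by ring
      _ = c := by simp

end Exist

section Schur

variable {k : Type} [Field k]

local notation "Γ" => (AlgebraicClosure ℚ ≃ₐ[ℚ] AlgebraicClosure ℚ)

/-- Schur's lemma for an absolutely irreducible residual representation: its commutant is `k`. -/
theorem schur (ρbar : ResidualGaloisRep k) (habs : ρbar.IsAbsolutelyIrreducible)
    (f : Module.End k ρbar.V) (hf : ∀ g : Γ, f * ρbar.ρ g = ρbar.ρ g * f) :
    ∃ c : k, f = c • (1 : Module.End k ρbar.V) := by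
  classical
  let K := AlgebraicClosure k
  let b : Module.Basis (Fin 2) k ρbar.V := Module.finBasisOfFinrankEq k ρbar.V ρbar.finrank_eq
  let bK : Module.Basis (Fin 2) K (K ⊗[k] ρbar.V) := b.baseChange K
  have : Module.Finite K (K ⊗[k] ρbar.V) := Module.Finite.of_basis bK
  have : Nontrivial (K ⊗[k] ρbar.V) := ⟨⟨bK 0, 0, bK.ne_zero 0⟩⟩
  let fK : Module.End K (K ⊗[k] ρbar.V) := f.baseChange K
  obtain ⟨μ, hμ⟩ := Module.End.exists_eigenvalue fK
  have hstab : ∀ σ : Γ, ∀ x ∈ Module.End.eigenspace fK μ,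
      (ρbar.baseChange K).ρ σ x ∈ Module.End.eigenspace fK μ := by
    intro σ x hx
    rw [Module.End.mem_eigenspace_iff] at hx ⊢
    have hcomm : fK ∘ₗ (ρbar.ρ σ).baseChange K = (ρbar.ρ σ).baseChange K ∘ₗ fK := by
      have := congrArg (LinearMap.baseChange K) (hf σ)
      simpa [fK, Module.End.mul_eq_comp, LinearMap.baseChange_comp] using this
    have h1 := congrArg (fun φ => φ x) hcomm
    simp only [LinearMap.comp_apply] at h1
    show fK ((ρbar.ρ σ).baseChange K x) = μ • (ρbar.ρ σ).baseChange K x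
    rw [h1, hx, map_smul]
  have htop : Module.End.eigenspace fK μ = ⊤ := by
    rcases habs _ hstab with h | h
    · exact absurd h hμ
    · exact h
  have hfK : ∀ x, fK x = μ • x := by
    intro x
    have : x ∈ Module.End.eigenspace fK μ := by rw [htop]; trivial
    exact Module.End.mem_eigenspace_iff.1 this
  -- descend μ
  let a : k := b.repr (f (b 0)) 0
  have hμa : μ = algebraMap k K a := by
    have h1 := hfK ((1 : K) ⊗ₜ[k] b 0)
    have h2 := congrArg (fun z => bK.repr z 0) h1
    simp only [fK, LinearMap.baseChange_tmul, bK, Module.Basis.baseChange_repr_tmul, map_smul,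
      Finsupp.smul_apply, Module.Basis.repr_self, Finsupp.single_eq_same, smul_eq_mul] at h2
    simp only [a]
    rw [Algebra.algebraMap_eq_smul_one]
    rw [h2]; simp
  refine ⟨a, LinearMap.ext fun v => ?_⟩
  apply b.repr.injective
  ext i
  have h1 := hfK ((1 : K) ⊗ₜ[k] v)
  have h2 := congrArg (fun z => bK.repr z i) h1
  simp only [fK, LinearMap.baseChange_tmul, bK, Module.Basis.baseChange_repr_tmul, map_smul,
    Finsupp.smul_apply, smul_eq_mul, hμa] at h2
  have h3 : algebraMap k K (b.repr (f v) i) = algebraMap k K (a * b.repr v i) := by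
    rw [Algebra.algebraMap_eq_smul_one, h2, map_mul, Algebra.algebraMap_eq_smul_one (b.repr v i)]
  have h4 := (algebraMap k K).injective h3
  simp [h4]

/-- The image of an absolutely irreducible residual representation is not commutative. -/
theorem exists_noncomm (ρbar : ResidualGaloisRep k) (habs : ρbar.IsAbsolutelyIrreducible) :
    ∃ σ τ : Γ, ρbar.ρ σ * ρbar.ρ τ ≠ ρbar.ρ τ * ρbar.ρ σ := by
  classical
  by_contra hcon
  push Not at hcon
  have hscal : ∀ σ : Γ, ∃ c : k, ρbar.ρ σ = c • (1 : Module.End k ρbar.V) :=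
    fun σ => schur ρbar habs (ρbar.ρ σ) (fun g => hcon σ g)
  let K := AlgebraicClosure k
  let b : Module.Basis (Fin 2) k ρbar.V := Module.finBasisOfFinrankEq k ρbar.V ρbar.finrank_eq
  let bK : Module.Basis (Fin 2) K (K ⊗[k] ρbar.V) := b.baseChange K
  have hfin : Module.Finite K (K ⊗[k] ρbar.V) := Module.Finite.of_basis bK
  have hstab : ∀ σ : Γ, ∀ x ∈ (K ∙ bK 0 : Submodule K (K ⊗[k] ρbar.V)),
      (ρbar.baseChange K).ρ σ x ∈ (K ∙ bK 0 : Submodule K (K ⊗[k] ρbar.V)) := by
    intro σ x hx
    obtain ⟨c, hc⟩ := hscal σ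
    have hgen : ∀ z : K ⊗[k] ρbar.V, (ρbar.ρ σ).baseChange K z = (algebraMap k K c) • z := by
      intro z
      rw [hc]
      induction z using TensorProduct.induction_on with
      | zero => simp
      | tmul y v =>
        simp only [LinearMap.baseChange_tmul, LinearMap.smul_apply, Module.End.one_apply,
          TensorProduct.tmul_smul, algebraMap_smul]
      | add z₁ z₂ h₁ h₂ => simp only [map_add, smul_add, h₁, h₂]
    have : (ρbar.baseChange K).ρ σ x = (algebraMap k K c) • x := hgen x
    rw [this]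
    exact Submodule.smul_mem _ _ hx
  rcases habs _ hstab with h | h
  · have : bK 0 ∈ (K ∙ bK 0 : Submodule K (K ⊗[k] ρbar.V)) := Submodule.mem_span_singleton_self _
    rw [h, Submodule.mem_bot] at this
    exact bK.ne_zero 0 this
  · have h1 : Module.finrank K (K ∙ bK 0 : Submodule K (K ⊗[k] ρbar.V)) = 1 :=
      finrank_span_singleton (bK.ne_zero 0)
    rw [h, finrank_top, Module.finrank_eq_card_basis bK] at h1
    simp at h1

/-- Rigidifying data for an absolutely irreducible 2-dimensional residual representation: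
a cyclic vector `v` for `ρbar σ` and an element `τ` with `ρbar τ` not commuting with `ρbar σ`. -/
theorem exists_rigid (ρbar : ResidualGaloisRep k) (habs : ρbar.IsAbsolutelyIrreducible) :
    ∃ (σ τ : Γ) (v : ρbar.V), LinearIndependent k ![v, ρbar.ρ σ v] ∧
      ρbar.ρ σ * ρbar.ρ τ ≠ ρbar.ρ τ * ρbar.ρ σ := by
  obtain ⟨σ, τ, hστ⟩ := exists_noncomm ρbar habs
  have : ∃ v, LinearIndependent k ![v, ρbar.ρ σ v] := by
    by_contra hcon
    push Not at hcon
    have : Module.Free k ρbar.V := Module.Free.of_divisionRing k ρbar.V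
    obtain ⟨a, ha⟩ := LinearMap.exists_eq_smul_id_of_forall_notLinearIndependent hcon
    apply hστ
    rw [ha]
    ext x
    simp
  obtain ⟨v, hv⟩ := this
  exact ⟨σ, τ, v, hv, hστ⟩

end Schur

end Fermat.Agent.Lib.DefNorm
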