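import Mathlib
import Fermat.Prelude.Def_GaloisRep_Adic
import Fermat.Agent.Lib.DefNorm

set_option autoImplicit false

namespace Fermat.Agent.Lib.DefNormRep

open IsLocalRing
open scoped TensorProduct

local notation "Γ" => (AlgebraicClosure ℚ ≃ₐ[ℚ] AlgebraicClosure ℚ)

variable {k : Type} [Field k]

/-- Rigidifying data for a residual representation: a basis `(v, ρbar σ v)` and an entry `(i,j)`
at which the commutator of the matrices of `σ` and `τ` does not vanish. -/
structure RigidData (ρbar : ResidualGaloisRep k) where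
  σ : Γ
  τ : Γ
  b : Module.Basis (Fin 2) k ρbar.V
  hb : ρbar.ρ σ (b 0) = b 1
  i : Fin 2
  j : Fin 2
  hij : (LinearMap.toMatrix b b (ρbar.ρ σ) * LinearMap.toMatrix b b (ρbar.ρ τ)
      - LinearMap.toMatrix b b (ρbar.ρ τ) * LinearMap.toMatrix b b (ρbar.ρ σ)) i j ≠ 0

/-- The matrix model of `ρbar` in the rigidifying basis. -/
noncomputable def RigidData.mat {ρbar : ResidualGaloisRep k} (D : RigidData ρbar) (g : Γ) :
    Matrix (Fin 2) (Fin 2) k :=
  LinearMap.toMatrix D.b D.b (ρbar.ρ g)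

theorem RigidData.mat_mul {ρbar : ResidualGaloisRep k} (D : RigidData ρbar) (g h : Γ) :
    D.mat (g * h) = D.mat g * D.mat h := by
  simp only [RigidData.mat, map_mul, LinearMap.toMatrix_mul]

theorem RigidData.mat_one {ρbar : ResidualGaloisRep k} (D : RigidData ρbar) :
    D.mat 1 = 1 := by
  simp only [RigidData.mat, map_one, LinearMap.toMatrix_one]

theorem RigidData.mat_col {ρbar : ResidualGaloisRep k} (D : RigidData ρbar) :
    D.mat D.σ 0 0 = 0 ∧ D.mat D.σ 1 0 = 1 := by
  simp [RigidData.mat, LinearMap.toMatrix_apply, D.hb]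

theorem RigidData.mat_comm_ne {ρbar : ResidualGaloisRep k} (D : RigidData ρbar) :
    (D.mat D.σ * D.mat D.τ - D.mat D.τ * D.mat D.σ) D.i D.j ≠ 0 := D.hij

theorem nonempty_rigidData (ρbar : ResidualGaloisRep k) (habs : ρbar.IsAbsolutelyIrreducible) :
    Nonempty (RigidData ρbar) := by
  obtain ⟨σ, τ, v, hv, hne⟩ := DefNorm.exists_rigid ρbar habs
  have hcard : Fintype.card (Fin 2) = Module.finrank k ρbar.V := by
    rw [ρbar.finrank_eq]; rfl
  let b : Module.Basis (Fin 2) k ρbar.V := basisOfLinearIndependentOfCardEqFinrank hv hcard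
  have hb0 : b 0 = v := by simp [b]
  have hb1 : b 1 = ρbar.ρ σ v := by simp [b]
  have hM : LinearMap.toMatrix b b (ρbar.ρ σ) * LinearMap.toMatrix b b (ρbar.ρ τ)
      - LinearMap.toMatrix b b (ρbar.ρ τ) * LinearMap.toMatrix b b (ρbar.ρ σ) ≠ 0 := by
    rw [← LinearMap.toMatrix_mul, ← LinearMap.toMatrix_mul, ← map_sub]
    intro h
    apply hne
    have := (LinearMap.toMatrix b b).injective (h.trans (map_zero _).symm)
    exact sub_eq_zero.1 this
  obtain ⟨i, j, hij⟩ : ∃ i j, (LinearMap.toMatrix b b (ρbar.ρ σ) * LinearMap.toMatrix b b (ρbar.ρ τ)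
      - LinearMap.toMatrix b b (ρbar.ρ τ) * LinearMap.toMatrix b b (ρbar.ρ σ)) i j ≠ 0 := by
    by_contra hcon
    push Not at hcon
    exact hM (Matrix.ext hcon)
  exact ⟨⟨σ, τ, b, by rw [hb0, hb1], i, j, hij⟩⟩

/-- `M` is a normalised matrix lift of `ρbar` (w.r.t. the rigid data `D`) over the local ring `A`,
whose residue field receives `k` through `ι`, with prescribed entry `c` of `M τ`. -/
structure IsNormalized {ρbar : ResidualGaloisRep k} (D : RigidData ρbar)
    {A : Type*} [CommRing A] [IsLocalRing A] (ι : k →+* ResidueField A) (c : A)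
    (M : Γ → Matrix (Fin 2) (Fin 2) A) : Prop where
  res : ∀ g, (residue A).mapMatrix (M g) = ι.mapMatrix (D.mat g)
  col0 : M D.σ 0 0 = 0
  col1 : M D.σ 1 0 = 1
  entry : M D.τ D.i D.j = c

section Unique

variable {ρbar : ResidualGaloisRep k} (D : RigidData ρbar)
  {A : Type*} [CommRing A] [IsLocalRing A] (ι : k →+* ResidueField A)

theorem IsNormalized.comm_isUnit {c : A} {M : Γ → Matrix (Fin 2) (Fin 2) A}
    (hM : IsNormalized D ι c M) :
    IsUnit ((M D.σ * M D.τ - M D.τ * M D.σ) D.i D.j) := by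
  have hmap : (residue A).mapMatrix (M D.σ * M D.τ - M D.τ * M D.σ)
      = ι.mapMatrix (D.mat D.σ * D.mat D.τ - D.mat D.τ * D.mat D.σ) := by
    simp only [map_sub, map_mul, hM.res]
  have h1 := congrFun (congrFun hmap D.i) D.j
  simp only [RingHom.mapMatrix_apply, Matrix.map_apply] at h1
  by_contra hnu
  have h2 : residue A ((M D.σ * M D.τ - M D.τ * M D.σ) D.i D.j) = 0 :=
    (residue_eq_zero_iff _).2 ((IsLocalRing.mem_maximalIdeal _).2 hnu)
  rw [h1] at h2
  exact D.mat_comm_ne ((map_eq_zero ι).1 h2)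

/-- Residual Schur lemma for normalised lifts. -/
theorem IsNormalized.schur (habs : ρbar.IsAbsolutelyIrreducible) (hι : Function.Surjective ι)
    {c : A} {M : Γ → Matrix (Fin 2) (Fin 2) A} (hM : IsNormalized D ι c M)
    (N : Matrix (Fin 2) (Fin 2) A)
    (hN : ∀ x a b, (N * M x - M x * N) a b ∈ maximalIdeal A) :
    ∃ cA : A, ∀ a b, (N - cA • (1 : Matrix (Fin 2) (Fin 2) A)) a b ∈ maximalIdeal A := by
  have hex : ∀ a b, ∃ n : k, ι n = residue A (N a b) := fun a b => hι _
  choose n₀ hn₀ using hex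
  let N₀ : Matrix (Fin 2) (Fin 2) k := Matrix.of n₀
  have hN₀ : ι.mapMatrix N₀ = (residue A).mapMatrix N := by
    ext a b
    simp [N₀, hn₀]
  have hcomm : ∀ x, N₀ * D.mat x = D.mat x * N₀ := by
    intro x
    have hinj : Function.Injective (ι.mapMatrix : Matrix (Fin 2) (Fin 2) k →+* _) := by
      intro X Y hXY
      ext a b
      have := congrFun (congrFun hXY a) b
      simp only [RingHom.mapMatrix_apply, Matrix.map_apply] at this
      exact ι.injective this
    apply hinj
    rw [map_mul, map_mul, hN₀, ← hM.res x, ← map_mul, ← map_mul]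
    ext a b
    simp only [RingHom.mapMatrix_apply, Matrix.map_apply]
    have := hN x a b
    rw [← sub_eq_zero, ← map_sub, ← Matrix.sub_apply]
    exact (residue_eq_zero_iff _).2 this
  let f : Module.End k ρbar.V := Matrix.toLin D.b D.b N₀
  have hf : ∀ x : Γ, f * ρbar.ρ x = ρbar.ρ x * f := by
    intro x
    apply (LinearMap.toMatrix D.b D.b).injective
    rw [LinearMap.toMatrix_mul, LinearMap.toMatrix_mul]
    simp only [f, LinearMap.toMatrix_toLin]
    exact hcomm x
  obtain ⟨c₀, hc₀⟩ := DefNorm.schur ρbar habs f hf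
  have hN₀' : N₀ = c₀ • (1 : Matrix (Fin 2) (Fin 2) k) := by
    have := congrArg (LinearMap.toMatrix D.b D.b) hc₀
    simpa [f, LinearMap.toMatrix_toLin, LinearMap.toMatrix_one] using this
  obtain ⟨cA, hcA⟩ := IsLocalRing.residue_surjective (ι c₀)
  refine ⟨cA, fun a b => ?_⟩
  rw [← residue_eq_zero_iff]
  have h1 := congrFun (congrFun hN₀ a) b
  simp only [RingHom.mapMatrix_apply, Matrix.map_apply] at h1
  rw [Matrix.sub_apply, Matrix.smul_apply, map_sub, ← h1, hN₀', smul_eq_mul, map_mul, hcA]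
  simp [Matrix.one_apply]
  split_ifs <;> simp

/-- Two normalised lifts which are conjugate are equal. -/
theorem IsNormalized.unique (habs : ρbar.IsAbsolutelyIrreducible) (hι : Function.Surjective ι)
    {c : A} {M M' : Γ → Matrix (Fin 2) (Fin 2) A}
    (hM : IsNormalized D ι c M) (hM' : IsNormalized D ι c M')
    (g : Matrix (Fin 2) (Fin 2) A) (hg : IsUnit g.det) (hconj : ∀ x, g * M x = M' x * g) :
    M = M' := by
  refine DefNorm.normalized_unique M M' D.σ D.τ D.i D.j g hg hconj ?_
    (hM.schur D ι habs hι) hM.col0 hM.col1 hM'.col0 hM'.col1 (hM.entry.trans hM'.entry.symm)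
    (hM.comm_isUnit D ι)
  intro x a b
  have h1 := congrFun (congrFun ((hM.res x).trans (hM'.res x).symm) a) b
  simp only [RingHom.mapMatrix_apply, Matrix.map_apply] at h1
  rw [← residue_eq_zero_iff, map_sub, h1, sub_self]

end Unique

section Exist

variable {ρbar : ResidualGaloisRep k} (D : RigidData ρbar)
  {A : Type} [CommRing A] [IsLocalRing A]

theorem exists_prenormalized_basis (ι : k →+* ResidueField A)
    (ρA : GaloisRepAdic A) (he : ρA.residual.IsEquiv (ρbar.baseChangeAlong ι)) :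
    ∃ b : Module.Basis (Fin 2) A ρA.V,
      (∀ g, (residue A).mapMatrix (LinearMap.toMatrix b b (ρA.ρ g)) = ι.mapMatrix (D.mat g)) ∧
      ρA.ρ D.σ (b 0) = b 1 := by
  classical
  obtain ⟨e⟩ := he
  let _ : Algebra k (ResidueField A) := ι.toAlgebra
  let kA := ResidueField A
  let B : Module.Basis (Fin 2) kA (kA ⊗[k] ρbar.V) := D.b.baseChange kA
  let eL : (kA ⊗[A] ρA.V) ≃ₗ[kA] (kA ⊗[k] ρbar.V) := e.toLinearEquiv
  have emap : ∀ (σ : Γ) (x : kA ⊗[A] ρA.V),
      eL ((ρA.ρ σ).baseChange kA x) = (ρbar.ρ σ).baseChange kA (eL x) := e.map_apply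
  let B' : Module.Basis (Fin 2) kA (kA ⊗[A] ρA.V) := B.map eL.symm
  obtain ⟨v0, hv0⟩ := TensorProduct.mk_surjective A ρA.V kA IsLocalRing.residue_surjective (B' 0)
  let f : Fin 2 → ρA.V := ![v0, ρA.ρ D.σ v0]
  have hf : ∀ i, (1 : kA) ⊗ₜ[A] f i = B' i := by
    intro i
    fin_cases i
    · exact hv0
    · show (1 : kA) ⊗ₜ[A] (ρA.ρ D.σ v0) = B' 1
      have h1 : (1 : kA) ⊗ₜ[A] (ρA.ρ D.σ v0) = (ρA.ρ D.σ).baseChange kA (B' 0) := by
        rw [← hv0]; simp
      rw [h1]
      apply eL.injective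
      rw [emap]
      simp only [B', Module.Basis.map_apply, LinearEquiv.apply_symm_apply, B,
        Module.Basis.baseChange_apply, LinearMap.baseChange_tmul, D.hb]
  have hspan : Submodule.span A (Set.range f) = ⊤ :=
    IsLocalRing.span_eq_top_of_tmul_eq_basis f B' hf
  have hli : LinearIndependent A f := by
    apply Module.IsLocalRing.linearIndependent_of_flat f
    have : (TensorProduct.mk A kA ρA.V 1 ∘ f) = B' := funext hf
    rw [this]
    exact B'.linearIndependent
  let b : Module.Basis (Fin 2) A ρA.V := Module.Basis.mk hli hspan.ge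
  have hb : ∀ i, b i = f i := fun i => by simp [b]
  refine ⟨b, ?_, ?_⟩
  · intro g
    have hbK : ∀ i, (b.baseChange kA) i = B' i := by
      intro i
      rw [Module.Basis.baseChange_apply, hb, hf]
    have hbK' : b.baseChange kA = B' := Module.Basis.eq_of_apply_eq hbK
    ext a c
    simp only [RingHom.mapMatrix_apply, Matrix.map_apply, LinearMap.toMatrix_apply, RigidData.mat]
    have h1 : residue A (b.repr (ρA.ρ g (b c)) a)
        = (b.baseChange kA).repr ((1 : kA) ⊗ₜ[A] (ρA.ρ g (b c))) a := by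
      rw [Module.Basis.baseChange_repr_tmul, Algebra.smul_def, mul_one]
      rfl
    have h2 : (1 : kA) ⊗ₜ[A] (ρA.ρ g (b c)) = (ρA.ρ g).baseChange kA (B' c) := by
      rw [← hbK c, Module.Basis.baseChange_apply, LinearMap.baseChange_tmul]
    have h3 : eL ((ρA.ρ g).baseChange kA (B' c)) = (1 : kA) ⊗ₜ[k] (ρbar.ρ g (D.b c)) := by
      rw [emap]
      simp only [B', Module.Basis.map_apply, LinearEquiv.apply_symm_apply, B,
        Module.Basis.baseChange_apply, LinearMap.baseChange_tmul]
    rw [h1, h2, hbK']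
    have h4 : B'.repr ((ρA.ρ g).baseChange kA (B' c)) = B.repr (eL ((ρA.ρ g).baseChange kA (B' c))) := by
      simp only [B', Module.Basis.map_repr, LinearEquiv.trans_apply, LinearEquiv.symm_symm]
    rw [h4, h3]
    simp only [B, Module.Basis.baseChange_repr_tmul]
    rw [Algebra.smul_def, mul_one]
    rfl
  · rw [hb, hb]
    rfl

omit [IsLocalRing A] in
/-- Change of basis by an invertible matrix. -/
theorem exists_basis_conj {V : Type*} [AddCommGroup V] [Module A V]
    (b : Module.Basis (Fin 2) A V) (g h : Matrix (Fin 2) (Fin 2) A) (hgh : g * h = 1)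
    (hhg : h * g = 1) :
    ∃ b' : Module.Basis (Fin 2) A V, ∀ φ : V →ₗ[A] V,
      LinearMap.toMatrix b' b' φ = g * LinearMap.toMatrix b b φ * h := by
  let P : V ≃ₗ[A] V := LinearEquiv.ofLinearMap (Matrix.toLin b b h) (Matrix.toLin b b g)
    (by rw [← Matrix.toLin_mul, hhg, Matrix.toLin_one]) (by rw [← Matrix.toLin_mul, hgh, Matrix.toLin_one])
  refine ⟨b.map P, fun φ => ?_⟩
  have h1 : LinearMap.toMatrix (b.map P) (b.map P) φ
      = LinearMap.toMatrix b b (P.symm.toLinearMap ∘ₗ φ ∘ₗ P.toLinearMap) := by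
    ext a c
    simp [LinearMap.toMatrix_apply]
  rw [h1, LinearMap.toMatrix_comp b b b, LinearMap.toMatrix_comp b b b]
  have h2 : LinearMap.toMatrix b b P.symm.toLinearMap = g := by
    have : P.symm.toLinearMap = Matrix.toLin b b g := rfl
    rw [this, LinearMap.toMatrix_toLin]
  have h3 : LinearMap.toMatrix b b P.toLinearMap = h := by
    have : P.toLinearMap = Matrix.toLin b b h := rfl
    rw [this, LinearMap.toMatrix_toLin]
  rw [h2, h3, Matrix.mul_assoc]

/-- Existence of a normalised basis for a deformation of `ρbar` over a Henselian local ring. -/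
theorem exists_normalized_basis [HenselianRing A (maximalIdeal A)] (ι : k →+* ResidueField A)
    (c : A) (hc : residue A c = ι (D.mat D.τ D.i D.j))
    (ρA : GaloisRepAdic A) (he : ρA.residual.IsEquiv (ρbar.baseChangeAlong ι)) :
    ∃ b : Module.Basis (Fin 2) A ρA.V,
      IsNormalized D ι c (fun g => LinearMap.toMatrix b b (ρA.ρ g)) := by
  obtain ⟨b, hres, hb1⟩ := exists_prenormalized_basis D ι ρA he
  set M : Γ → Matrix (Fin 2) (Fin 2) A := fun g => LinearMap.toMatrix b b (ρA.ρ g) with hM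
  have hcol0 : M D.σ 0 0 = 0 := by
    simp [hM, LinearMap.toMatrix_apply, hb1]
  have hcol1 : M D.σ 1 0 = 1 := by
    simp [hM, LinearMap.toMatrix_apply, hb1]
  have hpre : IsNormalized D ι (M D.τ D.i D.j) M := ⟨hres, hcol0, hcol1, rfl⟩
  have hunit := hpre.comm_isUnit D ι
  have hc' : M D.τ D.i D.j - c ∈ maximalIdeal A := by
    rw [← residue_eq_zero_iff, map_sub, hc, sub_eq_zero]
    have := congrFun (congrFun (hres D.τ) D.i) D.j
    simpa only [RingHom.mapMatrix_apply, Matrix.map_apply] using this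
  obtain ⟨g, h, hgh, hhg, hg1, hgS, hentry⟩ :=
    DefNorm.exists_normalizing (M D.σ) (M D.τ) D.i D.j c hc' hunit
  obtain ⟨b', hb'⟩ := exists_basis_conj b g h hgh hhg
  refine ⟨b', ?_⟩
  have hmapg : (residue A).mapMatrix g = 1 := by
    ext a c'
    have := hg1 a c'
    rw [← residue_eq_zero_iff, Matrix.sub_apply, map_sub, sub_eq_zero] at this
    simp only [RingHom.mapMatrix_apply, Matrix.map_apply, this]
    simp [Matrix.one_apply]
  have hmaph : (residue A).mapMatrix h = 1 := by
    have := congrArg (residue A).mapMatrix hgh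
    rw [map_mul, hmapg, one_mul, map_one] at this
    exact this
  have hσ : g * M D.σ * h = M D.σ := by
    rw [hgS, Matrix.mul_assoc, hgh, Matrix.mul_one]
  refine ⟨fun x => ?_, ?_, ?_, ?_⟩
  · show (residue A).mapMatrix (LinearMap.toMatrix b' b' (ρA.ρ x)) = _
    rw [hb', map_mul, map_mul, hmapg, hmaph, one_mul, mul_one]
    exact hres x
  · show LinearMap.toMatrix b' b' (ρA.ρ D.σ) 0 0 = 0
    rw [hb']
    have : g * LinearMap.toMatrix b b (ρA.ρ D.σ) * h = M D.σ := hσ
    rw [this]; exact hcol0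
  · show LinearMap.toMatrix b' b' (ρA.ρ D.σ) 1 0 = 1
    rw [hb']
    have : g * LinearMap.toMatrix b b (ρA.ρ D.σ) * h = M D.σ := hσ
    rw [this]; exact hcol1
  · show LinearMap.toMatrix b' b' (ρA.ρ D.τ) D.i D.j = c
    rw [hb']
    exact hentry

end Exist

section General

variable {ρbar : ResidualGaloisRep k} {A : Type} [CommRing A] [IsLocalRing A]

/-- Any basis of `ρbar.V` lifts to a basis of a deformation `ρA` in which the matrices of `ρA`
reduce to the matrices of `ρbar`. -/
theorem exists_basis_of_residual_isEquiv (b0 : Module.Basis (Fin 2) k ρbar.V)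
    (ι : k →+* ResidueField A)
    (ρA : GaloisRepAdic A) (he : ρA.residual.IsEquiv (ρbar.baseChangeAlong ι)) :
    ∃ b : Module.Basis (Fin 2) A ρA.V,
      ∀ g, (residue A).mapMatrix (LinearMap.toMatrix b b (ρA.ρ g))
        = ι.mapMatrix (LinearMap.toMatrix b0 b0 (ρbar.ρ g)) := by
  classical
  obtain ⟨e⟩ := he
  let _ : Algebra k (ResidueField A) := ι.toAlgebra
  let kA := ResidueField A
  let B : Module.Basis (Fin 2) kA (kA ⊗[k] ρbar.V) := b0.baseChange kA
  let eL : (kA ⊗[A] ρA.V) ≃ₗ[kA] (kA ⊗[k] ρbar.V) := e.toLinearEquiv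
  have emap : ∀ (σ : Γ) (x : kA ⊗[A] ρA.V),
      eL ((ρA.ρ σ).baseChange kA x) = (ρbar.ρ σ).baseChange kA (eL x) := e.map_apply
  let B' : Module.Basis (Fin 2) kA (kA ⊗[A] ρA.V) := B.map eL.symm
  have hex : ∀ i, ∃ v : ρA.V, (1 : kA) ⊗ₜ[A] v = B' i := fun i =>
    TensorProduct.mk_surjective A ρA.V kA IsLocalRing.residue_surjective (B' i)
  choose f hf using hex
  have hspan : Submodule.span A (Set.range f) = ⊤ :=
    IsLocalRing.span_eq_top_of_tmul_eq_basis f B' hf
  have hli : LinearIndependent A f := by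
    apply Module.IsLocalRing.linearIndependent_of_flat f
    have : (TensorProduct.mk A kA ρA.V 1 ∘ f) = B' := funext hf
    rw [this]
    exact B'.linearIndependent
  let b : Module.Basis (Fin 2) A ρA.V := Module.Basis.mk hli hspan.ge
  have hb : ∀ i, b i = f i := fun i => by simp [b]
  refine ⟨b, fun g => ?_⟩
  have hbK : ∀ i, (b.baseChange kA) i = B' i := by
    intro i
    rw [Module.Basis.baseChange_apply, hb, hf]
  have hbK' : b.baseChange kA = B' := Module.Basis.eq_of_apply_eq hbK
  ext a c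
  simp only [RingHom.mapMatrix_apply, Matrix.map_apply, LinearMap.toMatrix_apply]
  have h1 : residue A (b.repr (ρA.ρ g (b c)) a)
      = (b.baseChange kA).repr ((1 : kA) ⊗ₜ[A] (ρA.ρ g (b c))) a := by
    rw [Module.Basis.baseChange_repr_tmul, Algebra.smul_def, mul_one]
    rfl
  have h2 : (1 : kA) ⊗ₜ[A] (ρA.ρ g (b c)) = (ρA.ρ g).baseChange kA (B' c) := by
    rw [← hbK c, Module.Basis.baseChange_apply, LinearMap.baseChange_tmul]
  have h3 : eL ((ρA.ρ g).baseChange kA (B' c)) = (1 : kA) ⊗ₜ[k] (ρbar.ρ g (b0 c)) := by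
    rw [emap]
    simp only [B', Module.Basis.map_apply, LinearEquiv.apply_symm_apply, B,
      Module.Basis.baseChange_apply, LinearMap.baseChange_tmul]
  rw [h1, h2, hbK']
  have h4 : B'.repr ((ρA.ρ g).baseChange kA (B' c))
      = B.repr (eL ((ρA.ρ g).baseChange kA (B' c))) := by
    simp only [B', Module.Basis.map_repr, LinearEquiv.trans_apply, LinearEquiv.symm_symm]
  rw [h4, h3]
  simp only [B, Module.Basis.baseChange_repr_tmul]
  rw [Algebra.smul_def, mul_one]
  rfl

end General

end Fermat.Agent.Lib.DefNormRep
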