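import Mathlib
import Fermat.Agent.S53.Defs
import Fermat.Agent.Lib.DefNormRep

set_option autoImplicit false

namespace Fermat.Agent.Lib.DefRigidDefs

open GaloisRep IsLocalRing
open Fermat.Agent.S53.Defs Fermat.Agent.Lib.DefNormRep

/-- The polynomial `𝒪`-algebra on the matrix-entry variables `X (g, i, j)`. -/
abbrev PP (𝒪 : Type) [CommRing 𝒪] : Type := MvPolynomial (Γ × Fin 2 × Fin 2) 𝒪

section

variable {𝒪 : Type} [CommRing 𝒪] [IsLocalRing 𝒪]

/-- Evaluation of a polynomial in the entry variables at a family of matrices. -/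
noncomputable def evalMat {A : Type} [CommRing A] [Algebra 𝒪 A] (M : Γ → M2 A) : PP 𝒪 →ₐ[𝒪] A :=
  MvPolynomial.aeval (fun x : Γ × Fin 2 × Fin 2 => M x.1 x.2.1 x.2.2)

omit [IsLocalRing 𝒪] in
@[simp] theorem evalMat_X {A : Type} [CommRing A] [Algebra 𝒪 A] (M : Γ → M2 A) (g : Γ)
    (i j : Fin 2) : evalMat (𝒪 := 𝒪) M (MvPolynomial.X (g, i, j)) = M g i j := by
  simp [evalMat]

variable {ρbar : ResidualGaloisRep (ResidueField 𝒪)} (D : RigidData ρbar)

/-- The kernel of the evaluation at the residual matrices: the "maximal ideal" of `PP 𝒪`. -/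
noncomputable def NN : Ideal (PP 𝒪) := RingHom.ker (evalMat (𝒪 := 𝒪) D.mat)

/-- The tautological matrices over `PP 𝒪 ⧸ I`. -/
noncomputable def taut (I : Ideal (PP 𝒪)) (g : Γ) : M2 (PP 𝒪 ⧸ I) :=
  Matrix.of fun i j => Ideal.Quotient.mk I (MvPolynomial.X (g, i, j))

omit [IsLocalRing 𝒪] in
@[simp] theorem taut_apply (I : Ideal (PP 𝒪)) (g : Γ) (i j : Fin 2) :
    taut I g i j = Ideal.Quotient.mk I (MvPolynomial.X (g, i, j)) := rfl

variable (𝒟 : ∀ ⦃A : Type⦄ [CommRing A] [IsLocalRing A] [Algebra 𝒪 A], GaloisRepAdic A → Prop)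

/-- `M` is a normalised, continuous lift of `ρbar` of type `𝒟` over the local `𝒪`-algebra `A`
(with local structure map). `c0 : 𝒪` is the fixed lift of the normalising entry. -/
structure IsNormLift (c0 : 𝒪) (A : Type) [CommRing A] [IsLocalRing A] [Algebra 𝒪 A]
    [IsLocalHom (algebraMap 𝒪 A)] (M : Γ →* M2 A) : Prop where
  norm : IsNormalized D (ResidueField.map (algebraMap 𝒪 A)) (algebraMap 𝒪 A c0) M
  cont : IsContMat A M
  type : 𝒟 (ofMat M cont)

/-- Legit ideals of `PP 𝒪`: the quotient is a finite local test algebra over which the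
tautological matrices form a normalised continuous lift of type `𝒟`. -/
def Legit (c0 : 𝒪) (I : Ideal (PP 𝒪)) : Prop :=
  ∃ (_ : IsLocalRing (PP 𝒪 ⧸ I)) (_ : IsLocalHom (algebraMap 𝒪 (PP 𝒪 ⧸ I))),
    Finite (PP 𝒪 ⧸ I) ∧
    Function.Surjective (residue (PP 𝒪 ⧸ I) ∘ algebraMap 𝒪 (PP 𝒪 ⧸ I)) ∧
    ∃ M : Γ →* M2 (PP 𝒪 ⧸ I), (∀ g, M g = taut I g) ∧ IsNormLift D 𝒟 c0 (PP 𝒪 ⧸ I) M

end

end Fermat.Agent.Lib.DefRigidDefs
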