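import Fermat.Agent.S53.RigidBasic
import Fermat.Agent.S53.LegitKer

set_option autoImplicit false

/-!
# Universal property of the rigidified limit: uniqueness half

`univ_unique`: two local `𝒪`-algebra homomorphisms `φ ψ : L.R → A` out of the limit ring of a
`LimData` whose push-forwards of the tautological normalised lift are equivalent are equal.
-/

namespace Fermat.Agent.Lib.DefRigidUniv

open GaloisRep IsLocalRing Fermat.Agent.S53.Defs Fermat.Agent.S53.Rigid
  Fermat.Agent.Lib.DefNormRep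

section General

/-- In a Noetherian local ring an element lying in every power of the maximal ideal is zero. -/
theorem eq_zero_of_forall_mem_pow {A : Type} [CommRing A] [IsLocalRing A] [IsNoetherianRing A]
    (x : A) (h : ∀ n : ℕ, x ∈ maximalIdeal A ^ (n + 1)) : x = 0 := by
  have h1 : x ∈ ⨅ i : ℕ, maximalIdeal A ^ i := by
    rw [Ideal.mem_iInf]
    intro i
    exact Ideal.pow_le_pow_right (Nat.le_succ i) (h i)
  rw [Ideal.iInf_pow_eq_bot_of_isLocalRing _ (maximalIdeal.isMaximal A).ne_top] at h1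
  exact h1

end General

section Lim

variable {𝒪 : Type} [CommRing 𝒪] [IsLocalRing 𝒪]

/-- Density of the polynomial ring in the limit ring: every element of `L.R` is congruent to the
image of a polynomial modulo `𝔪_R ^ (n + 1)`. -/
theorem limData_exists_sub_mem {I : ℕ → Ideal (P 𝒪)} (L : LimData I) (n : ℕ) (r : L.R) :
    ∃ p : P 𝒪, r - L.ι p ∈ maximalIdeal L.R ^ (n + 1) := by
  obtain ⟨p, hp⟩ := Ideal.Quotient.mk_surjective (L.π n r)
  refine ⟨p, ?_⟩
  rw [← L.ker_π n, RingHom.mem_ker, map_sub, L.π_ι, hp, sub_self]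

/-- Two `𝒪`-algebra homomorphisms out of `L.R`, local, into a Noetherian local ring which agree
on the image of the polynomial ring are equal. -/
theorem limData_algHom_ext {I : ℕ → Ideal (P 𝒪)} (L : LimData I)
    {A : Type} [CommRing A] [IsLocalRing A] [IsNoetherianRing A] [Algebra 𝒪 A]
    (φ ψ : L.R →ₐ[𝒪] A) (hφ : IsLocalHom (φ : L.R →+* A)) (hψ : IsLocalHom (ψ : L.R →+* A))
    (h : ∀ p : P 𝒪, φ (L.ι p) = ψ (L.ι p)) : φ = ψ := by
  refine AlgHom.ext fun r => ?_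
  rw [← sub_eq_zero]
  refine eq_zero_of_forall_mem_pow _ fun n => ?_
  obtain ⟨p, hp⟩ := limData_exists_sub_mem L n r
  have h1 : φ r - ψ r = φ (r - L.ι p) - ψ (r - L.ι p) := by
    rw [map_sub, map_sub, h p]; ring
  rw [h1]
  refine Ideal.sub_mem _ ?_ ?_
  · exact Fermat.Agent.Lib.DefMat.map_maximalIdeal_pow_le (φ : L.R →+* A) hφ (n + 1)
      (Ideal.mem_map_of_mem _ hp)
  · exact Fermat.Agent.Lib.DefMat.map_maximalIdeal_pow_le (ψ : L.R →+* A) hψ (n + 1)
      (Ideal.mem_map_of_mem _ hp)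

end Lim

variable {𝒪 : Type} [CommRing 𝒪] [IsDomain 𝒪] [IsDiscreteValuationRing 𝒪]
  [IsAdicComplete (IsLocalRing.maximalIdeal 𝒪) 𝒪] [Finite (IsLocalRing.ResidueField 𝒪)]
  {ρbar : ResidualGaloisRep (IsLocalRing.ResidueField 𝒪)} (S : Setup ρbar)

/-- **Uniqueness half of the universal property.** -/
theorem univ_unique (habs : ρbar.IsAbsolutelyIrreducible)
    {I : ℕ → Ideal (P 𝒪)} (L : LimData I) (ρR : Γ →* M2 L.R)
    (hρR : ∀ g a b, ρR g a b = L.ι (MvPolynomial.X (g, a, b)))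
    (hN : IsNLift S L.R ρR) (hc : IsContMat L.R ρR)
    {A : Type} [CommRing A] [IsLocalRing A] [IsNoetherianRing A] [Algebra 𝒪 A]
    (hloc : IsLocalHom (algebraMap 𝒪 A))
    (hres : Function.Surjective (IsLocalRing.residue A ∘ algebraMap 𝒪 A))
    (φ ψ : L.R →ₐ[𝒪] A) (hφ : IsLocalHom (φ : L.R →+* A)) (hψ : IsLocalHom (ψ : L.R →+* A))
    (h : ((ofMat ρR hc).baseChangeAlong (φ : L.R →+* A) hφ).IsEquiv
      ((ofMat ρR hc).baseChangeAlong (ψ : L.R →+* A) hψ)) : φ = ψ := by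
  have hcφ := Fermat.Agent.Lib.DefMat.isContMat_mapRep (φ : L.R →+* A) hφ hc
  have hcψ := Fermat.Agent.Lib.DefMat.isContMat_mapRep (ψ : L.R →+* A) hψ hc
  obtain ⟨e1⟩ := Fermat.Agent.Lib.DefMat.ofMat_baseChangeAlong (φ : L.R →+* A) hφ ρR hc hcφ
  obtain ⟨e2⟩ := Fermat.Agent.Lib.DefMat.ofMat_baseChangeAlong (ψ : L.R →+* A) hψ ρR hc hcψ
  obtain ⟨e⟩ := h
  have he : (ofMat (mapRep (φ : L.R →+* A) ρR) hcφ).IsEquiv
      (ofMat (mapRep (ψ : L.R →+* A) ρR) hcψ) := ⟨(e1.symm.trans e).trans e2⟩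
  obtain ⟨X, hX, hconj⟩ := (Fermat.Agent.Lib.DefMat.ofMat_isEquiv_iff _ _ hcφ hcψ).1 he
  have heq : mapRep (φ : L.R →+* A) ρR = mapRep (ψ : L.R →+* A) ρR :=
    Fermat.Agent.S53.RigidBasic.IsNLift.eq_of_conj S habs hloc hres
      (Fermat.Agent.S53.RigidBasic.IsNLift.map S φ hφ hN)
      (Fermat.Agent.S53.RigidBasic.IsNLift.map S ψ hψ hN) X hX hconj
  have hcomp : φ.comp L.ι = ψ.comp L.ι := by
    refine MvPolynomial.algHom_ext fun x => ?_
    obtain ⟨g, a, b⟩ := x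
    have h1 : mapRep (φ : L.R →+* A) ρR g a b = mapRep (ψ : L.R →+* A) ρR g a b := by
      rw [heq]
    rw [mapRep_apply, mapRep_apply, Matrix.map_apply, Matrix.map_apply, hρR] at h1
    exact h1
  exact limData_algHom_ext L φ ψ hφ hψ fun p => AlgHom.congr_fun hcomp p

end Fermat.Agent.Lib.DefRigidUniv
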