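import Mathlib
import Fermat.Prelude.Def_GaloisRep_DeformationCondition

set_option autoImplicit false

namespace Fermat.Agent.Lib.DefTangent

open IsLocalRing

section dual

variable (𝒪 : Type) [CommRing 𝒪] [IsLocalRing 𝒪]

/-- The `𝒪`-algebra structure on the dual numbers over the residue field which is used inside
`GaloisRep.TangentFinite`. -/
@[reducible] noncomputable def dualNumberAlgebra :
    Algebra 𝒪 (DualNumber (ResidueField 𝒪)) :=
  ((algebraMap (ResidueField 𝒪) (DualNumber (ResidueField 𝒪))).comp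
      (algebraMap 𝒪 (ResidueField 𝒪))).toAlgebra

theorem dualNumberAlgebra_algebraMap (o : 𝒪) :
    @algebraMap 𝒪 (DualNumber (ResidueField 𝒪)) _ _ (dualNumberAlgebra 𝒪) o =
      TrivSqZeroExt.inl (residue 𝒪 o) := rfl

end dual

section general

variable {𝒪 : Type*} [CommRing 𝒪] [IsLocalRing 𝒪]
variable {A : Type*} [CommRing A] [Algebra 𝒪 A]
variable (M : Ideal A) [hMmax : M.IsMaximal]

/-- The residue field of `𝒪` maps isomorphically onto `A ⧸ M`. -/
noncomputable def augEquiv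
    (hM : Function.Surjective ((Ideal.Quotient.mk M).comp (algebraMap 𝒪 A))) :
    ResidueField 𝒪 ≃+* A ⧸ M :=
  letI : Field (A ⧸ M) := Ideal.Quotient.field M
  have hker : RingHom.ker ((Ideal.Quotient.mk M).comp (algebraMap 𝒪 A)) = maximalIdeal 𝒪 :=
    IsLocalRing.eq_maximalIdeal (RingHom.ker_isMaximal_of_surjective _ hM)
  let f : ResidueField 𝒪 →+* A ⧸ M := Ideal.Quotient.lift (maximalIdeal 𝒪)
    ((Ideal.Quotient.mk M).comp (algebraMap 𝒪 A)) (fun o ho => by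
      rw [← hker] at ho
      exact ho)
  RingEquiv.ofBijective f ⟨f.injective, fun x => by
    obtain ⟨o, ho⟩ := hM x
    exact ⟨residue 𝒪 o, ho⟩⟩

theorem augEquiv_residue
    (hM : Function.Surjective ((Ideal.Quotient.mk M).comp (algebraMap 𝒪 A))) (o : 𝒪) :
    augEquiv M hM (residue 𝒪 o) = Ideal.Quotient.mk M (algebraMap 𝒪 A o) := rfl

/-- The augmentation `A → k`. -/
noncomputable def aug
    (hM : Function.Surjective ((Ideal.Quotient.mk M).comp (algebraMap 𝒪 A))) :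
    A →+* ResidueField 𝒪 :=
  ((augEquiv M hM).symm : A ⧸ M →+* ResidueField 𝒪).comp (Ideal.Quotient.mk M)

theorem aug_algebraMap
    (hM : Function.Surjective ((Ideal.Quotient.mk M).comp (algebraMap 𝒪 A))) (o : 𝒪) :
    aug M hM (algebraMap 𝒪 A o) = residue 𝒪 o := by
  show (augEquiv M hM).symm (Ideal.Quotient.mk M (algebraMap 𝒪 A o)) = residue 𝒪 o
  rw [← augEquiv_residue M hM, RingEquiv.symm_apply_apply]

theorem aug_eq_zero_iff
    (hM : Function.Surjective ((Ideal.Quotient.mk M).comp (algebraMap 𝒪 A))) (a : A) :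
    aug M hM a = 0 ↔ a ∈ M := by
  show (augEquiv M hM).symm (Ideal.Quotient.mk M a) = 0 ↔ _
  rw [map_eq_zero_iff _ (augEquiv M hM).symm.injective, Ideal.Quotient.eq_zero_iff_mem]

omit [IsLocalRing 𝒪] hMmax in
theorem exists_sub_mem
    (hM : Function.Surjective ((Ideal.Quotient.mk M).comp (algebraMap 𝒪 A))) (a : A) :
    ∃ o : 𝒪, a - algebraMap 𝒪 A o ∈ M := by
  obtain ⟨o, ho⟩ := hM (Ideal.Quotient.mk M a)
  refine ⟨o, ?_⟩
  rw [← Ideal.Quotient.eq_zero_iff_mem, map_sub, sub_eq_zero]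
  exact ho.symm

/-- The Leibniz rule for `𝒪`-linear functionals killing `1` and `M²`. -/
theorem leibniz
    (hM : Function.Surjective ((Ideal.Quotient.mk M).comp (algebraMap 𝒪 A)))
    (L : A →ₗ[𝒪] ResidueField 𝒪) (hL1 : L 1 = 0)
    (hL2 : ∀ x ∈ M ^ 2, L x = 0) (a b : A) :
    L (a * b) = aug M hM a * L b + aug M hM b * L a := by
  obtain ⟨o, ho⟩ := exists_sub_mem M hM a
  obtain ⟨o', ho'⟩ := exists_sub_mem M hM b
  have hLalg : ∀ c : 𝒪, L (algebraMap 𝒪 A c) = 0 := by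
    intro c
    rw [Algebra.algebraMap_eq_smul_one, map_smul, hL1, smul_zero]
  have hsm : ∀ (c : 𝒪) (x : ResidueField 𝒪), c • x = residue 𝒪 c * x := by
    intro c x
    rw [Algebra.smul_def]
    rfl
  have ha : a = algebraMap 𝒪 A o + (a - algebraMap 𝒪 A o) := by ring
  have hb : b = algebraMap 𝒪 A o' + (b - algebraMap 𝒪 A o') := by ring
  set a₀ := a - algebraMap 𝒪 A o with ha₀
  set b₀ := b - algebraMap 𝒪 A o' with hb₀
  have hLa : L a = L a₀ := by rw [ha, map_add, hLalg, zero_add]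
  have hLb : L b = L b₀ := by rw [hb, map_add, hLalg, zero_add]
  have hπa : aug M hM a = residue 𝒪 o := by
    rw [ha, map_add, aug_algebraMap, (aug_eq_zero_iff M hM a₀).mpr ho, add_zero]
  have hπb : aug M hM b = residue 𝒪 o' := by
    rw [hb, map_add, aug_algebraMap, (aug_eq_zero_iff M hM b₀).mpr ho', add_zero]
  have hab : a * b = algebraMap 𝒪 A (o * o') + o • b₀ + o' • a₀ + a₀ * b₀ := by
    rw [ha, hb, Algebra.smul_def, Algebra.smul_def, map_mul]
    ring
  have h2 : L (a₀ * b₀) = 0 := hL2 _ (by rw [pow_two]; exact Ideal.mul_mem_mul ho ho')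
  rw [hab, map_add, map_add, map_add, hLalg, map_smul, map_smul, h2, hπa, hπb, hLa, hLb,
    hsm, hsm]
  ring

variable (inst : Algebra 𝒪 (DualNumber (ResidueField 𝒪)))

/-- The algebra homomorphism `A → k[ε]` attached to a "derivation" `L`. -/
noncomputable def tangentHom
    (hinst : ∀ o : 𝒪, @algebraMap 𝒪 (DualNumber (ResidueField 𝒪)) _ _ inst o =
      TrivSqZeroExt.inl (residue 𝒪 o))
    (hM : Function.Surjective ((Ideal.Quotient.mk M).comp (algebraMap 𝒪 A)))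
    (L : A →ₗ[𝒪] ResidueField 𝒪) (hL1 : L 1 = 0)
    (hL2 : ∀ x ∈ M ^ 2, L x = 0) :
    @AlgHom 𝒪 A (DualNumber (ResidueField 𝒪)) _ _ _ _ inst :=
  letI := inst
  { toFun := fun a => TrivSqZeroExt.inl (aug M hM a) + TrivSqZeroExt.inr (L a)
    map_one' := by
      rw [map_one, hL1]
      ext <;> simp
    map_mul' := fun a b => by
      rw [leibniz M hM L hL1 hL2 a b, map_mul]
      ext <;> simp [mul_comm]
    map_zero' := by
      rw [map_zero, map_zero]
      ext <;> simp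
    map_add' := fun a b => by
      rw [map_add, map_add]
      ext <;> simp
    commutes' := fun o => by
      have hLalg : L (algebraMap 𝒪 A o) = 0 := by
        rw [Algebra.algebraMap_eq_smul_one, map_smul, hL1, smul_zero]
      rw [aug_algebraMap, hLalg, hinst]
      ext <;> simp }

theorem tangentHom_apply
    (hinst : ∀ o : 𝒪, @algebraMap 𝒪 (DualNumber (ResidueField 𝒪)) _ _ inst o =
      TrivSqZeroExt.inl (residue 𝒪 o))
    (hM : Function.Surjective ((Ideal.Quotient.mk M).comp (algebraMap 𝒪 A)))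
    (L : A →ₗ[𝒪] ResidueField 𝒪) (hL1 : L 1 = 0)
    (hL2 : ∀ x ∈ M ^ 2, L x = 0) (a : A) :
    tangentHom M inst hinst hM L hL1 hL2 a =
      TrivSqZeroExt.inl (aug M hM a) + TrivSqZeroExt.inr (L a) := rfl

/-- The tangent count, general form: `M` a maximal ideal of the `𝒪`-algebra `A` with
`𝒪 → A ⧸ M` surjective. Few `𝒪`-algebra maps `A → k[ε]` force `A ⧸ (M² + 𝔪_𝒪 A)` to be
small. -/
theorem card_quotient_le_of_isMaximal [Finite (ResidueField 𝒪)]
    (hinst : ∀ o : 𝒪, @algebraMap 𝒪 (DualNumber (ResidueField 𝒪)) _ _ inst o =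
      TrivSqZeroExt.inl (residue 𝒪 o))
    (hM : Function.Surjective ((Ideal.Quotient.mk M).comp (algebraMap 𝒪 A)))
    [hfin : Finite (@AlgHom 𝒪 A (DualNumber (ResidueField 𝒪)) _ _ _ _ inst)] :
    Finite (A ⧸ (M ^ 2 ⊔ (maximalIdeal 𝒪).map (algebraMap 𝒪 A))) ∧
      Nat.card (A ⧸ (M ^ 2 ⊔ (maximalIdeal 𝒪).map (algebraMap 𝒪 A))) ≤
        Nat.card (ResidueField 𝒪) *
          Nat.card (@AlgHom 𝒪 A (DualNumber (ResidueField 𝒪)) _ _ _ _ inst) := by
  classical
  set J := M ^ 2 ⊔ (maximalIdeal 𝒪).map (algebraMap 𝒪 A) with hJ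
  set k := ResidueField 𝒪 with hk
  -- the `k`-algebra structure on `A ⧸ J`
  let ι₀ : k →+* A ⧸ J := Ideal.Quotient.lift (maximalIdeal 𝒪)
    ((Ideal.Quotient.mk J).comp (algebraMap 𝒪 A)) (fun o ho =>
      Ideal.Quotient.eq_zero_iff_mem.mpr (Ideal.mem_sup_right (Ideal.mem_map_of_mem _ ho)))
  let _ : Algebra k (A ⧸ J) := ι₀.toAlgebra
  have _ : IsScalarTower 𝒪 k (A ⧸ J) := IsScalarTower.of_algebraMap_eq (fun o => rfl)
  let S : Submodule k (A ⧸ J) := Submodule.span k {1}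
  -- functionals on the quotient give algebra maps
  let mkL : ((A ⧸ J) ⧸ S →ₗ[k] k) → (A →ₗ[𝒪] k) := fun f =>
    (f.restrictScalars 𝒪).comp (((Submodule.mkQ S).restrictScalars 𝒪).comp
      (Ideal.Quotient.mkₐ 𝒪 J).toLinearMap)
  have mkL_apply : ∀ f a, mkL f a = f (Submodule.Quotient.mk (Ideal.Quotient.mk J a)) :=
    fun f a => rfl
  have h1 : ∀ f, mkL f 1 = 0 := by
    intro f
    rw [mkL_apply, map_one, (Submodule.Quotient.mk_eq_zero S).mpr
      (Submodule.mem_span_singleton_self 1), map_zero]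
  have h2 : ∀ f, ∀ x ∈ M ^ 2, mkL f x = 0 := by
    intro f x hx
    rw [mkL_apply, Ideal.Quotient.eq_zero_iff_mem.mpr (show x ∈ J from Ideal.mem_sup_left hx),
      Submodule.Quotient.mk_zero, map_zero]
  let Φ : ((A ⧸ J) ⧸ S →ₗ[k] k) → @AlgHom 𝒪 A (DualNumber k) _ _ _ _ inst := fun f =>
    tangentHom M inst hinst hM (mkL f) (h1 f) (h2 f)
  have h3 : ∀ f a, TrivSqZeroExt.snd (Φ f a) = mkL f a := by
    intro f a
    show TrivSqZeroExt.snd (TrivSqZeroExt.inl (aug M hM a) + TrivSqZeroExt.inr (mkL f a)) = _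
    rw [TrivSqZeroExt.snd_add, TrivSqZeroExt.snd_inl, TrivSqZeroExt.snd_inr, zero_add]
  have hΦ : Function.Injective Φ := by
    intro f g hfg
    refine LinearMap.ext fun q => ?_
    obtain ⟨q', rfl⟩ := Submodule.Quotient.mk_surjective S q
    obtain ⟨a, rfl⟩ := Ideal.Quotient.mk_surjective q'
    rw [← mkL_apply, ← mkL_apply, ← h3 f, ← h3 g, hfg]
  have _ : Finite ((A ⧸ J) ⧸ S →ₗ[k] k) := Finite.of_injective Φ hΦ
  have hcard1 : Nat.card ((A ⧸ J) ⧸ S →ₗ[k] k) ≤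
      Nat.card (@AlgHom 𝒪 A (DualNumber k) _ _ _ _ inst) :=
    Nat.card_le_card_of_injective Φ hΦ
  -- the quotient by `S` is finite with the same cardinality as its dual
  let b := Module.Free.chooseBasis k ((A ⧸ J) ⧸ S)
  let e1 : (Module.Free.ChooseBasisIndex k ((A ⧸ J) ⧸ S) → k) ≃ₗ[k] ((A ⧸ J) ⧸ S →ₗ[k] k) :=
    b.constr k
  have _ : Finite (Module.Free.ChooseBasisIndex k ((A ⧸ J) ⧸ S) → k) :=
    Finite.of_equiv _ e1.symm.toEquiv
  have _ : Finite (Module.Free.ChooseBasisIndex k ((A ⧸ J) ⧸ S)) := by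
    refine Finite.of_injective (fun i => (Pi.single i (1 : k) :
      Module.Free.ChooseBasisIndex k ((A ⧸ J) ⧸ S) → k)) ?_
    intro i j hij
    by_contra hne
    have h := congrFun hij i
    beta_reduce at h
    rw [Pi.single_eq_same, Pi.single_eq_of_ne hne] at h
    exact one_ne_zero h
  let _ : Fintype (Module.Free.ChooseBasisIndex k ((A ⧸ J) ⧸ S)) := Fintype.ofFinite _
  let e2 : ((A ⧸ J) ⧸ S) ≃ₗ[k] (Module.Free.ChooseBasisIndex k ((A ⧸ J) ⧸ S) → k) :=
    b.equivFun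
  have hQ1 : Finite ((A ⧸ J) ⧸ S) := Finite.of_equiv _ e2.symm.toEquiv
  have hcard2 : Nat.card ((A ⧸ J) ⧸ S) = Nat.card ((A ⧸ J) ⧸ S →ₗ[k] k) :=
    Nat.card_congr (e2.toEquiv.trans e1.toEquiv)
  -- `S` is small
  have hSsurj : Function.Surjective (fun c : k => (⟨c • (1 : A ⧸ J),
      Submodule.smul_mem S c (Submodule.mem_span_singleton_self 1)⟩ : S)) := by
    rintro ⟨x, hx⟩
    obtain ⟨c, rfl⟩ := Submodule.mem_span_singleton.mp hx
    exact ⟨c, rfl⟩
  have hSfin : Finite S := Finite.of_surjective _ hSsurj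
  have hcardS : Nat.card S ≤ Nat.card k := Nat.card_le_card_of_surjective _ hSsurj
  -- assemble
  let e3 : (A ⧸ J) ≃ ((A ⧸ J) ⧸ S.toAddSubgroup) × S.toAddSubgroup :=
    AddSubgroup.addGroupEquivQuotientProdAddSubgroup
  have _ : Finite ((A ⧸ J) ⧸ S.toAddSubgroup) := hQ1
  have _ : Finite S.toAddSubgroup := hSfin
  have hQ : Finite (A ⧸ J) := Finite.of_equiv _ e3.symm
  refine ⟨hQ, ?_⟩
  have hc3 : Nat.card (A ⧸ J) = Nat.card ((A ⧸ J) ⧸ S) * Nat.card S := by
    rw [Nat.card_congr e3, Nat.card_prod]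
    rfl
  rw [hc3, hcard2, mul_comm]
  exact Nat.mul_le_mul hcardS hcard1

end general

section local_case

variable {𝒪 : Type*} [CommRing 𝒪] [IsLocalRing 𝒪]
variable {A : Type*} [CommRing A] [IsLocalRing A] [Algebra 𝒪 A]
variable (inst : Algebra 𝒪 (DualNumber (ResidueField 𝒪)))

/-- The tangent count for a local `𝒪`-algebra `A` with residue field `k`. -/
theorem card_quotient_le [Finite (ResidueField 𝒪)]
    (hinst : ∀ o : 𝒪, @algebraMap 𝒪 (DualNumber (ResidueField 𝒪)) _ _ inst o =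
      TrivSqZeroExt.inl (residue 𝒪 o))
    (hres : Function.Surjective (residue A ∘ algebraMap 𝒪 A))
    [hfin : Finite (@AlgHom 𝒪 A (DualNumber (ResidueField 𝒪)) _ _ _ _ inst)] :
    Finite (A ⧸ (maximalIdeal A ^ 2 ⊔ (maximalIdeal 𝒪).map (algebraMap 𝒪 A))) ∧
      Nat.card (A ⧸ (maximalIdeal A ^ 2 ⊔ (maximalIdeal 𝒪).map (algebraMap 𝒪 A))) ≤
        Nat.card (ResidueField 𝒪) *
          Nat.card (@AlgHom 𝒪 A (DualNumber (ResidueField 𝒪)) _ _ _ _ inst) :=
  card_quotient_le_of_isMaximal (maximalIdeal A) inst hinst hres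

end local_case

section quotient_case

variable {𝒪 : Type*} [CommRing 𝒪] [IsLocalRing 𝒪]
variable {P : Type*} [CommRing P] [Algebra 𝒪 P]
variable (inst : Algebra 𝒪 (DualNumber (ResidueField 𝒪)))

/-- The tangent count for a quotient `P ⧸ I` with `I ≤ NN`, `NN` maximal with residue field
`k`: few `𝒪`-algebra maps `P ⧸ I → k[ε]` force `P ⧸ (I + NN² + 𝔪_𝒪 P)` to be small. -/
theorem card_quotient_sup_le [Finite (ResidueField 𝒪)]
    (hinst : ∀ o : 𝒪, @algebraMap 𝒪 (DualNumber (ResidueField 𝒪)) _ _ inst o =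
      TrivSqZeroExt.inl (residue 𝒪 o))
    (NN I : Ideal P) [hNN : NN.IsMaximal] (hle : I ≤ NN)
    (hNNsurj : Function.Surjective ((Ideal.Quotient.mk NN).comp (algebraMap 𝒪 P)))
    [hfin : Finite (@AlgHom 𝒪 (P ⧸ I) (DualNumber (ResidueField 𝒪)) _ _ _ _ inst)] :
    Finite (P ⧸ (I ⊔ NN ^ 2 ⊔ (maximalIdeal 𝒪).map (algebraMap 𝒪 P))) ∧
      Nat.card (P ⧸ (I ⊔ NN ^ 2 ⊔ (maximalIdeal 𝒪).map (algebraMap 𝒪 P))) ≤
        Nat.card (ResidueField 𝒪) *
          Nat.card (@AlgHom 𝒪 (P ⧸ I) (DualNumber (ResidueField 𝒪)) _ _ _ _ inst) := by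
  set M : Ideal (P ⧸ I) := NN.map (Ideal.Quotient.mk I) with hMdef
  have hMmax : M.IsMaximal :=
    Ideal.IsMaximal.map_of_surjective_of_ker_le Ideal.Quotient.mk_surjective
      (by rw [Ideal.mk_ker]; exact hle)
  have hM : Function.Surjective ((Ideal.Quotient.mk M).comp (algebraMap 𝒪 (P ⧸ I))) := by
    intro x
    obtain ⟨y, rfl⟩ := Ideal.Quotient.mk_surjective x
    obtain ⟨p, rfl⟩ := Ideal.Quotient.mk_surjective y
    obtain ⟨o, ho⟩ := hNNsurj (Ideal.Quotient.mk NN p)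
    refine ⟨o, ?_⟩
    have h1 : algebraMap 𝒪 P o - p ∈ NN := by
      rw [← Ideal.Quotient.eq_zero_iff_mem, map_sub, sub_eq_zero]
      exact ho
    show Ideal.Quotient.mk M (Ideal.Quotient.mk I (algebraMap 𝒪 P o)) =
      Ideal.Quotient.mk M (Ideal.Quotient.mk I p)
    rw [← sub_eq_zero, ← map_sub, ← map_sub, Ideal.Quotient.eq_zero_iff_mem]
    exact Ideal.mem_map_of_mem _ h1
  obtain ⟨hf, hc⟩ := card_quotient_le_of_isMaximal M inst hinst hM
  have hmap : (NN ^ 2 ⊔ (maximalIdeal 𝒪).map (algebraMap 𝒪 P)).map (Ideal.Quotient.mk I) =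
      M ^ 2 ⊔ (maximalIdeal 𝒪).map (algebraMap 𝒪 (P ⧸ I)) := by
    rw [Ideal.map_sup, Ideal.map_pow, Ideal.map_map]
    rfl
  let e : ((P ⧸ I) ⧸ (M ^ 2 ⊔ (maximalIdeal 𝒪).map (algebraMap 𝒪 (P ⧸ I)))) ≃+*
      P ⧸ (I ⊔ NN ^ 2 ⊔ (maximalIdeal 𝒪).map (algebraMap 𝒪 P)) :=
    (Ideal.quotEquivOfEq hmap.symm).trans
      ((DoubleQuot.quotQuotEquivQuotSup I _).trans (Ideal.quotEquivOfEq (sup_assoc _ _ _).symm))
  refine ⟨Finite.of_equiv _ e.toEquiv, ?_⟩
  rw [← Nat.card_congr e.toEquiv]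
  exact hc

end quotient_case

section test_algebra

variable (𝒪 : Type) [CommRing 𝒪] [IsLocalRing 𝒪]

/-- The dual numbers over the residue field (with the `TangentFinite` algebra structure) form
an Artinian test algebra. -/
theorem isArtinianTestAlgebra_dualNumber :
    @GaloisRep.IsArtinianTestAlgebra 𝒪 _ (DualNumber (ResidueField 𝒪)) _ _
      (dualNumberAlgebra 𝒪) := by
  let _ := dualNumberAlgebra 𝒪
  refine ⟨⟨fun o ho => ?_⟩, ?_, ?_⟩
  · have h1 : IsUnit (TrivSqZeroExt.inl (residue 𝒪 o) : DualNumber (ResidueField 𝒪)) := ho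
    rw [TrivSqZeroExt.isUnit_iff_isUnit_fst, TrivSqZeroExt.fst_inl] at h1
    exact isUnit_of_map_unit (residue 𝒪) o h1
  · intro x
    obtain ⟨y, rfl⟩ := IsLocalRing.residue_surjective x
    obtain ⟨o, ho⟩ := IsLocalRing.residue_surjective (TrivSqZeroExt.fst y)
    refine ⟨o, ?_⟩
    show residue _ (TrivSqZeroExt.inl (residue 𝒪 o)) = residue _ y
    rw [← sub_eq_zero, ← map_sub, residue_eq_zero_iff, mem_maximalIdeal, mem_nonunits_iff,
      TrivSqZeroExt.isUnit_iff_isUnit_fst, TrivSqZeroExt.fst_sub, TrivSqZeroExt.fst_inl, ho,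
      sub_self]
    exact not_isUnit_zero
  · rw [isArtinianRing_iff_isNilpotent_maximalIdeal, DualNumber.maximalIdeal_eq_span_singleton_eps]
    refine ⟨2, ?_⟩
    rw [Ideal.span_singleton_pow, pow_two, DualNumber.eps_mul_eps]
    simp

/-- Every `𝒪`-algebra map from a local `𝒪`-algebra with residue field `k` to the dual numbers
is a local homomorphism. -/
theorem isLocalHom_of_algHom_dualNumber {A : Type*} [CommRing A] [IsLocalRing A] [Algebra 𝒪 A]
    (inst : Algebra 𝒪 (DualNumber (ResidueField 𝒪)))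
    (hinst : ∀ o : 𝒪, @algebraMap 𝒪 (DualNumber (ResidueField 𝒪)) _ _ inst o =
      TrivSqZeroExt.inl (residue 𝒪 o))
    (φ : @AlgHom 𝒪 A (DualNumber (ResidueField 𝒪)) _ _ _ _ inst) :
    IsLocalHom (φ : A →+* DualNumber (ResidueField 𝒪)) := by
  let _ := inst
  let ψ : A →+* ResidueField 𝒪 :=
    (TrivSqZeroExt.fstHom (ResidueField 𝒪) (ResidueField 𝒪) (ResidueField 𝒪)).toRingHom.comp
      (φ : A →+* DualNumber (ResidueField 𝒪))
  have hψ : Function.Surjective ψ := by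
    intro c
    obtain ⟨o, rfl⟩ := IsLocalRing.residue_surjective c
    refine ⟨algebraMap 𝒪 A o, ?_⟩
    show TrivSqZeroExt.fst (φ (algebraMap 𝒪 A o)) = residue 𝒪 o
    rw [AlgHom.commutes, hinst, TrivSqZeroExt.fst_inl]
  have hker : RingHom.ker ψ = maximalIdeal A :=
    IsLocalRing.eq_maximalIdeal (RingHom.ker_isMaximal_of_surjective ψ hψ)
  refine ⟨fun a ha => ?_⟩
  by_contra hna
  have hmem : a ∈ RingHom.ker ψ := by
    rw [hker]
    exact hna
  have h0 : TrivSqZeroExt.fst (φ a) = 0 := hmem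
  have h1 : IsUnit (φ a) := ha
  rw [TrivSqZeroExt.isUnit_iff_isUnit_fst, h0] at h1
  exact not_isUnit_zero h1

end test_algebra

end Fermat.Agent.Lib.DefTangent
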