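import Mathlib

set_option autoImplicit false

namespace Fermat.Agent.Lib.DeligneSerre

open Module

/-- A pairwise commuting family of endomorphisms stabilising a nonzero finite-dimensional
subspace over an algebraically closed field has a common eigenvector in it. -/
theorem exists_common_eigenvector {K V : Type*} [Field K] [IsAlgClosed K] [AddCommGroup V]
    [Module K V] [FiniteDimensional K V] (T : Set (Module.End K V))
    (hcomm : ∀ s ∈ T, ∀ t ∈ T, s * t = t * s) :
    ∀ (n : ℕ) (W : Submodule K V), finrank K W = n → W ≠ ⊥ →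
      (∀ t ∈ T, ∀ w ∈ W, t w ∈ W) →
      ∃ w ∈ W, w ≠ 0 ∧ ∀ t ∈ T, ∃ c : K, t w = c • w := by
  intro n
  induction n using Nat.strong_induction_on with
  | _ n ih =>
    intro W hn hW hstab
    by_cases hsc : ∀ t ∈ T, ∃ c : K, ∀ w ∈ W, t w = c • w
    · obtain ⟨w, hwW, hw0⟩ := Submodule.exists_mem_ne_zero_of_ne_bot hW
      exact ⟨w, hwW, hw0, fun t ht => let ⟨c, hc⟩ := hsc t ht; ⟨c, hc w hwW⟩⟩
    · push Not at hsc
      obtain ⟨t, htT, ht⟩ := hsc
      have : Nontrivial W := Submodule.nontrivial_iff_ne_bot.mpr hW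
      obtain ⟨c, hc⟩ := Module.End.exists_eigenvalue (t.restrict (hstab t htT))
      obtain ⟨v, hv⟩ := hc.exists_hasEigenvector
      have hv1 : t (v : V) = c • (v : V) := by
        have := hv.apply_eq_smul
        have h2 := congrArg (Subtype.val) this
        simpa using h2
      have hv0 : (v : V) ≠ 0 := fun h => hv.2 (Subtype.ext h)
      let W' : Submodule K V := W ⊓ LinearMap.ker (t - c • (1 : Module.End K V))
      have hW'le : W' ≤ W := inf_le_left
      have hvW' : (v : V) ∈ W' := by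
        refine Submodule.mem_inf.mpr ⟨v.2, ?_⟩
        simp [LinearMap.mem_ker, hv1]
      have hW'ne : W' ≠ ⊥ := fun h => hv0 (by rw [h] at hvW'; simpa using hvW')
      obtain ⟨w, hwW, hw⟩ := ht c
      have hlt : W' < W := by
        refine lt_of_le_of_ne hW'le ?_
        intro heq
        have : w ∈ W' := heq ▸ hwW
        apply hw
        have h3 := (Submodule.mem_inf.mp this).2
        simp only [LinearMap.mem_ker, LinearMap.sub_apply, LinearMap.smul_apply,
          Module.End.one_apply] at h3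
        exact sub_eq_zero.mp h3
      have hfr : finrank K W' < n := hn ▸ Submodule.finrank_lt_finrank_of_lt hlt
      have hstab' : ∀ s ∈ T, ∀ x ∈ W', s x ∈ W' := by
        intro s hs x hx
        have hx' := Submodule.mem_inf.mp hx
        refine Submodule.mem_inf.mpr ⟨hstab s hs x hx'.1, ?_⟩
        have h3 := hx'.2
        simp only [LinearMap.mem_ker, LinearMap.sub_apply, LinearMap.smul_apply,
          Module.End.one_apply] at h3 ⊢
        have h4 : t (s x) = s (t x) := by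
          have := congrArg (fun f : Module.End K V => f x) (hcomm t htT s hs)
          simpa using this
        rw [h4, sub_eq_zero.mp h3, map_smul, sub_self]
      obtain ⟨u, huW', hu0, hu⟩ := ih _ hfr W' rfl hW'ne hstab'
      exact ⟨u, hW'le huW', hu0, hu⟩

/-- Core lifting lemma: a commutative ring acting on a nonzero finite-dimensional complex
vector space by integral operators, with a maximal ideal containing the kernel of the action,
has an eigen-character with integral values lying under a maximal ideal of `ℤ̄` whose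
contraction is the given maximal ideal. -/
theorem core {A : Type*} [CommRing A] {V : Type*} [AddCommGroup V] [Module ℂ V]
    [FiniteDimensional ℂ V] [Nontrivial V]
    (ρ : A →+* Module.End ℂ V) (𝔪 : Ideal A) [h𝔪 : 𝔪.IsMaximal]
    (hker : ∀ t, ρ t = 0 → t ∈ 𝔪)
    (hint : ∀ t, IsIntegral ℤ (ρ t)) :
    ∃ (w : V) (μ : A →+* integralClosure ℤ ℂ) (𝔪' : Ideal (integralClosure ℤ ℂ)),
      w ≠ 0 ∧ 𝔪'.IsMaximal ∧ (∀ t, ρ t w = ((μ t : integralClosure ℤ ℂ) : ℂ) • w) ∧
      𝔪'.comap μ = 𝔪 := by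
  classical
  let F : Submodule ℂ V → Prop := fun W => W ≠ ⊥ ∧ (∀ t, ∀ w ∈ W, ρ t w ∈ W) ∧
      (∀ t, (∀ w ∈ W, ρ t w = 0) → t ∈ 𝔪)
  have hF : ∃ n, ∃ W, F W ∧ finrank ℂ W = n :=
    ⟨_, ⊤, ⟨top_ne_bot, fun _ _ _ => trivial,
      fun t ht => hker t (LinearMap.ext fun w => ht w trivial)⟩, rfl⟩
  obtain ⟨W, hFW, hWn⟩ := Nat.find_spec hF
  have hmin : ∀ W', F W' → finrank ℂ W ≤ finrank ℂ W' :=
    fun W' hW' => hWn ▸ Nat.find_min' hF ⟨W', hW', rfl⟩
  have hcomm : ∀ s t : A, ∀ v, ρ s (ρ t v) = ρ t (ρ s v) := by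
    intro s t v
    rw [← Module.End.mul_apply, ← Module.End.mul_apply, ← map_mul, ← map_mul, mul_comm]
  have hinjW : ∀ t, t ∉ 𝔪 → ∀ w ∈ W, ρ t w = 0 → w = 0 := by
    intro t ht
    let Wt : Submodule ℂ V := W.map (ρ t)
    have hle : Wt ≤ W := by
      rintro _ ⟨w, hw, rfl⟩
      exact hFW.2.1 t w hw
    have hFt : F Wt := by
      refine ⟨?_, ?_, ?_⟩
      · intro h
        apply ht
        apply hFW.2.2
        intro w hw
        have : ρ t w ∈ Wt := Submodule.mem_map_of_mem hw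
        rw [h] at this
        simpa using this
      · rintro s _ ⟨w, hw, rfl⟩
        rw [hcomm]
        exact Submodule.mem_map_of_mem (hFW.2.1 s w hw)
      · intro s hs
        have : s * t ∈ 𝔪 := by
          apply hFW.2.2
          intro w hw
          rw [map_mul, Module.End.mul_apply]
          exact hs _ (Submodule.mem_map_of_mem hw)
        exact (h𝔪.isPrime.mem_or_mem this).resolve_right ht
    have heq : Wt = W := Submodule.eq_of_le_of_finrank_le hle (hmin Wt hFt)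
    have hsurj : Function.Surjective
        ((ρ t).restrict (fun w hw => hFW.2.1 t w hw) : W →ₗ[ℂ] W) := by
      rintro ⟨y, hy⟩
      have : y ∈ Wt := heq ▸ hy
      obtain ⟨w, hw, rfl⟩ := this
      exact ⟨⟨w, hw⟩, Subtype.ext rfl⟩
    have hinj := LinearMap.injective_iff_surjective.mpr hsurj
    intro w hw h0
    have := @hinj ⟨w, hw⟩ 0 (Subtype.ext (by simpa using h0))
    simpa using congrArg Subtype.val this
  obtain ⟨w, hwW, hw0, hw⟩ := exists_common_eigenvector (Set.range ρ) (by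
      rintro _ ⟨s, rfl⟩ _ ⟨t, rfl⟩
      rw [← map_mul, ← map_mul, mul_comm]) _ W rfl hFW.1
      (by rintro _ ⟨t, rfl⟩ w hw; exact hFW.2.1 t w hw)
  have hw' : ∀ t, ∃ c : ℂ, ρ t w = c • w := fun t => hw _ ⟨t, rfl⟩
  choose μ₀ hμ₀ using hw'
  have huniq : ∀ c c' : ℂ, c • w = c' • w → c = c' :=
    fun c c' h => smul_left_injective ℂ hw0 h
  let μ₁ : A →+* ℂ :=
    { toFun := μ₀
      map_one' := huniq _ _ (by rw [← hμ₀, map_one, one_smul, Module.End.one_apply])
      map_mul' := fun s t => huniq _ _ (by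
        rw [← hμ₀, map_mul, Module.End.mul_apply, hμ₀ t, map_smul, hμ₀ s, smul_smul, mul_comm])
      map_zero' := huniq _ _ (by rw [← hμ₀, map_zero, zero_smul, LinearMap.zero_apply])
      map_add' := fun s t => huniq _ _ (by
        rw [← hμ₀, map_add, LinearMap.add_apply, hμ₀, hμ₀, add_smul]) }
  have hint' : ∀ t, μ₁ t ∈ integralClosure ℤ ℂ := by
    intro t
    obtain ⟨P, hP, hP0⟩ := hint t
    refine ⟨P, hP, ?_⟩
    have hev : (ρ t).HasEigenvector (μ₁ t) w :=
      ⟨Module.End.mem_eigenspace_iff.mpr (hμ₀ t), hw0⟩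
    have h1 := Module.End.aeval_apply_of_hasEigenvector hev (p := P.map (algebraMap ℤ ℂ))
    rw [Polynomial.aeval_map_algebraMap, Polynomial.eval_map_algebraMap] at h1
    have h2 : Polynomial.aeval (ρ t) P = 0 := hP0
    rw [h2, LinearMap.zero_apply] at h1
    exact (smul_eq_zero.mp h1.symm).resolve_right hw0
  let μ : A →+* integralClosure ℤ ℂ := μ₁.codRestrict (integralClosure ℤ ℂ) hint'
  have hkerμ : RingHom.ker μ ≤ 𝔪 := by
    intro t ht
    by_contra htm
    apply hw0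
    apply hinjW t htm w hwW
    have h0 : μ₁ t = 0 := congrArg (Subtype.val) (RingHom.mem_ker.mp ht)
    rw [hμ₀ t]
    show μ₁ t • w = 0
    rw [h0, zero_smul]
  let _ : Algebra A (integralClosure ℤ ℂ) := μ.toAlgebra
  have : Algebra.IsIntegral A (integralClosure ℤ ℂ) := Algebra.IsIntegral.tower_top (R := ℤ)
  obtain ⟨Q, hQmax, hQ⟩ :=
    Ideal.exists_ideal_over_maximal_of_isIntegral (S := integralClosure ℤ ℂ) 𝔪 hkerμ
  exact ⟨w, μ, Q, hw0, hQmax, fun t => hμ₀ t, hQ⟩

/-- Abstract Deligne–Serre lifting lemma. `V` is a complex vector space spanned by a finitely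
generated `ℤ`-lattice `L`, `G` a pairwise commuting set of endomorphisms stabilising `L`,
`f₀ ∈ L \ pL` a common eigenvector modulo `p` with eigenvalues `χ t` (`t ∈ G`).  Then there is a
genuine common eigenvector `w ≠ 0` whose eigenvalues `μ t` are algebraic integers congruent
to `χ t` modulo a maximal ideal of `ℤ̄` above `p`. -/
theorem lifting {V : Type*} [AddCommGroup V] [Module ℂ V]
    (L : Submodule ℤ V) (hLfg : L.FG) (hLspan : Submodule.span ℂ (L : Set V) = ⊤)
    (G : Set (Module.End ℂ V)) (hcomm : ∀ s ∈ G, ∀ t ∈ G, s * t = t * s)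
    (hL : ∀ t ∈ G, ∀ x ∈ L, t x ∈ L)
    (p : ℕ) (hp : p.Prime) (f₀ : V) (hf₀ : f₀ ∈ L) (hf₀' : ∀ y ∈ L, f₀ ≠ (p : ℤ) • y)
    (χ : Module.End ℂ V → ℤ) (hχ : ∀ t ∈ G, ∃ y ∈ L, t f₀ - χ t • f₀ = (p : ℤ) • y) :
    ∃ (w : V) (μ : Module.End ℂ V → integralClosure ℤ ℂ)
      (𝔪' : Ideal (integralClosure ℤ ℂ)),
      w ≠ 0 ∧ 𝔪'.IsMaximal ∧ ((p : ℕ) : integralClosure ℤ ℂ) ∈ 𝔪' ∧
      ∀ t ∈ G, t w = ((μ t : integralClosure ℤ ℂ) : ℂ) • w ∧
        μ t - (χ t : integralClosure ℤ ℂ) ∈ 𝔪' := by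
  classical
  have hfin : FiniteDimensional ℂ V := by
    obtain ⟨S, hS⟩ := hLfg
    refine ⟨⟨S, ?_⟩⟩
    rw [← hLspan, ← hS, Submodule.span_span_of_tower]
  have hf₀ne : f₀ ≠ 0 := fun h => hf₀' 0 L.zero_mem (by rw [h, smul_zero])
  have hnt : Nontrivial V := ⟨⟨f₀, 0, hf₀ne⟩⟩
  let 𝕋 : Subalgebra ℤ (Module.End ℂ V) := Algebra.adjoin ℤ G
  have hTcomm : IsMulCommutative 𝕋 := Algebra.isMulCommutative_adjoin ℤ hcomm
  let _ : CommRing 𝕋 :=
    { (inferInstance : Ring 𝕋) with mul_comm := fun a b => hTcomm.is_comm.comm a b }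
  have hTL : ∀ t ∈ 𝕋, ∀ x ∈ L, t x ∈ L := by
    intro t ht
    induction ht using Algebra.adjoin_induction with
    | mem t ht => exact hL t ht
    | algebraMap r =>
      intro x hx
      simpa using L.smul_mem r hx
    | add s t _ _ hs ht =>
      intro x hx
      simpa using L.add_mem (hs x hx) (ht x hx)
    | mul s t _ _ hs ht =>
      intro x hx
      simpa using hs _ (ht x hx)
  have hTf : ∀ t ∈ 𝕋, ∃ a : ℤ, ∃ y ∈ L, t f₀ = a • f₀ + (p : ℤ) • y := by
    intro t ht
    induction ht using Algebra.adjoin_induction with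
    | mem t ht =>
      obtain ⟨y, hy, h⟩ := hχ t ht
      exact ⟨χ t, y, hy, by rw [← h]; abel⟩
    | algebraMap r =>
      exact ⟨r, 0, L.zero_mem, by simp⟩
    | add s t _ _ hs ht =>
      obtain ⟨a, y, hy, h⟩ := hs
      obtain ⟨b, z, hz, h'⟩ := ht
      exact ⟨a + b, y + z, L.add_mem hy hz, by
        rw [LinearMap.add_apply, h, h']; module⟩
    | mul s t hs' ht' hs ht =>
      obtain ⟨a, y, hy, h⟩ := hs
      obtain ⟨b, z, hz, h'⟩ := ht
      refine ⟨a * b, b • y + s z, L.add_mem (L.smul_mem b hy) (hTL s hs' z hz), ?_⟩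
      rw [Module.End.mul_apply, h', map_add, map_zsmul, map_zsmul, h]
      module
  let 𝔪 : Ideal 𝕋 :=
    { carrier := {t | ∃ y ∈ L, (t : Module.End ℂ V) f₀ = (p : ℤ) • y}
      zero_mem' := ⟨0, L.zero_mem, by simp⟩
      add_mem' := by
        rintro s t ⟨y, hy, h⟩ ⟨z, hz, h'⟩
        refine ⟨y + z, L.add_mem hy hz, ?_⟩
        rw [Subalgebra.coe_add, LinearMap.add_apply, h, h', smul_add]
      smul_mem' := by
        rintro s t ⟨y, hy, h⟩
        refine ⟨(s : Module.End ℂ V) y, hTL s s.2 y hy, ?_⟩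
        show ((s * t : 𝕋) : Module.End ℂ V) f₀ = _
        rw [Subalgebra.coe_mul, Module.End.mul_apply, h, map_zsmul] }
  have hmem𝔪 : ∀ t : 𝕋, t ∈ 𝔪 ↔ ∃ y ∈ L, (t : Module.End ℂ V) f₀ = (p : ℤ) • y :=
    fun t => Iff.rfl
  have h𝔪 : 𝔪.IsMaximal := by
    rw [Ideal.isMaximal_iff]
    refine ⟨?_, ?_⟩
    · rintro ⟨y, hy, h⟩
      exact hf₀' y hy (by simpa using h)
    · intro J t hJ ht htJ
      obtain ⟨a, y, hy, h⟩ := hTf t t.2
      have hpa : ¬ (p : ℤ) ∣ a := by
        rintro ⟨b, rfl⟩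
        apply ht
        exact ⟨b • f₀ + y, L.add_mem (L.smul_mem b hf₀) hy, by rw [h]; module⟩
      have hcop : IsCoprime (p : ℤ) a :=
        (Nat.prime_iff_prime_int.mp hp).coprime_iff_not_dvd.mpr hpa
      obtain ⟨v, u, huv⟩ := hcop
      have hmem : ((u : 𝕋) * t - 1 : 𝕋) ∈ 𝔪 := by
        refine ⟨u • y - v • f₀, L.sub_mem (L.smul_mem u hy) (L.smul_mem v hf₀), ?_⟩
        rw [Subalgebra.coe_sub, Subalgebra.coe_mul, SubringClass.coe_intCast, Subalgebra.coe_one,
          LinearMap.sub_apply, Module.End.mul_apply, Module.End.one_apply, h,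
          Module.End.intCast_apply]
        have h1 : f₀ = (v * (p : ℤ) + u * a) • f₀ := by rw [huv, one_smul]
        nth_rewrite 2 [h1]
        module
      have h1 : (1 : 𝕋) = (u : 𝕋) * t - ((u : 𝕋) * t - 1) := by abel
      rw [h1]
      exact J.sub_mem (J.mul_mem_left _ htJ) (hJ hmem)
  have hint : ∀ t : 𝕋, IsIntegral ℤ (t : Module.End ℂ V) := by
    intro t
    have : Module.Finite ℤ L := Module.Finite.iff_fg.mpr hLfg
    let tL : Module.End ℤ L :=
      ((t : Module.End ℂ V).restrictScalars ℤ).restrict (fun x hx => hTL t t.2 x hx)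
    have htL : ∀ x : L, ((tL x : L) : V) = (t : Module.End ℂ V) x := fun x => rfl
    have hpow : ∀ (n : ℕ) (x : L), (((tL ^ n) x : L) : V) = ((t : Module.End ℂ V) ^ n) x := by
      intro n
      induction n with
      | zero => intro x; simp
      | succ n ih =>
        intro x
        rw [pow_succ', pow_succ', Module.End.mul_apply, Module.End.mul_apply, htL, ih]
    obtain ⟨P, hP, hP0⟩ := LinearMap.exists_monic_and_aeval_eq_zero ℤ tL
    refine ⟨P, hP, ?_⟩
    have key : ∀ (Q : Polynomial ℤ) (x : L),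
        (Polynomial.aeval (t : Module.End ℂ V) Q) (x : V) = ((Polynomial.aeval tL Q) x : V) := by
      intro Q x
      induction Q using Polynomial.induction_on' with
      | add Q₁ Q₂ h₁ h₂ =>
        rw [map_add, map_add, LinearMap.add_apply, LinearMap.add_apply, Submodule.coe_add, h₁, h₂]
      | monomial n a =>
        rw [Polynomial.aeval_monomial, Polynomial.aeval_monomial, Module.End.mul_apply,
          Module.End.mul_apply, Module.algebraMap_end_apply, Module.algebraMap_end_apply,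
          Submodule.coe_smul, hpow]
    have hzero : ∀ x ∈ L, (Polynomial.aeval (t : Module.End ℂ V) P) x = 0 := by
      intro x hx
      rw [key P ⟨x, hx⟩, hP0]
      rfl
    show Polynomial.aeval (t : Module.End ℂ V) P = 0
    apply LinearMap.ext
    intro v
    have hv : v ∈ Submodule.span ℂ (L : Set V) := hLspan ▸ Submodule.mem_top
    induction hv using Submodule.span_induction with
    | mem x hx => exact hzero x hx
    | zero => simp
    | add x y _ _ hx hy => rw [map_add, hx, hy]; simp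
    | smul c x _ hx => rw [map_smul, hx]; simp
  obtain ⟨w, μ, Q, hw0, hQ, hw, hcomap⟩ :=
    core (𝕋.val : 𝕋 →+* Module.End ℂ V) 𝔪
      (fun t ht => by
        have : t = 0 := Subtype.ext ht
        rw [this]
        exact 𝔪.zero_mem) hint
  refine ⟨w, fun t => if h : t ∈ 𝕋 then μ ⟨t, h⟩ else 0, Q, hw0, hQ, ?_, ?_⟩
  · have hpm : ((p : ℕ) : 𝕋) ∈ 𝔪 := by
      refine ⟨f₀, hf₀, ?_⟩
      rw [SubringClass.coe_natCast, Module.End.natCast_apply, natCast_zsmul]
    rw [← hcomap] at hpm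
    simpa using hpm
  · intro t ht
    have ht' : t ∈ 𝕋 := Algebra.subset_adjoin ht
    beta_reduce
    rw [dif_pos ht']
    refine ⟨hw ⟨t, ht'⟩, ?_⟩
    have hmem : ((⟨t, ht'⟩ : 𝕋) - ((χ t : ℤ) : 𝕋)) ∈ 𝔪 := by
      obtain ⟨y, hy, h⟩ := hχ t ht
      refine ⟨y, hy, ?_⟩
      rw [Subalgebra.coe_sub, SubringClass.coe_intCast, LinearMap.sub_apply,
        Module.End.intCast_apply, h]
    rw [← hcomap] at hmem
    simpa using hmem

/-- Indexed version of `lifting`: the commuting operators are given as a family `T : ι → End`,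
with prescribed eigenvalues `χ : ι → ℤ` modulo `p` on `f₀`. -/
theorem lifting_family {V : Type*} [AddCommGroup V] [Module ℂ V]
    (L : Submodule ℤ V) (hLfg : L.FG) (hLspan : Submodule.span ℂ (L : Set V) = ⊤)
    {ι : Type*} (T : ι → Module.End ℂ V) (hcomm : ∀ i j, T i * T j = T j * T i)
    (hL : ∀ i, ∀ x ∈ L, T i x ∈ L)
    (p : ℕ) (hp : p.Prime) (f₀ : V) (hf₀ : f₀ ∈ L) (hf₀' : ∀ y ∈ L, f₀ ≠ (p : ℤ) • y)
    (χ : ι → ℤ) (hχ : ∀ i, ∃ y ∈ L, T i f₀ - χ i • f₀ = (p : ℤ) • y) :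
    ∃ (w : V) (μ : ι → integralClosure ℤ ℂ) (𝔪' : Ideal (integralClosure ℤ ℂ)),
      w ≠ 0 ∧ 𝔪'.IsMaximal ∧ ((p : ℕ) : integralClosure ℤ ℂ) ∈ 𝔪' ∧
      ∀ i, T i w = ((μ i : integralClosure ℤ ℂ) : ℂ) • w ∧
        μ i - (χ i : integralClosure ℤ ℂ) ∈ 𝔪' := by
  classical
  let χ' : Module.End ℂ V → ℤ := fun t => if h : ∃ i, T i = t then χ h.choose else 0
  have hχ' : ∀ i, ∃ j, T j = T i ∧ χ' (T i) = χ j := by
    intro i
    have h : ∃ j, T j = T i := ⟨i, rfl⟩
    exact ⟨h.choose, h.choose_spec, by simp only [χ', dif_pos h]⟩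
  obtain ⟨w, μ, Q, hw0, hQ, hpQ, hμ⟩ := lifting L hLfg hLspan (Set.range T)
    (by rintro _ ⟨i, rfl⟩ _ ⟨j, rfl⟩; exact hcomm i j)
    (by rintro _ ⟨i, rfl⟩ x hx; exact hL i x hx) p hp f₀ hf₀ hf₀' χ'
    (by
      rintro _ ⟨i, rfl⟩
      obtain ⟨j, hj, hjχ⟩ := hχ' i
      obtain ⟨y, hy, h⟩ := hχ j
      exact ⟨y, hy, by rw [hjχ, ← hj, h]⟩)
  refine ⟨w, fun i => μ (T i), Q, hw0, hQ, hpQ, fun i => ⟨(hμ (T i) ⟨i, rfl⟩).1, ?_⟩⟩
  obtain ⟨j, hj, hjχ⟩ := hχ' i
  have h1 := (hμ (T i) ⟨i, rfl⟩).2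
  rw [hjχ] at h1
  obtain ⟨y, hy, h⟩ := hχ j
  obtain ⟨z, hz, h'⟩ := hχ i
  have hdvd : (p : ℤ) ∣ χ j - χ i := by
    by_contra hnd
    have hcop : IsCoprime (p : ℤ) (χ j - χ i) :=
      (Nat.prime_iff_prime_int.mp hp).coprime_iff_not_dvd.mpr hnd
    obtain ⟨v, u, huv⟩ := hcop
    have h2 : (χ j - χ i) • f₀ = (p : ℤ) • (z - y) := by
      rw [smul_sub, ← h', ← h, hj, sub_smul]
      abel
    refine hf₀' (v • f₀ + u • (z - y)) (L.add_mem (L.smul_mem v hf₀)
      (L.smul_mem u (L.sub_mem hz hy))) ?_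
    have h3 : f₀ = (v * (p : ℤ) + u * (χ j - χ i)) • f₀ := by rw [huv, one_smul]
    rw [add_smul, mul_smul, mul_smul, h2] at h3
    exact h3.trans (by module)
  obtain ⟨m, hm⟩ := hdvd
  have h4 : μ (T i) - (χ i : integralClosure ℤ ℂ) =
      (μ (T i) - (χ j : integralClosure ℤ ℂ)) + ((p : ℕ) : integralClosure ℤ ℂ) * (m : integralClosure ℤ ℂ) := by
    have : (χ j : integralClosure ℤ ℂ) - (χ i : integralClosure ℤ ℂ) =
        ((p : ℕ) : integralClosure ℤ ℂ) * (m : integralClosure ℤ ℂ) := by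
      have := congrArg (fun n : ℤ => (n : integralClosure ℤ ℂ)) hm
      push_cast at this
      exact this
    rw [← this]
    ring
  rw [h4]
  exact Q.add_mem h1 (Q.mul_mem_right _ hpQ)

end Fermat.Agent.Lib.DeligneSerre
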