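import Mathlib

set_option autoImplicit false

namespace Fermat.Agent.Lib.UnitLead

open PowerSeries

/-- `P = c • (X ^ μ * R)` with `c ≠ 0`, where `R` has constant coefficient `1` and all its
coefficients lie in the subalgebra `A`. -/
def IsUnitLead (A : Subalgebra ℤ ℂ) (P : PowerSeries ℂ) : Prop :=
  ∃ (c : ℂ) (μ : ℕ) (R : PowerSeries ℂ), c ≠ 0 ∧ P = c • (X ^ μ * R) ∧
    coeff 0 R = 1 ∧ ∀ n, coeff n R ∈ A

variable {A : Subalgebra ℤ ℂ}

lemma IsUnitLead.one : IsUnitLead A 1 := by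
  refine ⟨1, 0, 1, one_ne_zero, by simp, by simp, fun n => ?_⟩
  rw [coeff_one]
  split_ifs
  · exact A.one_mem
  · exact A.zero_mem

lemma coeff_mul_mem {R₁ R₂ : PowerSeries ℂ} (h₁ : ∀ n, coeff n R₁ ∈ A)
    (h₂ : ∀ n, coeff n R₂ ∈ A) (n : ℕ) : coeff n (R₁ * R₂) ∈ A := by
  rw [coeff_mul]
  exact A.sum_mem fun p _ => A.mul_mem (h₁ _) (h₂ _)

lemma IsUnitLead.mul {P Q : PowerSeries ℂ} (hP : IsUnitLead A P) (hQ : IsUnitLead A Q) :
    IsUnitLead A (P * Q) := by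
  obtain ⟨c₁, μ₁, R₁, hc₁, rfl, h10, h1⟩ := hP
  obtain ⟨c₂, μ₂, R₂, hc₂, rfl, h20, h2⟩ := hQ
  refine ⟨c₁ * c₂, μ₁ + μ₂, R₁ * R₂, mul_ne_zero hc₁ hc₂, ?_, ?_, coeff_mul_mem h1 h2⟩
  · rw [smul_mul_smul_comm, pow_add]; ring_nf
  · have e1 : constantCoeff R₁ = 1 := by simpa using h10
    have e2 : constantCoeff R₂ = 1 := by simpa using h20
    simp [e1, e2]

lemma IsUnitLead.smul {P : PowerSeries ℂ} (hP : IsUnitLead A P) {a : ℂ} (ha : a ≠ 0) :
    IsUnitLead A (a • P) := by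
  obtain ⟨c, μ, R, hc, rfl, h0, h⟩ := hP
  exact ⟨a * c, μ, R, mul_ne_zero ha hc, by rw [smul_smul], h0, h⟩

lemma IsUnitLead.prod {ι : Type*} (s : Finset ι) {P : ι → PowerSeries ℂ}
    (h : ∀ i ∈ s, IsUnitLead A (P i)) : IsUnitLead A (∏ i ∈ s, P i) := by
  classical
  induction s using Finset.induction_on with
  | empty => simpa using IsUnitLead.one
  | insert a s ha ih =>
    rw [Finset.prod_insert ha]
    exact (h a (Finset.mem_insert_self a s)).mul
      (ih fun i hi => h i (Finset.mem_insert_of_mem hi))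

/-- A power series with coefficients in `A` whose first nonzero coefficient is a unit of `A`. -/
lemma IsUnitLead.of_coeff {P : PowerSeries ℂ} (hP : ∀ n, coeff n P ∈ A) {n₀ : ℕ} {u : ℂ}
    (hu : u ∈ A) (hun : u * coeff n₀ P = 1) (hlt : ∀ n < n₀, coeff n P = 0) :
    IsUnitLead A P := by
  have hc : coeff n₀ P ≠ 0 := by
    intro h0; rw [h0, mul_zero] at hun; exact zero_ne_one hun
  refine ⟨coeff n₀ P, n₀, PowerSeries.mk fun n => u * coeff (n + n₀) P, hc, ?_, ?_, ?_⟩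
  · ext n
    rw [coeff_smul, coeff_X_pow_mul']
    split_ifs with hn
    · rw [coeff_mk, Nat.sub_add_cancel hn, smul_eq_mul, ← mul_assoc, mul_comm (coeff n₀ P) u, hun,
        one_mul]
    · rw [hlt n (not_le.mp hn)]; simp
  · rw [coeff_mk, zero_add, hun]
  · intro n
    rw [coeff_mk]
    exact A.mul_mem hu (hP _)

/-- Passing from the expansion in `q^{1/N}` to the expansion in `q`. -/
lemma IsUnitLead.of_dilate {P Q : PowerSeries ℂ} {N : ℕ} (hN : 0 < N)
    (hPQ : ∀ n, coeff n P = if N ∣ n then coeff (n / N) Q else 0) (hP : IsUnitLead A P) :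
    IsUnitLead A Q := by
  obtain ⟨c, μ, R, hc, hPeq, h0, h⟩ := hP
  have hcoeffP : ∀ n, coeff n P = if μ ≤ n then c * coeff (n - μ) R else 0 := by
    intro n
    rw [hPeq, coeff_smul, coeff_X_pow_mul', smul_eq_mul]
    split_ifs <;> simp
  have hμ : N ∣ μ := by
    by_contra hnd
    have h1 := hPQ μ
    rw [if_neg hnd, hcoeffP μ, if_pos le_rfl, Nat.sub_self, h0, mul_one] at h1
    exact hc h1
  obtain ⟨μ', rfl⟩ := hμ
  have hQ : ∀ m, coeff m Q = coeff (N * m) P := by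
    intro m
    rw [hPQ (N * m), if_pos (dvd_mul_right N m), Nat.mul_div_cancel_left m hN]
  refine ⟨c, μ', PowerSeries.mk fun m => coeff (N * m) R, hc, ?_, ?_, fun n => ?_⟩
  · ext m
    rw [hQ m, hcoeffP, coeff_smul, coeff_X_pow_mul', smul_eq_mul]
    by_cases hm : μ' ≤ m
    · rw [if_pos (Nat.mul_le_mul_left N hm), if_pos hm, coeff_mk, Nat.mul_sub]
    · rw [if_neg, if_neg hm, mul_zero]
      intro hle
      exact hm (Nat.le_of_mul_le_mul_left hle hN)
  · rw [coeff_mk, mul_zero, h0]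
  · rw [coeff_mk]; exact h _

/-- Inverse of a power series with constant coefficient one and coefficients in `A`. -/
lemma exists_inv_coeff_mem {R : PowerSeries ℂ} (h0 : coeff 0 R = 1) (h : ∀ n, coeff n R ∈ A) :
    ∃ R' : PowerSeries ℂ, R * R' = 1 ∧ ∀ n, coeff n R' ∈ A := by
  let R₀ : PowerSeries A := PowerSeries.mk fun n => ⟨coeff n R, h n⟩
  have hmap : PowerSeries.map (algebraMap A ℂ) R₀ = R := by
    ext n; simp [R₀]
  have hunit : IsUnit R₀ := by
    rw [PowerSeries.isUnit_iff_constantCoeff]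
    have : constantCoeff R₀ = 1 := by
      rw [← coeff_zero_eq_constantCoeff_apply]
      simp only [R₀, coeff_mk]
      exact Subtype.ext h0
    rw [this]; exact isUnit_one
  obtain ⟨U, hU⟩ := hunit
  refine ⟨PowerSeries.map (algebraMap A ℂ) (↑U⁻¹ : PowerSeries A), ?_, fun n => ?_⟩
  · rw [← hmap, ← hU, ← map_mul, Units.mul_inv, map_one]
  · rw [coeff_map]; exact (coeff n (↑U⁻¹ : PowerSeries A)).2

/-- Division by a series with unit leading coefficient keeps the coefficients in a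
controlled `ℤ`-module. -/
lemma IsUnitLead.coeff_mem_of_mul_eq {Pf PD Pu : PowerSeries ℂ} (hD : IsUnitLead A PD)
    (hmul : Pf * PD = Pu) {Γ : Submodule ℤ ℂ} (hu : ∀ n, coeff n Pu ∈ Γ) :
    ∃ c : ℂ, c ≠ 0 ∧ ∀ n, c * coeff n Pf ∈ Subalgebra.toSubmodule A * Γ := by
  obtain ⟨c, μ, R, hc, rfl, h0, h⟩ := hD
  obtain ⟨R', hRR', hR'⟩ := exists_inv_coeff_mem h0 h
  refine ⟨c, hc, fun n => ?_⟩
  have h1 : c • (X ^ μ * Pf) = Pu * R' := by
    rw [← hmul]
    calc c • (X ^ μ * Pf) = (Pf * c • (X ^ μ * R)) * R' := by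
          rw [mul_smul_comm, smul_mul_assoc]
          congr 1
          calc X ^ μ * Pf = X ^ μ * Pf * (R * R') := by rw [hRR', mul_one]
            _ = Pf * (X ^ μ * R) * R' := by ring
      _ = _ := rfl
  have h2 : c * coeff n Pf = coeff (n + μ) (Pu * R') := by
    rw [← h1, coeff_smul, coeff_X_pow_mul, smul_eq_mul]
  rw [h2, coeff_mul]
  refine Submodule.sum_mem _ fun p _ => ?_
  rw [mul_comm (coeff p.1 Pu)]
  exact Submodule.mul_mem_mul (hR' _) (hu _)

/-- Final form: coefficients of `Pf` lie in a finitely generated `ℤ`-module. -/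
lemma IsUnitLead.exists_fg_of_mul_eq {Pf PD Pu : PowerSeries ℂ} (hD : IsUnitLead A PD)
    (hA : (Subalgebra.toSubmodule A).FG)
    (hmul : Pf * PD = Pu) {Γ : Submodule ℤ ℂ} (hΓ : Γ.FG) (hu : ∀ n, coeff n Pu ∈ Γ) :
    ∃ Γ' : Submodule ℤ ℂ, Γ'.FG ∧ ∀ n, coeff n Pf ∈ Γ' := by
  obtain ⟨c, hc, hmem⟩ := hD.coeff_mem_of_mul_eq hmul hu
  refine ⟨Submodule.map (LinearMap.mulLeft ℤ c⁻¹) (Subalgebra.toSubmodule A * Γ),
    (hA.mul hΓ).map _, fun n => ?_⟩
  refine ⟨c * coeff n Pf, hmem n, ?_⟩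
  simp [LinearMap.mulLeft_apply, hc]

end Fermat.Agent.Lib.UnitLead
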