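import Mathlib
import Fermat.Agent.Lib.DeltaSlash
import Fermat.Agent.Lib.UnitLead
import Fermat.Agent.Lib.DeltaInt
import Fermat.Prelude.Thm_UpperHalfPlane_qExpansion_coeff_nat_mul
import Fermat.Prelude.Thm_UpperHalfPlane_qExpansion_prod

set_option autoImplicit false

namespace Fermat.Agent.Lib.DeltaExpand

open UpperHalfPlane ModularForm MatrixGroups Function Fermat.Agent.Lib.DeltaSlash
open Fermat.Agent.Lib.UnitLead
open scoped Real Manifold

local notation "𝕢" => Periodic.qParam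

noncomputable section

/-- Ramanujan's `τ(n)`: the `q`-expansion coefficients of `Δ`. -/
def tau (n : ℕ) : ℂ := (qExpansion 1 ModularForm.discriminant).coeff n

lemma tau_zero : tau 0 = 0 := by
  simpa [tau] using CuspFormClass.qExpansion_coeff_zero CuspForm.discriminant one_pos
    one_mem_strictPeriods_SL

lemma tau_one : tau 1 = 1 := discriminant_qExpansion_coeff_one

lemma hasSum_discriminant (w : ℍ) :
    HasSum (fun n : ℕ => tau n * 𝕢 1 w ^ n) (ModularForm.discriminant w) := by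
  have h := ModularForm.hasSum_qExpansion (f := CuspForm.discriminant) one_pos
    one_mem_strictPeriods_SL w
  simpa [tau] using h

/-- The root of unity `exp(2πi/N)`. -/
def zetaN (N : ℕ) : ℂ := Complex.exp (2 * π * Complex.I / N)

lemma zetaN_pow (N : ℕ) [NeZero N] : zetaN N ^ N = 1 := by
  have hN : (N : ℂ) ≠ 0 := by exact_mod_cast NeZero.ne N
  rw [zetaN, ← Complex.exp_nat_mul]
  have : (N : ℂ) * (2 * π * Complex.I / N) = 2 * π * Complex.I := by field_simp
  rw [this, Complex.exp_two_pi_mul_I]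

lemma qParam_add_period {h : ℝ} (hh : h ≠ 0) (z : ℂ) : 𝕢 h (z + h) = 𝕢 h z := by
  have hC : (h : ℂ) ≠ 0 := by exact_mod_cast hh
  simp only [Periodic.qParam]
  have : 2 * π * Complex.I * (z + h) / h = 2 * π * Complex.I * z / h + 2 * π * Complex.I := by
    field_simp
  rw [this, Complex.exp_add, Complex.exp_two_pi_mul_I, mul_one]

lemma periodic_comp_ofComplex_of {G : ℍ → ℂ} {h : ℝ}
    (hG : ∀ (z : ℍ) (hz : 0 < ((z : ℂ) + h).im), G ⟨(z : ℂ) + h, hz⟩ = G z) :
    Periodic (G ∘ ofComplex) h := by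
  intro w
  by_cases hw : 0 < w.im
  · have hw' : 0 < (w + h).im := by simpa using hw
    simp only [comp_apply, ofComplex_apply_of_im_pos hw', ofComplex_apply_of_im_pos hw]
    exact hG ⟨w, hw⟩ hw'
  · have hw0 : w.im ≤ 0 := not_lt.mp hw
    have hw' : (w + h).im ≤ 0 := by simpa using hw0
    simp [ofComplex_apply_of_im_nonpos hw', ofComplex_apply_of_im_nonpos hw0]

/-- wrapper giving plain functions a `FunLike` structure -/
structure FunWrap where
  /-- the function -/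
  toFun : ℍ → ℂ

instance : FunLike FunWrap ℍ ℂ where
  coe := FunWrap.toFun
  coe_injective := fun a b h => by cases a; cases b; congr

lemma qExpansion_coeff_unique' {h : ℝ} (hh : 0 < h) {G : ℍ → ℂ} {c : ℕ → ℂ}
    (han : AnalyticAt ℂ (cuspFunction h G) 0)
    (hsum : ∀ z : ℍ, HasSum (fun j : ℕ => c j • 𝕢 h z ^ j) (G z)) (j : ℕ) :
    (qExpansion h G).coeff j = c j := by
  have := UpperHalfPlane.qExpansion_coeff_unique (⟨G⟩ : FunWrap) hh han hsum j
  exact this.symm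

/-- A holomorphic function given everywhere by a convergent expansion in `q_h`. -/
lemma expansion_package {h : ℝ} (hh : 0 < h) {G : ℍ → ℂ} {c : ℕ → ℂ} (hol : MDiff G)
    (hsum : ∀ z : ℍ, HasSum (fun j : ℕ => c j • 𝕢 h z ^ j) (G z)) :
    Periodic (G ∘ ofComplex) h ∧ IsBoundedAtImInfty G ∧
      AnalyticAt ℂ (cuspFunction h G) 0 ∧ (∀ j, (qExpansion h G).coeff j = c j) ∧
      Filter.Tendsto G atImInfty (nhds (c 0)) := by
  have hper : Periodic (G ∘ ofComplex) h := by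
    apply periodic_comp_ofComplex_of
    intro z hz
    have h1 := hsum ⟨(z : ℂ) + h, hz⟩
    have h2 := hsum z
    have hq : 𝕢 h ((z : ℂ) + h) = 𝕢 h z := qParam_add_period hh.ne' z
    simp only [hq] at h1
    exact h1.unique h2
  have hbdd : IsBoundedAtImInfty G := isBoundedAtImInfty_of_hasSum_qExpansion hh hsum
  have han : AnalyticAt ℂ (cuspFunction h G) 0 := analyticAt_cuspFunction_zero hh hper hol hbdd
  have hcoef : ∀ j, (qExpansion h G).coeff j = c j := fun j => qExpansion_coeff_unique' hh han hsum j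
  refine ⟨hper, hbdd, han, hcoef, ?_⟩
  have hcomp : (cuspFunction h G ∘ fun τ : ℍ => 𝕢 h τ : ℍ → ℂ) = G := by
    funext τ
    simpa using eq_cuspFunction τ hh.ne' hper
  have ht : Filter.Tendsto G atImInfty (nhds (cuspFunction h G 0)) := by
    simpa [hcomp] using han.continuousAt.tendsto.comp (qParam_tendsto_atImInfty hh)
  have h0 : cuspFunction h G 0 = c 0 := by
    rw [← hcoef 0, qExpansion_coeff_zero hh han hper, cuspFunction_apply_zero hh han hper]
  rwa [h0] at ht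

/-- Reindexing a series in `t ^ (M n)` as a series in `t ^ j`. -/
lemma hasSum_dilate {M : ℕ} (hM : 0 < M) {f : ℕ → ℂ} {s : ℂ} (t : ℂ)
    (h : HasSum (fun n => f n * t ^ (M * n)) s) :
    HasSum (fun j => (if M ∣ j then f (j / M) else 0) • t ^ j) s := by
  have hinj : Injective (fun n : ℕ => M * n) := mul_right_injective₀ hM.ne'
  refine (hinj.hasSum_iff ?_).mp ?_
  · intro j hj
    have : ¬ M ∣ j := by
      rintro ⟨n, rfl⟩
      exact hj ⟨n, rfl⟩
    simp [this]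
  · convert h using 1
    funext n
    simp [Nat.mul_div_cancel_left _ hM]

/-- `q_1((a z + b)/d) = ζ_N^{ab} q_N(z)^{a²}` when `a d = N`. -/
lemma qParam_affine {N a d : ℕ} [NeZero N] (had : a * d = N) (b : ℕ) (z : ℂ) :
    𝕢 1 (((a : ℂ) * z + b) / d) = zetaN N ^ (a * b) * 𝕢 N z ^ (a ^ 2) := by
  have hN : (N : ℂ) ≠ 0 := by exact_mod_cast NeZero.ne N
  have hN' : ((a : ℂ) * d) = N := by exact_mod_cast congrArg (Nat.cast : ℕ → ℂ) had
  have ha : (a : ℂ) ≠ 0 := by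
    intro h0; rw [h0, zero_mul] at hN'; exact hN hN'.symm
  have hd : (d : ℂ) ≠ 0 := by
    intro h0; rw [h0, mul_zero] at hN'; exact hN hN'.symm
  simp only [Periodic.qParam, zetaN]
  rw [← Complex.exp_nat_mul, ← Complex.exp_nat_mul, ← Complex.exp_add]
  congr 1
  push_cast
  rw [← hN']
  field_simp
  ring

/-- `q_1(N z) = q_1(z)^N`. -/
lemma qParam_one_mul (N : ℕ) (z : ℂ) : 𝕢 1 ((N : ℂ) * z) = 𝕢 1 z ^ N := by
  simp only [Periodic.qParam]
  rw [← Complex.exp_nat_mul]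
  congr 1
  push_cast
  ring

/-- Coefficients of the `t`-expansion (`t = q_N`) of `Δ((a z + b)/d)`, `a d = N`. -/
def coef (N a b : ℕ) (j : ℕ) : ℂ :=
  if a ^ 2 ∣ j then tau (j / a ^ 2) * zetaN N ^ (a * b * (j / a ^ 2)) else 0

lemma hasSum_affine {N a d : ℕ} [NeZero N] (had : a * d = N) (b : ℕ) (z : ℍ) :
    HasSum (fun j : ℕ => coef N a b j • 𝕢 N z ^ j)
      (ModularForm.discriminant (ofComplex (((a : ℂ) * z + b) / d))) := by
  have hN : N ≠ 0 := NeZero.ne N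
  have ha : a ≠ 0 := by rintro rfl; simp at had; exact hN had.symm
  have hd : d ≠ 0 := by rintro rfl; simp at had; exact hN had.symm
  have him := im_affine_pos ha hd b z
  have h := hasSum_discriminant (ofComplex (((a : ℂ) * z + b) / d))
  have hq : 𝕢 1 ((ofComplex (((a : ℂ) * z + b) / d) : ℍ) : ℂ)
      = zetaN N ^ (a * b) * 𝕢 N z ^ (a ^ 2) := by
    rw [ofComplex_apply_of_im_pos him]
    exact qParam_affine had b z
  simp only [hq] at h
  have h2 := hasSum_dilate (M := a ^ 2) (pow_pos (Nat.pos_of_ne_zero ha) 2)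
    (f := fun n => tau n * zetaN N ^ (a * b * n)) (𝕢 N z) (s := ModularForm.discriminant
      (ofComplex (((a : ℂ) * z + b) / d))) (by
        convert h using 1
        funext n
        rw [mul_pow, ← pow_mul, ← pow_mul]
        ring)
  exact h2

lemma hasSum_deltaN (N : ℕ) [NeZero N] (z : ℍ) :
    HasSum (fun j : ℕ => coef N N 0 j • 𝕢 N z ^ j) (deltaN N z) := by
  have h := hasSum_affine (N := N) (a := N) (d := 1) (mul_one N) 0 z
  simp [deltaN] at h ⊢
  exact h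

lemma mdiff_comp_affine {f : ℍ → ℂ} (hf : MDiff f) {a d : ℕ} (ha : a ≠ 0) (hd : d ≠ 0)
    (b : ℕ) : MDiff (fun z : ℍ => f (ofComplex (((a : ℂ) * z + b) / d))) := by
  rw [UpperHalfPlane.mdifferentiable_iff] at hf ⊢
  have hmap : DifferentiableOn ℂ (fun w : ℂ => ((a : ℂ) * w + b) / d) {z | 0 < z.im} := by
    fun_prop
  have hmaps : Set.MapsTo (fun w : ℂ => ((a : ℂ) * w + b) / d) {z | 0 < z.im}
      {z | 0 < z.im} := fun w hw => im_affine_pos ha hd b ⟨w, hw⟩
  refine (hf.comp hmap hmaps).congr ?_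
  intro w hw
  simp only [comp_apply]
  rw [ofComplex_apply_of_im_pos hw]

lemma mdiff_discriminant : MDiff ModularForm.discriminant :=
  CuspFormClass.holo CuspForm.discriminant

lemma mdiff_deltaN (N : ℕ) [NeZero N] : MDiff (deltaN N) := by
  have h := mdiff_comp_affine mdiff_discriminant (a := N) (d := 1) (NeZero.ne N) one_ne_zero 0
  convert h using 2 with z
  simp [deltaN]

lemma coef_eq_zero_of_lt {N a b j : ℕ} (h : j < a ^ 2) : coef N a b j = 0 := by
  unfold coef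
  split_ifs with hdiv
  · have : j = 0 := Nat.eq_zero_of_dvd_of_lt hdiv h
    subst this
    simp [tau_zero]
  · rfl

lemma coef_self {N a b : ℕ} (ha : a ≠ 0) : coef N a b (a ^ 2) = zetaN N ^ (a * b) := by
  have h2 : 0 < a ^ 2 := pow_pos (Nat.pos_of_ne_zero ha) 2
  simp [coef, Nat.div_self h2, tau_one]

/-- The ring `ℤ[ζ_N]`. -/
def ringZeta (N : ℕ) : Subalgebra ℤ ℂ := Algebra.adjoin ℤ {zetaN N}

lemma zetaN_mem (N : ℕ) : zetaN N ∈ ringZeta N := Algebra.subset_adjoin (Set.mem_singleton _)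

lemma intCast_mem_sub (A : Subalgebra ℤ ℂ) (m : ℤ) : (m : ℂ) ∈ A := by
  have := A.algebraMap_mem m
  rwa [eq_intCast] at this

lemma tau_mem (A : Subalgebra ℤ ℂ) (n : ℕ) : tau n ∈ A := by
  obtain ⟨m, hm⟩ := Fermat.Agent.Lib.DeltaInt.discriminant_qExpansion_int n
  rw [tau, hm]
  exact intCast_mem_sub A m

lemma coef_mem (N a b j : ℕ) : coef N a b j ∈ ringZeta N := by
  unfold coef
  split_ifs
  · exact (ringZeta N).mul_mem (tau_mem _ _) ((ringZeta N).pow_mem (zetaN_mem N) _)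
  · exact (ringZeta N).zero_mem

lemma isIntegral_zetaN (N : ℕ) [NeZero N] : IsIntegral ℤ (zetaN N) :=
  IsIntegral.of_pow (Nat.pos_of_ne_zero (NeZero.ne N)) (by rw [zetaN_pow]; exact isIntegral_one)

lemma finite_ringZeta (N : ℕ) [NeZero N] : Module.Finite ℤ (ringZeta N) :=
  Algebra.finite_adjoin_simple_of_isIntegral (isIntegral_zetaN N)

lemma isIntegral_of_mem_ringZeta {N : ℕ} [NeZero N] {x : ℂ} (hx : x ∈ ringZeta N) :
    IsIntegral ℤ x :=
  adjoin_le_integralClosure (isIntegral_zetaN N) hx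

lemma not_dvd_of_not_mem_Gamma0 {N : ℕ} {γ : SL(2, ℤ)} (hγ : γ ∉ CongruenceSubgroup.Gamma0 N) :
    ¬ (N : ℤ) ∣ γ 1 0 := by
  rw [CongruenceSubgroup.Gamma0_mem, ZMod.intCast_zmod_eq_zero_iff_dvd] at hγ
  exact hγ

/-- The `t`-expansion (`t = exp(2πi z/N)`) of `d^12 (Δ(N z) - (Δ(N ·)∣γ)(z))` for
`γ ∉ Γ₀(N)`: coefficients in `ℤ[ζ_N]`, unit leading coefficient. -/
theorem conj_expansion (N : ℕ) [NeZero N] (γ : SL(2, ℤ))
    (hγ : γ ∉ CongruenceSubgroup.Gamma0 N) :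
    ∃ (d : ℕ) (c : ℕ → ℂ) (n₀ : ℕ) (u : ℂ), 0 < d ∧ MDiff (deltaN N ∣[(12 : ℤ)] γ) ∧
      (∀ z : ℍ, HasSum (fun j => c j • 𝕢 N z ^ j)
        ((d : ℂ) ^ 12 * (deltaN N z - (deltaN N ∣[(12 : ℤ)] γ) z))) ∧
      (∀ j, c j ∈ ringZeta N) ∧ u ∈ ringZeta N ∧ u * c n₀ = 1 ∧ ∀ j < n₀, c j = 0 := by
  obtain ⟨a, b, d, had, hbd, hd1, hform⟩ := deltaN_slash N γ
  have hN : N ≠ 0 := NeZero.ne N
  have ha : a ≠ 0 := by rintro rfl; simp at had; exact hN had.symm
  have hd : d ≠ 0 := by rintro rfl; simp at had; exact hN had.symm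
  have hdC : (d : ℂ) ^ 12 ≠ 0 := pow_ne_zero 12 (by exact_mod_cast hd)
  have hd1' : d ≠ 1 := fun h => not_dvd_of_not_mem_Gamma0 hγ (hd1.mp h)
  have haN : a < N := by
    have hd2 : 2 ≤ d := by omega
    have hapos : 0 < a := Nat.pos_of_ne_zero ha
    nlinarith
  have haN2 : a ^ 2 < N ^ 2 := Nat.pow_lt_pow_left haN (by norm_num)
  refine ⟨d, fun j => (d : ℂ) ^ 12 * coef N N 0 j - coef N a b j, a ^ 2,
    -(zetaN N ^ (a * b)) ^ (N - 1), Nat.pos_of_ne_zero hd, ?_, ?_, ?_, ?_, ?_, ?_⟩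
  · have hfun : deltaN N ∣[(12 : ℤ)] γ = fun z : ℍ => ((d : ℂ) ^ 12)⁻¹ *
        ModularForm.discriminant (ofComplex (((a : ℂ) * z + b) / d)) := funext hform
    rw [hfun]
    exact mdifferentiable_const.mul (mdiff_comp_affine mdiff_discriminant ha hd b)
  · intro z
    have h1 := (hasSum_deltaN N z).mul_left ((d : ℂ) ^ 12)
    have h2 := hasSum_affine had b z
    have h3 := h1.sub h2
    have h4 : (fun j => ((d : ℂ) ^ 12 * coef N N 0 j - coef N a b j) • 𝕢 N z ^ j) =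
        fun j => (d : ℂ) ^ 12 * coef N N 0 j • 𝕢 N z ^ j - coef N a b j • 𝕢 N z ^ j := by
      funext j
      simp only [smul_eq_mul]
      ring
    have h5 : (d : ℂ) ^ 12 * (deltaN N z - ((d : ℂ) ^ 12)⁻¹ *
        ModularForm.discriminant (ofComplex (((a : ℂ) * z + b) / d))) =
        (d : ℂ) ^ 12 * deltaN N z -
          ModularForm.discriminant (ofComplex (((a : ℂ) * z + b) / d)) := by
      field_simp
    rw [hform z, h4, h5]
    exact h3
  · intro j
    refine (ringZeta N).sub_mem ((ringZeta N).mul_mem ?_ (coef_mem _ _ _ _)) (coef_mem _ _ _ _)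
    have : ((d : ℂ) ^ 12) = ((d ^ 12 : ℕ) : ℤ) := by push_cast; rfl
    rw [this]
    exact intCast_mem_sub _ _
  · exact (ringZeta N).neg_mem ((ringZeta N).pow_mem ((ringZeta N).pow_mem (zetaN_mem N) _) _)
  · beta_reduce
    rw [coef_eq_zero_of_lt haN2, coef_self ha, mul_zero, zero_sub]
    have h1 : (zetaN N ^ (a * b)) ^ (N - 1) * zetaN N ^ (a * b) = 1 := by
      rw [← pow_succ, Nat.sub_add_cancel (Nat.pos_of_ne_zero hN), ← pow_mul, mul_comm, pow_mul,
        zetaN_pow, one_pow]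
    linear_combination h1
  · intro j hj
    beta_reduce
    rw [coef_eq_zero_of_lt (lt_trans hj haN2), coef_eq_zero_of_lt hj]
    ring

lemma natCast_pos_real (N : ℕ) [NeZero N] : (0 : ℝ) < (N : ℝ) :=
  Nat.cast_pos.mpr (Nat.pos_of_ne_zero (NeZero.ne N))

/-- Each factor `Δ(N·) - Δ(N·)∣γ`, `γ ∉ Γ₀(N)`: holomorphic, `N`-periodic, bounded, with
`t`-expansion having unit leading coefficient over `ℤ[ζ_N]`. -/
theorem factor_package (N : ℕ) [NeZero N] (γ : SL(2, ℤ))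
    (hγ : γ ∉ CongruenceSubgroup.Gamma0 N) :
    MDiff (deltaN N - deltaN N ∣[(12 : ℤ)] γ) ∧
      Periodic ((deltaN N - deltaN N ∣[(12 : ℤ)] γ) ∘ ofComplex) N ∧
      IsBoundedAtImInfty (deltaN N - deltaN N ∣[(12 : ℤ)] γ) ∧
      AnalyticAt ℂ (cuspFunction N (deltaN N - deltaN N ∣[(12 : ℤ)] γ)) 0 ∧
      IsUnitLead (ringZeta N) (qExpansion N (deltaN N - deltaN N ∣[(12 : ℤ)] γ)) := by
  obtain ⟨d, c, n₀, u, hd, hslash, hsum, hc, hu, hun, hlt⟩ := conj_expansion N γ hγ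
  have hdC : (d : ℂ) ^ 12 ≠ 0 := pow_ne_zero 12 (by exact_mod_cast hd.ne')
  have hol : MDiff (deltaN N - deltaN N ∣[(12 : ℤ)] γ) := (mdiff_deltaN N).sub hslash
  have hsum' : ∀ z : ℍ, HasSum (fun j => (((d : ℂ) ^ 12)⁻¹ * c j) • 𝕢 N z ^ j)
      ((deltaN N - deltaN N ∣[(12 : ℤ)] γ) z) := by
    intro z
    have h1 := (hsum z).mul_left (((d : ℂ) ^ 12)⁻¹)
    rw [inv_mul_cancel_left₀ hdC] at h1
    have h2 : (fun j => (((d : ℂ) ^ 12)⁻¹ * c j) • 𝕢 N z ^ j) =
        fun j => ((d : ℂ) ^ 12)⁻¹ * c j • 𝕢 N z ^ j := by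
      funext j
      simp only [smul_eq_mul]
      ring
    rw [h2]
    exact h1
  obtain ⟨hper, hbdd, han, hcoef, -⟩ := expansion_package (natCast_pos_real N) hol hsum'
  refine ⟨hol, hper, hbdd, han, ?_⟩
  have hP : IsUnitLead (ringZeta N) (PowerSeries.mk c) :=
    IsUnitLead.of_coeff (n₀ := n₀) (u := u) (fun n => by rw [PowerSeries.coeff_mk]; exact hc n)
      hu (by rw [PowerSeries.coeff_mk]; exact hun)
      (fun n hn => by rw [PowerSeries.coeff_mk]; exact hlt n hn)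
  have heq : qExpansion N (deltaN N - deltaN N ∣[(12 : ℤ)] γ) =
      (((d : ℂ) ^ 12)⁻¹) • PowerSeries.mk c := by
    ext j
    rw [hcoef j, PowerSeries.coeff_smul, PowerSeries.coeff_mk, smul_eq_mul]
  rw [heq]
  exact hP.smul (inv_ne_zero hdC)

/-- Conjugates of `Δ(N z)`: after scaling by `d^12`, the difference `Δ(N·) - Δ(N·)∣γ`
(`γ ∉ Γ₀(N)`) has a `t`-expansion with coefficients in `ℤ[ζ_N]` and unit leading coefficient. -/
theorem deltaN_conj_adjoin (N : ℕ) [NeZero N] (γ : SL(2, ℤ))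
    (hγ : γ ∉ CongruenceSubgroup.Gamma0 N) :
    ∃ (d : ℕ) (G : ℍ → ℂ), 0 < d ∧
      G = (d : ℂ) ^ 12 • (deltaN N - (deltaN N) ∣[(12 : ℤ)] γ) ∧
      AnalyticAt ℂ (cuspFunction (N : ℝ) G) 0 ∧
      (∀ n, (qExpansion (N : ℝ) G).coeff n ∈ ringZeta N) ∧
      ∃ (n₀ : ℕ) (u : ℂ), u ∈ ringZeta N ∧ u * (qExpansion (N : ℝ) G).coeff n₀ = 1 ∧
        ∀ n < n₀, (qExpansion (N : ℝ) G).coeff n = 0 := by
  obtain ⟨d, c, n₀, u, hd, hslash, hsum, hc, hu, hun, hlt⟩ := conj_expansion N γ hγ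
  have hol : MDiff ((d : ℂ) ^ 12 • (deltaN N - deltaN N ∣[(12 : ℤ)] γ)) := by
    have h1 : MDiff (fun z : ℍ => (d : ℂ) ^ 12 * (deltaN N - deltaN N ∣[(12 : ℤ)] γ) z) :=
      mdifferentiable_const.mul ((mdiff_deltaN N).sub hslash)
    exact h1
  have hsum' : ∀ z : ℍ, HasSum (fun j => c j • 𝕢 N z ^ j)
      (((d : ℂ) ^ 12 • (deltaN N - deltaN N ∣[(12 : ℤ)] γ)) z) := by
    intro z
    simpa using hsum z
  obtain ⟨-, -, han, hcoef, -⟩ := expansion_package (natCast_pos_real N) hol hsum'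
  refine ⟨d, _, hd, rfl, han, fun n => ?_, n₀, u, hu, ?_, ?_⟩
  · rw [hcoef n]; exact hc n
  · rw [hcoef n₀]; exact hun
  · intro n hn; rw [hcoef n]; exact hlt n hn

/-- The same statement with `IsIntegral ℤ` in place of membership in `ℤ[ζ_N]`. -/
theorem deltaN_conj' (N : ℕ) [NeZero N] (γ : SL(2, ℤ))
    (hγ : γ ∉ CongruenceSubgroup.Gamma0 N) :
    ∃ (d : ℕ) (G : ℍ → ℂ), 0 < d ∧
      G = (d : ℂ) ^ 12 • (deltaN N - (deltaN N) ∣[(12 : ℤ)] γ) ∧
      AnalyticAt ℂ (cuspFunction (N : ℝ) G) 0 ∧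
      (∀ n, IsIntegral ℤ ((qExpansion (N : ℝ) G).coeff n)) ∧
      ∃ (n₀ : ℕ) (u : ℂ), IsIntegral ℤ u ∧ u * (qExpansion (N : ℝ) G).coeff n₀ = 1 ∧
        ∀ n < n₀, (qExpansion (N : ℝ) G).coeff n = 0 := by
  obtain ⟨d, G, hd, hG, han, hc, n₀, u, hu, hun, hlt⟩ := deltaN_conj_adjoin N γ hγ
  exact ⟨d, G, hd, hG, han, fun n => isIntegral_of_mem_ringZeta (hc n), n₀, u,
    isIntegral_of_mem_ringZeta hu, hun, hlt⟩

lemma ne_zero_of_isUnitLead {A : Subalgebra ℤ ℂ} {P : PowerSeries ℂ} (h : IsUnitLead A P) :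
    P ≠ 0 := by
  obtain ⟨c, μ, R, hc, rfl, h0, -⟩ := h
  intro hzero
  have := congrArg (PowerSeries.coeff μ) hzero
  rw [PowerSeries.coeff_smul, PowerSeries.coeff_X_pow_mul', if_pos le_rfl, Nat.sub_self, h0] at this
  simp at this
  exact hc this

theorem deltaN_slash_ne (N : ℕ) [NeZero N] (γ : SL(2, ℤ))
    (hγ : γ ∉ CongruenceSubgroup.Gamma0 N) : (deltaN N) ∣[(12 : ℤ)] γ ≠ deltaN N := by
  intro h
  obtain ⟨-, -, -, -, hlead⟩ := factor_package N γ hγ
  rw [h, sub_self, UpperHalfPlane.qExpansion_zero] at hlead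
  exact ne_zero_of_isUnitLead hlead rfl

lemma mdiff_finset_prod {ι : Type*} (s : Finset ι) {F : ι → ℍ → ℂ} (h : ∀ i ∈ s, MDiff (F i)) :
    MDiff (∏ i ∈ s, F i) := by
  classical
  induction s using Finset.induction_on with
  | empty =>
    rw [Finset.prod_empty]
    exact mdifferentiable_const
  | insert a s ha ih =>
    rw [Finset.prod_insert ha]
    exact (h a (Finset.mem_insert_self a s)).mul
      (ih fun i hi => h i (Finset.mem_insert_of_mem hi))

lemma isBounded_finset_prod {ι : Type*} (s : Finset ι) {F : ι → ℍ → ℂ}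
    (h : ∀ i ∈ s, IsBoundedAtImInfty (F i)) : IsBoundedAtImInfty (∏ i ∈ s, F i) := by
  classical
  induction s using Finset.induction_on with
  | empty =>
    rw [Finset.prod_empty]
    exact Filter.const_boundedAtFilter _ (1 : ℂ)
  | insert a s ha ih =>
    rw [Finset.prod_insert ha]
    exact (h a (Finset.mem_insert_self a s)).mul
      (ih fun i hi => h i (Finset.mem_insert_of_mem hi))

/-- **Product theorem.** For any finite family `γ i ∉ Γ₀(N)` such that
`D = ∏ i, (Δ(N·) - Δ(N·)∣γ i)` is `1`-periodic, the `q`-expansion of `D` has a unit leading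
coefficient over `ℤ[ζ_N]`. -/
theorem isUnitLead_prod (N : ℕ) [NeZero N] {ι : Type*} [Fintype ι] (γ : ι → SL(2, ℤ))
    (hγ : ∀ i, γ i ∉ CongruenceSubgroup.Gamma0 N) (D : ℍ → ℂ)
    (hD : ∀ z, D z = ∏ i, (deltaN N z - (deltaN N ∣[(12 : ℤ)] γ i) z))
    (hper : Periodic (D ∘ ofComplex) 1) :
    IsUnitLead (ringZeta N) (qExpansion 1 D) := by
  have hNpos : 0 < N := Nat.pos_of_ne_zero (NeZero.ne N)
  have hF := fun i => factor_package N (γ i) (hγ i)
  have hDeq : D = ∏ i, (deltaN N - deltaN N ∣[(12 : ℤ)] γ i) := by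
    funext z
    rw [hD z, Finset.prod_apply]
    rfl
  have hhol : MDiff D := by
    rw [hDeq]
    exact mdiff_finset_prod _ fun i _ => (hF i).1
  have hbdd : IsBoundedAtImInfty D := by
    rw [hDeq]
    exact isBounded_finset_prod _ fun i _ => (hF i).2.2.1
  have hprod : qExpansion (N : ℝ) D =
      ∏ i, qExpansion (N : ℝ) (deltaN N - deltaN N ∣[(12 : ℤ)] γ i) := by
    rw [hDeq]
    exact UpperHalfPlane.qExpansion_prod Finset.univ fun i _ => (hF i).2.2.2.1
  have hlead : IsUnitLead (ringZeta N) (qExpansion (N : ℝ) D) := by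
    rw [hprod]
    exact IsUnitLead.prod _ fun i _ => (hF i).2.2.2.2
  have hdil : ∀ n, (qExpansion (N : ℝ) D).coeff n =
      if N ∣ n then (qExpansion 1 D).coeff (n / N) else 0 := by
    intro n
    have := UpperHalfPlane.qExpansion_coeff_nat_mul (h := 1) one_pos hper hhol hbdd (M := N)
      hNpos n
    rwa [mul_one] at this
  exact IsUnitLead.of_dilate hNpos hdil hlead

/-- The product theorem in raw form. -/
theorem exists_unit_lead_prod (N : ℕ) [NeZero N] {ι : Type*} [Fintype ι] (γ : ι → SL(2, ℤ))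
    (hγ : ∀ i, γ i ∉ CongruenceSubgroup.Gamma0 N) (D : ℍ → ℂ)
    (hD : ∀ z, D z = ∏ i, (deltaN N z - (deltaN N ∣[(12 : ℤ)] γ i) z))
    (hper : Periodic (D ∘ ofComplex) 1) :
    ∃ (A : Subalgebra ℤ ℂ) (c : ℂ) (μ : ℕ) (R : PowerSeries ℂ), Module.Finite ℤ A ∧ c ≠ 0 ∧
      PowerSeries.coeff 0 R = 1 ∧ (∀ n, PowerSeries.coeff n R ∈ A) ∧
      qExpansion 1 D = c • (PowerSeries.X ^ μ * R) := by
  obtain ⟨c, μ, R, hc, hP, h0, hR⟩ := isUnitLead_prod N γ hγ D hD hper
  exact ⟨ringZeta N, c, μ, R, finite_ringZeta N, hc, h0, hR, hP⟩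

lemma hasSum_deltaN_one (N : ℕ) [NeZero N] (z : ℍ) :
    HasSum (fun j : ℕ => (if N ∣ j then tau (j / N) else 0) • 𝕢 1 z ^ j) (deltaN N z) := by
  have hNpos : 0 < N := Nat.pos_of_ne_zero (NeZero.ne N)
  have him : 0 < ((N : ℂ) * z).im := by
    have := im_affine_pos (a := N) (d := 1) (NeZero.ne N) one_ne_zero 0 z
    simpa using this
  have h := hasSum_discriminant (ofComplex ((N : ℂ) * z))
  have hq : 𝕢 1 ((ofComplex ((N : ℂ) * z) : ℍ) : ℂ) = 𝕢 1 z ^ N := by
    rw [ofComplex_apply_of_im_pos him]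
    exact qParam_one_mul N z
  simp only [hq] at h
  have h' : HasSum (fun n => tau n * 𝕢 1 z ^ (N * n)) (deltaN N z) := by
    have h2 : (fun n => tau n * 𝕢 1 z ^ (N * n)) = fun n => tau n * (𝕢 1 z ^ N) ^ n := by
      funext n
      rw [pow_mul]
    rw [h2]
    exact h
  exact hasSum_dilate hNpos (f := tau) (𝕢 1 z) h'

/-- The `q`-expansion of `Δ(N z)`. -/
theorem qExpansion_deltaN_coeff (N : ℕ) [NeZero N] (n : ℕ) :
    (qExpansion 1 (deltaN N)).coeff n =
      if N ∣ n then (qExpansion 1 ModularForm.discriminant).coeff (n / N) else 0 := by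
  obtain ⟨-, -, -, hcoef, -⟩ := expansion_package (h := 1)
    (c := fun j => if N ∣ j then tau (j / N) else 0) one_pos (mdiff_deltaN N)
    (fun z => hasSum_deltaN_one N z)
  rw [hcoef n]
  rfl

theorem deltaN_qExpansion_int (N : ℕ) [NeZero N] (n : ℕ) :
    ∃ m : ℤ, (qExpansion 1 (deltaN N)).coeff n = m := by
  rw [qExpansion_deltaN_coeff]
  split_ifs
  · exact Fermat.Agent.Lib.DeltaInt.discriminant_qExpansion_int _
  · exact ⟨0, by simp⟩

end

end Fermat.Agent.Lib.DeltaExpand
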