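import Mathlib
import Fermat.Agent.Lib.DeltaLevelN
import Fermat.Agent.Lib.DeltaInt
import Fermat.Prelude.Thm_CongruenceSubgroup_one_mem_strictPeriods_Gamma0

set_option autoImplicit false

namespace Fermat.Agent.Lib.DeltaNQExp

open UpperHalfPlane ModularForm Filter Complex CongruenceSubgroup
open Fermat.Agent.Lib.DeltaSlash Fermat.Agent.Lib.DeltaLevelN Fermat.Agent.Lib.DeltaInt
open scoped MatrixGroups ModularForm Manifold Topology Real

local notation "𝕢" => Function.Periodic.qParam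

lemma qParam_nat_mul (N : ℕ) (z : ℂ) : 𝕢 1 ((N : ℂ) * z) = 𝕢 1 z ^ N := by
  simp only [Function.Periodic.qParam, ← Complex.exp_nat_mul]
  congr 1
  push_cast
  ring

/-- The `q`-expansion of `Δ(N z)` as a convergent sum: `Δ(N z) = Σ τ(n) q^{N n}`. -/
theorem hasSum_deltaN (N : ℕ) [NeZero N] (τ : ℍ) :
    HasSum (fun m : ℕ => (if N ∣ m then ((DeltaZ.coeff (m / N) : ℤ) : ℂ) else 0) • 𝕢 1 τ ^ m)
      (deltaN N τ) := by
  have hN : 0 < N := Nat.pos_of_ne_zero (NeZero.ne N)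
  have him : 0 < ((N : ℂ) * τ).im := by
    have : ((N : ℂ) * τ).im = N * τ.im := by simp
    rw [this]
    have := τ.im_pos
    positivity
  have hval : deltaN N τ = ModularForm.discriminant ⟨(N : ℂ) * τ, him⟩ := by
    rw [deltaN, ofComplex_apply_of_im_pos him]
  have h := hasSum_discriminant ⟨(N : ℂ) * τ, him⟩
  rw [UpperHalfPlane.coe_mk, qParam_nat_mul] at h
  rw [hval]
  have hinj : Function.Injective (fun n : ℕ => N * n) :=
    fun a b h => Nat.eq_of_mul_eq_mul_left hN h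
  have hzero : ∀ m ∉ Set.range (fun n : ℕ => N * n),
      (if N ∣ m then ((DeltaZ.coeff (m / N) : ℤ) : ℂ) else 0) • 𝕢 1 τ ^ m = 0 := by
    intro m hm
    have : ¬ N ∣ m := fun ⟨n, hn⟩ => hm ⟨n, hn.symm⟩
    simp [this]
  rw [← hinj.hasSum_iff hzero]
  have hfun : ((fun m : ℕ => (if N ∣ m then ((DeltaZ.coeff (m / N) : ℤ) : ℂ) else 0) • 𝕢 1 τ ^ m) ∘
      fun n : ℕ => N * n) = fun n : ℕ => ((DeltaZ.coeff n : ℤ) : ℂ) * (𝕢 1 τ ^ N) ^ n := by
    funext n
    simp [Nat.mul_div_cancel_left n hN, pow_mul]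
  rw [hfun]
  exact h

/-- The `q`-expansion of `Δ(N z)` in terms of the integers `τ(n) = DeltaZ.coeff n`. -/
theorem qExpansion_deltaN_coeff_int (N : ℕ) [NeZero N] (n : ℕ) :
    (qExpansion 1 (deltaN N)).coeff n =
      if N ∣ n then ((DeltaZ.coeff (n / N) : ℤ) : ℂ) else 0 :=
  (ModularFormClass.qExpansion_coeff_unique (f := deltaNForm N) one_pos
    (CongruenceSubgroup.one_mem_strictPeriods_Gamma0 N) (hasSum_deltaN N) n).symm

/-- The `q`-expansion of `Δ(N z)` is `Δ(q^N)`. -/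
theorem qExpansion_deltaN_coeff (N : ℕ) [NeZero N] (n : ℕ) :
    (qExpansion 1 (deltaN N)).coeff n =
      if N ∣ n then (qExpansion 1 ModularForm.discriminant).coeff (n / N) else 0 := by
  rw [qExpansion_deltaN_coeff_int, coeff_qExpansion_discriminant]

/-- `Δ(N z)` has integral `q`-expansion. -/
theorem deltaN_qExpansion_int (N : ℕ) [NeZero N] (n : ℕ) :
    ∃ m : ℤ, (qExpansion 1 (deltaN N)).coeff n = m := by
  rw [qExpansion_deltaN_coeff_int]
  split_ifs
  · exact ⟨_, rfl⟩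
  · exact ⟨0, by simp⟩

end Fermat.Agent.Lib.DeltaNQExp
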