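import Mathlib
import Fermat.Agent.Lib.CuspLaurent
import Fermat.Agent.Lib.CuspLaurentSum
import Fermat.Agent.Lib.DeltaLevelN
import Fermat.Agent.Lib.DeltaNQExp
import Fermat.Agent.Lib.JSurjPoly
import Fermat.Agent.Lib.JqAnalytic

/-!
# Roots of the modular unit `Δ(pz)/Δ(z)`

If the modular unit `u(z) = Δ(pz)/Δ(z)` of `Γ₀(p)` (`p` prime) has a holomorphic `Γ₀(p)`-invariant
`d`-th root `v` (up to a nonzero constant: `v^d = C·u`), then `d ∣ 12`.

Proof.  `v` is holomorphic at `i∞` with `q`-expansion `a₀ q^m (1 + …)`, `m d = p - 1`, and the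
normalised expansion is rational (`coeff_mem_range_of_pow`).  The Fricke relation
`u(-1/(pz)) u(z) = p⁻¹²` gives `v(-1/(pz)) v(z) = c` with `c^d = C² p⁻¹²`.  The weight-zero trace
`Tr(z) = v(z) + c ∑_{j mod p} (1/v)((z+j)/p)` is `SL₂(ℤ)`-invariant, holomorphic on `ℍ` and at
`i∞`, hence constant; its `q^m`-coefficient gives `a₀² + c p ρ = 0` with `ρ ∈ ℚ`.  Therefore
`c/a₀²` is a rational number whose `d`-th power is `p⁻¹²`, and `d ∣ 12`.
-/

set_option autoImplicit false

noncomputable section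

namespace Fermat.Agent.Lib.DeltaRoot

open Filter Function Complex
open UpperHalfPlane hiding I
open scoped Manifold Topology Real MatrixGroups ModularForm
open Fermat.Agent.Lib.CuspLaurent Fermat.Agent.Lib.CuspLaurentSum
open Fermat.Agent.Lib.DeltaSlash Fermat.Agent.Lib.DeltaLevelN Fermat.Agent.Lib.DeltaNQExp
open Fermat.Agent.Lib.DeltaInt Fermat.Agent.Lib.JqAnalytic

local notation "𝕢" => Periodic.qParam
local notation "Δ" => ModularForm.discriminant

/-! ## A formal lemma: rationality of `d`-th roots of power series -/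

section Formal

variable {K L : Type*} [Field K] [Field L] [CharZero K]

/-- A power series with constant coefficient `1` whose `d`-th power has coefficients in a
subfield has coefficients in this subfield. -/
theorem exists_map_eq_of_pow (ι : K →+* L) (w : PowerSeries L)
    (hw : PowerSeries.constantCoeff w = 1) (d : ℕ) (hd : 0 < d)
    (h : ∀ n, PowerSeries.coeff n (w ^ d) ∈ Set.range ι) :
    ∃ W : PowerSeries K, PowerSeries.map ι W = w := by
  have hdK : (d : K) ≠ 0 := by exact_mod_cast hd.ne'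
  have key : ∀ n : ℕ, ∃ P : PowerSeries K, PowerSeries.constantCoeff P = 1 ∧
      PowerSeries.X ^ (n + 1) ∣ w - PowerSeries.map ι P := by
    intro n
    induction n with
    | zero =>
      refine ⟨1, by simp, ?_⟩
      rw [zero_add, pow_one, PowerSeries.X_dvd_iff]
      simp [hw]
    | succ n ih =>
      obtain ⟨P, hP1, R, hR⟩ := ih
      set Q := PowerSeries.map ι P with hQ
      have hQ1 : PowerSeries.constantCoeff Q = 1 := by
        rw [hQ, ← PowerSeries.coeff_zero_eq_constantCoeff_apply, PowerSeries.coeff_map,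
          PowerSeries.coeff_zero_eq_constantCoeff_apply, hP1, map_one]
      set G := ∑ i ∈ Finset.range d, w ^ i * Q ^ (d - 1 - i) with hG
      have hG0 : PowerSeries.constantCoeff G = (d : L) := by
        rw [hG, map_sum]
        simp [hw, hQ1]
      have h1 : w ^ d - Q ^ d = PowerSeries.X ^ (n + 1) * (R * G) := by
        rw [← geom_sum₂_mul w Q d, hR, ← hG]
        ring
      have h2 : PowerSeries.coeff (n + 1) (w ^ d - Q ^ d)
          = PowerSeries.constantCoeff R * (d : L) := by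
        rw [h1]
        have := PowerSeries.coeff_X_pow_mul (R * G) (n + 1) 0
        rw [zero_add] at this
        rw [this, PowerSeries.coeff_zero_eq_constantCoeff_apply, map_mul, hG0]
      obtain ⟨c₁, hc₁⟩ := h (n + 1)
      have h3 : PowerSeries.coeff (n + 1) (Q ^ d) = ι (PowerSeries.coeff (n + 1) (P ^ d)) := by
        rw [hQ, ← map_pow, PowerSeries.coeff_map]
      have h4 : PowerSeries.constantCoeff R
          = ι ((c₁ - PowerSeries.coeff (n + 1) (P ^ d)) / (d : K)) := by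
        have hdL : (d : L) ≠ 0 := by
          have : ι (d : K) ≠ 0 := (map_ne_zero ι).mpr hdK
          simpa using this
        rw [map_div₀, map_sub, map_natCast, hc₁, ← h3, ← map_sub, h2]
        field_simp
      set c := (c₁ - PowerSeries.coeff (n + 1) (P ^ d)) / (d : K) with hc
      refine ⟨P + PowerSeries.C c * PowerSeries.X ^ (n + 1), ?_, ?_⟩
      · rw [map_add, hP1, map_mul, map_pow, PowerSeries.constantCoeff_X]
        simp
      · have h5 : PowerSeries.X ∣ R - PowerSeries.C (PowerSeries.constantCoeff R) := by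
          rw [PowerSeries.X_dvd_iff]
          simp
        obtain ⟨R', hR'⟩ := h5
        refine ⟨R', ?_⟩
        have h6 : PowerSeries.map ι (P + PowerSeries.C c * PowerSeries.X ^ (n + 1))
            = Q + PowerSeries.C (PowerSeries.constantCoeff R) * PowerSeries.X ^ (n + 1) := by
          rw [map_add, map_mul, map_pow, PowerSeries.map_X, PowerSeries.map_C, ← hQ, h4]
        rw [h6]
        have h7 : w - (Q + PowerSeries.C (PowerSeries.constantCoeff R) * PowerSeries.X ^ (n + 1))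
            = PowerSeries.X ^ (n + 1) * (R - PowerSeries.C (PowerSeries.constantCoeff R)) := by
          rw [mul_sub, ← hR]
          ring
        rw [h7, hR']
        ring
  choose P hP1 hP using key
  refine ⟨PowerSeries.mk fun n => PowerSeries.coeff n (P n), ?_⟩
  ext n
  rw [PowerSeries.coeff_map, PowerSeries.coeff_mk]
  have h1 := PowerSeries.X_pow_dvd_iff.mp (hP n) n (Nat.lt_succ_self n)
  rw [map_sub, PowerSeries.coeff_map, sub_eq_zero] at h1
  exact h1.symm

end Formal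

/-! ## Points of the upper half plane -/

section Points

variable (N : ℕ) [NeZero N]

lemma natCast_ne_zero' : (N : ℂ) ≠ 0 := Nat.cast_ne_zero.mpr (NeZero.ne N)

lemma im_neg_one_div_pos {w : ℂ} (hw : 0 < w.im) : 0 < (-1 / w).im := by
  have := UpperHalfPlane.im_inv_neg_coe_pos ⟨w, hw⟩
  rwa [show (-1 : ℂ) / w = (-w)⁻¹ by rw [neg_div, one_div, inv_neg]]

lemma im_natCast_mul_pos (z : ℍ) : 0 < ((N : ℂ) * z).im := by
  have h1 : ((N : ℂ) * z).im = N * z.im := by simp
  rw [h1]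
  have := z.im_pos
  have : (0 : ℝ) < N := Nat.cast_pos.mpr (NeZero.pos N)
  positivity

/-- The point `N z`. -/
def scl (z : ℍ) : ℍ := ⟨(N : ℂ) * z, im_natCast_mul_pos N z⟩

@[simp] lemma coe_scl (z : ℍ) : ((scl N z : ℍ) : ℂ) = (N : ℂ) * z := rfl

/-- The Fricke point `-1/(N z)`. -/
def frk (z : ℍ) : ℍ := ⟨-1 / ((N : ℂ) * z), im_neg_one_div_pos (im_natCast_mul_pos N z)⟩

@[simp] lemma coe_frk (z : ℍ) : ((frk N z : ℍ) : ℂ) = -1 / ((N : ℂ) * z) := rfl

/-- The point `(z + j)/N`. -/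
def aff (j : ℤ) (z : ℍ) : ℍ :=
  ⟨(((1 : ℕ) : ℂ) * z + j) / N, by
    rw [im_affine]
    have := z.im_pos
    have : (0 : ℝ) < N := Nat.cast_pos.mpr (NeZero.pos N)
    positivity⟩

lemma coe_aff' (j : ℤ) (z : ℍ) :
    ((aff N j z : ℍ) : ℂ) = (((1 : ℕ) : ℂ) * z + j) / N := rfl

@[simp] lemma coe_aff (j : ℤ) (z : ℍ) : ((aff N j z : ℍ) : ℂ) = ((z : ℂ) + j) / N := by
  rw [coe_aff', Nat.cast_one, one_mul]

lemma continuous_frk : Continuous (frk N) := by
  refine Continuous.upperHalfPlaneMk (f := fun z : ℍ => -1 / ((N : ℂ) * z)) ?_ _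
  refine continuous_const.div (continuous_const.mul continuous_coe) fun z => ?_
  exact mul_ne_zero (natCast_ne_zero' N) z.ne_zero

lemma deltaN_eq_scl (z : ℍ) : deltaN N z = Δ (scl N z) := by
  rw [deltaN, ofComplex_apply_of_im_pos (im_natCast_mul_pos N z)]
  rfl

lemma discriminant_S_smul (w : ℍ) : Δ (ModularGroup.S • w) = (w : ℂ) ^ 12 * Δ w := by
  rw [discriminant_smul]
  simp [ModularGroup.S]

lemma frk_eq_S_smul (z : ℍ) : frk N z = ModularGroup.S • scl N z := by
  apply UpperHalfPlane.ext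
  rw [UpperHalfPlane.modular_S_smul]
  simp only [coe_frk, coe_scl]
  rw [neg_div, one_div, inv_neg]

lemma scl_frk (z : ℍ) : scl N (frk N z) = ModularGroup.S • z := by
  apply UpperHalfPlane.ext
  rw [UpperHalfPlane.modular_S_smul]
  simp only [coe_frk, coe_scl]
  have h1 := natCast_ne_zero' N
  have h2 := z.ne_zero
  field_simp

/-- The Fricke relation for the modular unit `Δ(Nz)/Δ(z)`. -/
lemma unit_frk (z : ℍ) :
    (deltaN N (frk N z) / Δ (frk N z)) * (deltaN N z / Δ z) = ((N : ℂ) ^ 12)⁻¹ := by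
  rw [deltaN_eq_scl N (frk N z), scl_frk, discriminant_S_smul, frk_eq_S_smul,
    discriminant_S_smul, coe_scl, ← deltaN_eq_scl]
  have h1 := natCast_ne_zero' N
  have h2 := z.ne_zero
  have h3 : Δ z ≠ 0 := ModularForm.discriminant_ne_zero z
  have h4 := deltaN_ne_zero N z
  field_simp

end Points

/-! ## Behaviour of the modular unit at `i∞` -/

section Unit

variable (N : ℕ) [NeZero N]

/-- `Δ(Nz)/Δ(z) = q^(N-1) (E(q^N)/E(q))^24`. -/
lemma unit_eq (z : ℍ) :
    deltaN N z / Δ z = 𝕢 1 z ^ (N - 1) * (eulerFun (𝕢 1 z ^ N) / eulerFun (𝕢 1 z)) ^ 24 := by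
  have hq : ‖𝕢 1 (z : ℂ)‖ < 1 := by simpa using UpperHalfPlane.norm_qParam_lt_one 1 z
  have hq0 : 𝕢 1 (z : ℂ) ≠ 0 := Periodic.qParam_ne_zero _
  have hE := eulerFun_ne_zero hq
  rw [deltaN_eq_scl, discriminant_eq_q_mul_eulerFun, discriminant_eq_q_mul_eulerFun, coe_scl,
    qParam_nat_mul]
  have hqN : 𝕢 1 (z : ℂ) ^ N = 𝕢 1 (z : ℂ) ^ (N - 1) * 𝕢 1 (z : ℂ) := by
    rw [← pow_succ, Nat.sub_add_cancel (NeZero.pos N)]
  generalize eulerFun (𝕢 1 (z : ℂ) ^ N) = y
  rw [hqN]
  field_simp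

lemma tendsto_eulerQuot :
    Tendsto (fun z : ℍ => (eulerFun (𝕢 1 z ^ N) / eulerFun (𝕢 1 z)) ^ 24) atImInfty (𝓝 1) := by
  have hE : ContinuousAt eulerFun 0 := (eulerFun_analyticAt (by simp)).continuousAt
  have hR : ContinuousAt (fun q : ℂ => (eulerFun (q ^ N) / eulerFun q) ^ 24) 0 := by
    refine ContinuousAt.pow (ContinuousAt.div ?_ hE (by rw [eulerFun_zero]; exact one_ne_zero)) 24
    have h1 : ContinuousAt (fun q : ℂ => q ^ N) 0 := (continuous_pow N).continuousAt
    refine ContinuousAt.comp (g := eulerFun) ?_ h1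
    rw [zero_pow (NeZero.ne N)]
    exact hE
  have h0 : (eulerFun ((0 : ℂ) ^ N) / eulerFun 0) ^ 24 = 1 := by
    simp [zero_pow (NeZero.ne N), eulerFun_zero]
  have := hR.tendsto.comp (UpperHalfPlane.qParam_tendsto_atImInfty (h := 1) one_pos)
  rw [h0] at this
  exact this

lemma isBounded_unit : IsBoundedAtImInfty (fun z : ℍ => deltaN N z / Δ z) := by
  have e : (fun z : ℍ => deltaN N z / Δ z) = tParam 1 ^ (N - 1) *
      fun z : ℍ => (eulerFun (𝕢 1 z ^ N) / eulerFun (𝕢 1 z)) ^ 24 := by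
    funext z
    rw [unit_eq]
    rfl
  rw [e]
  exact ((isHolCusp_tParam one_pos).pow (N - 1)).bdd.mul ((tendsto_eulerQuot N).isBigO_one ℝ)

lemma isBounded_unit_inv :
    IsBoundedAtImInfty (tParam 1 ^ (N - 1) * fun z : ℍ => (deltaN N z / Δ z)⁻¹) := by
  have e : (tParam 1 ^ (N - 1) * fun z : ℍ => (deltaN N z / Δ z)⁻¹) =
      fun z : ℍ => ((eulerFun (𝕢 1 z ^ N) / eulerFun (𝕢 1 z)) ^ 24)⁻¹ := by
    funext z
    have hq : ‖𝕢 1 (z : ℂ)‖ < 1 := by simpa using UpperHalfPlane.norm_qParam_lt_one 1 z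
    have hq0 : 𝕢 1 (z : ℂ) ≠ 0 := Periodic.qParam_ne_zero _
    simp only [Pi.mul_apply, Pi.pow_apply, tParam]
    rw [unit_eq, mul_inv, ← mul_assoc, mul_inv_cancel₀ (pow_ne_zero _ hq0), one_mul]
  rw [e]
  have := (tendsto_eulerQuot N).inv₀ one_ne_zero
  exact this.isBigO_one ℝ

lemma isBoundedAtImInfty_of_pow {F : ℍ → ℂ} {d : ℕ} (hd : 0 < d)
    (h : IsBoundedAtImInfty (F ^ d)) : IsBoundedAtImInfty F := by
  rw [isBoundedAtImInfty_iff] at h ⊢
  obtain ⟨M, A, hMA⟩ := h
  refine ⟨max 1 M, A, fun z hz => ?_⟩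
  have h1 := hMA z hz
  rw [Pi.pow_apply, norm_pow] at h1
  by_cases h2 : ‖F z‖ ≤ 1
  · exact le_max_of_le_left h2
  · exact le_max_of_le_right ((le_self_pow₀ (not_le.mp h2).le hd.ne').trans h1)

lemma periodic_of_vadd {f : ℍ → ℂ} (hf : ∀ τ : ℍ, f ((1 : ℝ) +ᵥ τ) = f τ) :
    Periodic (f ∘ ofComplex) ((1 : ℝ) : ℂ) := by
  intro w
  simp only [Function.comp_apply]
  by_cases hw : 0 < w.im
  · have hw' : 0 < (w + ((1 : ℝ) : ℂ)).im := by simpa using hw
    rw [ofComplex_apply_of_im_pos hw, ofComplex_apply_of_im_pos hw']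
    have e : (⟨w + ((1 : ℝ) : ℂ), hw'⟩ : ℍ) = (1 : ℝ) +ᵥ (⟨w, hw⟩ : ℍ) := by
      apply UpperHalfPlane.ext
      rw [UpperHalfPlane.coe_vadd]
      exact add_comm _ _
    rw [e, hf]
  · have hw' : ¬ 0 < (w + ((1 : ℝ) : ℂ)).im := by simpa using hw
    rw [ofComplex_apply_eq_of_im_nonpos (not_lt.mp hw') (not_lt.mp hw)]

lemma isHolCusp_discriminant : IsHolCusp 1 Δ :=
  isHolCusp_of_hasSum one_pos (a := fun n => ((DeltaZ.coeff n : ℤ) : ℂ))
    (fun τ => hasSum_discriminant τ)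

lemma isHolCusp_deltaN : IsHolCusp 1 (deltaN N) :=
  isHolCusp_of_hasSum one_pos
    (a := fun m => if N ∣ m then ((DeltaZ.coeff (m / N) : ℤ) : ℂ) else 0)
    (fun τ => by simpa [tParam, smul_eq_mul] using hasSum_deltaN N τ)

lemma qExpansion_pow_of_isHolCusp {f : ℍ → ℂ} (hf : IsHolCusp 1 f) (n : ℕ) :
    qExpansion 1 (f ^ n) = qExpansion 1 f ^ n := by
  induction n with
  | zero => simpa using qExpansion_one 1
  | succ n ih => rw [pow_succ, (hf.pow n).qExpansion_mul one_pos hf, ih, pow_succ]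

lemma X_pow_mul_eq {a b : ℕ} {F G : PowerSeries ℂ} (hF : PowerSeries.constantCoeff F ≠ 0)
    (hG : PowerSeries.constantCoeff G ≠ 0)
    (h : PowerSeries.X ^ a * F = PowerSeries.X ^ b * G) : a = b ∧ F = G := by
  have h1 : b ≤ a := by
    have := congrArg (PowerSeries.coeff a) h
    rw [PowerSeries.coeff_X_pow_mul', PowerSeries.coeff_X_pow_mul', if_pos le_rfl,
      Nat.sub_self] at this
    by_contra hba
    rw [if_neg hba, PowerSeries.coeff_zero_eq_constantCoeff_apply] at this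
    exact hF this
  have h2 : a ≤ b := by
    have := congrArg (PowerSeries.coeff b) h
    rw [PowerSeries.coeff_X_pow_mul', PowerSeries.coeff_X_pow_mul', if_pos le_rfl,
      Nat.sub_self] at this
    by_contra hab
    rw [if_neg hab, PowerSeries.coeff_zero_eq_constantCoeff_apply] at this
    exact hG this.symm
  have hab : a = b := le_antisymm h2 h1
  subst hab
  exact ⟨rfl, mul_left_cancel₀ (pow_ne_zero _ PowerSeries.X_ne_zero) h⟩

end Unit

/-! ## Roots of the modular unit -/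

/-- `v` is a holomorphic `Γ₀(p)`-invariant function with `v^d = C · Δ(pz)/Δ(z)`. -/
structure IsRoot (p d : ℕ) (v : ℍ → ℂ) (C : ℂ) : Prop where
  pos : 0 < d
  holo : MDiff v
  inv : ∀ γ : SL(2, ℤ), γ ∈ CongruenceSubgroup.Gamma0 p → ∀ z : ℍ, v (γ • z) = v z
  ne : C ≠ 0
  pow : ∀ z : ℍ, v z ^ d = C * (deltaN p z / Δ z)

section Root

variable {p : ℕ} [NeZero p] {d : ℕ} {v : ℍ → ℂ} {C : ℂ}

lemma IsRoot.ne_zero (h : IsRoot p d v C) (z : ℍ) : v z ≠ 0 := by
  intro h0
  have h1 := h.pow z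
  rw [h0, zero_pow h.pos.ne'] at h1
  have h2 : C * (deltaN p z / Δ z) ≠ 0 :=
    mul_ne_zero h.ne (div_ne_zero (deltaN_ne_zero p z) (ModularForm.discriminant_ne_zero z))
  exact h2 h1.symm

omit [NeZero p] in
/-- Invariance under an explicit matrix of `Γ₀(p)`. -/
lemma IsRoot.inv_entries (h : IsRoot p d v C) (a b c e : ℤ) (hdet : a * e - b * c = 1)
    (hc : (p : ℤ) ∣ c) (z w : ℍ)
    (hw : (w : ℂ) = ((a : ℂ) * z + b) / ((c : ℂ) * z + e)) : v w = v z := by
  let γ : SL(2, ℤ) := ⟨!![a, b; c, e], by rw [Matrix.det_fin_two_of]; exact hdet⟩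
  have hγ : γ ∈ CongruenceSubgroup.Gamma0 p := (mem_Gamma0_iff_dvd p γ).mpr (by simpa [γ] using hc)
  have e1 : γ • z = w := by
    apply UpperHalfPlane.ext
    rw [coe_sl_smul, hw]
    simp [γ]
  rw [← e1]
  exact h.inv γ hγ z

omit [NeZero p] in
lemma IsRoot.vadd_int (h : IsRoot p d v C) (k : ℤ) (z w : ℍ) (hw : (w : ℂ) = z + k) :
    v w = v z := by
  refine h.inv_entries 1 k 0 1 (by ring) (dvd_zero _) z w ?_
  rw [hw]
  simp

omit [NeZero p] in
lemma IsRoot.vadd_one (h : IsRoot p d v C) (z : ℍ) : v ((1 : ℝ) +ᵥ z) = v z := by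
  refine h.vadd_int 1 z _ ?_
  rw [UpperHalfPlane.coe_vadd]
  push_cast
  ring

lemma IsRoot.isHolCusp (h : IsRoot p d v C) : IsHolCusp 1 v := by
  refine ⟨h.holo, periodic_of_vadd h.vadd_one, isBoundedAtImInfty_of_pow h.pos ?_⟩
  have e : v ^ d = (fun _ : ℍ => C) * fun z : ℍ => deltaN p z / Δ z := by
    funext z
    simp only [Pi.mul_apply, Pi.pow_apply]
    exact h.pow z
  rw [e]
  exact (Filter.const_boundedAtFilter _ C).mul (isBounded_unit p)

lemma IsRoot.mul_inv_self' (h : IsRoot p d v C) : v * v⁻¹ = 1 := by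
  funext z
  simp only [Pi.mul_apply, Pi.inv_apply, Pi.one_apply]
  exact mul_inv_cancel₀ (h.ne_zero z)

lemma IsRoot.isBounded_inv (h : IsRoot p d v C) :
    IsBoundedAtImInfty (tParam 1 ^ (p - 1) * v⁻¹) := by
  apply isBoundedAtImInfty_of_pow h.pos
  have e : (tParam 1 ^ (p - 1) * v⁻¹) ^ d = tParam 1 ^ ((p - 1) * (d - 1)) *
      ((fun _ : ℍ => C⁻¹) * (tParam 1 ^ (p - 1) * fun z : ℍ => (deltaN p z / Δ z)⁻¹)) := by
    funext z
    simp only [Pi.mul_apply, Pi.pow_apply, Pi.inv_apply]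
    rw [mul_pow, inv_pow, h.pow z, ← pow_mul]
    have h1 : (p - 1) * d = (p - 1) * (d - 1) + (p - 1) := by
      obtain ⟨d', rfl⟩ : ∃ d', d = d' + 1 := ⟨d - 1, (Nat.sub_add_cancel h.pos).symm⟩
      simp [Nat.mul_succ]
    rw [h1, pow_add, _root_.mul_inv]
    ring
  rw [e]
  exact ((isHolCusp_tParam one_pos).pow _).bdd.mul
    ((Filter.const_boundedAtFilter _ C⁻¹).mul (isBounded_unit_inv p))

lemma IsRoot.isMerCusp_inv (h : IsRoot p d v C) : IsMerCusp 1 v⁻¹ := by
  refine ⟨?_, fun w => ?_, p - 1, h.isBounded_inv⟩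
  · rw [UpperHalfPlane.mdifferentiable_iff]
    have h1 := UpperHalfPlane.mdifferentiable_iff.mp h.holo
    refine (h1.inv fun z hz => ?_).congr fun z hz => ?_
    · simp only [Function.comp_apply]
      exact h.ne_zero _
    · simp [Function.comp_apply]
  · have h1 := h.isHolCusp.per w
    simp only [Function.comp_apply, Pi.inv_apply] at h1 ⊢
    rw [h1]

/-- The Fricke relation for a root: `v(-1/(pz)) v(z)` is a constant `c` with `c^d = C² p⁻¹²`. -/
lemma IsRoot.exists_fricke_const (h : IsRoot p d v C) :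
    ∃ c : ℂ, (∀ z, v (frk p z) * v z = c) ∧ c ^ d = C ^ 2 * ((p : ℂ) ^ 12)⁻¹ := by
  have hf : ∀ z, (v (frk p z) * v z) ^ d = C ^ 2 * ((p : ℂ) ^ 12)⁻¹ := by
    intro z
    rw [mul_pow, h.pow, h.pow, ← unit_frk p z]
    ring
  refine ⟨v (frk p UpperHalfPlane.I) * v UpperHalfPlane.I, fun z => ?_, hf _⟩
  have hfin : {w : ℂ | w ^ d = C ^ 2 * ((p : ℂ) ^ 12)⁻¹}.Finite := by
    have e : {w : ℂ | w ^ d = C ^ 2 * ((p : ℂ) ^ 12)⁻¹} =
        ↑(Polynomial.nthRoots d (C ^ 2 * ((p : ℂ) ^ 12)⁻¹)).toFinset := by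
      ext w
      simp [Polynomial.mem_nthRoots h.pos]
    rw [e]
    exact Finset.finite_toSet _
  have hcont : Continuous v := h.holo.continuous
  exact isPreconnected_univ.constant_of_mapsTo hfin.isDiscrete
    (f := fun z => v (frk p z) * v z) ((hcont.comp (continuous_frk p)).mul hcont).continuousOn
    (fun z _ => hf z) (Set.mem_univ z) (Set.mem_univ _)

/-- The shape of the expansions of `v` and `1/v` at `i∞`: `v = a₀ q^m (1 + …)` with
`m d = p - 1`, `a₀^d = C`, and the normalised expansion of `1/v` is rational. -/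
theorem IsRoot.exists_expansion (h : IsRoot p d v C) :
    ∃ (m : ℕ) (a₀ : ℂ) (β : ℕ → ℚ), m * d + 1 = p ∧ a₀ ≠ 0 ∧ a₀ ^ d = C ∧
      (qExpansion 1 v).coeff m = a₀ ∧
      (∀ k : ℤ, k < -(m : ℤ) → (laurentFun 1 v⁻¹).coeff k = 0) ∧
      ∀ n : ℕ, (laurentFun 1 v⁻¹).coeff ((n : ℤ) - m) = a₀⁻¹ * (β n : ℂ) := by
  have hv1 := h.isHolCusp
  have hΔ := isHolCusp_discriminant
  have hδ := isHolCusp_deltaN p
  set ι : ℚ →+* ℂ := algebraMap ℚ ℂ with hι
  set A := qExpansion 1 v with hA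
  -- rational structure of the expansions of `Δ` and `Δ(p·)`
  obtain ⟨U, hU1, hU⟩ := exists_DeltaZ_eq_X_mul
  set UQ : PowerSeries ℚ := PowerSeries.map (Int.castRingHom ℚ) U with hUQ
  have hUQ1 : PowerSeries.constantCoeff UQ = 1 := by
    rw [hUQ, ← PowerSeries.coeff_zero_eq_constantCoeff_apply, PowerSeries.coeff_map,
      PowerSeries.coeff_zero_eq_constantCoeff_apply, hU1, map_one]
  have hZ : qExpansion 1 Δ = PowerSeries.X * PowerSeries.map ι UQ := by
    rw [qExpansion_discriminant_eq, hU, map_mul, PowerSeries.map_X]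
    congr 1
  set ZpQ : PowerSeries ℚ :=
    PowerSeries.mk (fun n => if p ∣ n then ((DeltaZ.coeff (n / p) : ℤ) : ℚ) else 0) with hZpQ
  have hZp0 : qExpansion 1 (deltaN p) = PowerSeries.map ι ZpQ := by
    ext n
    rw [qExpansion_deltaN_coeff_int, PowerSeries.coeff_map, hZpQ, PowerSeries.coeff_mk]
    split_ifs <;> simp
  have hdvd : PowerSeries.X ^ p ∣ ZpQ := by
    rw [PowerSeries.X_pow_dvd_iff]
    intro n hn
    rw [hZpQ, PowerSeries.coeff_mk]
    split_ifs with hpn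
    · have h0 : n = 0 := Nat.eq_zero_of_dvd_of_lt hpn hn
      subst h0
      simp [DeltaZ_coeff_zero]
    · rfl
  obtain ⟨VQ, hVQ⟩ := hdvd
  have hVQ1 : PowerSeries.constantCoeff VQ = 1 := by
    have h1 := PowerSeries.coeff_X_pow_mul VQ p 0
    rw [zero_add, ← hVQ, hZpQ, PowerSeries.coeff_mk, if_pos dvd_rfl, Nat.div_self (NeZero.pos p),
      DeltaZ_coeff_one] at h1
    rw [← PowerSeries.coeff_zero_eq_constantCoeff_apply, ← h1]
    simp
  have hZp : qExpansion 1 (deltaN p) = PowerSeries.X ^ p * PowerSeries.map ι VQ := by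
    rw [hZp0, hVQ, map_mul, map_pow, PowerSeries.map_X]
  have hcU : PowerSeries.constantCoeff (PowerSeries.map ι UQ) = 1 := by
    rw [← PowerSeries.coeff_zero_eq_constantCoeff_apply, PowerSeries.coeff_map,
      PowerSeries.coeff_zero_eq_constantCoeff_apply, hUQ1, map_one]
  have hcV : PowerSeries.constantCoeff (PowerSeries.map ι VQ) = 1 := by
    rw [← PowerSeries.coeff_zero_eq_constantCoeff_apply, PowerSeries.coeff_map,
      PowerSeries.coeff_zero_eq_constantCoeff_apply, hVQ1, map_one]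
  -- the functional equation on `q`-expansions
  have e1 : v ^ d * Δ = C • deltaN p := by
    funext z
    simp only [Pi.mul_apply, Pi.pow_apply, Pi.smul_apply, smul_eq_mul]
    rw [h.pow z]
    have := ModularForm.discriminant_ne_zero z
    field_simp
  have e2 : A ^ d * (PowerSeries.X * PowerSeries.map ι UQ)
      = C • (PowerSeries.X ^ p * PowerSeries.map ι VQ) := by
    rw [← hZ, ← hZp, ← qExpansion_smul (hδ.analyticAt one_pos), ← e1,
      (hv1.pow d).qExpansion_mul one_pos hΔ, qExpansion_pow_of_isHolCusp hv1]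
  -- the order of `A`
  have hA0 : A ≠ 0 := by
    intro hA0
    have h0 := (hv1.qExpansion_eq_zero_iff one_pos).mp hA0
    exact h.ne_zero UpperHalfPlane.I (by rw [h0]; rfl)
  have hex : ∃ n, PowerSeries.coeff n A ≠ 0 := by
    by_contra hcon
    simp only [not_exists, not_not] at hcon
    exact hA0 (PowerSeries.ext (by simpa using hcon))
  classical
  set m := Nat.find hex with hm
  have hm1 : PowerSeries.coeff m A ≠ 0 := Nat.find_spec hex
  have hm2 : ∀ k < m, PowerSeries.coeff k A = 0 := fun k hk => by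
    by_contra hne
    exact Nat.find_min hex hk hne
  obtain ⟨A₁, hA₁⟩ := PowerSeries.X_pow_dvd_iff.mpr hm2
  set a₀ := PowerSeries.constantCoeff A₁ with ha₀
  have hcoeffm : PowerSeries.coeff m A = a₀ := by
    have h1 := PowerSeries.coeff_X_pow_mul A₁ m 0
    rw [zero_add, ← hA₁] at h1
    rw [h1, PowerSeries.coeff_zero_eq_constantCoeff_apply]
  have ha₀ne : a₀ ≠ 0 := hcoeffm ▸ hm1
  -- comparison of orders
  have e3 : PowerSeries.X ^ (m * d + 1) * (A₁ ^ d * PowerSeries.map ι UQ)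
      = PowerSeries.X ^ p * (C • PowerSeries.map ι VQ) := by
    rw [mul_smul_comm, ← e2, hA₁]
    ring
  have hF : PowerSeries.constantCoeff (A₁ ^ d * PowerSeries.map ι UQ) ≠ 0 := by
    rw [map_mul, map_pow, hcU, mul_one]
    exact pow_ne_zero _ ha₀ne
  have hG : PowerSeries.constantCoeff (C • PowerSeries.map ι VQ) ≠ 0 := by
    rw [PowerSeries.smul_eq_C_mul, map_mul, PowerSeries.constantCoeff_C, hcV, mul_one]
    exact h.ne
  obtain ⟨hmd, e4⟩ := X_pow_mul_eq hF hG e3
  have ha₀d : a₀ ^ d = C := by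
    have h1 := congrArg PowerSeries.constantCoeff e4
    rw [map_mul, map_pow, hcU, mul_one, PowerSeries.smul_eq_C_mul, map_mul,
      PowerSeries.constantCoeff_C, hcV, mul_one] at h1
    exact h1
  -- the normalised series
  set w := PowerSeries.C a₀⁻¹ * A₁ with hw
  have hw1 : PowerSeries.constantCoeff w = 1 := by
    rw [hw, map_mul, PowerSeries.constantCoeff_C, ← ha₀, inv_mul_cancel₀ ha₀ne]
  have hA₁w : A₁ = PowerSeries.C a₀ * w := by
    rw [hw, ← mul_assoc, ← map_mul, mul_inv_cancel₀ ha₀ne, map_one, one_mul]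
  have e5 : w ^ d * PowerSeries.map ι UQ = PowerSeries.map ι VQ := by
    rw [hw, mul_pow, ← map_pow, inv_pow, ha₀d, mul_assoc, e4, PowerSeries.smul_eq_C_mul,
      ← mul_assoc, ← map_mul, inv_mul_cancel₀ h.ne, map_one, one_mul]
  have hUinv : PowerSeries.map ι UQ * PowerSeries.map ι UQ⁻¹ = 1 := by
    rw [← map_mul, PowerSeries.mul_inv_cancel UQ (by rw [hUQ1]; exact one_ne_zero), map_one]
  have e6 : w ^ d = PowerSeries.map ι (VQ * UQ⁻¹) := by
    rw [map_mul, ← e5, mul_assoc, hUinv, mul_one]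
  obtain ⟨W, hW⟩ := exists_map_eq_of_pow ι w hw1 d h.pos
    (fun n => by rw [e6, PowerSeries.coeff_map]; exact ⟨_, rfl⟩)
  have hW1 : PowerSeries.constantCoeff W = 1 := by
    have h1 : ι (PowerSeries.constantCoeff W) = 1 := by
      rw [← hw1, ← hW, ← PowerSeries.coeff_zero_eq_constantCoeff_apply,
        ← PowerSeries.coeff_zero_eq_constantCoeff_apply, PowerSeries.coeff_map]
    exact ι.injective (by rw [h1, map_one])
  set B := PowerSeries.C a₀⁻¹ * PowerSeries.map ι W⁻¹ with hB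
  have hAB : A * B = PowerSeries.X ^ m := by
    have hWinv : PowerSeries.map ι W * PowerSeries.map ι W⁻¹ = 1 := by
      rw [← map_mul, PowerSeries.mul_inv_cancel W (by rw [hW1]; exact one_ne_zero), map_one]
    calc A * B = PowerSeries.X ^ m * (PowerSeries.C a₀ * PowerSeries.C a₀⁻¹)
          * (PowerSeries.map ι W * PowerSeries.map ι W⁻¹) := by
          rw [hA₁, hA₁w, hB, hW]; ring
      _ = PowerSeries.X ^ m := by
          rw [hWinv, ← map_mul, mul_inv_cancel₀ ha₀ne, map_one, mul_one, mul_one]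
  -- the Laurent series of `1/v`
  have hLv : laurentFun 1 v = HahnSeries.ofPowerSeries ℤ ℂ A :=
    laurentFun_of_isHolCusp one_pos hv1
  have hLvg : laurentFun 1 v * laurentFun 1 v⁻¹ = 1 := by
    rw [← laurentFun_mul one_pos hv1.isMerCusp h.isMerCusp_inv, h.mul_inv_self',
      laurentFun_one one_pos]
  have hLv0 : laurentFun 1 v ≠ 0 := by
    intro h0
    rw [h0, zero_mul] at hLvg
    exact zero_ne_one hLvg
  have hLg : laurentFun 1 v⁻¹
      = HahnSeries.single (-(m : ℤ)) (1 : ℂ) * HahnSeries.ofPowerSeries ℤ ℂ B := by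
    apply mul_left_cancel₀ hLv0
    rw [hLvg, hLv, mul_left_comm, ← map_mul, hAB, map_pow, HahnSeries.ofPowerSeries_X,
      HahnSeries.single_pow, HahnSeries.single_mul_single]
    simp
  refine ⟨m, a₀, fun n => PowerSeries.coeff n W⁻¹, hmd, ha₀ne, ha₀d, hcoeffm,
    fun k hk => ?_, fun n => ?_⟩
  · rw [hLg, HahnSeries.coeff_single_mul, one_mul, sub_neg_eq_add]
    exact ModularCurve.ofPowerSeries_coeff_of_neg _ (by omega)
  · rw [hLg, HahnSeries.coeff_single_mul, one_mul, sub_neg_eq_add, sub_add_cancel,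
      HahnSeries.ofPowerSeries_apply_coeff, hB, PowerSeries.coeff_C_mul, PowerSeries.coeff_map]
    simp [hι]

end Root

/-! ## The weight-zero trace -/

/-- The weight-zero trace of `v` from `Γ₀(p)` to `SL₂(ℤ)`:
`v(z) + c ∑_{a mod p} (1/v)((z+a)/p)` (where `c = v(-1/(pz)) v(z)`). -/
def trF (p : ℕ) [NeZero p] (v : ℍ → ℂ) (c : ℂ) : ℍ → ℂ :=
  fun z => v z + c * ∑ a : ZMod p, (v (aff p (a.val : ℤ) z))⁻¹

section Trace

variable {p : ℕ} [Fact p.Prime] {d : ℕ} {v : ℍ → ℂ} {C : ℂ}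

lemma IsRoot.aff_congr (h : IsRoot p d v C) {j j' : ℤ} (hjj : (j : ZMod p) = j') (z : ℍ) :
    v (aff p j z) = v (aff p j' z) := by
  obtain ⟨k, hk⟩ := (ZMod.intCast_eq_intCast_iff_dvd_sub j' j p).mp hjj.symm
  refine h.vadd_int k (aff p j' z) (aff p j z) ?_
  rw [coe_aff, coe_aff]
  have h1 : (j : ℂ) = j' + p * k := by
    have : j = j' + p * k := by linarith
    exact_mod_cast this
  have h2 := natCast_ne_zero' p
  rw [h1]
  field_simp
  ring

lemma IsRoot.trF_vadd_one (h : IsRoot p d v C) (c : ℂ) (z : ℍ) :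
    trF p v c ((1 : ℝ) +ᵥ z) = trF p v c z := by
  unfold trF
  rw [h.vadd_one]
  congr 2
  have e : ∀ a : ZMod p, (v (aff p (a.val : ℤ) ((1 : ℝ) +ᵥ z)))⁻¹
      = (v (aff p ((a + 1).val : ℤ) z))⁻¹ := by
    intro a
    congr 1
    have e1 : aff p (a.val : ℤ) ((1 : ℝ) +ᵥ z) = aff p ((a.val : ℤ) + 1) z := by
      apply UpperHalfPlane.ext
      rw [coe_aff, coe_aff, UpperHalfPlane.coe_vadd]
      push_cast
      ring
    rw [e1]
    apply h.aff_congr
    simp
  rw [Finset.sum_congr rfl (fun a _ => e a)]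
  exact Equiv.sum_comp (Equiv.addRight (1 : ZMod p)) (fun a => (v (aff p (a.val : ℤ) z))⁻¹)

lemma coe_S_smul (z : ℍ) : (((ModularGroup.S • z : ℍ)) : ℂ) = -1 / (z : ℂ) := by
  rw [modular_S_smul]
  show (-(z : ℂ))⁻¹ = -1 / (z : ℂ)
  rw [neg_div, one_div, inv_neg]

/-- `S T^j S ∈ Γ₀(p) · S T^{j'}` when `j j' ≡ -1 mod p`. -/
lemma IsRoot.frk_aff_S (h : IsRoot p d v C) (j j' : ℤ) (hj : j ≠ 0)
    (hjj : (p : ℤ) ∣ j * j' + 1) (z : ℍ) :
    v (frk p (aff p j (ModularGroup.S • z))) = v (frk p (aff p j' z)) := by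
  have hpC := natCast_ne_zero' p
  have hz := z.ne_zero
  refine h.inv_entries (-j') (-1) (j * j' + 1) j (by ring) hjj _ _ ?_
  rw [coe_frk, coe_frk, coe_aff, coe_aff, coe_S_smul]
  have hz1 : (z : ℂ) + (j' : ℂ) ≠ 0 := by
    intro h0
    have h1 := congrArg Complex.im h0
    rw [Complex.add_im, Complex.intCast_im, add_zero, Complex.zero_im] at h1
    exact z.im_ne_zero h1
  have hz2 : (j : ℂ) * z - 1 ≠ 0 := by
    intro h0
    have h1 := congrArg Complex.im h0
    rw [Complex.sub_im, Complex.mul_im, Complex.intCast_im, Complex.intCast_re, Complex.one_im,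
      zero_mul, add_zero, sub_zero, Complex.zero_im] at h1
    rcases mul_eq_zero.mp h1 with h2 | h2
    · exact hj (by exact_mod_cast h2)
    · exact z.im_ne_zero h2
  have e1 : (p : ℂ) * ((-1 / (z : ℂ) + j) / p) = ((j : ℂ) * z - 1) / z := by
    field_simp
    ring
  have e2 : (p : ℂ) * (((z : ℂ) + j') / p) = z + j' := by
    field_simp
  have e3 : ((j : ℂ) * j' + 1) * (-1 / ((z : ℂ) + j')) + j = ((j : ℂ) * z - 1) / (z + j') := by
    field_simp
    ring
  have e4 : (-(j' : ℂ)) * (-1 / ((z : ℂ) + j')) + (-1) = -(z : ℂ) / (z + j') := by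
    field_simp
    ring
  push_cast
  rw [e1, e2, e3, e4]
  field_simp

lemma IsRoot.trF_S_smul (h : IsRoot p d v C) {c : ℂ} (hc : ∀ z, v (frk p z) * v z = c)
    (z : ℍ) : trF p v c (ModularGroup.S • z) = trF p v c z := by
  have key : ∀ x : ℍ, c * (v x)⁻¹ = v (frk p x) := fun x => by
    rw [← hc x, mul_assoc, mul_inv_cancel₀ (h.ne_zero x), mul_one]
  have hpC := natCast_ne_zero' p
  have hz := z.ne_zero
  have hS := coe_S_smul z
  have h0 : frk p (aff p ((0 : ZMod p).val : ℤ) (ModularGroup.S • z)) = z := by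
    apply UpperHalfPlane.ext
    rw [coe_frk, coe_aff, hS, ZMod.val_zero]
    simp only [Nat.cast_zero, Int.cast_zero, add_zero]
    field_simp
  have h0' : frk p (aff p ((0 : ZMod p).val : ℤ) z) = ModularGroup.S • z := by
    apply UpperHalfPlane.ext
    rw [coe_frk, coe_aff, hS, ZMod.val_zero]
    simp only [Nat.cast_zero, Int.cast_zero, add_zero]
    field_simp
  have hne : ∀ a : ZMod p, a ≠ 0 → v (frk p (aff p (a.val : ℤ) (ModularGroup.S • z)))
      = v (frk p (aff p ((-a⁻¹).val : ℤ) z)) := by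
    intro a ha
    refine h.frk_aff_S _ _ ?_ ?_ z
    · have : a.val ≠ 0 := (ZMod.val_ne_zero a).mpr ha
      exact_mod_cast this
    · rw [← ZMod.intCast_zmod_eq_zero_iff_dvd]
      push_cast
      rw [ZMod.natCast_zmod_val, ZMod.natCast_zmod_val, mul_neg, mul_inv_cancel₀ ha]
      ring
  unfold trF
  rw [Finset.mul_sum, Finset.mul_sum]
  simp only [key]
  rw [← Finset.add_sum_erase Finset.univ _ (Finset.mem_univ (0 : ZMod p)),
    ← Finset.add_sum_erase Finset.univ (fun a : ZMod p => v (frk p (aff p (a.val : ℤ) z)))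
      (Finset.mem_univ (0 : ZMod p)), h0, h0']
  have hsum : ∑ x ∈ (Finset.univ : Finset (ZMod p)).erase 0,
        v (frk p (aff p (x.val : ℤ) (ModularGroup.S • z)))
      = ∑ x ∈ (Finset.univ : Finset (ZMod p)).erase 0, v (frk p (aff p (x.val : ℤ) z)) := by
    refine Finset.sum_nbij' (fun a => -a⁻¹) (fun a => -a⁻¹) ?_ ?_ ?_ ?_ ?_
    · intro a ha
      simp only [Finset.mem_erase, Finset.mem_univ, and_true] at ha ⊢
      simpa using ha
    · intro a ha
      simp only [Finset.mem_erase, Finset.mem_univ, and_true] at ha ⊢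
      simpa using ha
    · intro a _
      simp
    · intro a _
      simp
    · intro a ha
      exact hne a (by simpa using ha)
  rw [hsum]
  ring

lemma IsRoot.trF_smul (h : IsRoot p d v C) {c : ℂ} (hc : ∀ z, v (frk p z) * v z = c)
    (γ : SL(2, ℤ)) (z : ℍ) : trF p v c (γ • z) = trF p v c z := by
  have hγ : γ ∈ Subgroup.closure ({ModularGroup.S, ModularGroup.T} : Set SL(2, ℤ)) := by
    rw [SpecialLinearGroup.SL2Z_generators]
    exact Subgroup.mem_top γ
  revert z
  induction hγ using Subgroup.closure_induction with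
  | mem x hx =>
    intro z
    rcases hx with rfl | rfl
    · exact h.trF_S_smul hc z
    · rw [modular_T_smul]
      exact h.trF_vadd_one c z
  | one => intro z; rw [one_smul]
  | mul x y _ _ hx hy => intro z; rw [mul_smul, hx, hy]
  | inv x _ hx =>
    intro z
    have := hx (x⁻¹ • z)
    rw [smul_inv_smul] at this
    exact this.symm

end Trace

/-! ## The main theorem -/

section Main

variable {p : ℕ} [Fact p.Prime] {d : ℕ} {v : ℍ → ℂ} {C : ℂ}

theorem IsRoot.dvd_twelve (h : IsRoot p d v C) : d ∣ 12 := by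
  obtain ⟨c, hc, hcd⟩ := h.exists_fricke_const
  obtain ⟨m, a₀, β, hmd, ha₀, ha₀d, hcoeff, hneg, hβ⟩ := h.exists_expansion
  have hpr : p.Prime := Fact.out
  have hp : 0 < p := hpr.pos
  have hpR : (0 : ℝ) < (p : ℝ) := Nat.cast_pos.mpr hp
  have hpZ : (p : ℤ) ≠ 0 := by exact_mod_cast hp.ne'
  have hv1 := h.isHolCusp
  have hg1 := h.isMerCusp_inv
  have hLv : laurentFun 1 v = HahnSeries.ofPowerSeries ℤ ℂ (qExpansion 1 v) :=
    laurentFun_of_isHolCusp one_pos hv1
  -- memberships in `merCusp p`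
  have hvp : v ∈ merCusp p := by
    have := hv1.isMerCusp.mul_period one_pos (e := p) hp
    rwa [mul_one] at this
  have hga : ∀ j : ℤ, (v⁻¹ ∘ aff p j) ∈ merCusp p := fun j =>
    IsMerCusp.comp_affine (h₁ := 1) (h₂ := (p : ℝ)) (a := 1) (d := p) (e := 1) (b := j)
      one_pos hpR hg1 one_pos hp (fun τ => coe_aff' p j τ) (by simp)
  -- Laurent coefficients at multiples of `p`
  have hcv : ∀ k : ℤ, (laurent p ⟨v, hvp⟩).coeff ((p : ℤ) * k) = (laurentFun 1 v).coeff k := by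
    intro k
    have h1 := laurentFun_mul_period one_pos hv1.isMerCusp (e := p) hp ((p : ℤ) * k)
    rw [if_pos (dvd_mul_right _ _), Int.mul_ediv_cancel_left _ hpZ] at h1
    rw [laurent_apply, ← h1]
    simp only [mul_one]
  have hca : ∀ (j : ℤ) (k : ℤ), (laurent p ⟨v⁻¹ ∘ aff p j, hga j⟩).coeff ((p : ℤ) * k)
      = (laurentFun 1 v⁻¹).coeff ((p : ℤ) * k) := by
    intro j k
    have h1 := laurentFun_comp_affine (h₁ := 1) (h₂ := (p : ℝ)) (a := 1) (d := p) (e := 1)
      (b := j) one_pos hpR hg1 one_pos hp (fun τ => coe_aff' p j τ) (by simp) ((p : ℤ) * k)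
    rw [laurent_apply, h1]
    simp only [Nat.cast_one, one_dvd, if_true, Int.ediv_one, Complex.ofReal_one, mul_one]
    have hexp : Complex.exp (2 * π * I * j / p) ^ ((p : ℤ) * k) = 1 := by
      rw [← Complex.exp_int_mul, Complex.exp_eq_one_iff]
      refine ⟨j * k, ?_⟩
      have := natCast_ne_zero' p
      push_cast
      field_simp
    rw [hexp, one_mul]
  -- the trace as an element of `merCusp p`
  let X : merCusp p := ⟨v, hvp⟩ + ⟨fun _ => c, const_mem_merCusp p c⟩ *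
    ∑ a : ZMod p, ⟨v⁻¹ ∘ aff p (a.val : ℤ), hga _⟩
  have hX : (X : ℍ → ℂ) = trF p v c := by
    funext z
    simp only [X, Subring.coe_add, Subring.coe_mul, Pi.add_apply, Pi.mul_apply,
      AddSubmonoidClass.coe_finsetSum, Finset.sum_apply, Function.comp_apply, Pi.inv_apply, trF]
  have hXcoeff : ∀ k : ℤ, (laurent p X).coeff ((p : ℤ) * k) = (laurentFun 1 v).coeff k +
      c * ((p : ℂ) * (laurentFun 1 v⁻¹).coeff ((p : ℤ) * k)) := by
    intro k
    simp only [X, map_add, map_mul, map_sum, HahnSeries.coeff_add]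
    rw [laurent_const p c, HahnSeries.C_mul_eq_smul, HahnSeries.coeff_smul, HahnSeries.coeff_sum,
      smul_eq_mul, hcv]
    congr 2
    rw [Finset.sum_congr rfl (fun a _ => hca _ k), Finset.sum_const, Finset.card_univ, ZMod.card,
      nsmul_eq_mul]
  have hXnd : ∀ n : ℤ, ¬ (p : ℤ) ∣ n → (laurent p X).coeff n = 0 := by
    intro n hn
    exact laurent_coeff_eq_zero_of_not_dvd p X.2 (m := fun z => (1 : ℝ) +ᵥ z)
      (fun τ => by rw [UpperHalfPlane.coe_vadd]; push_cast; ring)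
      (by
        funext z
        simp only [Function.comp_apply]
        rw [hX]
        exact h.trF_vadd_one c z) hn
  have hmp : m < p := by
    have : m ≤ m * d := Nat.le_mul_of_pos_right m h.pos
    omega
  -- boundedness at `i∞`
  have hbdd : IsBoundedAtImInfty (trF p v c) := by
    rw [← hX]
    apply isBoundedAtImInfty_of_coeff_neg p X.2
    intro n hn
    by_cases hpn : (p : ℤ) ∣ n
    · obtain ⟨k, rfl⟩ := hpn
      have hk : k < 0 := by
        by_contra hk
        have h1 : (0 : ℤ) ≤ (p : ℤ) * k := mul_nonneg (by positivity) (not_lt.mp hk)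
        omega
      have h2 : (laurentFun 1 v).coeff k = 0 := by
        rw [hLv]
        exact ModularCurve.ofPowerSeries_coeff_of_neg _ hk
      have h3 : (laurentFun 1 v⁻¹).coeff ((p : ℤ) * k) = 0 := by
        apply hneg
        have h4 : (p : ℤ) * k ≤ (p : ℤ) * (-1) :=
          mul_le_mul_of_nonneg_left (by omega) (by positivity)
        have h5 : (m : ℤ) < p := by exact_mod_cast hmp
        omega
      show (laurent p X).coeff ((p : ℤ) * k) = 0
      rw [hXcoeff, h2, h3]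
      simp
    · exact hXnd n hpn
  -- the trace is constant
  obtain ⟨κ, hκ⟩ := Fermat.Agent.Lib.JSurjPoly.const_of_invariant_bdd (f := trF p v c)
    (by rw [← hX]; exact X.2.holo) (h.trF_smul hc) hbdd
  have hXκ : X = ⟨fun _ => κ, const_mem_merCusp p κ⟩ :=
    Subtype.ext (by rw [hX]; funext z; exact hκ z)
  have hm0 : 0 < m := by
    rcases Nat.eq_zero_or_pos m with h0 | h0
    · rw [h0] at hmd
      have := hpr.one_lt
      omega
    · exact h0
  have hcoef := hXcoeff (m : ℤ)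
  have hz : (laurent p X).coeff ((p : ℤ) * m) = 0 := by
    rw [hXκ, laurent_const]
    show (HahnSeries.single (0 : ℤ) κ).coeff ((p : ℤ) * m) = 0
    rw [HahnSeries.coeff_single_of_ne]
    have : (0 : ℤ) < (p : ℤ) * m := by positivity
    omega
  have hLvm : (laurentFun 1 v).coeff (m : ℤ) = a₀ := by
    rw [hLv, HahnSeries.ofPowerSeries_apply_coeff, hcoeff]
  have hLgm : (laurentFun 1 v⁻¹).coeff ((p : ℤ) * m) = a₀⁻¹ * (β (p * m + m) : ℂ) := by
    have h1 := hβ (p * m + m)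
    rw [show ((p * m + m : ℕ) : ℤ) - m = (p : ℤ) * m by push_cast; ring] at h1
    exact h1
  rw [hz, hLvm, hLgm] at hcoef
  -- arithmetic
  have e1 : a₀ ^ 2 = ((-((p : ℚ) * β (p * m + m)) : ℚ) : ℂ) * c := by
    have h1 : a₀ * (a₀ + c * ((p : ℂ) * (a₀⁻¹ * (β (p * m + m) : ℂ)))) = 0 := by
      rw [← hcoef, mul_zero]
    rw [mul_add, ← mul_assoc a₀ c, mul_comm a₀ c, mul_assoc c, ← mul_assoc a₀ (p : ℂ),
      mul_comm a₀ (p : ℂ), mul_assoc (p : ℂ), ← mul_assoc a₀ a₀⁻¹, mul_inv_cancel₀ ha₀,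
      one_mul] at h1
    push_cast
    linear_combination h1
  have hp12 : ((p : ℂ) ^ 12) ≠ 0 := pow_ne_zero _ (natCast_ne_zero' p)
  have e2 : (((-((p : ℚ) * β (p * m + m)) : ℚ) : ℂ)) ^ d = (((p : ℚ) ^ 12 : ℚ) : ℂ) := by
    have h1 : (a₀ ^ 2) ^ d = (((-((p : ℚ) * β (p * m + m)) : ℚ) : ℂ)) ^ d * c ^ d := by
      rw [e1, mul_pow]
    rw [hcd, ← ha₀d] at h1
    have h2 : (a₀ ^ d) ^ 2 ≠ 0 := pow_ne_zero _ (pow_ne_zero _ ha₀)
    have h3 : (a₀ ^ 2) ^ d = (a₀ ^ d) ^ 2 := by ring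
    rw [h3] at h1
    have h4 : (((-((p : ℚ) * β (p * m + m)) : ℚ) : ℂ)) ^ d * ((p : ℂ) ^ 12)⁻¹ = 1 := by
      apply mul_left_cancel₀ h2
      rw [mul_one]
      calc (a₀ ^ d) ^ 2 * ((((-((p : ℚ) * β (p * m + m)) : ℚ) : ℂ)) ^ d * ((p : ℂ) ^ 12)⁻¹)
          = (((-((p : ℚ) * β (p * m + m)) : ℚ) : ℂ)) ^ d * ((a₀ ^ d) ^ 2 * ((p : ℂ) ^ 12)⁻¹) := by
            ring
        _ = (a₀ ^ d) ^ 2 := h1.symm
    rw [(mul_inv_eq_one₀ hp12).mp h4]
    push_cast
    ring
  have e3 : (-((p : ℚ) * β (p * m + m))) ^ d = (p : ℚ) ^ 12 := by exact_mod_cast e2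
  have e4 := congrArg (padicValRat p) e3
  rw [padicValRat.pow, padicValRat.pow, padicValRat.self hpr.one_lt, mul_one] at e4
  have e5 : (d : ℤ) ∣ 12 := ⟨_, by rw [e4]; norm_num⟩
  exact_mod_cast e5

end Main

/-- **Roots of the modular unit `Δ(pz)/Δ(z)`.**  If a holomorphic `Γ₀(p)`-invariant function `v`
on the upper half plane satisfies `v^d = C · Δ(pz)/Δ(z)` (`d > 0`, `C ≠ 0`, `p` prime), then
`d ∣ 12`. -/
theorem dvd_twelve_of_root (p : ℕ) [Fact p.Prime] (d : ℕ) (hd : 0 < d) (v : ℍ → ℂ) (hv : MDiff v)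
    (hinv : ∀ γ : SL(2, ℤ), γ ∈ CongruenceSubgroup.Gamma0 p → ∀ z : ℍ, v (γ • z) = v z)
    (C : ℂ) (hC : C ≠ 0)
    (hpow : ∀ z : ℍ, v z ^ d = C * (deltaN p z / ModularForm.discriminant z)) : d ∣ 12 :=
  IsRoot.dvd_twelve (p := p) ⟨hd, hv, hinv, hC, hpow⟩

end Fermat.Agent.Lib.DeltaRoot
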