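/-
Route-independent COUNT step for torsion of Weierstrass curves:
if the multiplication-by-`n` map is given on abscissas by `x ↦ A(x) / B(x)` (pointwise, with
`B(x) = 0 ↔ n • P = 0`), `deg A = n²`, `deg B < n²`, no common root, nonzero Wronskian, then
over an algebraically closed field the `n`-torsion has exactly `n²` points.
-/
import Mathlib

set_option autoImplicit false

namespace Fermat.Agent.Lib.TorsionCount

open Polynomial WeierstrassCurve WeierstrassCurve.Affine

variable {K : Type*} [Field K]

/-- Over an algebraically closed field there is a point of the affine curve above every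
abscissa. -/
theorem exists_equation [IsAlgClosed K] (W : WeierstrassCurve.Affine K) (x : K) :
    ∃ y : K, W.Equation x y := by
  have hdeg : (C (1 : K) * X ^ 2 + C (W.a₁ * x + W.a₃) * X
      + C (-(x ^ 3 + W.a₂ * x ^ 2 + W.a₄ * x + W.a₆))).degree ≠ 0 := by
    rw [degree_quadratic one_ne_zero]; decide
  obtain ⟨y, hy⟩ := IsAlgClosed.exists_root _ hdeg
  refine ⟨y, ?_⟩
  rw [Affine.equation_iff]
  simp only [IsRoot.def, eval_add, eval_mul, eval_C, eval_pow, eval_X] at hy
  linear_combination hy

/-- The abscissa of a point (`0` for the point at infinity). -/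
def xOf {W : WeierstrassCurve.Affine K} : W.Point → K
  | .zero => 0
  | .some x _ _ => x

@[simp] theorem xOf_some {W : WeierstrassCurve.Affine K} (x y : K) (h : W.Nonsingular x y) :
    xOf (Point.some x y h) = x := rfl

/-- The number of roots of a polynomial without multiple roots over an algebraically closed
field is its degree. -/
theorem natCard_roots_eq_natDegree [IsAlgClosed K] (F : K[X]) (hF : F ≠ 0)
    (hsep : ∀ r : K, ¬ (F.eval r = 0 ∧ (derivative F).eval r = 0)) :
    Nat.card {x : K // F.eval x = 0} = F.natDegree := by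
  classical
  have hnodup : F.roots.Nodup := by
    rw [Multiset.nodup_iff_count_le_one]
    intro r
    rw [count_roots]
    by_contra hlt
    rw [not_le] at hlt
    exact hsep r ((one_lt_rootMultiplicity_iff_isRoot hF).mp hlt)
  have hcard : F.roots.card = F.natDegree := (IsAlgClosed.splits F).natDegree_eq_card_roots.symm
  have h1 : Nat.card {x : K // F.eval x = 0} = Nat.card {x : K // x ∈ F.roots.toFinset} := by
    apply Nat.card_congr
    apply Equiv.subtypeEquivRight
    intro x
    rw [Multiset.mem_toFinset, mem_roots hF, IsRoot.def]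
  rw [h1, Nat.card_eq_fintype_card, Fintype.card_coe, Multiset.toFinset_card_of_nodup hnodup, hcard]


section Main

variable (W : WeierstrassCurve.Affine K)

/-- Two affine points with the same abscissa are equal or opposite. -/
theorem eq_or_eq_neg_of_x_eq {x y y' : K} (h : W.Nonsingular x y) (h' : W.Nonsingular x y') :
    Point.some x y h = Point.some x y' h' ∨ Point.some x y h = -Point.some x y' h' := by
  rcases Y_eq_of_X_eq h.1 h'.1 rfl with hy | hy
  · left; subst hy; rfl
  · right; rw [Point.neg_some]; subst hy; rfl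

/-- A nonzero point with known abscissa is an affine point with this abscissa. -/
theorem exists_some_eq {P : W.Point} (hP : P ≠ 0) (x₀ : K) (hx : xOf P = x₀) :
    ∃ (y : K) (h : W.Nonsingular x₀ y), P = Point.some x₀ y h := by
  subst hx
  cases P with
  | zero => exact absurd rfl hP
  | some x y h => exact ⟨y, h, rfl⟩

/-- A nonzero point is an affine point. -/
theorem exists_some {P : W.Point} (hP : P ≠ 0) :
    ∃ (x y : K) (h : W.Nonsingular x y), P = Point.some x y h := by
  cases P with
  | zero => exact absurd rfl hP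
  | some x y h => exact ⟨x, y, h, rfl⟩

/-- On a `2`-torsion point the polynomial `4x³ + b₂x² + 2b₄x + b₆` vanishes. -/
theorem twoTorsion_poly_eval {x y : K} (h : W.Equation x y) (hy : y = W.negY x y) :
    (C 4 * X ^ 3 + C W.b₂ * X ^ 2 + C (2 * W.b₄) * X + C W.b₆ : K[X]).eval x = 0 := by
  rw [Affine.equation_iff] at h
  rw [Affine.negY] at hy
  simp only [eval_add, eval_mul, eval_C, eval_pow, eval_X, WeierstrassCurve.b₂,
    WeierstrassCurve.b₄, WeierstrassCurve.b₆]
  linear_combination (2 * y + W.a₁ * x + W.a₃) * hy - 4 * h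

/-- The polynomial `4x³ + b₂x² + 2b₄x + b₆` is nonzero when `Δ ≠ 0` (any characteristic). -/
theorem twoTorsion_poly_ne_zero (hΔ : W.Δ ≠ 0) :
    (C 4 * X ^ 3 + C W.b₂ * X ^ 2 + C (2 * W.b₄) * X + C W.b₆ : K[X]) ≠ 0 := by
  intro h
  have h3 := congrArg (fun p : K[X] => p.coeff 3) h
  have h2 := congrArg (fun p : K[X] => p.coeff 2) h
  have h0 := congrArg (fun p : K[X] => p.coeff 0) h
  simp [coeff_X, coeff_C, coeff_X_pow] at h3 h2 h0
  apply hΔ
  rw [WeierstrassCurve.Δ]
  linear_combination (-W.b₂ * W.b₈ + 9 * W.b₄ * W.b₆) * h2 - 2 * W.b₄ ^ 3 * h3 - 27 * W.b₆ * h0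

/-- **Count step.** If multiplication by `n` is given on abscissas by `x ↦ A(x)/B(x)` with
`deg A = n²`, `deg B < n²`, no common root and nonzero Wronskian, then `#E[n] = n²`. -/
theorem card_torsionBy_of_xMap [IsAlgClosed K] [DecidableEq K] (hΔ : W.Δ ≠ 0) (n : ℕ) (hn : 0 < n) (A B : K[X])
    (hA : A.natDegree = n ^ 2) (hB : B.natDegree < n ^ 2)
    (hWr : derivative A * B - A * derivative B ≠ 0)
    (hcop : ∀ x : K, ¬ (A.eval x = 0 ∧ B.eval x = 0))
    (h0 : ∀ (x y : K) (h : W.Nonsingular x y), n • Point.some x y h = 0 ↔ B.eval x = 0)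
    (hx : ∀ (x y : K) (h : W.Nonsingular x y) (x' y' : K) (h' : W.Nonsingular x' y'),
      n • Point.some x y h = Point.some x' y' h' → x' * B.eval x = A.eval x) :
    Nat.card (Submodule.torsionBy ℤ W.Point n) = n ^ 2 := by
  classical
  have hn2 : 0 < n ^ 2 := by positivity
  -- choice of a generic abscissa `x₀`
  have hψ0 := twoTorsion_poly_ne_zero W hΔ
  have hfin : ∀ p : K[X], p ≠ 0 → {x : K | p.eval x = 0}.Finite := fun p hp =>
    (p.roots.toFinset.finite_toSet).subset
      (fun x hx => Multiset.mem_toFinset.mpr ((mem_roots hp).mpr hx))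
  have hfin1 : {x : K | (C 4 * X ^ 3 + C W.b₂ * X ^ 2 + C (2 * W.b₄) * X + C W.b₆ : K[X]).eval x
      = 0}.Finite := hfin _ hψ0
  have hfin2 : ((fun r => A.eval r / B.eval r) ''
      {r : K | (derivative A * B - A * derivative B).eval r = 0}).Finite :=
    (hfin _ hWr).image _
  obtain ⟨x₀, hx₀⟩ := (hfin1.union hfin2).exists_notMem
  have hx₀1 : (C 4 * X ^ 3 + C W.b₂ * X ^ 2 + C (2 * W.b₄) * X + C W.b₆ : K[X]).eval x₀ ≠ 0 :=
    fun h => hx₀ (Or.inl h)
  have hx₀2 : ∀ r, (derivative A * B - A * derivative B).eval r = 0 →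
      A.eval r / B.eval r ≠ x₀ := fun r hr h => hx₀ (Or.inr ⟨r, hr, h⟩)
  -- the fibre polynomial
  have hFdeg : (A - C x₀ * B).natDegree = n ^ 2 := by
    rw [natDegree_sub_eq_left_of_natDegree_lt, hA]
    calc (C x₀ * B).natDegree ≤ B.natDegree := natDegree_C_mul_le _ _
      _ < A.natDegree := by rw [hA]; exact hB
  have hF0 : (A - C x₀ * B) ≠ 0 := by
    intro h
    rw [h, natDegree_zero] at hFdeg
    omega
  have hFev : ∀ r : K, (A - C x₀ * B).eval r = 0 → A.eval r = x₀ * B.eval r := by
    intro r h
    simpa [sub_eq_zero] using h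
  have hBne : ∀ r : K, (A - C x₀ * B).eval r = 0 → B.eval r ≠ 0 := by
    intro r h hB0
    exact hcop r ⟨by rw [hFev r h, hB0, mul_zero], hB0⟩
  have hFsep : ∀ r : K, ¬ ((A - C x₀ * B).eval r = 0 ∧ (derivative (A - C x₀ * B)).eval r = 0) := by
    rintro r ⟨h1, h2⟩
    have h1' := hFev r h1
    have h2' : (derivative A).eval r = x₀ * (derivative B).eval r := by
      simpa [sub_eq_zero] using h2
    have hBr := hBne r h1
    have hWr0 : (derivative A * B - A * derivative B).eval r = 0 := by
      simp only [eval_sub, eval_mul, h1', h2']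
      ring
    exact hx₀2 r hWr0 (by rw [h1']; field_simp)
  have hroots : Nat.card {x : K // (A - C x₀ * B).eval x = 0} = n ^ 2 := by
    rw [natCard_roots_eq_natDegree _ hF0 hFsep, hFdeg]
  have hne : Nonempty {x : K // (A - C x₀ * B).eval x = 0} := by
    by_contra hemp
    rw [not_nonempty_iff] at hemp
    rw [Nat.card_of_isEmpty] at hroots
    omega
  obtain ⟨⟨x₁, hx₁⟩⟩ := hne
  -- points above roots of the fibre polynomial are sent to abscissa `x₀`
  have key : ∀ (x y : K) (h : W.Nonsingular x y), (A - C x₀ * B).eval x = 0 →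
      ∃ (y₀ : K) (h₀ : W.Nonsingular x₀ y₀), n • Point.some x y h = Point.some x₀ y₀ h₀ := by
    intro x y h hFx
    have hAx := hFev x hFx
    have hBx := hBne x hFx
    have hnz : n • Point.some x y h ≠ 0 := fun h' => hBx ((h0 x y h).mp h')
    obtain ⟨y', h', hP'⟩ := exists_some_eq W hnz _ rfl
    have h3 := hx x y h _ y' h' hP'
    refine exists_some_eq W hnz x₀ ?_
    apply mul_right_cancel₀ hBx
    rw [h3, hAx]
  obtain ⟨y₁, hy₁⟩ := exists_equation W x₁
  have hns₁ : W.Nonsingular x₁ y₁ := (W.equation_iff_nonsingular_of_Δ_ne_zero hΔ).mp hy₁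
  obtain ⟨y₀, h₀, hQ⟩ := key x₁ y₁ hns₁ hx₁
  have hQne : Point.some x₀ y₀ h₀ ≠ -Point.some x₀ y₀ h₀ := by
    intro hQQ
    rw [Point.neg_some] at hQQ
    have hy : y₀ = W.negY x₀ y₀ := by injection hQQ
    exact hx₀1 (twoTorsion_poly_eval W h₀.1 hy)
  have hQ0 : Point.some x₀ y₀ h₀ ≠ 0 := Point.some_ne_zero h₀
  -- the fibre over `Q` is in bijection with the roots
  have hfib : Nat.card {P : W.Point // n • P = Point.some x₀ y₀ h₀}
      = Nat.card {x : K // (A - C x₀ * B).eval x = 0} := by
    have hzero : ∀ P : W.Point, n • P = Point.some x₀ y₀ h₀ → P ≠ 0 := by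
      rintro P hP rfl
      rw [smul_zero] at hP
      exact hQ0 hP.symm
    have hxroot : ∀ P : W.Point, n • P = Point.some x₀ y₀ h₀ →
        (A - C x₀ * B).eval (xOf P) = 0 := by
      intro P hP
      obtain ⟨x, y, h, rfl⟩ := exists_some W (hzero P hP)
      have h3 := hx x y h x₀ y₀ h₀ hP
      simp only [eval_sub, eval_mul, eval_C, xOf_some]
      linear_combination -h3
    apply Nat.card_eq_of_bijective (fun P => ⟨xOf P.1, hxroot P.1 P.2⟩)
    constructor
    · rintro ⟨P, hP⟩ ⟨P', hP'⟩ hxx
      simp only [Subtype.mk.injEq] at hxx ⊢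
      obtain ⟨x, y, h, rfl⟩ := exists_some W (hzero P hP)
      obtain ⟨x', y', h', rfl⟩ := exists_some W (hzero P' hP')
      simp only [xOf_some] at hxx
      subst hxx
      rcases eq_or_eq_neg_of_x_eq W h h' with h1 | h1
      · exact h1
      · exfalso
        apply hQne
        rw [← hP', ← smul_neg, ← h1, hP, hP']
    · rintro ⟨x, hFx⟩
      obtain ⟨y, hy⟩ := exists_equation W x
      have hns : W.Nonsingular x y := (W.equation_iff_nonsingular_of_Δ_ne_zero hΔ).mp hy
      obtain ⟨y₀', h₀', hP⟩ := key x y hns hFx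
      rcases eq_or_eq_neg_of_x_eq W h₀' h₀ with h1 | h1
      · exact ⟨⟨Point.some x y hns, hP.trans h1⟩, rfl⟩
      · refine ⟨⟨-Point.some x y hns, by rw [smul_neg, hP, h1, neg_neg]⟩, ?_⟩
        apply Subtype.ext
        show xOf (-Point.some x y hns) = x
        rw [Point.neg_some]
        rfl
  -- the torsion is in bijection with the fibre over `Q`
  have htors : Nat.card (Submodule.torsionBy ℤ W.Point n)
      = Nat.card {P : W.Point // n • P = Point.some x₀ y₀ h₀} := by
    apply Nat.card_congr
    exact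
      { toFun := fun T => ⟨Point.some x₁ y₁ hns₁ + T.1, by
          have hT := T.2
          rw [Submodule.mem_torsionBy_iff, natCast_zsmul] at hT
          rw [smul_add, hT, add_zero, hQ]⟩
        invFun := fun P => ⟨P.1 - Point.some x₁ y₁ hns₁, by
          rw [Submodule.mem_torsionBy_iff, natCast_zsmul, smul_sub, P.2, hQ, sub_self]⟩
        left_inv := fun T => by
          apply Subtype.ext
          simp
        right_inv := fun P => by
          apply Subtype.ext
          simp }
  rw [htors, hfib, hroots]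

/-- Variant of the count step: instead of the Wronskian it suffices that `A' ≠ 0`
(e.g. `A` monic of degree `n²` and `n ≠ 0` in `K`). -/
theorem card_torsionBy_of_xMap' [IsAlgClosed K] [DecidableEq K] (hΔ : W.Δ ≠ 0) (n : ℕ)
    (hn : 0 < n) (A B : K[X]) (hA : A.natDegree = n ^ 2) (hB : B.natDegree < n ^ 2)
    (hA' : derivative A ≠ 0)
    (hcop : ∀ x : K, ¬ (A.eval x = 0 ∧ B.eval x = 0))
    (h0 : ∀ (x y : K) (h : W.Nonsingular x y), n • Point.some x y h = 0 ↔ B.eval x = 0)
    (hx : ∀ (x y : K) (h : W.Nonsingular x y) (x' y' : K) (h' : W.Nonsingular x' y'),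
      n • Point.some x y h = Point.some x' y' h' → x' * B.eval x = A.eval x) :
    Nat.card (Submodule.torsionBy ℤ W.Point n) = n ^ 2 := by
  refine card_torsionBy_of_xMap W hΔ n hn A B hA hB ?_ hcop h0 hx
  have hc : IsCoprime A B := by
    rw [Polynomial.isCoprime_iff_aeval_ne_zero_of_isAlgClosed K K]
    intro a
    have := hcop a
    simp only [coe_aeval_eq_eval]
    tauto
  intro hW
  have hw : wronskian A B = 0 := by
    rw [wronskian]
    linear_combination -hW
  exact hA' (hc.wronskian_eq_zero_iff.mp hw).1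

/-- The count step in characteristic zero: no derivative hypothesis is needed. -/
theorem card_torsionBy_of_xMap_charZero [IsAlgClosed K] [CharZero K] [DecidableEq K]
    (hΔ : W.Δ ≠ 0) (n : ℕ)
    (hn : 0 < n) (A B : K[X]) (hA : A.natDegree = n ^ 2) (hB : B.natDegree < n ^ 2)
    (hcop : ∀ x : K, ¬ (A.eval x = 0 ∧ B.eval x = 0))
    (h0 : ∀ (x y : K) (h : W.Nonsingular x y), n • Point.some x y h = 0 ↔ B.eval x = 0)
    (hx : ∀ (x y : K) (h : W.Nonsingular x y) (x' y' : K) (h' : W.Nonsingular x' y'),
      n • Point.some x y h = Point.some x' y' h' → x' * B.eval x = A.eval x) :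
    Nat.card (Submodule.torsionBy ℤ W.Point n) = n ^ 2 := by
  refine card_torsionBy_of_xMap' W hΔ n hn A B hA hB ?_ hcop h0 hx
  intro hd
  have h1 := Polynomial.derivative_eq_zero.mp hd
  have hn2 : 0 < n ^ 2 := by positivity
  omega

end Main

section Corollaries

/-- A `ZMod p`-vector space with `p²` elements has dimension `2`. -/
theorem finrank_eq_two_of_natCard {p : ℕ} [Fact p.Prime] {M : Type*} [AddCommGroup M]
    [Module (ZMod p) M] (h : Nat.card M = p ^ 2) : Module.finrank (ZMod p) M = 2 := by
  have hp : p.Prime := Fact.out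
  have hfin : Finite M := Nat.finite_of_card_ne_zero (by rw [h]; exact pow_ne_zero _ hp.ne_zero)
  have h2 := Module.natCard_eq_pow_finrank (K := ZMod p) (V := M)
  rw [h, Nat.card_zmod] at h2
  exact (Nat.pow_right_injective hp.two_le h2).symm

/-- A group with `p²` elements (`p` prime) is nontrivial. -/
theorem nontrivial_of_natCard {p : ℕ} (hp : p.Prime) {M : Type*} (h : Nat.card M = p ^ 2) :
    Nontrivial M := by
  have hfin : Finite M := Nat.finite_of_card_ne_zero (by rw [h]; exact pow_ne_zero _ hp.ne_zero)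
  rw [← Finite.one_lt_card_iff_nontrivial, h]
  exact Nat.one_lt_pow (by norm_num) hp.one_lt

end Corollaries

end Fermat.Agent.Lib.TorsionCount
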