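import Mathlib
import Fermat.Prelude.Def_FLTPrelim_Modularity
import Fermat.Prelude.Def_FLTPrelim_ModularRep

open UpperHalfPlane ModularForm CongruenceSubgroup Matrix.SpecialLinearGroup
open scoped MatrixGroups Manifold

namespace Fermat.Agent.Lib.LevelZero

/-- the function `τ ↦ exp (2πiτ)` -/
noncomputable def qfun : ℍ → ℂ := fun τ => Function.Periodic.qParam 1 (τ : ℂ)

lemma mem_Gamma0_zero {γ : SL(2, ℤ)} : γ ∈ Gamma0 0 ↔ γ 1 0 = 0 := by
  rw [Gamma0_mem]
  simp

lemma qParam_add_int (z : ℂ) (n : ℤ) :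
    Function.Periodic.qParam 1 (z + n) = Function.Periodic.qParam 1 z := by
  unfold Function.Periodic.qParam
  have : 2 * (Real.pi : ℂ) * Complex.I * (z + n) / ((1 : ℝ) : ℂ)
      = 2 * (Real.pi : ℂ) * Complex.I * z / ((1 : ℝ) : ℂ) + n * (2 * Real.pi * Complex.I) := by
    push_cast; ring
  rw [this, Complex.exp_add, Complex.exp_int_mul_two_pi_mul_I, mul_one]

lemma qfun_slash (γ : SL(2, ℤ)) (hγ : γ ∈ Gamma0 0) : qfun ∣[(2:ℤ)] γ = qfun := by
  have h10 : γ 1 0 = 0 := mem_Gamma0_zero.mp hγ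
  have hdet : γ 0 0 * γ 1 1 = 1 := by
    have := γ.det_coe
    rw [Matrix.det_fin_two, h10] at this
    linarith
  ext τ
  rw [SL_slash_apply]
  have hden : denom (toGL ((map (Int.castRingHom ℝ)) γ)) (τ : ℂ) = (γ 1 1 : ℂ) := by
    simp [denom, h10]
  rw [hden]
  unfold qfun
  rw [coe_specialLinearGroup_apply]
  simp only [h10]
  rcases Int.eq_one_or_neg_one_of_mul_eq_one' hdet with ⟨h0, h1⟩ | ⟨h0, h1⟩
  · simp only [h0, h1]
    have := qParam_add_int (τ : ℂ) (γ 0 1)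
    simpa using this
  · simp only [h0, h1]
    have h3 := qParam_add_int (τ : ℂ) (-(γ 0 1))
    have h2 : (((-1 : ℤ) : ℂ)) ^ (-2 : ℤ) = 1 := by norm_num
    rw [h2, mul_one, ← h3]
    congr 1
    simp
    ring

lemma qfun_mdiff : MDiff qfun := by
  unfold qfun
  exact (Function.Periodic.differentiable_qParam (h := 1)).mdifferentiable.comp mdifferentiable_coe

lemma qfun_isZeroAtImInfty : IsZeroAtImInfty qfun :=
  qParam_tendsto_atImInfty one_pos

lemma isCusp_Gamma0_zero {c : OnePoint ℝ} (hc : IsCusp c (Gamma0 0 : Subgroup (GL (Fin 2) ℝ))) :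
    c = OnePoint.infty := by
  obtain ⟨g, ⟨γ, hγ, rfl⟩, hpar, hfix⟩ := hc
  rw [hpar.smul_eq_self_iff] at hfix
  rw [hfix]
  have h10 : γ 1 0 = 0 := mem_Gamma0_zero.mp hγ
  simp [Matrix.GeneralLinearGroup.parabolicFixedPoint, h10]

/-- The level-zero weight-two cusp form `q = exp (2πiτ)`. -/
noncomputable def f0 : CuspForm (Gamma0 0) 2 where
  toFun := qfun
  slash_action_eq' := by
    rintro g ⟨γ, hγ, rfl⟩
    exact qfun_slash γ hγ
  holo' := qfun_mdiff
  zero_at_cusps' := by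
    intro c hc
    rw [isCusp_Gamma0_zero hc]
    exact OnePoint.isZeroAt_infty_iff.mpr qfun_isZeroAtImInfty

lemma f0_apply (τ : ℍ) : f0 τ = Function.Periodic.qParam 1 (τ : ℂ) := rfl

lemma qCoeff_f0 (n : ℕ) : ModularFormClass.qCoeff f0 n = if n = 1 then 1 else 0 := by
  unfold ModularFormClass.qCoeff
  symm
  refine ModularFormClass.qExpansion_coeff_unique (Γ := (Gamma0 0 : Subgroup (GL (Fin 2) ℝ)))
    (k := 2) (c := fun n => if n = 1 then (1 : ℂ) else 0) one_pos ?_ (f := f0) ?_ n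
  · simp
  · intro τ
    have := hasSum_ite_eq (1 : ℕ) (Function.Periodic.qParam 1 (τ : ℂ))
    convert this using 2 with m
    · by_cases hm : m = 1
      · subst hm; simp
      · simp [hm]
    · rfl

lemma qCoeff_f0_one : ModularFormClass.qCoeff f0 1 = 1 := by
  rw [qCoeff_f0]; simp

lemma qCoeff_f0_of_ne_one {n : ℕ} (hn : n ≠ 1) : ModularFormClass.qCoeff f0 n = 0 := by
  rw [qCoeff_f0]; simp [hn]

theorem f0_isNormalizedEigenform : f0.IsNormalizedEigenform where
  qCoeff_one := qCoeff_f0_one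
  qCoeff_mul_of_coprime := by
    intro m n _
    by_cases hm : m = 1
    · subst hm; simp [qCoeff_f0_one]
    · by_cases hn : n = 1
      · subst hn; simp [qCoeff_f0_one]
      · have hmn : m * n ≠ 1 := by
          intro h
          exact hm (Nat.eq_one_of_mul_eq_one_right h)
        rw [qCoeff_f0_of_ne_one hmn, qCoeff_f0_of_ne_one hm, zero_mul]
  qCoeff_prime_pow_of_not_dvd := by
    intro p r _ hp
    exact absurd (dvd_zero p) hp
  qCoeff_prime_pow_of_dvd := by
    intro p r hp _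
    have h1 : p ^ (r + 2) ≠ 1 := by
      have := Nat.one_lt_pow (n := r + 2) (by omega) hp.one_lt
      omega
    rw [qCoeff_f0_of_ne_one h1, qCoeff_f0_of_ne_one hp.ne_one, zero_mul]

/-- Every integral Weierstrass model is "modular of level `0`". -/
theorem isModularModelOfLevel_zero (W : WeierstrassCurve ℤ) : W.IsModularModelOfLevel 0 :=
  ⟨f0, f0_isNormalizedEigenform, fun p _ _ hp => absurd (dvd_zero p) hp⟩

/-- Residual modularity of level `0` only needs a maximal ideal containing `p`. -/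
theorem isResiduallyModularOfLevel_zero_of_ideal (W : WeierstrassCurve ℤ) (p : ℕ)
    (𝔪 : Ideal (integralClosure ℤ ℂ)) (h𝔪 : 𝔪.IsMaximal)
    (hp : (p : integralClosure ℤ ℂ) ∈ 𝔪) : W.IsResiduallyModularOfLevel p 0 :=
  ⟨f0, 𝔪, f0_isNormalizedEigenform, h𝔪, hp, fun ℓ _ _ hℓ => absurd (dvd_zero ℓ) hℓ⟩

/-- Every integral Weierstrass model is residually modular of level `0` at every prime. -/
theorem isResiduallyModularOfLevel_zero (W : WeierstrassCurve ℤ) {p : ℕ} (hp : p.Prime) :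
    W.IsResiduallyModularOfLevel p 0 := by
  obtain ⟨𝔪, h𝔪, hp𝔪⟩ := FLTPrelim.exists_maximalIdeal_natCast_prime_mem hp
  exact isResiduallyModularOfLevel_zero_of_ideal W p 𝔪 h𝔪 hp𝔪

/-- A Frey package is "modular of level `0`" as soon as its Frey curve has an integral model. -/
theorem modularRepOfLevel_zero_of_model (P : FreyPackage) (W : WeierstrassCurve ℤ)
    (hW : W.IsIntegralModelOf P.freyCurve) : P.ModularRepOfLevel 0 := by
  obtain ⟨𝔪, h𝔪, hp𝔪⟩ := FLTPrelim.exists_maximalIdeal_natCast_prime_mem P.pp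
  exact ⟨f0, W, 𝔪, f0_isNormalizedEigenform, hW, h𝔪, hp𝔪,
    fun ℓ _ _ hℓ => absurd (dvd_zero ℓ) hℓ⟩


lemma four_dvd (P : FreyPackage) : (4 : ℤ) ∣ P.b ^ P.p - 1 - P.a ^ P.p := by
  have hp := P.hp5
  have hb : (2 : ℤ) ∣ P.b := (ZMod.intCast_zmod_eq_zero_iff_dvd P.b 2).1 P.hb2
  have hb4 : (4 : ℤ) ∣ P.b ^ P.p := by
    obtain ⟨k, hk⟩ := hb
    have : P.b ^ P.p = 4 * (2 ^ (P.p - 2) * k ^ P.p) := by
      rw [hk, mul_pow]
      have : (2 : ℤ) ^ P.p = 4 * 2 ^ (P.p - 2) := by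
        rw [show (4 : ℤ) = 2 ^ 2 by norm_num, ← pow_add]; congr 1; omega
      rw [this]; ring
    exact ⟨_, this⟩
  have ha : ((P.a ^ P.p : ℤ) : ZMod 4) = 3 := by
    push_cast
    rw [P.ha4]
    obtain ⟨k, hk⟩ := P.hp_odd
    rw [hk, pow_succ, pow_mul]
    have : (3 : ZMod 4) ^ 2 = 1 := by decide
    rw [this, one_pow, one_mul]
  have h1 : ((P.b ^ P.p - 1 - P.a ^ P.p : ℤ) : ZMod 4) = 0 := by
    have hb0 : ((P.b ^ P.p : ℤ) : ZMod 4) = 0 := (ZMod.intCast_zmod_eq_zero_iff_dvd _ 4).2 hb4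
    rw [Int.cast_sub, Int.cast_sub, hb0, ha]
    decide
  exact (ZMod.intCast_zmod_eq_zero_iff_dvd _ 4).1 h1

lemma sixteen_dvd (P : FreyPackage) : (16 : ℤ) ∣ -(P.a ^ P.p) * (P.b ^ P.p) := by
  have hp := P.hp5
  have hb : (2 : ℤ) ∣ P.b := (ZMod.intCast_zmod_eq_zero_iff_dvd P.b 2).1 P.hb2
  obtain ⟨k, hk⟩ := hb
  have : P.b ^ P.p = 16 * (2 ^ (P.p - 4) * k ^ P.p) := by
    rw [hk, mul_pow]
    have : (2 : ℤ) ^ P.p = 16 * 2 ^ (P.p - 4) := by
      rw [show (16 : ℤ) = 2 ^ 4 by norm_num, ← pow_add]; congr 1; omega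
    rw [this]; ring
  rw [this]
  exact ⟨-(P.a ^ P.p) * (2 ^ (P.p - 4) * k ^ P.p), by ring⟩

lemma freyCurveInt_map (P : FreyPackage) :
    P.freyCurveInt.map (Int.castRingHom ℚ) = P.freyCurve := by
  ext
  · simp [FreyPackage.freyCurveInt, FreyPackage.freyCurve]
  · simp only [FreyPackage.freyCurveInt, FreyPackage.freyCurve, WeierstrassCurve.map]
    have := Int.cast_div (α := ℚ) (four_dvd P) (by norm_num)
    simpa using this
  · simp [FreyPackage.freyCurveInt, FreyPackage.freyCurve]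
  · simp only [FreyPackage.freyCurveInt, FreyPackage.freyCurve, WeierstrassCurve.map]
    have := Int.cast_div (α := ℚ) (sixteen_dvd P) (by norm_num)
    simpa using this
  · simp [FreyPackage.freyCurveInt, FreyPackage.freyCurve]

lemma freyCurveInt_isIntegralModelOf (P : FreyPackage) :
    P.freyCurveInt.IsIntegralModelOf P.freyCurve :=
  ⟨1, by rw [one_smul, freyCurveInt_map]⟩


/-- Every Frey package is "modular of level `0`". -/
theorem modularRepOfLevel_zero (P : FreyPackage) : P.ModularRepOfLevel 0 :=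
  modularRepOfLevel_zero_of_model P P.freyCurveInt (freyCurveInt_isIntegralModelOf P)

end Fermat.Agent.Lib.LevelZero
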