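import Mathlib

set_option autoImplicit false

/-
# Echelon lattices and almost-integral Hahn series (S18, package G2)

* `coeff_mem_of_forall_mul_pow` (G2a): complete integral closedness of the coefficient ring
  passes to Hahn series: if `g * y ^ n` has coefficients in `A` for all `n` (`g ≠ 0`), then so
  does `y`.
* `coeff_mem_of_isIntegral`: consumer form for elements integral over `A((q))`.
* `exists_basis_echelon` (G2b): a finite-dimensional space of "series" all of whose nonzero
  elements have a primitive multiple admits a basis that is an `A`-basis of the lattice of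
  elements with `A`-coefficients and stays independent modulo the maximal ideal.
-/

namespace Fermat.Agent.Lib.EchelonLattice

open HahnSeries

section G2a

variable {K Γ : Type*} [Field K] [AddCommMonoid Γ] [LinearOrder Γ] [IsOrderedCancelAddMonoid Γ]

/-- The subring `A((q))` of Hahn series all of whose coefficients lie in the subring `A`. -/
def coeffSubring (A : Subring K) : Subring (HahnSeries Γ K) where
  carrier := {x | ∀ i, x.coeff i ∈ A}
  mul_mem' {x y} hx hy i := by
    rw [HahnSeries.coeff_mul]
    exact Subring.sum_mem _ fun ij _ => A.mul_mem (hx _) (hy _)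
  one_mem' i := by
    rw [HahnSeries.coeff_one]
    split_ifs
    · exact A.one_mem
    · exact A.zero_mem
  add_mem' {x y} hx hy i := by
    rw [HahnSeries.coeff_add]
    exact A.add_mem (hx i) (hy i)
  zero_mem' i := by
    rw [HahnSeries.coeff_zero]
    exact A.zero_mem
  neg_mem' {x} hx i := by
    rw [HahnSeries.coeff_neg]
    exact A.neg_mem (hx i)

lemma mem_coeffSubring {A : Subring K} {x : HahnSeries Γ K} :
    x ∈ coeffSubring (Γ := Γ) A ↔ ∀ i, x.coeff i ∈ A := Iff.rfl

lemma leadingCoeff_pow' (x : HahnSeries Γ K) (n : ℕ) :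
    (x ^ n).leadingCoeff = x.leadingCoeff ^ n := by
  induction n with
  | zero => simp
  | succ n ih => rw [pow_succ, leadingCoeff_mul, ih, pow_succ]

/-- (G2a) **Almost integrality.** If `A` is completely integrally closed in `K` (e.g. a rank-one
valuation ring) and `g * y ^ n` has coefficients in `A` for all `n`, for some `g ≠ 0`, then `y`
has coefficients in `A`. -/
theorem coeff_mem_of_forall_mul_pow (A : Subring K)
    (hA : ∀ x d : K, d ≠ 0 → (∀ n : ℕ, d * x ^ n ∈ A) → x ∈ A)
    (g y : HahnSeries Γ K) (hg : g ≠ 0)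
    (h : ∀ (n : ℕ) (i : Γ), (g * y ^ n).coeff i ∈ A) : ∀ i, y.coeff i ∈ A := by
  classical
  by_contra hcon
  set S : Set Γ := {i | y.coeff i ∉ A} with hS
  have hSne : S.Nonempty := not_forall.mp hcon
  have hSsub : S ⊆ y.support := by
    intro i hi
    rw [HahnSeries.mem_support]
    intro h0
    exact hi (h0 ▸ A.zero_mem)
  have hSwf : S.IsWF := y.isWF_support.mono hSsub
  set i₀ := hSwf.min hSne with hi₀
  have hi₀mem : y.coeff i₀ ∉ A := hSwf.min_mem hSne
  have hlt : ∀ i, i < i₀ → y.coeff i ∈ A := by
    intro i hi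
    by_contra hn
    exact hSwf.not_lt_min hSne hn hi
  -- the truncation
  set t := truncLT i₀ y with ht
  have htA : t ∈ coeffSubring (Γ := Γ) A := by
    intro i
    rw [ht, HahnSeries.coeff_truncLT]
    split_ifs with hi
    · exact hlt i hi
    · exact A.zero_mem
  set y' := y - t with hy'
  have hy'coeff : ∀ i, y'.coeff i = if i < i₀ then 0 else y.coeff i := by
    intro i
    rw [hy', HahnSeries.coeff_sub, ht, HahnSeries.coeff_truncLT]
    split_ifs <;> simp
  have ha0 : y.coeff i₀ ≠ 0 := fun h0 => hi₀mem (h0 ▸ A.zero_mem)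
  have hy'ne : y' ≠ 0 := by
    intro h0
    have := hy'coeff i₀
    rw [h0, if_neg (lt_irrefl _)] at this
    exact ha0 this.symm
  have hy'order : y'.order = i₀ := by
    apply le_antisymm
    · apply order_le_of_coeff_ne_zero
      rw [hy'coeff, if_neg (lt_irrefl _)]
      exact ha0
    · by_contra hlt'
      have hlt'' := not_le.mp hlt'
      have h1 : y'.coeff y'.order ≠ 0 := by
        rw [← leadingCoeff_eq]
        exact leadingCoeff_ne_zero.mpr hy'ne
      rw [hy'coeff, if_pos hlt''] at h1
      exact h1 rfl
  have hy'lead : y'.leadingCoeff = y.coeff i₀ := by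
    rw [leadingCoeff_eq, hy'order, hy'coeff, if_neg (lt_irrefl _)]
  -- `g * y' ^ n` has coefficients in `A`
  have hmem : ∀ n : ℕ, g * y' ^ n ∈ coeffSubring (Γ := Γ) A := by
    intro n
    have e : y' = y + (-t) := by rw [hy', sub_eq_add_neg]
    rw [e, (Commute.all y (-t)).add_pow, Finset.mul_sum]
    refine Subring.sum_mem _ fun m _ => ?_
    have e2 : g * (y ^ m * (-t) ^ (n - m) * (n.choose m : HahnSeries Γ K)) =
        (g * y ^ m) * ((-t) ^ (n - m) * (n.choose m : HahnSeries Γ K)) := by ring
    rw [e2]
    exact Subring.mul_mem _ (h m) (Subring.mul_mem _ (Subring.pow_mem _ (Subring.neg_mem _ htA) _)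
      (natCast_mem _ _))
  apply hi₀mem
  apply hA (y.coeff i₀) g.leadingCoeff (leadingCoeff_ne_zero.mpr hg)
  intro n
  have h1 := hmem n (g.order + (y' ^ n).order)
  rw [coeff_mul_order_add_order, leadingCoeff_pow', hy'lead] at h1
  exact h1

/-- (G2a'), consumer form: an element `y = f / g` (`f`, `g` with coefficients in `A`) which is
integral over `A((q))` has coefficients in `A`, when `A` is completely integrally closed. -/
theorem coeff_mem_of_isIntegral (A : Subring K)
    (hA : ∀ x d : K, d ≠ 0 → (∀ n : ℕ, d * x ^ n ∈ A) → x ∈ A)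
    (g y : HahnSeries Γ K) (hg : g ≠ 0) (hgA : g ∈ coeffSubring (Γ := Γ) A)
    (hgy : g * y ∈ coeffSubring (Γ := Γ) A)
    (hint : IsIntegral (coeffSubring (Γ := Γ) A) y) : ∀ i, y.coeff i ∈ A := by
  obtain ⟨p, hp, hpy⟩ := hint
  have hpy' : Polynomial.aeval y p = 0 := hpy
  have hp1 : p ≠ 1 := by
    rintro rfl
    rw [Polynomial.aeval_one] at hpy'
    exact one_ne_zero hpy'
  refine coeff_mem_of_forall_mul_pow A hA (g ^ p.natDegree) y (pow_ne_zero _ hg) ?_
  intro n
  have key : g ^ p.natDegree * y ^ n ∈ coeffSubring (Γ := Γ) A := by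
    have h1 : Polynomial.aeval y (Polynomial.X ^ n %ₘ p) = y ^ n := by
      rw [Polynomial.aeval_modByMonic_eq_self_of_root hpy']
      simp
    have hdeg : (Polynomial.X ^ n %ₘ p).natDegree < p.natDegree :=
      Polynomial.natDegree_modByMonic_lt _ hp hp1
    rw [← h1, Polynomial.aeval_eq_sum_range' hdeg, Finset.mul_sum]
    refine Subring.sum_mem _ fun i hi => ?_
    have hi' : i < p.natDegree := Finset.mem_range.mp hi
    have e : g ^ p.natDegree * ((Polynomial.X ^ n %ₘ p).coeff i • y ^ i) =
        (((Polynomial.X ^ n %ₘ p).coeff i : coeffSubring (Γ := Γ) A) : HahnSeries Γ K) *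
          (g ^ (p.natDegree - i) * (g * y) ^ i) := by
      rw [Subring.smul_def, smul_eq_mul, mul_pow, ← mul_assoc (g ^ (p.natDegree - i)),
        ← _root_.pow_add, Nat.sub_add_cancel hi'.le]
      ring
    rw [e]
    exact Subring.mul_mem _ (SetLike.coe_mem _)
      (Subring.mul_mem _ (Subring.pow_mem _ hgA _) (Subring.pow_mem _ hgy _))
  exact key

end G2a

section G2b

variable {K ι L : Type*} [Field K] (A : ValuationSubring K) [AddCommGroup L] [Module K L]
  (coeff : L →ₗ[K] (ι → K))

/-- The inductive core of the echelon-lattice lemma, for subspaces `W` of `L`. -/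
theorem exists_family_echelon [FiniteDimensional K L]
    (hprim : ∀ y : L, y ≠ 0 →
      ∃ c : K, (∀ n, c * coeff y n ∈ A) ∧ ∃ n, A.valuation (c * coeff y n) = 1)
    (W : Submodule K L) :
    ∃ (r : ℕ) (b : Fin r → L), (∀ i, b i ∈ W) ∧ LinearIndependent K b ∧
      (∀ i n, coeff (b i) n ∈ A) ∧
      (∀ y ∈ W, (∀ n, coeff y n ∈ A) → ∃ a : Fin r → K, (∀ i, a i ∈ A) ∧ y = ∑ i, a i • b i) ∧
      (∀ a : Fin r → K, (∀ i, a i ∈ A) →
        (∀ n, A.valuation (∑ i, a i * coeff (b i) n) < 1) → ∀ i, A.valuation (a i) < 1) := by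
  induction hd : Module.finrank K W using Nat.strong_induction_on generalizing W with
  | _ d ih =>
    by_cases hW : W = ⊥
    · subst hW
      refine ⟨0, Fin.elim0, fun i => i.elim0, linearIndependent_empty_type, fun i => i.elim0, ?_,
        fun a _ _ i => i.elim0⟩
      intro y hy _
      refine ⟨Fin.elim0, fun i => i.elim0, ?_⟩
      simpa using hy
    · -- pick a nonzero element and normalise it
      obtain ⟨y, hyW, hy0⟩ := W.exists_mem_ne_zero_of_ne_bot hW
      obtain ⟨c, hcA, n₀, hn₀⟩ := hprim y hy0
      set u := c * coeff y n₀ with hu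
      have hu0 : u ≠ 0 := by
        intro h0
        rw [h0, map_zero] at hn₀
        exact zero_ne_one hn₀
      have huinv : u⁻¹ ∈ A := by
        rw [← A.valuation_le_one_iff, map_inv₀, hn₀, inv_one]
      set x₁ : L := (u⁻¹ * c) • y with hx₁
      have hx₁W : x₁ ∈ W := W.smul_mem _ hyW
      have hx₁coeff : ∀ n, coeff x₁ n = u⁻¹ * (c * coeff y n) := by
        intro n
        rw [hx₁, map_smul, Pi.smul_apply, smul_eq_mul, mul_assoc]
      have hx₁A : ∀ n, coeff x₁ n ∈ A := fun n => by
        rw [hx₁coeff]
        exact A.mul_mem _ _ huinv (hcA n)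
      have hx₁one : coeff x₁ n₀ = 1 := by
        rw [hx₁coeff, ← hu, inv_mul_cancel₀ hu0]
      -- the functional `φ` and the smaller subspace
      set φ : L →ₗ[K] K := (LinearMap.proj n₀).comp coeff with hφ
      have hφx₁ : φ x₁ = 1 := hx₁one
      set W' : Submodule K L := W ⊓ LinearMap.ker φ with hW'
      have hlt : W' < W := by
        refine lt_of_le_of_ne inf_le_left fun h => ?_
        have : x₁ ∈ W' := h ▸ hx₁W
        have h2 : φ x₁ = 0 := this.2
        rw [hφx₁] at h2
        exact one_ne_zero h2
      have hfin : Module.finrank K W' < d := hd ▸ Submodule.finrank_lt_finrank_of_lt hlt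
      obtain ⟨r, b, hbW, hbli, hbA, hbrep, hbind⟩ := ih _ hfin W' rfl
      refine ⟨r + 1, Fin.cons x₁ b, ?_, ?_, ?_, ?_, ?_⟩
      · intro i
        refine Fin.cases ?_ (fun j => ?_) i
        · simpa using hx₁W
        · simpa using (hbW j).1
      · rw [linearIndependent_finCons]
        refine ⟨hbli, fun hmem => ?_⟩
        have hle : Submodule.span K (Set.range b) ≤ LinearMap.ker φ :=
          Submodule.span_le.2 (by rintro _ ⟨j, rfl⟩; exact (hbW j).2)
        have h2 : φ x₁ = 0 := hle hmem
        rw [hφx₁] at h2
        exact one_ne_zero h2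
      · intro i
        refine Fin.cases ?_ (fun j => ?_) i
        · simpa using hx₁A
        · simpa using hbA j
      · intro z hzW hzA
        set z' : L := z - coeff z n₀ • x₁ with hz'
        have hz'W : z' ∈ W' := by
          refine ⟨W.sub_mem hzW (W.smul_mem _ hx₁W), ?_⟩
          change φ z' = 0
          rw [hz', map_sub, map_smul, hφx₁]
          simp [hφ]
        have hz'A : ∀ n, coeff z' n ∈ A := by
          intro n
          rw [hz', map_sub, map_smul, Pi.sub_apply, Pi.smul_apply, smul_eq_mul]
          exact sub_mem (hzA n) (A.mul_mem _ _ (hzA n₀) (hx₁A n))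
        obtain ⟨a', ha'A, ha'⟩ := hbrep z' hz'W hz'A
        refine ⟨Fin.cons (coeff z n₀) a', ?_, ?_⟩
        · intro i
          refine Fin.cases ?_ (fun j => ?_) i
          · simpa using hzA n₀
          · simpa using ha'A j
        · rw [Fin.sum_univ_succ]
          simp only [Fin.cons_zero, Fin.cons_succ]
          rw [← ha', hz']
          abel
      · intro a haA hsum i
        have h0 : A.valuation (a 0) < 1 := by
          have h1 := hsum n₀
          rw [Fin.sum_univ_succ] at h1
          simp only [Fin.cons_zero, Fin.cons_succ] at h1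
          have h2 : ∀ j : Fin r, coeff (b j) n₀ = 0 := fun j => (hbW j).2
          simp only [h2, mul_zero, Finset.sum_const_zero, add_zero, hx₁one, mul_one] at h1
          exact h1
        refine Fin.cases h0 (fun j => ?_) i
        refine hbind (fun j => a j.succ) (fun j => haA _) (fun n => ?_) j
        have h1 := hsum n
        rw [Fin.sum_univ_succ] at h1
        simp only [Fin.cons_zero, Fin.cons_succ] at h1
        have h3 : A.valuation (a 0 * coeff x₁ n) < 1 := by
          rw [map_mul]
          calc A.valuation (a 0) * A.valuation (coeff x₁ n)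
              ≤ A.valuation (a 0) * 1 := by
                gcongr
                exact (A.valuation_le_one_iff _).2 (hx₁A n)
            _ = A.valuation (a 0) := mul_one _
            _ < 1 := h0
        have h4 : ∑ j : Fin r, a j.succ * coeff (b j) n =
            (a 0 * coeff x₁ n + ∑ j : Fin r, a j.succ * coeff (b j) n) - a 0 * coeff x₁ n := by
          ring
        rw [h4]
        exact lt_of_le_of_lt (A.valuation.map_sub _ _) (max_lt h1 h3)

/-- (G2b) **Echelon lattices.** Let `L` be a finite-dimensional `K`-vector space with a family of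
coefficient functionals `coeff : L →ₗ[K] (ι → K)` such that every nonzero `y` has a primitive
multiple with respect to the valuation subring `A`.  Then `L` has a `K`-basis `b` which is an
`A`-basis of the lattice `{y | ∀ n, coeff y n ∈ A}` and whose reductions modulo the maximal ideal
are linearly independent. -/
theorem exists_basis_echelon [FiniteDimensional K L]
    (hprim : ∀ y : L, y ≠ 0 →
      ∃ c : K, (∀ n, c * coeff y n ∈ A) ∧ ∃ n, A.valuation (c * coeff y n) = 1) :
    ∃ b : Module.Basis (Fin (Module.finrank K L)) K L,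
      (∀ i n, coeff (b i) n ∈ A) ∧
      (∀ y : L, (∀ n, coeff y n ∈ A) → ∀ i, b.repr y i ∈ A) ∧
      (∀ a : Fin (Module.finrank K L) → K, (∀ i, a i ∈ A) →
        (∀ n, A.valuation (∑ i, a i * coeff (b i) n) < 1) → ∀ i, A.valuation (a i) < 1) := by
  obtain ⟨r, b, -, hbli, hbA, hbrep, hbind⟩ := exists_family_echelon A coeff hprim ⊤
  have hsp : ⊤ ≤ Submodule.span K (Set.range b) := by
    intro y _
    by_cases hy0 : y = 0
    · rw [hy0]
      exact Submodule.zero_mem _
    · obtain ⟨c, hcA, n₀, hn₀⟩ := hprim y hy0
      have hc0 : c ≠ 0 := by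
        intro h0
        rw [h0, zero_mul, map_zero] at hn₀
        exact zero_ne_one hn₀
      obtain ⟨a, -, ha⟩ := hbrep (c • y) Submodule.mem_top (fun n => by
        rw [map_smul, Pi.smul_apply, smul_eq_mul]
        exact hcA n)
      have hy : y = c⁻¹ • ∑ i, a i • b i := by
        rw [← ha, smul_smul, inv_mul_cancel₀ hc0, one_smul]
      rw [hy]
      exact Submodule.smul_mem _ _ (Submodule.sum_mem _ fun i _ =>
        Submodule.smul_mem _ _ (Submodule.subset_span ⟨i, rfl⟩))
  set B : Module.Basis (Fin r) K L := Module.Basis.mk hbli hsp with hB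
  have hBapp : ∀ i, B i = b i := fun i => by rw [hB, Module.Basis.mk_apply]
  have hr : Module.finrank K L = r := by
    rw [Module.finrank_eq_card_basis B, Fintype.card_fin]
  subst hr
  refine ⟨B, fun i n => by rw [hBapp]; exact hbA i n, ?_, ?_⟩
  · intro y hy i
    obtain ⟨a, haA, ha⟩ := hbrep y Submodule.mem_top hy
    have h1 : B.repr y = B.repr (∑ i, a i • B i) := by
      rw [ha]
      simp only [hBapp]
    rw [h1, Module.Basis.repr_sum_self]
    exact haA i
  · intro a haA hsum i
    refine hbind a haA (fun n => ?_) i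
    have := hsum n
    simpa only [hBapp] using this

end G2b

end Fermat.Agent.Lib.EchelonLattice
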