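import Mathlib
import Fermat.Prelude.Thm_Subgroup_IsArithmetic_exists_nat_mem_strictPeriods_conj

set_option autoImplicit false

namespace Fermat.Agent.Lib.EichlerInj

open Complex Filter Topology
open UpperHalfPlane hiding I
open scoped MatrixGroups ModularForm Real Manifold

local notation "I∞" => comap Complex.im atTop
local notation "𝕢" => Function.Periodic.qParam


theorem qParam_periodic (h : ℝ) (hh : h ≠ 0) : Function.Periodic (𝕢 h) h := by
  intro z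
  simp only [Function.Periodic.qParam]
  have hh' : (h : ℂ) ≠ 0 := by exact_mod_cast hh
  have : 2 * (π : ℂ) * I * (z + h) / h = 2 * π * I * z / h + 2 * π * I := by
    field_simp
  rw [this, Complex.exp_add, Complex.exp_two_pi_mul_I, mul_one]

theorem tendsto_poly_mul_exp (C : ℝ) (m : ℕ) (c : ℝ) (hc : 0 < c) :
    Tendsto (fun y : ℝ => C * (1 + y) ^ m * Real.exp (-(c * y))) atTop (𝓝 0) := by
  have h1 : Tendsto (fun y : ℝ => c * (1 + y)) atTop atTop :=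
    Tendsto.const_mul_atTop hc (tendsto_atTop_add_const_left _ 1 tendsto_id)
  have h2 := (Real.tendsto_pow_mul_exp_neg_atTop_nhds_zero m).comp h1
  have h3 : Tendsto (fun y : ℝ => (C * c⁻¹ ^ m * Real.exp c) *
      ((c * (1 + y)) ^ m * Real.exp (-(c * (1 + y))))) atTop (𝓝 0) := by
    simpa using h2.const_mul (C * c⁻¹ ^ m * Real.exp c)
  refine h3.congr (fun y => ?_)
  have hc' : c ≠ 0 := hc.ne'
  have e1 : c⁻¹ ^ m * c ^ m = 1 := by
    rw [inv_pow, inv_mul_cancel₀ (pow_ne_zero m hc')]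
  have e2 : Real.exp c * Real.exp (-c) = 1 := by
    rw [← Real.exp_add, add_neg_cancel, Real.exp_zero]
  rw [mul_pow, show -(c * (1 + y)) = -c + -(c * y) by ring, Real.exp_add]
  linear_combination (C * (1 + y) ^ m * Real.exp (-(c * y)) * Real.exp c * Real.exp (-c)) * e1
    + (C * (1 + y) ^ m * Real.exp (-(c * y))) * e2

/-- A holomorphic periodic function on the upper half-plane of polynomial growth in `im τ`
is bounded at `i∞`. -/
theorem isBoundedAtImInfty_of_periodic_of_polyGrowth (H : ℍ → ℂ) (hH : MDiff H)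
    (h : ℝ) (hh : 0 < h) (hper : Function.Periodic (H ∘ ofComplex) h)
    (C : ℝ) (m : ℕ) (A : ℝ)
    (hbd : ∀ τ : ℍ, A ≤ τ.im → |τ.re| ≤ h → ‖H τ‖ ≤ C * (1 + τ.im) ^ m) :
    IsBoundedAtImInfty H := by
  set F : ℂ → ℂ := H ∘ ofComplex with hF
  set g : ℂ → ℂ := fun z => F z * 𝕢 h z with hg
  have hgper : Function.Periodic g h := by
    intro z
    simp only [hg]
    rw [hper z, qParam_periodic h hh.ne' z]
  have hghol : ∀ᶠ z in I∞, DifferentiableAt ℂ g z := by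
    have : ∀ᶠ z in I∞, 0 < z.im := by
      exact (tendsto_comap.eventually (eventually_gt_atTop (0 : ℝ)))
    filter_upwards [this] with z hz
    have h1 : DifferentiableAt ℂ F z := by
      have := UpperHalfPlane.mdifferentiableAt_iff.mp (hH ⟨z, hz⟩)
      simpa using this
    exact h1.mul (Function.Periodic.differentiable_qParam.differentiableAt)
  have hgzero : ZeroAtFilter I∞ g := by
    have hb := (tendsto_poly_mul_exp C m (2 * π / h) (by positivity)).comp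
      (tendsto_comap (f := Complex.im) (x := atTop))
    refine squeeze_zero_norm' ?_ hb
    have : ∀ᶠ z in I∞, max A 1 ≤ z.im := tendsto_comap.eventually (eventually_ge_atTop _)
    filter_upwards [this] with z hz
    have hz0 : 0 < z.im := lt_of_lt_of_le one_pos ((le_max_right _ _).trans hz)
    simp only [hg, norm_mul, Function.Periodic.norm_qParam]
    set k : ℤ := ⌊z.re / h⌋ with hk
    have hk1 : (k : ℝ) * h ≤ z.re := by
      have := Int.floor_le (z.re / h)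
      rwa [le_div_iff₀ hh] at this
    have hk2 : z.re < ((k : ℝ) + 1) * h := by
      have := Int.lt_floor_add_one (z.re / h)
      rwa [div_lt_iff₀ hh] at this
    have hper' : F (z - k * h) = F z := (hper.int_mul k).sub_eq z
    have hz' : 0 < (z - k * h).im := by simpa using hz0
    have hFz : F z = H ⟨z - k * h, hz'⟩ := by
      rw [← hper', hF, Function.comp_apply, ofComplex_apply_of_im_pos hz']
    rw [hFz]
    have him : (⟨z - k * h, hz'⟩ : ℍ).im = z.im := by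
      change (z - k * h).im = z.im
      simp
    have hre : |(⟨z - k * h, hz'⟩ : ℍ).re| ≤ h := by
      change |(z - k * h).re| ≤ h
      have e1 : (z - k * h).re = z.re - k * h := by simp
      rw [e1, abs_le]
      constructor <;> nlinarith
    have := hbd ⟨z - k * h, hz'⟩ (by rw [him]; exact (le_max_left _ _).trans hz) hre
    rw [him] at this
    have e : Real.exp (-2 * π * z.im / h) = Real.exp (-(2 * π / h * z.im)) := by
      congr 1; ring
    rw [e]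
    exact mul_le_mul_of_nonneg_right this (Real.exp_nonneg _)
  set G := Function.Periodic.cuspFunction h g with hG
  have hGdiff : DifferentiableAt ℂ G 0 :=
    Function.Periodic.differentiableAt_cuspFunction_zero hh hgper hghol hgzero.boundedAtFilter
  have hG0 : G 0 = 0 := Function.Periodic.cuspFunction_zero_of_zero_at_inf hh hgzero
  have hcont : ContinuousAt (dslope G 0) 0 := continuousAt_dslope_same.mpr hGdiff
  have hEq : ∀ τ : ℍ, H τ = dslope G 0 (𝕢 h τ) := by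
    intro τ
    have hq : 𝕢 h (τ : ℂ) ≠ 0 := Function.Periodic.qParam_ne_zero _
    rw [dslope_of_ne _ hq, slope_def_field, hG0, sub_zero, sub_zero]
    have h1 : G (𝕢 h τ) = g τ := Function.Periodic.eq_cuspFunction hh.ne' hgper τ
    rw [h1]
    simp only [hg, hF, Function.comp_apply, ofComplex_apply]
    field_simp
  have ht : Tendsto H atImInfty (𝓝 (dslope G 0 0)) := by
    have := hcont.tendsto.comp (qParam_tendsto_atImInfty hh)
    refine this.congr (fun τ => ?_)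
    simp [hEq τ]
  exact ht.isBigO_one ℝ



/-- The Eichler-type combination `∑ C(n,j) (-τ)^(n-j) K_j(τ)`. -/
noncomputable def eichlerG (n : ℕ) (K : ℕ → ℍ → ℂ) (τ : ℍ) : ℂ :=
  ∑ j ∈ Finset.range (n + 1), (n.choose j : ℂ) * (-(τ : ℂ)) ^ (n - j) * K j τ

theorem eichlerG_comp_ofComplex_eventuallyEq (n : ℕ) (K : ℕ → ℍ → ℂ) (τ : ℍ) :
    (eichlerG n K ∘ ofComplex) =ᶠ[𝓝 (τ : ℂ)] fun z =>
      ∑ j ∈ Finset.range (n + 1), (n.choose j : ℂ) * (-z) ^ (n - j) * (K j ∘ ofComplex) z := by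
  have : ∀ᶠ z in 𝓝 (τ : ℂ), 0 < z.im :=
    (isOpen_upperHalfPlaneSet.mem_nhds τ.im_pos)
  filter_upwards [this] with z hz
  simp only [Function.comp_apply, eichlerG]
  rw [ofComplex_apply_of_im_pos hz]

theorem hasDerivAt_eichlerG_zero (f : ℍ → ℂ) (K : ℕ → ℍ → ℂ)
    (hK : ∀ τ : ℍ, HasDerivAt (K 0 ∘ ofComplex) (f τ) τ) (τ : ℍ) :
    HasDerivAt (eichlerG 0 K ∘ ofComplex) (f τ) τ := by
  have : eichlerG 0 K = K 0 := by
    funext σ
    simp [eichlerG]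
  rw [this]
  exact hK τ

theorem hasDerivAt_eichlerG_succ (m : ℕ) (f : ℍ → ℂ) (K : ℕ → ℍ → ℂ)
    (hK : ∀ j ≤ m + 1, ∀ τ : ℍ, HasDerivAt (K j ∘ ofComplex) ((τ : ℂ) ^ j * f τ) τ) (τ : ℍ) :
    HasDerivAt (eichlerG (m + 1) K ∘ ofComplex) (-((m : ℂ) + 1) * eichlerG m K τ) τ := by
  have hterm : ∀ j ∈ Finset.range (m + 1 + 1),
      HasDerivAt (fun z : ℂ => ((m + 1).choose j : ℂ) * (-z) ^ (m + 1 - j) * (K j ∘ ofComplex) z)
        (((m + 1).choose j : ℂ) * ((((m + 1 - j : ℕ) : ℂ) * (-(τ : ℂ)) ^ (m + 1 - j - 1) * (-1)) *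
            K j τ + (-(τ : ℂ)) ^ (m + 1 - j) * ((τ : ℂ) ^ j * f τ))) τ := by
    intro j hj
    have hj' : j ≤ m + 1 := by
      have := Finset.mem_range.mp hj; omega
    have h1 : HasDerivAt (fun z : ℂ => (-z) ^ (m + 1 - j))
        (((m + 1 - j : ℕ) : ℂ) * (-(τ : ℂ)) ^ (m + 1 - j - 1) * (-1)) τ :=
      ((hasDerivAt_id (τ : ℂ)).neg).pow (m + 1 - j)
    have h2 := h1.mul (hK j hj' τ)
    have h3 := h2.const_mul ((m + 1).choose j : ℂ)
    have e : (K j ∘ ofComplex) (τ : ℂ) = K j τ := by simp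
    rw [e] at h3
    refine h3.congr_of_eventuallyEq (Eventually.of_forall fun z => ?_)
    simp only [Pi.mul_apply]
    ring
  have hsum := HasDerivAt.fun_sum hterm
  refine (hsum.congr_of_eventuallyEq (eichlerG_comp_ofComplex_eventuallyEq (m + 1) K τ)).congr_deriv ?_
  -- identify the derivative
  have hbin : ∑ j ∈ Finset.range (m + 1 + 1), ((m + 1).choose j : ℂ) *
      ((-(τ : ℂ)) ^ (m + 1 - j) * ((τ : ℂ) ^ j * f τ)) = 0 := by
    have h := add_pow (τ : ℂ) (-(τ : ℂ)) (m + 1)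
    rw [add_neg_cancel, zero_pow (Nat.succ_ne_zero m)] at h
    calc _ = f τ * ∑ j ∈ Finset.range (m + 1 + 1),
          (τ : ℂ) ^ j * (-(τ : ℂ)) ^ (m + 1 - j) * ((m + 1).choose j : ℂ) := by
          rw [Finset.mul_sum]
          refine Finset.sum_congr rfl fun j _ => ?_
          ring
      _ = 0 := by rw [← h, mul_zero]
  have hfirst : ∑ j ∈ Finset.range (m + 1 + 1), ((m + 1).choose j : ℂ) *
      ((((m + 1 - j : ℕ) : ℂ) * (-(τ : ℂ)) ^ (m + 1 - j - 1) * (-1)) * K j τ) =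
      -((m : ℂ) + 1) * eichlerG m K τ := by
    rw [Finset.sum_range_succ]
    have : ((m + 1 - (m + 1) : ℕ) : ℂ) = 0 := by simp
    rw [this]
    simp only [zero_mul, mul_zero, add_zero]
    rw [eichlerG, Finset.mul_sum]
    refine Finset.sum_congr rfl fun j hj => ?_
    have hj' : j ≤ m := by
      have := Finset.mem_range.mp hj; omega
    have hch : ((m + 1).choose j : ℂ) * ((m + 1 - j : ℕ) : ℂ) = ((m : ℂ) + 1) * (m.choose j : ℂ) := by
      have := Nat.choose_mul_succ_eq m j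
      have h' : ((m.choose j * (m + 1) : ℕ) : ℂ) = (((m + 1).choose j * (m + 1 - j) : ℕ) : ℂ) := by
        rw [this]
      push_cast at h'
      linear_combination -h'
    have he : m + 1 - j - 1 = m - j := by omega
    rw [he]
    linear_combination (-(-(τ : ℂ)) ^ (m - j) * K j τ) * hch
  calc _ = ∑ j ∈ Finset.range (m + 1 + 1), ((m + 1).choose j : ℂ) *
        ((((m + 1 - j : ℕ) : ℂ) * (-(τ : ℂ)) ^ (m + 1 - j - 1) * (-1)) * K j τ) +
      ∑ j ∈ Finset.range (m + 1 + 1), ((m + 1).choose j : ℂ) *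
        ((-(τ : ℂ)) ^ (m + 1 - j) * ((τ : ℂ) ^ j * f τ)) := by
        rw [← Finset.sum_add_distrib]
        refine Finset.sum_congr rfl fun j _ => ?_
        ring
    _ = _ := by rw [hfirst, hbin, add_zero]

theorem eq_zero_of_eichlerG_const (n : ℕ) (f : ℍ → ℂ) (K : ℕ → ℍ → ℂ)
    (hK : ∀ j ≤ n, ∀ τ : ℍ, HasDerivAt (K j ∘ ofComplex) ((τ : ℂ) ^ j * f τ) τ)
    (c : ℂ) (hc : ∀ τ, eichlerG n K τ = c) : ∀ τ, f τ = 0 := by
  induction n generalizing c with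
  | zero =>
    intro τ
    have h1 : HasDerivAt (eichlerG 0 K ∘ ofComplex) (f τ) τ :=
      hasDerivAt_eichlerG_zero f K (fun σ => by simpa using hK 0 le_rfl σ) τ
    have h2 : (eichlerG 0 K ∘ ofComplex) = fun _ => c := by
      funext z; simp [hc]
    rw [h2] at h1
    exact h1.unique (hasDerivAt_const _ _)
  | succ m ih =>
    have hz : ∀ τ, eichlerG m K τ = 0 := by
      intro τ
      have h1 := hasDerivAt_eichlerG_succ m f K hK τ
      have h2 : (eichlerG (m + 1) K ∘ ofComplex) = fun _ => c := by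
        funext z; simp [hc]
      rw [h2] at h1
      have h3 := h1.unique (hasDerivAt_const _ _)
      have hm : -((m : ℂ) + 1) ≠ 0 := by
        rw [neg_ne_zero]
        exact_mod_cast Nat.succ_ne_zero m
      exact (mul_eq_zero.mp h3).resolve_left hm
    exact ih (fun j hj => hK j (by omega)) 0 hz

theorem mdifferentiable_eichlerG (n : ℕ) (f : ℍ → ℂ) (K : ℕ → ℍ → ℂ)
    (hK : ∀ j ≤ n, ∀ τ : ℍ, HasDerivAt (K j ∘ ofComplex) ((τ : ℂ) ^ j * f τ) τ) :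
    MDiff (eichlerG n K) := by
  rw [UpperHalfPlane.mdifferentiable_iff]
  intro z hz
  have hz' : 0 < z.im := hz
  cases n with
  | zero =>
    exact (hasDerivAt_eichlerG_zero f K (fun σ => by simpa using hK 0 le_rfl σ)
      ⟨z, hz'⟩).differentiableAt.differentiableWithinAt
  | succ m =>
    exact (hasDerivAt_eichlerG_succ m f K hK ⟨z, hz'⟩).differentiableAt.differentiableWithinAt



noncomputable def numC (δ : SL(2, ℤ)) (z : ℂ) : ℂ := ((δ 0 0 : ℤ) : ℂ) * z + ((δ 0 1 : ℤ) : ℂ)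
noncomputable def denC (δ : SL(2, ℤ)) (z : ℂ) : ℂ := ((δ 1 0 : ℤ) : ℂ) * z + ((δ 1 1 : ℤ) : ℂ)

theorem coe_smul_eq (δ : SL(2, ℤ)) (τ : ℍ) : ((δ • τ : ℍ) : ℂ) = numC δ τ / denC δ τ := by
  rw [UpperHalfPlane.coe_specialLinearGroup_apply]
  simp [numC, denC]

theorem denom_eq (δ : SL(2, ℤ)) (τ : ℍ) : denom δ τ = denC δ τ := by
  simp [denC, UpperHalfPlane.denom]

theorem denC_ne_zero (δ : SL(2, ℤ)) (τ : ℍ) : denC δ τ ≠ 0 := by
  rw [← denom_eq]
  exact UpperHalfPlane.denom_ne_zero _ τ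

theorem det_eq_one (δ : SL(2, ℤ)) :
    ((δ 0 0 : ℤ) : ℂ) * ((δ 1 1 : ℤ) : ℂ) - ((δ 0 1 : ℤ) : ℂ) * ((δ 1 0 : ℤ) : ℂ) = 1 := by
  have h := δ.det_coe
  rw [Matrix.det_fin_two] at h
  exact_mod_cast h

theorem hasDerivAt_moeb (δ : SL(2, ℤ)) (τ : ℍ) :
    HasDerivAt (fun z : ℂ => numC δ z / denC δ z) (1 / denC δ τ ^ 2) τ := by
  have h1 : HasDerivAt (fun z : ℂ => numC δ z) ((δ 0 0 : ℤ) : ℂ) τ := by
    simpa [numC] using ((hasDerivAt_id (τ : ℂ)).const_mul ((δ 0 0 : ℤ) : ℂ)).add_const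
      ((δ 0 1 : ℤ) : ℂ)
  have h2 : HasDerivAt (fun z : ℂ => denC δ z) ((δ 1 0 : ℤ) : ℂ) τ := by
    simpa [denC] using ((hasDerivAt_id (τ : ℂ)).const_mul ((δ 1 0 : ℤ) : ℂ)).add_const
      ((δ 1 1 : ℤ) : ℂ)
  have h3 := h1.div h2 (denC_ne_zero δ τ)
  refine h3.congr_deriv ?_
  have hd := det_eq_one δ
  have hne := denC_ne_zero δ τ
  field_simp
  simp only [numC, denC]
  linear_combination hd

/-- Derivative of `K ∘ (δ • ·)`. -/
theorem hasDerivAt_comp_smul (δ : SL(2, ℤ)) (L : ℍ → ℂ) (d : ℂ) (τ : ℍ)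
    (hL : HasDerivAt (L ∘ ofComplex) d ((δ • τ : ℍ) : ℂ)) :
    HasDerivAt ((fun σ : ℍ => L (δ • σ)) ∘ ofComplex) (d * (1 / denC δ τ ^ 2)) τ := by
  have hm := hasDerivAt_moeb δ τ
  have hL' : HasDerivAt (L ∘ ofComplex) d (numC δ τ / denC δ τ) := by
    rw [← coe_smul_eq]; exact hL
  have hc := HasDerivAt.comp (τ : ℂ) hL' hm
  refine hc.congr_of_eventuallyEq ?_
  have : ∀ᶠ z in 𝓝 (τ : ℂ), 0 < z.im := isOpen_upperHalfPlaneSet.mem_nhds τ.im_pos
  filter_upwards [this] with z hz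
  simp only [Function.comp_apply]
  rw [ofComplex_apply_of_im_pos hz]
  have := coe_smul_eq δ ⟨z, hz⟩
  rw [← this, ofComplex_apply]

theorem hasDerivAt_K_smul (n : ℕ) (f : ℍ → ℂ) (K : ℕ → ℍ → ℂ)
    (hK : ∀ j ≤ n, ∀ τ : ℍ, HasDerivAt (K j ∘ ofComplex) ((τ : ℂ) ^ j * f τ) τ)
    (δ : SL(2, ℤ)) (j : ℕ) (hj : j ≤ n) (τ : ℍ) :
    HasDerivAt ((fun σ : ℍ => K j (δ • σ)) ∘ ofComplex)
      (numC δ τ ^ j * denC δ τ ^ (n - j) * (f ∣[(n : ℤ) + 2] δ) τ) τ := by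
  have h1 := hasDerivAt_comp_smul δ (K j) _ τ (hK j hj (δ • τ))
  refine h1.congr_deriv ?_
  rw [coe_smul_eq, ModularForm.SL_slash_apply, denom_eq]
  have hne := denC_ne_zero δ τ
  have e : denC δ τ ^ (-((n : ℤ) + 2)) = (denC δ τ ^ (n + 2))⁻¹ := by
    rw [← zpow_natCast, ← zpow_neg]; push_cast; rfl
  rw [e]
  have e2 : denC δ τ ^ (n + 2) = denC δ τ ^ j * denC δ τ ^ (n - j) * denC δ τ ^ 2 := by
    rw [← pow_add, ← pow_add]; congr 1; omega
  rw [e2, div_pow]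
  field_simp

theorem norm_lin_le (a b : ℤ) (h : ℝ) (hh : 0 ≤ h) (z : ℂ) (hz : 0 ≤ z.im) (hre : |z.re| ≤ h) :
    ‖(a : ℂ) * z + (b : ℂ)‖ ≤ (|(a : ℝ)| + |(b : ℝ)|) * (1 + h) * (1 + z.im) := by
  have h1 : ‖(a : ℂ) * z + (b : ℂ)‖ ≤ |(a : ℝ)| * ‖z‖ + |(b : ℝ)| := by
    refine (norm_add_le _ _).trans ?_
    rw [norm_mul]
    simp
  have h2 : ‖z‖ ≤ h + z.im := by
    refine (Complex.norm_le_abs_re_add_abs_im z).trans ?_
    rw [abs_of_nonneg hz]
    linarith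
  have ha := abs_nonneg (a : ℝ)
  have hb := abs_nonneg (b : ℝ)
  have h3 : |(a : ℝ)| * ‖z‖ ≤ |(a : ℝ)| * (h + z.im) := mul_le_mul_of_nonneg_left h2 ha
  nlinarith [mul_nonneg hh hz, mul_nonneg ha (mul_nonneg hh hz), mul_nonneg hb hh, mul_nonneg hb hz,
    mul_nonneg hb (mul_nonneg hh hz), mul_nonneg ha hh, mul_nonneg ha hz]

/-- constant bounding numerator and denominator on strips. -/
noncomputable def cD (δ : SL(2, ℤ)) (h : ℝ) : ℝ :=
  (|((δ 0 0 : ℤ) : ℝ)| + |((δ 0 1 : ℤ) : ℝ)| + |((δ 1 0 : ℤ) : ℝ)| + |((δ 1 1 : ℤ) : ℝ)|) * (1 + h)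

theorem cD_nonneg (δ : SL(2, ℤ)) (h : ℝ) (hh : 0 ≤ h) : 0 ≤ cD δ h := by
  unfold cD; positivity

theorem norm_numC_le (δ : SL(2, ℤ)) (h : ℝ) (hh : 0 ≤ h) (z : ℂ) (hz : 0 ≤ z.im)
    (hre : |z.re| ≤ h) : ‖numC δ z‖ ≤ cD δ h * (1 + z.im) := by
  refine (norm_lin_le _ _ h hh z hz hre).trans ?_
  unfold cD
  have h1 : 0 ≤ (1 + h) * (1 + z.im) := by positivity
  have := abs_nonneg ((δ 1 0 : ℤ) : ℝ)
  have := abs_nonneg ((δ 1 1 : ℤ) : ℝ)
  nlinarith

theorem norm_denC_le (δ : SL(2, ℤ)) (h : ℝ) (hh : 0 ≤ h) (z : ℂ) (hz : 0 ≤ z.im)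
    (hre : |z.re| ≤ h) : ‖denC δ z‖ ≤ cD δ h * (1 + z.im) := by
  refine (norm_lin_le _ _ h hh z hz hre).trans ?_
  unfold cD
  have h1 : 0 ≤ (1 + h) * (1 + z.im) := by positivity
  have := abs_nonneg ((δ 0 0 : ℤ) : ℝ)
  have := abs_nonneg ((δ 0 1 : ℤ) : ℝ)
  nlinarith

/-- the strip rectangle -/
def rect (h A Y : ℝ) : Set ℂ := {z | -h ≤ z.re ∧ z.re ≤ h ∧ A ≤ z.im ∧ z.im ≤ Y}

theorem convex_rect (h A Y : ℝ) : Convex ℝ (rect h A Y) := by
  have : rect h A Y = {z | -h ≤ z.re} ∩ {z | z.re ≤ h} ∩ {z | A ≤ z.im} ∩ {z | z.im ≤ Y} := by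
    ext z; simp [rect, and_assoc]
  rw [this]
  exact (((convex_halfSpace_re_ge _).inter (convex_halfSpace_re_le _)).inter
    (convex_halfSpace_im_ge _)).inter (convex_halfSpace_im_le _)

theorem strip_bound_K (n : ℕ) (f : ℍ → ℂ) (K : ℕ → ℍ → ℂ)
    (hK : ∀ j ≤ n, ∀ τ : ℍ, HasDerivAt (K j ∘ ofComplex) ((τ : ℂ) ^ j * f τ) τ)
    (δ : SL(2, ℤ)) (M A h : ℝ) (hA : 1 ≤ A) (hh : 0 ≤ h) (hM0 : 0 ≤ M)
    (hM : ∀ z : ℍ, A ≤ z.im → ‖(f ∣[(n : ℤ) + 2] δ) z‖ ≤ M)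
    (τ0 : ℍ) (hτ0 : (τ0 : ℂ) = A * I)
    (j : ℕ) (hj : j ≤ n) (τ : ℍ) (hτ : A ≤ τ.im) (hre : |τ.re| ≤ h) :
    ‖K j (δ • τ)‖ ≤ (‖K j (δ • τ0)‖ + cD δ h ^ n * M * (1 + h)) * (1 + τ.im) ^ (n + 1) := by
  set Y := τ.im with hY
  have hD := cD_nonneg δ h hh
  have hY1 : 1 ≤ 1 + Y := by linarith
  set φ : ℂ → ℂ := (fun σ : ℍ => K j (δ • σ)) ∘ ofComplex with hφ
  set φ' : ℂ → ℂ := fun z => numC δ z ^ j * denC δ z ^ (n - j) *
    (f ∣[(n : ℤ) + 2] δ) (ofComplex z) with hφ'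
  have hderiv : ∀ z ∈ rect h A Y, HasDerivWithinAt φ (φ' z) (rect h A Y) z := by
    intro z hz
    have hzpos : 0 < z.im := by have := hz.2.2.1; linarith
    have := hasDerivAt_K_smul n f K hK δ j hj ⟨z, hzpos⟩
    simp only [hφ', ofComplex_apply_of_im_pos hzpos]
    exact this.hasDerivWithinAt
  have hbound : ∀ z ∈ rect h A Y, ‖φ' z‖ ≤ (cD δ h * (1 + Y)) ^ n * M := by
    intro z hz
    have hzpos : 0 < z.im := by have := hz.2.2.1; linarith
    have hzre : |z.re| ≤ h := abs_le.mpr ⟨hz.1, hz.2.1⟩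
    have h1 : ‖numC δ z‖ ≤ cD δ h * (1 + Y) :=
      (norm_numC_le δ h hh z hzpos.le hzre).trans
        (mul_le_mul_of_nonneg_left (by linarith [hz.2.2.2]) hD)
    have h2 : ‖denC δ z‖ ≤ cD δ h * (1 + Y) :=
      (norm_denC_le δ h hh z hzpos.le hzre).trans
        (mul_le_mul_of_nonneg_left (by linarith [hz.2.2.2]) hD)
    have h3 : ‖(f ∣[(n : ℤ) + 2] δ) (ofComplex z)‖ ≤ M := by
      rw [ofComplex_apply_of_im_pos hzpos]
      exact hM _ hz.2.2.1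
    simp only [hφ', norm_mul, norm_pow]
    have e : (cD δ h * (1 + Y)) ^ n = (cD δ h * (1 + Y)) ^ j * (cD δ h * (1 + Y)) ^ (n - j) := by
      rw [← pow_add]; congr 1; omega
    rw [e]
    gcongr
  have hτmem : (τ : ℂ) ∈ rect h A Y := by
    refine ⟨?_, ?_, ?_, ?_⟩
    · have := (abs_le.mp hre).1; simpa using this
    · have := (abs_le.mp hre).2; simpa using this
    · simpa using hτ
    · simp [hY]
  have hτ0mem : (τ0 : ℂ) ∈ rect h A Y := by
    rw [hτ0]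
    refine ⟨?_, ?_, ?_, ?_⟩ <;> simp <;> linarith
  have hmvt := Convex.norm_image_sub_le_of_norm_hasDerivWithin_le hderiv hbound (convex_rect h A Y)
    hτ0mem hτmem
  have hφτ : φ τ = K j (δ • τ) := by simp [hφ]
  have hφτ0 : φ τ0 = K j (δ • τ0) := by simp [hφ]
  rw [hφτ, hφτ0] at hmvt
  have hdist : ‖(τ : ℂ) - τ0‖ ≤ (1 + h) * (1 + Y) := by
    refine (Complex.norm_le_abs_re_add_abs_im _).trans ?_
    rw [hτ0]
    have h1 : |((τ : ℂ) - A * I).re| ≤ h := by simpa using hre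
    have h2 : |((τ : ℂ) - A * I).im| ≤ Y := by
      have : ((τ : ℂ) - A * I).im = Y - A := by simp [hY]
      rw [this, abs_of_nonneg (by linarith)]
      linarith
    nlinarith
  have hKt : ‖K j (δ • τ)‖ ≤ ‖K j (δ • τ0)‖ + (cD δ h * (1 + Y)) ^ n * M * ((1 + h) * (1 + Y)) := by
    have h1 : ‖K j (δ • τ)‖ ≤ ‖K j (δ • τ0)‖ + ‖K j (δ • τ) - K j (δ • τ0)‖ := by
      have := norm_add_le (K j (δ • τ0)) (K j (δ • τ) - K j (δ • τ0))
      simpa using this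
    have h2 : (cD δ h * (1 + Y)) ^ n * M * ‖(τ : ℂ) - τ0‖ ≤
        (cD δ h * (1 + Y)) ^ n * M * ((1 + h) * (1 + Y)) := by
      apply mul_le_mul_of_nonneg_left hdist
      positivity
    linarith
  have hpow1 : 1 ≤ (1 + Y) ^ (n + 1) := one_le_pow₀ hY1
  have e : (cD δ h * (1 + Y)) ^ n * M * ((1 + h) * (1 + Y)) =
      cD δ h ^ n * M * (1 + h) * (1 + Y) ^ (n + 1) := by
    rw [mul_pow, pow_succ]; ring
  rw [e] at hKt
  have hB : ‖K j (δ • τ0)‖ ≤ ‖K j (δ • τ0)‖ * (1 + Y) ^ (n + 1) :=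
    le_mul_of_one_le_right (norm_nonneg _) hpow1
  linarith [hKt, hB]


theorem slash_eichlerG_apply (n : ℕ) (K : ℕ → ℍ → ℂ) (δ : SL(2, ℤ)) (τ : ℍ) :
    (eichlerG n K ∣[-(n : ℤ)] δ) τ = ∑ j ∈ Finset.range (n + 1),
      (n.choose j : ℂ) * (-numC δ τ) ^ (n - j) * denC δ τ ^ j * K j (δ • τ) := by
  rw [ModularForm.SL_slash_apply, denom_eq, neg_neg, zpow_natCast, eichlerG, Finset.sum_mul]
  refine Finset.sum_congr rfl fun j hj => ?_
  have hj' : j ≤ n := by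
    have := Finset.mem_range.mp hj; omega
  have hne := denC_ne_zero δ τ
  have e : denC δ τ ^ n = denC δ τ ^ (n - j) * denC δ τ ^ j := by
    rw [← pow_add]; congr 1; omega
  rw [coe_smul_eq, e, ← neg_div, div_pow]
  field_simp

theorem strip_bound_G (n : ℕ) (f : ℍ → ℂ) (K : ℕ → ℍ → ℂ)
    (hK : ∀ j ≤ n, ∀ τ : ℍ, HasDerivAt (K j ∘ ofComplex) ((τ : ℂ) ^ j * f τ) τ)
    (δ : SL(2, ℤ)) (M A h : ℝ) (hA : 1 ≤ A) (hh : 0 ≤ h) (hM0 : 0 ≤ M)
    (hM : ∀ z : ℍ, A ≤ z.im → ‖(f ∣[(n : ℤ) + 2] δ) z‖ ≤ M) :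
    ∃ C : ℝ, ∀ τ : ℍ, A ≤ τ.im → |τ.re| ≤ h →
      ‖(eichlerG n K ∣[-(n : ℤ)] δ) τ‖ ≤ C * (1 + τ.im) ^ (2 * n + 1) := by
  have hApos : 0 < A := by linarith
  set τ0 : ℍ := ⟨A * I, by simpa using hApos⟩ with hτ0
  have hτ0c : (τ0 : ℂ) = A * I := rfl
  have hD := cD_nonneg δ h hh
  refine ⟨∑ j ∈ Finset.range (n + 1), (n.choose j : ℝ) * cD δ h ^ n *
    (‖K j (δ • τ0)‖ + cD δ h ^ n * M * (1 + h)), fun τ hτ hre => ?_⟩
  rw [slash_eichlerG_apply, Finset.sum_mul]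
  refine (norm_sum_le _ _).trans (Finset.sum_le_sum fun j hj => ?_)
  have hj' : j ≤ n := by
    have := Finset.mem_range.mp hj; omega
  have hY0 : 0 ≤ τ.im := τ.im_pos.le
  have h1 : ‖numC δ τ‖ ≤ cD δ h * (1 + τ.im) := norm_numC_le δ h hh τ hY0 hre
  have h2 : ‖denC δ τ‖ ≤ cD δ h * (1 + τ.im) := norm_denC_le δ h hh τ hY0 hre
  have h3 := strip_bound_K n f K hK δ M A h hA hh hM0 hM τ0 hτ0c j hj' τ hτ hre
  have hE : 0 ≤ ‖K j (δ • τ0)‖ + cD δ h ^ n * M * (1 + h) := by positivity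
  rw [norm_mul, norm_mul, norm_mul, norm_pow, norm_pow, norm_neg]
  have e0 : ‖(n.choose j : ℂ)‖ = (n.choose j : ℝ) := by simp
  rw [e0]
  have e : (n.choose j : ℝ) * cD δ h ^ n *
      (‖K j (δ • τ0)‖ + cD δ h ^ n * M * (1 + h)) * (1 + τ.im) ^ (2 * n + 1) =
      (n.choose j : ℝ) * (cD δ h * (1 + τ.im)) ^ (n - j) * (cD δ h * (1 + τ.im)) ^ j *
      ((‖K j (δ • τ0)‖ + cD δ h ^ n * M * (1 + h)) * (1 + τ.im) ^ (n + 1)) := by
    have e1 : (cD δ h * (1 + τ.im)) ^ (n - j) * (cD δ h * (1 + τ.im)) ^ j =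
        (cD δ h * (1 + τ.im)) ^ n := by
      rw [← pow_add]; congr 1; omega
    have e2 : (1 + τ.im) ^ (2 * n + 1) = (1 + τ.im) ^ n * (1 + τ.im) ^ (n + 1) := by
      rw [← pow_add]; congr 1; omega
    calc _ = (n.choose j : ℝ) * (cD δ h * (1 + τ.im)) ^ n *
          ((‖K j (δ • τ0)‖ + cD δ h ^ n * M * (1 + h)) * (1 + τ.im) ^ (n + 1)) := by
          rw [mul_pow, e2]; ring
      _ = _ := by rw [← e1]; ring
  rw [e]
  gcongr

theorem isBoundedAtImInfty_eichlerG_slash (n : ℕ) (f : ℍ → ℂ) (K : ℕ → ℍ → ℂ)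
    (hK : ∀ j ≤ n, ∀ τ : ℍ, HasDerivAt (K j ∘ ofComplex) ((τ : ℂ) ^ j * f τ) τ)
    (δ : SL(2, ℤ)) (hg : IsBoundedAtImInfty (f ∣[(n : ℤ) + 2] δ)) (h : ℝ) (hh : 0 < h)
    (hper : Function.Periodic ((eichlerG n K ∣[-(n : ℤ)] δ) ∘ ofComplex) h) :
    IsBoundedAtImInfty (eichlerG n K ∣[-(n : ℤ)] δ) := by
  obtain ⟨M, A0, hM⟩ := UpperHalfPlane.isBoundedAtImInfty_iff.mp hg
  have hM' : ∀ z : ℍ, max A0 1 ≤ z.im → ‖(f ∣[(n : ℤ) + 2] δ) z‖ ≤ |M| :=
    fun z hz => (hM z ((le_max_left _ _).trans hz)).trans (le_abs_self M)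
  obtain ⟨C, hC⟩ := strip_bound_G n f K hK δ |M| (max A0 1) h (le_max_right _ _) hh.le
    (abs_nonneg M) hM'
  have hol : MDiff (eichlerG n K ∣[-(n : ℤ)] δ) :=
    (mdifferentiable_eichlerG n f K hK).slash _ _
  exact isBoundedAtImInfty_of_periodic_of_polyGrowth _ hol h hh hper C (2 * n + 1) (max A0 1) hC

/-- A holomorphic function of weight `k ≤ 0`, invariant under `Γ₀(N)` and bounded at all cusps,
is constant. -/
theorem exists_const_of_weight_nonpos (N : ℕ) [NeZero N] (k : ℤ) (hk : k ≤ 0) (G : ℍ → ℂ)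
    (hol : MDiff G) (hinv : ∀ γ ∈ CongruenceSubgroup.Gamma0 N, G ∣[k] γ = G)
    (hbdd : ∀ δ : SL(2, ℤ), IsBoundedAtImInfty (G ∣[k] δ)) : ∃ c : ℂ, ∀ τ, G τ = c := by
  let F : ModularForm (CongruenceSubgroup.Gamma0 N) k :=
    { toFun := G
      slash_action_eq' := by
        rintro γ ⟨γ', hγ', rfl⟩
        exact hinv γ' hγ'
      holo' := hol
      bdd_at_cusps' := fun {c} hc => by
        have hc' := (Subgroup.IsArithmetic.isCusp_iff_isCusp_SL2Z _).mp hc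
        exact (OnePoint.isBoundedAt_iff_forall_SL2Z hc').mpr (fun δ _ => hbdd δ) }
  rcases hk.lt_or_eq with h | h
  · refine ⟨0, fun τ => ?_⟩
    have := ModularForm.isZero_of_neg_weight h F
    have h2 : F τ = 0 := by rw [this]; rfl
    exact h2
  · subst h
    obtain ⟨c, hc⟩ := ModularForm.eq_const_of_weight_zero F
    exact ⟨c, fun τ => congrFun hc τ⟩

/-- **Eichler–Shimura injectivity, first-order form.** If `K j` is a primitive of `τ^j f(τ)` for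
`j ≤ n`, and the Eichler combination `eichlerG n K` is invariant of weight `-n` under `Γ₀(N)`,
then the weight `n + 2` cusp form `f` vanishes. -/
theorem eichler_injective (N : ℕ) [NeZero N] (n : ℕ)
    (f : CuspForm (CongruenceSubgroup.Gamma0 N) ((n : ℤ) + 2)) (K : ℕ → ℍ → ℂ)
    (hK : ∀ j ≤ n, ∀ τ : ℍ, HasDerivAt (K j ∘ ofComplex) ((τ : ℂ) ^ j * f τ) τ)
    (hG : ∀ γ ∈ CongruenceSubgroup.Gamma0 N, eichlerG n K ∣[-(n : ℤ)] γ = eichlerG n K) :
    f = 0 := by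
  obtain ⟨M, hMpos, hMper⟩ := Subgroup.IsArithmetic.exists_nat_mem_strictPeriods_conj
    (CongruenceSubgroup.Gamma0 N : Subgroup (GL (Fin 2) ℝ))
  let Gs : SlashInvariantForm (CongruenceSubgroup.Gamma0 N) (-(n : ℤ)) :=
    { toFun := eichlerG n K
      slash_action_eq' := by
        rintro γ ⟨γ', hγ', rfl⟩
        exact hG γ' hγ' }
  have hbdd : ∀ δ : SL(2, ℤ), IsBoundedAtImInfty (eichlerG n K ∣[-(n : ℤ)] δ) := by
    intro δ
    have hg : IsBoundedAtImInfty ((f : ℍ → ℂ) ∣[(n : ℤ) + 2] δ) :=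
      ModularFormClass.bdd_at_infty_slash f δ
    have hper : Function.Periodic ((eichlerG n K ∣[-(n : ℤ)] δ) ∘ ofComplex) (M : ℝ) := by
      have h1 := hMper δ⁻¹
      rw [map_inv] at h1
      exact SlashInvariantFormClass.periodic_comp_ofComplex
        (SlashInvariantForm.translate Gs (Matrix.SpecialLinearGroup.mapGL ℝ δ)) h1
    exact isBoundedAtImInfty_eichlerG_slash n f K hK δ hg M (by exact_mod_cast hMpos) hper
  obtain ⟨c, hc⟩ := exists_const_of_weight_nonpos N (-(n : ℤ)) (by simp) (eichlerG n K)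
    (mdifferentiable_eichlerG n f K hK) hG hbdd
  have hz := eq_zero_of_eichlerG_const n f K hK c hc
  ext τ
  exact hz τ

end Fermat.Agent.Lib.EichlerInj
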