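import Fermat.Agent.S22.Period
import Fermat.Agent.Lib.EichlerInj

set_option autoImplicit false

open Polynomial
open UpperHalfPlane hiding I
open scoped MatrixGroups ModularForm

namespace Fermat.Agent.Lib.EichlerGlue

open Fermat.Agent.S22.Tower Fermat.Agent.S22.PolyAct Fermat.Agent.S22.Period
open Fermat.Agent.Lib.EichlerInj

theorem det_mapGL (γ : SL(2, ℤ)) :
    (Matrix.SpecialLinearGroup.mapGL ℝ γ : GL (Fin 2) ℝ).val.det = 1 := by
  have h := (Int.castRingHom ℝ).map_det (γ : Matrix (Fin 2) (Fin 2) ℤ)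
  rw [γ.det_coe, map_one] at h
  simpa [RingHom.mapMatrix_apply] using h.symm

/-- The polynomial `(X - τ)^n`. -/
noncomputable def shiftPow (n : ℕ) (τ : ℂ) : ℂ[X] := (X - C τ) ^ n

theorem natDegree_shiftPow_le (n : ℕ) (τ : ℂ) : (shiftPow n τ).natDegree ≤ n := by
  unfold shiftPow
  refine natDegree_pow_le.trans ?_
  rw [natDegree_X_sub_C, mul_one]

theorem shiftPow_eq_sum (n : ℕ) (τ : ℂ) :
    shiftPow n τ = ∑ j ∈ Finset.range (n + 1), C ((n.choose j : ℂ) * (-τ) ^ (n - j)) * X ^ j := by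
  unfold shiftPow
  rw [sub_eq_add_neg, ← C_neg, add_pow]
  refine Finset.sum_congr rfl fun j _ => ?_
  rw [C_mul, C_pow, map_natCast]
  ring

theorem IP_shiftPow (n : ℕ) (T : ℕ → ℍ → ℂ) (τ : ℂ) (σ : ℍ) :
    IP n T (shiftPow n τ) σ =
      ∑ j ∈ Finset.range (n + 1), (n.choose j : ℂ) * (-τ) ^ (n - j) * IP n T (X ^ j) σ := by
  rw [shiftPow_eq_sum, IP_sum]
  refine Finset.sum_congr rfl fun j _ => ?_
  rw [IP_C_mul]

theorem eichlerG_eq_IP (n : ℕ) (T : ℕ → ℍ → ℂ) (τ : ℍ) :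
    eichlerG n (fun j => IP n T (X ^ j)) τ = IP n T (shiftPow n (τ : ℂ)) τ := by
  rw [IP_shiftPow]
  rfl

theorem per_eq_zero_of_monomials {n : ℕ} {T : ℕ → ℍ → ℂ} {g : GL (Fin 2) ℝ}
    (h : ∀ j ≤ n, per n T g (X ^ j) = 0) {p : ℂ[X]} (hp : p.natDegree ≤ n) :
    per n T g p = 0 := by
  have hp' : p = ∑ j ∈ Finset.range (n + 1), C (p.coeff j) * X ^ j := by
    conv_lhs => rw [p.as_sum_range' (n + 1) (Nat.lt_succ_of_le hp)]
    refine Finset.sum_congr rfl fun j _ => ?_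
    rw [C_mul_X_pow_eq_monomial]
  rw [hp', per_sum]
  refine Finset.sum_eq_zero fun j hj => ?_
  rw [per_C_mul, h j (Nat.lt_succ_iff.mp (Finset.mem_range.mp hj)), mul_zero]

theorem smul_sub_smul (γ : SL(2, ℤ)) (σ τ : ℍ) :
    ((γ • σ : ℍ) : ℂ) - ((γ • τ : ℍ) : ℂ) = ((σ : ℂ) - τ) / (denC γ σ * denC γ τ) := by
  rw [coe_smul_eq, coe_smul_eq]
  have h1 := denC_ne_zero γ σ
  have h2 := denC_ne_zero γ τ
  have hd := det_eq_one γ
  field_simp
  simp only [numC, denC]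
  linear_combination ((σ : ℂ) - τ) * hd

theorem pactG_shiftPow (n : ℕ) (γ : SL(2, ℤ)) (τ : ℍ) :
    pactG n (Matrix.SpecialLinearGroup.mapGL ℝ γ) (shiftPow n ((γ • τ : ℍ) : ℂ)) =
      C ((denC γ τ ^ n)⁻¹) * shiftPow n (τ : ℂ) := by
  refine eq_of_eval_eq_on_upper fun σ => ?_
  have hdet : 0 < (Matrix.SpecialLinearGroup.mapGL ℝ γ : GL (Fin 2) ℝ).val.det := by
    rw [det_mapGL]; exact one_pos
  rw [eval_pactG_smul (natDegree_shiftPow_le n _) hdet σ]
  have e1 : denom (Matrix.SpecialLinearGroup.mapGL ℝ γ : GL (Fin 2) ℝ) σ = denC γ σ := denom_eq γ σ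
  have e2 : ((Matrix.SpecialLinearGroup.mapGL ℝ γ : GL (Fin 2) ℝ) • σ : ℍ) = γ • σ := rfl
  rw [e1, e2]
  simp only [shiftPow, eval_mul, eval_C, eval_pow, eval_sub, eval_X]
  rw [smul_sub_smul, div_pow, mul_pow]
  have h1 := denC_ne_zero γ σ
  have h2 := denC_ne_zero γ τ
  field_simp

/-- **Separation in period form.** If all periods of the tower over a weight `n + 2` cusp form
on `Γ₀(N)` against the monomials `X^j`, `j ≤ n`, vanish, the form is zero. -/
theorem eq_zero_of_per_eq_zero (N : ℕ) [NeZero N] (n : ℕ)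
    (f : CuspForm (CongruenceSubgroup.Gamma0 N) ((n : ℤ) + 2)) (T : ℕ → ℍ → ℂ) (hT : IsTower T)
    (hT0 : T 0 = ⇑f)
    (hper : ∀ γ ∈ CongruenceSubgroup.Gamma0 N, ∀ j ≤ n,
      per n T (Matrix.SpecialLinearGroup.mapGL ℝ γ) (X ^ j) = 0) : f = 0 := by
  refine eichler_injective N n f (fun j => IP n T (X ^ j)) ?_ ?_
  · intro j hj τ
    have hp : ((X : ℂ[X]) ^ j).natDegree ≤ n := by
      rw [natDegree_X_pow]; exact hj
    have := hasDerivAt_IP hT hp τ
    simpa [hT0] using this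
  · intro γ hγ
    funext τ
    set g : GL (Fin 2) ℝ := Matrix.SpecialLinearGroup.mapGL ℝ γ with hg
    have hdet : g.val.det = 1 := det_mapGL γ
    have hinv : Inv n (T 0) g := by
      intro σ
      have h1 : ((f : ℍ → ℂ) ∣[(n : ℤ) + 2] γ) σ = f σ := by
        have := SlashInvariantFormClass.slash_action_eq f g
          (Subgroup.mem_map_of_mem (Matrix.SpecialLinearGroup.mapGL ℝ) hγ)
        exact congrFun this σ
      rw [ModularForm.SL_slash_apply] at h1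
      rw [hT0]
      exact h1.symm
    rw [ModularForm.SL_slash_apply, neg_neg, zpow_natCast, eichlerG_eq_IP, eichlerG_eq_IP]
    have e2 : (γ • τ : ℍ) = g • τ := rfl
    have h3 := IP_smul_eq hT hdet hinv (natDegree_shiftPow_le n ((γ • τ : ℍ) : ℂ)) τ
    rw [per_eq_zero_of_monomials (hper γ hγ) (natDegree_shiftPow_le n _), add_zero] at h3
    rw [e2] at h3 ⊢
    rw [h3]
    have h4 := pactG_shiftPow n γ τ
    rw [← hg, e2] at h4
    rw [h4, IP_C_mul, denom_eq]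
    have h2 := denC_ne_zero γ τ
    field_simp

end Fermat.Agent.Lib.EichlerGlue
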