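import Mathlib

/-!
# Common eigenvectors for a character of a commutative algebra of operators

* `exists_eigenvector` (field form): a commutative `E`-algebra `B` acting on a finite-dimensional
  `E`-vector space `M` through `φ`, and a character `ψ : B →ₐ[E] E` vanishing on `ker φ`, have a
  common eigenvector: `∃ m ≠ 0, ∀ b, φ b m = ψ b • m`.
* `eigenSub`: the common eigenspace of a family, stable under everything commuting with it.
-/

namespace Fermat.Agent.Lib.EigenChar

open Polynomial

section Nil

variable {E : Type*} [Field E] {M : Type*} [AddCommGroup M] [Module E M]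

/-- A finite set of commuting endomorphisms, each locally nilpotent at `y ≠ 0`, has a common
kernel vector `m ≠ 0`; moreover every endomorphism commuting with the set and killing `y`
kills `m`. -/
theorem exists_common_ker (S : Finset (Module.End E M)) :
    (∀ f ∈ S, ∀ g ∈ S, Commute f g) → ∀ y : M, y ≠ 0 → (∀ f ∈ S, ∃ k : ℕ, (f ^ k) y = 0) →
      ∃ m : M, m ≠ 0 ∧ (∀ f ∈ S, f m = 0) ∧
        ∀ h : Module.End E M, (∀ f ∈ S, Commute h f) → h y = 0 → h m = 0 := by
  classical
  induction S using Finset.induction_on with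
  | empty =>
    intro _ y hy _
    exact ⟨y, hy, fun f hf => absurd hf (Finset.notMem_empty f), fun h _ hh => hh⟩
  | insert f S hf ih =>
    intro hS y hy hnil
    have hex := hnil f (Finset.mem_insert_self f S)
    have hk0 : (f ^ Nat.find hex) y = 0 := Nat.find_spec hex
    have hk0pos : Nat.find hex ≠ 0 := by
      intro h0
      rw [h0, pow_zero] at hk0
      exact hy hk0
    obtain ⟨k1, hk1⟩ := Nat.exists_eq_succ_of_ne_zero hk0pos
    have hy' : (f ^ k1) y ≠ 0 := Nat.find_min hex (by omega : k1 < Nat.find hex)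
    have hfy' : f ((f ^ k1) y) = 0 := by
      rw [← Module.End.mul_apply, ← pow_succ', ← Nat.succ_eq_add_one, ← hk1]
      exact hk0
    have hcomm : ∀ g ∈ S, Commute f g := fun g hg =>
      hS f (Finset.mem_insert_self f S) g (Finset.mem_insert_of_mem hg)
    obtain ⟨m, hm, hmS, hmh⟩ := ih
      (fun a ha b hb => hS a (Finset.mem_insert_of_mem ha) b (Finset.mem_insert_of_mem hb))
      ((f ^ k1) y) hy' (by
        intro g hg
        obtain ⟨kg, hkg⟩ := hnil g (Finset.mem_insert_of_mem hg)
        refine ⟨kg, ?_⟩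
        have hc : Commute (g ^ kg) (f ^ k1) := ((hcomm g hg).symm.pow_pow kg k1)
        rw [← Module.End.mul_apply, hc.eq, Module.End.mul_apply, hkg, map_zero])
    refine ⟨m, hm, ?_, ?_⟩
    · intro g hg
      rcases Finset.mem_insert.mp hg with rfl | hg
      · exact hmh g (fun f' hf' => hcomm f' hf') hfy'
      · exact hmS g hg
    · intro h hh hhy
      apply hmh h (fun g hg => hh g (Finset.mem_insert_of_mem hg))
      have hc : Commute h (f ^ k1) := (hh f (Finset.mem_insert_self f S)).pow_right k1
      rw [← Module.End.mul_apply, hc.eq, Module.End.mul_apply, hhy, map_zero]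

end Nil

section Core

variable {E : Type*} [Field E] {M : Type*} [AddCommGroup M] [Module E M] [FiniteDimensional E M]
variable {B : Type*} [CommRing B] [Algebra E B]

/-- for `u` in the kernel of the character there is `w` outside it with `φ (u ^ k * w) = 0` -/
theorem exists_witness (φ : B →ₐ[E] Module.End E M) (ψ : B →ₐ[E] E) {u : B} (hu : ψ u = 0) :
    ∃ w : B, ψ w ≠ 0 ∧ ∃ k : ℕ, φ (u ^ k * w) = 0 := by
  have hint : IsIntegral E (φ u) := Algebra.IsIntegral.isIntegral _
  have hμ : minpoly E (φ u) ≠ 0 := minpoly.ne_zero hint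
  obtain ⟨q, hq1, hq2⟩ :=
    Polynomial.exists_eq_pow_rootMultiplicity_mul_and_not_dvd (minpoly E (φ u)) hμ 0
  refine ⟨aeval u q, ?_, (minpoly E (φ u)).rootMultiplicity 0, ?_⟩
  · rw [← Polynomial.aeval_algHom_apply, hu, Polynomial.coe_aeval_eq_eval]
    intro h0
    exact hq2 (Polynomial.dvd_iff_isRoot.mpr h0)
  · have h1 : u ^ (minpoly E (φ u)).rootMultiplicity 0 * aeval u q
        = aeval u (minpoly E (φ u)) := by
      conv_rhs => rw [hq1]
      rw [map_mul, map_pow, map_sub, aeval_X, aeval_C, map_zero, sub_zero]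
    rw [h1, ← Polynomial.aeval_algHom_apply, minpoly.aeval]

/-- a finite subset of the kernel of the character has a common kernel vector -/
theorem exists_common_ker_finset (φ : B →ₐ[E] Module.End E M) (ψ : B →ₐ[E] E)
    (h : ∀ b, φ b = 0 → ψ b = 0) (F : Finset B) (hF : ∀ u ∈ F, ψ u = 0) :
    ∃ m : M, m ≠ 0 ∧ ∀ u ∈ F, φ u m = 0 := by
  classical
  choose! w hw1 hw2 using fun (u : B) (hu : ψ u = 0) => exists_witness φ ψ hu
  have hG : ψ (∏ u ∈ F, w u) ≠ 0 := by
    rw [map_prod]
    exact Finset.prod_ne_zero_iff.mpr fun u hu => hw1 u (hF u hu)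
  have hφG : φ (∏ u ∈ F, w u) ≠ 0 := fun h0 => hG (h _ h0)
  obtain ⟨x, hx⟩ : ∃ x, φ (∏ u ∈ F, w u) x ≠ 0 := by
    by_contra hall
    apply hφG
    ext x
    by_contra hx
    exact hall ⟨x, hx⟩
  obtain ⟨m, hm, hmS, -⟩ := exists_common_ker (F.image φ)
    (by
      intro f hf g hg
      obtain ⟨a, -, rfl⟩ := Finset.mem_image.mp hf
      obtain ⟨b, -, rfl⟩ := Finset.mem_image.mp hg
      show φ a * φ b = φ b * φ a
      rw [← map_mul, ← map_mul, mul_comm])
    (φ (∏ u ∈ F, w u) x) hx
    (by
      intro f hf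
      obtain ⟨u, hu, rfl⟩ := Finset.mem_image.mp hf
      obtain ⟨k, hk⟩ := hw2 u (hF u hu)
      refine ⟨k, ?_⟩
      obtain ⟨c, hc⟩ := Finset.dvd_prod_of_mem w hu
      have h1 : φ u ^ k * φ (∏ u ∈ F, w u) = 0 := by
        rw [← map_pow, ← map_mul, hc, ← mul_assoc, map_mul, hk, zero_mul]
      rw [← Module.End.mul_apply, h1, LinearMap.zero_apply])
  exact ⟨m, hm, fun u hu => hmS (φ u) (Finset.mem_image_of_mem φ hu)⟩

/-- **Eigenvector for a character (field form).**  Let `B` be a commutative `E`-algebra acting on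
a finite-dimensional `E`-vector space `M` through `φ`, and let `ψ : B →ₐ[E] E` be a character
vanishing on the kernel of `φ`.  Then there is a common eigenvector with eigencharacter `ψ`. -/
theorem exists_eigenvector (φ : B →ₐ[E] Module.End E M) (ψ : B →ₐ[E] E)
    (h : ∀ b, φ b = 0 → ψ b = 0) : ∃ m : M, m ≠ 0 ∧ ∀ b, φ b m = ψ b • m := by
  classical
  -- the joint kernel of a finite subset of `ker ψ`
  let K : Finset B → Submodule E M := fun F => ⨅ u ∈ F, LinearMap.ker (φ u)
  have hmemK : ∀ (F : Finset B) (m : M), m ∈ K F ↔ ∀ u ∈ F, φ u m = 0 := by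
    intro F m
    simp only [K, Submodule.mem_iInf, LinearMap.mem_ker]
  have hex : ∃ n : ℕ, ∃ F : Finset B, (∀ u ∈ F, ψ u = 0) ∧ Module.finrank E (K F) = n :=
    ⟨_, ∅, fun u hu => absurd hu (Finset.notMem_empty u), rfl⟩
  obtain ⟨F₀, hF₀, hn₀⟩ := Nat.find_spec hex
  obtain ⟨m, hm, hmF⟩ := exists_common_ker_finset φ ψ h F₀ hF₀
  have hker : ∀ u : B, ψ u = 0 → φ u m = 0 := by
    intro u hu
    have hF₁ : ∀ v ∈ insert u F₀, ψ v = 0 := by
      intro v hv
      rcases Finset.mem_insert.mp hv with rfl | hv
      · exact hu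
      · exact hF₀ v hv
    have hle : K (insert u F₀) ≤ K F₀ := by
      intro x hx
      rw [hmemK] at hx ⊢
      exact fun v hv => hx v (Finset.mem_insert_of_mem hv)
    have hmin : Nat.find hex ≤ Module.finrank E (K (insert u F₀)) :=
      Nat.find_min' hex ⟨insert u F₀, hF₁, rfl⟩
    have heq : K (insert u F₀) = K F₀ :=
      Submodule.eq_of_le_of_finrank_le hle (by rw [hn₀]; exact hmin)
    have hmK : m ∈ K (insert u F₀) := by
      rw [heq, hmemK]
      exact hmF
    exact (hmemK _ m).mp hmK u (Finset.mem_insert_self u F₀)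
  refine ⟨m, hm, fun b => ?_⟩
  have hu : ψ (b - algebraMap E B (ψ b)) = 0 := by
    rw [map_sub, AlgHom.commutes, Algebra.algebraMap_self_apply, sub_self]
  have := hker _ hu
  rw [map_sub, AlgHom.commutes, LinearMap.sub_apply, Module.algebraMap_end_apply, sub_eq_zero]
    at this
  exact this

end Core

section EigenSub

variable {R : Type*} [CommRing R] {M : Type*} [AddCommGroup M] [Module R M] {ι : Type*}

/-- the common eigenspace of a family of endomorphisms for the eigenvalues `χ` -/
def eigenSub (T : ι → Module.End R M) (χ : ι → R) : Submodule R M :=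
  ⨅ i, LinearMap.ker (T i - χ i • LinearMap.id)

theorem mem_eigenSub (T : ι → Module.End R M) (χ : ι → R) (m : M) :
    m ∈ eigenSub T χ ↔ ∀ i, T i m = χ i • m := by
  simp only [eigenSub, Submodule.mem_iInf, LinearMap.mem_ker, LinearMap.sub_apply,
    LinearMap.smul_apply, LinearMap.id_apply, sub_eq_zero]

/-- **(S)** the common eigenspace is stable under every map commuting with the family and with
scalars -/
theorem map_mem_eigenSub (T : ι → Module.End R M) (χ : ι → R) (g : M → M)
    (hgT : ∀ i m, g (T i m) = T i (g m)) (hgs : ∀ (c : R) (m : M), g (c • m) = c • g m)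
    {m : M} (hm : m ∈ eigenSub T χ) : g m ∈ eigenSub T χ := by
  rw [mem_eigenSub] at hm ⊢
  intro i
  rw [← hgT, hm i, hgs]

/-- **(S)** the common eigenspace is stable under every endomorphism commuting with the family -/
theorem end_mem_eigenSub (T : ι → Module.End R M) (χ : ι → R) (g : Module.End R M)
    (hg : ∀ i, Commute g (T i)) {m : M} (hm : m ∈ eigenSub T χ) : g m ∈ eigenSub T χ :=
  map_mem_eigenSub T χ g (fun i m => by
    rw [← Module.End.mul_apply, (hg i).eq, Module.End.mul_apply]) (fun c m => map_smul g c m) hm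

end EigenSub

end Fermat.Agent.Lib.EigenChar
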