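import Mathlib
import Fermat.Agent.Lib.EigenChar

/-!
# Common eigenvectors for a character: the lattice form

A commutative ring `A` acting on a finitely generated free `ℤ`-module `L`, a character
`ψ₀ : A →+* E` into a field of characteristic `0` vanishing on the kernel of the action:
then `E ⊗ L` (in any realisation `j : L → M` mapping a `ℤ`-basis to an `E`-independent family)
contains a common eigenvector with eigencharacter `ψ₀`.
-/

namespace Fermat.Agent.Lib.EigenCharLattice

open TensorProduct Fermat.Agent.Lib.EigenChar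

/-- a field of characteristic zero is flat over `ℤ` -/
theorem flat_int_of_charZero (E : Type*) [Field E] [CharZero E] : Module.Flat ℤ E := by
  rw [Module.Flat.flat_iff_torsion_eq_bot_of_isBezout, eq_bot_iff]
  intro x hx
  rw [Submodule.mem_torsion_iff] at hx
  obtain ⟨a, ha⟩ := hx
  rw [Submodule.mem_bot]
  have ha0 : (a : ℤ) ≠ 0 := nonZeroDivisors.coe_ne_zero a
  have h1 : ((a : ℤ) : E) * x = 0 := by
    rw [← ha]
    simp [Submonoid.smul_def, zsmul_eq_mul]
  rcases mul_eq_zero.mp h1 with h | h
  · exact absurd (Int.cast_eq_zero.mp h) ha0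
  · exact h

section MatrixForm

variable {E : Type*} [Field E] [CharZero E] {κ : Type*} [Fintype κ] [DecidableEq κ]
variable {A : Type*} [CommRing A]

/-- **Eigenvector for a character, integer matrices.** -/
theorem exists_eigenvector_matrix (act : A →+* Matrix κ κ ℤ) (ψ₀ : A →+* E)
    (h : ∀ a, act a = 0 → ψ₀ a = 0) :
    ∃ v : κ → E, v ≠ 0 ∧ ∀ a, ((act a).map (Int.cast : ℤ → E)).mulVec v = ψ₀ a • v := by
  have hflat : Module.Flat ℤ E := flat_int_of_charZero E
  -- pass to the quotient on which the action is faithful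
  let actb : (A ⧸ RingHom.ker act) →+* Matrix κ κ ℤ := RingHom.kerLift act
  have hactb : Function.Injective actb := RingHom.kerLift_injective act
  let ψb : (A ⧸ RingHom.ker act) →+* E :=
    Ideal.Quotient.lift (RingHom.ker act) ψ₀ (fun a ha => h a (RingHom.mem_ker.mp ha))
  let ψ : E ⊗[ℤ] (A ⧸ RingHom.ker act) →ₐ[E] E :=
    Algebra.TensorProduct.lift (AlgHom.id E E) ψb.toIntAlgHom (fun _ _ => Commute.all _ _)
  let Φ : E ⊗[ℤ] (A ⧸ RingHom.ker act) →ₐ[E] Matrix κ κ E :=
    Algebra.TensorProduct.lift (Algebra.ofId E (Matrix κ κ E))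
      (((Int.castRingHom E).mapMatrix.comp actb).toIntAlgHom)
      (fun c x => Algebra.commutes c _)
  have hΦ : ∀ x, Φ x = (matrixEquivTensor κ ℤ E).symm
      (LinearMap.lTensor E actb.toAddMonoidHom.toIntLinearMap x) := by
    intro x
    induction x using TensorProduct.induction_on with
    | zero => simp
    | tmul c a =>
      rw [LinearMap.lTensor_tmul, matrixEquivTensor_apply_symm]
      show Algebra.ofId E (Matrix κ κ E) c * ((Int.castRingHom E).mapMatrix (actb a)) = _
      rw [Algebra.ofId_apply, ← Algebra.smul_def]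
      rfl
    | add x y hx hy => rw [map_add, hx, hy, map_add, map_add]
  have hΦinj : Function.Injective Φ := by
    intro x y hxy
    rw [hΦ, hΦ] at hxy
    exact Module.Flat.lTensor_preserves_injective_linearMap _ hactb
      ((matrixEquivTensor κ ℤ E).symm.injective hxy)
  let φ : E ⊗[ℤ] (A ⧸ RingHom.ker act) →ₐ[E] Module.End E (κ → E) :=
    (Matrix.toLinAlgEquiv' : Matrix κ κ E ≃ₐ[E] Module.End E (κ → E)).toAlgHom.comp Φ
  have hker : ∀ b, φ b = 0 → ψ b = 0 := by
    intro b hb
    have h1 : Φ b = 0 := by
      apply (Matrix.toLinAlgEquiv' : Matrix κ κ E ≃ₐ[E] Module.End E (κ → E)).injective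
      rw [map_zero]
      exact hb
    have h2 : b = 0 := hΦinj (by rw [h1, map_zero])
    rw [h2, map_zero]
  obtain ⟨v, hv, hv'⟩ := exists_eigenvector φ ψ hker
  refine ⟨v, hv, fun a => ?_⟩
  have h1 := hv' ((1 : E) ⊗ₜ[ℤ] (Ideal.Quotient.mk (RingHom.ker act) a))
  have h2 : ψ ((1 : E) ⊗ₜ[ℤ] (Ideal.Quotient.mk (RingHom.ker act) a)) = ψ₀ a := by
    show (AlgHom.id E E) 1 * ψb (Ideal.Quotient.mk (RingHom.ker act) a) = ψ₀ a
    rw [AlgHom.id_apply, one_mul]
    rfl
  have h3 : Φ ((1 : E) ⊗ₜ[ℤ] (Ideal.Quotient.mk (RingHom.ker act) a))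
      = (act a).map (Int.cast : ℤ → E) := by
    show Algebra.ofId E (Matrix κ κ E) 1 * ((Int.castRingHom E).mapMatrix
      (actb (Ideal.Quotient.mk (RingHom.ker act) a))) = _
    rw [map_one, one_mul]
    rfl
  rw [h2] at h1
  rw [← h1]
  show _ = Matrix.toLinAlgEquiv' (Φ ((1 : E) ⊗ₜ[ℤ] (Ideal.Quotient.mk (RingHom.ker act) a))) v
  rw [h3]
  rfl

end MatrixForm

section LatticeForm

variable {E : Type*} [Field E] [CharZero E]
variable {L : Type*} [AddCommGroup L] {κ : Type*} [Fintype κ]
variable {A : Type*} [CommRing A]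
variable {M : Type*} [AddCommGroup M] [Module E M]

/-- **Eigenvector for a character, lattice form.**  `L` a free `ℤ`-module with finite basis `b`,
`A` a commutative ring acting on `L` through `act`, `ψ₀ : A →+* E` a character (char `E = 0`)
vanishing on the kernel of the action, `j : L →+ M` a realisation of `L` in an `E`-vector space
mapping the basis to an `E`-independent family.  Then the `E`-span of `j L` contains a common
eigenvector `m` with eigencharacter `ψ₀`: every endomorphism `f` of `M` extending the action of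
`a` satisfies `f m = ψ₀ a • m`. -/
theorem exists_eigenvector_lattice (b : Module.Basis κ ℤ L) (act : A →+* Module.End ℤ L)
    (ψ₀ : A →+* E) (h : ∀ a, act a = 0 → ψ₀ a = 0) (j : L →+ M)
    (hj : LinearIndependent E (fun k => j (b k))) :
    ∃ m : M, m ≠ 0 ∧ m ∈ Submodule.span E (Set.range j) ∧
      ∀ (a : A) (f : Module.End E M), (∀ x, f (j x) = j (act a x)) → f m = ψ₀ a • m := by
  classical
  let actM : A →+* Matrix κ κ ℤ :=
    (LinearMap.toMatrixAlgEquiv b : Module.End ℤ L ≃ₐ[ℤ] Matrix κ κ ℤ).toRingEquiv.toRingHom.comp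
      act
  have hactM : ∀ a, actM a = LinearMap.toMatrixAlgEquiv b (act a) := fun a => rfl
  have h' : ∀ a, actM a = 0 → ψ₀ a = 0 := by
    intro a ha
    apply h a
    apply (LinearMap.toMatrixAlgEquiv b : Module.End ℤ L ≃ₐ[ℤ] Matrix κ κ ℤ).injective
    rw [map_zero]
    exact ha
  obtain ⟨v, hv, hv'⟩ := exists_eigenvector_matrix actM ψ₀ h'
  refine ⟨∑ k, v k • j (b k), ?_, ?_, ?_⟩
  · intro h0
    apply hv
    funext k
    exact Fintype.linearIndependent_iff.mp hj v h0 k
  · exact Submodule.sum_mem _ fun k _ =>
      Submodule.smul_mem _ _ (Submodule.subset_span ⟨b k, rfl⟩)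
  · intro a f hf
    have hexp : ∀ k, j (act a (b k)) = ∑ l, ((actM a l k : ℤ) : E) • j (b l) := by
      intro k
      have h1 : act a (b k) = ∑ l, (actM a l k) • b l := by
        conv_lhs => rw [← b.sum_repr (act a (b k))]
        refine Finset.sum_congr rfl fun l _ => ?_
        rw [hactM, LinearMap.toMatrixAlgEquiv_apply]
      rw [h1, map_sum]
      refine Finset.sum_congr rfl fun l _ => ?_
      rw [map_zsmul, Int.cast_smul_eq_zsmul]
    have hmv : ∀ l, ∑ k, ((actM a l k : ℤ) : E) * v k = ψ₀ a * v l := by
      intro l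
      have := congrFun (hv' a) l
      simpa [Matrix.mulVec, dotProduct] using this
    rw [map_sum, Finset.smul_sum]
    calc ∑ k, f (v k • j (b k))
        = ∑ k, ∑ l, (((actM a l k : ℤ) : E) * v k) • j (b l) := by
          refine Finset.sum_congr rfl fun k _ => ?_
          rw [map_smul, hf, hexp, Finset.smul_sum]
          refine Finset.sum_congr rfl fun l _ => ?_
          rw [smul_smul, mul_comm]
      _ = ∑ l, (∑ k, ((actM a l k : ℤ) : E) * v k) • j (b l) := by
          rw [Finset.sum_comm]
          refine Finset.sum_congr rfl fun l _ => ?_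
          rw [Finset.sum_smul]
      _ = ∑ l, ψ₀ a • v l • j (b l) := by
          refine Finset.sum_congr rfl fun l _ => ?_
          rw [hmv, smul_smul]

/-- the lattice form for a given family of extensions `act' a` of the action -/
theorem exists_eigenvector_lattice' (b : Module.Basis κ ℤ L) (act : A →+* Module.End ℤ L)
    (ψ₀ : A →+* E) (h : ∀ a, act a = 0 → ψ₀ a = 0) (j : L →+ M)
    (hj : LinearIndependent E (fun k => j (b k)))
    (act' : A → Module.End E M) (hact' : ∀ a x, act' a (j x) = j (act a x)) :
    ∃ m : M, m ≠ 0 ∧ m ∈ Submodule.span E (Set.range j) ∧ ∀ a, act' a m = ψ₀ a • m := by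
  obtain ⟨m, hm, hms, hme⟩ := exists_eigenvector_lattice b act ψ₀ h j hj
  exact ⟨m, hm, hms, fun a => hme a (act' a) (hact' a)⟩

end LatticeForm

section IntCast

variable {E : Type*} [Field E] [CharZero E] {X κ : Type*}

/-- `ℤ`-linearly independent integer-valued functions are linearly independent over `ℚ` -/
theorem linearIndependent_ratCast (v : κ → X → ℤ) (hv : LinearIndependent ℤ v) :
    LinearIndependent ℚ (fun k => fun x => ((v k x : ℤ) : ℚ)) := by
  let f : (X → ℤ) →ₗ[ℤ] (X → ℚ) :=
    { toFun := fun u x => ((u x : ℤ) : ℚ)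
      map_add' := fun u u' => by funext x; simp
      map_smul' := fun c u => by funext x; simp }
  have hf : LinearMap.ker f = ⊥ := by
    rw [LinearMap.ker_eq_bot']
    intro u hu
    funext x
    have := congrFun hu x
    exact Int.cast_eq_zero.mp this
  have h1 : LinearIndependent ℤ (f ∘ v) := hv.map' f hf
  exact (LinearIndependent.iff_fractionRing ℤ ℚ).mp h1

/-- `ℤ`-linearly independent integer-valued functions are linearly independent over every field
of characteristic zero -/
theorem linearIndependent_intCast (v : κ → X → ℤ) (hv : LinearIndependent ℤ v) :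
    LinearIndependent E (fun k => fun x => ((v k x : ℤ) : E)) := by
  have hQ := linearIndependent_ratCast v hv
  rw [linearIndependent_iff'] at hQ ⊢
  intro s g hg k hk
  by_contra hgk
  obtain ⟨lam, hlam⟩ : ∃ lam : Module.Dual ℚ E, lam (g k) ≠ 0 := by
    by_contra hall
    exact hgk ((Module.forall_dual_apply_eq_zero_iff ℚ (g k)).mp
      fun φ => by_contra fun hφ => hall ⟨φ, hφ⟩)
  apply hlam
  refine hQ s (fun i => lam (g i)) ?_ k hk
  funext x
  have hx := congrFun hg x
  simp only [Finset.sum_apply, Pi.smul_apply, smul_eq_mul, Pi.zero_apply] at hx ⊢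
  have h2 : lam (∑ i ∈ s, g i * ((v i x : ℤ) : E)) = 0 := by rw [hx, map_zero]
  rw [map_sum] at h2
  rw [← h2]
  refine Finset.sum_congr rfl fun i _ => ?_
  have h3 : g i * ((v i x : ℤ) : E) = (v i x : ℤ) • g i := by
    rw [zsmul_eq_mul, mul_comm]
  rw [h3, map_zsmul, zsmul_eq_mul, mul_comm]

end IntCast

section EvalComm

variable {R : Type*} [CommRing R] {S : Type*} [Ring S] [Algebra R S] {ι : Type*}

open scoped IsMulCommutative in
/-- evaluation of multivariate polynomials at a commuting family of a (noncommutative) algebra -/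
noncomputable def evalComm (T : ι → S) (hT : ∀ i j, Commute (T i) (T j)) :
    MvPolynomial ι R →ₐ[R] S :=
  have := Algebra.isMulCommutative_adjoin R (s := Set.range T)
    (by rintro _ ⟨i, rfl⟩ _ ⟨j, rfl⟩; exact (hT i j).eq)
  (Algebra.adjoin R (Set.range T)).val.comp
    (MvPolynomial.aeval fun i =>
      (⟨T i, Algebra.subset_adjoin ⟨i, rfl⟩⟩ : Algebra.adjoin R (Set.range T)))

open scoped IsMulCommutative in
@[simp] theorem evalComm_X (T : ι → S) (hT : ∀ i j, Commute (T i) (T j)) (i : ι) :
    evalComm (R := R) T hT (MvPolynomial.X i) = T i := by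
  have := Algebra.isMulCommutative_adjoin R (s := Set.range T)
    (by rintro _ ⟨i, rfl⟩ _ ⟨j, rfl⟩; exact (hT i j).eq)
  show (Algebra.adjoin R (Set.range T)).val (MvPolynomial.aeval (fun i =>
      (⟨T i, Algebra.subset_adjoin ⟨i, rfl⟩⟩ : Algebra.adjoin R (Set.range T)))
        (MvPolynomial.X i)) = T i
  rw [MvPolynomial.aeval_X]
  rfl

@[simp] theorem evalComm_C (T : ι → S) (hT : ∀ i j, Commute (T i) (T j)) (r : R) :
    evalComm T hT (MvPolynomial.C r) = algebraMap R S r := by
  rw [← MvPolynomial.algebraMap_eq, AlgHom.commutes]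

/-- `evalComm T hT` is the only algebra homomorphism sending `X i` to `T i` -/
theorem evalComm_unique (T : ι → S) (hT : ∀ i j, Commute (T i) (T j))
    (g : MvPolynomial ι R →ₐ[R] S) (hg : ∀ i, g (MvPolynomial.X i) = T i) :
    g = evalComm T hT :=
  MvPolynomial.algHom_ext fun i => by rw [hg, evalComm_X]

/-- naturality of `evalComm` under algebra homomorphisms -/
theorem map_evalComm {S' : Type*} [Ring S'] [Algebra R S'] (f : S →ₐ[R] S') (T : ι → S)
    (hT : ∀ i j, Commute (T i) (T j)) (P : MvPolynomial ι R) :
    f (evalComm T hT P) = evalComm (fun i => f (T i)) (fun i j => (hT i j).map f) P := by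
  have h := evalComm_unique (fun i => f (T i)) (fun i j => (hT i j).map f)
    (f.comp (evalComm T hT)) (fun i => by rw [AlgHom.comp_apply, evalComm_X])
  exact AlgHom.congr_fun h P

/-- in a commutative algebra `evalComm` is `MvPolynomial.aeval` -/
theorem evalComm_eq_aeval {S' : Type*} [CommRing S'] [Algebra R S'] (T : ι → S')
    (hT : ∀ i j, Commute (T i) (T j)) : evalComm T hT = MvPolynomial.aeval (R := R) T :=
  (evalComm_unique T hT _ (fun i => MvPolynomial.aeval_X T i)).symm

/-- a linear map intertwining two commuting families intertwines their polynomials -/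
theorem evalComm_intertwine {L L' : Type*} [AddCommGroup L] [Module R L] [AddCommGroup L']
    [Module R L'] (g : L →ₗ[R] L') (T : ι → Module.End R L) (hT : ∀ i j, Commute (T i) (T j))
    (T' : ι → Module.End R L') (hT' : ∀ i j, Commute (T' i) (T' j))
    (h : ∀ i x, g (T i x) = T' i (g x)) (P : MvPolynomial ι R) (x : L) :
    g (evalComm T hT P x) = evalComm T' hT' P (g x) := by
  induction P using MvPolynomial.induction_on generalizing x with
  | C r =>
    rw [evalComm_C, evalComm_C, Module.algebraMap_end_apply, Module.algebraMap_end_apply,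
      map_smul]
  | add p q hp hq =>
    rw [map_add, map_add, LinearMap.add_apply, LinearMap.add_apply, map_add, hp, hq]
  | mul_X p i hp =>
    rw [map_mul, map_mul, evalComm_X, evalComm_X, Module.End.mul_apply, Module.End.mul_apply,
      hp, h]

/-- an additive map from a `ℤ`-module to an `E`-module intertwining two commuting families
intertwines their integral polynomials -/
theorem evalComm_intertwine_int {E : Type*} [CommRing E] {L L' : Type*} [AddCommGroup L]
    [AddCommGroup L'] [Module E L'] (g : L →+ L') (T : ι → Module.End ℤ L)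
    (hT : ∀ i j, Commute (T i) (T j)) (T' : ι → Module.End E L')
    (hT' : ∀ i j, Commute (T' i) (T' j)) (h : ∀ i x, g (T i x) = T' i (g x))
    (P : MvPolynomial ι ℤ) (x : L) :
    g (evalComm (R := ℤ) T hT P x) = evalComm (R := ℤ) T' hT' P (g x) := by
  induction P using MvPolynomial.induction_on generalizing x with
  | C r =>
    rw [evalComm_C, evalComm_C, Module.algebraMap_end_apply, eq_intCast, Module.End.intCast_apply,
      map_zsmul]
  | add p q hp hq =>
    rw [map_add, map_add, LinearMap.add_apply, LinearMap.add_apply, map_add, hp, hq]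
  | mul_X p i hp =>
    rw [map_mul, map_mul, evalComm_X, evalComm_X, Module.End.mul_apply, Module.End.mul_apply,
      hp, h]

end EvalComm

section PolyForm

variable {E : Type*} [Field E] [CharZero E]
variable {L : Type*} [AddCommGroup L] {κ : Type*} [Fintype κ]
variable {M : Type*} [AddCommGroup M] [Module E M] {ι : Type*}

/-- **Eigenvector for a character, lattice form, polynomial spelling.**  `T i` commuting
endomorphisms of the lattice `L`, `χ : ι → E` such that every integral polynomial relation among
the `T i` holds for the `χ i`; `T' i` endomorphisms of `M` extending the `T i` along `j`.  Then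
the `E`-span of `j L` contains a common eigenvector of the `T' i` with eigenvalues `χ i`. -/
theorem exists_eigenvector_lattice_poly (b : Module.Basis κ ℤ L) (T : ι → Module.End ℤ L)
    (hT : ∀ i i', Commute (T i) (T i')) (χ : ι → E)
    (h : ∀ P : MvPolynomial ι ℤ, evalComm T hT P = 0 →
      MvPolynomial.eval₂ (Int.castRingHom E) χ P = 0)
    (j : L →+ M) (hj : LinearIndependent E (fun k => j (b k)))
    (T' : ι → Module.End E M) (hT' : ∀ i x, T' i (j x) = j (T i x)) :
    ∃ m : M, m ≠ 0 ∧ m ∈ Submodule.span E (Set.range j) ∧ ∀ i, T' i m = χ i • m := by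
  obtain ⟨m, hm, hms, hme⟩ := exists_eigenvector_lattice b
    (evalComm (R := ℤ) T hT).toRingHom (MvPolynomial.eval₂Hom (Int.castRingHom E) χ) h j hj
  refine ⟨m, hm, hms, fun i => ?_⟩
  have h1 := hme (MvPolynomial.X i) (T' i) (fun x => by
    rw [hT' i x]
    show j (T i x) = j (evalComm (R := ℤ) T hT (MvPolynomial.X i) x)
    rw [evalComm_X])
  rw [h1]
  show MvPolynomial.eval₂ (Int.castRingHom E) χ (MvPolynomial.X i) • m = χ i • m
  rw [MvPolynomial.eval₂_X]

end PolyForm

end Fermat.Agent.Lib.EigenCharLattice
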