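import Mathlib
import Fermat.Prelude.Def_FLTPrelim_Modularity
import Fermat.Prelude.Def_FormalHecke_Eigensystem
import Fermat.Prelude.Def_ModularForm_HeckeOperatorForms
import Fermat.Prelude.Thm_ModularFormClass_qCoeff_heckeT
import Fermat.Prelude.Thm_ModularFormClass_qCoeff_heckeU
import Fermat.Prelude.Thm_CongruenceSubgroup_one_mem_strictPeriods_Gamma0

set_option autoImplicit false

namespace Fermat.Agent.Lib.EigenNormalize

section Seq

variable {R : Type*} [CommRing R]

/-- Hecke eigen-relations of a sequence `c` with eigenvalues `lam` and twist `e`. -/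
def SeqRel (e lam c : ℕ → R) : Prop :=
  ∀ ℓ : ℕ, ℓ.Prime → ∀ n : ℕ,
    c (ℓ * n) + e ℓ * (if ℓ ∣ n then c (n / ℓ) else 0) = lam ℓ * c n

theorem seqRel_prime {e lam c : ℕ → R} (h : SeqRel e lam c) (h1 : c 1 = 1)
    {ℓ : ℕ} (hℓ : ℓ.Prime) : c ℓ = lam ℓ := by
  have := h ℓ hℓ 1
  rw [if_neg (by simpa using hℓ.one_lt.ne'), mul_one, mul_zero, add_zero, h1, mul_one] at this
  exact this

theorem isEigensystem_of_seqRel {e lam c : ℕ → R} (h : SeqRel e lam c) (h1 : c 1 = 1) :
    FormalHecke.IsEigensystem e c := by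
  refine ⟨h1, fun ℓ hℓ n => ?_⟩
  rw [seqRel_prime h h1 hℓ]
  exact h ℓ hℓ n

theorem seqRel_of_isEigensystem {e a : ℕ → R} (h : FormalHecke.IsEigensystem e a) :
    SeqRel e a a := fun ℓ hℓ n => h.2 ℓ hℓ n

theorem seqRel_eq_zero {e lam c : ℕ → R} (h : SeqRel e lam c) (h1 : c 1 = 0) :
    ∀ n : ℕ, 1 ≤ n → c n = 0 := by
  intro n
  induction n using Nat.strong_induction_on with
  | _ n ih =>
    intro hn
    rcases Nat.lt_or_ge n 2 with h2 | h2
    · have : n = 1 := by omega
      rw [this, h1]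
    · have hp : (n.minFac).Prime := Nat.minFac_prime (by omega)
      obtain ⟨m, hm⟩ := Nat.minFac_dvd n
      have hm0 : 1 ≤ m := by
        rcases Nat.eq_zero_or_pos m with rfl | hpos
        · simp at hm; omega
        · exact hpos
      have hmn : m < n := by
        have := hp.one_lt
        nlinarith
      have hrel := h n.minFac hp m
      rw [← hm, ih m hmn hm0, mul_zero] at hrel
      by_cases hd : n.minFac ∣ m
      · rw [if_pos hd] at hrel
        have hq1 : 1 ≤ m / n.minFac := Nat.div_pos (Nat.le_of_dvd hm0 hd) hp.pos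
        have hq2 : m / n.minFac < n := lt_of_le_of_lt (Nat.div_le_self _ _) hmn
        rw [ih _ hq2 hq1, mul_zero, add_zero] at hrel
        exact hrel
      · rw [if_neg hd, mul_zero, add_zero] at hrel
        exact hrel

theorem isEigensystem_mul_coprime {e a : ℕ → R} (h : FormalHecke.IsEigensystem e a) :
    ∀ m n : ℕ, m.Coprime n → a (m * n) = a m * a n := by
  intro m
  induction m using Nat.strong_induction_on with
  | _ m ih =>
    intro n hmn
    rcases Nat.lt_or_ge m 2 with h2 | h2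
    · interval_cases m
      · have hn1 : n = 1 := by simpa using hmn
        subst hn1
        rw [h.1]; simp
      · rw [h.1]; simp
    · have hp : (m.minFac).Prime := Nat.minFac_prime (by omega)
      set ℓ := m.minFac with hℓdef
      obtain ⟨m', hm'⟩ := Nat.minFac_dvd m
      rw [← hℓdef] at hm'
      have hm'pos : 0 < m' := by
        rcases Nat.eq_zero_or_pos m' with rfl | hpos
        · simp at hm'; omega
        · exact hpos
      have hm'lt : m' < m := by
        have := hp.one_lt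
        nlinarith
      have hℓn : ¬ ℓ ∣ n := by
        intro hd
        have : ℓ ∣ Nat.gcd m n := Nat.dvd_gcd (Nat.minFac_dvd m) hd
        rw [hmn] at this
        exact hp.one_lt.ne' (Nat.dvd_one.mp this)
      have hcop' : m'.Coprime n := Nat.Coprime.coprime_dvd_left ⟨ℓ, by rw [hm', mul_comm]⟩ hmn
      have e1 := h.2 ℓ hp (m' * n)
      have e2 := h.2 ℓ hp m'
      have hmn_eq : m * n = ℓ * (m' * n) := by rw [hm', mul_assoc]
      rw [hmn_eq, hm']
      by_cases hd : ℓ ∣ m'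
      · obtain ⟨m'', hm''⟩ := hd
        have hm''lt : m'' < m := by
          have := hp.one_lt
          have : m'' ≤ m' := by rw [hm'']; exact Nat.le_mul_of_pos_left _ hp.pos
          omega
        have hcop'' : m''.Coprime n :=
          Nat.Coprime.coprime_dvd_left ⟨ℓ, by rw [hm'', mul_comm]⟩ hcop'
        have hd1 : ℓ ∣ m' * n := Dvd.dvd.mul_right ⟨m'', hm''⟩ n
        have hdiv1 : m' * n / ℓ = m'' * n := by
          rw [hm'', mul_assoc, Nat.mul_div_cancel_left _ hp.pos]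
        have hdiv2 : m' / ℓ = m'' := by
          rw [hm'', Nat.mul_div_cancel_left _ hp.pos]
        rw [if_pos hd1, hdiv1, ih m' hm'lt n hcop', ih m'' hm''lt n hcop''] at e1
        rw [if_pos ⟨m'', hm''⟩, hdiv2] at e2
        have e1' : a (ℓ * (m' * n)) = a ℓ * (a m' * a n) - e ℓ * (a m'' * a n) := by
          rw [← e1]; ring
        have e2' : a (ℓ * m') = a ℓ * a m' - e ℓ * a m'' := by
          rw [← e2]; ring
        rw [e1', e2']; ring
      · have hd1 : ¬ ℓ ∣ m' * n := by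
          intro hdd
          rcases (Nat.Prime.dvd_mul hp).mp hdd with h' | h'
          · exact hd h'
          · exact hℓn h'
        rw [if_neg hd1, mul_zero, add_zero, ih m' hm'lt n hcop'] at e1
        rw [if_neg hd, mul_zero, add_zero] at e2
        rw [e1, e2]; ring

theorem isEigensystem_prime_pow {e a : ℕ → R} (h : FormalHecke.IsEigensystem e a)
    (ℓ r : ℕ) (hℓ : ℓ.Prime) :
    a (ℓ ^ (r + 2)) = a ℓ * a (ℓ ^ (r + 1)) - e ℓ * a (ℓ ^ r) := by
  have e1 := h.2 ℓ hℓ (ℓ ^ (r + 1))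
  have hd : ℓ ∣ ℓ ^ (r + 1) := dvd_pow_self ℓ (by omega)
  have hdiv : ℓ ^ (r + 1) / ℓ = ℓ ^ r := by
    rw [pow_succ, Nat.mul_div_cancel _ hℓ.pos]
  rw [if_pos hd, hdiv] at e1
  have : ℓ ^ (r + 2) = ℓ * ℓ ^ (r + 1) := by ring
  rw [this, ← e1]; ring

theorem isRecursive_of_isEigensystem {e a : ℕ → R} (h : FormalHecke.IsEigensystem e a) :
    FormalHecke.IsRecursive e a :=
  ⟨h.1, isEigensystem_mul_coprime h, fun ℓ r hℓ => isEigensystem_prime_pow h ℓ r hℓ⟩

end Seq

section Forms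

open ModularFormClass CongruenceSubgroup

variable {N : ℕ}

theorem qCoeff_smul (a : ℂ) (g : CuspForm (Gamma0 N) 2) (n : ℕ) :
    qCoeff (⇑(a • g)) n = a * qCoeff (⇑g) n := by
  have h := ModularForm.qExpansion_smul one_pos (one_mem_strictPeriods_Gamma0 N) a g
  show (UpperHalfPlane.qExpansion 1 ⇑(a • g)).coeff n = a * (UpperHalfPlane.qExpansion 1 ⇑g).coeff n
  have hc : ⇑(a • g) = a • ⇑g := rfl
  rw [hc, h]
  simp

theorem qCoeff_zero (g : CuspForm (Gamma0 N) 2) : qCoeff (⇑g) 0 = 0 :=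
  CuspFormClass.qExpansion_coeff_zero g one_pos (one_mem_strictPeriods_Gamma0 N)

theorem eq_zero_of_qCoeff_eq_zero (g : CuspForm (Gamma0 N) 2)
    (h : ∀ n : ℕ, qCoeff (⇑g) n = 0) : g = 0 := by
  have hzero : (ModularFormClass.modularForm g : ModularForm (Gamma0 N) 2) = 0 := by
    rw [← ModularForm.qExpansion_eq_zero_iff one_pos (one_mem_strictPeriods_Gamma0 N)]
    ext n
    have := h n
    simp only [qCoeff] at this
    simpa using this
  ext z
  have hz := congrArg (fun g : ModularForm _ _ => g z) hzero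
  simpa using hz

theorem qCoeff_heckeTLin (g : CuspForm (Gamma0 N) 2) {ℓ : ℕ} (hℓ : ℓ.Prime) (hℓN : ¬ ℓ ∣ N)
    (n : ℕ) :
    qCoeff (⇑(CuspForm.heckeTLin 2 hℓ hℓN g)) n =
      qCoeff (⇑g) (ℓ * n) + (ℓ : ℂ) * (if ℓ ∣ n then qCoeff (⇑g) (n / ℓ) else 0) := by
  rw [CuspForm.coe_heckeTLin_apply,
    ModularFormClass.qCoeff_heckeT g (one_mem_strictPeriods_Gamma0 N) hℓ.ne_zero,
    ModularForm.coeffHeckeT_apply, mul_comm n ℓ]
  split_ifs <;> simp

theorem qCoeff_heckeULin [NeZero N] (g : CuspForm (Gamma0 N) 2) {q : ℕ} (hq : q.Prime)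
    (hqN : q ∣ N) (n : ℕ) :
    qCoeff (⇑(CuspForm.heckeULin 2 hqN g)) n = qCoeff (⇑g) (q * n) := by
  rw [CuspForm.coe_heckeULin_apply,
    ModularFormClass.qCoeff_heckeU g (one_mem_strictPeriods_Gamma0 N) hq.ne_zero,
    ModularForm.coeffHeckeU_apply, mul_comm n q]

/-- A nonzero simultaneous eigenvector of all `T_ℓ` (`ℓ ∤ N`) and `U_q` (`q ∣ N`) can be
normalised to a normalised eigenform whose prime coefficients are the eigenvalues. -/
theorem exists_normalizedEigenform_of_hecke_eigen [NeZero N]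
    (g : CuspForm (Gamma0 N) 2) (hg : g ≠ 0) (lam : ℕ → ℂ)
    (hT : ∀ (ℓ : ℕ) (hℓ : ℓ.Prime) (hℓN : ¬ ℓ ∣ N),
      CuspForm.heckeTLin 2 hℓ hℓN g = lam ℓ • g)
    (hU : ∀ (q : ℕ) (_ : q.Prime) (hqN : q ∣ N), CuspForm.heckeULin 2 hqN g = lam q • g) :
    ∃ f : CuspForm (Gamma0 N) 2, f.IsNormalizedEigenform ∧
      ∀ ℓ : ℕ, ℓ.Prime → qCoeff (⇑f) ℓ = lam ℓ := by
  classical
  set e : ℕ → ℂ := fun ℓ => if ℓ ∣ N then 0 else (ℓ : ℂ) with he
  have hrel : SeqRel e lam (qCoeff ⇑g) := by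
    intro ℓ hℓ n
    by_cases hℓN : ℓ ∣ N
    · have h := congrArg (fun F : CuspForm (Gamma0 N) 2 => qCoeff (⇑F) n) (hU ℓ hℓ hℓN)
      simp only [qCoeff_heckeULin g hℓ hℓN, qCoeff_smul] at h
      simp only [he, if_pos hℓN, zero_mul, add_zero]
      exact h
    · have h := congrArg (fun F : CuspForm (Gamma0 N) 2 => qCoeff (⇑F) n) (hT ℓ hℓ hℓN)
      simp only [qCoeff_heckeTLin g hℓ hℓN, qCoeff_smul] at h
      simp only [he, if_neg hℓN]
      exact h
  have h1 : qCoeff (⇑g) 1 ≠ 0 := by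
    intro h0
    apply hg
    apply eq_zero_of_qCoeff_eq_zero
    intro n
    rcases n with _ | n
    · exact qCoeff_zero g
    · exact seqRel_eq_zero hrel h0 (n + 1) (by omega)
  set f : CuspForm (Gamma0 N) 2 := (qCoeff (⇑g) 1)⁻¹ • g with hf
  have hrel' : SeqRel e lam (qCoeff ⇑f) := by
    intro ℓ hℓ n
    have h := hrel ℓ hℓ n
    simp only [hf, qCoeff_smul]
    split_ifs at h ⊢
    · linear_combination (qCoeff (⇑g) 1)⁻¹ * h
    · linear_combination (qCoeff (⇑g) 1)⁻¹ * h
  have h1' : qCoeff (⇑f) 1 = 1 := by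
    rw [hf, qCoeff_smul]
    exact inv_mul_cancel₀ h1
  have hE := isEigensystem_of_seqRel hrel' h1'
  have hR := isRecursive_of_isEigensystem hE
  refine ⟨f, ⟨h1', hR.2.1, ?_, ?_⟩, fun ℓ hℓ => seqRel_prime hrel' h1' hℓ⟩
  · intro p r hp hpN
    have h := hR.2.2 p r hp
    simp only [he, if_neg hpN] at h
    exact h
  · intro p r hp hpN
    have h := hR.2.2 p r hp
    simp only [he, if_pos hpN, zero_mul, sub_zero] at h
    exact h

end Forms

end Fermat.Agent.Lib.EigenNormalize
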