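import Mathlib

/-!
# Trace formula for the eigenspace of a character

For a finite group `G` acting linearly on a finite-dimensional vector space `V` over a field `F`
(via `ρ : G →* Module.End F V`) and a character `ψ : G →* Fˣ`, the `ψ`-eigenspace
`eigenSub ρ ψ = {v | ∀ g, ρ g v = ψ g • v}` satisfies

  `(card G : F) * finrank (eigenSub ρ ψ) = ∑ g, (ψ g)⁻¹ * trace (ρ g)`

provided `card G` is invertible in `F` (projector `(card G)⁻¹ ∑ g, (ψ g)⁻¹ • ρ g`).
-/

namespace Fermat.Agent.Lib.EigenTrace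

open Module LinearMap

variable {F : Type*} [Field F] {V : Type*} [AddCommGroup V] [Module F V]
  {G : Type*} [Group G]

/-- The `ψ`-eigenspace of a linear action `ρ`. -/
def eigenSub (ρ : G →* Module.End F V) (ψ : G →* Fˣ) : Submodule F V where
  carrier := {v | ∀ g, ρ g v = (ψ g : F) • v}
  add_mem' := by
    intro a b ha hb g
    simp only [Set.mem_ofPred_eq] at ha hb
    rw [map_add, ha g, hb g, smul_add]
  zero_mem' := by
    intro g
    simp
  smul_mem' := by
    intro c v hv g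
    simp only [Set.mem_ofPred_eq] at hv
    rw [map_smul, hv g, smul_comm]

theorem mem_eigenSub {ρ : G →* Module.End F V} {ψ : G →* Fˣ} {v : V} :
    v ∈ eigenSub ρ ψ ↔ ∀ g, ρ g v = (ψ g : F) • v := Iff.rfl

variable [Fintype G]

/-- The averaging operator `(card G)⁻¹ ∑ g, (ψ g)⁻¹ • ρ g`. -/
noncomputable def eigenProj (ρ : G →* Module.End F V) (ψ : G →* Fˣ) : V →ₗ[F] V :=
  (Fintype.card G : F)⁻¹ • ∑ g : G, (((ψ g)⁻¹ : Fˣ) : F) • ρ g

theorem eigenProj_apply (ρ : G →* Module.End F V) (ψ : G →* Fˣ) (v : V) :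
    eigenProj ρ ψ v = (Fintype.card G : F)⁻¹ • ∑ g : G, (((ψ g)⁻¹ : Fˣ) : F) • ρ g v := by
  simp [eigenProj, LinearMap.sum_apply]

theorem eigenProj_mem (ρ : G →* Module.End F V) (ψ : G →* Fˣ) (v : V) :
    eigenProj ρ ψ v ∈ eigenSub ρ ψ := by
  intro h
  rw [eigenProj_apply, map_smul, map_sum, smul_comm]
  congr 1
  rw [Finset.smul_sum]
  refine Fintype.sum_equiv (Equiv.mulLeft h) _ _ fun g => ?_
  simp only [Equiv.coe_mulLeft, map_mul, map_smul, Module.End.mul_apply]
  rw [smul_smul]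
  congr 1
  rw [mul_inv_rev, Units.val_mul, ← mul_assoc, ← Units.val_mul, ← Units.val_mul]
  congr 1
  rw [mul_comm (ψ h), mul_assoc, mul_inv_cancel, mul_one]

theorem eigenProj_of_mem (ρ : G →* Module.End F V) (ψ : G →* Fˣ)
    (hG : (Fintype.card G : F) ≠ 0) {v : V} (hv : v ∈ eigenSub ρ ψ) :
    eigenProj ρ ψ v = v := by
  rw [eigenProj_apply]
  have : ∀ g : G, (((ψ g)⁻¹ : Fˣ) : F) • ρ g v = v := by
    intro g
    rw [hv g, smul_smul, ← Units.val_mul, inv_mul_cancel, Units.val_one, one_smul]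
  rw [Finset.sum_congr rfl fun g _ => this g, Finset.sum_const, Finset.card_univ,
    ← Nat.cast_smul_eq_nsmul F, smul_smul, inv_mul_cancel₀ hG, one_smul]

theorem eigenProj_isProj (ρ : G →* Module.End F V) (ψ : G →* Fˣ)
    (hG : (Fintype.card G : F) ≠ 0) : LinearMap.IsProj (eigenSub ρ ψ) (eigenProj ρ ψ) :=
  ⟨eigenProj_mem ρ ψ, fun _ hv => eigenProj_of_mem ρ ψ hG hv⟩

/-- **Trace formula for the multiplicity of a character.** -/
theorem card_mul_finrank_eigenSub [FiniteDimensional F V] (ρ : G →* Module.End F V)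
    (ψ : G →* Fˣ) (hG : (Fintype.card G : F) ≠ 0) :
    (Fintype.card G : F) * (finrank F (eigenSub ρ ψ) : F) =
      ∑ g : G, (((ψ g)⁻¹ : Fˣ) : F) * LinearMap.trace F V (ρ g) := by
  have h := (eigenProj_isProj ρ ψ hG).trace
  rw [← h, eigenProj, map_smul, map_sum, smul_eq_mul, ← mul_assoc, mul_inv_cancel₀ hG, one_mul]
  simp

end Fermat.Agent.Lib.EigenTrace
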