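import Mathlib

/-!
# Eisenstein series of weight 4 with a character of a subgroup of `SL(2, ℤ)`

(P5, block [EIS] = step 4a of Directive 6; Mathlib only.)

For a subgroup `Γ ≤ SL(2, ℤ)` and a character `ψ : Γ →* ℂˣ` which is trivial on the elements of
trace `±2` (i.e. on `±1` and on the parabolic elements; for `ψ = e(φ/n)` this is the Prelude's
`IsParabolicHom`) and has values of absolute value `1`, the series

`E_ψ(τ) = (1/2) ∑_{(c, d) bottom row of γ ∈ Γ} ψ(γ)⁻¹ (c τ + d)⁻⁴`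

(`eisChar Γ ψ`) converges absolutely and locally uniformly, and

* `mdifferentiable_eisChar`   : `E_ψ` is holomorphic on `ℍ`;
* `eisChar_smul`              : `E_ψ(γ τ) = ψ(γ) (c τ + d)⁴ E_ψ(τ)` for `γ ∈ Γ`;
* `tendsto_eisChar`           : `E_ψ → 1` at `i∞` (if `-1 ∈ Γ ⊇ Γ(N)`);
* `isBoundedAtImInfty_slash`  : every translate `E_ψ ∣[4] γ₁`, `γ₁ ∈ SL(2, ℤ)`, is bounded at `i∞`;
* `slash_vadd`                : every translate is `N`-periodic (if `Γ(N) ≤ Γ`).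

The general tool is `wsum w`, the sum `∑_v w(v) (v₀ τ + v₁)⁻⁴` over `ℤ²` for a coefficient
function `w` bounded by `1`.
-/

set_option autoImplicit false

noncomputable section

namespace Fermat.Agent.Lib.EisChar

open UpperHalfPlane ModularForm Filter Topology EisensteinSeries Matrix
open scoped MatrixGroups Manifold

/-! ### Right multiplication of row vectors by `SL(2, ℤ)` -/

/-- `v ↦ v ᵥ* γ` as a permutation of `ℤ²`. -/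
def vecMulEquiv (γ : SL(2, ℤ)) : (Fin 2 → ℤ) ≃ (Fin 2 → ℤ) where
  toFun v := v ᵥ* (γ : Matrix (Fin 2) (Fin 2) ℤ)
  invFun v := v ᵥ* ((γ⁻¹ : SL(2, ℤ)) : Matrix (Fin 2) (Fin 2) ℤ)
  left_inv v := by
    simp_rw [vecMul_vecMul, ← Matrix.SpecialLinearGroup.coe_mul, mul_inv_cancel,
      Matrix.SpecialLinearGroup.coe_one, vecMul_one]
  right_inv v := by
    simp_rw [vecMul_vecMul, ← Matrix.SpecialLinearGroup.coe_mul, inv_mul_cancel,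
      Matrix.SpecialLinearGroup.coe_one, vecMul_one]

@[simp] theorem vecMulEquiv_apply (γ : SL(2, ℤ)) (v : Fin 2 → ℤ) :
    vecMulEquiv γ v = v ᵥ* (γ : Matrix (Fin 2) (Fin 2) ℤ) := rfl

theorem vecMul_vecMul_inv (γ : SL(2, ℤ)) (v : Fin 2 → ℤ) :
    (v ᵥ* (γ : Matrix (Fin 2) (Fin 2) ℤ)) ᵥ* ((γ⁻¹ : SL(2, ℤ)) : Matrix (Fin 2) (Fin 2) ℤ) = v :=
  (vecMulEquiv γ).left_inv v

theorem vecMul_inv_vecMul (γ : SL(2, ℤ)) (v : Fin 2 → ℤ) :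
    (v ᵥ* ((γ⁻¹ : SL(2, ℤ)) : Matrix (Fin 2) (Fin 2) ℤ)) ᵥ* (γ : Matrix (Fin 2) (Fin 2) ℤ) = v :=
  (vecMulEquiv γ).right_inv v

theorem vecMul_mul (γ δ : SL(2, ℤ)) (v : Fin 2 → ℤ) :
    v ᵥ* ((γ * δ : SL(2, ℤ)) : Matrix (Fin 2) (Fin 2) ℤ) =
      (v ᵥ* (γ : Matrix (Fin 2) (Fin 2) ℤ)) ᵥ* (δ : Matrix (Fin 2) (Fin 2) ℤ) := by
  rw [vecMul_vecMul, Matrix.SpecialLinearGroup.coe_mul]

/-! ### Weighted lattice sums of weight 4 -/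

/-- The weighted lattice sum `∑_v w(v) (v₀ τ + v₁)⁻⁴`. -/
def wsum (w : (Fin 2 → ℤ) → ℂ) (z : ℍ) : ℂ := ∑' v : Fin 2 → ℤ, w v * eisSummand 4 v z

theorem norm_term_le {w : (Fin 2 → ℤ) → ℂ} (hw : ∀ v, ‖w v‖ ≤ 1) (v : Fin 2 → ℤ) (z : ℍ) :
    ‖w v * eisSummand 4 v z‖ ≤ ‖eisSummand 4 v z‖ := by
  rw [norm_mul]
  exact mul_le_of_le_one_left (norm_nonneg _) (hw v)

theorem summable_norm_term {w : (Fin 2 → ℤ) → ℂ} (hw : ∀ v, ‖w v‖ ≤ 1) (z : ℍ) :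
    Summable fun v : Fin 2 → ℤ => ‖w v * eisSummand 4 v z‖ :=
  (summable_norm_eisSummand (k := 4) (by norm_num) z).of_nonneg_of_le
    (fun _ => norm_nonneg _) (fun v => norm_term_le hw v z)

theorem summable_term {w : (Fin 2 → ℤ) → ℂ} (hw : ∀ v, ‖w v‖ ≤ 1) (z : ℍ) :
    Summable fun v : Fin 2 → ℤ => w v * eisSummand 4 v z :=
  (summable_norm_term hw z).of_norm

/-- The majorant on a vertical strip. -/
theorem norm_term_le_strip {w : (Fin 2 → ℤ) → ℂ} (hw : ∀ v, ‖w v‖ ≤ 1) (v : Fin 2 → ℤ)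
    {A B : ℝ} (hB : 0 < B) {z : ℍ} (hz : z ∈ verticalStrip A B) :
    ‖w v * eisSummand 4 v z‖ ≤ r ⟨⟨A, B⟩, hB⟩ ^ (-4 : ℝ) * ‖v‖ ^ (-4 : ℝ) := by
  refine (norm_term_le hw v z).trans ?_
  have h := summand_bound_of_mem_verticalStrip (k := 4) (by norm_num) v hB hz
  simp only [eisSummand, norm_zpow]
  have h2 : ‖(v 0 : ℂ) * (z : ℂ) + (v 1 : ℂ)‖ ^ (-4 : ℤ) =
      ‖(v 0 : ℂ) * (z : ℂ) + (v 1 : ℂ)‖ ^ (-4 : ℝ) := by
    rw [← Real.rpow_intCast]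
    norm_num
  rw [h2]
  exact h

theorem summable_majorant (c : ℝ) : Summable fun v : Fin 2 → ℤ => c * ‖v‖ ^ (-4 : ℝ) :=
  (summable_one_div_norm_rpow (k := 4) (by norm_num)).mul_left c

/-- Bound of `wsum w` on a vertical strip. -/
theorem norm_wsum_le_strip {w : (Fin 2 → ℤ) → ℂ} (hw : ∀ v, ‖w v‖ ≤ 1)
    {A B : ℝ} (hB : 0 < B) {z : ℍ} (hz : z ∈ verticalStrip A B) :
    ‖wsum w z‖ ≤ ∑' v : Fin 2 → ℤ, r ⟨⟨A, B⟩, hB⟩ ^ (-4 : ℝ) * ‖v‖ ^ (-4 : ℝ) := by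
  refine (norm_tsum_le_tsum_norm (summable_norm_term hw z)).trans ?_
  exact (summable_norm_term hw z).tsum_le_tsum (fun v => norm_term_le_strip hw v hB hz)
    (summable_majorant _)

/-- `wsum w` is the locally uniform limit of its partial sums. -/
theorem tendstoLocallyUniformly_wsum {w : (Fin 2 → ℤ) → ℂ} (hw : ∀ v, ‖w v‖ ≤ 1) :
    TendstoLocallyUniformly
      (fun (s : Finset (Fin 2 → ℤ)) => (fun z : ℍ => ∑ v ∈ s, w v * eisSummand 4 v z))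
      (wsum w) Filter.atTop := by
  rw [tendstoLocallyUniformly_iff_forall_isCompact]
  intro K hK
  obtain ⟨A, B, hB, HABK⟩ := subset_verticalStrip_of_isCompact hK
  exact (tendstoUniformlyOn_tsum (hu := summable_majorant (r ⟨⟨A, B⟩, hB⟩ ^ (-4 : ℝ)))
    (fun v z hz => norm_term_le_strip hw v hB hz)).mono HABK

theorem tendstoLocallyUniformlyOn_wsum {w : (Fin 2 → ℤ) → ℂ} (hw : ∀ v, ‖w v‖ ≤ 1) :
    TendstoLocallyUniformlyOn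
      (fun (s : Finset (Fin 2 → ℤ)) =>
        (fun z : ℍ => ∑ v ∈ s, w v * eisSummand 4 v z) ∘ (ofComplex : ℂ → ℍ))
      (wsum w ∘ (ofComplex : ℂ → ℍ)) Filter.atTop {z : ℂ | 0 < z.im} := by
  rw [← upperHalfPlaneSet, ← range_coe, ← Set.image_univ]
  apply TendstoLocallyUniformlyOn.comp (s := ⊤) _ _ _ (OpenPartialHomeomorph.continuousOn_symm _)
  · simp only [Set.top_eq_univ, tendstoLocallyUniformlyOn_univ]
    exact tendstoLocallyUniformly_wsum hw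
  · simp only [IsOpenEmbedding.toOpenPartialHomeomorph_target, Set.top_eq_univ,
      Set.mapsTo_range_iff, Set.mem_univ, forall_const]

/-- `wsum w` is holomorphic on `ℍ`. -/
theorem mdifferentiable_wsum {w : (Fin 2 → ℤ) → ℂ} (hw : ∀ v, ‖w v‖ ≤ 1) :
    MDifferentiable 𝓘(ℂ) 𝓘(ℂ) (wsum w) := by
  rw [UpperHalfPlane.mdifferentiable_iff]
  refine (tendstoLocallyUniformlyOn_wsum hw).differentiableOn
    (Eventually.of_forall fun s => ?_) isOpen_upperHalfPlaneSet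
  have h : ((fun z : ℍ => ∑ v ∈ s, w v * eisSummand 4 v z) ∘ (ofComplex : ℂ → ℍ)) =
      fun z : ℂ => ∑ v ∈ s, w v * (eisSummand 4 v ∘ (ofComplex : ℂ → ℍ)) z := by
    funext z
    simp
  rw [h]
  exact DifferentiableOn.fun_sum fun v _ =>
    (eisSummand_extension_differentiableOn 4 v).const_mul (w v)

/-! ### Transformation of weighted sums -/

/-- Transformation of `wsum` under `SL(2, ℤ)`. -/
theorem wsum_smul (w : (Fin 2 → ℤ) → ℂ) (γ : SL(2, ℤ)) (z : ℍ) :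
    wsum w (γ • z) = denom γ z ^ (4 : ℤ) *
      wsum (fun v => w (v ᵥ* ((γ⁻¹ : SL(2, ℤ)) : Matrix (Fin 2) (Fin 2) ℤ))) z := by
  unfold wsum
  have h := (vecMulEquiv γ).tsum_eq
    (fun v' => w (v' ᵥ* ((γ⁻¹ : SL(2, ℤ)) : Matrix (Fin 2) (Fin 2) ℤ)) * eisSummand 4 v' z)
  rw [← h, ← tsum_mul_left]
  refine tsum_congr fun v => ?_
  rw [eisSummand_SL2_apply, vecMulEquiv_apply, vecMul_vecMul_inv]
  ring

/-- The slash action on `wsum`. -/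
theorem wsum_slash (w : (Fin 2 → ℤ) → ℂ) (γ : SL(2, ℤ)) :
    wsum w ∣[(4 : ℤ)] γ =
      wsum (fun v => w (v ᵥ* ((γ⁻¹ : SL(2, ℤ)) : Matrix (Fin 2) (Fin 2) ℤ))) := by
  funext z
  rw [SL_slash_apply, wsum_smul, _root_.zpow_neg, mul_comm, ← mul_assoc,
    inv_mul_cancel₀ (zpow_ne_zero _ (denom_ne_zero γ z)), one_mul]

theorem wsum_const_mul (c : ℂ) (w : (Fin 2 → ℤ) → ℂ) (z : ℍ) :
    wsum (fun v => c * w v) z = c * wsum w z := by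
  unfold wsum
  rw [← tsum_mul_left]
  exact tsum_congr fun v => mul_assoc _ _ _

theorem denom_T_zpow (m : ℤ) (z : ℍ) : denom ((ModularGroup.T ^ m : SL(2, ℤ))) z = 1 := by
  rw [ModularGroup.denom_apply, ModularGroup.coe_T_zpow]
  simp

/-- A weighted sum whose coefficients are invariant under `T ^ m` is invariant under
`z ↦ z + m`. -/
theorem wsum_T_zpow_smul (w : (Fin 2 → ℤ) → ℂ) (m : ℤ)
    (hinv : ∀ v, w (v ᵥ* (((ModularGroup.T ^ m)⁻¹ : SL(2, ℤ)) : Matrix (Fin 2) (Fin 2) ℤ)) = w v)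
    (z : ℍ) : wsum w (ModularGroup.T ^ m • z) = wsum w z := by
  rw [wsum_smul, denom_T_zpow, _root_.one_zpow, one_mul]
  congr 1
  funext v
  exact hinv v

/-- A periodic weighted sum with bounded coefficients is bounded at `i∞`. -/
theorem isBoundedAtImInfty_wsum {w : (Fin 2 → ℤ) → ℂ} (hw : ∀ v, ‖w v‖ ≤ 1) (N : ℕ) [NeZero N]
    (hper : ∀ (n : ℤ) (z : ℍ), wsum w (ModularGroup.T ^ ((N : ℤ) * n) • z) = wsum w z) :
    IsBoundedAtImInfty (wsum w) := by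
  rw [UpperHalfPlane.isBoundedAtImInfty_iff]
  refine ⟨∑' v : Fin 2 → ℤ, r ⟨⟨N, 1⟩, one_pos⟩ ^ (-4 : ℝ) * ‖v‖ ^ (-4 : ℝ), 1, fun z hz => ?_⟩
  obtain ⟨n, hn⟩ := ModularGroup_T_zpow_mem_verticalStrip z (NeZero.pos N)
  rw [← hper n z]
  exact norm_wsum_le_strip hw one_pos (verticalStrip_anti_right N hz hn)

/-! ### The coefficient function of a character -/

/-- The bottom row of a matrix of `SL(2, ℤ)`. -/
def row (γ : SL(2, ℤ)) : Fin 2 → ℤ := (γ : Matrix (Fin 2) (Fin 2) ℤ) 1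

theorem row_mul (γ δ : SL(2, ℤ)) :
    row (γ * δ) = row γ ᵥ* (δ : Matrix (Fin 2) (Fin 2) ℤ) := by
  unfold row
  rw [Matrix.SpecialLinearGroup.coe_mul, Matrix.mul_apply_eq_vecMul]

theorem row_one : row 1 = ![0, 1] := by
  unfold row
  rw [Matrix.SpecialLinearGroup.coe_one]
  funext i
  fin_cases i <;> simp [Matrix.one_apply]

/-- A matrix of `SL(2, ℤ)` with bottom row `(0, 1)` has trace `2`. -/
theorem trace_of_row_eq {δ : SL(2, ℤ)} (h : row δ = ![0, 1]) :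
    (δ : Matrix (Fin 2) (Fin 2) ℤ).trace = 2 := by
  have h0 : (δ : Matrix (Fin 2) (Fin 2) ℤ) 1 0 = 0 := by
    have := congrFun h 0
    simpa [row] using this
  have h1 : (δ : Matrix (Fin 2) (Fin 2) ℤ) 1 1 = 1 := by
    have := congrFun h 1
    simpa [row] using this
  have hdet := δ.det_coe
  rw [Matrix.det_fin_two, h0, h1] at hdet
  rw [Matrix.trace_fin_two, h1]
  linarith

variable (Γ : Subgroup SL(2, ℤ)) (ψ : Γ →* ℂˣ)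

/-- `ψ` is trivial on the elements of trace `±2` (`±1` and the parabolic elements). -/
def IsPar : Prop :=
  ∀ γ : Γ, ((γ : SL(2, ℤ)) : Matrix (Fin 2) (Fin 2) ℤ).trace ^ 2 = 4 → ψ γ = 1

variable {Γ ψ}

theorem IsPar.eq_of_row_eq (hpar : IsPar Γ ψ) {γ γ' : Γ}
    (h : row (γ : SL(2, ℤ)) = row (γ' : SL(2, ℤ))) : ψ γ = ψ γ' := by
  have h1 : row (((γ * γ'⁻¹ : Γ) : SL(2, ℤ))) = ![0, 1] := by
    rw [Subgroup.coe_mul, row_mul, h, ← row_mul, Subgroup.coe_inv, mul_inv_cancel, row_one]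
  have h2 : ψ (γ * γ'⁻¹) = 1 := by
    apply hpar
    rw [trace_of_row_eq h1]
    norm_num
  rw [map_mul, map_inv, mul_inv_eq_one] at h2
  exact h2

variable (Γ ψ)

open Classical in
/-- The coefficient of the bottom row `v`: `ψ(γ)⁻¹` if `v` is the bottom row of `γ ∈ Γ`, else
`0`. -/
def coeff (v : Fin 2 → ℤ) : ℂ :=
  if h : ∃ γ : Γ, row (γ : SL(2, ℤ)) = v then (((ψ h.choose)⁻¹ : ℂˣ) : ℂ) else 0

variable {Γ ψ}

theorem coeff_row (hpar : IsPar Γ ψ) (γ : Γ) :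
    coeff Γ ψ (row (γ : SL(2, ℤ))) = (((ψ γ)⁻¹ : ℂˣ) : ℂ) := by
  have h : ∃ γ' : Γ, row (γ' : SL(2, ℤ)) = row (γ : SL(2, ℤ)) := ⟨γ, rfl⟩
  unfold coeff
  rw [dif_pos h, hpar.eq_of_row_eq h.choose_spec]

theorem coeff_of_not_row {v : Fin 2 → ℤ} (h : ¬ ∃ γ : Γ, row (γ : SL(2, ℤ)) = v) :
    coeff Γ ψ v = 0 := by
  unfold coeff
  rw [dif_neg h]

theorem coeff_vecMul (hpar : IsPar Γ ψ) (γ₀ : Γ) (v : Fin 2 → ℤ) :
    coeff Γ ψ (v ᵥ* ((γ₀ : SL(2, ℤ)) : Matrix (Fin 2) (Fin 2) ℤ)) =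
      (((ψ γ₀)⁻¹ : ℂˣ) : ℂ) * coeff Γ ψ v := by
  by_cases h : ∃ γ : Γ, row (γ : SL(2, ℤ)) = v
  · obtain ⟨γ, rfl⟩ := h
    rw [← row_mul, ← Subgroup.coe_mul, coeff_row hpar, coeff_row hpar, map_mul, _root_.mul_inv_rev,
      Units.val_mul]
  · rw [coeff_of_not_row h, mul_zero]
    apply coeff_of_not_row
    rintro ⟨γ', hγ'⟩
    apply h
    refine ⟨γ' * γ₀⁻¹, ?_⟩
    rw [Subgroup.coe_mul, row_mul, hγ', Subgroup.coe_inv, vecMul_vecMul_inv]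

theorem norm_coeff_le (hunit : ∀ γ : Γ, ‖((ψ γ : ℂˣ) : ℂ)‖ = 1) (v : Fin 2 → ℤ) :
    ‖coeff Γ ψ v‖ ≤ 1 := by
  unfold coeff
  split_ifs with h
  · rw [Units.val_inv_eq_inv_val, norm_inv, hunit, inv_one]
  · rw [norm_zero]
    exact zero_le_one

/-- The coefficients are invariant under right multiplication by elements of trace `±2`. -/
theorem coeff_vecMul_of_trace (hpar : IsPar Γ ψ) {δ : SL(2, ℤ)} (hδ : δ ∈ Γ)
    (htr : (δ : Matrix (Fin 2) (Fin 2) ℤ).trace ^ 2 = 4) (v : Fin 2 → ℤ) :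
    coeff Γ ψ (v ᵥ* (δ : Matrix (Fin 2) (Fin 2) ℤ)) = coeff Γ ψ v := by
  have h := coeff_vecMul hpar ⟨δ, hδ⟩ v
  rw [hpar ⟨δ, hδ⟩ htr, inv_one, Units.val_one, one_mul] at h
  exact h

theorem trace_conj (γ₁ X : SL(2, ℤ)) :
    ((γ₁ * X * γ₁⁻¹ : SL(2, ℤ)) : Matrix (Fin 2) (Fin 2) ℤ).trace =
      (X : Matrix (Fin 2) (Fin 2) ℤ).trace := by
  rw [Matrix.SpecialLinearGroup.coe_mul, Matrix.SpecialLinearGroup.coe_mul,
    Matrix.trace_mul_cycle, ← Matrix.SpecialLinearGroup.coe_mul, inv_mul_cancel,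
    Matrix.SpecialLinearGroup.coe_one, one_mul]

theorem trace_T_zpow (m : ℤ) :
    ((ModularGroup.T ^ m : SL(2, ℤ)) : Matrix (Fin 2) (Fin 2) ℤ).trace = 2 := by
  rw [ModularGroup.coe_T_zpow, Matrix.trace_fin_two]
  simp

theorem T_zpow_mem_Gamma (N : ℕ) (n : ℤ) :
    ModularGroup.T ^ ((N : ℤ) * n) ∈ CongruenceSubgroup.Gamma N := by
  rw [CongruenceSubgroup.Gamma_mem, ModularGroup.coe_T_zpow]
  simp

/-- The coefficient family of the translate by `γ₁` is invariant under `T ^ m` whenever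
`γ₁ T ^ m γ₁⁻¹ ∈ Γ` (e.g. `m` a multiple of the width of the cusp `γ₁ ∞`). -/
theorem coeff_conj_T_of_mem (hpar : IsPar Γ ψ) (γ₁ : SL(2, ℤ)) (m : ℤ)
    (hm : γ₁ * ModularGroup.T ^ m * γ₁⁻¹ ∈ Γ) (v : Fin 2 → ℤ) :
    coeff Γ ψ ((v ᵥ* (((ModularGroup.T ^ m)⁻¹ : SL(2, ℤ)) :
        Matrix (Fin 2) (Fin 2) ℤ)) ᵥ* ((γ₁⁻¹ : SL(2, ℤ)) : Matrix (Fin 2) (Fin 2) ℤ)) =
      coeff Γ ψ (v ᵥ* ((γ₁⁻¹ : SL(2, ℤ)) : Matrix (Fin 2) (Fin 2) ℤ)) := by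
  set X : SL(2, ℤ) := (ModularGroup.T ^ m)⁻¹ with hX
  have hδ : γ₁ * X * γ₁⁻¹ ∈ Γ := by
    have h1 : γ₁ * X * γ₁⁻¹ = (γ₁ * ModularGroup.T ^ m * γ₁⁻¹)⁻¹ := by
      rw [hX]
      group
    rw [h1]
    exact inv_mem hm
  have htr : ((γ₁ * X * γ₁⁻¹ : SL(2, ℤ)) : Matrix (Fin 2) (Fin 2) ℤ).trace ^ 2 = 4 := by
    rw [trace_conj, hX, ← _root_.zpow_neg, trace_T_zpow]
    norm_num
  have h := coeff_vecMul_of_trace hpar hδ htr
    (v ᵥ* ((γ₁⁻¹ : SL(2, ℤ)) : Matrix (Fin 2) (Fin 2) ℤ))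
  have hmul : X * γ₁⁻¹ = γ₁⁻¹ * (γ₁ * X * γ₁⁻¹) := by group
  rw [← h, ← vecMul_mul, ← vecMul_mul, hmul]

theorem conj_T_zpow_mem (N : ℕ) (hN : CongruenceSubgroup.Gamma N ≤ Γ) (γ₁ : SL(2, ℤ)) (n : ℤ) :
    γ₁ * ModularGroup.T ^ ((N : ℤ) * n) * γ₁⁻¹ ∈ Γ :=
  hN ((CongruenceSubgroup.Gamma_normal N).conj_mem _ (T_zpow_mem_Gamma N n) γ₁)

/-- The coefficient family of a translate is invariant under `T ^ (N n)`. -/
theorem coeff_conj_T (hpar : IsPar Γ ψ) (N : ℕ) (hN : CongruenceSubgroup.Gamma N ≤ Γ)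
    (γ₁ : SL(2, ℤ)) (n : ℤ) (v : Fin 2 → ℤ) :
    coeff Γ ψ ((v ᵥ* (((ModularGroup.T ^ ((N : ℤ) * n))⁻¹ : SL(2, ℤ)) :
        Matrix (Fin 2) (Fin 2) ℤ)) ᵥ* ((γ₁⁻¹ : SL(2, ℤ)) : Matrix (Fin 2) (Fin 2) ℤ)) =
      coeff Γ ψ (v ᵥ* ((γ₁⁻¹ : SL(2, ℤ)) : Matrix (Fin 2) (Fin 2) ℤ)) :=
  coeff_conj_T_of_mem hpar γ₁ _ (conj_T_zpow_mem N hN γ₁ n) v

/-! ### The Eisenstein series with character -/

variable (Γ ψ)

/-- The Eisenstein series of weight `4` with character `ψ`: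
`E_ψ(τ) = (1/2) ∑_{(c, d)} ψ(γ_{c,d})⁻¹ (c τ + d)⁻⁴`, the sum over the bottom rows of `Γ`. -/
def eisChar (τ : ℍ) : ℂ := (1 / 2 : ℂ) * wsum (coeff Γ ψ) τ

variable {Γ ψ}

/-- **(E1)** `E_ψ` is holomorphic on `ℍ`. -/
theorem mdifferentiable_eisChar (hunit : ∀ γ : Γ, ‖((ψ γ : ℂˣ) : ℂ)‖ = 1) :
    MDifferentiable 𝓘(ℂ) 𝓘(ℂ) (eisChar Γ ψ) := by
  have h : MDifferentiable 𝓘(ℂ) 𝓘(ℂ) (fun τ : ℍ => (1 / 2 : ℂ) * wsum (coeff Γ ψ) τ) :=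
    mdifferentiable_const.mul (mdifferentiable_wsum (norm_coeff_le hunit))
  exact h

/-- **(E2)** the transformation law: `E_ψ(γ τ) = ψ(γ) (c τ + d)⁴ E_ψ(τ)` for `γ ∈ Γ`. -/
theorem eisChar_smul (hpar : IsPar Γ ψ) (γ : Γ) (τ : ℍ) :
    eisChar Γ ψ ((γ : SL(2, ℤ)) • τ) =
      ((ψ γ : ℂˣ) : ℂ) * denom (γ : SL(2, ℤ)) τ ^ (4 : ℤ) * eisChar Γ ψ τ := by
  unfold eisChar
  rw [wsum_smul]
  have h : (fun v => coeff Γ ψ
      (v ᵥ* ((((γ : SL(2, ℤ)))⁻¹ : SL(2, ℤ)) : Matrix (Fin 2) (Fin 2) ℤ))) =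
      fun v => ((ψ γ : ℂˣ) : ℂ) * coeff Γ ψ v := by
    funext v
    have h1 := coeff_vecMul hpar γ⁻¹ v
    rw [Subgroup.coe_inv] at h1
    rw [h1, map_inv, inv_inv]
  rw [h, wsum_const_mul]
  ring

/-- The translates of `E_ψ` are weighted sums. -/
theorem eisChar_slash (γ₁ : SL(2, ℤ)) (z : ℍ) :
    (eisChar Γ ψ ∣[(4 : ℤ)] γ₁) z = (1 / 2 : ℂ) *
      wsum (fun v => coeff Γ ψ (v ᵥ* ((γ₁⁻¹ : SL(2, ℤ)) : Matrix (Fin 2) (Fin 2) ℤ))) z := by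
  rw [SL_slash_apply]
  unfold eisChar
  rw [wsum_smul, _root_.zpow_neg]
  have hd := zpow_ne_zero (4 : ℤ) (denom_ne_zero γ₁ z)
  field_simp

/-- **(E4a), sharp form** the translate by `γ₁` is invariant under `τ ↦ τ + m` whenever
`γ₁ T ^ m γ₁⁻¹ ∈ Γ` (`m` a multiple of the width of the cusp `γ₁ ∞`). -/
theorem slash_T_zpow_smul_of_mem (hpar : IsPar Γ ψ) (γ₁ : SL(2, ℤ)) (m : ℤ)
    (hm : γ₁ * ModularGroup.T ^ m * γ₁⁻¹ ∈ Γ) (z : ℍ) :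
    (eisChar Γ ψ ∣[(4 : ℤ)] γ₁) (ModularGroup.T ^ m • z) =
      (eisChar Γ ψ ∣[(4 : ℤ)] γ₁) z := by
  rw [eisChar_slash, eisChar_slash,
    wsum_T_zpow_smul _ _ (fun v => coeff_conj_T_of_mem hpar γ₁ m hm v)]

/-- **(E4a), sharp form** with `+ᵥ`. -/
theorem slash_vadd_of_mem (hpar : IsPar Γ ψ) (γ₁ : SL(2, ℤ)) (m : ℤ)
    (hm : γ₁ * ModularGroup.T ^ m * γ₁⁻¹ ∈ Γ) (z : ℍ) :
    (eisChar Γ ψ ∣[(4 : ℤ)] γ₁) ((m : ℝ) +ᵥ z) = (eisChar Γ ψ ∣[(4 : ℤ)] γ₁) z := by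
  have h := slash_T_zpow_smul_of_mem hpar γ₁ m hm z
  rw [modular_T_zpow_smul] at h
  exact h

/-- **(E4a)** every translate of `E_ψ` is invariant under `τ ↦ τ + N n`. -/
theorem slash_T_zpow_smul (hpar : IsPar Γ ψ) (N : ℕ) (hN : CongruenceSubgroup.Gamma N ≤ Γ)
    (γ₁ : SL(2, ℤ)) (n : ℤ) (z : ℍ) :
    (eisChar Γ ψ ∣[(4 : ℤ)] γ₁) (ModularGroup.T ^ ((N : ℤ) * n) • z) =
      (eisChar Γ ψ ∣[(4 : ℤ)] γ₁) z := by
  rw [eisChar_slash, eisChar_slash,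
    wsum_T_zpow_smul _ _ (fun v => coeff_conj_T hpar N hN γ₁ n v)]

/-- **(E4a)** every translate of `E_ψ` is `N`-periodic. -/
theorem slash_vadd (hpar : IsPar Γ ψ) (N : ℕ) (hN : CongruenceSubgroup.Gamma N ≤ Γ)
    (γ₁ : SL(2, ℤ)) (z : ℍ) :
    (eisChar Γ ψ ∣[(4 : ℤ)] γ₁) ((N : ℝ) +ᵥ z) = (eisChar Γ ψ ∣[(4 : ℤ)] γ₁) z := by
  have h := slash_T_zpow_smul hpar N hN γ₁ 1 z
  rw [mul_one, modular_T_zpow_smul] at h
  simpa using h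

/-- **(E4b)** every translate of `E_ψ` is bounded at `i∞`. -/
theorem isBoundedAtImInfty_slash (hpar : IsPar Γ ψ)
    (hunit : ∀ γ : Γ, ‖((ψ γ : ℂˣ) : ℂ)‖ = 1) (N : ℕ) [NeZero N]
    (hN : CongruenceSubgroup.Gamma N ≤ Γ) (γ₁ : SL(2, ℤ)) :
    IsBoundedAtImInfty (eisChar Γ ψ ∣[(4 : ℤ)] γ₁) := by
  have hw : ∀ v, ‖coeff Γ ψ
      (v ᵥ* ((γ₁⁻¹ : SL(2, ℤ)) : Matrix (Fin 2) (Fin 2) ℤ))‖ ≤ 1 :=
    fun v => norm_coeff_le hunit _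
  have h := isBoundedAtImInfty_wsum hw N
    (fun n z => wsum_T_zpow_smul _ _ (fun v => coeff_conj_T hpar N hN γ₁ n v) z)
  rw [UpperHalfPlane.isBoundedAtImInfty_iff] at h ⊢
  obtain ⟨M, A, hMA⟩ := h
  refine ⟨M, A, fun z hz => ?_⟩
  rw [eisChar_slash, norm_mul]
  calc ‖(1 / 2 : ℂ)‖ * ‖wsum (fun v => coeff Γ ψ
        (v ᵥ* ((γ₁⁻¹ : SL(2, ℤ)) : Matrix (Fin 2) (Fin 2) ℤ))) z‖ ≤ 1 * M :=
        mul_le_mul (by norm_num) (hMA z hz) (norm_nonneg _) zero_le_one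
    _ = M := one_mul M

/-! ### The value at `i∞` -/

theorem row_neg_one : row (-1) = ![0, -1] := by
  unfold row
  rw [Matrix.SpecialLinearGroup.coe_neg, Matrix.SpecialLinearGroup.coe_one]
  funext i
  fin_cases i <;> simp

theorem coeff_zero_one (hpar : IsPar Γ ψ) : coeff Γ ψ ![0, 1] = 1 := by
  have h := coeff_row hpar (1 : Γ)
  rw [Subgroup.coe_one, row_one, map_one, inv_one, Units.val_one] at h
  exact h

theorem coeff_zero_neg_one (hpar : IsPar Γ ψ) (hneg : (-1 : SL(2, ℤ)) ∈ Γ) :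
    coeff Γ ψ ![0, -1] = 1 := by
  have h := coeff_row hpar ⟨-1, hneg⟩
  have htr : (((-1 : SL(2, ℤ))) : Matrix (Fin 2) (Fin 2) ℤ).trace ^ 2 = 4 := by
    rw [Matrix.SpecialLinearGroup.coe_neg, Matrix.SpecialLinearGroup.coe_one, Matrix.trace_neg,
      Matrix.trace_one]
    simp
  rw [hpar ⟨-1, hneg⟩ htr, inv_one, Units.val_one] at h
  rw [← row_neg_one]
  exact h

theorem coeff_eq_zero_of_fst_eq_zero {v : Fin 2 → ℤ} (h0 : v 0 = 0) (h1 : v ≠ ![0, 1])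
    (h2 : v ≠ ![0, -1]) : coeff Γ ψ v = 0 := by
  apply coeff_of_not_row
  rintro ⟨γ, rfl⟩
  have hdet := (γ : SL(2, ℤ)).det_coe
  rw [Matrix.det_fin_two] at hdet
  have h10 : ((γ : SL(2, ℤ)) : Matrix (Fin 2) (Fin 2) ℤ) 1 0 = 0 := h0
  rw [h10, mul_zero, sub_zero] at hdet
  rcases Int.eq_one_or_neg_one_of_mul_eq_one' hdet with ⟨_, h11⟩ | ⟨_, h11⟩
  · apply h1
    funext i
    fin_cases i
    · exact h10
    · exact h11
  · apply h2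
    funext i
    fin_cases i
    · exact h10
    · exact h11

/-- `E_ψ` is invariant under `τ ↦ τ + N n`. -/
theorem eisChar_T_zpow_smul (hpar : IsPar Γ ψ) (N : ℕ) (hN : CongruenceSubgroup.Gamma N ≤ Γ)
    (n : ℤ) (z : ℍ) :
    eisChar Γ ψ (ModularGroup.T ^ ((N : ℤ) * n) • z) = eisChar Γ ψ z := by
  unfold eisChar
  rw [wsum_T_zpow_smul]
  intro v
  refine coeff_vecMul_of_trace hpar (hN (inv_mem (T_zpow_mem_Gamma N n))) ?_ v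
  rw [← _root_.zpow_neg, trace_T_zpow]
  norm_num

/-- The terms with `c ≠ 0` are `O(1 / Im τ)`. -/
theorem norm_term_le_of_ne {w : (Fin 2 → ℤ) → ℂ} (hw : ∀ v, ‖w v‖ ≤ 1) {v : Fin 2 → ℤ}
    (hv : v 0 ≠ 0) (z : ℍ) :
    ‖w v * eisSummand 4 v z‖ ≤ z.im⁻¹ * ‖(v 0 : ℂ) * (z : ℂ) + (v 1 : ℂ)‖ ^ (-3 : ℝ) := by
  refine (norm_term_le hw v z).trans ?_
  have him : z.im ≤ ‖(v 0 : ℂ) * (z : ℂ) + (v 1 : ℂ)‖ := by
    have h1 : |((v 0 : ℂ) * (z : ℂ) + (v 1 : ℂ)).im| ≤ ‖(v 0 : ℂ) * (z : ℂ) + (v 1 : ℂ)‖ :=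
      Complex.abs_im_le_norm _
    have h2 : ((v 0 : ℂ) * (z : ℂ) + (v 1 : ℂ)).im = (v 0 : ℝ) * z.im := by
      simp
    rw [h2, abs_mul, abs_of_pos z.im_pos] at h1
    have h3 : (1 : ℝ) ≤ |(v 0 : ℝ)| := by
      have := Int.one_le_abs hv
      exact_mod_cast this
    calc z.im = 1 * z.im := (one_mul _).symm
      _ ≤ |(v 0 : ℝ)| * z.im := mul_le_mul_of_nonneg_right h3 z.im_pos.le
      _ ≤ _ := h1
  have hpos : 0 < ‖(v 0 : ℂ) * (z : ℂ) + (v 1 : ℂ)‖ := lt_of_lt_of_le z.im_pos him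
  simp only [eisSummand, norm_zpow]
  set a : ℝ := ‖(v 0 : ℂ) * (z : ℂ) + (v 1 : ℂ)‖ with ha
  have h4 : a ^ (-4 : ℤ) = a⁻¹ * a ^ (-3 : ℝ) := by
    have h5 : a ^ (-3 : ℝ) = (a ^ 3)⁻¹ := by
      rw [Real.rpow_neg hpos.le]
      congr 1
      exact_mod_cast Real.rpow_natCast a 3
    rw [h5, _root_.zpow_neg, ← _root_.mul_inv]
    congr 1
    have : a ^ (4 : ℤ) = a ^ (4 : ℕ) := by exact_mod_cast zpow_natCast a 4
    rw [this]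
    ring
  rw [h4]
  exact mul_le_mul_of_nonneg_right (inv_anti₀ z.im_pos him)
    (Real.rpow_nonneg hpos.le _)

theorem summable_majorant3 (c : ℝ) : Summable fun v : Fin 2 → ℤ => c * ‖v‖ ^ (-3 : ℝ) :=
  (summable_one_div_norm_rpow (k := 3) (by norm_num)).mul_left c

/-- The constant of the estimate `‖E_ψ(τ) - 1‖ ≤ C / Im τ` on the strip of width `A`. -/
def stripConst (A : ℝ) : ℝ :=
  ∑' v : Fin 2 → ℤ, r ⟨⟨A, 1⟩, one_pos⟩ ^ (-3 : ℝ) * ‖v‖ ^ (-3 : ℝ)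

/-- `‖E_ψ(τ) - 1‖ ≤ C / Im τ` on a vertical strip `|Re τ| ≤ A`, `Im τ ≥ 1`. -/
theorem norm_eisChar_sub_one_le_strip (hpar : IsPar Γ ψ)
    (hunit : ∀ γ : Γ, ‖((ψ γ : ℂˣ) : ℂ)‖ = 1) (hneg : (-1 : SL(2, ℤ)) ∈ Γ) {A : ℝ} {z : ℍ}
    (hz : z ∈ verticalStrip A 1) :
    ‖eisChar Γ ψ z - 1‖ ≤ 1 / 2 * (z.im⁻¹ * stripConst A) := by
  classical
  have hw := norm_coeff_le (Γ := Γ) (ψ := ψ) hunit
  set f : (Fin 2 → ℤ) → ℂ := fun v => coeff Γ ψ v * eisSummand 4 v z with hf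
  set f₀ : (Fin 2 → ℤ) → ℂ := fun v => if v 0 = 0 then f v else 0 with hf₀
  set f₁ : (Fin 2 → ℤ) → ℂ := fun v => if v 0 = 0 then 0 else f v with hf₁
  have hsum : Summable fun v => ‖f v‖ := summable_norm_term hw z
  have hs₀ : Summable f₀ := by
    refine Summable.of_norm_bounded hsum fun v => ?_
    simp only [hf₀]
    split_ifs
    · exact le_rfl
    · rw [norm_zero]
      exact norm_nonneg _
  have hn₁ : ∀ v, ‖f₁ v‖ ≤ ‖f v‖ := by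
    intro v
    simp only [hf₁]
    split_ifs
    · rw [norm_zero]
      exact norm_nonneg _
    · exact le_rfl
  have hs₁n : Summable fun v => ‖f₁ v‖ :=
    hsum.of_nonneg_of_le (fun _ => norm_nonneg _) hn₁
  have hs₁ : Summable f₁ := hs₁n.of_norm
  have hsplit : wsum (coeff Γ ψ) z = ∑' v, f₀ v + ∑' v, f₁ v := by
    rw [← hs₀.tsum_add hs₁]
    unfold wsum
    refine tsum_congr fun v => ?_
    simp only [hf₀, hf₁]
    split_ifs <;> simp [hf]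
  -- the terms with `c = 0`
  have hne : (![0, 1] : Fin 2 → ℤ) ≠ ![0, -1] := by
    intro h
    have := congrFun h 1
    simp at this
  have h0 : ∑' v, f₀ v = 2 := by
    rw [tsum_eq_sum (s := {![0, 1], ![0, -1]})]
    · rw [Finset.sum_pair hne]
      simp only [hf₀, hf]
      rw [if_pos (by simp), if_pos (by simp), coeff_zero_one hpar, coeff_zero_neg_one hpar hneg]
      simp [eisSummand]
      norm_num
    · intro v hv
      simp only [Finset.mem_insert, Finset.mem_singleton, not_or] at hv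
      simp only [hf₀]
      split_ifs with hv0
      · simp only [hf]
        rw [coeff_eq_zero_of_fst_eq_zero hv0 hv.1 hv.2, zero_mul]
      · rfl
  -- the terms with `c ≠ 0`
  have hB : ∀ v, ‖f₁ v‖ ≤ z.im⁻¹ * (r ⟨⟨A, 1⟩, one_pos⟩ ^ (-3 : ℝ) * ‖v‖ ^ (-3 : ℝ)) := by
    intro v
    have hbd := summand_bound_of_mem_verticalStrip (k := 3) (by norm_num) v one_pos hz
    have hnn : 0 ≤ z.im⁻¹ * (r ⟨⟨A, 1⟩, one_pos⟩ ^ (-3 : ℝ) * ‖v‖ ^ (-3 : ℝ)) :=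
      mul_nonneg (inv_nonneg.2 z.im_pos.le)
        (mul_nonneg (Real.rpow_nonneg (r_pos _).le _) (Real.rpow_nonneg (norm_nonneg _) _))
    simp only [hf₁]
    split_ifs with hv0
    · rw [norm_zero]
      exact hnn
    · exact (norm_term_le_of_ne hw hv0 z).trans
        (mul_le_mul_of_nonneg_left hbd (inv_nonneg.2 z.im_pos.le))
  have h1 : ‖∑' v, f₁ v‖ ≤ z.im⁻¹ * stripConst A := by
    refine (norm_tsum_le_tsum_norm hs₁n).trans ?_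
    unfold stripConst
    rw [← tsum_mul_left]
    exact hs₁n.tsum_le_tsum hB ((summable_majorant3 _).mul_left _)
  have hE : eisChar Γ ψ z - 1 = 1 / 2 * ∑' v, f₁ v := by
    unfold eisChar
    rw [hsplit, h0]
    ring
  rw [hE, norm_mul]
  have h2 : ‖(1 / 2 : ℂ)‖ = 1 / 2 := by norm_num
  rw [h2]
  exact mul_le_mul_of_nonneg_left h1 (by norm_num)

/-- `‖E_ψ(τ) - 1‖ ≤ C / Im τ` for `Im τ ≥ 1`. -/
theorem norm_eisChar_sub_one_le (hpar : IsPar Γ ψ)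
    (hunit : ∀ γ : Γ, ‖((ψ γ : ℂˣ) : ℂ)‖ = 1) (hneg : (-1 : SL(2, ℤ)) ∈ Γ) (N : ℕ) [NeZero N]
    (hN : CongruenceSubgroup.Gamma N ≤ Γ) (z : ℍ) (hz : 1 ≤ z.im) :
    ‖eisChar Γ ψ z - 1‖ ≤ 1 / 2 * stripConst N / z.im := by
  obtain ⟨n, hn⟩ := ModularGroup_T_zpow_mem_verticalStrip z (NeZero.pos N)
  have him : (ModularGroup.T ^ ((N : ℤ) * n) • z).im = z.im := by
    rw [modular_T_zpow_smul, UpperHalfPlane.vadd_im]
  have h := norm_eisChar_sub_one_le_strip hpar hunit hneg (verticalStrip_anti_right N hz hn)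
  rw [eisChar_T_zpow_smul hpar N hN, him] at h
  refine h.trans (le_of_eq ?_)
  field_simp

/-- **(E3)** `E_ψ → 1` at `i∞`. -/
theorem tendsto_eisChar (hpar : IsPar Γ ψ)
    (hunit : ∀ γ : Γ, ‖((ψ γ : ℂˣ) : ℂ)‖ = 1) (hneg : (-1 : SL(2, ℤ)) ∈ Γ) (N : ℕ) [NeZero N]
    (hN : CongruenceSubgroup.Gamma N ≤ Γ) :
    Tendsto (eisChar Γ ψ) atImInfty (𝓝 1) := by
  rw [tendsto_iff_norm_sub_tendsto_zero]
  have hlim : Tendsto (fun z : ℍ => 1 / 2 * stripConst N / z.im) atImInfty (𝓝 0) :=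
    tendsto_const_nhds.div_atTop tendsto_comap
  refine squeeze_zero' (Eventually.of_forall fun z => norm_nonneg _) ?_ hlim
  rw [Filter.Eventually, UpperHalfPlane.atImInfty_mem]
  exact ⟨1, fun z hz => norm_eisChar_sub_one_le hpar hunit hneg N hN z hz⟩

/-! ### Non-vanishing and the quotient `E_ψ / E_1` -/

theorem eventually_ne_zero (hpar : IsPar Γ ψ)
    (hunit : ∀ γ : Γ, ‖((ψ γ : ℂˣ) : ℂ)‖ = 1) (hneg : (-1 : SL(2, ℤ)) ∈ Γ) (N : ℕ) [NeZero N]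
    (hN : CongruenceSubgroup.Gamma N ≤ Γ) : ∀ᶠ z in atImInfty, eisChar Γ ψ z ≠ 0 :=
  (tendsto_eisChar hpar hunit hneg N hN).eventually_ne one_ne_zero

/-- `E_ψ` is not identically zero. -/
theorem exists_ne_zero (hpar : IsPar Γ ψ)
    (hunit : ∀ γ : Γ, ‖((ψ γ : ℂˣ) : ℂ)‖ = 1) (hneg : (-1 : SL(2, ℤ)) ∈ Γ) (N : ℕ) [NeZero N]
    (hN : CongruenceSubgroup.Gamma N ≤ Γ) : ∃ z, eisChar Γ ψ z ≠ 0 :=
  (eventually_ne_zero hpar hunit hneg N hN).exists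

/-- No translate of `E_ψ` is identically zero. -/
theorem exists_slash_ne_zero (hpar : IsPar Γ ψ)
    (hunit : ∀ γ : Γ, ‖((ψ γ : ℂˣ) : ℂ)‖ = 1) (hneg : (-1 : SL(2, ℤ)) ∈ Γ) (N : ℕ) [NeZero N]
    (hN : CongruenceSubgroup.Gamma N ≤ Γ) (γ₁ : SL(2, ℤ)) :
    ∃ z, (eisChar Γ ψ ∣[(4 : ℤ)] γ₁) z ≠ 0 := by
  obtain ⟨w, hw⟩ := exists_ne_zero hpar hunit hneg N hN
  refine ⟨γ₁⁻¹ • w, ?_⟩
  rw [SL_slash_apply, smul_smul, mul_inv_cancel, one_smul]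
  exact mul_ne_zero hw (zpow_ne_zero _ (denom_ne_zero _ _))

variable (Γ) in
/-- The trivial character satisfies the hypotheses. -/
theorem isPar_one : IsPar Γ (1 : Γ →* ℂˣ) := fun _ _ => rfl

variable (Γ) in
theorem norm_one_apply (γ : Γ) : ‖((((1 : Γ →* ℂˣ) γ : ℂˣ)) : ℂ)‖ = 1 := by
  simp

variable (Γ ψ) in
/-- The quotient `F_ψ = E_ψ / E_1` (pointwise; `0` at the zeros of `E_1`). -/
def eisQuot (z : ℍ) : ℂ := eisChar Γ ψ z / eisChar Γ (1 : Γ →* ℂˣ) z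

/-- **(E5)** `F_ψ(γ τ) = ψ(γ) F_ψ(τ)` for `γ ∈ Γ` (everywhere). -/
theorem eisQuot_smul (hpar : IsPar Γ ψ) (γ : Γ) (z : ℍ) :
    eisQuot Γ ψ ((γ : SL(2, ℤ)) • z) = ((ψ γ : ℂˣ) : ℂ) * eisQuot Γ ψ z := by
  unfold eisQuot
  rw [eisChar_smul hpar, eisChar_smul (isPar_one Γ)]
  simp only [MonoidHom.one_apply, Units.val_one, one_mul]
  rw [mul_assoc, mul_div_assoc, mul_div_mul_left _ _ (zpow_ne_zero _ (denom_ne_zero _ _))]

/-- **(E5)** the translates of `F_ψ` are quotients of translates of `E_ψ`, `E_1`. -/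
theorem eisQuot_smul_eq_slash (γ₁ : SL(2, ℤ)) (z : ℍ) :
    eisQuot Γ ψ (γ₁ • z) =
      (eisChar Γ ψ ∣[(4 : ℤ)] γ₁) z / (eisChar Γ (1 : Γ →* ℂˣ) ∣[(4 : ℤ)] γ₁) z := by
  rw [SL_slash_apply, SL_slash_apply]
  unfold eisQuot
  rw [mul_div_mul_right _ _ (zpow_ne_zero _ (denom_ne_zero _ _))]

/-- **(E5)** `F_ψ → 1` at `i∞`. -/
theorem tendsto_eisQuot (hpar : IsPar Γ ψ)
    (hunit : ∀ γ : Γ, ‖((ψ γ : ℂˣ) : ℂ)‖ = 1) (hneg : (-1 : SL(2, ℤ)) ∈ Γ) (N : ℕ) [NeZero N]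
    (hN : CongruenceSubgroup.Gamma N ≤ Γ) : Tendsto (eisQuot Γ ψ) atImInfty (𝓝 1) := by
  have h := (tendsto_eisChar hpar hunit hneg N hN).div
    (tendsto_eisChar (isPar_one Γ) (norm_one_apply Γ) hneg N hN) one_ne_zero
  rw [div_one] at h
  exact h

/-- **(E5)** if `ψ ^ n = 1` then `F_ψ ^ n` is `Γ`-invariant. -/
theorem eisQuot_pow_smul (hpar : IsPar Γ ψ) (n : ℕ) (hn : ∀ γ : Γ, ψ γ ^ n = 1) (γ : Γ)
    (z : ℍ) : eisQuot Γ ψ ((γ : SL(2, ℤ)) • z) ^ n = eisQuot Γ ψ z ^ n := by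
  rw [eisQuot_smul hpar, mul_pow, ← Units.val_pow_eq_pow_val, hn, Units.val_one, one_mul]

/-! ### The characters `e(φ / n)` -/

variable (Γ) in
/-- The character `γ ↦ e(φ(γ) / n)` of a homomorphism `φ : Γ → ℤ`. -/
def expChar (φ : Additive Γ →+ ℤ) (n : ℕ) : Γ →* ℂˣ :=
  MonoidHom.toHomUnits
    { toFun := fun γ =>
        Complex.exp (((2 * Real.pi * (φ (Additive.ofMul γ) : ℝ) / (n : ℝ) : ℝ) : ℂ) * Complex.I)
      map_one' := by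
        have h : φ (Additive.ofMul (1 : Γ)) = 0 := map_zero φ
        rw [h]
        simp
      map_mul' := fun γ δ => by
        have h : φ (Additive.ofMul (γ * δ)) = φ (Additive.ofMul γ) + φ (Additive.ofMul δ) :=
          map_add φ _ _
        rw [h, ← Complex.exp_add]
        congr 1
        push_cast
        ring }

theorem expChar_apply (φ : Additive Γ →+ ℤ) (n : ℕ) (γ : Γ) :
    ((expChar Γ φ n γ : ℂˣ) : ℂ) =
      Complex.exp (((2 * Real.pi * (φ (Additive.ofMul γ) : ℝ) / (n : ℝ) : ℝ) : ℂ) * Complex.I) :=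
  rfl

theorem norm_expChar (φ : Additive Γ →+ ℤ) (n : ℕ) (γ : Γ) :
    ‖((expChar Γ φ n γ : ℂˣ) : ℂ)‖ = 1 := by
  rw [expChar_apply, Complex.norm_exp_ofReal_mul_I]

theorem expChar_eq_one_of_eq_zero (φ : Additive Γ →+ ℤ) (n : ℕ) {γ : Γ}
    (h : φ (Additive.ofMul γ) = 0) : expChar Γ φ n γ = 1 := by
  apply Units.ext
  rw [expChar_apply, h]
  simp

/-- `e(φ/n)` kills the elements of trace `±2` when `φ` does (the Prelude's `IsParabolicHom`). -/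
theorem isPar_expChar (φ : Additive Γ →+ ℤ) (n : ℕ)
    (hφ : ∀ γ : Γ, ((γ : SL(2, ℤ)) : Matrix (Fin 2) (Fin 2) ℤ).trace ^ 2 = 4 →
      φ (Additive.ofMul γ) = 0) : IsPar Γ (expChar Γ φ n) :=
  fun γ hγ => expChar_eq_one_of_eq_zero φ n (hφ γ hγ)

/-- `e(φ/n) ^ n = 1`. -/
theorem expChar_pow (φ : Additive Γ →+ ℤ) (n : ℕ) (hn : n ≠ 0) (γ : Γ) :
    expChar Γ φ n γ ^ n = 1 := by
  apply Units.ext
  rw [Units.val_pow_eq_pow_val, expChar_apply, ← Complex.exp_nat_mul, Units.val_one]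
  have hn' : (n : ℂ) ≠ 0 := by exact_mod_cast hn
  have h : (n : ℂ) * (((2 * Real.pi * (φ (Additive.ofMul γ) : ℝ) / (n : ℝ) : ℝ) : ℂ) *
      Complex.I) = (φ (Additive.ofMul γ) : ℂ) * (2 * Real.pi * Complex.I) := by
    push_cast
    field_simp
  rw [h, Complex.exp_int_mul_two_pi_mul_I]

/-- `e(φ/n)` is trivial on elements of finite order. -/
theorem expChar_eq_one_of_pow_eq_one (φ : Additive Γ →+ ℤ) (n : ℕ) {γ : Γ} {k : ℕ}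
    (hk : k ≠ 0) (h : γ ^ k = 1) : expChar Γ φ n γ = 1 := by
  apply expChar_eq_one_of_eq_zero
  have h1 : φ (Additive.ofMul (γ ^ k)) = k • φ (Additive.ofMul γ) := by
    rw [ofMul_pow, map_nsmul]
  rw [h, ofMul_one, map_zero] at h1
  have h2 : (k : ℤ) * φ (Additive.ofMul γ) = 0 := by
    rw [← nsmul_eq_mul]
    exact h1.symm
  rcases mul_eq_zero.1 h2 with h3 | h3
  · exact absurd (by exact_mod_cast h3) hk
  · exact h3

/-! ### Summary for `Γ₀(N)`-type groups -/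

/-- **[EIS], summary**: for a homomorphism `φ : Γ → ℤ` killing the elements of trace `±2`
(`-1 ∈ Γ ⊇ Γ(N)`) and `n ≥ 1`, the function `F = E_ψ / E_1` with `ψ = e(φ/n)` is a quotient of
two holomorphic functions, `F(γ τ) = ψ(γ) F(τ)`, `F → 1` at `i∞`, and every translate of
numerator and denominator is holomorphic, `N`-periodic, bounded at `i∞` and not identically
zero. -/
theorem exists_eis (φ : Additive Γ →+ ℤ) (n : ℕ)
    (hφ : ∀ γ : Γ, ((γ : SL(2, ℤ)) : Matrix (Fin 2) (Fin 2) ℤ).trace ^ 2 = 4 →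
      φ (Additive.ofMul γ) = 0)
    (hneg : (-1 : SL(2, ℤ)) ∈ Γ) (N : ℕ) [NeZero N] (hN : CongruenceSubgroup.Gamma N ≤ Γ) :
    ∃ E E₁ : ℍ → ℂ,
      MDifferentiable 𝓘(ℂ) 𝓘(ℂ) E ∧ MDifferentiable 𝓘(ℂ) 𝓘(ℂ) E₁ ∧
      (∀ (γ : Γ) (τ : ℍ), E ((γ : SL(2, ℤ)) • τ) =
        ((expChar Γ φ n γ : ℂˣ) : ℂ) * denom (γ : SL(2, ℤ)) τ ^ (4 : ℤ) * E τ) ∧
      (∀ (γ : Γ) (τ : ℍ), E₁ ((γ : SL(2, ℤ)) • τ) = denom (γ : SL(2, ℤ)) τ ^ (4 : ℤ) * E₁ τ) ∧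
      Tendsto E atImInfty (𝓝 1) ∧ Tendsto E₁ atImInfty (𝓝 1) ∧
      ∀ γ₁ : SL(2, ℤ),
        IsBoundedAtImInfty (E ∣[(4 : ℤ)] γ₁) ∧ IsBoundedAtImInfty (E₁ ∣[(4 : ℤ)] γ₁) ∧
        (∀ (m : ℤ), γ₁ * ModularGroup.T ^ m * γ₁⁻¹ ∈ Γ → ∀ z : ℍ,
          (E ∣[(4 : ℤ)] γ₁) ((m : ℝ) +ᵥ z) = (E ∣[(4 : ℤ)] γ₁) z ∧
          (E₁ ∣[(4 : ℤ)] γ₁) ((m : ℝ) +ᵥ z) = (E₁ ∣[(4 : ℤ)] γ₁) z) ∧
        (∀ z : ℍ, (E ∣[(4 : ℤ)] γ₁) ((N : ℝ) +ᵥ z) = (E ∣[(4 : ℤ)] γ₁) z ∧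
          (E₁ ∣[(4 : ℤ)] γ₁) ((N : ℝ) +ᵥ z) = (E₁ ∣[(4 : ℤ)] γ₁) z) ∧
        (∃ z, (E ∣[(4 : ℤ)] γ₁) z ≠ 0) ∧ ∃ z, (E₁ ∣[(4 : ℤ)] γ₁) z ≠ 0 := by
  have hpar := isPar_expChar φ n hφ
  have hunit := norm_expChar φ n
  have hpar1 := isPar_one Γ
  have hunit1 := norm_one_apply Γ
  refine ⟨eisChar Γ (expChar Γ φ n), eisChar Γ 1, mdifferentiable_eisChar hunit,
    mdifferentiable_eisChar hunit1, fun γ τ => eisChar_smul hpar γ τ, fun γ τ => ?_,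
    tendsto_eisChar hpar hunit hneg N hN, tendsto_eisChar hpar1 hunit1 hneg N hN,
    fun γ₁ => ⟨isBoundedAtImInfty_slash hpar hunit N hN γ₁,
      isBoundedAtImInfty_slash hpar1 hunit1 N hN γ₁,
      fun m hm z => ⟨slash_vadd_of_mem hpar γ₁ m hm z, slash_vadd_of_mem hpar1 γ₁ m hm z⟩,
      fun z => ⟨slash_vadd hpar N hN γ₁ z, slash_vadd hpar1 N hN γ₁ z⟩,
      exists_slash_ne_zero hpar hunit hneg N hN γ₁,
      exists_slash_ne_zero hpar1 hunit1 hneg N hN γ₁⟩⟩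
  have h := eisChar_smul hpar1 γ τ
  rw [MonoidHom.one_apply, Units.val_one, one_mul] at h
  exact h

end Fermat.Agent.Lib.EisChar

end
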