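import Mathlib
import Fermat.Agent.Lib.DeltaSlash
import Fermat.Agent.Lib.DeltaLevelN

set_option autoImplicit false

namespace Fermat.Agent.Lib.JStab

open UpperHalfPlane ModularForm Matrix Filter Complex CongruenceSubgroup EisensteinSeries
open Fermat.Agent.Lib.DeltaSlash Fermat.Agent.Lib.DeltaLevelN
open scoped MatrixGroups ModularForm Manifold Topology Real

local notation "Δ" => ModularForm.discriminant
local notation "𝕢" => Function.Periodic.qParam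

/-! ## The analytic `j`-function -/

/-- The analytic `j`-invariant `E₄³ / Δ` on the upper half plane. -/
noncomputable def jInv (τ : ℍ) : ℂ := E₄ τ ^ 3 / Δ τ

lemma jInv_def (τ : ℍ) : jInv τ = E₄ τ ^ 3 / Δ τ := rfl

/-- Transformation law of a level one modular form in explicit coordinates. -/
lemma levelOne_smul {k : ℤ} (f : ModularForm 𝒮ℒ k) (δ : SL(2, ℤ)) (w : ℍ) :
    f (δ • w) = ((δ 1 0 : ℂ) * w + (δ 1 1 : ℂ)) ^ k * f w := by
  have h := SlashInvariantForm.slash_action_eqn''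
    (Γ := (Matrix.SpecialLinearGroup.mapGL ℝ).range) f
    (γ := (δ : GL (Fin 2) ℝ)) (MonoidHom.mem_range.mpr ⟨δ, rfl⟩) w
  simp [denom] at h
  rw [← h, ModularGroup.sl_moeb]

theorem jInv_smul (γ : SL(2, ℤ)) (τ : ℍ) : jInv (γ • τ) = jInv τ := by
  have hden := sl_denom_ne_zero γ τ
  have h4 : E₄ (γ • τ) = ((γ 1 0 : ℂ) * τ + (γ 1 1 : ℂ)) ^ 4 * E₄ τ := by
    have h := levelOne_smul E₄ γ τ
    rw [h]
    congr 1
  have h12 := discriminant_smul γ τ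
  have hΔ := discriminant_ne_zero τ
  rw [jInv, jInv, h4, h12]
  field_simp

theorem mdifferentiable_jInv : MDiff jInv := by
  rw [UpperHalfPlane.mdifferentiable_iff]
  have h4 : DifferentiableOn ℂ ((E₄ : ℍ → ℂ) ∘ ofComplex) {z | 0 < z.im} :=
    (UpperHalfPlane.mdifferentiable_iff).mp E₄.holo'
  have hΔ : DifferentiableOn ℂ (Δ ∘ ofComplex) {z | 0 < z.im} :=
    (UpperHalfPlane.mdifferentiable_iff).mp CuspForm.discriminant.holo'
  have := (h4.pow 3).div hΔ (fun z _ => discriminant_ne_zero _)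
  exact this.congr (fun z _ => rfl)

/-- A level one modular form tends to its constant `q`-coefficient at `i∞`. -/
lemma tendsto_levelOne {k : ℤ} (f : ModularForm 𝒮ℒ k) :
    Tendsto f atImInfty (𝓝 ((qExpansion 1 f).coeff 0)) := by
  have han := ModularFormClass.analyticAt_cuspFunction_zero f one_pos one_mem_strictPeriods_SL
  have hper := SlashInvariantFormClass.periodic_comp_ofComplex f one_mem_strictPeriods_SL
  have h1 : (cuspFunction 1 f ∘ fun τ : ℍ => 𝕢 1 τ) = f := by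
    funext τ
    simpa using eq_cuspFunction τ one_ne_zero hper
  have h2 := han.continuousAt.tendsto.comp (qParam_tendsto_atImInfty one_pos)
  rw [h1] at h2
  convert h2 using 2
  simp [qExpansion_coeff]

lemma tendsto_E₄ : Tendsto (E₄ : ℍ → ℂ) atImInfty (𝓝 1) := by
  have h := tendsto_levelOne E₄
  rwa [E_qExpansion_coeff_zero _ ⟨2, rfl⟩] at h

lemma qParam_mul_jInv (τ : ℍ) : 𝕢 1 τ * jInv τ = E₄ τ ^ 3 / prodFactor τ := by
  have hq : 𝕢 1 τ ≠ 0 := Function.Periodic.qParam_ne_zero _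
  have hΔ := discriminant_ne_zero τ
  have hP : prodFactor τ ≠ 0 := by
    intro h0
    apply hΔ
    rw [discriminant_eq_q_prod]
    have : (∏' n : ℕ, (1 - eta_q n τ) ^ 24) = 0 := h0
    rw [this, mul_zero]
  rw [jInv, discriminant_eq_q_prod]
  change 𝕢 1 τ * (E₄ τ ^ 3 / (𝕢 1 τ * prodFactor τ)) = E₄ τ ^ 3 / prodFactor τ
  field_simp

/-- `j(τ) ∼ 1/q` at `i∞`. -/
theorem tendsto_qParam_mul_jInv :
    Tendsto (fun τ : ℍ => 𝕢 1 τ * jInv τ) atImInfty (𝓝 1) := by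
  have h := (tendsto_E₄.pow 3).div tendsto_prodFactor one_ne_zero
  simp only [one_pow, div_one] at h
  exact h.congr (fun τ => (qParam_mul_jInv τ).symm)

lemma norm_jInv (τ : ℍ) :
    ‖jInv τ‖ = Real.exp (2 * π * τ.im) * ‖𝕢 1 τ * jInv τ‖ := by
  have hq : ‖𝕢 1 τ‖ = Real.exp (-2 * π * τ.im) := by
    simp [Function.Periodic.qParam, Complex.norm_exp]
  rw [norm_mul, hq, ← mul_assoc, ← Real.exp_add]
  have : 2 * π * τ.im + -2 * π * τ.im = 0 := by ring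
  rw [this, Real.exp_zero, one_mul]

/-! ## `j(N z)` and its translates -/

/-- The function `z ↦ j(N z)`. -/
noncomputable def jN (N : ℕ) (z : ℍ) : ℂ := jInv (ofComplex ((N : ℂ) * z))

lemma jN_def (N : ℕ) (z : ℍ) : jN N z = jInv (ofComplex ((N : ℂ) * z)) := rfl

lemma jN_eq_affine (N : ℕ) (z : ℍ) :
    jN N z = jInv (ofComplex (((N : ℂ) * z + (0 : ℕ)) / (1 : ℕ))) := by
  simp [jN]

theorem mdifferentiable_jN (N : ℕ) [NeZero N] : MDiff (jN N) := by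
  rw [UpperHalfPlane.mdifferentiable_iff]
  have hj : DifferentiableOn ℂ (jInv ∘ ofComplex) {z | 0 < z.im} :=
    (UpperHalfPlane.mdifferentiable_iff).mp mdifferentiable_jInv
  have hN0 : (0 : ℝ) < N := Nat.cast_pos.mpr (Nat.pos_of_ne_zero (NeZero.ne N))
  have hmaps : Set.MapsTo (fun w : ℂ => (N : ℂ) * w) {z | 0 < z.im} {z | 0 < z.im} := by
    intro w hw
    simp only [Set.mem_ofPred_eq] at hw ⊢
    have : ((N : ℂ) * w).im = N * w.im := by simp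
    rw [this]
    positivity
  have hmap : DifferentiableOn ℂ (fun w : ℂ => (N : ℂ) * w) {z | 0 < z.im} :=
    (differentiable_id.const_mul _).differentiableOn
  refine (hj.comp hmap hmaps).congr ?_
  intro w hw
  simp only [Set.mem_ofPred_eq] at hw
  simp [jN, ofComplex_apply_of_im_pos hw]

theorem mdifferentiable_jN_smul (N : ℕ) [NeZero N] (γ : SL(2, ℤ)) :
    MDiff (fun z : ℍ => jN N (γ • z)) := by
  have h := (mdifferentiable_jN N).slash 0 (Matrix.SpecialLinearGroup.mapGL ℝ γ)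
  have e : (jN N) ∣[(0 : ℤ)] (Matrix.SpecialLinearGroup.mapGL ℝ γ) =
      fun z : ℍ => jN N (γ • z) := by
    ext z
    show ((jN N) ∣[(0 : ℤ)] γ) z = _
    rw [SL_slash_apply, neg_zero, zpow_zero, mul_one]
  rwa [e] at h

/-- Hermite form (helper6's `DeltaSlash.exists_decomp`) on points:
`N · (γ z) = δ · ((a z + b) / d)` with `δ ∈ SL(2, ℤ)`, `a d = N`, `0 ≤ b < d`, and `d = 1` iff
`γ ∈ Γ₀(N)`. -/
theorem exists_smul_affine (N : ℕ) [NeZero N] (γ : SL(2, ℤ)) :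
    ∃ (a b d : ℕ) (δ : SL(2, ℤ)), a * d = N ∧ b < d ∧ (d = 1 ↔ (N : ℤ) ∣ γ 1 0) ∧
      ∀ z : ℍ, ofComplex ((N : ℂ) * ((γ • z : ℍ) : ℂ)) =
        δ • ofComplex (((a : ℂ) * z + b) / d) := by
  obtain ⟨a, b, d, δ, had, hbd, hd1, h00, h01, h10, h11⟩ := exists_decomp N γ
  refine ⟨a, b, d, δ, had, hbd, hd1, fun z => ?_⟩
  have hN0 : N ≠ 0 := NeZero.ne N
  have ha0 : a ≠ 0 := by rintro rfl; simp at had; exact hN0 had.symm
  have hd0 : d ≠ 0 := by rintro rfl; simp at had; exact hN0 had.symm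
  have haC : (a : ℂ) ≠ 0 := by exact_mod_cast ha0
  have hdC : (d : ℂ) ≠ 0 := by exact_mod_cast hd0
  have hwim : 0 < (((a : ℂ) * z + b) / d).im := im_affine_pos ha0 hd0 b z
  obtain ⟨w, hw⟩ : ∃ w : ℍ, (w : ℂ) = ((a : ℂ) * z + b) / d := ⟨⟨_, hwim⟩, rfl⟩
  have hden := sl_denom_ne_zero γ z
  have hdenδ := sl_denom_ne_zero δ w
  have c00 : (δ 0 0 : ℂ) * a = N * (γ 0 0 : ℂ) := by exact_mod_cast h00
  have c01 : (δ 0 0 : ℂ) * b + (δ 0 1 : ℂ) * d = N * (γ 0 1 : ℂ) := by exact_mod_cast h01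
  have c10 : (δ 1 0 : ℂ) * a = (γ 1 0 : ℂ) := by exact_mod_cast h10
  have c11 : (δ 1 0 : ℂ) * b + (δ 1 1 : ℂ) * d = (γ 1 1 : ℂ) := by exact_mod_cast h11
  have hdenrel : (δ 1 0 : ℂ) * w + (δ 1 1 : ℂ) = ((γ 1 0 : ℂ) * z + (γ 1 1 : ℂ)) / d := by
    rw [hw]; field_simp; linear_combination (z : ℂ) * c10 + c11
  have hw' : ofComplex (((a : ℂ) * z + b) / d) = w := by
    rw [ofComplex_apply_of_im_pos hwim]; exact UpperHalfPlane.ext hw.symm
  rw [hw']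
  have him : 0 < ((N : ℂ) * ((γ • z : ℍ) : ℂ)).im := by
    have : ((N : ℂ) * ((γ • z : ℍ) : ℂ)).im = N * (γ • z : ℍ).im := by simp
    rw [this]
    have := (γ • z : ℍ).im_pos
    positivity
  rw [ofComplex_apply_of_im_pos him]
  apply UpperHalfPlane.ext
  show (N : ℂ) * ((γ • z : ℍ) : ℂ) = ((δ • w : ℍ) : ℂ)
  rw [coe_sl_smul, coe_sl_smul, hdenrel]
  have hnum : (δ 0 0 : ℂ) * w + (δ 0 1 : ℂ) =
      ((N : ℂ) * ((γ 0 0 : ℂ) * z + (γ 0 1 : ℂ))) / d := by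
    rw [hw]; field_simp; linear_combination (z : ℂ) * c00 + c01
  rw [hnum]
  field_simp

/-- Every `SL(2, ℤ)`-translate of `j(N z)` is `j((a z + b) / d)` with `a d = N`, `0 ≤ b < d`,
and `d = 1` iff `γ ∈ Γ₀(N)`. -/
theorem jN_smul (N : ℕ) [NeZero N] (γ : SL(2, ℤ)) :
    ∃ a b d : ℕ, a * d = N ∧ b < d ∧ (d = 1 ↔ (N : ℤ) ∣ γ 1 0) ∧
      ∀ z : ℍ, jN N (γ • z) = jInv (ofComplex (((a : ℂ) * z + b) / d)) := by
  obtain ⟨a, b, d, δ, had, hbd, hd1, h⟩ := exists_smul_affine N γ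
  exact ⟨a, b, d, had, hbd, hd1, fun z => by rw [jN, h z, jInv_smul]⟩

/-- `j(N z)` is `Γ₀(N)`-invariant. -/
theorem jN_smul_of_mem_self (N : ℕ) [NeZero N] {γ : SL(2, ℤ)} (hγ : γ ∈ Gamma0 N) (z : ℍ) :
    jN N (γ • z) = jN N z := by
  obtain ⟨a, b, d, had, hbd, hd1, hform⟩ := jN_smul N γ
  have hd : d = 1 := hd1.mpr ((mem_Gamma0_iff_dvd N γ).mp hγ)
  subst hd
  have hb : b = 0 := by omega
  subst hb
  have ha : a = N := by simpa using had
  subst ha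
  rw [hform z, jN_eq_affine]

/-- All the functions `j(d z)`, `d ∣ N`, are `Γ₀(N)`-invariant. -/
theorem jN_smul_of_mem {N d : ℕ} [NeZero N] (hd : d ∣ N) {γ : SL(2, ℤ)} (hγ : γ ∈ Gamma0 N)
    (z : ℍ) : jN d (γ • z) = jN d z := by
  have : NeZero d := ⟨fun h0 => NeZero.ne N (by rw [h0] at hd; exact Nat.eq_zero_of_zero_dvd hd)⟩
  apply jN_smul_of_mem_self d
  rw [mem_Gamma0_iff_dvd] at hγ ⊢
  exact dvd_trans (Int.natCast_dvd_natCast.mpr hd) hγ

/-! ## The stabiliser of `j(N z)` is exactly `Γ₀(N)` -/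

/-- If `j(N γz) = j(N z)` for all `z`, then `γ ∈ Γ₀(N)`. -/
theorem mem_Gamma0_of_jN_smul (N : ℕ) [NeZero N] (γ : SL(2, ℤ))
    (h : ∀ z : ℍ, jN N (γ • z) = jN N z) : γ ∈ Gamma0 N := by
  by_contra hγ
  obtain ⟨a, b, d, had, hbd, hd1, hform⟩ := jN_smul N γ
  have hN0 : N ≠ 0 := NeZero.ne N
  have ha0 : a ≠ 0 := by rintro rfl; simp at had; exact hN0 had.symm
  have hd0 : d ≠ 0 := by rintro rfl; simp at had; exact hN0 had.symm
  have hd1' : d ≠ 1 := fun h => hγ ((mem_Gamma0_iff_dvd N γ).mpr (hd1.mp h))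
  have hd2 : 2 ≤ d := by omega
  have t₁ : Tendsto (fun z : ℍ => ofComplex (((N : ℂ) * z + (0 : ℕ)) / (1 : ℕ)))
      atImInfty atImInfty := tendsto_ofComplex_affine hN0 one_ne_zero 0
  have t₂ : Tendsto (fun z : ℍ => ofComplex (((a : ℂ) * z + b) / d)) atImInfty atImInfty :=
    tendsto_ofComplex_affine ha0 hd0 b
  have hkey : ∀ z : ℍ, jInv (ofComplex (((N : ℂ) * z + (0 : ℕ)) / (1 : ℕ))) =
      jInv (ofComplex (((a : ℂ) * z + b) / d)) := by
    intro z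
    rw [← jN_eq_affine, ← hform z, h z]
  have hdR : (2 : ℝ) ≤ d := by exact_mod_cast hd2
  have haR : (1 : ℝ) ≤ a := by exact_mod_cast Nat.one_le_iff_ne_zero.mpr ha0
  have hNR : (N : ℝ) = a * d := by exact_mod_cast had.symm
  have hc : 0 < 2 * π * ((N : ℝ) - a / d) := by
    have h1 : (a : ℝ) / d < N := by
      rw [div_lt_iff₀ (by linarith), hNR]
      nlinarith [mul_le_mul haR hdR (by norm_num) (by linarith)]
    have := Real.pi_pos
    nlinarith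
  -- `R τ = ‖q · j(τ)‖ → 1`
  have hnorm : ∀ z : ℍ,
      ‖𝕢 1 (ofComplex (((N : ℂ) * z + (0 : ℕ)) / (1 : ℕ))) *
        jInv (ofComplex (((N : ℂ) * z + (0 : ℕ)) / (1 : ℕ)))‖ =
      Real.exp (-(2 * π * ((N : ℝ) - a / d) * z.im)) *
        ‖𝕢 1 (ofComplex (((a : ℂ) * z + b) / d)) * jInv (ofComplex (((a : ℂ) * z + b) / d))‖ := by
    intro z
    have h := congrArg norm (hkey z)
    rw [norm_jInv, norm_jInv, im_ofComplex_affine hN0 one_ne_zero,
      im_ofComplex_affine ha0 hd0] at h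
    have hsplit : Real.exp (-(2 * π * ((N : ℝ) - a / d) * z.im)) =
        Real.exp (-(2 * π * ((N : ℝ) / (1 : ℕ) * z.im))) *
          Real.exp (2 * π * ((a : ℝ) / d * z.im)) := by
      rw [← Real.exp_add]
      congr 1
      push_cast
      ring
    have hinv : Real.exp (-(2 * π * ((N : ℝ) / (1 : ℕ) * z.im))) *
        Real.exp (2 * π * ((N : ℝ) / (1 : ℕ) * z.im)) = 1 := by
      rw [← Real.exp_add]
      simp
    rw [hsplit, mul_assoc, ← h, ← mul_assoc, hinv, one_mul]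
  have hL : Tendsto (fun z : ℍ =>
      ‖𝕢 1 (ofComplex (((N : ℂ) * z + (0 : ℕ)) / (1 : ℕ))) *
        jInv (ofComplex (((N : ℂ) * z + (0 : ℕ)) / (1 : ℕ)))‖) atImInfty (𝓝 ‖(1 : ℂ)‖) :=
    (tendsto_qParam_mul_jInv.comp t₁).norm
  have hR : Tendsto (fun z : ℍ => Real.exp (-(2 * π * ((N : ℝ) - a / d) * z.im)) *
      ‖𝕢 1 (ofComplex (((a : ℂ) * z + b) / d)) * jInv (ofComplex (((a : ℂ) * z + b) / d))‖)
      atImInfty (𝓝 (0 * ‖(1 : ℂ)‖)) :=
    (tendsto_exp_neg_mul_im hc).mul ((tendsto_qParam_mul_jInv.comp t₂).norm)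
  have hLR := tendsto_nhds_unique (hL.congr hnorm) hR
  rw [norm_one, zero_mul] at hLR
  exact one_ne_zero hLR

/-- `j(N γz) = j(N z)` for all `z` exactly when `γ ∈ Γ₀(N)`. -/
theorem jN_smul_eq_self_iff (N : ℕ) [NeZero N] (γ : SL(2, ℤ)) :
    (∀ z : ℍ, jN N (γ • z) = jN N z) ↔ γ ∈ Gamma0 N :=
  ⟨mem_Gamma0_of_jN_smul N γ, fun h z => jN_smul_of_mem_self N h z⟩

/-- Two translates of `j(N z)` coincide exactly when the elements are in the same right coset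
of `Γ₀(N)`. -/
theorem jN_smul_eq_iff (N : ℕ) [NeZero N] (γ₁ γ₂ : SL(2, ℤ)) :
    (∀ z : ℍ, jN N (γ₁ • z) = jN N (γ₂ • z)) ↔ γ₁ * γ₂⁻¹ ∈ Gamma0 N := by
  constructor
  · intro h
    apply mem_Gamma0_of_jN_smul
    intro z
    have h1 := h (γ₂⁻¹ • z)
    rwa [smul_smul, smul_smul, mul_inv_cancel, one_smul] at h1
  · intro h z
    have h1 := jN_smul_of_mem_self N h (γ₂ • z)
    rwa [smul_smul, inv_mul_cancel_right] at h1

/-- There is a point of `ℍ` at which the translates of `j(N z)` by different right cosets of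
`Γ₀(N)` take pairwise different values. -/
theorem exists_generic (N : ℕ) [NeZero N] :
    ∃ z : ℍ, ∀ γ₁ γ₂ : SL(2, ℤ), jN N (γ₁ • z) = jN N (γ₂ • z) → γ₁ * γ₂⁻¹ ∈ Gamma0 N := by
  classical
  let _ : Fintype (SL(2, ℤ) ⧸ Gamma0 N) := Subgroup.fintypeQuotientOfFiniteIndex
  set f : SL(2, ℤ) ⧸ Gamma0 N → ℍ → ℂ := fun q z => jN N (q.out⁻¹ • z) with hf
  have hfd : ∀ q, MDiff (f q) := fun q => mdifferentiable_jN_smul N _
  have hne : ∀ q q' : SL(2, ℤ) ⧸ Gamma0 N, q ≠ q' → f q - f q' ≠ 0 := by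
    intro q q' hqq h0
    apply hqq
    have h1 : ∀ z : ℍ, jN N (q.out⁻¹ • z) = jN N (q'.out⁻¹ • z) := fun z =>
      sub_eq_zero.mp (congrFun h0 z)
    have h2 := (jN_smul_eq_iff N _ _).mp h1
    rw [inv_inv] at h2
    rw [← QuotientGroup.out_eq' q, ← QuotientGroup.out_eq' q']
    exact QuotientGroup.eq.mpr h2
  have hprod : ∏ p ∈ (Finset.univ : Finset ((SL(2, ℤ) ⧸ Gamma0 N) × (SL(2, ℤ) ⧸ Gamma0 N))).filter
      (fun p => p.1 ≠ p.2), (f p.1 - f p.2) ≠ 0 := by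
    intro h0
    rw [UpperHalfPlane.prod_eq_zero_iff (fun p _ => (hfd p.1).sub (hfd p.2))] at h0
    obtain ⟨p, hp, hp0⟩ := h0
    exact hne p.1 p.2 (Finset.mem_filter.mp hp).2 hp0
  obtain ⟨z, hz⟩ : ∃ z : ℍ, (∏ p ∈ (Finset.univ : Finset ((SL(2, ℤ) ⧸ Gamma0 N) ×
      (SL(2, ℤ) ⧸ Gamma0 N))).filter (fun p => p.1 ≠ p.2), (f p.1 - f p.2)) z ≠ 0 := by
    by_contra hcon
    push Not at hcon
    exact hprod (funext hcon)
  rw [Finset.prod_apply] at hz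
  have hz' : ∀ q q' : SL(2, ℤ) ⧸ Gamma0 N, q ≠ q' → f q z ≠ f q' z := by
    intro q q' hqq heq
    apply hz
    apply Finset.prod_eq_zero (i := (q, q')) (Finset.mem_filter.mpr ⟨Finset.mem_univ _, hqq⟩)
    simp [heq]
  refine ⟨z, fun γ₁ γ₂ h => ?_⟩
  -- translate to coset representatives
  have key : ∀ γ : SL(2, ℤ), f (QuotientGroup.mk γ⁻¹) z = jN N (γ • z) := by
    intro γ
    obtain ⟨h', hh'⟩ := QuotientGroup.mk_out_eq_mul (Gamma0 N) γ⁻¹
    show jN N ((QuotientGroup.mk γ⁻¹ : SL(2, ℤ) ⧸ Gamma0 N).out⁻¹ • z) = jN N (γ • z)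
    rw [hh', _root_.mul_inv_rev, inv_inv, ← smul_smul]
    exact jN_smul_of_mem_self N (inv_mem h'.2) _
  by_contra hγ
  have hq : (QuotientGroup.mk γ₁⁻¹ : SL(2, ℤ) ⧸ Gamma0 N) ≠ QuotientGroup.mk γ₂⁻¹ := by
    intro heq
    apply hγ
    have := QuotientGroup.eq.mp heq
    rwa [inv_inv] at this
  exact hz' _ _ hq (by rw [key, key]; exact h)

end Fermat.Agent.Lib.JStab
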