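import Fermat.Agent.Lib.EisCharHol
import Fermat.Agent.Lib.CuspLaurent
import Fermat.Agent.S24.ModDefs

set_option autoImplicit false

/-!
# `E_ψ / E_1` in the cusp vocabulary of `Lib/CuspLaurent`

* `expChar_mul_pow`: `e(φ / (n c)) ^ c = e(φ / n)`;
* `isHolCusp_slash`: every translate `E_ψ ∣[4] γ₁` is holomorphic, `N`-periodic and bounded at
  `i∞` (`IsHolCusp N`);
* `eisNum Γ ψ = E_ψ * E_1 ^ 2 / Δ`: a holomorphic function on `ℍ` all of whose
  `SL(2, ℤ)`-translates `τ ↦ eisNum Γ ψ (γ₁ • τ)` are `N`-periodic with a pole of finite order at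
  `i∞` (`IsMerCusp N`), and `E_ψ / E_1 = eisNum Γ ψ / eisNum Γ 1`;
* `modRing N`: the ring of all functions whose `SL(2, ℤ)`-translates lie in `merCusp N`; it is
  `IsHolStable`, contained in `merCusp N` and in `Hol`, and contains the `eisNum Γ ψ`.
-/

namespace Fermat.Agent.Lib.EisChar

open UpperHalfPlane Filter Topology ModularForm CongruenceSubgroup Fermat.Agent.Lib.HolVal
  Fermat.Agent.Lib.CuspLaurent
open scoped Manifold MatrixGroups

variable {Γ : Subgroup SL(2, ℤ)} {ψ : Γ →* ℂˣ}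

/-! ### Levels -/

/-- `e(φ / (n c)) ^ c = e(φ / n)`. -/
theorem expChar_mul_pow (φ : Additive Γ →+ ℤ) (n c : ℕ) (hc : c ≠ 0) (γ : Γ) :
    expChar Γ φ (n * c) γ ^ c = expChar Γ φ n γ := by
  apply Units.ext
  rw [Units.val_pow_eq_pow_val, expChar_apply, expChar_apply, ← Complex.exp_nat_mul]
  congr 1
  have hc' : (c : ℝ) ≠ 0 := Nat.cast_ne_zero.mpr hc
  have h : (c : ℝ) * (2 * Real.pi * (φ (Additive.ofMul γ) : ℝ) / ((n * c : ℕ) : ℝ)) =
      2 * Real.pi * (φ (Additive.ofMul γ) : ℝ) / (n : ℝ) := by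
    by_cases hn : n = 0
    · subst hn
      simp
    · have hn' : (n : ℝ) ≠ 0 := Nat.cast_ne_zero.mpr hn
      push_cast
      field_simp
  rw [← h]
  push_cast
  ring

/-! ### Translates are holomorphic at the cusp -/

/-- Every translate `E_ψ ∣[4] γ₁` is holomorphic, `N`-periodic and bounded at `i∞`. -/
theorem isHolCusp_slash (hpar : IsPar Γ ψ) (hunit : ∀ γ : Γ, ‖((ψ γ : ℂˣ) : ℂ)‖ = 1)
    (N : ℕ) [NeZero N] (hN : CongruenceSubgroup.Gamma N ≤ Γ) (γ₁ : SL(2, ℤ)) :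
    IsHolCusp (N : ℝ) (eisChar Γ ψ ∣[(4 : ℤ)] γ₁) :=
  ⟨(slashHol Γ ψ hunit γ₁).2, periodic_comp_ofComplex_of_vadd N (slash_vadd hpar N hN γ₁),
    isBoundedAtImInfty_slash hpar hunit N hN γ₁⟩

/-! ### The discriminant -/

local notation "Δ" => ModularForm.discriminant

theorem discriminant_smul (γ : SL(2, ℤ)) (τ : ℍ) : Δ (γ • τ) = denom γ τ ^ 12 * Δ τ := by
  have h := congrFun (SlashInvariantForm.slash_action_generators_SL2Z discriminant_S_invariant
    discriminant_T_invariant γ) τ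
  rw [SL_slash_apply] at h
  have hd : denom γ τ ≠ 0 := denom_ne_zero _ _
  rw [← h, mul_comm (Δ (γ • τ)), ← mul_assoc]
  have h1 : denom γ τ ^ 12 * denom γ τ ^ (-(12 : ℤ)) = 1 := by
    rw [zpow_neg, ← zpow_natCast]
    exact mul_inv_cancel₀ (zpow_ne_zero _ hd)
  rw [h1, one_mul]

theorem mdifferentiable_discriminant : MDiff (Δ : ℍ → ℂ) := CuspForm.discriminant.holo'

theorem mdifferentiable_inv_discriminant : MDiff (fun τ : ℍ => (Δ τ)⁻¹) := by
  have h := UpperHalfPlane.mdifferentiable_iff.mp mdifferentiable_discriminant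
  rw [UpperHalfPlane.mdifferentiable_iff]
  have h2 : DifferentiableOn ℂ (fun z : ℂ => ((Δ ∘ ofComplex) z)⁻¹) {z : ℂ | 0 < z.im} :=
    h.inv (fun z _ => discriminant_ne_zero _)
  exact h2

theorem periodic_discriminant (N : ℕ) : Function.Periodic ((Δ : ℍ → ℂ) ∘ ofComplex) (N : ℝ) := by
  have h1 : Function.Periodic ((Δ : ℍ → ℂ) ∘ ofComplex) ((1 : ℝ) : ℂ) :=
    SlashInvariantFormClass.periodic_comp_ofComplex CuspForm.discriminant one_mem_strictPeriods_SL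
  have h2 := h1.nat_mul N
  simpa using h2

theorem tParam_pow_eq_qParam (N : ℕ) [NeZero N] (τ : ℍ) :
    tParam (N : ℝ) τ ^ N = Function.Periodic.qParam 1 (τ : ℂ) := by
  have hN : (N : ℂ) ≠ 0 := Nat.cast_ne_zero.mpr (NeZero.ne N)
  unfold tParam Function.Periodic.qParam
  rw [← Complex.exp_nat_mul]
  congr 1
  push_cast
  field_simp

/-- `1 / Δ` is holomorphic on `ℍ`, `N`-periodic, with a pole of order `≤ N` in `q_N` at `i∞`. -/
theorem isMerCusp_inv_discriminant (N : ℕ) [NeZero N] :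
    IsMerCusp (N : ℝ) (fun τ : ℍ => (Δ τ)⁻¹) := by
  refine ⟨mdifferentiable_inv_discriminant, fun w => ?_, N, ?_⟩
  · have h := periodic_discriminant N w
    simp only [Function.comp_apply] at h ⊢
    rw [h]
  · have hO := exp_isBigO_discriminant
    obtain ⟨C, hC⟩ := hO.bound
    rw [UpperHalfPlane.IsBoundedAtImInfty, Filter.BoundedAtFilter]
    refine Asymptotics.IsBigO.of_bound C ?_
    filter_upwards [hC] with τ hτ
    simp only [Pi.mul_apply, Pi.pow_apply, Pi.one_apply, norm_one, mul_one]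
    rw [tParam_pow_eq_qParam, norm_mul, norm_inv]
    have hq : ‖Function.Periodic.qParam 1 (τ : ℂ)‖ = Real.exp (-2 * Real.pi * τ.im) := by
      simp [Function.Periodic.qParam, Complex.norm_exp]
    rw [hq]
    rw [Real.norm_of_nonneg (Real.exp_pos _).le] at hτ
    have hpos : 0 < ‖Δ τ‖ := norm_pos_iff.mpr (discriminant_ne_zero τ)
    rw [← div_eq_mul_inv, div_le_iff₀ hpos]
    exact hτ

/-! ### Weight-zero representatives -/

variable (Γ ψ) in
/-- `E_ψ * E_1 ^ 2 / Δ`: a holomorphic "weight 0" function with `E_ψ / E_1 = eisNum ψ / eisNum 1`. -/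
noncomputable def eisNum (τ : ℍ) : ℂ :=
  eisChar Γ ψ τ * eisChar Γ (1 : Γ →* ℂˣ) τ ^ 2 * (Δ τ)⁻¹

theorem mdifferentiable_eisNum (hunit : ∀ γ : Γ, ‖((ψ γ : ℂˣ) : ℂ)‖ = 1) :
    MDiff (eisNum Γ ψ) :=
  ((mdifferentiable_eisChar hunit).mul ((mdifferentiable_eisChar (norm_one_apply Γ)).pow 2)).mul
    mdifferentiable_inv_discriminant

/-- The translates of `eisNum` in terms of the weight-4 translates. -/
theorem eisNum_smul (γ₁ : SL(2, ℤ)) (τ : ℍ) :
    eisNum Γ ψ (γ₁ • τ) =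
      (eisChar Γ ψ ∣[(4 : ℤ)] γ₁) τ * (eisChar Γ (1 : Γ →* ℂˣ) ∣[(4 : ℤ)] γ₁) τ ^ 2 * (Δ τ)⁻¹ := by
  unfold eisNum
  rw [SL_slash_apply, SL_slash_apply, discriminant_smul]
  have hd : denom γ₁ τ ≠ 0 := denom_ne_zero _ _
  have hΔ : Δ τ ≠ 0 := discriminant_ne_zero τ
  have h4 : denom γ₁ τ ^ (-(4 : ℤ)) = (denom γ₁ τ ^ 4)⁻¹ := by
    rw [zpow_neg, ← zpow_natCast]
    rfl
  rw [h4]
  field_simp

theorem eisNum_comp_eq (γ₁ : SL(2, ℤ)) :
    (fun τ : ℍ => eisNum Γ ψ (γ₁ • τ)) =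
      (eisChar Γ ψ ∣[(4 : ℤ)] γ₁) * (eisChar Γ (1 : Γ →* ℂˣ) ∣[(4 : ℤ)] γ₁) ^ 2 *
        (fun τ : ℍ => (Δ τ)⁻¹) := by
  funext τ
  exact eisNum_smul γ₁ τ

/-- Every `SL(2, ℤ)`-translate of `eisNum Γ ψ` is `N`-periodic and meromorphic at `i∞`. -/
theorem isMerCusp_eisNum_comp (hpar : IsPar Γ ψ) (hunit : ∀ γ : Γ, ‖((ψ γ : ℂˣ) : ℂ)‖ = 1)
    (N : ℕ) [NeZero N] (hN : CongruenceSubgroup.Gamma N ≤ Γ) (γ₁ : SL(2, ℤ)) :
    IsMerCusp (N : ℝ) (fun τ : ℍ => eisNum Γ ψ (γ₁ • τ)) := by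
  rw [eisNum_comp_eq]
  exact (((isHolCusp_slash hpar hunit N hN γ₁).mul
    ((isHolCusp_slash (isPar_one Γ) (norm_one_apply Γ) N hN γ₁).pow 2)).isMerCusp).mul
    (isMerCusp_inv_discriminant N)

/-- `E_ψ / E_1 = eisNum ψ / eisNum 1` (pointwise, also at the zeros of `E_1`). -/
theorem eisQuot_eq_eisNum_div (τ : ℍ) :
    eisQuot Γ ψ τ = eisNum Γ ψ τ / eisNum Γ (1 : Γ →* ℂˣ) τ := by
  unfold eisQuot eisNum
  have hΔ : Δ τ ≠ 0 := discriminant_ne_zero τ
  by_cases h1 : eisChar Γ (1 : Γ →* ℂˣ) τ = 0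
  · rw [h1]
    simp
  · field_simp

/-- `E_1 * eisNum ψ = E_ψ * eisNum 1`. -/
theorem eisChar_mul_eisNum (τ : ℍ) :
    eisChar Γ (1 : Γ →* ℂˣ) τ * eisNum Γ ψ τ = eisChar Γ ψ τ * eisNum Γ (1 : Γ →* ℂˣ) τ := by
  unfold eisNum
  ring

theorem eisNum_one_ne_zero (hneg : (-1 : SL(2, ℤ)) ∈ Γ) (N : ℕ) [NeZero N]
    (hN : CongruenceSubgroup.Gamma N ≤ Γ) : eisNum Γ (1 : Γ →* ℂˣ) ≠ 0 := by
  obtain ⟨z, hz⟩ := exists_ne_zero (isPar_one Γ) (norm_one_apply Γ) hneg N hN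
  intro h
  have h2 := congrFun h z
  unfold eisNum at h2
  simp only [Pi.zero_apply, mul_eq_zero, inv_eq_zero, pow_eq_zero_iff, ne_eq,
    OfNat.ofNat_ne_zero, not_false_eq_true, or_self] at h2
  rcases h2 with h2 | h2
  · exact hz h2
  · exact discriminant_ne_zero z h2

theorem eisNum_ne_zero (hpar : IsPar Γ ψ) (hunit : ∀ γ : Γ, ‖((ψ γ : ℂˣ) : ℂ)‖ = 1)
    (hneg : (-1 : SL(2, ℤ)) ∈ Γ) (N : ℕ) [NeZero N]
    (hN : CongruenceSubgroup.Gamma N ≤ Γ) : eisNum Γ ψ ≠ 0 := by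
  have h1 := eisHol_ne_zero hpar hunit hneg N hN
  have h2 := eisHol_ne_zero (isPar_one Γ) (norm_one_apply Γ) hneg N hN
  have h3 : eisHol Γ ψ hunit * eisHol Γ 1 (norm_one_apply Γ) ^ 2 ≠ 0 :=
    mul_ne_zero h1 (pow_ne_zero 2 h2)
  intro h
  apply h3
  apply Subtype.ext
  funext τ
  have h4 := congrFun h τ
  unfold eisNum at h4
  simp only [Pi.zero_apply, mul_eq_zero, inv_eq_zero] at h4
  rcases h4 with h4 | h4
  · show eisChar Γ ψ τ * eisChar Γ 1 τ ^ 2 = 0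
    rcases h4 with h4 | h4
    · rw [h4, zero_mul]
    · rw [h4, mul_zero]
  · exact absurd h4 (discriminant_ne_zero τ)

/-! ### The ring of functions with all translates meromorphic at the cusp -/

/-- The ring of functions `ℍ → ℂ` all of whose `SL(2, ℤ)`-translates are holomorphic,
`N`-periodic, with a pole of finite order at `i∞`. -/
def modRing (N : ℕ) [NeZero N] : Subring (ℍ → ℂ) where
  carrier := {f | ∀ γ : SL(2, ℤ), (fun τ : ℍ => f (γ • τ)) ∈ merCusp N}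
  mul_mem' := fun hf hg γ => (merCusp N).mul_mem (hf γ) (hg γ)
  one_mem' := fun _ => (merCusp N).one_mem
  add_mem' := fun hf hg γ => (merCusp N).add_mem (hf γ) (hg γ)
  zero_mem' := fun _ => (merCusp N).zero_mem
  neg_mem' := fun hf γ => (merCusp N).neg_mem (hf γ)

theorem mem_modRing {N : ℕ} [NeZero N] {f : ℍ → ℂ} :
    f ∈ modRing N ↔ ∀ γ : SL(2, ℤ), IsMerCusp (N : ℝ) (fun τ : ℍ => f (γ • τ)) := Iff.rfl

theorem modRing_le_merCusp (N : ℕ) [NeZero N] : modRing N ≤ merCusp N := by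
  intro f hf
  have h := hf 1
  have h2 : (fun τ : ℍ => f ((1 : SL(2, ℤ)) • τ)) = f := by
    funext τ
    rw [one_smul]
  rwa [h2] at h

theorem modRing_le_Hol (N : ℕ) [NeZero N] : modRing N ≤ Hol :=
  fun _ hf => (modRing_le_merCusp N hf).holo

theorem comp_mem_modRing {N : ℕ} [NeZero N] {f : ℍ → ℂ} (hf : f ∈ modRing N) (γ : SL(2, ℤ)) :
    (fun τ : ℍ => f (γ • τ)) ∈ modRing N := by
  intro γ'
  have h := hf (γ * γ')
  have h2 : (fun τ : ℍ => f ((γ * γ') • τ)) = fun τ : ℍ => f (γ • γ' • τ) := by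
    funext τ
    rw [mul_smul]
  rwa [h2] at h

theorem const_mem_modRing (N : ℕ) [NeZero N] (c : ℂ) : (fun _ : ℍ => c) ∈ modRing N :=
  fun _ => const_mem_merCusp N c

instance instIsHolStableModRing (N : ℕ) [NeZero N] : Fermat.Agent.S24.IsHolStable (modRing N) where
  mdiff := fun _ hf => modRing_le_Hol N hf
  const_mem := fun _ => const_mem_modRing N _
  smul_mem := fun γ _ hf => comp_mem_modRing hf γ

/-- `eisNum Γ ψ ∈ modRing N`. -/
theorem eisNum_mem_modRing (hpar : IsPar Γ ψ) (hunit : ∀ γ : Γ, ‖((ψ γ : ℂˣ) : ℂ)‖ = 1)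
    (N : ℕ) [NeZero N] (hN : CongruenceSubgroup.Gamma N ≤ Γ) : eisNum Γ ψ ∈ modRing N :=
  fun γ₁ => isMerCusp_eisNum_comp hpar hunit N hN γ₁

/-- Every `SL(2, ℤ)`-stable ring of functions inside `merCusp N` is inside `modRing N`
(e.g. `S24.RN N`, by `S24.ModRing.RN_le_merCusp`). -/
theorem le_modRing_of_isHolStable (N : ℕ) [NeZero N] (R : Subring (ℍ → ℂ))
    [Fermat.Agent.S24.IsHolStable R] (hR : R ≤ merCusp N) : R ≤ modRing N :=
  fun f hf γ => hR (Fermat.Agent.S24.IsHolStable.smul_mem γ f hf)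

/-- Constants in `modRing N`. -/
def constMod (N : ℕ) [NeZero N] (c : ℂ) : modRing N := ⟨fun _ => c, const_mem_modRing N c⟩

/-- `eisNum Γ ψ` has character `ψ` under `Γ` (weight zero). -/
theorem eisNum_smul_of_mem (hpar : IsPar Γ ψ) (γ : Γ) (τ : ℍ) :
    eisNum Γ ψ ((γ : SL(2, ℤ)) • τ) = ((ψ γ : ℂˣ) : ℂ) * eisNum Γ ψ τ := by
  unfold eisNum
  rw [eisChar_smul hpar, eisChar_smul (isPar_one Γ), discriminant_smul]
  have hd : denom (γ : SL(2, ℤ)) τ ≠ 0 := denom_ne_zero _ _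
  have hΔ : Δ τ ≠ 0 := discriminant_ne_zero τ
  simp only [MonoidHom.one_apply, Units.val_one, one_mul]
  field_simp

/-- `eisNum Γ 1` is `Γ`-invariant. -/
theorem eisNum_one_smul_of_mem (γ : Γ) (τ : ℍ) :
    eisNum Γ (1 : Γ →* ℂˣ) ((γ : SL(2, ℤ)) • τ) = eisNum Γ (1 : Γ →* ℂˣ) τ := by
  rw [eisNum_smul_of_mem (isPar_one Γ)]
  simp

variable (Γ ψ) in
/-- `eisNum Γ ψ` as an element of `modRing N`. -/
noncomputable def eisNumMod (hpar : IsPar Γ ψ) (hunit : ∀ γ : Γ, ‖((ψ γ : ℂˣ) : ℂ)‖ = 1)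
    (N : ℕ) [NeZero N] (hN : CongruenceSubgroup.Gamma N ≤ Γ) : modRing N :=
  ⟨eisNum Γ ψ, eisNum_mem_modRing hpar hunit N hN⟩

theorem eisNumMod_ne_zero (hpar : IsPar Γ ψ) (hunit : ∀ γ : Γ, ‖((ψ γ : ℂˣ) : ℂ)‖ = 1)
    (hneg : (-1 : SL(2, ℤ)) ∈ Γ) (N : ℕ) [NeZero N] (hN : CongruenceSubgroup.Gamma N ≤ Γ) :
    eisNumMod Γ ψ hpar hunit N hN ≠ 0 := by
  intro h
  exact eisNum_ne_zero hpar hunit hneg N hN (congrArg Subtype.val h)

/-- The character law in `modRing N`: `num_ψ ∘ γ = ψ(γ) · num_ψ` for `γ ∈ Γ`. -/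
theorem translate_eisNumMod (hpar : IsPar Γ ψ) (hunit : ∀ γ : Γ, ‖((ψ γ : ℂˣ) : ℂ)‖ = 1)
    (N : ℕ) [NeZero N] (hN : CongruenceSubgroup.Gamma N ≤ Γ) (γ : Γ) :
    Fermat.Agent.S24.translate (modRing N) (γ : SL(2, ℤ)) (eisNumMod Γ ψ hpar hunit N hN) =
      constMod N ((ψ γ : ℂˣ) : ℂ) * eisNumMod Γ ψ hpar hunit N hN := by
  apply Subtype.ext
  funext τ
  exact eisNum_smul_of_mem hpar γ τ

variable (Γ ψ) in
/-- `F_ψ = E_ψ / E_1` in the fraction field of `modRing N`. -/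
noncomputable def eisFrac (hpar : IsPar Γ ψ) (hunit : ∀ γ : Γ, ‖((ψ γ : ℂˣ) : ℂ)‖ = 1)
    (N : ℕ) [NeZero N] (hN : CongruenceSubgroup.Gamma N ≤ Γ) : FractionRing (modRing N) :=
  algebraMap (modRing N) (FractionRing (modRing N)) (eisNumMod Γ ψ hpar hunit N hN) /
    algebraMap (modRing N) (FractionRing (modRing N))
      (eisNumMod Γ 1 (isPar_one Γ) (norm_one_apply Γ) N hN)

theorem algebraMap_modRing_ne_zero {N : ℕ} [NeZero N] {f : modRing N} (hf : f ≠ 0) :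
    algebraMap (modRing N) (FractionRing (modRing N)) f ≠ 0 := by
  intro h
  apply hf
  apply IsFractionRing.injective (modRing N) (FractionRing (modRing N))
  rw [h, map_zero]

theorem eisFrac_ne_zero (hpar : IsPar Γ ψ) (hunit : ∀ γ : Γ, ‖((ψ γ : ℂˣ) : ℂ)‖ = 1)
    (hneg : (-1 : SL(2, ℤ)) ∈ Γ) (N : ℕ) [NeZero N] (hN : CongruenceSubgroup.Gamma N ≤ Γ) :
    eisFrac Γ ψ hpar hunit N hN ≠ 0 :=
  div_ne_zero (algebraMap_modRing_ne_zero (eisNumMod_ne_zero hpar hunit hneg N hN))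
    (algebraMap_modRing_ne_zero
      (eisNumMod_ne_zero (isPar_one Γ) (norm_one_apply Γ) hneg N hN))

/-- **Character law in `FractionRing (modRing N)`**: for every ring endomorphism `c` extending
the translation by `γ ∈ Γ`, `c F_ψ = ψ(γ) · F_ψ`. -/
theorem map_eisFrac_of_mem (hpar : IsPar Γ ψ) (hunit : ∀ γ : Γ, ‖((ψ γ : ℂˣ) : ℂ)‖ = 1)
    (N : ℕ) [NeZero N] (hN : CongruenceSubgroup.Gamma N ≤ Γ)
    (γ : Γ) (c : FractionRing (modRing N) →+* FractionRing (modRing N))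
    (hc : ∀ f : modRing N, c (algebraMap (modRing N) (FractionRing (modRing N)) f) =
      algebraMap (modRing N) (FractionRing (modRing N))
        (Fermat.Agent.S24.translate (modRing N) (γ : SL(2, ℤ)) f)) :
    c (eisFrac Γ ψ hpar hunit N hN) =
      algebraMap (modRing N) (FractionRing (modRing N)) (constMod N ((ψ γ : ℂˣ) : ℂ)) *
        eisFrac Γ ψ hpar hunit N hN := by
  have h1 : Fermat.Agent.S24.translate (modRing N) (γ : SL(2, ℤ))
      (eisNumMod Γ 1 (isPar_one Γ) (norm_one_apply Γ) N hN) =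
      eisNumMod Γ 1 (isPar_one Γ) (norm_one_apply Γ) N hN := by
    apply Subtype.ext
    funext τ
    exact eisNum_one_smul_of_mem γ τ
  unfold eisFrac
  rw [map_div₀, hc, hc, translate_eisNumMod hpar hunit N hN γ, h1, map_mul, mul_div_assoc]

/-- The canonical map `Frac (modRing N) → Frac Hol`. -/
noncomputable def modToMer (N : ℕ) [NeZero N] : FractionRing (modRing N) →+* FractionRing Hol :=
  IsFractionRing.lift (A := modRing N) (K := FractionRing (modRing N))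
    (g := (algebraMap Hol (FractionRing Hol)).comp (Subring.inclusion (modRing_le_Hol N)))
    ((IsFractionRing.injective Hol (FractionRing Hol)).comp
      (Subring.inclusion_injective (modRing_le_Hol N)))

theorem modToMer_algebraMap (N : ℕ) [NeZero N] (f : modRing N) :
    modToMer N (algebraMap (modRing N) (FractionRing (modRing N)) f) =
      algebraMap Hol (FractionRing Hol) (Subring.inclusion (modRing_le_Hol N) f) := by
  unfold modToMer
  rw [IsFractionRing.lift_algebraMap]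
  rfl

/-- Under `Frac (modRing N) → Frac Hol`, `eisFrac` goes to `eisMer`. -/
theorem modToMer_eisFrac (hpar : IsPar Γ ψ) (hunit : ∀ γ : Γ, ‖((ψ γ : ℂˣ) : ℂ)‖ = 1)
    (hneg : (-1 : SL(2, ℤ)) ∈ Γ) (N : ℕ) [NeZero N] (hN : CongruenceSubgroup.Gamma N ≤ Γ) :
    modToMer N (eisFrac Γ ψ hpar hunit N hN) = eisMer Γ ψ hunit := by
  have h1 := eisHol_ne_zero (isPar_one Γ) (norm_one_apply Γ) hneg N hN
  have h2 : Subring.inclusion (modRing_le_Hol N)
      (eisNumMod Γ 1 (isPar_one Γ) (norm_one_apply Γ) N hN) ≠ 0 := by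
    intro h
    apply eisNumMod_ne_zero (isPar_one Γ) (norm_one_apply Γ) hneg N hN
    apply Subring.inclusion_injective (modRing_le_Hol N)
    rw [h, map_zero]
  have key : Subring.inclusion (modRing_le_Hol N) (eisNumMod Γ ψ hpar hunit N hN) *
      eisHol Γ 1 (norm_one_apply Γ) =
      eisHol Γ ψ hunit * Subring.inclusion (modRing_le_Hol N)
        (eisNumMod Γ 1 (isPar_one Γ) (norm_one_apply Γ) N hN) := by
    apply Subtype.ext
    funext τ
    show eisNum Γ ψ τ * eisChar Γ 1 τ = eisChar Γ ψ τ * eisNum Γ 1 τ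
    rw [mul_comm, eisChar_mul_eisNum]
  have key' := congrArg (algebraMap Hol (FractionRing Hol)) key
  rw [map_mul, map_mul] at key'
  unfold eisFrac eisMer
  rw [map_div₀, modToMer_algebraMap, modToMer_algebraMap,
    div_eq_div_iff (algebraMap_hol_ne_zero h2) (algebraMap_hol_ne_zero h1)]
  exact key'

end Fermat.Agent.Lib.EisChar
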