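import Mathlib

set_option autoImplicit false

/-!
# Point valuations on rings of holomorphic functions on the upper half plane

* `Hol`: the ring of holomorphic functions `ℍ → ℂ`; it is a domain.
* `ordAt τ : Valuation Hol ℤᵐ⁰`: the order of vanishing at `τ`, as a valuation.
* `act : SL(2, ℤ) →* (Hol ≃+* Hol)`: the left action `f ↦ f ∘ γ⁻¹`, and `ordAt_act`.
* `fracVal`: a valuation with trivial support on a ring `S`, pulled back along an injective ring
  hom `R →+* S` and extended to the fraction field of `R`.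
* `ordAtFrac`: the point valuation on the fraction field of any ring mapping injectively to `Hol`.
-/

namespace Fermat.Agent.Lib.HolVal

open UpperHalfPlane Filter Topology
open scoped Manifold MatrixGroups WithZero

/-- The ring of holomorphic functions on the upper half plane. -/
def Hol : Subring (ℍ → ℂ) where
  carrier := {f | MDiff f}
  mul_mem' := fun hf hg => hf.mul hg
  one_mem' := mdifferentiable_const
  add_mem' := fun hf hg => hf.add hg
  zero_mem' := mdifferentiable_const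
  neg_mem' := fun hf => hf.neg

theorem mem_Hol {f : ℍ → ℂ} : f ∈ Hol ↔ MDiff f := Iff.rfl

theorem analyticAt_of_mdiff {f : ℍ → ℂ} (hf : MDiff f) (τ : ℍ) :
    AnalyticAt ℂ (f ∘ ofComplex) (τ : ℂ) :=
  (UpperHalfPlane.mdifferentiable_iff.mp hf).analyticAt
    (isOpen_upperHalfPlaneSet.mem_nhds τ.im_pos)

/-- Identity theorem on `ℍ`. -/
theorem eq_zero_of_eventually {f : ℍ → ℂ} (hf : MDiff f) (τ : ℍ)
    (h : ∀ᶠ z in 𝓝 (τ : ℂ), (f ∘ ofComplex) z = 0) : f = 0 := by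
  have han : AnalyticOnNhd ℂ (f ∘ ofComplex) upperHalfPlaneSet :=
    (UpperHalfPlane.mdifferentiable_iff.mp hf).analyticOnNhd isOpen_upperHalfPlaneSet
  have hpre : IsPreconnected upperHalfPlaneSet := (convex_halfSpace_im_gt 0).isPreconnected
  have h0 := han.eqOn_zero_of_preconnected_of_eventuallyEq_zero hpre τ.im_pos h
  funext z
  have hz := h0 z.im_pos
  simpa [ofComplex_apply] using hz

theorem order_ne_top {f : ℍ → ℂ} (hf : MDiff f) (hf0 : f ≠ 0) (τ : ℍ) :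
    analyticOrderAt (f ∘ ofComplex) (τ : ℂ) ≠ ⊤ := fun h =>
  hf0 (eq_zero_of_eventually hf τ (analyticOrderAt_eq_top.mp h))

/-- The order of vanishing of `f` at `τ` (junk value `0` for `f = 0`). -/
noncomputable def ordNat (τ : ℍ) (f : ℍ → ℂ) : ℕ := analyticOrderNatAt (f ∘ ofComplex) (τ : ℂ)

theorem cast_ordNat {f : ℍ → ℂ} (hf : MDiff f) (hf0 : f ≠ 0) (τ : ℍ) :
    (ordNat τ f : ℕ∞) = analyticOrderAt (f ∘ ofComplex) (τ : ℂ) :=
  Nat.cast_analyticOrderNatAt (order_ne_top hf hf0 τ)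

theorem mul_ne_zero_of_mdiff {f g : ℍ → ℂ} (hf : MDiff f) (hg : MDiff g) (hf0 : f ≠ 0)
    (hg0 : g ≠ 0) : f * g ≠ 0 := by
  intro h
  have h1 := analyticOrderAt_smul (analyticAt_of_mdiff hf UpperHalfPlane.I)
    (analyticAt_of_mdiff hg UpperHalfPlane.I)
  have h2 : (f ∘ ofComplex) • (g ∘ ofComplex) = (f * g) ∘ ofComplex := rfl
  rw [h2, h] at h1
  have h3 : analyticOrderAt ((0 : ℍ → ℂ) ∘ ofComplex) ((UpperHalfPlane.I : ℍ) : ℂ) = ⊤ :=
    analyticOrderAt_eq_top.mpr (Eventually.of_forall fun z => rfl)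
  rw [h3, ← cast_ordNat hf hf0, ← cast_ordNat hg hg0] at h1
  exact ENat.natCast_ne_top _ (by rw [ENat.natCast_add]; exact h1.symm)

theorem ordNat_mul {f g : ℍ → ℂ} (hf : MDiff f) (hg : MDiff g) (hf0 : f ≠ 0) (hg0 : g ≠ 0)
    (τ : ℍ) : ordNat τ (f * g) = ordNat τ f + ordNat τ g := by
  have h1 := analyticOrderAt_smul (analyticAt_of_mdiff hf τ) (analyticAt_of_mdiff hg τ)
  have h2 : (f ∘ ofComplex) • (g ∘ ofComplex) = (f * g) ∘ ofComplex := rfl
  rw [h2, ← cast_ordNat hf hf0, ← cast_ordNat hg hg0,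
    ← cast_ordNat (hf.mul hg) (mul_ne_zero_of_mdiff hf hg hf0 hg0)] at h1
  exact_mod_cast h1

theorem min_ordNat_le_add {f g : ℍ → ℂ} (hf : MDiff f) (hg : MDiff g) (hf0 : f ≠ 0)
    (hg0 : g ≠ 0) (hfg : f + g ≠ 0) (τ : ℍ) :
    min (ordNat τ f) (ordNat τ g) ≤ ordNat τ (f + g) := by
  have h1 := le_analyticOrderAt_add (f := f ∘ ofComplex) (g := g ∘ ofComplex) (z₀ := (τ : ℂ))
  have h2 : (f ∘ ofComplex) + (g ∘ ofComplex) = (f + g) ∘ ofComplex := rfl
  rw [h2, ← cast_ordNat hf hf0, ← cast_ordNat hg hg0, ← cast_ordNat (hf.add hg) hfg] at h1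
  rcases min_le_iff.mp h1 with h | h
  · exact min_le_iff.mpr (Or.inl (by exact_mod_cast h))
  · exact min_le_iff.mpr (Or.inr (by exact_mod_cast h))

theorem ordNat_eq_zero_iff {f : ℍ → ℂ} (hf : MDiff f) (τ : ℍ) (hf0 : f ≠ 0) :
    ordNat τ f = 0 ↔ f τ ≠ 0 := by
  have h1 := (analyticAt_of_mdiff hf τ).analyticOrderAt_eq_zero
  rw [← cast_ordNat hf hf0] at h1
  have h2 : (f ∘ ofComplex) (τ : ℂ) = f τ := by simp [ofComplex_apply]
  rw [h2] at h1
  rw [← h1]
  exact_mod_cast Iff.rfl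

instance : IsDomain Hol := by
  have : NoZeroDivisors Hol := ⟨by
    intro f g h
    by_contra hne
    push Not at hne
    have hf0 : (f : ℍ → ℂ) ≠ 0 := fun h0 => hne.1 (Subtype.ext h0)
    have hg0 : (g : ℍ → ℂ) ≠ 0 := fun h0 => hne.2 (Subtype.ext h0)
    exact mul_ne_zero_of_mdiff f.2 g.2 hf0 hg0 (congrArg Subtype.val h)⟩
  exact NoZeroDivisors.to_isDomain _

theorem coe_ne_zero {f : Hol} (hf : f ≠ 0) : (f : ℍ → ℂ) ≠ 0 := fun h0 => hf (Subtype.ext h0)

open scoped Classical in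
/-- The order of vanishing at `τ`, as a valuation on `Hol`. -/
noncomputable def ordAt (τ : ℍ) : Valuation Hol ℤᵐ⁰ where
  toFun f := if f = 0 then 0 else WithZero.exp (-(ordNat τ (f : ℍ → ℂ) : ℤ))
  map_zero' := by simp
  map_one' := by
    rw [if_neg one_ne_zero]
    have h : ordNat τ ((1 : Hol) : ℍ → ℂ) = 0 := by
      rw [ordNat_eq_zero_iff (1 : Hol).2 τ (coe_ne_zero one_ne_zero)]
      simp
    rw [h]
    simp
  map_mul' f g := by
    by_cases hf : f = 0
    · simp [hf]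
    by_cases hg : g = 0
    · simp [hg]
    rw [if_neg hf, if_neg hg, if_neg (mul_ne_zero hf hg), ← WithZero.exp_add]
    congr 1
    have h := ordNat_mul f.2 g.2 (coe_ne_zero hf) (coe_ne_zero hg) τ
    have h' : ordNat τ ((f * g : Hol) : ℍ → ℂ) = ordNat τ (f : ℍ → ℂ) + ordNat τ (g : ℍ → ℂ) := h
    rw [h']
    push_cast
    ring
  map_add_le_max' f g := by
    by_cases hfg : f + g = 0
    · simp [hfg]
    by_cases hf : f = 0
    · simp [hf]
    by_cases hg : g = 0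
    · simp [hg]
    rw [if_neg hf, if_neg hg, if_neg hfg, le_max_iff, WithZero.exp_le_exp, WithZero.exp_le_exp]
    have h := min_ordNat_le_add f.2 g.2 (coe_ne_zero hf) (coe_ne_zero hg) (coe_ne_zero hfg) τ
    have h' : min (ordNat τ (f : ℍ → ℂ)) (ordNat τ (g : ℍ → ℂ))
        ≤ ordNat τ ((f + g : Hol) : ℍ → ℂ) := h
    rcases min_le_iff.mp h' with h1 | h1
    · left; omega
    · right; omega

theorem ordAt_apply (τ : ℍ) {f : Hol} (hf : f ≠ 0) :
    ordAt τ f = WithZero.exp (-(ordNat τ (f : ℍ → ℂ) : ℤ)) := by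
  classical
  exact if_neg hf

theorem ordAt_ne_zero (τ : ℍ) {f : Hol} (hf : f ≠ 0) : ordAt τ f ≠ 0 := by
  rw [ordAt_apply τ hf]
  exact WithZero.exp_ne_zero

theorem ordAt_eq_zero_iff (τ : ℍ) (f : Hol) : ordAt τ f = 0 ↔ f = 0 :=
  ⟨fun h => by_contra fun hf => ordAt_ne_zero τ hf h, fun h => by rw [h, map_zero]⟩

theorem log_ordAt (τ : ℍ) {f : Hol} (hf : f ≠ 0) :
    -(WithZero.log (ordAt τ f)) = (ordNat τ (f : ℍ → ℂ) : ℤ) := by
  rw [ordAt_apply τ hf, WithZero.log_exp, neg_neg]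

theorem ordAt_eq_one_iff (τ : ℍ) {f : Hol} (hf : f ≠ 0) : ordAt τ f = 1 ↔ (f : ℍ → ℂ) τ ≠ 0 := by
  rw [ordAt_apply τ hf, WithZero.exp_eq_one, ← ordNat_eq_zero_iff f.2 τ (coe_ne_zero hf)]
  omega

theorem ordAt_eq_one_of_ne_zero (τ : ℍ) (f : Hol) (h : (f : ℍ → ℂ) τ ≠ 0) : ordAt τ f = 1 := by
  have hf : f ≠ 0 := by
    rintro rfl
    exact h rfl
  exact (ordAt_eq_one_iff τ hf).mpr h

theorem ordAt_le_one (τ : ℍ) (f : Hol) : ordAt τ f ≤ 1 := by
  by_cases hf : f = 0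
  · simp [hf]
  rw [ordAt_apply τ hf, ← WithZero.exp_zero, WithZero.exp_le_exp]
  omega

theorem ordAt_lt_one_iff (τ : ℍ) {f : Hol} (hf : f ≠ 0) : ordAt τ f < 1 ↔ (f : ℍ → ℂ) τ = 0 := by
  rw [lt_iff_le_and_ne]
  constructor
  · rintro ⟨_, h⟩
    by_contra h0
    exact h ((ordAt_eq_one_iff τ hf).mpr h0)
  · intro h
    exact ⟨ordAt_le_one τ f, fun h1 => (ordAt_eq_one_iff τ hf).mp h1 h⟩

/-- The value of `ordAt` from the analytic order. -/
theorem ordAt_of_analyticOrderAt (τ : ℍ) (f : Hol) (n : ℕ)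
    (h : analyticOrderAt ((f : ℍ → ℂ) ∘ ofComplex) (τ : ℂ) = n) :
    ordAt τ f = WithZero.exp (-(n : ℤ)) := by
  have hf : f ≠ 0 := by
    rintro rfl
    have h3 : analyticOrderAt ((0 : ℍ → ℂ) ∘ ofComplex) (τ : ℂ) = ⊤ :=
      analyticOrderAt_eq_top.mpr (Eventually.of_forall fun z => rfl)
    have h4 : (((0 : Hol) : ℍ → ℂ)) = 0 := rfl
    rw [h4, h3] at h
    exact ENat.natCast_ne_top _ h.symm
  rw [ordAt_apply τ hf]
  have h1 := cast_ordNat f.2 (coe_ne_zero hf) τ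
  rw [h] at h1
  have h2 : ordNat τ (f : ℍ → ℂ) = n := by exact_mod_cast h1
  rw [h2]

/-- A simple zero has order one. -/
theorem ordNat_eq_one_of_deriv_ne_zero (τ : ℍ) {f : ℍ → ℂ} (hf : MDiff f) (h0 : f τ = 0)
    (h1 : deriv (f ∘ ofComplex) (τ : ℂ) ≠ 0) : ordNat τ f = 1 := by
  have hf0 : f ≠ 0 := by
    rintro rfl
    apply h1
    have : ((0 : ℍ → ℂ) ∘ ofComplex) = fun _ => (0 : ℂ) := rfl
    rw [this]
    simp
  have h2 : (f ∘ ofComplex) (τ : ℂ) = 0 := by simp [ofComplex_apply, h0]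
  have h3 := (analyticAt_of_mdiff hf τ).analyticOrderAt_eq_one_of_zero_deriv_ne_zero h2 h1
  rw [← cast_ordNat hf hf0] at h3
  exact_mod_cast h3

/-! ### The action of `SL(2, ℤ)` -/

theorem det_coe_pos' (γ : SL(2, ℤ)) : 0 < ((γ : GL (Fin 2) ℝ)).val.det := by
  have h := congrArg Units.val (Matrix.SpecialLinearGroup.det_mapGL (S := ℝ) γ)
  have h2 : ((γ : GL (Fin 2) ℝ)).val.det = 1 := h
  rw [h2]
  exact one_pos

theorem mdiff_comp_smul (γ : SL(2, ℤ)) {f : ℍ → ℂ} (hf : MDiff f) :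
    MDiff (fun z : ℍ => f (γ • z)) :=
  hf.comp (mdifferentiable_smul (g := (γ : GL (Fin 2) ℝ)) (det_coe_pos' γ))

/-- The order of `f ∘ γ` at `τ` is the order of `f` at `γ • τ`. -/
theorem ordNat_comp_smul (γ : SL(2, ℤ)) (f : ℍ → ℂ) (τ : ℍ) :
    ordNat τ (fun z : ℍ => f (γ • z)) = ordNat (γ • τ) f := by
  have hg := det_coe_pos' γ
  let G : ℂ → ℂ := fun z => ((((γ : GL (Fin 2) ℝ) • ofComplex z : ℍ)) : ℂ)
  have h1 : (fun z : ℍ => f (γ • z)) ∘ ofComplex = (f ∘ ofComplex) ∘ G := by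
    funext z
    show f (γ • ofComplex z) = f (ofComplex (((γ : GL (Fin 2) ℝ) • ofComplex z : ℍ) : ℂ))
    rw [ofComplex_apply]
    rfl
  have h2 := analyticOrderAt_comp_of_deriv_ne_zero (f := f ∘ ofComplex)
    (τ.analyticAt_smul hg) (τ.deriv_smul_ne_zero hg)
  have h3 : (((γ : GL (Fin 2) ℝ) • ofComplex (τ : ℂ) : ℍ) : ℂ) = ((γ • τ : ℍ) : ℂ) := by
    rw [ofComplex_apply]
    rfl
  unfold ordNat analyticOrderNatAt
  rw [h1]
  show (analyticOrderAt ((f ∘ ofComplex) ∘ fun z : ℂ => (((γ : GL (Fin 2) ℝ) • ofComplex z : ℍ) : ℂ))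
    (τ : ℂ)).toNat = _
  rw [h2, h3]

/-- Precomposition with `γ`, as a ring endomorphism of `Hol`. -/
noncomputable def compHom (γ : SL(2, ℤ)) : Hol →+* Hol where
  toFun f := ⟨fun z => (f : ℍ → ℂ) (γ • z), mdiff_comp_smul γ f.2⟩
  map_one' := rfl
  map_mul' _ _ := rfl
  map_zero' := rfl
  map_add' _ _ := rfl

@[simp] theorem compHom_apply (γ : SL(2, ℤ)) (f : Hol) (z : ℍ) :
    (compHom γ f : ℍ → ℂ) z = (f : ℍ → ℂ) (γ • z) := rfl

/-- The left action of `SL(2, ℤ)` on `Hol`: `act γ f = f ∘ γ⁻¹`. -/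
noncomputable def act : SL(2, ℤ) →* (Hol ≃+* Hol) where
  toFun γ :=
    { compHom γ⁻¹ with
      invFun := compHom γ
      left_inv := fun f => by
        apply Subtype.ext
        funext z
        show (f : ℍ → ℂ) (γ⁻¹ • γ • z) = (f : ℍ → ℂ) z
        rw [inv_smul_smul]
      right_inv := fun f => by
        apply Subtype.ext
        funext z
        show (f : ℍ → ℂ) (γ • γ⁻¹ • z) = (f : ℍ → ℂ) z
        rw [smul_inv_smul] }
  map_one' := by
    apply RingEquiv.ext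
    intro f
    apply Subtype.ext
    funext z
    show (f : ℍ → ℂ) ((1 : SL(2, ℤ))⁻¹ • z) = (f : ℍ → ℂ) z
    rw [inv_one, one_smul]
  map_mul' γ₁ γ₂ := by
    apply RingEquiv.ext
    intro f
    apply Subtype.ext
    funext z
    show (f : ℍ → ℂ) ((γ₁ * γ₂)⁻¹ • z) = (f : ℍ → ℂ) (γ₂⁻¹ • γ₁⁻¹ • z)
    rw [mul_inv_rev, mul_smul]

@[simp] theorem act_apply (γ : SL(2, ℤ)) (f : Hol) (z : ℍ) :
    (act γ f : ℍ → ℂ) z = (f : ℍ → ℂ) (γ⁻¹ • z) := rfl

theorem ordAt_compHom (γ : SL(2, ℤ)) (τ : ℍ) (f : Hol) :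
    ordAt τ (compHom γ f) = ordAt (γ • τ) f := by
  by_cases hf : f = 0
  · rw [hf, map_zero, map_zero, map_zero]
  have hf' : compHom γ f ≠ 0 := by
    intro h
    apply hf
    have h1 : act γ (compHom γ f) = f := by
      apply Subtype.ext
      funext z
      show (f : ℍ → ℂ) (γ • γ⁻¹ • z) = (f : ℍ → ℂ) z
      rw [smul_inv_smul]
    rw [← h1, h, map_zero]
  rw [ordAt_apply τ hf', ordAt_apply (γ • τ) hf]
  have h := ordNat_comp_smul γ (f : ℍ → ℂ) τ
  have h' : ordNat τ ((compHom γ f : Hol) : ℍ → ℂ) = ordNat (γ • τ) (f : ℍ → ℂ) := h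
  rw [h']

theorem ordAt_act (γ : SL(2, ℤ)) (τ : ℍ) (f : Hol) :
    ordAt τ (act γ f) = ordAt (γ⁻¹ • τ) f :=
  ordAt_compHom γ⁻¹ τ f

/-- An element of the stabiliser of `τ` preserves `ordAt τ`. -/
theorem ordAt_act_of_smul_eq (γ : SL(2, ℤ)) (τ : ℍ) (hγ : γ • τ = τ) (f : Hol) :
    ordAt τ (act γ f) = ordAt τ f := by
  rw [ordAt_act]
  congr 2
  rw [inv_smul_eq_iff, hγ]

/-! ### Valuations on fraction fields -/

section frac

variable {R M S : Type*} [CommRing R] [Field M] [Algebra R M] [IsFractionRing R M] [CommRing S]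

/-- A valuation `w` with trivial support on `S`, pulled back along an injective ring hom
`φ : R →+* S` and extended to the fraction field `M` of `R`. -/
noncomputable def fracVal (w : Valuation S ℤᵐ⁰) (hw : ∀ s : S, w s = 0 → s = 0) (φ : R →+* S)
    (hφ : Function.Injective φ) : Valuation M ℤᵐ⁰ :=
  (w.comap φ).extendToLocalization (S := nonZeroDivisors R) (by
    intro r hr
    have : Nontrivial R := (algebraMap R M).domain_nontrivial
    have hr0 : r ≠ 0 := nonZeroDivisors.ne_zero hr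
    show r ∉ (w.comap φ).supp
    rw [Valuation.mem_supp_iff, Valuation.comap_apply]
    intro h
    exact hr0 (hφ (by rw [hw _ h, map_zero]))) M

variable (w : Valuation S ℤᵐ⁰) (hw : ∀ s : S, w s = 0 → s = 0) (φ : R →+* S)
  (hφ : Function.Injective φ)

@[simp] theorem fracVal_algebraMap (r : R) :
    fracVal (M := M) w hw φ hφ (algebraMap R M r) = w (φ r) := by
  unfold fracVal
  rw [Valuation.extendToLocalization_apply_map_apply, Valuation.comap_apply]

theorem fracVal_div (r s : R) :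
    fracVal (M := M) w hw φ hφ (algebraMap R M r / algebraMap R M s) = w (φ r) / w (φ s) := by
  rw [map_div₀, fracVal_algebraMap, fracVal_algebraMap]

/-- If `σ : M → M` is a ring hom acting on (the image of) `R` through a map `a : R → R` which
preserves `w ∘ φ`, then `σ` preserves `fracVal`. -/
theorem fracVal_map_eq (σ : M →+* M) (a : R → R)
    (hσ : ∀ r : R, σ (algebraMap R M r) = algebraMap R M (a r))
    (ha : ∀ r : R, w (φ (a r)) = w (φ r)) (m : M) :
    fracVal (M := M) w hw φ hφ (σ m) = fracVal (M := M) w hw φ hφ m := by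
  obtain ⟨r, s, -, rfl⟩ := IsFractionRing.div_surjective R m
  rw [map_div₀, hσ, hσ, fracVal_div, fracVal_div, ha, ha]

/-- `fracVal` is nontrivial as soon as some nonzero `r : R` has `w (φ r) ≠ 1`. -/
theorem fracVal_nontrivial (r : R) (hr : r ≠ 0) (h : w (φ r) ≠ 1) :
    ∃ m : M, m ≠ 0 ∧ fracVal (M := M) w hw φ hφ m ≠ 1 := by
  refine ⟨algebraMap R M r, ?_, by rwa [fracVal_algebraMap]⟩
  intro h0
  exact hr (IsFractionRing.injective R M (by rw [h0, map_zero]))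

/-- The point valuation at `τ` on the fraction field `M` of a ring `R` of holomorphic functions
(given by an injective ring hom `φ : R →+* Hol`). -/
noncomputable def ordAtFrac (φ : R →+* Hol) (hφ : Function.Injective φ) (τ : ℍ) :
    Valuation M ℤᵐ⁰ :=
  fracVal (ordAt τ) (fun s hs => (ordAt_eq_zero_iff τ s).mp hs) φ hφ

theorem ordAtFrac_algebraMap (φ : R →+* Hol) (hφ : Function.Injective φ) (τ : ℍ) (r : R) :
    ordAtFrac (M := M) φ hφ τ (algebraMap R M r) = ordAt τ (φ r) :=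
  fracVal_algebraMap _ _ _ _ r

/-- Elements of `R` not vanishing at `τ` have valuation one. -/
theorem ordAtFrac_eq_one (φ : R →+* Hol) (hφ : Function.Injective φ) (τ : ℍ) (r : R)
    (h : (φ r : ℍ → ℂ) τ ≠ 0) : ordAtFrac (M := M) φ hφ τ (algebraMap R M r) = 1 := by
  rw [ordAtFrac_algebraMap, ordAt_eq_one_of_ne_zero τ _ h]

/-- The value of `ordAtFrac` from the analytic order. -/
theorem ordAtFrac_of_analyticOrderAt (φ : R →+* Hol) (hφ : Function.Injective φ) (τ : ℍ) (r : R)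
    (n : ℕ) (h : analyticOrderAt ((φ r : ℍ → ℂ) ∘ ofComplex) (τ : ℂ) = n) :
    ordAtFrac (M := M) φ hφ τ (algebraMap R M r) = WithZero.exp (-(n : ℤ)) := by
  rw [ordAtFrac_algebraMap, ordAt_of_analyticOrderAt τ _ n h]

/-- `ordAtFrac` is nontrivial as soon as some nonzero element of `R` vanishes at `τ`. -/
theorem ordAtFrac_nontrivial (φ : R →+* Hol) (hφ : Function.Injective φ) (τ : ℍ) (r : R)
    (hr : r ≠ 0) (h : (φ r : ℍ → ℂ) τ = 0) :
    ∃ m : M, m ≠ 0 ∧ ordAtFrac (M := M) φ hφ τ m ≠ 1 := by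
  refine fracVal_nontrivial _ _ _ _ r hr ?_
  have hφr : φ r ≠ 0 := fun h0 => hr (hφ (by rw [h0, map_zero]))
  exact ne_of_lt ((ordAt_lt_one_iff τ hφr).mpr h)

/-- A ring hom `σ` of `M` which acts on `R` by `f ↦ f ∘ γ⁻¹` with `γ • τ = τ` preserves the
point valuation at `τ`. -/
theorem ordAtFrac_map_eq (φ : R →+* Hol) (hφ : Function.Injective φ) (τ : ℍ) (γ : SL(2, ℤ))
    (hγ : γ • τ = τ) (σ : M →+* M) (a : R → R)
    (hσ : ∀ r : R, σ (algebraMap R M r) = algebraMap R M (a r))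
    (ha : ∀ r : R, φ (a r) = act γ (φ r)) (m : M) :
    ordAtFrac (M := M) φ hφ τ (σ m) = ordAtFrac (M := M) φ hφ τ m := by
  refine fracVal_map_eq _ _ _ _ σ a hσ (fun r => ?_) m
  rw [ha, ordAt_act_of_smul_eq γ τ hγ]

end frac

end Fermat.Agent.Lib.HolVal
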