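import Fermat.Agent.Lib.EisChar
import Fermat.Agent.Lib.HolVal

set_option autoImplicit false

/-!
# The Eisenstein quotient `F_ψ = E_ψ / E_1` in `Hol` / `FractionRing Hol`

Thin packaging of `Lib/EisChar` in the vocabulary of `Lib/HolVal` (`Hol` = holomorphic functions
on `ℍ`, `compHom γ` = precomposition with `γ`):

* `eisHol Γ ψ hunit : Hol`, `slashHol Γ ψ hunit γ₁ : Hol` (the translate `E_ψ ∣[4] γ₁`);
* `compHom_eisHol_mul`: the character law, cross-multiplied in `Hol`;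
* `compHom_eisHol_mul_slash`: `(E_ψ ∘ γ₁) * (E_1 ∣ γ₁) = (E_1 ∘ γ₁) * (E_ψ ∣ γ₁)`;
* `eisMer Γ ψ hunit : FractionRing Hol` with `map_eisMer_of_mem` (character law),
  `map_eisMer` (translates are quotients of translates), `map_eisMer_pow` (`F ^ n` invariant);
* the translates `slashHol` are non-zero, `N`-periodic, bounded at `i∞`, and are given by a
  function of `q_N = e(τ / N)` analytic at `q_N = 0` (`exists_cusp_slashHol`).
-/

namespace Fermat.Agent.Lib.EisChar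

open UpperHalfPlane Filter Topology ModularForm CongruenceSubgroup Fermat.Agent.Lib.HolVal
open scoped Manifold MatrixGroups

variable {Γ : Subgroup SL(2, ℤ)} {ψ : Γ →* ℂˣ}

/-- Constant functions, as elements of `Hol`. -/
def constH (c : ℂ) : Hol := ⟨fun _ => c, mdifferentiable_const⟩

@[simp] theorem constH_apply (c : ℂ) (z : ℍ) : (constH c : ℍ → ℂ) z = c := rfl

variable (Γ ψ) in
/-- `E_ψ` as an element of `Hol`. -/
noncomputable def eisHol (hunit : ∀ γ : Γ, ‖((ψ γ : ℂˣ) : ℂ)‖ = 1) : Hol :=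
  ⟨eisChar Γ ψ, mdifferentiable_eisChar hunit⟩

@[simp] theorem eisHol_apply (hunit : ∀ γ : Γ, ‖((ψ γ : ℂˣ) : ℂ)‖ = 1) (z : ℍ) :
    (eisHol Γ ψ hunit : ℍ → ℂ) z = eisChar Γ ψ z := rfl

variable (Γ ψ) in
/-- The translate `E_ψ ∣[4] γ₁` as an element of `Hol`. -/
noncomputable def slashHol (hunit : ∀ γ : Γ, ‖((ψ γ : ℂˣ) : ℂ)‖ = 1) (γ₁ : SL(2, ℤ)) : Hol :=
  ⟨eisChar Γ ψ ∣[(4 : ℤ)] γ₁, by
    rw [SL_slash]
    exact (mdifferentiable_eisChar hunit).slash 4 _⟩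

@[simp] theorem slashHol_apply (hunit : ∀ γ : Γ, ‖((ψ γ : ℂˣ) : ℂ)‖ = 1) (γ₁ : SL(2, ℤ))
    (z : ℍ) : (slashHol Γ ψ hunit γ₁ : ℍ → ℂ) z = (eisChar Γ ψ ∣[(4 : ℤ)] γ₁) z := rfl

theorem eisHol_ne_zero (hpar : IsPar Γ ψ) (hunit : ∀ γ : Γ, ‖((ψ γ : ℂˣ) : ℂ)‖ = 1)
    (hneg : (-1 : SL(2, ℤ)) ∈ Γ) (N : ℕ) [NeZero N] (hN : CongruenceSubgroup.Gamma N ≤ Γ) :
    eisHol Γ ψ hunit ≠ 0 := by
  obtain ⟨z, hz⟩ := exists_ne_zero hpar hunit hneg N hN
  intro h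
  apply hz
  have h2 := congrArg (fun f : Hol => (f : ℍ → ℂ) z) h
  exact h2

theorem slashHol_ne_zero (hpar : IsPar Γ ψ) (hunit : ∀ γ : Γ, ‖((ψ γ : ℂˣ) : ℂ)‖ = 1)
    (hneg : (-1 : SL(2, ℤ)) ∈ Γ) (N : ℕ) [NeZero N] (hN : CongruenceSubgroup.Gamma N ≤ Γ)
    (γ₁ : SL(2, ℤ)) : slashHol Γ ψ hunit γ₁ ≠ 0 := by
  obtain ⟨z, hz⟩ := exists_slash_ne_zero hpar hunit hneg N hN γ₁
  intro h
  apply hz
  have h2 := congrArg (fun f : Hol => (f : ℍ → ℂ) z) h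
  exact h2

/-- The character law for `E_ψ / E_1`, cross-multiplied in `Hol`. -/
theorem compHom_eisHol_mul (hpar : IsPar Γ ψ) (hunit : ∀ γ : Γ, ‖((ψ γ : ℂˣ) : ℂ)‖ = 1)
    (γ : Γ) :
    compHom (γ : SL(2, ℤ)) (eisHol Γ ψ hunit) * eisHol Γ 1 (norm_one_apply Γ) =
      constH ((ψ γ : ℂˣ) : ℂ) *
        (eisHol Γ ψ hunit * compHom (γ : SL(2, ℤ)) (eisHol Γ 1 (norm_one_apply Γ))) := by
  apply Subtype.ext
  funext z
  show eisChar Γ ψ ((γ : SL(2, ℤ)) • z) * eisChar Γ 1 z =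
    ((ψ γ : ℂˣ) : ℂ) * (eisChar Γ ψ z * eisChar Γ 1 ((γ : SL(2, ℤ)) • z))
  rw [eisChar_smul hpar, eisChar_smul (isPar_one Γ)]
  simp only [MonoidHom.one_apply, Units.val_one, one_mul]
  ring

/-- Translates of `E_ψ / E_1` are quotients of the weight-4 translates, cross-multiplied in
`Hol`. -/
theorem compHom_eisHol_mul_slash (hunit : ∀ γ : Γ, ‖((ψ γ : ℂˣ) : ℂ)‖ = 1) (γ₁ : SL(2, ℤ)) :
    compHom γ₁ (eisHol Γ ψ hunit) * slashHol Γ 1 (norm_one_apply Γ) γ₁ =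
      compHom γ₁ (eisHol Γ 1 (norm_one_apply Γ)) * slashHol Γ ψ hunit γ₁ := by
  apply Subtype.ext
  funext z
  show eisChar Γ ψ (γ₁ • z) * (eisChar Γ 1 ∣[(4 : ℤ)] γ₁) z =
    eisChar Γ 1 (γ₁ • z) * (eisChar Γ ψ ∣[(4 : ℤ)] γ₁) z
  rw [SL_slash_apply, SL_slash_apply]
  ring

/-- The translates are `N`-periodic. -/
theorem slashHol_vadd (hpar : IsPar Γ ψ) (hunit : ∀ γ : Γ, ‖((ψ γ : ℂˣ) : ℂ)‖ = 1) (N : ℕ)
    (hN : CongruenceSubgroup.Gamma N ≤ Γ) (γ₁ : SL(2, ℤ)) (z : ℍ) :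
    (slashHol Γ ψ hunit γ₁ : ℍ → ℂ) ((N : ℝ) +ᵥ z) = (slashHol Γ ψ hunit γ₁ : ℍ → ℂ) z :=
  slash_vadd hpar N hN γ₁ z

/-- The translates are periodic with the sharp cusp width. -/
theorem slashHol_vadd_of_mem (hpar : IsPar Γ ψ) (hunit : ∀ γ : Γ, ‖((ψ γ : ℂˣ) : ℂ)‖ = 1)
    (γ₁ : SL(2, ℤ)) (m : ℤ) (h : γ₁ * ModularGroup.T ^ m * γ₁⁻¹ ∈ Γ) (z : ℍ) :
    (slashHol Γ ψ hunit γ₁ : ℍ → ℂ) ((m : ℝ) +ᵥ z) = (slashHol Γ ψ hunit γ₁ : ℍ → ℂ) z :=
  slash_vadd_of_mem hpar γ₁ m h z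

/-- The translates are bounded at `i∞`. -/
theorem isBoundedAtImInfty_slashHol (hpar : IsPar Γ ψ)
    (hunit : ∀ γ : Γ, ‖((ψ γ : ℂˣ) : ℂ)‖ = 1) (N : ℕ) [NeZero N]
    (hN : CongruenceSubgroup.Gamma N ≤ Γ) (γ₁ : SL(2, ℤ)) :
    IsBoundedAtImInfty (slashHol Γ ψ hunit γ₁ : ℍ → ℂ) :=
  isBoundedAtImInfty_slash hpar hunit N hN γ₁

/-! ### The fraction field -/

variable (Γ ψ) in
/-- `F_ψ = E_ψ / E_1` in the fraction field of `Hol`. -/
noncomputable def eisMer (hunit : ∀ γ : Γ, ‖((ψ γ : ℂˣ) : ℂ)‖ = 1) : FractionRing Hol :=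
  algebraMap Hol (FractionRing Hol) (eisHol Γ ψ hunit) /
    algebraMap Hol (FractionRing Hol) (eisHol Γ 1 (norm_one_apply Γ))

theorem algebraMap_hol_ne_zero {f : Hol} (hf : f ≠ 0) :
    algebraMap Hol (FractionRing Hol) f ≠ 0 := by
  intro h
  apply hf
  apply IsFractionRing.injective Hol (FractionRing Hol)
  rw [h, map_zero]

theorem eisMer_ne_zero (hpar : IsPar Γ ψ) (hunit : ∀ γ : Γ, ‖((ψ γ : ℂˣ) : ℂ)‖ = 1)
    (hneg : (-1 : SL(2, ℤ)) ∈ Γ) (N : ℕ) [NeZero N] (hN : CongruenceSubgroup.Gamma N ≤ Γ) :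
    eisMer Γ ψ hunit ≠ 0 :=
  div_ne_zero (algebraMap_hol_ne_zero (eisHol_ne_zero hpar hunit hneg N hN))
    (algebraMap_hol_ne_zero (eisHol_ne_zero (isPar_one Γ) (norm_one_apply Γ) hneg N hN))

/-- `E_1 * F_ψ = E_ψ`. -/
theorem eisMer_mul (hunit : ∀ γ : Γ, ‖((ψ γ : ℂˣ) : ℂ)‖ = 1)
    (hneg : (-1 : SL(2, ℤ)) ∈ Γ) (N : ℕ) [NeZero N] (hN : CongruenceSubgroup.Gamma N ≤ Γ) :
    eisMer Γ ψ hunit * algebraMap Hol (FractionRing Hol) (eisHol Γ 1 (norm_one_apply Γ)) =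
      algebraMap Hol (FractionRing Hol) (eisHol Γ ψ hunit) :=
  div_mul_cancel₀ _
    (algebraMap_hol_ne_zero (eisHol_ne_zero (isPar_one Γ) (norm_one_apply Γ) hneg N hN))

/-- **Character law in the fraction field**: for every ring endomorphism `c` of
`FractionRing Hol` extending precomposition with `γ ∈ Γ`, `c F_ψ = ψ(γ) · F_ψ`. -/
theorem map_eisMer_of_mem (hpar : IsPar Γ ψ) (hunit : ∀ γ : Γ, ‖((ψ γ : ℂˣ) : ℂ)‖ = 1)
    (hneg : (-1 : SL(2, ℤ)) ∈ Γ) (N : ℕ) [NeZero N] (hN : CongruenceSubgroup.Gamma N ≤ Γ)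
    (γ : Γ) (c : FractionRing Hol →+* FractionRing Hol)
    (hc : ∀ f : Hol, c (algebraMap Hol (FractionRing Hol) f) =
      algebraMap Hol (FractionRing Hol) (compHom (γ : SL(2, ℤ)) f)) :
    c (eisMer Γ ψ hunit) =
      algebraMap Hol (FractionRing Hol) (constH ((ψ γ : ℂˣ) : ℂ)) * eisMer Γ ψ hunit := by
  have h1 := eisHol_ne_zero (isPar_one Γ) (norm_one_apply Γ) hneg N hN
  have h1' : compHom (γ : SL(2, ℤ)) (eisHol Γ 1 (norm_one_apply Γ)) ≠ 0 := by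
    intro h0
    have h2 := congrArg (act (γ : SL(2, ℤ))) h0
    rw [map_zero] at h2
    apply h1
    rw [← h2]
    apply Subtype.ext
    funext z
    show eisChar Γ 1 z = eisChar Γ 1 ((γ : SL(2, ℤ)) • (γ : SL(2, ℤ))⁻¹ • z)
    rw [smul_inv_smul]
  have key := congrArg (algebraMap Hol (FractionRing Hol)) (compHom_eisHol_mul hpar hunit γ)
  rw [map_mul, map_mul, map_mul] at key
  have hB := algebraMap_hol_ne_zero h1
  have hE := algebraMap_hol_ne_zero h1'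
  unfold eisMer
  rw [map_div₀, hc, hc]
  generalize algebraMap Hol (FractionRing Hol) (compHom (γ : SL(2, ℤ)) (eisHol Γ ψ hunit)) = A
    at key ⊢
  generalize algebraMap Hol (FractionRing Hol)
    (compHom (γ : SL(2, ℤ)) (eisHol Γ 1 (norm_one_apply Γ))) = E at key hE ⊢
  generalize algebraMap Hol (FractionRing Hol) (eisHol Γ 1 (norm_one_apply Γ)) = B at key hB ⊢
  generalize algebraMap Hol (FractionRing Hol) (eisHol Γ ψ hunit) = D at key ⊢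
  generalize algebraMap Hol (FractionRing Hol) (constH ((ψ γ : ℂˣ) : ℂ)) = C at key ⊢
  rw [div_eq_iff hE, mul_assoc, div_mul_eq_mul_div, ← mul_div_assoc, eq_div_iff hB]
  exact key

/-- **Translates in the fraction field**: for every ring endomorphism `c` of `FractionRing Hol`
extending precomposition with `γ₁ ∈ SL(2, ℤ)`, `c F_ψ = (E_ψ ∣[4] γ₁) / (E_1 ∣[4] γ₁)`. -/
theorem map_eisMer (hunit : ∀ γ : Γ, ‖((ψ γ : ℂˣ) : ℂ)‖ = 1)
    (hneg : (-1 : SL(2, ℤ)) ∈ Γ) (N : ℕ) [NeZero N] (hN : CongruenceSubgroup.Gamma N ≤ Γ)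
    (γ₁ : SL(2, ℤ)) (c : FractionRing Hol →+* FractionRing Hol)
    (hc : ∀ f : Hol, c (algebraMap Hol (FractionRing Hol) f) =
      algebraMap Hol (FractionRing Hol) (compHom γ₁ f)) :
    c (eisMer Γ ψ hunit) =
      algebraMap Hol (FractionRing Hol) (slashHol Γ ψ hunit γ₁) /
        algebraMap Hol (FractionRing Hol) (slashHol Γ 1 (norm_one_apply Γ) γ₁) := by
  have h1 := eisHol_ne_zero (isPar_one Γ) (norm_one_apply Γ) hneg N hN
  have h1' : compHom γ₁ (eisHol Γ 1 (norm_one_apply Γ)) ≠ 0 := by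
    intro h0
    have h2 := congrArg (act γ₁) h0
    rw [map_zero] at h2
    apply h1
    rw [← h2]
    apply Subtype.ext
    funext z
    show eisChar Γ 1 z = eisChar Γ 1 (γ₁ • γ₁⁻¹ • z)
    rw [smul_inv_smul]
  have hs := slashHol_ne_zero (isPar_one Γ) (norm_one_apply Γ) hneg N hN γ₁
  have key := congrArg (algebraMap Hol (FractionRing Hol)) (compHom_eisHol_mul_slash hunit γ₁)
  rw [map_mul, map_mul] at key
  have hB := algebraMap_hol_ne_zero hs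
  have hE := algebraMap_hol_ne_zero h1'
  unfold eisMer
  rw [map_div₀, hc, hc, div_eq_div_iff hE hB]
  rw [key]
  ring

/-- `F_ψ ^ n` is invariant under every extension of precomposition with `γ ∈ Γ`, when
`ψ ^ n = 1`. -/
theorem map_eisMer_pow (hpar : IsPar Γ ψ) (hunit : ∀ γ : Γ, ‖((ψ γ : ℂˣ) : ℂ)‖ = 1)
    (hneg : (-1 : SL(2, ℤ)) ∈ Γ) (N : ℕ) [NeZero N] (hN : CongruenceSubgroup.Gamma N ≤ Γ)
    (n : ℕ) (hn : ∀ γ : Γ, ψ γ ^ n = 1)
    (γ : Γ) (c : FractionRing Hol →+* FractionRing Hol)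
    (hc : ∀ f : Hol, c (algebraMap Hol (FractionRing Hol) f) =
      algebraMap Hol (FractionRing Hol) (compHom (γ : SL(2, ℤ)) f)) :
    c (eisMer Γ ψ hunit ^ n) = eisMer Γ ψ hunit ^ n := by
  rw [map_pow, map_eisMer_of_mem hpar hunit hneg N hN γ c hc, mul_pow, ← map_pow]
  have h1 : constH ((ψ γ : ℂˣ) : ℂ) ^ n = 1 := by
    apply Subtype.ext
    funext z
    show ((ψ γ : ℂˣ) : ℂ) ^ n = 1
    rw [← Units.val_pow_eq_pow_val, hn, Units.val_one]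
  rw [h1, map_one, one_mul]

/-! ### The translates at the cusp -/

/-- An `N`-periodic function on `ℍ` gives an `N`-periodic function `f ∘ ofComplex` on `ℂ`. -/
theorem periodic_comp_ofComplex_of_vadd {f : ℍ → ℂ} (N : ℕ)
    (hper : ∀ z : ℍ, f ((N : ℝ) +ᵥ z) = f z) : Function.Periodic (f ∘ ofComplex) (N : ℝ) := by
  intro w
  by_cases hw : 0 < w.im
  · have hw' : 0 < (w + ((N : ℝ) : ℂ)).im := by simpa using hw
    have h1 : ofComplex (w + ((N : ℝ) : ℂ)) = (N : ℝ) +ᵥ ofComplex w := by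
      rw [ofComplex_apply_of_im_pos hw', ofComplex_apply_of_im_pos hw]
      apply UpperHalfPlane.ext
      simp [add_comm]
    show f (ofComplex (w + ((N : ℝ) : ℂ))) = f (ofComplex w)
    rw [h1, hper]
  · have hw' : ¬ 0 < (w + ((N : ℝ) : ℂ)).im := by simpa using hw
    show f (ofComplex (w + ((N : ℝ) : ℂ))) = f (ofComplex w)
    rw [ofComplex_apply_of_im_nonpos (not_lt.mp hw'), ofComplex_apply_of_im_nonpos (not_lt.mp hw)]

/-- A holomorphic, `N`-periodic function on `ℍ` that is bounded at `i∞` is a holomorphic function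
of `q_N = e(τ / N)` on the unit disc (analytic at `q_N = 0`): the function is Mathlib's
`UpperHalfPlane.cuspFunction N f`. -/
theorem exists_cusp_of_periodic_bounded {f : ℍ → ℂ} (hf : MDiff f) (N : ℕ) [NeZero N]
    (hper : ∀ z : ℍ, f ((N : ℝ) +ᵥ z) = f z) (hbd : IsBoundedAtImInfty f) :
    ∃ g : ℂ → ℂ, AnalyticAt ℂ g 0 ∧ DifferentiableOn ℂ g (Metric.ball 0 1) ∧
      ∀ z : ℍ, f z = g (Function.Periodic.qParam (N : ℝ) (z : ℂ)) := by
  have hN : (0 : ℝ) < (N : ℝ) := Nat.cast_pos.mpr (NeZero.pos N)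
  have hperiodic := periodic_comp_ofComplex_of_vadd N hper
  exact ⟨UpperHalfPlane.cuspFunction (N : ℝ) f,
    UpperHalfPlane.analyticAt_cuspFunction_zero hN hperiodic hf hbd,
    UpperHalfPlane.differentiableOn_cuspFunction_ball hN hperiodic hf hbd,
    fun z => (UpperHalfPlane.eq_cuspFunction z hN.ne' hperiodic).symm⟩

/-- Every translate `E_ψ ∣[4] γ₁` is a holomorphic function of `q_N` on the unit disc. -/
theorem exists_cusp_slashHol (hpar : IsPar Γ ψ) (hunit : ∀ γ : Γ, ‖((ψ γ : ℂˣ) : ℂ)‖ = 1)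
    (N : ℕ) [NeZero N] (hN : CongruenceSubgroup.Gamma N ≤ Γ) (γ₁ : SL(2, ℤ)) :
    ∃ g : ℂ → ℂ, AnalyticAt ℂ g 0 ∧ DifferentiableOn ℂ g (Metric.ball 0 1) ∧
      ∀ z : ℍ, (slashHol Γ ψ hunit γ₁ : ℍ → ℂ) z =
        g (Function.Periodic.qParam (N : ℝ) (z : ℂ)) :=
  exists_cusp_of_periodic_bounded (slashHol Γ ψ hunit γ₁).2 N
    (slashHol_vadd hpar hunit N hN γ₁) (isBoundedAtImInfty_slashHol hpar hunit N hN γ₁)

/-- For `γ₁ = 1` the cusp function takes the value `1` at `q_N = 0`. -/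
theorem exists_cusp_eisHol (hpar : IsPar Γ ψ) (hunit : ∀ γ : Γ, ‖((ψ γ : ℂˣ) : ℂ)‖ = 1)
    (hneg : (-1 : SL(2, ℤ)) ∈ Γ) (N : ℕ) [NeZero N] (hN : CongruenceSubgroup.Gamma N ≤ Γ) :
    ∃ g : ℂ → ℂ, AnalyticAt ℂ g 0 ∧ DifferentiableOn ℂ g (Metric.ball 0 1) ∧ g 0 = 1 ∧
      ∀ z : ℍ, eisChar Γ ψ z = g (Function.Periodic.qParam (N : ℝ) (z : ℂ)) := by
  have hN' : (0 : ℝ) < (N : ℝ) := Nat.cast_pos.mpr (NeZero.pos N)
  have hper : ∀ z : ℍ, eisChar Γ ψ ((N : ℝ) +ᵥ z) = eisChar Γ ψ z := by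
    intro z
    have h := slash_vadd hpar N hN (1 : SL(2, ℤ)) z
    rw [SlashAction.slash_one] at h
    exact h
  have hbd : IsBoundedAtImInfty (eisChar Γ ψ) := by
    have h := isBoundedAtImInfty_slash hpar hunit N hN (1 : SL(2, ℤ))
    rw [SlashAction.slash_one] at h
    exact h
  have hperiodic := periodic_comp_ofComplex_of_vadd N hper
  have han := UpperHalfPlane.analyticAt_cuspFunction_zero hN' hperiodic
    (mdifferentiable_eisChar hunit) hbd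
  refine ⟨UpperHalfPlane.cuspFunction (N : ℝ) (eisChar Γ ψ), han,
    UpperHalfPlane.differentiableOn_cuspFunction_ball hN' hperiodic
      (mdifferentiable_eisChar hunit) hbd, ?_,
    fun z => (UpperHalfPlane.eq_cuspFunction z hN'.ne' hperiodic).symm⟩
  rw [UpperHalfPlane.cuspFunction_apply_zero hN' han hperiodic]
  exact (tendsto_eisChar hpar hunit hneg N hN).limUnder_eq

end Fermat.Agent.Lib.EisChar
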