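import Mathlib
import Fermat.Agent.S23.Defs
import Fermat.Agent.Lib.EichlerInj
import Fermat.Agent.Lib.LevelOneBracket

set_option autoImplicit false

/-!
Analytic lemmas for vector valued modular forms: removable singularities at `i∞` for periodic
functions of exponential growth below the critical rate, constructors for modular forms from raw
data, and the weight zero argument for non-vanishing forms.
-/

namespace Fermat.Agent.Lib.VVAnalytic

open Complex Filter Topology
open UpperHalfPlane hiding I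
open scoped MatrixGroups ModularForm Real Manifold
open Fermat.Agent.S23 (IsMF IsCF G0)

local notation "I∞" => comap Complex.im atTop
local notation "𝕢" => Function.Periodic.qParam

/-- A holomorphic `1`-periodic function on the upper half-plane with `‖H τ‖ ≤ C exp(2π θ im τ)`,
`θ < 1`, has a limit at `i∞`. -/
theorem tendsto_of_periodic_of_expGrowth (H : ℍ → ℂ) (hH : MDiff H)
    (hper : Function.Periodic (H ∘ ofComplex) 1)
    (C A θ : ℝ) (hθ : θ < 1)
    (hbd : ∀ τ : ℍ, A ≤ τ.im → ‖H τ‖ ≤ C * Real.exp (2 * π * θ * τ.im)) :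
    ∃ l : ℂ, Tendsto H atImInfty (𝓝 l) := by
  set F : ℂ → ℂ := H ∘ ofComplex with hF
  set g : ℂ → ℂ := fun z => F z * 𝕢 1 z with hg
  have hgper : Function.Periodic g 1 := by
    intro z
    simp only [hg]
    have h1 := hper z
    have h2 := Fermat.Agent.Lib.EichlerInj.qParam_periodic 1 one_ne_zero z
    simp only [ofReal_one] at h1 h2
    rw [h1, h2]
  have hghol : ∀ᶠ z in I∞, DifferentiableAt ℂ g z := by
    have : ∀ᶠ z in I∞, 0 < z.im := by
      exact (tendsto_comap.eventually (eventually_gt_atTop (0 : ℝ)))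
    filter_upwards [this] with z hz
    have h1 : DifferentiableAt ℂ F z := by
      have := UpperHalfPlane.mdifferentiableAt_iff.mp (hH ⟨z, hz⟩)
      simpa using this
    exact h1.mul (Function.Periodic.differentiable_qParam.differentiableAt)
  have hgzero : ZeroAtFilter I∞ g := by
    have h0 : Tendsto (fun y : ℝ => C * Real.exp (-(2 * π * (1 - θ)) * y)) atTop (𝓝 0) := by
      have h1 : Tendsto (fun y : ℝ => (2 * π * (1 - θ)) * y) atTop atTop :=
        Tendsto.const_mul_atTop (by nlinarith [Real.pi_pos]) tendsto_id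
      have h2 := (Real.tendsto_exp_neg_atTop_nhds_zero.comp h1).const_mul C
      simp only [mul_zero] at h2
      refine h2.congr (fun y => ?_)
      simp [Function.comp, neg_mul]
    have hb := h0.comp (tendsto_comap (f := Complex.im) (x := atTop))
    refine squeeze_zero_norm' ?_ hb
    have : ∀ᶠ z in I∞, max A 1 ≤ z.im := tendsto_comap.eventually (eventually_ge_atTop _)
    filter_upwards [this] with z hz
    have hz0 : 0 < z.im := lt_of_lt_of_le one_pos ((le_max_right _ _).trans hz)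
    simp only [hg, norm_mul, Function.Periodic.norm_qParam, Function.comp_apply]
    have hFz : F z = H ⟨z, hz0⟩ := by
      rw [hF, Function.comp_apply, ofComplex_apply_of_im_pos hz0]
    rw [hFz]
    have := hbd ⟨z, hz0⟩ ((le_max_left _ _).trans hz)
    have him : (⟨z, hz0⟩ : ℍ).im = z.im := rfl
    rw [him] at this
    calc ‖H ⟨z, hz0⟩‖ * Real.exp (-2 * π * z.im / 1)
        ≤ C * Real.exp (2 * π * θ * z.im) * Real.exp (-2 * π * z.im / 1) :=
          mul_le_mul_of_nonneg_right this (Real.exp_nonneg _)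
      _ = C * Real.exp (-(2 * π * (1 - θ)) * z.im) := by
          rw [mul_assoc, ← Real.exp_add]
          congr 2
          ring
  set G := Function.Periodic.cuspFunction 1 g with hG
  have hGdiff : DifferentiableAt ℂ G 0 :=
    Function.Periodic.differentiableAt_cuspFunction_zero one_pos hgper hghol
      hgzero.boundedAtFilter
  have hG0 : G 0 = 0 := Function.Periodic.cuspFunction_zero_of_zero_at_inf one_pos hgzero
  have hcont : ContinuousAt (dslope G 0) 0 := continuousAt_dslope_same.mpr hGdiff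
  have hEq : ∀ τ : ℍ, H τ = dslope G 0 (𝕢 1 τ) := by
    intro τ
    have hq : 𝕢 1 (τ : ℂ) ≠ 0 := Function.Periodic.qParam_ne_zero _
    rw [dslope_of_ne _ hq, slope_def_field, hG0, sub_zero, sub_zero]
    have h1 : G (𝕢 1 τ) = g τ := Function.Periodic.eq_cuspFunction one_ne_zero hgper τ
    rw [h1]
    simp only [hg, hF, Function.comp_apply, ofComplex_apply]
    field_simp
  refine ⟨dslope G 0 0, ?_⟩
  have := hcont.tendsto.comp (qParam_tendsto_atImInfty one_pos)
  refine this.congr (fun τ => ?_)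
  simp [hEq τ]

/-! ### Constructors and destructors for `IsMF` -/

theorem isMF_G0_of (N : ℕ) [NeZero N] (K : ℤ) (f : ℍ → ℂ) (hf : MDiff f)
    (hinv : ∀ γ ∈ CongruenceSubgroup.Gamma0 N, f ∣[K] γ = f)
    (hb : ∀ γ : SL(2, ℤ), IsBoundedAtImInfty (f ∣[K] γ)) : IsMF (G0 N) K f :=
  ⟨{ toFun := f
     slash_action_eq' := by
       rintro γ ⟨γ', hγ', rfl⟩
       exact hinv γ' hγ'
     holo' := hf
     bdd_at_cusps' := fun {c} hc => by
       have hc' := (Subgroup.IsArithmetic.isCusp_iff_isCusp_SL2Z _).mp hc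
       exact (OnePoint.isBoundedAt_iff_forall_SL2Z hc').mpr (fun δ _ => hb δ) }, rfl⟩

theorem isCF_G0_of (N : ℕ) [NeZero N] (K : ℤ) (f : ℍ → ℂ) (hf : MDiff f)
    (hinv : ∀ γ ∈ CongruenceSubgroup.Gamma0 N, f ∣[K] γ = f)
    (hb : ∀ γ : SL(2, ℤ), IsZeroAtImInfty (f ∣[K] γ)) : IsCF (G0 N) K f :=
  ⟨{ toFun := f
     slash_action_eq' := by
       rintro γ ⟨γ', hγ', rfl⟩
       exact hinv γ' hγ'
     holo' := hf
     zero_at_cusps' := fun {c} hc => by
       have hc' := (Subgroup.IsArithmetic.isCusp_iff_isCusp_SL2Z _).mp hc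
       exact (OnePoint.isZeroAt_iff_forall_SL2Z hc').mpr (fun δ _ => hb δ) }, rfl⟩

theorem isMF_SL_of (K : ℤ) (f : ℍ → ℂ) (hf : MDiff f)
    (hinv : ∀ γ : SL(2, ℤ), f ∣[K] γ = f) (hb : IsBoundedAtImInfty f) : IsMF 𝒮ℒ K f :=
  ⟨{ toFun := f
     slash_action_eq' := by
       rintro _ ⟨γ, rfl⟩
       exact hinv γ
     holo' := hf
     bdd_at_cusps' := fun {c} hc => by
       refine (OnePoint.isBoundedAt_iff_forall_SL2Z hc).mpr (fun δ _ => ?_)
       rw [hinv δ]
       exact hb }, rfl⟩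

theorem isCF_SL_of (K : ℤ) (f : ℍ → ℂ) (hf : MDiff f)
    (hinv : ∀ γ : SL(2, ℤ), f ∣[K] γ = f) (hb : IsZeroAtImInfty f) : IsCF 𝒮ℒ K f :=
  ⟨{ toFun := f
     slash_action_eq' := by
       rintro _ ⟨γ, rfl⟩
       exact hinv γ
     holo' := hf
     zero_at_cusps' := fun {c} hc => by
       refine (OnePoint.isZeroAt_iff_forall_SL2Z hc).mpr (fun δ _ => ?_)
       rw [hinv δ]
       exact hb }, rfl⟩

theorem mdiff_of_isMF {Γ : Subgroup (GL (Fin 2) ℝ)} {K : ℤ} {f : ℍ → ℂ} (h : IsMF Γ K f) :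
    MDiff f := by
  obtain ⟨G, rfl⟩ := h
  exact ModularFormClass.holo G

theorem slash_eq_of_isMF_G0 {N : ℕ} {K : ℤ} {f : ℍ → ℂ} (h : IsMF (G0 N) K f)
    (γ : SL(2, ℤ)) (hγ : γ ∈ CongruenceSubgroup.Gamma0 N) : f ∣[K] γ = f := by
  obtain ⟨G, rfl⟩ := h
  exact G.slash_action_eq' _ ⟨γ, hγ, rfl⟩

theorem bdd_slash_of_isMF_G0 {N : ℕ} [NeZero N] {K : ℤ} {f : ℍ → ℂ} (h : IsMF (G0 N) K f)
    (γ : SL(2, ℤ)) : IsBoundedAtImInfty (f ∣[K] γ) := by
  obtain ⟨G, rfl⟩ := h
  exact ModularFormClass.bdd_at_infty_slash G γ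

theorem zero_slash_of_isCF_G0 {N : ℕ} [NeZero N] {K : ℤ} {f : ℍ → ℂ} (h : IsCF (G0 N) K f)
    (γ : SL(2, ℤ)) : IsZeroAtImInfty (f ∣[K] γ) := by
  obtain ⟨G, rfl⟩ := h
  exact CuspFormClass.zero_at_infty_slash G γ

theorem slash_eq_of_isMF_SL {K : ℤ} {f : ℍ → ℂ} (h : IsMF 𝒮ℒ K f) (γ : SL(2, ℤ)) :
    f ∣[K] γ = f := by
  obtain ⟨G, rfl⟩ := h
  exact G.slash_action_eq' _ ⟨γ, rfl⟩

theorem bdd_of_isMF_SL {K : ℤ} {f : ℍ → ℂ} (h : IsMF 𝒮ℒ K f) : IsBoundedAtImInfty f := by
  obtain ⟨G, rfl⟩ := h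
  exact ModularFormClass.bdd_at_infty G

/-! ### Small holomorphy helpers -/

theorem mdiff_comp_coe (g : ℂ → ℂ) (hg : Differentiable ℂ g) : MDiff (fun z : ℍ => g z) :=
  fun τ => (hg τ).mdifferentiableAt.comp τ τ.mdifferentiable_coe

theorem mdiff_div (f g : ℍ → ℂ) (hf : MDiff f) (hg : MDiff g) (h0 : ∀ z, g z ≠ 0) :
    MDiff (fun z => f z / g z) := by
  intro τ
  rw [UpperHalfPlane.mdifferentiableAt_iff]
  have h1 := UpperHalfPlane.mdifferentiableAt_iff.mp (hf τ)
  have h2 := UpperHalfPlane.mdifferentiableAt_iff.mp (hg τ)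
  have h3 : (g ∘ ofComplex) (τ : ℂ) ≠ 0 := by simpa using h0 τ
  exact h1.div h2 h3

theorem periodic_of_vadd (H : ℍ → ℂ) (hH : ∀ z : ℍ, H ((1 : ℝ) +ᵥ z) = H z) :
    Function.Periodic (H ∘ ofComplex) 1 := by
  intro w
  by_cases hw : 0 < w.im
  · have hw' : 0 < (w + 1).im := by simpa using hw
    simp only [Function.comp_apply, ofComplex_apply_of_im_pos hw', ofComplex_apply_of_im_pos hw]
    rw [← hH ⟨w, hw⟩]
    congr 1
    ext
    simp [add_comm]
  · have hw' : (w + 1).im ≤ 0 := by simpa using hw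
    simp only [Function.comp_apply, ofComplex_apply_of_im_nonpos hw',
      ofComplex_apply_of_im_nonpos (not_lt.mp hw)]

/-! ### Non-vanishing level one forms have weight zero -/

theorem weight_eq_zero_of_ne_zero (w : ℤ) (g : ℍ → ℂ) (hg : MDiff g)
    (hinv : ∀ γ : SL(2, ℤ), g ∣[w] γ = g) (h0 : ∀ z, g z ≠ 0)
    (c : ℂ) (hc : c ≠ 0) (hlim : Tendsto g atImInfty (𝓝 c)) : w = 0 := by
  by_contra hw
  rcases lt_or_gt_of_ne hw with h | h
  · obtain ⟨G, hG⟩ := isMF_SL_of w g hg hinv (hlim.isBigO_one ℝ)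
    have := ModularFormClass.levelOne_neg_weight_eq_zero h G
    rw [hG] at this
    exact h0 UpperHalfPlane.I (by rw [this]; rfl)
  · have hg' : MDiff (fun z => 1 / g z) := mdiff_div _ g (fun _ => mdifferentiableAt_const) hg h0
    have hinv' : ∀ γ : SL(2, ℤ), (fun z => 1 / g z) ∣[-w] γ = fun z => 1 / g z := by
      intro γ
      have h1 := ModularForm.div_slash_SL2 0 w γ (1 : ℍ → ℂ) g
      rw [zero_sub, hinv γ, ModularForm.is_invariant_one] at h1
      exact h1
    have hlim' : Tendsto (fun z => 1 / g z) atImInfty (𝓝 (1 / c)) :=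
      tendsto_const_nhds.div hlim hc
    obtain ⟨G, hG⟩ := isMF_SL_of (-w) _ hg' hinv' (hlim'.isBigO_one ℝ)
    have := ModularFormClass.levelOne_neg_weight_eq_zero (by lia : -w < 0) G
    rw [hG] at this
    have h2 := congrFun this UpperHalfPlane.I
    simp only [Pi.zero_apply, one_div, inv_eq_zero] at h2
    exact h0 _ h2

end Fermat.Agent.Lib.VVAnalytic
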