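import Mathlib
import Fermat.Agent.S23.Defs
import Fermat.Agent.Lib.DeltaSlash
import Fermat.Agent.Lib.DeltaLevelN
import Fermat.Agent.Lib.VVAnalytic

set_option autoImplicit false

/-!
The weight two Eisenstein series `d · E₂(d z) - E₂(z)` on `Γ₀(N)`, `d ∣ N`: modularity, all its
`SL(2, ℤ)`-translates, the Fricke relation and the `q`-expansion.
-/

namespace Fermat.Agent.Lib.EisTwo

open Complex Filter Topology
open UpperHalfPlane hiding I
open scoped MatrixGroups ModularForm Real Manifold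
open Fermat.Agent.S23 (IsMF IsCF G0)
open EisensteinSeries
open Fermat.Agent.Lib.DeltaSlash (exists_decomp coe_sl_smul sl_denom_ne_zero im_affine_pos)

/-- The constant in the transformation law of `E₂`. -/
noncomputable def kap : ℂ := (1 / (2 * riemannZeta 2)) * (2 * π * I)

theorem denom_sl (γ : SL(2, ℤ)) (z : ℍ) :
    denom γ z = (γ 1 0 : ℂ) * z + (γ 1 1 : ℂ) := by
  simp [denom]

/-- The transformation law of `E₂` in explicit coordinates. -/
theorem E2_smul (γ : SL(2, ℤ)) (z : ℍ) :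
    E2 (γ • z) = ((γ 1 0 : ℂ) * z + (γ 1 1 : ℂ)) ^ 2 * E2 z
      - kap * (γ 1 0 : ℂ) * ((γ 1 0 : ℂ) * z + (γ 1 1 : ℂ)) := by
  have h := congrFun (E2_slash_action γ) z
  rw [ModularForm.SL_slash_apply] at h
  simp only [Pi.sub_apply, Pi.smul_apply, D2, smul_eq_mul] at h
  rw [denom_sl] at h
  have hne := sl_denom_ne_zero γ z
  rw [zpow_neg, zpow_ofNat] at h
  have h2 : E2 (γ • z) = ((γ 1 0 : ℂ) * z + (γ 1 1 : ℂ)) ^ 2 *
      (E2 z - 1 / (2 * riemannZeta 2) * (2 * π * I * (γ 1 0 : ℂ) /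
        ((γ 1 0 : ℂ) * z + (γ 1 1 : ℂ)))) := by
    rw [← h]
    field_simp
  rw [h2, kap]
  field_simp

/-- `z ↦ d · E₂(d z) - E₂(z)`. -/
noncomputable def eisDiff (d : ℕ) : ℍ → ℂ :=
  fun z => (d : ℂ) * E2 (ofComplex ((d : ℂ) * z)) - E2 z

theorem eisDiff_apply (d : ℕ) (z : ℍ) :
    eisDiff d z = (d : ℂ) * E2 (ofComplex ((d : ℂ) * z)) - E2 z := rfl

/-- Every `SL(2, ℤ)`-translate of `N · E₂(N z) - E₂(z)`. -/
theorem eisDiff_slash (N : ℕ) [NeZero N] (γ : SL(2, ℤ)) :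
    ∃ a b d : ℕ, a * d = N ∧ b < d ∧ (d = 1 ↔ (N : ℤ) ∣ γ 1 0) ∧
      ∀ z : ℍ, (eisDiff N ∣[(2 : ℤ)] γ) z =
        (a : ℂ) / d * E2 (ofComplex (((a : ℂ) * z + b) / d)) - E2 z := by
  obtain ⟨a, b, d, δ, had, hbd, hd1, h00, h01, h10, h11⟩ := exists_decomp N γ
  refine ⟨a, b, d, had, hbd, hd1, fun z => ?_⟩
  have hN0 : N ≠ 0 := NeZero.ne N
  have ha0 : a ≠ 0 := by rintro rfl; simp at had; exact hN0 had.symm
  have hd0 : d ≠ 0 := by rintro rfl; simp at had; exact hN0 had.symm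
  have haC : (a : ℂ) ≠ 0 := by exact_mod_cast ha0
  have hdC : (d : ℂ) ≠ 0 := by exact_mod_cast hd0
  have hNC : (N : ℂ) = (a : ℂ) * d := by rw [← had]; push_cast; ring
  have hwim : 0 < (((a : ℂ) * z + b) / d).im := im_affine_pos ha0 hd0 b z
  obtain ⟨w, hw⟩ : ∃ w : ℍ, (w : ℂ) = ((a : ℂ) * z + b) / d := ⟨⟨_, hwim⟩, rfl⟩
  have hden := sl_denom_ne_zero γ z
  have hdenδ := sl_denom_ne_zero δ w
  have c00 : (δ 0 0 : ℂ) * a = N * (γ 0 0 : ℂ) := by exact_mod_cast h00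
  have c01 : (δ 0 0 : ℂ) * b + (δ 0 1 : ℂ) * d = N * (γ 0 1 : ℂ) := by exact_mod_cast h01
  have c10 : (δ 1 0 : ℂ) * a = (γ 1 0 : ℂ) := by exact_mod_cast h10
  have c11 : (δ 1 0 : ℂ) * b + (δ 1 1 : ℂ) * d = (γ 1 1 : ℂ) := by exact_mod_cast h11
  have hdenrel : (δ 1 0 : ℂ) * w + (δ 1 1 : ℂ) = ((γ 1 0 : ℂ) * z + (γ 1 1 : ℂ)) / d := by
    rw [hw]; field_simp; linear_combination (z : ℂ) * c10 + c11
  have key : ofComplex ((N : ℂ) * ((γ • z : ℍ) : ℂ)) = δ • w := by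
    have him : 0 < ((N : ℂ) * ((γ • z : ℍ) : ℂ)).im := by
      have : ((N : ℂ) * ((γ • z : ℍ) : ℂ)).im = N * (γ • z : ℍ).im := by simp
      rw [this]
      have := (γ • z : ℍ).im_pos
      positivity
    rw [ofComplex_apply_of_im_pos him]
    apply UpperHalfPlane.ext
    show (N : ℂ) * ((γ • z : ℍ) : ℂ) = ((δ • w : ℍ) : ℂ)
    rw [coe_sl_smul, coe_sl_smul, hdenrel]
    have hnum : (δ 0 0 : ℂ) * w + (δ 0 1 : ℂ) =
        ((N : ℂ) * ((γ 0 0 : ℂ) * z + (γ 0 1 : ℂ))) / d := by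
      rw [hw]; field_simp; linear_combination (z : ℂ) * c00 + c01
    rw [hnum]
    field_simp
  have hw' : ofComplex (((a : ℂ) * z + b) / d) = w := by
    rw [ofComplex_apply_of_im_pos hwim]; exact UpperHalfPlane.ext hw.symm
  rw [ModularForm.SL_slash_apply, eisDiff_apply, key, E2_smul δ w, E2_smul γ z, hdenrel, hw',
    denom_sl, zpow_neg, zpow_ofNat, hNC]
  generalize (γ 1 0 : ℂ) * z + (γ 1 1 : ℂ) = D at hden ⊢
  rw [← c10]
  field_simp
  ring

theorem eisDiff_slash_of_mem (N : ℕ) [NeZero N] {γ : SL(2, ℤ)}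
    (hγ : γ ∈ CongruenceSubgroup.Gamma0 N) : eisDiff N ∣[(2 : ℤ)] γ = eisDiff N := by
  obtain ⟨a, b, d, had, hbd, hd1, hform⟩ := eisDiff_slash N γ
  have hd : d = 1 := hd1.mpr ((Fermat.Agent.Lib.DeltaLevelN.mem_Gamma0_iff_dvd N γ).mp hγ)
  subst hd
  have hb : b = 0 := by omega
  subst hb
  have ha : a = N := by simpa using had
  subst ha
  ext z
  rw [hform z, eisDiff_apply]
  simp

theorem mdiff_E2_scale (N : ℕ) [NeZero N] :
    MDiff (fun z : ℍ => E2 (ofComplex ((N : ℂ) * z))) := by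
  rw [UpperHalfPlane.mdifferentiable_iff]
  have hE : DifferentiableOn ℂ (E2 ∘ ofComplex) {z | 0 < z.im} :=
    (UpperHalfPlane.mdifferentiable_iff).mp E2_mdifferentiable
  have hN0 : (0 : ℝ) < N := Nat.cast_pos.mpr (Nat.pos_of_ne_zero (NeZero.ne N))
  have hmaps : Set.MapsTo (fun w : ℂ => (N : ℂ) * w) {z | 0 < z.im} {z | 0 < z.im} := by
    intro w hw
    simp only [Set.mem_ofPred_eq] at hw ⊢
    have : ((N : ℂ) * w).im = N * w.im := by simp
    rw [this]
    positivity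
  have hmap : DifferentiableOn ℂ (fun w : ℂ => (N : ℂ) * w) {z | 0 < z.im} :=
    (differentiable_id.const_mul _).differentiableOn
  refine (hE.comp hmap hmaps).congr ?_
  intro w hw
  simp only [Set.mem_ofPred_eq] at hw
  simp [ofComplex_apply_of_im_pos hw]

theorem mdiff_eisDiff (N : ℕ) [NeZero N] : MDiff (eisDiff N) :=
  (mdifferentiable_const.mul (mdiff_E2_scale N)).sub E2_mdifferentiable

theorem isBounded_eisDiff_slash (N : ℕ) [NeZero N] (γ : SL(2, ℤ)) :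
    IsBoundedAtImInfty (eisDiff N ∣[(2 : ℤ)] γ) := by
  obtain ⟨a, b, d, had, hbd, hd1, hform⟩ := eisDiff_slash N γ
  have hN0 : N ≠ 0 := NeZero.ne N
  have ha0 : a ≠ 0 := by rintro rfl; simp at had; exact hN0 had.symm
  have hd0 : d ≠ 0 := by rintro rfl; simp at had; exact hN0 had.symm
  have h2 : E2 =O[atImInfty] (fun _ : ℍ => (1 : ℝ)) := isBoundedAtImInfty_E2
  have h1 : (fun z : ℍ => E2 (ofComplex (((a : ℂ) * z + b) / d))) =O[atImInfty]
      (fun _ : ℍ => (1 : ℝ)) :=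
    h2.comp_tendsto (Fermat.Agent.Lib.DeltaLevelN.tendsto_ofComplex_affine ha0 hd0 b)
  have h3 := (h1.const_mul_left ((a : ℂ) / d)).sub h2
  have h4 : (eisDiff N ∣[(2 : ℤ)] γ) =
      fun z : ℍ => (a : ℂ) / d * E2 (ofComplex (((a : ℂ) * z + b) / d)) - E2 z := funext hform
  rw [h4]
  exact h3

/-- `N · E₂(N z) - E₂(z)` is a modular form of weight two on `Γ₀(N)`. -/
theorem isMF_eisDiff_self (N : ℕ) [NeZero N] : IsMF (G0 N) 2 (eisDiff N) :=
  Fermat.Agent.Lib.VVAnalytic.isMF_G0_of N 2 (eisDiff N) (mdiff_eisDiff N)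
    (fun _ hγ => eisDiff_slash_of_mem N hγ) (isBounded_eisDiff_slash N)

theorem G0_le_of_dvd {N d : ℕ} (hd : d ∣ N) : G0 N ≤ G0 d := by
  refine Subgroup.map_mono (fun γ hγ => ?_)
  rw [Fermat.Agent.Lib.DeltaLevelN.mem_Gamma0_iff_dvd] at hγ ⊢
  exact dvd_trans (Int.natCast_dvd_natCast.mpr hd) hγ

/-- `d · E₂(d z) - E₂(z)` is a modular form of weight two on `Γ₀(N)` for `d ∣ N`. -/
theorem isMF_eisDiff (N d : ℕ) [NeZero N] (hd : d ∣ N) : IsMF (G0 N) 2 (eisDiff d) := by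
  have : NeZero d := ⟨fun h0 => NeZero.ne N (by rw [h0] at hd; exact Nat.eq_zero_of_zero_dvd hd)⟩
  exact (isMF_eisDiff_self d).mono (G0_le_of_dvd hd)

/-! ### `q`-expansions -/

/-- The `q`-expansion coefficients of `E₂`. -/
noncomputable def cE2 (m : ℕ) : ℂ :=
  if m = 0 then 1 else -24 * (ArithmeticFunction.sigma 1 m : ℂ)

/-- The `q`-expansion coefficients of `E₂(d z)`. -/
noncomputable def cE2s (d n : ℕ) : ℂ := if d ∣ n then cE2 (n / d) else 0

/-- The `q`-expansion coefficients of `d · E₂(d z) - E₂(z)`. -/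
noncomputable def cDiff (d n : ℕ) : ℂ := (d : ℂ) * cE2s d n - cE2 n

theorem hasSum_E2 (z : ℍ) :
    HasSum (fun m : ℕ => cE2 m * cexp (2 * π * I * z) ^ m) (E2 z) := by
  have h := hasSum_qExpansion_E2 z
  simpa [cE2, smul_eq_mul] using h

theorem hasSum_E2_scale (d : ℕ) [NeZero d] (z : ℍ) :
    HasSum (fun n : ℕ => cE2s d n * cexp (2 * π * I * z) ^ n)
      (E2 (ofComplex ((d : ℂ) * z))) := by
  have hd0 : d ≠ 0 := NeZero.ne d
  have him : 0 < ((d : ℂ) * (z : ℂ)).im := by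
    have : ((d : ℂ) * (z : ℂ)).im = d * z.im := by simp
    rw [this]
    have h1 : (0 : ℝ) < d := Nat.cast_pos.mpr (Nat.pos_of_ne_zero hd0)
    exact mul_pos h1 z.im_pos
  have h := hasSum_E2 (ofComplex ((d : ℂ) * z))
  rw [ofComplex_apply_of_im_pos him] at h
  have hq : cexp (2 * π * I * ((⟨(d : ℂ) * z, him⟩ : ℍ) : ℂ)) = cexp (2 * π * I * z) ^ d := by
    rw [← Complex.exp_nat_mul]
    congr 1
    show 2 * π * I * ((d : ℂ) * z) = d * (2 * π * I * z)
    ring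
  rw [hq] at h
  have hinj : Function.Injective (fun m : ℕ => d * m) := fun a b hab =>
    Nat.eq_of_mul_eq_mul_left (Nat.pos_of_ne_zero hd0) hab
  refine (Function.Injective.hasSum_iff hinj ?_).mp ?_
  · intro n hn
    have hnd : ¬ d ∣ n := by
      rintro ⟨m, rfl⟩
      exact hn ⟨m, rfl⟩
    simp [cE2s, hnd]
  · rw [ofComplex_apply_of_im_pos him]
    convert h using 1
    funext m
    simp only [Function.comp_apply, cE2s, dvd_mul_right, if_true,
      Nat.mul_div_cancel_left m (Nat.pos_of_ne_zero hd0), pow_mul]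

theorem hasSum_eisDiff (d : ℕ) [NeZero d] (z : ℍ) :
    HasSum (fun n : ℕ => cDiff d n * cexp (2 * π * I * z) ^ n) (eisDiff d z) := by
  have h := ((hasSum_E2_scale d z).mul_left (d : ℂ)).sub (hasSum_E2 z)
  rw [eisDiff_apply]
  have hfun : (fun n : ℕ => cDiff d n * cexp (2 * π * I * z) ^ n) =
      fun b : ℕ => (d : ℂ) * (cE2s d b * cexp (2 * π * I * z) ^ b) -
        cE2 b * cexp (2 * π * I * z) ^ b := by
    funext n
    simp only [cDiff]
    ring
  rw [hfun]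
  exact h

theorem cDiff_zero (d : ℕ) : cDiff d 0 = (d : ℂ) - 1 := by
  simp [cDiff, cE2s, cE2]

/-- The `q`-expansion of `d · E₂(d z) - E₂(z)`. -/
theorem qExpansion_eisDiff_coeff (d : ℕ) [NeZero d] (n : ℕ) :
    (qExpansion 1 (eisDiff d)).coeff n = cDiff d n := by
  obtain ⟨G, hG⟩ := isMF_eisDiff_self d
  have h := ModularFormClass.qExpansion_coeff_unique (c := cDiff d) one_pos
    (Fermat.Agent.S23.one_mem_strictPeriods_G0 d) (f := G) (fun τ => by
      have h1 := hasSum_eisDiff d τ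
      rw [← hG] at h1
      convert h1 using 2
      simp [Function.Periodic.qParam]) n
  rw [hG] at h
  exact h.symm

/-- A convergent expansion of a modular form on `Γ₀(N)` is its `q`-expansion. -/
theorem qExpansion_coeff_of_hasSum {N : ℕ} {k : ℤ} {f : ℍ → ℂ} (hf : IsMF (G0 N) k f)
    (c : ℕ → ℂ)
    (h : ∀ τ : ℍ, HasSum (fun m : ℕ => c m * cexp (2 * π * I * τ) ^ m) (f τ)) (n : ℕ) :
    (qExpansion 1 f).coeff n = c n := by
  obtain ⟨G, hG⟩ := hf
  have h2 := ModularFormClass.qExpansion_coeff_unique (c := c) one_pos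
    (Fermat.Agent.S23.one_mem_strictPeriods_G0 N) (f := G) (fun τ => by
      have h1 := h τ
      rw [← hG] at h1
      convert h1 using 2
      simp [Function.Periodic.qParam]) n
  rw [hG] at h2
  exact h2.symm

/-- The divisors of `n` divisible by `d` are the `d`-multiples of the divisors of `n / d`. -/
theorem sum_divisors_filter_dvd (d n : ℕ) (hd : d ≠ 0) (hdn : d ∣ n) (hn : n ≠ 0) :
    ∑ e ∈ n.divisors.filter (fun e => d ∣ e), e = d * ∑ e ∈ (n / d).divisors, e := by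
  rw [Finset.mul_sum]
  obtain ⟨m, rfl⟩ := hdn
  have hm : m ≠ 0 := fun h => hn (by rw [h, mul_zero])
  rw [Nat.mul_div_cancel_left m (Nat.pos_of_ne_zero hd)]
  refine Finset.sum_nbij' (fun e => e / d) (fun e => d * e) ?_ ?_ ?_ ?_ ?_
  · intro e he
    rw [Finset.mem_filter, Nat.mem_divisors] at he
    obtain ⟨⟨he1, _⟩, ⟨t, rfl⟩⟩ := he
    rw [Nat.mul_div_cancel_left t (Nat.pos_of_ne_zero hd), Nat.mem_divisors]
    exact ⟨(Nat.mul_dvd_mul_iff_left (Nat.pos_of_ne_zero hd)).mp he1, hm⟩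
  · intro e he
    rw [Nat.mem_divisors] at he
    rw [Finset.mem_filter, Nat.mem_divisors]
    exact ⟨⟨Nat.mul_dvd_mul_left d he.1, hn⟩, dvd_mul_right d e⟩
  · intro e he
    rw [Finset.mem_filter] at he
    exact Nat.mul_div_cancel' he.2
  · intro e _
    exact Nat.mul_div_cancel_left e (Nat.pos_of_ne_zero hd)
  · intro e he
    rw [Finset.mem_filter] at he
    exact (Nat.mul_div_cancel' he.2).symm

/-- `σ'_d(n)`: the sum of the divisors of `n` which are not divisible by `d`. -/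
def sigmaPrime (d n : ℕ) : ℕ := ∑ e ∈ n.divisors.filter (fun e => ¬ d ∣ e), e

theorem sigma_one_eq (d n : ℕ) (hd : d ≠ 0) (hn : n ≠ 0) :
    ArithmeticFunction.sigma 1 n =
      sigmaPrime d n + if d ∣ n then d * ArithmeticFunction.sigma 1 (n / d) else 0 := by
  rw [ArithmeticFunction.sigma_one_apply, sigmaPrime,
    ← Finset.sum_filter_not_add_sum_filter n.divisors (fun e => d ∣ e)]
  congr 1
  by_cases hdn : d ∣ n
  · rw [if_pos hdn, ArithmeticFunction.sigma_one_apply, sum_divisors_filter_dvd d n hd hdn hn]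
  · rw [if_neg hdn]
    refine Finset.sum_eq_zero (fun e he => ?_)
    rw [Finset.mem_filter, Nat.mem_divisors] at he
    exact absurd (dvd_trans he.2 he.1.1) hdn

theorem cDiff_eq (d : ℕ) [NeZero d] (n : ℕ) (hn : n ≠ 0) :
    cDiff d n = 24 * (sigmaPrime d n : ℂ) := by
  have hd : d ≠ 0 := NeZero.ne d
  have h := sigma_one_eq d n hd hn
  have h' : (ArithmeticFunction.sigma 1 n : ℂ) = (sigmaPrime d n : ℂ) +
      ((if d ∣ n then d * ArithmeticFunction.sigma 1 (n / d) else 0 : ℕ) : ℂ) := by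
    exact_mod_cast h
  simp only [cDiff, cE2s, cE2, if_neg hn]
  by_cases hdn : d ∣ n
  · have hnd : n / d ≠ 0 := by
      obtain ⟨m, rfl⟩ := hdn
      rw [Nat.mul_div_cancel_left m (Nat.pos_of_ne_zero hd)]
      exact fun h0 => hn (by rw [h0, mul_zero])
    rw [if_pos hdn] at h' ⊢
    rw [if_neg hnd, h']
    push_cast
    ring
  · rw [if_neg hdn] at h' ⊢
    rw [h']
    push_cast
    ring

/-! ### The Eisenstein series `E'` of level `p` -/

/-- `E' = (p · E₂(p z) - E₂(z)) / 24 = (p - 1)/24 + ∑ σ'(n) qⁿ`. -/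
noncomputable def eisP (p : ℕ) : ℍ → ℂ := fun z => eisDiff p z / 24

theorem eisP_eq_smul (p : ℕ) : eisP p = (1 / 24 : ℂ) • eisDiff p := by
  ext z
  simp [eisP, div_eq_inv_mul]

theorem isMF_eisP (p : ℕ) [NeZero p] : IsMF (G0 p) 2 (eisP p) := by
  rw [eisP_eq_smul]
  exact IsMF.smul _ (isMF_eisDiff_self p)

theorem hasSum_eisP (p : ℕ) [NeZero p] (z : ℍ) :
    HasSum (fun n : ℕ => (cDiff p n / 24) * cexp (2 * π * I * z) ^ n) (eisP p z) := by
  have h := (hasSum_eisDiff p z).div_const 24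
  have hfun : (fun n : ℕ => (cDiff p n / 24) * cexp (2 * π * I * z) ^ n) =
      fun n : ℕ => cDiff p n * cexp (2 * π * I * z) ^ n / 24 := by
    funext n
    ring
  rw [hfun]
  exact h

theorem qExpansion_eisP_coeff_zero (p : ℕ) [NeZero p] :
    (qExpansion 1 (eisP p)).coeff 0 = ((p : ℂ) - 1) / 24 := by
  rw [qExpansion_coeff_of_hasSum (isMF_eisP p) (fun n => cDiff p n / 24) (hasSum_eisP p) 0,
    cDiff_zero]

theorem qExpansion_eisP_coeff (p : ℕ) [NeZero p] (n : ℕ) (hn : n ≠ 0) :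
    (qExpansion 1 (eisP p)).coeff n = (sigmaPrime p n : ℂ) := by
  rw [qExpansion_coeff_of_hasSum (isMF_eisP p) (fun n => cDiff p n / 24) (hasSum_eisP p) n,
    cDiff_eq p n hn]
  ring

/-! ### The Fricke relation -/

theorem E2_S (z : ℍ) : E2 (ModularGroup.S • z) = (z : ℂ) ^ 2 * E2 z - kap * z := by
  have h := E2_smul ModularGroup.S z
  simpa [ModularGroup.S] using h

theorem coe_S_smul (z : ℍ) : ((ModularGroup.S • z : ℍ) : ℂ) = -1 / (z : ℂ) := by
  rw [coe_sl_smul]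
  simp [ModularGroup.S]

/-- The Fricke relation: `A(-1/(d z)) = -d z² A(z)` for `A = d · E₂(d z) - E₂(z)`. -/
theorem eisDiff_fricke (d : ℕ) [NeZero d] (z : ℍ) :
    eisDiff d (ofComplex (-1 / ((d : ℂ) * z))) = -(d : ℂ) * (z : ℂ) ^ 2 * eisDiff d z := by
  have hd0 : (d : ℂ) ≠ 0 := Nat.cast_ne_zero.mpr (NeZero.ne d)
  have hz0 : (z : ℂ) ≠ 0 := ne_zero z
  have him : 0 < ((d : ℂ) * (z : ℂ)).im := by
    have : ((d : ℂ) * (z : ℂ)).im = d * z.im := by simp
    rw [this]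
    have h1 : (0 : ℝ) < d := Nat.cast_pos.mpr (Nat.pos_of_ne_zero (NeZero.ne d))
    exact mul_pos h1 z.im_pos
  obtain ⟨z', hz'⟩ : ∃ z' : ℍ, (z' : ℂ) = (d : ℂ) * z := ⟨⟨_, him⟩, rfl⟩
  have hS' : ((ModularGroup.S • z' : ℍ) : ℂ) = -1 / ((d : ℂ) * z) := by
    rw [coe_S_smul, hz']
  have h1 : ofComplex (-1 / ((d : ℂ) * z)) = ModularGroup.S • z' := by
    have him2 : 0 < (-1 / ((d : ℂ) * z)).im := by
      rw [← hS']
      exact (ModularGroup.S • z').im_pos
    rw [ofComplex_apply_of_im_pos him2]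
    exact UpperHalfPlane.ext hS'.symm
  have h2 : ofComplex ((d : ℂ) * ((ModularGroup.S • z' : ℍ) : ℂ)) = ModularGroup.S • z := by
    have e : (d : ℂ) * ((ModularGroup.S • z' : ℍ) : ℂ) = -1 / (z : ℂ) := by
      rw [hS']
      field_simp
    have him3 : 0 < ((d : ℂ) * ((ModularGroup.S • z' : ℍ) : ℂ)).im := by
      rw [e, ← coe_S_smul]
      exact (ModularGroup.S • z).im_pos
    rw [ofComplex_apply_of_im_pos him3]
    exact UpperHalfPlane.ext (e.trans (coe_S_smul z).symm)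
  have h3 : ofComplex ((d : ℂ) * z) = z' := by
    rw [ofComplex_apply_of_im_pos him]
    exact UpperHalfPlane.ext hz'.symm
  rw [h1, eisDiff_apply, eisDiff_apply, h2, h3, E2_S z, E2_S z', hz']
  ring

/-- The translates of `p · E₂(p z) - E₂(z)` by elements outside `Γ₀(p)`, `p` prime. -/
theorem eisDiff_slash_prime (p : ℕ) [Fact p.Prime] (γ : SL(2, ℤ))
    (hγ : γ ∉ CongruenceSubgroup.Gamma0 p) :
    ∃ b : ℕ, b < p ∧ ∀ z : ℍ, (eisDiff p ∣[(2 : ℤ)] γ) z =
      1 / (p : ℂ) * E2 (ofComplex (((z : ℂ) + b) / p)) - E2 z := by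
  have hp : p.Prime := Fact.out
  have : NeZero p := ⟨hp.ne_zero⟩
  obtain ⟨a, b, d, had, hbd, hd1, hform⟩ := eisDiff_slash p γ
  have hd : d ≠ 1 := fun h =>
    hγ ((Fermat.Agent.Lib.DeltaLevelN.mem_Gamma0_iff_dvd p γ).mpr (hd1.mp h))
  have hdp : d = p := by
    have h1 : d ∣ p := ⟨a, by rw [← had, mul_comm]⟩
    rcases (Nat.dvd_prime hp).mp h1 with h | h
    · exact absurd h hd
    · exact h
  subst hdp
  have ha : a = 1 := by
    have h2 : a * d = 1 * d := by rw [had, one_mul]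
    exact Nat.eq_of_mul_eq_mul_right hp.pos h2
  subst ha
  refine ⟨b, hbd, fun z => ?_⟩
  rw [hform z]
  simp

end Fermat.Agent.Lib.EisTwo
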