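import Mathlib

/-!
# Embeddings into a valued field with the same valuation ring are conjugate

`E` a field with a valuation `v`, `G` a finite group acting on `E` by valuation-preserving
automorphisms, `B` a field mapping into the `G`-fixed points of `E`, dense in the fixed field,
with an element `x₀ ∈ B` whose powers tend to `0`.  For an algebraic extension `L / B`:

* `exists_smul_eq_of_forall_le_one_imp` (EO1): two `B`-embeddings `ι ι' : L → E` whose pulled back
  valuation rings coincide differ by an element of `G`.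

Typical use: `E = k((q^(1/M)))`, `G = μ_M`, `B = k(x) ⊆ k((q))`: the places of `L` over the point
of `B` correspond to the `G`-orbits of embeddings.
-/

set_option autoImplicit false
set_option linter.unusedSectionVars false

open Polynomial

namespace Fermat.Agent.Lib.EmbOrbit

section Conj

variable {E : Type*} [Field E] {Γ₀ : Type*} [LinearOrderedCommGroupWithZero Γ₀]
  (v : Valuation E Γ₀)
variable {G : Type*} [Group G] [Fintype G] [MulSemiringAction G E]

/-- The orbit polynomial `∏_g (X - g • a)`. -/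
noncomputable def orbitPoly (G : Type*) [Group G] [Fintype G] [MulSemiringAction G E] (a : E) :
    E[X] :=
  ∏ g : G, (X - C (g • a))

lemma orbitPoly_natDegree (a : E) : (orbitPoly G a).natDegree = Fintype.card G := by
  unfold orbitPoly
  rw [natDegree_finsetProd_X_sub_C_eq_card, Finset.card_univ]

lemma orbitPoly_eval_self (a : E) : (orbitPoly G a).eval a = 0 := by
  unfold orbitPoly
  rw [eval_prod]
  apply Finset.prod_eq_zero (Finset.mem_univ (1 : G))
  rw [one_smul, eval_sub, eval_X, eval_C, sub_self]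

lemma exists_smul_eq_of_orbitPoly_eval_eq_zero {a a' : E} (h : (orbitPoly G a).eval a' = 0) :
    ∃ g : G, a' = g • a := by
  unfold orbitPoly at h
  rw [eval_prod, Finset.prod_eq_zero_iff] at h
  obtain ⟨g, -, hg⟩ := h
  rw [eval_sub, eval_X, eval_C, sub_eq_zero] at hg
  exact ⟨g, hg⟩

lemma smul_coeff_orbitPoly (a : E) (h : G) (i : ℕ) :
    h • (orbitPoly G a).coeff i = (orbitPoly G a).coeff i := by
  have hmap : (orbitPoly G a).map (MulSemiringAction.toRingHom G E h) = orbitPoly G a := by
    unfold orbitPoly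
    rw [Polynomial.map_prod]
    refine Fintype.prod_equiv (Equiv.mulLeft h) _ _ fun g => ?_
    rw [Polynomial.map_sub, map_X, map_C, MulSemiringAction.toRingHom_apply, Equiv.coe_mulLeft,
      mul_smul]
  have h1 := congrArg (fun p => p.coeff i) hmap
  simp only [coeff_map, MulSemiringAction.toRingHom_apply] at h1
  exact h1

end Conj

section Main

variable {E : Type*} [Field E] {Γ₀ : Type*} [LinearOrderedCommGroupWithZero Γ₀]
  (v : Valuation E Γ₀)
variable {G : Type*} [Group G] [Fintype G] [MulSemiringAction G E]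
variable {B : Type*} [Field B] [Algebra B E]
variable {L : Type*} [Field L] [Algebra B L]

/-- Pointwise conjugacy: if the valuation ring of `ι` is contained in that of `ι'`, then `ι' α`
lies in the `G`-orbit of `ι α`. -/
theorem exists_smul_eq_apply
    (hdense : ∀ c : E, (∀ g : G, g • c = c) → ∀ ε : Γ₀, ε ≠ 0 →
      ∃ b : B, v (c - algebraMap B E b) < ε)
    (x₀ : B) (hx₀ : v (algebraMap B E x₀) ≠ 0)
    (hx₀' : ∀ δ : Γ₀, δ ≠ 0 → ∃ m : ℕ, v (algebraMap B E x₀) ^ m < δ)
    (ι ι' : L →ₐ[B] E) (h : ∀ y : L, v (ι y) ≤ 1 → v (ι' y) ≤ 1) (α : L) :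
    ∃ g : G, ι' α = g • ι α := by
  by_contra hne
  have hq' : (orbitPoly G (ι α)).eval (ι' α) ≠ 0 := fun h0 =>
    hne (exists_smul_eq_of_orbitPoly_eval_eq_zero h0)
  set a := ι α with ha
  set a' := ι' α with ha'
  set Q := orbitPoly G a with hQ
  set d := Fintype.card G with hd
  set ρ := v (algebraMap B E x₀) with hρ
  have hδ : v (Q.eval a') ≠ 0 := (v.ne_zero_iff).mpr hq'
  obtain ⟨m, hm⟩ := hx₀' _ hδ
  have hρm : ρ ^ m ≠ 0 := pow_ne_zero _ hx₀
  set R : Γ₀ := max 1 (max (v a) (v a')) with hR
  have hR1 : 1 ≤ R := le_max_left _ _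
  have hR0 : R ≠ 0 := (lt_of_lt_of_le zero_lt_one hR1).ne'
  have hRd : R ^ d ≠ 0 := pow_ne_zero _ hR0
  have hε : ρ ^ m * (R ^ d)⁻¹ ≠ 0 := mul_ne_zero hρm (inv_ne_zero hRd)
  choose b hb using fun i : ℕ =>
    hdense (Q.coeff i) (fun g => smul_coeff_orbitPoly a g i) _ hε
  -- the key estimate
  have key : ∀ z : E, v z ≤ R →
      v ((∑ i ∈ Finset.range (d + 1), algebraMap B E (b i) * z ^ i) - Q.eval z) < ρ ^ m := by
    intro z hz
    have hdeg : Q.natDegree < d + 1 := by
      rw [hQ, orbitPoly_natDegree]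
      exact Nat.lt_succ_self _
    rw [eval_eq_sum_range' hdeg, ← Finset.sum_sub_distrib]
    apply Valuation.map_sum_lt v hρm
    intro i hi
    have hi' : i ≤ d := Nat.lt_succ_iff.mp (Finset.mem_range.mp hi)
    rw [← sub_mul, map_mul, map_pow, Valuation.map_sub_swap]
    have h1 : v z ^ i ≤ R ^ d :=
      (pow_le_pow_left₀ zero_le hz i).trans (pow_le_pow_right₀ hR1 hi')
    calc v (Q.coeff i - algebraMap B E (b i)) * v z ^ i
        ≤ v (Q.coeff i - algebraMap B E (b i)) * R ^ d := mul_le_mul' le_rfl h1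
      _ < ρ ^ m * (R ^ d)⁻¹ * R ^ d := by
          exact mul_lt_mul_of_pos_right (hb i) (zero_lt_iff.mpr hRd)
      _ = ρ ^ m := by rw [mul_assoc, inv_mul_cancel₀ hRd, mul_one]
  set y : L := ∑ i ∈ Finset.range (d + 1), algebraMap B L (b i) * α ^ i with hy
  have hιy : ι y = ∑ i ∈ Finset.range (d + 1), algebraMap B E (b i) * a ^ i := by
    rw [hy, map_sum]
    refine Finset.sum_congr rfl fun i _ => ?_
    rw [map_mul, map_pow, AlgHom.commutes]
  have hι'y : ι' y = ∑ i ∈ Finset.range (d + 1), algebraMap B E (b i) * a' ^ i := by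
    rw [hy, map_sum]
    refine Finset.sum_congr rfl fun i _ => ?_
    rw [map_mul, map_pow, AlgHom.commutes]
  have h1 : v (ι y) < ρ ^ m := by
    have := key a ((le_max_left _ _).trans (le_max_right _ _))
    rwa [← hιy, hQ, orbitPoly_eval_self, sub_zero] at this
  have h2 : v (ι' y) = v (Q.eval a') := by
    have h3 := key a' ((le_max_right _ _).trans (le_max_right _ _))
    rw [← hι'y] at h3
    have h4 : v (ι' y - Q.eval a') < v (Q.eval a') := h3.trans hm
    have h5 : ι' y = Q.eval a' + (ι' y - Q.eval a') := by ring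
    rw [h5]
    exact Valuation.map_add_eq_of_lt_left v h4
  -- the separating element
  set w : L := y / (algebraMap B L x₀) ^ m with hw
  have hw1 : v (ι w) ≤ 1 := by
    rw [hw, map_div₀, map_pow, AlgHom.commutes, map_div₀, map_pow]
    exact ((div_lt_one₀ (zero_lt_iff.mpr hρm)).mpr h1).le
  have hw2 : 1 < v (ι' w) := by
    rw [hw, map_div₀, map_pow, AlgHom.commutes, map_div₀, map_pow, h2]
    exact (one_lt_div₀ (zero_lt_iff.mpr hρm)).mpr hm
  exact absurd (h w hw1) (not_le.mpr hw2)

/-- **(EO1)** Two embeddings with the same pulled back valuation ring are conjugate under `G`.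
(Only one inclusion of valuation rings is needed.) -/
theorem exists_smul_eq_of_forall_le_one_imp
    (hfix : ∀ (g : G) (b : B), g • algebraMap B E b = algebraMap B E b)
    (hdense : ∀ c : E, (∀ g : G, g • c = c) → ∀ ε : Γ₀, ε ≠ 0 →
      ∃ b : B, v (c - algebraMap B E b) < ε)
    (x₀ : B) (hx₀ : v (algebraMap B E x₀) ≠ 0)
    (hx₀' : ∀ δ : Γ₀, δ ≠ 0 → ∃ m : ℕ, v (algebraMap B E x₀) ^ m < δ)
    (ι ι' : L →ₐ[B] E) (h : ∀ y : L, v (ι y) ≤ 1 → v (ι' y) ≤ 1) :
    ∃ g : G, ∀ y : L, ι' y = g • ι y := by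
  -- `B` is infinite
  have hρ1 : v (algebraMap B E x₀) < 1 := by
    obtain ⟨m, hm⟩ := hx₀' 1 one_ne_zero
    by_contra hcon
    exact absurd hm (not_lt.mpr (one_le_pow₀ (not_lt.mp hcon)))
  have : Infinite B := by
    refine Infinite.of_injective (fun n : ℕ => x₀ ^ n) ?_
    intro n k hnk
    have h1 : v (algebraMap B E x₀) ^ n = v (algebraMap B E x₀) ^ k := by
      rw [← map_pow, ← map_pow, ← map_pow, ← map_pow]
      exact congrArg (fun t => v (algebraMap B E t)) hnk
    exact (pow_right_strictAnti₀ (zero_lt_iff.mpr hx₀) hρ1).injective h1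
  -- the subspaces `{α | ι' α = g • ι α}`
  let p : G → Subspace B L := fun g =>
    { carrier := {α | ι' α = g • ι α}
      add_mem' := fun {x y} hx hy => by
        show ι' (x + y) = g • ι (x + y)
        rw [map_add, map_add, smul_add, hx, hy]
      zero_mem' := by
        show ι' 0 = g • ι 0
        rw [map_zero, map_zero, smul_zero]
      smul_mem' := fun c x hx => by
        show ι' (c • x) = g • ι (c • x)
        rw [Algebra.smul_def, map_mul, map_mul, AlgHom.commutes, AlgHom.commutes, smul_mul',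
          hfix, hx] }
  have hcover : ⋃ g, (p g : Set L) = Set.univ := by
    rw [Set.eq_univ_iff_forall]
    intro α
    obtain ⟨g, hg⟩ := exists_smul_eq_apply v hdense x₀ hx₀ hx₀' ι ι' h α
    exact Set.mem_iUnion.mpr ⟨g, hg⟩
  obtain ⟨g, hg⟩ := Subspace.exists_eq_top_of_iUnion_eq_univ hcover
  refine ⟨g, fun y => ?_⟩
  have : y ∈ p g := by rw [hg]; trivial
  exact this

/-- Conversely, conjugate embeddings have the same valuation ring. -/
theorem forall_le_one_iff_of_smul_eq (hv : ∀ (g : G) (x : E), v (g • x) = v x)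
    (ι ι' : L →ₐ[B] E) (g : G) (h : ∀ y : L, ι' y = g • ι y) (y : L) :
    v (ι' y) = v (ι y) := by
  rw [h y, hv]

end Main

end Fermat.Agent.Lib.EmbOrbit
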