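/-
S24 package "PRELUDE BRIDGE" (helper75).

`K := AlgebraicClosure ℚ`, `F := ModularCurve.modularFunctionFieldBar N ⊆ K((q))`.

* `gen d`            : the Prelude generator `j(q^d)` as a Laurent series over `K`.
* `modularFunctionFieldBar_eq_adjoin` : `F = K(gen d : d ∣ N)`.
* `exists_ringHom`   : THE BRIDGE.  Given any commutative ring `R` (think: a ring of functions on
  the upper half plane) with an injective "expansion" `e : R →+* L'`, an injective comparison
  `c : K((q)) →+* L'` (think: `coeffMap ι`), such that constants and the `gen d` (`d ∣ N`) are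
  expansions of elements of `R`, every injective ring hom `θ : R →+* M` into a field induces a
  ring hom `Θ : F →+* M` with `Θ x = θ r` whenever `e r = c x`.
* uniqueness, naturality and the `K`-algebra version.
-/
import Mathlib
import Fermat.Prelude.Def_ModularCurve_ArithmeticGalois
import Fermat.Prelude.Def_ModularCurve_JqCoeff
import Fermat.Prelude.Thm_ModularCurve_coeffMap_qExpand

set_option autoImplicit false

noncomputable section

namespace Fermat.Agent.Lib.FFBridge

open ModularCurve IntermediateField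

/-- The Prelude generator `j(q^d)` as a Laurent series over `ℚ̄`. -/
def gen (d : ℕ) [NeZero d] : LaurentSeries (AlgebraicClosure ℚ) :=
  coeffEmb (AlgebraicClosure ℚ) (qExpand ℚ d jq)

/-- The set of generators `j(q^d)`, `d ∣ N`. -/
def genSet (N : ℕ) : Set (LaurentSeries (AlgebraicClosure ℚ)) :=
  {x | ∃ (d : ℕ) (_ : NeZero d), d ∣ N ∧ x = gen d}

theorem gen_mem_genSet {N d : ℕ} [NeZero d] (hd : d ∣ N) : gen d ∈ genSet N :=
  ⟨d, ‹_›, hd, rfl⟩

theorem gen_mem {N d : ℕ} [NeZero d] (hd : d ∣ N) : gen d ∈ modularFunctionFieldBar N :=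
  coeffEmb_mem_laurentBaseChange (AlgebraicClosure ℚ) (jqd_mem_full N hd)

theorem coeffEmb_algebraMap (q : ℚ) :
    coeffEmb (AlgebraicClosure ℚ) (algebraMap ℚ (LaurentSeries ℚ) q) =
      algebraMap (AlgebraicClosure ℚ) (LaurentSeries (AlgebraicClosure ℚ))
        (algebraMap ℚ (AlgebraicClosure ℚ) q) := by
  rw [algebraMap_laurentSeries_eq_single, algebraMap_laurentSeries_eq_single, coeffEmb,
    coeffMap_single]

/-- `F = K(j(q^d) : d ∣ N)`. -/
theorem modularFunctionFieldBar_eq_adjoin (N : ℕ) :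
    modularFunctionFieldBar N = adjoin (AlgebraicClosure ℚ) (genSet N) := by
  apply le_antisymm
  · rw [modularFunctionFieldBar, laurentBaseChange, adjoin_le_iff]
    rintro _ ⟨x, hx, rfl⟩
    have hx' : x ∈ adjoin ℚ (divisorExpansions N) := hx
    induction hx' using IntermediateField.adjoin_induction with
    | mem y hy =>
        obtain ⟨d, hne, hd, rfl⟩ := hy
        exact subset_adjoin _ _ ⟨d, hne, hd, rfl⟩
    | algebraMap q =>
        rw [coeffEmb_algebraMap]
        exact (adjoin (AlgebraicClosure ℚ) (genSet N)).algebraMap_mem _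
    | add y z _ _ hy hz =>
        rw [map_add]; exact add_mem (hy ‹_›) (hz ‹_›)
    | inv y _ hy =>
        rw [map_inv₀]; exact inv_mem (hy ‹_›)
    | mul y z _ _ hy hz =>
        rw [map_mul]; exact mul_mem (hy ‹_›) (hz ‹_›)
  · rw [adjoin_le_iff]
    rintro _ ⟨d, hne, hd, rfl⟩
    exact gen_mem hd

/-- Every element of `F` is a quotient of two elements of the `K`-subalgebra generated by the
`j(q^d)`, `d ∣ N`. -/
theorem exists_div_eq (N : ℕ) {x : LaurentSeries (AlgebraicClosure ℚ)}
    (hx : x ∈ modularFunctionFieldBar N) :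
    ∃ a ∈ Algebra.adjoin (AlgebraicClosure ℚ) (genSet N),
      ∃ b ∈ Algebra.adjoin (AlgebraicClosure ℚ) (genSet N), b ≠ 0 ∧ x = a / b := by
  rw [modularFunctionFieldBar_eq_adjoin, mem_adjoin_iff_div] at hx
  obtain ⟨a, ha, b, hb, rfl⟩ := hx
  by_cases hb0 : b = 0
  · exact ⟨0, zero_mem _, 1, one_mem _, one_ne_zero, by simp [hb0]⟩
  · exact ⟨a, ha, b, hb, hb0, rfl⟩

section Bridge

variable (N : ℕ) {R L' M : Type*} [CommRing R] [CommRing L'] [Field M]
  (c : LaurentSeries (AlgebraicClosure ℚ) →+* L') (e : R →+* L')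

/-- Elements of the subalgebra generated by the `j(q^d)` are "expansions" of elements of `R`. -/
theorem exists_eq_of_mem_adjoin
    (hconst : ∀ a : AlgebraicClosure ℚ,
      ∃ r : R, e r = c (algebraMap (AlgebraicClosure ℚ) (LaurentSeries (AlgebraicClosure ℚ)) a))
    (hgen : ∀ (d : ℕ) [NeZero d], d ∣ N → ∃ r : R, e r = c (gen d))
    {a : LaurentSeries (AlgebraicClosure ℚ)}
    (ha : a ∈ Algebra.adjoin (AlgebraicClosure ℚ) (genSet N)) : ∃ r : R, e r = c a := by
  induction ha using Algebra.adjoin_induction with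
  | mem x hx =>
      obtain ⟨d, hne, hd, rfl⟩ := hx
      exact hgen d hd
  | algebraMap a => exact hconst a
  | add x y _ _ hx hy =>
      obtain ⟨r, hr⟩ := hx
      obtain ⟨s, hs⟩ := hy
      exact ⟨r + s, by rw [map_add, map_add, hr, hs]⟩
  | mul x y _ _ hx hy =>
      obtain ⟨r, hr⟩ := hx
      obtain ⟨s, hs⟩ := hy
      exact ⟨r * s, by rw [map_mul, map_mul, hr, hs]⟩

variable {c e}

/-- Underlying function of `adjoinLift`. -/
def adjoinLiftFun
    (hconst : ∀ a : AlgebraicClosure ℚ,
      ∃ r : R, e r = c (algebraMap (AlgebraicClosure ℚ) (LaurentSeries (AlgebraicClosure ℚ)) a))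
    (hgen : ∀ (d : ℕ) [NeZero d], d ∣ N → ∃ r : R, e r = c (gen d))
    (a : ↥(Algebra.adjoin (AlgebraicClosure ℚ) (genSet N))) : R :=
  (exists_eq_of_mem_adjoin N c e hconst hgen a.2).choose

theorem adjoinLiftFun_spec
    (hconst : ∀ a : AlgebraicClosure ℚ,
      ∃ r : R, e r = c (algebraMap (AlgebraicClosure ℚ) (LaurentSeries (AlgebraicClosure ℚ)) a))
    (hgen : ∀ (d : ℕ) [NeZero d], d ∣ N → ∃ r : R, e r = c (gen d))
    (a : ↥(Algebra.adjoin (AlgebraicClosure ℚ) (genSet N))) :
    e (adjoinLiftFun N hconst hgen a) = c (a : LaurentSeries (AlgebraicClosure ℚ)) :=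
  (exists_eq_of_mem_adjoin N c e hconst hgen a.2).choose_spec

/-- The ring hom `K[j(q^d) : d ∣ N] → R` inverting the expansion. -/
def adjoinLift (he : Function.Injective e)
    (hconst : ∀ a : AlgebraicClosure ℚ,
      ∃ r : R, e r = c (algebraMap (AlgebraicClosure ℚ) (LaurentSeries (AlgebraicClosure ℚ)) a))
    (hgen : ∀ (d : ℕ) [NeZero d], d ∣ N → ∃ r : R, e r = c (gen d)) :
    ↥(Algebra.adjoin (AlgebraicClosure ℚ) (genSet N)) →+* R where
  toFun := adjoinLiftFun N hconst hgen
  map_one' := he (by rw [adjoinLiftFun_spec]; simp)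
  map_zero' := he (by rw [adjoinLiftFun_spec]; simp)
  map_add' a b := he (by
    rw [map_add, adjoinLiftFun_spec, adjoinLiftFun_spec, adjoinLiftFun_spec]; simp)
  map_mul' a b := he (by
    rw [map_mul, adjoinLiftFun_spec, adjoinLiftFun_spec, adjoinLiftFun_spec]; simp)

theorem adjoinLift_spec (he : Function.Injective e)
    (hconst : ∀ a : AlgebraicClosure ℚ,
      ∃ r : R, e r = c (algebraMap (AlgebraicClosure ℚ) (LaurentSeries (AlgebraicClosure ℚ)) a))
    (hgen : ∀ (d : ℕ) [NeZero d], d ∣ N → ∃ r : R, e r = c (gen d))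
    (a : ↥(Algebra.adjoin (AlgebraicClosure ℚ) (genSet N))) :
    e (adjoinLift N he hconst hgen a) = c (a : LaurentSeries (AlgebraicClosure ℚ)) :=
  adjoinLiftFun_spec N hconst hgen a

theorem adjoinLift_injective (hc : Function.Injective c) (he : Function.Injective e)
    (hconst : ∀ a : AlgebraicClosure ℚ,
      ∃ r : R, e r = c (algebraMap (AlgebraicClosure ℚ) (LaurentSeries (AlgebraicClosure ℚ)) a))
    (hgen : ∀ (d : ℕ) [NeZero d], d ∣ N → ∃ r : R, e r = c (gen d)) :
    Function.Injective (adjoinLift N he hconst hgen) := by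
  intro a b hab
  apply Subtype.ext
  apply hc
  rw [← adjoinLift_spec N he hconst hgen, ← adjoinLift_spec N he hconst hgen, hab]

open scoped algebraAdjoinAdjoin in
/-- **THE BRIDGE.** `R` a commutative ring with an injective "expansion" `e : R →+* L'`,
`c : K((q)) →+* L'` an injective comparison map such that the constants and the Prelude generators
`j(q^d)` (`d ∣ N`) are expansions of elements of `R`.  Then every injective ring hom
`θ : R →+* M` into a field induces a ring hom `Θ : F →+* M` on the Prelude function field with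
`Θ x = θ r` whenever `r` has the same expansion as `x`. -/
theorem exists_ringHom (hc : Function.Injective c) (he : Function.Injective e)
    (θ : R →+* M) (hθ : Function.Injective θ)
    (hconst : ∀ a : AlgebraicClosure ℚ,
      ∃ r : R, e r = c (algebraMap (AlgebraicClosure ℚ) (LaurentSeries (AlgebraicClosure ℚ)) a))
    (hgen : ∀ (d : ℕ) [NeZero d], d ∣ N → ∃ r : R, e r = c (gen d)) :
    ∃ Θ : ↥(modularFunctionFieldBar N) →+* M,
      ∀ (x : ↥(modularFunctionFieldBar N)) (r : R),
        e r = c (x : LaurentSeries (AlgebraicClosure ℚ)) → Θ x = θ r := by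
  have hF := modularFunctionFieldBar_eq_adjoin N
  set ψ := adjoinLift N he hconst hgen with hψ
  have hψinj : Function.Injective ψ := adjoinLift_injective N hc he hconst hgen
  have hφ : Function.Injective (θ.comp ψ) := hθ.comp hψinj
  let Θ₀ : ↥(adjoin (AlgebraicClosure ℚ) (genSet N)) →+* M := IsFractionRing.lift hφ
  refine ⟨Θ₀.comp (IntermediateField.equivOfEq hF : _ →+* _), ?_⟩
  intro x r hr
  obtain ⟨a, b, hb, hab⟩ := IsFractionRing.div_surjective
    (A := ↥(Algebra.adjoin (AlgebraicClosure ℚ) (genSet N)))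
    (IntermediateField.equivOfEq hF x)
  have hb0 : b ≠ 0 := nonZeroDivisors.ne_zero hb
  have hφb : θ (ψ b) ≠ 0 := by
    intro h
    exact hb0 (hφ (by simpa using h))
  -- the underlying Laurent series
  have hx : (b : LaurentSeries (AlgebraicClosure ℚ)) * (x : LaurentSeries (AlgebraicClosure ℚ))
      = (a : LaurentSeries (AlgebraicClosure ℚ)) := by
    have h1 := congrArg (fun z : ↥(adjoin (AlgebraicClosure ℚ) (genSet N)) =>
      (z : LaurentSeries (AlgebraicClosure ℚ))) hab
    have hb0' : (b : LaurentSeries (AlgebraicClosure ℚ)) ≠ 0 := fun h => hb0 (Subtype.ext h)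
    have h2 : ((IntermediateField.equivOfEq hF x : ↥(adjoin (AlgebraicClosure ℚ) (genSet N))) :
        LaurentSeries (AlgebraicClosure ℚ)) = (x : LaurentSeries (AlgebraicClosure ℚ)) := rfl
    rw [h2] at h1
    rw [← h1]
    push_cast
    rw [algebraAdjoinAdjoin.coe_algebraMap, algebraAdjoinAdjoin.coe_algebraMap]
    field_simp
  have hr' : ψ b * r = ψ a := by
    apply he
    rw [map_mul, hψ, adjoinLift_spec, adjoinLift_spec, hr, ← map_mul, hx]
  have hval : Θ₀ (IntermediateField.equivOfEq hF x) = θ (ψ a) / θ (ψ b) := by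
    rw [← hab, map_div₀]
    show IsFractionRing.lift hφ _ / IsFractionRing.lift hφ _ = _
    rw [IsFractionRing.lift_algebraMap, IsFractionRing.lift_algebraMap]
    rfl
  show Θ₀ (IntermediateField.equivOfEq hF x) = θ r
  rw [hval, ← hr', map_mul]
  field_simp

/-- Two ring homs out of the Prelude function field that agree on the constants and on the
generators `j(q^d)`, `d ∣ N`, are equal. -/
theorem ringHom_ext {S : Type*} [DivisionRing S] (Θ₁ Θ₂ : ↥(modularFunctionFieldBar N) →+* S)
    (hconst : ∀ a : AlgebraicClosure ℚ,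
      Θ₁ (algebraMap (AlgebraicClosure ℚ) ↥(modularFunctionFieldBar N) a) =
        Θ₂ (algebraMap (AlgebraicClosure ℚ) ↥(modularFunctionFieldBar N) a))
    (hgen : ∀ (d : ℕ) [NeZero d] (hd : d ∣ N),
      Θ₁ ⟨gen d, gen_mem hd⟩ = Θ₂ ⟨gen d, gen_mem hd⟩) : Θ₁ = Θ₂ := by
  have hF := modularFunctionFieldBar_eq_adjoin N
  have key : ∀ (y : LaurentSeries (AlgebraicClosure ℚ)) (hy : y ∈ modularFunctionFieldBar N),
      Θ₁ ⟨y, hy⟩ = Θ₂ ⟨y, hy⟩ := by
    intro y hy
    have hy' : y ∈ adjoin (AlgebraicClosure ℚ) (genSet N) := hF ▸ hy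
    induction hy' using IntermediateField.adjoin_induction with
    | mem z hz =>
        obtain ⟨d, hne, hd, rfl⟩ := hz
        exact hgen d hd
    | algebraMap a => exact hconst a
    | add z w hz hw hz' hw' =>
        have hz0 : z ∈ modularFunctionFieldBar N := hF ▸ hz
        have hw0 : w ∈ modularFunctionFieldBar N := hF ▸ hw
        have h1 : (⟨z + w, hy⟩ : ↥(modularFunctionFieldBar N)) = ⟨z, hz0⟩ + ⟨w, hw0⟩ := rfl
        rw [h1, map_add, map_add, hz' hz0, hw' hw0]
    | inv z hz hz' =>
        have hz0 : z ∈ modularFunctionFieldBar N := hF ▸ hz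
        have h1 : (⟨z⁻¹, hy⟩ : ↥(modularFunctionFieldBar N)) = (⟨z, hz0⟩)⁻¹ := rfl
        rw [h1, map_inv₀, map_inv₀, hz' hz0]
    | mul z w hz hw hz' hw' =>
        have hz0 : z ∈ modularFunctionFieldBar N := hF ▸ hz
        have hw0 : w ∈ modularFunctionFieldBar N := hF ▸ hw
        have h1 : (⟨z * w, hy⟩ : ↥(modularFunctionFieldBar N)) = ⟨z, hz0⟩ * ⟨w, hw0⟩ := rfl
        rw [h1, map_mul, map_mul, hz' hz0, hw' hw0]
  exact RingHom.ext fun x => key x.1 x.2

/-- Uniqueness half of the bridge: a ring hom `Θ : F →+* M` is determined by the property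
`Θ x = θ r` whenever `e r = c x` (it suffices to know it on constants and generators). -/
theorem ringHom_unique (θ : R →+* M)
    (hconst : ∀ a : AlgebraicClosure ℚ,
      ∃ r : R, e r = c (algebraMap (AlgebraicClosure ℚ) (LaurentSeries (AlgebraicClosure ℚ)) a))
    (hgen : ∀ (d : ℕ) [NeZero d], d ∣ N → ∃ r : R, e r = c (gen d))
    (Θ₁ Θ₂ : ↥(modularFunctionFieldBar N) →+* M)
    (h₁ : ∀ (x : ↥(modularFunctionFieldBar N)) (r : R),
        e r = c (x : LaurentSeries (AlgebraicClosure ℚ)) → Θ₁ x = θ r)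
    (h₂ : ∀ (x : ↥(modularFunctionFieldBar N)) (r : R),
        e r = c (x : LaurentSeries (AlgebraicClosure ℚ)) → Θ₂ x = θ r) : Θ₁ = Θ₂ := by
  refine ringHom_ext N Θ₁ Θ₂ (fun a => ?_) (fun d _ hd => ?_)
  · obtain ⟨r, hr⟩ := hconst a
    rw [h₁ _ r hr, h₂ _ r hr]
  · obtain ⟨r, hr⟩ := hgen d hd
    rw [h₁ _ r hr, h₂ _ r hr]

/-- Naturality of the bridge: if `Θ` is the lift of `θ` and `τ : M →+* M'`, then `τ ∘ Θ` has the
characterising property of the lift of `τ ∘ θ`. -/
theorem comp_spec {M' : Type*} [Field M'] (θ : R →+* M) (τ : M →+* M')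
    (Θ : ↥(modularFunctionFieldBar N) →+* M)
    (h : ∀ (x : ↥(modularFunctionFieldBar N)) (r : R),
        e r = c (x : LaurentSeries (AlgebraicClosure ℚ)) → Θ x = θ r)
    (x : ↥(modularFunctionFieldBar N)) (r : R)
    (hr : e r = c (x : LaurentSeries (AlgebraicClosure ℚ))) :
    (τ.comp Θ) x = (τ.comp θ) r := by
  rw [RingHom.comp_apply, h x r hr, RingHom.comp_apply]

/-- Naturality of the bridge, equational form: lifts of `θ` and of `τ ∘ θ` differ by `τ`. -/
theorem comp_eq {M' : Type*} [Field M'] (θ : R →+* M) (τ : M →+* M')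
    (hconst : ∀ a : AlgebraicClosure ℚ,
      ∃ r : R, e r = c (algebraMap (AlgebraicClosure ℚ) (LaurentSeries (AlgebraicClosure ℚ)) a))
    (hgen : ∀ (d : ℕ) [NeZero d], d ∣ N → ∃ r : R, e r = c (gen d))
    (Θ : ↥(modularFunctionFieldBar N) →+* M) (Θ' : ↥(modularFunctionFieldBar N) →+* M')
    (h : ∀ (x : ↥(modularFunctionFieldBar N)) (r : R),
        e r = c (x : LaurentSeries (AlgebraicClosure ℚ)) → Θ x = θ r)
    (h' : ∀ (x : ↥(modularFunctionFieldBar N)) (r : R),
        e r = c (x : LaurentSeries (AlgebraicClosure ℚ)) → Θ' x = (τ.comp θ) r) :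
    Θ' = τ.comp Θ :=
  ringHom_unique N (τ.comp θ) hconst hgen Θ' (τ.comp Θ) h' (comp_spec N θ τ Θ h)

/-- **THE BRIDGE, `K`-algebra version.**  If moreover `M` is a `K`-algebra and `θ` sends the
element of `R` with constant expansion `a` to `algebraMap K M a`, the lift is a `K`-algebra hom. -/
theorem exists_algHom [Algebra (AlgebraicClosure ℚ) M]
    (hc : Function.Injective c) (he : Function.Injective e)
    (θ : R →+* M) (hθ : Function.Injective θ)
    (hconst : ∀ a : AlgebraicClosure ℚ,
      ∃ r : R, e r = c (algebraMap (AlgebraicClosure ℚ) (LaurentSeries (AlgebraicClosure ℚ)) a)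
        ∧ θ r = algebraMap (AlgebraicClosure ℚ) M a)
    (hgen : ∀ (d : ℕ) [NeZero d], d ∣ N → ∃ r : R, e r = c (gen d)) :
    ∃ Θ : ↥(modularFunctionFieldBar N) →ₐ[AlgebraicClosure ℚ] M,
      ∀ (x : ↥(modularFunctionFieldBar N)) (r : R),
        e r = c (x : LaurentSeries (AlgebraicClosure ℚ)) → Θ x = θ r := by
  obtain ⟨Θ, hΘ⟩ := exists_ringHom N hc he θ hθ
    (fun a => (hconst a).imp fun _ h => h.1) hgen
  refine ⟨{ Θ with commutes' := fun a => ?_ }, hΘ⟩
  obtain ⟨r, hr, hr'⟩ := hconst a
  exact (hΘ _ r hr).trans hr'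

end Bridge

section Complex

/-- `coeffMap` along an injective ring hom is injective. -/
theorem coeffMap_injective {A B : Type*} [CommRing A] [CommRing B] (f : A →+* B)
    (hf : Function.Injective f) : Function.Injective (coeffMap f) := by
  intro x y hxy
  ext k
  apply hf
  have := congrArg (fun z : LaurentSeries B => z.coeff k) hxy
  simpa using this

/-- Base change of the Prelude generator `j(q^d)` along any ring hom `f : K →+* S` is the Prelude
series `jqNModC S d = qExpand S d (jqModC S)`. -/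
theorem coeffMap_gen {S : Type*} [CommRing S] (f : AlgebraicClosure ℚ →+* S) (d : ℕ) [NeZero d] :
    coeffMap f (gen d) = jqNModC S d := by
  rw [gen, coeffEmb, coeffMap_coeffMap, coeffMap_qExpand, jqNModC]
  congr 1
  rw [← jqModC_rat]
  exact map_jqModC _

/-- Base change of a constant. -/
theorem coeffMap_algebraMap' {S : Type*} [CommRing S] (f : AlgebraicClosure ℚ →+* S)
    (a : AlgebraicClosure ℚ) :
    coeffMap f (algebraMap (AlgebraicClosure ℚ) (LaurentSeries (AlgebraicClosure ℚ)) a) =
      HahnSeries.C (f a) := by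
  rw [algebraMap_laurentSeries_eq_single, coeffMap_single]
  rfl

/-- **THE BRIDGE, concrete form.**  `ι : K →+* S` an embedding of `K = ℚ̄` into a field `S`
(think `S = ℂ`), `R` a commutative ring with an injective expansion map `e : R →+* S((q))` such
that all constants `ι a` and the series `jqNModC S d` (`d ∣ N`) are expansions of elements of `R`.
Then every injective ring hom `θ : R →+* M` into a field induces `Θ : F →+* M` with
`Θ x = θ r` whenever `e r = coeffMap ι x`. -/
theorem exists_ringHom_coeffMap (N : ℕ) {S R M : Type*} [Field S] [CommRing R] [Field M]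
    (ι : AlgebraicClosure ℚ →+* S) (e : R →+* LaurentSeries S) (he : Function.Injective e)
    (θ : R →+* M) (hθ : Function.Injective θ)
    (hconst : ∀ a : AlgebraicClosure ℚ, ∃ r : R, e r = HahnSeries.C (ι a))
    (hgen : ∀ (d : ℕ) [NeZero d], d ∣ N → ∃ r : R, e r = jqNModC S d) :
    ∃ Θ : ↥(modularFunctionFieldBar N) →+* M,
      (∀ (x : ↥(modularFunctionFieldBar N)) (r : R),
        e r = coeffMap ι (x : LaurentSeries (AlgebraicClosure ℚ)) → Θ x = θ r) ∧
      (∀ (a : AlgebraicClosure ℚ) (r : R), e r = HahnSeries.C (ι a) →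
        Θ (algebraMap (AlgebraicClosure ℚ) ↥(modularFunctionFieldBar N) a) = θ r) ∧
      (∀ (d : ℕ) [NeZero d] (hd : d ∣ N) (r : R), e r = jqNModC S d →
        Θ ⟨gen d, gen_mem hd⟩ = θ r) := by
  obtain ⟨Θ, hΘ⟩ := exists_ringHom N (c := coeffMap ι) (e := e)
    (coeffMap_injective ι ι.injective) he θ hθ
    (fun a => by simpa only [coeffMap_algebraMap'] using hconst a)
    (fun d _ hd => by simpa only [coeffMap_gen] using hgen d hd)
  refine ⟨Θ, hΘ, fun a r hr => hΘ _ r ?_, fun d _ hd r hr => hΘ _ r ?_⟩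
  · rw [hr]
    exact (coeffMap_algebraMap' ι a).symm
  · rw [hr]
    exact (coeffMap_gen ι d).symm

end Complex

end Fermat.Agent.Lib.FFBridge
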