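/-
P5 [MODFUN] support (helper50): `Lib/FFBridge` made generic in the coefficient field.

`K` any field with `[Algebra ℚ K]` (think `K = ℂ`), `F := laurentBaseChange K
(modularFunctionFieldFull N) ⊆ K((q))` (for `K = ℚ̄` this is the Prelude `modularFunctionFieldBar N`).

* `gen K d`          : the generator `j(q^d)` as a Laurent series over `K`.
* `laurentBaseChange_eq_adjoin` : `F = K(gen K d : d ∣ N)`.
* `exists_ringHom`   : THE BRIDGE.  Given a commutative ring `R` (think: a ring of functions on the
  upper half plane) with an injective "expansion" `e : R →+* L'`, an injective comparison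
  `c : K((q)) →+* L'`, such that constants and the `gen K d` (`d ∣ N`) are expansions of elements
  of `R`, every injective ring hom `θ : R →+* M` into a field induces a ring hom `Θ : F →+* M`
  with `Θ x = θ r` whenever `e r = c x`.
* `ringHom_ext`, `ringHom_unique`.
-/
import Mathlib
import Fermat.Prelude.Def_ModularCurve_ArithmeticGalois
import Fermat.Prelude.Def_ModularCurve_JqCoeff
import Fermat.Prelude.Thm_ModularCurve_coeffMap_qExpand

set_option autoImplicit false

noncomputable section

namespace Fermat.Agent.Lib.FFBridgeK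

open ModularCurve IntermediateField

section Gen

variable (K : Type*) [Field K] [Algebra ℚ K]

/-- The generator `j(q^d)` as a Laurent series over `K`. -/
def gen (d : ℕ) [NeZero d] : LaurentSeries K :=
  coeffEmb K (qExpand ℚ d jq)

/-- The set of generators `j(q^d)`, `d ∣ N`. -/
def genSet (N : ℕ) : Set (LaurentSeries K) :=
  {x | ∃ (d : ℕ) (_ : NeZero d), d ∣ N ∧ x = gen K d}

variable {K}

theorem gen_mem_genSet {N d : ℕ} [NeZero d] (hd : d ∣ N) : gen K d ∈ genSet K N :=
  ⟨d, ‹_›, hd, rfl⟩

theorem gen_mem {N d : ℕ} [NeZero d] (hd : d ∣ N) :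
    gen K d ∈ laurentBaseChange K (modularFunctionFieldFull N) :=
  coeffEmb_mem_laurentBaseChange K (jqd_mem_full N hd)

theorem coeffEmb_algebraMap (q : ℚ) :
    coeffEmb K (algebraMap ℚ (LaurentSeries ℚ) q) =
      algebraMap K (LaurentSeries K) (algebraMap ℚ K q) := by
  rw [algebraMap_laurentSeries_eq_single, algebraMap_laurentSeries_eq_single, coeffEmb,
    coeffMap_single]

variable (K)

/-- `F = K(j(q^d) : d ∣ N)`. -/
theorem laurentBaseChange_eq_adjoin (N : ℕ) :
    laurentBaseChange K (modularFunctionFieldFull N) = adjoin K (genSet K N) := by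
  apply le_antisymm
  · rw [laurentBaseChange, adjoin_le_iff]
    rintro _ ⟨x, hx, rfl⟩
    have hx' : x ∈ adjoin ℚ (divisorExpansions N) := hx
    induction hx' using IntermediateField.adjoin_induction with
    | mem y hy =>
        obtain ⟨d, hne, hd, rfl⟩ := hy
        exact subset_adjoin _ _ ⟨d, hne, hd, rfl⟩
    | algebraMap q =>
        rw [coeffEmb_algebraMap]
        exact (adjoin K (genSet K N)).algebraMap_mem _
    | add y z _ _ hy hz =>
        rw [map_add]; exact add_mem (hy ‹_›) (hz ‹_›)
    | inv y _ hy =>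
        rw [map_inv₀]; exact inv_mem (hy ‹_›)
    | mul y z _ _ hy hz =>
        rw [map_mul]; exact mul_mem (hy ‹_›) (hz ‹_›)
  · rw [adjoin_le_iff]
    rintro _ ⟨d, hne, hd, rfl⟩
    exact gen_mem hd

/-- Every element of `F` is a quotient of two elements of the `K`-subalgebra generated by the
`j(q^d)`, `d ∣ N`. -/
theorem exists_div_eq (N : ℕ) {x : LaurentSeries K}
    (hx : x ∈ laurentBaseChange K (modularFunctionFieldFull N)) :
    ∃ a ∈ Algebra.adjoin K (genSet K N),
      ∃ b ∈ Algebra.adjoin K (genSet K N), b ≠ 0 ∧ x = a / b := by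
  rw [laurentBaseChange_eq_adjoin, mem_adjoin_iff_div] at hx
  obtain ⟨a, ha, b, hb, rfl⟩ := hx
  by_cases hb0 : b = 0
  · exact ⟨0, zero_mem _, 1, one_mem _, one_ne_zero, by simp [hb0]⟩
  · exact ⟨a, ha, b, hb, hb0, rfl⟩

end Gen

section Bridge

variable {K : Type*} [Field K] [Algebra ℚ K]
variable (N : ℕ) {R L' M : Type*} [CommRing R] [CommRing L'] [Field M]
  (c : LaurentSeries K →+* L') (e : R →+* L')

/-- Elements of the subalgebra generated by the `j(q^d)` are "expansions" of elements of `R`. -/
theorem exists_eq_of_mem_adjoin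
    (hconst : ∀ a : K, ∃ r : R, e r = c (algebraMap K (LaurentSeries K) a))
    (hgen : ∀ (d : ℕ) [NeZero d], d ∣ N → ∃ r : R, e r = c (gen K d))
    {a : LaurentSeries K}
    (ha : a ∈ Algebra.adjoin K (genSet K N)) : ∃ r : R, e r = c a := by
  induction ha using Algebra.adjoin_induction with
  | mem x hx =>
      obtain ⟨d, hne, hd, rfl⟩ := hx
      exact hgen d hd
  | algebraMap a => exact hconst a
  | add x y _ _ hx hy =>
      obtain ⟨r, hr⟩ := hx
      obtain ⟨s, hs⟩ := hy
      exact ⟨r + s, by rw [map_add, map_add, hr, hs]⟩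
  | mul x y _ _ hx hy =>
      obtain ⟨r, hr⟩ := hx
      obtain ⟨s, hs⟩ := hy
      exact ⟨r * s, by rw [map_mul, map_mul, hr, hs]⟩

variable {c e}

/-- Underlying function of `adjoinLift`. -/
def adjoinLiftFun
    (hconst : ∀ a : K, ∃ r : R, e r = c (algebraMap K (LaurentSeries K) a))
    (hgen : ∀ (d : ℕ) [NeZero d], d ∣ N → ∃ r : R, e r = c (gen K d))
    (a : ↥(Algebra.adjoin K (genSet K N))) : R :=
  (exists_eq_of_mem_adjoin N c e hconst hgen a.2).choose

theorem adjoinLiftFun_spec
    (hconst : ∀ a : K, ∃ r : R, e r = c (algebraMap K (LaurentSeries K) a))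
    (hgen : ∀ (d : ℕ) [NeZero d], d ∣ N → ∃ r : R, e r = c (gen K d))
    (a : ↥(Algebra.adjoin K (genSet K N))) :
    e (adjoinLiftFun N hconst hgen a) = c (a : LaurentSeries K) :=
  (exists_eq_of_mem_adjoin N c e hconst hgen a.2).choose_spec

/-- The ring hom `K[j(q^d) : d ∣ N] → R` inverting the expansion. -/
def adjoinLift (he : Function.Injective e)
    (hconst : ∀ a : K, ∃ r : R, e r = c (algebraMap K (LaurentSeries K) a))
    (hgen : ∀ (d : ℕ) [NeZero d], d ∣ N → ∃ r : R, e r = c (gen K d)) :
    ↥(Algebra.adjoin K (genSet K N)) →+* R where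
  toFun := adjoinLiftFun N hconst hgen
  map_one' := he (by rw [adjoinLiftFun_spec]; simp)
  map_zero' := he (by rw [adjoinLiftFun_spec]; simp)
  map_add' a b := he (by
    rw [map_add, adjoinLiftFun_spec, adjoinLiftFun_spec, adjoinLiftFun_spec]; simp)
  map_mul' a b := he (by
    rw [map_mul, adjoinLiftFun_spec, adjoinLiftFun_spec, adjoinLiftFun_spec]; simp)

theorem adjoinLift_spec (he : Function.Injective e)
    (hconst : ∀ a : K, ∃ r : R, e r = c (algebraMap K (LaurentSeries K) a))
    (hgen : ∀ (d : ℕ) [NeZero d], d ∣ N → ∃ r : R, e r = c (gen K d))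
    (a : ↥(Algebra.adjoin K (genSet K N))) :
    e (adjoinLift N he hconst hgen a) = c (a : LaurentSeries K) :=
  adjoinLiftFun_spec N hconst hgen a

theorem adjoinLift_injective (hc : Function.Injective c) (he : Function.Injective e)
    (hconst : ∀ a : K, ∃ r : R, e r = c (algebraMap K (LaurentSeries K) a))
    (hgen : ∀ (d : ℕ) [NeZero d], d ∣ N → ∃ r : R, e r = c (gen K d)) :
    Function.Injective (adjoinLift N he hconst hgen) := by
  intro a b hab
  apply Subtype.ext
  apply hc
  rw [← adjoinLift_spec N he hconst hgen, ← adjoinLift_spec N he hconst hgen, hab]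

open scoped algebraAdjoinAdjoin in
/-- **THE BRIDGE.** `R` a commutative ring with an injective "expansion" `e : R →+* L'`,
`c : K((q)) →+* L'` an injective comparison map such that the constants and the generators
`j(q^d)` (`d ∣ N`) are expansions of elements of `R`.  Then every injective ring hom
`θ : R →+* M` into a field induces a ring hom `Θ : F →+* M` on the function field with
`Θ x = θ r` whenever `r` has the same expansion as `x`. -/
theorem exists_ringHom (hc : Function.Injective c) (he : Function.Injective e)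
    (θ : R →+* M) (hθ : Function.Injective θ)
    (hconst : ∀ a : K, ∃ r : R, e r = c (algebraMap K (LaurentSeries K) a))
    (hgen : ∀ (d : ℕ) [NeZero d], d ∣ N → ∃ r : R, e r = c (gen K d)) :
    ∃ Θ : ↥(laurentBaseChange K (modularFunctionFieldFull N)) →+* M,
      ∀ (x : ↥(laurentBaseChange K (modularFunctionFieldFull N))) (r : R),
        e r = c (x : LaurentSeries K) → Θ x = θ r := by
  have hF := laurentBaseChange_eq_adjoin K N
  set ψ := adjoinLift N he hconst hgen with hψ
  have hψinj : Function.Injective ψ := adjoinLift_injective N hc he hconst hgen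
  have hφ : Function.Injective (θ.comp ψ) := hθ.comp hψinj
  let Θ₀ : ↥(adjoin K (genSet K N)) →+* M := IsFractionRing.lift hφ
  refine ⟨Θ₀.comp (IntermediateField.equivOfEq hF : _ →+* _), ?_⟩
  intro x r hr
  obtain ⟨a, b, hb, hab⟩ := IsFractionRing.div_surjective
    (A := ↥(Algebra.adjoin K (genSet K N)))
    (IntermediateField.equivOfEq hF x)
  have hb0 : b ≠ 0 := nonZeroDivisors.ne_zero hb
  have hφb : θ (ψ b) ≠ 0 := by
    intro h
    exact hb0 (hφ (by simpa using h))
  -- the underlying Laurent series
  have hx : (b : LaurentSeries K) * (x : LaurentSeries K) = (a : LaurentSeries K) := by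
    have h1 := congrArg (fun z : ↥(adjoin K (genSet K N)) => (z : LaurentSeries K)) hab
    have hb0' : (b : LaurentSeries K) ≠ 0 := fun h => hb0 (Subtype.ext h)
    have h2 : ((IntermediateField.equivOfEq hF x : ↥(adjoin K (genSet K N))) :
        LaurentSeries K) = (x : LaurentSeries K) := rfl
    rw [h2] at h1
    rw [← h1]
    push_cast
    rw [algebraAdjoinAdjoin.coe_algebraMap, algebraAdjoinAdjoin.coe_algebraMap]
    field_simp
  have hr' : ψ b * r = ψ a := by
    apply he
    rw [map_mul, hψ, adjoinLift_spec, adjoinLift_spec, hr, ← map_mul, hx]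
  have hval : Θ₀ (IntermediateField.equivOfEq hF x) = θ (ψ a) / θ (ψ b) := by
    rw [← hab, map_div₀]
    show IsFractionRing.lift hφ _ / IsFractionRing.lift hφ _ = _
    rw [IsFractionRing.lift_algebraMap, IsFractionRing.lift_algebraMap]
    rfl
  show Θ₀ (IntermediateField.equivOfEq hF x) = θ r
  rw [hval, ← hr', map_mul]
  field_simp

/-- Two ring homs out of the function field that agree on the constants and on the
generators `j(q^d)`, `d ∣ N`, are equal. -/
theorem ringHom_ext {S : Type*} [DivisionRing S]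
    (Θ₁ Θ₂ : ↥(laurentBaseChange K (modularFunctionFieldFull N)) →+* S)
    (hconst : ∀ a : K,
      Θ₁ (algebraMap K ↥(laurentBaseChange K (modularFunctionFieldFull N)) a) =
        Θ₂ (algebraMap K ↥(laurentBaseChange K (modularFunctionFieldFull N)) a))
    (hgen : ∀ (d : ℕ) [NeZero d] (hd : d ∣ N),
      Θ₁ ⟨gen K d, gen_mem hd⟩ = Θ₂ ⟨gen K d, gen_mem hd⟩) : Θ₁ = Θ₂ := by
  have hF := laurentBaseChange_eq_adjoin K N
  have key : ∀ (y : LaurentSeries K)
      (hy : y ∈ laurentBaseChange K (modularFunctionFieldFull N)),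
      Θ₁ ⟨y, hy⟩ = Θ₂ ⟨y, hy⟩ := by
    intro y hy
    have hy' : y ∈ adjoin K (genSet K N) := hF ▸ hy
    induction hy' using IntermediateField.adjoin_induction with
    | mem z hz =>
        obtain ⟨d, hne, hd, rfl⟩ := hz
        exact hgen d hd
    | algebraMap a => exact hconst a
    | add z w hz hw hz' hw' =>
        have hz0 : z ∈ laurentBaseChange K (modularFunctionFieldFull N) := hF ▸ hz
        have hw0 : w ∈ laurentBaseChange K (modularFunctionFieldFull N) := hF ▸ hw
        have h1 : (⟨z + w, hy⟩ : ↥(laurentBaseChange K (modularFunctionFieldFull N))) =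
            ⟨z, hz0⟩ + ⟨w, hw0⟩ := rfl
        rw [h1, map_add, map_add, hz' hz0, hw' hw0]
    | inv z hz hz' =>
        have hz0 : z ∈ laurentBaseChange K (modularFunctionFieldFull N) := hF ▸ hz
        have h1 : (⟨z⁻¹, hy⟩ : ↥(laurentBaseChange K (modularFunctionFieldFull N))) =
            (⟨z, hz0⟩)⁻¹ := rfl
        rw [h1, map_inv₀, map_inv₀, hz' hz0]
    | mul z w hz hw hz' hw' =>
        have hz0 : z ∈ laurentBaseChange K (modularFunctionFieldFull N) := hF ▸ hz
        have hw0 : w ∈ laurentBaseChange K (modularFunctionFieldFull N) := hF ▸ hw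
        have h1 : (⟨z * w, hy⟩ : ↥(laurentBaseChange K (modularFunctionFieldFull N))) =
            ⟨z, hz0⟩ * ⟨w, hw0⟩ := rfl
        rw [h1, map_mul, map_mul, hz' hz0, hw' hw0]
  exact RingHom.ext fun x => key x.1 x.2

/-- Uniqueness half of the bridge: a ring hom `Θ : F →+* M` is determined by the property
`Θ x = θ r` whenever `e r = c x` (it suffices to know it on constants and generators). -/
theorem ringHom_unique (θ : R →+* M)
    (hconst : ∀ a : K, ∃ r : R, e r = c (algebraMap K (LaurentSeries K) a))
    (hgen : ∀ (d : ℕ) [NeZero d], d ∣ N → ∃ r : R, e r = c (gen K d))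
    (Θ₁ Θ₂ : ↥(laurentBaseChange K (modularFunctionFieldFull N)) →+* M)
    (h₁ : ∀ (x : ↥(laurentBaseChange K (modularFunctionFieldFull N))) (r : R),
        e r = c (x : LaurentSeries K) → Θ₁ x = θ r)
    (h₂ : ∀ (x : ↥(laurentBaseChange K (modularFunctionFieldFull N))) (r : R),
        e r = c (x : LaurentSeries K) → Θ₂ x = θ r) : Θ₁ = Θ₂ := by
  refine ringHom_ext N Θ₁ Θ₂ (fun a => ?_) (fun d _ hd => ?_)
  · obtain ⟨r, hr⟩ := hconst a
    rw [h₁ _ r hr, h₂ _ r hr]
  · obtain ⟨r, hr⟩ := hgen d hd
    rw [h₁ _ r hr, h₂ _ r hr]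

end Bridge

section Series

variable {K : Type*} [Field K] [Algebra ℚ K]

/-- The generator `j(q^d)` over `K` is the Prelude series `jqNModC K d = qExpand K d (jqModC K)`. -/
theorem gen_eq_jqNModC (d : ℕ) [NeZero d] : gen K d = jqNModC K d := by
  rw [gen, coeffEmb, coeffMap_qExpand, jqNModC]
  congr 1
  rw [← jqModC_rat]
  exact map_jqModC _

/-- Base change of the generator along a ring hom. -/
theorem coeffMap_gen {S : Type*} [Field S] [Algebra ℚ S] (f : K →+* S) (d : ℕ) [NeZero d] :
    coeffMap f (gen K d) = gen S d := by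
  rw [gen, gen, coeffEmb, coeffEmb, coeffMap_coeffMap]
  exact coeffMap_congr (RingHom.ext_rat _ _) _

omit [Algebra ℚ K] in
/-- A constant, as a Laurent series. -/
theorem algebraMap_eq_C (a : K) : algebraMap K (LaurentSeries K) a = HahnSeries.C a := by
  rw [algebraMap_laurentSeries_eq_single]
  rfl

end Series

end Fermat.Agent.Lib.FFBridgeK
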