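import Mathlib

set_option autoImplicit false

/-!
# Degree of a field extension from a family of conjugate embeddings

Abstract "degree theorem" used for the modular function field: if a field `F ⊇ K(x)` is the
fraction field of a `K`-subalgebra `R ∋ x`, and there are `n` pairwise distinct `K`-embeddings
`φ i : F → M` which all agree at `x` and such that for every `f ∈ R` the polynomial
`∏ i, (Y - φ i f)` has coefficients which are polynomials (over `K`) in `y = φ i x`,
then `[F : K(x)] = n`.
-/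

namespace Fermat.Agent.Lib.FFDegree

open Polynomial IntermediateField

section BoundedDegree

variable {k E : Type*} [Field k] [Field E] [Algebra k E]

/-- An algebraic extension in characteristic zero all of whose elements have degree at most `n`
is finite of degree at most `n`. -/
theorem finrank_le_of_forall_natDegree_minpoly_le [CharZero k] [Algebra.IsAlgebraic k E] (n : ℕ)
    (h : ∀ f : E, (minpoly k f).natDegree ≤ n) :
    FiniteDimensional k E ∧ Module.finrank k E ≤ n := by
  classical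
  have : Algebra.IsSeparable k E := inferInstance
  have : Algebra.IsIntegral k E := inferInstance
  let S : Set ℕ := Set.range fun f : E => (minpoly k f).natDegree
  have hS : BddAbove S := ⟨n, by rintro _ ⟨f, rfl⟩; exact h f⟩
  have hne : S.Nonempty := ⟨_, ⟨0, rfl⟩⟩
  obtain ⟨f₀, hf₀⟩ := Nat.sSup_mem hne hS
  have hf₀' : (minpoly k f₀).natDegree = sSup S := hf₀
  have hmax : ∀ g : E, (minpoly k g).natDegree ≤ (minpoly k f₀).natDegree := fun g => by
    rw [hf₀']; exact le_csSup hS ⟨g, rfl⟩
  have htop : k⟮f₀⟯ = ⊤ := by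
    rw [eq_top_iff]
    intro g _
    obtain ⟨γ, hγ⟩ := Field.primitive_element_inf_aux k f₀ g
    have h1 : k⟮f₀⟯ ≤ k⟮γ⟯ := by
      rw [← hγ]
      exact IntermediateField.adjoin.mono _ _ _ (by simp)
    have h2 : Module.finrank k k⟮γ⟯ ≤ Module.finrank k k⟮f₀⟯ := by
      rw [IntermediateField.adjoin.finrank (Algebra.IsIntegral.isIntegral γ),
        IntermediateField.adjoin.finrank (Algebra.IsIntegral.isIntegral f₀)]
      exact hmax γ
    have : FiniteDimensional k k⟮γ⟯ :=
      IntermediateField.adjoin.finiteDimensional (Algebra.IsIntegral.isIntegral γ)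
    have h3 : k⟮f₀⟯ = k⟮γ⟯ := IntermediateField.eq_of_le_of_finrank_le h1 h2
    rw [h3, ← hγ]
    exact IntermediateField.subset_adjoin k _ (by simp)
  have hfd : FiniteDimensional k E := Field.FiniteDimensional.of_exists_primitive_element k E ⟨f₀, htop⟩
  refine ⟨hfd, ?_⟩
  rw [← IntermediateField.finrank_top', ← htop,
    IntermediateField.adjoin.finrank (Algebra.IsIntegral.isIntegral f₀)]
  exact h f₀

end BoundedDegree

section Main

variable {K F M : Type*} [Field K] [Field F] [Field M] [Algebra K F] [Algebra K M]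

/-- Two `K`-algebra maps out of `F` which agree at `x` agree on `K⟮x⟯`. -/
theorem algHom_eq_on_adjoin_simple (x : F) (σ τ : F →ₐ[K] M) (hx : σ x = τ x) :
    ∀ a ∈ K⟮x⟯, σ a = τ a := by
  intro a ha
  induction ha using IntermediateField.adjoin_induction with
  | mem z hz =>
    rw [Set.mem_singleton_iff] at hz
    subst hz
    exact hx
  | algebraMap c => simp
  | add a b _ _ ha hb => simp [ha, hb]
  | inv a _ ha => simp [ha]
  | mul a b _ _ ha hb => simp [ha, hb]

variable (x : F) {X : Type*} [Fintype X] (φ : X → F →ₐ[K] M) (y : M)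

/-- The polynomial over `K⟮x⟯` obtained from a two-variable polynomial `P ∈ K[T][Y]` by
substituting `T ↦ x`. -/
noncomputable def specialize (P : Polynomial (Polynomial K)) : Polynomial K⟮x⟯ :=
  P.map (Polynomial.aeval (AdjoinSimple.gen K x) : Polynomial K →ₐ[K] K⟮x⟯).toRingHom

omit [Fintype X] in
theorem specialize_map (hx : ∀ i, φ i x = y) (i₀ : X) (P : Polynomial (Polynomial K)) :
    (specialize x P).map (((φ i₀ : F →+* M)).comp (algebraMap K⟮x⟯ F)) =
      P.map (Polynomial.aeval y : Polynomial K →ₐ[K] M).toRingHom := by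
  rw [specialize, Polynomial.map_map]
  congr 1
  refine Polynomial.ringHom_ext (fun c => ?_) ?_
  · simp
  · simp [hx i₀]

theorem specialize_map_algebraMap (P : Polynomial (Polynomial K)) :
    (specialize x P).map (algebraMap K⟮x⟯ F) =
      P.map (Polynomial.aeval x : Polynomial K →ₐ[K] F).toRingHom := by
  rw [specialize, Polynomial.map_map]
  congr 1
  refine Polynomial.ringHom_ext (fun c => ?_) ?_
  · simp
  · simp

variable {x φ y}

theorem specialize_monic (hx : ∀ i, φ i x = y) (i₀ : X) {f : F} {P : Polynomial (Polynomial K)}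
    (hP : P.map (Polynomial.aeval y : Polynomial K →ₐ[K] M).toRingHom =
      ∏ i, (Polynomial.X - Polynomial.C (φ i f))) :
    (specialize x P).Monic := by
  refine Polynomial.monic_of_injective
    (f := ((φ i₀ : F →+* M)).comp (algebraMap K⟮x⟯ F)) (RingHom.injective _) ?_
  rw [specialize_map x φ y hx i₀, hP]
  exact Polynomial.monic_prod_of_monic _ _ fun i _ => Polynomial.monic_X_sub_C _

theorem specialize_natDegree (hx : ∀ i, φ i x = y) (i₀ : X) {f : F}
    {P : Polynomial (Polynomial K)}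
    (hP : P.map (Polynomial.aeval y : Polynomial K →ₐ[K] M).toRingHom =
      ∏ i, (Polynomial.X - Polynomial.C (φ i f))) :
    (specialize x P).natDegree = Fintype.card X := by
  rw [← Polynomial.natDegree_map_eq_of_injective
    (f := ((φ i₀ : F →+* M)).comp (algebraMap K⟮x⟯ F)) (RingHom.injective _),
    specialize_map x φ y hx i₀, hP, Polynomial.natDegree_prod_of_monic _ _
      fun i _ => Polynomial.monic_X_sub_C _]
  simp

theorem specialize_aeval (hx : ∀ i, φ i x = y) (i₀ : X) {f : F}
    {P : Polynomial (Polynomial K)}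
    (hP : P.map (Polynomial.aeval y : Polynomial K →ₐ[K] M).toRingHom =
      ∏ i, (Polynomial.X - Polynomial.C (φ i f))) :
    Polynomial.aeval f (specialize x P) = 0 := by
  apply (φ i₀ : F →+* M).injective
  have h := Polynomial.hom_eval₂ (specialize x P) (algebraMap K⟮x⟯ F) (φ i₀ : F →+* M) f
  rw [Polynomial.eval₂_eq_eval_map (f := ((φ i₀ : F →+* M)).comp (algebraMap K⟮x⟯ F)),
    specialize_map x φ y hx i₀, hP, Polynomial.eval_prod] at h
  rw [map_zero, Polynomial.aeval_def, h]
  exact Finset.prod_eq_zero (Finset.mem_univ i₀) (by simp)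

variable (R : Subalgebra K F)

/-- Every element of `F = Frac R` can be written as `r / q(x)` with `r ∈ R` and `q ∈ K[T]`. -/
theorem exists_mul_aeval_mem [Nonempty X] (hxR : x ∈ R)
    (hfrac : ∀ f : F, ∃ a ∈ R, ∃ b ∈ R, b ≠ 0 ∧ f = a / b)
    (hx : ∀ i, φ i x = y)
    (hsym : ∀ f ∈ R, ∃ P : Polynomial (Polynomial K),
      P.map (Polynomial.aeval y : Polynomial K →ₐ[K] M).toRingHom =
        ∏ i, (Polynomial.X - Polynomial.C (φ i f)))
    (f : F) :
    ∃ r ∈ R, ∃ q : Polynomial K, Polynomial.aeval x q ≠ 0 ∧ f * Polynomial.aeval x q = r := by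
  obtain ⟨a, ha, b, hb, hb0, rfl⟩ := hfrac f
  obtain ⟨P, hP⟩ := hsym b hb
  obtain ⟨i₀⟩ := ‹Nonempty X›
  set PF : Polynomial F := P.map (Polynomial.aeval x : Polynomial K →ₐ[K] F).toRingHom with hPF
  have hroot : PF.eval b = 0 := by
    have := specialize_aeval hx i₀ hP
    rw [Polynomial.aeval_def, Polynomial.eval₂_eq_eval_map, specialize_map_algebraMap] at this
    exact this
  have haev : ∀ p : Polynomial K, Polynomial.aeval x p ∈ R := fun p => by
    have := Subalgebra.aeval_coe R (⟨x, hxR⟩ : R) p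
    simp only at this
    rw [this]
    exact SetLike.coe_mem _
  have hcoeff : ∀ n, PF.coeff n ∈ R := fun n => by
    rw [hPF, Polynomial.coeff_map]
    exact haev _
  have hD : PF.divX.eval b ∈ R := by
    rw [Polynomial.eval_eq_sum_range]
    refine Subalgebra.sum_mem _ fun n _ => Subalgebra.mul_mem _ ?_ (Subalgebra.pow_mem _ hb _)
    rw [Polynomial.coeff_divX]
    exact hcoeff _
  have hsplit : PF.divX.eval b * b + PF.coeff 0 = 0 := by
    have := congrArg (Polynomial.eval b) (Polynomial.divX_mul_X_add PF)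
    simpa [hroot] using this
  have hc0 : Polynomial.aeval x (P.coeff 0) = PF.coeff 0 := by
    rw [hPF, Polynomial.coeff_map]
    rfl
  have hq : Polynomial.aeval x (P.coeff 0) ≠ 0 := by
    intro h0
    have h1 : (φ i₀) (Polynomial.aeval x (P.coeff 0)) = 0 := by rw [h0, map_zero]
    have h2 : (φ i₀) (Polynomial.aeval x (P.coeff 0)) =
        (∏ i, (Polynomial.X - Polynomial.C (φ i b))).coeff 0 := by
      rw [← hP, Polynomial.coeff_map, ← Polynomial.aeval_algHom_apply, hx i₀]
      rfl
    rw [h2, Polynomial.coeff_zero_eq_eval_zero, Polynomial.eval_prod] at h1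
    obtain ⟨i, -, hi⟩ := Finset.prod_eq_zero_iff.mp h1
    have hi' : φ i b = 0 := by simpa using hi
    exact hb0 ((φ i : F →+* M).injective (by simpa using hi'))
  refine ⟨-(a * PF.divX.eval b), neg_mem (mul_mem ha hD), P.coeff 0, hq, ?_⟩
  rw [hc0]
  field_simp
  linear_combination a * hsplit

/-- Every element of `F` is integral over `K⟮x⟯` of degree at most the number of embeddings. -/
theorem isIntegral_and_natDegree_le [Nonempty X] (hxR : x ∈ R)
    (hfrac : ∀ f : F, ∃ a ∈ R, ∃ b ∈ R, b ≠ 0 ∧ f = a / b)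
    (hx : ∀ i, φ i x = y)
    (hsym : ∀ f ∈ R, ∃ P : Polynomial (Polynomial K),
      P.map (Polynomial.aeval y : Polynomial K →ₐ[K] M).toRingHom =
        ∏ i, (Polynomial.X - Polynomial.C (φ i f)))
    (f : F) :
    IsIntegral K⟮x⟯ f ∧ (minpoly K⟮x⟯ f).natDegree ≤ Fintype.card X := by
  obtain ⟨r, hr, q, hq, hfq⟩ := exists_mul_aeval_mem R hxR hfrac hx hsym f
  obtain ⟨P, hP⟩ := hsym r hr
  obtain ⟨i₀⟩ := ‹Nonempty X›
  set c : K⟮x⟯ := Polynomial.aeval (AdjoinSimple.gen K x) q with hc
  have hcF : algebraMap K⟮x⟯ F c = Polynomial.aeval x q := by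
    rw [hc, ← Polynomial.aeval_algebraMap_apply, AdjoinSimple.algebraMap_gen]
  have hc0 : c ≠ 0 := fun h => hq (by rw [← hcF, h, map_zero])
  set Q : Polynomial K⟮x⟯ := (specialize x P).comp (Polynomial.C c * Polynomial.X) with hQ
  have hQroot : Polynomial.aeval f Q = 0 := by
    rw [hQ, Polynomial.aeval_comp]
    have : Polynomial.aeval f (Polynomial.C c * Polynomial.X : Polynomial K⟮x⟯) = r := by
      rw [map_mul, Polynomial.aeval_C, Polynomial.aeval_X, hcF, mul_comm, hfq]
    rw [this]
    exact specialize_aeval hx i₀ hP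
  have hQdeg : Q.natDegree = Fintype.card X := by
    rw [hQ, Polynomial.natDegree_comp, specialize_natDegree hx i₀ hP,
      Polynomial.natDegree_C_mul_X _ hc0, mul_one]
  have hQ0 : Q ≠ 0 := by
    intro h
    rw [h, Polynomial.natDegree_zero] at hQdeg
    exact Fintype.card_ne_zero hQdeg.symm
  have hint : IsIntegral K⟮x⟯ f := isAlgebraic_iff_isIntegral.mp ⟨Q, hQ0, hQroot⟩
  refine ⟨hint, ?_⟩
  calc (minpoly K⟮x⟯ f).natDegree ≤ Q.natDegree :=
        Polynomial.natDegree_le_of_dvd (minpoly.dvd _ _ hQroot) hQ0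
    _ = Fintype.card X := hQdeg

/-- **Degree theorem.** If `F = Frac R ⊇ K(x)` admits `|X|` pairwise distinct `K`-embeddings
`φ i : F → M` agreeing at `x`, and for all `f ∈ R` the polynomial `∏ i, (Y - φ i f)` has
coefficients in `K[y]` (`y = φ i x`), then `[F : K(x)] = |X|`. -/
theorem finrank_eq_card_of_embeddings [CharZero K] (x : F) (R : Subalgebra K F) (hxR : x ∈ R)
    (hfrac : ∀ f : F, ∃ a ∈ R, ∃ b ∈ R, b ≠ 0 ∧ f = a / b)
    {X : Type*} [Fintype X] [Nonempty X] (φ : X → F →ₐ[K] M) (hφ : Function.Injective φ)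
    (y : M) (hx : ∀ i, φ i x = y)
    (hsym : ∀ f ∈ R, ∃ P : Polynomial (Polynomial K),
      P.map (Polynomial.aeval y : Polynomial K →ₐ[K] M).toRingHom =
        ∏ i, (Polynomial.X - Polynomial.C (φ i f))) :
    FiniteDimensional K⟮x⟯ F ∧ Module.finrank K⟮x⟯ F = Fintype.card X := by
  have hall := isIntegral_and_natDegree_le R hxR hfrac hx hsym
  have : Algebra.IsAlgebraic K⟮x⟯ F := ⟨fun f => (hall f).1.isAlgebraic⟩
  have : CharZero K⟮x⟯ := charZero_of_injective_algebraMap (algebraMap K K⟮x⟯).injective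
  obtain ⟨hfd, hle⟩ :=
    finrank_le_of_forall_natDegree_minpoly_le (k := K⟮x⟯) (E := F) (Fintype.card X)
      (fun f => (hall f).2)
  refine ⟨hfd, le_antisymm hle ?_⟩
  obtain ⟨i₀⟩ := ‹Nonempty X›
  let : Algebra K⟮x⟯ M := (((φ i₀ : F →+* M)).comp (algebraMap K⟮x⟯ F)).toAlgebra
  let Φ : X → (F →ₐ[K⟮x⟯] M) := fun i =>
    { (φ i : F →+* M) with
      commutes' := fun a =>
        algHom_eq_on_adjoin_simple x (φ i) (φ i₀) (by rw [hx, hx]) a a.2 }
  have hΦ : Function.Injective Φ := fun i j h =>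
    hφ (AlgHom.ext fun f => congrArg (fun σ : F →ₐ[K⟮x⟯] M => σ f) h)
  calc Fintype.card X = Nat.card X := Nat.card_eq_fintype_card.symm
    _ ≤ Nat.card (F →ₐ[K⟮x⟯] M) := Nat.card_le_card_of_injective Φ hΦ
    _ ≤ Module.finrank K⟮x⟯ F := card_algHom_le_finrank K⟮x⟯ F M

/-- Variant of the hypothesis `hsym`: it suffices that the elementary symmetric functions of the
conjugates `φ i f` are polynomials in `y`. -/
theorem exists_poly_of_esymm {X : Type*} [Fintype X] (φ : X → F →ₐ[K] M) (y : M) (f : F)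
    (h : ∀ k, ∃ p : Polynomial K,
      (Finset.univ.val.map fun i => φ i f).esymm k = Polynomial.aeval y p) :
    ∃ P : Polynomial (Polynomial K),
      P.map (Polynomial.aeval y : Polynomial K →ₐ[K] M).toRingHom =
        ∏ i, (Polynomial.X - Polynomial.C (φ i f)) := by
  classical
  choose p hp using h
  refine ⟨∑ j ∈ Finset.range (Fintype.card X + 1),
    (-1) ^ j * (Polynomial.C (p j) * Polynomial.X ^ (Fintype.card X - j)), ?_⟩
  have h1 : ∏ i, (Polynomial.X - Polynomial.C (φ i f)) =
      ((Finset.univ.val.map fun i => φ i f).map fun t => Polynomial.X - Polynomial.C t).prod := by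
    rw [Multiset.map_map]
    rfl
  rw [h1, Multiset.prod_X_sub_X_eq_sum_esymm, Polynomial.map_sum]
  have hcard : Multiset.card (Finset.univ.val.map fun i => φ i f) = Fintype.card X := by
    simp
  rw [hcard]
  refine Finset.sum_congr rfl fun j _ => ?_
  rw [Polynomial.map_mul, Polynomial.map_mul, Polynomial.map_pow, Polynomial.map_pow,
    Polynomial.map_neg, Polynomial.map_one, Polynomial.map_X, Polynomial.map_C, hp j]
  rfl

/-- The degree theorem with the symmetric-function form of the hypothesis. -/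
theorem finrank_eq_card_of_embeddings_esymm [CharZero K] (x : F) (R : Subalgebra K F)
    (hxR : x ∈ R) (hfrac : ∀ f : F, ∃ a ∈ R, ∃ b ∈ R, b ≠ 0 ∧ f = a / b)
    {X : Type*} [Fintype X] [Nonempty X] (φ : X → F →ₐ[K] M) (hφ : Function.Injective φ)
    (y : M) (hx : ∀ i, φ i x = y)
    (hsym : ∀ f ∈ R, ∀ k, ∃ p : Polynomial K,
      (Finset.univ.val.map fun i => φ i f).esymm k = Polynomial.aeval y p) :
    FiniteDimensional K⟮x⟯ F ∧ Module.finrank K⟮x⟯ F = Fintype.card X :=
  finrank_eq_card_of_embeddings x R hxR hfrac φ hφ y hx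
    fun f hf => exists_poly_of_esymm φ y f (hsym f hf)

/-- **Norm formula.** In the situation of the degree theorem the `φ i` are *all* the
`K(x)`-embeddings of `F`, hence the norm of `f` down to `K(x)` is the product of the
conjugates `φ i f`. -/
theorem map_norm_eq_prod [CharZero K] (x : F) (R : Subalgebra K F) (hxR : x ∈ R)
    (hfrac : ∀ f : F, ∃ a ∈ R, ∃ b ∈ R, b ≠ 0 ∧ f = a / b)
    {X : Type*} [Fintype X] [Nonempty X] (φ : X → F →ₐ[K] M) (hφ : Function.Injective φ)
    (y : M) (hx : ∀ i, φ i x = y)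
    (hsym : ∀ f ∈ R, ∃ P : Polynomial (Polynomial K),
      P.map (Polynomial.aeval y : Polynomial K →ₐ[K] M).toRingHom =
        ∏ i, (Polynomial.X - Polynomial.C (φ i f)))
    (i₀ : X) (f : F) :
    φ i₀ (algebraMap K⟮x⟯ F (Algebra.norm K⟮x⟯ f)) = ∏ i, φ i f := by
  classical
  obtain ⟨hfd, hrank⟩ := finrank_eq_card_of_embeddings x R hxR hfrac φ hφ y hx hsym
  have : CharZero K⟮x⟯ := charZero_of_injective_algebraMap (algebraMap K K⟮x⟯).injective
  have : Algebra.IsAlgebraic K⟮x⟯ F := Algebra.IsAlgebraic.of_finite _ _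
  have : Algebra.IsSeparable K⟮x⟯ F := inferInstance
  let E := AlgebraicClosure M
  let ψ : K⟮x⟯ →+* E := (algebraMap M E).comp (((φ i₀ : F →+* M)).comp (algebraMap K⟮x⟯ F))
  let : Algebra K⟮x⟯ E := ψ.toAlgebra
  let Ψ : X → (F →ₐ[K⟮x⟯] E) := fun i =>
    { (algebraMap M E).comp (φ i : F →+* M) with
      commutes' := fun a => by
        have := algHom_eq_on_adjoin_simple x (φ i) (φ i₀) (by rw [hx, hx]) a a.2
        change algebraMap M E (φ i a) = algebraMap M E (φ i₀ a)
        rw [this] }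
  have hΨ : Function.Injective Ψ := fun i j h => hφ (AlgHom.ext fun g => by
    have := congrArg (fun σ : F →ₐ[K⟮x⟯] E => σ g) h
    exact (algebraMap M E).injective this)
  have hcard : Fintype.card X = Fintype.card (F →ₐ[K⟮x⟯] E) := by
    rw [AlgHom.card K⟮x⟯ F E, hrank]
  have hbij : Function.Bijective Ψ := (Fintype.bijective_iff_injective_and_card Ψ).mpr ⟨hΨ, hcard⟩
  have hnorm := Algebra.norm_eq_prod_embeddings K⟮x⟯ E f
  rw [← Function.Bijective.prod_comp hbij (fun σ : F →ₐ[K⟮x⟯] E => σ f)] at hnorm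
  apply (algebraMap M E).injective
  rw [map_prod]
  exact hnorm

end Main

section RingHomVersion

variable {K F M : Type*} [Field K] [Field F] [Field M] [Algebra K F]

/-- The degree theorem for ring homomorphisms `φ i : F →+* M` which all restrict to the same
embedding `ι : K →+* M` of the constants (no `K`-algebra structure on `M` is needed). -/
theorem finrank_eq_card_of_ringHoms [CharZero K] (x : F) (R : Subalgebra K F) (hxR : x ∈ R)
    (hfrac : ∀ f : F, ∃ a ∈ R, ∃ b ∈ R, b ≠ 0 ∧ f = a / b)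
    {X : Type*} [Fintype X] [Nonempty X] (ι : K →+* M) (φ : X → F →+* M)
    (hι : ∀ i c, φ i (algebraMap K F c) = ι c) (hφ : Function.Injective φ)
    (y : M) (hx : ∀ i, φ i x = y)
    (hsym : ∀ f ∈ R, ∃ P : Polynomial (Polynomial K),
      P.map (Polynomial.eval₂RingHom ι y) = ∏ i, (Polynomial.X - Polynomial.C (φ i f))) :
    FiniteDimensional K⟮x⟯ F ∧ Module.finrank K⟮x⟯ F = Fintype.card X := by
  let : Algebra K M := ι.toAlgebra
  let φ' : X → F →ₐ[K] M := fun i => { φ i with commutes' := fun c => hι i c }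
  refine finrank_eq_card_of_embeddings x R hxR hfrac φ'
    (fun i j h => hφ (RingHom.ext fun f => congrArg (fun σ : F →ₐ[K] M => σ f) h)) y hx
    (fun f hf => ?_)
  obtain ⟨P, hP⟩ := hsym f hf
  exact ⟨P, hP⟩

/-- The symmetric-function form of the degree theorem for ring homomorphisms. -/
theorem finrank_eq_card_of_ringHoms_esymm [CharZero K] (x : F) (R : Subalgebra K F)
    (hxR : x ∈ R) (hfrac : ∀ f : F, ∃ a ∈ R, ∃ b ∈ R, b ≠ 0 ∧ f = a / b)
    {X : Type*} [Fintype X] [Nonempty X] (ι : K →+* M) (φ : X → F →+* M)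
    (hι : ∀ i c, φ i (algebraMap K F c) = ι c) (hφ : Function.Injective φ)
    (y : M) (hx : ∀ i, φ i x = y)
    (hsym : ∀ f ∈ R, ∀ k, ∃ p : Polynomial K,
      (Finset.univ.val.map fun i => φ i f).esymm k = p.eval₂ ι y) :
    FiniteDimensional K⟮x⟯ F ∧ Module.finrank K⟮x⟯ F = Fintype.card X := by
  let : Algebra K M := ι.toAlgebra
  let φ' : X → F →ₐ[K] M := fun i => { φ i with commutes' := fun c => hι i c }
  refine finrank_eq_card_of_embeddings_esymm x R hxR hfrac φ'
    (fun i j h => hφ (RingHom.ext fun f => congrArg (fun σ : F →ₐ[K] M => σ f) h)) y hx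
    (fun f hf k => ?_)
  obtain ⟨p, hp⟩ := hsym f hf k
  exact ⟨p, hp⟩

/-- The norm formula for ring homomorphisms. -/
theorem ringHom_norm_eq_prod [CharZero K] (x : F) (R : Subalgebra K F) (hxR : x ∈ R)
    (hfrac : ∀ f : F, ∃ a ∈ R, ∃ b ∈ R, b ≠ 0 ∧ f = a / b)
    {X : Type*} [Fintype X] [Nonempty X] (ι : K →+* M) (φ : X → F →+* M)
    (hι : ∀ i c, φ i (algebraMap K F c) = ι c) (hφ : Function.Injective φ)
    (y : M) (hx : ∀ i, φ i x = y)
    (hsym : ∀ f ∈ R, ∃ P : Polynomial (Polynomial K),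
      P.map (Polynomial.eval₂RingHom ι y) = ∏ i, (Polynomial.X - Polynomial.C (φ i f)))
    (i₀ : X) (f : F) :
    φ i₀ (algebraMap K⟮x⟯ F (Algebra.norm K⟮x⟯ f)) = ∏ i, φ i f := by
  let : Algebra K M := ι.toAlgebra
  let φ' : X → F →ₐ[K] M := fun i => { φ i with commutes' := fun c => hι i c }
  refine map_norm_eq_prod x R hxR hfrac φ'
    (fun i j h => hφ (RingHom.ext fun f => congrArg (fun σ : F →ₐ[K] M => σ f) h)) y hx
    (fun f hf => ?_) i₀ f
  obtain ⟨P, hP⟩ := hsym f hf
  exact ⟨P, hP⟩

end RingHomVersion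

end Fermat.Agent.Lib.FFDegree
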