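import Mathlib
import Fermat.Prelude.Def_ModularCurve_LaurentCoeff
import Fermat.Agent.Lib.FFDegree

set_option autoImplicit false

/-!
# Linear disjointness of `K((q))` and `L` over `K`, and descent of monic relations

* `exists_rational_relation`: an `L`-linear relation between (finitely many) Laurent series with
  coefficients in a subfield `K ⊆ L` comes from a `K`-linear relation.
* `exists_monic_rational`: a monic relation `P(J, f) = 0` with coefficients in `L` between two
  `K`-rational Laurent series descends to a monic relation of the same degree over `K`.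
* `finrank_eq_card_of_monic`: the degree theorem of `Lib/FFDegree` with the weaker hypothesis that
  every `f ∈ R` is a root of *some* monic polynomial of degree `|X|` over `K[x]`.
-/

namespace Fermat.Agent.Lib.FFDegreeLD

open Polynomial IntermediateField ModularCurve

section LD

variable {K L : Type*} [Field K] [Field L] (ι : K →+* L)

/-- A `K`-linear retraction of `ι : K → L`. -/
theorem exists_retraction :
    ∃ g : L → K, (∀ a b, g (a + b) = g a + g b) ∧ (∀ (a : K) (l : L), g (ι a * l) = a * g l) ∧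
      (∀ a : K, g (ι a) = a) ∧ g 0 = 0 := by
  let : Algebra K L := ι.toAlgebra
  obtain ⟨g, hg⟩ := LinearMap.exists_leftInverse_of_injective (Algebra.linearMap K L)
    (LinearMap.ker_eq_bot.mpr (algebraMap K L).injective)
  refine ⟨g, fun a b => map_add g a b, fun a l => ?_, fun a => ?_, map_zero g⟩
  · have : ι a * l = a • l := by rw [Algebra.smul_def]; rfl
    rw [this, map_smul, smul_eq_mul]
  · have := congrArg (fun f : K →ₗ[K] K => f a) hg
    simp only [LinearMap.coe_comp, Function.comp_apply, Algebra.linearMap_apply,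
      LinearMap.id_coe, id_eq] at this
    exact this

/-- **Linear disjointness.** An `L`-linear relation between Laurent series with coefficients in
`K` gives a `K`-linear relation, with the same coefficient wherever the coefficient was already
in `K`. -/
theorem exists_rational_relation {I : Type*} (s : Finset I) (x : I → LaurentSeries K)
    (c : I → L)
    (h : ∑ i ∈ s, HahnSeries.C (c i) * coeffMap ι (x i) = 0) :
    ∃ c' : I → K, (∀ i a, c i = ι a → c' i = a) ∧
      ∑ i ∈ s, HahnSeries.C (c' i) * x i = 0 := by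
  obtain ⟨g, hadd, hmul, hι, h0⟩ := exists_retraction ι
  have hsum : ∀ (t : Finset I) (u : I → L), g (∑ i ∈ t, u i) = ∑ i ∈ t, g (u i) := by
    intro t u
    classical
    induction t using Finset.induction_on with
    | empty => simpa using h0
    | insert i t hi ih => rw [Finset.sum_insert hi, Finset.sum_insert hi, hadd, ih]
  refine ⟨fun i => g (c i), fun i a hia => by simp only [hia, hι], ?_⟩
  ext n
  have hn := congrArg (fun y : LaurentSeries L => y.coeff n) h
  simp only [HahnSeries.coeff_sum, HahnSeries.C_mul_eq_smul, HahnSeries.coeff_smul,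
    coeffMap_coeff, smul_eq_mul, HahnSeries.coeff_zero] at hn
  simp only [HahnSeries.coeff_sum, HahnSeries.C_mul_eq_smul, HahnSeries.coeff_smul,
    smul_eq_mul, HahnSeries.coeff_zero]
  have := congrArg g hn
  rw [hsum, h0] at this
  rw [← this]
  refine Finset.sum_congr rfl fun i _ => ?_
  rw [mul_comm (c i), hmul, mul_comm]

/-- Evaluation of a two-variable polynomial `P ∈ A[T][Y]` at a pair of Laurent series, as a
double sum with uniform ranges. -/
theorem eval_map_eq_sum {A : Type*} [CommRing A] (J f : LaurentSeries A)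
    (P : Polynomial (Polynomial A)) (n B : ℕ) (hn : P.natDegree < n)
    (hB : ∀ k, (P.coeff k).natDegree < B) :
    (P.map (Polynomial.eval₂RingHom HahnSeries.C J)).eval f =
      ∑ p ∈ Finset.range n ×ˢ Finset.range B,
        HahnSeries.C ((P.coeff p.1).coeff p.2) * (J ^ p.2 * f ^ p.1) := by
  rw [Polynomial.eval_map, Polynomial.eval₂_eq_sum_range' _ hn, Finset.sum_product]
  refine Finset.sum_congr rfl fun k _ => ?_
  rw [Polynomial.coe_eval₂RingHom, Polynomial.eval₂_eq_sum_range' _ (hB k), Finset.sum_mul]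
  refine Finset.sum_congr rfl fun a _ => ?_
  ring

/-- **Descent of monic relations.** If two Laurent series `J, f` with coefficients in `K`
satisfy a monic relation `P(J, f) = 0` with `P ∈ L[T][Y]` (monic in `Y`), then they satisfy a
monic relation of the same degree with coefficients in `K`. -/
theorem exists_monic_rational (J f : LaurentSeries K) (P : Polynomial (Polynomial L))
    (hP : P.Monic)
    (h : (P.map (Polynomial.eval₂RingHom HahnSeries.C (coeffMap ι J))).eval (coeffMap ι f) = 0) :
    ∃ Q : Polynomial (Polynomial K), Q.Monic ∧ Q.natDegree = P.natDegree ∧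
      (Q.map (Polynomial.eval₂RingHom HahnSeries.C J)).eval f = 0 := by
  classical
  set n := P.natDegree with hn
  set B := (∑ k ∈ Finset.range (n + 1), (P.coeff k).natDegree) + 1 with hB
  have hBk : ∀ k, (P.coeff k).natDegree < B := by
    intro k
    by_cases hk : k ∈ Finset.range (n + 1)
    · rw [hB]
      exact Nat.lt_succ_of_le
        (Finset.single_le_sum (f := fun k => (P.coeff k).natDegree) (fun _ _ => Nat.zero_le _) hk)
    · rw [Finset.mem_range, not_lt] at hk
      rw [Polynomial.coeff_eq_zero_of_natDegree_lt (by omega), Polynomial.natDegree_zero, hB]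
      exact Nat.succ_pos _
  rw [eval_map_eq_sum _ _ P (n + 1) B (Nat.lt_succ_self _) hBk] at h
  have h' : ∑ p ∈ Finset.range (n + 1) ×ˢ Finset.range B,
      HahnSeries.C ((P.coeff p.1).coeff p.2) * coeffMap ι (J ^ p.2 * f ^ p.1) = 0 := by
    rw [← h]
    refine Finset.sum_congr rfl fun p _ => ?_
    rw [map_mul, map_pow, map_pow]
  obtain ⟨c', hc', hrel⟩ := exists_rational_relation ι _ (fun p : ℕ × ℕ => J ^ p.2 * f ^ p.1)
    (fun p : ℕ × ℕ => (P.coeff p.1).coeff p.2) h'
  -- the rational polynomial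
  set q : ℕ → Polynomial K := fun k => ∑ a ∈ Finset.range B, Polynomial.monomial a (c' (k, a))
    with hq
  set Q : Polynomial (Polynomial K) := ∑ k ∈ Finset.range (n + 1), Polynomial.monomial k (q k)
    with hQ
  have hqcoeff : ∀ k a, a < B → (q k).coeff a = c' (k, a) := by
    intro k a ha
    rw [hq]
    simp only [Polynomial.finsetSum_coeff, Polynomial.coeff_monomial]
    rw [Finset.sum_eq_single a]
    · simp
    · intro b _ hb
      simp [hb]
    · intro ha'
      exact absurd (Finset.mem_range.mpr ha) ha'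
  have hqdeg : ∀ k, (q k).natDegree < B := by
    intro k
    rw [hq]
    refine lt_of_le_of_lt (Polynomial.natDegree_sum_le_of_forall_le _ _ (n := B - 1) ?_) ?_
    · intro a ha
      refine (Polynomial.natDegree_monomial_le _).trans ?_
      have := Finset.mem_range.mp ha
      omega
    · have : 0 < B := by rw [hB]; exact Nat.succ_pos _
      omega
  have hQcoeff : ∀ k, k < n + 1 → Q.coeff k = q k := by
    intro k hk
    rw [hQ]
    simp only [Polynomial.finsetSum_coeff, Polynomial.coeff_monomial]
    rw [Finset.sum_eq_single k]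
    · simp
    · intro b _ hb
      simp [hb]
    · intro hk'
      exact absurd (Finset.mem_range.mpr hk) hk'
  have hQdeg : Q.natDegree ≤ n := by
    rw [hQ]
    refine Polynomial.natDegree_sum_le_of_forall_le _ _ ?_
    intro k hk
    refine (Polynomial.natDegree_monomial_le _).trans ?_
    have := Finset.mem_range.mp hk
    omega
  have hqn : q n = 1 := by
    ext a
    by_cases ha : a < B
    · rw [hqcoeff n a ha]
      have hPn : P.coeff n = 1 := hP.coeff_natDegree
      by_cases ha0 : a = 0
      · subst ha0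
        refine (hc' (n, 0) 1 ?_).trans (by simp)
        simp [hPn]
      · refine (hc' (n, a) 0 ?_).trans ?_
        · simp [hPn, Polynomial.coeff_one, ha0]
        · simp [Polynomial.coeff_one, ha0]
    · rw [Polynomial.coeff_eq_zero_of_natDegree_lt (lt_of_lt_of_le (hqdeg n) (not_lt.mp ha))]
      have : a ≠ 0 := by
        rintro rfl
        exact ha (by rw [hB]; exact Nat.succ_pos _)
      simp [Polynomial.coeff_one, this]
  have hQn : Q.coeff n = 1 := by rw [hQcoeff n (Nat.lt_succ_self _), hqn]
  refine ⟨Q, Polynomial.monic_of_natDegree_le_of_coeff_eq_one n hQdeg hQn,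
    Polynomial.natDegree_eq_of_le_of_coeff_ne_zero hQdeg (by rw [hQn]; exact one_ne_zero), ?_⟩
  have hQk : ∀ k, (Q.coeff k).natDegree < B := by
    intro k
    by_cases hk : k < n + 1
    · rw [hQcoeff k hk]
      exact hqdeg k
    · rw [Polynomial.coeff_eq_zero_of_natDegree_lt (by omega), Polynomial.natDegree_zero, hB]
      exact Nat.succ_pos _
  rw [eval_map_eq_sum _ _ Q (n + 1) B (Nat.lt_succ_of_le hQdeg) hQk, ← hrel]
  refine Finset.sum_congr rfl fun p hp => ?_
  rw [Finset.mem_product, Finset.mem_range, Finset.mem_range] at hp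
  rw [hQcoeff p.1 hp.1, hqcoeff p.1 p.2 hp.2]

end LD

section Degree

variable {K F M : Type*} [Field K] [Field F] [Field M] [Algebra K F]

/-- Core of the degree theorem: if every element of `F` is integral over `K(x)` of degree at most
`|X|` and there are `|X|` pairwise distinct embeddings of `F` agreeing at `x` and on `K`, then
`[F : K(x)] = |X|`. -/
theorem finrank_eq_card_of_forall_natDegree_le [CharZero K] (x : F)
    {X : Type*} [Fintype X] [Nonempty X] (ι : K →+* M) (φ : X → F →+* M)
    (hι : ∀ i c, φ i (algebraMap K F c) = ι c) (hφ : Function.Injective φ)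
    (hx : ∀ i j, φ i x = φ j x)
    (hall : ∀ f : F, IsIntegral K⟮x⟯ f ∧ (minpoly K⟮x⟯ f).natDegree ≤ Fintype.card X) :
    FiniteDimensional K⟮x⟯ F ∧ Module.finrank K⟮x⟯ F = Fintype.card X := by
  have : Algebra.IsAlgebraic K⟮x⟯ F := ⟨fun f => (hall f).1.isAlgebraic⟩
  have : CharZero K⟮x⟯ := charZero_of_injective_algebraMap (algebraMap K K⟮x⟯).injective
  obtain ⟨hfd, hle⟩ :=
    FFDegree.finrank_le_of_forall_natDegree_minpoly_le (k := K⟮x⟯) (E := F) (Fintype.card X)
      (fun f => (hall f).2)
  refine ⟨hfd, le_antisymm hle ?_⟩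
  obtain ⟨i₀⟩ := ‹Nonempty X›
  let : Algebra K M := ι.toAlgebra
  let φ' : X → F →ₐ[K] M := fun i => { φ i with commutes' := fun c => hι i c }
  let : Algebra K⟮x⟯ M := (((φ' i₀ : F →+* M)).comp (algebraMap K⟮x⟯ F)).toAlgebra
  let Φ : X → (F →ₐ[K⟮x⟯] M) := fun i =>
    { (φ' i : F →+* M) with
      commutes' := fun a =>
        FFDegree.algHom_eq_on_adjoin_simple x (φ' i) (φ' i₀) (hx i i₀) a a.2 }
  have hΦ : Function.Injective Φ := fun i j h =>
    hφ (RingHom.ext fun f => congrArg (fun σ : F →ₐ[K⟮x⟯] M => σ f) h)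
  calc Fintype.card X = Nat.card X := Nat.card_eq_fintype_card.symm
    _ ≤ Nat.card (F →ₐ[K⟮x⟯] M) := Nat.card_le_card_of_injective Φ hΦ
    _ ≤ Module.finrank K⟮x⟯ F := card_algHom_le_finrank K⟮x⟯ F M

/-- Norm formula: if `[F : K(x)] = |X|` and the `φ i` are `|X|` pairwise distinct embeddings
agreeing at `x` and on `K`, then `Norm_{F/K(x)} f` is the product of the conjugates `φ i f`. -/
theorem norm_eq_prod_of_finrank_eq [CharZero K] (x : F)
    {X : Type*} [Fintype X] (ι : K →+* M) (φ : X → F →+* M)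
    (hι : ∀ i c, φ i (algebraMap K F c) = ι c) (hφ : Function.Injective φ)
    (hx : ∀ i j, φ i x = φ j x)
    (hfd : FiniteDimensional K⟮x⟯ F) (hrank : Module.finrank K⟮x⟯ F = Fintype.card X)
    (i₀ : X) (f : F) :
    φ i₀ (algebraMap K⟮x⟯ F (Algebra.norm K⟮x⟯ f)) = ∏ i, φ i f := by
  classical
  have : CharZero K⟮x⟯ := charZero_of_injective_algebraMap (algebraMap K K⟮x⟯).injective
  have : Algebra.IsAlgebraic K⟮x⟯ F := Algebra.IsAlgebraic.of_finite _ _
  have : Algebra.IsSeparable K⟮x⟯ F := inferInstance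
  let : Algebra K M := ι.toAlgebra
  let φ' : X → F →ₐ[K] M := fun i => { φ i with commutes' := fun c => hι i c }
  let E := AlgebraicClosure M
  let ψ : K⟮x⟯ →+* E := (algebraMap M E).comp (((φ i₀ : F →+* M)).comp (algebraMap K⟮x⟯ F))
  let : Algebra K⟮x⟯ E := ψ.toAlgebra
  let Ψ : X → (F →ₐ[K⟮x⟯] E) := fun i =>
    { (algebraMap M E).comp (φ i : F →+* M) with
      commutes' := fun a => by
        have := FFDegree.algHom_eq_on_adjoin_simple x (φ' i) (φ' i₀) (hx i i₀) a a.2
        change algebraMap M E (φ i a) = algebraMap M E (φ i₀ a)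
        exact congrArg _ this }
  have hΨ : Function.Injective Ψ := fun i j h => hφ (RingHom.ext fun g => by
    have := congrArg (fun σ : F →ₐ[K⟮x⟯] E => σ g) h
    exact (algebraMap M E).injective this)
  have hcard : Fintype.card X = Fintype.card (F →ₐ[K⟮x⟯] E) := by
    rw [AlgHom.card K⟮x⟯ F E, hrank]
  have hbij : Function.Bijective Ψ := (Fintype.bijective_iff_injective_and_card Ψ).mpr ⟨hΨ, hcard⟩
  have hnorm := Algebra.norm_eq_prod_embeddings K⟮x⟯ E f
  rw [← Function.Bijective.prod_comp hbij (fun σ : F →ₐ[K⟮x⟯] E => σ f)] at hnorm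
  apply (algebraMap M E).injective
  rw [map_prod]
  exact hnorm

/-- If `F = Frac R`, `x ∈ R` and every element of `R` is algebraic over `K(x)`, then every
element of `F` is of the form `r / q(x)` with `r ∈ R` and `q ∈ K[T]`. -/
theorem exists_mul_aeval_mem_of_isAlgebraic (x : F) (R : Subalgebra K F) (hxR : x ∈ R)
    (hfrac : ∀ f : F, ∃ a ∈ R, ∃ b ∈ R, b ≠ 0 ∧ f = a / b)
    (halg : ∀ f ∈ R, IsAlgebraic K⟮x⟯ f) (f : F) :
    ∃ r ∈ R, ∃ q : Polynomial K, Polynomial.aeval x q ≠ 0 ∧ f * Polynomial.aeval x q = r := by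
  have haev : ∀ p : Polynomial K, Polynomial.aeval x p ∈ R := fun p => by
    have := Subalgebra.aeval_coe R (⟨x, hxR⟩ : R) p
    simp only at this
    rw [this]
    exact SetLike.coe_mem _
  let A' : Subalgebra K⟮x⟯ F :=
    { carrier := {f | ∃ r ∈ R, ∃ q : Polynomial K,
        Polynomial.aeval x q ≠ 0 ∧ f * Polynomial.aeval x q = r}
      mul_mem' := by
        rintro f₁ f₂ ⟨r₁, hr₁, q₁, hq₁, h₁⟩ ⟨r₂, hr₂, q₂, hq₂, h₂⟩
        refine ⟨r₁ * r₂, mul_mem hr₁ hr₂, q₁ * q₂, ?_, ?_⟩
        · rw [map_mul]; exact mul_ne_zero hq₁ hq₂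
        · rw [map_mul, ← h₁, ← h₂]; ring
      add_mem' := by
        rintro f₁ f₂ ⟨r₁, hr₁, q₁, hq₁, h₁⟩ ⟨r₂, hr₂, q₂, hq₂, h₂⟩
        refine ⟨r₁ * Polynomial.aeval x q₂ + r₂ * Polynomial.aeval x q₁,
          add_mem (mul_mem hr₁ (haev _)) (mul_mem hr₂ (haev _)), q₁ * q₂, ?_, ?_⟩
        · rw [map_mul]; exact mul_ne_zero hq₁ hq₂
        · rw [map_mul, ← h₁, ← h₂]; ring
      algebraMap_mem' := by
        intro c
        obtain ⟨r, s, hrs⟩ := (IntermediateField.mem_adjoin_simple_iff K (c : F)).mp c.2
        by_cases hs : Polynomial.aeval x s = 0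
        · refine ⟨0, zero_mem _, 1, by simp, ?_⟩
          have hc : algebraMap K⟮x⟯ F c = 0 := by
            change (c : F) = 0
            rw [hrs, hs, div_zero]
          rw [hc, zero_mul]
        · refine ⟨Polynomial.aeval x r, haev _, s, hs, ?_⟩
          change (c : F) * _ = _
          rw [hrs, div_mul_cancel₀ _ hs] }
  have hR : ∀ b ∈ R, b ∈ A' := fun b hb => ⟨b, hb, 1, by simp, by simp⟩
  obtain ⟨a, ha, b, hb, -, rfl⟩ := hfrac f
  have hinv : b⁻¹ ∈ A' := Subalgebra.inv_mem_of_algebraic (A := A') (x := ⟨b, hR b hb⟩) (halg b hb)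
  have : a / b ∈ A' := by
    rw [div_eq_mul_inv]
    exact mul_mem (hR a ha) hinv
  exact this

/-- **Degree theorem, monic-relation form.** If `F = Frac R ⊇ K(x)` admits `|X|` pairwise
distinct embeddings `φ i : F → M` agreeing on `K` and at `x`, and every `f ∈ R` is a root of a
polynomial over `K[x]`, monic of degree `|X|`, then `[F : K(x)] = |X|`. -/
theorem finrank_eq_card_of_monic [CharZero K] (x : F) (R : Subalgebra K F) (hxR : x ∈ R)
    (hfrac : ∀ f : F, ∃ a ∈ R, ∃ b ∈ R, b ≠ 0 ∧ f = a / b)
    {X : Type*} [Fintype X] [Nonempty X] (ι : K →+* M) (φ : X → F →+* M)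
    (hι : ∀ i c, φ i (algebraMap K F c) = ι c) (hφ : Function.Injective φ)
    (hx : ∀ i j, φ i x = φ j x)
    (hint : ∀ f ∈ R, ∃ Q : Polynomial (Polynomial K), Q.Monic ∧
      Q.natDegree = Fintype.card X ∧
      (Q.map (Polynomial.aeval x : Polynomial K →ₐ[K] F).toRingHom).eval f = 0) :
    FiniteDimensional K⟮x⟯ F ∧ Module.finrank K⟮x⟯ F = Fintype.card X := by
  -- monic polynomial over `K(x)` for elements of `R`
  have hR : ∀ f ∈ R, ∃ Q' : Polynomial K⟮x⟯, Q'.Monic ∧ Q'.natDegree = Fintype.card X ∧
      Polynomial.aeval f Q' = 0 := by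
    intro f hf
    obtain ⟨Q, hQm, hQd, hQ0⟩ := hint f hf
    refine ⟨FFDegree.specialize x Q, hQm.map _, ?_, ?_⟩
    · rw [FFDegree.specialize, hQm.natDegree_map, hQd]
    · rw [Polynomial.aeval_def, Polynomial.eval₂_eq_eval_map,
        FFDegree.specialize_map_algebraMap]
      exact hQ0
  have halg : ∀ f ∈ R, IsAlgebraic K⟮x⟯ f := fun f hf => by
    obtain ⟨Q', hm, -, h0⟩ := hR f hf
    exact ⟨Q', hm.ne_zero, h0⟩
  refine finrank_eq_card_of_forall_natDegree_le x ι φ hι hφ hx fun f => ?_
  obtain ⟨r, hr, q, hq, hfq⟩ := exists_mul_aeval_mem_of_isAlgebraic x R hxR hfrac halg f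
  obtain ⟨Q', hm, hd, h0⟩ := hR r hr
  set c : K⟮x⟯ := Polynomial.aeval (AdjoinSimple.gen K x) q with hc
  have hcF : algebraMap K⟮x⟯ F c = Polynomial.aeval x q := by
    rw [hc, ← Polynomial.aeval_algebraMap_apply, AdjoinSimple.algebraMap_gen]
  have hc0 : c ≠ 0 := fun h => hq (by rw [← hcF, h, map_zero])
  set Q'' : Polynomial K⟮x⟯ := Q'.comp (Polynomial.C c * Polynomial.X) with hQ''
  have hroot : Polynomial.aeval f Q'' = 0 := by
    rw [hQ'', Polynomial.aeval_comp]
    have : Polynomial.aeval f (Polynomial.C c * Polynomial.X : Polynomial K⟮x⟯) = r := by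
      rw [map_mul, Polynomial.aeval_C, Polynomial.aeval_X, hcF, mul_comm, hfq]
    rw [this]
    exact h0
  have hdeg : Q''.natDegree = Fintype.card X := by
    rw [hQ'', Polynomial.natDegree_comp, hd, Polynomial.natDegree_C_mul_X _ hc0, mul_one]
  have hne : Q'' ≠ 0 := by
    intro h
    rw [h, Polynomial.natDegree_zero] at hdeg
    exact Fintype.card_ne_zero hdeg.symm
  have hint' : IsIntegral K⟮x⟯ f := isAlgebraic_iff_isIntegral.mp ⟨Q'', hne, hroot⟩
  refine ⟨hint', ?_⟩
  calc (minpoly K⟮x⟯ f).natDegree ≤ Q''.natDegree :=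
        Polynomial.natDegree_le_of_dvd (minpoly.dvd _ _ hroot) hne
    _ = Fintype.card X := hdeg

end Degree

section Combined

variable {K L M : Type*} [Field K] [Field L] [Field M]

/-- Transport of a two-variable polynomial identity from the Laurent series ring to an
intermediate field. -/
theorem eval_eq_zero_of_coe (F : IntermediateField K (LaurentSeries K)) (x f : F)
    (Q : Polynomial (Polynomial K))
    (h : (Q.map (Polynomial.eval₂RingHom HahnSeries.C (x : LaurentSeries K))).eval
      (f : LaurentSeries K) = 0) :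
    (Q.map (Polynomial.aeval x : Polynomial K →ₐ[K] F).toRingHom).eval f = 0 := by
  apply Subtype.val_injective
  have h1 := Polynomial.hom_eval₂ Q ((Polynomial.aeval x : Polynomial K →ₐ[K] F).toRingHom)
    (F.val : F →+* LaurentSeries K) f
  rw [Polynomial.eval_map]
  refine Eq.trans h1 ?_
  rw [Polynomial.eval_map] at h
  have h2 : (F.val : F →+* LaurentSeries K).comp
      (Polynomial.aeval x : Polynomial K →ₐ[K] F).toRingHom =
      Polynomial.eval₂RingHom HahnSeries.C (x : LaurentSeries K) := by
    refine Polynomial.ringHom_ext (fun c => ?_) ?_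
    · have e1 : (Polynomial.aeval x : Polynomial K →ₐ[K] F).toRingHom (Polynomial.C c) =
          algebraMap K F c := Polynomial.aeval_C x c
      have e2 : ((algebraMap K F c : F) : LaurentSeries K) = algebraMap K (LaurentSeries K) c :=
        rfl
      simp only [RingHom.coe_comp, Function.comp_apply, Polynomial.coe_eval₂RingHom,
        Polynomial.eval₂_C]
      rw [e1]
      change ((algebraMap K F c : F) : LaurentSeries K) = _
      rw [e2, ModularCurve.algebraMap_laurentSeries_eq_single]
      rfl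
    · simp
  rw [h2]
  exact h

/-- **Degree theorem for a field of `K`-rational Laurent series, complex-relation form.**
`F ⊆ K((q))` with `F = Frac R`, `x ∈ R`; `|X|` pairwise distinct embeddings `φ i : F → M` agreeing
on `K` and at `x`; and for every `f ∈ R` a relation `P(x, f) = 0`, monic of degree `|X|` in the
second variable, with coefficients in an arbitrary extension field `L ⊇ K` (e.g. `ℂ ⊇ Q̄`),
holding in `L((q))`.  Then `[F : K(x)] = |X|`, and norms are products of conjugates. -/
theorem finrank_eq_card_of_complex_monic [CharZero K] (ι₀ : K →+* L)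
    (F : IntermediateField K (LaurentSeries K)) (x : F) (R : Subalgebra K F) (hxR : x ∈ R)
    (hfrac : ∀ f : F, ∃ a ∈ R, ∃ b ∈ R, b ≠ 0 ∧ f = a / b)
    {X : Type*} [Fintype X] [Nonempty X] (ι : K →+* M) (φ : X → F →+* M)
    (hι : ∀ i c, φ i (algebraMap K F c) = ι c) (hφ : Function.Injective φ)
    (hx : ∀ i j, φ i x = φ j x)
    (hcx : ∀ f ∈ R, ∃ P : Polynomial (Polynomial L), P.Monic ∧
      P.natDegree = Fintype.card X ∧
      (P.map (Polynomial.eval₂RingHom HahnSeries.C
        (coeffMap ι₀ (x : LaurentSeries K)))).eval (coeffMap ι₀ (f : LaurentSeries K)) = 0) :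
    FiniteDimensional K⟮x⟯ F ∧ Module.finrank K⟮x⟯ F = Fintype.card X ∧
      ∀ (i₀ : X) (f : F), φ i₀ (algebraMap K⟮x⟯ F (Algebra.norm K⟮x⟯ f)) = ∏ i, φ i f := by
  have hint : ∀ f ∈ R, ∃ Q : Polynomial (Polynomial K), Q.Monic ∧
      Q.natDegree = Fintype.card X ∧
      (Q.map (Polynomial.aeval x : Polynomial K →ₐ[K] F).toRingHom).eval f = 0 := by
    intro f hf
    obtain ⟨P, hPm, hPd, hP0⟩ := hcx f hf
    obtain ⟨Q, hQm, hQd, hQ0⟩ :=
      exists_monic_rational ι₀ (x : LaurentSeries K) (f : LaurentSeries K) P hPm hP0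
    exact ⟨Q, hQm, hQd.trans hPd, eval_eq_zero_of_coe F x f Q hQ0⟩
  obtain ⟨hfd, hrank⟩ := finrank_eq_card_of_monic x R hxR hfrac ι φ hι hφ hx hint
  exact ⟨hfd, hrank, fun i₀ f => norm_eq_prod_of_finrank_eq x ι φ hι hφ hx hfd hrank i₀ f⟩

end Combined

end Fermat.Agent.Lib.FFDegreeLD
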