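import Mathlib
import Fermat.Prelude.Def_ModularCurve_LaurentCoeff
import Fermat.Agent.Lib.FFDegree
import Fermat.Agent.Lib.FFDegreeLD

set_option autoImplicit false

/-!
# Upper bounds for the degree of a function field over `K(x)` from monic relations

Upper-bound companions of `Lib/FFDegreeLD` (no embeddings needed):

* `finrank_le_of_monic`: if `F = Frac R`, `x ∈ R`, and every `f ∈ R` is a root of a polynomial
  over `K[x]`, monic of degree `n`, then `[F : K(x)] ≤ n`.
* `finrank_le_of_complex_monic`: the same for a field `F ⊆ K((q))`, the monic relations being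
  allowed to have coefficients in an arbitrary extension `L ⊇ K` and to hold in `L((q))`.
* `card_le_of_linearIndependent`: the bound in the form "a family of elements of `F`, linearly
  independent over the subfield `K(x)` of the ambient field, has at most `n` members".
-/

namespace Fermat.Agent.Lib.FFDegreeLe

open Polynomial IntermediateField ModularCurve

section Degree

variable {K F : Type*} [Field K] [Field F] [Algebra K F]

/-- If `F = Frac R`, `x ∈ R` and every element of `R` is a root of a polynomial over `K[x]`,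
monic of degree `n ≠ 0`, then every element of `F` is integral over `K(x)` of degree `≤ n`. -/
theorem forall_natDegree_le_of_monic (x : F) (R : Subalgebra K F) (hxR : x ∈ R)
    (hfrac : ∀ f : F, ∃ a ∈ R, ∃ b ∈ R, b ≠ 0 ∧ f = a / b) (n : ℕ) (hn : n ≠ 0)
    (hint : ∀ f ∈ R, ∃ Q : Polynomial (Polynomial K), Q.Monic ∧ Q.natDegree = n ∧
      (Q.map (Polynomial.aeval x : Polynomial K →ₐ[K] F).toRingHom).eval f = 0) (f : F) :
    IsIntegral K⟮x⟯ f ∧ (minpoly K⟮x⟯ f).natDegree ≤ n := by
  -- monic polynomial over `K(x)` for elements of `R`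
  have hR : ∀ f ∈ R, ∃ Q' : Polynomial K⟮x⟯, Q'.Monic ∧ Q'.natDegree = n ∧
      Polynomial.aeval f Q' = 0 := by
    intro f hf
    obtain ⟨Q, hQm, hQd, hQ0⟩ := hint f hf
    refine ⟨FFDegree.specialize x Q, hQm.map _, ?_, ?_⟩
    · rw [FFDegree.specialize, hQm.natDegree_map, hQd]
    · rw [Polynomial.aeval_def, Polynomial.eval₂_eq_eval_map,
        FFDegree.specialize_map_algebraMap]
      exact hQ0
  have halg : ∀ f ∈ R, IsAlgebraic K⟮x⟯ f := fun f hf => by
    obtain ⟨Q', hm, -, h0⟩ := hR f hf
    exact ⟨Q', hm.ne_zero, h0⟩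
  obtain ⟨r, hr, q, hq, hfq⟩ :=
    FFDegreeLD.exists_mul_aeval_mem_of_isAlgebraic x R hxR hfrac halg f
  obtain ⟨Q', hm, hd, h0⟩ := hR r hr
  set c : K⟮x⟯ := Polynomial.aeval (AdjoinSimple.gen K x) q with hc
  have hcF : algebraMap K⟮x⟯ F c = Polynomial.aeval x q := by
    rw [hc, ← Polynomial.aeval_algebraMap_apply, AdjoinSimple.algebraMap_gen]
  have hc0 : c ≠ 0 := fun h => hq (by rw [← hcF, h, map_zero])
  set Q'' : Polynomial K⟮x⟯ := Q'.comp (Polynomial.C c * Polynomial.X) with hQ''
  have hroot : Polynomial.aeval f Q'' = 0 := by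
    rw [hQ'', Polynomial.aeval_comp]
    have : Polynomial.aeval f (Polynomial.C c * Polynomial.X : Polynomial K⟮x⟯) = r := by
      rw [map_mul, Polynomial.aeval_C, Polynomial.aeval_X, hcF, mul_comm, hfq]
    rw [this]
    exact h0
  have hdeg : Q''.natDegree = n := by
    rw [hQ'', Polynomial.natDegree_comp, hd, Polynomial.natDegree_C_mul_X _ hc0, mul_one]
  have hne : Q'' ≠ 0 := by
    intro h
    rw [h, Polynomial.natDegree_zero] at hdeg
    exact hn hdeg.symm
  have hint' : IsIntegral K⟮x⟯ f := isAlgebraic_iff_isIntegral.mp ⟨Q'', hne, hroot⟩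
  refine ⟨hint', ?_⟩
  calc (minpoly K⟮x⟯ f).natDegree ≤ Q''.natDegree :=
        Polynomial.natDegree_le_of_dvd (minpoly.dvd _ _ hroot) hne
    _ = n := hdeg

/-- **Degree bound, monic-relation form.** If `F = Frac R ⊇ K(x)` and every `f ∈ R` is a root
of a polynomial over `K[x]`, monic of degree `n ≠ 0`, then `[F : K(x)] ≤ n`. -/
theorem finrank_le_of_monic [CharZero K] (x : F) (R : Subalgebra K F) (hxR : x ∈ R)
    (hfrac : ∀ f : F, ∃ a ∈ R, ∃ b ∈ R, b ≠ 0 ∧ f = a / b) (n : ℕ) (hn : n ≠ 0)
    (hint : ∀ f ∈ R, ∃ Q : Polynomial (Polynomial K), Q.Monic ∧ Q.natDegree = n ∧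
      (Q.map (Polynomial.aeval x : Polynomial K →ₐ[K] F).toRingHom).eval f = 0) :
    FiniteDimensional K⟮x⟯ F ∧ Module.finrank K⟮x⟯ F ≤ n := by
  have hall := forall_natDegree_le_of_monic x R hxR hfrac n hn hint
  have : Algebra.IsAlgebraic K⟮x⟯ F := ⟨fun f => (hall f).1.isAlgebraic⟩
  have : CharZero K⟮x⟯ := charZero_of_injective_algebraMap (algebraMap K K⟮x⟯).injective
  exact FFDegree.finrank_le_of_forall_natDegree_minpoly_le (k := K⟮x⟯) (E := F) n
    (fun f => (hall f).2)

end Degree

section Combined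

variable {K L : Type*} [Field K] [Field L]

/-- **Degree bound for a field of `K`-rational Laurent series, complex-relation form.**
`F ⊆ K((q))` with `F = Frac R`, `x ∈ R`, and for every `f ∈ R` a relation `P(x, f) = 0`, monic
of degree `n ≠ 0` in the second variable, with coefficients in an arbitrary extension field
`L ⊇ K` (e.g. `ℂ ⊇ ℚ`), holding in `L((q))`.  Then `[F : K(x)] ≤ n`. -/
theorem finrank_le_of_complex_monic [CharZero K] (ι₀ : K →+* L)
    (F : IntermediateField K (LaurentSeries K)) (x : F) (R : Subalgebra K F) (hxR : x ∈ R)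
    (hfrac : ∀ f : F, ∃ a ∈ R, ∃ b ∈ R, b ≠ 0 ∧ f = a / b) (n : ℕ) (hn : n ≠ 0)
    (hcx : ∀ f ∈ R, ∃ P : Polynomial (Polynomial L), P.Monic ∧ P.natDegree = n ∧
      (P.map (Polynomial.eval₂RingHom HahnSeries.C
        (coeffMap ι₀ (x : LaurentSeries K)))).eval (coeffMap ι₀ (f : LaurentSeries K)) = 0) :
    FiniteDimensional K⟮x⟯ F ∧ Module.finrank K⟮x⟯ F ≤ n := by
  refine finrank_le_of_monic x R hxR hfrac n hn fun f hf => ?_
  obtain ⟨P, hPm, hPd, hP0⟩ := hcx f hf
  obtain ⟨Q, hQm, hQd, hQ0⟩ :=
    FFDegreeLD.exists_monic_rational ι₀ (x : LaurentSeries K) (f : LaurentSeries K) P hPm hP0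
  exact ⟨Q, hQm, hQd.trans hPd, FFDegreeLD.eval_eq_zero_of_coe F x f Q hQ0⟩

end Combined

section LinearIndependent

variable {K E : Type*} [Field K] [Field E] [Algebra K E]

/-- A family of elements of `F ⊆ E`, linearly independent over the subfield `K(x)` of `E`, is
linearly independent over `K(x)` as a family in `F`. -/
theorem linearIndependent_subtype (F : IntermediateField K E) (x : F) {m : ℕ} (w : Fin m → E)
    (hw : ∀ i, w i ∈ F)
    (hli : LinearIndependent ↥(IntermediateField.adjoin K {(x : E)}) w) :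
    LinearIndependent K⟮x⟯ (fun i => (⟨w i, hw i⟩ : F)) := by
  have hmap : (K⟮x⟯ : IntermediateField K F).map F.val = IntermediateField.adjoin K {(x : E)} := by
    rw [IntermediateField.adjoin_map, Set.image_singleton]
    rfl
  have hmem : ∀ c : K⟮x⟯, (((c : F) : E)) ∈ IntermediateField.adjoin K {(x : E)} := by
    intro c
    rw [← hmap]
    exact (IntermediateField.mem_map _).mpr ⟨(c : F), c.2, rfl⟩
  rw [Fintype.linearIndependent_iff] at hli ⊢
  intro g hg i
  have h0 := hli (fun i => ⟨((g i : F) : E), hmem (g i)⟩) ?_ i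
  · have h1 : (((g i : F) : E)) = 0 := congrArg Subtype.val h0
    exact Subtype.ext (Subtype.ext h1)
  · have h2 := congrArg (fun y : F => (y : E)) hg
    simp only [AddSubmonoidClass.coe_finsetSum, ZeroMemClass.coe_zero] at h2
    rw [← h2]
    rfl

/-- A family of elements of `F ⊆ E`, linearly independent over the subfield `K(x)` of `E`, has
at most `[F : K(x)]` members. -/
theorem card_le_of_linearIndependent (F : IntermediateField K E) (x : F) (n : ℕ)
    (hfd : FiniteDimensional K⟮x⟯ F) (hfin : Module.finrank K⟮x⟯ F ≤ n) {m : ℕ}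
    (w : Fin m → E) (hw : ∀ i, w i ∈ F)
    (hli : LinearIndependent ↥(IntermediateField.adjoin K {(x : E)}) w) : m ≤ n := by
  have h := (linearIndependent_subtype F x w hw hli).fintype_card_le_finrank
  rw [Fintype.card_fin] at h
  exact h.trans hfin

/-- `F / K(x)` is finite of degree at most `n`.  (A definition, so that the statement always
carries the instances of the general theory: over `K = ℚ` the notation `ℚ⟮x⟯` for `x` in a
subfield would otherwise pick up the `ℚ`-algebra structure of a division ring.) -/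
def FinrankLe (F : IntermediateField K E) (x : F) (n : ℕ) : Prop :=
  FiniteDimensional K⟮x⟯ F ∧ Module.finrank K⟮x⟯ F ≤ n

theorem FinrankLe.card_le {F : IntermediateField K E} {x : F} {n : ℕ} (h : FinrankLe F x n)
    {m : ℕ} (w : Fin m → E) (hw : ∀ i, w i ∈ F)
    (hli : LinearIndependent ↥(IntermediateField.adjoin K {(x : E)}) w) : m ≤ n :=
  card_le_of_linearIndependent F x n h.1 h.2 w hw hli

end LinearIndependent

section Adjoin

variable {K L : Type*} [Field K] [Field L]

/-- **Degree bound for `K(S) ⊆ K((q))`, complex-relation form.**  If every `f ∈ K[S]` satisfies a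
relation `P(J, f) = 0` in `L((q))`, monic of degree `n ≠ 0` in the second variable, with
coefficients in an extension `L ⊇ K`, where `J ∈ K[S]`, then `[K(S) : K(J)] ≤ n`. -/
theorem finrankLe_adjoin_of_complex_monic [CharZero K] (ι₀ : K →+* L)
    (S : Set (LaurentSeries K)) (J : LaurentSeries K) (hJ : J ∈ Algebra.adjoin K S)
    (n : ℕ) (hn : n ≠ 0)
    (hcx : ∀ f ∈ Algebra.adjoin K S, ∃ P : Polynomial (Polynomial L), P.Monic ∧
      P.natDegree = n ∧
      (P.map (Polynomial.eval₂RingHom HahnSeries.C (coeffMap ι₀ J))).eval (coeffMap ι₀ f) = 0) :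
    FinrankLe (IntermediateField.adjoin K S)
      ⟨J, IntermediateField.algebra_adjoin_le_adjoin K S hJ⟩ n := by
  have hle : ∀ y ∈ Algebra.adjoin K S, y ∈ IntermediateField.adjoin K S := fun y hy =>
    IntermediateField.algebra_adjoin_le_adjoin K S hy
  let R : Subalgebra K ↥(IntermediateField.adjoin K S) :=
    (Algebra.adjoin K S).comap (IntermediateField.adjoin K S).val
  refine finrank_le_of_complex_monic ι₀ (IntermediateField.adjoin K S)
    ⟨J, hle J hJ⟩ R hJ ?_ n hn ?_
  · intro f
    obtain ⟨r, hr, s, hs, hrs⟩ := IntermediateField.mem_adjoin_iff_div.mp f.2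
    by_cases hs0 : s = 0
    · refine ⟨0, zero_mem _, 1, one_mem _, one_ne_zero, ?_⟩
      apply Subtype.ext
      rw [hrs, hs0, div_zero]
      simp
    · refine ⟨⟨r, hle r hr⟩, hr, ⟨s, hle s hs⟩, hs, fun h => hs0 (congrArg Subtype.val h), ?_⟩
      apply Subtype.ext
      rw [hrs]
      rfl
  · intro f hf
    exact hcx f hf

/-- The same bound in linear-independence form: a family in `K(S)` which is linearly independent
over `K(J)` has at most `n` members. -/
theorem card_le_of_complex_monic [CharZero K] (ι₀ : K →+* L)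
    (S : Set (LaurentSeries K)) (J : LaurentSeries K) (hJ : J ∈ Algebra.adjoin K S)
    (n : ℕ) (hn : n ≠ 0)
    (hcx : ∀ f ∈ Algebra.adjoin K S, ∃ P : Polynomial (Polynomial L), P.Monic ∧
      P.natDegree = n ∧
      (P.map (Polynomial.eval₂RingHom HahnSeries.C (coeffMap ι₀ J))).eval (coeffMap ι₀ f) = 0)
    {m : ℕ} (w : Fin m → LaurentSeries K) (hw : ∀ i, w i ∈ IntermediateField.adjoin K S)
    (hli : LinearIndependent ↥(IntermediateField.adjoin K {J}) w) : m ≤ n :=
  (finrankLe_adjoin_of_complex_monic ι₀ S J hJ n hn hcx).card_le w hw hli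

end Adjoin

end Fermat.Agent.Lib.FFDegreeLe
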