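import Mathlib
import Fermat.Prelude.Def_AlgebraicCurve_CanonicalDivisor

set_option autoImplicit false
set_option linter.unusedSectionVars false

noncomputable section

namespace Fermat.Agent.Lib.FFDiff

/-! ### Part I: expansion of a DVR with coefficient field `K` into `K⟦X⟧` -/

section Expansion

open Polynomial PowerSeries

variable {K : Type*} [Field K] {O : Type*} [CommRing O] [IsDomain O]
  [IsDiscreteValuationRing O] [Algebra K O]

/-- The residue map `O → K` when the residue field is `K`. -/
def resHom (hres : Function.Surjective (algebraMap K (IsLocalRing.ResidueField O))) : O →+* K :=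
  ((RingEquiv.ofBijective (algebraMap K (IsLocalRing.ResidueField O))
      ⟨(algebraMap K (IsLocalRing.ResidueField O)).injective, hres⟩).symm :
        IsLocalRing.ResidueField O →+* K).comp (IsLocalRing.residue O)

variable (hres : Function.Surjective (algebraMap K (IsLocalRing.ResidueField O)))

theorem residue_algebraMap_resHom (u : O) :
    algebraMap K (IsLocalRing.ResidueField O) (resHom hres u) = IsLocalRing.residue O u := by
  unfold resHom
  simp only [RingHom.coe_comp, RingHom.coe_coe, Function.comp_apply]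
  exact (RingEquiv.ofBijective (algebraMap K (IsLocalRing.ResidueField O))
      ⟨(algebraMap K (IsLocalRing.ResidueField O)).injective, hres⟩).apply_symm_apply _

theorem resHom_algebraMap (c : K) : resHom hres (algebraMap K O c) = c := by
  apply (algebraMap K (IsLocalRing.ResidueField O)).injective
  rw [residue_algebraMap_resHom]
  rfl

theorem sub_resHom_mem (u : O) :
    u - algebraMap K O (resHom hres u) ∈ IsLocalRing.maximalIdeal O := by
  rw [← IsLocalRing.residue_eq_zero_iff, map_sub, sub_eq_zero]
  rw [← residue_algebraMap_resHom hres u]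
  rfl

theorem resHom_eq_zero_iff (u : O) : resHom hres u = 0 ↔ u ∈ IsLocalRing.maximalIdeal O := by
  rw [← IsLocalRing.residue_eq_zero_iff, ← residue_algebraMap_resHom hres u]
  exact (map_eq_zero_iff _ (algebraMap K (IsLocalRing.ResidueField O)).injective).symm

variable {π : O} (hπ : Irreducible π)

include hπ in
theorem dvd_sub_resHom (u : O) : π ∣ u - algebraMap K O (resHom hres u) := by
  have h := sub_resHom_mem hres u
  rw [hπ.maximalIdeal_eq, Ideal.mem_span_singleton] at h
  exact h

/-- One step of the expansion: `u = c₀ + π * step u`. -/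
def stepFun (u : O) : O := (dvd_sub_resHom hres hπ u).choose

theorem stepFun_spec (u : O) :
    u - algebraMap K O (resHom hres u) = π * stepFun hres hπ u :=
  (dvd_sub_resHom hres hπ u).choose_spec

/-- The expansion of `u : O` as a power series in the uniformizer. -/
def expandFun (u : O) : K⟦X⟧ :=
  PowerSeries.mk fun n => resHom hres ((stepFun hres hπ)^[n] u)

theorem expandFun_spec (u : O) (n : ℕ) :
    u - aeval π (trunc n (expandFun hres hπ u)) = π ^ n * (stepFun hres hπ)^[n] u := by
  induction n with
  | zero => simp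
  | succ n ih =>
    rw [trunc_succ, map_add, ← sub_sub, ih, Function.iterate_succ_apply', pow_succ, mul_assoc,
      ← stepFun_spec hres hπ, expandFun, coeff_mk, aeval_monomial]
    ring

/-- `P` is an expansion of `u`. -/
def IsExpansion (π : O) (u : O) (P : K⟦X⟧) : Prop :=
  ∀ n : ℕ, π ^ n ∣ u - aeval π (trunc n P)

theorem isExpansion_expandFun (u : O) : IsExpansion π u (expandFun hres hπ u) := fun n =>
  ⟨_, expandFun_spec hres hπ u n⟩

include hπ in
theorem trunc_eq_zero_of_dvd (P : K⟦X⟧) (n : ℕ) (h : π ^ n ∣ aeval π (trunc n P)) :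
    ∀ i < n, coeff i P = 0 := by
  induction n with
  | zero => intro i hi; exact absurd hi (Nat.not_lt_zero _)
  | succ n ih =>
    rw [trunc_succ, map_add, aeval_monomial] at h
    have h1 : π ^ n ∣ aeval π (trunc n P) := by
      have h2 : π ^ n ∣ aeval π (trunc n P) + algebraMap K O (coeff n P) * π ^ n :=
        (pow_dvd_pow π (Nat.le_succ n)).trans h
      exact (dvd_add_left (Dvd.intro_left _ rfl)).mp h2
    have ih' := ih h1
    have h3 : trunc n P = 0 := by
      ext i
      rw [coeff_trunc]
      split_ifs with hi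
      · simpa using ih' i hi
      · simp
    rw [h3, map_zero, zero_add, pow_succ, mul_comm (π ^ n) π] at h
    have hπn : π ^ n ≠ 0 := pow_ne_zero _ hπ.ne_zero
    have h4 : π ∣ algebraMap K O (coeff n P) := by
      obtain ⟨w, hw⟩ := h
      refine ⟨w, ?_⟩
      apply mul_right_cancel₀ hπn
      rw [hw]; ring
    have h5 : coeff n P = 0 := by
      by_contra hne
      have hu : IsUnit (algebraMap K O (coeff n P)) := (IsUnit.mk0 _ hne).map _
      exact hπ.not_isUnit (isUnit_of_dvd_unit h4 hu)
    intro i hi
    rcases Nat.lt_succ_iff_lt_or_eq.mp hi with hi | rfl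
    · exact ih' i hi
    · exact h5

include hπ in
theorem IsExpansion.unique {u : O} {P Q : K⟦X⟧} (hP : IsExpansion π u P) (hQ : IsExpansion π u Q) :
    P = Q := by
  ext i
  have h : π ^ (i + 1) ∣ aeval π (trunc (i + 1) (P - Q)) := by
    rw [trunc_sub, map_sub]
    have := dvd_sub (hQ (i + 1)) (hP (i + 1))
    convert this using 1
    ring
  have := trunc_eq_zero_of_dvd hπ (P - Q) (i + 1) h i (Nat.lt_succ_self i)
  rw [map_sub, sub_eq_zero] at this
  exact this

omit [IsDomain O] [IsDiscreteValuationRing O] in
theorem IsExpansion.add {u w : O} {P Q : K⟦X⟧} (hP : IsExpansion π u P)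
    (hQ : IsExpansion π w Q) : IsExpansion π (u + w) (P + Q) := by
  intro n
  have := dvd_add (hP n) (hQ n)
  rw [map_add, map_add]
  convert this using 1
  ring

omit [IsDomain O] [IsDiscreteValuationRing O] in
theorem dvd_aeval_sub_trunc (π : O) (R : K[X]) (n : ℕ) :
    π ^ n ∣ aeval π R - aeval π (trunc n (R : K⟦X⟧)) := by
  have h : (Polynomial.X : K[X]) ^ n ∣ R - trunc n (R : K⟦X⟧) := by
    rw [Polynomial.X_pow_dvd_iff]
    intro d hd
    rw [Polynomial.coeff_sub, coeff_trunc, if_pos hd, Polynomial.coeff_coe, sub_self]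
  obtain ⟨S, hS⟩ := h
  refine ⟨aeval π S, ?_⟩
  rw [← map_sub, hS, map_mul, map_pow, aeval_X]

omit [IsDomain O] [IsDiscreteValuationRing O] in
theorem IsExpansion.mul {u w : O} {P Q : K⟦X⟧} (hP : IsExpansion π u P)
    (hQ : IsExpansion π w Q) : IsExpansion π (u * w) (P * Q) := by
  intro n
  have h1 : π ^ n ∣ u * w - aeval π (trunc n P) * aeval π (trunc n Q) := by
    have : u * w - aeval π (trunc n P) * aeval π (trunc n Q)
        = (u - aeval π (trunc n P)) * w + aeval π (trunc n P) * (w - aeval π (trunc n Q)) := by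
      ring
    rw [this]
    exact dvd_add (Dvd.dvd.mul_right (hP n) _) (Dvd.dvd.mul_left (hQ n) _)
  have h2 := dvd_aeval_sub_trunc π (trunc n P * trunc n Q) n
  rw [Polynomial.coe_mul, trunc_trunc_mul_trunc, map_mul] at h2
  have := dvd_add h1 h2
  convert this using 1
  ring

omit [IsDomain O] [IsDiscreteValuationRing O] in
theorem isExpansion_algebraMap (π : O) (c : K) :
    IsExpansion π (algebraMap K O c) (PowerSeries.C c) := by
  intro n
  cases n with
  | zero => simp
  | succ n => rw [trunc_C, aeval_C, sub_self]; exact dvd_zero _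

omit [IsDomain O] [IsDiscreteValuationRing O] in
theorem isExpansion_self (π : O) : IsExpansion π π (PowerSeries.X : K⟦X⟧) := by
  intro n
  rcases n with _ | _ | n
  · simp
  · rw [trunc_one_X, map_zero, sub_zero, pow_one]
  · rw [trunc_X, aeval_X, sub_self]; exact dvd_zero _

/-- The expansion map as a `K`-algebra homomorphism `O → K⟦X⟧`. -/
def expand : O →ₐ[K] K⟦X⟧ where
  toFun := expandFun hres hπ
  map_one' := by
    have h := isExpansion_algebraMap (K := K) π 1
    rw [map_one, map_one] at h
    exact (isExpansion_expandFun hres hπ 1).unique hπ h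
  map_mul' u w :=
    (isExpansion_expandFun hres hπ (u * w)).unique hπ
      ((isExpansion_expandFun hres hπ u).mul (isExpansion_expandFun hres hπ w))
  map_zero' := by
    have h := isExpansion_algebraMap (K := K) π 0
    rw [map_zero, map_zero] at h
    exact (isExpansion_expandFun hres hπ 0).unique hπ h
  map_add' u w :=
    (isExpansion_expandFun hres hπ (u + w)).unique hπ
      ((isExpansion_expandFun hres hπ u).add (isExpansion_expandFun hres hπ w))
  commutes' c :=
    (isExpansion_expandFun hres hπ (algebraMap K O c)).unique hπ (isExpansion_algebraMap π c)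

theorem isExpansion_expand (u : O) : IsExpansion π u (expand hres hπ u) :=
  isExpansion_expandFun hres hπ u

theorem expand_uniformizer : expand hres hπ π = PowerSeries.X :=
  (isExpansion_expand hres hπ π).unique hπ (isExpansion_self π)

theorem X_pow_dvd_expand_iff (u : O) (n : ℕ) :
    (PowerSeries.X : K⟦X⟧) ^ n ∣ expand hres hπ u ↔ π ^ n ∣ u := by
  rw [PowerSeries.X_pow_dvd_iff]
  constructor
  · intro h
    have h1 : trunc n (expand hres hπ u) = 0 := by
      ext i
      rw [coeff_trunc]
      split_ifs with hi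
      · simpa using h i hi
      · simp
    have := isExpansion_expand hres hπ u n
    rwa [h1, map_zero, sub_zero] at this
  · intro h
    apply trunc_eq_zero_of_dvd hπ
    have := isExpansion_expand hres hπ u n
    have h2 := dvd_sub h this
    rwa [sub_sub_cancel] at h2

theorem expand_injective : Function.Injective (expand hres hπ) := by
  rw [injective_iff_map_eq_zero]
  intro u hu
  by_contra hne
  obtain ⟨n, ε, rfl⟩ := IsDiscreteValuationRing.eq_unit_mul_pow_irreducible hne hπ
  have h1 : π ^ (n + 1) ∣ (ε : O) * π ^ n := by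
    rw [← X_pow_dvd_expand_iff hres hπ, hu]
    exact dvd_zero _
  rw [pow_succ, mul_comm (ε : O)] at h1
  have h2 : π ∣ (ε : O) := (mul_dvd_mul_iff_left (pow_ne_zero n hπ.ne_zero)).mp h1
  exact hπ.not_isUnit (isUnit_of_dvd_unit h2 ε.isUnit)

end Expansion

/-! ### Part II: the differential of a separating element spans -/

section Span

open KaehlerDifferential IntermediateField

variable {K F : Type*} [Field K] [Field F] [Algebra K F]

theorem D_mem_span_of_mem_adjoin (y : F) (e : F) (he : e ∈ K⟮y⟯) :
    D K F e ∈ Submodule.span F {D K F y} := by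
  induction he using IntermediateField.adjoin_induction with
  | mem x hx =>
    rw [Set.mem_singleton_iff] at hx; subst hx; exact Submodule.subset_span rfl
  | algebraMap x => simp
  | add x z _ _ hx hz => rw [map_add]; exact add_mem hx hz
  | inv x _ hx => rw [Derivation.leibniz_inv]; exact Submodule.smul_mem _ _ hx
  | mul x z _ _ hx hz =>
    rw [Derivation.leibniz]
    exact add_mem (Submodule.smul_mem _ _ hz) (Submodule.smul_mem _ _ hx)

theorem span_D_eq_top [CharZero K] (y : F) [Algebra.IsAlgebraic K⟮y⟯ F] :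
    Submodule.span F {D K F y} = ⊤ := by
  have : CharZero K⟮y⟯ := charZero_of_injective_algebraMap (algebraMap K K⟮y⟯).injective
  have : Algebra.IsSeparable K⟮y⟯ F := Algebra.IsAlgebraic.isSeparable_of_perfectField
  have := Algebra.FormallyUnramified.of_isSeparable K⟮y⟯ F
  rw [eq_top_iff, ← span_range_derivation K F, Submodule.span_le]
  rintro _ ⟨f, rfl⟩
  have hex := exact_mapBaseChange_map K K⟮y⟯ F
  have h0 : map K K⟮y⟯ F F (D K F f) = 0 := Subsingleton.elim _ _
  obtain ⟨t, ht⟩ := (hex _).mp h0
  rw [← ht]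
  clear ht h0
  induction t using TensorProduct.induction_on with
  | zero => simp
  | tmul b ω =>
    rw [mapBaseChange_tmul]
    apply Submodule.smul_mem
    have hω : ω ∈ Submodule.span K⟮y⟯ (Set.range (D K K⟮y⟯)) := by
      rw [span_range_derivation]; trivial
    induction hω using Submodule.span_induction with
    | mem x hx =>
      obtain ⟨e, rfl⟩ := hx
      rw [map_D]
      exact D_mem_span_of_mem_adjoin y _ e.2
    | zero => simp
    | add x z _ _ hx hz => rw [map_add]; exact add_mem hx hz
    | smul a x _ hx =>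
      rw [map_smul, ← algebraMap_smul F a]
      exact Submodule.smul_mem _ _ hx
  | add x z hx hz => rw [map_add]; exact add_mem hx hz

end Span

/-! ### Part III: the local computation -/

open KaehlerDifferential IntermediateField

section Local

variable {K : Type*} [Field K] {O : Type*} [CommRing O] [IsDomain O]
  [IsDiscreteValuationRing O] [Algebra K O]
  {F : Type*} [Field F] [Algebra K F] [Algebra O F] [IsScalarTower K O F] [IsFractionRing O F]
  (hres : Function.Surjective (algebraMap K (IsLocalRing.ResidueField O)))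
  {π : O} (hπ : Irreducible π)

open PowerSeries in
theorem expand_rel (u a b : O)
    (h : algebraMap O F b • D K F (algebraMap O F u) = algebraMap O F a • D K F (algebraMap O F π)) :
    expand hres hπ a = expand hres hπ b * d⁄dX K (expand hres hπ u) := by
  let _ : Algebra O K⟦X⟧ := (expand hres hπ).toRingHom.toAlgebra
  have : IsScalarTower K O K⟦X⟧ := IsScalarTower.of_algebraMap_eq fun c =>
    ((expand hres hπ).commutes c).symm
  let δ : Derivation K O K⟦X⟧ := (d⁄dX K).compAlgebraMap O
  have hδ : ∀ w : O, δ w = d⁄dX K (expand hres hπ w) := fun w => rfl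
  let lam : Ω[O⁄K] →ₗ[O] K⟦X⟧ := δ.liftKaehlerDifferential
  have hlam : ∀ w : O, lam (D K O w) = d⁄dX K (expand hres hπ w) := fun w => by
    rw [← hδ]; exact δ.liftKaehlerDifferential_comp_D w
  have hsm : ∀ (s : O) (P : K⟦X⟧), s • P = expand hres hπ s * P := fun s P => rfl
  set x : Ω[O⁄K] := b • D K O u - a • D K O π with hx
  have hιx : KaehlerDifferential.map K K O F x = 0 := by
    rw [hx, map_sub, map_smul, map_smul, map_D, map_D, ← algebraMap_smul F b, ← algebraMap_smul F a,
      h, sub_self]
  have hloc : IsLocalizedModule (nonZeroDivisors O) (KaehlerDifferential.map K K O F) :=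
    KaehlerDifferential.isLocalizedModule_map K O F (nonZeroDivisors O)
  obtain ⟨s, hs⟩ := IsLocalizedModule.exists_of_eq (S := nonZeroDivisors O)
    (f := KaehlerDifferential.map K K O F) (hιx.trans (map_zero _).symm)
  rw [smul_zero] at hs
  have h2 := congrArg lam hs
  rw [map_zero, Submonoid.smul_def, map_smul, hx, map_sub, map_smul, map_smul, hlam, hlam,
    expand_uniformizer, derivative_X, hsm, hsm, hsm, mul_one] at h2
  have hs0 : expand hres hπ (s : O) ≠ 0 := by
    intro h0
    have := expand_injective hres hπ (h0.trans (map_zero _).symm)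
    exact nonZeroDivisors.coe_ne_zero s this
  have h3 := (mul_eq_zero.mp h2).resolve_left hs0
  exact (sub_eq_zero.mp h3).symm

include hres hπ in
theorem D_uniformizer_ne_zero : D K F (algebraMap O F π) ≠ 0 := by
  intro h0
  have h := expand_rel (F := F) hres hπ π 0 1 (by rw [h0, smul_zero, smul_zero])
  rw [map_zero, map_one, one_mul, expand_uniformizer, PowerSeries.derivative_X] at h
  exact zero_ne_one h

open PowerSeries in
theorem order_expand_unit_mul_pow (ε : Oˣ) (k : ℕ) :
    (expand hres hπ ((ε : O) * π ^ k)).order = k := by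
  rw [map_mul, map_pow, expand_uniformizer, order_mul, order_X_pow,
    order_zero_of_unit (ε.isUnit.map (expand hres hπ)), zero_add]

include hres hπ in
open PowerSeries in
theorem coeff_eq_unit_mul_pow [CharZero K] (m : ℕ) (hm : m ≠ 0) (ε : Oˣ) (c : F)
    (hc : D K F (algebraMap O F ((ε : O) * π ^ m)) = c • D K F (algebraMap O F π)) :
    ∃ ε' : Oˣ, c = algebraMap O F (ε' : O) * algebraMap O F π ^ (m - 1) := by
  obtain ⟨a, b, hb, rfl⟩ := IsFractionRing.div_surjective (A := O) c
  have hb0 : b ≠ 0 := nonZeroDivisors.ne_zero hb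
  have hbF : algebraMap O F b ≠ 0 := by
    simpa using (IsFractionRing.injective O F).ne hb0
  have h1 := expand_rel (F := F) hres hπ ((ε : O) * π ^ m) a b (by
    rw [hc, smul_smul]; congr 1; field_simp)
  -- derivative of the expansion
  set E := expand hres hπ (ε : O) with hE
  have hEu : IsUnit E := ε.isUnit.map (expand hres hπ)
  have hder : d⁄dX K (expand hres hπ ((ε : O) * π ^ m))
      = X ^ (m - 1) * ((m : K⟦X⟧) * E + X * d⁄dX K E) := by
    rw [map_mul, map_pow, expand_uniformizer, Derivation.leibniz, Derivation.leibniz_pow,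
      derivative_X]
    obtain ⟨n, rfl⟩ := Nat.exists_eq_succ_of_ne_zero hm
    simp only [Nat.succ_sub_one, smul_eq_mul, nsmul_eq_mul, mul_one, pow_succ]
    push_cast
    ring
  have hU : IsUnit ((m : K⟦X⟧) * E + X * d⁄dX K E) := by
    rw [isUnit_iff_constantCoeff, map_add, map_mul, map_mul, constantCoeff_X, zero_mul, add_zero,
      map_natCast]
    exact (IsUnit.mk0 _ (Nat.cast_ne_zero.mpr hm)).mul (isUnit_iff_constantCoeff.mp hEu)
  rw [hder] at h1
  have ha0 : a ≠ 0 := by
    rintro rfl
    rw [map_zero] at h1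
    have hb' : expand hres hπ b ≠ 0 := fun h0 =>
      hb0 (expand_injective hres hπ (h0.trans (map_zero _).symm))
    rcases mul_eq_zero.mp h1.symm with h | h
    · exact hb' h
    · rcases mul_eq_zero.mp h with h | h
      · exact pow_ne_zero _ X_ne_zero h
      · exact hU.ne_zero h
  obtain ⟨ka, εa, rfl⟩ := IsDiscreteValuationRing.eq_unit_mul_pow_irreducible ha0 hπ
  obtain ⟨kb, εb, rfl⟩ := IsDiscreteValuationRing.eq_unit_mul_pow_irreducible hb0 hπ
  have h2 := congrArg PowerSeries.order h1
  rw [order_expand_unit_mul_pow, order_mul, order_expand_unit_mul_pow, order_mul, order_X_pow,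
    order_zero_of_unit hU, add_zero] at h2
  have h3 : ka = kb + (m - 1) := by exact_mod_cast h2
  refine ⟨εa * εb⁻¹, ?_⟩
  have hπF : algebraMap O F π ≠ 0 := by
    simpa using (IsFractionRing.injective O F).ne hπ.ne_zero
  have hεb : algebraMap O F (εb : O) ≠ 0 := by
    simp
  have hinv : algebraMap O F ((εb⁻¹ : Oˣ) : O) = (algebraMap O F (εb : O))⁻¹ := by
    apply eq_inv_of_mul_eq_one_left
    rw [← map_mul, ← Units.val_mul, inv_mul_cancel, Units.val_one, map_one]
  rw [h3, Units.val_mul, map_mul, map_mul, map_mul, map_pow, map_pow, hinv, pow_add]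
  field_simp

end Local

/-! ### Part IV: places -/

open AlgebraicCurve

section PlaceLevel

variable {K F : Type*} [Field K] [Field F] [Algebra K F]

theorem surjective_of_deg_eq_one (v : Place K F) (hdeg : v.deg = 1) :
    Function.Surjective (algebraMap K (IsLocalRing.ResidueField v.toValuationSubring)) := by
  have h : (⊥ : Subalgebra K v.ResidueField) = ⊤ :=
    Subalgebra.bot_eq_top_iff_finrank_eq_one.mpr hdeg
  intro y
  have hy : y ∈ (⊤ : Subalgebra K v.ResidueField) := Algebra.mem_top
  rw [← h, Algebra.mem_bot] at hy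
  exact hy

theorem dCoord_spec (v : Place K F) :
    ∃ π : v.toValuationSubring, Irreducible π ∧ v.dCoord = D K F (π : F) :=
  ⟨_, (IsDiscreteValuationRing.exists_irreducible v.toValuationSubring).choose_spec, rfl⟩

theorem ord_eq_zero_of_isAlgebraic (v : Place K F) {y : F} (hy : IsAlgebraic K y) (hy0 : y ≠ 0) :
    v.ord y = 0 := by
  have key : ∀ z : F, IsAlgebraic K z → z ∈ v.toValuationSubring := by
    intro z hz
    have h1 : IsIntegral v.toValuationSubring z := hz.isIntegral.tower_top
    obtain ⟨w, hw⟩ := IsIntegrallyClosed.isIntegral_iff.mp h1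
    rw [← hw]
    exact w.2
  have h1 := key y hy
  have h2 := key y⁻¹ hy.inv
  let u : (v.toValuationSubring)ˣ := ⟨⟨y, h1⟩, ⟨y⁻¹, h2⟩, by
    ext; simp [hy0], by ext; simp [hy0]⟩
  exact v.ord_coe_unit u


end PlaceLevel

/-! ### Part V: main statements -/

section PlaceMain

variable {K F : Type*} [Field K] [Field F] [Algebra K F] [CharZero K]

/-- Hypothesis "transcendence degree one": every transcendental element is a separating
variable. -/
def TrdegOne (K F : Type*) [Field K] [Field F] [Algebra K F] : Prop :=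
  ∀ y : F, Transcendental K y → Algebra.IsAlgebraic K⟮y⟯ F

omit [CharZero K] in
open scoped IntermediateField.algebraAdjoinAdjoin in
theorem trdegOne_of_isAlgebraic (x : F) [Algebra.IsAlgebraic K⟮x⟯ F] : TrdegOne K F := by
  intro y hy
  have hx : Transcendental K x := by
    intro hxalg
    have h1 : Algebra.IsAlgebraic K K⟮x⟯ := isAlgebraic_adjoin_simple hxalg.isIntegral
    have h2 : Algebra.IsAlgebraic K F := Algebra.IsAlgebraic.trans K K⟮x⟯ F
    exact hy (Algebra.IsAlgebraic.isAlgebraic y)
  have hxi : AlgebraicIndependent K (fun _ : PUnit => x) :=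
    algebraicIndependent_unique_type_iff.mpr hx
  have hxb : IsTranscendenceBasis K (fun _ : PUnit => x) := by
    refine hxi.isTranscendenceBasis_iff_isAlgebraic.mpr ?_
    have hr : Set.range (fun _ : PUnit => x) = {x} := by
      ext z; simp [eq_comm]
    rw [hr]
    exact (IsFractionRing.comap_isAlgebraic_iff (A := Algebra.adjoin K {x}) (K := K⟮x⟯)
      (C := F)).mpr inferInstance
  have htr : Algebra.trdeg K F = 1 := by
    rw [← hxb.cardinalMk_eq_trdeg]; simp
  have hyi : AlgebraicIndependent K (fun _ : PUnit => y) :=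
    algebraicIndependent_unique_type_iff.mpr hy
  have hyb : IsTranscendenceBasis K (fun _ : PUnit => y) :=
    hyi.isTranscendenceBasis_of_trdeg_le_of_finite (by rw [htr]; simp)
  have h3 := hyb.isAlgebraic_field
  have hr : Set.range (fun _ : PUnit => y) = {y} := by
    ext z; simp [eq_comm]
  rw [hr] at h3
  exact h3

omit [CharZero K] in
theorem transcendental_of_irreducible (v : Place K F) {π : v.toValuationSubring}
    (hπ : Irreducible π) : Transcendental K (π : F) := by
  intro halg
  have hπ0 : (π : F) ≠ 0 := by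
    simpa [ne_eq, ZeroMemClass.coe_eq_zero] using hπ.ne_zero
  have h1 := ord_eq_zero_of_isAlgebraic v halg hπ0
  rw [v.ord_coe_irreducible hπ] at h1
  exact one_ne_zero h1

/-- Local structure of differentials at a place of degree one. -/
theorem local_structure (hF : TrdegOne K F) (v : Place K F) (hdeg : v.deg = 1) :
    ∃ π : v.toValuationSubring, Irreducible π ∧ v.dCoord = D K F (π : F) ∧
      Submodule.span F {D K F (π : F)} = ⊤ ∧ D K F (π : F) ≠ 0 := by
  obtain ⟨π, hπ, hd⟩ := dCoord_spec v
  have htr := transcendental_of_irreducible v hπ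
  have := hF _ htr
  exact ⟨π, hπ, hd, span_D_eq_top (π : F),
    D_uniformizer_ne_zero (F := F) (surjective_of_deg_eq_one v hdeg) hπ⟩

theorem dCoordGenerates (hF : TrdegOne K F) (v : Place K F) (hdeg : v.deg = 1) :
    v.DCoordGenerates := by
  obtain ⟨π, hπ, hd, hspan, hne⟩ := local_structure hF v hdeg
  exact ⟨by rw [hd]; exact hspan⟩

theorem nontrivial_kaehler (hF : TrdegOne K F) (v : Place K F) (hdeg : v.deg = 1) :
    Nontrivial Ω[F⁄K] := by
  obtain ⟨π, hπ, hd, hspan, hne⟩ := local_structure hF v hdeg
  exact ⟨⟨_, _, hne⟩⟩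

theorem finrank_kaehler (hF : TrdegOne K F) (v : Place K F) (hdeg : v.deg = 1) :
    Module.finrank F Ω[F⁄K] = 1 := by
  obtain ⟨π, hπ, hd, hspan, hne⟩ := local_structure hF v hdeg
  rw [finrank_eq_one_iff_of_nonzero' _ hne]
  intro w
  have hw : w ∈ Submodule.span F {D K F (π : F)} := by rw [hspan]; trivial
  exact Submodule.mem_span_singleton.mp hw

/-- The positive-order case. -/
theorem exists_coeff_of_pos (hF : TrdegOne K F) (v : Place K F) (hdeg : v.deg = 1)
    (f : F) (hf0 : f ≠ 0) (hf : 0 < v.ord f) :
    ∃ c : F, c ≠ 0 ∧ D K F f = c • v.dCoord ∧ v.ord c = v.ord f - 1 := by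
  obtain ⟨π, hπ, hd, hspan, hne⟩ := local_structure hF v hdeg
  have hres := surjective_of_deg_eq_one v hdeg
  obtain ⟨u, hu⟩ := v.exists_unit_mul_zpow hf0 hπ
  obtain ⟨m, hm⟩ := Int.eq_ofNat_of_zero_le hf.le
  have hm0 : m ≠ 0 := by
    rintro rfl
    rw [hm] at hf
    exact lt_irrefl _ hf
  have hf' : f = algebraMap v.toValuationSubring F ((u : v.toValuationSubring) * π ^ m) := by
    rw [hu, hm, zpow_natCast]
    rfl
  have hw : D K F f ∈ Submodule.span F {D K F (π : F)} := by rw [hspan]; trivial
  obtain ⟨c, hc⟩ := Submodule.mem_span_singleton.mp hw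
  have hc' : D K F (algebraMap v.toValuationSubring F ((u : v.toValuationSubring) * π ^ m))
      = c • D K F (algebraMap v.toValuationSubring F π) := by
    rw [← hf', ← hc]
    rfl
  obtain ⟨ε', hε'⟩ := coeff_eq_unit_mul_pow (F := F) hres hπ m hm0 u c hc'
  have hord : v.ord c = (m : ℤ) - 1 := by
    rw [hε']
    have := v.ord_unit_smul_zpow ε' hπ ((m : ℤ) - 1)
    rw [← this]
    congr 1
    rw [show ((m : ℤ) - 1) = ((m - 1 : ℕ) : ℤ) by omega, zpow_natCast]
    rfl
  refine ⟨c, ?_, ?_, ?_⟩
  · rintro rfl
    have hE : ((ε' : v.toValuationSubring) : F) ≠ 0 := by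
      simp [ne_eq, ZeroMemClass.coe_eq_zero]
    have hπF : (π : F) ≠ 0 := by
      simpa [ne_eq, ZeroMemClass.coe_eq_zero] using hπ.ne_zero
    exact mul_ne_zero hE (pow_ne_zero _ hπF) hε'.symm
  · rw [hd, hc]
  · rw [hord, hm]

/-- **Order of a differential `df` at a place** (characteristic zero): if `ord_v f ≠ 0` then
`df = c • d(uniformizer)` with `ord_v c = ord_v f - 1`. -/
theorem exists_coeff (hF : TrdegOne K F) (v : Place K F) (hdeg : v.deg = 1)
    (f : F) (hf0 : f ≠ 0) (hf : v.ord f ≠ 0) :
    ∃ c : F, c ≠ 0 ∧ D K F f = c • v.dCoord ∧ v.ord c = v.ord f - 1 := by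
  rcases lt_or_gt_of_ne hf with hneg | hpos
  · have hg0 : f⁻¹ ≠ 0 := inv_ne_zero hf0
    have hg : 0 < v.ord f⁻¹ := by rw [v.ord_inv]; omega
    obtain ⟨c, hc0, hc, hcord⟩ := exists_coeff_of_pos hF v hdeg f⁻¹ hg0 hg
    refine ⟨-(f ^ 2) * c, mul_ne_zero (neg_ne_zero.mpr (pow_ne_zero 2 hf0)) hc0, ?_, ?_⟩
    · have h1 : D K F f = -(f ^ 2) • D K F f⁻¹ := by
        have := Derivation.leibniz_inv (D K F) f⁻¹
        rw [inv_inv] at this
        exact this
      rw [h1, hc, smul_smul]
    · have hf2 : -(f ^ 2) ≠ 0 := neg_ne_zero.mpr (pow_ne_zero 2 hf0)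
      rw [v.ord_mul hf2 hc0, hcord, v.ord_inv]
      have h2 : v.ord (-(f ^ 2)) = 2 * v.ord f := by
        have hneg1 : v.ord (-1 : F) = 0 := by
          have h := v.ord_mul (f := (-1 : F)) (g := -1) (by simp) (by simp)
          rw [show (-1 : F) * -1 = 1 by ring, v.ord_one] at h
          omega
        rw [show -(f ^ 2) = (-1 : F) * (f * f) by ring, v.ord_mul (by simp) (mul_ne_zero hf0 hf0),
          v.ord_mul hf0 hf0, hneg1]
        ring
      rw [h2]; ring
  · exact exists_coeff_of_pos hF v hdeg f hf0 hpos

theorem ordDifferential_D (hF : TrdegOne K F) (v : Place K F) (hdeg : v.deg = 1)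
    (f : F) (hf0 : f ≠ 0) (hf : v.ord f ≠ 0) :
    v.ordDifferential (D K F f) = v.ord f - 1 := by
  obtain ⟨c, hc0, hc, hcord⟩ := exists_coeff hF v hdeg f hf0 hf
  have := dCoordGenerates hF v hdeg
  have := nontrivial_kaehler hF v hdeg
  rw [Place.ordDifferential, v.differentialCoeff_unique hc, hcord]


/-- Scaling a nonzero differential shifts `ordDifferential` by `ord`. -/
theorem ordDifferential_smul' (hF : TrdegOne K F) (v : Place K F) (hdeg : v.deg = 1)
    (c : F) (hc : c ≠ 0) (ω : Ω[F⁄K]) (hω : ω ≠ 0) :
    v.ordDifferential (c • ω) = v.ord c + v.ordDifferential ω := by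
  have := dCoordGenerates hF v hdeg
  have := nontrivial_kaehler hF v hdeg
  refine v.ordDifferential_smul hc ?_
  intro h0
  have h1 := v.differentialCoeff_smul_dCoord ω
  rw [h0, zero_smul] at h1
  exact hω h1.symm

/-- `ord_v(dx) = ord_v(x - a) - 1` whenever `ord_v(x - a) ≠ 0`. -/
theorem ordDifferential_D_sub (hF : TrdegOne K F) (v : Place K F) (hdeg : v.deg = 1)
    (x : F) (a : K) (hx : x - algebraMap K F a ≠ 0) (h : v.ord (x - algebraMap K F a) ≠ 0) :
    v.ordDifferential (D K F x) = v.ord (x - algebraMap K F a) - 1 := by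
  have h1 : D K F (x - algebraMap K F a) = D K F x := by
    rw [map_sub, Derivation.map_algebraMap, sub_zero]
  rw [← h1]
  exact ordDifferential_D hF v hdeg _ hx h

omit [CharZero K] in
/-- Membership in the valuation ring of a place in terms of `ord`. -/
theorem mem_iff_ord_nonneg (v : Place K F) {f : F} (hf : f ≠ 0) :
    f ∈ v.toValuationSubring ↔ 0 ≤ v.ord f := by
  obtain ⟨π, hπ⟩ := IsDiscreteValuationRing.exists_irreducible v.toValuationSubring
  constructor
  · intro hmem
    have hne : (⟨f, hmem⟩ : v.toValuationSubring) ≠ 0 := by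
      intro h0
      exact hf (congrArg Subtype.val h0)
    obtain ⟨n, ε, hε⟩ := IsDiscreteValuationRing.eq_unit_mul_pow_irreducible hne hπ
    have h1 : f = ((ε : v.toValuationSubring) : F) * (π : F) ^ (n : ℤ) := by
      have := congrArg Subtype.val hε
      simpa using this
    rw [h1, v.ord_unit_smul_zpow ε hπ n]
    exact Int.natCast_nonneg n
  · intro hnn
    obtain ⟨u, hu⟩ := v.exists_unit_mul_zpow hf hπ
    obtain ⟨m, hm⟩ := Int.eq_ofNat_of_zero_le hnn
    rw [hu, hm, zpow_natCast]
    exact mul_mem (u : v.toValuationSubring).2 (pow_mem π.2 m)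

omit [CharZero K] in
/-- At a place of degree one every integral element has a value in `K`. -/
theorem exists_sub_ord_pos (v : Place K F) (hdeg : v.deg = 1) (f : F)
    (hf : f ∈ v.toValuationSubring) :
    ∃ a : K, f = algebraMap K F a ∨ 0 < v.ord (f - algebraMap K F a) := by
  have hres := surjective_of_deg_eq_one v hdeg
  obtain ⟨π, hπ⟩ := IsDiscreteValuationRing.exists_irreducible v.toValuationSubring
  set u : v.toValuationSubring := ⟨f, hf⟩ with hu
  refine ⟨resHom hres u, ?_⟩
  set w : v.toValuationSubring := u - algebraMap K v.toValuationSubring (resHom hres u) with hw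
  have hwm : w ∈ IsLocalRing.maximalIdeal v.toValuationSubring := sub_resHom_mem hres u
  have hwF : (w : F) = f - algebraMap K F (resHom hres u) := rfl
  by_cases hw0 : w = 0
  · left
    have := congrArg Subtype.val hw0
    rw [hwF] at this
    exact sub_eq_zero.mp this
  · right
    obtain ⟨n, ε, hε⟩ := IsDiscreteValuationRing.eq_unit_mul_pow_irreducible hw0 hπ
    have hn : n ≠ 0 := by
      rintro rfl
      rw [pow_zero, mul_one] at hε
      rw [hε] at hwm
      exact (IsLocalRing.mem_maximalIdeal _).mp hwm ε.isUnit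
    have h1 : (w : F) = ((ε : v.toValuationSubring) : F) * (π : F) ^ (n : ℤ) := by
      have := congrArg Subtype.val hε
      simpa using this
    rw [← hwF, h1, v.ord_unit_smul_zpow ε hπ n]
    exact_mod_cast Nat.pos_of_ne_zero hn

/-- Every differential is a multiple of `dx` for a separating variable `x`. -/
theorem exists_smul_D (x : F) [Algebra.IsAlgebraic K⟮x⟯ F] (ω : Ω[F⁄K]) :
    ∃ c : F, ω = c • D K F x := by
  have hw : ω ∈ Submodule.span F {D K F x} := by rw [span_D_eq_top x]; trivial
  obtain ⟨c, hc⟩ := Submodule.mem_span_singleton.mp hw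
  exact ⟨c, hc.symm⟩

/-- `dx ≠ 0` for a separating variable `x`, as soon as there is a place of degree one. -/
theorem D_ne_zero (x : F) [Algebra.IsAlgebraic K⟮x⟯ F] (v : Place K F) (hdeg : v.deg = 1) :
    D K F x ≠ 0 := by
  intro h0
  have := nontrivial_kaehler (trdegOne_of_isAlgebraic x) v hdeg
  obtain ⟨ω, hω⟩ := exists_ne (0 : Ω[F⁄K])
  obtain ⟨c, hc⟩ := exists_smul_D x ω
  rw [h0, smul_zero] at hc
  exact hω hc

end PlaceMain

end Fermat.Agent.Lib.FFDiff
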