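import Mathlib
import Fermat.Prelude.Def_AlgebraicCurve_DivisorClassGroup

set_option autoImplicit false
set_option linter.unusedSectionVars false
set_option linter.style.haveILetI false

namespace Fermat.Agent.Lib.PlaceChart

open AlgebraicCurve IsDedekindDomain Polynomial

noncomputable section

section Chart

variable {K F : Type*} [Field K] [Field F] [Algebra K F]
  [Algebra K[X] F] [Algebra (RatFunc K) F] [IsScalarTower K[X] (RatFunc K) F]
  [IsScalarTower K K[X] F] [FunctionField K F] [Algebra.IsSeparable (RatFunc K) F]

theorem algebraMap_poly_mem (v : Place K F)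
    (hx : algebraMap K[X] F X ∈ v.toValuationSubring) (p : K[X]) :
    algebraMap K[X] F p ∈ v.toValuationSubring := by
  induction p using Polynomial.induction_on with
  | C a =>
    rw [← Polynomial.algebraMap_eq, ← IsScalarTower.algebraMap_apply K K[X] F]
    exact v.algebraMap_mem' a
  | add p q hp hq => rw [map_add]; exact add_mem hp hq
  | monomial n a h =>
    rw [pow_succ, ← mul_assoc, map_mul]
    exact mul_mem h hx

theorem coe_mem_of_X_mem (v : Place K F)
    (hx : algebraMap K[X] F X ∈ v.toValuationSubring)
    (b : FunctionField.ringOfIntegers K F) : (b : F) ∈ v.toValuationSubring := by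
  have hb : IsIntegral K[X] (b : F) := b.2
  obtain ⟨p, hp, hpe⟩ := hb
  let φ : K[X] →+* v.toValuationSubring :=
    (algebraMap K[X] F).codRestrict v.toValuationSubring.toSubring (algebraMap_poly_mem v hx)
  have hint : IsIntegral v.toValuationSubring (b : F) := by
    refine ⟨p.map φ, hp.map φ, ?_⟩
    rw [Polynomial.eval₂_map]
    exact hpe
  obtain ⟨y, hy⟩ := (IsIntegrallyClosed.isIntegral_iff (R := v.toValuationSubring) (K := F)).mp hint
  rw [← hy]
  exact y.2

/-- The ring hom from the ring of integers to the valuation ring. -/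
def toValRing (v : Place K F) (hx : algebraMap K[X] F X ∈ v.toValuationSubring) :
    FunctionField.ringOfIntegers K F →+* v.toValuationSubring :=
  (algebraMap (FunctionField.ringOfIntegers K F) F).codRestrict v.toValuationSubring.toSubring
    (coe_mem_of_X_mem v hx)

theorem exists_heightOneSpectrum (v : Place K F)
    (hx : algebraMap K[X] F X ∈ v.toValuationSubring) :
    ∃ w : HeightOneSpectrum (FunctionField.ringOfIntegers K F),
      (w.valuation F).valuationSubring = v.toValuationSubring := by
  let φ := toValRing v hx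
  let P : Ideal (FunctionField.ringOfIntegers K F) :=
    (IsLocalRing.maximalIdeal v.toValuationSubring).comap φ
  have hPprime : P.IsPrime := Ideal.comap_isPrime φ _
  have hunit : ∀ s : FunctionField.ringOfIntegers K F, s ∉ P →
      ((s : F))⁻¹ ∈ v.toValuationSubring := by
    intro s hs
    have hsu : IsUnit (φ s) := by
      by_contra hnu
      exact hs hnu
    obtain ⟨u, hu⟩ := hsu
    have h1 : ((u⁻¹ : (v.toValuationSubring)ˣ) : F) = ((s : F))⁻¹ := by
      have h2 : ((u : v.toValuationSubring) : F) = (s : F) := by rw [hu]; rfl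
      rw [← h2]
      have h3 : ((u : v.toValuationSubring) : F) * ((u⁻¹ : (v.toValuationSubring)ˣ) : F) = 1 := by
        rw [← MulMemClass.coe_mul, Units.mul_inv]; rfl
      exact eq_inv_of_mul_eq_one_right h3
    rw [← h1]
    exact (u⁻¹ : (v.toValuationSubring)ˣ).1.2
  have hPne : P ≠ ⊥ := by
    intro h
    apply v.ne_top'
    ext f
    simp only [ValuationSubring.mem_top, iff_true]
    obtain ⟨b, s, hs, rfl⟩ := IsFractionRing.div_surjective (A := FunctionField.ringOfIntegers K F) f
    have hs0 : s ≠ 0 := nonZeroDivisors.ne_zero hs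
    have hsP : s ∉ P := by rw [h]; exact hs0
    rw [div_eq_mul_inv]
    exact mul_mem (coe_mem_of_X_mem v hx b) (hunit s hsP)
  let w : HeightOneSpectrum (FunctionField.ringOfIntegers K F) := ⟨P, hPprime, hPne⟩
  refine ⟨w, ?_⟩
  rw [← HeightOneSpectrum.valuationSubringAtPrime_eq_valuationSubring]
  refine ValuationSubring.eq_of_le_of_ne_top _ ?_ v.ne_top'
  rintro x ⟨a, s, hs, rfl⟩
  exact mul_mem (coe_mem_of_X_mem v hx a) (hunit s hs)


theorem mem_iff_of_eq (v : Place K F)
    (w : HeightOneSpectrum (FunctionField.ringOfIntegers K F))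
    (hw : (w.valuation F).valuationSubring = v.toValuationSubring) (x : F) :
    x ∈ v.toValuationSubring ↔ w.valuation F x ≤ 1 := by
  rw [← hw]; rfl

theorem coe_mem_of_eq (v : Place K F) (w : HeightOneSpectrum (FunctionField.ringOfIntegers K F))
    (hw : (w.valuation F).valuationSubring = v.toValuationSubring)
    (b : FunctionField.ringOfIntegers K F) :
    algebraMap (FunctionField.ringOfIntegers K F) F b ∈ v.toValuationSubring := by
  rw [mem_iff_of_eq v w hw]
  exact w.valuation_le_one b

theorem X_mem_of_eq (v : Place K F) (w : HeightOneSpectrum (FunctionField.ringOfIntegers K F))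
    (hw : (w.valuation F).valuationSubring = v.toValuationSubring) :
    algebraMap K[X] F X ∈ v.toValuationSubring := by
  rw [IsScalarTower.algebraMap_apply K[X] (FunctionField.ringOfIntegers K F) F]
  exact coe_mem_of_eq v w hw _

theorem mem_maximalIdeal_iff (v : Place K F)
    (w : HeightOneSpectrum (FunctionField.ringOfIntegers K F))
    (hw : (w.valuation F).valuationSubring = v.toValuationSubring)
    (g : v.toValuationSubring) :
    g ∈ IsLocalRing.maximalIdeal v.toValuationSubring ↔ w.valuation F (g : F) < 1 := by
  rw [← ValuationSubring.coe_mem_nonunits_iff, ValuationSubring.mem_nonunits_iff_or]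
  constructor
  · rintro (h | h)
    · rw [h, map_zero]; exact zero_lt_one
    · rw [mem_iff_of_eq v w hw, map_inv₀, not_le] at h
      by_cases h0 : w.valuation F (g : F) = 0
      · rw [h0]; exact zero_lt_one
      · exact (one_lt_inv₀ (zero_lt_iff.mpr h0)).mp h
  · intro h
    by_cases h0 : (g : F) = 0
    · exact Or.inl h0
    · right
      rw [mem_iff_of_eq v w hw, map_inv₀, not_le]
      have hne : w.valuation F (g : F) ≠ 0 := (Valuation.ne_zero_iff _).mpr h0
      exact (one_lt_inv₀ (zero_lt_iff.mpr hne)).mpr h

theorem valuation_unit_eq_one (v : Place K F)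
    (w : HeightOneSpectrum (FunctionField.ringOfIntegers K F))
    (hw : (w.valuation F).valuationSubring = v.toValuationSubring)
    (u : (v.toValuationSubring)ˣ) :
    w.valuation F ((u : v.toValuationSubring) : F) = 1 := by
  have h1 : w.valuation F ((u : v.toValuationSubring) : F) ≤ 1 :=
    (mem_iff_of_eq v w hw _).mp u.1.2
  have h2 : ¬ w.valuation F ((u : v.toValuationSubring) : F) < 1 := by
    rw [← mem_maximalIdeal_iff v w hw]
    intro h
    exact (IsLocalRing.mem_maximalIdeal _).mp h u.isUnit
  exact le_antisymm h1 (not_lt.mp h2)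

theorem valuation_irreducible (v : Place K F)
    (w : HeightOneSpectrum (FunctionField.ringOfIntegers K F))
    (hw : (w.valuation F).valuationSubring = v.toValuationSubring)
    {π : v.toValuationSubring} (hπ : Irreducible π) :
    w.valuation F (π : F) = WithZero.exp (-1 : ℤ) := by
  obtain ⟨π₀, hπ₀⟩ := w.valuation_exists_uniformizer F
  have hπ₀mem : π₀ ∈ v.toValuationSubring := by
    rw [mem_iff_of_eq v w hw, hπ₀]
    exact (WithZero.exp_le_exp.mpr (by norm_num : (-1 : ℤ) ≤ 0)).trans_eq WithZero.exp_zero
  have hπ₀max : (⟨π₀, hπ₀mem⟩ : v.toValuationSubring) ∈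
      IsLocalRing.maximalIdeal v.toValuationSubring := by
    rw [mem_maximalIdeal_iff v w hw]
    show w.valuation F π₀ < 1
    rw [hπ₀, ← WithZero.exp_zero]
    exact WithZero.exp_lt_exp.mpr (by norm_num)
  rw [hπ.maximalIdeal_eq, Ideal.mem_span_singleton] at hπ₀max
  obtain ⟨c, hc⟩ := hπ₀max
  have hc' : π₀ = (π : F) * (c : F) := by
    have := congrArg Subtype.val hc
    simpa using this
  have hcle : w.valuation F (c : F) ≤ 1 := (mem_iff_of_eq v w hw _).mp c.2
  have hπlt : w.valuation F (π : F) < 1 := by
    rw [← mem_maximalIdeal_iff v w hw, hπ.maximalIdeal_eq]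
    exact Ideal.mem_span_singleton_self π
  have hπne : w.valuation F (π : F) ≠ 0 := by
    rw [Valuation.ne_zero_iff]
    intro h
    exact hπ.ne_zero (Subtype.ext h)
  have hge : WithZero.exp (-1 : ℤ) ≤ w.valuation F (π : F) := by
    rw [← hπ₀, hc', map_mul]
    exact mul_le_of_le_one_right' hcle
  obtain ⟨n, hn⟩ : ∃ n : ℤ, w.valuation F (π : F) = WithZero.exp n :=
    ⟨WithZero.log (w.valuation F (π : F)), (WithZero.exp_log hπne).symm⟩
  rw [hn] at hge hπlt ⊢
  rw [WithZero.exp_le_exp] at hge
  rw [← WithZero.exp_zero, WithZero.exp_lt_exp] at hπlt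
  congr 1
  omega

theorem ord_eq (v : Place K F) (w : HeightOneSpectrum (FunctionField.ringOfIntegers K F))
    (hw : (w.valuation F).valuationSubring = v.toValuationSubring) (f : F) :
    v.ord f = -(WithZero.log (w.valuation F f)) := by
  rcases eq_or_ne f 0 with rfl | hf
  · simp
  obtain ⟨π, hπ⟩ := IsDiscreteValuationRing.exists_irreducible v.toValuationSubring
  obtain ⟨u, hu⟩ := v.exists_unit_mul_zpow hf hπ
  conv_rhs => rw [hu]
  rw [map_mul, valuation_unit_eq_one v w hw u, one_mul, map_zpow₀,
    valuation_irreducible v w hw hπ, ← WithZero.exp_zsmul, WithZero.log_exp]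
  simp


theorem finiteType_ringOfIntegers : Algebra.FiniteType K (FunctionField.ringOfIntegers K F) := by
  have h1 : Algebra.FiniteType K K[X] := inferInstance
  have h2 : Algebra.FiniteType K[X] (FunctionField.ringOfIntegers K F) := inferInstance
  exact Algebra.FiniteType.trans h1 h2

theorem exists_sub_mem_asIdeal [IsAlgClosed K]
    (w : HeightOneSpectrum (FunctionField.ringOfIntegers K F))
    (b : FunctionField.ringOfIntegers K F) :
    ∃ a : K, b - algebraMap K (FunctionField.ringOfIntegers K F) a ∈ w.asIdeal := by
  haveI : w.asIdeal.IsMaximal := w.isMaximal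
  letI : Field (FunctionField.ringOfIntegers K F ⧸ w.asIdeal) := Ideal.Quotient.field _
  haveI : Algebra.FiniteType K (FunctionField.ringOfIntegers K F) := finiteType_ringOfIntegers
  haveI : Algebra.FiniteType K (FunctionField.ringOfIntegers K F ⧸ w.asIdeal) :=
    Algebra.FiniteType.of_surjective (Ideal.Quotient.mkₐ K w.asIdeal)
      (Ideal.Quotient.mkₐ_surjective K w.asIdeal)
  haveI : Module.Finite K (FunctionField.ringOfIntegers K F ⧸ w.asIdeal) :=
    finite_of_finite_type_of_isJacobsonRing K _
  obtain ⟨a, ha⟩ := (IsAlgClosed.algebraMap_bijective_of_isIntegral (k := K)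
    (K := FunctionField.ringOfIntegers K F ⧸ w.asIdeal)).2 (Ideal.Quotient.mk _ b)
  refine ⟨a, ?_⟩
  rw [← Ideal.Quotient.eq_zero_iff_mem, map_sub, ← ha]
  exact sub_self _

theorem exists_valuation_sub_lt_one [IsAlgClosed K] (v : Place K F)
    (w : HeightOneSpectrum (FunctionField.ringOfIntegers K F))
    (hw : (w.valuation F).valuationSubring = v.toValuationSubring)
    (f : F) (hf : f ∈ v.toValuationSubring) :
    ∃ a : K, w.valuation F (f - algebraMap K F a) < 1 := by
  rw [← hw, ← HeightOneSpectrum.valuationSubringAtPrime_eq_valuationSubring] at hf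
  obtain ⟨b, s, hs, rfl⟩ := hf
  obtain ⟨β, hβ⟩ := exists_sub_mem_asIdeal w b
  obtain ⟨σ, hσ⟩ := exists_sub_mem_asIdeal w s
  have hsP : s ∉ w.asIdeal := hs
  have hσ0 : σ ≠ 0 := by
    rintro rfl
    rw [map_zero, sub_zero] at hσ
    exact hsP hσ
  have hcoe : ∀ c : K, algebraMap K F c =
      algebraMap (FunctionField.ringOfIntegers K F) F
        (algebraMap K (FunctionField.ringOfIntegers K F) c) := fun c =>
    IsScalarTower.algebraMap_apply K (FunctionField.ringOfIntegers K F) F c
  have hσunit : algebraMap K (FunctionField.ringOfIntegers K F) σ ∉ w.asIdeal := by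
    intro h
    have hu : IsUnit (algebraMap K (FunctionField.ringOfIntegers K F) σ) :=
      (IsUnit.mk0 σ hσ0).map _
    exact w.isPrime.ne_top (Ideal.eq_top_of_isUnit_mem _ h hu)
  have hvs : w.valuation F (algebraMap (FunctionField.ringOfIntegers K F) F s) = 1 :=
    (HeightOneSpectrum.valuation_eq_one_iff_notMem w).mpr hsP
  have hvσ : w.valuation F (algebraMap K F σ) = 1 := by
    rw [hcoe]; exact (HeightOneSpectrum.valuation_eq_one_iff_notMem w).mpr hσunit
  set nB : FunctionField.ringOfIntegers K F :=
    (b - algebraMap K _ β) * algebraMap K _ σ - algebraMap K _ β * (s - algebraMap K _ σ)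
    with hnB
  have hnBmem : nB ∈ w.asIdeal :=
    sub_mem (Ideal.mul_mem_right _ _ hβ) (Ideal.mul_mem_left _ _ hσ)
  have hvn : w.valuation F (algebraMap (FunctionField.ringOfIntegers K F) F nB) < 1 :=
    (HeightOneSpectrum.valuation_lt_one_iff_mem w nB).mpr hnBmem
  refine ⟨β / σ, ?_⟩
  have hs0 : algebraMap (FunctionField.ringOfIntegers K F) F s ≠ 0 := by
    intro h; rw [h, map_zero] at hvs; exact zero_ne_one hvs
  have hσF : algebraMap K F σ ≠ 0 := by
    intro h; rw [h, map_zero] at hvσ; exact zero_ne_one hvσ
  have key : algebraMap (FunctionField.ringOfIntegers K F) F b *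
      (algebraMap (FunctionField.ringOfIntegers K F) F s)⁻¹ - algebraMap K F (β / σ) =
      algebraMap (FunctionField.ringOfIntegers K F) F nB *
        (algebraMap (FunctionField.ringOfIntegers K F) F s * algebraMap K F σ)⁻¹ := by
    rw [hnB, map_div₀]
    simp only [map_sub, map_mul, ← hcoe]
    field_simp
    ring
  have hgoal : w.valuation F (algebraMap (FunctionField.ringOfIntegers K F) F b *
      (algebraMap (FunctionField.ringOfIntegers K F) F s)⁻¹ - algebraMap K F (β / σ)) < 1 := by
    rw [key, map_mul, map_inv₀, map_mul, hvs, hvσ, mul_one, inv_one, mul_one]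
    exact hvn
  exact hgoal


theorem exists_sub_mem_maximalIdeal_of_eq [IsAlgClosed K] (v : Place K F)
    (w : HeightOneSpectrum (FunctionField.ringOfIntegers K F))
    (hw : (w.valuation F).valuationSubring = v.toValuationSubring)
    (f : v.toValuationSubring) :
    ∃ a : K, f - algebraMap K v.toValuationSubring a ∈
      IsLocalRing.maximalIdeal v.toValuationSubring := by
  obtain ⟨a, ha⟩ := exists_valuation_sub_lt_one v w hw (f : F) f.2
  refine ⟨a, ?_⟩
  rw [mem_maximalIdeal_iff v w hw]
  exact ha

theorem exists_sub_mem_maximalIdeal_of_X_mem [IsAlgClosed K] (v : Place K F)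
    (hx : algebraMap K[X] F X ∈ v.toValuationSubring) (f : v.toValuationSubring) :
    ∃ a : K, f - algebraMap K v.toValuationSubring a ∈
      IsLocalRing.maximalIdeal v.toValuationSubring := by
  obtain ⟨w, hw⟩ := exists_heightOneSpectrum v hx
  exact exists_sub_mem_maximalIdeal_of_eq v w hw f


theorem exists_ofHeightOneSpectrum_eq (v : Place K F)
    (hx : algebraMap K[X] F X ∈ v.toValuationSubring) :
    ∃ w : HeightOneSpectrum (FunctionField.ringOfIntegers K F),
      Place.ofHeightOneSpectrum (K := K) w = v := by
  obtain ⟨w, hw⟩ := exists_heightOneSpectrum v hx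
  exact ⟨w, Place.ext hw⟩

theorem X_mem_ofHeightOneSpectrum (w : HeightOneSpectrum (FunctionField.ringOfIntegers K F)) :
    algebraMap K[X] F X ∈ (Place.ofHeightOneSpectrum (K := K) w).toValuationSubring :=
  X_mem_of_eq _ w rfl

theorem ofHeightOneSpectrum_injective :
    Function.Injective (fun w : HeightOneSpectrum (FunctionField.ringOfIntegers K F) =>
      Place.ofHeightOneSpectrum (K := K) (F := F) w) := by
  intro w w' h
  have h' : (w.valuation F).valuationSubring = (w'.valuation F).valuationSubring :=
    congrArg Place.toValuationSubring h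
  exact HeightOneSpectrum.eq_of_valuation_isEquiv_valuation
    ((Valuation.isEquiv_iff_valuationSubring _ _).mpr h')

theorem ord_ofHeightOneSpectrum (w : HeightOneSpectrum (FunctionField.ringOfIntegers K F))
    (f : F) :
    (Place.ofHeightOneSpectrum (K := K) w).ord f = -(WithZero.log (w.valuation F f)) :=
  ord_eq _ w rfl f

end Chart

section Residue

variable {K F : Type*} [Field K] [Field F] [Algebra K F]

theorem algebraMap_residue_surjective (v : Place K F)
    (h : ∀ f : v.toValuationSubring, ∃ a : K, f - algebraMap K v.toValuationSubring a ∈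
      IsLocalRing.maximalIdeal v.toValuationSubring) :
    Function.Surjective (algebraMap K v.ResidueField) := by
  intro r
  obtain ⟨f, rfl⟩ := IsLocalRing.residue_surjective r
  obtain ⟨a, ha⟩ := h f
  refine ⟨a, ?_⟩
  have h0 : IsLocalRing.residue v.toValuationSubring (f - algebraMap K v.toValuationSubring a) = 0 :=
    (IsLocalRing.residue_eq_zero_iff _).mpr ha
  rw [map_sub, sub_eq_zero] at h0
  rw [h0]
  rfl

theorem deg_eq_one_of_residue (v : Place K F)
    (h : ∀ f : v.toValuationSubring, ∃ a : K, f - algebraMap K v.toValuationSubring a ∈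
      IsLocalRing.maximalIdeal v.toValuationSubring) : v.deg = 1 := by
  have hbij : Function.Bijective (algebraMap K v.ResidueField) :=
    ⟨(algebraMap K v.ResidueField).injective, algebraMap_residue_surjective v h⟩
  let e : K ≃ₗ[K] v.ResidueField := LinearEquiv.ofBijective (Algebra.linearMap K v.ResidueField) hbij
  rw [Place.deg, ← e.finrank_eq, Module.finrank_self]

end Residue

section Build

open IntermediateField

variable {K F : Type*} [Field K] [Field F] [Algebra K F]

/-- The embedding of `RatFunc K` into `F` sending `X` to a transcendental `y`. -/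
def ratEmb (y : F) (hy : Transcendental K y) : RatFunc K →ₐ[K] F :=
  (IntermediateField.val K⟮y⟯).comp (RatFunc.algEquivOfTranscendental y hy).toAlgHom

theorem ratEmb_algebraMap (y : F) (hy : Transcendental K y) (p : K[X]) :
    ratEmb y hy (algebraMap K[X] (RatFunc K) p) = Polynomial.aeval y p := by
  show ((RatFunc.algEquivOfTranscendental y hy (algebraMap K[X] (RatFunc K) p) : K⟮y⟯) : F) = _
  rw [RatFunc.algEquivOfTranscendental_algebraMap]
  have h := Polynomial.aeval_algHom_apply (IntermediateField.val K⟮y⟯) (AdjoinSimple.gen K y) p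
  rw [IntermediateField.coe_val, AdjoinSimple.coe_gen] at h
  exact h.symm

theorem ratEmb_coe (y : F) (hy : Transcendental K y) (c : K⟮y⟯) :
    ratEmb y hy ((RatFunc.algEquivOfTranscendental y hy).symm c) = (c : F) := by
  show (((RatFunc.algEquivOfTranscendental y hy)
    ((RatFunc.algEquivOfTranscendental y hy).symm c) : K⟮y⟯) : F) = _
  rw [AlgEquiv.apply_symm_apply]

/-- The `K[X]`-algebra structure on `F` with `X ↦ y`. -/
@[reducible] def algPoly (y : F) : Algebra K[X] F := (Polynomial.aeval y).toRingHom.toAlgebra

/-- The `RatFunc K`-algebra structure on `F` with `X ↦ y`. -/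
@[reducible] def algRat (y : F) (hy : Transcendental K y) : Algebra (RatFunc K) F :=
  (ratEmb y hy).toRingHom.toAlgebra


theorem algPoly_algebraMap (y : F) (p : K[X]) :
    @algebraMap K[X] F _ _ (algPoly y) p = Polynomial.aeval y p := rfl

theorem algPoly_X (y : F) : @algebraMap K[X] F _ _ (algPoly y) X = y := by
  rw [algPoly_algebraMap, Polynomial.aeval_X]

theorem tower_poly_rat (y : F) (hy : Transcendental K y) :
    @IsScalarTower K[X] (RatFunc K) F _ (algRat y hy).toSMul (algPoly y).toSMul := by
  letI := algPoly (K := K) y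
  letI := algRat y hy
  refine IsScalarTower.of_algebraMap_eq fun p => ?_
  exact (ratEmb_algebraMap y hy p).symm

theorem tower_base_poly (y : F) :
    @IsScalarTower K K[X] F _ (algPoly y).toSMul _ := by
  letI := algPoly (K := K) y
  refine IsScalarTower.of_algebraMap_eq fun a => ?_
  show algebraMap K F a = Polynomial.aeval y (algebraMap K K[X] a)
  rw [Polynomial.algebraMap_eq, Polynomial.aeval_C]

theorem functionField_of_finite (y : F) (hy : Transcendental K y)
    (hfin : FiniteDimensional K⟮y⟯ F) :
    @FunctionField K F _ _ (algRat y hy) := by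
  letI := algRat y hy
  let e := RatFunc.algEquivOfTranscendental y hy
  let b := Module.finBasis K⟮y⟯ F
  have hsm : ∀ (c : K⟮y⟯) (x : F), e.symm.toRingEquiv c • x = c • x := by
    intro c x
    show ratEmb y hy (e.symm c) * x = (c : F) * x
    rw [ratEmb_coe]
  exact (b.mapCoeffs e.symm.toRingEquiv hsm).finiteDimensional_of_finite


theorem tower_base_rat (y : F) (hy : Transcendental K y) :
    @IsScalarTower K (RatFunc K) F _ (algRat y hy).toSMul _ := by
  letI := algRat y hy
  refine IsScalarTower.of_algebraMap_eq fun a => ?_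
  exact ((ratEmb y hy).commutes a).symm

theorem isSeparable_of_charZero [CharZero K] (y : F) (hy : Transcendental K y)
    (hfin : FiniteDimensional K⟮y⟯ F) :
    @Algebra.IsSeparable (RatFunc K) F _ _ (algRat y hy) := by
  letI := algRat y hy
  haveI : FunctionField K F := functionField_of_finite y hy hfin
  haveI : CharZero (RatFunc K) := charZero_of_injective_algebraMap (algebraMap K (RatFunc K)).injective
  exact Algebra.IsSeparable.of_integral (RatFunc K) F

/-- `F` is a function field in one variable over `K`. -/
def IsFunctionField1 (K F : Type*) [Field K] [Field F] [Algebra K F] : Prop :=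
  ∃ x : F, Transcendental K x ∧ FiniteDimensional K⟮x⟯ F

theorem IsFunctionField1.finite (h : IsFunctionField1 K F) {y : F} (hy : Transcendental K y) :
    FiniteDimensional K⟮y⟯ F := by
  obtain ⟨x, hx, hfin⟩ := h
  letI := algRat x hx
  haveI : FunctionField K F := functionField_of_finite x hx hfin
  haveI := tower_base_rat x hx
  exact FunctionField.finiteDimensional_of_adjoin_transcendental hy

theorem IsFunctionField1.exists_chart (h : IsFunctionField1 K F) (v : Place K F) :
    ∃ y : F, Transcendental K y ∧ y ∈ v.toValuationSubring ∧ FiniteDimensional K⟮y⟯ F := by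
  obtain ⟨x, hx, hfin⟩ := id h
  rcases v.toValuationSubring.mem_or_inv_mem x with hm | hm
  · exact ⟨x, hx, hm, hfin⟩
  · have hx' : Transcendental K x⁻¹ := by
      intro halg
      apply hx
      have := halg.inv
      rwa [inv_inv] at this
    exact ⟨x⁻¹, hx', hm, h.finite hx'⟩

theorem exists_sub_mem_maximalIdeal [IsAlgClosed K] [CharZero K] (h : IsFunctionField1 K F)
    (v : Place K F) (f : v.toValuationSubring) :
    ∃ a : K, f - algebraMap K v.toValuationSubring a ∈
      IsLocalRing.maximalIdeal v.toValuationSubring := by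
  obtain ⟨y, hy, hmem, hfin⟩ := h.exists_chart v
  letI := algPoly (K := K) y
  letI := algRat y hy
  haveI := tower_poly_rat y hy
  haveI := tower_base_poly (K := K) y
  haveI : FunctionField K F := functionField_of_finite y hy hfin
  haveI := isSeparable_of_charZero y hy hfin
  exact exists_sub_mem_maximalIdeal_of_X_mem v (by rw [algPoly_X]; exact hmem) f

theorem deg_eq_one [IsAlgClosed K] [CharZero K] (h : IsFunctionField1 K F)
    (v : Place K F) : v.deg = 1 :=
  deg_eq_one_of_residue v (exists_sub_mem_maximalIdeal h v)

end Build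

end

end Fermat.Agent.Lib.PlaceChart
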