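import Mathlib
import Fermat.Agent.S24.Defs
import Fermat.Agent.Lib.PlaceChart
import Fermat.Agent.Lib.FFDiff

/-!
# S24, Plan package A2 (differentials at a place), exact Plan statements

Thin wrapper over `Lib/FFDiff` (v-adic expansion method) and `Lib/PlaceChart`
(residue degree one, existence of places).
-/

set_option autoImplicit false
set_option linter.style.haveILetI false

noncomputable section

namespace Fermat.Agent.Lib.FFDiffPlan

open AlgebraicCurve IntermediateField KaehlerDifferential Polynomial
open Fermat.Agent.S24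

variable {K F : Type*} [Field K] [IsAlgClosed K] [CharZero K] [Field F] [Algebra K F]

omit [IsAlgClosed K] [CharZero K] in
theorem isFunctionField1 [IsFF1 K F] : PlaceChart.IsFunctionField1 K F :=
  IsFF1.exists_gen

omit [IsAlgClosed K] [CharZero K] in
theorem trdegOne [IsFF1 K F] : FFDiff.TrdegOne K F := by
  obtain ⟨x, _, hfin⟩ := IsFF1.exists_gen (K := K) (F := F)
  exact FFDiff.trdegOne_of_isAlgebraic x

omit [IsAlgClosed K] [CharZero K] in
theorem isAlgebraic_adjoin [IsFF1 K F] {x : F} (hx : Transcendental K x) :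
    Algebra.IsAlgebraic K⟮x⟯ F :=
  trdegOne x hx

theorem place_deg_eq_one [IsFF1 K F] (w : Place K F) : w.deg = 1 :=
  PlaceChart.deg_eq_one isFunctionField1 w

omit [IsAlgClosed K] in
/-- A function field in one variable has at least one place. -/
theorem exists_place [IsFF1 K F] : Nonempty (Place K F) := by
  obtain ⟨y, hy, hfin⟩ := IsFF1.exists_gen (K := K) (F := F)
  letI := PlaceChart.algPoly (K := K) y
  letI := PlaceChart.algRat y hy
  haveI := PlaceChart.tower_poly_rat y hy
  haveI := PlaceChart.tower_base_poly (K := K) y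
  haveI : FunctionField K F := PlaceChart.functionField_of_finite y hy hfin
  haveI := PlaceChart.isSeparable_of_charZero y hy hfin
  have hnf : ¬ IsField (FunctionField.ringOfIntegers K F) :=
    FunctionField.ringOfIntegers.not_isField K F
  obtain ⟨p, hp0, hp⟩ := Ring.not_isField_iff_exists_prime.mp hnf
  exact ⟨Place.ofHeightOneSpectrum (K := K) ⟨p, hp, hp0⟩⟩

theorem kaehler_nontrivial [IsFF1 K F] : Nontrivial Ω[F⁄K] := by
  obtain ⟨v⟩ := exists_place (K := K) (F := F)
  exact FFDiff.nontrivial_kaehler trdegOne v (place_deg_eq_one v)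

theorem dCoord_generates [IsFF1 K F] (w : Place K F) : w.DCoordGenerates :=
  FFDiff.dCoordGenerates trdegOne w (place_deg_eq_one w)

omit [IsAlgClosed K] in
theorem exists_eq_smul_D [IsFF1 K F] {x : F} (hx : Transcendental K x) (ω : Ω[F⁄K]) :
    ∃ g : F, ω = g • D K F x := by
  have := isAlgebraic_adjoin hx
  exact FFDiff.exists_smul_D x ω

theorem D_ne_zero [IsFF1 K F] {f : F} (hf : Transcendental K f) : D K F f ≠ 0 := by
  obtain ⟨v⟩ := exists_place (K := K) (F := F)
  have := isAlgebraic_adjoin hf
  exact FFDiff.D_ne_zero f v (place_deg_eq_one v)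

theorem differentialCoeff_D_ne_zero [IsFF1 K F] (w : Place K F) {f : F}
    (hf : Transcendental K f) : w.differentialCoeff (D K F f) ≠ 0 := by
  have := dCoord_generates w
  intro h0
  have h1 := w.differentialCoeff_smul_dCoord (D K F f)
  rw [h0, zero_smul] at h1
  exact D_ne_zero hf h1.symm

/-- `ord_w(df) = ord_w(f) - 1` whenever `ord_w(f) ≠ 0` (characteristic zero). -/
theorem ordDifferential_D [IsFF1 K F] (w : Place K F) {f : F} (hf : w.ord f ≠ 0) :
    w.ordDifferential (D K F f) = w.ord f - 1 := by
  have hf0 : f ≠ 0 := by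
    rintro rfl
    exact hf w.ord_zero
  exact FFDiff.ordDifferential_D trdegOne w (place_deg_eq_one w) f hf0 hf

/-- Scaling: `ord_w(g • ω) = ord_w g + ord_w ω` for `g ≠ 0`, `ω ≠ 0`. -/
theorem ordDifferential_smul [IsFF1 K F] (w : Place K F) {g : F} (hg : g ≠ 0) {ω : Ω[F⁄K]}
    (hω : ω ≠ 0) : w.ordDifferential (g • ω) = w.ord g + w.ordDifferential ω :=
  FFDiff.ordDifferential_smul' trdegOne w (place_deg_eq_one w) g hg ω hω

/-- `ord_w(dx) = ord_w(x - a) - 1` at a zero of `x - a`. -/
theorem ordDifferential_D_of_zero [IsFF1 K F] (w : Place K F) (x : F) (a : K)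
    (h : 0 < w.ord (x - algebraMap K F a)) :
    w.ordDifferential (D K F x) = w.ord (x - algebraMap K F a) - 1 := by
  have hx : x - algebraMap K F a ≠ 0 := by
    intro h0
    rw [h0, w.ord_zero] at h
    exact lt_irrefl _ h
  exact FFDiff.ordDifferential_D_sub trdegOne w (place_deg_eq_one w) x a hx h.ne'

/-- `ord_w(dx) = ord_w(x) - 1` at a pole of `x`. -/
theorem ordDifferential_D_of_pole [IsFF1 K F] (w : Place K F) (x : F) (h : w.ord x < 0) :
    w.ordDifferential (D K F x) = w.ord x - 1 :=
  ordDifferential_D w h.ne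

end Fermat.Agent.Lib.FFDiffPlan
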