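import Mathlib
import Fermat.Prelude.Def_AlgebraicCurve_DivisorClassGroup
import Fermat.Prelude.Def_AlgebraicCurve_Repartitions
import Fermat.Agent.Lib.FFPlaces
import Fermat.Agent.Lib.FFSep.Places

/-!
# Function fields: poles, constants and integrality (generic core of S18 [CHARL])

`F / K` a function field in the Prelude vocabulary (`AlgebraicCurve.Place`, `Divisor`,
`riemannRochSpace`), `x : F` with `F / K(x)` finite separable (the setting of `Lib/FFSep/Places`).

* `mem_of_mem_riemannRochSpace_of_mem`, `zpow_mul_mem_of_mem_riemannRochSpace`: a function of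
  `L(c • (x)_∞)` is regular at the places where `x` is regular, and `x ^ (-c)` times it is regular
  at the poles of `x`;
* `isIntegral_of_forall_mem_place` (and its two charts `isIntegral_of_forall_mem_of_mem`,
  `isIntegral_of_forall_mem_of_not_mem`): regularity at the places over a Dedekind domain `R`
  implies integrality over `R`; hence `isIntegral_of_mem_riemannRochSpace` and
  `isIntegral_zpow_mul_of_mem_riemannRochSpace`;
* `isIntegral_of_isRoot_of_coeff`, `isIntegral_mul_of_isRoot_of_coeff`: roots of monic polynomials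
  with integral coefficients;
* `exists_pole_of_transcendental`, `mem_range_of_forall_mem`, `mem_riemannRochSpace_zero_iff`:
  a function without poles is constant (`L(0) = K`);
* `exists_poleDivisor`, `degree_poleDivisor`, `degree_zeroDivisor`: the pole (zero) divisor of `x`
  has degree `[F : K(x)]`;
* `mapDomain_poleDivisor`, `mapDomain_zeroDivisor`: a degree preserving map of places with
  `r_* div(x) = div(x̄)` maps `(x)_∞` to `(x̄)_∞` when both have the same degree.
-/

set_option autoImplicit false

noncomputable section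

namespace Fermat.Agent.Lib.FFPoles

open AlgebraicCurve IsDedekindDomain WithZero

/-! ### Place level: the Riemann–Roch space of a multiple of the pole divisor -/

section PlaceLevel

variable {K F : Type*} [Field K] [Field F] [Algebra K F]

/-- A function of `L(D)` is regular at every place where `D` is not positive. -/
theorem mem_of_mem_riemannRochSpace {D : Divisor K F} {y : F} (hy : y ∈ riemannRochSpace D)
    (v : Place K F) (hD : D v ≤ 0) : y ∈ v.toValuationSubring := by
  rcases eq_or_ne y 0 with rfl | hy0
  · exact zero_mem _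
  have h := (mem_riemannRochSpace_iff.mp hy v).resolve_left hy0
  exact (FFPlaces.mem_iff_ord_nonneg v hy0).mpr (by omega)

/-- If `D ≤ c • (x)_∞` at a pole `v` of `x`, then `x ^ (-c) * y` is regular at `v` for every
`y ∈ L(D)`. -/
theorem zpow_mul_mem_of_mem_riemannRochSpace (x : F) (c : ℤ) {D : Divisor K F} {y : F}
    (hy : y ∈ riemannRochSpace D) (v : Place K F) (hD : D v ≤ c * max 0 (-(v.ord x)))
    (hv : x ∉ v.toValuationSubring) : x ^ (-c) * y ∈ v.toValuationSubring := by
  rcases eq_or_ne y 0 with rfl | hy0
  · rw [mul_zero]; exact zero_mem _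
  have hx0 : x ≠ 0 := fun h => hv (h ▸ zero_mem _)
  have hxneg : v.ord x < 0 := (FFPlaces.ord_neg_iff v hx0).mpr hv
  have h := (mem_riemannRochSpace_iff.mp hy v).resolve_left hy0
  have hz : x ^ (-c) ≠ 0 := zpow_ne_zero _ hx0
  rw [FFPlaces.mem_iff_ord_nonneg v (mul_ne_zero hz hy0), v.ord_mul hz hy0, v.ord_zpow]
  rw [max_eq_right (by omega)] at hD
  linarith

/-- If `D ≤ c • (x)_∞` at a place `v` where `x` is regular, every `y ∈ L(D)` is regular at `v`. -/
theorem mem_of_mem_riemannRochSpace_of_mem (x : F) (c : ℤ) {D : Divisor K F} {y : F}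
    (hy : y ∈ riemannRochSpace D) (v : Place K F) (hD : D v ≤ c * max 0 (-(v.ord x)))
    (hv : x ∈ v.toValuationSubring) : y ∈ v.toValuationSubring := by
  refine mem_of_mem_riemannRochSpace hy v ?_
  rcases eq_or_ne x 0 with rfl | hx0
  · simpa using hD
  have h0 : 0 ≤ v.ord x := (FFPlaces.mem_iff_ord_nonneg v hx0).mp hv
  rw [max_eq_left (by omega), mul_zero] at hD
  exact hD

end PlaceLevel

/-! ### Integrality from regularity at places -/

section Integral

variable {K F : Type*} [Field K] [Field F] [Algebra K F]

/-- Let `R` be a Dedekind domain with fraction field `E`, `F / E` finite separable, and assume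
the constants `K` are integral over `R`.  A function which is regular at every place `v` of
`F / K` whose valuation ring contains `R` (and whose centre on `R` is a nonzero prime `P`) is
integral over `R`. -/
theorem isIntegral_of_forall_mem_place (R E : Type*) [CommRing R] [IsDedekindDomain R] [Field E]
    [Algebra R E] [IsFractionRing R E] [Algebra E F] [Algebra R F] [IsScalarTower R E F]
    [FiniteDimensional E F] [Algebra.IsSeparable E F]
    (hK : ∀ a : K, IsIntegral R (algebraMap K F a)) {f : F}
    (hf : ∀ (v : Place K F) (P : Ideal R), P.IsPrime → P ≠ ⊥ →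
      (∀ r : R, algebraMap R F r ∈ v.toValuationSubring) →
      (∀ r ∈ P, r ≠ 0 → (algebraMap R F r)⁻¹ ∉ v.toValuationSubring) →
      f ∈ v.toValuationSubring) : IsIntegral R f := by
  have : IsDedekindDomain (integralClosure R F) := integralClosure.isDedekindDomain R E F
  have : IsFractionRing (integralClosure R F) F :=
    integralClosure.isFractionRing_of_finite_extension E F
  have hinj : Function.Injective (algebraMap R F) := by
    rw [IsScalarTower.algebraMap_eq R E F]
    exact (algebraMap E F).injective.comp (IsFractionRing.injective R E)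
  have key : ∀ w : HeightOneSpectrum (integralClosure R F), w.valuation F f ≤ 1 := by
    intro w
    let v : Place K F :=
      { toValuationSubring := (w.valuation F).valuationSubring
        algebraMap_mem' := fun a => by
          rw [Valuation.mem_valuationSubring_iff]
          exact w.valuation_le_one (⟨algebraMap K F a, hK a⟩ : integralClosure R F)
        ne_top' := by
          simp only [ne_eq, Valuation.valuationSubring_eq_top_iff, not_not]
          infer_instance
        isPrincipalIdealRing' := Place.isPrincipalIdealRing_valuationSubring w }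
    have hP0 : w.asIdeal.comap (algebraMap R (integralClosure R F)) ≠ ⊥ :=
      Ideal.IsIntegral.comap_ne_bot R w.ne_bot
    have h1 := hf v (w.asIdeal.comap (algebraMap R (integralClosure R F)))
      (Ideal.comap_isPrime _ _) hP0 (fun r => by
        show algebraMap R F r ∈ (w.valuation F).valuationSubring
        rw [Valuation.mem_valuationSubring_iff]
        exact w.valuation_le_one (algebraMap R (integralClosure R F) r)) (fun r hr hr0 => by
        show (algebraMap R F r)⁻¹ ∉ (w.valuation F).valuationSubring
        rw [Valuation.mem_valuationSubring_iff, map_inv₀, not_le]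
        have h2 : w.valuation F (algebraMap R F r) < 1 :=
          (w.valuation_lt_one_iff_mem (algebraMap R (integralClosure R F) r)).mpr hr
        have h3 : w.valuation F (algebraMap R F r) ≠ 0 :=
          (Valuation.ne_zero_iff _).mpr (fun h0 => hr0 (hinj (by rw [h0, map_zero])))
        exact (one_lt_inv₀ (zero_lt_iff.mpr h3)).mpr h2)
    exact (Valuation.mem_valuationSubring_iff _ _).mp h1
  obtain ⟨b, hb⟩ := HeightOneSpectrum.mem_integers_of_valuation_le_one F f key
  rw [← hb]
  exact b.2

/-- Chart at the finite points: `x` is the image of an element of `R`. -/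
theorem isIntegral_of_forall_mem_of_mem (R E : Type*) [CommRing R] [IsDedekindDomain R] [Field E]
    [Algebra R E] [IsFractionRing R E] [Algebra E F] [Algebra R F] [IsScalarTower R E F]
    [FiniteDimensional E F] [Algebra.IsSeparable E F]
    (hK : ∀ a : K, IsIntegral R (algebraMap K F a)) (x : F) (X₀ : R) (hx : algebraMap R F X₀ = x)
    {f : F} (hf : ∀ v : Place K F, x ∈ v.toValuationSubring → f ∈ v.toValuationSubring) :
    IsIntegral R f :=
  isIntegral_of_forall_mem_place R E hK fun v _ _ _ hR _ => hf v (hx ▸ hR X₀)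

/-- Chart at infinity: `R` is a discrete valuation ring and `x⁻¹` is the image of a non-unit of
`R`. -/
theorem isIntegral_of_forall_mem_of_not_mem (R E : Type*) [CommRing R] [IsDomain R]
    [IsDiscreteValuationRing R] [Field E]
    [Algebra R E] [IsFractionRing R E] [Algebra E F] [Algebra R F] [IsScalarTower R E F]
    [FiniteDimensional E F] [Algebra.IsSeparable E F]
    (hK : ∀ a : K, IsIntegral R (algebraMap K F a)) (x : F) (ϖ : R) (hϖ : ¬ IsUnit ϖ)
    (hx : algebraMap R F ϖ * x = 1)
    {g : F} (hg : ∀ v : Place K F, x ∉ v.toValuationSubring → g ∈ v.toValuationSubring) :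
    IsIntegral R g := by
  refine isIntegral_of_forall_mem_place R E hK fun v P hP hP0 _ hPv => hg v ?_
  have hPmax : P.IsMaximal := hP.isMaximal hP0
  have hPeq : P = IsLocalRing.maximalIdeal R := IsLocalRing.eq_maximalIdeal hPmax
  have hϖP : ϖ ∈ P := by rw [hPeq]; exact (IsLocalRing.mem_maximalIdeal _).mpr hϖ
  have hϖ0 : ϖ ≠ 0 := by
    rintro rfl
    rw [map_zero, zero_mul] at hx
    exact zero_ne_one hx
  have h := hPv ϖ hϖP hϖ0
  rwa [← eq_inv_of_mul_eq_one_right hx] at h

/-- An element integral over `R` lies in every valuation subring containing the image of `R`. -/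
theorem mem_valuationSubring_of_isIntegral {R : Type*} [CommRing R] [Algebra R F]
    (V : ValuationSubring F) (hR : ∀ r : R, algebraMap R F r ∈ V) {f : F} (hf : IsIntegral R f) :
    f ∈ V := by
  obtain ⟨p, hp, hpf⟩ := hf
  let φ : R →+* V := (algebraMap R F).codRestrict V.toSubring hR
  have hint : IsIntegral V f := by
    refine ⟨p.map φ, hp.map φ, ?_⟩
    rw [Polynomial.eval₂_map]
    exact hpf
  obtain ⟨y, hy⟩ := IsIntegrallyClosed.isIntegral_iff.mp hint
  rw [← hy]
  exact y.2

/-- **(iii), finite part.** Functions of `L(D)`, `D ≤ c • (x)_∞`, are integral over `R ∋ x`. -/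
theorem isIntegral_of_mem_riemannRochSpace (R E : Type*) [CommRing R] [IsDedekindDomain R]
    [Field E] [Algebra R E] [IsFractionRing R E] [Algebra E F] [Algebra R F] [IsScalarTower R E F]
    [FiniteDimensional E F] [Algebra.IsSeparable E F]
    (hK : ∀ a : K, IsIntegral R (algebraMap K F a)) (x : F) (X₀ : R) (hx : algebraMap R F X₀ = x)
    (c : ℤ) {D : Divisor K F} (hD : ∀ v : Place K F, D v ≤ c * max 0 (-(v.ord x))) {y : F}
    (hy : y ∈ riemannRochSpace D) : IsIntegral R y :=
  isIntegral_of_forall_mem_of_mem R E hK x X₀ hx fun v hv =>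
    mem_of_mem_riemannRochSpace_of_mem x c hy v (hD v) hv

/-- **(iii), part at infinity.** For `y ∈ L(D)`, `D ≤ c • (x)_∞`, the function `x ^ (-c) * y` is
integral over a discrete valuation ring `R` in which `x⁻¹` is a non-unit. -/
theorem isIntegral_zpow_mul_of_mem_riemannRochSpace (R E : Type*) [CommRing R] [IsDomain R]
    [IsDiscreteValuationRing R] [Field E]
    [Algebra R E] [IsFractionRing R E] [Algebra E F] [Algebra R F] [IsScalarTower R E F]
    [FiniteDimensional E F] [Algebra.IsSeparable E F]
    (hK : ∀ a : K, IsIntegral R (algebraMap K F a)) (x : F) (ϖ : R) (hϖ : ¬ IsUnit ϖ)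
    (hx : algebraMap R F ϖ * x = 1)
    (c : ℤ) {D : Divisor K F} (hD : ∀ v : Place K F, D v ≤ c * max 0 (-(v.ord x))) {y : F}
    (hy : y ∈ riemannRochSpace D) : IsIntegral R (x ^ (-c) * y) :=
  isIntegral_of_forall_mem_of_not_mem R E hK x ϖ hϖ hx fun v hv =>
    zpow_mul_mem_of_mem_riemannRochSpace x c hy v (hD v) hv

end Integral

/-! ### The chart `K[x]` of `Lib/FFSep` -/

section Chart

open IntermediateField

variable {K F : Type*} [Field K] [Field F] [Algebra K F] {x : F}
variable [FiniteDimensional K⟮x⟯ F] [Algebra.IsSeparable K⟮x⟯ F]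

/-- A function regular at all places where `x` is regular is integral over `K[x]`. -/
theorem isIntegral_polyRing_of_forall_mem {f : F}
    (hf : ∀ v : Place K F, x ∈ v.toValuationSubring → f ∈ v.toValuationSubring) :
    IsIntegral (FFPlaces.polyRing K x) f := by
  have key : ∀ w : HeightOneSpectrum (FFPlaces.intRing K x), w.valuation F f ≤ 1 := by
    intro w
    have h1 := hf (Place.ofHeightOneSpectrum (K := K) w) (FFSep.mem_ofHeightOneSpectrum w)
    exact (Valuation.mem_valuationSubring_iff _ _).mp h1
  obtain ⟨b, hb⟩ := HeightOneSpectrum.mem_integers_of_valuation_le_one F f key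
  rw [← hb]
  exact b.2

/-- Integrality over `K[x]` is regularity at all places where `x` is regular. -/
theorem isIntegral_polyRing_iff {f : F} :
    IsIntegral (FFPlaces.polyRing K x) f ↔
      ∀ v : Place K F, x ∈ v.toValuationSubring → f ∈ v.toValuationSubring :=
  ⟨fun h v hv => FFPlaces.intRing_mem v hv ⟨f, h⟩, isIntegral_polyRing_of_forall_mem⟩

/-- **(iii), finite part, chart form.** -/
theorem isIntegral_polyRing_of_mem_riemannRochSpace (c : ℤ) {D : Divisor K F}
    (hD : ∀ v : Place K F, D v ≤ c * max 0 (-(v.ord x))) {y : F}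
    (hy : y ∈ riemannRochSpace D) : IsIntegral (FFPlaces.polyRing K x) y :=
  isIntegral_polyRing_of_forall_mem fun v hv =>
    mem_of_mem_riemannRochSpace_of_mem x c hy v (hD v) hv

end Chart

/-! ### Roots of monic polynomials with integral coefficients -/

section RootIntegral

open Polynomial

variable {R L : Type*} [CommRing R] [CommRing L] [Nontrivial L] [Algebra R L]

/-- A root of a monic polynomial whose coefficients are integral over `R` is integral over `R`. -/
theorem isIntegral_of_isRoot_of_coeff (p : L[X]) (hp : p.Monic) {y : L} (hy : p.eval y = 0)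
    (hc : ∀ i, IsIntegral R (p.coeff i)) : IsIntegral R y := by
  have hlift : p ∈ Polynomial.lifts (algebraMap (integralClosure R L) L) := by
    rw [Polynomial.lifts_iff_coeff_lifts]
    intro i
    exact ⟨⟨p.coeff i, hc i⟩, rfl⟩
  obtain ⟨q, hq, -, hqm⟩ := Polynomial.lifts_and_degree_eq_and_monic hlift hp
  have hint : IsIntegral (integralClosure R L) y := by
    refine ⟨q, hqm, ?_⟩
    rw [← Polynomial.eval_map, hq, hy]
  exact isIntegral_trans y hint

/-- If `y` is a root of a monic polynomial `p` of degree `d` and `u ^ (d - i) * p_i` is integral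
over `R` for every coefficient `p_i`, then `u * y` is integral over `R`. -/
theorem isIntegral_mul_of_isRoot_of_coeff (p : L[X]) (hp : p.Monic) {y : L} (hy : p.eval y = 0)
    (u : L) (hc : ∀ i, IsIntegral R (p.coeff i * u ^ (p.natDegree - i))) :
    IsIntegral R (u * y) := by
  refine isIntegral_of_isRoot_of_coeff (p.scaleRoots u) ((Polynomial.monic_scaleRoots_iff u).mpr hp)
    ?_ (fun i => ?_)
  · have h := Polynomial.scaleRoots_eval₂_mul (p := p) (RingHom.id L) y u
    rw [Polynomial.eval₂_id, Polynomial.eval₂_id, RingHom.id_apply, hy, mul_zero] at h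
    exact h
  · rw [Polynomial.coeff_scaleRoots]
    exact hc i

end RootIntegral

/-! ### Valuation rings are places; constants -/

section Constants

open IntermediateField

variable {K F : Type*} [Field K] [Field F] [Algebra K F]

/-- `K[x]` lies in every valuation subring containing `K` and `x`. -/
theorem polyRing_mem_valuationSubring {x : F} (V : ValuationSubring F)
    (hK : ∀ a : K, algebraMap K F a ∈ V) (hx : x ∈ V) (a : FFPlaces.polyRing K x) :
    (a : F) ∈ V := by
  let S : Subalgebra K F := { V.toSubring with algebraMap_mem' := hK }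
  have hle : Algebra.adjoin K {x} ≤ S := Algebra.adjoin_le (Set.singleton_subset_iff.mpr hx)
  exact hle a.2

/-- The integral closure of `K[x]` lies in every valuation subring containing `K` and `x`. -/
theorem intRing_mem_valuationSubring {x : F} (V : ValuationSubring F)
    (hK : ∀ a : K, algebraMap K F a ∈ V) (hx : x ∈ V) (b : FFPlaces.intRing K x) :
    (b : F) ∈ V := by
  obtain ⟨p, hp, hpb⟩ := b.2
  let φ : FFPlaces.polyRing K x →+* V :=
    (algebraMap (FFPlaces.polyRing K x) F).codRestrict V.toSubring
      (fun a => polyRing_mem_valuationSubring V hK hx a)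
  have hint : IsIntegral V (b : F) := by
    refine ⟨p.map φ, hp.map φ, ?_⟩
    rw [Polynomial.eval₂_map]
    exact hpb
  obtain ⟨y, hy⟩ := IsIntegrallyClosed.isIntegral_iff.mp hint
  rw [← hy]
  exact y.2

/-- A proper valuation subring containing `K` and `x` is the valuation ring of a place. -/
theorem exists_place_of_mem {x : F} [FiniteDimensional K⟮x⟯ F] [Algebra.IsSeparable K⟮x⟯ F]
    (V : ValuationSubring F) (hV : V ≠ ⊤) (hK : ∀ a : K, algebraMap K F a ∈ V) (hx : x ∈ V) :
    ∃ v : Place K F, v.toValuationSubring = V := by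
  obtain ⟨w, hw⟩ := FFPlaces.exists_heightOneSpectrum_of_le (R := FFPlaces.intRing K x) V hV
    (fun r => intRing_mem_valuationSubring V hK hx r)
  exact ⟨Place.ofHeightOneSpectrum (K := K) w, hw.symm⟩

/-- A proper valuation subring of `F` containing the constants is the valuation ring of a
place. -/
theorem exists_place_of_valuationSubring (x : F) [FiniteDimensional K⟮x⟯ F]
    [Algebra.IsSeparable K⟮x⟯ F] (V : ValuationSubring F) (hV : V ≠ ⊤)
    (hK : ∀ a : K, algebraMap K F a ∈ V) : ∃ v : Place K F, v.toValuationSubring = V := by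
  rcases V.mem_or_inv_mem x with h | h
  · exact exists_place_of_mem V hV hK h
  · have := FFSep.finiteDimensional_inv (K := K) x
    have := FFSep.isSeparable_inv (K := K) x
    exact exists_place_of_mem V hV hK h

/-- A function which is transcendental over the constants has a pole. -/
theorem exists_pole_of_transcendental (x : F) [FiniteDimensional K⟮x⟯ F]
    [Algebra.IsSeparable K⟮x⟯ F] {z : F} (hz : Transcendental K z) :
    ∃ v : Place K F, v.ord z < 0 := by
  have hz0 : z ≠ 0 := by
    rintro rfl
    exact hz (isAlgebraic_zero)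
  let A₀ : Subring F := (Algebra.adjoin K {z⁻¹}).toSubring
  let t : A₀ := ⟨z⁻¹, Algebra.self_mem_adjoin_singleton K z⁻¹⟩
  have hI : Ideal.span {t} ≠ (⊤ : Ideal A₀) := by
    intro h
    rw [Ideal.eq_top_iff_one, Ideal.mem_span_singleton'] at h
    obtain ⟨s, hs⟩ := h
    have hs1 : (s : F) * z⁻¹ = 1 := congrArg Subtype.val hs
    have hsz : (s : F) = z := by
      field_simp at hs1
      exact hs1
    have hmem0 : (s : F) ∈ A₀ := s.2
    rw [hsz] at hmem0
    have hmem : z ∈ Algebra.adjoin K {z⁻¹} := hmem0
    rw [Algebra.adjoin_singleton_eq_range_aeval] at hmem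
    obtain ⟨p, hp⟩ := hmem
    apply hz
    rw [← IsAlgebraic.inv_iff]
    refine ⟨Polynomial.X * p - 1, ?_, ?_⟩
    · intro h0
      have := congrArg (fun q => Polynomial.coeff q 0) h0
      simp at this
    · have hp' : Polynomial.aeval z⁻¹ p = z := hp
      rw [map_sub, map_mul, Polynomial.aeval_X, map_one, hp', inv_mul_cancel₀ hz0, sub_self]
  obtain ⟨B, hAB, hB⟩ := Ideal.image_subset_nonunits_valuationSubring (Ideal.span {t}) hI
  have hzB : z ∉ B :=
    (B.inv_mem_nonunits_iff.mp (hB ⟨t, Ideal.subset_span rfl, rfl⟩)).resolve_left hz0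
  have hBtop : B ≠ ⊤ := fun h => hzB (h ▸ ValuationSubring.mem_top z)
  obtain ⟨v, hv⟩ := exists_place_of_valuationSubring x B hBtop
    (fun a => hAB (Subalgebra.algebraMap_mem _ a))
  exact ⟨v, (FFPlaces.ord_neg_iff v hz0).mpr (hv ▸ hzB)⟩

/-- A function without poles is algebraic over the constants. -/
theorem isAlgebraic_of_forall_mem (x : F) [FiniteDimensional K⟮x⟯ F]
    [Algebra.IsSeparable K⟮x⟯ F] {y : F} (hy : ∀ v : Place K F, y ∈ v.toValuationSubring) :
    IsAlgebraic K y := by
  by_contra h
  obtain ⟨v, hv⟩ := exists_pole_of_transcendental x (z := y) h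
  have hy0 : y ≠ 0 := by
    rintro rfl
    simp at hv
  exact (FFPlaces.ord_neg_iff v hy0).mp hv (hy v)

/-- **Constants.** Over an algebraically closed field of constants, a function without poles is
constant. -/
theorem mem_range_of_forall_mem [IsAlgClosed K] (x : F) [FiniteDimensional K⟮x⟯ F]
    [Algebra.IsSeparable K⟮x⟯ F] {y : F} (hy : ∀ v : Place K F, y ∈ v.toValuationSubring) :
    y ∈ Set.range (algebraMap K F) := by
  have halg := isAlgebraic_of_forall_mem x hy
  have hint : IsIntegral K y := isAlgebraic_iff_isIntegral.mp halg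
  obtain ⟨a, ha⟩ := hint.mem_range_algebraMap_of_minpoly_splits (K := K) (IsAlgClosed.splits _)
  exact ⟨a, ha⟩

/-- A nonzero function without zeros and poles is constant. -/
theorem mem_range_of_forall_ord_eq_zero [IsAlgClosed K] (x : F) [FiniteDimensional K⟮x⟯ F]
    [Algebra.IsSeparable K⟮x⟯ F] {y : F} (hy : ∀ v : Place K F, v.ord y = 0) :
    y ∈ Set.range (algebraMap K F) := by
  rcases eq_or_ne y 0 with rfl | hy0
  · exact ⟨0, map_zero _⟩
  exact mem_range_of_forall_mem x fun v => (FFPlaces.mem_iff_ord_nonneg v hy0).mpr (hy v).ge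

/-- `L(0) = K`. -/
theorem mem_riemannRochSpace_zero_iff [IsAlgClosed K] (x : F) [FiniteDimensional K⟮x⟯ F]
    [Algebra.IsSeparable K⟮x⟯ F] {y : F} :
    y ∈ riemannRochSpace (0 : Divisor K F) ↔ y ∈ Set.range (algebraMap K F) := by
  constructor
  · intro hy
    refine mem_range_of_forall_mem x fun v => ?_
    rcases eq_or_ne y 0 with rfl | hy0
    · exact zero_mem _
    have h := (mem_riemannRochSpace_iff.mp hy v).resolve_left hy0
    exact (FFPlaces.mem_iff_ord_nonneg v hy0).mpr (by simpa using h)
  · rintro ⟨a, rfl⟩
    rw [mem_riemannRochSpace_iff]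
    intro v
    right
    rw [FFPlaces.ord_algebraMap]
    simp

end Constants

/-! ### Pole and zero divisors: existence and degree -/

section Degree

open IntermediateField

variable {K F : Type*} [Field K] [Field F] [Algebra K F]

theorem degree_eq_sum (D : Divisor K F) :
    Divisor.degree D = ∑ v ∈ D.support, D v * (v.deg : ℤ) := by
  simp [Divisor.degree, Finsupp.sum]

/-- The degree as a sum over any finite set containing the support. -/
theorem degree_eq_sum_of_subset (D : Divisor K F) (s : Finset (Place K F))
    (hs : D.support ⊆ s) : Divisor.degree D = ∑ v ∈ s, D v * (v.deg : ℤ) := by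
  rw [degree_eq_sum]
  refine Finset.sum_subset hs fun v _ hv => ?_
  rw [Finsupp.notMem_support_iff.mp hv, zero_mul]

variable {x : F} [FiniteDimensional K⟮x⟯ F] [Algebra.IsSeparable K⟮x⟯ F]

/-- The pole divisor of `x` exists. -/
theorem exists_poleDivisor (hxt : Transcendental K x) :
    ∃ C : Divisor K F, ∀ v : Place K F, C v = max 0 (-(v.ord x)) := by
  classical
  refine ⟨Finsupp.onFinset (FFSep.finite_poles hxt).toFinset (fun v => max 0 (-(v.ord x)))
    (fun v hv => ?_), fun v => rfl⟩
  rw [Set.Finite.mem_toFinset, Set.mem_ofPred_eq]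
  by_contra h
  exact hv (max_eq_left (by omega))

/-- The zero divisor of `x` exists. -/
theorem exists_zeroDivisor (hxt : Transcendental K x) :
    ∃ Z : Divisor K F, ∀ v : Place K F, Z v = max 0 (v.ord x) := by
  classical
  refine ⟨Finsupp.onFinset (FFSep.finite_zeros_self hxt).toFinset (fun v => max 0 (v.ord x))
    (fun v hv => ?_), fun v => rfl⟩
  rw [Set.Finite.mem_toFinset, Set.mem_ofPred_eq]
  by_contra h
  exact hv (max_eq_left (by omega))

/-- The principal divisor of `x` exists. -/
theorem exists_divisor (hxt : Transcendental K x) :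
    ∃ D : Divisor K F, ∀ v : Place K F, D v = v.ord x := by
  obtain ⟨C, hC⟩ := exists_poleDivisor hxt
  obtain ⟨Z, hZ⟩ := exists_zeroDivisor hxt
  refine ⟨Z - C, fun v => ?_⟩
  rw [Finsupp.sub_apply, hC, hZ]
  rcases le_total 0 (v.ord x) with h | h
  · rw [max_eq_right h, max_eq_left (by omega)]; ring
  · rw [max_eq_left h, max_eq_right (by omega)]; ring

/-- **Degree of the pole divisor.** -/
theorem degree_poleDivisor [IsAlgClosed K] (hxt : Transcendental K x) (C : Divisor K F)
    (hC : ∀ v : Place K F, C v = max 0 (-(v.ord x))) :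
    Divisor.degree C = (Module.finrank K⟮x⟯ F : ℤ) := by
  classical
  have hfin := FFSep.finite_poles (K := K) (F := F) hxt
  have hsub : C.support ⊆ hfin.toFinset := by
    intro v hv
    rw [Set.Finite.mem_toFinset, Set.mem_ofPred_eq]
    by_contra h
    exact (Finsupp.mem_support_iff.mp hv) (by rw [hC]; exact max_eq_left (by omega))
  rw [degree_eq_sum_of_subset C _ hsub]
  have h := FFSep.sum_ord_poles (K := K) (F := F) hxt
  rw [finsum_mem_eq_finite_toFinset_sum _ hfin] at h
  have h2 : ∑ v ∈ hfin.toFinset, C v * (v.deg : ℤ) = ∑ v ∈ hfin.toFinset, -(v.ord x) := by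
    refine Finset.sum_congr rfl fun v hv => ?_
    rw [Set.Finite.mem_toFinset, Set.mem_ofPred_eq] at hv
    rw [FFSep.deg_eq_one x v, hC, max_eq_right (by omega)]
    simp
  rw [h2, Finset.sum_neg_distrib, h, neg_neg]

/-- **Degree of the zero divisor.** -/
theorem degree_zeroDivisor [IsAlgClosed K] (hxt : Transcendental K x) (Z : Divisor K F)
    (hZ : ∀ v : Place K F, Z v = max 0 (v.ord x)) :
    Divisor.degree Z = (Module.finrank K⟮x⟯ F : ℤ) := by
  classical
  have hfin := FFSep.finite_zeros_self (K := K) (F := F) hxt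
  have hsub : Z.support ⊆ hfin.toFinset := by
    intro v hv
    rw [Set.Finite.mem_toFinset, Set.mem_ofPred_eq]
    by_contra h
    exact (Finsupp.mem_support_iff.mp hv) (by rw [hZ]; exact max_eq_left (by omega))
  rw [degree_eq_sum_of_subset Z _ hsub]
  have h := FFSep.sum_ord_zeros_self (K := K) (F := F) hxt
  rw [finsum_mem_eq_finite_toFinset_sum _ hfin] at h
  have h2 : ∑ v ∈ hfin.toFinset, Z v * (v.deg : ℤ) = ∑ v ∈ hfin.toFinset, v.ord x := by
    refine Finset.sum_congr rfl fun v hv => ?_
    rw [Set.Finite.mem_toFinset, Set.mem_ofPred_eq] at hv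
    rw [FFSep.deg_eq_one x v, hZ, max_eq_right hv.le]
    simp
  rw [h2, h]

end Degree

/-! ### Push-forward of the pole divisor along a degree preserving map of places -/

section Push

variable {K F : Type*} [Field K] [Field F] [Algebra K F]
variable {k Fk : Type*} [Field k] [Field Fk] [Algebra k Fk]

theorem degree_mapDomain (r : Place K F → Place k Fk) (hdeg : ∀ P, (r P).deg = P.deg)
    (D : Divisor K F) : Divisor.degree (Finsupp.mapDomain r D) = Divisor.degree D := by
  induction D using Finsupp.induction with
  | zero => simp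
  | single_add P n D _ _ ih =>
    rw [Finsupp.mapDomain_add, map_add, map_add, ih, Finsupp.mapDomain_single,
      Divisor.degree_single, Divisor.degree_single, hdeg]

theorem mapDomain_nonneg (r : Place K F → Place k Fk) {D : Divisor K F} (hD : ∀ P, 0 ≤ D P)
    (Q : Place k Fk) : 0 ≤ Finsupp.mapDomain r D Q := by
  classical
  rw [Finsupp.mapDomain, Finsupp.sum_apply]
  refine Finset.sum_nonneg fun P _ => ?_
  show 0 ≤ (Finsupp.single (r P) (D P)) Q
  rw [Finsupp.single_apply]
  split_ifs
  · exact hD P
  · exact le_rfl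

/-- An effective divisor of degree zero vanishes (all places of positive degree). -/
theorem eq_zero_of_nonneg_of_degree_eq_zero (E : Divisor k Fk) (hE : ∀ Q, 0 ≤ E Q)
    (hpos : ∀ Q : Place k Fk, 0 < Q.deg) (hdeg : Divisor.degree E = 0) : E = 0 := by
  rw [degree_eq_sum] at hdeg
  have h := (Finset.sum_eq_zero_iff_of_nonneg (fun Q _ =>
    mul_nonneg (hE Q) (Int.natCast_nonneg _))).mp hdeg
  ext Q
  rw [Finsupp.zero_apply]
  by_contra hQ
  have h1 := h Q (Finsupp.mem_support_iff.mpr hQ)
  have h2 : (0 : ℤ) < (Q.deg : ℤ) := by exact_mod_cast hpos Q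
  rcases mul_eq_zero.mp h1 with h3 | h3
  · exact hQ h3
  · omega

/-- **Push-forward of the pole divisor.**  If `r_* div(x) = div(x̄)` and the pole divisors of `x`
and `x̄` have the same degree, then `r_* (x)_∞ = (x̄)_∞`. -/
theorem mapDomain_poleDivisor (r : Place K F → Place k Fk) (hdeg : ∀ P, (r P).deg = P.deg)
    (x : F) (xbar : Fk) (D : Divisor K F) (hD : ∀ P, D P = P.ord x)
    (hr : ∀ Q, Finsupp.mapDomain r D Q = Q.ord xbar)
    (C : Divisor K F) (hC : ∀ P, C P = max 0 (-(P.ord x)))
    (Cbar : Divisor k Fk) (hCbar : ∀ Q, Cbar Q = max 0 (-(Q.ord xbar)))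
    (hdegC : Divisor.degree C = Divisor.degree Cbar) (hpos : ∀ Q : Place k Fk, 0 < Q.deg) :
    Finsupp.mapDomain r C = Cbar := by
  have hZ : ∀ P, 0 ≤ (D + C) P := by
    intro P
    rw [Finsupp.add_apply, hD, hC]
    rcases le_total 0 (P.ord x) with h | h
    · rw [max_eq_left (by omega)]; omega
    · rw [max_eq_right (by omega)]; omega
  have hC0 : ∀ P, 0 ≤ C P := fun P => by rw [hC]; exact le_max_left _ _
  have hge : ∀ Q, 0 ≤ (Finsupp.mapDomain r C - Cbar) Q := by
    intro Q
    have h1 := mapDomain_nonneg r hZ Q
    have h2 := mapDomain_nonneg r hC0 Q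
    rw [Finsupp.mapDomain_add, Finsupp.add_apply, hr] at h1
    rw [Finsupp.sub_apply, hCbar]
    rcases le_total 0 (Q.ord xbar) with h | h
    · rw [max_eq_left (by omega)]; omega
    · rw [max_eq_right (by omega)]; omega
  have h0 := eq_zero_of_nonneg_of_degree_eq_zero _ hge hpos
    (by rw [map_sub, degree_mapDomain r hdeg, hdegC, sub_self])
  exact sub_eq_zero.mp h0

/-- **Push-forward of the zero divisor.** -/
theorem mapDomain_zeroDivisor (r : Place K F → Place k Fk) (hdeg : ∀ P, (r P).deg = P.deg)
    (x : F) (xbar : Fk) (D : Divisor K F) (hD : ∀ P, D P = P.ord x)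
    (hr : ∀ Q, Finsupp.mapDomain r D Q = Q.ord xbar)
    (C : Divisor K F) (hC : ∀ P, C P = max 0 (-(P.ord x)))
    (Cbar : Divisor k Fk) (hCbar : ∀ Q, Cbar Q = max 0 (-(Q.ord xbar)))
    (hdegC : Divisor.degree C = Divisor.degree Cbar) (hpos : ∀ Q : Place k Fk, 0 < Q.deg)
    (Z : Divisor K F) (hZ : ∀ P, Z P = max 0 (P.ord x))
    (Zbar : Divisor k Fk) (hZbar : ∀ Q, Zbar Q = max 0 (Q.ord xbar)) :
    Finsupp.mapDomain r Z = Zbar := by
  have hZD : Z = D + C := by
    ext P
    rw [Finsupp.add_apply, hD, hC, hZ]
    rcases le_total 0 (P.ord x) with h | h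
    · rw [max_eq_right h, max_eq_left (by omega)]; ring
    · rw [max_eq_left h, max_eq_right (by omega)]; ring
  have hCC := mapDomain_poleDivisor r hdeg x xbar D hD hr C hC Cbar hCbar hdegC hpos
  ext Q
  rw [hZD, Finsupp.mapDomain_add, Finsupp.add_apply, hr, hCC, hCbar, hZbar]
  rcases le_total 0 (Q.ord xbar) with h | h
  · rw [max_eq_right h, max_eq_left (by omega)]; ring
  · rw [max_eq_left h, max_eq_right (by omega)]; ring

end Push

end Fermat.Agent.Lib.FFPoles
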