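import Mathlib
import Fermat.Prelude.Def_AlgebraicCurve_Correspondence
import Fermat.Agent.Lib.FFPlaces
import Fermat.Agent.S24.Defs
import Fermat.Agent.S24.PlaceBasic
import Fermat.Agent.S24.PlaceExt

/-!
# Relative theory of places for a finite extension of function fields (helper94)

`K` is an algebraically closed field of characteristic zero, `F ⊆ F'` a finite extension of
function fields in one variable over `K` (`Fermat.Agent.S24.IsFF1`).  Everything is stated in the
Prelude vocabulary (`AlgebraicCurve.Place`, `Place.restrict`, `Place.ramificationIndex`,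
`Place.inertiaDeg`, `Place.fiber`, `Divisor.pushforward`).

* `hasPrincipalDivisors` : every nonzero `f ∈ F` has a divisor, of degree zero.
* local dictionary at a place `v` of `F`: the places of `F'` over `v` are the maximal ideals of
  the integral closure `relRing F' v` of `O_v` in `F'` (`placeOfPrime`, `restrict_placeOfPrime`,
  `exists_prime_of_restrict`, `ramificationIndex_placeOfPrime`, `inertiaDeg_eq_one`).
* `sum_ramificationIndex_mul_inertiaDeg`, `sumRamificationInertia`, `fundamentalIdentity` :
  `∑_{w ∣ v} e(w ∣ v) f(w ∣ v) = [F' : F]`.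
* `ord_norm`, `pushforwardNormFormula` : `ord_v (N_{F'/F} f) = ∑_{w ∣ v} ord_w f`.
* the versions along a `K`-algebra homomorphism `φ : F →ₐ[K] F'` (Prelude `algebraAlong φ`):
  `finiteAlong`, `isIntegralAlong`, `fundamentalIdentityAlong`, `normFormulaAlong`,
  `inertiaDegAlong_eq_one`.
-/

set_option autoImplicit false
set_option linter.unusedSectionVars false
set_option linter.style.haveILetI false

noncomputable section

namespace Fermat.Agent.Lib.FFRel

open AlgebraicCurve IsDedekindDomain WithZero
open Fermat.Agent.S24 (IsFF1)
open IntermediateField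

section Principal

variable (K F : Type*) [Field K] [IsAlgClosed K] [CharZero K] [Field F] [Algebra K F] [IsFF1 K F]

/-- Every nonzero element of a function field in one variable over an algebraically closed field
of characteristic zero has a divisor, and it has degree zero. -/
theorem hasPrincipalDivisors : HasPrincipalDivisors K F := by
  classical
  refine ⟨fun f hf => ?_⟩
  rcases Fermat.Agent.S24.algebraMap_or_transcendental (K := K) f with ⟨a, rfl⟩ | hft
  · exact ⟨0, fun v => by simp [FFPlaces.ord_algebraMap], by simp⟩
  · have hz := Fermat.Agent.S24.zerosOf_finite hft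
    have hp := Fermat.Agent.S24.polesOf_finite hft
    have hsub : Function.support (fun v : Place K F => v.ord f) ⊆
        Fermat.Agent.S24.zerosOf K f ∪ Fermat.Agent.S24.polesOf K f := by
      intro v hv
      have hv' : v.ord f ≠ 0 := hv
      rcases lt_or_gt_of_ne hv' with h | h
      · exact Or.inr h
      · exact Or.inl h
    have hsupp : (Function.support fun v : Place K F => v.ord f).Finite :=
      (hz.union hp).subset hsub
    refine ⟨Finsupp.ofSupportFinite _ hsupp, fun v => rfl, ?_⟩
    have hdisj : Disjoint (Fermat.Agent.S24.zerosOf K f) (Fermat.Agent.S24.polesOf K f) := by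
      rw [Set.disjoint_left]
      intro v h1 h2
      have h1' : 0 < v.ord f := h1
      have h2' : v.ord f < 0 := h2
      omega
    have hdeg : Divisor.degree (Finsupp.ofSupportFinite _ hsupp : Divisor K F) =
        ∑ᶠ v : Place K F, v.ord f := by
      rw [Divisor.degree, Finsupp.liftAddHom_apply, Finsupp.sum]
      rw [finsum_eq_sum_of_support_subset (s := (Finsupp.ofSupportFinite _ hsupp).support)]
      · refine Finset.sum_congr rfl fun v _ => ?_
        rw [AddMonoidHom.mulRight_apply, Fermat.Agent.S24.place_deg_eq_one v]
        simp [Finsupp.ofSupportFinite_coe]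
      · intro v hv
        simpa [Finsupp.ofSupportFinite_coe] using hv
    rw [hdeg, ← finsum_mem_univ,
      ← finsum_mem_inter_support_eq (s := Fermat.Agent.S24.zerosOf K f ∪
        Fermat.Agent.S24.polesOf K f) _ _ (by
          rw [Set.univ_inter, Set.inter_eq_right.mpr hsub]),
      finsum_mem_union hdisj hz hp, Fermat.Agent.S24.sum_ord_zerosOf hft,
      Fermat.Agent.S24.sum_ord_polesOf hft]
    ring

end Principal

section Local

variable {K F : Type*} [Field K] [Field F] [Algebra K F]
variable (F' : Type*) [Field F'] [Algebra K F'] [Algebra F F'] [IsScalarTower K F F']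
variable (v : Place K F)

scoped instance instIsScalarTowerPlace : IsScalarTower K v.toValuationSubring F' :=
  IsScalarTower.of_algebraMap_eq fun a => by
    rw [IsScalarTower.algebraMap_apply K F F']
    rfl

/-- The integral closure of the valuation ring of `v` in `F'`. -/
abbrev relRing : Subalgebra v.toValuationSubring F' := integralClosure v.toValuationSubring F'

theorem coe_algebraMap_relRing (r : v.toValuationSubring) :
    ((algebraMap v.toValuationSubring (relRing F' v) r : relRing F' v) : F') =
      algebraMap F F' (r : F) := rfl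

theorem coe_algebraMap_K_relRing (a : K) :
    ((algebraMap K (relRing F' v) a : relRing F' v) : F') = algebraMap K F' a := rfl

/-- Elements of the integral closure lie in every valuation ring of `F'` containing the image
of `O_v`. -/
theorem relRing_mem (w : Place K F')
    (hw : ∀ r : v.toValuationSubring, algebraMap F F' (r : F) ∈ w.toValuationSubring)
    (b : relRing F' v) : (b : F') ∈ w.toValuationSubring := by
  obtain ⟨p, hp, hpb⟩ := b.2
  let φ : v.toValuationSubring →+* w.toValuationSubring :=
    (algebraMap v.toValuationSubring F').codRestrict w.toValuationSubring.toSubring hw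
  have hint : IsIntegral w.toValuationSubring (b : F') := by
    refine ⟨p.map φ, hp.map φ, ?_⟩
    rw [Polynomial.eval₂_map]
    exact hpb
  obtain ⟨y, hy⟩ := IsIntegrallyClosed.isIntegral_iff.mp hint
  rw [← hy]
  exact y.2

variable [CharZero K] [FiniteDimensional F F']

omit [IsScalarTower K F F'] [Algebra K F'] in
include K in
theorem isSeparable_of_charZero : Algebra.IsSeparable F F' := by
  haveI : CharZero F := charZero_of_injective_algebraMap (algebraMap K F).injective
  exact Algebra.IsSeparable.of_integral F F'

scoped instance instIsFractionRingRelRing : IsFractionRing (relRing F' v) F' :=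
  integralClosure.isFractionRing_of_finite_extension F F'

scoped instance instIsDedekindDomainRelRing : IsDedekindDomain (relRing F' v) := by
  haveI := isSeparable_of_charZero (K := K) (F := F) F'
  exact integralClosure.isDedekindDomain v.toValuationSubring F F'

scoped instance instFiniteRelRing : Module.Finite v.toValuationSubring (relRing F' v) := by
  haveI := isSeparable_of_charZero (K := K) (F := F) F'
  exact IsIntegralClosure.finite v.toValuationSubring F F' (relRing F' v)

scoped instance instFreeRelRing : Module.Free v.toValuationSubring (relRing F' v) := by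
  haveI := isSeparable_of_charZero (K := K) (F := F) F'
  exact IsIntegralClosure.module_free v.toValuationSubring F F' (relRing F' v)

theorem finrank_relRing :
    Module.finrank v.toValuationSubring (relRing F' v) = Module.finrank F F' := by
  haveI := isSeparable_of_charZero (K := K) (F := F) F'
  exact IsIntegralClosure.rank v.toValuationSubring F F' (relRing F' v)

/-- The place of `F'` attached to a maximal ideal of the integral closure of `O_v`. -/
def placeOfPrime (Q : HeightOneSpectrum (relRing F' v)) : Place K F' :=
  Place.ofHeightOneSpectrum (K := K) Q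

theorem placeOfPrime_toValuationSubring (Q : HeightOneSpectrum (relRing F' v)) :
    (placeOfPrime F' v Q).toValuationSubring = (Q.valuation F').valuationSubring := rfl

theorem placeOfPrime_injective : Function.Injective (placeOfPrime F' v) := by
  intro Q Q' h
  exact FFPlaces.valuationSubring_injective (congrArg Place.toValuationSubring h)

theorem ord_placeOfPrime (Q : HeightOneSpectrum (relRing F' v)) (f : F') :
    (placeOfPrime F' v Q).ord f = -WithZero.log (Q.valuation F' f) :=
  FFPlaces.ord_ofHeightOneSpectrum (K := K) Q f

/-- The places of the maximal ideals of the integral closure of `O_v` restrict to `v`. -/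
theorem restrict_placeOfPrime (Q : HeightOneSpectrum (relRing F' v)) :
    (placeOfPrime F' v Q).restrict F = v := by
  apply Place.ext
  symm
  refine ValuationSubring.eq_of_le_of_ne_top _ ?_ ((placeOfPrime F' v Q).restrict F).ne_top'
  intro r hr
  rw [Place.restrict_toValuationSubring, ValuationSubring.mem_comap,
    placeOfPrime_toValuationSubring, Valuation.mem_valuationSubring_iff]
  exact Q.valuation_le_one (algebraMap v.toValuationSubring (relRing F' v) ⟨r, hr⟩)

/-- Every place of `F'` over `v` comes from a maximal ideal of the integral closure of `O_v`. -/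
theorem exists_prime_of_restrict (w : Place K F') (hw : w.restrict F = v) :
    ∃ Q : HeightOneSpectrum (relRing F' v), w = placeOfPrime F' v Q := by
  have hmem : ∀ r : v.toValuationSubring, algebraMap F F' (r : F) ∈ w.toValuationSubring := by
    intro r
    have h : (r : F) ∈ (w.restrict F).toValuationSubring := by
      rw [hw]
      exact r.2
    exact h
  obtain ⟨Q, hQ⟩ := FFPlaces.exists_heightOneSpectrum_of_le (R := relRing F' v)
    w.toValuationSubring w.ne_top' (fun b => relRing_mem F' v w hmem b)
  exact ⟨Q, Place.ext hQ⟩

theorem range_placeOfPrime :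
    Set.range (placeOfPrime F' v) = {w : Place K F' | w.restrict F = v} := by
  ext w
  constructor
  · rintro ⟨Q, rfl⟩
    exact restrict_placeOfPrime F' v Q
  · intro hw
    obtain ⟨Q, rfl⟩ := exists_prime_of_restrict F' v w hw
    exact ⟨Q, rfl⟩

section PrimesOver

/-- A nonzero prime of the integral closure lies over the maximal ideal of `O_v`. -/
theorem liesOver_of_ne_bot (Q : Ideal (relRing F' v)) [hQ : Q.IsPrime] (h0 : Q ≠ ⊥) :
    Q.LiesOver (IsLocalRing.maximalIdeal v.toValuationSubring) := by
  have hmax : Q.IsMaximal := hQ.isMaximal h0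
  have hint : Algebra.IsIntegral v.toValuationSubring (relRing F' v) := inferInstance
  have h1 : (Q.under v.toValuationSubring).IsMaximal :=
    Ideal.isMaximal_comap_of_isIntegral_of_isMaximal Q
  exact ⟨(IsLocalRing.eq_maximalIdeal h1).symm⟩

/-- A prime of the integral closure over the maximal ideal of `O_v` is nonzero. -/
theorem ne_bot_of_liesOver (Q : Ideal (relRing F' v))
    [hlo : Q.LiesOver (IsLocalRing.maximalIdeal v.toValuationSubring)] : Q ≠ ⊥ := by
  rintro rfl
  obtain ⟨π, hπ⟩ := IsDiscreteValuationRing.exists_irreducible v.toValuationSubring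
  have h1 : π ∈ IsLocalRing.maximalIdeal v.toValuationSubring := by
    rw [IsLocalRing.mem_maximalIdeal]
    exact hπ.not_isUnit
  rw [hlo.over, Ideal.mem_comap, Ideal.mem_bot] at h1
  have h2 : algebraMap F F' (π : F) = 0 := congrArg Subtype.val h1
  have h3 : (π : F) = 0 := by simpa using h2
  exact hπ.ne_zero (Subtype.ext h3)

/-- The height one prime attached to a prime over the maximal ideal of `O_v`. -/
def primeOver (q : (IsLocalRing.maximalIdeal v.toValuationSubring).primesOver (relRing F' v)) :
    HeightOneSpectrum (relRing F' v) :=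
  ⟨q.1, q.2.1, by
    have := q.2.2
    exact ne_bot_of_liesOver F' v q.1⟩

theorem primeOver_injective : Function.Injective (primeOver F' v) := by
  intro q q' h
  exact Subtype.ext (congrArg HeightOneSpectrum.asIdeal h)

theorem primeOver_surjective : Function.Surjective (primeOver F' v) := by
  intro Q
  have := Q.isPrime
  exact ⟨⟨Q.asIdeal, Q.isPrime, liesOver_of_ne_bot F' v Q.asIdeal Q.ne_bot⟩, rfl⟩

theorem finite_primesOver :
    Finite ((IsLocalRing.maximalIdeal v.toValuationSubring).primesOver (relRing F' v)) :=
  Algebra.QuasiFinite.finite_primesOver _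

theorem finite_heightOneSpectrum : Finite (HeightOneSpectrum (relRing F' v)) := by
  have := finite_primesOver F' v
  exact Finite.of_surjective _ (primeOver_surjective F' v)

/-- The place of `F'` attached to a prime over the maximal ideal of `O_v`. -/
def placeOver (q : (IsLocalRing.maximalIdeal v.toValuationSubring).primesOver (relRing F' v)) :
    Place K F' :=
  placeOfPrime F' v (primeOver F' v q)

theorem placeOver_injective : Function.Injective (placeOver F' v) :=
  (placeOfPrime_injective F' v).comp (primeOver_injective F' v)

theorem range_placeOver :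
    Set.range (placeOver F' v) = {w : Place K F' | w.restrict F = v} := by
  rw [← range_placeOfPrime F' v]
  ext w
  constructor
  · rintro ⟨q, rfl⟩
    exact ⟨primeOver F' v q, rfl⟩
  · rintro ⟨Q, rfl⟩
    obtain ⟨q, rfl⟩ := primeOver_surjective F' v Q
    exact ⟨q, rfl⟩

end PrimesOver

section Ramification

theorem map_maximalIdeal {π : v.toValuationSubring} (hπ : Irreducible π) :
    (IsLocalRing.maximalIdeal v.toValuationSubring).map
      (algebraMap v.toValuationSubring (relRing F' v)) =
      Ideal.span {algebraMap v.toValuationSubring (relRing F' v) π} := by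
  rw [hπ.maximalIdeal_eq, Ideal.map_span, Set.image_singleton]

theorem algebraMap_irreducible_ne_zero {π : v.toValuationSubring} (hπ : Irreducible π) :
    algebraMap v.toValuationSubring (relRing F' v) π ≠ 0 := by
  intro h
  have h2 : algebraMap F F' (π : F) = 0 := congrArg Subtype.val h
  have h3 : (π : F) = 0 := by simpa using h2
  exact hπ.ne_zero (Subtype.ext h3)

/-- The order of a uniformizer of `v` at the place of `Q` is the ramification index of `Q`. -/
theorem ord_uniformizer {π : v.toValuationSubring} (hπ : Irreducible π)
    (Q : HeightOneSpectrum (relRing F' v)) :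
    (placeOfPrime F' v Q).ord (algebraMap F F' (π : F)) =
      (Q.asIdeal.ramificationIdx v.toValuationSubring : ℤ) := by
  have := Q.isPrime
  have hlo : Q.asIdeal.LiesOver (IsLocalRing.maximalIdeal v.toValuationSubring) :=
    liesOver_of_ne_bot F' v Q.asIdeal Q.ne_bot
  have hne : (IsLocalRing.maximalIdeal v.toValuationSubring).map
      (algebraMap v.toValuationSubring (relRing F' v)) ≠ ⊥ := by
    rw [map_maximalIdeal F' v hπ, Ne, Ideal.span_singleton_eq_bot]
    exact algebraMap_irreducible_ne_zero F' v hπ
  rw [ord_placeOfPrime,
    Ideal.IsDedekindDomain.ramificationIdx_eq_multiplicity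
      (IsLocalRing.maximalIdeal v.toValuationSubring) Q.asIdeal hne,
    map_maximalIdeal F' v hπ]
  have h1 : Q.valuation F' (algebraMap F F' (π : F)) =
      Q.intValuation (algebraMap v.toValuationSubring (relRing F' v) π) := by
    rw [← Q.valuation_of_algebraMap (K := F')]
    rfl
  rw [h1, Q.intValuation_eq_exp_neg_multiplicity (algebraMap_irreducible_ne_zero F' v hπ),
    log_exp, neg_neg]

/-- The Prelude ramification index is Mathlib's. -/
theorem ramificationIndex_placeOfPrime (Q : HeightOneSpectrum (relRing F' v)) :
    (placeOfPrime F' v Q).ramificationIndex F =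
      Q.asIdeal.ramificationIdx v.toValuationSubring := by
  obtain ⟨π, hπ⟩ := IsDiscreteValuationRing.exists_irreducible v.toValuationSubring
  have h1 := ord_uniformizer F' v hπ Q
  rw [Place.ord_restrict, restrict_placeOfPrime, v.ord_coe_irreducible hπ, mul_one] at h1
  exact_mod_cast h1

end Ramification

section Inertia

variable [IsAlgClosed K] [IsFF1 K F]

include F in
theorem isFF1_top : IsFF1 K F' := Fermat.Agent.S24.isFF1_of_finite (F := F)

/-- The residue fields of the integral closure of `O_v` are `K`. -/
theorem exists_sub_mem_prime (Q : HeightOneSpectrum (relRing F' v)) (b : relRing F' v) :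
    ∃ a : K, b - algebraMap K (relRing F' v) a ∈ Q.asIdeal := by
  haveI := isFF1_top (K := K) (F := F) F'
  have hb : (b : F') ∈ (placeOfPrime F' v Q).toValuationSubring := by
    rw [placeOfPrime_toValuationSubring, Valuation.mem_valuationSubring_iff]
    exact Q.valuation_le_one b
  obtain ⟨a, ha⟩ := Fermat.Agent.S24.exists_residue (placeOfPrime F' v Q) hb
  refine ⟨a, ?_⟩
  rcases ha with ha | ha
  · have h0 : b - algebraMap K (relRing F' v) a = 0 := by
      apply Subtype.ext
      show (b : F') - algebraMap K F' a = 0
      rw [ha, sub_self]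
    rw [h0]
    exact Q.asIdeal.zero_mem
  · rw [ord_placeOfPrime] at ha
    have hne : (b : F') - algebraMap K F' a ≠ 0 := by
      intro h
      rw [h, map_zero] at ha
      simp at ha
    have hne' : Q.valuation F' ((b : F') - algebraMap K F' a) ≠ 0 :=
      (Valuation.ne_zero_iff _).mpr hne
    rw [← Q.valuation_lt_one_iff_mem (K := F')]
    show Q.valuation F' ((b : F') - algebraMap K F' a) < 1
    rw [← WithZero.log_lt_log hne' one_ne_zero, WithZero.log_one]
    omega

/-- Inertia degrees (Mathlib's) over the maximal ideal of `O_v` are one. -/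
theorem inertiaDeg_eq_one (Q : Ideal (relRing F' v)) [hQ : Q.IsPrime]
    [hlo : Q.LiesOver (IsLocalRing.maximalIdeal v.toValuationSubring)] :
    Q.inertiaDeg v.toValuationSubring = 1 := by
  have hq0 : Q ≠ ⊥ := ne_bot_of_liesOver F' v Q
  have hqmax : Q.IsMaximal := hQ.isMaximal hq0
  rw [Ideal.inertiaDeg_eq_of_isMaximal (IsLocalRing.maximalIdeal v.toValuationSubring) Q]
  have hinj : Function.Injective
      (Algebra.linearMap
        (v.toValuationSubring ⧸ IsLocalRing.maximalIdeal v.toValuationSubring)
        (relRing F' v ⧸ Q)) :=
    FaithfulSMul.algebraMap_injective _ _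
  have hsurj : Function.Surjective
      (Algebra.linearMap
        (v.toValuationSubring ⧸ IsLocalRing.maximalIdeal v.toValuationSubring)
        (relRing F' v ⧸ Q)) := by
    intro z
    obtain ⟨b, rfl⟩ := Ideal.Quotient.mk_surjective z
    obtain ⟨c, hc⟩ := exists_sub_mem_prime F' v
      (⟨Q, hQ, hq0⟩ : HeightOneSpectrum (relRing F' v)) b
    refine ⟨Ideal.Quotient.mk _ (algebraMap K v.toValuationSubring c), ?_⟩
    rw [Algebra.linearMap_apply, Ideal.Quotient.algebraMap_mk_of_liesOver]
    symm
    have hcc : algebraMap K (relRing F' v) c =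
        algebraMap v.toValuationSubring (relRing F' v) (algebraMap K v.toValuationSubring c) :=
      Subtype.ext (IsScalarTower.algebraMap_apply K F F' c)
    rw [← hcc]
    exact (Ideal.Quotient.eq).mpr hc
  let _ : Module (v.toValuationSubring ⧸ IsLocalRing.maximalIdeal v.toValuationSubring)
    (relRing F' v ⧸ Q) := Algebra.toModule
  have e : (v.toValuationSubring ⧸ IsLocalRing.maximalIdeal v.toValuationSubring)
      ≃ₗ[v.toValuationSubring ⧸ IsLocalRing.maximalIdeal v.toValuationSubring]
      (relRing F' v ⧸ Q) :=
    LinearEquiv.ofBijective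
      (Algebra.linearMap
        (v.toValuationSubring ⧸ IsLocalRing.maximalIdeal v.toValuationSubring)
        (relRing F' v ⧸ Q)) ⟨hinj, hsurj⟩
  have h1 := e.finrank_eq
  rw [← h1]
  exact Module.finrank_self _

/-- The Prelude inertia degrees are one. -/
theorem place_inertiaDeg_eq_one (w : Place K F') : w.inertiaDeg F = 1 := by
  haveI := isFF1_top (K := K) (F := F) F'
  have h := w.deg_restrict_mul_inertiaDeg (F := F)
  rw [Fermat.Agent.S24.place_deg_eq_one, Fermat.Agent.S24.place_deg_eq_one, one_mul] at h
  exact h

/-- **Fundamental identity** for a finite extension of function fields in one variable over an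
algebraically closed field of characteristic zero. -/
theorem sum_ramificationIndex_mul_inertiaDeg [HasPrincipalDivisors K F'] :
    ∑ w ∈ v.fiber F', (w.ramificationIndex F : ℤ) * (w.inertiaDeg F : ℤ) =
      (Module.finrank F F' : ℤ) := by
  classical
  have hfin := finite_primesOver F' v
  let _ : Fintype ((IsLocalRing.maximalIdeal v.toValuationSubring).primesOver (relRing F' v)) :=
    Fintype.ofFinite _
  have hcoe : (↑(v.fiber F') : Set (Place K F')) = {w | w.restrict F = v} := by
    ext w
    simp
  rw [← finsum_mem_coe_finset, hcoe, ← range_placeOver F' v,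
    finsum_mem_range (placeOver_injective F' v), finsum_eq_sum_of_fintype,
    ← finrank_relRing F' v,
    ← Ideal.sum_ramification_inertia_eq_finrank (IsLocalRing.maximalIdeal v.toValuationSubring)
      (relRing F' v), Nat.cast_sum]
  refine Finset.sum_congr rfl fun q _ => ?_
  have := q.2.1
  have := q.2.2
  rw [place_inertiaDeg_eq_one F' (placeOver F' v q), inertiaDeg_eq_one F' v q.1, placeOver,
    ramificationIndex_placeOfPrime]
  simp [primeOver]

end Inertia

section Norm

/-- The order at `v` of an element of `O_v` generating the `s`-th power of the maximal ideal. -/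
theorem ord_of_span_eq_pow {r : v.toValuationSubring} {s : ℕ}
    (h : Ideal.span {r} = IsLocalRing.maximalIdeal v.toValuationSubring ^ s) :
    v.ord (r : F) = s := by
  obtain ⟨π, hπ⟩ := IsDiscreteValuationRing.exists_irreducible v.toValuationSubring
  rw [hπ.maximalIdeal_eq, Ideal.span_singleton_pow, Ideal.span_singleton_eq_span_singleton] at h
  obtain ⟨u, hu⟩ := h.symm
  have h1 : (r : F) = ((u : v.toValuationSubring) : F) * (π : F) ^ ((s : ℕ) : ℤ) := by
    rw [← hu, zpow_natCast]
    push_cast
    ring
  rw [h1, v.ord_unit_smul_zpow u hπ]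

variable [IsAlgClosed K] [IsFF1 K F]

theorem ord_placeOfPrime_coe (Q : HeightOneSpectrum (relRing F' v)) {b : relRing F' v}
    (hb : b ≠ 0) :
    (placeOfPrime F' v Q).ord (b : F') =
      ((Associates.mk Q.asIdeal).count (Associates.mk (Ideal.span {b})).factors : ℤ) := by
  rw [ord_placeOfPrime]
  have h1 : Q.valuation F' (b : F') = Q.intValuation b := by
    rw [← Q.valuation_of_algebraMap (K := F')]
    rfl
  rw [h1, Q.intValuation_if_neg hb, log_exp, neg_neg]

theorem span_intNorm (b : relRing F' v) (hb : b ≠ 0) :
    haveI := finite_heightOneSpectrum F' v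
    Ideal.span {Algebra.intNorm v.toValuationSubring (relRing F' v) b} =
      IsLocalRing.maximalIdeal v.toValuationSubring ^
        (∑ᶠ Q : HeightOneSpectrum (relRing F' v),
          (Associates.mk Q.asIdeal).count (Associates.mk (Ideal.span {b})).factors) := by
  classical
  haveI := finite_heightOneSpectrum F' v
  let _ : Fintype (HeightOneSpectrum (relRing F' v)) := Fintype.ofFinite _
  haveI : CharZero v.toValuationSubring :=
    charZero_of_injective_algebraMap (algebraMap K v.toValuationSubring).injective
  haveI : CharZero (FractionRing v.toValuationSubring) :=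
    charZero_of_injective_algebraMap
      (IsFractionRing.injective v.toValuationSubring (FractionRing v.toValuationSubring))
  have hI : Ideal.span {b} ≠ 0 := by
    rw [Ne, Ideal.zero_eq_bot, Ideal.span_singleton_eq_bot]
    exact hb
  have hfac := Ideal.finprod_heightOneSpectrum_factorization hI
  rw [finprod_eq_prod_of_fintype] at hfac
  have h1 := congrArg (Ideal.relNorm v.toValuationSubring) hfac
  rw [Ideal.relNorm_singleton, map_prod] at h1
  rw [← h1, finsum_eq_sum_of_fintype, ← Finset.prod_pow_eq_pow_sum]
  refine Finset.prod_congr rfl fun Q _ => ?_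
  have := Q.isPrime
  have hlo : Q.asIdeal.LiesOver (IsLocalRing.maximalIdeal v.toValuationSubring) :=
    liesOver_of_ne_bot F' v Q.asIdeal Q.ne_bot
  have hmax : Q.asIdeal.IsMaximal := Q.isMaximal
  rw [HeightOneSpectrum.maxPowDividing, map_pow,
    Ideal.relNorm_eq_pow_of_isMaximal Q.asIdeal (IsLocalRing.maximalIdeal v.toValuationSubring),
    inertiaDeg_eq_one F' v Q.asIdeal, pow_one]

end Norm

section NormFormula

variable [IsAlgClosed K] [IsFF1 K F]

/-- The norm formula for elements of the integral closure of `O_v`. -/
theorem ord_norm_coe (b : relRing F' v) (hb : b ≠ 0) :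
    v.ord (Algebra.norm F (b : F')) =
      ∑ᶠ Q : HeightOneSpectrum (relRing F' v), (placeOfPrime F' v Q).ord (b : F') := by
  haveI := finite_heightOneSpectrum F' v
  have h1 : algebraMap v.toValuationSubring F
      (Algebra.intNorm v.toValuationSubring (relRing F' v) b) =
      Algebra.norm F (algebraMap (relRing F' v) F' b) :=
    Algebra.algebraMap_intNorm (A := v.toValuationSubring) (K := F) (L := F')
      (B := relRing F' v) b
  have h2 : Algebra.norm F (b : F') =
      ((Algebra.intNorm v.toValuationSubring (relRing F' v) b : v.toValuationSubring) : F) :=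
    h1.symm
  rw [h2, ord_of_span_eq_pow v (span_intNorm F' v b hb), Nat.cast_finsum]
  exact finsum_congr fun Q => (ord_placeOfPrime_coe F' v Q hb).symm

theorem sum_fiber_eq_finsum [HasPrincipalDivisors K F'] (g : Place K F' → ℤ) :
    ∑ w ∈ v.fiber F', g w =
      ∑ᶠ Q : HeightOneSpectrum (relRing F' v), g (placeOfPrime F' v Q) := by
  have hcoe : (↑(v.fiber F') : Set (Place K F')) = {w | w.restrict F = v} := by
    ext w
    simp
  rw [← finsum_mem_coe_finset, hcoe, ← range_placeOfPrime F' v,
    finsum_mem_range (placeOfPrime_injective F' v)]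

/-- **Norm formula**: `ord_v (N_{F'/F} f) = ∑_{w ∣ v} ord_w f`. -/
theorem ord_norm [HasPrincipalDivisors K F'] (f : F') (hf : f ≠ 0) :
    v.ord (Algebra.norm F f) = ∑ w ∈ v.fiber F', w.ord f := by
  haveI := finite_heightOneSpectrum F' v
  obtain ⟨b₁, b₂, hb₂, rfl⟩ := IsFractionRing.div_surjective (A := relRing F' v) f
  have hb₂0 : b₂ ≠ 0 := nonZeroDivisors.ne_zero hb₂
  have hb₁0 : b₁ ≠ 0 := by
    rintro rfl
    simp at hf
  have hc₁ : algebraMap (relRing F' v) F' b₁ = (b₁ : F') := rfl
  have hc₂ : algebraMap (relRing F' v) F' b₂ = (b₂ : F') := rfl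
  have hn₁ : (b₁ : F') ≠ 0 := fun h => hb₁0 (Subtype.ext h)
  have hn₂ : (b₂ : F') ≠ 0 := fun h => hb₂0 (Subtype.ext h)
  have hnorm : Algebra.norm F ((b₁ : F') / (b₂ : F')) =
      Algebra.norm F (b₁ : F') * (Algebra.norm F (b₂ : F'))⁻¹ := by
    rw [eq_mul_inv_iff_mul_eq₀ (Algebra.norm_ne_zero_iff.mpr hn₂), ← map_mul,
      div_mul_cancel₀ _ hn₂]
  rw [hc₁, hc₂, hnorm,
    v.ord_mul (Algebra.norm_ne_zero_iff.mpr hn₁) (inv_ne_zero (Algebra.norm_ne_zero_iff.mpr hn₂)),
    v.ord_inv, ord_norm_coe F' v b₁ hb₁0, ord_norm_coe F' v b₂ hb₂0, sum_fiber_eq_finsum,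
    ← sub_eq_add_neg, ← finsum_sub_distrib (Set.toFinite _) (Set.toFinite _)]
  refine finsum_congr fun Q => ?_
  rw [div_eq_mul_inv, Place.ord_mul _ hn₁ (inv_ne_zero hn₂), Place.ord_inv, sub_eq_add_neg]

end NormFormula

end Local

section Global

variable (K F F' : Type*) [Field K] [IsAlgClosed K] [CharZero K] [Field F] [Field F']
  [Algebra K F] [Algebra K F'] [Algebra F F'] [IsScalarTower K F F'] [FiniteDimensional F F']
  [IsFF1 K F]

/-- `∑_{w ∣ v} e(w ∣ v) f(w ∣ v) = [F' : F]` in the Prelude vocabulary. -/
theorem sumRamificationInertia [HasPrincipalDivisors K F'] : SumRamificationInertia K F F' :=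
  ⟨fun v => sum_ramificationIndex_mul_inertiaDeg F' v⟩

/-- The Prelude fundamental identity `∑_{w ∣ v} e(w ∣ v) deg w = [F' : F] deg v`. -/
theorem fundamentalIdentity [HasPrincipalDivisors K F'] : FundamentalIdentity K F F' := by
  haveI := sumRamificationInertia K F F'
  infer_instance

/-- The Prelude norm formula: the push-forward of `div f` is `div (N_{F'/F} f)`. -/
theorem pushforwardNormFormula : Divisor.PushforwardNormFormula K F F' := by
  classical
  haveI : IsFF1 K F' := isFF1_top (K := K) (F := F) F'
  haveI := hasPrincipalDivisors K F'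
  intro f hf D hD v
  rw [Divisor.pushforward_apply, ord_norm F' v f hf, ← Finset.sum_filter]
  have hsub : D.support.filter (fun w => w.restrict F = v) ⊆ v.fiber F' := fun w hw =>
    Place.mem_fiber.mpr (Finset.mem_filter.mp hw).2
  rw [Finset.sum_subset hsub (fun w hw hnot => ?_)]
  · refine Finset.sum_congr rfl fun w _ => ?_
    rw [hD w, place_inertiaDeg_eq_one F' w]
    simp
  · have hw' : w ∉ D.support := fun h =>
      hnot (Finset.mem_filter.mpr ⟨h, Place.mem_fiber.mp hw⟩)
    rw [Finsupp.notMem_support_iff.mp hw', zero_mul]

end Global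

section Along

variable {K F F' : Type*} [Field K] [IsAlgClosed K] [CharZero K] [Field F] [Field F']
  [Algebra K F] [Algebra K F'] [IsFF1 K F] [IsFF1 K F'] (φ : F →ₐ[K] F')

/-- A `K`-algebra homomorphism between function fields in one variable is finite. -/
theorem finiteAlong : FiniteAlong K φ := by
  letI := algebraAlong φ
  haveI := isScalarTower_along φ
  show Module.Finite F F'
  obtain ⟨x, hx, -⟩ := IsFF1.exists_gen (K := K) (F := F)
  have hy : Transcendental K (φ x) :=
    (transcendental_algebraMap_iff (algebraMap F F').injective).mpr hx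
  haveI : FiniteDimensional K⟮φ x⟯ F' := Fermat.Agent.S24.finiteDimensional_adjoin hy
  have hle : ∀ c : K⟮φ x⟯, ∃ a : F, φ a = (c : F') := by
    intro c
    have h1 : K⟮φ x⟯ ≤ φ.fieldRange := by
      rw [IntermediateField.adjoin_simple_le_iff]
      exact ⟨x, rfl⟩
    exact h1 c.2
  choose ψ hψ using hle
  letI : SMul K⟮φ x⟯ F := ⟨fun c a => ψ c * a⟩
  haveI : IsScalarTower K⟮φ x⟯ F F' := ⟨fun c a m => by
    show φ (ψ c * a) * m = (c : F') * (φ a * m)
    rw [map_mul, hψ, mul_assoc]⟩
  exact Module.Finite.of_restrictScalars_finite K⟮φ x⟯ F F'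

/-- A `K`-algebra homomorphism between function fields in one variable is integral. -/
theorem isIntegralAlong : φ.toRingHom.IsIntegral := by
  letI := algebraAlong φ
  haveI : Module.Finite F F' := finiteAlong φ
  exact fun y => Algebra.IsIntegral.isIntegral (R := F) y

/-- The Prelude fundamental identity along a `K`-algebra homomorphism. -/
theorem fundamentalIdentityAlong [HasPrincipalDivisors K F'] (hφ : φ.toRingHom.IsIntegral) :
    FundamentalIdentityAlong K φ hφ := by
  letI := algebraAlong φ
  haveI := isScalarTower_along φ
  haveI : FiniteDimensional F F' := finiteAlong φ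
  exact fundamentalIdentity K F F'

/-- The Prelude norm formula along a `K`-algebra homomorphism. -/
theorem normFormulaAlong (hfin : FiniteAlong K φ) : NormFormulaAlong K φ hfin := by
  letI := algebraAlong φ
  haveI := isScalarTower_along φ
  haveI : FiniteDimensional F F' := hfin
  exact pushforwardNormFormula K F F'

/-- Inertia degrees along a `K`-algebra homomorphism are one. -/
theorem inertiaDegAlong_eq_one (hφ : φ.toRingHom.IsIntegral) (w : Place K F') :
    w.inertiaDegAlong φ hφ = 1 := by
  letI := algebraAlong φ
  haveI := isScalarTower_along φ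
  haveI : FiniteDimensional F F' := finiteAlong φ
  exact place_inertiaDeg_eq_one F' w

end Along

end Fermat.Agent.Lib.FFRel
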