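import Mathlib
import Fermat.Prelude.Def_AlgebraicCurve_Repartitions
import Fermat.Agent.Lib.FFPlaces

/-!
# A rationality criterion for function fields (S18, leaf [Rat0])

Pure Prelude vocabulary (`AlgebraicCurve.Place`, `Divisor`, `riemannRochSpace`), any
characteristic, no separability hypothesis, no chart.

* `finrank_riemannRochSpace_add_single_le` : `l(D + Q) ≤ l(D) + deg Q`.
* `finrank_riemannRochSpace_le_of_le` : `l(D) ≤ l(B) + deg D - deg B` for `B ≤ D`.
* `mem_adjoin_of_simple_pole` : if `f` has a single, simple pole at a place `P` of degree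
  one, every function regular outside `P` is a polynomial in `f`.
* `adjoin_eq_top_of_simple_pole` : such an `f` generates the function field.
* `exists_adjoin_eq_top` : if `l(D) ≥ deg D + 1` for one nonzero effective divisor
  supported on places of degree one, the function field is rational.
-/

set_option autoImplicit false

noncomputable section

namespace Fermat.Agent.Lib.RationalFF

open AlgebraicCurve IntermediateField

variable {K F : Type*} [Field K] [Field F] [Algebra K F]

/-! ### Residues at a place of degree one -/

/-- (R0) At a place of degree one every regular function has a value in `K`. -/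
theorem exists_residue_of_deg_eq_one (P : Place K F) (hP : P.deg = 1) {u : F}
    (hu : u ∈ P.toValuationSubring) :
    ∃ a : K, u = algebraMap K F a ∨ 0 < P.ord (u - algebraMap K F a) := by
  have hbt : (⊥ : Subalgebra K P.ResidueField) = ⊤ :=
    Subalgebra.bot_eq_top_of_finrank_eq_one hP
  have hmem : IsLocalRing.residue P.toValuationSubring ⟨u, hu⟩ ∈
      (⊥ : Subalgebra K P.ResidueField) := by
    rw [hbt]; exact Algebra.mem_top
  obtain ⟨a, ha⟩ := Algebra.mem_bot.mp hmem
  refine ⟨a, ?_⟩
  by_cases h : u = algebraMap K F a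
  · exact Or.inl h
  right
  have hne : u - algebraMap K F a ≠ 0 := sub_ne_zero.mpr h
  have hres : IsLocalRing.residue P.toValuationSubring
      (⟨u, hu⟩ - algebraMap K P.toValuationSubring a) = 0 := by
    rw [map_sub, ← ha]
    exact sub_self _
  have hmax : (⟨u, hu⟩ - algebraMap K P.toValuationSubring a : P.toValuationSubring) ∈
      IsLocalRing.maximalIdeal P.toValuationSubring :=
    (IsLocalRing.residue_eq_zero_iff _).mp hres
  have hcoe : ((⟨u, hu⟩ - algebraMap K P.toValuationSubring a : P.toValuationSubring) : F)
      = u - algebraMap K F a := rfl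
  rw [FFPlaces.ord_pos_iff P hne]
  refine ⟨by rw [← hcoe]; exact Subtype.mem _, fun hinv => ?_⟩
  apply (IsLocalRing.mem_maximalIdeal _).mp hmax
  refine IsUnit.of_mul_eq_one ⟨(u - algebraMap K F a)⁻¹, hinv⟩ (Subtype.ext ?_)
  show (u - algebraMap K F a) * (u - algebraMap K F a)⁻¹ = 1
  exact mul_inv_cancel₀ hne

/-- Membership in the valuation ring, including `0`. -/
theorem mem_iff (P : Place K F) {f : F} :
    f ∈ P.toValuationSubring ↔ f = 0 ∨ 0 ≤ P.ord f := by
  rcases eq_or_ne f 0 with rfl | hf
  · simp
  · rw [FFPlaces.mem_iff_ord_nonneg P hf, or_iff_right hf]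

/-- A function with a pole is transcendental over the constants. -/
theorem transcendental_of_ord_neg (P : Place K F) {f : F} (hf : P.ord f < 0) :
    Transcendental K f := by
  intro halg
  have hf0 : f ≠ 0 := by
    rintro rfl
    simp at hf
  have hint : IsIntegral K f := halg.isIntegral
  obtain ⟨p, hp, hpf⟩ := hint
  let φ : K →+* P.toValuationSubring := algebraMap K P.toValuationSubring
  have hint' : IsIntegral P.toValuationSubring f := by
    refine ⟨p.map φ, hp.map φ, ?_⟩
    rw [Polynomial.eval₂_map]
    exact hpf
  obtain ⟨y, hy⟩ := IsIntegrallyClosed.isIntegral_iff.mp hint'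
  have hmem : f ∈ P.toValuationSubring := by
    rw [← hy]; exact y.2
  have := (FFPlaces.mem_iff_ord_nonneg P hf0).mp hmem
  omega

/-! ### The step inequality `l(D + Q) ≤ l(D) + deg Q` -/

theorem riemannRochSpace_mono {B D : Divisor K F} (h : B ≤ D) :
    riemannRochSpace B ≤ riemannRochSpace D := by
  intro f hf
  rw [mem_riemannRochSpace_iff] at hf ⊢
  intro v
  rcases hf v with h0 | h1
  · exact Or.inl h0
  · right
    have := Finsupp.le_def.mp h v
    omega

/-- (R3) Adding one place to a divisor raises `l` by at most the degree of the place. -/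
theorem finrank_riemannRochSpace_add_single_le (Q : Place K F) (hQ : 0 < Q.deg)
    (D : Divisor K F) [Module.Finite K (riemannRochSpace D)] :
    Module.Finite K (riemannRochSpace (D + Finsupp.single Q 1)) ∧
      Module.finrank K (riemannRochSpace (D + Finsupp.single Q 1)) ≤
        Module.finrank K (riemannRochSpace D) + Q.deg := by
  classical
  obtain ⟨π, hπ⟩ := IsDiscreteValuationRing.exists_irreducible Q.toValuationSubring
  have hπ0 : (π : F) ≠ 0 := fun h => hπ.ne_zero (Subtype.ext h)
  have hordπ : Q.ord (π : F) = 1 := Q.ord_coe_irreducible hπ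
  set n : ℤ := D Q + 1 with hn
  set D' : Divisor K F := D + Finsupp.single Q 1 with hD'
  have hD'Q : D' Q = n := by simp [hD', hn]
  have hD'v : ∀ v : Place K F, v ≠ Q → D' v = D v := by
    intro v hv
    simp [hD', Ne.symm hv]
  have hle : D ≤ D' := by
    rw [Finsupp.le_def]
    intro v
    by_cases hv : v = Q
    · subst hv; rw [hD'Q]; omega
    · rw [hD'v v hv]
  have hpow0 : (π : F) ^ n ≠ 0 := zpow_ne_zero _ hπ0
  have hmem : ∀ y ∈ riemannRochSpace D', y * (π : F) ^ n ∈ Q.toValuationSubring := by
    intro y hy
    rcases eq_or_ne y 0 with rfl | hy0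
    · simp
    have h1 := ((mem_riemannRochSpace_iff.mp hy) Q).resolve_left hy0
    rw [FFPlaces.mem_iff_ord_nonneg Q (mul_ne_zero hy0 hpow0), Q.ord_mul hy0 hpow0,
      Q.ord_zpow, hordπ]
    rw [hD'Q] at h1
    omega
  have hfinκ : Module.Finite K Q.ResidueField := Module.finite_of_finrank_pos hQ
  let φ : riemannRochSpace D' →ₗ[K] Q.ResidueField :=
    { toFun := fun y =>
        IsLocalRing.residue Q.toValuationSubring ⟨(y : F) * (π : F) ^ n, hmem y y.2⟩
      map_add' := by
        intro y z
        rw [← map_add]
        congr 1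
        apply Subtype.ext
        show ((y + z : riemannRochSpace D') : F) * (π : F) ^ n
          = (y : F) * (π : F) ^ n + (z : F) * (π : F) ^ n
        rw [Submodule.coe_add, add_mul]
      map_smul' := by
        intro c y
        simp only [RingHom.id_apply]
        rw [Algebra.smul_def]
        have h1 : algebraMap K Q.ResidueField c
            = IsLocalRing.residue Q.toValuationSubring (algebraMap K Q.toValuationSubring c) :=
          rfl
        rw [h1, ← map_mul]
        congr 1
        apply Subtype.ext
        show ((c • y : riemannRochSpace D') : F) * (π : F) ^ n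
          = algebraMap K F c * ((y : F) * (π : F) ^ n)
        rw [Submodule.coe_smul, Algebra.smul_def, mul_assoc] }
  have hker : ∀ y : riemannRochSpace D', φ y = 0 ↔ (y : F) ∈ riemannRochSpace D := by
    intro y
    show IsLocalRing.residue Q.toValuationSubring ⟨(y : F) * (π : F) ^ n, hmem y y.2⟩ = 0 ↔ _
    rw [IsLocalRing.residue_eq_zero_iff]
    constructor
    · intro hmax
      rw [mem_riemannRochSpace_iff]
      intro v
      by_cases hv : v = Q
      · subst hv
        rcases eq_or_ne (y : F) 0 with hy0 | hy0
        · exact Or.inl hy0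
        right
        have hne : (y : F) * (π : F) ^ n ≠ 0 := mul_ne_zero hy0 hpow0
        have hpos : 0 < v.ord ((y : F) * (π : F) ^ n) := by
          rw [FFPlaces.ord_pos_iff v hne]
          refine ⟨hmem y y.2, fun hinv => ?_⟩
          apply (IsLocalRing.mem_maximalIdeal _).mp hmax
          refine IsUnit.of_mul_eq_one ⟨((y : F) * (π : F) ^ n)⁻¹, hinv⟩ (Subtype.ext ?_)
          show (y : F) * (π : F) ^ n * ((y : F) * (π : F) ^ n)⁻¹ = 1
          exact mul_inv_cancel₀ hne
        rw [v.ord_mul hy0 hpow0, v.ord_zpow, hordπ] at hpos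
        omega
      · have := (mem_riemannRochSpace_iff.mp y.2) v
        rw [hD'v v hv] at this
        exact this
    · intro hy
      rw [IsLocalRing.mem_maximalIdeal, mem_nonunits_iff]
      intro hunit
      rcases eq_or_ne (y : F) 0 with hy0 | hy0
      · apply hunit.ne_zero
        apply Subtype.ext
        show (y : F) * (π : F) ^ n = 0
        rw [hy0, zero_mul]
      have h1 := ((mem_riemannRochSpace_iff.mp hy) Q).resolve_left hy0
      have hne : (y : F) * (π : F) ^ n ≠ 0 := mul_ne_zero hy0 hpow0
      obtain ⟨w, hw⟩ := hunit.exists_right_inv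
      have hw' : (y : F) * (π : F) ^ n * (w : F) = 1 := congrArg Subtype.val hw
      have hinv : ((y : F) * (π : F) ^ n)⁻¹ ∈ Q.toValuationSubring := by
        have : ((y : F) * (π : F) ^ n)⁻¹ = (w : F) := inv_eq_of_mul_eq_one_right hw'
        rw [this]; exact w.2
      have h2 := (FFPlaces.mem_iff_ord_nonneg Q (inv_ne_zero hne)).mp hinv
      rw [Q.ord_inv, Q.ord_mul hy0 hpow0, Q.ord_zpow, hordπ] at h2
      omega
  -- the kernel is `L(D)`
  have hkereq : LinearMap.ker φ
      = Submodule.comap (riemannRochSpace D').subtype (riemannRochSpace D) := by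
    ext y
    rw [LinearMap.mem_ker, hker y]
    rfl
  let e : Submodule.comap (riemannRochSpace D').subtype (riemannRochSpace D)
      ≃ₗ[K] riemannRochSpace D :=
    Submodule.comapSubtypeEquivOfLe (riemannRochSpace_mono hle)
  have hfinker : Module.Finite K (LinearMap.ker φ) := by
    rw [hkereq]
    exact Module.Finite.equiv e.symm
  have hfinq : Module.Finite K (riemannRochSpace D' ⧸ LinearMap.ker φ) :=
    Module.Finite.equiv φ.quotKerEquivRange.symm
  have hfin : Module.Finite K (riemannRochSpace D') :=
    Module.Finite.of_submodule_quotient (LinearMap.ker φ)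
  refine ⟨hfin, ?_⟩
  have h1 := LinearMap.finrank_range_add_finrank_ker φ
  have h2 : Module.finrank K (LinearMap.range φ) ≤ Q.deg := Submodule.finrank_le _
  have h3 : Module.finrank K (LinearMap.ker φ) = Module.finrank K (riemannRochSpace D) := by
    rw [hkereq]
    exact e.finrank_eq
  omega

/-- Total mass of a divisor (sum of the coefficients). -/
def mass : Divisor K F →+ ℤ := Finsupp.liftAddHom fun _ => AddMonoidHom.id ℤ

@[simp]
theorem mass_single (v : Place K F) (n : ℤ) : mass (Finsupp.single v n) = n := by
  simp [mass]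

theorem mass_nonneg {E : Divisor K F} (hE : 0 ≤ E) : 0 ≤ mass E := by
  have : mass E = E.sum fun _ c => c := by
    simp only [mass, Finsupp.liftAddHom_apply]
    rfl
  rw [this, Finsupp.sum]
  exact Finset.sum_nonneg fun v _ => Finsupp.le_def.mp hE v

/-- (R3') For `B ≤ D` differing only at places of positive (finite) degree,
`l(D) ≤ l(B) + deg D - deg B`, and `L(D)` is finite dimensional if `L(B)` is. -/
theorem finrank_riemannRochSpace_le_of_le (B : Divisor K F)
    [Module.Finite K (riemannRochSpace B)] (D : Divisor K F) (hBD : B ≤ D)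
    (hdeg : ∀ Q : Place K F, B Q < D Q → 0 < Q.deg) :
    Module.Finite K (riemannRochSpace D) ∧
      (Module.finrank K (riemannRochSpace D) : ℤ) ≤
        Module.finrank K (riemannRochSpace B) + (Divisor.degree D - Divisor.degree B) := by
  classical
  suffices H : ∀ (m : ℕ) (D : Divisor K F), B ≤ D → (∀ Q : Place K F, B Q < D Q → 0 < Q.deg) →
      mass (D - B) ≤ m →
      Module.Finite K (riemannRochSpace D) ∧
        (Module.finrank K (riemannRochSpace D) : ℤ) ≤
          Module.finrank K (riemannRochSpace B) + (Divisor.degree D - Divisor.degree B) by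
    have h0 : 0 ≤ mass (D - B) := mass_nonneg (sub_nonneg.mpr hBD)
    exact H (mass (D - B)).toNat D hBD hdeg (by omega)
  intro m
  induction m with
  | zero =>
    intro D hBD hdeg hm
    have hDB : D = B := by
      by_contra hne
      have hex : ∃ Q : Place K F, B Q < D Q := by
        by_contra hall
        push Not at hall
        apply hne
        ext v
        exact le_antisymm (hall v) (Finsupp.le_def.mp hBD v)
      obtain ⟨Q, hQ⟩ := hex
      have hle : Finsupp.single Q 1 ≤ D - B := by
        rw [Finsupp.le_def]
        intro v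
        by_cases hv : v = Q
        · subst hv
          simp only [Finsupp.single_eq_same, Finsupp.coe_sub, Pi.sub_apply]
          omega
        · simp only [Finsupp.single_apply, if_neg (Ne.symm hv), Finsupp.coe_sub, Pi.sub_apply]
          have := Finsupp.le_def.mp hBD v
          omega
      have h1 : 0 ≤ mass (D - B - Finsupp.single Q 1) := mass_nonneg (sub_nonneg.mpr hle)
      rw [map_sub, mass_single] at h1
      have : mass (D - B) ≤ 0 := by exact_mod_cast hm
      omega
    subst hDB
    refine ⟨inferInstance, ?_⟩
    simp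
  | succ m ih =>
    intro D hBD hdeg hm
    by_cases hDB : D = B
    · subst hDB
      refine ⟨inferInstance, ?_⟩
      simp
    have hex : ∃ Q : Place K F, B Q < D Q := by
      by_contra hall
      push Not at hall
      apply hDB
      ext v
      exact le_antisymm (hall v) (Finsupp.le_def.mp hBD v)
    obtain ⟨Q, hQ⟩ := hex
    set D₁ : Divisor K F := D - Finsupp.single Q 1 with hD₁
    have hD₁Q : D₁ Q = D Q - 1 := by simp [hD₁]
    have hD₁v : ∀ v : Place K F, v ≠ Q → D₁ v = D v := by
      intro v hv
      simp [hD₁, Ne.symm hv]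
    have hBD₁ : B ≤ D₁ := by
      rw [Finsupp.le_def]
      intro v
      by_cases hv : v = Q
      · subst hv; rw [hD₁Q]; omega
      · rw [hD₁v v hv]; exact Finsupp.le_def.mp hBD v
    have hdeg₁ : ∀ v : Place K F, B v < D₁ v → 0 < v.deg := by
      intro v hv
      apply hdeg v
      by_cases hvQ : v = Q
      · subst hvQ; exact hQ
      · rwa [hD₁v v hvQ] at hv
    have hm₁ : mass (D₁ - B) ≤ m := by
      have : D₁ - B = (D - B) - Finsupp.single Q 1 := by
        rw [hD₁]; abel
      rw [this, map_sub, mass_single]
      have : mass (D - B) ≤ (m : ℤ) + 1 := by exact_mod_cast hm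
      omega
    obtain ⟨hfin₁, hle₁⟩ := ih D₁ hBD₁ hdeg₁ hm₁
    have hDeq : D = D₁ + Finsupp.single Q 1 := by rw [hD₁]; abel
    obtain ⟨hfin, hle⟩ := finrank_riemannRochSpace_add_single_le Q (hdeg Q hQ) D₁
    rw [← hDeq] at hfin hle
    refine ⟨hfin, ?_⟩
    have hdegD : Divisor.degree D = Divisor.degree D₁ + Q.deg := by
      rw [hDeq, map_add, Divisor.degree_single, one_mul]
    rw [hdegD]
    have : (Module.finrank K (riemannRochSpace D) : ℤ)
        ≤ Module.finrank K (riemannRochSpace D₁) + Q.deg := by exact_mod_cast hle
    omega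

/-! ### Functions with one simple pole -/

/-- (R1) If `f` has a single pole, simple and at a place `P` of degree one, then every
function regular outside `P` is a polynomial in `f`: the integral closure of `K[f]` in `F`
is `K[f]`. -/
theorem mem_adjoin_of_simple_pole
    (hconst : ∀ z : F, (∀ Q : Place K F, z ∈ Q.toValuationSubring) →
      z ∈ Set.range (algebraMap K F))
    (P : Place K F) (hP : P.deg = 1) (f : F) (hf : P.ord f = -1)
    (hreg : ∀ Q : Place K F, Q ≠ P → f ∈ Q.toValuationSubring)
    (z : F) (hz : ∀ Q : Place K F, Q ≠ P → z ∈ Q.toValuationSubring) :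
    z ∈ Algebra.adjoin K {f} := by
  have hf0 : f ≠ 0 := by
    rintro rfl
    simp at hf
  suffices H : ∀ (c : ℕ) (z : F), (∀ Q : Place K F, Q ≠ P → z ∈ Q.toValuationSubring) →
      (z = 0 ∨ -(c : ℤ) ≤ P.ord z) → z ∈ Algebra.adjoin K {f} by
    refine H (-(P.ord z)).toNat z hz ?_
    right
    omega
  intro c
  induction c with
  | zero =>
    intro z hz hc
    have hzP : z ∈ P.toValuationSubring := by
      rw [mem_iff]
      simpa using hc
    obtain ⟨a, rfl⟩ := hconst z (fun Q => by
      by_cases hQ : Q = P
      · subst hQ; exact hzP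
      · exact hz Q hQ)
    exact Subalgebra.algebraMap_mem _ a
  | succ c ih =>
    intro z hz hc
    rcases eq_or_ne z 0 with rfl | hz0
    · exact Subalgebra.zero_mem _
    have hc' : -((c : ℤ) + 1) ≤ P.ord z := by
      have := hc.resolve_left hz0
      push_cast at this
      exact this
    have hfpow0 : f ^ (c + 1) ≠ 0 := pow_ne_zero _ hf0
    have hordpow : P.ord (f ^ (c + 1)) = -((c : ℤ) + 1) := by
      have := P.ord_zpow f ((c + 1 : ℕ) : ℤ)
      rw [zpow_natCast] at this
      rw [this, hf]
      push_cast
      ring
    -- `u = z / f^(c+1)` is regular at `P`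
    set u : F := z * (f ^ (c + 1))⁻¹ with hu
    have hu0 : u ≠ 0 := mul_ne_zero hz0 (inv_ne_zero hfpow0)
    have hordu : P.ord u = P.ord z + ((c : ℤ) + 1) := by
      rw [hu, P.ord_mul hz0 (inv_ne_zero hfpow0), P.ord_inv, hordpow]
      ring
    have huP : u ∈ P.toValuationSubring := by
      rw [FFPlaces.mem_iff_ord_nonneg P hu0, hordu]
      omega
    obtain ⟨a, ha⟩ := exists_residue_of_deg_eq_one P hP huP
    have hzu : z = u * f ^ (c + 1) := by
      rw [hu, mul_assoc, inv_mul_cancel₀ hfpow0, mul_one]
    have hfmem : f ∈ Algebra.adjoin K {f} := Algebra.self_mem_adjoin_singleton K f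
    have hterm : algebraMap K F a * f ^ (c + 1) ∈ Algebra.adjoin K {f} :=
      Subalgebra.mul_mem _ (Subalgebra.algebraMap_mem _ a) (Subalgebra.pow_mem _ hfmem _)
    -- `z' = z - a f^(c+1)`
    have hz' : z - algebraMap K F a * f ^ (c + 1) ∈ Algebra.adjoin K {f} := by
      apply ih
      · intro Q hQ
        exact Q.toValuationSubring.sub_mem (hz Q hQ)
          (Q.toValuationSubring.mul_mem _ _ (Q.algebraMap_mem' a)
            (pow_mem (hreg Q hQ) _))
      · rcases ha with ha | ha
        · left
          rw [hzu, ha, sub_self]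
        · by_cases h0 : z - algebraMap K F a * f ^ (c + 1) = 0
          · exact Or.inl h0
          right
          have hfac : z - algebraMap K F a * f ^ (c + 1)
              = (u - algebraMap K F a) * f ^ (c + 1) := by
            rw [sub_mul, ← hzu]
          have hne : u - algebraMap K F a ≠ 0 := by
            intro h
            apply h0
            rw [hfac, h, zero_mul]
          rw [hfac, P.ord_mul hne hfpow0, hordpow]
          omega
    have : z = (z - algebraMap K F a * f ^ (c + 1)) + algebraMap K F a * f ^ (c + 1) := by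
      ring
    rw [this]
    exact Subalgebra.add_mem _ hz' hterm

open IntermediateField.algebraAdjoinAdjoin in
/-- (R2) A function with a single pole, simple and at a place of degree one, generates
the function field. -/
theorem adjoin_eq_top_of_simple_pole
    (hconst : ∀ z : F, (∀ Q : Place K F, z ∈ Q.toValuationSubring) →
      z ∈ Set.range (algebraMap K F))
    (P : Place K F) (hP : P.deg = 1) (f : F) (hf : P.ord f = -1)
    (hreg : ∀ Q : Place K F, Q ≠ P → f ∈ Q.toValuationSubring)
    [Algebra.IsAlgebraic K⟮f⟯ F] : K⟮f⟯ = ⊤ := by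
  rw [eq_top_iff]
  intro y _
  have halg : IsAlgebraic K⟮f⟯ y := Algebra.IsAlgebraic.isAlgebraic y
  have halg' : IsAlgebraic (Algebra.adjoin K {f}) y :=
    (IsFractionRing.isAlgebraic_iff (Algebra.adjoin K {f}) K⟮f⟯ F).mpr halg
  obtain ⟨d, hd0, hint⟩ := halg'.exists_integral_multiple
  have hdy : d • y = (d : F) * y := rfl
  rw [hdy] at hint
  have hzmem : (d : F) * y ∈ Algebra.adjoin K {f} :=
    mem_adjoin_of_simple_pole hconst P hP f hf hreg _ (fun Q hQ =>
      FFPlaces.intRing_mem Q (hreg Q hQ) ⟨(d : F) * y, hint⟩)
  have hd0' : (d : F) ≠ 0 := fun h => hd0 (Subtype.ext h)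
  have hy : y = ((d : F) * y) / (d : F) := by
    field_simp
  rw [hy]
  exact div_mem (algebra_adjoin_le_adjoin K {f} hzmem) (algebra_adjoin_le_adjoin K {f} d.2)

/-! ### The rationality criterion -/

/-- `L(0)` consists of constants. -/
theorem riemannRochSpace_zero_le
    (hconst : ∀ z : F, (∀ Q : Place K F, z ∈ Q.toValuationSubring) →
      z ∈ Set.range (algebraMap K F)) :
    riemannRochSpace (0 : Divisor K F) ≤ Submodule.span K {(1 : F)} := by
  intro z hz
  rw [mem_riemannRochSpace_iff] at hz
  obtain ⟨a, rfl⟩ := hconst z (fun Q => by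
    rw [mem_iff]
    simpa using hz Q)
  rw [Submodule.mem_span_singleton]
  exact ⟨a, by rw [Algebra.smul_def, mul_one]⟩

/-- (R4) **Rationality criterion.** If `l(D) ≥ deg D + 1` for one effective divisor `D`
supported on places of degree one, and `P` is in the support of `D`, then there is a function
`f` whose only pole is a simple pole at `P`, and `F = K(f)`. -/
theorem exists_adjoin_eq_top
    (hconst : ∀ z : F, (∀ Q : Place K F, z ∈ Q.toValuationSubring) →
      z ∈ Set.range (algebraMap K F))
    (D : Divisor K F) (hD : 0 ≤ D) (hdeg : ∀ Q : Place K F, D Q ≠ 0 → Q.deg = 1)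
    (P : Place K F) (hP : 0 < D P)
    (hl : Divisor.degree D + 1 ≤ Module.finrank K (riemannRochSpace D))
    (halg : ∀ f : F, Transcendental K f → Algebra.IsAlgebraic K⟮f⟯ F) :
    ∃ f : F, P.ord f = -1 ∧ (∀ Q : Place K F, Q ≠ P → f ∈ Q.toValuationSubring) ∧
      Transcendental K f ∧ K⟮f⟯ = ⊤ := by
  classical
  have hPdeg : P.deg = 1 := hdeg P (ne_of_gt hP)
  -- `L(0)` is finite dimensional of dimension `≤ 1`
  have hL0le := riemannRochSpace_zero_le (K := K) (F := F) hconst
  have hfin0 : Module.Finite K (riemannRochSpace (0 : Divisor K F)) :=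
    Module.Finite.of_injective (Submodule.inclusion hL0le) (Submodule.inclusion_injective hL0le)
  have hl0 : Module.finrank K (riemannRochSpace (0 : Divisor K F)) ≤ 1 := by
    calc Module.finrank K (riemannRochSpace (0 : Divisor K F))
        ≤ Module.finrank K (Submodule.span K {(1 : F)}) := Submodule.finrank_mono hL0le
      _ ≤ 1 := by
        rw [finrank_span_singleton (one_ne_zero)]
  -- `L(P)` is finite dimensional
  obtain ⟨hfinP, -⟩ := finrank_riemannRochSpace_add_single_le P (by omega) (0 : Divisor K F)
  rw [zero_add] at hfinP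
  -- compare `L(P)` and `L(D)`
  have hPD : Finsupp.single P 1 ≤ D := by
    rw [Finsupp.le_def]
    intro v
    by_cases hv : v = P
    · subst hv; simp only [Finsupp.single_eq_same]; omega
    · simp only [Finsupp.single_apply, if_neg (Ne.symm hv)]
      exact Finsupp.le_def.mp hD v
  obtain ⟨-, hle⟩ := finrank_riemannRochSpace_le_of_le (Finsupp.single P 1) D hPD (by
    intro Q hQ
    have : D Q ≠ 0 := by
      intro h0
      rw [h0] at hQ
      by_cases hv : Q = P
      · subst hv; simp at hQ
      · simp only [Finsupp.single_apply, if_neg (Ne.symm hv)] at hQ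
        omega
    rw [hdeg Q this]
    exact one_pos)
  rw [Divisor.degree_single, hPdeg] at hle
  have hlP : 2 ≤ Module.finrank K (riemannRochSpace (Finsupp.single P 1 : Divisor K F)) := by
    have : (2 : ℤ) ≤ Module.finrank K (riemannRochSpace (Finsupp.single P 1 : Divisor K F)) := by
      push_cast at hle
      omega
    exact_mod_cast this
  -- a non-constant element of `L(P)`
  have hex : ∃ f ∈ riemannRochSpace (Finsupp.single P 1 : Divisor K F),
      f ∉ Submodule.span K {(1 : F)} := by
    by_contra hall
    push Not at hall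
    have hle' : riemannRochSpace (Finsupp.single P 1 : Divisor K F)
        ≤ Submodule.span K {(1 : F)} := hall
    have := Submodule.finrank_mono hle'
    rw [finrank_span_singleton (one_ne_zero)] at this
    omega
  obtain ⟨f, hfL, hfK⟩ := hex
  have hf0 : f ≠ 0 := by
    rintro rfl
    exact hfK (Submodule.zero_mem _)
  rw [mem_riemannRochSpace_iff] at hfL
  have hreg : ∀ Q : Place K F, Q ≠ P → f ∈ Q.toValuationSubring := by
    intro Q hQ
    have := (hfL Q).resolve_left hf0
    simp only [Finsupp.single_apply, if_neg (Ne.symm hQ), neg_zero] at this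
    exact (FFPlaces.mem_iff_ord_nonneg Q hf0).mpr this
  have hPord : -1 ≤ P.ord f := by
    have := (hfL P).resolve_left hf0
    simpa using this
  have hfP : f ∉ P.toValuationSubring := by
    intro hmem
    obtain ⟨a, rfl⟩ := hconst f (fun Q => by
      by_cases hQ : Q = P
      · subst hQ; exact hmem
      · exact hreg Q hQ)
    apply hfK
    rw [Submodule.mem_span_singleton]
    exact ⟨a, by rw [Algebra.smul_def, mul_one]⟩
  have hord : P.ord f = -1 := by
    have := (FFPlaces.ord_neg_iff P hf0).mpr hfP
    omega
  have htr : Transcendental K f := transcendental_of_ord_neg P (by omega)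
  have := halg f htr
  exact ⟨f, hord, hreg, htr, adjoin_eq_top_of_simple_pole hconst P hPdeg f hord hreg⟩

end Fermat.Agent.Lib.RationalFF
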