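import Mathlib

set_option autoImplicit false

/-
# Riemann's theorem, abstractly

An axiomatic version of Riemann's theorem for function fields (Stichtenoth, *Algebraic function
fields and codes*, 1.4.14-1.4.17).  `𝔇` plays the role of the divisor group, `deg` the degree,
`l B = dim L(B)`, `P` the group of principal divisors.  From

* `step`      : `B ≤ B' → l B' - l B ≤ deg B' - deg B`,
* `deg_princ` : principal divisors have degree `0`,
* `l_princ`   : `l (B + z) = l B` for `z` principal,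
* `exist`     : `0 < l B → ∃ z ∈ P, 0 ≤ B + z`,
* `pos`       : every divisor is bounded above by an effective one,

and the dimension formula `l (c • X) = c * deg X + 1 - g` (`c ≥ c₀`) for the multiples of ONE
divisor `X` of positive degree (the pole divisor of a separating element: Dedekind-Weber), we get

* Riemann's inequality `deg A + 1 - g ≤ l A` for all `A`,
* `l A = deg A + 1 - g` for all `A` of large degree,
* `g` is intrinsic (`IsGenus`).
-/

namespace Fermat.Agent.Lib.RiemannAbstract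

variable {𝔇 : Type*} [AddCommGroup 𝔇] [PartialOrder 𝔇] [IsOrderedAddMonoid 𝔇]

/-- The hypotheses of the abstract Riemann theorem. -/
structure Setup (deg : 𝔇 →+ ℤ) (l : 𝔇 → ℤ) (P : AddSubgroup 𝔇) : Prop where
  step : ∀ B B' : 𝔇, B ≤ B' → l B' - l B ≤ deg B' - deg B
  deg_princ : ∀ z ∈ P, deg z = 0
  l_princ : ∀ (B z : 𝔇), z ∈ P → l (B + z) = l B
  exist : ∀ B : 𝔇, 0 < l B → ∃ z ∈ P, 0 ≤ B + z
  pos : ∀ A : 𝔇, ∃ E : 𝔇, 0 ≤ E ∧ A ≤ E

/-- `g` is the (Riemann) genus: Riemann's inequality holds for all divisors, with equality for at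
least one. -/
def IsGenus (deg : 𝔇 →+ ℤ) (l : 𝔇 → ℤ) (g : ℤ) : Prop :=
  (∀ A : 𝔇, deg A + 1 - g ≤ l A) ∧ ∃ A : 𝔇, l A = deg A + 1 - g

variable {deg : 𝔇 →+ ℤ} {l : 𝔇 → ℤ} {P : AddSubgroup 𝔇}

omit [PartialOrder 𝔇] [IsOrderedAddMonoid 𝔇] in
/-- The genus is unique. -/
theorem IsGenus.unique {g g' : ℤ} (h : IsGenus deg l g) (h' : IsGenus deg l g') : g = g' := by
  obtain ⟨A, hA⟩ := h.2
  obtain ⟨A', hA'⟩ := h'.2
  have h1 := h'.1 A
  have h2 := h.1 A'
  omega

/-- **Riemann's inequality** from the dimension formula for the multiples of one divisor. -/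
theorem riemann_inequality (S : Setup deg l P) (X : 𝔇) (hX : 0 < deg X) (g : ℤ) (c₀ : ℕ)
    (hbase : ∀ c : ℕ, c₀ ≤ c → l (c • X) = c * deg X + 1 - g) (A : 𝔇) :
    deg A + 1 - g ≤ l A := by
  obtain ⟨E, hE0, hAE⟩ := S.pos A
  -- choose `c` large
  set c : ℕ := c₀ + (deg E + g).toNat with hc
  have hc0 : c₀ ≤ c := Nat.le_add_right _ _
  have hcn : deg E + g ≤ c * deg X := by
    have h1 : deg E + g ≤ ((deg E + g).toNat : ℤ) := Int.self_le_toNat _
    have h2 : ((deg E + g).toNat : ℤ) ≤ (c : ℤ) := by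
      rw [hc]; push_cast; omega
    have h3 : (c : ℤ) ≤ c * deg X := by
      have : (0 : ℤ) ≤ c := Int.natCast_nonneg c
      nlinarith
    omega
  -- `l (c X - E) > 0`
  have h1 := S.step (c • X - E) (c • X) (sub_le_self _ hE0)
  rw [map_sub, hbase c hc0] at h1
  have hpos : 0 < l (c • X - E) := by
    have : deg (c • X) = c * deg X := by rw [map_nsmul, nsmul_eq_mul]
    omega
  obtain ⟨z, hzP, hz⟩ := S.exist _ hpos
  -- `A - z ≤ c X`
  have hle : A + -z ≤ c • X := by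
    have h2 : E + -z ≤ c • X := by
      have h3 : E + -z + 0 ≤ E + -z + (c • X - E + z) := add_le_add_right hz (E + -z)
      have h4 : E + -z + (c • X - E + z) = c • X := by abel
      rwa [add_zero, h4] at h3
    exact le_trans (add_le_add_left hAE (-z)) h2
  have h5 := S.step (A + -z) (c • X) hle
  rw [S.l_princ A (-z) (P.neg_mem hzP), hbase c hc0, map_add, S.deg_princ (-z) (P.neg_mem hzP),
    map_nsmul, nsmul_eq_mul] at h5
  omega

/-- The dimension formula for the multiples of one divisor of positive degree determines the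
genus. -/
theorem isGenus_of_base (S : Setup deg l P) (X : 𝔇) (hX : 0 < deg X) (g : ℤ) (c₀ : ℕ)
    (hbase : ∀ c : ℕ, c₀ ≤ c → l (c • X) = c * deg X + 1 - g) : IsGenus deg l g :=
  ⟨riemann_inequality S X hX g c₀ hbase, c₀ • X, by
    rw [hbase c₀ le_rfl, map_nsmul, nsmul_eq_mul]⟩

omit [IsOrderedAddMonoid 𝔇] in
/-- If Riemann's inequality is an equality at `A₀`, it is an equality at every divisor which
dominates a translate of `A₀` by a principal divisor. -/
theorem IsGenus.eq_of_le (S : Setup deg l P) {g : ℤ} (hg : ∀ A : 𝔇, deg A + 1 - g ≤ l A)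
    {A₀ : 𝔇} (hA₀ : l A₀ = deg A₀ + 1 - g) {z A : 𝔇} (hz : z ∈ P) (hle : A₀ + z ≤ A) :
    l A = deg A + 1 - g := by
  have h1 := S.step (A₀ + z) A hle
  rw [S.l_princ A₀ z hz, map_add, S.deg_princ z hz, hA₀] at h1
  have h2 := hg A
  omega

/-- **Riemann's theorem**: `l A = deg A + 1 - g` for all divisors `A` of sufficiently large
degree. -/
theorem IsGenus.exists_forall_eq (S : Setup deg l P) {g : ℤ} (h : IsGenus deg l g) :
    ∃ d₀ : ℤ, ∀ A : 𝔇, d₀ ≤ deg A → l A = deg A + 1 - g := by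
  obtain ⟨A₀, hA₀⟩ := h.2
  refine ⟨deg A₀ + g, fun A hA => ?_⟩
  have hpos : 0 < l (A - A₀) := by
    have := h.1 (A - A₀)
    rw [map_sub] at this
    omega
  obtain ⟨z, hzP, hz⟩ := S.exist _ hpos
  refine IsGenus.eq_of_le S h.1 hA₀ (P.neg_mem hzP) (z := -z) ?_
  have h3 : A₀ + -z + 0 ≤ A₀ + -z + (A - A₀ + z) := add_le_add_right hz (A₀ + -z)
  have h4 : A₀ + -z + (A - A₀ + z) = A := by abel
  rwa [add_zero, h4] at h3

/-- Riemann's theorem along the multiples of any divisor of positive degree. -/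
theorem IsGenus.exists_forall_nsmul_eq (S : Setup deg l P) {g : ℤ} (h : IsGenus deg l g)
    (B X : 𝔇) (hX : 0 < deg X) :
    ∃ c₁ : ℕ, ∀ c : ℕ, c₁ ≤ c → l (B + c • X) = deg B + c * deg X + 1 - g := by
  obtain ⟨d₀, hd₀⟩ := h.exists_forall_eq S
  refine ⟨(d₀ - deg B).toNat, fun c hc => ?_⟩
  have h1 : d₀ ≤ deg (B + c • X) := by
    rw [map_add, map_nsmul, nsmul_eq_mul]
    have h2 : d₀ - deg B ≤ ((d₀ - deg B).toNat : ℤ) := Int.self_le_toNat _
    have h3 : ((d₀ - deg B).toNat : ℤ) ≤ (c : ℤ) := by exact_mod_cast hc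
    have h4 : (c : ℤ) ≤ c * deg X := by
      have : (0 : ℤ) ≤ c := Int.natCast_nonneg c
      nlinarith
    omega
  rw [hd₀ _ h1, map_add, map_nsmul, nsmul_eq_mul]

/-- Riemann's theorem from the dimension formula for the multiples of one divisor. -/
theorem exists_forall_eq_of_base (S : Setup deg l P) (X : 𝔇) (hX : 0 < deg X) (g : ℤ) (c₀ : ℕ)
    (hbase : ∀ c : ℕ, c₀ ≤ c → l (c • X) = c * deg X + 1 - g) :
    ∃ d₀ : ℤ, ∀ A : 𝔇, d₀ ≤ deg A → l A = deg A + 1 - g :=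
  (isGenus_of_base S X hX g c₀ hbase).exists_forall_eq S

omit [PartialOrder 𝔇] [IsOrderedAddMonoid 𝔇] in
/-- Comparison of genera: if `l ≤ l'` pointwise along a degree-preserving map `ρ` of divisor
groups (reduction of lattices: `dim L(B) ≤ dim L(ρ B)`), then `g' ≤ g`. -/
theorem IsGenus.le_of_map {𝔇' : Type*} [AddCommGroup 𝔇'] {deg' : 𝔇' →+ ℤ} {l' : 𝔇' → ℤ}
    {g g' : ℤ} (h : IsGenus deg l g)
    (hd₀ : ∃ d₀ : ℤ, ∀ A' : 𝔇', d₀ ≤ deg' A' → l' A' = deg' A' + 1 - g')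
    (ρ : 𝔇 → 𝔇') (hρ : ∀ A, deg' (ρ A) = deg A) (hl : ∀ A, l A ≤ l' (ρ A))
    (hbig : ∀ d : ℤ, ∃ A : 𝔇, d ≤ deg A) : g' ≤ g := by
  obtain ⟨d₀, hd₀⟩ := hd₀
  obtain ⟨A, hA⟩ := hbig d₀
  have h1 := h.1 A
  have h2 := hl A
  have h3 := hd₀ (ρ A) (by rw [hρ]; exact hA)
  rw [hρ] at h3
  omega

/-- The hypothesis `pos` for divisor groups `ι →₀ ℤ`. -/
theorem finsupp_pos {ι : Type*} (D : ι →₀ ℤ) : ∃ E : ι →₀ ℤ, 0 ≤ E ∧ D ≤ E :=
  ⟨D ⊔ 0, le_sup_right, le_sup_left⟩

end Fermat.Agent.Lib.RiemannAbstract
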