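import Mathlib
import Fermat.Prelude.Def_AlgebraicCurve_DivisorClassGroup
import Fermat.Prelude.Def_AlgebraicCurve_Repartitions
import Fermat.Agent.Lib.FFSep.LSpace

/-!
# Places under extension of the field of constants

`F₀ / K₀` and `F₁ / K₁` function fields in one variable over algebraically closed fields, with a
ring homomorphism `φ : F₀ → F₁` over `ι : K₀ → K₁` (think of `F₁ = F₀ ⊗_{K₀} K₁`), a separating
variable `x₀ ∈ F₀` with `[F₁ : K₁(φ x₀)] = [F₀ : K₀(x₀)]`, and such that `φ f` is constant only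
if `f` is.  Then every place `w₀` of `F₀` has a *unique* extension `ext w₀` to a place of `F₁`
(unique place `w` with `ord_w (φ f) = ord_{w₀} f` for all `f`), it is unramified, and the places
of `F₁` obtained in this way are exactly those lying over a `K₀`-rational point of the `x`-line
(or over `∞`).

The proof avoids the extension theorem for valuations: surjectivity of restriction comes from a
function of `F₀` with a pole exactly at `w₀` (Riemann), and uniqueness / `e = 1` from the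
fundamental identity `∑ e = n` on both sides.
-/

set_option autoImplicit false

noncomputable section

namespace Fermat.Agent.Lib.PlaceBaseChange

open AlgebraicCurve IntermediateField

open Fermat.Agent.Lib

section Counting

/-- The counting argument: a section `s` of a "restriction" with multiplicities `e ≥ 1` and equal
weighted totals is onto, and all multiplicities are one. -/
theorem counting {α β : Type*} [DecidableEq α] (T₁ : Finset α) (T₀ : Finset β) (g₁ : α → ℤ)
    (g₀ : β → ℤ) (s : β → α) (hs : Set.InjOn s T₀) (e : β → ℕ)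
    (hsT : ∀ v ∈ T₀, s v ∈ T₁) (h₁ : ∀ w ∈ T₁, 0 < g₁ w) (h₀ : ∀ v ∈ T₀, 0 < g₀ v)
    (he : ∀ v ∈ T₀, g₁ (s v) = e v * g₀ v) (hepos : ∀ v ∈ T₀, 0 < e v)
    (hsum : ∑ w ∈ T₁, g₁ w = ∑ v ∈ T₀, g₀ v) :
    (∀ w ∈ T₁, ∃ v ∈ T₀, s v = w) ∧ ∀ v ∈ T₀, e v = 1 := by
  have hI : T₀.image s ⊆ T₁ := by
    intro w hw
    obtain ⟨v, hv, rfl⟩ := Finset.mem_image.mp hw
    exact hsT v hv
  have hsumI : ∑ w ∈ T₀.image s, g₁ w = ∑ v ∈ T₀, g₁ (s v) :=
    Finset.sum_image (fun a ha b hb h => hs ha hb h)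
  have hle : ∀ v ∈ T₀, g₀ v ≤ g₁ (s v) := by
    intro v hv
    rw [he v hv]
    have h1 := hepos v hv
    have h2 := h₀ v hv
    have h3 : (1 : ℤ) ≤ (e v : ℤ) := by exact_mod_cast h1
    nlinarith
  have h2 : ∑ v ∈ T₀, g₀ v ≤ ∑ v ∈ T₀, g₁ (s v) := Finset.sum_le_sum hle
  have h3 := Finset.sum_sdiff hI (f := g₁)
  have h4 : ∑ w ∈ T₁ \ T₀.image s, g₁ w ≤ 0 := by linarith
  have h5 : T₁ \ T₀.image s = ∅ := by
    by_contra hne
    have hne' : (T₁ \ T₀.image s).Nonempty := Finset.nonempty_iff_ne_empty.mpr hne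
    have : 0 < ∑ w ∈ T₁ \ T₀.image s, g₁ w :=
      Finset.sum_pos (fun w hw => h₁ w (Finset.mem_sdiff.mp hw).1) hne'
    omega
  refine ⟨fun w hw => ?_, fun v hv => ?_⟩
  · have hwI : w ∈ T₀.image s := by
      by_contra hn
      have : w ∈ T₁ \ T₀.image s := Finset.mem_sdiff.mpr ⟨hw, hn⟩
      rw [h5] at this
      exact absurd this (Finset.notMem_empty w)
    obtain ⟨v, hv, rfl⟩ := Finset.mem_image.mp hwI
    exact ⟨v, hv, rfl⟩
  · have h6 : ∑ v ∈ T₀, g₀ v = ∑ v ∈ T₀, g₁ (s v) := by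
      rw [h5, Finset.sum_empty, zero_add] at h3
      linarith
    have h7 := (Finset.sum_eq_sum_iff_of_le hle).mp h6 v hv
    rw [he v hv] at h7
    have h8 := h₀ v hv
    have h9 : ((e v : ℤ) - 1) * g₀ v = 0 := by linarith
    rcases mul_eq_zero.mp h9 with h | h
    · omega
    · omega

end Counting

section PoleOnly

variable {K F : Type*} [Field K] [Field F] [Algebra K F] {x : F}
variable [FiniteDimensional K⟮x⟯ F] [Algebra.IsSeparable K⟮x⟯ F] [IsAlgClosed K]

/-- For every place there is a function with a pole exactly there. -/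
theorem exists_pole_only (hxt : Transcendental K x) (v₀ : Place K F) :
    ∃ h : F, v₀.ord h < 0 ∧ ∀ v : Place K F, v ≠ v₀ → 0 ≤ v.ord h := by
  classical
  obtain ⟨g, d₀, hg, -⟩ := FFSep.exists_riemann (F := F) hxt
  set m : ℕ := (g + 1).toNat with hm
  have hdeg : Divisor.degree (Finsupp.single v₀ (m : ℤ)) = m := by
    rw [Divisor.degree_single, FFSep.deg_eq_one x v₀]
    simp
  have h1 := hg (Finsupp.single v₀ (m : ℤ))
  rw [hdeg] at h1
  have hm' : g + 1 ≤ (m : ℤ) := Int.self_le_toNat _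
  have hl2 : 2 ≤ Module.finrank K (riemannRochSpace (Finsupp.single v₀ (m : ℤ))) := by
    have : (2 : ℤ) ≤ (Module.finrank K (riemannRochSpace (Finsupp.single v₀ (m : ℤ))) : ℤ) := by
      omega
    exact_mod_cast this
  by_contra hcon
  push Not at hcon
  have hle : riemannRochSpace (Finsupp.single v₀ (m : ℤ)) ≤
      riemannRochSpace (0 : Divisor K F) := by
    intro h hh
    rw [mem_riemannRochSpace_iff] at hh ⊢
    intro v
    by_cases h0 : h = 0
    · exact Or.inl h0
    right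
    simp only [Finsupp.coe_zero, Pi.zero_apply, neg_zero]
    by_contra hneg
    rw [not_le] at hneg
    by_cases hv : v = v₀
    · subst hv
      obtain ⟨v', hv', hv'neg⟩ := hcon h hneg
      have h2 := (hh v').resolve_left h0
      rw [Finsupp.single_apply, if_neg (Ne.symm hv')] at h2
      omega
    · have h2 := (hh v).resolve_left h0
      rw [Finsupp.single_apply, if_neg (Ne.symm hv)] at h2
      omega
  have hfin0 := FFSep.finite_riemannRochSpace hxt (0 : Divisor K F)
  have h3 := Submodule.finrank_mono hle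
  have h4 := FFSep.finrank_riemannRochSpace_le hxt (0 : Divisor K F) (by simp)
  simp only [map_zero, zero_add] at h4
  have h5 : Module.finrank K (riemannRochSpace (0 : Divisor K F)) ≤ 1 := by exact_mod_cast h4
  omega

end PoleOnly

section Comap

variable {K₀ F₀ K₁ F₁ : Type*} [Field K₀] [Field F₀] [Field K₁] [Field F₁]
variable [Algebra K₀ F₀] [Algebra K₁ F₁]
variable {ι : K₀ →+* K₁} {φ : F₀ →+* F₁}

/-- The restriction of the valuation ring of a place of `F₁` contains the constants of `F₀`. -/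
theorem algebraMap_mem_comap (hφ : ∀ c, φ (algebraMap K₀ F₀ c) = algebraMap K₁ F₁ (ι c))
    (w : Place K₁ F₁) (c : K₀) : algebraMap K₀ F₀ c ∈ w.toValuationSubring.comap φ := by
  rw [ValuationSubring.mem_comap, hφ]
  exact w.algebraMap_mem' _

/-- The restriction is nontrivial iff some `φ g` has nonzero order. -/
theorem comap_ne_top_iff (w : Place K₁ F₁) :
    w.toValuationSubring.comap φ ≠ ⊤ ↔ ∃ g : F₀, g ≠ 0 ∧ w.ord (φ g) ≠ 0 := by
  constructor
  · intro h
    by_contra hcon
    push Not at hcon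
    apply h
    refine SetLike.ext fun g => ⟨fun _ => ValuationSubring.mem_top g, fun _ => ?_⟩
    rw [ValuationSubring.mem_comap]
    rcases eq_or_ne g 0 with rfl | hg
    · rw [map_zero]
      exact zero_mem _
    · rw [FFPlaces.mem_iff_ord_nonneg w ((map_ne_zero φ).mpr hg), hcon g hg]
  · rintro ⟨g, hg, hord⟩ htop
    have hφg : φ g ≠ 0 := (map_ne_zero φ).mpr hg
    have h1 : g ∈ w.toValuationSubring.comap φ := htop ▸ ValuationSubring.mem_top g
    have h2 : g⁻¹ ∈ w.toValuationSubring.comap φ := htop ▸ ValuationSubring.mem_top g⁻¹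
    rw [ValuationSubring.mem_comap] at h1 h2
    rw [map_inv₀] at h2
    have h3 := (FFPlaces.mem_iff_ord_nonneg w hφg).mp h1
    have h4 := (FFPlaces.mem_iff_ord_nonneg w (inv_ne_zero hφg)).mp h2
    rw [w.ord_inv] at h4
    omega

/-- The restriction of a place of `F₁` to `F₀`, when it is nontrivial. -/
def comapPlace (x₀ : F₀) [FiniteDimensional K₀⟮x₀⟯ F₀] [Algebra.IsSeparable K₀⟮x₀⟯ F₀]
    (hφ : ∀ c, φ (algebraMap K₀ F₀ c) = algebraMap K₁ F₁ (ι c)) (w : Place K₁ F₁)
    (h : w.toValuationSubring.comap φ ≠ ⊤) : Place K₀ F₀ where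
  toValuationSubring := w.toValuationSubring.comap φ
  algebraMap_mem' := algebraMap_mem_comap hφ w
  ne_top' := h
  isPrincipalIdealRing' := by
    obtain ⟨v, hv⟩ := FFPoles.exists_place_of_valuationSubring x₀ _ h (algebraMap_mem_comap hφ w)
    exact hv ▸ v.isPrincipalIdealRing'

@[simp]
theorem comapPlace_toValuationSubring (x₀ : F₀) [FiniteDimensional K₀⟮x₀⟯ F₀]
    [Algebra.IsSeparable K₀⟮x₀⟯ F₀]
    (hφ : ∀ c, φ (algebraMap K₀ F₀ c) = algebraMap K₁ F₁ (ι c)) (w : Place K₁ F₁)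
    (h : w.toValuationSubring.comap φ ≠ ⊤) :
    (comapPlace x₀ hφ w h).toValuationSubring = w.toValuationSubring.comap φ := rfl

/-- If `w₀` is the restriction of `w`, then `ord_w ∘ φ = e • ord_{w₀}` for some `e ≥ 1`. -/
theorem exists_ramification (w : Place K₁ F₁) (w₀ : Place K₀ F₀)
    (hw : w.toValuationSubring.comap φ = w₀.toValuationSubring) :
    ∃ e : ℕ, 0 < e ∧ ∀ f : F₀, w.ord (φ f) = e * w₀.ord f := by
  obtain ⟨π, hπ⟩ := IsDiscreteValuationRing.exists_irreducible w₀.toValuationSubring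
  have hπ0 : (π : F₀) ≠ 0 := fun h => hπ.ne_zero (Subtype.ext h)
  have hφπ0 : φ π ≠ 0 := (map_ne_zero φ).mpr hπ0
  have hmem : ∀ f : F₀, f ∈ w₀.toValuationSubring ↔ φ f ∈ w.toValuationSubring := by
    intro f
    rw [← hw]
    exact ValuationSubring.mem_comap
  have hpos : 0 < w.ord (φ π) := by
    rw [FFPlaces.ord_pos_iff w hφπ0]
    refine ⟨(hmem _).mp π.2, ?_⟩
    rw [← map_inv₀, ← hmem, ← FFPlaces.ord_neg_iff w₀ (inv_ne_zero hπ0), w₀.ord_inv,
      w₀.ord_coe_irreducible hπ]
    norm_num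
  refine ⟨(w.ord (φ π)).toNat, by omega, fun f => ?_⟩
  rcases eq_or_ne f 0 with rfl | hf
  · simp
  obtain ⟨u, hu⟩ := w₀.exists_unit_mul_zpow hf hπ
  have hu0 : ((u : w₀.toValuationSubring) : F₀) ≠ 0 := by
    intro h0
    have h1 := u.mul_inv
    rw [Subtype.ext_iff] at h1
    push_cast at h1
    rw [h0, zero_mul] at h1
    exact zero_ne_one h1
  have hφu0 : φ ((u : w₀.toValuationSubring) : F₀) ≠ 0 := (map_ne_zero φ).mpr hu0
  have huord : w.ord (φ ((u : w₀.toValuationSubring) : F₀)) = 0 := by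
    have h1 : φ ((u : w₀.toValuationSubring) : F₀) ∈ w.toValuationSubring :=
      (hmem _).mp (u : w₀.toValuationSubring).2
    have h2 : φ (((u⁻¹ : w₀.toValuationSubringˣ) : w₀.toValuationSubring) : F₀) ∈
        w.toValuationSubring := (hmem _).mp ((u⁻¹ : w₀.toValuationSubringˣ) : w₀.toValuationSubring).2
    have h3 : (((u⁻¹ : w₀.toValuationSubringˣ) : w₀.toValuationSubring) : F₀)
        = (((u : w₀.toValuationSubring) : F₀))⁻¹ := by
      have h4 := u.inv_mul
      rw [Subtype.ext_iff] at h4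
      push_cast at h4
      exact eq_inv_of_mul_eq_one_left h4
    rw [h3, map_inv₀] at h2
    have h5 := (FFPlaces.mem_iff_ord_nonneg w hφu0).mp h1
    have h6 := (FFPlaces.mem_iff_ord_nonneg w (inv_ne_zero hφu0)).mp h2
    rw [w.ord_inv] at h6
    omega
  have hkey : φ f = φ ((u : w₀.toValuationSubring) : F₀) * (φ π) ^ (w₀.ord f) := by
    conv_lhs => rw [hu]
    rw [map_mul, map_zpow₀]
  rw [hkey, w.ord_mul hφu0 (zpow_ne_zero _ hφπ0), huord, w.ord_zpow, zero_add,
    Int.toNat_of_nonneg hpos.le]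
  ring

/-- A place of `F₁` whose order function restricts to that of `w₀` restricts to `w₀`. -/
theorem comap_eq_of_ord_eq (w : Place K₁ F₁) (w₀ : Place K₀ F₀)
    (h : ∀ f : F₀, w.ord (φ f) = w₀.ord f) :
    w.toValuationSubring.comap φ = w₀.toValuationSubring := by
  refine SetLike.ext fun f => ?_
  rw [ValuationSubring.mem_comap]
  rcases eq_or_ne f 0 with rfl | hf
  · rw [map_zero]
    exact ⟨fun _ => zero_mem _, fun _ => zero_mem _⟩
  · rw [FFPlaces.mem_iff_ord_nonneg w ((map_ne_zero φ).mpr hf), FFPlaces.mem_iff_ord_nonneg w₀ hf,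
      h f]

end Comap

section Main

variable {K₀ F₀ K₁ F₁ : Type*} [Field K₀] [Field F₀] [Field K₁] [Field F₁]
variable [Algebra K₀ F₀] [Algebra K₁ F₁]

/-- The hypotheses on an extension of the field of constants `(K₀, F₀, x₀) → (K₁, F₁, x₁)`. -/
structure Setup (ι : K₀ →+* K₁) (φ : F₀ →+* F₁) (x₀ : F₀) (x₁ : F₁) : Prop where
  /-- `φ` is `ι` on constants. -/
  map_algebraMap : ∀ c : K₀, φ (algebraMap K₀ F₀ c) = algebraMap K₁ F₁ (ι c)
  /-- `φ` maps the separating variable to the separating variable. -/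
  map_x : φ x₀ = x₁
  /-- `x₀` is transcendental. -/
  trans₀ : Transcendental K₀ x₀
  /-- `x₁` is transcendental. -/
  trans₁ : Transcendental K₁ x₁
  /-- The degrees over the rational subfields agree. -/
  finrank_eq : Module.finrank K₁⟮x₁⟯ F₁ = Module.finrank K₀⟮x₀⟯ F₀
  /-- Only constants become constant. -/
  const : ∀ f : F₀, φ f ∈ Set.range (algebraMap K₁ F₁) → f ∈ Set.range (algebraMap K₀ F₀)

variable {ι : K₀ →+* K₁} {φ : F₀ →+* F₁} {x₀ : F₀} {x₁ : F₁}
variable [FiniteDimensional K₀⟮x₀⟯ F₀] [Algebra.IsSeparable K₀⟮x₀⟯ F₀]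
variable [FiniteDimensional K₁⟮x₁⟯ F₁] [Algebra.IsSeparable K₁⟮x₁⟯ F₁]
variable [IsAlgClosed K₀] [IsAlgClosed K₁]

/-- Restriction of places is surjective. -/
theorem Setup.exists_place_comap_eq (S : Setup ι φ x₀ x₁) (w₀ : Place K₀ F₀) :
    ∃ w : Place K₁ F₁, w.toValuationSubring.comap φ = w₀.toValuationSubring := by
  obtain ⟨h, hneg, hother⟩ := exists_pole_only S.trans₀ w₀
  have hh0 : h ≠ 0 := by
    rintro rfl
    simp at hneg
  have hnc : φ h ∉ Set.range (algebraMap K₁ F₁) := by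
    intro hr
    obtain ⟨c, hc⟩ := S.const h hr
    rw [← hc, FFPlaces.ord_algebraMap] at hneg
    exact lt_irrefl _ hneg
  have hex : ∃ w : Place K₁ F₁, φ h ∉ w.toValuationSubring := by
    by_contra hcon
    push Not at hcon
    exact hnc (FFPoles.mem_range_of_forall_mem x₁ hcon)
  obtain ⟨w, hw⟩ := hex
  have hne : w.toValuationSubring.comap φ ≠ ⊤ := by
    intro htop
    have : h ∈ w.toValuationSubring.comap φ := htop ▸ ValuationSubring.mem_top h
    exact hw (ValuationSubring.mem_comap.mp this)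
  obtain ⟨v, hv⟩ := FFPoles.exists_place_of_valuationSubring x₀ _ hne
    (algebraMap_mem_comap S.map_algebraMap w)
  have hvneg : v.ord h < 0 := by
    rw [FFPlaces.ord_neg_iff v hh0, hv]
    exact fun hm => hw (ValuationSubring.mem_comap.mp hm)
  have hvw : v = w₀ := by
    by_contra hne'
    have := hother v hne'
    omega
  exact ⟨w, by rw [← hvw, hv]⟩

/-- The core: a section `s` of restriction is unramified everywhere and reaches every place of
`F₁` over a `K₀`-point of the `x`-line or over `∞`. -/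
theorem Setup.section_props (S : Setup ι φ x₀ x₁) (s : Place K₀ F₀ → Place K₁ F₁)
    (hs : ∀ v, (s v).toValuationSubring.comap φ = v.toValuationSubring) :
    (∀ (v : Place K₀ F₀) (f : F₀), (s v).ord (φ f) = v.ord f) ∧
    (∀ w : Place K₁ F₁, ((∃ a : K₀, 0 < w.ord (x₁ - algebraMap K₁ F₁ (ι a))) ∨ w.ord x₁ < 0) →
      ∃ v, s v = w) := by
  classical
  have hsinj : Function.Injective s := by
    intro v v' h
    apply Place.ext
    rw [← hs v, ← hs v', h]
  choose e hepos he using fun v => exists_ramification (s v) v (hs v)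
  -- zeros of `x - a`
  have hzero : ∀ a : K₀,
      (∀ w : Place K₁ F₁, 0 < w.ord (x₁ - algebraMap K₁ F₁ (ι a)) →
        ∃ v, 0 < v.ord (x₀ - algebraMap K₀ F₀ a) ∧ s v = w) ∧
      ∀ v : Place K₀ F₀, 0 < v.ord (x₀ - algebraMap K₀ F₀ a) → e v = 1 := by
    intro a
    have hφxa : φ (x₀ - algebraMap K₀ F₀ a) = x₁ - algebraMap K₁ F₁ (ι a) := by
      rw [map_sub, S.map_x, S.map_algebraMap]
    have hc := counting (FFSep.finite_zeros S.trans₁ (ι a)).toFinset
      (FFSep.finite_zeros S.trans₀ a).toFinset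
      (fun w : Place K₁ F₁ => w.ord (x₁ - algebraMap K₁ F₁ (ι a)))
      (fun v : Place K₀ F₀ => v.ord (x₀ - algebraMap K₀ F₀ a)) s hsinj.injOn e
      (fun v hv => by
        rw [Set.Finite.mem_toFinset, Set.mem_ofPred_eq] at hv ⊢
        rw [← hφxa, he v]
        exact mul_pos (by exact_mod_cast hepos v) hv)
      (fun w hw => by
        rw [Set.Finite.mem_toFinset, Set.mem_ofPred_eq] at hw
        exact hw)
      (fun v hv => by
        rw [Set.Finite.mem_toFinset, Set.mem_ofPred_eq] at hv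
        exact hv)
      (fun v _ => by
        show (s v).ord (x₁ - algebraMap K₁ F₁ (ι a)) = _
        rw [← hφxa, he v])
      (fun v _ => hepos v)
      (by
        rw [← finsum_mem_eq_finite_toFinset_sum, ← finsum_mem_eq_finite_toFinset_sum,
          FFSep.sum_ord_zeros S.trans₁ (ι a), FFSep.sum_ord_zeros S.trans₀ a, S.finrank_eq])
    refine ⟨fun w hw => ?_, fun v hv => ?_⟩
    · obtain ⟨v, hv, hvw⟩ := hc.1 w (by
        rw [Set.Finite.mem_toFinset, Set.mem_ofPred_eq]
        exact hw)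
      rw [Set.Finite.mem_toFinset, Set.mem_ofPred_eq] at hv
      exact ⟨v, hv, hvw⟩
    · exact hc.2 v (by
        rw [Set.Finite.mem_toFinset, Set.mem_ofPred_eq]
        exact hv)
  -- poles of `x`
  have hpole : (∀ w : Place K₁ F₁, w.ord x₁ < 0 → ∃ v, v.ord x₀ < 0 ∧ s v = w) ∧
      ∀ v : Place K₀ F₀, v.ord x₀ < 0 → e v = 1 := by
    have hc := counting (FFSep.finite_poles S.trans₁).toFinset
      (FFSep.finite_poles S.trans₀).toFinset
      (fun w : Place K₁ F₁ => -w.ord x₁)
      (fun v : Place K₀ F₀ => -v.ord x₀) s hsinj.injOn e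
      (fun v hv => by
        rw [Set.Finite.mem_toFinset, Set.mem_ofPred_eq] at hv ⊢
        rw [← S.map_x, he v]
        have h1 : (1 : ℤ) ≤ (e v : ℤ) := by exact_mod_cast hepos v
        nlinarith)
      (fun w hw => by
        rw [Set.Finite.mem_toFinset, Set.mem_ofPred_eq] at hw
        show 0 < -w.ord x₁
        omega)
      (fun v hv => by
        rw [Set.Finite.mem_toFinset, Set.mem_ofPred_eq] at hv
        show 0 < -v.ord x₀
        omega)
      (fun v _ => by
        show -(s v).ord x₁ = (e v : ℤ) * -v.ord x₀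
        rw [← S.map_x, he v]
        ring)
      (fun v _ => hepos v)
      (by
        rw [Finset.sum_neg_distrib, Finset.sum_neg_distrib,
          ← finsum_mem_eq_finite_toFinset_sum, ← finsum_mem_eq_finite_toFinset_sum,
          FFSep.sum_ord_poles S.trans₁, FFSep.sum_ord_poles S.trans₀, S.finrank_eq])
    refine ⟨fun w hw => ?_, fun v hv => ?_⟩
    · obtain ⟨v, hv, hvw⟩ := hc.1 w (by
        rw [Set.Finite.mem_toFinset, Set.mem_ofPred_eq]
        exact hw)
      rw [Set.Finite.mem_toFinset, Set.mem_ofPred_eq] at hv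
      exact ⟨v, hv, hvw⟩
    · exact hc.2 v (by
        rw [Set.Finite.mem_toFinset, Set.mem_ofPred_eq]
        exact hv)
  have hx₀0 : x₀ ≠ 0 := by
    rintro rfl
    exact S.trans₀ isAlgebraic_zero
  have he1 : ∀ v : Place K₀ F₀, e v = 1 := by
    intro v
    by_cases hx : x₀ ∈ v.toValuationSubring
    · obtain ⟨a, ha, -⟩ := FFSep.exists_unique_zero S.trans₀ v hx
      exact (hzero a).2 v ha
    · exact hpole.2 v ((FFPlaces.ord_neg_iff v hx₀0).mpr hx)
  refine ⟨fun v f => ?_, fun w hw => ?_⟩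
  · rw [he v f, he1 v, Nat.cast_one, one_mul]
  · rcases hw with ⟨a, ha⟩ | hw
    · obtain ⟨v, -, hv⟩ := (hzero a).1 w ha
      exact ⟨v, hv⟩
    · obtain ⟨v, -, hv⟩ := hpole.1 w hw
      exact ⟨v, hv⟩

omit [FiniteDimensional K₁⟮x₁⟯ F₁] [Algebra.IsSeparable K₁⟮x₁⟯ F₁] [IsAlgClosed K₁] in
/-- Every place of `F₀` lies over a `K₀`-point of the `x`-line or over `∞`; so does every place
of `F₁` whose order function extends it. -/
theorem Setup.good_of_ord_eq (S : Setup ι φ x₀ x₁) (w : Place K₁ F₁) (w₀ : Place K₀ F₀)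
    (h : ∀ f : F₀, w.ord (φ f) = w₀.ord f) :
    (∃ a : K₀, 0 < w.ord (x₁ - algebraMap K₁ F₁ (ι a))) ∨ w.ord x₁ < 0 := by
  have hx₀0 : x₀ ≠ 0 := by
    rintro rfl
    exact S.trans₀ isAlgebraic_zero
  by_cases hx : x₀ ∈ w₀.toValuationSubring
  · obtain ⟨a, ha, -⟩ := FFSep.exists_unique_zero S.trans₀ w₀ hx
    left
    refine ⟨a, ?_⟩
    rw [← S.map_x, ← S.map_algebraMap, ← map_sub, h]
    exact ha
  · right
    rw [← S.map_x, h]
    exact (FFPlaces.ord_neg_iff w₀ hx₀0).mpr hx

/-- **Unique unramified extension of places** under extension of the field of constants. -/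
theorem Setup.existsUnique_place (S : Setup ι φ x₀ x₁) (w₀ : Place K₀ F₀) :
    ∃! w : Place K₁ F₁, ∀ f : F₀, w.ord (φ f) = w₀.ord f := by
  choose s hs using S.exists_place_comap_eq
  obtain ⟨h1, h2⟩ := S.section_props s hs
  refine ⟨s w₀, h1 w₀, fun w hw => ?_⟩
  obtain ⟨v, hv⟩ := h2 w (S.good_of_ord_eq w w₀ hw)
  have hvw : v = w₀ := by
    apply Place.ext
    rw [← hs v, hv, comap_eq_of_ord_eq w w₀ hw]
  rw [← hv, hvw]

/-- The extension of a place of `F₀` to `F₁`. -/
def Setup.ext (S : Setup ι φ x₀ x₁) (w₀ : Place K₀ F₀) : Place K₁ F₁ :=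
  (S.existsUnique_place w₀).exists.choose

theorem Setup.ord_ext (S : Setup ι φ x₀ x₁) (w₀ : Place K₀ F₀) (f : F₀) :
    (S.ext w₀).ord (φ f) = w₀.ord f :=
  (S.existsUnique_place w₀).exists.choose_spec f

theorem Setup.eq_ext (S : Setup ι φ x₀ x₁) {w : Place K₁ F₁} {w₀ : Place K₀ F₀}
    (h : ∀ f : F₀, w.ord (φ f) = w₀.ord f) : w = S.ext w₀ :=
  (S.existsUnique_place w₀).unique h (S.ord_ext w₀)

theorem Setup.comap_ext (S : Setup ι φ x₀ x₁) (w₀ : Place K₀ F₀) :
    (S.ext w₀).toValuationSubring.comap φ = w₀.toValuationSubring :=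
  comap_eq_of_ord_eq _ _ (S.ord_ext w₀)

theorem Setup.ext_injective (S : Setup ι φ x₀ x₁) : Function.Injective S.ext := by
  intro v v' h
  apply Place.ext
  rw [← S.comap_ext v, ← S.comap_ext v', h]

/-- The places of `F₁` in the range of `ext` are those over `K₀`-points of the `x`-line and
over `∞`. -/
theorem Setup.mem_range_ext_iff (S : Setup ι φ x₀ x₁) (w : Place K₁ F₁) :
    w ∈ Set.range S.ext ↔
      (∃ a : K₀, 0 < w.ord (x₁ - algebraMap K₁ F₁ (ι a))) ∨ w.ord x₁ < 0 := by
  constructor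
  · rintro ⟨w₀, rfl⟩
    exact S.good_of_ord_eq _ w₀ (S.ord_ext w₀)
  · intro hw
    obtain ⟨v, hv⟩ := (S.section_props S.ext S.comap_ext).2 w hw
    exact ⟨v, hv⟩

/-- A place of `F₁` over a `K₀`-point of the `x`-line or over `∞` restricts to a place of `F₀`
with the same order function. -/
theorem Setup.exists_ord_eq (S : Setup ι φ x₀ x₁) (w : Place K₁ F₁)
    (hw : (∃ a : K₀, 0 < w.ord (x₁ - algebraMap K₁ F₁ (ι a))) ∨ w.ord x₁ < 0) :
    ∃ w₀ : Place K₀ F₀, ∀ f : F₀, w.ord (φ f) = w₀.ord f := by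
  obtain ⟨w₀, rfl⟩ := (S.mem_range_ext_iff w).mpr hw
  exact ⟨w₀, S.ord_ext w₀⟩

/-- Any self-map of the places of `F₁` preserving the orders of the elements of `φ F₀` fixes
every extended place. -/
theorem Setup.map_ext_eq (S : Setup ι φ x₀ x₁) (π : Place K₁ F₁ → Place K₁ F₁)
    (hπ : ∀ (w : Place K₁ F₁) (f : F₀), (π w).ord (φ f) = w.ord (φ f)) (w₀ : Place K₀ F₀) :
    π (S.ext w₀) = S.ext w₀ :=
  S.eq_ext fun f => by rw [hπ, S.ord_ext]

end Main

end Fermat.Agent.Lib.PlaceBaseChange
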