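/-
P5 [DESC.DEG] (helper31): degree of the coefficient extension
`laurentBaseChange K₀ F₀ → laurentBaseChange K₁ F₀` of function fields of Laurent series.
(LD) `linearIndependent_coeffMap`, the base change map `baseMap`, and
`[laurentBaseChange K₁ F₀ : K₁(φ x₀)] = [laurentBaseChange K₀ F₀ : K₀(x₀)]`.
-/
import Mathlib
import Fermat.Prelude.Def_ModularCurve_LaurentCoeff
import Fermat.Agent.Lib.BaseChangeDegree

set_option autoImplicit false

namespace Fermat.Agent.Lib.LaurentBaseChangeDegree

open IntermediateField ModularCurve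

/-- **(LD), coefficient form.** If the coefficient sequences `a i : X → K₀` are linearly
independent over `K₀`, their images under a field homomorphism `ι : K₀ → K₁` are linearly
independent over `K₁`. -/
theorem eq_zero_of_coeff {K₀ K₁ X : Type*} [Field K₀] [Field K₁] (ι : K₀ →+* K₁) {n : ℕ}
    (a : Fin n → X → K₀)
    (h : ∀ c : Fin n → K₀, (∀ k, ∑ i, c i * a i k = 0) → ∀ i, c i = 0)
    (d : Fin n → K₁) (hd : ∀ k, ∑ i, d i * ι (a i k) = 0) : ∀ i, d i = 0 := by
  classical
  let _ : Algebra K₀ K₁ := ι.toAlgebra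
  let b := Module.Basis.ofVectorSpace K₀ K₁
  intro i
  apply b.ext_elem
  intro α
  have hα : ∀ k, ∑ i, b.coord α (d i) * a i k = 0 := by
    intro k
    have h2 := congrArg (b.coord α) (hd k)
    rw [map_sum, map_zero] at h2
    rw [← h2]
    refine Finset.sum_congr rfl fun j _ => ?_
    have : d j * ι (a j k) = a j k • d j := by
      rw [Algebra.smul_def, mul_comm]; rfl
    rw [this, map_smul, smul_eq_mul, mul_comm]
  simpa using h _ hα i

/-- **(LD)** Coefficientwise base change along a homomorphism of fields preserves linear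
independence of Laurent series over the constants (for the module structure
`HahnSeries.instModule`). -/
theorem linearIndependent_coeffMap {K₀ K₁ : Type*} [Field K₀] [Field K₁] (ι : K₀ →+* K₁)
    {n : ℕ} (v : Fin n → LaurentSeries K₀) (hv : LinearIndependent K₀ v) :
    LinearIndependent K₁ (fun i => coeffMap ι (v i)) := by
  rw [Fintype.linearIndependent_iff] at hv ⊢
  intro d hd
  refine eq_zero_of_coeff ι (fun i k => (v i).coeff k) (fun c hc => hv c ?_) d (fun k => ?_)
  · ext k
    simpa [HahnSeries.coeff_sum] using hc k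
  · have hk := congrArg (fun s : LaurentSeries K₁ => s.coeff k) hd
    simpa [HahnSeries.coeff_sum] using hk

/-- Coefficients of a linear combination in an intermediate field of Laurent series. -/
theorem coe_sum_smul {K : Type*} [Field K] (E : IntermediateField K (LaurentSeries K)) {n : ℕ}
    (c : Fin n → K) (v : Fin n → E) (k : ℤ) :
    (((∑ i, c i • v i : E) : LaurentSeries K)).coeff k =
      ∑ i, c i * ((v i : E) : LaurentSeries K).coeff k := by
  rw [IntermediateField.coe_sum, HahnSeries.coeff_sum]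
  refine Finset.sum_congr rfl fun i _ => ?_
  rw [IntermediateField.coe_smul, Algebra.smul_def, algebraMap_laurentSeries_eq_single,
    HahnSeries.coeff_single_zero_mul]

variable {K₀ K₁ : Type*} [Field K₀] [Field K₁] [Algebra ℚ K₀] [Algebra ℚ K₁]
variable (ι : K₀ →+* K₁) (F₀ : IntermediateField ℚ (LaurentSeries ℚ))

theorem coeffMap_coeffEmb (x : LaurentSeries ℚ) :
    coeffMap ι (coeffEmb K₀ x) = coeffEmb K₁ x := by
  rw [coeffEmb, coeffMap_coeffMap]
  exact coeffMap_congr (RingHom.ext_rat _ _) x

omit [Algebra ℚ K₀] [Algebra ℚ K₁] in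
theorem coeffMap_algebraMap (c : K₀) :
    coeffMap ι (algebraMap K₀ (LaurentSeries K₀) c) = algebraMap K₁ (LaurentSeries K₁) (ι c) := by
  rw [algebraMap_laurentSeries_eq_single, algebraMap_laurentSeries_eq_single, coeffMap_single]

variable {F₀} in
/-- `coeffMap ι` maps `laurentBaseChange K₀ F₀` into `laurentBaseChange K₁ F₀`. -/
theorem coeffMap_mem_laurentBaseChange {x : LaurentSeries K₀}
    (hx : x ∈ laurentBaseChange K₀ F₀) : coeffMap ι x ∈ laurentBaseChange K₁ F₀ := by
  rw [mem_laurentBaseChange_iff] at hx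
  induction hx using Subfield.closure_induction with
  | mem y hy =>
      rcases hy with ⟨a, rfl⟩ | ⟨z, hz, rfl⟩
      · rw [coeffMap_algebraMap]
        exact (laurentBaseChange K₁ F₀).algebraMap_mem _
      · rw [coeffMap_coeffEmb]
        exact coeffEmb_mem_laurentBaseChange K₁ hz
  | one => simp
  | add x y _ _ hx hy => simpa using add_mem hx hy
  | neg x _ hx => simpa using neg_mem hx
  | inv x _ hx => simpa using inv_mem hx
  | mul x y _ _ hx hy => simpa using mul_mem hx hy

/-- Coefficientwise base change `laurentBaseChange K₀ F₀ →+* laurentBaseChange K₁ F₀`. -/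
noncomputable def baseMap : laurentBaseChange K₀ F₀ →+* laurentBaseChange K₁ F₀ where
  toFun a := ⟨coeffMap ι a, coeffMap_mem_laurentBaseChange ι a.2⟩
  map_one' := Subtype.ext (by simp)
  map_mul' a b := Subtype.ext (by simp)
  map_zero' := Subtype.ext (by simp)
  map_add' a b := Subtype.ext (by simp)

@[simp]
theorem coe_baseMap (a : laurentBaseChange K₀ F₀) :
    (baseMap ι F₀ a : LaurentSeries K₁) = coeffMap ι (a : LaurentSeries K₀) := rfl

section Core

variable {ι F₀}
variable (φ : laurentBaseChange K₀ F₀ →+* laurentBaseChange K₁ F₀)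
  (hφ : ∀ a, (φ a : LaurentSeries K₁) = coeffMap ι (a : LaurentSeries K₀))
include hφ

theorem map_algebraMap (c : K₀) :
    φ (algebraMap K₀ (laurentBaseChange K₀ F₀) c) =
      algebraMap K₁ (laurentBaseChange K₁ F₀) (ι c) := by
  apply Subtype.ext
  rw [hφ]
  exact coeffMap_algebraMap ι c

theorem linearIndependent_map {n : ℕ} (v : Fin n → laurentBaseChange K₀ F₀)
    (hv : LinearIndependent K₀ v) : LinearIndependent K₁ (fun i => φ (v i)) := by
  rw [Fintype.linearIndependent_iff] at hv ⊢
  intro d hd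
  refine eq_zero_of_coeff ι (fun i k => ((v i : laurentBaseChange K₀ F₀) : LaurentSeries K₀).coeff k)
    (fun c hc => hv c ?_) d (fun k => ?_)
  · apply Subtype.ext
    ext k
    rw [coe_sum_smul]
    simpa using hc k
  · have hk := congrArg (fun s : laurentBaseChange K₁ F₀ => (s : LaurentSeries K₁).coeff k) hd
    rw [coe_sum_smul] at hk
    simpa [hφ] using hk

theorem generated (T : Subfield (laurentBaseChange K₁ F₀))
    (hc : ∀ c, algebraMap K₁ (laurentBaseChange K₁ F₀) c ∈ T) (ha : ∀ a, φ a ∈ T)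
    (z : laurentBaseChange K₁ F₀) : z ∈ T := by
  have hle : Subfield.closure (Set.range (algebraMap K₁ (LaurentSeries K₁)) ∪
      (⇑(coeffEmb K₁) '' (F₀ : Set (LaurentSeries ℚ)))) ≤
      T.map (laurentBaseChange K₁ F₀).toSubfield.subtype := by
    rw [Subfield.closure_le]
    rintro y (⟨a, rfl⟩ | ⟨w, hw, rfl⟩)
    · exact ⟨algebraMap K₁ (laurentBaseChange K₁ F₀) a, hc a, rfl⟩
    · refine ⟨φ ⟨coeffEmb K₀ w, coeffEmb_mem_laurentBaseChange K₀ hw⟩, ha _, ?_⟩
      exact (hφ _).trans (coeffMap_coeffEmb ι w)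
  obtain ⟨t, ht, hte⟩ := hle (mem_laurentBaseChange_iff.mp z.2)
  have : t = z := Subtype.ext hte
  exact this ▸ ht

/-- **[DESC.DEG], definition-independent form.** For any ring hom
`φ : laurentBaseChange K₀ F₀ →+* laurentBaseChange K₁ F₀` which is `coeffMap ι` on the
underlying Laurent series: if `x₀` is transcendental over `K₀` and `laurentBaseChange K₀ F₀` is
finite over `K₀(x₀)`, then `φ x₀` is transcendental over `K₁` and `laurentBaseChange K₁ F₀` is
finite over `K₁(φ x₀)` of the same degree. -/
theorem degree_eq {x₀ : laurentBaseChange K₀ F₀} (hx : Transcendental K₀ x₀)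
    [FiniteDimensional K₀⟮x₀⟯ (laurentBaseChange K₀ F₀)] :
    Transcendental K₁ (φ x₀) ∧ FiniteDimensional K₁⟮φ x₀⟯ (laurentBaseChange K₁ F₀) ∧
      Module.finrank K₁⟮φ x₀⟯ (laurentBaseChange K₁ F₀) =
        Module.finrank K₀⟮x₀⟯ (laurentBaseChange K₀ F₀) := by
  have h := Fermat.Agent.Lib.BaseChangeDegree.finrank_adjoin_map ι φ (map_algebraMap φ hφ)
    (fun n v hv => linearIndependent_map φ hφ v hv) (generated φ hφ) hx
  exact ⟨Fermat.Agent.Lib.BaseChangeDegree.transcendental_map φ
    (fun n v hv => linearIndependent_map φ hφ v hv) hx, h.1, h.2⟩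

end Core

/-- **[DESC.DEG]** for the coefficientwise base change map `baseMap ι F₀`. -/
theorem baseMap_degree_eq {x₀ : laurentBaseChange K₀ F₀} (hx : Transcendental K₀ x₀)
    [FiniteDimensional K₀⟮x₀⟯ (laurentBaseChange K₀ F₀)] :
    Transcendental K₁ (baseMap ι F₀ x₀) ∧
      FiniteDimensional K₁⟮baseMap ι F₀ x₀⟯ (laurentBaseChange K₁ F₀) ∧
      Module.finrank K₁⟮baseMap ι F₀ x₀⟯ (laurentBaseChange K₁ F₀) =
        Module.finrank K₀⟮x₀⟯ (laurentBaseChange K₀ F₀) :=
  degree_eq (baseMap ι F₀) (fun _ => rfl) hx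

end Fermat.Agent.Lib.LaurentBaseChangeDegree
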