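import Mathlib

/-!
# The characteristic polynomial at a place is the product over the fibre (Mathlib-only core)

* `charpoly_mulLeft_quotient_of_pow_mem` : on a quotient `A ⧸ I` of a finite-dimensional
  `k`-algebra on which `x - c` is nilpotent, the characteristic polynomial of multiplication by
  `x` is `(X - c) ^ dim (A ⧸ I)`.
* `charpoly_mulLeft_eq_prod_of_iInf_eq_bot` : Chinese remainder form: if `⨅ i ∈ s, I i = ⊥` with
  pairwise coprime `I i` and `x - c i` nilpotent modulo `I i`, then the characteristic polynomial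
  of multiplication by `x` on `A` is `∏ i ∈ s, (X - c i) ^ dim (A ⧸ I i)`.
-/

set_option autoImplicit false

open Polynomial Module

namespace Fermat.Agent.Lib.FibreCharPoly

section FieldCRT

variable {k A : Type*} [Field k] [CommRing A] [Algebra k A] [Module.Finite k A]

/-- On a quotient where `x - c` is nilpotent, multiplication by `x` has characteristic polynomial
`(X - c) ^ dim`. -/
theorem charpoly_mulLeft_quotient_of_pow_mem (I : Ideal A) (x : A) (c : k) (N : ℕ)
    (h : (x - algebraMap k A c) ^ N ∈ I) :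
    (LinearMap.mulLeft k (Ideal.Quotient.mk I x)).charpoly =
      (X - C c) ^ finrank k (A ⧸ I) := by
  set f : Module.End k (A ⧸ I) := LinearMap.mulLeft k (Ideal.Quotient.mk I x) with hf
  have hg : f - c • (1 : Module.End k (A ⧸ I)) =
      LinearMap.mulLeft k (Ideal.Quotient.mk I (x - algebraMap k A c)) := by
    refine LinearMap.ext fun y => ?_
    simp only [hf, LinearMap.sub_apply, LinearMap.mulLeft_apply, LinearMap.smul_apply,
      Module.End.one_apply, map_sub, sub_mul]
    rw [Algebra.smul_def]
    rfl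
  have hnil : IsNilpotent (f - c • (1 : Module.End k (A ⧸ I))) := by
    refine ⟨N, ?_⟩
    rw [hg]
    refine LinearMap.ext fun y => ?_
    have h1 : ∀ n : ℕ, ∀ z : A ⧸ I,
        ((LinearMap.mulLeft k (Ideal.Quotient.mk I (x - algebraMap k A c))) ^ n) z =
          (Ideal.Quotient.mk I (x - algebraMap k A c)) ^ n * z := by
      intro n
      induction n with
      | zero => intro z; simp
      | succ n ih =>
        intro z
        rw [pow_succ, Module.End.mul_apply, ih, LinearMap.mulLeft_apply, pow_succ, mul_assoc]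
    rw [h1, ← map_pow, Ideal.Quotient.eq_zero_iff_mem.mpr h, zero_mul, LinearMap.zero_apply]
  have h2 := LinearMap.charpoly_sub_smul f c
  rw [hnil.charpoly_eq_X_pow_finrank] at h2
  have h3 : f.charpoly = (f.charpoly.comp (X + C c)).comp (X - C c) := by
    rw [Polynomial.comp_assoc]
    simp
  rw [h3, ← h2]
  simp

/-- The Chinese remainder isomorphism for two coprime ideals, as a `k`-linear equivalence. -/
noncomputable def crtLinearEquiv (I J : Ideal A) (h : IsCoprime I J) :
    (A ⧸ I ⊓ J) ≃ₗ[k] (A ⧸ I) × (A ⧸ J) :=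
  { Ideal.quotientInfEquivQuotientProd I J h with
    map_smul' := fun c y => by
      obtain ⟨y, rfl⟩ := Ideal.Quotient.mk_surjective y
      rfl }

omit [Module.Finite k A] in
theorem crtLinearEquiv_mk (I J : Ideal A) (h : IsCoprime I J) (a : A) :
    crtLinearEquiv (k := k) I J h (Ideal.Quotient.mk (I ⊓ J) a) =
      (Ideal.Quotient.mk I a, Ideal.Quotient.mk J a) := rfl

/-- Multiplication by `x` on `A ⧸ I ⊓ J` for coprime `I`, `J`. -/
theorem charpoly_mulLeft_quotient_inf (I J : Ideal A) (h : IsCoprime I J) (x : A) :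
    (LinearMap.mulLeft k (Ideal.Quotient.mk (I ⊓ J) x)).charpoly =
      (LinearMap.mulLeft k (Ideal.Quotient.mk I x)).charpoly *
        (LinearMap.mulLeft k (Ideal.Quotient.mk J x)).charpoly := by
  rw [← LinearMap.charpoly_prodMap, ← LinearEquiv.charpoly_conj (crtLinearEquiv (k := k) I J h)]
  congr 1
  refine LinearMap.ext fun z => ?_
  obtain ⟨y, rfl⟩ := (crtLinearEquiv (k := k) I J h).surjective z
  obtain ⟨y, rfl⟩ := Ideal.Quotient.mk_surjective y
  rw [LinearEquiv.conj_apply_apply, LinearEquiv.symm_apply_apply, LinearMap.mulLeft_apply,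
    ← map_mul, crtLinearEquiv_mk, crtLinearEquiv_mk]
  simp [LinearMap.prodMap_apply]

/-- Chinese remainder form, for a finite family of pairwise coprime ideals. -/
theorem charpoly_mulLeft_quotient_iInf {ι : Type*} (s : Finset ι) (I : ι → Ideal A)
    (hI : ∀ i ∈ s, ∀ j ∈ s, i ≠ j → IsCoprime (I i) (I j)) (x : A) (c : ι → k)
    (hx : ∀ i ∈ s, ∃ N : ℕ, (x - algebraMap k A (c i)) ^ N ∈ I i) :
    (LinearMap.mulLeft k (Ideal.Quotient.mk (⨅ i ∈ s, I i) x)).charpoly =
      ∏ i ∈ s, (X - C (c i)) ^ finrank k (A ⧸ I i) := by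
  classical
  induction s using Finset.induction_on with
  | empty =>
    have h1 : (⨅ i ∈ (∅ : Finset ι), I i) = ⊤ := by simp
    rw [h1, Finset.prod_empty]
    have h2 : Subsingleton (A ⧸ (⊤ : Ideal A)) := Ideal.Quotient.subsingleton_iff.mpr rfl
    have h3 : finrank k (A ⧸ (⊤ : Ideal A)) = 0 := finrank_zero_of_subsingleton
    have h4 := LinearMap.charpoly_natDegree
      (LinearMap.mulLeft k (Ideal.Quotient.mk (⊤ : Ideal A) x))
    rw [h3] at h4
    exact (LinearMap.charpoly_monic _).natDegree_eq_zero.mp h4
  | insert a s ha ih =>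
    have h1 : (⨅ i ∈ insert a s, I i) = I a ⊓ ⨅ i ∈ s, I i := Finset.iInf_insert a s I
    have hcop : IsCoprime (I a) (⨅ i ∈ s, I i) := by
      rw [Ideal.isCoprime_iff_sup_eq]
      refine Ideal.sup_iInf_eq_top fun i hi => ?_
      rw [← Ideal.isCoprime_iff_sup_eq]
      exact hI a (Finset.mem_insert_self a s) i (Finset.mem_insert_of_mem hi)
        (fun h => ha (h ▸ hi))
    rw [h1, charpoly_mulLeft_quotient_inf _ _ hcop, Finset.prod_insert ha,
      ih (fun i hi j hj => hI i (Finset.mem_insert_of_mem hi) j (Finset.mem_insert_of_mem hj))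
        (fun i hi => hx i (Finset.mem_insert_of_mem hi))]
    congr 1
    obtain ⟨N, hN⟩ := hx a (Finset.mem_insert_self a s)
    exact charpoly_mulLeft_quotient_of_pow_mem (I a) x (c a) N hN

/-- Chinese remainder form on `A` itself: if `⨅ i ∈ s, I i = ⊥` for pairwise coprime ideals and
`x - c i` is nilpotent modulo `I i`, then the characteristic polynomial of multiplication by `x`
is `∏ i ∈ s, (X - c i) ^ dim (A ⧸ I i)`. -/
theorem charpoly_mulLeft_eq_prod_of_iInf_eq_bot {ι : Type*} (s : Finset ι) (I : ι → Ideal A)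
    (hI : ∀ i ∈ s, ∀ j ∈ s, i ≠ j → IsCoprime (I i) (I j)) (hbot : ⨅ i ∈ s, I i = ⊥)
    (x : A) (c : ι → k) (hx : ∀ i ∈ s, ∃ N : ℕ, (x - algebraMap k A (c i)) ^ N ∈ I i) :
    (LinearMap.mulLeft k x).charpoly = ∏ i ∈ s, (X - C (c i)) ^ finrank k (A ⧸ I i) := by
  rw [← charpoly_mulLeft_quotient_iInf s I hI x c hx, hbot]
  let e : (A ⧸ (⊥ : Ideal A)) ≃ₗ[k] A :=
    { RingEquiv.quotientBot A with
      map_smul' := fun c y => by
        obtain ⟨y, rfl⟩ := Ideal.Quotient.mk_surjective y
        rfl }
  rw [← LinearEquiv.charpoly_conj e]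
  congr 1

end FieldCRT

section Local

open IsLocalRing UniqueFactorizationMonoid

attribute [local instance] Ideal.Quotient.field

variable {R S : Type*} [CommRing R] [IsLocalRing R] [CommRing S] [Algebra R S]

/-- `S ⧸ 𝔪S` is finite over the residue field. -/
theorem finite_quotient_map [Module.Finite R S] :
    Module.Finite (R ⧸ maximalIdeal R) (S ⧸ (maximalIdeal R).map (algebraMap R S)) :=
  Module.Finite.of_restrictScalars_finite R _ _

attribute [local instance] finite_quotient_map

/-- Reduction of the characteristic polynomial of multiplication by `x` modulo the maximal ideal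
of a local ring `R` (for a finite free `R`-algebra `S`). -/
theorem charpoly_mulLeft_map_quotient [Module.Free R S] [Module.Finite R S] (x : S) :
    (LinearMap.mulLeft R x).charpoly.map (Ideal.Quotient.mk (maximalIdeal R)) =
      (LinearMap.mulLeft (R ⧸ maximalIdeal R)
        (Ideal.Quotient.mk ((maximalIdeal R).map (algebraMap R S)) x)).charpoly := by
  classical
  let b := Module.Free.chooseBasis R S
  rw [← LinearMap.charpoly_toMatrix (LinearMap.mulLeft R x) b, ← Matrix.charpoly_map,
    ← LinearMap.charpoly_toMatrix _ (basisQuotient b)]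
  congr 1
  ext i j
  rw [Matrix.map_apply, LinearMap.toMatrix_apply, LinearMap.toMatrix_apply,
    LinearMap.mulLeft_apply, LinearMap.mulLeft_apply, basisQuotient_apply, ← map_mul,
    basisQuotient_repr]

section Dedekind

variable [IsDedekindDomain S]

/-- The quotient `(S ⧸ 𝔪S) ⧸ (image of P ^ e)` is `S ⧸ P ^ e`, linearly over the residue field
(`e` = the ramification index of `P`). -/
noncomputable def quotQuotLinearEquiv (P : Ideal S) :
    ((S ⧸ (maximalIdeal R).map (algebraMap R S)) ⧸
        (P ^ Ideal.ramificationIdx' (maximalIdeal R) P).map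
          (Ideal.Quotient.mk ((maximalIdeal R).map (algebraMap R S)))) ≃ₗ[R ⧸ maximalIdeal R]
      (S ⧸ P ^ Ideal.ramificationIdx' (maximalIdeal R) P) :=
  { DoubleQuot.quotQuotEquivQuotOfLE
      (Ideal.le_pow_ramificationIdx' (p := maximalIdeal R) (P := P)) with
    map_smul' := fun c y => by
      obtain ⟨c, rfl⟩ := Ideal.Quotient.mk_surjective c
      obtain ⟨y, rfl⟩ := Ideal.Quotient.mk_surjective y
      obtain ⟨y, rfl⟩ := Ideal.Quotient.mk_surjective y
      rfl }

set_option linter.deprecated false in
/-- For a prime `P` of the Dedekind domain `S` over the maximal ideal of `R` with residue degree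
one, the block `(S ⧸ 𝔪S) ⧸ (image of P ^ e)` has dimension `e` over the residue field. -/
theorem finrank_quotQuot_pow_ramificationIdx
    (hp : (maximalIdeal R).map (algebraMap R S) ≠ ⊥) (P : Ideal S)
    (hP : P ∈ IsDedekindDomain.primesOverFinset (maximalIdeal R) S)
    (hdeg : ∀ y : S, ∃ r : R, y - algebraMap R S r ∈ P) :
    finrank (R ⧸ maximalIdeal R)
      ((S ⧸ (maximalIdeal R).map (algebraMap R S)) ⧸
        (P ^ Ideal.ramificationIdx' (maximalIdeal R) P).map
          (Ideal.Quotient.mk ((maximalIdeal R).map (algebraMap R S)))) =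
      Ideal.ramificationIdx' (maximalIdeal R) P := by
  have hPf : P ∈ factors ((maximalIdeal R).map (algebraMap R S)) := Multiset.mem_toFinset.mp hP
  have hPprime : P.IsPrime := Ideal.isPrime_of_prime (prime_of_factor P hPf)
  have hP0 : P ≠ ⊥ := (prime_of_factor P hPf).ne_zero
  have hle : (maximalIdeal R).map (algebraMap R S) ≤ P :=
    Ideal.le_of_dvd (dvd_of_mem_factors hPf)
  have he : Ideal.ramificationIdx' (maximalIdeal R) P ≠ 0 :=
    Ideal.IsDedekindDomain.ramificationIdx'_ne_zero hp hPprime hle
  rw [(quotQuotLinearEquiv (R := R) P).finrank_eq, Ideal.finrank_prime_pow_ramificationIdx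
    (maximalIdeal R) P hP0 he]
  let _ : NeZero (Ideal.ramificationIdx' (maximalIdeal R) P) := ⟨he⟩
  let _ : Algebra (R ⧸ maximalIdeal R) (S ⧸ P) :=
    Ideal.Quotient.algebraQuotientOfRamificationIdxNeZero (maximalIdeal R) P
  have hbij : Function.Bijective (Algebra.linearMap (R ⧸ maximalIdeal R) (S ⧸ P)) := by
    constructor
    · exact (algebraMap (R ⧸ maximalIdeal R) (S ⧸ P)).injective
    · intro y
      obtain ⟨y, rfl⟩ := Ideal.Quotient.mk_surjective y
      obtain ⟨r, hr⟩ := hdeg y
      refine ⟨Ideal.Quotient.mk (maximalIdeal R) r, ?_⟩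
      exact (Ideal.Quotient.eq.mpr hr).symm
  have h1 : finrank (R ⧸ maximalIdeal R) (S ⧸ P) = 1 := by
    rw [← (LinearEquiv.ofBijective _ hbij).finrank_eq, Module.finrank_self]
  rw [h1, mul_one]

/-- **The characteristic polynomial at a place is the product over the fibre.**
`R` a local ring with maximal ideal `𝔪` and residue field `k = R ⧸ 𝔪`, `S` a Dedekind domain which
is a finite free `R`-algebra, such that every prime `P` of `S` over `𝔪` has residue degree one.
For `x : S` with values `c P` at the primes `P` over `𝔪` (i.e. `x - c P ∈ P`), the characteristic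
polynomial of multiplication by `x` on `S` reduces modulo `𝔪` to
`∏_P (X - c P) ^ e(P | 𝔪)`. -/
theorem charpoly_mulLeft_map_quotient_eq_prod [Module.Free R S] [Module.Finite R S]
    (hp : (maximalIdeal R).map (algebraMap R S) ≠ ⊥) (x : S) (c : Ideal S → R)
    (hdeg : ∀ P ∈ IsDedekindDomain.primesOverFinset (maximalIdeal R) S,
      ∀ y : S, ∃ r : R, y - algebraMap R S r ∈ P)
    (hc : ∀ P ∈ IsDedekindDomain.primesOverFinset (maximalIdeal R) S,
      x - algebraMap R S (c P) ∈ P) :
    (LinearMap.mulLeft R x).charpoly.map (Ideal.Quotient.mk (maximalIdeal R)) =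
      ∏ P ∈ IsDedekindDomain.primesOverFinset (maximalIdeal R) S,
        (X - C (Ideal.Quotient.mk (maximalIdeal R) (c P))) ^
          Ideal.ramificationIdx' (maximalIdeal R) P := by
  classical
  rw [charpoly_mulLeft_map_quotient]
  set mkS := Ideal.Quotient.mk ((maximalIdeal R).map (algebraMap R S)) with hmkS
  have hprime : ∀ P ∈ IsDedekindDomain.primesOverFinset (maximalIdeal R) S,
      Prime P := fun P hP => prime_of_factor P (Multiset.mem_toFinset.mp hP)
  -- pairwise coprime
  have hI : ∀ P ∈ IsDedekindDomain.primesOverFinset (maximalIdeal R) S,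
      ∀ Q ∈ IsDedekindDomain.primesOverFinset (maximalIdeal R) S, P ≠ Q →
      IsCoprime ((P ^ Ideal.ramificationIdx' (maximalIdeal R) P).map mkS)
        ((Q ^ Ideal.ramificationIdx' (maximalIdeal R) Q).map mkS) := by
    intro P hP Q hQ hPQ
    have hPm : P.IsMaximal :=
      (Ideal.isPrime_of_prime (hprime P hP)).isMaximal (hprime P hP).ne_zero
    have hQm : Q.IsMaximal :=
      (Ideal.isPrime_of_prime (hprime Q hQ)).isMaximal (hprime Q hQ).ne_zero
    have h1 : IsCoprime P Q := by
      rw [Ideal.isCoprime_iff_sup_eq]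
      exact Ideal.IsMaximal.coprime_of_ne hPm hQm hPQ
    have h2 : IsCoprime (P ^ Ideal.ramificationIdx' (maximalIdeal R) P)
        (Q ^ Ideal.ramificationIdx' (maximalIdeal R) Q) := h1.pow
    rw [Ideal.isCoprime_iff_sup_eq] at h2 ⊢
    rw [← Ideal.map_sup, h2, Ideal.map_top]
  -- the intersection is zero
  have hbot : ⨅ P ∈ IsDedekindDomain.primesOverFinset (maximalIdeal R) S,
      (P ^ Ideal.ramificationIdx' (maximalIdeal R) P).map mkS = ⊥ := by
    rw [← Ideal.prod_eq_iInf_of_pairwise_isCoprime
      (fun P hP Q hQ hPQ => hI P hP Q hQ hPQ)]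
    have h6 : ∏ P ∈ IsDedekindDomain.primesOverFinset (maximalIdeal R) S,
        (P ^ Ideal.ramificationIdx' (maximalIdeal R) P).map mkS =
        (∏ P ∈ IsDedekindDomain.primesOverFinset (maximalIdeal R) S,
          P ^ Ideal.ramificationIdx' (maximalIdeal R) P).map mkS :=
      (map_prod (Ideal.mapHom mkS) _ _).symm
    rw [h6]
    have h3 : ∏ P ∈ IsDedekindDomain.primesOverFinset (maximalIdeal R) S,
        P ^ Ideal.ramificationIdx' (maximalIdeal R) P =
        (maximalIdeal R).map (algebraMap R S) := by
      have h4 : ∏ P ∈ IsDedekindDomain.primesOverFinset (maximalIdeal R) S,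
          P ^ Ideal.ramificationIdx' (maximalIdeal R) P =
          ∏ P ∈ (factors ((maximalIdeal R).map (algebraMap R S))).toFinset,
            P ^ (factors ((maximalIdeal R).map (algebraMap R S))).count P := by
        refine Finset.prod_congr rfl fun P hP => ?_
        rw [Ideal.IsDedekindDomain.ramificationIdx'_eq_factors_count hp
          (Ideal.isPrime_of_prime (hprime P hP)) (hprime P hP).ne_zero]
      rw [h4, ← Finset.prod_multiset_count]
      exact associated_iff_eq.mp (factors_prod hp)
    rw [h3, hmkS, Ideal.map_quotient_self]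
  -- nilpotency
  have hx : ∀ P ∈ IsDedekindDomain.primesOverFinset (maximalIdeal R) S, ∃ N : ℕ,
      (mkS x - algebraMap (R ⧸ maximalIdeal R) (S ⧸ (maximalIdeal R).map (algebraMap R S))
        (Ideal.Quotient.mk (maximalIdeal R) (c P))) ^ N ∈
        (P ^ Ideal.ramificationIdx' (maximalIdeal R) P).map mkS := by
    intro P hP
    refine ⟨Ideal.ramificationIdx' (maximalIdeal R) P, ?_⟩
    have h5 : mkS x - algebraMap (R ⧸ maximalIdeal R)
        (S ⧸ (maximalIdeal R).map (algebraMap R S))
        (Ideal.Quotient.mk (maximalIdeal R) (c P)) = mkS (x - algebraMap R S (c P)) := by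
      rw [map_sub]
      rfl
    rw [h5, ← map_pow]
    exact Ideal.mem_map_of_mem _ (Ideal.pow_mem_pow (hc P hP) _)
  rw [charpoly_mulLeft_eq_prod_of_iInf_eq_bot
    (IsDedekindDomain.primesOverFinset (maximalIdeal R) S)
    (fun P => (P ^ Ideal.ramificationIdx' (maximalIdeal R) P).map mkS) hI hbot (mkS x)
    (fun P => Ideal.Quotient.mk (maximalIdeal R) (c P)) hx]
  refine Finset.prod_congr rfl fun P hP => ?_
  rw [finrank_quotQuot_pow_ramificationIdx hp P hP (hdeg P hP)]

end Dedekind

end Local

section Localization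

open scoped nonZeroDivisors

variable (R : Type*) {S : Type*} [CommRing R] [CommRing S] [Algebra R S]
variable {Rₘ Sₘ : Type*} [CommRing Rₘ] [Algebra R Rₘ] [CommRing Sₘ] [Algebra S Sₘ]
variable (M : Submonoid R)
variable [IsLocalization M Rₘ] [IsLocalization (Algebra.algebraMapSubmonoid S M) Sₘ]
variable [Algebra Rₘ Sₘ] [Algebra R Sₘ] [IsScalarTower R Rₘ Sₘ] [IsScalarTower R S Sₘ]

include M in
/-- The characteristic polynomial of multiplication by `x` is compatible with localization
(e.g. passing from a finite free extension of domains to the extension of fraction fields). -/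
theorem charpoly_mulLeft_localization [Module.Free R S] [Module.Finite R S]
    [Module.Free Rₘ Sₘ] [Module.Finite Rₘ Sₘ] (x : S) :
    (LinearMap.mulLeft Rₘ (algebraMap S Sₘ x)).charpoly =
      (LinearMap.mulLeft R x).charpoly.map (algebraMap R Rₘ) := by
  classical
  let b := Module.Free.chooseBasis R S
  rw [← LinearMap.charpoly_toMatrix (LinearMap.mulLeft R x) b, ← Matrix.charpoly_map,
    ← LinearMap.charpoly_toMatrix _ (b.localizationLocalization Rₘ M Sₘ)]
  congr 1
  exact (Algebra.map_leftMulMatrix_localization R M b x).symm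

end Localization

end Fermat.Agent.Lib.FibreCharPoly
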