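/-
P5 (S30), block [MODFUN], the abstract Galois core of the degree argument (MF3) (helper89).
Mathlib only.

`G` ANY group (possibly infinite, e.g. `SL(2,ℤ)`) acting on a field `L` by ring automorphisms.

* `orbitPoly θ h`                        : `∏ (X - θ')` over a finite orbit; monic, degree the
                                           size of the orbit, `θ` is a root, coefficients fixed;
* `exists_monic_of_finite_orbit`         : ... with coefficients in any `F → L` whose image
                                           contains `L^G`;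
* `finite_orbit_of_index_ne_zero`        : `θ` fixed by `H` of finite index ⟹ orbit finite of
                                           size `≤ [G : H]`;
* `isIntegral_and_natDegree_le_index`    : such `θ` is algebraic over `F` of degree `≤ [G : H]`;
* `le_of_forall_natDegree_le`            : degree argument (primitive element, char 0);
* `mem_of_fixed_of_index_le_finrank(')`  : `L^H = K` as soon as `K ⊆ L^H` and
                                           `[G : H] ≤ [K : F] < ∞`;
* `conjFam H y hy : G ⧸ H → L`           : the conjugates `gH ↦ g • y` of an `H`-fixed `y`;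
* `exists_trace_formula`                 : (MF3-alg, text of helper91) Lagrange interpolation:
                                           `θ · D(x) = P(x)`, `D(x) ≠ 0`, with `P`, `D` having
                                           `G`-fixed coefficients in a `G`-stable subring `R`;
* `exists_monic_fixed_root`              : `∏_{gH} (X - g • θ)`.
-/
import Mathlib

set_option autoImplicit false

namespace Fermat.Agent.Lib.FixedFieldIndex

open Polynomial

section Orbit

variable {G L : Type*} [Group G] [Field L] [MulSemiringAction G L]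

/-- The polynomial `∏ (X - θ')` over the (finite) `G`-orbit of `θ`. -/
noncomputable def orbitPoly (θ : L) (h : (MulAction.orbit G θ).Finite) : L[X] :=
  ∏ x ∈ h.toFinset, (X - C x)

theorem orbitPoly_monic (θ : L) (h : (MulAction.orbit G θ).Finite) : (orbitPoly θ h).Monic :=
  monic_prod_of_monic _ _ (fun x _ => monic_X_sub_C x)

theorem orbitPoly_natDegree (θ : L) (h : (MulAction.orbit G θ).Finite) :
    (orbitPoly θ h).natDegree = (MulAction.orbit G θ).ncard := by
  rw [orbitPoly, natDegree_prod_of_monic _ _ (fun x _ => monic_X_sub_C x)]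
  simp [Set.ncard_eq_toFinset_card _ h]

theorem orbitPoly_eval (θ : L) (h : (MulAction.orbit G θ).Finite) :
    (orbitPoly θ h).eval θ = 0 := by
  rw [orbitPoly, eval_prod]
  exact Finset.prod_eq_zero (i := θ) (by simp [MulAction.mem_orbit_self]) (by simp)

theorem orbitPoly_map (θ : L) (h : (MulAction.orbit G θ).Finite) (g : G) :
    (orbitPoly θ h).map (MulSemiringAction.toRingHom G L g) = orbitPoly θ h := by
  rw [orbitPoly, Polynomial.map_prod]
  simp only [Polynomial.map_sub, map_X, map_C, MulSemiringAction.toRingHom_apply]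
  refine Finset.prod_bij' (fun x _ => g • x) (fun x _ => g⁻¹ • x) ?_ ?_ ?_ ?_ ?_
  · intro x hx
    rw [Set.Finite.mem_toFinset] at hx ⊢
    exact MulAction.mem_orbit_of_mem_orbit g hx
  · intro x hx
    rw [Set.Finite.mem_toFinset] at hx ⊢
    exact MulAction.mem_orbit_of_mem_orbit g⁻¹ hx
  · intro x _; simp
  · intro x _; simp
  · intro x _; rfl

theorem smul_coeff_orbitPoly (θ : L) (h : (MulAction.orbit G θ).Finite) (g : G) (n : ℕ) :
    g • (orbitPoly θ h).coeff n = (orbitPoly θ h).coeff n := by
  conv_rhs => rw [← orbitPoly_map θ h g]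
  rw [coeff_map]
  rfl

/-- An element with finite `G`-orbit is a root of a monic polynomial of degree the size of the
orbit with coefficients in any field `F` whose image in `L` contains the `G`-fixed elements. -/
theorem exists_monic_of_finite_orbit {F : Type*} [Field F] [Algebra F L]
    (hF : ∀ x : L, (∀ g : G, g • x = x) → x ∈ Set.range (algebraMap F L))
    (θ : L) (h : (MulAction.orbit G θ).Finite) :
    ∃ P : F[X], P.Monic ∧ P.natDegree = (MulAction.orbit G θ).ncard ∧
      Polynomial.aeval θ P = 0 := by
  have hl : orbitPoly θ h ∈ Polynomial.lifts (algebraMap F L) := by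
    rw [Polynomial.lifts_iff_coeff_lifts]
    intro n
    exact hF _ (fun g => smul_coeff_orbitPoly θ h g n)
  obtain ⟨P, hP, hdeg, hmon⟩ :=
    Polynomial.lifts_and_natDegree_eq_and_monic hl (orbitPoly_monic θ h)
  refine ⟨P, hmon, hdeg.trans (orbitPoly_natDegree θ h), ?_⟩
  rw [Polynomial.aeval_def, ← Polynomial.eval_map, hP, orbitPoly_eval]

/-- An element with finite `G`-orbit is a root of a monic polynomial over the fixed field whose
degree is the size of the orbit. -/
theorem exists_monic_fixed_of_finite_orbit (θ : L) (h : (MulAction.orbit G θ).Finite) :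
    ∃ P : (FixedPoints.subfield G L)[X], P.Monic ∧
      P.natDegree = (MulAction.orbit G θ).ncard ∧ Polynomial.aeval θ P = 0 :=
  exists_monic_of_finite_orbit (fun x hx => ⟨⟨x, hx⟩, rfl⟩) θ h

/-- If `θ` is fixed by a subgroup `H` of finite index, its `G`-orbit is finite of size at most
the index. -/
theorem finite_orbit_of_index_ne_zero (H : Subgroup G) (hH : H.index ≠ 0) (θ : L)
    (hθ : ∀ h ∈ H, h • θ = θ) :
    (MulAction.orbit G θ).Finite ∧ (MulAction.orbit G θ).ncard ≤ H.index := by
  have hle : H ≤ MulAction.stabilizer G θ := fun h hh => MulAction.mem_stabilizer_iff.mpr (hθ h hh)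
  have hdvd : (MulAction.stabilizer G θ).index ∣ H.index := Subgroup.index_dvd_of_le hle
  have hne : (MulAction.stabilizer G θ).index ≠ 0 := fun h0 => hH (by simpa [h0] using hdvd)
  rw [MulAction.index_stabilizer] at hne hdvd
  exact ⟨Set.finite_of_ncard_ne_zero hne, Nat.le_of_dvd (Nat.pos_of_ne_zero hH) hdvd⟩

end Orbit

section Degree

variable {F L : Type*} [Field F] [Field L] [Algebra F L] [CharZero F]

/-- **Degree argument.** `K ≤ E` intermediate fields of `L/F` (characteristic zero), `K/F`
finite, and every element of `E` is algebraic over `F` of degree at most `[K : F]`.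
Then `E = K`. -/
theorem le_of_forall_natDegree_le (K E : IntermediateField F L) [FiniteDimensional F K]
    (hKE : K ≤ E)
    (h : ∀ θ ∈ E, IsIntegral F θ ∧ (minpoly F θ).natDegree ≤ Module.finrank F K) :
    E ≤ K := by
  intro θ hθ
  have hθint : IsIntegral F θ := (h θ hθ).1
  let K' : IntermediateField F L := K ⊔ IntermediateField.adjoin F {θ}
  have hK'E : K' ≤ E := sup_le hKE (IntermediateField.adjoin_le_iff.mpr (by simpa using hθ))
  have : FiniteDimensional F (IntermediateField.adjoin F {θ}) :=
    IntermediateField.adjoin.finiteDimensional hθint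
  have : FiniteDimensional F K' := IntermediateField.finiteDimensional_sup K _
  obtain ⟨α, hα⟩ := Field.exists_primitive_element F K'
  have hαint : IsIntegral F α := IsIntegral.of_finite F α
  have h1 : Module.finrank F K' = (minpoly F α).natDegree := by
    rw [← IntermediateField.adjoin.finrank hαint, hα, IntermediateField.finrank_top']
  have h2 : minpoly F α = minpoly F (α : L) := (minpoly.algebraMap_eq (algebraMap K' L).injective α).symm
  have h3 : (minpoly F (α : L)).natDegree ≤ Module.finrank F K := (h (α : L) (hK'E α.2)).2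
  have hKK' : K ≤ K' := le_sup_left
  have h4 : Module.finrank F K' ≤ Module.finrank F K := by rw [h1, h2]; exact h3
  have h5 : K = K' := IntermediateField.eq_of_le_of_finrank_le hKK' h4
  rw [h5]
  exact (le_sup_right : IntermediateField.adjoin F {θ} ≤ K')
    (IntermediateField.mem_adjoin_simple_self F θ)

end Degree

section Main

variable {G L : Type*} [Group G] [Field L] [MulSemiringAction G L] [CharZero L]

/-- **`L^H = K`, general base.**  `G` any group acting on a field `L` of characteristic zero,
`F → L` a field whose image contains the `G`-fixed elements, `H ≤ G` of finite index, `K` an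
intermediate field of `L/F`, pointwise fixed by `H`, with `[G : H] ≤ [K : F] < ∞`.
Then every element of `L` fixed by `H` lies in `K`. -/
theorem mem_of_fixed_of_index_le_finrank' {F : Type*} [Field F] [Algebra F L]
    (hF : ∀ x : L, (∀ g : G, g • x = x) → x ∈ Set.range (algebraMap F L))
    (H : Subgroup G) (hH : H.index ≠ 0) (K : IntermediateField F L) [FiniteDimensional F K]
    (hK : ∀ x ∈ K, ∀ h ∈ H, h • x = x) (hdeg : H.index ≤ Module.finrank F K)
    (θ : L) (hθ : ∀ h ∈ H, h • θ = θ) : θ ∈ K := by
  have : CharZero F := RingHom.charZero (algebraMap F L)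
  -- the fixed field of `H` as an intermediate field
  let E : IntermediateField F L :=
    (FixedPoints.subfield H L).toIntermediateField
      (fun x h => hK _ (K.algebraMap_mem x) (h : G) h.2)
  have hE : ∀ x : L, x ∈ E ↔ ∀ h ∈ H, h • x = x := by
    intro x
    constructor
    · intro hx h hh
      exact hx ⟨h, hh⟩
    · intro hx h
      exact hx h h.2
  have hKE : K ≤ E := fun x hx => (hE x).mpr (hK x hx)
  refine le_of_forall_natDegree_le K E hKE ?_ ((hE θ).mpr hθ)
  intro x hx
  obtain ⟨hfin, hcard⟩ := finite_orbit_of_index_ne_zero H hH x ((hE x).mp hx)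
  obtain ⟨P, hmon, hPdeg, hroot⟩ := exists_monic_of_finite_orbit hF x hfin
  have hint : IsIntegral F x := ⟨P, hmon, hroot⟩
  refine ⟨hint, ?_⟩
  calc (minpoly F x).natDegree
      ≤ P.natDegree := Polynomial.natDegree_le_of_dvd (minpoly.dvd _ x hroot) hmon.ne_zero
    _ = (MulAction.orbit G x).ncard := hPdeg
    _ ≤ H.index := hcard
    _ ≤ _ := hdeg

/-- **`L^H = K`.**  `G` any group acting on a field `L` of characteristic zero, `F = L^G`,
`H ≤ G` of finite index, `K` an intermediate field of `L/F`, pointwise fixed by `H`, with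
`[G : H] ≤ [K : F] < ∞`.  Then every element of `L` fixed by `H` lies in `K`. -/
theorem mem_of_fixed_of_index_le_finrank (H : Subgroup G) (hH : H.index ≠ 0)
    (K : IntermediateField (FixedPoints.subfield G L) L)
    [FiniteDimensional (FixedPoints.subfield G L) K]
    (hK : ∀ x ∈ K, ∀ h ∈ H, h • x = x)
    (hdeg : H.index ≤ Module.finrank (FixedPoints.subfield G L) K)
    (θ : L) (hθ : ∀ h ∈ H, h • θ = θ) : θ ∈ K :=
  mem_of_fixed_of_index_le_finrank' (fun x hx => ⟨⟨x, hx⟩, rfl⟩) H hH K hK hdeg θ hθ

omit [CharZero L] in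
/-- Degree bound: an element fixed by a subgroup `H` of finite index is algebraic of degree at
most `[G : H]` over any field `F → L` whose image contains the `G`-fixed elements. -/
theorem isIntegral_and_natDegree_le_index {F : Type*} [Field F] [Algebra F L]
    (hF : ∀ x : L, (∀ g : G, g • x = x) → x ∈ Set.range (algebraMap F L))
    (H : Subgroup G) (hH : H.index ≠ 0) (θ : L) (hθ : ∀ h ∈ H, h • θ = θ) :
    IsIntegral F θ ∧ (minpoly F θ).natDegree ≤ H.index := by
  obtain ⟨hfin, hcard⟩ := finite_orbit_of_index_ne_zero H hH θ hθ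
  obtain ⟨P, hmon, hPdeg, hroot⟩ := exists_monic_of_finite_orbit hF θ hfin
  exact ⟨⟨P, hmon, hroot⟩,
    (Polynomial.natDegree_le_of_dvd (minpoly.dvd _ θ hroot) hmon.ne_zero).trans
      (hPdeg.le.trans hcard)⟩

end Main

section Trace

variable {G L : Type*} [Group G] [Field L] [MulSemiringAction G L]

/-- For `y` fixed by `H`, the family of conjugates `gH ↦ g • y`. -/
def conjFam (H : Subgroup G) (y : L) (hy : ∀ h ∈ H, h • y = y) : G ⧸ H → L :=
  Quotient.lift (fun g : G => g • y) (by
    intro a b hab
    have h1 : a⁻¹ * b ∈ H := QuotientGroup.leftRel_apply.mp hab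
    have h2 := hy _ h1
    rw [mul_smul] at h2
    exact (congrArg (a • ·) h2.symm).trans (smul_inv_smul a (b • y)))

theorem conjFam_mk (H : Subgroup G) (y : L) (hy : ∀ h ∈ H, h • y = y) (g : G) :
    conjFam H y hy (g : G ⧸ H) = g • y := rfl

theorem smul_conjFam (H : Subgroup G) (y : L) (hy : ∀ h ∈ H, h • y = y) (g : G) (q : G ⧸ H) :
    g • conjFam H y hy q = conjFam H y hy (g • q) := by
  induction q using QuotientGroup.induction_on with
  | H a =>
    rw [MulAction.Quotient.smul_mk, conjFam_mk, conjFam_mk, smul_eq_mul, mul_smul]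

theorem conjFam_mem (H : Subgroup G) (y : L) (hy : ∀ h ∈ H, h • y = y) (R : Subring L)
    (hR : ∀ (g : G), ∀ r ∈ R, g • r ∈ R) (hyR : y ∈ R) (q : G ⧸ H) : conjFam H y hy q ∈ R := by
  induction q using QuotientGroup.induction_on with
  | H a => exact hR a y hyR

/-- **Trace / Lagrange interpolation formula.**  `H ≤ G` of finite index, `R` a `G`-stable
subring of `L`, `x, θ ∈ R` fixed by `H`, and the stabiliser of `x` is contained in `H`.  Then
`θ = P(x) / D(x)` for polynomials `P`, `D` whose coefficients are `G`-fixed elements of `R`. -/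
theorem exists_trace_formula (H : Subgroup G) [H.FiniteIndex] (R : Subring L)
    (hR : ∀ (g : G), ∀ r ∈ R, g • r ∈ R)
    (x θ : L) (hxR : x ∈ R) (hθR : θ ∈ R)
    (hxH : ∀ h ∈ H, h • x = x) (hθH : ∀ h ∈ H, h • θ = θ)
    (hstab : ∀ g : G, g • x = x → g ∈ H) :
    ∃ P D : Polynomial L, (∀ i, P.coeff i ∈ R ∧ ∀ g : G, g • P.coeff i = P.coeff i) ∧
      (∀ i, D.coeff i ∈ R ∧ ∀ g : G, g • D.coeff i = D.coeff i) ∧
      D.eval x ≠ 0 ∧ θ * D.eval x = P.eval x := by
  classical
  let _ : Fintype (G ⧸ H) := Subgroup.fintypeQuotientOfFiniteIndex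
  set xs : G ⧸ H → L := conjFam H x hxH with hxs
  set θs : G ⧸ H → L := conjFam H θ hθH with hθs
  -- the cofactor products
  let cof : G ⧸ H → L[X] := fun q => ∏ q' ∈ Finset.univ.erase q, (X - C (xs q'))
  let D : L[X] := ∑ q, cof q
  let P : L[X] := ∑ q, C (θs q) * cof q
  -- coefficients in `R`
  have hXC : ∀ q, (X - C (xs q) : L[X]) ∈ Polynomial.lifts R.subtype := by
    intro q
    have h1 : (X : L[X]) ∈ Polynomial.lifts R.subtype := Polynomial.X_mem_lifts _
    have h2 : (C (-(xs q)) : L[X]) ∈ Polynomial.lifts R.subtype :=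
      Polynomial.C_mem_lifts R.subtype
        (⟨-(xs q), neg_mem (conjFam_mem H x hxH R hR hxR q)⟩ : R)
    have h3 := add_mem h1 h2
    rwa [C_neg, ← sub_eq_add_neg] at h3
  have hcofR : ∀ q, cof q ∈ Polynomial.lifts R.subtype := fun q =>
    prod_mem (fun q' _ => hXC q')
  have hDR : D ∈ Polynomial.lifts R.subtype := sum_mem (fun q _ => hcofR q)
  have hPR : P ∈ Polynomial.lifts R.subtype := sum_mem (fun q _ =>
    mul_mem (Polynomial.C_mem_lifts R.subtype
      (⟨θs q, conjFam_mem H θ hθH R hR hθR q⟩ : R)) (hcofR q))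
  have hcoeffR : ∀ p : L[X], p ∈ Polynomial.lifts R.subtype → ∀ i, p.coeff i ∈ R := by
    intro p hp i
    obtain ⟨r, hr⟩ := (Polynomial.lifts_iff_coeff_lifts p).mp hp i
    rw [← hr]
    exact r.2
  -- invariance
  have hcofmap : ∀ (g : G) (q : G ⧸ H),
      (cof q).map (MulSemiringAction.toRingHom G L g) = cof (g • q) := by
    intro g q
    show (∏ q' ∈ Finset.univ.erase q, (X - C (xs q'))).map _ =
      ∏ q' ∈ Finset.univ.erase (g • q), (X - C (xs q'))
    rw [Polynomial.map_prod]
    simp only [Polynomial.map_sub, map_X, map_C, MulSemiringAction.toRingHom_apply]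
    refine Finset.prod_bij' (fun q' _ => g • q') (fun q' _ => g⁻¹ • q') ?_ ?_ ?_ ?_ ?_
    · intro q' hq'
      simp only [Finset.mem_erase, Finset.mem_univ, and_true] at hq' ⊢
      exact fun h => hq' (smul_left_cancel g h)
    · intro q' hq'
      simp only [Finset.mem_erase, Finset.mem_univ, and_true] at hq' ⊢
      intro h
      exact hq' (by rw [← h, smul_inv_smul])
    · intro q' _; simp
    · intro q' _; simp
    · intro q' _
      rw [hxs, smul_conjFam]
  have hDmap : ∀ g : G, D.map (MulSemiringAction.toRingHom G L g) = D := by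
    intro g
    show (∑ q, cof q).map _ = ∑ q, cof q
    rw [Polynomial.map_sum]
    simp only [hcofmap]
    exact Fintype.sum_equiv (MulAction.toPerm g) _ _ (fun q => rfl)
  have hPmap : ∀ g : G, P.map (MulSemiringAction.toRingHom G L g) = P := by
    intro g
    show (∑ q, C (θs q) * cof q).map _ = ∑ q, C (θs q) * cof q
    rw [Polynomial.map_sum]
    simp only [Polynomial.map_mul, map_C, hcofmap, MulSemiringAction.toRingHom_apply]
    refine Fintype.sum_equiv (MulAction.toPerm g) _ _ (fun q => ?_)
    show C (g • θs q) * cof (g • q) = C (θs (g • q)) * cof (g • q)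
    rw [hθs, smul_conjFam]
  have hfix : ∀ p : L[X], (∀ g : G, p.map (MulSemiringAction.toRingHom G L g) = p) →
      ∀ i (g : G), g • p.coeff i = p.coeff i := by
    intro p hp i g
    conv_rhs => rw [← hp g]
    rw [coeff_map]
    rfl
  -- evaluation at `x`
  have hx0 : xs ((1 : G) : G ⧸ H) = x := by rw [hxs, conjFam_mk, one_smul]
  have hθ0 : θs ((1 : G) : G ⧸ H) = θ := by rw [hθs, conjFam_mk, one_smul]
  have hcof0 : ∀ q, q ≠ ((1 : G) : G ⧸ H) → (cof q).eval x = 0 := by
    intro q hq
    show (∏ q' ∈ Finset.univ.erase q, (X - C (xs q'))).eval x = 0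
    rw [eval_prod]
    refine Finset.prod_eq_zero (i := ((1 : G) : G ⧸ H)) ?_ ?_
    · simp only [Finset.mem_erase, Finset.mem_univ, and_true]
      exact fun h => hq h.symm
    · rw [eval_sub, eval_X, eval_C, hx0, sub_self]
  have hDeval : D.eval x = (cof ((1 : G) : G ⧸ H)).eval x := by
    show (∑ q, cof q).eval x = _
    rw [eval_finsetSum]
    exact Finset.sum_eq_single _ (fun q _ hq => hcof0 q hq) (fun h => absurd (Finset.mem_univ _) h)
  have hPeval : P.eval x = θ * (cof ((1 : G) : G ⧸ H)).eval x := by
    show (∑ q, C (θs q) * cof q).eval x = _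
    rw [eval_finsetSum]
    rw [Finset.sum_eq_single ((1 : G) : G ⧸ H)]
    · rw [eval_mul, eval_C, hθ0]
    · intro q _ hq
      rw [eval_mul, hcof0 q hq, mul_zero]
    · intro h
      exact absurd (Finset.mem_univ _) h
  have hne : (cof ((1 : G) : G ⧸ H)).eval x ≠ 0 := by
    show (∏ q' ∈ Finset.univ.erase ((1 : G) : G ⧸ H), (X - C (xs q'))).eval x ≠ 0
    rw [eval_prod, Finset.prod_ne_zero_iff]
    intro q hq
    simp only [Finset.mem_erase, Finset.mem_univ, and_true] at hq
    rw [eval_sub, eval_X, eval_C, sub_ne_zero]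
    intro hxq
    apply hq
    induction q using QuotientGroup.induction_on with
    | H a =>
      rw [hxs, conjFam_mk] at hxq
      have ha : a ∈ H := hstab a hxq.symm
      exact QuotientGroup.eq.mpr (by rw [mul_one]; exact H.inv_mem ha)
  refine ⟨P, D, fun i => ⟨hcoeffR P hPR i, fun g => hfix P hPmap i g⟩,
    fun i => ⟨hcoeffR D hDR i, fun g => hfix D hDmap i g⟩, ?_, ?_⟩
  · rw [hDeval]
    exact hne
  · rw [hDeval, hPeval]

/-- The characteristic polynomial `∏_{gH} (X - g • θ)` of an `H`-fixed element `θ` of a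
`G`-stable subring `R`: monic of degree `[G : H]`, coefficients `G`-fixed elements of `R`, and
`θ` is a root. -/
theorem exists_monic_fixed_root (H : Subgroup G) [H.FiniteIndex] (R : Subring L)
    (hR : ∀ (g : G), ∀ r ∈ R, g • r ∈ R) (θ : L) (hθR : θ ∈ R) (hθH : ∀ h ∈ H, h • θ = θ) :
    ∃ Q : Polynomial L, Q.Monic ∧ Q.natDegree = H.index ∧
      (∀ i, Q.coeff i ∈ R ∧ ∀ g : G, g • Q.coeff i = Q.coeff i) ∧ Q.eval θ = 0 := by
  classical
  let _ : Fintype (G ⧸ H) := Subgroup.fintypeQuotientOfFiniteIndex
  set θs : G ⧸ H → L := conjFam H θ hθH with hθs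
  let Q : L[X] := ∏ q : G ⧸ H, (X - C (θs q))
  have hXC : ∀ q, (X - C (θs q) : L[X]) ∈ Polynomial.lifts R.subtype := by
    intro q
    have h1 : (X : L[X]) ∈ Polynomial.lifts R.subtype := Polynomial.X_mem_lifts _
    have h2 : (C (-(θs q)) : L[X]) ∈ Polynomial.lifts R.subtype :=
      Polynomial.C_mem_lifts R.subtype
        (⟨-(θs q), neg_mem (conjFam_mem H θ hθH R hR hθR q)⟩ : R)
    have h3 := add_mem h1 h2
    rwa [C_neg, ← sub_eq_add_neg] at h3
  have hQR : Q ∈ Polynomial.lifts R.subtype := prod_mem (fun q _ => hXC q)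
  have hQmap : ∀ g : G, Q.map (MulSemiringAction.toRingHom G L g) = Q := by
    intro g
    show (∏ q : G ⧸ H, (X - C (θs q))).map _ = ∏ q : G ⧸ H, (X - C (θs q))
    rw [Polynomial.map_prod]
    simp only [Polynomial.map_sub, map_X, map_C, MulSemiringAction.toRingHom_apply]
    refine Fintype.prod_equiv (MulAction.toPerm g) _ _ (fun q => ?_)
    show X - C (g • θs q) = X - C (θs (g • q))
    rw [hθs, smul_conjFam]
  refine ⟨Q, monic_prod_of_monic _ _ (fun q _ => monic_X_sub_C _), ?_, fun i => ⟨?_, fun g => ?_⟩, ?_⟩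
  · show (∏ q : G ⧸ H, (X - C (θs q))).natDegree = H.index
    rw [natDegree_prod_of_monic _ _ (fun q _ => monic_X_sub_C _)]
    simp [Subgroup.index, Nat.card_eq_fintype_card]
  · obtain ⟨r, hr⟩ := (Polynomial.lifts_iff_coeff_lifts Q).mp hQR i
    rw [← hr]
    exact r.2
  · conv_rhs => rw [← hQmap g]
    rw [coeff_map]
    rfl
  · show (∏ q : G ⧸ H, (X - C (θs q))).eval θ = 0
    rw [eval_prod]
    refine Finset.prod_eq_zero (i := ((1 : G) : G ⧸ H)) (Finset.mem_univ _) ?_
    rw [eval_sub, eval_X, eval_C, hθs, conjFam_mk, one_smul, sub_self]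

end Trace

end Fermat.Agent.Lib.FixedFieldIndex
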