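import Mathlib
import Fermat.Prelude.Def_EllipticCurve_FrobeniusTrace
import Fermat.Prelude.Def_FLTPrelim_Ramification

namespace Fermat.Agent.Lib.FrobAlt

open scoped Pointwise
open Polynomial

noncomputable section

section Generic

variable {L : Type*} [Field L]

/-- integral elements over `ℤ` lie in every valuation subring -/
theorem mem_of_isIntegral_int (A : ValuationSubring L) {x : L} (hx : IsIntegral ℤ x) : x ∈ A := by
  have h1 : IsIntegral A x := hx.tower_top
  have hv : Valuation.Integers A.valuation A := by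
    have := Valuation.valuationSubring.integers (v := A.valuation)
    rwa [A.valuationSubring_valuation] at this
  exact (A.valuation_le_one_iff x).mp (hv.isIntegral_iff_v_le_one.mp h1)

theorem val_le_one_of_isIntegral_int (A : ValuationSubring L) {x : L} (hx : IsIntegral ℤ x) :
    A.valuation x ≤ 1 :=
  (A.valuation_le_one_iff x).mpr (mem_of_isIntegral_int A hx)

theorem horner_aux (A : ValuationSubring L) {x : L} (hx : x ∈ A) :
    ∀ (n : ℕ) (p : (integralClosure ℤ L)[X]), p.natDegree ≤ n → aeval x p = 0 →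
      (∃ i, A.valuation ((p.coeff i : integralClosure ℤ L) : L) = 1) →
      ∃ y : L, IsIntegral ℤ y ∧ A.valuation y = 1 ∧ IsIntegral ℤ (y * x) := by
  have hxv : A.valuation x ≤ 1 := (A.valuation_le_one_iff x).mpr hx
  -- degree zero is impossible
  have hdeg0 : ∀ p : (integralClosure ℤ L)[X], p.natDegree = 0 → aeval x p = 0 →
      (∃ i, A.valuation ((p.coeff i : integralClosure ℤ L) : L) = 1) → False := by
    intro p hd h0 ⟨i, hi⟩
    rw [Polynomial.natDegree_eq_zero] at hd
    obtain ⟨a, rfl⟩ := hd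
    rw [aeval_C] at h0
    have ha : a = 0 := by
      apply Subtype.ext
      simpa using h0
    subst ha
    simp at hi
  intro n
  induction n with
  | zero =>
    intro p hp h0 hi
    exact (hdeg0 p (Nat.le_zero.mp hp) h0 hi).elim
  | succ n ih =>
    intro p hp h0 hi
    by_cases hd : p.natDegree = 0
    · exact (hdeg0 p hd h0 hi).elim
    obtain ⟨i, hi⟩ := hi
    set c := p.leadingCoeff with hc_def
    have hcx : IsIntegral ℤ ((c : L) * x) := by
      have h1 := isIntegral_leadingCoeff_smul p x h0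
      have h2 : IsIntegral ℤ (p.leadingCoeff • x) := isIntegral_trans _ h1
      simpa [Algebra.smul_def, hc_def] using h2
    by_cases hc : A.valuation (c : L) = 1
    · exact ⟨c, c.2, hc, hcx⟩
    have hclt : A.valuation (c : L) < 1 :=
      lt_of_le_of_ne (val_le_one_of_isIntegral_int A c.2) hc
    let w : integralClosure ℤ L := ⟨(c : L) * x, hcx⟩
    have hwlt : A.valuation (w : L) < 1 := by
      show A.valuation ((c : L) * x) < 1
      rw [map_mul]
      calc A.valuation (c : L) * A.valuation x ≤ A.valuation (c : L) * 1 := by gcongr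
        _ = A.valuation (c : L) := mul_one _
        _ < 1 := hclt
    let q : (integralClosure ℤ L)[X] := p.eraseLead + C w * X ^ (p.natDegree - 1)
    have hq1 : q.natDegree ≤ n := by
      have h1 : p.eraseLead.natDegree ≤ n := (eraseLead_natDegree_le p).trans (by omega)
      have h2 : (C w * X ^ (p.natDegree - 1)).natDegree ≤ n :=
        (natDegree_C_mul_X_pow_le w _).trans (by omega)
      exact (natDegree_add_le _ _).trans (max_le h1 h2)
    have hq0 : aeval x q = 0 := by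
      have h1 : aeval x p.eraseLead + (c : L) * x ^ p.natDegree = 0 := by
        calc aeval x p.eraseLead + (c : L) * x ^ p.natDegree
            = aeval x (p.eraseLead + C p.leadingCoeff * X ^ p.natDegree) := by
              simp only [map_add, map_mul, aeval_C, map_pow, aeval_X]
              rfl
          _ = aeval x p := by rw [eraseLead_add_C_mul_X_pow]
          _ = 0 := h0
      have h2 : x ^ p.natDegree = x * x ^ (p.natDegree - 1) := by
        rw [← pow_succ']
        congr 1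
        omega
      simp only [q, map_add, map_mul, aeval_C, map_pow, aeval_X]
      rw [← h1, h2]
      show _ + (c : L) * x * x ^ (p.natDegree - 1) = _
      ring
    have hqi : ∃ j, A.valuation ((q.coeff j : integralClosure ℤ L) : L) = 1 := by
      refine ⟨i, ?_⟩
      have hid : i ≠ p.natDegree := by
        rintro rfl
        exact hc hi
      have h1 : q.coeff i = p.coeff i + (if i = p.natDegree - 1 then w else 0) := by
        simp only [q, coeff_add, eraseLead_coeff, if_neg hid, coeff_C_mul_X_pow]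
      rw [h1]
      split_ifs with h
      · push_cast
        rw [Valuation.map_add_eq_of_lt_left _ (by rw [hi]; exact hwlt), hi]
      · simpa using hi
    exact ih q hq1 hq0 hqi

theorem val_intCast_le_one (A : ValuationSubring L) (n : ℤ) : A.valuation (n : L) ≤ 1 := by
  apply val_le_one_of_isIntegral_int
  have : IsIntegral ℤ (algebraMap ℤ L n) := isIntegral_algebraMap
  simpa using this

theorem val_intCast_eq_one (A : ValuationSubring L) {ℓ : ℕ} (hℓ : ℓ.Prime)
    (hA : (ℓ : L) ∈ A.nonunits) {n : ℤ} (hn : ¬ (ℓ : ℤ) ∣ n) : A.valuation (n : L) = 1 := by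
  refine le_antisymm (val_intCast_le_one A n) (not_lt.mp fun hlt => ?_)
  have hcop : IsCoprime (ℓ : ℤ) n :=
    (Nat.prime_iff_prime_int.mp hℓ).irreducible.coprime_iff_not_dvd.mpr hn
  obtain ⟨a, b, hab⟩ := hcop
  have hℓv : A.valuation (ℓ : L) < 1 := A.mem_nonunits_iff.mp hA
  have h1 : A.valuation ((a : L) * (ℓ : L)) < 1 := by
    rw [map_mul]
    calc A.valuation (a : L) * A.valuation (ℓ : L) ≤ 1 * A.valuation (ℓ : L) := by
          gcongr
          exact val_intCast_le_one A a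
      _ = A.valuation (ℓ : L) := one_mul _
      _ < 1 := hℓv
  have h2 : A.valuation ((b : L) * (n : L)) < 1 := by
    rw [map_mul]
    calc A.valuation (b : L) * A.valuation (n : L) ≤ 1 * A.valuation (n : L) := by
          gcongr
          exact val_intCast_le_one A b
      _ = A.valuation (n : L) := one_mul _
      _ < 1 := hlt
  have h3 : ((a : L) * (ℓ : L)) + ((b : L) * (n : L)) = 1 := by
    have := congrArg (fun z : ℤ => (z : L)) hab
    simpa using this
  have h4 := A.valuation.map_add_lt h1 h2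
  rw [h3, map_one] at h4
  exact lt_irrefl _ h4

/-- Every element of a valuation subring `A` (of a field algebraic over `ℤ`, with a prime `ℓ`
in its maximal ideal) is a quotient `z / y` of integral elements with `y` a unit of `A`. -/
theorem exists_frac [CharZero L] (A : ValuationSubring L) {ℓ : ℕ} (hℓ : ℓ.Prime)
    (hA : (ℓ : L) ∈ A.nonunits) (halg : ∀ x : L, IsAlgebraic ℤ x) {x : L} (hx : x ∈ A) :
    ∃ y : L, IsIntegral ℤ y ∧ A.valuation y = 1 ∧ IsIntegral ℤ (y * x) := by
  obtain ⟨p, hp0, hpx⟩ := halg x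
  have hpx' : aeval x p.primPart = 0 := aeval_primPart_eq_zero hp0 hpx
  have hprim : p.primPart.IsPrimitive := isPrimitive_primPart p
  have hex : ∃ i, ¬ (ℓ : ℤ) ∣ p.primPart.coeff i := by
    by_contra hcon
    push Not at hcon
    have h1 : C (ℓ : ℤ) ∣ p.primPart := (C_dvd_iff_dvd_coeff _ _).mpr hcon
    have h2 : IsUnit (ℓ : ℤ) := hprim _ h1
    have h3 := Int.natAbs_of_isUnit h2
    simp at h3
    exact hℓ.one_lt.ne' h3
  obtain ⟨i, hi⟩ := hex
  let P : (integralClosure ℤ L)[X] := p.primPart.map (algebraMap ℤ (integralClosure ℤ L))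
  have hP0 : aeval x P = 0 := by
    rw [aeval_map_algebraMap]
    exact hpx'
  refine horner_aux A hx P.natDegree P le_rfl hP0 ⟨i, ?_⟩
  have : ((P.coeff i : integralClosure ℤ L) : L) = ((p.primPart.coeff i : ℤ) : L) := by
    simp [P, coeff_map]
  rw [this]
  exact val_intCast_eq_one A hℓ hA hi


end Generic

local notation "Qb" => AlgebraicClosure ℚ

theorem algebra_eq : (DivisionRing.toRatAlgebra : Algebra ℚ Qb) = AlgebraicClosure.instAlgebra ℚ :=
  Subsingleton.elim _ _

instance instIsAlgClosureQb : IsAlgClosure ℚ Qb := by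
  rw [algebra_eq]; infer_instance

theorem isAlgebraic_int (x : Qb) : IsAlgebraic ℤ x := by
  have h : IsAlgebraic ℚ x := Algebra.IsAlgebraic.isAlgebraic x
  exact (IsFractionRing.isAlgebraic_iff ℤ ℚ Qb).mpr h

local notation "Zb" => integralClosure ℤ (AlgebraicClosure ℚ)
local notation "Gal" => (AlgebraicClosure ℚ ≃ₐ[ℚ] AlgebraicClosure ℚ)

theorem coe_smul_Zb (g : Gal) (b : Zb) : ((g • b : Zb) : Qb) = g (b : Qb) := rfl

instance instIsInvariant : Algebra.IsInvariant ℤ Zb Gal := by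
  refine ⟨fun b hb => ?_⟩
  have h1 : ∀ g : Gal, g (b : Qb) = (b : Qb) := fun g => by
    have := congrArg (fun z : Zb => (z : Qb)) (hb g)
    simpa [coe_smul_Zb] using this
  have h2 : (b : Qb) ∈ (⊥ : IntermediateField ℚ Qb) := (InfiniteGalois.mem_bot_iff_fixed _).mpr h1
  obtain ⟨r, hr⟩ := IntermediateField.mem_bot.mp h2
  have h3 : IsIntegral ℤ (algebraMap ℚ Qb r) := hr ▸ b.2
  have h4 : IsIntegral ℤ r := (isIntegral_algebraMap_iff (algebraMap ℚ Qb).injective).mp h3
  obtain ⟨a, ha⟩ := IsIntegrallyClosed.isIntegral_iff.mp h4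
  refine ⟨a, Subtype.ext ?_⟩
  rw [← hr, ← ha]
  simp

theorem continuousSMul_Zb :
    letI : TopologicalSpace Zb := ⊥
    ContinuousSMul Gal Zb := by
  letI : TopologicalSpace Zb := ⊥
  haveI : DiscreteTopology Zb := ⟨rfl⟩
  rw [continuousSMul_iff_stabilizer_isOpen]
  intro b
  have := stabilizer_isOpen_of_isIntegral (K := ℚ) (L := Qb) (b : Qb)
  convert this using 1
  ext g
  simp only [SetLike.mem_coe, MulAction.mem_stabilizer_iff]
  constructor
  · intro h
    have := congrArg (fun z : Zb => (z : Qb)) h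
    simpa [coe_smul_Zb] using this
  · intro h
    exact Subtype.ext h

theorem exists_maximal_over (ℓ : ℕ) (hℓ : ℓ.Prime) :
    ∃ Q : Ideal Zb, Q.IsMaximal ∧ Q.comap (algebraMap ℤ Zb) = Ideal.span {(ℓ : ℤ)} := by
  haveI : (Ideal.span {(ℓ : ℤ)}).IsMaximal :=
    PrincipalIdealRing.isMaximal_of_irreducible (Nat.prime_iff_prime_int.mp hℓ).irreducible
  refine Ideal.exists_ideal_over_maximal_of_isIntegral (S := Zb) (Ideal.span {(ℓ : ℤ)}) ?_
  intro n hn
  have h0 : n = 0 := by
    have h1 : ((algebraMap ℤ Zb n : Zb) : Qb) = 0 := by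
      rw [RingHom.mem_ker] at hn
      rw [hn]; rfl
    have h2 : ((n : ℤ) : Qb) = 0 := by simpa using h1
    exact_mod_cast h2
  rw [h0]
  exact Ideal.zero_mem _

theorem charP_quot {ℓ : ℕ} (hℓ : ℓ.Prime) (Q : Ideal Zb) [Q.IsMaximal]
    [hQ : Q.LiesOver (Ideal.span {(ℓ : ℤ)})] : CharP (Zb ⧸ Q) ℓ := by
  have h0 : ((ℓ : ℕ) : Zb ⧸ Q) = 0 := by
    have hmem : (algebraMap ℤ Zb (ℓ : ℤ)) ∈ Q := by
      have h1 : (ℓ : ℤ) ∈ Q.comap (algebraMap ℤ Zb) := by
        have := hQ.over
        rw [Ideal.under_def] at this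
        rw [← this]; exact Ideal.subset_span rfl
      exact h1
    have h2 := Ideal.Quotient.eq_zero_iff_mem.mpr hmem
    simpa using h2
  have h1 := CharP.ringChar_of_prime_eq_zero hℓ h0
  have := ringChar.charP (Zb ⧸ Q)
  rwa [h1] at this

theorem exists_frobAlgEquiv {ℓ : ℕ} (hℓ : ℓ.Prime) (Q : Ideal Zb) [Q.IsMaximal]
    [Q.LiesOver (Ideal.span {(ℓ : ℤ)})] :
    ∃ e : (Zb ⧸ Q) ≃ₐ[ℤ ⧸ Ideal.span {(ℓ : ℤ)}] (Zb ⧸ Q), ∀ x, e x = x ^ ℓ := by
  haveI : Fact ℓ.Prime := ⟨hℓ⟩
  haveI : CharP (Zb ⧸ Q) ℓ := charP_quot hℓ Q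
  let f : (Zb ⧸ Q) →+* (Zb ⧸ Q) := frobenius (Zb ⧸ Q) ℓ
  have hinj : Function.Injective f := frobenius_inj _ _
  have hsurj : Function.Surjective f := by
    letI : Field (Zb ⧸ Q) := Ideal.Quotient.field Q
    haveI : (Ideal.span {(ℓ : ℤ)}).IsMaximal :=
      PrincipalIdealRing.isMaximal_of_irreducible (Nat.prime_iff_prime_int.mp hℓ).irreducible
    letI : Field (ℤ ⧸ Ideal.span {(ℓ : ℤ)}) := Ideal.Quotient.field _
    haveI : Finite (ℤ ⧸ Ideal.span {(ℓ : ℤ)}) :=
      Finite.of_equiv _ (Int.quotientSpanNatEquivZMod ℓ).symm.toEquiv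
    haveI : PerfectField (ℤ ⧸ Ideal.span {(ℓ : ℤ)}) := PerfectField.ofFinite
    haveI : PerfectField (Zb ⧸ Q) := Algebra.IsAlgebraic.perfectField (ℤ ⧸ Ideal.span {(ℓ : ℤ)})
    haveI : PerfectRing (Zb ⧸ Q) ℓ := PerfectField.toPerfectRing ℓ
    exact (PerfectRing.bijective_frobenius (R := Zb ⧸ Q) (p := ℓ)).2
  let g : (Zb ⧸ Q) →ₐ[ℤ ⧸ Ideal.span {(ℓ : ℤ)}] (Zb ⧸ Q) :=
    { f with
      commutes' := by
        intro r
        obtain ⟨n, rfl⟩ := Ideal.Quotient.mk_surjective r
        rw [Ideal.Quotient.algebraMap_mk_of_liesOver]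
        show f _ = _
        rw [eq_intCast, map_intCast, map_intCast] }
  exact ⟨AlgEquiv.ofBijective g ⟨hinj, hsurj⟩, fun x => rfl⟩

theorem exists_valuationSubring (Q : Ideal Zb) (hQ : Q ≠ ⊤) :
    ∃ V : ValuationSubring Qb, ∀ q ∈ Q, ((q : Zb) : Qb) ∈ V.nonunits := by
  let Q' : Ideal (Zb).toSubring := Q
  have hQ' : Q' ≠ ⊤ := hQ
  obtain ⟨V, -, hV⟩ := Ideal.image_subset_nonunits_valuationSubring Q' hQ'
  refine ⟨V, fun q hq => hV ⟨q, hq, rfl⟩⟩

/-- **Existence of Frobenius elements**: for every prime `ℓ` there are a valuation subring `A`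
of `AlgebraicClosure ℚ` over `ℓ` and a Frobenius element `σ` at `A`. -/
theorem exists_isFrobeniusAt (ℓ : ℕ) (hℓ : ℓ.Prime) :
    ∃ A : ValuationSubring Qb, A.LiesOverPrime ℓ ∧ ∃ σ : Gal, A.IsFrobeniusAt σ ℓ := by
  obtain ⟨Q, hQmax, hQ⟩ := exists_maximal_over ℓ hℓ
  haveI := hQmax
  haveI hover : Q.LiesOver (Ideal.span {(ℓ : ℤ)}) := ⟨hQ.symm⟩
  obtain ⟨V, hV⟩ := exists_valuationSubring Q hQmax.ne_top
  have hℓQ : ((ℓ : ℕ) : Zb) ∈ Q := by
    have h1 : (ℓ : ℤ) ∈ Q.comap (algebraMap ℤ Zb) := by rw [hQ]; exact Ideal.subset_span rfl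
    have h2 : algebraMap ℤ Zb (ℓ : ℤ) ∈ Q := h1
    simpa using h2
  have hℓV : ((ℓ : ℕ) : Qb) ∈ V.nonunits := by
    have := hV _ hℓQ
    simpa using this
  refine ⟨V, hℓV, ?_⟩
  have hQV : ∀ r : Zb, (r : Qb) ∈ V.nonunits → r ∈ Q := by
    intro r hr
    by_contra hrQ
    obtain ⟨s, i, hi, hsi⟩ := hQmax.exists_inv hrQ
    have hsi' : (s : Qb) * (r : Qb) + (i : Qb) = 1 := by
      have := congrArg (fun z : Zb => (z : Qb)) hsi
      simpa using this
    have h1 : V.valuation ((s : Qb) * (r : Qb)) < 1 := by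
      rw [map_mul]
      calc V.valuation (s : Qb) * V.valuation (r : Qb) ≤ 1 * V.valuation (r : Qb) := by
            gcongr
            exact val_le_one_of_isIntegral_int V s.2
        _ = V.valuation (r : Qb) := one_mul _
        _ < 1 := V.mem_nonunits_iff.mp hr
    have h2 : V.valuation (i : Qb) < 1 := V.mem_nonunits_iff.mp (hV i hi)
    have h3 := V.valuation.map_add_lt h1 h2
    rw [hsi', map_one] at h3
    exact lt_irrefl _ h3
  letI : TopologicalSpace Zb := ⊥
  haveI : DiscreteTopology Zb := ⟨rfl⟩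
  haveI : ContinuousSMul Gal Zb := continuousSMul_Zb
  obtain ⟨e, he⟩ := exists_frobAlgEquiv hℓ Q
  obtain ⟨σ, hσ⟩ := Ideal.Quotient.stabilizerHom_surjective_of_profinite (G := Gal)
    (Ideal.span {(ℓ : ℤ)}) Q e
  have hfrob : ∀ b : Zb, (σ : Gal) • b - b ^ ℓ ∈ Q := by
    intro b
    have h1 := Ideal.Quotient.stabilizerHom_apply Q (Ideal.span {(ℓ : ℤ)}) Gal σ b
    rw [hσ, he, ← map_pow] at h1
    exact Ideal.Quotient.eq.mp h1.symm
  have hstab : ∀ τ : Gal, τ • Q = Q → ∀ r : Zb, r ∈ Q ↔ τ • r ∈ Q := by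
    intro τ hτ r
    conv_rhs => rw [← hτ]
    exact Ideal.smul_mem_pointwise_smul_iff.symm
  have hVstab : ∀ τ : Gal, τ • Q = Q → ∀ x : Qb, x ∈ V → τ x ∈ V := by
    intro τ hτ x hx
    obtain ⟨y, hy, hyv, hyx⟩ := exists_frac V hℓ hℓV isAlgebraic_int hx
    let y' : Zb := ⟨y, hy⟩
    let z' : Zb := ⟨y * x, hyx⟩
    have hy'Q : y' ∉ Q := fun h => by
      have h1 := V.mem_nonunits_iff.mp (hV y' h)
      have h2 : V.valuation ((y' : Zb) : Qb) = 1 := hyv
      rw [h2] at h1
      exact lt_irrefl _ h1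
    have hτy : τ • y' ∉ Q := fun h => hy'Q ((hstab τ hτ y').mpr h)
    have hτyv : V.valuation (τ y) = 1 := by
      have h1 : V.valuation (((τ • y' : Zb)) : Qb) ≤ 1 :=
        val_le_one_of_isIntegral_int V (τ • y').2
      have h2 : ¬ V.valuation (((τ • y' : Zb)) : Qb) < 1 :=
        fun h => hτy (hQV _ (V.mem_nonunits_iff.mpr h))
      exact le_antisymm h1 (not_lt.mp h2)
    have hτz : V.valuation (τ (y * x)) ≤ 1 := val_le_one_of_isIntegral_int V (τ • z').2
    rw [map_mul, map_mul, hτyv, one_mul] at hτz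
    exact (V.valuation_le_one_iff _).mp hτz
  have hσQ : (σ : Gal) • Q = Q := σ.2
  have hσinvQ : (σ : Gal)⁻¹ • Q = Q := by rw [inv_smul_eq_iff, hσQ]
  have hdec : (σ : Gal) ∈ V.decompositionSubgroup ℚ := by
    rw [MulAction.mem_stabilizer_iff]
    ext x
    rw [ValuationSubring.mem_pointwise_smul_iff_inv_smul_mem]
    constructor
    · intro h
      have := hVstab σ hσQ _ h
      simpa using this
    · intro h
      exact hVstab (σ : Gal)⁻¹ hσinvQ x h
  refine ⟨σ, hdec, ?_⟩
  intro xbar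
  obtain ⟨x, rfl⟩ := IsLocalRing.residue_surjective xbar
  rw [← IsLocalRing.ResidueField.residue_smul, ← map_pow, ← sub_eq_zero, ← map_sub,
    IsLocalRing.residue_eq_zero_iff, ← ValuationSubring.coe_mem_nonunits_iff, V.mem_nonunits_iff]
  obtain ⟨y, hy, hyv, hyx⟩ := exists_frac V hℓ hℓV isAlgebraic_int x.2
  let y' : Zb := ⟨y, hy⟩
  let z' : Zb := ⟨y * (x : Qb), hyx⟩
  have hq1 : V.valuation ((σ : Gal) (y * (x : Qb)) - (y * (x : Qb)) ^ ℓ) < 1 :=
    V.mem_nonunits_iff.mp (hV _ (hfrob z'))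
  have hq2 : V.valuation ((σ : Gal) y - y ^ ℓ) < 1 :=
    V.mem_nonunits_iff.mp (hV _ (hfrob y'))
  have hσx : V.valuation ((σ : Gal) (x : Qb)) ≤ 1 :=
    (V.valuation_le_one_iff _).mpr (hVstab σ hσQ _ x.2)
  have key : y ^ ℓ * ((σ : Gal) (x : Qb) - (x : Qb) ^ ℓ) =
      ((σ : Gal) (y * (x : Qb)) - (y * (x : Qb)) ^ ℓ) -
        ((σ : Gal) y - y ^ ℓ) * (σ : Gal) (x : Qb) := by
    rw [map_mul]; ring
  have h3 : V.valuation (((σ : Gal) y - y ^ ℓ) * (σ : Gal) (x : Qb)) < 1 := by
    rw [map_mul]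
    calc V.valuation ((σ : Gal) y - y ^ ℓ) * V.valuation ((σ : Gal) (x : Qb))
        ≤ V.valuation ((σ : Gal) y - y ^ ℓ) * 1 := by gcongr
      _ = V.valuation ((σ : Gal) y - y ^ ℓ) := mul_one _
      _ < 1 := hq2
  have h4 : V.valuation (y ^ ℓ * ((σ : Gal) (x : Qb) - (x : Qb) ^ ℓ)) < 1 := by
    rw [key]
    exact V.valuation.map_sub_lt hq1 h3
  rw [map_mul, map_pow, hyv, one_pow, one_mul] at h4
  exact h4

end

end Fermat.Agent.Lib.FrobAlt
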