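import Mathlib

/-!
# The degree of `x(φ g - g)` on `y² = x³ + a x + b` over a finite field

Let `F` be a finite field with `q` elements, `2 ≠ 0`, and `f = X³ + a X + b` with
`4 a³ + 27 b² ≠ 0`.  For the generic point `g = (x, y)` of `E : y² = f(x)` and the `q`-Frobenius
`φ`, the `x`-coordinate of `φ g - g` is the rational function `num / den` with

* `num = f * (f ^ (q / 2) + 1) ^ 2 - (X ^ q + X) * (X ^ q - X) ^ 2`,
* `den = (X ^ q - X) ^ 2`.

This file computes its reduced form: `num = G * P'`, `den = G * Q'` with `P'`, `Q'` coprime and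
monic, `natDegree P' = #E(F)` and `natDegree Q' = #E(F) - 1`, where `#E(F)` counts the affine
solutions plus the point at infinity.  Everything is pure polynomial algebra over `F`.
-/

namespace Fermat.Agent.Lib.FrobSubDegree

open Polynomial

section Count

variable (F : Type*) [Field F] [Fintype F] [DecidableEq F]

/-- The number of square roots of `v` in `F`. -/
def nsq (v : F) : ℕ := (Finset.univ.filter (fun y : F => y ^ 2 = v)).card

variable {F}

lemma nsq_cast (hF : ringChar F ≠ 2) (v : F) : ((nsq F v : ℕ) : ℤ) = quadraticChar F v + 1 := by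
  rw [← quadraticChar_card_sqrts hF v]
  unfold nsq
  congr 2
  ext y
  simp

lemma nsq_zero (hF : ringChar F ≠ 2) : nsq F (0 : F) = 1 := by
  have h := nsq_cast hF (0 : F)
  rw [quadraticChar_zero] at h
  exact_mod_cast h

lemma nsq_of_pow_eq_one (hF : ringChar F ≠ 2) {v : F} (hv : v ≠ 0)
    (h : v ^ (Fintype.card F / 2) = 1) : nsq F v = 2 := by
  have h1 := nsq_cast hF v
  rw [quadraticChar_eq_pow_of_char_ne_two hF hv, if_pos h] at h1
  exact_mod_cast h1

lemma nsq_of_pow_eq_neg_one (hF : ringChar F ≠ 2) {v : F} (hv : v ≠ 0)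
    (h : v ^ (Fintype.card F / 2) = -1) : nsq F v = 0 := by
  have h1 := nsq_cast hF v
  have hne : ¬ v ^ (Fintype.card F / 2) = 1 := by
    rw [h]
    intro h2
    have h3 : (2 : F) = 0 := by linear_combination -h2
    exact Ring.two_ne_zero hF h3
  rw [quadraticChar_eq_pow_of_char_ne_two hF hv, if_neg hne] at h1
  have : ((nsq F v : ℕ) : ℤ) = 0 := by rw [h1]; ring
  exact_mod_cast this

/-- The trichotomy for the number of square roots. -/
lemma nsq_cases (hF : ringChar F ≠ 2) (v : F) :
    (v = 0 ∧ nsq F v = 1) ∨ (v ≠ 0 ∧ v ^ (Fintype.card F / 2) = 1 ∧ nsq F v = 2) ∨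
      (v ≠ 0 ∧ v ^ (Fintype.card F / 2) = -1 ∧ nsq F v = 0) := by
  by_cases hv : v = 0
  · left; exact ⟨hv, hv ▸ nsq_zero hF⟩
  · rcases FiniteField.pow_dichotomy hF hv with h | h
    · right; left; exact ⟨hv, h, nsq_of_pow_eq_one hF hv h⟩
    · right; right; exact ⟨hv, h, nsq_of_pow_eq_neg_one hF hv h⟩

lemma nsq_le_two (hF : ringChar F ≠ 2) (v : F) : nsq F v ≤ 2 := by
  rcases nsq_cases hF v with ⟨-, h⟩ | ⟨-, -, h⟩ | ⟨-, -, h⟩ <;> omega

/-- The number of affine solutions of `y² = g x` is the sum of the numbers of square roots. -/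
lemma card_solutions (g : F → F) :
    Nat.card {p : F × F // p.2 ^ 2 = g p.1} = ∑ x : F, nsq F (g x) := by
  rw [Nat.card_eq_fintype_card, Fintype.card_subtype]
  unfold nsq
  simp only [Finset.card_filter]
  rw [Fintype.sum_prod_type]

end Count

section Poly

variable {F : Type*} [Field F] [Fintype F]

variable (a b : F)

/-- The cubic `X³ + a X + b`. -/
noncomputable def cubic : F[X] := X ^ 3 + C a * X + C b

/-- `f ^ (q / 2) + 1`. -/
noncomputable def U : F[X] := cubic a b ^ (Fintype.card F / 2) + 1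

variable (F) in
/-- `X ^ q - X`. -/
noncomputable def Wq : F[X] := X ^ Fintype.card F - X

variable (F) in
/-- `X ^ q + X`. -/
noncomputable def V : F[X] := X ^ Fintype.card F + X

/-- The numerator of `x(φ g - g)`. -/
noncomputable def num : F[X] := cubic a b * U a b ^ 2 - V F * Wq F ^ 2

variable (F) in
/-- The denominator of `x(φ g - g)`. -/
noncomputable def den : F[X] := Wq F ^ 2

omit [Fintype F] in
@[simp] lemma eval_cubic (c : F) : (cubic a b).eval c = c ^ 3 + a * c + b := by
  simp [cubic]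

@[simp] lemma eval_Wq (c : F) : (Wq F).eval c = 0 := by
  simp [Wq, FiniteField.pow_card]

@[simp] lemma eval_U (c : F) :
    (U a b).eval c = (c ^ 3 + a * c + b) ^ (Fintype.card F / 2) + 1 := by
  simp [U]

lemma eval_num (c : F) : (num a b).eval c =
    (c ^ 3 + a * c + b) * ((c ^ 3 + a * c + b) ^ (Fintype.card F / 2) + 1) ^ 2 := by
  simp [num]

lemma Wq_monic : (Wq F).Monic := by
  unfold Wq
  refine (monic_X_pow _).sub_of_left ?_
  rw [degree_X_pow, degree_X]
  exact_mod_cast Fintype.one_lt_card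

lemma Wq_eq_prod : Wq F = ∏ c : F, (X - C c) := by
  have hroots : (Wq F).roots = Finset.univ.val := FiniteField.roots_X_pow_card_sub_X F
  have hcard : Multiset.card (Wq F).roots = (Wq F).natDegree := by
    rw [hroots]
    unfold Wq
    rw [FiniteField.X_pow_card_sub_X_natDegree_eq F Fintype.one_lt_card]
    rfl
  have h := prod_multiset_X_sub_C_of_monic_of_roots_card_eq Wq_monic hcard
  rw [hroots] at h
  rw [← h]
  rfl

lemma odd_card (hF : ringChar F ≠ 2) : Fintype.card F = 2 * (Fintype.card F / 2) + 1 := by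
  have h := FiniteField.odd_card_of_char_ne_two hF
  have := Nat.two_mul_odd_div_two h
  omega

lemma half_card_pos (hF : ringChar F ≠ 2) : 0 < Fintype.card F / 2 := by
  have h1 := odd_card hF
  have h2 : 1 < Fintype.card F := Fintype.one_lt_card
  omega

lemma cubic_pow_card : cubic a b ^ Fintype.card F =
    X ^ (3 * Fintype.card F) + C a * X ^ Fintype.card F + C b := by
  rw [← FiniteField.expand_card]
  simp only [cubic, map_add, map_mul, map_pow, expand_X, expand_C]
  rw [← pow_mul, mul_comm]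

/-- The expansion of the numerator. -/
lemma num_eq (hF : ringChar F ≠ 2) : num a b = X ^ (2 * Fintype.card F + 1) +
    (X ^ (Fintype.card F + 2) + C a * X ^ Fintype.card F + C b
      + 2 * cubic a b ^ (Fintype.card F / 2 + 1) + cubic a b - X ^ 3) := by
  have hq := odd_card hF
  have h1 : cubic a b * U a b ^ 2 =
      cubic a b ^ Fintype.card F + 2 * cubic a b ^ (Fintype.card F / 2 + 1) + cubic a b := by
    have hm : cubic a b ^ Fintype.card F = cubic a b ^ (2 * (Fintype.card F / 2) + 1) := by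
      rw [← hq]
    rw [hm]
    unfold U
    ring
  have h2 : V F * Wq F ^ 2 = X ^ (3 * Fintype.card F) - X ^ (2 * Fintype.card F + 1)
      - X ^ (Fintype.card F + 2) + X ^ 3 := by
    unfold V Wq
    ring
  unfold num
  rw [h1, h2, cubic_pow_card]
  ring

omit [Fintype F] in
lemma natDegree_cubic_le : (cubic a b).natDegree ≤ 3 := by
  unfold cubic
  compute_degree

lemma natDegree_num (hF : ringChar F ≠ 2) : (num a b).natDegree = 2 * Fintype.card F + 1 := by
  have hq := odd_card hF
  have hpos := half_card_pos hF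
  rw [num_eq a b hF]
  have hlt : (X ^ (Fintype.card F + 2) + C a * X ^ Fintype.card F + C b
      + 2 * cubic a b ^ (Fintype.card F / 2 + 1) + cubic a b - X ^ 3 : F[X]).natDegree
        < 2 * Fintype.card F + 1 := by
    have hc := natDegree_cubic_le a b
    have hpow : (cubic a b ^ (Fintype.card F / 2 + 1)).natDegree
        ≤ 3 * (Fintype.card F / 2 + 1) := by
      refine natDegree_pow_le.trans ?_
      rw [mul_comm]
      exact Nat.mul_le_mul_right _ hc
    have h2pow : ((2 : F[X]) * cubic a b ^ (Fintype.card F / 2 + 1)).natDegree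
        ≤ 3 * (Fintype.card F / 2 + 1) := by
      have : (2 : F[X]) = C 2 := (map_ofNat C 2).symm
      rw [this]
      exact (natDegree_C_mul_le _ _).trans hpow
    have hX1 : (X ^ (Fintype.card F + 2) : F[X]).natDegree ≤ Fintype.card F + 2 :=
      natDegree_X_pow_le _
    have hX2 : (C a * X ^ Fintype.card F : F[X]).natDegree ≤ Fintype.card F :=
      (natDegree_C_mul_le _ _).trans (natDegree_X_pow_le _)
    have hX3 : (X ^ 3 : F[X]).natDegree ≤ 3 := natDegree_X_pow_le _
    have hC : (C b : F[X]).natDegree ≤ 0 := (natDegree_C b).le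
    have e1 := natDegree_sub_le (X ^ (Fintype.card F + 2) + C a * X ^ Fintype.card F + C b
      + 2 * cubic a b ^ (Fintype.card F / 2 + 1) + cubic a b : F[X]) (X ^ 3)
    have e2 := natDegree_add_le (X ^ (Fintype.card F + 2) + C a * X ^ Fintype.card F + C b
      + 2 * cubic a b ^ (Fintype.card F / 2 + 1) : F[X]) (cubic a b)
    have e3 := natDegree_add_le (X ^ (Fintype.card F + 2) + C a * X ^ Fintype.card F + C b : F[X])
      (2 * cubic a b ^ (Fintype.card F / 2 + 1))
    have e4 := natDegree_add_le (X ^ (Fintype.card F + 2) + C a * X ^ Fintype.card F : F[X]) (C b)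
    have e5 := natDegree_add_le (X ^ (Fintype.card F + 2) : F[X]) (C a * X ^ Fintype.card F)
    omega
  rw [natDegree_add_eq_left_of_natDegree_lt (by rw [natDegree_X_pow]; exact hlt), natDegree_X_pow]

lemma num_ne_zero (hF : ringChar F ≠ 2) : num a b ≠ 0 := by
  intro h
  have := natDegree_num a b hF
  rw [h, natDegree_zero] at this
  omega

lemma num_monic (hF : ringChar F ≠ 2) : (num a b).Monic := by
  have hq := odd_card hF
  have hpos := half_card_pos hF
  rw [num_eq a b hF]
  apply Monic.add_of_left (monic_X_pow _)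
  rw [degree_X_pow]
  have hd := natDegree_num a b hF
  rw [num_eq a b hF] at hd
  -- the remainder has smaller degree (repeat of the bound in `natDegree_num`)
  have hc := natDegree_cubic_le a b
  have hpow : (cubic a b ^ (Fintype.card F / 2 + 1)).natDegree
      ≤ 3 * (Fintype.card F / 2 + 1) := by
    refine natDegree_pow_le.trans ?_
    rw [mul_comm]
    exact Nat.mul_le_mul_right _ hc
  have h2pow : ((2 : F[X]) * cubic a b ^ (Fintype.card F / 2 + 1)).natDegree
      ≤ 3 * (Fintype.card F / 2 + 1) := by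
    have : (2 : F[X]) = C 2 := (map_ofNat C 2).symm
    rw [this]
    exact (natDegree_C_mul_le _ _).trans hpow
  have hX1 : (X ^ (Fintype.card F + 2) : F[X]).natDegree ≤ Fintype.card F + 2 :=
    natDegree_X_pow_le _
  have hX2 : (C a * X ^ Fintype.card F : F[X]).natDegree ≤ Fintype.card F :=
    (natDegree_C_mul_le _ _).trans (natDegree_X_pow_le _)
  have hX3 : (X ^ 3 : F[X]).natDegree ≤ 3 := natDegree_X_pow_le _
  have hC : (C b : F[X]).natDegree ≤ 0 := (natDegree_C b).le
  have e1 := natDegree_sub_le (X ^ (Fintype.card F + 2) + C a * X ^ Fintype.card F + C b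
    + 2 * cubic a b ^ (Fintype.card F / 2 + 1) + cubic a b : F[X]) (X ^ 3)
  have e2 := natDegree_add_le (X ^ (Fintype.card F + 2) + C a * X ^ Fintype.card F + C b
    + 2 * cubic a b ^ (Fintype.card F / 2 + 1) : F[X]) (cubic a b)
  have e3 := natDegree_add_le (X ^ (Fintype.card F + 2) + C a * X ^ Fintype.card F + C b : F[X])
    (2 * cubic a b ^ (Fintype.card F / 2 + 1))
  have e4 := natDegree_add_le (X ^ (Fintype.card F + 2) + C a * X ^ Fintype.card F : F[X]) (C b)
  have e5 := natDegree_add_le (X ^ (Fintype.card F + 2) : F[X]) (C a * X ^ Fintype.card F)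
  refine lt_of_le_of_lt degree_le_natDegree ?_
  exact_mod_cast (by omega : (X ^ (Fintype.card F + 2) + C a * X ^ Fintype.card F + C b
      + 2 * cubic a b ^ (Fintype.card F / 2 + 1) + cubic a b - X ^ 3 : F[X]).natDegree
        < 2 * Fintype.card F + 1)

/-! ### The derivative of the numerator at a root of the cubic -/

lemma eval_derivative_num (hF : ringChar F ≠ 2) (c : F) (hc : c ^ 3 + a * c + b = 0) :
    (derivative (num a b)).eval c = 3 * c ^ 2 + a := by
  have hU : (U a b).eval c = 1 := by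
    rw [eval_U, hc, zero_pow (half_card_pos hF).ne', zero_add]
  have hcub : (cubic a b).eval c = 0 := by rw [eval_cubic, hc]
  have hd : (derivative (cubic a b)).eval c = 3 * c ^ 2 + a := by
    simp [cubic]
    norm_num
  unfold num
  simp only [derivative_sub, derivative_mul, derivative_pow, eval_sub, eval_add, eval_mul,
    eval_pow, hU, hcub, hd, eval_Wq]
  simp

omit [Fintype F] in
/-- A double root kills the derivative. -/
lemma eval_derivative_eq_zero_of_sq_dvd {p : F[X]} {c : F} (h : (X - C c) ^ 2 ∣ p) :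
    (derivative p).eval c = 0 := by
  obtain ⟨r, rfl⟩ := h
  simp [derivative_mul, derivative_pow]

omit [Fintype F] in
/-- The discriminant condition excludes a common root of the cubic and its derivative. -/
lemma cubic_derivative_ne_zero (hΔ : 4 * a ^ 3 + 27 * b ^ 2 ≠ 0) (c : F)
    (hc : c ^ 3 + a * c + b = 0) : 3 * c ^ 2 + a ≠ 0 := by
  intro hu
  apply hΔ
  have ha : a = -3 * c ^ 2 := by linear_combination hu
  have hb : b = 2 * c ^ 3 := by linear_combination hc - c * hu
  rw [ha, hb]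
  ring

end Poly

section Reduce

variable {F : Type*} [Field F] [Fintype F] [DecidableEq F]

variable (a b : F)

/-- The number of `y` with `y² = c³ + a c + b`. -/
def ecount (c : F) : ℕ := nsq F (c ^ 3 + a * c + b)

/-- The common factor of numerator and denominator. -/
noncomputable def Gfac : F[X] := ∏ c : F, (X - C c) ^ (2 - ecount a b c)

/-- The reduced denominator. -/
noncomputable def Qred : F[X] := ∏ c : F, (X - C c) ^ ecount a b c

lemma ecount_le_two (hF : ringChar F ≠ 2) (c : F) : ecount a b c ≤ 2 := nsq_le_two hF _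

lemma Gfac_monic : (Gfac a b).Monic :=
  monic_prod_of_monic _ _ fun c _ => (monic_X_sub_C c).pow _

lemma Qred_monic : (Qred a b).Monic :=
  monic_prod_of_monic _ _ fun c _ => (monic_X_sub_C c).pow _

lemma natDegree_Gfac : (Gfac a b).natDegree = ∑ c : F, (2 - ecount a b c) := by
  unfold Gfac
  rw [natDegree_prod_of_monic _ _ fun c _ => (monic_X_sub_C c).pow _]
  refine Finset.sum_congr rfl fun c _ => ?_
  rw [natDegree_pow, natDegree_X_sub_C, mul_one]

lemma natDegree_Qred : (Qred a b).natDegree = ∑ c : F, ecount a b c := by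
  unfold Qred
  rw [natDegree_prod_of_monic _ _ fun c _ => (monic_X_sub_C c).pow _]
  refine Finset.sum_congr rfl fun c _ => ?_
  rw [natDegree_pow, natDegree_X_sub_C, mul_one]

lemma den_eq (hF : ringChar F ≠ 2) : den F = Gfac a b * Qred a b := by
  unfold den Gfac Qred
  rw [Wq_eq_prod, ← Finset.prod_pow, ← Finset.prod_mul_distrib]
  refine Finset.prod_congr rfl fun c _ => ?_
  rw [← pow_add]
  congr 1
  have := ecount_le_two a b hF c
  omega

omit [DecidableEq F] in
lemma X_sub_C_dvd_Wq (c : F) : (X - C c) ∣ Wq F := by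
  rw [dvd_iff_isRoot, IsRoot.def, eval_Wq]

lemma factor_dvd_num (hF : ringChar F ≠ 2) (c : F) :
    (X - C c) ^ (2 - ecount a b c) ∣ num a b := by
  rcases nsq_cases hF (c ^ 3 + a * c + b) with ⟨h0, he⟩ | ⟨-, -, he⟩ | ⟨-, hm, he⟩
  · have : ecount a b c = 1 := he
    rw [this, show 2 - 1 = 1 from rfl, pow_one, dvd_iff_isRoot, IsRoot.def, eval_num, h0, zero_mul]
  · have : ecount a b c = 2 := he
    rw [this, show 2 - 2 = 0 from rfl, pow_zero]
    exact one_dvd _
  · have : ecount a b c = 0 := he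
    rw [this, show 2 - 0 = 2 from rfl]
    have hU : (X - C c) ∣ U a b := by
      rw [dvd_iff_isRoot, IsRoot.def, eval_U, hm, neg_add_cancel]
    unfold num
    exact dvd_sub (Dvd.dvd.mul_left (pow_dvd_pow_of_dvd hU 2) _)
      (Dvd.dvd.mul_left (pow_dvd_pow_of_dvd (X_sub_C_dvd_Wq c) 2) _)

lemma Gfac_dvd_num (hF : ringChar F ≠ 2) : Gfac a b ∣ num a b := by
  unfold Gfac
  refine Fintype.prod_dvd_of_coprime ?_ fun c => factor_dvd_num a b hF c
  intro c d hcd
  exact (isCoprime_X_sub_C_of_isUnit_sub (sub_ne_zero_of_ne hcd).isUnit).pow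

/-- The reduced numerator. -/
noncomputable def Pred : F[X] := num a b /ₘ Gfac a b

lemma num_eq_mul (hF : ringChar F ≠ 2) : num a b = Gfac a b * Pred a b := by
  obtain ⟨r, hr⟩ := Gfac_dvd_num a b hF
  unfold Pred
  rw [hr, mul_divByMonic_cancel_left _ (Gfac_monic a b)]

lemma Pred_monic (hF : ringChar F ≠ 2) : (Pred a b).Monic := by
  have h := num_monic a b hF
  rw [num_eq_mul a b hF] at h
  exact (Gfac_monic a b).of_mul_monic_left h

lemma sum_ecount_add (hF : ringChar F ≠ 2) :
    ∑ c : F, (2 - ecount a b c) + ∑ c : F, ecount a b c = 2 * Fintype.card F := by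
  rw [← Finset.sum_add_distrib]
  have : ∀ c : F, 2 - ecount a b c + ecount a b c = 2 := fun c => by
    have := ecount_le_two a b hF c
    omega
  simp only [this, Finset.sum_const, Finset.card_univ, smul_eq_mul, mul_comm]

lemma natDegree_Pred (hF : ringChar F ≠ 2) :
    (Pred a b).natDegree = 1 + ∑ c : F, ecount a b c := by
  have h := natDegree_num a b hF
  rw [num_eq_mul a b hF, (Gfac_monic a b).natDegree_mul (Pred_monic a b hF), natDegree_Gfac] at h
  have h2 := sum_ecount_add a b hF
  omega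

lemma Pred_eval_ne_zero (hF : ringChar F ≠ 2) (hΔ : 4 * a ^ 3 + 27 * b ^ 2 ≠ 0) (c : F)
    (hc : ecount a b c ≠ 0) : (Pred a b).eval c ≠ 0 := by
  intro h0
  have hdvd : (X - C c) ∣ Pred a b := by rwa [dvd_iff_isRoot]
  rcases nsq_cases hF (c ^ 3 + a * c + b) with ⟨hz, he⟩ | ⟨hnz, hm, -⟩ | ⟨-, -, he⟩
  · -- simple root of the numerator
    have he' : ecount a b c = 1 := he
    have hG : (X - C c) ∣ Gfac a b := by
      have h1 : (X - C c) ^ (2 - ecount a b c) ∣ Gfac a b :=
        Finset.dvd_prod_of_mem (fun d : F => (X - C d) ^ (2 - ecount a b d)) (Finset.mem_univ c)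
      rwa [he', show 2 - 1 = 1 from rfl, pow_one] at h1
    have hsq : (X - C c) ^ 2 ∣ num a b := by
      rw [num_eq_mul a b hF, pow_two]
      exact mul_dvd_mul hG hdvd
    have h1 := eval_derivative_eq_zero_of_sq_dvd hsq
    rw [eval_derivative_num a b hF c hz] at h1
    exact cubic_derivative_ne_zero a b hΔ c hz h1
  · have h1 : (num a b).eval c = 0 := by
      rw [num_eq_mul a b hF, eval_mul, h0, mul_zero]
    rw [eval_num, hm] at h1
    have h2 : (2 : F) ≠ 0 := Ring.two_ne_zero hF
    rcases mul_eq_zero.1 h1 with h | h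
    · exact hnz h
    · have : (1 + 1 : F) = 0 := by simpa using h
      apply h2
      linear_combination this
  · exact hc he

lemma isCoprime_Pred_Qred (hF : ringChar F ≠ 2) (hΔ : 4 * a ^ 3 + 27 * b ^ 2 ≠ 0) :
    IsCoprime (Pred a b) (Qred a b) := by
  unfold Qred
  refine IsCoprime.prod_right fun c _ => ?_
  by_cases hc : ecount a b c = 0
  · rw [hc, pow_zero]
    exact isCoprime_one_right
  · refine IsCoprime.pow_right ?_
    refine ((irreducible_X_sub_C c).coprime_iff_not_dvd.2 ?_).symm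
    rw [dvd_iff_isRoot]
    exact Pred_eval_ne_zero a b hF hΔ c hc

lemma sum_ecount :
    ∑ c : F, ecount a b c = Nat.card {p : F × F // p.2 ^ 2 = p.1 ^ 3 + a * p.1 + b} :=
  (card_solutions fun x : F => x ^ 3 + a * x + b).symm

/-- **Reduced form of `x(φ g - g)`.**  `num = G * P'`, `den = G * Q'` with `P'`, `Q'` coprime and
monic, `natDegree P' = 1 + #{affine solutions}` and `natDegree Q' = #{affine solutions}`. -/
theorem exists_reduced (hF : ringChar F ≠ 2) (hΔ : 4 * a ^ 3 + 27 * b ^ 2 ≠ 0) :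
    ∃ G P' Q' : F[X], num a b = G * P' ∧ den F = G * Q' ∧ IsCoprime P' Q' ∧
      G.Monic ∧ P'.Monic ∧ Q'.Monic ∧
      P'.natDegree = 1 + Nat.card {p : F × F // p.2 ^ 2 = p.1 ^ 3 + a * p.1 + b} ∧
      Q'.natDegree = Nat.card {p : F × F // p.2 ^ 2 = p.1 ^ 3 + a * p.1 + b} :=
  ⟨Gfac a b, Pred a b, Qred a b, num_eq_mul a b hF, den_eq a b hF,
    isCoprime_Pred_Qred a b hF hΔ, Gfac_monic a b, Pred_monic a b hF, Qred_monic a b,
    by rw [natDegree_Pred a b hF, sum_ecount], by rw [natDegree_Qred, sum_ecount]⟩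

end Reduce

section Curve

variable {F : Type*} [Field F]

/-- The discriminant of a short Weierstrass curve. -/
lemma short_Δ (W : WeierstrassCurve F) (h1 : W.a₁ = 0) (h2 : W.a₂ = 0) (h3 : W.a₃ = 0) :
    W.Δ = -16 * (4 * W.a₄ ^ 3 + 27 * W.a₆ ^ 2) := by
  simp only [WeierstrassCurve.Δ, WeierstrassCurve.b₂, WeierstrassCurve.b₄, WeierstrassCurve.b₆,
    WeierstrassCurve.b₈, h1, h2, h3]
  ring

lemma disc_ne_zero_of_Δ (W : WeierstrassCurve F) (h1 : W.a₁ = 0) (h2 : W.a₂ = 0) (h3 : W.a₃ = 0)
    (hΔ : W.Δ ≠ 0) : 4 * W.a₄ ^ 3 + 27 * W.a₆ ^ 2 ≠ 0 := by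
  intro h
  apply hΔ
  rw [short_Δ W h1 h2 h3, h, mul_zero]

lemma two_ne_zero_of_Δ (W : WeierstrassCurve F) (h1 : W.a₁ = 0) (h2 : W.a₂ = 0) (h3 : W.a₃ = 0)
    (hΔ : W.Δ ≠ 0) : (2 : F) ≠ 0 := by
  intro h
  apply hΔ
  rw [short_Δ W h1 h2 h3]
  have : (-16 : F) = 2 * (-8) := by norm_num
  rw [this, h, zero_mul, zero_mul]

lemma ringChar_ne_two_of_Δ (W : WeierstrassCurve F) (h1 : W.a₁ = 0) (h2 : W.a₂ = 0)
    (h3 : W.a₃ = 0) (hΔ : W.Δ ≠ 0) : ringChar F ≠ 2 := by
  intro h
  apply two_ne_zero_of_Δ W h1 h2 h3 hΔ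
  have h2' : ((2 : ℕ) : F) = 0 := by
    rw [← h]
    exact CharP.cast_eq_zero F (ringChar F)
  exact_mod_cast h2'

lemma short_equation_iff (W : WeierstrassCurve F) (h1 : W.a₁ = 0) (h2 : W.a₂ = 0) (h3 : W.a₃ = 0)
    (x y : F) : W.toAffine.Equation x y ↔ y ^ 2 = x ^ 3 + W.a₄ * x + W.a₆ := by
  rw [WeierstrassCurve.Affine.equation_iff, h1, h2, h3]
  constructor <;> intro h <;> linear_combination h

lemma short_nonsingular_iff (W : WeierstrassCurve F) (h1 : W.a₁ = 0) (h2 : W.a₂ = 0)
    (h3 : W.a₃ = 0) (hΔ : W.Δ ≠ 0) (x y : F) :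
    W.toAffine.Nonsingular x y ↔ y ^ 2 = x ^ 3 + W.a₄ * x + W.a₆ := by
  rw [WeierstrassCurve.Affine.nonsingular_iff', short_equation_iff W h1 h2 h3, h1, h2, h3]
  refine ⟨fun h => h.1, fun h => ⟨h, ?_⟩⟩
  by_contra hcon
  rw [not_or, not_not, not_not] at hcon
  obtain ⟨hx, hy⟩ := hcon
  have h2ne := two_ne_zero_of_Δ W h1 h2 h3 hΔ
  have hy0 : y = 0 := by
    have : 2 * y = 0 := by linear_combination hy
    rcases mul_eq_zero.1 this with h' | h'
    · exact absurd h' h2ne
    · exact h'
  have hc : x ^ 3 + W.a₄ * x + W.a₆ = 0 := by rw [← h, hy0]; ring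
  have hu : 3 * x ^ 2 + W.a₄ = 0 := by linear_combination -hx
  exact cubic_derivative_ne_zero (F := F) W.a₄ W.a₆ (disc_ne_zero_of_Δ W h1 h2 h3 hΔ) x hc hu

/-- The points of a short Weierstrass curve with `Δ ≠ 0`: the origin and the affine solutions. -/
noncomputable def shortPointEquiv (W : WeierstrassCurve F) (h1 : W.a₁ = 0) (h2 : W.a₂ = 0)
    (h3 : W.a₃ = 0) (hΔ : W.Δ ≠ 0) :
    W.toAffine.Point ≃ Option {p : F × F // p.2 ^ 2 = p.1 ^ 3 + W.a₄ * p.1 + W.a₆} where
  toFun
    | .zero => none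
    | .some x y h => some ⟨(x, y), (short_nonsingular_iff W h1 h2 h3 hΔ x y).1 h⟩
  invFun
    | none => .zero
    | some p => .some p.1.1 p.1.2 ((short_nonsingular_iff W h1 h2 h3 hΔ p.1.1 p.1.2).2 p.2)
  left_inv := by
    rintro (_ | ⟨x, y, h⟩) <;> rfl
  right_inv := by
    rintro (_ | ⟨⟨x, y⟩, h⟩) <;> rfl

/-- The number of points of a short Weierstrass curve with `Δ ≠ 0` over a finite field. -/
theorem card_point [Finite F] (W : WeierstrassCurve F) (h1 : W.a₁ = 0) (h2 : W.a₂ = 0)
    (h3 : W.a₃ = 0) (hΔ : W.Δ ≠ 0) :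
    Nat.card W.toAffine.Point =
      1 + Nat.card {p : F × F // p.2 ^ 2 = p.1 ^ 3 + W.a₄ * p.1 + W.a₆} := by
  rw [Nat.card_congr (shortPointEquiv W h1 h2 h3 hΔ), Finite.card_option, add_comm]

end Curve

section Final

variable {F : Type*} [Field F] [Fintype F]

/-- **Reduced form of `x(φ g - g)`, curve form.**  For a short Weierstrass curve `W` with `Δ ≠ 0`
over the finite field `F`, the fraction `num / den` has a reduced form `P' / Q'` with
`max (natDegree P') (natDegree Q') = #W(F)`. -/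
theorem exists_reduced_curve (W : WeierstrassCurve F) (h1 : W.a₁ = 0) (h2 : W.a₂ = 0)
    (h3 : W.a₃ = 0) (hΔ : W.Δ ≠ 0) :
    ∃ G P' Q' : F[X], num W.a₄ W.a₆ = G * P' ∧ den F = G * Q' ∧ IsCoprime P' Q' ∧
      P'.natDegree = Nat.card W.toAffine.Point ∧ Q'.natDegree + 1 = Nat.card W.toAffine.Point ∧
      max P'.natDegree Q'.natDegree = Nat.card W.toAffine.Point := by
  classical
  have hF := ringChar_ne_two_of_Δ W h1 h2 h3 hΔ
  have hd := disc_ne_zero_of_Δ W h1 h2 h3 hΔ
  obtain ⟨G, P', Q', hn, hden, hco, -, -, -, hP, hQ⟩ := exists_reduced W.a₄ W.a₆ hF hd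
  have hc := card_point W h1 h2 h3 hΔ
  refine ⟨G, P', Q', hn, hden, hco, by rw [hP, hc], by rw [hQ, hc, add_comm], ?_⟩
  rw [hP, hQ, hc]
  exact max_eq_left (by omega)

variable (k : Type*) [Field k] [Algebra F k]

lemma eval_map_num (a b : F) (x : k) : ((num a b).map (algebraMap F k)).eval x =
    (x ^ 3 + algebraMap F k a * x + algebraMap F k b) *
        ((x ^ 3 + algebraMap F k a * x + algebraMap F k b) ^ (Fintype.card F / 2) + 1) ^ 2
      - (x ^ Fintype.card F + x) * (x ^ Fintype.card F - x) ^ 2 := by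
  simp [num, cubic, U, V, Wq]

lemma eval_map_den (x : k) : ((den F).map (algebraMap F k)).eval x =
    (x ^ Fintype.card F - x) ^ 2 := by
  simp [den, Wq]

/-- **Pointwise form over an extension field `k`** (the shape consumed by a generic
`x`-representation of `φ - 1`): there are coprime `N, D ∈ k[X]` with
`max (natDegree N) (natDegree D) = #W(F)` such that for every `x ∈ k` with `x ^ q ≠ x`,
`D x ≠ 0` and `N x = D x * (Nu x / Du x)`, where
`Nu x = f x * (f x ^ (q / 2) + 1) ^ 2 - (x ^ q + x) * (x ^ q - x) ^ 2`, `Du x = (x ^ q - x) ^ 2`,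
`f x = x ^ 3 + a₄ x + a₆`. -/
theorem exists_pointwise (W : WeierstrassCurve F) (h1 : W.a₁ = 0) (h2 : W.a₂ = 0)
    (h3 : W.a₃ = 0) (hΔ : W.Δ ≠ 0) :
    ∃ N D : k[X], IsCoprime N D ∧
      max N.natDegree D.natDegree = Nat.card W.toAffine.Point ∧
      ∀ x : k, x ^ Fintype.card F ≠ x → D.eval x ≠ 0 ∧
        N.eval x = D.eval x *
          (((x ^ 3 + algebraMap F k W.a₄ * x + algebraMap F k W.a₆) *
              ((x ^ 3 + algebraMap F k W.a₄ * x + algebraMap F k W.a₆) ^ (Fintype.card F / 2)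
                + 1) ^ 2
            - (x ^ Fintype.card F + x) * (x ^ Fintype.card F - x) ^ 2) /
            (x ^ Fintype.card F - x) ^ 2) := by
  obtain ⟨G, P', Q', hn, hden, hco, -, -, hmax⟩ := exists_reduced_curve W h1 h2 h3 hΔ
  refine ⟨P'.map (algebraMap F k), Q'.map (algebraMap F k), hco.map (mapRingHom (algebraMap F k)),
    ?_, ?_⟩
  · rw [natDegree_map, natDegree_map]
    exact hmax
  · intro x hx
    have hx' : (x ^ Fintype.card F - x) ^ 2 ≠ 0 := pow_ne_zero _ (sub_ne_zero.2 hx)
    have e1 := eval_map_num k W.a₄ W.a₆ x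
    have e2 := eval_map_den (F := F) k x
    rw [hn, Polynomial.map_mul, eval_mul] at e1
    rw [hden, Polynomial.map_mul, eval_mul] at e2
    have hG : (G.map (algebraMap F k)).eval x ≠ 0 := by
      intro h
      rw [h, zero_mul] at e2
      exact hx' e2.symm
    have hD : (Q'.map (algebraMap F k)).eval x ≠ 0 := by
      intro h
      rw [h, mul_zero] at e2
      exact hx' e2.symm
    refine ⟨hD, ?_⟩
    rw [← e1, ← e2]
    field_simp

end Final

end Fermat.Agent.Lib.FrobSubDegree
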