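import Mathlib

set_option autoImplicit false

namespace Fermat.Agent.Lib.Gamma0FG

open scoped MatrixGroups

theorem sl2Z_fg : Group.FG SL(2, ℤ) := by
  rw [Group.fg_iff]
  exact ⟨{ModularGroup.S, ModularGroup.T}, SpecialLinearGroup.SL2Z_generators,
    by simp⟩

/-- `Γ₀(N)` is finitely generated for `N ≠ 0` (Schreier's lemma). -/
theorem gamma0_fg (N : ℕ) [NeZero N] : Group.FG (CongruenceSubgroup.Gamma0 N) := by
  have h0 := sl2Z_fg
  exact Subgroup.fg_of_index_ne_zero _

/-- Explicit finite generating set of `Γ₀(N)` inside `SL(2, ℤ)`. -/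
theorem exists_finset_closure_eq_gamma0 (N : ℕ) [NeZero N] :
    ∃ s : Finset SL(2, ℤ), Subgroup.closure (s : Set SL(2, ℤ)) = CongruenceSubgroup.Gamma0 N := by
  have h := gamma0_fg N
  rw [Group.fg_iff_subgroup_fg] at h
  exact h

end Fermat.Agent.Lib.Gamma0FG
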