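import Mathlib
import Fermat.Prelude.Def_GaloisRep_Flat

set_option autoImplicit false

namespace Fermat.Agent.Lib.GaussInt

open Polynomial

variable (ℓ : ℕ) [Fact ℓ.Prime]

/-- An integer polynomial vanishes mod `ℓ` iff it is divisible by the constant `ℓ`. -/
theorem map_eq_zero_iff_C_dvd (Q : ℤ[X]) :
    Q.map (Int.castRingHom (ZMod ℓ)) = 0 ↔ C (ℓ : ℤ) ∣ Q := by
  rw [Polynomial.C_dvd_iff_dvd_coeff]
  constructor
  · intro h i
    have h1 := congrArg (fun p => p.coeff i) h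
    simp only [coeff_map, coeff_zero, eq_intCast] at h1
    exact (ZMod.intCast_zmod_eq_zero_iff_dvd _ _).mp h1
  · intro h
    ext i
    simp only [coeff_map, coeff_zero, eq_intCast]
    exact (ZMod.intCast_zmod_eq_zero_iff_dvd _ _).mpr (h i)

/-- A rational number with an `ℓ`-free integer multiple that is an integer is `ℓ`-integral. -/
theorem mem_ratLocalizedAt_of_mul {m a : ℤ} {q : ℚ} (hm : ¬ (ℓ : ℤ) ∣ m) (h : (m : ℚ) * q = a) :
    q ∈ GaloisRep.ratLocalizedAt ℓ := by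
  have hℓ : ℓ.Prime := Fact.out
  have hm0 : (m : ℚ) ≠ 0 := by
    intro h0
    apply hm
    have : m = 0 := by exact_mod_cast h0
    rw [this]
    exact dvd_zero _
  have hq : q = Rat.divInt a m := by
    rw [Rat.divInt_eq_div, eq_div_iff hm0, mul_comm]
    exact h
  show q.den.Coprime ℓ
  have hd : (q.den : ℤ) ∣ m := by
    rw [hq]
    exact Rat.den_dvd a m
  rw [Nat.coprime_comm, Nat.Prime.coprime_iff_not_dvd hℓ]
  intro hdvd
  apply hm
  exact dvd_trans (Int.natCast_dvd_natCast.mpr hdvd) hd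

theorem gauss_coeff_mem_aux (k : ℕ) : ∀ (f : ℚ[X]) (g P Q : ℤ[X]) (m : ℤ), ¬ (ℓ : ℤ) ∣ m →
    Q.map (Int.castRingHom (ZMod ℓ)) ≠ 0 →
    f * Q.map (Int.castRingHom ℚ) = P.map (Int.castRingHom ℚ) →
    C ((ℓ : ℚ) ^ k * (m : ℚ)) * f = g.map (Int.castRingHom ℚ) →
    ∀ i, f.coeff i ∈ GaloisRep.ratLocalizedAt ℓ := by
  induction k with
  | zero =>
    intro f g P Q m hm hQ hfQ hg i
    have h1 := congrArg (fun p => p.coeff i) hg
    simp only [pow_zero, one_mul, coeff_C_mul, coeff_map, eq_intCast] at h1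
    exact mem_ratLocalizedAt_of_mul ℓ hm h1
  | succ k ih =>
    intro f g P Q m hm hQ hfQ hg i
    have h1 : g * Q = C ((ℓ : ℤ) ^ (k + 1) * m) * P := by
      apply Polynomial.map_injective (Int.castRingHom ℚ) Int.cast_injective
      rw [Polynomial.map_mul, Polynomial.map_mul, ← hg, ← hfQ, Polynomial.map_C]
      simp only [eq_intCast, Int.cast_mul, Int.cast_pow, Int.cast_natCast]
      ring
    have h2 : g.map (Int.castRingHom (ZMod ℓ)) * Q.map (Int.castRingHom (ZMod ℓ)) = 0 := by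
      rw [← Polynomial.map_mul, h1, Polynomial.map_mul, Polynomial.map_C]
      simp [pow_succ]
    have h3 : g.map (Int.castRingHom (ZMod ℓ)) = 0 := (mul_eq_zero.mp h2).resolve_right hQ
    obtain ⟨g', rfl⟩ := (map_eq_zero_iff_C_dvd ℓ g).mp h3
    refine ih f g' P Q m hm hQ hfQ ?_ i
    have hℓ0 : (C (ℓ : ℚ) : ℚ[X]) ≠ 0 := by
      rw [Ne, C_eq_zero]
      exact_mod_cast (Fact.out : ℓ.Prime).ne_zero
    apply mul_left_cancel₀ hℓ0
    rw [← mul_assoc, ← C_mul]
    rw [Polynomial.map_mul, Polynomial.map_C, eq_intCast, Int.cast_natCast] at hg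
    rw [← hg]
    congr 2
    ring

/-- **Gauss content lemma at `ℓ`.** If `f ∈ ℚ[X]`, `P, Q ∈ ℤ[X]`, `Q ≢ 0 mod ℓ` and `f * Q = P`
then `f` has `ℓ`-integral coefficients. -/
theorem gauss_coeff_mem (f : ℚ[X]) (P Q : ℤ[X]) (hQ : Q.map (Int.castRingHom (ZMod ℓ)) ≠ 0)
    (h : f * Q.map (Int.castRingHom ℚ) = P.map (Int.castRingHom ℚ)) :
    ∀ i, f.coeff i ∈ GaloisRep.ratLocalizedAt ℓ := by
  have hℓ : ℓ.Prime := Fact.out
  obtain ⟨b, hbM, hb⟩ := IsLocalization.integerNormalization_spec (nonZeroDivisors ℤ) f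
  have hb0 : (b : ℤ) ≠ 0 := nonZeroDivisors.ne_zero hbM
  have hfin : FiniteMultiplicity (ℓ : ℤ) b := by
    rw [Int.finiteMultiplicity_iff]
    refine ⟨?_, hb0⟩
    rw [Int.natAbs_natCast]
    exact hℓ.one_lt.ne'
  obtain ⟨m, hm, hmd⟩ := hfin.exists_eq_pow_mul_and_not_dvd
  refine gauss_coeff_mem_aux ℓ (multiplicity (ℓ : ℤ) b) f
    (IsLocalization.integerNormalization (nonZeroDivisors ℤ) f) P Q m hmd hQ h ?_
  rw [show Int.castRingHom ℚ = algebraMap ℤ ℚ from rfl, hb]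
  conv_rhs => rw [hm]
  rw [zsmul_eq_mul]
  congr 1
  push_cast
  simp


section Ring

variable {F : Type*} [Field F] [Algebra ℚ F]

/-- The Gauss valuation ring `O_v` of `ℚ(t)` at `ℓ`, as a subring of `F`: quotients `P(t)/Q(t)` of
integer polynomials with `Q ≢ 0 mod ℓ`. -/
def gaussRing (t : F) : Subring F where
  carrier := {x | ∃ P Q : ℤ[X], Q.map (Int.castRingHom (ZMod ℓ)) ≠ 0 ∧
    x * Polynomial.aeval t Q = Polynomial.aeval t P}
  mul_mem' := by
    rintro x y ⟨P, Q, hQ, h⟩ ⟨P', Q', hQ', h'⟩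
    refine ⟨P * P', Q * Q', ?_, ?_⟩
    · rw [Polynomial.map_mul]
      exact mul_ne_zero hQ hQ'
    · rw [map_mul, map_mul, ← h, ← h']
      ring
  one_mem' := ⟨1, 1, by simp, by simp⟩
  add_mem' := by
    rintro x y ⟨P, Q, hQ, h⟩ ⟨P', Q', hQ', h'⟩
    refine ⟨P * Q' + P' * Q, Q * Q', ?_, ?_⟩
    · rw [Polynomial.map_mul]
      exact mul_ne_zero hQ hQ'
    · simp only [map_mul, map_add, ← h, ← h']
      ring
  zero_mem' := ⟨0, 1, by simp, by simp⟩
  neg_mem' := by
    rintro x ⟨P, Q, hQ, h⟩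
    exact ⟨-P, Q, hQ, by simp [← h]⟩

variable {ℓ}

omit [Algebra ℚ F] in
theorem mem_gaussRing_iff {t x : F} : x ∈ gaussRing ℓ t ↔
    ∃ P Q : ℤ[X], Q.map (Int.castRingHom (ZMod ℓ)) ≠ 0 ∧
      x * Polynomial.aeval t Q = Polynomial.aeval t P := Iff.rfl

theorem aeval_int_eq (t : F) (P : ℤ[X]) :
    Polynomial.aeval t P = Polynomial.aeval t (P.map (Int.castRingHom ℚ)) := by
  rw [show Int.castRingHom ℚ = algebraMap ℤ ℚ from rfl, Polynomial.aeval_map_algebraMap]

theorem aeval_int_ne_zero {t : F} (ht : Transcendental ℚ t) {P : ℤ[X]} (hP : P ≠ 0) :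
    Polynomial.aeval t P ≠ 0 := by
  rw [aeval_int_eq]
  intro h
  have h1 := (transcendental_iff.mp ht) _ h
  apply hP
  apply Polynomial.map_injective (Int.castRingHom ℚ) Int.cast_injective
  rw [h1, Polynomial.map_zero]

theorem ne_zero_of_map_ne_zero {Q : ℤ[X]} (hQ : Q.map (Int.castRingHom (ZMod ℓ)) ≠ 0) : Q ≠ 0 := by
  rintro rfl
  exact hQ (Polynomial.map_zero _)

/-- Elements of the Gauss ring are rational functions of `t`. -/
theorem gaussRing_le_adjoin {t : F} (ht : Transcendental ℚ t) {x : F} (hx : x ∈ gaussRing ℓ t) :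
    x ∈ IntermediateField.adjoin ℚ {t} := by
  obtain ⟨P, Q, hQ, h⟩ := hx
  have hQ0 : Polynomial.aeval t Q ≠ 0 := aeval_int_ne_zero ht (ne_zero_of_map_ne_zero hQ)
  rw [IntermediateField.mem_adjoin_simple_iff]
  refine ⟨P.map (Int.castRingHom ℚ), Q.map (Int.castRingHom ℚ), ?_⟩
  rw [← aeval_int_eq, ← aeval_int_eq, eq_div_iff hQ0, h]

omit [Algebra ℚ F] in
theorem t_mem_gaussRing (t : F) : t ∈ gaussRing ℓ t :=
  ⟨X, 1, by simp, by simp⟩

/-- Every nonzero integer polynomial is a power of `ℓ` times a polynomial that is nonzero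
mod `ℓ`. -/
theorem exists_pow_mul_of_ne_zero {P : ℤ[X]} (hP : P ≠ 0) :
    ∃ (a : ℕ) (P₀ : ℤ[X]), P₀.map (Int.castRingHom (ZMod ℓ)) ≠ 0 ∧ P = C ((ℓ : ℤ) ^ a) * P₀ := by
  have hℓ : ℓ.Prime := Fact.out
  have hirr : Irreducible (C (ℓ : ℤ) : ℤ[X]) := by
    apply Prime.irreducible
    rw [Polynomial.prime_C_iff]
    exact Nat.prime_iff_prime_int.mp hℓ
  obtain ⟨n, a, ha, h⟩ := WfDvdMonoid.max_power_factor hP hirr
  refine ⟨n, a, ?_, ?_⟩
  · intro h0
    exact ha ((map_eq_zero_iff_C_dvd ℓ a).mp h0)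
  · rw [h, C_pow]

/-- Rational functions of `t` are quotients of integer polynomials in `t`. -/
theorem exists_int_poly_of_mem_adjoin {t : F} {x : F} (hx : x ∈ IntermediateField.adjoin ℚ {t}) :
    ∃ P Q : ℤ[X], Polynomial.aeval t Q ≠ 0 ∧ x * Polynomial.aeval t Q = Polynomial.aeval t P := by
  have hchar : CharZero F := charZero_of_injective_algebraMap (algebraMap ℚ F).injective
  rw [IntermediateField.mem_adjoin_simple_iff] at hx
  obtain ⟨r, s, rfl⟩ := hx
  by_cases hs : Polynomial.aeval t s = 0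
  · exact ⟨0, 1, by simp, by simp [hs]⟩
  obtain ⟨b, hbM, hb⟩ := IsLocalization.integerNormalization_spec (nonZeroDivisors ℤ) r
  obtain ⟨c, hcM, hc⟩ := IsLocalization.integerNormalization_spec (nonZeroDivisors ℤ) s
  have hb0 : (b : F) ≠ 0 := by exact_mod_cast nonZeroDivisors.ne_zero hbM
  have hc0 : (c : F) ≠ 0 := by exact_mod_cast nonZeroDivisors.ne_zero hcM
  have hR : Polynomial.aeval t (IsLocalization.integerNormalization (nonZeroDivisors ℤ) r) =
      (b : F) * Polynomial.aeval t r := by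
    rw [aeval_int_eq, show Int.castRingHom ℚ = algebraMap ℤ ℚ from rfl, hb, zsmul_eq_mul, map_mul,
      map_intCast]
  have hS : Polynomial.aeval t (IsLocalization.integerNormalization (nonZeroDivisors ℤ) s) =
      (c : F) * Polynomial.aeval t s := by
    rw [aeval_int_eq, show Int.castRingHom ℚ = algebraMap ℤ ℚ from rfl, hc, zsmul_eq_mul, map_mul,
      map_intCast]
  refine ⟨C c * IsLocalization.integerNormalization (nonZeroDivisors ℤ) r,
    C b * IsLocalization.integerNormalization (nonZeroDivisors ℤ) s, ?_, ?_⟩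
  · rw [map_mul, hS, Polynomial.aeval_C, algebraMap_int_eq, eq_intCast]
    exact mul_ne_zero hb0 (mul_ne_zero hc0 hs)
  · rw [map_mul, map_mul, hS, hR, Polynomial.aeval_C, Polynomial.aeval_C, algebraMap_int_eq,
      eq_intCast, eq_intCast]
    field_simp

/-- The Gauss ring is a valuation ring of `ℚ(t)`. -/
theorem mem_gaussRing_or_inv {t : F} (ht : Transcendental ℚ t) {x : F}
    (hx : x ∈ IntermediateField.adjoin ℚ {t}) : x ∈ gaussRing ℓ t ∨ x⁻¹ ∈ gaussRing ℓ t := by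
  have hℓ : ℓ.Prime := Fact.out
  have hchar : CharZero F := charZero_of_injective_algebraMap (algebraMap ℚ F).injective
  have hℓF : (ℓ : F) ≠ 0 := by exact_mod_cast hℓ.ne_zero
  by_cases hx0 : x = 0
  · left
    rw [hx0]
    exact zero_mem _
  obtain ⟨P, Q, hQ0, h⟩ := exists_int_poly_of_mem_adjoin hx
  have hQ : Q ≠ 0 := by
    rintro rfl
    exact hQ0 (map_zero _)
  have hP : P ≠ 0 := by
    rintro rfl
    rw [map_zero] at h
    exact (mul_ne_zero hx0 hQ0) h
  obtain ⟨a, P₀, hP₀, rfl⟩ := exists_pow_mul_of_ne_zero (ℓ := ℓ) hP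
  obtain ⟨b, Q₀, hQ₀, rfl⟩ := exists_pow_mul_of_ne_zero (ℓ := ℓ) hQ
  have hP₀t : Polynomial.aeval t P₀ ≠ 0 := aeval_int_ne_zero ht (ne_zero_of_map_ne_zero hP₀)
  have hQ₀t : Polynomial.aeval t Q₀ ≠ 0 := aeval_int_ne_zero ht (ne_zero_of_map_ne_zero hQ₀)
  rw [map_mul, map_mul, Polynomial.aeval_C, Polynomial.aeval_C, algebraMap_int_eq, eq_intCast,
    eq_intCast, Int.cast_pow, Int.cast_pow, Int.cast_natCast] at h
  rcases le_total b a with hba | hab
  · left
    refine ⟨C ((ℓ : ℤ) ^ (a - b)) * P₀, Q₀, hQ₀, ?_⟩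
    rw [map_mul, Polynomial.aeval_C, algebraMap_int_eq, eq_intCast, Int.cast_pow, Int.cast_natCast]
    apply mul_left_cancel₀ (pow_ne_zero b hℓF)
    rw [← mul_assoc, ← mul_assoc, ← pow_add, Nat.add_sub_cancel' hba, ← h]
    ring
  · right
    refine ⟨C ((ℓ : ℤ) ^ (b - a)) * Q₀, P₀, hP₀, ?_⟩
    rw [map_mul, Polynomial.aeval_C, algebraMap_int_eq, eq_intCast, Int.cast_pow, Int.cast_natCast]
    rw [inv_mul_eq_iff_eq_mul₀ hx0]
    apply mul_left_cancel₀ (pow_ne_zero a hℓF)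
    have hpow : (ℓ : F) ^ b = (ℓ : F) ^ a * (ℓ : F) ^ (b - a) := by
      rw [← pow_add, Nat.add_sub_cancel' hab]
    rw [← h, hpow]
    ring

end Ring

section Main

open IntermediateField IntermediateField.algebraAdjoinAdjoin

variable {F : Type*} [Field F] [Algebra ℚ F]

/-- The Gauss valuation subring of `ℚ(t)`. -/
def gaussVal (t : F) (ht : Transcendental ℚ t) : ValuationSubring ℚ⟮t⟯ :=
  { (gaussRing ℓ t).comap (algebraMap ℚ⟮t⟯ F) with
    mem_or_inv_mem' := fun x => by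
      rcases mem_gaussRing_or_inv (ℓ := ℓ) ht x.2 with h | h
      · left
        exact h
      · right
        show algebraMap ℚ⟮t⟯ F x⁻¹ ∈ gaussRing ℓ t
        rw [map_inv₀]
        exact h }

variable {ℓ}

/-- `O_v ∩ ℚ[t] = ℤ_(ℓ)[t]`. -/
theorem mem_adjoin_of_mem_gaussRing [Algebra ↥(GaloisRep.ratLocalizedAt ℓ) F]
    [IsScalarTower ↥(GaloisRep.ratLocalizedAt ℓ) ℚ F] {t : F} (ht : Transcendental ℚ t) {c : F}
    (hc : c ∈ gaussRing ℓ t) (hc' : c ∈ Algebra.adjoin ℚ {t}) :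
    c ∈ Algebra.adjoin ↥(GaloisRep.ratLocalizedAt ℓ) {t} := by
  rw [Algebra.adjoin_singleton_eq_range_aeval] at hc' ⊢
  obtain ⟨f, rfl⟩ := hc'
  obtain ⟨P, Q, hQ, h⟩ := hc
  rw [aeval_int_eq t Q, aeval_int_eq t P] at h
  have h1 : f * Q.map (Int.castRingHom ℚ) = P.map (Int.castRingHom ℚ) := by
    have h0 := (transcendental_iff.mp ht)
      (f * Q.map (Int.castRingHom ℚ) - P.map (Int.castRingHom ℚ)) (by
        rw [map_sub, map_mul]
        exact sub_eq_zero.mpr h)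
    exact sub_eq_zero.mp h0
  have h2 := gauss_coeff_mem ℓ f P Q hQ h1
  have h3 : f ∈ Polynomial.lifts (algebraMap ↥(GaloisRep.ratLocalizedAt ℓ) ℚ) := by
    rw [Polynomial.lifts_iff_coeff_lifts]
    intro n
    exact ⟨⟨f.coeff n, h2 n⟩, rfl⟩
  obtain ⟨g, rfl⟩ := (Polynomial.mem_lifts _).mp h3
  exact ⟨g, (Polynomial.aeval_map_algebraMap ℚ t g).symm⟩

omit [Fact ℓ.Prime] in
theorem isPrincipalIdealRing_adjoin_singleton (t : F) :
    IsPrincipalIdealRing (Algebra.adjoin ℚ {t}) := by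
  let φ : ℚ[X] →ₐ[ℚ] Algebra.adjoin ℚ {t} :=
    (Polynomial.aeval t).codRestrict (Algebra.adjoin ℚ {t}) (fun p => by
      rw [Algebra.adjoin_singleton_eq_range_aeval]
      exact ⟨p, rfl⟩)
  have hφ : Function.Surjective φ := by
    rintro ⟨y, hy⟩
    have hy' : y ∈ (Polynomial.aeval t : ℚ[X] →ₐ[ℚ] F).range := by
      rw [← Algebra.adjoin_singleton_eq_range_aeval]
      exact hy
    obtain ⟨p, rfl⟩ := hy'
    exact ⟨p, rfl⟩
  exact IsPrincipalIdealRing.of_surjective φ.toRingHom hφ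

/-- The chart `S = {t}`: an element integral over the Gauss ring and over `ℚ[t]` is integral over
`ℤ_(ℓ)[t]`. -/
theorem isIntegral_adjoin_singleton [Algebra ↥(GaloisRep.ratLocalizedAt ℓ) F]
    [IsScalarTower ↥(GaloisRep.ratLocalizedAt ℓ) ℚ F] {t : F} (ht : Transcendental ℚ t)
    {z : F} (hz : IsIntegral (gaussRing ℓ t) z) (hz' : IsIntegral (Algebra.adjoin ℚ {t}) z) :
    IsIntegral (Algebra.adjoin ↥(GaloisRep.ratLocalizedAt ℓ) {t}) z := by
  classical
  let A : ValuationSubring ℚ⟮t⟯ := gaussVal ℓ t ht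
  let algA : Algebra A F := ((algebraMap ℚ⟮t⟯ F).comp A.subtype).toAlgebra
  have : IsScalarTower A ℚ⟮t⟯ F := IsScalarTower.of_algebraMap_eq (fun _ => rfl)
  have hpid : IsPrincipalIdealRing (Algebra.adjoin ℚ {t}) := isPrincipalIdealRing_adjoin_singleton t
  have hzA : IsIntegral A z := by
    let φ : gaussRing ℓ t →+* A :=
      { toFun := fun x => ⟨⟨x.1, gaussRing_le_adjoin ht x.2⟩, x.2⟩
        map_one' := rfl
        map_mul' := fun _ _ => rfl
        map_zero' := rfl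
        map_add' := fun _ _ => rfl }
    exact hz.map_of_comp_eq φ (RingHom.id F) (by ext; rfl)
  have hA := minpoly.isIntegrallyClosed_eq_field_fractions' ℚ⟮t⟯ hzA
  have hB := minpoly.isIntegrallyClosed_eq_field_fractions' ℚ⟮t⟯ hz'
  have hcoeff : ∀ i, algebraMap ℚ⟮t⟯ F ((minpoly ℚ⟮t⟯ z).coeff i) ∈
      Algebra.adjoin ↥(GaloisRep.ratLocalizedAt ℓ) {t} := by
    intro i
    apply mem_adjoin_of_mem_gaussRing ht
    · rw [hA, coeff_map]
      exact ((minpoly A z).coeff i).2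
    · rw [hB, coeff_map]
      exact ((minpoly (Algebra.adjoin ℚ {t}) z).coeff i).2
  have hzK : IsIntegral ℚ⟮t⟯ z := hz'.tower_top
  have hlift : (minpoly ℚ⟮t⟯ z).map (algebraMap ℚ⟮t⟯ F) ∈
      Polynomial.lifts (algebraMap (Algebra.adjoin ↥(GaloisRep.ratLocalizedAt ℓ) {t}) F) := by
    rw [Polynomial.lifts_iff_coeff_lifts]
    intro n
    rw [coeff_map]
    exact ⟨⟨_, hcoeff n⟩, rfl⟩
  obtain ⟨q, hq, -, hqm⟩ :=
    Polynomial.lifts_and_natDegree_eq_and_monic hlift ((minpoly.monic hzK).map _)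
  refine ⟨q, hqm, ?_⟩
  rw [← Polynomial.eval_map, hq, Polynomial.eval_map, ← Polynomial.aeval_def, minpoly.aeval]

omit [Algebra ℚ F] in
/-- The Gauss ring of `t` is contained in the Gauss ring of `t⁻¹`. -/
theorem gaussRing_le_gaussRing_inv {t : F} (ht0 : t ≠ 0) : gaussRing ℓ t ≤ gaussRing ℓ t⁻¹ := by
  rintro x ⟨P, Q, hQ, h⟩
  let _ : Invertible t := invertibleOfNonzero ht0
  have hP := Polynomial.eval₂_reflect_mul_pow (algebraMap ℤ F) t (max P.natDegree Q.natDegree) P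
    (le_max_left _ _)
  have hQ' := Polynomial.eval₂_reflect_mul_pow (algebraMap ℤ F) t (max P.natDegree Q.natDegree) Q
    (le_max_right _ _)
  rw [invOf_eq_inv] at hP hQ'
  refine ⟨P.reflect (max P.natDegree Q.natDegree), Q.reflect (max P.natDegree Q.natDegree), ?_, ?_⟩
  · rw [← Polynomial.reflect_map, Ne, Polynomial.reflect_eq_zero_iff]
    exact hQ
  · apply mul_right_cancel₀ (pow_ne_zero (max P.natDegree Q.natDegree) ht0)
    rw [mul_assoc, Polynomial.aeval_def, Polynomial.aeval_def, hQ', hP, ← Polynomial.aeval_def,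
      ← Polynomial.aeval_def, h]

omit [Fact ℓ.Prime] [Algebra ℚ F] in
theorem exists_pow_mul_mem_adjoin_pair {R : Type*} [CommRing R] [Algebra R F] {s : F}
    (hs0 : s ≠ 0) {x : F} (hx : x ∈ Algebra.adjoin R {s, s⁻¹}) :
    ∃ n : ℕ, s ^ n * x ∈ Algebra.adjoin R {s} := by
  have hsA : s ∈ Algebra.adjoin R {s} := Algebra.self_mem_adjoin_singleton R s
  induction hx using Algebra.adjoin_induction with
  | mem y hy =>
    rcases hy with rfl | hy
    · exact ⟨0, by rw [pow_zero, one_mul]; exact hsA⟩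
    · rw [Set.mem_singleton_iff] at hy
      subst hy
      exact ⟨1, by rw [pow_one, mul_inv_cancel₀ hs0]; exact one_mem _⟩
  | algebraMap a => exact ⟨0, by rw [pow_zero, one_mul]; exact Subalgebra.algebraMap_mem _ a⟩
  | add y z _ _ hy hz =>
    obtain ⟨m, hm⟩ := hy
    obtain ⟨n, hn⟩ := hz
    refine ⟨m + n, ?_⟩
    have : s ^ (m + n) * (y + z) = s ^ n * (s ^ m * y) + s ^ m * (s ^ n * z) := by ring
    rw [this]
    exact add_mem (mul_mem (pow_mem hsA n) hm) (mul_mem (pow_mem hsA m) hn)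
  | mul y z _ _ hy hz =>
    obtain ⟨m, hm⟩ := hy
    obtain ⟨n, hn⟩ := hz
    refine ⟨m + n, ?_⟩
    have : s ^ (m + n) * (y * z) = (s ^ m * y) * (s ^ n * z) := by ring
    rw [this]
    exact mul_mem hm hn

omit [Fact ℓ.Prime] [Algebra ℚ F] in
/-- If `x` is integral over `R[s, s⁻¹]` then `s ^ n * x` is integral over `R[s]` for some `n`. -/
theorem exists_pow_mul_isIntegral {R : Type*} [CommRing R] [Algebra R F] {s : F}
    (hs0 : s ≠ 0) {x : F} (hx : IsIntegral (Algebra.adjoin R {s, s⁻¹}) x) :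
    ∃ n : ℕ, IsIntegral (Algebra.adjoin R {s}) (s ^ n * x) := by
  classical
  obtain ⟨p, hmonic, hroot⟩ := hx
  have hcoeff : ∀ i, ∃ n : ℕ, s ^ n * (p.coeff i : F) ∈ Algebra.adjoin R {s} :=
    fun i => exists_pow_mul_mem_adjoin_pair hs0 (p.coeff i).2
  choose n hn using hcoeff
  set M : ℕ := ∑ i ∈ Finset.range (p.natDegree + 1), n i with hM
  have hnM : ∀ i ≤ p.natDegree, n i ≤ M := fun i hi =>
    Finset.single_le_sum (f := n) (fun _ _ => Nat.zero_le _)
      (Finset.mem_range.mpr (Nat.lt_succ_of_le hi))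
  set q : F[X] := (p.map (algebraMap (Algebra.adjoin R {s, s⁻¹}) F)).scaleRoots (s ^ M)
    with hq
  have hqmonic : q.Monic := (Polynomial.monic_scaleRoots_iff _).mpr (hmonic.map _)
  have hqroot : q.eval (s ^ M * x) = 0 := by
    rw [hq, Polynomial.scaleRoots_eval_mul, Polynomial.eval_map, hroot, mul_zero]
  have hqcoeff : ∀ i, q.coeff i ∈ Algebra.adjoin R {s} := by
    intro i
    rw [hq, Polynomial.coeff_scaleRoots, Polynomial.coeff_map, hmonic.natDegree_map]
    by_cases hi : i < p.natDegree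
    · have hle : n i ≤ M * (p.natDegree - i) := by
        calc n i ≤ M := hnM i hi.le
          _ = M * 1 := (mul_one M).symm
          _ ≤ M * (p.natDegree - i) := Nat.mul_le_mul_left M (Nat.one_le_iff_ne_zero.mpr (by omega))
      obtain ⟨k, hk⟩ := Nat.exists_eq_add_of_le hle
      have : (s ^ M) ^ (p.natDegree - i) = s ^ k * s ^ n i := by
        rw [← pow_mul, hk, pow_add, mul_comm]
      rw [this, Subalgebra.algebraMap_def, Algebra.algebraMap_self_apply,
        show (p.coeff i : F) * (s ^ k * s ^ n i) = s ^ k * (s ^ n i * (p.coeff i : F)) by ring]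
      exact mul_mem (pow_mem (Algebra.self_mem_adjoin_singleton R s) k) (hn i)
    · rcases (not_lt.mp hi).lt_or_eq with hlt | heq
      · rw [Polynomial.coeff_eq_zero_of_natDegree_lt hlt, map_zero, zero_mul]
        exact zero_mem _
      · rw [← heq, hmonic.coeff_natDegree, map_one, one_mul, Nat.sub_self, pow_zero]
        exact one_mem _
  have hlifts : q ∈ Polynomial.lifts (algebraMap (Algebra.adjoin R {s}) F) :=
    (Polynomial.lifts_iff_coeff_lifts q).mpr fun i => ⟨⟨q.coeff i, hqcoeff i⟩, rfl⟩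
  obtain ⟨q', hq'q, -, hq'monic⟩ := Polynomial.lifts_and_natDegree_eq_and_monic hlifts hqmonic
  refine ⟨M, ⟨q', hq'monic, ?_⟩⟩
  rw [Polynomial.eval₂_eq_eval_map, hq'q, hqroot]

omit [Fact ℓ.Prime] [Algebra ℚ F] in
/-- Integrality over a subring passes to a larger subring. -/
theorem isIntegral_of_subring_le {O G : Subring F} (hO : O ≤ G) {z : F} (hz : IsIntegral O z) :
    IsIntegral G z :=
  hz.map_of_comp_eq (Subring.inclusion hO) (RingHom.id F) (by ext; rfl)

omit [Fact ℓ.Prime] [Algebra ℚ F] in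
/-- Integrality over an adjoin passes to a larger generating set. -/
theorem isIntegral_adjoin_mono {R : Type*} [CommRing R] [Algebra R F] {S S' : Set F}
    (h : S ⊆ S') {z : F} (hz : IsIntegral (Algebra.adjoin R S) z) :
    IsIntegral (Algebra.adjoin R S') z :=
  hz.map_of_comp_eq (Subalgebra.inclusion (Algebra.adjoin_mono h)).toRingHom (RingHom.id F)
    (by ext; rfl)

omit [Fact ℓ.Prime] [Algebra ℚ F] in
/-- A root of a monic polynomial with coefficients in a subalgebra is integral over it. -/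
theorem isIntegral_of_coeff_mem {R : Type*} [CommRing R] [Algebra R F] (B : Subalgebra R F)
    {q : F[X]} (hq : q.Monic) (hcoeff : ∀ i, q.coeff i ∈ B) {z : F} (hz : q.eval z = 0) :
    IsIntegral B z := by
  have hlifts : q ∈ Polynomial.lifts (algebraMap B F) :=
    (Polynomial.lifts_iff_coeff_lifts q).mpr fun i => ⟨⟨q.coeff i, hcoeff i⟩, rfl⟩
  obtain ⟨q', hq'q, -, hq'monic⟩ := Polynomial.lifts_and_natDegree_eq_and_monic hlifts hq
  exact ⟨q', hq'monic, by rw [Polynomial.eval₂_eq_eval_map, hq'q, hz]⟩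

/-- If `ℓ z` is integral over `ℤ_(ℓ)[S]` then `z` is integral over `ℚ[S]`. -/
theorem isIntegral_adjoin_rat [Algebra ↥(GaloisRep.ratLocalizedAt ℓ) F]
    [IsScalarTower ↥(GaloisRep.ratLocalizedAt ℓ) ℚ F] (S : Set F) {z : F}
    (hℓz : IsIntegral (Algebra.adjoin ↥(GaloisRep.ratLocalizedAt ℓ) S) ((ℓ : F) * z)) :
    IsIntegral (Algebra.adjoin ℚ S) z := by
  have hℓ : ℓ.Prime := Fact.out
  have hchar : CharZero F := charZero_of_injective_algebraMap (algebraMap ℚ F).injective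
  have hℓF : (ℓ : F) ≠ 0 := by exact_mod_cast hℓ.ne_zero
  have hle : Algebra.adjoin ↥(GaloisRep.ratLocalizedAt ℓ) S ≤
      (Algebra.adjoin ℚ S).restrictScalars ↥(GaloisRep.ratLocalizedAt ℓ) :=
    Algebra.adjoin_le (fun x hx => Algebra.subset_adjoin (R := ℚ) hx)
  obtain ⟨p, hp, hroot⟩ := hℓz
  have h1 : IsIntegral (Algebra.adjoin ℚ S) ((ℓ : F) * z) := by
    refine isIntegral_of_coeff_mem (Algebra.adjoin ℚ S)
      (q := p.map (algebraMap (Algebra.adjoin ↥(GaloisRep.ratLocalizedAt ℓ) S) F)) (hp.map _)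
      (fun i => ?_) ?_
    · rw [Polynomial.coeff_map]
      exact hle (p.coeff i).2
    · rw [Polynomial.eval_map]
      exact hroot
  have hinv : ((ℓ : F))⁻¹ ∈ Algebra.adjoin ℚ S := by
    have h0 := Subalgebra.algebraMap_mem (Algebra.adjoin ℚ S) ((ℓ : ℚ)⁻¹)
    rwa [map_inv₀, map_natCast] at h0
  have h2 : IsIntegral (Algebra.adjoin ℚ S) ((ℓ : F))⁻¹ :=
    isIntegral_algebraMap (x := (⟨_, hinv⟩ : Algebra.adjoin ℚ S))
  have h3 := h2.mul h1
  rwa [← mul_assoc, inv_mul_cancel₀ hℓF, one_mul] at h3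

end Main

/-- **The integrality step of the chart reduction.** Let `t` be transcendental over `ℚ`, `S` one of
`{t}`, `{t⁻¹}`, `{t, t⁻¹}`, and `z` integral over (a subring of) the Gauss valuation ring `O_v` of
`ℚ(t)` at `ℓ`. If `ℓ z` is integral over `ℤ_(ℓ)[S]`, so is `z`. -/
theorem isIntegral_adjoin_of_gauss {F : Type*} [Field F] [Algebra ℚ F]
    [Algebra ↥(GaloisRep.ratLocalizedAt ℓ) F] [IsScalarTower ↥(GaloisRep.ratLocalizedAt ℓ) ℚ F]
    {t : F} (ht : Transcendental ℚ t) (S : Set F) (hS : S = {t} ∨ S = {t⁻¹} ∨ S = {t, t⁻¹})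
    (O : Subring F) (hO : O ≤ gaussRing ℓ t) {z : F} (hz : IsIntegral O z)
    (hℓz : IsIntegral (Algebra.adjoin ↥(GaloisRep.ratLocalizedAt ℓ) S) ((ℓ : F) * z)) :
    IsIntegral (Algebra.adjoin ↥(GaloisRep.ratLocalizedAt ℓ) S) z := by
  have ht0 : t ≠ 0 := by
    rintro rfl
    exact ht (isAlgebraic_zero)
  have hzG : IsIntegral (gaussRing ℓ t) z := isIntegral_of_subring_le hO hz
  have hzQ : IsIntegral (Algebra.adjoin ℚ S) z := isIntegral_adjoin_rat S hℓz
  rcases hS with rfl | rfl | rfl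
  · exact isIntegral_adjoin_singleton ht hzG hzQ
  · have ht' : Transcendental ℚ t⁻¹ := fun h => ht (IsAlgebraic.inv_iff.mp h)
    exact isIntegral_adjoin_singleton ht'
      (isIntegral_of_subring_le (gaussRing_le_gaussRing_inv ht0) hzG) hzQ
  · obtain ⟨n, hn⟩ := exists_pow_mul_isIntegral ht0 hzQ
    have htG : IsIntegral (gaussRing ℓ t) (t ^ n) :=
      (isIntegral_algebraMap (x := (⟨t, t_mem_gaussRing t⟩ : gaussRing ℓ t))).pow n
    have hw : IsIntegral (Algebra.adjoin ↥(GaloisRep.ratLocalizedAt ℓ) {t}) (t ^ n * z) :=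
      isIntegral_adjoin_singleton ht (htG.mul hzG) hn
    have hw' : IsIntegral (Algebra.adjoin ↥(GaloisRep.ratLocalizedAt ℓ) {t, t⁻¹}) (t ^ n * z) :=
      isIntegral_adjoin_mono (Set.singleton_subset_iff.mpr (Set.mem_insert _ _)) hw
    have hinv : IsIntegral (Algebra.adjoin ↥(GaloisRep.ratLocalizedAt ℓ) {t, t⁻¹}) (t⁻¹ ^ n) :=
      (isIntegral_algebraMap (x := (⟨t⁻¹, Algebra.subset_adjoin (Set.mem_insert_of_mem _ rfl)⟩ :
        Algebra.adjoin ↥(GaloisRep.ratLocalizedAt ℓ) {t, t⁻¹}))).pow n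
    have h5 := hinv.mul hw'
    have h6 : t⁻¹ ^ n * (t ^ n * z) = z := by
      rw [← mul_assoc, ← mul_pow, inv_mul_cancel₀ ht0, one_pow, one_mul]
    rwa [h6] at h5

end Fermat.Agent.Lib.GaussInt
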