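import Mathlib
import Fermat.Prelude.Def_ModularCurve_GenusNumerics
import Fermat.Agent.Lib.Gamma0Count

set_option autoImplicit false

/-!
# Final arithmetic of the graded-module proof of `dim S₂(Γ₀(N)) = g(X₀(N))`

The weights `k i` of a homogeneous basis of `M(Γ₀(N))` over `M(SL₂(ℤ))` lie in
`{0, 2, 4, 6, 8, 10}`; the class counts modulo `4` and `6`, the weight sum and `n₀ = 1`
determine `n₁₀ = #{i | k i = 10} = dim S₂`.
-/

namespace Fermat.Agent.Lib.GenusArith

open Matrix MatrixGroups CongruenceSubgroup ModularGroup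

/-- `Nat.card` of a subtype of `Fin n` as a sum of indicators. -/
theorem natCard_subtype_eq_sum {n : ℕ} (P : Fin n → Prop) [DecidablePred P] :
    (Nat.card {i // P i} : ℤ) = ∑ i, if P i then (1 : ℤ) else 0 := by
  rw [Nat.card_eq_fintype_card, Fintype.card_subtype, Finset.card_filter]
  push_cast
  rfl

/-- The pointwise identity on `{0, 2, 4, 6, 8, 10}`. -/
theorem pointwise {k : ℤ} (heven : Even k) (h0 : 0 ≤ k) (h10 : k ≤ 10) :
    k = 6 * (if (4 : ℤ) ∣ k then 1 else 0) + 6 * (if (6 : ℤ) ∣ k then 1 else 0)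
      + 12 * (if k = 10 then 1 else 0) - 12 * (if k = 0 then 1 else 0)
      + 2 * ((if k % 6 = 2 then 1 else 0) - (if k % 6 = 4 then 1 else 0)) := by
  obtain ⟨m, hm⟩ := heven
  have hm' : m = 0 ∨ m = 1 ∨ m = 2 ∨ m = 3 ∨ m = 4 ∨ m = 5 := by omega
  rcases hm' with rfl | rfl | rfl | rfl | rfl | rfl <;> subst hm <;> norm_num

/-- **Counting identity.** For weights in `{0, 2, …, 10}` with exactly one weight `0` and as
many weights `≡ 2` as `≡ 4` modulo `6`:
`12 · #{k = 10} = Σ k − 6 · #{4 ∣ k} − 6 · #{6 ∣ k} + 12`. -/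
theorem twelve_mul_card_ten {n : ℕ} (k : Fin n → ℤ)
    (heven : ∀ i, Even (k i)) (h0le : ∀ i, 0 ≤ k i) (hle : ∀ i, k i ≤ 10)
    (hzero : Nat.card {i // k i = 0} = 1)
    (h24 : Nat.card {i // k i % 6 = 2} = Nat.card {i // k i % 6 = 4}) :
    (12 : ℤ) * (Nat.card {i // k i = 10} : ℤ)
      = ∑ i, k i - 6 * (Nat.card {i // (4 : ℤ) ∣ k i} : ℤ)
          - 6 * (Nat.card {i // (6 : ℤ) ∣ k i} : ℤ) + 12 := by
  classical
  have hsum : ∑ i, k i = ∑ i, (6 * (if (4 : ℤ) ∣ k i then 1 else 0)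
      + 6 * (if (6 : ℤ) ∣ k i then 1 else 0)
      + 12 * (if k i = 10 then 1 else 0) - 12 * (if k i = 0 then 1 else 0)
      + 2 * ((if k i % 6 = 2 then 1 else 0) - (if k i % 6 = 4 then 1 else 0)) : ℤ) :=
    Finset.sum_congr rfl fun i _ => pointwise (heven i) (h0le i) (hle i)
  have hz : (Nat.card {i // k i = 0} : ℤ) = 1 := by rw [hzero]; rfl
  have h24' : (Nat.card {i // k i % 6 = 2} : ℤ) = (Nat.card {i // k i % 6 = 4} : ℤ) := by
    rw [h24]
  rw [natCard_subtype_eq_sum] at hz h24' ⊢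
  rw [natCard_subtype_eq_sum] at h24'
  rw [natCard_subtype_eq_sum (fun i => (4 : ℤ) ∣ k i),
    natCard_subtype_eq_sum (fun i => (6 : ℤ) ∣ k i), hsum]
  simp only [Finset.sum_add_distrib, Finset.sum_sub_distrib, ← Finset.mul_sum]
  linarith

/-- **(I7), abstract form.** From the class counts to the genus formula, in terms of
the numerical invariants. -/
theorem card_ten_eq_genusFormula (N : ℕ) {n : ℕ} (k : Fin n → ℤ)
    (heven : ∀ i, Even (k i)) (h0le : ∀ i, 0 ≤ k i) (hle : ∀ i, k i ≤ 10)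
    (hzero : Nat.card {i // k i = 0} = 1)
    (hcard : n = ModularCurve.dedekindPsi N)
    (hS : 2 * Nat.card {i // (4 : ℤ) ∣ k i} = n + ModularCurve.nuTwo N)
    (hST : 3 * Nat.card {i // (6 : ℤ) ∣ k i} = n + 2 * ModularCurve.nuThree N)
    (h24 : Nat.card {i // k i % 6 = 2} = Nat.card {i // k i % 6 = 4})
    (hsum : ∑ i, k i = 6 * ((ModularCurve.dedekindPsi N : ℤ) - (ModularCurve.cuspCount N : ℤ))) :
    (Nat.card {i // k i = 10} : ℚ) = ModularCurve.genusFormula N := by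
  have h := twelve_mul_card_ten k heven h0le hle hzero h24
  have hS' : (2 : ℤ) * (Nat.card {i // (4 : ℤ) ∣ k i} : ℤ) = n + ModularCurve.nuTwo N := by
    exact_mod_cast hS
  have hST' : (3 : ℤ) * (Nat.card {i // (6 : ℤ) ∣ k i} : ℤ) = n + 2 * ModularCurve.nuThree N := by
    exact_mod_cast hST
  have hcard' : (n : ℤ) = ModularCurve.dedekindPsi N := by exact_mod_cast hcard
  have key : (12 : ℤ) * (Nat.card {i // k i = 10} : ℤ)
      = 12 + ModularCurve.dedekindPsi N - 3 * ModularCurve.nuTwo N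
        - 4 * ModularCurve.nuThree N - 6 * ModularCurve.cuspCount N := by
    rw [h, hsum]
    linarith
  have keyQ : (12 : ℚ) * (Nat.card {i // k i = 10} : ℚ)
      = 12 + ModularCurve.dedekindPsi N - 3 * ModularCurve.nuTwo N
        - 4 * ModularCurve.nuThree N - 6 * ModularCurve.cuspCount N := by
    exact_mod_cast key
  unfold ModularCurve.genusFormula
  linarith

/-- **(I7).** The final arithmetic of the graded-module proof of
`dim S₂(Γ₀(N)) = g(X₀(N))`: the hypotheses are the outputs of the structure theory of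
`M(Γ₀(N))` as a free module over `M(SL₂(ℤ))` with homogeneous basis of weights `k i`. -/
theorem finrank_eq_genusFormula (N : ℕ) [NeZero N] {n : ℕ} (k : Fin n → ℤ)
    (heven : ∀ i, Even (k i)) (h0le : ∀ i, 0 ≤ k i) (hle : ∀ i, k i ≤ 10)
    (hzero : Nat.card {i // k i = 0} = 1)
    (hcard : n = (Gamma0 N).index)
    (hS : 2 * Nat.card {i // (4 : ℤ) ∣ k i}
      = n + Nat.card (MulAction.fixedBy (SL(2, ℤ) ⧸ Gamma0 N) S))
    (hST : 3 * Nat.card {i // (6 : ℤ) ∣ k i}
      = n + 2 * Nat.card (MulAction.fixedBy (SL(2, ℤ) ⧸ Gamma0 N) (S * T)))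
    (h24 : Nat.card {i // k i % 6 = 2} = Nat.card {i // k i % 6 = 4})
    (hsum : ∑ i, k i = 6 * ((Nat.card (SL(2, ℤ) ⧸ Gamma0 N) : ℤ)
      - (Nat.card (MulAction.orbitRel.Quotient (Subgroup.zpowers T) (SL(2, ℤ) ⧸ Gamma0 N)) : ℤ)))
    (hdim : Module.finrank ℂ (CuspForm (Gamma0 N) 2) = Nat.card {i // k i = 10}) :
    (Module.finrank ℂ (CuspForm (Gamma0 N) 2) : ℚ) = ModularCurve.genusFormula N := by
  rw [hdim]
  refine card_ten_eq_genusFormula N k heven h0le hle hzero ?_ ?_ ?_ h24 ?_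
  · rw [hcard, Fermat.Agent.Lib.Gamma0Count.index_Gamma0 N (NeZero.ne N)]
  · rw [hS, Fermat.Agent.Lib.Gamma0Count.card_fixedBy_S]
  · rw [hST, Fermat.Agent.Lib.Gamma0Count.card_fixedBy_ST]
  · rw [hsum, Fermat.Agent.Lib.Gamma0Count.card_quotient, Fermat.Agent.Lib.Gamma0Count.card_orbits_T]

/-- Variant of `finrank_eq_genusFormula` with `Fintype.card` on the subtypes (any
decidability instances). -/
theorem finrank_eq_genusFormula' (N : ℕ) [NeZero N] {n : ℕ} (k : Fin n → ℤ)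
    [Fintype {i // k i = 0}] [Fintype {i // (4 : ℤ) ∣ k i}] [Fintype {i // (6 : ℤ) ∣ k i}]
    [Fintype {i // k i % 6 = 2}] [Fintype {i // k i % 6 = 4}] [Fintype {i // k i = 10}]
    (heven : ∀ i, Even (k i)) (h0le : ∀ i, 0 ≤ k i) (hle : ∀ i, k i ≤ 10)
    (hzero : Fintype.card {i // k i = 0} = 1)
    (hcard : n = (Gamma0 N).index)
    (hS : 2 * Fintype.card {i // (4 : ℤ) ∣ k i}
      = n + Nat.card (MulAction.fixedBy (SL(2, ℤ) ⧸ Gamma0 N) S))
    (hST : 3 * Fintype.card {i // (6 : ℤ) ∣ k i}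
      = n + 2 * Nat.card (MulAction.fixedBy (SL(2, ℤ) ⧸ Gamma0 N) (S * T)))
    (h24 : Fintype.card {i // k i % 6 = 2} = Fintype.card {i // k i % 6 = 4})
    (hsum : ∑ i, k i = 6 * ((Nat.card (SL(2, ℤ) ⧸ Gamma0 N) : ℤ)
      - (Nat.card (MulAction.orbitRel.Quotient (Subgroup.zpowers T) (SL(2, ℤ) ⧸ Gamma0 N)) : ℤ)))
    (hdim : Module.finrank ℂ (CuspForm (Gamma0 N) 2) = Fintype.card {i // k i = 10}) :
    (Module.finrank ℂ (CuspForm (Gamma0 N) 2) : ℚ) = ModularCurve.genusFormula N := by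
  refine finrank_eq_genusFormula N k heven h0le hle ?_ hcard ?_ ?_ ?_ hsum ?_
  · rw [Nat.card_eq_fintype_card, hzero]
  · rw [Nat.card_eq_fintype_card, hS]
  · rw [Nat.card_eq_fintype_card, hST]
  · rw [Nat.card_eq_fintype_card, Nat.card_eq_fintype_card, h24]
  · rw [Nat.card_eq_fintype_card, hdim]

end Fermat.Agent.Lib.GenusArith
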