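import Fermat.Agent.Lib.GenusArith

set_option autoImplicit false

/-!
# Lower-bound form of the final arithmetic, with `1 ≤ #{i | k i = 0}`

Same counting as `Fermat.Agent.Lib.GenusArith`, but only the inequalities
`1 ≤ #{i | k i = 0}`, `6 (ψ − c) ≤ Σ k i` and `#{i | k i = 10} ≤ dim S₂` are assumed; the
conclusion is `g(X₀(N)) ≤ dim S₂(Γ₀(N))`.
-/

namespace Fermat.Agent.Lib.GenusArithLb

open Matrix MatrixGroups CongruenceSubgroup ModularGroup Fermat.Agent.Lib.GenusArith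

/-- **Counting identity, general form.** For weights in `{0, 2, …, 10}` with as many weights
`≡ 2` as `≡ 4` modulo `6`:
`12 · #{k = 10} = Σ k − 6 · #{4 ∣ k} − 6 · #{6 ∣ k} + 12 · #{k = 0}`. -/
theorem twelve_mul_card_ten_add {n : ℕ} (k : Fin n → ℤ)
    (heven : ∀ i, Even (k i)) (h0le : ∀ i, 0 ≤ k i) (hle : ∀ i, k i ≤ 10)
    (h24 : Nat.card {i // k i % 6 = 2} = Nat.card {i // k i % 6 = 4}) :
    (12 : ℤ) * (Nat.card {i // k i = 10} : ℤ)
      = ∑ i, k i - 6 * (Nat.card {i // (4 : ℤ) ∣ k i} : ℤ)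
          - 6 * (Nat.card {i // (6 : ℤ) ∣ k i} : ℤ) + 12 * (Nat.card {i // k i = 0} : ℤ) := by
  classical
  have hsum : ∑ i, k i = ∑ i, (6 * (if (4 : ℤ) ∣ k i then 1 else 0)
      + 6 * (if (6 : ℤ) ∣ k i then 1 else 0)
      + 12 * (if k i = 10 then 1 else 0) - 12 * (if k i = 0 then 1 else 0)
      + 2 * ((if k i % 6 = 2 then 1 else 0) - (if k i % 6 = 4 then 1 else 0)) : ℤ) :=
    Finset.sum_congr rfl fun i _ => pointwise (heven i) (h0le i) (hle i)
  have h24' : (Nat.card {i // k i % 6 = 2} : ℤ) = (Nat.card {i // k i % 6 = 4} : ℤ) := by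
    rw [h24]
  rw [natCard_subtype_eq_sum (fun i => k i % 6 = 2),
    natCard_subtype_eq_sum (fun i => k i % 6 = 4)] at h24'
  rw [natCard_subtype_eq_sum (fun i => k i = 10), natCard_subtype_eq_sum (fun i => k i = 0),
    natCard_subtype_eq_sum (fun i => (4 : ℤ) ∣ k i),
    natCard_subtype_eq_sum (fun i => (6 : ℤ) ∣ k i), hsum]
  simp only [Finset.sum_add_distrib, Finset.sum_sub_distrib, ← Finset.mul_sum]
  linarith

/-- Numerical form: `g ≤ #{k = 10}` from the class counts, `1 ≤ #{k = 0}` and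
`6 (ψ − c) ≤ Σ k`. -/
theorem genusFormula_le_card_ten_of_one_le (N : ℕ) {n : ℕ} (k : Fin n → ℤ)
    (heven : ∀ i, Even (k i)) (h0le : ∀ i, 0 ≤ k i) (hle : ∀ i, k i ≤ 10)
    (hzero : 1 ≤ Nat.card {i // k i = 0})
    (hcard : n = ModularCurve.dedekindPsi N)
    (hS : 2 * Nat.card {i // (4 : ℤ) ∣ k i} = n + ModularCurve.nuTwo N)
    (hST : 3 * Nat.card {i // (6 : ℤ) ∣ k i} = n + 2 * ModularCurve.nuThree N)
    (h24 : Nat.card {i // k i % 6 = 2} = Nat.card {i // k i % 6 = 4})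
    (hsum : 6 * ((ModularCurve.dedekindPsi N : ℤ) - (ModularCurve.cuspCount N : ℤ)) ≤ ∑ i, k i) :
    ModularCurve.genusFormula N ≤ (Nat.card {i // k i = 10} : ℚ) := by
  have h := twelve_mul_card_ten_add k heven h0le hle h24
  have hz : (1 : ℤ) ≤ (Nat.card {i // k i = 0} : ℤ) := by exact_mod_cast hzero
  have hS' : (2 : ℤ) * (Nat.card {i // (4 : ℤ) ∣ k i} : ℤ) = n + ModularCurve.nuTwo N := by
    exact_mod_cast hS
  have hST' : (3 : ℤ) * (Nat.card {i // (6 : ℤ) ∣ k i} : ℤ) = n + 2 * ModularCurve.nuThree N := by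
    exact_mod_cast hST
  have hcard' : (n : ℤ) = ModularCurve.dedekindPsi N := by exact_mod_cast hcard
  have key : (12 : ℤ) + ModularCurve.dedekindPsi N - 3 * ModularCurve.nuTwo N
        - 4 * ModularCurve.nuThree N - 6 * ModularCurve.cuspCount N
      ≤ 12 * (Nat.card {i // k i = 10} : ℤ) := by
    rw [h]
    linarith
  have keyQ : (12 : ℚ) + ModularCurve.dedekindPsi N - 3 * ModularCurve.nuTwo N
        - 4 * ModularCurve.nuThree N - 6 * ModularCurve.cuspCount N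
      ≤ 12 * (Nat.card {i // k i = 10} : ℚ) := by
    exact_mod_cast key
  unfold ModularCurve.genusFormula
  linarith

/-- **Lower bound form of (I7), weakest hypotheses.** `g(X₀(N)) ≤ dim S₂(Γ₀(N))` from: the
class counts of the weights `k i ∈ {0, 2, …, 10}` of a homogeneous basis, `1 ≤ #{i | k i = 0}`,
the inequality `6 (ψ − c) ≤ Σ k i` and `#{i | k i = 10} ≤ dim S₂`. -/
theorem genusFormula_le_finrank_of_one_le (N : ℕ) [NeZero N] {n : ℕ} (k : Fin n → ℤ)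
    (heven : ∀ i, Even (k i)) (h0le : ∀ i, 0 ≤ k i) (hle : ∀ i, k i ≤ 10)
    (hzero : 1 ≤ Nat.card {i // k i = 0})
    (hcard : n = (Gamma0 N).index)
    (hS : 2 * Nat.card {i // (4 : ℤ) ∣ k i}
      = n + Nat.card (MulAction.fixedBy (SL(2, ℤ) ⧸ Gamma0 N) S))
    (hST : 3 * Nat.card {i // (6 : ℤ) ∣ k i}
      = n + 2 * Nat.card (MulAction.fixedBy (SL(2, ℤ) ⧸ Gamma0 N) (S * T)))
    (h24 : Nat.card {i // k i % 6 = 2} = Nat.card {i // k i % 6 = 4})
    (hsum : 6 * ((Nat.card (SL(2, ℤ) ⧸ Gamma0 N) : ℤ)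
      - (Nat.card (MulAction.orbitRel.Quotient (Subgroup.zpowers T) (SL(2, ℤ) ⧸ Gamma0 N)) : ℤ))
        ≤ ∑ i, k i)
    (hdim : Nat.card {i // k i = 10} ≤ Module.finrank ℂ (CuspForm (Gamma0 N) 2)) :
    ModularCurve.genusFormula N ≤ (Module.finrank ℂ (CuspForm (Gamma0 N) 2) : ℚ) := by
  have h1 : ModularCurve.genusFormula N ≤ (Nat.card {i // k i = 10} : ℚ) := by
    refine genusFormula_le_card_ten_of_one_le N k heven h0le hle hzero ?_ ?_ ?_ h24 ?_
    · rw [hcard, Fermat.Agent.Lib.Gamma0Count.index_Gamma0 N (NeZero.ne N)]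
    · rw [hS, Fermat.Agent.Lib.Gamma0Count.card_fixedBy_S]
    · rw [hST, Fermat.Agent.Lib.Gamma0Count.card_fixedBy_ST]
    · rw [← Fermat.Agent.Lib.Gamma0Count.card_quotient, ← Fermat.Agent.Lib.Gamma0Count.card_orbits_T]
      exact hsum
  have h2 : (Nat.card {i // k i = 10} : ℚ) ≤ (Module.finrank ℂ (CuspForm (Gamma0 N) 2) : ℚ) := by
    exact_mod_cast hdim
  exact h1.trans h2

/-- Variant with `Fintype.card` on the subtypes (arbitrary instances). -/
theorem genusFormula_le_finrank_of_one_le' (N : ℕ) [NeZero N] {n : ℕ} (k : Fin n → ℤ)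
    [Fintype {i // k i = 0}] [Fintype {i // (4 : ℤ) ∣ k i}] [Fintype {i // (6 : ℤ) ∣ k i}]
    [Fintype {i // k i % 6 = 2}] [Fintype {i // k i % 6 = 4}] [Fintype {i // k i = 10}]
    (heven : ∀ i, Even (k i)) (h0le : ∀ i, 0 ≤ k i) (hle : ∀ i, k i ≤ 10)
    (hzero : 1 ≤ Fintype.card {i // k i = 0})
    (hcard : n = (Gamma0 N).index)
    (hS : 2 * Fintype.card {i // (4 : ℤ) ∣ k i}
      = n + Nat.card (MulAction.fixedBy (SL(2, ℤ) ⧸ Gamma0 N) S))
    (hST : 3 * Fintype.card {i // (6 : ℤ) ∣ k i}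
      = n + 2 * Nat.card (MulAction.fixedBy (SL(2, ℤ) ⧸ Gamma0 N) (S * T)))
    (h24 : Fintype.card {i // k i % 6 = 2} = Fintype.card {i // k i % 6 = 4})
    (hsum : 6 * ((Nat.card (SL(2, ℤ) ⧸ Gamma0 N) : ℤ)
      - (Nat.card (MulAction.orbitRel.Quotient (Subgroup.zpowers T) (SL(2, ℤ) ⧸ Gamma0 N)) : ℤ))
        ≤ ∑ i, k i)
    (hdim : Fintype.card {i // k i = 10} ≤ Module.finrank ℂ (CuspForm (Gamma0 N) 2)) :
    ModularCurve.genusFormula N ≤ (Module.finrank ℂ (CuspForm (Gamma0 N) 2) : ℚ) := by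
  refine genusFormula_le_finrank_of_one_le N k heven h0le hle ?_ hcard ?_ ?_ ?_ hsum ?_
  · rw [Nat.card_eq_fintype_card]; exact hzero
  · rw [Nat.card_eq_fintype_card, hS]
  · rw [Nat.card_eq_fintype_card, hST]
  · rw [Nat.card_eq_fintype_card, Nat.card_eq_fintype_card, h24]
  · rw [Nat.card_eq_fintype_card]; exact hdim

end Fermat.Agent.Lib.GenusArithLb
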