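import Fermat.Agent.Lib.GenusArith

set_option autoImplicit false

/-!
# Lower-bound form of the final arithmetic for `dim S₂(Γ₀(N)) ≥ g(X₀(N))`

Same counting as `Fermat.Agent.Lib.GenusArith`, but only the inequalities
`6 (ψ − c) ≤ Σ k i` and `#{i | k i = 10} ≤ dim S₂` are assumed.
-/

namespace Fermat.Agent.Lib.GenusArithLe

open Matrix MatrixGroups CongruenceSubgroup ModularGroup Fermat.Agent.Lib.GenusArith

/-- Numerical form: `g ≤ #{k = 10}` from the class counts and `6 (ψ − c) ≤ Σ k`. -/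
theorem genusFormula_le_card_ten (N : ℕ) {n : ℕ} (k : Fin n → ℤ)
    (heven : ∀ i, Even (k i)) (h0le : ∀ i, 0 ≤ k i) (hle : ∀ i, k i ≤ 10)
    (hzero : Nat.card {i // k i = 0} = 1)
    (hcard : n = ModularCurve.dedekindPsi N)
    (hS : 2 * Nat.card {i // (4 : ℤ) ∣ k i} = n + ModularCurve.nuTwo N)
    (hST : 3 * Nat.card {i // (6 : ℤ) ∣ k i} = n + 2 * ModularCurve.nuThree N)
    (h24 : Nat.card {i // k i % 6 = 2} = Nat.card {i // k i % 6 = 4})
    (hsum : 6 * ((ModularCurve.dedekindPsi N : ℤ) - (ModularCurve.cuspCount N : ℤ)) ≤ ∑ i, k i) :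
    ModularCurve.genusFormula N ≤ (Nat.card {i // k i = 10} : ℚ) := by
  have h := twelve_mul_card_ten k heven h0le hle hzero h24
  have hS' : (2 : ℤ) * (Nat.card {i // (4 : ℤ) ∣ k i} : ℤ) = n + ModularCurve.nuTwo N := by
    exact_mod_cast hS
  have hST' : (3 : ℤ) * (Nat.card {i // (6 : ℤ) ∣ k i} : ℤ) = n + 2 * ModularCurve.nuThree N := by
    exact_mod_cast hST
  have hcard' : (n : ℤ) = ModularCurve.dedekindPsi N := by exact_mod_cast hcard
  have key : (12 : ℤ) + ModularCurve.dedekindPsi N - 3 * ModularCurve.nuTwo N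
        - 4 * ModularCurve.nuThree N - 6 * ModularCurve.cuspCount N
      ≤ 12 * (Nat.card {i // k i = 10} : ℤ) := by
    rw [h]
    linarith
  have keyQ : (12 : ℚ) + ModularCurve.dedekindPsi N - 3 * ModularCurve.nuTwo N
        - 4 * ModularCurve.nuThree N - 6 * ModularCurve.cuspCount N
      ≤ 12 * (Nat.card {i // k i = 10} : ℚ) := by
    exact_mod_cast key
  unfold ModularCurve.genusFormula
  linarith

/-- **Lower bound form of (I7).** `g(X₀(N)) ≤ dim S₂(Γ₀(N))` from: the class counts of the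
weights `k i ∈ {0, 2, …, 10}` of a homogeneous basis, the inequality `6 (ψ − c) ≤ Σ k i`
(order of `det Φ` at `i∞`) and `#{i | k i = 10} ≤ dim S₂` (the dual basis elements of weight
`12 − 10 = 2` are linearly independent cusp forms). -/
theorem genusFormula_le_finrank (N : ℕ) [NeZero N] {n : ℕ} (k : Fin n → ℤ)
    (heven : ∀ i, Even (k i)) (h0le : ∀ i, 0 ≤ k i) (hle : ∀ i, k i ≤ 10)
    (hzero : Nat.card {i // k i = 0} = 1)
    (hcard : n = (Gamma0 N).index)
    (hS : 2 * Nat.card {i // (4 : ℤ) ∣ k i}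
      = n + Nat.card (MulAction.fixedBy (SL(2, ℤ) ⧸ Gamma0 N) S))
    (hST : 3 * Nat.card {i // (6 : ℤ) ∣ k i}
      = n + 2 * Nat.card (MulAction.fixedBy (SL(2, ℤ) ⧸ Gamma0 N) (S * T)))
    (h24 : Nat.card {i // k i % 6 = 2} = Nat.card {i // k i % 6 = 4})
    (hsum : 6 * ((Nat.card (SL(2, ℤ) ⧸ Gamma0 N) : ℤ)
      - (Nat.card (MulAction.orbitRel.Quotient (Subgroup.zpowers T) (SL(2, ℤ) ⧸ Gamma0 N)) : ℤ))
        ≤ ∑ i, k i)
    (hdim : Nat.card {i // k i = 10} ≤ Module.finrank ℂ (CuspForm (Gamma0 N) 2)) :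
    ModularCurve.genusFormula N ≤ (Module.finrank ℂ (CuspForm (Gamma0 N) 2) : ℚ) := by
  have h1 : ModularCurve.genusFormula N ≤ (Nat.card {i // k i = 10} : ℚ) := by
    refine genusFormula_le_card_ten N k heven h0le hle hzero ?_ ?_ ?_ h24 ?_
    · rw [hcard, Fermat.Agent.Lib.Gamma0Count.index_Gamma0 N (NeZero.ne N)]
    · rw [hS, Fermat.Agent.Lib.Gamma0Count.card_fixedBy_S]
    · rw [hST, Fermat.Agent.Lib.Gamma0Count.card_fixedBy_ST]
    · rw [← Fermat.Agent.Lib.Gamma0Count.card_quotient, ← Fermat.Agent.Lib.Gamma0Count.card_orbits_T]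
      exact hsum
  have h2 : (Nat.card {i // k i = 10} : ℚ) ≤ (Module.finrank ℂ (CuspForm (Gamma0 N) 2) : ℚ) := by
    exact_mod_cast hdim
  exact h1.trans h2

/-- Variant with `Fintype.card` on the subtypes (arbitrary instances). -/
theorem genusFormula_le_finrank' (N : ℕ) [NeZero N] {n : ℕ} (k : Fin n → ℤ)
    [Fintype {i // k i = 0}] [Fintype {i // (4 : ℤ) ∣ k i}] [Fintype {i // (6 : ℤ) ∣ k i}]
    [Fintype {i // k i % 6 = 2}] [Fintype {i // k i % 6 = 4}] [Fintype {i // k i = 10}]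
    (heven : ∀ i, Even (k i)) (h0le : ∀ i, 0 ≤ k i) (hle : ∀ i, k i ≤ 10)
    (hzero : Fintype.card {i // k i = 0} = 1)
    (hcard : n = (Gamma0 N).index)
    (hS : 2 * Fintype.card {i // (4 : ℤ) ∣ k i}
      = n + Nat.card (MulAction.fixedBy (SL(2, ℤ) ⧸ Gamma0 N) S))
    (hST : 3 * Fintype.card {i // (6 : ℤ) ∣ k i}
      = n + 2 * Nat.card (MulAction.fixedBy (SL(2, ℤ) ⧸ Gamma0 N) (S * T)))
    (h24 : Fintype.card {i // k i % 6 = 2} = Fintype.card {i // k i % 6 = 4})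
    (hsum : 6 * ((Nat.card (SL(2, ℤ) ⧸ Gamma0 N) : ℤ)
      - (Nat.card (MulAction.orbitRel.Quotient (Subgroup.zpowers T) (SL(2, ℤ) ⧸ Gamma0 N)) : ℤ))
        ≤ ∑ i, k i)
    (hdim : Fintype.card {i // k i = 10} ≤ Module.finrank ℂ (CuspForm (Gamma0 N) 2)) :
    ModularCurve.genusFormula N ≤ (Module.finrank ℂ (CuspForm (Gamma0 N) 2) : ℚ) := by
  refine genusFormula_le_finrank N k heven h0le hle ?_ hcard ?_ ?_ ?_ hsum ?_
  · rw [Nat.card_eq_fintype_card, hzero]
  · rw [Nat.card_eq_fintype_card, hS]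
  · rw [Nat.card_eq_fintype_card, hST]
  · rw [Nat.card_eq_fintype_card, Nat.card_eq_fintype_card, h24]
  · rw [Nat.card_eq_fintype_card]; exact hdim

end Fermat.Agent.Lib.GenusArithLe
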