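import Mathlib

set_option autoImplicit false

open UpperHalfPlane Filter Topology
open scoped MatrixGroups ModularForm Manifold

namespace Fermat.Agent.Lib.HoloQuotient

/-- Root bound: a root of a monic polynomial is bounded by `1 + ∑ ‖coefficients‖`. -/
theorem norm_le_of_monic_root {x : ℂ} (n : ℕ) (c : ℕ → ℂ)
    (h : x ^ (n + 1) + ∑ j ∈ Finset.range (n + 1), c j * x ^ (n - j) = 0) :
    ‖x‖ ≤ 1 + ∑ j ∈ Finset.range (n + 1), ‖c j‖ := by
  have hS : 0 ≤ ∑ j ∈ Finset.range (n + 1), ‖c j‖ := Finset.sum_nonneg fun _ _ => norm_nonneg _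
  by_cases hx : ‖x‖ ≤ 1
  · linarith
  push Not at hx
  have hx0 : 0 < ‖x‖ := by linarith
  have h1 : x ^ (n + 1) = -∑ j ∈ Finset.range (n + 1), c j * x ^ (n - j) := by
    linear_combination h
  have h2 : ‖x‖ ^ (n + 1) ≤ (∑ j ∈ Finset.range (n + 1), ‖c j‖) * ‖x‖ ^ n := by
    calc ‖x‖ ^ (n + 1) = ‖x ^ (n + 1)‖ := (norm_pow _ _).symm
      _ = ‖∑ j ∈ Finset.range (n + 1), c j * x ^ (n - j)‖ := by rw [h1, norm_neg]
      _ ≤ ∑ j ∈ Finset.range (n + 1), ‖c j * x ^ (n - j)‖ := norm_sum_le _ _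
      _ ≤ ∑ j ∈ Finset.range (n + 1), ‖c j‖ * ‖x‖ ^ n := by
        refine Finset.sum_le_sum fun j _ => ?_
        rw [norm_mul, norm_pow]
        gcongr
        · exact hx.le
        · omega
      _ = (∑ j ∈ Finset.range (n + 1), ‖c j‖) * ‖x‖ ^ n := by rw [Finset.sum_mul]
  have h3 : ‖x‖ ≤ ∑ j ∈ Finset.range (n + 1), ‖c j‖ := by
    have hpos : 0 < ‖x‖ ^ n := pow_pos hx0 n
    rw [pow_succ] at h2
    nlinarith [mul_comm (‖x‖ ^ n) ‖x‖]
  linarith

/-- Small-root bound: if all coefficients of a monic polynomial are small, so is every root. -/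
theorem norm_le_of_monic_root_of_small {x : ℂ} (n : ℕ) (c : ℕ → ℂ)
    (h : x ^ (n + 1) + ∑ j ∈ Finset.range (n + 1), c j * x ^ (n - j) = 0)
    {ε : ℝ} (hε : 0 < ε) (hε1 : ε ≤ 1)
    (hc : ∀ j ∈ Finset.range (n + 1), ‖c j‖ ≤ ε ^ (n + 1) / (n + 1)) : ‖x‖ ≤ ε := by
  by_contra hx
  push Not at hx
  have hx0 : 0 < ‖x‖ := by linarith
  have h1 : x ^ (n + 1) = -∑ j ∈ Finset.range (n + 1), c j * x ^ (n - j) := by
    linear_combination h
  have hn1 : (0 : ℝ) < (n : ℝ) + 1 := by positivity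
  -- bound each term by `δ * max 1 ‖x‖ ^ n`
  have h2 : ‖x‖ ^ (n + 1) ≤ ε ^ (n + 1) * (max 1 ‖x‖) ^ n := by
    calc ‖x‖ ^ (n + 1) = ‖x ^ (n + 1)‖ := (norm_pow _ _).symm
      _ = ‖∑ j ∈ Finset.range (n + 1), c j * x ^ (n - j)‖ := by rw [h1, norm_neg]
      _ ≤ ∑ j ∈ Finset.range (n + 1), ‖c j * x ^ (n - j)‖ := norm_sum_le _ _
      _ ≤ ∑ _j ∈ Finset.range (n + 1), ε ^ (n + 1) / (n + 1) * (max 1 ‖x‖) ^ n := by
        refine Finset.sum_le_sum fun j hj => ?_
        rw [norm_mul, norm_pow]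
        have hxm : ‖x‖ ^ (n - j) ≤ (max 1 ‖x‖) ^ n := by
          calc ‖x‖ ^ (n - j) ≤ (max 1 ‖x‖) ^ (n - j) := by
                gcongr; exact le_max_right _ _
            _ ≤ (max 1 ‖x‖) ^ n := by
                apply pow_le_pow_right₀ (le_max_left _ _); omega
        exact mul_le_mul (hc j hj) hxm (by positivity) (by positivity)
      _ = ε ^ (n + 1) * (max 1 ‖x‖) ^ n := by
        rw [Finset.sum_const, Finset.card_range, nsmul_eq_mul]
        push_cast
        field_simp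
  rcases le_total ‖x‖ 1 with hx1 | hx1
  · rw [max_eq_left hx1, one_pow, mul_one] at h2
    have : ε ^ (n + 1) < ‖x‖ ^ (n + 1) := by gcongr
    linarith
  · rw [max_eq_right hx1] at h2
    have hpos : 0 < ‖x‖ ^ n := pow_pos hx0 n
    have h3 : ‖x‖ ≤ ε ^ (n + 1) := by
      rw [pow_succ] at h2
      nlinarith [mul_comm (‖x‖ ^ n) ‖x‖]
    have h4 : ε ^ (n + 1) ≤ ε := by
      calc ε ^ (n + 1) ≤ ε ^ 1 := pow_le_pow_of_le_one hε.le hε1 (by omega)
        _ = ε := pow_one ε
    linarith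


/-- Dividing the homogeneous monic relation by `b ^ (n+1)`. -/
theorem monic_relation_div {a b : ℂ} (hb : b ≠ 0) (n : ℕ) (c : ℕ → ℂ)
    (h : a ^ (n + 1) + ∑ j ∈ Finset.range (n + 1), c j * b ^ (j + 1) * a ^ (n - j) = 0) :
    (a / b) ^ (n + 1) + ∑ j ∈ Finset.range (n + 1), c j * (a / b) ^ (n - j) = 0 := by
  have hb' : b ^ (n + 1) ≠ 0 := pow_ne_zero _ hb
  have key : b ^ (n + 1) * ((a / b) ^ (n + 1) +
      ∑ j ∈ Finset.range (n + 1), c j * (a / b) ^ (n - j)) =
      a ^ (n + 1) + ∑ j ∈ Finset.range (n + 1), c j * b ^ (j + 1) * a ^ (n - j) := by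
    rw [mul_add, Finset.mul_sum]
    congr 1
    · rw [div_pow, mul_div_cancel₀ _ hb']
    · refine Finset.sum_congr rfl fun j hj => ?_
      have hj' : j ≤ n := by simpa [Nat.lt_succ_iff] using hj
      have e : b ^ (n + 1) = b ^ (j + 1) * b ^ (n - j) := by
        rw [← pow_add]; congr 1; omega
      rw [div_pow, e]
      field_simp
  rw [h] at key
  exact (mul_eq_zero.mp key).resolve_left hb'

/-- **Holomorphic integral closure** on an open preconnected subset of `ℂ`:
if `a / b` satisfies a monic relation with holomorphic coefficients (written homogeneously),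
then `b` divides `a` in the ring of holomorphic functions. -/
theorem exists_differentiableOn_quotient {U : Set ℂ} (hU : IsOpen U) (hUc : IsPreconnected U)
    {a b : ℂ → ℂ} (ha : DifferentiableOn ℂ a U) (hb : DifferentiableOn ℂ b U)
    (hb0 : ∃ z ∈ U, b z ≠ 0) (n : ℕ) (c : ℕ → ℂ → ℂ) (hc : ∀ j, DifferentiableOn ℂ (c j) U)
    (h : ∀ z ∈ U, a z ^ (n + 1) +
      ∑ j ∈ Finset.range (n + 1), c j z * b z ^ (j + 1) * a z ^ (n - j) = 0) :
    ∃ g : ℂ → ℂ, DifferentiableOn ℂ g U ∧ ∀ z ∈ U, g z * b z = a z := by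
  classical
  set φ : ℂ → ℂ := fun w => a w / b w with hφ
  set g : ℂ → ℂ := fun z => limUnder (𝓝[≠] z) φ with hg
  have hban : AnalyticOnNhd ℂ b U := hb.analyticOnNhd hU
  -- `φ` is continuous at points where `b ≠ 0`, so `g = φ` there
  have hφcont : ∀ w ∈ U, b w ≠ 0 → ContinuousAt φ w := fun w hw hbw =>
    ((ha.differentiableAt (hU.mem_nhds hw)).continuousAt).div
      ((hb.differentiableAt (hU.mem_nhds hw)).continuousAt) hbw
  have hgφ : ∀ w ∈ U, b w ≠ 0 → g w = φ w := fun w hw hbw =>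
    ((hφcont w hw hbw).tendsto.mono_left nhdsWithin_le_nhds).limUnder_eq
  refine ⟨g, ?_, ?_⟩
  · intro z0 hz0
    -- zeros of `b` are isolated
    have hev : ∀ᶠ w in 𝓝[≠] z0, b w ≠ 0 := by
      rcases (hban z0 hz0).eventually_eq_zero_or_eventually_ne_zero with h0 | h0
      · exfalso
        obtain ⟨z1, hz1, hbz1⟩ := hb0
        exact hbz1 (hban.eqOn_zero_of_preconnected_of_eventuallyEq_zero hUc hz0 h0 hz1)
      · exact h0
    rw [eventually_nhdsWithin_iff] at hev
    have hcbd : ∀ j ∈ Finset.range (n + 1), ∀ᶠ w in 𝓝 z0, ‖c j w‖ < ‖c j z0‖ + 1 := by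
      intro j _
      have hcj : ContinuousAt (fun w => ‖c j w‖) z0 :=
        ((hc j).differentiableAt (hU.mem_nhds hz0)).continuousAt.norm
      exact hcj.eventually_lt continuousAt_const (by simp)
    have hcbd' : ∀ᶠ w in 𝓝 z0, ∀ j ∈ Finset.range (n + 1), ‖c j w‖ < ‖c j z0‖ + 1 :=
      (Filter.eventually_all_finset _).mpr hcbd
    set s : Set ℂ := {w | w ∈ U ∧ (w ≠ z0 → b w ≠ 0) ∧
      ∀ j ∈ Finset.range (n + 1), ‖c j w‖ < ‖c j z0‖ + 1} with hs
    have hs_nhds : s ∈ 𝓝 z0 := by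
      filter_upwards [hU.mem_nhds hz0, hev, hcbd'] with w h1 h2 h3
      exact ⟨h1, h2, h3⟩
    have hd : DifferentiableOn ℂ φ (s \ {z0}) := by
      intro w hw
      have hwU : w ∈ U := hw.1.1
      have hbw : b w ≠ 0 := hw.1.2.1 hw.2
      exact ((ha.differentiableAt (hU.mem_nhds hwU)).div
        (hb.differentiableAt (hU.mem_nhds hwU)) hbw).differentiableWithinAt
    have hbdd : BddAbove (norm ∘ φ '' (s \ {z0})) := by
      refine ⟨1 + ∑ j ∈ Finset.range (n + 1), (‖c j z0‖ + 1), ?_⟩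
      rintro _ ⟨w, hw, rfl⟩
      have hwU : w ∈ U := hw.1.1
      have hbw : b w ≠ 0 := hw.1.2.1 hw.2
      have hrel := monic_relation_div hbw n (fun j => c j w) (h w hwU)
      have hle := norm_le_of_monic_root n (fun j => c j w) hrel
      refine hle.trans ?_
      gcongr with j hj
      exact (hw.1.2.2 j hj).le
    have hdiff := Complex.differentiableOn_update_limUnder_of_bddAbove hs_nhds hd hbdd
    have heq : g =ᶠ[𝓝 z0] Function.update φ z0 (limUnder (𝓝[≠] z0) φ) := by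
      filter_upwards [hs_nhds] with w hw
      rcases eq_or_ne w z0 with rfl | hne
      · simp [hg]
      · rw [Function.update_of_ne hne]
        exact hgφ w hw.1 (hw.2.1 hne)
    exact ((hdiff.differentiableAt hs_nhds).congr_of_eventuallyEq heq).differentiableWithinAt
  · intro z hz
    by_cases hbz : b z = 0
    · have hz' := h z hz
      rw [hbz] at hz'
      simp only [ne_eq, Nat.add_eq_zero_iff, one_ne_zero, and_false, not_false_eq_true,
        zero_pow, mul_zero, zero_mul, Finset.sum_const_zero, add_zero] at hz'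
      rw [hbz, mul_zero]
      exact (pow_eq_zero_iff (by omega)).mp hz' |>.symm
    · rw [hgφ z hz hbz, hφ]
      field_simp


/-- **Holomorphic integral closure** on the upper half-plane: if `A / B` satisfies a monic
relation with holomorphic coefficients `c j` (written homogeneously, `B ≠ 0`), then there is a
holomorphic `G` with `G * B = A`, and `G` satisfies the monic relation. -/
theorem exists_mdiff_quotient {A B : ℍ → ℂ} (hA : MDiff A) (hB : MDiff B) (hB0 : B ≠ 0) (n : ℕ)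
    (c : ℕ → ℍ → ℂ) (hc : ∀ j, MDiff (c j))
    (h : ∀ z, A z ^ (n + 1) +
      ∑ j ∈ Finset.range (n + 1), c j z * B z ^ (j + 1) * A z ^ (n - j) = 0) :
    ∃ G : ℍ → ℂ, MDiff G ∧ (∀ z, G z * B z = A z) ∧
      ∀ z, G z ^ (n + 1) + ∑ j ∈ Finset.range (n + 1), c j z * G z ^ (n - j) = 0 := by
  have hUo : IsOpen {z : ℂ | 0 < z.im} := isOpen_upperHalfPlaneSet
  have hUc : IsPreconnected {z : ℂ | 0 < z.im} :=
    (Complex.isConnected_of_upperHalfPlane subset_rfl (by grind)).isPreconnected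
  have hB0' : ∃ z ∈ {z : ℂ | 0 < z.im}, (B ∘ ofComplex) z ≠ 0 := by
    obtain ⟨τ, hτ⟩ : ∃ τ, B τ ≠ 0 := by
      by_contra hcon
      push Not at hcon
      exact hB0 (funext hcon)
    exact ⟨(τ : ℂ), τ.im_pos, by simpa [Function.comp_apply, ofComplex_apply] using hτ⟩
  obtain ⟨g, hgd, hgb⟩ := exists_differentiableOn_quotient hUo hUc
    (UpperHalfPlane.mdifferentiable_iff.mp hA) (UpperHalfPlane.mdifferentiable_iff.mp hB) hB0' n
    (fun j => c j ∘ ofComplex) (fun j => UpperHalfPlane.mdifferentiable_iff.mp (hc j))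
    (fun z _ => h (ofComplex z))
  set G : ℍ → ℂ := fun τ => g τ with hG
  have hGB : ∀ z, G z * B z = A z := by
    intro z
    have := hgb (z : ℂ) z.im_pos
    simpa [Function.comp_apply, ofComplex_apply] using this
  have hGd : MDiff G := by
    rw [UpperHalfPlane.mdifferentiable_iff]
    refine hgd.congr fun z hz => ?_
    simp [hG, Function.comp_apply, ofComplex_apply_of_im_pos hz]
  refine ⟨G, hGd, hGB, ?_⟩
  -- the relation: multiply by `B ^ (n+1)` and use that holomorphic functions form a domain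
  set R : ℍ → ℂ := fun z => G z ^ (n + 1) +
    ∑ j ∈ Finset.range (n + 1), c j z * G z ^ (n - j) with hR
  have hRd : MDiff R := by
    rw [UpperHalfPlane.mdifferentiable_iff]
    have hcd : ∀ j, DifferentiableOn ℂ (c j ∘ ofComplex) {z : ℂ | 0 < z.im} :=
      fun j => UpperHalfPlane.mdifferentiable_iff.mp (hc j)
    have : DifferentiableOn ℂ (fun z => g z ^ (n + 1) +
        ∑ j ∈ Finset.range (n + 1), (c j ∘ ofComplex) z * g z ^ (n - j))
        {z : ℂ | 0 < z.im} :=
      (hgd.pow _).add (DifferentiableOn.fun_sum fun j _ => (hcd j).mul (hgd.pow _))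
    refine this.congr fun z hz => ?_
    simp [hR, hG, Function.comp_apply, ofComplex_apply_of_im_pos hz]
  have hBpow : MDiff (fun z => B z ^ (n + 1)) := by
    rw [UpperHalfPlane.mdifferentiable_iff]
    exact (UpperHalfPlane.mdifferentiable_iff.mp hB).pow _
  have hprod : (fun z => B z ^ (n + 1)) * R = 0 := by
    funext z
    simp only [Pi.mul_apply, Pi.zero_apply, hR]
    rw [← h z, mul_add, Finset.mul_sum, ← hGB z]
    congr 1
    · ring
    · refine Finset.sum_congr rfl fun j hj => ?_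
      have hj' : j ≤ n := by simpa [Nat.lt_succ_iff] using hj
      have e : B z ^ (n + 1) = B z ^ (j + 1) * B z ^ (n - j) := by
        rw [← pow_add]; congr 1; omega
      rw [e, mul_pow]
      ring
  rcases (UpperHalfPlane.mul_eq_zero_iff hBpow hRd).mp hprod with h1 | h1
  · exfalso
    apply hB0
    funext z
    have := congrFun h1 z
    simpa using this
  · intro z
    exact congrFun h1 z


/-- A root of a monic polynomial whose coefficients are bounded at `i∞` is bounded at `i∞`. -/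
theorem isBoundedAtImInfty_of_monic {G : ℍ → ℂ} (n : ℕ) (c : ℕ → ℍ → ℂ)
    (hc : ∀ j ∈ Finset.range (n + 1), IsBoundedAtImInfty (c j))
    (h : ∀ z, G z ^ (n + 1) + ∑ j ∈ Finset.range (n + 1), c j z * G z ^ (n - j) = 0) :
    IsBoundedAtImInfty G := by
  simp only [isBoundedAtImInfty_iff] at hc ⊢
  choose! M A hMA using hc
  refine ⟨1 + ∑ j ∈ Finset.range (n + 1), M j,
    (Finset.range (n + 1)).sup' Finset.nonempty_range_add_one A, fun z hz => ?_⟩
  refine (norm_le_of_monic_root n (fun j => c j z) (h z)).trans ?_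
  gcongr with j hj
  exact hMA j hj z ((Finset.le_sup' A hj).trans hz)

/-- A root of a monic polynomial whose coefficients are zero at `i∞` is zero at `i∞`. -/
theorem isZeroAtImInfty_of_monic {G : ℍ → ℂ} (n : ℕ) (c : ℕ → ℍ → ℂ)
    (hc : ∀ j ∈ Finset.range (n + 1), IsZeroAtImInfty (c j))
    (h : ∀ z, G z ^ (n + 1) + ∑ j ∈ Finset.range (n + 1), c j z * G z ^ (n - j) = 0) :
    IsZeroAtImInfty G := by
  simp only [isZeroAtImInfty_iff] at hc ⊢
  intro ε hε
  set ε' : ℝ := min ε 1 with hε'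
  have hε'0 : 0 < ε' := lt_min hε one_pos
  have hδ : 0 < ε' ^ (n + 1) / ((n : ℝ) + 1) := by positivity
  have hc' : ∀ j ∈ Finset.range (n + 1), ∃ A : ℝ, ∀ z : ℍ, A ≤ im z →
      ‖c j z‖ ≤ ε' ^ (n + 1) / ((n : ℝ) + 1) := fun j hj => hc j hj _ hδ
  choose! A hA using hc'
  refine ⟨(Finset.range (n + 1)).sup' Finset.nonempty_range_add_one A, fun z hz => ?_⟩
  have := norm_le_of_monic_root_of_small n (fun j => c j z) (h z) hε'0 (min_le_right _ _)
    (fun j hj => hA j hj z ((Finset.le_sup' A hj).trans hz))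
  exact this.trans (min_le_left _ _)

/-- The monic relation is preserved by the slash action of `SL(2, ℤ)`, when the `j`-th
coefficient is slashed with weight `k * (j + 1)`. -/
theorem monic_relation_slash {G : ℍ → ℂ} (n : ℕ) (c : ℕ → ℍ → ℂ) (k : ℤ) (γ : SL(2, ℤ))
    (h : ∀ z, G z ^ (n + 1) + ∑ j ∈ Finset.range (n + 1), c j z * G z ^ (n - j) = 0) :
    ∀ z, (G ∣[k] γ) z ^ (n + 1) +
      ∑ j ∈ Finset.range (n + 1), (c j ∣[k * ((j : ℤ) + 1)] γ) z * (G ∣[k] γ) z ^ (n - j) = 0 := by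
  intro z
  have hD : denom γ z ≠ 0 := denom_ne_zero γ z
  have hz := h (γ • z)
  simp only [ModularForm.SL_slash_apply]
  have key : (G (γ • z) * denom γ z ^ (-k)) ^ (n + 1) +
      ∑ j ∈ Finset.range (n + 1), c j (γ • z) * denom γ z ^ (-(k * ((j : ℤ) + 1))) *
        (G (γ • z) * denom γ z ^ (-k)) ^ (n - j) =
      denom γ z ^ (-(k * ((n : ℤ) + 1))) * (G (γ • z) ^ (n + 1) +
        ∑ j ∈ Finset.range (n + 1), c j (γ • z) * G (γ • z) ^ (n - j)) := by
    rw [mul_add, Finset.mul_sum]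
    congr 1
    · rw [mul_pow, ← zpow_natCast (denom γ z ^ (-k)), ← zpow_mul]
      push_cast
      ring_nf
    · refine Finset.sum_congr rfl fun j hj => ?_
      have hj' : j ≤ n := by simpa [Nat.lt_succ_iff] using hj
      rw [mul_pow, ← zpow_natCast (denom γ z ^ (-k)), ← zpow_mul]
      have e : denom γ z ^ (-(k * ((n : ℤ) + 1))) =
          denom γ z ^ (-(k * ((j : ℤ) + 1))) * denom γ z ^ (-k * ((n - j : ℕ) : ℤ)) := by
        rw [← zpow_add₀ hD]
        congr 1
        push_cast [Nat.cast_sub hj']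
        ring
      rw [e]
      ring
  rw [key, hz, mul_zero]

/-- Transfer of slash invariance to a holomorphic quotient. -/
theorem slash_eq_of_mul_eq {G A B : ℍ → ℂ} (hG : MDiff G) (hB : MDiff B) (hB0 : B ≠ 0)
    (hGB : G * B = A) {k w : ℤ} (γ : SL(2, ℤ)) (hA : A ∣[k + w] γ = A) (hBγ : B ∣[w] γ = B) :
    G ∣[k] γ = G := by
  have h1 : (G ∣[k] γ) * B = G * B := by
    have := ModularForm.mul_slash_SL2 k w γ G B
    rw [hGB, hA, hBγ] at this
    rw [← this, hGB]
  have h2 : (G ∣[k] γ - G) * B = 0 := by rw [sub_mul, h1, sub_self]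
  have hGs : MDiff (G ∣[k] γ) := by
    rw [ModularForm.SL_slash]
    exact hG.slash k _
  rcases (UpperHalfPlane.mul_eq_zero_iff (hGs.sub hG) hB).mp h2 with h3 | h3
  · exact sub_eq_zero.mp h3
  · exact absurd h3 hB0

end Fermat.Agent.Lib.HoloQuotient
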