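import Mathlib
import Fermat.Agent.S23.Defs
import Fermat.Agent.Lib.HoloQuotient
import Fermat.Prelude.Thm_ModularForm_sturm_bound_Gamma0

/-!
# Freeness of the graded module of modular forms of level `Γ₀(N)` over the level-one ring

`M(Γ₀(N)) = ⨁_K M_K(Γ₀(N))` is a free graded module over `R = M(SL₂(ℤ)) = ℂ[E₄, E₆]` with a
finite homogeneous basis.  (Package (I1) of the S20 programme.)

Main results:
* `exists_div_E4`: `E₆ f = E₄ g` (`f ∈ M_K(Γ₀(N))`, `g ∈ M_{K+2}(Γ₀(N))`) forces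
  `f = E₄ h`, `g = E₆ h` with `h ∈ M_{K-4}(Γ₀(N))`;
* `exists_free_basis`: the finite homogeneous basis `F i ∈ M_{k i}(Γ₀(N))`, the unique
  decomposition and the resulting dimension formula
  `dim M_K(Γ₀(N)) = ∑ i, dim M_{K - k i}(SL₂(ℤ))`.
* `GradedData.exists_basis`: the abstract algebraic statement (regular sequence + linear growth).
-/

set_option autoImplicit false

namespace Fermat.Agent.Lib.GradedFree

open UpperHalfPlane Filter Topology Module
open scoped MatrixGroups ModularForm Manifold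
open Fermat.Agent.S23
open ModularForm (E₄ E₆)

section Abstract

variable {𝔽 : Type*} [CommRing 𝔽] [Algebra ℂ 𝔽]

/-- Abstract graded data: `M K` (graded module), `R m` (graded ring), and a regular sequence
`x` (degree `4`), `y` (degree `6`). -/
structure GradedData (M R : ℤ → Submodule ℂ 𝔽) (x y : 𝔽) : Prop where
  one_mem : (1 : 𝔽) ∈ R 0
  x_mul : ∀ (m : ℤ) (a : 𝔽), a ∈ R m → x * a ∈ R (m + 4)
  y_mul : ∀ (m : ℤ) (a : 𝔽), a ∈ R m → y * a ∈ R (m + 6)
  mul_mem : ∀ (m K : ℤ) (a f : 𝔽), a ∈ R m → f ∈ M K → a * f ∈ M (K + m)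
  M_neg : ∀ K : ℤ, K < 0 → M K = ⊥
  M_odd : ∀ K : ℤ, Odd K → M K = ⊥
  R_neg : ∀ m : ℤ, m < 0 → R m = ⊥
  M_fin : ∀ K : ℤ, FiniteDimensional ℂ (M K)
  R_fin : ∀ m : ℤ, FiniteDimensional ℂ (R m)
  x_reg : ∀ (K : ℤ) (f : 𝔽), f ∈ M K → x * f = 0 → f = 0
  y_reg : ∀ (K : ℤ) (f : 𝔽), f ∈ M K → y * f = 0 → f = 0
  reg : ∀ (K : ℤ) (f g : 𝔽), f ∈ M K → g ∈ M (K + 2) → y * f = x * g →
    ∃ h ∈ M (K - 4), f = x * h ∧ g = y * h
  r_rec : ∀ m : ℤ, finrank ℂ (R m) + finrank ℂ (R (m - 10)) =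
    finrank ℂ (R (m - 4)) + finrank ℂ (R (m - 6)) + if m = 0 then 1 else 0
  r_low : ∀ m : ℕ, Even m → m / 12 ≤ finrank ℂ (R (m : ℤ))
  bound : ∃ A B : ℕ, ∀ K : ℕ, finrank ℂ (M (K : ℤ)) ≤ A * K + B

namespace GradedData

variable {M R : ℤ → Submodule ℂ 𝔽} {x y : 𝔽}

lemma x_mem (h : GradedData M R x y) : x ∈ R 4 := by
  have := h.x_mul 0 1 h.one_mem
  simpa using this

lemma y_mem (h : GradedData M R x y) : y ∈ R 6 := by
  have := h.y_mul 0 1 h.one_mem
  simpa using this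

lemma mul_mem' (h : GradedData M R x y) {m K K' : ℤ} (e : K + m = K') {a f : 𝔽}
    (ha : a ∈ R m) (hf : f ∈ M K) : a * f ∈ M K' := e ▸ h.mul_mem m K a f ha hf

lemma x_mul_mem (h : GradedData M R x y) {K K' : ℤ} (e : K + 4 = K') {f : 𝔽}
    (hf : f ∈ M K) : x * f ∈ M K' := h.mul_mem' e h.x_mem hf

lemma y_mul_mem (h : GradedData M R x y) {K K' : ℤ} (e : K + 6 = K') {f : 𝔽}
    (hf : f ∈ M K) : y * f ∈ M K' := h.mul_mem' e h.y_mem hf

/-- finrank of the image of `M K` under multiplication by an element acting injectively. -/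
lemma finrank_map_mul (_h : GradedData M R x y) (K : ℤ) (c : 𝔽)
    (hc : ∀ f ∈ M K, c * f = 0 → f = 0) :
    finrank ℂ ((M K).map (LinearMap.mulLeft ℂ c)) = finrank ℂ (M K) := by
  have hinj : Function.Injective ((LinearMap.mulLeft ℂ c).comp (M K).subtype) := by
    rw [← LinearMap.ker_eq_bot, LinearMap.ker_eq_bot']
    intro f hf
    have := hc f.1 f.2 (by simpa using hf)
    exact Subtype.ext this
  have hr : LinearMap.range ((LinearMap.mulLeft ℂ c).comp (M K).subtype) =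
      (M K).map (LinearMap.mulLeft ℂ c) := by
    rw [LinearMap.range_comp, Submodule.range_subtype]
  rw [← hr]
  exact LinearMap.finrank_range_of_inj hinj

/-- The submodule `x M_{K-4} + y M_{K-6}` of decomposable elements. -/
def dec (M : ℤ → Submodule ℂ 𝔽) (x y : 𝔽) (K : ℤ) : Submodule ℂ 𝔽 :=
  (M (K - 4)).map (LinearMap.mulLeft ℂ x) ⊔ (M (K - 6)).map (LinearMap.mulLeft ℂ y)

lemma dec_le (h : GradedData M R x y) (K : ℤ) : dec M x y K ≤ M K := by
  refine sup_le ?_ ?_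
  · rintro _ ⟨f, hf, rfl⟩
    exact h.x_mul_mem (by ring) hf
  · rintro _ ⟨f, hf, rfl⟩
    exact h.y_mul_mem (by ring) hf

lemma inf_eq (h : GradedData M R x y) (K : ℤ) :
    (M (K - 4)).map (LinearMap.mulLeft ℂ x) ⊓ (M (K - 6)).map (LinearMap.mulLeft ℂ y) =
      (M (K - 10)).map (LinearMap.mulLeft ℂ (x * y)) := by
  apply le_antisymm
  · rintro g ⟨⟨u, hu, rfl⟩, ⟨v, hv, hvu⟩⟩
    simp only [LinearMap.mulLeft_apply] at hvu ⊢
    have hu' : u ∈ M (K - 6 + 2) := by
      have e : K - 6 + 2 = K - 4 := by ring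
      rw [e]; exact hu
    obtain ⟨w, hw, hv', hu''⟩ := h.reg (K - 6) v u hv hu' hvu
    have e : K - 6 - 4 = K - 10 := by ring
    rw [e] at hw
    refine ⟨w, hw, ?_⟩
    simp only [LinearMap.mulLeft_apply]
    rw [hu'']; ring
  · rintro _ ⟨w, hw, rfl⟩
    refine ⟨⟨y * w, h.y_mul_mem (by ring) hw, ?_⟩, ⟨x * w, h.x_mul_mem (by ring) hw, ?_⟩⟩
    · simp only [LinearMap.mulLeft_apply]; ring
    · simp only [LinearMap.mulLeft_apply]; ring

lemma finrank_dec (h : GradedData M R x y) (K : ℤ) :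
    finrank ℂ (dec M x y K) + finrank ℂ (M (K - 10)) =
      finrank ℂ (M (K - 4)) + finrank ℂ (M (K - 6)) := by
  have := h.M_fin
  have h1 := Submodule.finrank_sup_add_finrank_inf_eq
    ((M (K - 4)).map (LinearMap.mulLeft ℂ x)) ((M (K - 6)).map (LinearMap.mulLeft ℂ y))
  rw [h.inf_eq K, h.finrank_map_mul (K - 4) x (h.x_reg _),
    h.finrank_map_mul (K - 6) y (h.y_reg _)] at h1
  rw [h.finrank_map_mul (K - 10) (x * y)] at h1
  · exact h1
  · intro f hf hxy
    have : x * (y * f) = 0 := by rw [← mul_assoc]; exact hxy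
    have h2 := h.x_reg (K - 4) (y * f) (h.y_mul_mem (by ring) hf) this
    exact h.y_reg _ f hf h2

lemma exists_compl (h : GradedData M R x y) (K : ℤ) :
    ∃ C : Submodule ℂ 𝔽, C ≤ M K ∧ C ⊓ dec M x y K = ⊥ ∧ C ⊔ dec M x y K = M K := by
  obtain ⟨q, hq⟩ := Submodule.exists_isCompl (dec M x y K)
  refine ⟨q ⊓ M K, inf_le_right, ?_, ?_⟩
  · have : q ⊓ M K ⊓ dec M x y K ≤ dec M x y K ⊓ q := by
      refine le_inf inf_le_right ?_
      exact inf_le_left.trans inf_le_left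
    rw [hq.inf_eq_bot] at this
    exact le_bot_iff.mp this
  · have h1 := sup_inf_assoc_of_le q (h.dec_le K)
    rw [hq.sup_eq_top, top_inf_eq] at h1
    rw [sup_comm]
    exact h1.symm

/-- A chosen complement of the decomposables in `M K`. -/
noncomputable def cpl (h : GradedData M R x y) (K : ℤ) : Submodule ℂ 𝔽 :=
  (h.exists_compl K).choose

lemma cpl_le (h : GradedData M R x y) (K : ℤ) : h.cpl K ≤ M K :=
  (h.exists_compl K).choose_spec.1

lemma cpl_inf (h : GradedData M R x y) (K : ℤ) : h.cpl K ⊓ dec M x y K = ⊥ :=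
  (h.exists_compl K).choose_spec.2.1

lemma cpl_sup (h : GradedData M R x y) (K : ℤ) : h.cpl K ⊔ dec M x y K = M K :=
  (h.exists_compl K).choose_spec.2.2

lemma cpl_fin (h : GradedData M R x y) (K : ℤ) : FiniteDimensional ℂ (h.cpl K) := by
  have := h.M_fin K
  exact Submodule.finiteDimensional_of_le (h.cpl_le K)

lemma cpl_eq_bot_of_neg (h : GradedData M R x y) {K : ℤ} (hK : K < 0) : h.cpl K = ⊥ := by
  have := h.cpl_le K
  rw [h.M_neg K hK] at this
  exact le_bot_iff.mp this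

lemma cpl_eq_bot_of_odd (h : GradedData M R x y) {K : ℤ} (hK : Odd K) : h.cpl K = ⊥ := by
  have := h.cpl_le K
  rw [h.M_odd K hK] at this
  exact le_bot_iff.mp this

/-- The Koszul recursion for the dimensions of the `M K`. -/
lemma d_rec (h : GradedData M R x y) (K : ℤ) :
    finrank ℂ (M K) + finrank ℂ (M (K - 10)) =
      finrank ℂ (M (K - 4)) + finrank ℂ (M (K - 6)) + finrank ℂ (h.cpl K) := by
  have := h.M_fin
  have := h.cpl_fin K
  have hdecfin : FiniteDimensional ℂ (dec M x y K) :=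
    Submodule.finiteDimensional_of_le (h.dec_le K)
  have h1 := Submodule.finrank_sup_add_finrank_inf_eq (h.cpl K) (dec M x y K)
  rw [h.cpl_sup K, h.cpl_inf K, finrank_bot] at h1
  have h2 := h.finrank_dec K
  omega

/-- The submodule generated in weight `K` by the chosen complements. -/
def gen (h : GradedData M R x y) (K : ℤ) : Submodule ℂ 𝔽 :=
  Submodule.span ℂ {g | ∃ (K' : ℤ) (a F : 𝔽), a ∈ R (K - K') ∧ F ∈ h.cpl K' ∧ g = a * F}

lemma mul_gen (h : GradedData M R x y) {K K' m : ℤ} (e : K + m = K') {c : 𝔽}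
    (hc : ∀ (j : ℤ) (a : 𝔽), a ∈ R j → c * a ∈ R (j + m)) {g : 𝔽} (hg : g ∈ h.gen K) :
    c * g ∈ h.gen K' := by
  induction hg using Submodule.span_induction with
  | mem g hg =>
    obtain ⟨K₀, a, F, ha, hF, rfl⟩ := hg
    refine Submodule.subset_span ⟨K₀, c * a, F, ?_, hF, by ring⟩
    have := hc _ a ha
    have e' : K - K₀ + m = K' - K₀ := by rw [← e]; ring
    rwa [e'] at this
  | zero => simp
  | add u v _ _ hu hv => rw [mul_add]; exact Submodule.add_mem _ hu hv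
  | smul t u _ hu => rw [mul_smul_comm]; exact Submodule.smul_mem _ t hu

lemma le_gen (h : GradedData M R x y) : ∀ n : ℕ, ∀ K : ℤ, K < n → M K ≤ h.gen K := by
  intro n
  induction n with
  | zero =>
    intro K hK
    rw [h.M_neg K (by simpa using hK)]
    exact bot_le
  | succ n ih =>
    intro K hK f hf
    rw [← h.cpl_sup K] at hf
    obtain ⟨c, hc, s, hs, rfl⟩ := Submodule.mem_sup.mp hf
    obtain ⟨s₁, hs₁, s₂, hs₂, rfl⟩ := Submodule.mem_sup.mp hs
    obtain ⟨u, hu, rfl⟩ := hs₁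
    obtain ⟨v, hv, rfl⟩ := hs₂
    refine Submodule.add_mem _ ?_ (Submodule.add_mem _ ?_ ?_)
    · refine Submodule.subset_span ⟨K, 1, c, ?_, hc, by ring⟩
      rw [sub_self]; exact h.one_mem
    · have hu' := ih (K - 4) (by push_cast at hK; omega) hu
      exact h.mul_gen (by ring) h.x_mul hu'
    · have hv' := ih (K - 6) (by push_cast at hK; omega) hv
      exact h.mul_gen (by ring) h.y_mul hv'

lemma M_le_gen (h : GradedData M R x y) (K : ℤ) : M K ≤ h.gen K :=
  h.le_gen (K.toNat + 1) K (by push_cast; omega)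

/-- The dimension of `M K` as a convolution of the generator counts with the dimensions of the
`R m`. -/
lemma dD (h : GradedData M R x y) (K₂ : ℕ) : ∀ n : ℕ, ∀ K : ℤ, K < n →
    (∀ K' : ℕ, K₂ ≤ K' → (K' : ℤ) ≤ K → finrank ℂ (h.cpl (K' : ℤ)) = 0) →
    finrank ℂ (M K) =
      ∑ K' ∈ Finset.range K₂, finrank ℂ (h.cpl (K' : ℤ)) * finrank ℂ (R (K - K')) := by
  have hneg : ∀ K : ℤ, K < 0 → finrank ℂ (M K) =
      ∑ K' ∈ Finset.range K₂, finrank ℂ (h.cpl (K' : ℤ)) * finrank ℂ (R (K - K')) := by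
    intro K hK'
    rw [h.M_neg K hK', finrank_bot]
    symm
    apply Finset.sum_eq_zero
    intro K' _
    rw [h.R_neg (K - K') (by omega), finrank_bot, mul_zero]
  intro n
  induction n with
  | zero =>
    intro K hK _
    exact hneg K (by simpa using hK)
  | succ n ih =>
    intro K hK hcov
    rcases lt_or_ge K 0 with hK0 | hK0
    · exact hneg K hK0
    · obtain ⟨k, rfl⟩ := Int.eq_ofNat_of_zero_le hK0
      have e4 := ih ((k : ℤ) - 4) (by push_cast at hK; omega)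
        (fun K' h1 h2 => hcov K' h1 (by omega))
      have e6 := ih ((k : ℤ) - 6) (by push_cast at hK; omega)
        (fun K' h1 h2 => hcov K' h1 (by omega))
      have e10 := ih ((k : ℤ) - 10) (by push_cast at hK; omega)
        (fun K' h1 h2 => hcov K' h1 (by omega))
      have hrec := h.d_rec (k : ℤ)
      have hsum : (∑ K' ∈ Finset.range K₂,
            finrank ℂ (h.cpl (K' : ℤ)) * finrank ℂ (R ((k : ℤ) - K'))) +
          (∑ K' ∈ Finset.range K₂,
            finrank ℂ (h.cpl (K' : ℤ)) * finrank ℂ (R ((k : ℤ) - 10 - K'))) =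
          (∑ K' ∈ Finset.range K₂,
            finrank ℂ (h.cpl (K' : ℤ)) * finrank ℂ (R ((k : ℤ) - 4 - K'))) +
          (∑ K' ∈ Finset.range K₂,
            finrank ℂ (h.cpl (K' : ℤ)) * finrank ℂ (R ((k : ℤ) - 6 - K'))) +
          finrank ℂ (h.cpl (k : ℤ)) := by
        rw [← Finset.sum_add_distrib, ← Finset.sum_add_distrib]
        have hterm : ∀ K' ∈ Finset.range K₂,
            finrank ℂ (h.cpl (K' : ℤ)) * finrank ℂ (R ((k : ℤ) - K')) +
              finrank ℂ (h.cpl (K' : ℤ)) * finrank ℂ (R ((k : ℤ) - 10 - K')) =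
            (finrank ℂ (h.cpl (K' : ℤ)) * finrank ℂ (R ((k : ℤ) - 4 - K')) +
              finrank ℂ (h.cpl (K' : ℤ)) * finrank ℂ (R ((k : ℤ) - 6 - K'))) +
              (if k = K' then finrank ℂ (h.cpl (K' : ℤ)) else 0) := by
          intro K' _
          have hr := h.r_rec ((k : ℤ) - K')
          rw [show (k : ℤ) - 10 - (K' : ℤ) = (k : ℤ) - K' - 10 by ring,
            show (k : ℤ) - 4 - (K' : ℤ) = (k : ℤ) - K' - 4 by ring,
            show (k : ℤ) - 6 - (K' : ℤ) = (k : ℤ) - K' - 6 by ring,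
            ← mul_add, ← mul_add, hr, mul_add]
          congr 1
          by_cases hkk : k = K'
          · subst hkk; simp
          · have : ¬ ((k : ℤ) - (K' : ℤ) = 0) := by omega
            simp [hkk, this]
        rw [Finset.sum_congr rfl hterm, Finset.sum_add_distrib, Finset.sum_ite_eq]
        congr 1
        split_ifs with hmem
        · rfl
        · have : K₂ ≤ k := by simpa using hmem
          exact (hcov k this le_rfl).symm
      omega

lemma partial_sum_le (h : GradedData M R x y) : ∃ A : ℕ, ∀ K₀ : ℕ,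
    ∑ K' ∈ Finset.range (2 * K₀ + 1), finrank ℂ (h.cpl (K' : ℤ)) ≤ 12 * A := by
  obtain ⟨A, B, hAB⟩ := h.bound
  refine ⟨A, fun K₀ => ?_⟩
  set t : ℕ := A * (2 * K₀) + B + 1 with ht
  set K : ℕ := 2 * K₀ + 12 * t with hK
  have hd := h.dD (K + 1) (K + 1) (K : ℤ) (by push_cast; omega)
    (fun K' h1 h2 => by exfalso; omega)
  have h1 : (∑ K' ∈ Finset.range (2 * K₀ + 1), finrank ℂ (h.cpl (K' : ℤ))) * t ≤
      ∑ K' ∈ Finset.range (K + 1),
        finrank ℂ (h.cpl (K' : ℤ)) * finrank ℂ (R ((K : ℤ) - K')) := by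
    rw [Finset.sum_mul]
    refine le_trans (Finset.sum_le_sum (fun K' hK' => ?_))
      (Finset.sum_le_sum_of_subset (Finset.range_mono (by omega)))
    have hK'le : K' ≤ 2 * K₀ := by
      have := Finset.mem_range.mp hK'; omega
    rcases Nat.even_or_odd K' with hev | hodd
    · apply Nat.mul_le_mul_left
      have e : ((K : ℤ) - (K' : ℤ)) = ((K - K' : ℕ) : ℤ) := by
        rw [Nat.cast_sub (by omega)]
      rw [e]
      have hev' : Even (K - K') := by
        rw [Nat.even_sub (by omega)]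
        have : Even K := by
          rw [hK]; exact Even.add (even_two_mul _) (Even.mul_right (by decide) _)
        exact ⟨fun _ => hev, fun _ => this⟩
      refine le_trans ?_ (h.r_low (K - K') hev')
      rw [Nat.le_div_iff_mul_le (by norm_num)]
      omega
    · rw [h.cpl_eq_bot_of_odd (by exact_mod_cast hodd), finrank_bot]
      simp
  have h2 : (∑ K' ∈ Finset.range (2 * K₀ + 1), finrank ℂ (h.cpl (K' : ℤ))) * t ≤
      A * K + B := by
    rw [← hd] at h1
    exact h1.trans (hAB K)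
  have h3 : (∑ K' ∈ Finset.range (2 * K₀ + 1), finrank ℂ (h.cpl (K' : ℤ))) * t <
      (12 * A + 1) * t := by
    have : A * K + B < (12 * A + 1) * t := by
      rw [hK]; nlinarith
    exact lt_of_le_of_lt h2 this
  exact Nat.lt_succ_iff.mp (Nat.lt_of_mul_lt_mul_right h3)

lemma exists_bound (h : GradedData M R x y) :
    ∃ K₁ : ℕ, ∀ K' : ℕ, K₁ ≤ K' → finrank ℂ (h.cpl (K' : ℤ)) = 0 := by
  obtain ⟨A, hA⟩ := h.partial_sum_le
  set P : ℕ → ℕ := fun n => ∑ K' ∈ Finset.range n, finrank ℂ (h.cpl (K' : ℤ)) with hP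
  have hmono : Monotone P := fun a b hab =>
    Finset.sum_le_sum_of_subset (Finset.range_mono hab)
  have hbdd : ∀ n, P n ≤ 12 * A := fun n => (hmono (by omega : n ≤ 2 * n + 1)).trans (hA n)
  have hne : (Set.range P).Nonempty := ⟨P 0, 0, rfl⟩
  have hb : BddAbove (Set.range P) := ⟨12 * A, by rintro _ ⟨n, rfl⟩; exact hbdd n⟩
  obtain ⟨K₁, hK₁⟩ := Nat.sSup_mem hne hb
  refine ⟨K₁, fun K' hK' => ?_⟩
  have h1 : P (K' + 1) ≤ P K₁ := by rw [hK₁]; exact le_csSup hb ⟨K' + 1, rfl⟩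
  have h2 : P K₁ ≤ P K' := hmono hK'
  have h3 : P (K' + 1) = P K' + finrank ℂ (h.cpl (K' : ℤ)) := Finset.sum_range_succ _ _
  omega

/-- **Freeness.** There is a finite homogeneous family `F i ∈ M (k i)` such that every element of
`M K` is uniquely an `R`-combination of the `F i` with homogeneous coefficients. -/
theorem exists_basis (h : GradedData M R x y) :
    ∃ (n : ℕ) (k : Fin n → ℕ) (F : Fin n → 𝔽), (∀ i, F i ∈ M (k i)) ∧
      (∀ (K : ℤ) (f : 𝔽), f ∈ M K →
        ∃! a : Fin n → 𝔽, (∀ i, a i ∈ R (K - k i)) ∧ f = ∑ i, a i * F i) ∧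
      (∀ K : ℤ, finrank ℂ (M K) = ∑ i, finrank ℂ (R (K - k i))) := by
  classical
  obtain ⟨K₁, hK₁⟩ := h.exists_bound
  have := h.cpl_fin
  have := h.M_fin
  have := h.R_fin
  let ι := Σ K' : Fin K₁, Fin (finrank ℂ (h.cpl ((K' : ℕ) : ℤ)))
  let kk : ι → ℕ := fun p => (p.1 : ℕ)
  let FF : ι → 𝔽 := fun p => ((Module.finBasis ℂ (h.cpl ((p.1 : ℕ) : ℤ))) p.2 : 𝔽)
  have hFF : ∀ p, FF p ∈ M (kk p) := fun p => h.cpl_le _ (Submodule.coe_mem _)
  have key : ∀ K : ℤ, (∀ f ∈ M K, ∃! a : ι → 𝔽, (∀ p, a p ∈ R (K - kk p)) ∧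
      f = ∑ p, a p * FF p) ∧ finrank ℂ (M K) = ∑ p, finrank ℂ (R (K - kk p)) := by
    intro K
    let Ψ : (Π p : ι, R (K - kk p)) →ₗ[ℂ] 𝔽 :=
      ∑ p, (LinearMap.mulRight ℂ (FF p)).comp ((R (K - kk p)).subtype.comp (LinearMap.proj p))
    have hΨ : ∀ v, Ψ v = ∑ p, (v p : 𝔽) * FF p := by
      intro v
      simp [Ψ, LinearMap.sum_apply]
    have hrange : LinearMap.range Ψ = M K := by
      apply le_antisymm
      · rintro _ ⟨v, rfl⟩
        rw [hΨ]
        exact Submodule.sum_mem _ (fun p _ => h.mul_mem' (by ring) (v p).2 (hFF p))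
      · refine (h.M_le_gen K).trans (Submodule.span_le.mpr ?_)
        rintro _ ⟨K', a, G, ha, hG, rfl⟩
        rcases lt_or_ge K' 0 with hneg | hnn
        · rw [h.cpl_eq_bot_of_neg hneg] at hG
          rw [(Submodule.mem_bot ℂ).mp hG, mul_zero]
          exact zero_mem _
        · obtain ⟨κ, rfl⟩ := Int.eq_ofNat_of_zero_le hnn
          rcases le_or_gt K₁ κ with hge | hlt
          · have hbot : h.cpl (κ : ℤ) = ⊥ := Submodule.finrank_eq_zero.mp (hK₁ κ hge)
            rw [hbot] at hG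
            rw [(Submodule.mem_bot ℂ).mp hG, mul_zero]
            exact zero_mem _
          · have hG' := (Module.finBasis ℂ (h.cpl (κ : ℤ))).sum_repr ⟨G, hG⟩
            have hGsum : G = ∑ j, ((Module.finBasis ℂ (h.cpl (κ : ℤ))).repr ⟨G, hG⟩ j) •
                ((Module.finBasis ℂ (h.cpl (κ : ℤ)) j : h.cpl (κ : ℤ)) : 𝔽) := by
              refine (congrArg Subtype.val hG').symm.trans ?_
              simp only [Submodule.coe_sum, Submodule.coe_smul]
            rw [hGsum, Finset.mul_sum]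
            refine Submodule.sum_mem _ (fun j _ => ?_)
            rw [mul_smul_comm]
            refine Submodule.smul_mem _ _ ?_
            refine ⟨Pi.single (⟨⟨κ, hlt⟩, j⟩ : ι) ⟨a, ha⟩, ?_⟩
            rw [hΨ, Finset.sum_eq_single (⟨⟨κ, hlt⟩, j⟩ : ι)]
            · simp [FF]
            · intro p _ hp
              simp [Pi.single_eq_of_ne hp]
            · intro hh
              exact absurd (Finset.mem_univ _) hh
    have hdim : finrank ℂ (Π p : ι, R (K - kk p)) = finrank ℂ (M K) := by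
      rw [Module.finrank_pi_fintype, Fintype.sum_sigma]
      have hconst : ∀ K' : Fin K₁,
          ∑ j : Fin (finrank ℂ (h.cpl ((K' : ℕ) : ℤ))), finrank ℂ (R (K - kk ⟨K', j⟩)) =
            finrank ℂ (h.cpl ((K' : ℕ) : ℤ)) * finrank ℂ (R (K - ((K' : ℕ) : ℤ))) := by
        intro K'
        show ∑ _j : Fin (finrank ℂ (h.cpl ((K' : ℕ) : ℤ))),
          finrank ℂ (R (K - ((K' : ℕ) : ℤ))) = _
        rw [Finset.sum_const, Finset.card_univ, Fintype.card_fin, smul_eq_mul]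
      rw [Fintype.sum_congr _ _ hconst]
      rw [Fin.sum_univ_eq_sum_range
        (fun K' => finrank ℂ (h.cpl (K' : ℤ)) * finrank ℂ (R (K - K'))) K₁]
      exact (h.dD K₁ (K.toNat + 1) K (by omega) (fun K' h1 _ => hK₁ K' h1)).symm
    have hinj : Function.Injective Ψ := by
      rw [← LinearMap.ker_eq_bot]
      have := LinearMap.finrank_range_add_finrank_ker Ψ
      rw [hrange, hdim] at this
      exact Submodule.finrank_eq_zero.mp (by omega)
    refine ⟨fun f hf => ?_, ?_⟩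
    · rw [← hrange] at hf
      obtain ⟨v, rfl⟩ := hf
      refine ⟨fun p => (v p : 𝔽), ⟨fun p => (v p).2, hΨ v⟩, ?_⟩
      rintro a ⟨ha, hfa⟩
      have hv : Ψ (fun p => ⟨a p, ha p⟩) = Ψ v := by
        rw [hΨ, hfa]
      have := hinj hv
      funext p
      exact congrArg Subtype.val (congrFun this p)
    · rw [← hdim, Module.finrank_pi_fintype]
  let e : ι ≃ Fin (Fintype.card ι) := Fintype.equivFin ι
  refine ⟨Fintype.card ι, kk ∘ e.symm, FF ∘ e.symm, fun i => hFF _, fun K f hf => ?_,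
    fun K => ?_⟩
  · obtain ⟨a, ⟨ha, hfa⟩, huniq⟩ := (key K).1 f hf
    refine ⟨a ∘ e.symm, ⟨fun i => ha _, ?_⟩, ?_⟩
    · rw [hfa]
      exact (Equiv.sum_comp e.symm (fun p => a p * FF p)).symm
    · rintro a' ⟨ha', hfa'⟩
      have hmem : ∀ p, (a' ∘ e) p ∈ R (K - kk p) := by
        intro p
        have := ha' (e p)
        simpa using this
      have hsum : f = ∑ p, (a' ∘ e) p * FF p := by
        rw [hfa']
        have := Equiv.sum_comp e (fun i => a' i * (FF ∘ e.symm) i)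
        simpa using this.symm
      have := huniq (a' ∘ e) ⟨hmem, hsum⟩
      funext i
      have h2 := congrFun this (e.symm i)
      simpa using h2
  · rw [(key K).2]
    exact (Equiv.sum_comp e.symm (fun p => finrank ℂ (R (K - kk p)))).symm

end GradedData

end Abstract

/-! ### Analytic input -/

lemma nice_tendsto {f : ℍ → ℂ} (hf : Nice f) :
    Tendsto f atImInfty (𝓝 ((qExpansion 1 f).coeff 0)) := by
  have h1 : (cuspFunction 1 f ∘ fun τ : ℍ ↦ Function.Periodic.qParam 1 τ : ℍ → ℂ) = f := by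
    funext τ
    simpa using eq_cuspFunction τ one_ne_zero hf.per
  have h2 : (qExpansion 1 f).coeff 0 = cuspFunction 1 f 0 := by
    simp [qExpansion_coeff]
  rw [h2]
  have := hf.analyticAt.continuousAt.tendsto.comp (qParam_tendsto_atImInfty one_pos)
  rwa [h1] at this

lemma E4_isMF : IsMF 𝒮ℒ 4 (E₄ : ℍ → ℂ) := IsMF.coe E₄

lemma E6_isMF : IsMF 𝒮ℒ 6 (E₆ : ℍ → ℂ) := IsMF.coe E₆

lemma E4_tendsto : Tendsto (E₄ : ℍ → ℂ) atImInfty (𝓝 1) := by
  have := nice_tendsto E4_isMF.niceSL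
  rwa [EisensteinSeries.E_qExpansion_coeff_zero _ ⟨2, rfl⟩] at this

lemma E6_tendsto : Tendsto (E₆ : ℍ → ℂ) atImInfty (𝓝 1) := by
  have := nice_tendsto E6_isMF.niceSL
  rwa [EisensteinSeries.E_qExpansion_coeff_zero _ ⟨3, rfl⟩] at this

lemma E4_fun_ne_zero : (E₄ : ℍ → ℂ) ≠ 0 := by
  intro h
  exact EisensteinSeries.E_ne_zero (by norm_num : 3 ≤ 4) ⟨2, rfl⟩ (DFunLike.coe_injective h)

lemma E6_fun_ne_zero : (E₆ : ℍ → ℂ) ≠ 0 := by
  intro h
  exact EisensteinSeries.E_ne_zero (by norm_num : 3 ≤ 6) ⟨3, rfl⟩ (DFunLike.coe_injective h)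

lemma E4_cube_sub_E6_sq (z : ℍ) :
    E₄ z ^ 3 - E₆ z ^ 2 = 1728 * ModularForm.discriminant z := by
  rw [ModularForm.discriminant_eq_E₄_cube_sub_E₆_sq]; ring

lemma mdiff_of_isMF {Γ : Subgroup (GL (Fin 2) ℝ)} {k : ℤ} {g : ℍ → ℂ} (hg : IsMF Γ k g) :
    MDiff g := by
  obtain ⟨F, rfl⟩ := hg
  exact ModularFormClass.holo F

lemma slash_eq_of_isMF_SL {k : ℤ} {g : ℍ → ℂ} (hg : IsMF 𝒮ℒ k g) (δ : SL(2, ℤ)) :
    g ∣[k] δ = g := by
  obtain ⟨F, rfl⟩ := hg
  exact SlashInvariantFormClass.slash_action_eq F _ ⟨δ, rfl⟩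

lemma slash_eq_of_isMF_G0 {N : ℕ} {k : ℤ} {g : ℍ → ℂ} (hg : IsMF (G0 N) k g)
    {γ : SL(2, ℤ)} (hγ : γ ∈ CongruenceSubgroup.Gamma0 N) : g ∣[k] γ = g := by
  obtain ⟨F, rfl⟩ := hg
  exact SlashInvariantFormClass.slash_action_eq F _ ⟨γ, hγ, rfl⟩

/-- A form of level `Γ₀(N)` is bounded at `i∞` after slashing with any element of `SL(2, ℤ)`. -/
lemma isBoundedAtImInfty_slash {N : ℕ} [NeZero N] {k : ℤ} {g : ℍ → ℂ} (hg : IsMF (G0 N) k g)
    (δ : SL(2, ℤ)) : IsBoundedAtImInfty (g ∣[k] δ) := by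
  obtain ⟨F, rfl⟩ := hg
  have hc : IsCusp ((Matrix.SpecialLinearGroup.mapGL ℝ δ) • OnePoint.infty) 𝒮ℒ :=
    isCusp_SL2Z_iff'.mpr ⟨δ, rfl⟩
  have hc' : IsCusp ((Matrix.SpecialLinearGroup.mapGL ℝ δ) • OnePoint.infty) (G0 N) := by
    rw [Subgroup.IsArithmetic.isCusp_iff_isCusp_SL2Z]
    exact hc
  have := F.bdd_at_cusps' hc'
  rw [OnePoint.isBoundedAt_iff_forall_SL2Z hc] at this
  exact this δ rfl


/-- Division by a level-one form with non-zero value at `i∞`: if the quotient is holomorphic,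
it is a modular form. -/
theorem isMF_of_mul_eq (N : ℕ) [NeZero N] {k w : ℤ} {G A B : ℍ → ℂ}
    (hA : IsMF (G0 N) (k + w) A) (hB : IsMF 𝒮ℒ w B) (hG : MDiff G) (hGB : G * B = A)
    {c : ℂ} (hc : c ≠ 0) (hBc : Tendsto B atImInfty (𝓝 c)) : IsMF (G0 N) k G := by
  have hB0 : B ≠ 0 := by
    rintro rfl
    have : Tendsto (0 : ℍ → ℂ) atImInfty (𝓝 0) := tendsto_const_nhds
    exact hc (tendsto_nhds_unique hBc this)
  have hBd := mdiff_of_isMF hB
  refine ⟨{ toFun := G
            slash_action_eq' := ?_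
            holo' := hG
            bdd_at_cusps' := ?_ }, rfl⟩
  · rintro _ ⟨γ, hγ, rfl⟩
    exact Fermat.Agent.Lib.HoloQuotient.slash_eq_of_mul_eq hG hBd hB0 hGB γ
      (slash_eq_of_isMF_G0 hA hγ) (slash_eq_of_isMF_SL hB γ)
  · intro c' hc'
    rw [Subgroup.IsArithmetic.isCusp_iff_isCusp_SL2Z] at hc'
    rw [OnePoint.isBoundedAt_iff_forall_SL2Z hc']
    intro δ _
    have h1 : (G ∣[k] δ) * B = A ∣[k + w] δ := by
      have := ModularForm.mul_slash_SL2 k w δ G B
      rw [hGB, slash_eq_of_isMF_SL hB δ] at this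
      exact this.symm
    have hAb : IsBoundedAtImInfty (A ∣[k + w] δ) := isBoundedAtImInfty_slash hA δ
    have hev : ∀ᶠ z in atImInfty, ‖c‖ / 2 < ‖B z‖ := by
      have : Tendsto (fun z => ‖B z‖) atImInfty (𝓝 ‖c‖) := hBc.norm
      exact this.eventually (lt_mem_nhds (by have := norm_pos_iff.mpr hc; linarith))
    have hcpos : 0 < ‖c‖ := norm_pos_iff.mpr hc
    rw [IsBoundedAtImInfty, BoundedAtFilter] at hAb ⊢
    refine Asymptotics.IsBigO.trans (Asymptotics.IsBigO.of_bound (2 / ‖c‖) ?_) hAb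
    filter_upwards [hev] with z hz
    have h2 : (G ∣[k] δ) z * B z = (A ∣[k + w] δ) z := congr_fun h1 z
    rw [← h2, norm_mul]
    have h3 : 0 ≤ ‖(G ∣[k] δ) z‖ := norm_nonneg _
    rw [div_mul_eq_mul_div, le_div_iff₀ hcpos]
    nlinarith

/-- The key regular-sequence property: `E₆ f = E₄ g` forces `f = E₄ h`, `g = E₆ h`. -/
theorem exists_div_E4 (N : ℕ) [NeZero N] {K : ℤ} {f g : ℍ → ℂ} (hf : IsMF (G0 N) K f)
    (hg : IsMF (G0 N) (K + 2) g) (h : ∀ z, E₆ z * f z = E₄ z * g z) :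
    ∃ h' : ℍ → ℂ, IsMF (G0 N) (K - 4) h' ∧ (∀ z, f z = E₄ z * h' z) ∧
      (∀ z, g z = E₆ z * h' z) := by
  set h' : ℍ → ℂ := ((E₄ : ℍ → ℂ) ^ 2 * f - (E₆ : ℍ → ℂ) * g) /
    (fun z => 1728 * ModularForm.discriminant z) with hh'
  have hD : ∀ z : ℍ, (1728 : ℂ) * ModularForm.discriminant z ≠ 0 := fun z =>
    mul_ne_zero (by norm_num) (ModularForm.discriminant_ne_zero z)
  have h1 : ∀ z, f z = E₄ z * h' z := by
    intro z
    have e := E4_cube_sub_E6_sq z
    have hz := h z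
    simp only [hh', Pi.div_apply, Pi.sub_apply, Pi.mul_apply, Pi.pow_apply]
    have hDz := hD z
    rw [← e] at hDz ⊢
    field_simp
    linear_combination (-(E₆ z)) * hz
  have h2 : ∀ z, g z = E₆ z * h' z := by
    intro z
    have e := E4_cube_sub_E6_sq z
    have hz := h z
    simp only [hh', Pi.div_apply, Pi.sub_apply, Pi.mul_apply, Pi.pow_apply]
    have hDz := hD z
    rw [← e] at hDz ⊢
    field_simp
    linear_combination (-(E₄ z) ^ 2) * hz
  have hdisc : MDiff (fun z : ℍ => (1728 : ℂ) * ModularForm.discriminant z) := by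
    have h0 : MDiff (ModularForm.discriminant) := CuspForm.discriminant.holo'
    have hc : MDiff (fun _ : ℍ => (1728 : ℂ)) := fun _ => mdifferentiableAt_const
    exact hc.mul h0
  have hmd : MDiff h' := by
    refine MDifferentiable.div ?_ hdisc hD
    exact (((mdiff_of_isMF E4_isMF).pow 2).mul (mdiff_of_isMF hf)).sub
      ((mdiff_of_isMF E6_isMF).mul (mdiff_of_isMF hg))
  refine ⟨h', ?_, h1, h2⟩
  have hf' : IsMF (G0 N) (K - 4 + 4) f := hf.weight_congr (by ring)
  refine isMF_of_mul_eq N hf' E4_isMF hmd ?_ one_ne_zero E4_tendsto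
  funext z
  rw [Pi.mul_apply, h1 z, mul_comm]

/-- The coercion to functions as a linear map. -/
noncomputable def coeLin (Γ : Subgroup (GL (Fin 2) ℝ)) [Γ.HasDetOne] (k : ℤ) :
    ModularForm Γ k →ₗ[ℂ] (ℍ → ℂ) where
  toFun F := ⇑F
  map_add' _ _ := rfl
  map_smul' _ _ := rfl

lemma coeLin_injective (Γ : Subgroup (GL (Fin 2) ℝ)) [Γ.HasDetOne] (k : ℤ) :
    Function.Injective (coeLin Γ k) := fun _ _ h => DFunLike.coe_injective h

/-- Forms of level `Γ₀(N)` and weight `K`, as a space of functions. -/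
noncomputable def MS (N : ℕ) (K : ℤ) : Submodule ℂ (ℍ → ℂ) := LinearMap.range (coeLin (G0 N) K)

/-- Forms of level one and weight `m`, as a space of functions. -/
noncomputable def RS (m : ℤ) : Submodule ℂ (ℍ → ℂ) := LinearMap.range (coeLin 𝒮ℒ m)

lemma mem_MS {N : ℕ} {K : ℤ} {f : ℍ → ℂ} : f ∈ MS N K ↔ IsMF (G0 N) K f := Iff.rfl

lemma mem_RS {m : ℤ} {f : ℍ → ℂ} : f ∈ RS m ↔ IsMF 𝒮ℒ m f := Iff.rfl

lemma finrank_MS (N : ℕ) (K : ℤ) :
    finrank ℂ (MS N K) = finrank ℂ (ModularForm (G0 N) K) :=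
  LinearMap.finrank_range_of_inj (coeLin_injective _ _)

lemma finrank_RS (m : ℤ) : finrank ℂ (RS m) = finrank ℂ (ModularForm 𝒮ℒ m) :=
  LinearMap.finrank_range_of_inj (coeLin_injective _ _)

/-- The explicit level-one dimension function. -/
def lvl1 (m : ℤ) : ℕ :=
  if m < 0 then 0 else if m % 2 = 1 then 0 else
    if m.toNat % 12 = 2 then m.toNat / 12 else m.toNat / 12 + 1

lemma finrank_levelOne (m : ℤ) : finrank ℂ (ModularForm 𝒮ℒ m) = lvl1 m := by
  unfold lvl1
  split_ifs with h1 h2 h3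
  · exact Module.finrank_eq_zero_of_rank_eq_zero (ModularForm.levelOne_neg_weight_rank_zero h1)
  · exact Module.finrank_eq_zero_of_rank_eq_zero
      (ModularForm.levelOne_odd_weight_rank_zero (Int.odd_iff.mpr h2))
  · obtain ⟨k, rfl⟩ := Int.eq_ofNat_of_zero_le (not_lt.mp h1)
    have hk : Even k := by
      rw [Nat.even_iff]; omega
    have := ModularForm.dimension_level_one k hk
    rw [if_pos (by simpa [Nat.ModEq] using h3)] at this
    simpa using finrank_eq_of_rank_eq this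
  · obtain ⟨k, rfl⟩ := Int.eq_ofNat_of_zero_le (not_lt.mp h1)
    have hk : Even k := by
      rw [Nat.even_iff]; omega
    have := ModularForm.dimension_level_one k hk
    rw [if_neg (by simpa [Nat.ModEq] using h3)] at this
    simpa using finrank_eq_of_rank_eq this

lemma lvl1_neg {m : ℤ} (h : m < 0) : lvl1 m = 0 := by
  simp [lvl1, h]

lemma lvl1_odd {m : ℤ} (h : m % 2 = 1) : lvl1 m = 0 := by
  unfold lvl1
  split_ifs <;> rfl

lemma lvl1_even (k : ℕ) (hk : k % 2 = 0) :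
    lvl1 (k : ℤ) = if k % 12 = 2 then k / 12 else k / 12 + 1 := by
  unfold lvl1
  have h1 : ¬ ((k : ℤ) < 0) := by omega
  have h2 : ¬ ((k : ℤ) % 2 = 1) := by omega
  rw [if_neg h1, if_neg h2, Int.toNat_natCast]

lemma lvl1_rec (m : ℤ) :
    lvl1 m + lvl1 (m - 10) = lvl1 (m - 4) + lvl1 (m - 6) + if m = 0 then 1 else 0 := by
  rcases lt_or_ge m 0 with h | h
  · rw [lvl1_neg h, lvl1_neg (by omega : m - 10 < 0), lvl1_neg (by omega : m - 4 < 0),
      lvl1_neg (by omega : m - 6 < 0), if_neg (by omega)]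
  · obtain ⟨k, rfl⟩ := Int.eq_ofNat_of_zero_le h
    rcases Nat.even_or_odd k with hk | hk
    · rw [Nat.even_iff] at hk
      rcases lt_or_ge k 10 with h10 | h10
      · interval_cases k <;> decide
      · have e10 : ((k : ℤ) - 10) = ((k - 10 : ℕ) : ℤ) := by omega
        have e4 : ((k : ℤ) - 4) = ((k - 4 : ℕ) : ℤ) := by omega
        have e6 : ((k : ℤ) - 6) = ((k - 6 : ℕ) : ℤ) := by omega
        rw [e10, e4, e6, lvl1_even k hk, lvl1_even (k - 10) (by omega),
          lvl1_even (k - 4) (by omega), lvl1_even (k - 6) (by omega),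
          if_neg (by omega : ¬ ((k : ℤ) = 0))]
        split_ifs <;> omega
    · rw [Nat.odd_iff] at hk
      rw [lvl1_odd (by omega : (k : ℤ) % 2 = 1), lvl1_odd (by omega : ((k : ℤ) - 10) % 2 = 1),
        lvl1_odd (by omega : ((k : ℤ) - 4) % 2 = 1), lvl1_odd (by omega : ((k : ℤ) - 6) % 2 = 1),
        if_neg (by omega)]

lemma lvl1_low (m : ℕ) (hm : Even m) : m / 12 ≤ lvl1 (m : ℤ) := by
  rw [Nat.even_iff] at hm
  rw [lvl1_even m hm]
  split_ifs <;> omega

/-! ### The concrete graded data -/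

lemma neg_one_mem_G0 (N : ℕ) : (-1 : GL (Fin 2) ℝ) ∈ G0 N := by
  refine ⟨-1, ?_, by ext; simp⟩
  show (-1 : SL(2, ℤ)) ∈ CongruenceSubgroup.Gamma0 N
  rw [CongruenceSubgroup.Gamma0_mem]
  simp

/-- The `q`-expansion coefficients up to the Sturm bound, as a linear map. -/
noncomputable def sturmMap (N : ℕ) (K : ℤ) (B : ℕ) :
    ModularForm (G0 N) K →ₗ[ℂ] (Fin (B + 1) → ℂ) where
  toFun F i := (qExpansion 1 (F : ℍ → ℂ)).coeff (i : ℕ)
  map_add' F G := by
    funext i
    have := ModularForm.qExpansion_add one_pos (one_mem_strictPeriods_G0 N) F G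
    simp only [Pi.add_apply]
    rw [← map_add, ← this]
    rfl
  map_smul' c F := by
    funext i
    have := ModularForm.qExpansion_smul one_pos (one_mem_strictPeriods_G0 N) c F
    simp only [Pi.smul_apply, RingHom.id_apply, smul_eq_mul]
    rw [← smul_eq_mul, ← PowerSeries.coeff_smul, ← this]
    rfl

lemma sturmMap_injective (N : ℕ) [NeZero N] (K : ℤ) :
    Function.Injective
      (sturmMap N K ((K * ((CongruenceSubgroup.Gamma0 N).index : ℤ)).toNat / 12)) := by
  rw [← LinearMap.ker_eq_bot, LinearMap.ker_eq_bot']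
  intro F hF
  apply ModularForm.sturm_bound_Gamma0 N F
  intro n hn
  have := congrFun hF ⟨n, Nat.lt_succ_of_le hn⟩
  exact this

instance finiteDimensional_G0 (N : ℕ) [NeZero N] (K : ℤ) :
    FiniteDimensional ℂ (ModularForm (G0 N) K) :=
  FiniteDimensional.of_injective _ (sturmMap_injective N K)

lemma finrank_G0_le (N : ℕ) [NeZero N] (K : ℕ) :
    finrank ℂ (ModularForm (G0 N) (K : ℤ)) ≤ (CongruenceSubgroup.Gamma0 N).index * K + 1 := by
  have h1 := LinearMap.finrank_le_finrank_of_injective (sturmMap_injective N (K : ℤ))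
  rw [Module.finrank_fin_fun] at h1
  have h2 : (((K : ℤ) * ((CongruenceSubgroup.Gamma0 N).index : ℤ)).toNat) =
      K * (CongruenceSubgroup.Gamma0 N).index := by
    rw [← Nat.cast_mul, Int.toNat_natCast]
  rw [h2] at h1
  calc finrank ℂ (ModularForm (G0 N) (K : ℤ))
      ≤ K * (CongruenceSubgroup.Gamma0 N).index / 12 + 1 := h1
    _ ≤ K * (CongruenceSubgroup.Gamma0 N).index + 1 :=
        Nat.add_le_add_right (Nat.div_le_self _ _) 1
    _ = (CongruenceSubgroup.Gamma0 N).index * K + 1 := by rw [mul_comm]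

/-- The graded data for level `Γ₀(N)`. -/
theorem gradedData (N : ℕ) [NeZero N] :
    GradedData (MS N) RS (E₄ : ℍ → ℂ) (E₆ : ℍ → ℂ) where
  one_mem := mem_RS.mpr IsMF.one
  x_mul m a ha := mem_RS.mpr ((E4_isMF.mul (mem_RS.mp ha)).weight_congr (add_comm _ _))
  y_mul m a ha := mem_RS.mpr ((E6_isMF.mul (mem_RS.mp ha)).weight_congr (add_comm _ _))
  mul_mem m K a f ha hf :=
    mem_MS.mpr ((((mem_RS.mp ha).toG0 N).mul (mem_MS.mp hf)).weight_congr (add_comm _ _))
  M_neg K hK := by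
    rw [eq_bot_iff]
    rintro _ ⟨F, rfl⟩
    rw [ModularForm.isZero_of_neg_weight hK F]
    exact zero_mem _
  M_odd K hK := by
    rw [eq_bot_iff]
    rintro _ ⟨F, rfl⟩
    rw [ModularForm.eq_zero_of_neg_one_mem (neg_one_mem_G0 N) hK F]
    exact zero_mem _
  R_neg m hm := by
    rw [eq_bot_iff]
    rintro _ ⟨F, rfl⟩
    rw [ModularForm.isZero_of_neg_weight hm F]
    exact zero_mem _
  M_fin K := LinearMap.finiteDimensional_range _
  R_fin m := LinearMap.finiteDimensional_range _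
  x_reg K f hf h0 := by
    rcases (UpperHalfPlane.mul_eq_zero_iff (mdiff_of_isMF E4_isMF)
      (mdiff_of_isMF (mem_MS.mp hf))).mp h0 with h | h
    · exact absurd h E4_fun_ne_zero
    · exact h
  y_reg K f hf h0 := by
    rcases (UpperHalfPlane.mul_eq_zero_iff (mdiff_of_isMF E6_isMF)
      (mdiff_of_isMF (mem_MS.mp hf))).mp h0 with h | h
    · exact absurd h E6_fun_ne_zero
    · exact h
  reg K f g hf hg hfg := by
    obtain ⟨h', hh', h1, h2⟩ := exists_div_E4 N (mem_MS.mp hf) (mem_MS.mp hg)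
      (fun z => congrFun hfg z)
    exact ⟨h', mem_MS.mpr hh', funext h1, funext h2⟩
  r_rec m := by
    rw [finrank_RS, finrank_RS, finrank_RS, finrank_RS, finrank_levelOne, finrank_levelOne,
      finrank_levelOne, finrank_levelOne]
    exact lvl1_rec m
  r_low m hm := by
    rw [finrank_RS, finrank_levelOne]
    exact lvl1_low m hm
  bound := ⟨(CongruenceSubgroup.Gamma0 N).index, 1, fun K => by
    rw [finrank_MS]
    exact finrank_G0_le N K⟩

/-- **(I1) Freeness of `M(Γ₀(N))` over the level-one ring.**  There is a finite homogeneous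
family `F i ∈ M_{k i}(Γ₀(N))` such that every `f ∈ M_K(Γ₀(N))` is *uniquely* of the form
`∑ i, a i * F i` with level-one forms `a i ∈ M_{K - k i}(SL₂(ℤ))`; in particular
`dim M_K(Γ₀(N)) = ∑ i, dim M_{K - k i}(SL₂(ℤ))`. -/
theorem exists_free_basis (N : ℕ) [NeZero N] :
    ∃ (n : ℕ) (k : Fin n → ℕ) (F : Fin n → ℍ → ℂ),
      (∀ i, IsMF (G0 N) (k i) (F i)) ∧
      (∀ (K : ℤ) (f : ℍ → ℂ), IsMF (G0 N) K f →
        ∃! a : Fin n → ℍ → ℂ, (∀ i, IsMF 𝒮ℒ (K - k i) (a i)) ∧ f = ∑ i, a i * F i) ∧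
      (∀ K : ℤ, finrank ℂ (ModularForm (G0 N) K) =
        ∑ i, finrank ℂ (ModularForm 𝒮ℒ (K - k i))) := by
  obtain ⟨n, k, F, hF, huniq, hdim⟩ := (gradedData N).exists_basis
  refine ⟨n, k, F, fun i => mem_MS.mp (hF i), fun K f hf => huniq K f (mem_MS.mpr hf),
    fun K => ?_⟩
  rw [← finrank_MS, hdim K]
  exact Finset.sum_congr rfl (fun i _ => finrank_RS _)

end Fermat.Agent.Lib.GradedFree
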