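import Mathlib.NumberTheory.ModularForms.NormTrace
import Mathlib.LinearAlgebra.Lagrange
import Mathlib.RingTheory.Polynomial.Vieta

namespace Fermat.Agent.Lib.TraceInterp

open Finset UpperHalfPlane ModularForm SlashInvariantForm OnePoint
open scoped ModularForm MatrixGroups Manifold

section Algebra

open Polynomial

variable {R : Type*} [CommRing R] {ι : Type*}

theorem prod_sub_eq_sum_esymm (s : Finset ι) (a : ι → R) (y : R) :
    ∏ i ∈ s, (y - a i) =
      ∑ j ∈ range (#s + 1), (-1) ^ j * (s.val.map a).esymm j * y ^ (#s - j) := by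
  have h := congrArg (Polynomial.eval y) (Multiset.prod_X_sub_X_eq_sum_esymm (s.val.map a))
  rw [Multiset.map_map] at h
  have h2 : (Multiset.map ((fun t => X - C t) ∘ a) s.val).prod = ∏ i ∈ s, (X - C (a i)) := rfl
  rw [h2] at h
  simp only [Multiset.card_map, Finset.card_val, eval_finsetSum, eval_mul, eval_pow, eval_neg,
    eval_one, eval_C, eval_X, eval_prod, eval_sub] at h
  rw [h]
  exact Finset.sum_congr rfl fun j _ => by ring

theorem prod_erase_sub_eq_sum_esymm [DecidableEq ι] (s : Finset ι) (a : ι → R) {i₀ : ι}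
    (hi : i₀ ∈ s) :
    ∏ i ∈ s.erase i₀, (a i₀ - a i) =
      ∑ j ∈ range #s, (-1) ^ j * ((#s - j : ℕ) : R) * (s.val.map a).esymm j
        * a i₀ ^ (#s - 1 - j) := by
  have h1 : eval (a i₀) (derivative (Lagrange.nodal s a)) = ∏ i ∈ s.erase i₀, (a i₀ - a i) := by
    rw [Lagrange.eval_nodal_derivative_eval_node_eq hi, Lagrange.eval_nodal]
  have h2 : Lagrange.nodal s a = ∑ j ∈ range (#s + 1),
      (-1) ^ j * (C ((s.val.map a).esymm j) * X ^ (#s - j)) := by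
    have h := Multiset.prod_X_sub_X_eq_sum_esymm (s.val.map a)
    rw [Multiset.map_map] at h
    simpa [Lagrange.nodal] using h
  rw [← h1, h2, derivative_sum, eval_finsetSum, Finset.sum_range_succ]
  have h3 : eval (a i₀) (derivative ((-1) ^ #s * (C ((s.val.map a).esymm #s) * X ^ (#s - #s))))
      = 0 := by
    rw [show ((-1 : R[X]) ^ #s) = C ((-1) ^ #s) by simp, Nat.sub_self, pow_zero, mul_one,
      ← C_mul, derivative_C, eval_zero]
  rw [h3, add_zero]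
  refine Finset.sum_congr rfl fun j hj => ?_
  have hj' : j < #s := Finset.mem_range.mp hj
  have h4 : derivative ((-1 : R[X]) ^ j * (C ((s.val.map a).esymm j) * X ^ (#s - j))) =
      C ((-1) ^ j * (s.val.map a).esymm j) * (C ((#s - j : ℕ) : R) * X ^ (#s - j - 1)) := by
    rw [show ((-1 : R[X]) ^ j) = C ((-1) ^ j) by simp, ← mul_assoc, ← C_mul, derivative_C_mul,
      derivative_X_pow]
  rw [h4]
  simp only [eval_mul, eval_pow, eval_C, eval_X]
  rw [show #s - j - 1 = #s - 1 - j by omega]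
  ring

/-- Lagrange interpolation numerator identity. -/
theorem mul_prod_erase_sub_eq_sum [DecidableEq ι] (s : Finset ι) (a b : ι → R) {i₀ : ι}
    (hi : i₀ ∈ s) :
    b i₀ * ∏ i ∈ s.erase i₀, (a i₀ - a i) =
      ∑ r ∈ range #s, (-1) ^ r * (∑ i ∈ s, b i * ((s.erase i).val.map a).esymm r)
        * a i₀ ^ (#s - 1 - r) := by
  have h1 : ∑ i ∈ s, b i * ∏ i' ∈ s.erase i, (a i₀ - a i') =
      b i₀ * ∏ i ∈ s.erase i₀, (a i₀ - a i) := by
    refine Finset.sum_eq_single_of_mem i₀ hi fun i _ hne => ?_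
    rw [Finset.prod_eq_zero (Finset.mem_erase.mpr ⟨Ne.symm hne, hi⟩) (sub_self _), mul_zero]
  rw [← h1]
  have h2 : ∀ i ∈ s, b i * ∏ i' ∈ s.erase i, (a i₀ - a i') =
      ∑ r ∈ range #s, b i * ((-1) ^ r * ((s.erase i).val.map a).esymm r * a i₀ ^ (#s - 1 - r)) := by
    intro i his
    rw [prod_sub_eq_sum_esymm, Finset.card_erase_of_mem his, Finset.mul_sum]
    have : #s - 1 + 1 = #s := Nat.sub_add_cancel (Finset.card_pos.mpr ⟨i, his⟩)
    rw [this]
  rw [Finset.sum_congr rfl h2, Finset.sum_comm]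
  refine Finset.sum_congr rfl fun r _ => ?_
  rw [Finset.mul_sum, Finset.sum_mul]
  exact Finset.sum_congr rfl fun i _ => by ring

theorem sum_esymm_mul_pow_eq_zero (s : Finset ι) (b : ι → R) {i₀ : ι} (hi : i₀ ∈ s) :
    ∑ j ∈ range (#s + 1), (-1) ^ j * (s.val.map b).esymm j * b i₀ ^ (#s - j) = 0 := by
  rw [← prod_sub_eq_sum_esymm]
  exact Finset.prod_eq_zero hi (sub_self _)

end Algebra

section Bounded

theorem isBoundedAt_zero (c : OnePoint ℝ) (k : ℤ) : c.IsBoundedAt (0 : ℍ → ℂ) k := by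
  intro g _
  rw [SlashAction.zero_slash]
  exact zero_form_isBoundedAtImInfty

theorem isZeroAt_zero (c : OnePoint ℝ) (k : ℤ) : c.IsZeroAt (0 : ℍ → ℂ) k := by
  intro g _
  rw [SlashAction.zero_slash]
  exact Filter.zero_zeroAtFilter _

theorem isBoundedAt_sum {ι : Type*} (s : Finset ι) {c : OnePoint ℝ} {k : ℤ} {G : ι → ℍ → ℂ}
    (h : ∀ i ∈ s, c.IsBoundedAt (G i) k) : c.IsBoundedAt (∑ i ∈ s, G i) k := by
  classical
  induction s using Finset.induction_on with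
  | empty => simpa using isBoundedAt_zero c k
  | insert i t hi IH =>
    rw [Finset.sum_insert hi]
    exact (h i (Finset.mem_insert_self i t)).add (IH fun j hj => h j (Finset.mem_insert_of_mem hj))

theorem isZeroAt_sum {ι : Type*} (s : Finset ι) {c : OnePoint ℝ} {k : ℤ} {G : ι → ℍ → ℂ}
    (h : ∀ i ∈ s, c.IsZeroAt (G i) k) : c.IsZeroAt (∑ i ∈ s, G i) k := by
  classical
  induction s using Finset.induction_on with
  | empty => simpa using isZeroAt_zero c k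
  | insert i t hi IH =>
    rw [Finset.sum_insert hi]
    exact (h i (Finset.mem_insert_self i t)).add (IH fun j hj => h j (Finset.mem_insert_of_mem hj))

theorem isBoundedAt_mul {c : OnePoint ℝ} {k1 k2 : ℤ} {f g : ℍ → ℂ}
    (hf : c.IsBoundedAt f k1) (hg : c.IsBoundedAt g k2) : c.IsBoundedAt (f * g) (k1 + k2) := by
  intro γ hγ
  rw [ModularForm.mul_slash]
  exact Filter.BoundedAtFilter.smul _ (Filter.BoundedAtFilter.mul (hf γ hγ) (hg γ hγ))

theorem isZeroAt_mul {c : OnePoint ℝ} {k1 k2 : ℤ} {f g : ℍ → ℂ}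
    (hf : c.IsZeroAt f k1) (hg : c.IsBoundedAt g k2) : c.IsZeroAt (f * g) (k1 + k2) := by
  intro γ hγ
  rw [ModularForm.mul_slash]
  exact Filter.ZeroAtFilter.smul _ (Filter.ZeroAtFilter.mul_boundedAtFilter (hf γ hγ) (hg γ hγ))

theorem isBoundedAt_prod {ι : Type} (s : Finset ι) {c : OnePoint ℝ} {k : ℤ} {G : ι → ℍ → ℂ}
    (h : ∀ i ∈ s, c.IsBoundedAt (G i) k) : c.IsBoundedAt (∏ i ∈ s, G i) (k * #s) := by
  intro γ hγ
  rw [ModularForm.prod_slash]
  exact Filter.BoundedAtFilter.smul _ (Filter.BoundedAtFilter.prod s fun i hi => h i hi γ hγ)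

theorem isZeroAt_prod {ι : Type} (s : Finset ι) (hs : s.Nonempty) {c : OnePoint ℝ} {k : ℤ}
    {G : ι → ℍ → ℂ} (h : ∀ i ∈ s, c.IsZeroAt (G i) k) :
    c.IsZeroAt (∏ i ∈ s, G i) (k * #s) := by
  classical
  intro γ hγ
  rw [ModularForm.prod_slash]
  refine Filter.ZeroAtFilter.smul _ ?_
  obtain ⟨i₀, hi₀⟩ := hs
  rw [← Finset.mul_prod_erase s _ hi₀]
  exact Filter.ZeroAtFilter.mul_boundedAtFilter (h i₀ hi₀ γ hγ)
    (Filter.BoundedAtFilter.prod _ fun i hi =>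
      (h i (Finset.mem_of_mem_erase hi) γ hγ).boundedAtFilter)

end Bounded

section SumForm

/-- The sum of a finite family of holomorphic functions, permuted by the slash action of `ℋ`
and bounded at the cusps of `ℋ`, as a modular form for `ℋ`. -/
noncomputable def sumForm {ι : Type} [Fintype ι] (ℋ : Subgroup (GL (Fin 2) ℝ)) (k' : ℤ)
    (G : ι → ℍ → ℂ)
    (hG : ∀ h ∈ ℋ, ∃ e : Equiv.Perm ι, ∀ i, G i ∣[k'] h = G (e i))
    (hol : ∀ i, MDiff (G i))
    (hbdd : ∀ i, ∀ {c : OnePoint ℝ}, IsCusp c ℋ → c.IsBoundedAt (G i) k') :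
    ModularForm ℋ k' where
  toFun := ∑ i, G i
  slash_action_eq' h hh := by
    obtain ⟨e, he⟩ := hG h hh
    rw [SlashAction.sum_slash]
    simp_rw [he]
    exact Equiv.sum_comp e G
  holo' := MDifferentiable.sum fun i _ => hol i
  bdd_at_cusps' hc := isBoundedAt_sum _ fun i _ => hbdd i hc

theorem coe_sumForm {ι : Type} [Fintype ι] (ℋ : Subgroup (GL (Fin 2) ℝ)) (k' : ℤ)
    (G : ι → ℍ → ℂ) (hG) (hol) (hbdd) :
    ⇑(sumForm ℋ k' G hG hol hbdd) = ∑ i, G i := rfl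

/-- Cusp form variant of `sumForm`. -/
noncomputable def sumCuspForm {ι : Type} [Fintype ι] (ℋ : Subgroup (GL (Fin 2) ℝ)) (k' : ℤ)
    (G : ι → ℍ → ℂ)
    (hG : ∀ h ∈ ℋ, ∃ e : Equiv.Perm ι, ∀ i, G i ∣[k'] h = G (e i))
    (hol : ∀ i, MDiff (G i))
    (hzero : ∀ i, ∀ {c : OnePoint ℝ}, IsCusp c ℋ → c.IsZeroAt (G i) k') :
    CuspForm ℋ k' where
  toFun := ∑ i, G i
  slash_action_eq' h hh := by
    obtain ⟨e, he⟩ := hG h hh
    rw [SlashAction.sum_slash]
    simp_rw [he]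
    exact Equiv.sum_comp e G
  holo' := MDifferentiable.sum fun i _ => hol i
  zero_at_cusps' hc := isZeroAt_sum _ fun i _ => hzero i hc

theorem coe_sumCuspForm {ι : Type} [Fintype ι] (ℋ : Subgroup (GL (Fin 2) ℝ)) (k' : ℤ)
    (G : ι → ℍ → ℂ) (hG) (hol) (hzero) :
    ⇑(sumCuspForm ℋ k' G hG hol hzero) = ∑ i, G i := rfl

end SumForm

section Conj

variable {𝒢 ℋ : Subgroup (GL (Fin 2) ℝ)} {k : ℤ} {F' : Type*} [FunLike F' ℍ ℂ]

local notation "𝒬" => ℋ ⧸ (𝒢.subgroupOf ℋ)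

theorem mdiff_quotientFunc [ModularFormClass F' 𝒢 k] (f : F') (q : 𝒬) :
    MDiff (quotientFunc f q) := by
  induction q using Quotient.inductionOn with
  | h r => exact (ModularForm.translate f r.val⁻¹).holo'

theorem isBoundedAt_quotientFunc [𝒢.IsFiniteRelIndex ℋ] [ModularFormClass F' 𝒢 k] (f : F')
    (q : 𝒬) {c : OnePoint ℝ} (hc : IsCusp c ℋ) : c.IsBoundedAt (quotientFunc f q) k := by
  induction q using Quotient.inductionOn with
  | h r =>
    obtain ⟨r, hr⟩ := r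
    refine (ModularForm.translate f _).bdd_at_cusps' ?_
    simpa using hc.of_isFiniteRelIndex_conj hr

theorem isZeroAt_quotientFunc [𝒢.IsFiniteRelIndex ℋ] [CuspFormClass F' 𝒢 k] (f : F')
    (q : 𝒬) {c : OnePoint ℝ} (hc : IsCusp c ℋ) : c.IsZeroAt (quotientFunc f q) k := by
  induction q using Quotient.inductionOn with
  | h r =>
    obtain ⟨r, hr⟩ := r
    refine (CuspForm.translate f _).zero_at_cusps' ?_
    simpa using hc.of_isFiniteRelIndex_conj hr

theorem quotientFunc_one [SlashInvariantFormClass F' 𝒢 k] (f : F') :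
    quotientFunc f (QuotientGroup.mk (1 : ℋ) : 𝒬) = f := by
  show (f : ℍ → ℂ) ∣[k] ((1 : ℋ) : GL (Fin 2) ℝ)⁻¹ = f
  simp

/-- The permutation of the `j`-subsets of a type induced by a permutation. -/
def cardSubsetPerm {α : Type*} (σ : Equiv.Perm α) (j : ℕ) :
    Equiv.Perm {S : Finset α // #S = j} :=
  (Equiv.finsetCongr σ).subtypeEquiv (fun S => by simp)

theorem prod_quotientFunc_slash [ℋ.HasDetPlusMinusOne] [SlashInvariantFormClass F' 𝒢 k]
    (f : F') (S : Finset 𝒬) {h : GL (Fin 2) ℝ} (hh : h ∈ ℋ) :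
    (∏ q ∈ S, quotientFunc f q) ∣[k * #S] h =
      ∏ q ∈ S.map (MulAction.toPerm (⟨h, hh⟩ : ℋ)⁻¹).toEmbedding, quotientFunc f q := by
  rw [ModularForm.prod_slash, Subgroup.HasDetPlusMinusOne.abs_det hh, one_zpow, one_smul,
    Finset.prod_map]
  exact Finset.prod_congr rfl fun q _ => quotientFunc_smul f hh q

end Conj

section Families

variable {𝒢 : Subgroup (GL (Fin 2) ℝ)} (ℋ : Subgroup (GL (Fin 2) ℝ)) {k w : ℤ}
  {F' : Type*} [FunLike F' ℍ ℂ] {F'' : Type*} [FunLike F'' ℍ ℂ]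

local notation "𝒬" => ℋ ⧸ (𝒢.subgroupOf ℋ)

/-- The `j`-th elementary symmetric function of the conjugates of `F`, as a modular form
for `ℋ`. -/
noncomputable def esymmMF [𝒢.IsFiniteRelIndex ℋ] [ℋ.HasDetPlusMinusOne]
    [ModularFormClass F' 𝒢 w] (F : F') (j : ℕ) : ModularForm ℋ (w * j) :=
  letI := Fintype.ofFinite 𝒬
  sumForm ℋ (w * j) (fun S : {S : Finset 𝒬 // #S = j} => ∏ q ∈ S.1, quotientFunc F q)
    (fun h hh => ⟨cardSubsetPerm (MulAction.toPerm (⟨h, hh⟩ : ℋ)⁻¹) j, fun S => by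
      obtain ⟨S, rfl⟩ := S
      exact prod_quotientFunc_slash F S hh⟩)
    (fun S => MDifferentiable.prod fun q _ => mdiff_quotientFunc F q)
    (fun S c hc => by
      obtain ⟨S, rfl⟩ := S
      exact isBoundedAt_prod S fun q _ => isBoundedAt_quotientFunc F q hc)

theorem esymmMF_apply [𝒢.IsFiniteRelIndex ℋ] [ℋ.HasDetPlusMinusOne]
    [ModularFormClass F' 𝒢 w] (F : F') (j : ℕ) [Fintype 𝒬] (τ : ℍ) :
    esymmMF ℋ F j τ = ((univ : Finset 𝒬).val.map fun q => quotientFunc F q τ).esymm j := by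
  obtain rfl : ‹Fintype 𝒬› = Fintype.ofFinite 𝒬 := Subsingleton.elim _ _
  let _ := Fintype.ofFinite 𝒬
  rw [Finset.esymm_map_val]
  show (∑ S : {S : Finset 𝒬 // #S = j}, ∏ q ∈ S.1, quotientFunc F q) τ = _
  rw [Finset.sum_apply]
  simp only [Finset.prod_apply]
  exact (Finset.sum_subtype (powersetCard j (univ : Finset 𝒬)) (p := fun S => #S = j)
    (fun S => Finset.mem_powersetCard_univ) (fun S => ∏ q ∈ S, quotientFunc F q τ)).symm

/-- The family of functions whose sum gives the Lagrange numerators. -/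
noncomputable def lagrangeTerm [DecidableEq 𝒬] [SlashInvariantFormClass F'' 𝒢 k]
    [SlashInvariantFormClass F' 𝒢 w] (f : F'') (F : F') (r : ℕ)
    (p : 𝒬 × {S : Finset 𝒬 // #S = r}) : ℍ → ℂ :=
  if p.1 ∈ p.2.1 then 0 else quotientFunc f p.1 * ∏ q ∈ p.2.1, quotientFunc F q

theorem lagrangeTerm_slash [DecidableEq 𝒬] [ℋ.HasDetPlusMinusOne]
    [SlashInvariantFormClass F'' 𝒢 k] [SlashInvariantFormClass F' 𝒢 w] (f : F'') (F : F')
    (r : ℕ) {h : GL (Fin 2) ℝ} (hh : h ∈ ℋ) (p : 𝒬 × {S : Finset 𝒬 // #S = r}) :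
    lagrangeTerm ℋ f F r p ∣[k + w * r] h =
      lagrangeTerm ℋ f F r (Equiv.prodCongr (MulAction.toPerm (⟨h, hh⟩ : ℋ)⁻¹)
        (cardSubsetPerm (MulAction.toPerm (⟨h, hh⟩ : ℋ)⁻¹) r) p) := by
  obtain ⟨q, S, rfl⟩ := p
  by_cases hq : q ∈ S
  · have h2 : (⟨h, hh⟩ : ℋ)⁻¹ • q ∈ S.map (MulAction.toPerm (⟨h, hh⟩ : ℋ)⁻¹).toEmbedding :=
      Finset.mem_map_of_mem _ hq
    simp only [lagrangeTerm, cardSubsetPerm, Equiv.prodCongr_apply, Prod.map_fst, Prod.map_snd,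
      Equiv.subtypeEquiv_apply, Equiv.finsetCongr_apply, MulAction.toPerm_apply, if_pos hq,
      if_pos h2, SlashAction.zero_slash]
  · have h2 : (⟨h, hh⟩ : ℋ)⁻¹ • q ∉ S.map (MulAction.toPerm (⟨h, hh⟩ : ℋ)⁻¹).toEmbedding := by
      intro hmem
      exact hq ((Finset.mem_map' _).mp hmem)
    simp only [lagrangeTerm, cardSubsetPerm, Equiv.prodCongr_apply, Prod.map_fst, Prod.map_snd,
      Equiv.subtypeEquiv_apply, Equiv.finsetCongr_apply, MulAction.toPerm_apply, if_neg hq,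
      if_neg h2]
    rw [ModularForm.mul_slash, prod_quotientFunc_slash F S hh, quotientFunc_smul f hh,
      Subgroup.HasDetPlusMinusOne.abs_det hh, one_smul]

theorem lagrangeTerm_mdiff [DecidableEq 𝒬] [ModularFormClass F'' 𝒢 k]
    [ModularFormClass F' 𝒢 w] (f : F'') (F : F') (r : ℕ)
    (p : 𝒬 × {S : Finset 𝒬 // #S = r}) : MDiff (lagrangeTerm ℋ f F r p) := by
  unfold lagrangeTerm
  split_ifs
  · exact mdifferentiable_const
  · exact (mdiff_quotientFunc f _).mul (MDifferentiable.prod fun q _ => mdiff_quotientFunc F q)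

theorem lagrangeTerm_bdd [DecidableEq 𝒬] [𝒢.IsFiniteRelIndex ℋ] [ModularFormClass F'' 𝒢 k]
    [ModularFormClass F' 𝒢 w] (f : F'') (F : F') (r : ℕ)
    (p : 𝒬 × {S : Finset 𝒬 // #S = r}) {c : OnePoint ℝ} (hc : IsCusp c ℋ) :
    c.IsBoundedAt (lagrangeTerm ℋ f F r p) (k + w * r) := by
  obtain ⟨q, S, rfl⟩ := p
  unfold lagrangeTerm
  split_ifs
  · exact isBoundedAt_zero c _
  · exact isBoundedAt_mul (isBoundedAt_quotientFunc f q hc)
      (isBoundedAt_prod S fun q _ => isBoundedAt_quotientFunc F q hc)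

/-- The Lagrange numerators `∑_q f_q · e_r(F_{q'} : q' ≠ q)` as modular forms for `ℋ`. -/
noncomputable def lagrangeMF [𝒢.IsFiniteRelIndex ℋ] [ℋ.HasDetPlusMinusOne]
    [ModularFormClass F'' 𝒢 k] [ModularFormClass F' 𝒢 w] (f : F'') (F : F') (r : ℕ) :
    ModularForm ℋ (k + w * r) :=
  letI := Fintype.ofFinite 𝒬
  letI := Classical.decEq 𝒬
  sumForm ℋ (k + w * r) (lagrangeTerm ℋ f F r)
    (fun _ hh => ⟨_, lagrangeTerm_slash ℋ f F r hh⟩)
    (lagrangeTerm_mdiff ℋ f F r)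
    (fun p _ hc => lagrangeTerm_bdd ℋ f F r p hc)

theorem lagrangeMF_apply [𝒢.IsFiniteRelIndex ℋ] [ℋ.HasDetPlusMinusOne]
    [ModularFormClass F'' 𝒢 k] [ModularFormClass F' 𝒢 w] (f : F'') (F : F') (r : ℕ)
    [Fintype 𝒬] [DecidableEq 𝒬] (τ : ℍ) :
    lagrangeMF ℋ f F r τ = ∑ q : 𝒬, quotientFunc f q τ *
      ((univ.erase q).val.map fun q' => quotientFunc F q' τ).esymm r := by
  obtain rfl : ‹Fintype 𝒬› = Fintype.ofFinite 𝒬 := Subsingleton.elim _ _
  obtain rfl : ‹DecidableEq 𝒬› = Classical.decEq 𝒬 := Subsingleton.elim _ _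
  let _ := Fintype.ofFinite 𝒬
  let _ := Classical.decEq 𝒬
  show (∑ p : 𝒬 × {S : Finset 𝒬 // #S = r}, lagrangeTerm ℋ f F r p) τ = _
  rw [Finset.sum_apply, Fintype.sum_prod_type]
  refine Finset.sum_congr rfl fun q _ => ?_
  rw [Finset.esymm_map_val, Finset.mul_sum]
  have h1 : powersetCard r (univ.erase q) =
      (powersetCard r (univ : Finset 𝒬)).filter (fun S => q ∉ S) := by
    ext S
    simp only [Finset.mem_powersetCard, Finset.mem_filter, Finset.subset_univ, true_and,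
      Finset.subset_erase]
    tauto
  have h2 : ∀ S : {S : Finset 𝒬 // #S = r}, lagrangeTerm ℋ f F r (q, S) τ =
      (fun S : Finset 𝒬 => if q ∉ S then quotientFunc f q τ * ∏ q' ∈ S, quotientFunc F q' τ
        else 0) S.1 := by
    intro S
    simp only [lagrangeTerm]
    split_ifs <;> simp
  rw [Fintype.sum_congr _ _ h2, h1, Finset.sum_filter]
  exact (Finset.sum_subtype (powersetCard r (univ : Finset 𝒬))
    (p := fun S => #S = r) (fun S => Finset.mem_powersetCard_univ)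
    (fun S : Finset 𝒬 => if q ∉ S then quotientFunc f q τ * ∏ q' ∈ S, quotientFunc F q' τ
        else 0)).symm

/-- The `(j+1)`-th elementary symmetric function of the conjugates of a cusp form `f`, as a
cusp form for `ℋ`. -/
noncomputable def esymmCF [𝒢.IsFiniteRelIndex ℋ] [ℋ.HasDetPlusMinusOne]
    [CuspFormClass F' 𝒢 k] (f : F') (j : ℕ) : CuspForm ℋ (k * (j + 1 : ℕ)) :=
  letI := Fintype.ofFinite 𝒬
  sumCuspForm ℋ (k * (j + 1 : ℕ))
    (fun S : {S : Finset 𝒬 // #S = j + 1} => ∏ q ∈ S.1, quotientFunc f q)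
    (fun h hh => ⟨cardSubsetPerm (MulAction.toPerm (⟨h, hh⟩ : ℋ)⁻¹) (j + 1), fun S => by
      obtain ⟨S, hS⟩ := S
      have h1 := prod_quotientFunc_slash f S hh
      rw [hS] at h1
      exact h1⟩)
    (fun S => MDifferentiable.prod fun q _ => mdiff_quotientFunc f q)
    (fun S c hc => by
      obtain ⟨S, hS⟩ := S
      have h1 := isZeroAt_prod S (Finset.card_pos.mp (by omega))
        fun q _ => isZeroAt_quotientFunc f q hc
      rw [hS] at h1
      exact h1)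

theorem coe_esymmCF [𝒢.IsFiniteRelIndex ℋ] [ℋ.HasDetPlusMinusOne]
    [CuspFormClass F' 𝒢 k] (f : F') (j : ℕ) :
    ⇑(esymmCF ℋ f j) = ⇑(esymmMF ℋ f (j + 1)) := rfl

theorem esymmMF_zero_apply [𝒢.IsFiniteRelIndex ℋ] [ℋ.HasDetPlusMinusOne]
    [ModularFormClass F' 𝒢 w] (F : F') (τ : ℍ) : esymmMF ℋ F 0 τ = 1 := by
  let _ := Fintype.ofFinite 𝒬
  rw [esymmMF_apply, Finset.esymm_map_val]
  simp

/-- Vieta: the characteristic polynomial of the conjugates of `F`. -/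
theorem prod_sub_quotientFunc [𝒢.IsFiniteRelIndex ℋ] [ℋ.HasDetPlusMinusOne]
    [ModularFormClass F' 𝒢 w] (F : F') [Fintype 𝒬] (τ : ℍ) (y : ℂ) :
    ∏ q : 𝒬, (y - quotientFunc F q τ) =
      ∑ j ∈ range (Nat.card 𝒬 + 1), (-1) ^ j * esymmMF ℋ F j τ * y ^ (Nat.card 𝒬 - j) := by
  rw [prod_sub_eq_sum_esymm univ (fun q => quotientFunc F q τ) y, Finset.card_univ,
    ← Nat.card_eq_fintype_card]
  simp_rw [esymmMF_apply]

/-- The different `∏_{q ≠ 1} (F - F_q)` is the derivative of the characteristic polynomial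
evaluated at `F`. -/
theorem prod_erase_sub_quotientFunc [𝒢.IsFiniteRelIndex ℋ] [ℋ.HasDetPlusMinusOne]
    [ModularFormClass F' 𝒢 w] (F : F') [Fintype 𝒬] [DecidableEq 𝒬] (τ : ℍ) :
    ∏ q ∈ univ.erase (QuotientGroup.mk (1 : ℋ) : 𝒬), (F τ - quotientFunc F q τ) =
      ∑ j ∈ range (Nat.card 𝒬), (-1) ^ j * ((Nat.card 𝒬 - j : ℕ) : ℂ) * esymmMF ℋ F j τ
        * F τ ^ (Nat.card 𝒬 - 1 - j) := by
  have h := prod_erase_sub_eq_sum_esymm univ (fun q : 𝒬 => quotientFunc F q τ)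
    (i₀ := (QuotientGroup.mk (1 : ℋ) : 𝒬)) (Finset.mem_univ _)
  simp only [quotientFunc_one] at h
  rw [h, Finset.card_univ, ← Nat.card_eq_fintype_card]
  simp_rw [esymmMF_apply]

/-- Lagrange interpolation: `f · ∏_{q ≠ 1} (F - F_q) = ∑_r (-1)^r · L_r · F^(m-1-r)` with
`L_r` modular forms for `ℋ`. -/
theorem mul_prod_erase_sub_quotientFunc [𝒢.IsFiniteRelIndex ℋ] [ℋ.HasDetPlusMinusOne]
    [ModularFormClass F'' 𝒢 k] [ModularFormClass F' 𝒢 w] (f : F'') (F : F')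
    [Fintype 𝒬] [DecidableEq 𝒬] (τ : ℍ) :
    f τ * ∏ q ∈ univ.erase (QuotientGroup.mk (1 : ℋ) : 𝒬), (F τ - quotientFunc F q τ) =
      ∑ r ∈ range (Nat.card 𝒬), (-1) ^ r * lagrangeMF ℋ f F r τ
        * F τ ^ (Nat.card 𝒬 - 1 - r) := by
  have h := mul_prod_erase_sub_eq_sum univ (fun q : 𝒬 => quotientFunc F q τ)
    (fun q : 𝒬 => quotientFunc f q τ) (i₀ := (QuotientGroup.mk (1 : ℋ) : 𝒬)) (Finset.mem_univ _)
  simp only [quotientFunc_one] at h
  rw [h, Finset.card_univ, ← Nat.card_eq_fintype_card]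
  simp_rw [lagrangeMF_apply]

/-- The monic relation satisfied by `f` over the modular forms for `ℋ`. -/
theorem sum_esymmMF_mul_pow_eq_zero [𝒢.IsFiniteRelIndex ℋ] [ℋ.HasDetPlusMinusOne]
    [ModularFormClass F' 𝒢 k] (f : F') (τ : ℍ) :
    ∑ j ∈ range (Nat.card 𝒬 + 1), (-1) ^ j * esymmMF ℋ f j τ * f τ ^ (Nat.card 𝒬 - j) = 0 := by
  let _ := Fintype.ofFinite 𝒬
  have h := sum_esymm_mul_pow_eq_zero univ (fun q : 𝒬 => quotientFunc f q τ)
    (i₀ := (QuotientGroup.mk (1 : ℋ) : 𝒬)) (Finset.mem_univ _)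
  simp only [quotientFunc_one] at h
  rw [Finset.card_univ, ← Nat.card_eq_fintype_card] at h
  rw [← h]
  simp_rw [esymmMF_apply]

/-- The monic relation, leading term separated. -/
theorem pow_add_sum_esymmMF_eq_zero [𝒢.IsFiniteRelIndex ℋ] [ℋ.HasDetPlusMinusOne]
    [ModularFormClass F' 𝒢 k] (f : F') (τ : ℍ) :
    f τ ^ Nat.card 𝒬 + ∑ j ∈ range (Nat.card 𝒬), (-1) ^ (j + 1) * esymmMF ℋ f (j + 1) τ
      * f τ ^ (Nat.card 𝒬 - 1 - j) = 0 := by
  have h := sum_esymmMF_mul_pow_eq_zero ℋ f τ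
  rw [Finset.sum_range_succ', esymmMF_zero_apply] at h
  rw [← h, add_comm]
  congr 1
  · refine Finset.sum_congr rfl fun j _ => ?_
    rw [Nat.sub_sub, add_comm 1 j]
  · simp

/-- The monic relation for a cusp form, with cusp form coefficients. -/
theorem pow_add_sum_esymmCF_eq_zero [𝒢.IsFiniteRelIndex ℋ] [ℋ.HasDetPlusMinusOne]
    [CuspFormClass F' 𝒢 k] (f : F') (τ : ℍ) :
    f τ ^ Nat.card 𝒬 + ∑ j ∈ range (Nat.card 𝒬), (-1) ^ (j + 1) * esymmCF ℋ f j τ
      * f τ ^ (Nat.card 𝒬 - 1 - j) = 0 :=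
  pow_add_sum_esymmMF_eq_zero ℋ f τ

/-- The different `∏_{q ≠ 1} (F - F_q)` is not identically zero as soon as `F` is not fixed by
any element of `ℋ` outside `𝒢`. -/
theorem prod_erase_sub_quotientFunc_ne_zero [ModularFormClass F' 𝒢 w] (F : F')
    [Fintype 𝒬] [DecidableEq 𝒬]
    (hF : ∀ h ∈ ℋ, h ∉ 𝒢 → (F : ℍ → ℂ) ∣[w] h ≠ (F : ℍ → ℂ)) :
    (fun τ : ℍ => ∏ q ∈ univ.erase (QuotientGroup.mk (1 : ℋ) : 𝒬),
      (F τ - quotientFunc F q τ)) ≠ 0 := by
  have h1 : (fun τ : ℍ => ∏ q ∈ univ.erase (QuotientGroup.mk (1 : ℋ) : 𝒬),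
      (F τ - quotientFunc F q τ)) =
      ∏ q ∈ univ.erase (QuotientGroup.mk (1 : ℋ) : 𝒬), ((F : ℍ → ℂ) - quotientFunc F q) := by
    ext τ
    simp [Finset.prod_apply]
  rw [h1, Ne, UpperHalfPlane.prod_eq_zero_iff
    (fun q _ => (ModularFormClass.holo F).sub (mdiff_quotientFunc F q))]
  rintro ⟨q, hq, h0⟩
  induction q using Quotient.inductionOn with
  | h r =>
    have hr : (r : GL (Fin 2) ℝ)⁻¹ ∉ 𝒢 := by
      intro hmem
      apply (Finset.mem_erase.mp hq).1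
      refine (QuotientGroup.eq.mpr ?_).symm
      rw [Subgroup.mem_subgroupOf]
      simpa using hmem
    exact hF _ (inv_mem r.2) hr (sub_eq_zero.mp h0).symm

end Families

end Fermat.Agent.Lib.TraceInterp
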