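import Mathlib
import Fermat.Agent.S23.Defs
import Fermat.Agent.S23.IntegralClosure
import Fermat.Agent.S23.Trace
import Fermat.Agent.Lib.TraceInterp
import Fermat.Agent.Lib.LevelOneBracket

set_option autoImplicit false

namespace Fermat.Agent.Lib.OrbitDivide

open UpperHalfPlane ModularForm EisensteinSeries Filter Derivative
open Fermat.Agent.S23 Fermat.Agent.Lib.LevelOneBracket
open scoped MatrixGroups ModularForm Manifold Topology

/-! ## The level-one divisor form at a point -/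

/-- Weight of the level-one form `divForm z₀`. -/
noncomputable def divWeight (z₀ : ℍ) : ℤ :=
  if E₄ z₀ = 0 then 4 else if E₆ z₀ = 0 then 6 else 12

/-- A level-one form with a simple zero at `z₀`: `E₄`, `E₆` or `E₄³ E₆(z₀)² - E₄(z₀)³ E₆²`. -/
noncomputable def divForm (z₀ : ℍ) : ℍ → ℂ :=
  if E₄ z₀ = 0 then E₄ else if E₆ z₀ = 0 then E₆ else genericForm z₀

lemma genericForm_isMF (z₀ : ℍ) : IsMF 𝒮ℒ 12 (genericForm z₀) := by
  have e : genericForm z₀ = (E₆ z₀ ^ 2) • ((E₄ : ℍ → ℂ) ^ 3) - (E₄ z₀ ^ 3) • ((E₆ : ℍ → ℂ) ^ 2) := by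
    ext w; simp [genericForm]; ring
  rw [e]
  have h4 : IsMF 𝒮ℒ 12 ((E₄ : ℍ → ℂ) ^ 3) := ((IsMF.coe E₄).pow 3).weight_congr (by norm_num)
  have h6 : IsMF 𝒮ℒ 12 ((E₆ : ℍ → ℂ) ^ 2) := ((IsMF.coe E₆).pow 2).weight_congr (by norm_num)
  exact (h4.smul _).sub (h6.smul _)

theorem divForm_isMF (z₀ : ℍ) : IsMF 𝒮ℒ (divWeight z₀) (divForm z₀) := by
  unfold divWeight divForm
  split_ifs
  · exact IsMF.coe E₄
  · exact IsMF.coe E₆
  · exact genericForm_isMF z₀

theorem divForm_self (z₀ : ℍ) : divForm z₀ z₀ = 0 := by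
  unfold divForm
  split_ifs with h4 h6
  · exact h4
  · exact h6
  · exact genericForm_self z₀

theorem D_divForm_ne_zero (z₀ : ℍ) : D (divForm z₀) z₀ ≠ 0 := by
  unfold divForm
  split_ifs with h4 h6
  · exact D_E₄_ne_zero h4
  · exact D_E₆_ne_zero h6
  · exact D_genericForm_ne_zero h4 h6

theorem divWeight_pos (z₀ : ℍ) : 0 < divWeight z₀ := by
  unfold divWeight; split_ifs <;> norm_num

theorem divForm_ne_zero (z₀ : ℍ) : divForm z₀ ≠ 0 := by
  intro h
  apply D_divForm_ne_zero z₀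
  rw [h]
  have : (0 : ℍ → ℂ) = fun _ => (0 : ℂ) := rfl
  rw [this, normalizedDerivOfComplex_const]
  rfl

/-! ## Level-one forms not vanishing at a point -/

/-- Weights in which some level-one form does not vanish at `z₀`. -/
def Good (z₀ : ℍ) (m : ℤ) : Prop :=
  0 ≤ m ∧ Even m ∧ m ≠ 2 ∧ (E₄ z₀ = 0 → (6 : ℤ) ∣ m) ∧ (E₆ z₀ = 0 → (4 : ℤ) ∣ m)

lemma exists_monomial (z₀ : ℍ) {m : ℤ} (h : Good z₀ m) :
    ∃ a b : ℕ, m = 4 * (a : ℤ) + 6 * (b : ℤ) ∧ (E₄ z₀ = 0 → a = 0) ∧ (E₆ z₀ = 0 → b = 0) := by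
  obtain ⟨h0, he, h2, h4, h6⟩ := h
  by_cases c4 : E₄ z₀ = 0
  · obtain ⟨t, ht⟩ := h4 c4
    have c6 : E₆ z₀ ≠ 0 := fun c6 => not_both_zero z₀ ⟨c4, c6⟩
    refine ⟨0, t.toNat, ?_, fun _ => rfl, fun c => absurd c c6⟩
    have : 0 ≤ t := by omega
    rw [Int.toNat_of_nonneg this]; omega
  · by_cases c6 : E₆ z₀ = 0
    · obtain ⟨t, ht⟩ := h6 c6
      refine ⟨t.toNat, 0, ?_, fun c => absurd c c4, fun _ => rfl⟩
      have : 0 ≤ t := by omega
      rw [Int.toNat_of_nonneg this]; omega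
    · obtain ⟨t, ht⟩ := he
      by_cases hm : m % 4 = 0
      · refine ⟨(m / 4).toNat, 0, ?_, fun c => absurd c c4, fun c => absurd c c6⟩
        have : 0 ≤ m / 4 := by omega
        rw [Int.toNat_of_nonneg this]; omega
      · refine ⟨((m - 6) / 4).toNat, 1, ?_, fun c => absurd c c4, fun c => absurd c c6⟩
        have : 0 ≤ (m - 6) / 4 := by omega
        rw [Int.toNat_of_nonneg this]; omega

theorem exists_levelOne_eq_one (z₀ : ℍ) {m : ℤ} (h : Good z₀ m) :
    ∃ a : ℍ → ℂ, IsMF 𝒮ℒ m a ∧ a z₀ = 1 := by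
  obtain ⟨a, b, hm, ha, hb⟩ := exists_monomial z₀ h
  have hv : E₄ z₀ ^ a * E₆ z₀ ^ b ≠ 0 := by
    apply mul_ne_zero
    · by_cases c : E₄ z₀ = 0
      · rw [ha c]; simp
      · exact pow_ne_zero _ c
    · by_cases c : E₆ z₀ = 0
      · rw [hb c]; simp
      · exact pow_ne_zero _ c
  have hmf : IsMF 𝒮ℒ m ((E₄ : ℍ → ℂ) ^ a * (E₆ : ℍ → ℂ) ^ b) :=
    (((IsMF.coe E₄).pow a).mul ((IsMF.coe E₆).pow b)).weight_congr (by rw [hm])
  refine ⟨(E₄ z₀ ^ a * E₆ z₀ ^ b)⁻¹ • ((E₄ : ℍ → ℂ) ^ a * (E₆ : ℍ → ℂ) ^ b), hmf.smul _, ?_⟩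
  simp only [Pi.smul_apply, Pi.mul_apply, Pi.pow_apply, smul_eq_mul]
  exact inv_mul_cancel₀ hv

/-! ## Dimensions of level-one spaces -/

/-- The dimension of `M_m(SL₂(ℤ))` as an explicit function of the weight. -/
def dimFormula (m : ℤ) : ℤ :=
  if m < 0 ∨ m % 2 = 1 then 0 else if m % 12 = 2 then m / 12 else m / 12 + 1

theorem finrank_levelOne (m : ℤ) :
    (Module.finrank ℂ (ModularForm 𝒮ℒ m) : ℤ) = dimFormula m := by
  unfold dimFormula
  by_cases hneg : m < 0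
  · have := ModularForm.levelOne_neg_weight_rank_zero hneg
    rw [Module.finrank, this]; simp [hneg]
  · rw [not_lt] at hneg
    by_cases hodd : m % 2 = 1
    · have := ModularForm.levelOne_odd_weight_rank_zero (k := m) (Int.odd_iff.mpr hodd)
      rw [Module.finrank, this]; simp [hodd]
    · obtain ⟨k, rfl⟩ : ∃ k : ℕ, m = k := ⟨m.toNat, (Int.toNat_of_nonneg hneg).symm⟩
      have hk2 : Even k := by
        rw [Nat.even_iff]; omega
      have := ModularForm.dimension_level_one k hk2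
      rw [Module.finrank, this]
      have e1 : ¬ ((k : ℤ) < 0 ∨ (k : ℤ) % 2 = 1) := by omega
      rw [if_neg e1]
      by_cases h12 : k % 12 = 2
      · have : k ≡ 2 [MOD 12] := h12
        rw [if_pos this, if_pos (by omega)]
        simp
      · have : ¬ k ≡ 2 [MOD 12] := h12
        rw [if_neg this, if_neg (by omega)]
        simp

lemma dimFormula_le_good (z₀ : ℍ) (m : ℤ) (h : Good z₀ m) :
    dimFormula m ≤ dimFormula (m - divWeight z₀) + 1 := by
  obtain ⟨h0, he, h2, h4, h6⟩ := h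
  rw [Int.even_iff] at he
  unfold divWeight
  split_ifs with c4 c6
  · have := h4 c4
    simp only [dimFormula]; split_ifs <;> omega
  · have := h6 c6
    simp only [dimFormula]; split_ifs <;> omega
  · simp only [dimFormula]; split_ifs <;> omega

lemma dimFormula_le_not_good (z₀ : ℍ) (m : ℤ) (h : ¬ Good z₀ m) :
    dimFormula m ≤ dimFormula (m - divWeight z₀) := by
  unfold Good at h
  rw [Int.even_iff] at h
  unfold divWeight
  by_cases c4 : E₄ z₀ = 0
  · have c6 : E₆ z₀ ≠ 0 := fun c6 => not_both_zero z₀ ⟨c4, c6⟩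
    have h' : ¬ (0 ≤ m ∧ m % 2 = 0 ∧ m ≠ 2 ∧ (6 : ℤ) ∣ m) :=
      fun ⟨a, b, c, d⟩ => h ⟨a, b, c, fun _ => d, fun c6' => absurd c6' c6⟩
    rw [if_pos c4]
    simp only [dimFormula]; split_ifs <;> omega
  · by_cases c6 : E₆ z₀ = 0
    · have h' : ¬ (0 ≤ m ∧ m % 2 = 0 ∧ m ≠ 2 ∧ (4 : ℤ) ∣ m) :=
        fun ⟨a, b, c, d⟩ => h ⟨a, b, c, fun c4' => absurd c4' c4, fun _ => d⟩
      rw [if_neg c4, if_pos c6]
      simp only [dimFormula]; split_ifs <;> omega
    · have h' : ¬ (0 ≤ m ∧ m % 2 = 0 ∧ m ≠ 2) :=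
        fun ⟨a, b, c⟩ => h ⟨a, b, c, fun c4' => absurd c4' c4, fun c6' => absurd c6' c6⟩
      rw [if_neg c4, if_neg c6]
      simp only [dimFormula]; split_ifs <;> omega

/-! ## Division in level one -/

/-- A level-one form vanishing at `z₀` is divisible by `divForm z₀` in level one. -/
theorem levelOne_divide {m : ℤ} {g : ℍ → ℂ} (hg : IsMF 𝒮ℒ m g) (z₀ : ℍ) (h : g z₀ = 0) :
    ∃ g' : ℍ → ℂ, IsMF 𝒮ℒ (m - divWeight z₀) g' ∧ g = divForm z₀ * g' := by
  obtain ⟨G, rfl⟩ := hg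
  obtain ⟨Dm, hDm⟩ := divForm_isMF z₀
  let mulD : ModularForm 𝒮ℒ (m - divWeight z₀) →ₗ[ℂ] ModularForm 𝒮ℒ m :=
    { toFun := fun g' => ModularForm.mcast (by ring) (g'.mul Dm)
      map_add' := fun a b => by
        ext z; simp [ModularForm.mcast_apply, add_mul]
      map_smul' := fun c a => by
        ext z; simp [ModularForm.mcast_apply, mul_assoc] }
  have mulD_apply : ∀ (g' : ModularForm 𝒮ℒ (m - divWeight z₀)) (z : ℍ),
      mulD g' z = g' z * divForm z₀ z := by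
    intro g' z
    have e : mulD g' z = (g'.mul Dm) z := rfl
    rw [e, ModularForm.coe_mul, Pi.mul_apply, hDm]
  let ev : ModularForm 𝒮ℒ m →ₗ[ℂ] ℂ :=
    { toFun := fun g => g z₀
      map_add' := fun a b => rfl
      map_smul' := fun c a => rfl }
  have hinj : Function.Injective mulD := by
    rw [← LinearMap.ker_eq_bot, LinearMap.ker_eq_bot']
    intro g' hg'
    have h0 : (g' : ℍ → ℂ) * divForm z₀ = 0 := by
      ext z
      have := congrArg (fun f : ModularForm 𝒮ℒ m => f z) hg'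
      simpa [mulD_apply] using this
    rcases (UpperHalfPlane.mul_eq_zero_iff (ModularFormClass.holo g')
      (hDm ▸ ModularFormClass.holo Dm)).mp h0 with h1 | h1
    · exact DFunLike.coe_injective h1
    · exact absurd h1 (divForm_ne_zero z₀)
  have hle : LinearMap.range mulD ≤ LinearMap.ker ev := by
    rintro _ ⟨g', rfl⟩
    show mulD g' z₀ = 0
    rw [mulD_apply, divForm_self, mul_zero]
  have hrange : Module.finrank ℂ (LinearMap.range mulD) =
      Module.finrank ℂ (ModularForm 𝒮ℒ (m - divWeight z₀)) :=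
    LinearMap.finrank_range_of_inj hinj
  have hdim : Module.finrank ℂ (LinearMap.ker ev) ≤ Module.finrank ℂ (LinearMap.range mulD) := by
    rw [hrange]
    have hrn := LinearMap.finrank_range_add_finrank_ker ev
    have f1 := finrank_levelOne m
    have f2 := finrank_levelOne (m - divWeight z₀)
    by_cases hgood : Good z₀ m
    · obtain ⟨a, ⟨A, rfl⟩, ha⟩ := exists_levelOne_eq_one z₀ hgood
      have hsurj : LinearMap.range ev = ⊤ := by
        rw [LinearMap.range_eq_top]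
        intro c
        exact ⟨c • A, by show c * A z₀ = c; rw [ha, mul_one]⟩
      rw [hsurj, finrank_top, Module.finrank_self] at hrn
      have := dimFormula_le_good z₀ m hgood
      omega
    · have := dimFormula_le_not_good z₀ m hgood
      omega
  have heq : LinearMap.range mulD = LinearMap.ker ev :=
    Submodule.eq_of_le_of_finrank_le hle hdim
  have hG : G ∈ LinearMap.ker ev := h
  rw [← heq] at hG
  obtain ⟨g', hg'⟩ := hG
  refine ⟨g', IsMF.coe g', ?_⟩
  ext z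
  rw [← hg', mulD_apply, Pi.mul_apply, mul_comm]

/-! ## Orders of vanishing -/

lemma mdiff_of_isMF {Γ : Subgroup (GL (Fin 2) ℝ)} {k : ℤ} {f : ℍ → ℂ} (h : IsMF Γ k f) :
    MDiff f := by
  obtain ⟨F, rfl⟩ := h
  exact ModularFormClass.holo F

/-- The order of vanishing at `z₀` of a function on `ℍ`. -/
noncomputable def ord (z₀ : ℍ) (f : ℍ → ℂ) : ℕ∞ := analyticOrderAt (f ∘ ofComplex) (z₀ : ℂ)

lemma analyticAt_of_mdiff {f : ℍ → ℂ} (hf : MDiff f) (z₀ : ℍ) :
    AnalyticAt ℂ (f ∘ ofComplex) (z₀ : ℂ) :=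
  (UpperHalfPlane.mdifferentiable_iff.mp hf).analyticAt
    (isOpen_upperHalfPlaneSet.mem_nhds z₀.im_pos)

lemma ord_mul {f g : ℍ → ℂ} (hf : MDiff f) (hg : MDiff g) (z₀ : ℍ) :
    ord z₀ (f * g) = ord z₀ f + ord z₀ g :=
  analyticOrderAt_mul (analyticAt_of_mdiff hf z₀) (analyticAt_of_mdiff hg z₀)

lemma one_le_ord_iff {f : ℍ → ℂ} (hf : MDiff f) (z₀ : ℍ) : 1 ≤ ord z₀ f ↔ f z₀ = 0 := by
  unfold ord
  rw [Order.one_le_iff_ne_zero, (analyticAt_of_mdiff hf z₀).analyticOrderAt_ne_zero]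
  simp

lemma ord_divForm (z₀ : ℍ) : ord z₀ (divForm z₀) = 1 := by
  refine (analyticAt_of_mdiff (mdiff_of_isMF (divForm_isMF z₀)) z₀).analyticOrderAt_eq_one_of_zero_deriv_ne_zero
    ?_ ((D_ne_zero_iff _ _).mp (D_divForm_ne_zero z₀))
  simp [divForm_self]

lemma ord_zero (z₀ : ℍ) : ord z₀ 0 = ⊤ := by
  unfold ord
  rw [analyticOrderAt_eq_top]
  exact Filter.Eventually.of_forall fun _ => rfl

lemma le_ord_add {f g : ℍ → ℂ} (z₀ : ℍ) {n : ℕ∞} (hf : n ≤ ord z₀ f) (hg : n ≤ ord z₀ g) :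
    n ≤ ord z₀ (f + g) :=
  le_trans (le_min hf hg) le_analyticOrderAt_add

lemma le_ord_sum {ι : Type*} (z₀ : ℍ) (s : Finset ι) (f : ι → ℍ → ℂ) (n : ℕ∞)
    (h : ∀ i ∈ s, n ≤ ord z₀ (f i)) : n ≤ ord z₀ (∑ i ∈ s, f i) := by
  classical
  induction s using Finset.induction_on with
  | empty => rw [Finset.sum_empty, ord_zero]; exact le_top
  | insert a s ha ih =>
    rw [Finset.sum_insert ha]
    exact le_ord_add z₀ (h a (Finset.mem_insert_self a s))
      (ih fun i hi => h i (Finset.mem_insert_of_mem hi))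

lemma mdiff_prod {ι : Type*} (s : Finset ι) (f : ι → ℍ → ℂ)
    (hf : ∀ i ∈ s, MDiff (f i)) : MDiff (∏ i ∈ s, f i) := by
  classical
  induction s using Finset.induction_on with
  | empty =>
    rw [Finset.prod_empty]
    exact mdifferentiable_const
  | insert a s ha ih =>
    rw [Finset.prod_insert ha]
    exact (hf a (Finset.mem_insert_self a s)).mul (ih fun i hi => hf i (Finset.mem_insert_of_mem hi))

lemma le_ord_prod {ι : Type*} (z₀ : ℍ) (s : Finset ι) (f : ι → ℍ → ℂ)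
    (hf : ∀ i ∈ s, MDiff (f i)) (h : ∀ i ∈ s, f i z₀ = 0) :
    (s.card : ℕ∞) ≤ ord z₀ (∏ i ∈ s, f i) := by
  classical
  induction s using Finset.induction_on with
  | empty => simp
  | insert a s ha ih =>
    have hp : MDiff (∏ i ∈ s, f i) :=
      mdiff_prod s f fun i hi => hf i (Finset.mem_insert_of_mem hi)
    rw [Finset.prod_insert ha, Finset.card_insert_of_notMem ha,
      ord_mul (hf a (Finset.mem_insert_self a s)) hp]
    have h1 : 1 ≤ ord z₀ (f a) :=
      (one_le_ord_iff (hf a (Finset.mem_insert_self a s)) z₀).mpr (h a (Finset.mem_insert_self a s))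
    have h2 := ih (fun i hi => hf i (Finset.mem_insert_of_mem hi))
      (fun i hi => h i (Finset.mem_insert_of_mem hi))
    push_cast
    rw [add_comm]
    exact add_le_add h1 h2

/-- A level-one form vanishing to order `≥ j` at `z₀` is divisible by `divForm z₀ ^ j`. -/
theorem levelOne_divide_pow (z₀ : ℍ) : ∀ (j : ℕ) {m : ℤ} {g : ℍ → ℂ}, IsMF 𝒮ℒ m g →
    (j : ℕ∞) ≤ ord z₀ g →
    ∃ g' : ℍ → ℂ, IsMF 𝒮ℒ (m - j * divWeight z₀) g' ∧ g = divForm z₀ ^ j * g'
  | 0, m, g, hg, _ => ⟨g, hg.weight_congr (by simp), by simp⟩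
  | j + 1, m, g, hg, h => by
    have h1 : g z₀ = 0 :=
      (one_le_ord_iff (mdiff_of_isMF hg) z₀).mp (le_trans (by norm_cast; omega) h)
    obtain ⟨g₁, hg₁, rfl⟩ := levelOne_divide hg z₀ h1
    have hord : (j : ℕ∞) ≤ ord z₀ g₁ := by
      rw [ord_mul (mdiff_of_isMF (divForm_isMF z₀)) (mdiff_of_isMF hg₁), ord_divForm] at h
      by_cases hx : ord z₀ g₁ = ⊤
      · rw [hx]; exact le_top
      · lift ord z₀ g₁ to ℕ using hx with n hn
        norm_cast at h ⊢
        omega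
    obtain ⟨g', hg', rfl⟩ := levelOne_divide_pow z₀ j hg₁ hord
    exact ⟨g', hg'.weight_congr (by push_cast; ring), by rw [pow_succ]; ring⟩

/-! ## The orbit division theorem -/

open Fermat.Agent.S23.Trace Fermat.Agent.Lib.TraceInterp SlashInvariantForm in
/-- **Orbit division.**  If a modular form `F` of level `Γ₀(N)` and weight `K` vanishes at
`z₀` together with all its `SL(2, ℤ)`-translates, then `F` is divisible, in the ring of modular
forms of level `Γ₀(N)`, by the level-one form `divForm z₀` (which has a simple zero at `z₀`). -/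
theorem orbit_divide (N : ℕ) [NeZero N] {K : ℤ} {F : ℍ → ℂ} (hF : IsMF (G0 N) K F) (z₀ : ℍ)
    (h0 : ∀ γ : SL(2, ℤ), (F ∣[K] γ) z₀ = 0) :
    ∃ F' : ℍ → ℂ, IsMF (G0 N) (K - divWeight z₀) F' ∧ F = divForm z₀ * F' := by
  obtain ⟨f, rfl⟩ := hF
  have hq0 : ∀ q : Q N, quotientFunc f q z₀ = 0 := fun q => by
    rw [← slash_cosetRep N f q]; exact h0 _
  have hord : ∀ j : ℕ, (j : ℕ∞) ≤ ord z₀ (esymmMF 𝒮ℒ f j) := by
    intro j
    let _ := Fintype.ofFinite (Q N)
    have hcoe : (⇑(esymmMF 𝒮ℒ f j) : ℍ → ℂ) =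
        ∑ S : {S : Finset (Q N) // S.card = j}, ∏ q ∈ S.1, quotientFunc f q := rfl
    rw [hcoe]
    refine le_ord_sum z₀ _ _ _ fun S _ => ?_
    have := le_ord_prod z₀ S.1 (fun q => quotientFunc f q)
      (fun q _ => mdiff_quotientFunc f q) (fun q _ => hq0 q)
    rwa [S.2] at this
  choose c hc hceq using fun j : ℕ =>
    levelOne_divide_pow z₀ j (IsMF.coe (esymmMF 𝒮ℒ f j)) (hord j)
  have hrel := integrality_core N f
  obtain ⟨G, hG, hGeq⟩ := exists_isMF_of_integral N (k := K - divWeight z₀) (W := divWeight z₀)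
    (m := Nat.card (Q N)) Nat.card_pos (Num := f) (Den := divForm z₀)
    ((IsMF.coe f).weight_congr (by ring)) ((divForm_isMF z₀).toG0 N) (divForm_ne_zero z₀)
    (C := fun r => ((-1 : ℂ) ^ r) • c r)
    (fun r _ => ((hc r).smul _).weight_congr (by ring)) (by
      intro z
      rw [← hrel z]
      congr 1
      refine Finset.sum_congr rfl fun r _ => ?_
      have := congrFun (hceq r) z
      simp only [Pi.mul_apply, Pi.pow_apply, Pi.smul_apply, smul_eq_mul] at this ⊢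
      rw [this]
      ring)
  exact ⟨G, hG, by rw [← hGeq, mul_comm]⟩

end Fermat.Agent.Lib.OrbitDivide
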