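import Mathlib

set_option autoImplicit false

/-!
# Zeros of level one modular forms

* two lattices with the same `g₂`, `g₃` are equal (via the Weierstrass `℘`-function);
* `(E₄, E₆)` determines a point of the upper half plane up to `SL(2, ℤ)`;
* for every point `z₀` of the upper half plane there is a level one form whose zeros are
  exactly the points of the orbit of `z₀`, all simple.
-/

namespace Fermat.Agent.Lib.LevelOneZeros

open Filter Topology

/-! ## A linear ODE lemma -/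

/-- A function analytic at `z₀`, vanishing at `z₀` and solving `u' = a u` near `z₀` with `a`
continuous at `z₀`, vanishes near `z₀`. -/
theorem eventually_eq_zero_of_deriv_eq_mul {u a : ℂ → ℂ} {z₀ : ℂ} (hu : AnalyticAt ℂ u z₀)
    (ha : ContinuousAt a z₀) (h0 : u z₀ = 0) (h : ∀ᶠ z in 𝓝 z₀, deriv u z = a z * u z) :
    ∀ᶠ z in 𝓝 z₀, u z = 0 := by
  by_contra hne
  obtain ⟨n, g, hg, hg0, hug⟩ := hu.exists_eventuallyEq_pow_smul_nonzero_iff.mpr hne
  have hn : n ≠ 0 := by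
    rintro rfl
    have := hug.self_of_nhds
    simp only [pow_zero, one_smul] at this
    exact hg0 (this ▸ h0)
  have hd : ∀ᶠ z in 𝓝 z₀,
      deriv u z = n * (z - z₀) ^ (n - 1) * g z + (z - z₀) ^ n * deriv g z := by
    have h1 : deriv u =ᶠ[𝓝 z₀] deriv (fun z => (z - z₀) ^ n • g z) := Filter.EventuallyEq.deriv hug
    filter_upwards [h1, hg.eventually_analyticAt] with z hz hgz
    rw [hz]
    have h2 : HasDerivAt (fun z => (z - z₀) ^ n) (n * (z - z₀) ^ (n - 1) * 1) z :=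
      ((hasDerivAt_id z).sub_const z₀).pow n
    have h3 := h2.mul hgz.differentiableAt.hasDerivAt
    have h4 : (fun z => (z - z₀) ^ n • g z) = fun z => (z - z₀) ^ n * g z := by
      funext z; rw [smul_eq_mul]
    rw [h4]
    have h5 := h3.deriv
    simp only [mul_one] at h5
    exact h5
  set φ : ℂ → ℂ := fun z => n * g z + (z - z₀) * (deriv g z - a z * g z) with hφ
  have hφc : ContinuousAt φ z₀ := by
    have h1 : ContinuousAt g z₀ := hg.continuousAt
    have h2 : ContinuousAt (deriv g) z₀ := hg.deriv.continuousAt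
    have h3 : ContinuousAt (fun z : ℂ => z - z₀) z₀ := (continuous_id.sub continuous_const).continuousAt
    exact (continuousAt_const.mul h1).add (h3.mul (h2.sub (ha.mul h1)))
  have hφ0 : ∀ᶠ z in 𝓝[≠] z₀, φ z = 0 := by
    have h1 : ∀ᶠ z in 𝓝[≠] z₀, z ≠ z₀ := eventually_mem_nhdsWithin
    filter_upwards [h1, hd.filter_mono nhdsWithin_le_nhds, h.filter_mono nhdsWithin_le_nhds,
      hug.filter_mono nhdsWithin_le_nhds] with z hz hdz haz hugz
    have hz' : z - z₀ ≠ 0 := sub_ne_zero.mpr hz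
    have hpow : (z - z₀) ^ n = (z - z₀) ^ (n - 1) * (z - z₀) := by
      rw [← pow_succ, Nat.sub_add_cancel (Nat.one_le_iff_ne_zero.mpr hn)]
    rw [hdz, hugz, smul_eq_mul, hpow] at haz
    have hp : (z - z₀) ^ (n - 1) ≠ 0 := pow_ne_zero _ hz'
    have : (z - z₀) ^ (n - 1) * φ z = 0 := by
      simp only [hφ]
      linear_combination haz
    exact (mul_eq_zero.mp this).resolve_left hp
  have h1 : Tendsto φ (𝓝[≠] z₀) (𝓝 (φ z₀)) := hφc.tendsto.mono_left nhdsWithin_le_nhds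
  have h2 : Tendsto φ (𝓝[≠] z₀) (𝓝 0) :=
    (tendsto_const_nhds (x := (0 : ℂ))).congr' (hφ0.mono fun z hz => hz.symm)
  have h3 : φ z₀ = 0 := tendsto_nhds_unique h1 h2
  simp only [hφ, sub_self, zero_mul, add_zero] at h3
  rcases mul_eq_zero.mp h3 with h4 | h4
  · exact hn (by exact_mod_cast h4)
  · exact hg0 h4

/-- Two solutions of `y'² = 4y³ - g₂ y - g₃` analytic at `z₀` with the same value and the same
nonzero derivative at `z₀` agree near `z₀`. -/
theorem eventuallyEq_of_deriv_sq_eq {f h : ℂ → ℂ} {z₀ g₂ g₃ : ℂ} (hf : AnalyticAt ℂ f z₀)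
    (hh : AnalyticAt ℂ h z₀)
    (hfo : ∀ᶠ z in 𝓝 z₀, deriv f z ^ 2 = 4 * f z ^ 3 - g₂ * f z - g₃)
    (hho : ∀ᶠ z in 𝓝 z₀, deriv h z ^ 2 = 4 * h z ^ 3 - g₂ * h z - g₃)
    (h0 : f z₀ = h z₀) (h1 : deriv f z₀ = deriv h z₀) (h1' : deriv h z₀ ≠ 0) :
    f =ᶠ[𝓝 z₀] h := by
  have hs : ContinuousAt (fun z => deriv f z + deriv h z) z₀ :=
    hf.deriv.continuousAt.add hh.deriv.continuousAt
  have hs0' : deriv f z₀ + deriv h z₀ ≠ 0 := by
    rw [h1, ← two_mul]; exact mul_ne_zero two_ne_zero h1'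
  have hs0 : ∀ᶠ z in 𝓝 z₀, deriv f z + deriv h z ≠ 0 := hs.eventually_ne hs0'
  set a : ℂ → ℂ := fun z =>
    (4 * (f z ^ 2 + f z * h z + h z ^ 2) - g₂) / (deriv f z + deriv h z) with ha
  have hac : ContinuousAt a z₀ := by
    have hfc := hf.continuousAt
    have hhc := hh.continuousAt
    refine ContinuousAt.div ?_ hs hs0'
    exact (continuousAt_const.mul (((hfc.pow 2).add (hfc.mul hhc)).add (hhc.pow 2))).sub
      continuousAt_const
  have key := eventually_eq_zero_of_deriv_eq_mul (u := fun z => f z - h z) (a := a)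
    (hf.sub hh) hac (by simp [h0]) ?_
  · filter_upwards [key] with z hz
    exact sub_eq_zero.mp hz
  · filter_upwards [hfo, hho, hs0, hf.eventually_analyticAt, hh.eventually_analyticAt]
      with z h1 h2 h3 h4 h5
    rw [deriv_fun_sub h4.differentiableAt h5.differentiableAt]
    simp only [ha]
    field_simp
    linear_combination h1 - h2

/-! ## Lattices are determined by `g₂` and `g₃` -/

open PeriodPair in
/-- Near the origin, `℘` takes every value of large modulus. -/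
theorem exists_weierstrassP_eq (L : PeriodPair) :
    ∃ R : ℝ, ∀ y : ℂ, R < ‖y‖ → ∃ w : ℂ, w ∉ L.lattice ∧ ℘[L] w = y := by
  set g : ℂ → ℂ := fun z => z ^ 2 * ℘[L - (0 : ℂ)] z + 1 with hg
  have hg_an : AnalyticAt ℂ g 0 := by
    have := L.analyticAt_weierstrassPExcept 0
    fun_prop
  have hg0 : g 0 = 1 := by simp [hg]
  have hgP : ∀ z : ℂ, z ≠ 0 → z ^ 2 * ℘[L] z = g z := by
    intro z hz
    have := L.ite_eq_one_sub_sq_mul_weierstrassP 0 (zero_mem _) z
    simpa [hz, hg] using this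
  set K : ℂ → ℂ := fun z => z ^ 2 / g z with hK
  have hK_an : AnalyticAt ℂ K 0 := by
    have h1 : AnalyticAt ℂ (fun z : ℂ => z ^ 2) 0 := by fun_prop
    exact h1.div hg_an (by rw [hg0]; exact one_ne_zero)
  have hK0 : K 0 = 0 := by simp [hK]
  have hgne : ∀ᶠ z in 𝓝 (0 : ℂ), g z ≠ 0 :=
    hg_an.continuousAt.eventually_ne (by rw [hg0]; exact one_ne_zero)
  have hopen : 𝓝 (K 0) ≤ map K (𝓝 0) := by
    rcases hK_an.eventually_constant_or_nhds_le_map_nhds with h | h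
    · exfalso
      have h1 : ∀ᶠ z in 𝓝[≠] (0 : ℂ), False := by
        filter_upwards [h.filter_mono nhdsWithin_le_nhds, hgne.filter_mono nhdsWithin_le_nhds,
          eventually_mem_nhdsWithin] with z hz1 hz2 hz3
        rw [hK0] at hz1
        simp only [hK] at hz1
        rcases div_eq_zero_iff.mp hz1 with h2 | h2
        · exact hz3 (pow_eq_zero_iff (two_ne_zero) |>.mp h2)
        · exact hz2 h2
      exact (h1.exists).elim fun _ h => h
    · exact h
  have hU : {z : ℂ | g z ≠ 0} ∩ (↑L.lattice \ {0})ᶜ ∈ 𝓝 (0 : ℂ) :=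
    inter_mem hgne (L.compl_lattice_sdiff_singleton_mem_nhds 0)
  have hKU : K '' ({z : ℂ | g z ≠ 0} ∩ (↑L.lattice \ {0})ᶜ) ∈ 𝓝 (0 : ℂ) := by
    have := hopen (image_mem_map hU)
    rwa [hK0] at this
  obtain ⟨ε, hε, hball⟩ := Metric.mem_nhds_iff.mp hKU
  refine ⟨1 / ε, fun y hy => ?_⟩
  have hy0 : y ≠ 0 := by
    rintro rfl
    rw [norm_zero] at hy
    exact absurd hy (not_lt.mpr (by positivity))
  have hyinv : y⁻¹ ∈ Metric.ball (0 : ℂ) ε := by
    rw [mem_ball_zero_iff, norm_inv]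
    have hypos : 0 < ‖y‖ := norm_pos_iff.mpr hy0
    rw [inv_lt_comm₀ hypos hε]
    rwa [one_div] at hy
  obtain ⟨w, ⟨hw1, hw2⟩, hw3⟩ := hball hyinv
  have hw0 : w ≠ 0 := by
    rintro rfl
    rw [hK0] at hw3
    exact inv_ne_zero hy0 hw3.symm
  have hwL : w ∉ L.lattice := by
    intro hw
    exact hw2 ⟨hw, hw0⟩
  refine ⟨w, hwL, ?_⟩
  have h1 := hgP w hw0
  simp only [hK] at hw3
  have hw1' : g w ≠ 0 := hw1
  have hw2' : w ^ 2 ≠ 0 := pow_ne_zero _ hw0
  have h2 : g w = y * w ^ 2 := by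
    field_simp at hw3
    linear_combination -hw3
  rw [h2] at h1
  have h3 : w ^ 2 * (℘[L] w - y) = 0 := by linear_combination h1
  exact sub_eq_zero.mp ((mul_eq_zero.mp h3).resolve_left hw2')

theorem countable_lattice (L : PeriodPair) : (L.lattice : Set ℂ).Countable := by
  have : Countable L.lattice := L.latticeEquivProd.toEquiv.injective.countable
  exact Set.countable_coe_iff.mp this

open PeriodPair in
theorem lattice_le_of_g₂_eq_of_g₃_eq (L L' : PeriodPair) (h₂ : L.g₂ = L'.g₂)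
    (h₃ : L.g₃ = L'.g₃) : L'.lattice ≤ L.lattice := by
  obtain ⟨R, hR⟩ := exists_weierstrassP_eq L
  -- a point `z₀` near the origin where `℘[L']` is large
  have hcob : Tendsto ℘[L'] (𝓝[≠] 0) (Bornology.cobounded ℂ) :=
    tendsto_cobounded_of_meromorphicOrderAt_neg (by
      rw [L'.order_weierstrassP 0 (zero_mem _)]; decide)
  have hnorm : Tendsto (fun z => ‖℘[L'] z‖) (𝓝[≠] 0) atTop :=
    tendsto_norm_atTop_iff_cobounded.mpr hcob
  have hev : ∀ᶠ z in 𝓝[≠] (0 : ℂ), max R (1 + ‖L.g₂‖ + ‖L.g₃‖) < ‖℘[L'] z‖ ∧ z ∉ L'.lattice := by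
    have h1 : ∀ᶠ z in 𝓝[≠] (0 : ℂ), z ∈ ((L'.lattice : Set ℂ) \ {0})ᶜ :=
      (L'.compl_lattice_sdiff_singleton_mem_nhds 0 |> mem_nhdsWithin_of_mem_nhds)
    filter_upwards [hnorm.eventually_gt_atTop (max R (1 + ‖L.g₂‖ + ‖L.g₃‖)), h1,
      eventually_mem_nhdsWithin] with z hz1 hz2 hz3
    refine ⟨hz1, fun hz => hz2 ⟨hz, hz3⟩⟩
  obtain ⟨z₀, hz₀, hz₀L⟩ := hev.exists
  set y := ℘[L'] z₀ with hy
  have hyR : R < ‖y‖ := lt_of_le_of_lt (le_max_left _ _) hz₀
  have hyg : 1 + ‖L.g₂‖ + ‖L.g₃‖ < ‖y‖ := lt_of_le_of_lt (le_max_right _ _) hz₀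
  obtain ⟨w₀, hw₀L, hw₀⟩ := hR y hyR
  -- the derivative at `z₀` does not vanish
  have hode' := L'.derivWeierstrassP_sq z₀ hz₀L
  rw [← hy, ← h₂, ← h₃] at hode'
  have hd0 : ℘'[L'] z₀ ≠ 0 := by
    intro h0
    rw [h0] at hode'
    have h1 : 4 * y ^ 3 = L.g₂ * y + L.g₃ := by linear_combination -hode'
    have h2 : 4 * ‖y‖ ^ 3 ≤ ‖L.g₂‖ * ‖y‖ + ‖L.g₃‖ := by
      calc 4 * ‖y‖ ^ 3 = ‖4 * y ^ 3‖ := by simp
        _ = ‖L.g₂ * y + L.g₃‖ := by rw [h1]
        _ ≤ ‖L.g₂ * y‖ + ‖L.g₃‖ := norm_add_le _ _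
        _ = ‖L.g₂‖ * ‖y‖ + ‖L.g₃‖ := by rw [norm_mul]
    have h3 : 1 < ‖y‖ := by
      have := norm_nonneg L.g₂
      have := norm_nonneg L.g₃
      linarith
    nlinarith [norm_nonneg L.g₂, norm_nonneg L.g₃, mul_pos (sub_pos.mpr h3) (sub_pos.mpr h3)]
  -- choose the sign of `w₀`
  have hode := L.derivWeierstrassP_sq w₀ hw₀L
  rw [hw₀] at hode
  have hsq : ℘'[L] w₀ ^ 2 = ℘'[L'] z₀ ^ 2 := by rw [hode, hode']
  obtain ⟨w₁, hw₁L, hw₁, hw₁'⟩ : ∃ w₁ : ℂ, w₁ ∉ L.lattice ∧ ℘[L] w₁ = y ∧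
      ℘'[L] w₁ = ℘'[L'] z₀ := by
    rcases sq_eq_sq_iff_eq_or_eq_neg.mp hsq with h | h
    · exact ⟨w₀, hw₀L, hw₀, h⟩
    · refine ⟨-w₀, fun hw => hw₀L (by simpa using neg_mem hw), ?_, ?_⟩
      · rw [L.weierstrassP_neg, hw₀]
      · rw [L.derivWeierstrassP_neg, h, neg_neg]
  -- the translated function
  set c := w₁ - z₀ with hc
  set f : ℂ → ℂ := fun z => ℘[L] (z + c) with hf
  have hf_an : ∀ z : ℂ, z + c ∉ L.lattice → AnalyticAt ℂ f z := by
    intro z hz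
    have h1 : AnalyticAt ℂ ℘[L] (z + c) := L.analyticOnNhd_weierstrassP _ hz
    have h2 : AnalyticAt ℂ (fun z : ℂ => z + c) z := by fun_prop
    exact AnalyticAt.comp (g := ℘[L]) (f := fun z : ℂ => z + c) (x := z) h1 h2
  have hf_deriv : ∀ z : ℂ, deriv f z = ℘'[L] (z + c) := by
    intro z
    simp only [hf]
    rw [deriv_comp_add_const, L.deriv_weierstrassP]
  have hz₀c : z₀ + c = w₁ := by simp [hc]
  have hLc_closed : IsClosed {z : ℂ | z + c ∈ L.lattice} :=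
    L.isClosed_lattice.preimage (continuous_id.add continuous_const)
  have hev_f : ∀ᶠ z in 𝓝 z₀, z + c ∉ L.lattice :=
    hLc_closed.isOpen_compl.mem_nhds (by simpa [hz₀c] using hw₁L)
  have hev_h : ∀ᶠ z in 𝓝 z₀, z ∉ L'.lattice := L'.isClosed_lattice.isOpen_compl.mem_nhds hz₀L
  have hloc : f =ᶠ[𝓝 z₀] ℘[L'] := by
    refine eventuallyEq_of_deriv_sq_eq (g₂ := L.g₂) (g₃ := L.g₃) (hf_an z₀ (by rw [hz₀c]; exact hw₁L))
      (L'.analyticOnNhd_weierstrassP z₀ hz₀L) ?_ ?_ ?_ ?_ ?_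
    · filter_upwards [hev_f] with z hz
      rw [hf_deriv]
      exact L.derivWeierstrassP_sq _ hz
    · filter_upwards [hev_h] with z hz
      rw [L'.deriv_weierstrassP, h₂, h₃]
      exact L'.derivWeierstrassP_sq _ hz
    · simp only [hf]; rw [hz₀c, hw₁]
    · rw [hf_deriv, hz₀c, hw₁', L'.deriv_weierstrassP]
    · rw [L'.deriv_weierstrassP]; exact hd0
  -- identity theorem on the complement of a countable set
  set S : Set ℂ := (L'.lattice : Set ℂ) ∪ {z : ℂ | z + c ∈ L.lattice} with hS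
  have hScount : S.Countable := by
    refine (countable_lattice L').union ?_
    exact (countable_lattice L).preimage_of_injOn (f := fun z : ℂ => z + c)
      (fun a _ b _ hab => by simpa using hab)
  have hSconn : IsPreconnected Sᶜ :=
    (hScount.isPathConnected_compl_of_one_lt_rank
      (by rw [Complex.rank_real_complex]; norm_num)).isConnected.isPreconnected
  have hz₀S : z₀ ∈ Sᶜ := by
    simp only [hS, Set.mem_compl_iff, Set.mem_union, not_or]
    exact ⟨hz₀L, by simpa [hz₀c] using hw₁L⟩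
  have heq : Set.EqOn f ℘[L'] Sᶜ := by
    refine AnalyticOnNhd.eqOn_of_preconnected_of_eventuallyEq (𝕜 := ℂ) ?_ ?_ hSconn hz₀S hloc
    · intro z hz
      simp only [hS, Set.mem_compl_iff, Set.mem_union, not_or] at hz
      exact hf_an z hz.2
    · intro z hz
      simp only [hS, Set.mem_compl_iff, Set.mem_union, not_or] at hz
      exact L'.analyticOnNhd_weierstrassP z hz.1
  -- compare the poles
  have hpole : ∀ x : ℂ, x ∈ L'.lattice → x + c ∈ L.lattice := by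
    intro x hx
    by_contra hxc
    have h1 : ℘[L'] =ᶠ[𝓝[≠] x] f := by
      have h2 : ∀ᶠ z in 𝓝[≠] x, z ∈ ((L'.lattice : Set ℂ) \ {x})ᶜ :=
        mem_nhdsWithin_of_mem_nhds (L'.compl_lattice_sdiff_singleton_mem_nhds x)
      have h3 : ∀ᶠ z in 𝓝[≠] x, z + c ∉ L.lattice :=
        mem_nhdsWithin_of_mem_nhds (hLc_closed.isOpen_compl.mem_nhds hxc)
      filter_upwards [h2, h3, eventually_mem_nhdsWithin] with z hz2 hz3 hz4
      refine (heq ?_).symm
      simp only [hS, Set.mem_compl_iff, Set.mem_union, not_or]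
      exact ⟨fun hz => hz2 ⟨hz, hz4⟩, hz3⟩
    have h4 := meromorphicOrderAt_congr h1
    rw [L'.order_weierstrassP x hx] at h4
    have h5 := (hf_an x hxc).meromorphicOrderAt_nonneg
    rw [← h4] at h5
    exact absurd h5 (by decide)
  have hcL : c ∈ L.lattice := by simpa using hpole 0 (zero_mem _)
  intro x hx
  have := sub_mem (hpole x hx) hcL
  simpa using this

/-- (Z0) Two lattices with the same invariants `g₂` and `g₃` are equal. -/
theorem lattice_eq_of_g₂_eq_of_g₃_eq (L L' : PeriodPair) (h₂ : L.g₂ = L'.g₂)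
    (h₃ : L.g₃ = L'.g₃) : L.lattice = L'.lattice :=
  le_antisymm (lattice_le_of_g₂_eq_of_g₃_eq L' L h₂.symm h₃.symm)
    (lattice_le_of_g₂_eq_of_g₃_eq L L' h₂ h₃)

/-! ## Lattices attached to points of the upper half plane -/

open UpperHalfPlane ModularForm EisensteinSeries MatrixGroups

/-- The period pair `(c τ, c)`. -/
noncomputable def pair (c : ℂ) (hc : c ≠ 0) (τ : ℍ) : PeriodPair where
  ω₁ := c * τ
  ω₂ := c
  indep := by
    rw [LinearIndependent.pair_iff]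
    intro s t h
    have h1 : c * ((s : ℂ) * τ + t) = 0 := by
      simp only [Complex.real_smul] at h
      linear_combination h
    have h2 : (s : ℂ) * τ + t = 0 := (mul_eq_zero.mp h1).resolve_left hc
    have h3 := congrArg Complex.im h2
    simp only [Complex.add_im, Complex.mul_im, Complex.ofReal_re, Complex.ofReal_im, zero_mul,
      add_zero, Complex.zero_im, coe_im] at h3
    have hs : s = 0 := by
      rcases mul_eq_zero.mp h3 with h3 | h3
      · exact h3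
      · exact absurd h3 τ.im_pos.ne'
    subst hs
    simp only [Complex.ofReal_zero, zero_mul, zero_add] at h2
    exact ⟨rfl, by exact_mod_cast h2⟩

@[simp] theorem pair_ω₁ (c : ℂ) (hc : c ≠ 0) (τ : ℍ) : (pair c hc τ).ω₁ = c * τ := rfl

@[simp] theorem pair_ω₂ (c : ℂ) (hc : c ≠ 0) (τ : ℍ) : (pair c hc τ).ω₂ = c := rfl

theorem tsum_eisSummand_eq (τ : ℍ) {k : ℕ} (hk : 3 ≤ k) :
    ∑' v : Fin 2 → ℤ, eisSummand k v τ = 2 * riemannZeta k * E hk τ := by
  rw [tsum_eisSummand_eq_riemannZeta_mul_eisensteinSeries hk τ,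
    show E hk τ = (1 / 2 : ℂ) • eisensteinSeriesSIF (N := 1) 0 k τ from rfl,
    eisensteinSeriesSIF_apply, smul_eq_mul]
  ring

theorem G_pair (c : ℂ) (hc : c ≠ 0) (τ : ℍ) {k : ℕ} (hk : 3 ≤ k) :
    (pair c hc τ).G k = (c ^ k)⁻¹ * (2 * riemannZeta k * E hk τ) := by
  rw [← tsum_eisSummand_eq τ hk, PeriodPair.G,
    ← (pair c hc τ).latticeEquivProd.symm.toEquiv.tsum_eq, ← (finTwoArrowEquiv ℤ).symm.tsum_eq,
    ← tsum_mul_left]
  refine tsum_congr fun x => ?_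
  have h1 := (pair c hc τ).latticeEquiv_symm_apply x
  simp only [pair_ω₁, pair_ω₂] at h1
  simp only [LinearEquiv.coe_toEquiv, h1, eisSummand, finTwoArrowEquiv_symm_apply]
  simp only [Matrix.cons_val_zero, Matrix.cons_val_one, zpow_neg, zpow_natCast]
  rw [← mul_inv, ← mul_pow]
  congr 2
  ring

theorem g₂_pair (c : ℂ) (hc : c ≠ 0) (τ : ℍ) :
    (pair c hc τ).g₂ = (c ^ 4)⁻¹ * (60 * (2 * riemannZeta 4)) * E₄ τ := by
  rw [PeriodPair.g₂, G_pair c hc τ (by norm_num : 3 ≤ 4)]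
  push_cast
  ring

theorem g₃_pair (c : ℂ) (hc : c ≠ 0) (τ : ℍ) :
    (pair c hc τ).g₃ = (c ^ 6)⁻¹ * (140 * (2 * riemannZeta 6)) * E₆ τ := by
  rw [PeriodPair.g₃, G_pair c hc τ (by norm_num : 3 ≤ 6)]
  push_cast
  ring

/-- Homothetic lattices `ℤ τ' + ℤ = c (ℤ τ + ℤ)` come from `SL(2, ℤ)`-equivalent points. -/
theorem exists_smul_eq_of_lattice_eq (c : ℂ) (hc : c ≠ 0) (τ τ' : ℍ)
    (h : (pair 1 one_ne_zero τ').lattice = (pair c hc τ).lattice) :
    ∃ γ : SL(2, ℤ), γ • τ = τ' := by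
  have hτ' : (τ' : ℂ) ∈ (pair c hc τ).lattice := by
    have := (pair 1 one_ne_zero τ').ω₁_mem_lattice
    rw [h] at this
    simpa using this
  have h1 : (1 : ℂ) ∈ (pair c hc τ).lattice := by
    have := (pair 1 one_ne_zero τ').ω₂_mem_lattice
    rw [h] at this
    simpa using this
  have hcτ : c * τ ∈ (pair 1 one_ne_zero τ').lattice := by
    have := (pair c hc τ).ω₁_mem_lattice
    rw [← h] at this
    simpa using this
  have hc' : c ∈ (pair 1 one_ne_zero τ').lattice := by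
    have := (pair c hc τ).ω₂_mem_lattice
    rw [← h] at this
    simpa using this
  obtain ⟨a, b, hab⟩ := PeriodPair.mem_lattice.mp hτ'
  obtain ⟨m, n, hmn⟩ := PeriodPair.mem_lattice.mp h1
  obtain ⟨p, q, hpq⟩ := PeriodPair.mem_lattice.mp hcτ
  obtain ⟨r, s, hrs⟩ := PeriodPair.mem_lattice.mp hc'
  simp only [pair_ω₁, pair_ω₂, one_mul, mul_one] at hab hmn hpq hrs
  have e1 : c * ((τ : ℂ) - (((p * a + q * m : ℤ) : ℂ) * τ + ((p * b + q * n : ℤ) : ℂ))) = 0 := by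
    push_cast
    linear_combination (-1 : ℂ) * hpq - (p : ℂ) * hab - (q : ℂ) * hmn
  have e2 : c * ((1 : ℂ) - (((r * a + s * m : ℤ) : ℂ) * τ + ((r * b + s * n : ℤ) : ℂ))) = 0 := by
    push_cast
    linear_combination (-1 : ℂ) * hrs - (r : ℂ) * hab - (s : ℂ) * hmn
  have e1' := sub_eq_zero.mp ((mul_eq_zero.mp e1).resolve_left hc)
  have e2' := sub_eq_zero.mp ((mul_eq_zero.mp e2).resolve_left hc)
  have hy : 0 < τ.im := τ.im_pos
  have hy' : 0 < τ'.im := τ'.im_pos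
  have i1 := congrArg Complex.im e1'
  have r1 := congrArg Complex.re e1'
  have i2 := congrArg Complex.im e2'
  have r2 := congrArg Complex.re e2'
  simp only [Complex.add_im, Complex.mul_im, Complex.intCast_re, Complex.intCast_im, zero_mul,
    add_zero, Complex.add_re, Complex.mul_re, sub_zero, Complex.one_im, Complex.one_re,
    coe_im, coe_re] at i1 r1 i2 r2
  have k1 : ((p * a + q * m : ℤ) : ℝ) = 1 := by
    have : (((p * a + q * m : ℤ) : ℝ) - 1) * τ.im = 0 := by linear_combination -i1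
    have := (mul_eq_zero.mp this).resolve_right hy.ne'
    linarith
  have k2 : ((p * b + q * n : ℤ) : ℝ) = 0 := by
    rw [k1] at r1
    linarith
  have k3 : ((r * a + s * m : ℤ) : ℝ) = 0 := by
    have : ((r * a + s * m : ℤ) : ℝ) * τ.im = 0 := by linear_combination -i2
    exact (mul_eq_zero.mp this).resolve_right hy.ne'
  have k4 : ((r * b + s * n : ℤ) : ℝ) = 1 := by
    rw [k3] at r2
    linarith
  have k1' : p * a + q * m = 1 := by exact_mod_cast k1
  have k2' : p * b + q * n = 0 := by exact_mod_cast k2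
  have k3' : r * a + s * m = 0 := by exact_mod_cast k3
  have k4' : r * b + s * n = 1 := by exact_mod_cast k4
  have hdet : (p * s - q * r) * (a * n - b * m) = 1 := by
    have : (p * s - q * r) * (a * n - b * m) =
        (p * a + q * m) * (r * b + s * n) - (p * b + q * n) * (r * a + s * m) := by ring
    rw [this, k1', k2', k3', k4']
    ring
  have hw : c * ((m : ℂ) * τ + n) = 1 := by linear_combination hmn
  have hw0 : (m : ℂ) * τ + n ≠ 0 := by
    intro h0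
    rw [h0, mul_zero] at hw
    exact zero_ne_one hw
  have heq : (τ' : ℂ) * ((m : ℂ) * τ + n) = (a : ℂ) * τ + b := by
    linear_combination (-((m : ℂ) * τ + n)) * hab + ((a : ℂ) * τ + b) * hmn
  have hD : a * n - b * m = 1 := by
    rcases Int.isUnit_iff.mp (IsUnit.of_mul_eq_one_right _ hdet) with hD | hD
    · exact hD
    · exfalso
      have i3 := congrArg Complex.im heq
      have r3 := congrArg Complex.re heq
      simp only [Complex.add_im, Complex.mul_im, Complex.intCast_re, Complex.intCast_im,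
        zero_mul, add_zero, Complex.add_re, Complex.mul_re, sub_zero, coe_im, coe_re] at i3 r3
      have hD' : ((a : ℝ) * n - b * m) = -1 := by exact_mod_cast hD
      have key : τ'.im * (((m : ℝ) * τ.re + n) ^ 2 + ((m : ℝ) * τ.im) ^ 2) =
          ((a : ℝ) * n - b * m) * τ.im := by
        linear_combination ((m : ℝ) * τ.re + n) * i3 - ((m : ℝ) * τ.im) * r3
      rw [hD'] at key
      have : 0 ≤ τ'.im * (((m : ℝ) * τ.re + n) ^ 2 + ((m : ℝ) * τ.im) ^ 2) := by positivity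
      linarith
  have hdet1 : (!![a, b; m, n] : Matrix (Fin 2) (Fin 2) ℤ).det = 1 := by
    rw [Matrix.det_fin_two_of]; exact hD
  set γ : SL(2, ℤ) := ⟨!![a, b; m, n], hdet1⟩ with hγ
  refine ⟨γ, ?_⟩
  apply UpperHalfPlane.ext
  rw [coe_specialLinearGroup_apply]
  have g00 : γ 0 0 = a := rfl
  have g01 : γ 0 1 = b := rfl
  have g10 : γ 1 0 = m := rfl
  have g11 : γ 1 1 = n := rfl
  rw [g00, g01, g10, g11]
  simp only [algebraMap_int_eq, eq_intCast, Complex.ofReal_intCast]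
  rw [div_eq_iff hw0]
  exact heq.symm

/-- (Z1) The pair `(E₄, E₆)`, up to weighted homogeneous scaling, determines a point of the upper
half plane up to the action of `SL(2, ℤ)`. -/
theorem exists_smul_eq_of_E₄_E₆ (τ τ' : ℍ) (c : ℂ) (hc : c ≠ 0) (h₄ : E₄ τ' = c ^ 4 * E₄ τ)
    (h₆ : E₆ τ' = c ^ 6 * E₆ τ) : ∃ γ : SL(2, ℤ), γ • τ = τ' := by
  apply exists_smul_eq_of_lattice_eq c⁻¹ (inv_ne_zero hc) τ τ'
  apply lattice_eq_of_g₂_eq_of_g₃_eq
  · rw [g₂_pair, g₂_pair, h₄]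
    field_simp
  · rw [g₃_pair, g₃_pair, h₆]
    field_simp

/-! ## Zero sets of level one forms -/

theorem mapGL_mem_SL (γ : SL(2, ℤ)) : Matrix.SpecialLinearGroup.mapGL ℝ γ ∈ 𝒮ℒ := ⟨γ, rfl⟩

theorem apply_smul_eq_zero_iff {k : ℤ} (f : ModularForm 𝒮ℒ k) (γ : SL(2, ℤ)) (z : ℍ) :
    f (γ • z) = 0 ↔ f z = 0 := by
  have h := SlashInvariantForm.slash_action_eqn'' f (mapGL_mem_SL γ) z
  have h2 : γ • z = (Matrix.SpecialLinearGroup.mapGL ℝ γ) • z := rfl
  rw [h2, h, mul_eq_zero]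
  constructor
  · rintro (h3 | h3)
    · exact absurd h3 (zpow_ne_zero _ (denom_ne_zero _ z))
    · exact h3
  · exact fun h3 => Or.inr h3

theorem E₄_cube_sub_E₆_sq_ne_zero (z : ℍ) : E₄ z ^ 3 - E₆ z ^ 2 ≠ 0 := by
  intro h
  have := ModularForm.discriminant_eq_E₄_cube_sub_E₆_sq z
  rw [h, zero_div] at this
  exact ModularForm.discriminant_ne_zero z this

theorem E₆_ne_zero_of_E₄_eq_zero {z : ℍ} (h : E₄ z = 0) : E₆ z ≠ 0 := by
  intro h6
  exact E₄_cube_sub_E₆_sq_ne_zero z (by rw [h, h6]; ring)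

theorem E₄_ne_zero_of_E₆_eq_zero {z : ℍ} (h : E₆ z = 0) : E₄ z ≠ 0 := by
  intro h4
  exact E₄_cube_sub_E₆_sq_ne_zero z (by rw [h, h4]; ring)

/-- Any two zeros of `E₄` are `SL(2, ℤ)`-equivalent. -/
theorem exists_smul_eq_of_E₄_eq_zero {z z' : ℍ} (h : E₄ z = 0) (h' : E₄ z' = 0) :
    ∃ γ : SL(2, ℤ), γ • z = z' := by
  have h6 := E₆_ne_zero_of_E₄_eq_zero h
  have h6' := E₆_ne_zero_of_E₄_eq_zero h'
  obtain ⟨c, hc⟩ := IsAlgClosed.exists_pow_nat_eq (E₆ z' / E₆ z) (n := 6) (by norm_num)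
  have hc0 : c ≠ 0 := by
    rintro rfl
    rw [zero_pow (by norm_num)] at hc
    exact div_ne_zero h6' h6 hc.symm
  refine exists_smul_eq_of_E₄_E₆ z z' c hc0 ?_ ?_
  · rw [h, h', mul_zero]
  · rw [hc, div_mul_cancel₀ _ h6]

/-- Any two zeros of `E₆` are `SL(2, ℤ)`-equivalent. -/
theorem exists_smul_eq_of_E₆_eq_zero {z z' : ℍ} (h : E₆ z = 0) (h' : E₆ z' = 0) :
    ∃ γ : SL(2, ℤ), γ • z = z' := by
  have h4 := E₄_ne_zero_of_E₆_eq_zero h
  have h4' := E₄_ne_zero_of_E₆_eq_zero h'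
  obtain ⟨c, hc⟩ := IsAlgClosed.exists_pow_nat_eq (E₄ z' / E₄ z) (n := 4) (by norm_num)
  have hc0 : c ≠ 0 := by
    rintro rfl
    rw [zero_pow (by norm_num)] at hc
    exact div_ne_zero h4' h4 hc.symm
  refine exists_smul_eq_of_E₄_E₆ z z' c hc0 ?_ ?_
  · rw [hc, div_mul_cancel₀ _ h4]
  · rw [h, h', mul_zero]

/-- Two points with the same value of `E₄³ / E₆²` (cross-multiplied), the first one not a zero
of `E₄` or `E₆`, are `SL(2, ℤ)`-equivalent. -/
theorem exists_smul_eq_of_cross {z z' : ℍ} (h4 : E₄ z ≠ 0) (h6 : E₆ z ≠ 0)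
    (h : E₄ z' ^ 3 * E₆ z ^ 2 = E₄ z ^ 3 * E₆ z' ^ 2) : ∃ γ : SL(2, ℤ), γ • z = z' := by
  have h6' : E₆ z' ≠ 0 := by
    intro h0
    rw [h0] at h
    have h1 : E₄ z' ^ 3 * E₆ z ^ 2 = 0 := by rw [h]; ring
    have h2 : E₄ z' = 0 := by
      rcases mul_eq_zero.mp h1 with h3 | h3
      · exact pow_eq_zero_iff (by norm_num) |>.mp h3
      · exact absurd (pow_eq_zero_iff (by norm_num) |>.mp h3) h6
    exact E₆_ne_zero_of_E₄_eq_zero h2 h0
  obtain ⟨c₀, hc₀⟩ := IsAlgClosed.exists_pow_nat_eq (E₄ z' / E₄ z) (n := 4) (by norm_num)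
  have h4eq : E₄ z' = c₀ ^ 4 * E₄ z := by rw [hc₀, div_mul_cancel₀ _ h4]
  have hsq : (c₀ ^ 6 * E₆ z) ^ 2 = E₆ z' ^ 2 := by
    have h1 : (c₀ ^ 4) ^ 3 * E₄ z ^ 3 * E₆ z ^ 2 = E₄ z ^ 3 * E₆ z' ^ 2 := by
      rw [← h, h4eq]; ring
    have h2 : E₄ z ^ 3 * ((c₀ ^ 6 * E₆ z) ^ 2 - E₆ z' ^ 2) = 0 := by linear_combination h1
    exact sub_eq_zero.mp ((mul_eq_zero.mp h2).resolve_left (pow_ne_zero _ h4))
  have hc₀0 : c₀ ≠ 0 := by
    rintro rfl
    rw [zero_pow (by norm_num), zero_mul, zero_pow (by norm_num)] at hsq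
    exact h6' (pow_eq_zero_iff (by norm_num) |>.mp hsq.symm)
  rcases sq_eq_sq_iff_eq_or_eq_neg.mp hsq with h1 | h1
  · exact exists_smul_eq_of_E₄_E₆ z z' c₀ hc₀0 h4eq h1.symm
  · refine exists_smul_eq_of_E₄_E₆ z z' (Complex.I * c₀) (mul_ne_zero Complex.I_ne_zero hc₀0) ?_ ?_
    · rw [mul_pow, Complex.I_pow_four, one_mul]; exact h4eq
    · have hI6 : Complex.I ^ 6 = -1 := by
        rw [show (6 : ℕ) = 4 + 2 by norm_num, pow_add, Complex.I_pow_four, Complex.I_sq, one_mul]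
      rw [mul_pow, hI6]
      linear_combination h1

/-- The zero set of `E₄` is a single `SL(2, ℤ)`-orbit. -/
theorem E₄_eq_zero_iff {z₀ : ℍ} (h₀ : E₄ z₀ = 0) (z : ℍ) :
    E₄ z = 0 ↔ ∃ γ : SL(2, ℤ), γ • z₀ = z := by
  constructor
  · exact fun h => exists_smul_eq_of_E₄_eq_zero h₀ h
  · rintro ⟨γ, rfl⟩
    exact (apply_smul_eq_zero_iff E₄ γ z₀).mpr h₀

/-- The zero set of `E₆` is a single `SL(2, ℤ)`-orbit. -/
theorem E₆_eq_zero_iff {z₀ : ℍ} (h₀ : E₆ z₀ = 0) (z : ℍ) :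
    E₆ z = 0 ↔ ∃ γ : SL(2, ℤ), γ • z₀ = z := by
  constructor
  · exact fun h => exists_smul_eq_of_E₆_eq_zero h₀ h
  · rintro ⟨γ, rfl⟩
    exact (apply_smul_eq_zero_iff E₆ γ z₀).mpr h₀

/-- The zero set of `E₆(z₀)² E₄³ - E₄(z₀)³ E₆²` is the `SL(2, ℤ)`-orbit of `z₀` (for `z₀` not a
zero of `E₄` or `E₆`). -/
theorem cross_eq_zero_iff {z₀ : ℍ} (h4 : E₄ z₀ ≠ 0) (h6 : E₆ z₀ ≠ 0) (z : ℍ) :
    E₄ z ^ 3 * E₆ z₀ ^ 2 - E₄ z₀ ^ 3 * E₆ z ^ 2 = 0 ↔ ∃ γ : SL(2, ℤ), γ • z₀ = z := by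
  constructor
  · intro h
    exact exists_smul_eq_of_cross h4 h6 (sub_eq_zero.mp h)
  · rintro ⟨γ, rfl⟩
    have e4 := SlashInvariantForm.slash_action_eqn'' E₄ (mapGL_mem_SL γ) z₀
    have e6 := SlashInvariantForm.slash_action_eqn'' E₆ (mapGL_mem_SL γ) z₀
    have h2 : γ • z₀ = (Matrix.SpecialLinearGroup.mapGL ℝ γ) • z₀ := rfl
    rw [h2, e4, e6]
    have : (denom (Matrix.SpecialLinearGroup.mapGL ℝ γ) z₀ ^ (4 : ℤ)) ^ 3 =
        (denom (Matrix.SpecialLinearGroup.mapGL ℝ γ) z₀ ^ (6 : ℤ)) ^ 2 := by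
      rw [← zpow_natCast, ← zpow_mul, ← zpow_natCast, ← zpow_mul]
      norm_num
    linear_combination (E₄ z₀ ^ 3 * E₆ z₀ ^ 2) * this

end Fermat.Agent.Lib.LevelOneZeros
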