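import Mathlib
import Fermat.Agent.S23.Defs
import Fermat.Agent.Lib.ConjSeparate
import Fermat.Agent.Lib.LevelOneZeros
import Fermat.Agent.Lib.LevelOneBracket

/-!
# Pointwise independence of a free basis of `M(Γ₀(N))` over `M(SL₂(ℤ))`

Input-insensitive "(I2)-assembly" of the S20 programme: a homogeneous free basis `(F i, k i)`
of the graded module of modular forms of level `Γ₀(N)` over the ring of level one forms, plus
the orbit-division property, give

* `even_weight`, `weight_nonneg`, `card_weight_zero`;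
* `pointwise_independent`: for every `z`, the vectors `((F i ∣[k i] γ) z)_γ` are linearly
  independent;
* `card_eq_index`: the number of basis elements is the index of `Γ₀(N)`.
-/

set_option autoImplicit false

open UpperHalfPlane ModularForm CongruenceSubgroup
open Fermat.Agent.S23
open scoped MatrixGroups ModularForm Manifold

namespace Fermat.Agent.Lib.PointwiseInv

/-! ### Basic slash lemmas in the `IsMF` vocabulary -/

lemma slash_of_isMF_SL {m : ℤ} {a : ℍ → ℂ} (ha : IsMF 𝒮ℒ m a) (γ : SL(2, ℤ)) :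
    a ∣[m] γ = a := by
  obtain ⟨A, rfl⟩ := ha
  exact Fermat.Agent.Lib.LevelOneBracket.levelOne_slash A γ

lemma slash_of_isMF_G0 {N : ℕ} {K : ℤ} {f : ℍ → ℂ} (hf : IsMF (G0 N) K f) {γ : SL(2, ℤ)}
    (hγ : γ ∈ Gamma0 N) : f ∣[K] γ = f := by
  obtain ⟨A, rfl⟩ := hf
  exact SlashInvariantForm.slash_action_eqn A _ ⟨γ, hγ, rfl⟩

lemma neg_one_mem_Gamma0 (N : ℕ) : (-1 : SL(2, ℤ)) ∈ Gamma0 N := by
  rw [Gamma0_mem]
  simp

/-- A modular form of odd weight and level `Γ₀(N)` vanishes. -/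
lemma eq_zero_of_odd {N : ℕ} {K : ℤ} {f : ℍ → ℂ} (hf : IsMF (G0 N) K f) (hK : Odd K) :
    f = 0 := by
  have h := slash_of_isMF_G0 hf (neg_one_mem_Gamma0 N)
  funext z
  have h1 := (slash_action_eq'_iff K f (-1) z).mp (congrFun h z)
  have hs : (-1 : SL(2, ℤ)) • z = z := by
    ext1
    simp
  rw [hs] at h1
  have h2 : (((-1 : SL(2, ℤ)) 1 0 : ℤ) : ℂ) * (z : ℂ) + (((-1 : SL(2, ℤ)) 1 1 : ℤ) : ℂ) = -1 := by
    simp
  rw [h2, hK.neg_one_zpow] at h1
  have h3 : (2 : ℂ) * f z = 0 := by linear_combination h1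
  simpa using h3

lemma eq_zero_of_neg {N : ℕ} [NeZero N] {K : ℤ} {f : ℍ → ℂ} (hf : IsMF (G0 N) K f)
    (hK : K < 0) : f = 0 := by
  obtain ⟨A, rfl⟩ := hf
  rw [ModularForm.isZero_of_neg_weight hK A]
  rfl

lemma isMF_SL_eq_zero_of_neg {K : ℤ} {f : ℍ → ℂ} (hf : IsMF 𝒮ℒ K f) (hK : K < 0) : f = 0 := by
  obtain ⟨A, rfl⟩ := hf
  rw [ModularForm.isZero_of_neg_weight hK A]
  rfl

lemma exists_const_of_weight_zero {N : ℕ} [NeZero N] {f : ℍ → ℂ} (hf : IsMF (G0 N) 0 f) :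
    ∃ c : ℂ, f = fun _ => c := by
  obtain ⟨A, rfl⟩ := hf
  obtain ⟨c, hc⟩ := ModularForm.eq_const_of_weight_zero A
  exact ⟨c, hc⟩

lemma isMF_SL_exists_const {f : ℍ → ℂ} (hf : IsMF 𝒮ℒ 0 f) : ∃ c : ℂ, f = fun _ => c := by
  obtain ⟨A, rfl⟩ := hf
  obtain ⟨c, hc⟩ := ModularForm.eq_const_of_weight_zero A
  exact ⟨c, hc⟩

/-! ### The hypotheses -/

/-- A homogeneous free basis of `M(Γ₀(N))` over the ring of level one modular forms. -/
structure FreeBasis (N : ℕ) {n : ℕ} (k : Fin n → ℤ) (F : Fin n → ℍ → ℂ) : Prop where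
  isMF : ∀ i, IsMF (G0 N) (k i) (F i)
  gen : ∀ (K : ℤ) (f : ℍ → ℂ), IsMF (G0 N) K f →
    ∃ a : Fin n → ℍ → ℂ, (∀ i, IsMF 𝒮ℒ (K - k i) (a i)) ∧ f = ∑ i, a i * F i
  ind : ∀ (K : ℤ) (a : Fin n → ℍ → ℂ), (∀ i, IsMF 𝒮ℒ (K - k i) (a i)) →
    ∑ i, a i * F i = 0 → ∀ i, a i = 0

/-- The orbit-division property: a form of level `Γ₀(N)` all of whose conjugates vanish at
`z₀` is divisible by a level one form vanishing at `z₀`. -/
def OrbitDiv (N : ℕ) : Prop :=
  ∀ z₀ : ℍ, ∃ (w : ℤ) (D : ℍ → ℂ), IsMF 𝒮ℒ w D ∧ D z₀ = 0 ∧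
    ∀ (K : ℤ) (f : ℍ → ℂ), IsMF (G0 N) K f → (∀ γ : SL(2, ℤ), (f ∣[K] γ) z₀ = 0) →
      ∃ f' : ℍ → ℂ, IsMF (G0 N) (K - w) f' ∧ f = D * f'

section P0

variable {N : ℕ} [NeZero N] {n : ℕ} {k : Fin n → ℤ} {F : Fin n → ℍ → ℂ}

lemma one_ne_zero_fun : (1 : ℍ → ℂ) ≠ 0 := fun h => by
  simpa using congrFun h UpperHalfPlane.I

omit [NeZero N] in
lemma FreeBasis.ne_zero (h : FreeBasis N k F) (i : Fin n) : F i ≠ 0 := by
  classical
  intro hi
  have key := h.ind (k i) (fun j => if j = i then 1 else 0) ?_ ?_ i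
  · simp only [if_true] at key
    exact one_ne_zero_fun key
  · intro j
    by_cases hj : j = i
    · subst hj
      simpa using (IsMF.one (Γ := 𝒮ℒ))
    · simpa [hj] using (IsMF.zero (Γ := 𝒮ℒ) (k := k i - k j))
  · refine Finset.sum_eq_zero fun j _ => ?_
    by_cases hj : j = i
    · subst hj
      simp [hi]
    · simp [hj]

omit [NeZero N] in
theorem even_weight (h : FreeBasis N k F) (i : Fin n) : Even (k i) := by
  by_contra hodd
  exact h.ne_zero i (eq_zero_of_odd (h.isMF i) (Int.not_even_iff_odd.mp hodd))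

theorem weight_nonneg (h : FreeBasis N k F) (i : Fin n) : 0 ≤ k i := by
  by_contra hneg
  exact h.ne_zero i (eq_zero_of_neg (h.isMF i) (not_le.mp hneg))

theorem card_weight_zero (h : FreeBasis N k F) : Fintype.card {i // k i = 0} = 1 := by
  classical
  rw [Fintype.card_eq_one_iff]
  -- existence
  have hex : ∃ i, k i = 0 := by
    by_contra hno
    push Not at hno
    obtain ⟨a, ha, hsum⟩ := h.gen 0 1 (IsMF.one.toG0 N)
    have ha0 : ∀ i, a i = 0 := fun i =>
      isMF_SL_eq_zero_of_neg (ha i) (by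
        have := weight_nonneg h i
        have := hno i
        omega)
    have : (1 : ℍ → ℂ) = 0 := by
      rw [hsum]
      exact Finset.sum_eq_zero fun i _ => by rw [ha0 i, zero_mul]
    exact one_ne_zero_fun this
  obtain ⟨i, hi⟩ := hex
  refine ⟨⟨i, hi⟩, ?_⟩
  rintro ⟨j, hj⟩
  rw [Subtype.mk.injEq]
  by_contra hne
  obtain ⟨c, hc⟩ := exists_const_of_weight_zero (hi ▸ h.isMF i)
  obtain ⟨c', hc'⟩ := exists_const_of_weight_zero (hj ▸ h.isMF j)
  have key := h.ind 0 (fun l => if l = i then (fun _ => c') else if l = j then (fun _ => -c)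
    else 0) ?_ ?_ i
  · simp only [if_true] at key
    have hc'0 : c' = 0 := congrFun key UpperHalfPlane.I
    apply h.ne_zero j
    rw [hc', hc'0]
    rfl
  · intro l
    by_cases hl : l = i
    · subst hl
      simp only [if_true]
      rw [hi]
      simpa using (IsMF.const (Γ := 𝒮ℒ) c')
    · by_cases hl' : l = j
      · subst hl'
        simp only [hl, if_false, if_true]
        rw [hj]
        simpa using (IsMF.const (Γ := 𝒮ℒ) (-c))
      · simp only [hl, hl', if_false]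
        exact IsMF.zero
  · rw [Fintype.sum_eq_add i j (Ne.symm hne)]
    · simp only [if_true, if_neg hne]
      rw [hc, hc']
      funext z
      simp
      ring
    · rintro l ⟨hl, hl'⟩
      simp [hl, hl']

end P0

/-! ### The space of relations between the conjugate vectors at a point -/

section Rel

variable {n : ℕ}

/-- The space of linear relations between the vectors `((F i ∣[k i] γ) z)_γ`. -/
def relSub (k : Fin n → ℤ) (F : Fin n → ℍ → ℂ) (z : ℍ) : Submodule ℂ (Fin n → ℂ) where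
  carrier := {c | ∀ γ : SL(2, ℤ), ∑ i, c i * (F i ∣[k i] γ) z = 0}
  add_mem' := by
    intro c c' hc hc' γ
    have h1 := hc γ
    have h2 := hc' γ
    simp only [Pi.add_apply, add_mul, Finset.sum_add_distrib, h1, h2, add_zero]
  zero_mem' := by
    intro γ
    simp
  smul_mem' := by
    intro t c hc γ
    have h1 := hc γ
    simp only [Pi.smul_apply, smul_eq_mul, mul_assoc, ← Finset.mul_sum, h1, mul_zero]

lemma mem_relSub {k : Fin n → ℤ} {F : Fin n → ℍ → ℂ} {z : ℍ} {c : Fin n → ℂ} :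
    c ∈ relSub k F z ↔ ∀ γ : SL(2, ℤ), ∑ i, c i * (F i ∣[k i] γ) z = 0 := Iff.rfl

/-- Transfer of relations along the orbit. -/
lemma relSub_smul {k : Fin n → ℤ} {F : Fin n → ℍ → ℂ} (δ : SL(2, ℤ)) (z : ℍ) {c : Fin n → ℂ}
    (hc : c ∈ relSub k F (δ • z)) : (fun i => c i * denom δ z ^ (k i)) ∈ relSub k F z := by
  intro γ
  rw [← hc (γ * δ⁻¹)]
  refine Finset.sum_congr rfl fun i _ => ?_
  have e : F i ∣[k i] γ = (F i ∣[k i] (γ * δ⁻¹)) ∣[k i] δ := by
    rw [← SlashAction.slash_mul, inv_mul_cancel_right]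
  rw [e, SL_slash_apply (F i ∣[k i] (γ * δ⁻¹)) δ z, zpow_neg]
  have hd : denom δ z ^ (k i) ≠ 0 := zpow_ne_zero _ (denom_ne_zero δ z)
  field_simp

end Rel

/-! ### The core division argument -/

section Core

variable {N : ℕ} [NeZero N] {n : ℕ} {k : Fin n → ℤ} {F : Fin n → ℍ → ℂ}

omit [NeZero N] in
theorem eq_zero_of_rel_of_mult (h : FreeBasis N k F) (hdiv : OrbitDiv N) {z₀ : ℍ}
    {c : Fin n → ℂ} (hrel : c ∈ relSub k F z₀) (K : ℤ) (a : Fin n → ℍ → ℂ)
    (ha : ∀ i, IsMF 𝒮ℒ (K - k i) (a i)) (ha1 : ∀ i, c i ≠ 0 → a i z₀ = 1) : c = 0 := by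
  classical
  set G : ℍ → ℂ := ∑ i, (c i • a i) * F i with hG
  have hGterm : ∀ i, IsMF (G0 N) K ((c i • a i) * F i) := fun i =>
    ((((ha i).smul (c i)).toG0 N).mul (h.isMF i)).weight_congr (by ring)
  have hGmf : IsMF (G0 N) K G := IsMF.sum _ (fun i _ => hGterm i)
  have hGz : ∀ γ : SL(2, ℤ), (G ∣[K] γ) z₀ = 0 := by
    intro γ
    rw [hG, SlashAction.sum_slash, Finset.sum_apply, ← hrel γ]
    refine Finset.sum_congr rfl fun i _ => ?_
    have e : (c i • a i * F i) ∣[K] γ = (c i • a i) ∣[K - k i] γ * F i ∣[k i] γ := by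
      have := mul_slash_SL2 (K - k i) (k i) γ (c i • a i) (F i)
      rwa [sub_add_cancel] at this
    rw [e, slash_of_isMF_SL ((ha i).smul (c i)) γ]
    simp only [Pi.mul_apply, Pi.smul_apply, smul_eq_mul]
    by_cases hc : c i = 0
    · simp [hc]
    · rw [ha1 i hc, mul_one]
  obtain ⟨w, D, hD, hDz, hdivD⟩ := hdiv z₀
  obtain ⟨G', hG', hGD⟩ := hdivD K G hGmf hGz
  obtain ⟨b, hb, hG'b⟩ := h.gen (K - w) G' hG'
  have hrel0 : ∑ i, (c i • a i - D * b i) * F i = 0 := by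
    have : ∑ i, (c i • a i - D * b i) * F i = G - D * G' := by
      rw [hG, hG'b, Finset.mul_sum, ← Finset.sum_sub_distrib]
      refine Finset.sum_congr rfl fun i _ => ?_
      ring
    rw [this, ← hGD, sub_self]
  have hcoef := h.ind K (fun i => c i • a i - D * b i)
    (fun i => ((ha i).smul (c i)).sub ((hD.mul (hb i)).weight_congr (by ring))) hrel0
  funext i
  by_contra hc
  have h1 := congrFun (hcoef i) z₀
  simp only [Pi.sub_apply, Pi.smul_apply, Pi.mul_apply, smul_eq_mul, hDz, zero_mul, sub_zero,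
    Pi.zero_apply] at h1
  rw [ha1 i hc, mul_one] at h1
  exact hc h1

/-- Level one forms `E₄^a E₆^b`, normalised to take the value `1` at `z₀`. -/
lemma exists_mult (z₀ : ℍ) (a b : ℕ) (ha : a ≠ 0 → E₄ z₀ ≠ 0) (hb : b ≠ 0 → E₆ z₀ ≠ 0) :
    ∃ g : ℍ → ℂ, IsMF 𝒮ℒ (4 * a + 6 * b) g ∧ g z₀ = 1 := by
  have h4 : E₄ z₀ ^ a ≠ 0 := by
    rcases Nat.eq_zero_or_pos a with rfl | hpos
    · simp
    · exact pow_ne_zero _ (ha hpos.ne')
  have h6 : E₆ z₀ ^ b ≠ 0 := by
    rcases Nat.eq_zero_or_pos b with rfl | hpos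
    · simp
    · exact pow_ne_zero _ (hb hpos.ne')
  refine ⟨(E₄ z₀ ^ a * E₆ z₀ ^ b)⁻¹ • ((⇑E₄) ^ a * (⇑E₆) ^ b),
    (((IsMF.coe E₄).pow a).mul ((IsMF.coe E₆).pow b)).smul _, ?_⟩
  simp only [Pi.smul_apply, Pi.mul_apply, Pi.pow_apply, smul_eq_mul]
  field_simp

lemma exists_four_six {m : ℤ} (hm : Even m) (h4 : 4 ≤ m) : ∃ a b : ℕ, m = 4 * a + 6 * b := by
  obtain ⟨t, rfl⟩ := hm
  rcases Int.emod_two_eq_zero_or_one t with ht | ht
  · refine ⟨(t / 2).toNat, 0, ?_⟩
    have h0 : 0 ≤ t / 2 := by omega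
    rw [Int.toNat_of_nonneg h0]
    omega
  · refine ⟨((t - 3) / 2).toNat, 1, ?_⟩
    have h0 : 0 ≤ (t - 3) / 2 := by omega
    rw [Int.toNat_of_nonneg h0]
    omega

lemma weight_le_sum (h : FreeBasis N k F) (i : Fin n) : k i ≤ ∑ j, k j :=
  Finset.single_le_sum (fun j _ => weight_nonneg h j) (Finset.mem_univ i)

omit [NeZero N] in
lemma even_sum_weight (h : FreeBasis N k F) : Even (∑ j, k j) :=
  Finset.sum_induction _ Even (fun _ _ => Even.add) Even.zero (fun i _ => even_weight h i)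

theorem eq_zero_of_rel_generic (h : FreeBasis N k F) (hdiv : OrbitDiv N) {z₀ : ℍ}
    (h4 : E₄ z₀ ≠ 0) (h6 : E₆ z₀ ≠ 0) {c : Fin n → ℂ} (hrel : c ∈ relSub k F z₀) : c = 0 := by
  have hex : ∀ i, ∃ g : ℍ → ℂ, IsMF 𝒮ℒ ((∑ j, k j) + 4 - k i) g ∧ g z₀ = 1 := by
    intro i
    have hev : Even ((∑ j, k j) + 4 - k i) :=
      ((even_sum_weight h).add (by decide)).sub (even_weight h i)
    have hge : 4 ≤ (∑ j, k j) + 4 - k i := by
      have := weight_le_sum h i
      omega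
    obtain ⟨a, b, hab⟩ := exists_four_six hev hge
    obtain ⟨g, hg, hg1⟩ := exists_mult z₀ a b (fun _ => h4) (fun _ => h6)
    exact ⟨g, hab ▸ hg, hg1⟩
  choose a ha ha1 using hex
  exact eq_zero_of_rel_of_mult h hdiv hrel _ a ha (fun i _ => ha1 i)

end Core

/-! ### The elliptic points `i` and `ρ` -/

lemma S_smul_I : ModularGroup.S • UpperHalfPlane.I = UpperHalfPlane.I := by
  rw [UpperHalfPlane.modular_S_smul]
  ext1
  simp

lemma denom_S_I : denom ModularGroup.S UpperHalfPlane.I = Complex.I :=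
  ModularGroup.denom_S UpperHalfPlane.I

lemma isPrimitiveRoot_I : IsPrimitiveRoot Complex.I 4 := by
  refine IsPrimitiveRoot.mk_of_lt _ (by norm_num) Complex.I_pow_four ?_
  intro l hl0 hl4
  interval_cases l
  · simp [Complex.ext_iff]
  · norm_num [Complex.ext_iff]
  · simp [Complex.ext_iff, pow_succ]

lemma E₆_I : E₆ UpperHalfPlane.I = 0 := by
  have h := slash_of_isMF_SL (IsMF.coe E₆) ModularGroup.S
  have h1 := (slash_action_eq'_iff 6 E₆ ModularGroup.S UpperHalfPlane.I).mp (congrFun h _)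
  rw [S_smul_I] at h1
  have h2 : ((ModularGroup.S 1 0 : ℤ) : ℂ) * (UpperHalfPlane.I : ℂ)
      + ((ModularGroup.S 1 1 : ℤ) : ℂ) = Complex.I := by
    simp [ModularGroup.S]
  rw [h2] at h1
  have h3 : (Complex.I : ℂ) ^ (6 : ℤ) = -1 := by
    have : (Complex.I : ℂ) ^ (6 : ℕ) = -1 := by
      rw [show (6 : ℕ) = 4 + 2 from rfl, pow_add, Complex.I_pow_four, Complex.I_sq, one_mul]
    exact_mod_cast this
  rw [h3] at h1
  have h4 : (2 : ℂ) * E₆ UpperHalfPlane.I = 0 := by linear_combination h1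
  simpa using h4

lemma ρ_im : (ρ : ℂ).im = Real.sqrt 3 / 2 := rfl

lemma ρ_add_ne (x : ℝ) : (ρ : ℂ) + x ≠ 0 := by
  intro h0
  have h1 : ((ρ : ℂ) + x).im = 0 := by rw [h0]; simp
  rw [Complex.add_im, ρ_im, Complex.ofReal_im, add_zero] at h1
  have : Real.sqrt 3 = 0 := by linarith
  simp at this

lemma ST_smul_ρ : (ModularGroup.S * ModularGroup.T) • ρ = ρ := by
  rw [mul_smul, UpperHalfPlane.modular_T_smul, UpperHalfPlane.modular_S_smul]
  ext1
  show (-(((1:ℝ) +ᵥ ρ : ℍ) : ℂ))⁻¹ = (ρ : ℂ)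
  rw [UpperHalfPlane.coe_vadd]
  have h := ρ_sq
  have h1 := ρ_add_ne 1
  have h2 : -(((1 : ℝ) : ℂ) + (ρ : ℂ)) ≠ 0 := by
    rw [neg_ne_zero, add_comm]; exact h1
  rw [inv_eq_one_div, div_eq_iff h2]
  push_cast
  linear_combination h

lemma ST_entries : ((ModularGroup.S * ModularGroup.T : SL(2, ℤ)) 1 0 = 1) ∧
    ((ModularGroup.S * ModularGroup.T : SL(2, ℤ)) 1 1 = 1) := by
  rw [Matrix.SpecialLinearGroup.coe_mul, ModularGroup.coe_S, ModularGroup.coe_T]
  simp [Matrix.mul_apply, Fin.sum_univ_two]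

lemma denom_ST_ρ :
    denom ((ModularGroup.S * ModularGroup.T : SL(2, ℤ)) : GL (Fin 2) ℝ) ρ = (ρ : ℂ) + 1 := by
  rw [ModularGroup.denom_apply, ST_entries.1, ST_entries.2]
  simp

lemma isPrimitiveRoot_ρ_add_one : IsPrimitiveRoot ((ρ : ℂ) + 1) 6 := by
  have h := ρ_sq
  set x : ℂ := (ρ : ℂ) + 1 with hx
  have h2 : x ^ 2 = x - 1 := by rw [hx]; linear_combination h
  have h3 : x ^ 3 = -1 := by
    calc x ^ 3 = x ^ 2 * x := by ring
      _ = -1 := by rw [h2]; linear_combination h2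
  have hne : ∀ r : ℝ, x ≠ r := by
    intro r hr
    have := ρ_add_ne (1 - r)
    apply this
    push_cast
    rw [hx] at hr
    linear_combination hr
  refine IsPrimitiveRoot.mk_of_lt _ (by norm_num) ?_ ?_
  · calc x ^ 6 = (x ^ 3) ^ 2 := by ring
      _ = 1 := by rw [h3]; norm_num
  · intro l hl0 hl6
    interval_cases l
    · rw [pow_one]; exact_mod_cast hne 1
    · rw [h2]; intro h'; exact hne 2 (by push_cast; linear_combination h')
    · rw [h3]; norm_num
    · have : x ^ 4 = -x := by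
        calc x ^ 4 = x ^ 3 * x := by ring
          _ = -x := by rw [h3]; ring
      rw [this]; intro h'; exact hne (-1) (by push_cast; linear_combination -h')
    · have : x ^ 5 = 1 - x := by
        calc x ^ 5 = x ^ 3 * x ^ 2 := by ring
          _ = 1 - x := by rw [h3, h2]; ring
      rw [this]; intro h'; exact hne 0 (by push_cast; linear_combination -h')

lemma E₄_ρ : E₄ ρ = 0 := by
  have h := slash_of_isMF_SL (IsMF.coe E₄) (ModularGroup.S * ModularGroup.T)
  have h1 := (slash_action_eq'_iff 4 E₄ (ModularGroup.S * ModularGroup.T) ρ).mp (congrFun h _)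
  rw [ST_smul_ρ] at h1
  have h2 : (((ModularGroup.S * ModularGroup.T) 1 0 : ℤ) : ℂ) * (ρ : ℂ)
      + (((ModularGroup.S * ModularGroup.T) 1 1 : ℤ) : ℂ) = (ρ : ℂ) + 1 := by
    rw [ST_entries.1, ST_entries.2]
    simp
  rw [h2] at h1
  have hp := isPrimitiveRoot_ρ_add_one
  have h3 : ((ρ : ℂ) + 1) ^ (4 : ℤ) ≠ 1 := by
    intro h'
    have := (hp.zpow_eq_one_iff_dvd 4).mp h'
    omega
  by_contra hne
  apply h3
  have : (((ρ : ℂ) + 1) ^ (4 : ℤ) - 1) * E₄ ρ = 0 := by linear_combination -h1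
  rcases mul_eq_zero.mp this with h5 | h5
  · linear_combination h5
  · exact absurd h5 hne

/-! ### Splitting relations at a point with a non-trivial stabiliser -/

section Special

variable {N : ℕ} [NeZero N] {n : ℕ} {k : Fin n → ℤ} {F : Fin n → ℍ → ℂ}

lemma relSub_twist {z₀ : ℍ} {c : Fin n → ℂ} (hc : c ∈ relSub k F z₀) (γ₀ : SL(2, ℤ))
    (hfix : γ₀ • z₀ = z₀) (t : ℕ) :
    (fun i => c i * (denom γ₀ z₀ ^ (k i)) ^ t) ∈ relSub k F z₀ := by
  induction t with
  | zero => simpa using hc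
  | succ t ih =>
    have h1 : (fun i => c i * (denom γ₀ z₀ ^ (k i)) ^ t) ∈ relSub k F (γ₀ • z₀) := by
      rw [hfix]; exact ih
    have h2 := relSub_smul γ₀ z₀ h1
    have e : (fun i => c i * (denom γ₀ z₀ ^ (k i)) ^ (t + 1)) =
        fun i => c i * (denom γ₀ z₀ ^ (k i)) ^ t * denom γ₀ z₀ ^ (k i) := by
      funext i
      ring
    rw [e]
    exact h2

lemma relSub_class {z₀ : ℍ} {c : Fin n → ℂ} (hc : c ∈ relSub k F z₀) (γ₀ : SL(2, ℤ))
    (hfix : γ₀ • z₀ = z₀) {d : ℕ} (hd : 0 < d) (hξ : IsPrimitiveRoot (denom γ₀ z₀) d) (r : ℤ) :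
    (fun i => if (d : ℤ) ∣ k i - r then c i else 0) ∈ relSub k F z₀ := by
  classical
  set ξ := denom γ₀ z₀ with hξdef
  have hξ0 : ξ ≠ 0 := denom_ne_zero γ₀ z₀
  have hmem : (∑ t ∈ Finset.range d, ((ξ ^ r)⁻¹) ^ t • (fun i => c i * (ξ ^ (k i)) ^ t)) ∈
      relSub k F z₀ :=
    Submodule.sum_mem _ (fun t _ => Submodule.smul_mem _ _ (relSub_twist hc γ₀ hfix t))
  have hmem2 := Submodule.smul_mem _ ((d : ℂ)⁻¹) hmem
  have hd0 : (d : ℂ) ≠ 0 := by exact_mod_cast hd.ne'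
  convert hmem2 using 1
  funext i
  simp only [Pi.smul_apply, Finset.sum_apply, smul_eq_mul]
  have hsum : ∑ t ∈ Finset.range d, ((ξ ^ r)⁻¹) ^ t * (c i * (ξ ^ (k i)) ^ t) =
      c i * ∑ t ∈ Finset.range d, (ξ ^ (k i - r)) ^ t := by
    rw [Finset.mul_sum]
    refine Finset.sum_congr rfl fun t _ => ?_
    rw [zpow_sub₀ hξ0, div_eq_mul_inv, mul_pow]
    ring
  rw [hsum]
  by_cases hdiv : (d : ℤ) ∣ k i - r
  · rw [if_pos hdiv]
    have h1 : ξ ^ (k i - r) = 1 := (hξ.zpow_eq_one_iff_dvd _).mpr hdiv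
    simp only [h1, one_pow, Finset.sum_const, Finset.card_range, nsmul_eq_mul, mul_one]
    field_simp
  · rw [if_neg hdiv]
    have h1 : ξ ^ (k i - r) ≠ 1 := fun h => hdiv ((hξ.zpow_eq_one_iff_dvd _).mp h)
    have h2 : (ξ ^ (k i - r)) ^ d = 1 := by
      rw [← zpow_natCast, ← zpow_mul, mul_comm, zpow_mul, zpow_natCast, hξ.pow_eq_one, one_zpow]
    rw [geom_sum_eq h1, h2, sub_self, zero_div, mul_zero, mul_zero]

theorem eq_zero_of_rel_special (h : FreeBasis N k F) (hdiv : OrbitDiv N) {z₀ : ℍ}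
    {c : Fin n → ℂ} (hrel : c ∈ relSub k F z₀) (γ₀ : SL(2, ℤ)) (hfix : γ₀ • z₀ = z₀)
    {d : ℕ} (hd : 0 < d) (hξ : IsPrimitiveRoot (denom γ₀ z₀) d)
    (hmult : ∀ q : ℕ, ∃ g : ℍ → ℂ, IsMF 𝒮ℒ ((d : ℤ) * q) g ∧ g z₀ = 1) : c = 0 := by
  classical
  funext i
  set r : ℤ := k i % d with hr
  have hd' : (1 : ℤ) ≤ d := by exact_mod_cast hd
  have hr0 : 0 ≤ r := Int.emod_nonneg _ (by omega)
  have hcl := relSub_class hrel γ₀ hfix hd hξ r
  set S : ℤ := ∑ j, k j with hS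
  have hex : ∀ j, ∃ g : ℍ → ℂ, IsMF 𝒮ℒ (r + d * S - k j) g ∧
      ((d : ℤ) ∣ k j - r → g z₀ = 1) := by
    intro j
    by_cases hj : (d : ℤ) ∣ k j - r
    · obtain ⟨e, he⟩ := hj
      have hkj := weight_le_sum h j
      have hkj0 := weight_nonneg h j
      have he' : e ≤ S := by
        by_contra hlt
        push Not at hlt
        have h0 : 0 ≤ S := le_trans hkj0 hkj
        have : S < d * e := by nlinarith
        omega
      obtain ⟨g, hg, hg1⟩ := hmult (S - e).toNat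
      refine ⟨g, ?_, fun _ => hg1⟩
      have hw : ((d : ℤ) * ((S - e).toNat : ℤ)) = r + d * S - k j := by
        rw [Int.toNat_of_nonneg (by omega)]
        have : k j = r + d * e := by omega
        rw [this]
        ring
      exact hw ▸ hg
    · exact ⟨0, IsMF.zero, fun hj' => absurd hj' hj⟩
  choose a ha ha1 using hex
  have hzero := eq_zero_of_rel_of_mult h hdiv hcl (r + d * S) a ha (fun j hj => ha1 j (by
    by_contra hnd
    exact hj (if_neg hnd)))
  have hi := congrFun hzero i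
  have hdvd : (d : ℤ) ∣ k i - r := Int.dvd_self_sub_of_emod_eq rfl
  simpa [hdvd] using hi

/-- **Pointwise independence**: at every point of `ℍ` the vectors `((F i ∣[k i] γ) z)_γ` are
linearly independent. -/
theorem pointwise_independent (h : FreeBasis N k F) (hdiv : OrbitDiv N) (z : ℍ)
    (c : Fin n → ℂ) (hrel : ∀ γ : SL(2, ℤ), ∑ i, c i * (F i ∣[k i] γ) z = 0) : c = 0 := by
  have hback : ∀ (δ : SL(2, ℤ)) (z₀ : ℍ),
      (fun i => c i * denom δ z₀ ^ (k i)) = 0 → c = 0 := by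
    intro δ z₀ h0
    funext i
    have := congrFun h0 i
    simp only [Pi.zero_apply, mul_eq_zero] at this
    rcases this with h1 | h1
    · exact h1
    · exact absurd h1 (zpow_ne_zero _ (denom_ne_zero δ z₀))
  by_cases h6 : E₆ z = 0
  · obtain ⟨δ, rfl⟩ := (Fermat.Agent.Lib.LevelOneZeros.E₆_eq_zero_iff E₆_I z).mp h6
    have h1 := relSub_smul δ UpperHalfPlane.I (mem_relSub.mpr hrel)
    refine hback δ UpperHalfPlane.I
      (eq_zero_of_rel_special h hdiv h1 ModularGroup.S S_smul_I (d := 4) (by norm_num)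
        (by rw [denom_S_I]; exact isPrimitiveRoot_I) ?_)
    intro q
    have h4 : E₄ UpperHalfPlane.I ≠ 0 := fun h4 =>
      Fermat.Agent.Lib.LevelOneBracket.not_both_zero _ ⟨h4, E₆_I⟩
    obtain ⟨g, hg, hg1⟩ := exists_mult UpperHalfPlane.I q 0 (fun _ => h4) (fun hb => absurd rfl hb)
    exact ⟨g, hg.weight_congr (by push_cast; ring), hg1⟩
  by_cases h4 : E₄ z = 0
  · obtain ⟨δ, rfl⟩ := (Fermat.Agent.Lib.LevelOneZeros.E₄_eq_zero_iff E₄_ρ z).mp h4
    have h1 := relSub_smul δ ρ (mem_relSub.mpr hrel)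
    refine hback δ ρ
      (eq_zero_of_rel_special h hdiv h1 (ModularGroup.S * ModularGroup.T) ST_smul_ρ (d := 6)
        (by norm_num) (by rw [denom_ST_ρ]; exact isPrimitiveRoot_ρ_add_one) ?_)
    intro q
    have h6' : E₆ ρ ≠ 0 := fun h6' =>
      Fermat.Agent.Lib.LevelOneBracket.not_both_zero _ ⟨E₄_ρ, h6'⟩
    obtain ⟨g, hg, hg1⟩ := exists_mult ρ 0 q (fun ha => absurd rfl ha) (fun _ => h6')
    exact ⟨g, hg.weight_congr (by push_cast; ring), hg1⟩
  · exact eq_zero_of_rel_generic h hdiv h4 h6 (mem_relSub.mpr hrel)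

end Special

/-! ### The number of basis elements -/

section Card

variable {N : ℕ} [NeZero N] {n : ℕ} {k : Fin n → ℤ} {F : Fin n → ℍ → ℂ}

omit [NeZero N] in
lemma slash_eq_out {K : ℤ} {f : ℍ → ℂ} (hf : IsMF (G0 N) K f) (γ : SL(2, ℤ)) :
    f ∣[K] γ = f ∣[K] ((QuotientGroup.mk γ⁻¹ : SL(2, ℤ) ⧸ Gamma0 N).out)⁻¹ := by
  obtain ⟨g, hg⟩ := QuotientGroup.mk_out_eq_mul (Gamma0 N) γ⁻¹
  rw [hg, mul_inv_rev, inv_inv, SlashAction.slash_mul, slash_of_isMF_G0 hf (inv_mem g.2)]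

lemma pow_slash (f : ℍ → ℂ) (m : ℤ) (γ : SL(2, ℤ)) (j : ℕ) :
    (f ^ j) ∣[m * j] γ = (f ∣[m] γ) ^ j := by
  induction j with
  | zero =>
    simp only [pow_zero, Nat.cast_zero, mul_zero]
    exact is_invariant_one γ
  | succ j ih =>
    have e : m * ((j + 1 : ℕ) : ℤ) = m * j + m := by push_cast; ring
    rw [e, pow_succ, mul_slash_SL2, ih, pow_succ]

theorem card_le_index (h : FreeBasis N k F) (hdiv : OrbitDiv N) : n ≤ (Gamma0 N).index := by
  classical
  have : Finite (SL(2, ℤ) ⧸ Gamma0 N) := Subgroup.finite_quotient_of_finiteIndex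
  let _ := Fintype.ofFinite (SL(2, ℤ) ⧸ Gamma0 N)
  let u : Fin n → (SL(2, ℤ) ⧸ Gamma0 N) → ℂ :=
    fun i x => (F i ∣[k i] (x.out)⁻¹) UpperHalfPlane.I
  have hli : LinearIndependent ℂ u := by
    rw [Fintype.linearIndependent_iff]
    intro g hg
    have := pointwise_independent h hdiv UpperHalfPlane.I g (fun γ => ?_)
    · intro i; exact congrFun this i
    · have h1 := congrFun hg (QuotientGroup.mk γ⁻¹)
      simp only [Finset.sum_apply, Pi.smul_apply, smul_eq_mul, Pi.zero_apply] at h1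
      rw [← h1]
      refine Finset.sum_congr rfl fun i _ => ?_
      rw [slash_eq_out (h.isMF i) γ]
  have h1 := hli.fintype_card_le_finrank
  rw [Fintype.card_fin, Module.finrank_fintype_fun_eq_card] at h1
  rw [Subgroup.index, Nat.card_eq_fintype_card]
  exact h1

theorem index_le_card (h : FreeBasis N k F) : (Gamma0 N).index ≤ n := by
  classical
  have : Finite (SL(2, ℤ) ⧸ Gamma0 N) := Subgroup.finite_quotient_of_finiteIndex
  let _ := Fintype.ofFinite (SL(2, ℤ) ⧸ Gamma0 N)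
  obtain ⟨z, hz⟩ := Fermat.Agent.Lib.ConjSeparate.exists_generic N
  let e : (SL(2, ℤ) ⧸ Gamma0 N) ≃ Fin (Fintype.card (SL(2, ℤ) ⧸ Gamma0 N)) := Fintype.equivFin _
  let dN : ℍ → ℂ := Fermat.Agent.Lib.DeltaSlash.deltaN N
  let dval : (SL(2, ℤ) ⧸ Gamma0 N) → ℂ := fun x => (dN ∣[(12 : ℤ)] (x.out)⁻¹) z
  have hdinj : Function.Injective dval := by
    intro x x' hxx
    have h1 := hz _ _ hxx
    rw [inv_inv] at h1
    have h2 := QuotientGroup.eq.mpr h1
    rwa [QuotientGroup.out_eq', QuotientGroup.out_eq'] at h2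
  let u : Fin n → (SL(2, ℤ) ⧸ Gamma0 N) → ℂ := fun i x => (F i ∣[k i] (x.out)⁻¹) z
  let w : Fin (Fintype.card (SL(2, ℤ) ⧸ Gamma0 N)) → (SL(2, ℤ) ⧸ Gamma0 N) → ℂ :=
    fun j x => dval x ^ (j : ℕ)
  have hwli : LinearIndependent ℂ w := by
    rw [Fintype.linearIndependent_iff]
    intro g hg
    have h0 := Matrix.eq_zero_of_forall_index_sum_pow_mul_eq_zero (f := dval ∘ e.symm) (v := g)
      (hdinj.comp e.symm.injective) (fun j => ?_)
    · exact fun i => congrFun h0 i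
    · have h1 := congrFun hg (e.symm j)
      simp only [Finset.sum_apply, Pi.smul_apply, smul_eq_mul, Pi.zero_apply] at h1
      rw [← h1]
      refine Finset.sum_congr rfl fun i _ => ?_
      simp only [w, Function.comp_apply]
      ring
  have hdN : IsMF (G0 N) 12 dN := (IsCF.coe (Fermat.Agent.Lib.DeltaLevelN.deltaNForm N)).isMF
  have hwmem : ∀ j, w j ∈ Submodule.span ℂ (Set.range u) := by
    intro j
    obtain ⟨a, ha, hsum⟩ := h.gen _ _ (hdN.pow (j : ℕ))
    have hw : w j = ∑ i, a i z • u i := by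
      funext x
      simp only [w, u, dval, Finset.sum_apply, Pi.smul_apply, smul_eq_mul]
      rw [← Pi.pow_apply, ← pow_slash, hsum, SlashAction.sum_slash, Finset.sum_apply]
      refine Finset.sum_congr rfl fun i _ => ?_
      have e1 := mul_slash_SL2 (12 * (j : ℕ) - k i) (k i) (x.out)⁻¹ (a i) (F i)
      rw [sub_add_cancel] at e1
      rw [e1, slash_of_isMF_SL (ha i)]
      rfl
    rw [hw]
    exact Submodule.sum_mem _
      (fun i _ => Submodule.smul_mem _ _ (Submodule.subset_span ⟨i, rfl⟩))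
  have h1 : Fintype.card (SL(2, ℤ) ⧸ Gamma0 N) ≤
      Module.finrank ℂ (Submodule.span ℂ (Set.range u)) := by
    have hli' : LinearIndependent ℂ
        (fun j => (⟨w j, hwmem j⟩ : Submodule.span ℂ (Set.range u))) := by
      apply LinearIndependent.of_comp (Submodule.subtype _)
      exact hwli
    simpa using hli'.fintype_card_le_finrank
  have h2 : Module.finrank ℂ (Submodule.span ℂ (Set.range u)) ≤ n := by
    have h3 := finrank_range_le_card (R := ℂ) u
    rw [Fintype.card_fin] at h3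
    exact h3
  rw [Subgroup.index, Nat.card_eq_fintype_card]
  exact h1.trans h2

/-- The number of elements of a free basis is the index of `Γ₀(N)`. -/
theorem card_eq_index (h : FreeBasis N k F) (hdiv : OrbitDiv N) : n = (Gamma0 N).index :=
  le_antisymm (card_le_index h hdiv) (index_le_card h)

end Card

end Fermat.Agent.Lib.PointwiseInv
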