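import Mathlib
import Fermat.Agent.Lib.PointwiseInv
import Fermat.Agent.Lib.GradedFree
import Fermat.Agent.Lib.OrbitDivide

/-!
# A good homogeneous basis of `M(Γ₀(N))` over `M(SL₂(ℤ))`

Wiring of `Lib/GradedFree` (existence of a free homogeneous basis), `Lib/OrbitDivide` (orbit
division) and `Lib/PointwiseInv` (pointwise independence, cardinality): the single input of the
elliptic counts, the cusp package and the final arithmetic of the S20 programme.
-/

set_option autoImplicit false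

open UpperHalfPlane ModularForm CongruenceSubgroup
open Fermat.Agent.S23 Fermat.Agent.Lib.PointwiseInv
open scoped MatrixGroups ModularForm Manifold

namespace Fermat.Agent.Lib.GoodBasis

/-- The orbit-division property holds for every level (helper20's `orbit_divide`). -/
theorem orbitDiv (N : ℕ) [NeZero N] : OrbitDiv N := fun z₀ =>
  ⟨Fermat.Agent.Lib.OrbitDivide.divWeight z₀, Fermat.Agent.Lib.OrbitDivide.divForm z₀,
    Fermat.Agent.Lib.OrbitDivide.divForm_isMF z₀, Fermat.Agent.Lib.OrbitDivide.divForm_self z₀,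
    fun _ _ hf h0 => Fermat.Agent.Lib.OrbitDivide.orbit_divide N hf z₀ h0⟩

/-- A free homogeneous basis exists (helper69's `exists_free_basis`, weights cast to `ℤ`). -/
theorem exists_freeBasis (N : ℕ) [NeZero N] :
    ∃ (n : ℕ) (k : Fin n → ℤ) (F : Fin n → ℍ → ℂ), FreeBasis N k F := by
  obtain ⟨n, k, F, hF, huniq, -⟩ := Fermat.Agent.Lib.GradedFree.exists_free_basis N
  refine ⟨n, fun i => (k i : ℤ), F, hF, fun K f hf => (huniq K f hf).exists,
    fun K a ha hsum i => ?_⟩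
  have h0 : (∀ i, IsMF 𝒮ℒ (K - (k i : ℤ)) ((0 : Fin n → ℍ → ℂ) i)) ∧
      (0 : ℍ → ℂ) = ∑ i, (0 : Fin n → ℍ → ℂ) i * F i :=
    ⟨fun i => IsMF.zero, by simp⟩
  have := (huniq K 0 IsMF.zero).unique ⟨ha, hsum.symm⟩ h0
  exact congrFun this i

/-- **Good basis** (the S20 interface): a homogeneous basis `(F i, k i)`, `i : Fin n`, of the
graded module of modular forms of level `Γ₀(N)` over the level one forms, which is pointwise
independent at every point of `ℍ` and has `n = [SL₂(ℤ) : Γ₀(N)]` elements. -/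
theorem exists_good_basis (N : ℕ) [NeZero N] :
    ∃ (n : ℕ) (k : Fin n → ℤ) (F : Fin n → ℍ → ℂ),
      (∀ i, IsMF (G0 N) (k i) (F i)) ∧
      (∀ (K : ℤ) (f : ℍ → ℂ), IsMF (G0 N) K f →
        ∃ a : Fin n → ℍ → ℂ, (∀ i, IsMF 𝒮ℒ (K - k i) (a i)) ∧ f = ∑ i, a i * F i) ∧
      (∀ (K : ℤ) (a : Fin n → ℍ → ℂ), (∀ i, IsMF 𝒮ℒ (K - k i) (a i)) →
        ∑ i, a i * F i = 0 → ∀ i, a i = 0) ∧
      (∀ (z : ℍ) (c : Fin n → ℂ),
        (∀ γ : SL(2, ℤ), ∑ i, c i * ((F i) ∣[k i] γ) z = 0) → c = 0) ∧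
      n = (CongruenceSubgroup.Gamma0 N).index := by
  obtain ⟨n, k, F, h⟩ := exists_freeBasis N
  exact ⟨n, k, F, h.isMF, h.gen, h.ind, pointwise_independent h (orbitDiv N),
    card_eq_index h (orbitDiv N)⟩

/-- The good basis together with the elementary weight facts: weights are even, nonnegative,
and exactly one basis element has weight `0`. -/
theorem exists_good_basis' (N : ℕ) [NeZero N] :
    ∃ (n : ℕ) (k : Fin n → ℤ) (F : Fin n → ℍ → ℂ),
      (∀ i, IsMF (G0 N) (k i) (F i)) ∧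
      (∀ (K : ℤ) (f : ℍ → ℂ), IsMF (G0 N) K f →
        ∃ a : Fin n → ℍ → ℂ, (∀ i, IsMF 𝒮ℒ (K - k i) (a i)) ∧ f = ∑ i, a i * F i) ∧
      (∀ (K : ℤ) (a : Fin n → ℍ → ℂ), (∀ i, IsMF 𝒮ℒ (K - k i) (a i)) →
        ∑ i, a i * F i = 0 → ∀ i, a i = 0) ∧
      (∀ (z : ℍ) (c : Fin n → ℂ),
        (∀ γ : SL(2, ℤ), ∑ i, c i * ((F i) ∣[k i] γ) z = 0) → c = 0) ∧
      n = (CongruenceSubgroup.Gamma0 N).index ∧
      (∀ i, Even (k i)) ∧ (∀ i, 0 ≤ k i) ∧ Fintype.card {i // k i = 0} = 1 := by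
  obtain ⟨n, k, F, h⟩ := exists_freeBasis N
  exact ⟨n, k, F, h.isMF, h.gen, h.ind, pointwise_independent h (orbitDiv N),
    card_eq_index h (orbitDiv N), even_weight h, weight_nonneg h, card_weight_zero h⟩

end Fermat.Agent.Lib.GoodBasis
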