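import Mathlib
import Fermat.Prelude.Def_CuspForm_IntegralLattice
import Fermat.Prelude.Def_CuspForm_IntegralStructure
import Fermat.Prelude.Def_FormalHecke_Eigensystem
import Fermat.Prelude.Def_ModularForm_HeckeOperatorForms
import Fermat.Prelude.Def_CuspForm_HeckeAlgebra
import Fermat.Prelude.Thm_CuspForm_mem_intLattice_of_coe_eq_heckeT
import Fermat.Prelude.Thm_CuspForm_mem_intLattice_of_coe_eq_heckeU
import Fermat.Prelude.Thm_CuspForm_intLattice_fg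
import Fermat.Agent.Lib.EigenNormalize

set_option autoImplicit false

namespace Fermat.Agent.Lib.IntLatticeCongr

open ModularFormClass CongruenceSubgroup EisensteinWeightOne
open Fermat.Agent.Lib.EigenNormalize

variable {N : ℕ}

theorem qCoeff_add (f g : CuspForm (Gamma0 N) 2) (n : ℕ) :
    qCoeff ⇑(f + g) n = qCoeff ⇑f n + qCoeff ⇑g n := by
  simp only [qCoeff, FunLike.coe_add]
  rw [ModularForm.qExpansion_add one_pos (one_mem_strictPeriods_Gamma0 N) f g, map_add]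

theorem qCoeff_sub (f g : CuspForm (Gamma0 N) 2) (n : ℕ) :
    qCoeff ⇑(f - g) n = qCoeff ⇑f n - qCoeff ⇑g n := by
  simp only [qCoeff, FunLike.coe_sub]
  rw [ModularForm.qExpansion_sub one_pos (one_mem_strictPeriods_Gamma0 N) f g, map_sub]

theorem qCoeff_zero_form (n : ℕ) : qCoeff ⇑(0 : CuspForm (Gamma0 N) 2) n = 0 := by
  simp only [qCoeff, FunLike.coe_zero]
  rw [UpperHalfPlane.qExpansion_zero, map_zero]

theorem zsmul_eq_smul (c : ℤ) (f : CuspForm (Gamma0 N) 2) : c • f = (c : ℂ) • f := by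
  ext z
  simp

theorem qCoeff_zsmul (c : ℤ) (f : CuspForm (Gamma0 N) 2) (n : ℕ) :
    qCoeff ⇑(c • f) n = c * qCoeff ⇑f n := by
  rw [zsmul_eq_smul, qCoeff_smul]

/-- The set of forms with integral `q`-coefficients, as a `ℤ`-submodule. -/
def intSubmodule (N : ℕ) : Submodule ℤ (CuspForm (Gamma0 N) 2) where
  carrier := {f | ∀ n : ℕ, ∃ m : ℤ, qCoeff f n = (m : ℂ)}
  add_mem' {f g} hf hg n := by
    obtain ⟨a, ha⟩ := hf n
    obtain ⟨b, hb⟩ := hg n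
    exact ⟨a + b, by rw [qCoeff_add, ha, hb]; push_cast; ring⟩
  zero_mem' n := ⟨0, by rw [qCoeff_zero_form]; simp⟩
  smul_mem' c {f} hf n := by
    obtain ⟨a, ha⟩ := hf n
    exact ⟨c * a, by rw [qCoeff_zsmul, ha]; push_cast; ring⟩

theorem intLattice_eq (N : ℕ) : CuspForm.intLattice N 2 = intSubmodule N :=
  Submodule.span_eq (intSubmodule N)

theorem mem_intLattice_iff (f : CuspForm (Gamma0 N) 2) :
    f ∈ CuspForm.intLattice N 2 ↔ ∀ n : ℕ, ∃ m : ℤ, qCoeff f n = (m : ℂ) := by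
  rw [intLattice_eq]
  rfl

theorem mem_intLattice_of_mem_qIntegralSet {f : CuspForm (Gamma0 N) 2}
    (hf : f ∈ CuspForm.qIntegralSet N) : f ∈ CuspForm.intLattice N 2 := by
  rw [mem_intLattice_iff]
  intro n
  obtain ⟨m, hm⟩ := Subring.mem_bot.mp (hf n)
  exact ⟨m, hm.symm⟩

theorem span_intLattice_eq_top (h : CuspForm.HasIntegralBasis N) :
    Submodule.span ℂ ((CuspForm.intLattice N 2 : Submodule ℤ (CuspForm (Gamma0 N) 2)) :
      Set (CuspForm (Gamma0 N) 2)) = ⊤ := by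
  rw [eq_top_iff, ← h]
  exact Submodule.span_mono fun f hf => mem_intLattice_of_mem_qIntegralSet hf

theorem hasIntegralStructure_of_hasIntegralBasis (h : CuspForm.HasIntegralBasis N) :
    CuspForm.HasIntegralStructure N 2 :=
  span_intLattice_eq_top h

/-- A form all of whose `q`-coefficients are integers divisible by `p` is `p` times an integral
form. -/
theorem exists_zsmul_of_dvd_qCoeff {p : ℤ} (hp : p ≠ 0) (h : CuspForm (Gamma0 N) 2)
    (hdiv : ∀ n : ℕ, ∃ m : ℤ, qCoeff h n = (p : ℂ) * m) :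
    ∃ g ∈ CuspForm.intLattice N 2, h = p • g := by
  have hp' : (p : ℂ) ≠ 0 := by exact_mod_cast hp
  refine ⟨(p : ℂ)⁻¹ • h, ?_, ?_⟩
  · rw [mem_intLattice_iff]
    intro n
    obtain ⟨m, hm⟩ := hdiv n
    refine ⟨m, ?_⟩
    rw [qCoeff_smul, hm, ← mul_assoc, inv_mul_cancel₀ hp', one_mul]
  · rw [zsmul_eq_smul, smul_smul, mul_inv_cancel₀ hp', one_smul]

theorem chiNegThree_dvd (ℓ : ℕ) : (3 : ℤ) ∣ (ℓ : ℤ) - chiNegThree ℓ := by
  unfold chiNegThree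
  have h3 : ℓ % 3 < 3 := Nat.mod_lt _ (by norm_num)
  split_ifs with h1 h2 <;> omega

theorem three_dvd_coeff_e1Chi3 (n : ℕ) (hn : n ≠ 0) :
    (3 : ℤ) ∣ PowerSeries.coeff n (e1Chi3In ℤ) := by
  simp only [e1Chi3In, e1Chi3, PowerSeries.coeff_map, PowerSeries.coeff_mk, if_neg hn]
  exact ⟨2 * sigmaChi n, by simp; ring⟩

theorem coeff_zero_e1Chi3 : PowerSeries.coeff 0 (e1Chi3In ℤ) = 1 := by
  simp [e1Chi3In, e1Chi3]

theorem bridgeProduct_coeff_dvd (a : ℕ → ℤ) (n : ℕ) :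
    (3 : ℤ) ∣ PowerSeries.coeff n (bridgeProduct a) - a n := by
  unfold bridgeProduct
  rw [PowerSeries.coeff_mul]
  have hmem : (n, 0) ∈ Finset.HasAntidiagonal.antidiagonal n := by simp
  rw [← Finset.add_sum_erase _ _ hmem]
  simp only [PowerSeries.coeff_mk, coeff_zero_e1Chi3, mul_one, add_sub_cancel_left]
  apply Finset.dvd_sum
  intro x hx
  have hx2 : x.2 ≠ 0 := by
    intro h0
    have hx' := Finset.mem_erase.mp hx
    have hmem' := Finset.HasAntidiagonal.mem_antidiagonal.mp hx'.2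
    apply hx'.1
    ext
    · simp only; omega
    · simp only; omega
  exact Dvd.dvd.mul_left (three_dvd_coeff_e1Chi3 x.2 hx2) _

theorem three_dvd_sub_of_bridge {a af : ℕ → ℤ}
    (h3 : ∀ n, (3 : ℤ) ∣ af n - PowerSeries.coeff n (bridgeProduct a)) (n : ℕ) :
    (3 : ℤ) ∣ af n - a n := by
  have h := Dvd.dvd.add (h3 n) (bridgeProduct_coeff_dvd a n)
  simpa using h

theorem hecke_congr [NeZero N] {a : ℕ → ℤ}
    (heig : FormalHecke.IsEigensystem
      (fun ℓ => if ℓ ∣ N then 0 else ((chiNegThree ℓ : ℤ) : ℤ)) a)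
    (hreal : CuspForm.IsLatticeRealized N a) :
    ∃ f0 : CuspForm (Gamma0 N) 2, f0 ∈ CuspForm.intLattice N 2 ∧
      (¬ ∃ g ∈ CuspForm.intLattice N 2, f0 = (3 : ℤ) • g) ∧
      (∀ (ℓ : ℕ) (hℓ : ℓ.Prime) (hℓN : ¬ ℓ ∣ N), ∃ g ∈ CuspForm.intLattice N 2,
        CuspForm.heckeTLin 2 hℓ hℓN f0 - a ℓ • f0 = (3 : ℤ) • g) ∧
      (∀ (ℓ : ℕ) (_ : ℓ.Prime) (hℓN : ℓ ∣ N), ∃ g ∈ CuspForm.intLattice N 2,
        CuspForm.heckeULin 2 hℓN f0 - a ℓ • f0 = (3 : ℤ) • g) := by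
  obtain ⟨f0, hf0, af, haf, h3⟩ := hreal
  have hc : ∀ n, (3 : ℤ) ∣ af n - a n := three_dvd_sub_of_bridge h3
  have hcz : ∀ n, ((af n : ℤ) : ZMod 3) = ((a n : ℤ) : ZMod 3) := fun n =>
    (ZMod.intCast_eq_intCast_iff_dvd_sub _ _ 3).mpr ((dvd_sub_comm).mp (hc n))
  refine ⟨f0, mem_intLattice_of_mem_qIntegralSet hf0, ?_, ?_, ?_⟩
  · rintro ⟨g, hg, hfg⟩
    obtain ⟨m, hm⟩ := (mem_intLattice_iff g).mp hg 1
    have h1 : (af 1 : ℂ) = ((3 * m : ℤ) : ℂ) := by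
      rw [haf, hfg, qCoeff_zsmul, hm]; push_cast; ring
    have h1' : af 1 = 3 * m := by exact_mod_cast h1
    have h2 := hc 1
    rw [heig.1, h1'] at h2
    omega
  · intro ℓ hℓ hℓN
    apply exists_zsmul_of_dvd_qCoeff (by norm_num)
    intro n
    have hcoef : qCoeff ⇑(CuspForm.heckeTLin 2 hℓ hℓN f0 - a ℓ • f0) n =
        ((af (ℓ * n) + ℓ * (if ℓ ∣ n then af (n / ℓ) else 0) - a ℓ * af n : ℤ) : ℂ) := by
      simp only [qCoeff_sub, qCoeff_heckeTLin, qCoeff_zsmul, ← haf]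
      split_ifs <;> push_cast <;> ring
    have hdvd : (3 : ℤ) ∣ af (ℓ * n) + ℓ * (if ℓ ∣ n then af (n / ℓ) else 0) - a ℓ * af n := by
      have e := congrArg (Int.cast : ℤ → ZMod 3) (heig.2 ℓ hℓ n)
      simp only [if_neg hℓN] at e
      have hchi : ((ℓ : ℤ) : ZMod 3) = ((chiNegThree ℓ : ℤ) : ZMod 3) :=
        (ZMod.intCast_eq_intCast_iff_dvd_sub _ _ 3).mpr ((dvd_sub_comm).mp (chiNegThree_dvd ℓ))
      have key : ((af (ℓ * n) + ℓ * (if ℓ ∣ n then af (n / ℓ) else 0) - a ℓ * af n : ℤ) :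
          ZMod 3) = 0 := by
        split_ifs at e ⊢ with hd
        · push_cast at e hchi ⊢
          rw [hcz, hcz, hcz, hchi]
          linear_combination e
        · push_cast at e hchi ⊢
          rw [hcz, hcz]
          linear_combination e
      exact_mod_cast (ZMod.intCast_zmod_eq_zero_iff_dvd _ 3).mp key
    obtain ⟨m, hm⟩ := hdvd
    exact ⟨m, by rw [hcoef, hm]; push_cast; ring⟩
  · intro ℓ hℓ hℓN
    apply exists_zsmul_of_dvd_qCoeff (by norm_num)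
    intro n
    have hcoef : qCoeff ⇑(CuspForm.heckeULin 2 hℓN f0 - a ℓ • f0) n =
        ((af (ℓ * n) - a ℓ * af n : ℤ) : ℂ) := by
      simp only [qCoeff_sub, qCoeff_heckeULin _ hℓ, qCoeff_zsmul, ← haf]
      push_cast; ring
    have hdvd : (3 : ℤ) ∣ af (ℓ * n) - a ℓ * af n := by
      have e := congrArg (Int.cast : ℤ → ZMod 3) (heig.2 ℓ hℓ n)
      simp only [if_pos hℓN, zero_mul, add_zero] at e
      have key : ((af (ℓ * n) - a ℓ * af n : ℤ) : ZMod 3) = 0 := by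
        push_cast at e ⊢
        rw [hcz, hcz]
        linear_combination e
      exact_mod_cast (ZMod.intCast_zmod_eq_zero_iff_dvd _ 3).mp key
    obtain ⟨m, hm⟩ := hdvd
    exact ⟨m, by rw [hcoef, hm]; push_cast; ring⟩

/-- The family of all Hecke operators `T_ℓ` (`ℓ ∤ N`) and `U_ℓ` (`ℓ ∣ N`), indexed by primes. -/
noncomputable def heckeFam (N : ℕ) [NeZero N] (ℓ : {ℓ : ℕ // ℓ.Prime}) :
    Module.End ℂ (CuspForm (Gamma0 N) 2) :=
  if h : ℓ.1 ∣ N then CuspForm.heckeULin 2 h else CuspForm.heckeTLin 2 ℓ.2 h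

theorem heckeFam_of_dvd [NeZero N] {ℓ : ℕ} (hℓ : ℓ.Prime) (h : ℓ ∣ N) :
    heckeFam N ⟨ℓ, hℓ⟩ = CuspForm.heckeULin 2 h := by
  simp [heckeFam, h]

theorem heckeFam_of_not_dvd [NeZero N] {ℓ : ℕ} (hℓ : ℓ.Prime) (h : ¬ ℓ ∣ N) :
    heckeFam N ⟨ℓ, hℓ⟩ = CuspForm.heckeTLin 2 hℓ h := by
  simp [heckeFam, h]

theorem heckeFam_commute [NeZero N] (i j : {ℓ : ℕ // ℓ.Prime}) :
    Commute (heckeFam N i) (heckeFam N j) := by
  obtain ⟨p, hp⟩ := i
  obtain ⟨q, hq⟩ := j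
  by_cases h1 : p ∣ N <;> by_cases h2 : q ∣ N
  · rw [heckeFam_of_dvd hp h1, heckeFam_of_dvd hq h2]
    exact CuspForm.heckeULin_comm 2 h1 h2
  · rw [heckeFam_of_dvd hp h1, heckeFam_of_not_dvd hq h2]
    exact (CuspForm.heckeTLin_heckeULin_comm 2 hq h2 h1).symm
  · rw [heckeFam_of_not_dvd hp h1, heckeFam_of_dvd hq h2]
    exact CuspForm.heckeTLin_heckeULin_comm 2 hp h1 h2
  · rw [heckeFam_of_not_dvd hp h1, heckeFam_of_not_dvd hq h2]
    exact CuspForm.heckeTLin_comm 2 hp h1 hq h2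

theorem heckeFam_mem_intLattice [NeZero N] (i : {ℓ : ℕ // ℓ.Prime})
    {f : CuspForm (Gamma0 N) 2} (hf : f ∈ CuspForm.intLattice N 2) :
    heckeFam N i f ∈ CuspForm.intLattice N 2 := by
  obtain ⟨p, hp⟩ := i
  by_cases h1 : p ∣ N
  · rw [heckeFam_of_dvd hp h1]
    exact CuspForm.mem_intLattice_of_coe_eq_heckeU hp.ne_zero
      (CuspForm.coe_heckeULin_apply 2 h1 f) hf
  · rw [heckeFam_of_not_dvd hp h1]
    exact CuspForm.mem_intLattice_of_coe_eq_heckeT one_le_two hp.ne_zero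
      (CuspForm.coe_heckeTLin_apply 2 hp h1 f) hf

theorem heckeFam_congr [NeZero N] {a : ℕ → ℤ}
    (heig : FormalHecke.IsEigensystem
      (fun ℓ => if ℓ ∣ N then 0 else ((chiNegThree ℓ : ℤ) : ℤ)) a)
    (hreal : CuspForm.IsLatticeRealized N a) :
    ∃ f0 : CuspForm (Gamma0 N) 2, f0 ∈ CuspForm.intLattice N 2 ∧
      (¬ ∃ g ∈ CuspForm.intLattice N 2, f0 = (3 : ℤ) • g) ∧
      (∀ i : {ℓ : ℕ // ℓ.Prime}, ∃ g ∈ CuspForm.intLattice N 2,
        heckeFam N i f0 - a i.1 • f0 = (3 : ℤ) • g) := by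
  obtain ⟨f0, h1, h2, h3, h4⟩ := hecke_congr heig hreal
  refine ⟨f0, h1, h2, ?_⟩
  rintro ⟨p, hp⟩
  by_cases hpN : p ∣ N
  · rw [heckeFam_of_dvd hp hpN]
    exact h4 p hp hpN
  · rw [heckeFam_of_not_dvd hp hpN]
    exact h3 p hp hpN

/-- From a simultaneous eigenvector of the whole family, get a normalised eigenform. -/
theorem exists_normalizedEigenform_of_heckeFam_eigen [NeZero N]
    (g : CuspForm (Gamma0 N) 2) (hg : g ≠ 0) (lam : {ℓ : ℕ // ℓ.Prime} → ℂ)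
    (h : ∀ i, heckeFam N i g = lam i • g) :
    ∃ f : CuspForm (Gamma0 N) 2, f.IsNormalizedEigenform ∧
      ∀ i : {ℓ : ℕ // ℓ.Prime}, qCoeff (⇑f) i.1 = lam i := by
  classical
  obtain ⟨f, hf, hfl⟩ := exists_normalizedEigenform_of_hecke_eigen g hg
    (fun ℓ => if hℓ : ℓ.Prime then lam ⟨ℓ, hℓ⟩ else 0)
    (fun ℓ hℓ hℓN => by
      rw [dif_pos hℓ, ← heckeFam_of_not_dvd hℓ hℓN]; exact h ⟨ℓ, hℓ⟩)
    (fun q hq hqN => by
      rw [dif_pos hq, ← heckeFam_of_dvd hq hqN]; exact h ⟨q, hq⟩)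
  refine ⟨f, hf, fun i => ?_⟩
  rw [hfl i.1 i.2, dif_pos i.2]

end Fermat.Agent.Lib.IntLatticeCongr
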