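import Mathlib
import Fermat.Prelude.Def_CuspForm_IntegralStructure
import Fermat.Prelude.Def_CuspForm_HeckeAlgebra
import Fermat.Agent.Lib.EigenNormalize
import Fermat.Agent.Lib.IntLatticeCongr

set_option autoImplicit false

namespace Fermat.Agent.Lib.HeckeDenominators

open ModularFormClass CongruenceSubgroup
open Fermat.Agent.Lib.EigenNormalize Fermat.Agent.Lib.IntLatticeCongr

variable {N : ℕ}

/-- For every `n ≥ 1` there is an element `T_n` of the Hecke algebra with
`a_1(T_n f) = a_n(f)` for all `f`. -/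
theorem exists_heckeT_n (N : ℕ) [NeZero N] : ∀ n : ℕ, 1 ≤ n →
    ∃ t ∈ CuspForm.heckeAlgebra N 2 ∅, ∀ f : CuspForm (Gamma0 N) 2,
      qCoeff (⇑(t f)) 1 = qCoeff (⇑f) n := by
  intro n
  induction n using Nat.strong_induction_on with
  | _ n ih =>
    intro hn
    rcases Nat.lt_or_ge n 2 with h2 | h2
    · have h1 : n = 1 := by omega
      subst h1
      exact ⟨1, Subalgebra.one_mem _, fun f => rfl⟩
    · have hp : (n.minFac).Prime := Nat.minFac_prime (by omega)
      set p := n.minFac with hpdef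
      obtain ⟨m, hm⟩ := Nat.minFac_dvd n
      rw [← hpdef] at hm
      have hm1 : 1 ≤ m := by
        rcases Nat.eq_zero_or_pos m with rfl | hpos
        · simp at hm; omega
        · exact hpos
      have hmn : m < n := by
        have := hp.one_lt
        nlinarith
      obtain ⟨tm, htm, htm'⟩ := ih m hmn hm1
      by_cases hpN : p ∣ N
      · refine ⟨tm * CuspForm.heckeULin 2 hpN, Subalgebra.mul_mem _ htm
          (CuspForm.heckeULin_mem_heckeAlgebra hp hpN (Set.notMem_empty _)), fun f => ?_⟩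
        rw [Module.End.mul_apply, htm', qCoeff_heckeULin f hp hpN, ← hm]
      · have hTmem : CuspForm.heckeTLin 2 hp hpN ∈ CuspForm.heckeAlgebra N 2 ∅ :=
          CuspForm.heckeTLin_mem_heckeAlgebra hp hpN (Set.notMem_empty _)
        by_cases hd : p ∣ m
        · have hq1 : 1 ≤ m / p := Nat.div_pos (Nat.le_of_dvd hm1 hd) hp.pos
          have hq2 : m / p < n := lt_of_le_of_lt (Nat.div_le_self _ _) hmn
          obtain ⟨tq, htq, htq'⟩ := ih (m / p) hq2 hq1
          refine ⟨tm * CuspForm.heckeTLin 2 hp hpN - (p : ℤ) • tq,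
            Subalgebra.sub_mem _ (Subalgebra.mul_mem _ htm hTmem)
              (Subalgebra.zsmul_mem _ htq _), fun f => ?_⟩
          rw [LinearMap.sub_apply, LinearMap.smul_apply, Module.End.mul_apply, qCoeff_sub,
            qCoeff_zsmul, htm', htq', qCoeff_heckeTLin f hp hpN, if_pos hd, ← hm]
          push_cast
          ring
        · refine ⟨tm * CuspForm.heckeTLin 2 hp hpN, Subalgebra.mul_mem _ htm hTmem, fun f => ?_⟩
          rw [Module.End.mul_apply, htm', qCoeff_heckeTLin f hp hpN, if_neg hd, ← hm]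
          ring

/-- Forms with rational `q`-coefficients. -/
def IsRatForm (f : CuspForm (Gamma0 N) 2) : Prop := ∀ n : ℕ, ∃ r : ℚ, qCoeff (⇑f) n = (r : ℂ)

theorem isRatForm_add {f g : CuspForm (Gamma0 N) 2} (hf : IsRatForm f) (hg : IsRatForm g) :
    IsRatForm (f + g) := fun n => by
  obtain ⟨a, ha⟩ := hf n
  obtain ⟨b, hb⟩ := hg n
  exact ⟨a + b, by rw [qCoeff_add, ha, hb]; push_cast; ring⟩

theorem isRatForm_zsmul (c : ℤ) {f : CuspForm (Gamma0 N) 2} (hf : IsRatForm f) :
    IsRatForm (c • f) := fun n => by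
  obtain ⟨a, ha⟩ := hf n
  exact ⟨c * a, by rw [qCoeff_zsmul, ha]; push_cast; ring⟩

theorem isRatForm_heckeAlgebra [NeZero N] {t : Module.End ℂ (CuspForm (Gamma0 N) 2)}
    (ht : t ∈ CuspForm.heckeAlgebra N 2 ∅) :
    ∀ f : CuspForm (Gamma0 N) 2, IsRatForm f → IsRatForm (t f) := by
  unfold CuspForm.heckeAlgebra at ht
  induction ht using Algebra.adjoin_induction with
  | mem t ht =>
    intro f hf n
    rcases ht with ⟨ℓ, hℓ, hℓN, -, rfl⟩ | ⟨q, hqN, hq, -, rfl⟩
    · rw [qCoeff_heckeTLin f hℓ hℓN]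
      obtain ⟨a, ha⟩ := hf (ℓ * n)
      by_cases hd : ℓ ∣ n
      · obtain ⟨b, hb⟩ := hf (n / ℓ)
        exact ⟨a + ℓ * b, by rw [if_pos hd, ha, hb]; push_cast; ring⟩
      · exact ⟨a, by rw [if_neg hd, ha]; ring⟩
    · rw [qCoeff_heckeULin f hq hqN]
      exact hf (q * n)
  | algebraMap r =>
    intro f hf
    have : (algebraMap ℤ (Module.End ℂ (CuspForm (Gamma0 N) 2)) r) f = r • f := by
      rw [Algebra.algebraMap_eq_smul_one, LinearMap.smul_apply, Module.End.one_apply]
    rw [this]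
    exact isRatForm_zsmul r hf
  | add x y _ _ hx hy =>
    intro f hf
    rw [LinearMap.add_apply]
    exact isRatForm_add (hx f hf) (hy f hf)
  | mul x y _ _ hx hy =>
    intro f hf
    rw [Module.End.mul_apply]
    exact hx _ (hy f hf)

theorem exists_den_finset [NeZero N] (f : CuspForm (Gamma0 N) 2) (hf : IsRatForm f)
    (s : Finset (CuspForm.heckeAlgebra N 2 ∅)) :
    ∃ D : ℕ, D ≠ 0 ∧ ∀ t ∈ s, ∃ m : ℤ,
      (D : ℂ) * qCoeff (⇑((t : Module.End ℂ (CuspForm (Gamma0 N) 2)) f)) 1 = m := by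
  classical
  induction s using Finset.induction_on with
  | empty => exact ⟨1, one_ne_zero, by simp⟩
  | insert a s ha ih =>
    obtain ⟨D, hD, hDs⟩ := ih
    obtain ⟨r, hr⟩ := isRatForm_heckeAlgebra a.2 f hf 1
    refine ⟨D * r.den, mul_ne_zero hD r.den_ne_zero, ?_⟩
    intro t ht
    rcases Finset.mem_insert.mp ht with rfl | ht
    · refine ⟨D * r.num, ?_⟩
      rw [hr]
      push_cast
      have h : (r : ℂ) * (r.den : ℂ) = (r.num : ℂ) := by exact_mod_cast Rat.mul_den_eq_num r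
      linear_combination (D : ℂ) * h
    · obtain ⟨m, hm⟩ := hDs t ht
      exact ⟨m * r.den, by push_cast; rw [← hm]; ring⟩

theorem exists_int_smul_mem_intLattice (N : ℕ) [NeZero N]
    (hfin : Module.Finite ℤ (CuspForm.heckeAlgebra N 2 ∅)) (f : CuspForm (Gamma0 N) 2)
    (hrat : ∀ n, ∃ r : ℚ, qCoeff (⇑f) n = (r : ℂ)) :
    ∃ D : ℤ, D ≠ 0 ∧ D • f ∈ CuspForm.intLattice N 2 := by
  obtain ⟨s, hs⟩ := hfin.fg_top
  obtain ⟨D, hD, hDs⟩ := exists_den_finset f hrat s
  have hall : ∀ t : CuspForm.heckeAlgebra N 2 ∅, ∃ m : ℤ,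
      (D : ℂ) * qCoeff (⇑((t : Module.End ℂ (CuspForm (Gamma0 N) 2)) f)) 1 = m := by
    intro t
    have ht : t ∈ Submodule.span ℤ (s : Set (CuspForm.heckeAlgebra N 2 ∅)) := by
      rw [hs]; trivial
    induction ht using Submodule.span_induction with
    | mem x hx => exact hDs x hx
    | zero =>
      refine ⟨0, ?_⟩
      rw [Subalgebra.coe_zero, LinearMap.zero_apply, qCoeff_zero_form]
      simp
    | add x y _ _ hx hy =>
      obtain ⟨a, ha⟩ := hx
      obtain ⟨b, hb⟩ := hy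
      refine ⟨a + b, ?_⟩
      rw [Subalgebra.coe_add, LinearMap.add_apply, qCoeff_add]
      push_cast
      rw [← ha, ← hb]; ring
    | smul c x _ hx =>
      obtain ⟨a, ha⟩ := hx
      refine ⟨c * a, ?_⟩
      have : ((c • x : CuspForm.heckeAlgebra N 2 ∅) : Module.End ℂ (CuspForm (Gamma0 N) 2))
          = c • (x : Module.End ℂ (CuspForm (Gamma0 N) 2)) := rfl
      rw [this, LinearMap.smul_apply, qCoeff_zsmul]
      push_cast
      rw [← ha]; ring
  refine ⟨(D : ℤ), by exact_mod_cast hD, ?_⟩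
  rw [mem_intLattice_iff]
  intro n
  rcases Nat.eq_zero_or_pos n with rfl | hn
  · exact ⟨0, by rw [qCoeff_zsmul, qCoeff_zero]; simp⟩
  · obtain ⟨t, ht, htn⟩ := exists_heckeT_n N n hn
    obtain ⟨m, hm⟩ := hall ⟨t, ht⟩
    exact ⟨m, by rw [qCoeff_zsmul, ← htn f, ← hm]; push_cast; ring⟩

theorem hasIntegralStructure_of_rational_span (N : ℕ) [NeZero N]
    (hfin : Module.Finite ℤ (CuspForm.heckeAlgebra N 2 ∅))
    (hspan : Submodule.span ℂ
      {f : CuspForm (Gamma0 N) 2 | ∀ n, ∃ r : ℚ, qCoeff (⇑f) n = (r : ℂ)} = ⊤) :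
    CuspForm.HasIntegralStructure N 2 := by
  unfold CuspForm.HasIntegralStructure
  rw [eq_top_iff, ← hspan, Submodule.span_le]
  intro f hf
  obtain ⟨D, hD, hDf⟩ := exists_int_smul_mem_intLattice N hfin f hf
  have hD' : (D : ℂ) ≠ 0 := by exact_mod_cast hD
  have hfe : f = (D : ℂ)⁻¹ • (D • f) := by
    rw [zsmul_eq_smul, smul_smul, inv_mul_cancel₀ hD', one_smul]
  rw [hfe]
  exact Submodule.smul_mem _ _ (Submodule.subset_span hDf)

end Fermat.Agent.Lib.HeckeDenominators
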