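import Mathlib

/-!
# Hecke operators on `Hom(Γ, A)` attached to a family of coset representatives

Abstract group theory.  Let `e : Γ →* G` be an injective homomorphism and `δ : ι → G` a finite
family such that right multiplication by `e Γ` permutes the cosets `e Γ · δ i`, which are pairwise
distinct.  Then for `γ : Γ` and `i : ι` there are unique `nxt γ i : ι` and `cof γ i : Γ` with

  `δ i * e γ = e (cof γ i) * δ (nxt γ i)`,

and for every abelian group `A` the formula `(Θ φ)(γ) = ∑ i, φ (cof γ i)` defines an additive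
endomorphism `Θ` of `Hom(Γ, A)` (the "Hecke operator" of the family; a transfer-type map).

We prove:
* `heckeHom` is well defined, additive, natural in `A` (so it preserves integrality);
* `sum_smul_sub`: if `F : X → B` (`G` acting on `X`) satisfies `F (e γ • x) - F x = φ γ`, then
  `x ↦ ∑ i, F (δ i • x)` satisfies the same with `Θ φ` (periods of `∑ F ∘ δ i`);
* `heckeHom_comp_conj`: `Θ` commutes with composition by a homomorphism `J : Γ →* Γ` induced by an
  endomorphism of `G` permuting the cosets.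
-/

set_option autoImplicit false

namespace Fermat.Agent.Lib.HeckeHom

variable {Γ G : Type*} [Group Γ] [Group G] {ι : Type*}

/-- Right multiplication by `e Γ` permutes the pairwise distinct cosets `e Γ · δ i`. -/
structure IsCosetFamily (e : Γ →* G) (δ : ι → G) : Prop where
  inj_e : Function.Injective e
  perm : ∀ (γ : Γ) (i : ι), ∃ (j : ι) (γ' : Γ), δ i * e γ = e γ' * δ j
  distinct : ∀ (i j : ι) (γ : Γ), δ i = e γ * δ j → i = j

namespace IsCosetFamily

variable {e : Γ →* G} {δ : ι → G} (h : IsCosetFamily e δ)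

/-- The index of the coset of `δ i * e γ`. -/
noncomputable def nxt (γ : Γ) (i : ι) : ι := (h.perm γ i).choose

/-- The cofactor: `δ i * e γ = e (cof γ i) * δ (nxt γ i)`. -/
noncomputable def cof (γ : Γ) (i : ι) : Γ := (h.perm γ i).choose_spec.choose

theorem spec (γ : Γ) (i : ι) : δ i * e γ = e (h.cof γ i) * δ (h.nxt γ i) :=
  (h.perm γ i).choose_spec.choose_spec

theorem unique {γ γ' : Γ} {i j : ι} (hij : δ i * e γ = e γ' * δ j) :
    h.nxt γ i = j ∧ h.cof γ i = γ' := by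
  have h1 := h.spec γ i
  rw [hij] at h1
  have h2 : δ j = e (γ'⁻¹ * h.cof γ i) * δ (h.nxt γ i) := by
    rw [map_mul, map_inv, mul_assoc, ← h1, inv_mul_cancel_left]
  have hj : j = h.nxt γ i := h.distinct _ _ _ h2
  rw [← hj] at h1
  exact ⟨hj.symm, (h.inj_e (mul_right_cancel h1)).symm⟩

theorem nxt_eq {γ γ' : Γ} {i j : ι} (hij : δ i * e γ = e γ' * δ j) : h.nxt γ i = j :=
  (h.unique hij).1

theorem cof_eq {γ γ' : Γ} {i j : ι} (hij : δ i * e γ = e γ' * δ j) : h.cof γ i = γ' :=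
  (h.unique hij).2

@[simp] theorem nxt_one (i : ι) : h.nxt 1 i = i := h.nxt_eq (γ' := 1) (by simp)

@[simp] theorem cof_one (i : ι) : h.cof 1 i = 1 := h.cof_eq (j := i) (by simp)

theorem spec_mul (γ₁ γ₂ : Γ) (i : ι) :
    δ i * e (γ₁ * γ₂) = e (h.cof γ₁ i * h.cof γ₂ (h.nxt γ₁ i)) * δ (h.nxt γ₂ (h.nxt γ₁ i)) := by
  rw [map_mul, ← mul_assoc, h.spec γ₁ i, mul_assoc, h.spec γ₂ (h.nxt γ₁ i), ← mul_assoc, map_mul]

theorem nxt_mul (γ₁ γ₂ : Γ) (i : ι) : h.nxt (γ₁ * γ₂) i = h.nxt γ₂ (h.nxt γ₁ i) :=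
  h.nxt_eq (h.spec_mul γ₁ γ₂ i)

theorem cof_mul (γ₁ γ₂ : Γ) (i : ι) :
    h.cof (γ₁ * γ₂) i = h.cof γ₁ i * h.cof γ₂ (h.nxt γ₁ i) :=
  h.cof_eq (h.spec_mul γ₁ γ₂ i)

/-- `nxt γ` as a permutation of the index set. -/
noncomputable def nxtPerm (γ : Γ) : Equiv.Perm ι where
  toFun := h.nxt γ
  invFun := h.nxt γ⁻¹
  left_inv i := by rw [← h.nxt_mul, mul_inv_cancel, h.nxt_one]
  right_inv i := by rw [← h.nxt_mul, inv_mul_cancel, h.nxt_one]

@[simp] theorem nxtPerm_apply (γ : Γ) (i : ι) : h.nxtPerm γ i = h.nxt γ i := rfl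

section Hom

variable [Fintype ι] {A : Type*} [AddCommGroup A]

/-- The Hecke operator of the family on `Hom(Γ, A)`: `(Θ φ)(γ) = ∑ i, φ (cof γ i)`. -/
noncomputable def heckeHom (φ : Additive Γ →+ A) : Additive Γ →+ A where
  toFun γ := ∑ i, φ (Additive.ofMul (h.cof (Additive.toMul γ) i))
  map_zero' := by simp
  map_add' γ₁ γ₂ := by
    simp only [toMul_add, h.cof_mul, ofMul_mul, map_add, Finset.sum_add_distrib]
    congr 1
    exact Equiv.sum_comp (h.nxtPerm (Additive.toMul γ₁))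
      (fun i => φ (Additive.ofMul (h.cof (Additive.toMul γ₂) i)))

theorem heckeHom_apply (φ : Additive Γ →+ A) (γ : Γ) :
    h.heckeHom φ (Additive.ofMul γ) = ∑ i, φ (Additive.ofMul (h.cof γ i)) := rfl

theorem heckeHom_add (φ ψ : Additive Γ →+ A) :
    h.heckeHom (φ + ψ) = h.heckeHom φ + h.heckeHom ψ := by
  refine AddMonoidHom.ext fun γ => ?_
  show ∑ i, (φ + ψ) _ = (∑ i, φ _) + ∑ i, ψ _
  simp only [AddMonoidHom.add_apply, Finset.sum_add_distrib]

/-- Naturality in the coefficient group. -/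
theorem heckeHom_comp {B : Type*} [AddCommGroup B] (ψ : A →+ B) (φ : Additive Γ →+ A) :
    h.heckeHom (ψ.comp φ) = ψ.comp (h.heckeHom φ) := by
  refine AddMonoidHom.ext fun γ => ?_
  show ∑ i, ψ (φ _) = ψ (∑ i, φ _)
  rw [map_sum]

/-- The Hecke operator as a linear map. -/
noncomputable def heckeLin (R : Type*) [Semiring R] [Module R A] :
    (Additive Γ →+ A) →ₗ[R] (Additive Γ →+ A) where
  toFun := h.heckeHom
  map_add' := h.heckeHom_add
  map_smul' c φ := by
    refine AddMonoidHom.ext fun γ => ?_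
    show ∑ i, (c • φ) _ = c • ∑ i, φ _
    simp only [AddMonoidHom.smul_apply, Finset.smul_sum]

@[simp] theorem heckeLin_apply (R : Type*) [Semiring R] [Module R A] (φ : Additive Γ →+ A) :
    h.heckeLin R φ = h.heckeHom φ := rfl

/-- Integrality: if `φ` takes values in the image of `ψ : B →+ A`, so does `Θ φ`. -/
theorem heckeHom_mem_range {B : Type*} [AddCommGroup B] (ψ : B →+ A) (φ : Additive Γ →+ A)
    (hφ : ∀ γ, ∃ b, φ γ = ψ b) (γ : Additive Γ) : ∃ b, h.heckeHom φ γ = ψ b := by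
  choose f hf using hφ
  refine ⟨∑ i, f (Additive.ofMul (h.cof (Additive.toMul γ) i)), ?_⟩
  rw [map_sum]
  exact Finset.sum_congr rfl fun i _ => hf _

end Hom

section Action

variable [Fintype ι] {X : Type*} [MulAction G X] {B : Type*} [AddCommGroup B]

/-- Periods of `x ↦ ∑ i, F (δ i • x)`: if `F (e γ • x) - F x = φ γ` for all `γ`, `x`, then
`∑ i, F (δ i • e γ • x) - ∑ i, F (δ i • x) = (Θ φ) γ`. -/
theorem sum_smul_sub (F : X → B) (φ : Additive Γ →+ B)
    (hF : ∀ (γ : Γ) (x : X), F (e γ • x) - F x = φ (Additive.ofMul γ)) (γ : Γ) (x : X) :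
    (∑ i, F (δ i • e γ • x)) - ∑ i, F (δ i • x) = h.heckeHom φ (Additive.ofMul γ) := by
  have h1 : ∀ i, F (δ i • e γ • x) =
      φ (Additive.ofMul (h.cof γ i)) + F (δ (h.nxt γ i) • x) := by
    intro i
    rw [← mul_smul, h.spec γ i, mul_smul, ← hF (h.cof γ i) (δ (h.nxt γ i) • x)]
    abel
  simp only [h1, Finset.sum_add_distrib]
  rw [h.heckeHom_apply]
  have h2 : ∑ i, F (δ (h.nxt γ i) • x) = ∑ i, F (δ i • x) :=
    Equiv.sum_comp (h.nxtPerm γ) (fun i => F (δ i • x))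
  rw [h2]
  abel

end Action

section Conj

variable [Fintype ι] {A : Type*} [AddCommGroup A]

/-- `Θ` commutes with composition by `J : Γ →* Γ` whenever `J` is induced by an endomorphism
`Jg` of `G` which permutes the cosets: `Jg (δ i) = e (u i) * δ (τ i)` with `τ` bijective. -/
theorem heckeHom_comp_conj (J : Γ →* Γ) (Jg : G →* G) (hJ : ∀ γ, Jg (e γ) = e (J γ))
    (τ : ι → ι) (hτ : Function.Bijective τ) (u : ι → Γ)
    (hδ : ∀ i, Jg (δ i) = e (u i) * δ (τ i)) (φ : Additive Γ →+ A) :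
    h.heckeHom (φ.comp (MonoidHom.toAdditive J)) =
      (h.heckeHom φ).comp (MonoidHom.toAdditive J) := by
  refine AddMonoidHom.ext fun γa => ?_
  obtain ⟨γ, rfl⟩ : ∃ γ : Γ, Additive.ofMul γ = γa := ⟨Additive.toMul γa, rfl⟩
  show ∑ i, φ (Additive.ofMul (J (h.cof γ i))) = ∑ i, φ (Additive.ofMul (h.cof (J γ) i))
  have key : ∀ i, δ (τ i) * e (J γ) =
      e ((u i)⁻¹ * J (h.cof γ i) * u (h.nxt γ i)) * δ (τ (h.nxt γ i)) := by
    intro i
    have h1 := congrArg Jg (h.spec γ i)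
    rw [map_mul, map_mul, hJ, hJ, hδ, hδ] at h1
    rw [map_mul, map_mul, map_inv, mul_assoc, mul_assoc, ← h1, mul_assoc, inv_mul_cancel_left]
  have hc : ∀ i, h.cof (J γ) (τ i) = (u i)⁻¹ * J (h.cof γ i) * u (h.nxt γ i) :=
    fun i => h.cof_eq (key i)
  let τe : ι ≃ ι := Equiv.ofBijective τ hτ
  have h2 : ∑ i, φ (Additive.ofMul (h.cof (J γ) i)) =
      ∑ i, φ (Additive.ofMul (h.cof (J γ) (τ i))) :=
    (Equiv.sum_comp τe (fun i => φ (Additive.ofMul (h.cof (J γ) i)))).symm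
  rw [h2]
  simp only [hc, ofMul_mul, ofMul_inv, map_add, map_neg, Finset.sum_add_distrib,
    Finset.sum_neg_distrib]
  have h3 : ∑ i, φ (Additive.ofMul (u (h.nxt γ i))) = ∑ i, φ (Additive.ofMul (u i)) :=
    Equiv.sum_comp (h.nxtPerm γ) (fun i => φ (Additive.ofMul (u i)))
  rw [h3]
  abel

end Conj

end IsCosetFamily

end Fermat.Agent.Lib.HeckeHom
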