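import Fermat.Agent.S22.Period
import Fermat.Agent.S22.HeckeDatum

set_option autoImplicit false

open Polynomial Filter Function
open UpperHalfPlane hiding I
open scoped Topology Manifold MatrixGroups ModularForm
open Matrix.SpecialLinearGroup

namespace Fermat.Agent.Lib.HeckePeriod

open Fermat.Agent.S22.Tower Fermat.Agent.S22.PolyAct Fermat.Agent.S22.Period
open Fermat.Agent.S22.HeckeDatum

/-- Iterated derivative of a composition with an affine polynomial. -/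
theorem iterate_derivative_comp_affine (α β : ℂ) (p : ℂ[X]) (i : ℕ) :
    derivative^[i] (p.comp (C α * X + C β)) =
      C (α ^ i) * (derivative^[i] p).comp (C α * X + C β) := by
  induction i generalizing p with
  | zero => simp
  | succ i ih =>
    rw [Function.iterate_succ_apply, Function.iterate_succ_apply, derivative_comp]
    have h1 : derivative (C α * X + C β : ℂ[X]) = C α := by simp
    rw [h1, iterate_derivative_C_mul, ih, pow_succ, C_mul]
    ring

/-- `pact` by the adjugate of an upper triangular matrix is a rescaled affine substitution. -/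
theorem pact_adj_eq {n : ℕ} {p : ℂ[X]} (hp : p.natDegree ≤ n) (a b d : ℂ) (ha : a ≠ 0) :
    pact n d (-b) 0 a p = C (a ^ n) * p.comp (C (d / a) * X + C (-b / a)) := by
  refine Polynomial.funext fun z => ?_
  have hz : (0 : ℂ) * z + a ≠ 0 := by simpa using ha
  rw [eval_pact_div hp d (-b) 0 a z hz]
  simp only [eval_mul, eval_C, eval_comp, eval_add, eval_X, zero_mul, zero_add]
  congr 2
  field_simp

/-- The adjugate of `δ`, as an element of `GL (Fin 2) ℝ`. -/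
noncomputable def adjG (δ : GL (Fin 2) ℝ) : GL (Fin 2) ℝ :=
  Matrix.GeneralLinearGroup.mkOfDetNeZero (Matrix.adjugate (δ : Matrix (Fin 2) (Fin 2) ℝ))
    (by rw [Matrix.det_adjugate]; simpa using δ.det_ne_zero)

theorem val_adjG (δ : GL (Fin 2) ℝ) :
    (adjG δ : Matrix (Fin 2) (Fin 2) ℝ) = Matrix.adjugate (δ : Matrix (Fin 2) (Fin 2) ℝ) := rfl

theorem adjG_mul_eq {δ δ' g g' : GL (Fin 2) ℝ} (hg : g.val.det = 1) (hg' : g'.val.det = 1)
    (h : δ * g = g' * δ') : adjG δ * g' = g * adjG δ' := by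
  apply Units.ext
  rw [Units.val_mul, Units.val_mul, val_adjG, val_adjG]
  have h' : (δ : Matrix (Fin 2) (Fin 2) ℝ) * g.val = g'.val * δ'.val := by
    rw [← Units.val_mul, ← Units.val_mul, h]
  have h2 := congrArg Matrix.adjugate h'
  rw [Matrix.adjugate_mul_distrib, Matrix.adjugate_mul_distrib] at h2
  calc Matrix.adjugate δ.val * g'.val
      = (g.val * Matrix.adjugate g.val) * Matrix.adjugate δ.val * g'.val := by
        rw [Matrix.mul_adjugate, hg, one_smul, Matrix.one_mul]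
    _ = g.val * (Matrix.adjugate g.val * Matrix.adjugate δ.val) * g'.val := by
        rw [Matrix.mul_assoc g.val]
    _ = g.val * (Matrix.adjugate δ'.val * Matrix.adjugate g'.val) * g'.val := by rw [h2]
    _ = g.val * Matrix.adjugate δ'.val * (Matrix.adjugate g'.val * g'.val) := by
        simp only [Matrix.mul_assoc]
    _ = g.val * Matrix.adjugate δ'.val := by
        rw [Matrix.adjugate_mul, hg', one_smul, Matrix.mul_one]

/-- `δ` is the upper triangular matrix `(a b; 0 d)` with integer entries and `a, d > 0`. -/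
structure IsUT (δ : GL (Fin 2) ℝ) (a b d : ℤ) : Prop where
  val : (δ : Matrix (Fin 2) (Fin 2) ℝ) = !![(a : ℝ), (b : ℝ); 0, (d : ℝ)]
  apos : 0 < a
  dpos : 0 < d

namespace IsUT

variable {δ : GL (Fin 2) ℝ} {a b d : ℤ} (hδ : IsUT δ a b d)
include hδ

theorem e00 : (δ 0 0 : ℝ) = a := by simp [hδ.val]
theorem e01 : (δ 0 1 : ℝ) = b := by simp [hδ.val]
theorem e10 : (δ 1 0 : ℝ) = 0 := by simp [hδ.val]
theorem e11 : (δ 1 1 : ℝ) = d := by simp [hδ.val]

theorem det_eq : δ.val.det = (a : ℝ) * d := by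
  rw [hδ.val, Matrix.det_fin_two_of]; ring

theorem det_pos : 0 < δ.val.det := by
  rw [hδ.det_eq]
  have h1 : (0 : ℝ) < a := by exact_mod_cast hδ.apos
  have h2 : (0 : ℝ) < d := by exact_mod_cast hδ.dpos
  positivity

theorem a_ne : (a : ℂ) ≠ 0 := by exact_mod_cast hδ.apos.ne'
theorem d_ne : (d : ℂ) ≠ 0 := by exact_mod_cast hδ.dpos.ne'

theorem denom_eq (τ : ℍ) : denom δ τ = d := by
  simp [denom, hδ.e10, hδ.e11]

theorem coe_smul (τ : ℍ) : ((δ • τ : ℍ) : ℂ) = ((a : ℂ) * τ + b) / d := by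
  rw [coe_smul_of_det_pos (by simpa using hδ.det_pos)]
  simp [num, denom, hδ.e00, hδ.e01, hδ.e10, hδ.e11]

theorem adj00 : (adjG δ 0 0 : ℝ) = d := by
  simp [val_adjG, Matrix.adjugate_fin_two, hδ.val]
theorem adj01 : (adjG δ 0 1 : ℝ) = -b := by
  simp [val_adjG, Matrix.adjugate_fin_two, hδ.val]
theorem adj10 : (adjG δ 1 0 : ℝ) = 0 := by
  simp [val_adjG, Matrix.adjugate_fin_two, hδ.val]
theorem adj11 : (adjG δ 1 1 : ℝ) = a := by
  simp [val_adjG, Matrix.adjugate_fin_two, hδ.val]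

theorem pactG_adj {n : ℕ} {p : ℂ[X]} (hp : p.natDegree ≤ n) :
    pactG n (adjG δ) p = C ((a : ℂ) ^ n) * p.comp (C ((d : ℂ) / a) * X + C (-(b : ℂ) / a)) := by
  unfold pactG
  rw [hδ.adj00, hδ.adj01, hδ.adj10, hδ.adj11]
  push_cast
  exact pact_adj_eq hp a b d hδ.a_ne

theorem pactG_adj_mem_Ln {n : ℕ} {p : ℂ[X]} (hp : p ∈ Ln n) : pactG n (adjG δ) p ∈ Ln n := by
  refine pactG_mem_Ln hp _ ?_
  intro i j
  fin_cases i <;> fin_cases j
  · exact ⟨d, hδ.adj00⟩
  · exact ⟨-b, by simpa using hδ.adj01⟩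
  · exact ⟨0, by simpa using hδ.adj10⟩
  · exact ⟨a, hδ.adj11⟩

end IsUT

/-- The tower of `φ ∣[k] δ` in terms of a tower of `φ`, for upper triangular `δ`. -/
noncomputable def utTower (δ : GL (Fin 2) ℝ) (c : ℂ) (T : ℕ → ℍ → ℂ) : ℕ → ℍ → ℂ :=
  fun m τ => c * (((δ 1 1 : ℝ) : ℂ) / ((δ 0 0 : ℝ) : ℂ)) ^ m * T m (δ • τ)

/-- The scalar making `utTower` the tower of the weight `n+2` slash. -/
noncomputable def utConst (n : ℕ) (a d : ℤ) : ℂ :=
  ((a : ℂ) * (d : ℂ)) ^ ((n : ℤ) + 2 - 1) * (d : ℂ) ^ (-((n : ℤ) + 2))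

theorem isTower_utTower {T : ℕ → ℍ → ℂ} (hT : IsTower T) {δ : GL (Fin 2) ℝ} {a b d : ℤ}
    (hδ : IsUT δ a b d) (c : ℂ) : IsTower (utTower δ c T) :=
  hT.comp_ut δ hδ.e10 hδ.det_pos c

theorem utConst_mul {n : ℕ} {a d : ℤ} (ha : (a : ℂ) ≠ 0) (hd : (d : ℂ) ≠ 0) :
    utConst n a d * ((d : ℂ) / (a : ℂ)) = (a : ℂ) ^ n := by
  unfold utConst
  have h1 : ((n : ℤ) + 2 - 1) = ((n + 1 : ℕ) : ℤ) := by push_cast; ring
  have h2 : (-((n : ℤ) + 2)) = -((n + 2 : ℕ) : ℤ) := by push_cast; ring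
  rw [h1, h2, zpow_natCast, zpow_neg, zpow_natCast]
  field_simp
  ring

theorem utTower_zero (n : ℕ) (T : ℕ → ℍ → ℂ) {δ : GL (Fin 2) ℝ} {a b d : ℤ}
    (hδ : IsUT δ a b d) :
    utTower δ (utConst n a d) T 0 = (T 0) ∣[(n : ℤ) + 2] δ := by
  funext τ
  have hσ : UpperHalfPlane.σ δ = .refl ℝ ℂ := by
    rw [UpperHalfPlane.σ, if_pos (by simpa using hδ.det_pos)]
  have hdet : (δ.det.val : ℝ) = (a : ℝ) * d := by
    rw [Matrix.GeneralLinearGroup.val_det_apply]; exact hδ.det_eq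
  have habs : |(δ.det.val : ℝ)| = (a : ℝ) * d := by
    rw [hdet]; exact abs_of_pos (by rw [← hδ.det_eq]; exact hδ.det_pos)
  rw [ModularForm.slash_apply, hσ, habs, hδ.denom_eq]
  simp only [utTower, utConst, pow_zero, mul_one, ContinuousAlgEquiv.refl_apply]
  push_cast
  ring

/-- Key identity: the primitive of the slashed tower against `p` is the primitive of the
original tower against the adjugate-transformed polynomial (with scalar exactly `1`). -/
theorem IP_utTower {n : ℕ} (T : ℕ → ℍ → ℂ) {δ : GL (Fin 2) ℝ} {a b d : ℤ} (hδ : IsUT δ a b d)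
    {p : ℂ[X]} (hp : p.natDegree ≤ n) (τ : ℍ) :
    IP n (utTower δ (utConst n a d) T) p τ = IP n T (pactG n (adjG δ) p) (δ • τ) := by
  have ha := hδ.a_ne
  have hd := hδ.d_ne
  have hc := utConst_mul (n := n) ha hd
  have hw : ((d : ℂ) / a) * ((δ • τ : ℍ) : ℂ) + (-(b : ℂ) / a) = τ := by
    rw [hδ.coe_smul]
    field_simp
    ring
  unfold IP
  refine Finset.sum_congr rfl fun i _ => ?_
  rw [hδ.pactG_adj hp, iterate_derivative_C_mul, iterate_derivative_comp_affine]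
  simp only [eval_mul, eval_C, eval_comp, eval_add, eval_X, hw, utTower, hδ.e00, hδ.e11]
  push_cast
  rw [pow_succ]
  linear_combination ((-1 : ℂ) ^ i * eval (τ : ℂ) (derivative^[i] p) * ((d : ℂ) / a) ^ i *
    T (i + 1) (δ • τ)) * hc

theorem det_mapGL_val (γ : SL(2, ℤ)) : (mapGL ℝ γ : GL (Fin 2) ℝ).val.det = 1 := by
  have h := Matrix.SpecialLinearGroup.det_mapGL (S := ℝ) γ
  have h2 := congrArg Units.val h
  rwa [Matrix.GeneralLinearGroup.val_det_apply] at h2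

/-- The period of the slashed tower along `g`, where `δ g = g' δ'`. -/
theorem per_utTower {n : ℕ} {T : ℕ → ℍ → ℂ} (hT : IsTower T) {δ δ' : GL (Fin 2) ℝ}
    {a b d a' b' d' : ℤ} (hδ : IsUT δ a b d) (_hδ' : IsUT δ' a' b' d') {g g' : GL (Fin 2) ℝ}
    (hg : g.val.det = 1) (hg' : g'.val.det = 1) (hinv : Inv n (T 0) g')
    (hmul : δ * g = g' * δ') {p : ℂ[X]} (hp : p.natDegree ≤ n) :
    per n (utTower δ (utConst n a d) T) g p =
      per n T g' (pactG n (adjG δ) p)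
        + IP n T (pactG n (adjG δ') (pactG n g p)) (δ' • UpperHalfPlane.I)
        - IP n T (pactG n (adjG δ) (pactG n g p)) (δ • UpperHalfPlane.I) := by
  have e1 : δ • (g • UpperHalfPlane.I) = g' • (δ' • UpperHalfPlane.I) := by
    rw [← mul_smul, hmul, mul_smul]
  have e2 : pactG n g' (pactG n (adjG δ) p) = pactG n (adjG δ') (pactG n g p) := by
    rw [pactG_mul, pactG_mul, adjG_mul_eq hg hg' hmul]
  have e3 : per n (utTower δ (utConst n a d) T) g p =
      IP n (utTower δ (utConst n a d) T) p (g • UpperHalfPlane.I)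
        - IP n (utTower δ (utConst n a d) T) (pactG n g p) UpperHalfPlane.I := rfl
  rw [e3, IP_utTower T hδ hp, IP_utTower T hδ (natDegree_pactG_le n g p), e1,
    IP_smul_eq hT hg' hinv (natDegree_pactG_le n (adjG δ) p) (δ' • UpperHalfPlane.I), e2]
  ring

theorem per_tower_sum {ι : Type*} (s : Finset ι) (Ts : ι → ℕ → ℍ → ℂ) (n : ℕ)
    (g : GL (Fin 2) ℝ) (p : ℂ[X]) :
    per n (fun m => ∑ i ∈ s, Ts i m) g p = ∑ i ∈ s, per n (Ts i) g p := by
  simp only [per, IP_tower_sum, Finset.sum_sub_distrib]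

/-- **Hecke equivariance of periods.** For a Hecke datum `op` of level `N` and weight `n+2`,
the period of (the tower of) `op φ` along `g ∈ Γ₀(N)` against an integral polynomial is a sum of
periods of (the tower of) `φ` along elements of `Γ₀(N)` against integral polynomials; the
elements and polynomials do not depend on `φ`. -/
theorem exists_per_hecke {N n : ℕ} {op : (ℍ → ℂ) → (ℍ → ℂ)}
    (h : IsHeckeDatum N ((n : ℤ) + 2) op) (g : SL(2, ℤ))
    (hg : g ∈ CongruenceSubgroup.Gamma0 N) (p : ℂ[X]) (hp : p ∈ Ln n) :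
    ∃ (ι : Type) (_ : Fintype ι) (g' : ι → SL(2, ℤ)) (P : ι → ℂ[X]),
      (∀ i, g' i ∈ CongruenceSubgroup.Gamma0 N) ∧ (∀ i, P i ∈ Ln n) ∧
      ∀ T : ℕ → ℍ → ℂ, IsTower T →
        (∀ γ ∈ CongruenceSubgroup.Gamma0 N, Inv n (T 0) (mapGL ℝ γ)) →
        ∃ T' : ℕ → ℍ → ℂ, IsTower T' ∧ T' 0 = op (T 0) ∧
          per n T' (mapGL ℝ g) p = ∑ i, per n T (mapGL ℝ (g' i)) (P i) := by
  obtain ⟨ι, inst, δ, a, b, d, D, hval, ha, hd, -, hop, hperm⟩ := h
  obtain ⟨σ, hσ⟩ := hperm g hg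
  choose g' hg'mem hg'mul using hσ
  have hUT : ∀ i, IsUT (δ i) (a i) (b i) (d i) := fun i => ⟨hval i, ha i, hd i⟩
  refine ⟨ι, inst, g', fun i => pactG n (adjG (δ i)) p, hg'mem,
    fun i => (hUT i).pactG_adj_mem_Ln hp, ?_⟩
  intro T hT hinv
  refine ⟨fun m => ∑ i, utTower (δ i) (utConst n (a i) (d i)) T m,
    IsTower.sum _ (fun i _ => isTower_utTower hT (hUT i) _), ?_, ?_⟩
  · rw [hop]
    exact Finset.sum_congr rfl (fun i _ => utTower_zero n T (hUT i))
  · rw [per_tower_sum]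
    have key : ∀ i, per n (utTower (δ i) (utConst n (a i) (d i)) T) (mapGL ℝ g) p =
        per n T (mapGL ℝ (g' i)) (pactG n (adjG (δ i)) p)
          + (fun j => IP n T (pactG n (adjG (δ j)) (pactG n (mapGL ℝ g) p))
              (δ j • UpperHalfPlane.I)) (σ i)
          - (fun j => IP n T (pactG n (adjG (δ j)) (pactG n (mapGL ℝ g) p))
              (δ j • UpperHalfPlane.I)) i := fun i =>
      per_utTower hT (hUT i) (hUT (σ i)) (det_mapGL_val g) (det_mapGL_val (g' i))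
        (hinv _ (hg'mem i)) (hg'mul i) (natDegree_le_of_mem_Ln hp)
    simp only [key]
    rw [Finset.sum_sub_distrib, Finset.sum_add_distrib,
      Equiv.sum_comp σ (fun j => IP n T (pactG n (adjG (δ j)) (pactG n (mapGL ℝ g) p))
        (δ j • UpperHalfPlane.I))]
    ring

/-- Weight `n+2` slash invariance under a determinant one matrix gives `Inv`. -/
theorem inv_of_slash_eq {n : ℕ} {φ : ℍ → ℂ} {g : GL (Fin 2) ℝ} (hdet : g.val.det = 1)
    (h : φ ∣[(n : ℤ) + 2] g = φ) : Inv n φ g := by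
  intro τ
  have hdet' : (g.det.val : ℝ) = 1 := by
    rw [Matrix.GeneralLinearGroup.val_det_apply]; exact hdet
  have hσ : UpperHalfPlane.σ g = .refl ℝ ℂ := by
    rw [UpperHalfPlane.σ, if_pos (by rw [hdet']; exact one_pos)]
  have h1 := congrFun h τ
  rw [ModularForm.slash_apply, hσ, hdet'] at h1
  simp only [ContinuousAlgEquiv.refl_apply, abs_one, Complex.ofReal_one, one_zpow, mul_one] at h1
  exact h1.symm

theorem inv_mapGL_of_slash_eq {n : ℕ} {φ : ℍ → ℂ} {γ : SL(2, ℤ)}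
    (h : φ ∣[(n : ℤ) + 2] (mapGL ℝ γ : GL (Fin 2) ℝ) = φ) : Inv n φ (mapGL ℝ γ) :=
  inv_of_slash_eq (det_mapGL_val γ) h

/-- Version of `exists_per_hecke` for the canonical towers `towerOf`. -/
theorem exists_per_towerOf_hecke {N n : ℕ} {op : (ℍ → ℂ) → (ℍ → ℂ)}
    (h : IsHeckeDatum N ((n : ℤ) + 2) op) (g : SL(2, ℤ))
    (hg : g ∈ CongruenceSubgroup.Gamma0 N) (p : ℂ[X]) (hp : p ∈ Ln n) :
    ∃ (ι : Type) (_ : Fintype ι) (g' : ι → SL(2, ℤ)) (P : ι → ℂ[X]),
      (∀ i, g' i ∈ CongruenceSubgroup.Gamma0 N) ∧ (∀ i, P i ∈ Ln n) ∧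
      ∀ φ : ℍ → ℂ, (∃ T : ℕ → ℍ → ℂ, T 0 = φ ∧ IsTower T) →
        (∀ γ ∈ CongruenceSubgroup.Gamma0 N, Inv n φ (mapGL ℝ γ)) →
        (∃ T' : ℕ → ℍ → ℂ, T' 0 = op φ ∧ IsTower T') ∧
          per n (towerOf (op φ)) (mapGL ℝ g) p =
            ∑ i, per n (towerOf φ) (mapGL ℝ (g' i)) (P i) := by
  obtain ⟨ι, inst, g', P, hg', hP, hmain⟩ := exists_per_hecke h g hg p hp
  refine ⟨ι, inst, g', P, hg', hP, ?_⟩
  rintro φ ⟨T, hT0, hT⟩ hinv
  obtain ⟨T', hT', hT'0, hper⟩ := hmain T hT (by rw [hT0]; exact hinv)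
  rw [hT0] at hT'0
  refine ⟨⟨T', hT'0, hT'⟩, ?_⟩
  rw [towerOf_eq hT'0 hT', towerOf_eq hT0 hT]
  exact hper

end Fermat.Agent.Lib.HeckePeriod
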