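import Mathlib
import Fermat.Prelude.Def_ModularCurve_PeriodHomPair
import Fermat.Prelude.Def_ModularForm_HeckeOperator
import Fermat.Agent.Lib.HeckeHom
import Fermat.Agent.Lib.HeckePeriod
import Fermat.Agent.S21.Primitive

/-!
# Hecke operators on `Hom(Γ₀(N), A)` and periods of weight-two forms

We specialise `Fermat.Agent.Lib.HeckeHom` to `Γ₀(N) ⊆ GL₂(ℝ)` and a finite family `δ i` of upper
triangular integral matrices whose cosets `Γ₀(N) δ i` are distinct and permuted by `Γ₀(N)`: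

* `sum_sub_eq_heckeHom` : the period homomorphism of `z ↦ ∑ i, F (δ i • z)` is `Θ (per F)`;
* `hasDerivAt_sum_comp` : if `F' = f` then `(∑ i, F ∘ δ i)' = ∑ i, f ∣[2] δ i`;
* `heckeHom_periodMap` : `Θ (periodMap f) = periodMap g` for cusp forms with `g = ∑ i, f ∣[2] δ i`;
* `heckeHom_periodHom_of_eigen` : `Θ (per Φ) = c • per Φ` if `Φ' = E` and `∑ i, E ∣[2] δ i = c • E`;
* `heckeHom_charInvolution` : `Θ` commutes with the involution induced by conjugation with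
  `diag(-1, 1)`, provided this conjugation permutes the cosets.
-/

set_option autoImplicit false

namespace Fermat.Agent.Lib.HeckeHomGL

open Complex Filter Topology
open UpperHalfPlane hiding I
open scoped MatrixGroups ModularForm
open CongruenceSubgroup ModularCurve ModularCurve.Period Matrix.SpecialLinearGroup
open Fermat.Agent.Lib.HeckeHom Fermat.Agent.Lib.HeckePeriod

/-- The embedding `Γ₀(N) → GL₂(ℝ)`. -/
noncomputable def eG (N : ℕ) : ↥(Gamma0 N) →* GL (Fin 2) ℝ :=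
  (mapGL ℝ).comp (Gamma0 N).subtype

theorem eG_apply (N : ℕ) (γ : Gamma0 N) : eG N γ = mapGL ℝ (γ : SL(2, ℤ)) := rfl

theorem eG_injective (N : ℕ) : Function.Injective (eG N) := by
  intro γ₁ γ₂ h
  apply Subtype.ext
  exact mapGL_injective h

theorem eG_smul (N : ℕ) (γ : Gamma0 N) (z : ℍ) : eG N γ • z = (γ : SL(2, ℤ)) • z := rfl

/-- Weight-two slash by an upper triangular matrix. -/
theorem slash_two_ut {δ : GL (Fin 2) ℝ} {a b d : ℤ} (hδ : IsUT δ a b d) (f : ℍ → ℂ) (τ : ℍ) :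
    (f ∣[(2 : ℤ)] δ) τ = ((a : ℂ) / (d : ℂ)) * f (δ • τ) := by
  have h1 := hδ.a_ne
  have h2 := hδ.d_ne
  have hdet : δ.det.val = (a : ℝ) * d := by
    rw [Matrix.GeneralLinearGroup.val_det_apply, hδ.det_eq]
  have hpos : 0 < δ.det.val := by
    rw [Matrix.GeneralLinearGroup.val_det_apply]; exact hδ.det_pos
  have hσ : σ δ = ContinuousAlgEquiv.refl ℝ ℂ := by rw [σ, if_pos hpos]
  rw [ModularForm.slash_apply, hδ.denom_eq, hσ, hdet, abs_of_pos (by rw [← hdet]; exact hpos)]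
  simp only [ContinuousAlgEquiv.refl_apply]
  have e1 : ((2 : ℤ) - 1) = 1 := by norm_num
  rw [e1, zpow_one, zpow_neg]
  have e2 : ((d : ℂ)) ^ (2 : ℤ) = (d : ℂ) ^ 2 := by norm_cast
  rw [e2]
  push_cast
  field_simp

/-- The derivative of `F ∘ δ` is `f ∣[2] δ` (`δ` upper triangular). -/
theorem hasDerivAt_comp_ut {δ : GL (Fin 2) ℝ} {a b d : ℤ} (hδ : IsUT δ a b d) {f F : ℍ → ℂ}
    (hF : ∀ τ : ℍ, HasDerivAt (F ∘ ofComplex) (f τ) τ) (τ : ℍ) :
    HasDerivAt ((fun σ : ℍ => F (δ • σ)) ∘ ofComplex) ((f ∣[(2 : ℤ)] δ) τ) τ := by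
  have hlin : HasDerivAt (fun z : ℂ => ((a : ℂ) * z + b) / d) ((a : ℂ) / d) τ := by
    simpa using (((hasDerivAt_id (τ : ℂ)).const_mul (a : ℂ)).add_const (b : ℂ)).div_const (d : ℂ)
  have hL' : HasDerivAt (F ∘ ofComplex) (f (δ • τ)) (((a : ℂ) * τ + b) / d) := by
    rw [← hδ.coe_smul]; exact hF (δ • τ)
  have hc := HasDerivAt.comp (τ : ℂ) hL' hlin
  rw [slash_two_ut hδ]
  refine (hc.congr_of_eventuallyEq ?_).congr_deriv (by ring)
  have : ∀ᶠ z in 𝓝 (τ : ℂ), 0 < z.im := isOpen_upperHalfPlaneSet.mem_nhds τ.im_pos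
  filter_upwards [this] with z hz
  simp only [Function.comp_apply]
  rw [ofComplex_apply_of_im_pos hz]
  have := hδ.coe_smul ⟨z, hz⟩
  rw [← this, ofComplex_apply]

section Family

variable {N : ℕ} {ι : Type*} [Fintype ι] {δ : ι → GL (Fin 2) ℝ}

/-- `(∑ i, F ∘ δ i)' = ∑ i, f ∣[2] δ i`. -/
theorem hasDerivAt_sum_comp (hut : ∀ i, ∃ a b d : ℤ, IsUT (δ i) a b d) {f F : ℍ → ℂ}
    (hF : ∀ τ : ℍ, HasDerivAt (F ∘ ofComplex) (f τ) τ) (τ : ℍ) :
    HasDerivAt ((fun σ : ℍ => ∑ i, F (δ i • σ)) ∘ ofComplex)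
      ((∑ i, f ∣[(2 : ℤ)] δ i) τ) τ := by
  have h1 : ∀ i ∈ (Finset.univ : Finset ι),
      HasDerivAt ((fun σ : ℍ => F (δ i • σ)) ∘ ofComplex) ((f ∣[(2 : ℤ)] δ i) τ) τ := by
    intro i _
    obtain ⟨a, b, d, hi⟩ := hut i
    exact hasDerivAt_comp_ut hi hF τ
  have h2 := HasDerivAt.sum h1
  rw [Finset.sum_apply]
  refine h2.congr_of_eventuallyEq (Eventually.of_forall fun z => ?_)
  simp only [Function.comp_apply, Finset.sum_apply]

/-- Periods of `z ↦ ∑ i, F (δ i • z)`. -/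
theorem sum_sub_eq_heckeHom (h : IsCosetFamily (eG N) δ) {F : ℍ → ℂ}
    (φ : Additive (Gamma0 N) →+ ℂ)
    (hF : ∀ (γ : Gamma0 N) (z : ℍ), F ((γ : SL(2, ℤ)) • z) - F z = φ (Additive.ofMul γ))
    (γ : Gamma0 N) (z : ℍ) :
    (∑ i, F (δ i • (γ : SL(2, ℤ)) • z)) - ∑ i, F (δ i • z) =
      h.heckeHom φ (Additive.ofMul γ) :=
  h.sum_smul_sub F φ hF γ z

/-- `Θ (per Φ) = c • per Φ` when `Φ' = E` and `∑ i, E ∣[2] δ i = c • E`. -/
theorem heckeHom_periodHom_of_eigen (h : IsCosetFamily (eG N) δ)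
    (hut : ∀ i, ∃ a b d : ℤ, IsUT (δ i) a b d) {E Φ : ℍ → ℂ}
    (hΦ : IsEquivariantPrimitive (Gamma0 N) Φ)
    (hder : ∀ τ : ℍ, HasDerivAt (Φ ∘ ofComplex) (E τ) τ) (c : ℂ)
    (hE : ∑ i, E ∣[(2 : ℤ)] δ i = c • E) :
    h.heckeHom hΦ.periodHom = c • hΦ.periodHom := by
  refine AddMonoidHom.ext fun γa => ?_
  obtain ⟨γ, rfl⟩ : ∃ γ : Gamma0 N, Additive.ofMul γ = γa := ⟨Additive.toMul γa, rfl⟩
  have hper : ∀ (γ : Gamma0 N) (z : ℍ),
      Φ ((γ : SL(2, ℤ)) • z) - Φ z = hΦ.periodHom (Additive.ofMul γ) :=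
    fun γ z => hΦ.sub_eq_period γ z
  have hD : ∀ τ : ℍ, HasDerivAt
      ((fun σ : ℍ => ∑ i, Φ (δ i • σ)) ∘ ofComplex - (fun σ : ℍ => c * Φ σ) ∘ ofComplex) 0 τ := by
    intro τ
    have h1 := hasDerivAt_sum_comp hut hder τ
    rw [hE] at h1
    have h2 : HasDerivAt ((fun σ : ℍ => c * Φ σ) ∘ ofComplex) (c * E τ) τ :=
      (hder τ).const_mul c
    have h3 := h1.sub h2
    simpa using h3
  obtain ⟨a, ha⟩ := Fermat.Agent.S22.Tower.exists_const_of_hasDerivAt_zero hD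
  have ha' : ∀ z : ℍ, (∑ i, Φ (δ i • z)) = c * Φ z + a := by
    intro z
    have := ha z
    simp only [Pi.sub_apply, Function.comp_apply, ofComplex_apply] at this
    linear_combination this
  rw [← sum_sub_eq_heckeHom h hΦ.periodHom hper γ UpperHalfPlane.I, ha', ha',
    AddMonoidHom.smul_apply, ← hper γ UpperHalfPlane.I, smul_eq_mul]
  ring

/-- `Θ (periodMap f) = periodMap g` for cusp forms with `g = ∑ i, f ∣[2] δ i`. -/
theorem heckeHom_periodMap [NeZero N] (h : IsCosetFamily (eG N) δ)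
    (hut : ∀ i, ∃ a b d : ℤ, IsUT (δ i) a b d) (f g : CuspForm (Gamma0 N) 2)
    (hg : (g : ℍ → ℂ) = ∑ i, (f : ℍ → ℂ) ∣[(2 : ℤ)] δ i) :
    h.heckeHom (periodMap N f) = periodMap N g := by
  obtain ⟨F, hF⟩ := Fermat.Agent.S21.exists_hasEquivariantPrimitive N f
  obtain ⟨F₂, hF₂⟩ := Fermat.Agent.S21.exists_hasEquivariantPrimitive N g
  refine AddMonoidHom.ext fun γa => ?_
  obtain ⟨γ, rfl⟩ : ∃ γ : Gamma0 N, Additive.ofMul γ = γa := ⟨Additive.toMul γa, rfl⟩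
  have hper : ∀ (γ : Gamma0 N) (z : ℍ),
      F ((γ : SL(2, ℤ)) • z) - F z = periodMap N f (Additive.ofMul γ) :=
    fun γ z => (Fermat.Agent.S21.periodMap_apply' N hF γ z).symm
  have hD : ∀ τ : ℍ, HasDerivAt
      ((fun σ : ℍ => ∑ i, F (δ i • σ)) ∘ ofComplex - F₂ ∘ ofComplex) 0 τ := by
    intro τ
    have h1 := hasDerivAt_sum_comp hut hF.1 τ
    rw [← hg] at h1
    have h3 := h1.sub (hF₂.1 τ)
    simpa using h3
  obtain ⟨a, ha⟩ := Fermat.Agent.S22.Tower.exists_const_of_hasDerivAt_zero hD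
  have ha' : ∀ z : ℍ, (∑ i, F (δ i • z)) = F₂ z + a := by
    intro z
    have := ha z
    simp only [Pi.sub_apply, Function.comp_apply, ofComplex_apply] at this
    linear_combination this
  rw [← sum_sub_eq_heckeHom h (periodMap N f) hper γ UpperHalfPlane.I, ha', ha',
    Fermat.Agent.S21.periodMap_apply' N hF₂ γ UpperHalfPlane.I]
  ring

end Family

end Fermat.Agent.Lib.HeckeHomGL
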