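import Mathlib
import Fermat.Prelude.Def_ModularCurve_PeriodHomPair
import Fermat.Prelude.Def_ModularForm_HeckeOperator
import Fermat.Prelude.Sol.S_ModularForm_heckeT_slash_eq_self_of_mem_Gamma0
import Fermat.Agent.Lib.HeckeHomGL

/-!
# The coset families of `T_ℓ` (`ℓ ∤ N`) and `U_p` (`p ∣ N`) on `Hom(Γ₀(N), A)`

* `isCosetFamily_heckeRep` / `isCosetFamily_heckeMatrix`: the standard representatives of `T_ℓ`
  and `U_p` form coset families in the sense of `Fermat.Agent.Lib.HeckeHom`;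
* `heckeHom_charInvolution`: the attached operators commute with the involution of
  `Hom(Γ₀(N), A)` induced by conjugation with `diag(-1, 1)`.
-/

set_option autoImplicit false

namespace Fermat.Agent.Lib.HeckeHomGL

open UpperHalfPlane hiding I
open scoped MatrixGroups ModularForm
open CongruenceSubgroup ModularCurve ModularCurve.Period Matrix.SpecialLinearGroup
open Fermat.Agent.Lib.HeckeHom Fermat.Agent.Lib.HeckePeriod
open P2MW.S_ModularForm_heckeT_slash_eq_self_of_mem_Gamma0.ModularForm.HeckeSlashInvariance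

/-- `diag(-1, 1)`. -/
noncomputable def epsG : GL (Fin 2) ℝ :=
  Matrix.GeneralLinearGroup.mkOfDetNeZero !![-1, 0; 0, 1] (by simp [Matrix.det_fin_two_of])

theorem val_epsG : (epsG : Matrix (Fin 2) (Fin 2) ℝ) = !![-1, 0; 0, 1] := rfl

theorem coe_mapGL (g : SL(2, ℤ)) :
    ((mapGL ℝ g : GL (Fin 2) ℝ) : Matrix (Fin 2) (Fin 2) ℝ) =
      !![((g 0 0 : ℤ) : ℝ), ((g 0 1 : ℤ) : ℝ); ((g 1 0 : ℤ) : ℝ), ((g 1 1 : ℤ) : ℝ)] := by
  ext i j
  fin_cases i <;> fin_cases j <;> simp

theorem epsG_mul_mapGL (g : SL(2, ℤ)) : epsG * mapGL ℝ g = mapGL ℝ (jConjSL g) * epsG := by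
  apply Units.ext
  rw [Units.val_mul, Units.val_mul, coe_mapGL, coe_mapGL, val_epsG]
  ext i j
  fin_cases i <;> fin_cases j <;> simp [Matrix.mul_apply, Fin.sum_univ_two, jConjMat]

/-- Conjugation by `diag(-1, 1)` as an endomorphism of `GL₂(ℝ)`. -/
noncomputable def conjEps : GL (Fin 2) ℝ →* GL (Fin 2) ℝ := (MulAut.conj epsG).toMonoidHom

theorem conjEps_apply (g : GL (Fin 2) ℝ) : conjEps g = epsG * g * epsG⁻¹ := rfl

theorem conjEps_eG (N : ℕ) (γ : Gamma0 N) : conjEps (eG N γ) = eG N (jConjGamma0 N γ) := by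
  rw [conjEps_apply, eG_apply, epsG_mul_mapGL, mul_inv_cancel_right]
  rfl

/-- `Θ` commutes with the involution induced by conjugation with `diag(-1, 1)`. -/
theorem heckeHom_charInvolution {N : ℕ} {ι : Type*} [Fintype ι] {δ : ι → GL (Fin 2) ℝ}
    (h : IsCosetFamily (eG N) δ) (τ : ι → ι) (hτ : Function.Bijective τ)
    (hδ : ∀ i, ∃ u : Gamma0 N, epsG * δ i = eG N u * δ (τ i) * epsG)
    (R : Type*) [Semiring R] {A : Type*} [AddCommGroup A] [Module R A]
    (φ : Additive (Gamma0 N) →+ A) :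
    h.heckeHom (charInvolution N R A φ) = charInvolution N R A (h.heckeHom φ) := by
  choose u hu using hδ
  refine h.heckeHom_comp_conj (jConjGamma0 N) conjEps (conjEps_eG N) τ hτ u (fun i => ?_) φ
  rw [conjEps_apply, hu i, mul_inv_cancel_right]

/-- Comparison of two upper triangular matrices in the same `SL₂(ℤ)`-coset. -/
theorem ut_eq_of_mul {δ δ' : GL (Fin 2) ℝ} {a b d a' b' d' : ℤ} (hδ : IsUT δ a b d)
    (hδ' : IsUT δ' a' b' d') (g : SL(2, ℤ)) (h : δ = mapGL ℝ g * δ') :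
    a = a' ∧ d = d' ∧ b = b' + g 0 1 * d' := by
  have hM : (δ : Matrix (Fin 2) (Fin 2) ℝ) =
      (mapGL ℝ g : GL (Fin 2) ℝ).val * (δ' : Matrix (Fin 2) (Fin 2) ℝ) := by
    rw [h]; rfl
  rw [hδ.val, hδ'.val, coe_mapGL] at hM
  have e00 := congrFun (congrFun hM 0) 0
  have e01 := congrFun (congrFun hM 0) 1
  have e10 := congrFun (congrFun hM 1) 0
  have e11 := congrFun (congrFun hM 1) 1
  simp [Matrix.mul_apply, Fin.sum_univ_two] at e00 e01 e10 e11
  have i00 : a = g 0 0 * a' := by exact_mod_cast e00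
  have i01 : b = g 0 0 * b' + g 0 1 * d' := by exact_mod_cast e01
  have i10 : g 1 0 * a' = 0 := by
    have : ((g 1 0 * a' : ℤ) : ℝ) = 0 := by push_cast; rcases e10 with h | h <;> simp [h]
    exact_mod_cast this
  have i11 : d = g 1 0 * b' + g 1 1 * d' := by exact_mod_cast e11
  have ha' := hδ'.apos
  have ha := hδ.apos
  have g10 : g 1 0 = 0 := by
    rcases mul_eq_zero.mp i10 with h | h
    · exact h
    · omega
  have hdet := det_eq g
  rw [g10, mul_zero, sub_zero] at hdet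
  have g00pos : 0 < g 0 0 := by
    by_contra hneg
    have : g 0 0 * a' ≤ 0 := mul_nonpos_of_nonpos_of_nonneg (not_lt.mp hneg) ha'.le
    omega
  have g00 : g 0 0 = 1 := by
    rcases Int.eq_one_or_neg_one_of_mul_eq_one hdet with h | h
    · exact h
    · omega
  have g11 : g 1 1 = 1 := by rw [g00, one_mul] at hdet; exact hdet
  refine ⟨by rw [i00, g00, one_mul], by rw [i11, g10, g11, zero_mul, zero_add, one_mul], ?_⟩
  rw [i01, g00, one_mul]

/-- The unipotent matrix `(1 m; 0 1)`. -/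
def unipSL (m : ℤ) : SL(2, ℤ) := ⟨!![1, m; 0, 1], by simp [Matrix.det_fin_two_of]⟩

theorem unipSL_mem (N : ℕ) (m : ℤ) : unipSL m ∈ Gamma0 N := by
  rw [Gamma0_mem]; simp [unipSL]

/-- The unipotent element `(1 m; 0 1)` of `Γ₀(N)`. -/
def unipG (N : ℕ) (m : ℤ) : Gamma0 N := ⟨unipSL m, unipSL_mem N m⟩

theorem coe_eG_unipG (N : ℕ) (m : ℤ) :
    ((eG N (unipG N m) : GL (Fin 2) ℝ) : Matrix (Fin 2) (Fin 2) ℝ) = !![1, (m : ℝ); 0, 1] := by
  rw [eG_apply, coe_mapGL]
  simp [unipG, unipSL]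

section U

variable (N : ℕ) (p : ℕ) [NeZero p]

theorem isUT_heckeMatrix (j : ℕ) : IsUT (ModularForm.heckeMatrix p j) 1 j p where
  val := by rw [ModularForm.val_heckeMatrix (NeZero.ne p)]; simp
  apos := one_pos
  dpos := by exact_mod_cast NeZero.pos p

theorem eps_heckeMatrix (x : ZMod p) :
    ∃ u : Gamma0 N, epsG * ModularForm.heckeMatrix p x.val =
      eG N u * ModularForm.heckeMatrix p (-x).val * epsG := by
  obtain ⟨m, hm⟩ : (p : ℤ) ∣ (x.val : ℤ) + ((-x).val : ℤ) := by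
    rw [← ZMod.intCast_zmod_eq_zero_iff_dvd]
    push_cast
    rw [ZMod.natCast_zmod_val, ZMod.natCast_zmod_val, add_neg_cancel]
  refine ⟨unipG N (-m), ?_⟩
  apply Units.ext
  rw [Units.val_mul, Units.val_mul, Units.val_mul, coe_eG_unipG, val_epsG,
    ModularForm.val_heckeMatrix (NeZero.ne p), ModularForm.val_heckeMatrix (NeZero.ne p)]
  have hm' : ((x.val : ℕ) : ℝ) + (((-x).val : ℕ) : ℝ) = (p : ℝ) * (m : ℝ) := by exact_mod_cast hm
  ext i j
  fin_cases i <;> fin_cases j <;> simp [Matrix.mul_apply, Fin.sum_univ_two, -ZMod.natCast_val]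
  linear_combination (-1 : ℝ) * hm'

/-- The representatives of `U_p` (`p ∣ N`) form a coset family for `Γ₀(N)`. -/
theorem isCosetFamily_heckeMatrix (hpN : p ∣ N) :
    IsCosetFamily (eG N) (fun x : ZMod p => ModularForm.heckeMatrix p x.val) where
  inj_e := eG_injective N
  perm := by
    intro γ x
    have hcN : (N : ℤ) ∣ (γ : SL(2, ℤ)) 1 0 :=
      (ZMod.intCast_zmod_eq_zero_iff_dvd _ _).mp (Gamma0_mem.mp γ.2)
    have hc : (p : ℤ) ∣ (γ : SL(2, ℤ)) 1 0 := (Int.natCast_dvd_natCast.mpr hpN).trans hcN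
    obtain ⟨g', hg', hmul⟩ := heckeMatrix_mul_of_dvd (γ : SL(2, ℤ)) hc x
    refine ⟨_, ⟨g', ?_⟩, hmul⟩
    rw [Gamma0_mem, hg']
    push_cast
    rw [Gamma0_mem.mp γ.2, mul_zero]
  distinct := by
    intro x y γ hxy
    obtain ⟨-, -, hb⟩ := ut_eq_of_mul (isUT_heckeMatrix p x.val) (isUT_heckeMatrix p y.val)
      (γ : SL(2, ℤ)) hxy
    have := congrArg (Int.cast : ℤ → ZMod p) hb
    push_cast at this
    rw [ZMod.natCast_zmod_val, ZMod.natCast_zmod_val, ZMod.natCast_self, mul_zero, add_zero] at this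
    exact this

end U

section T

variable (N : ℕ) (p : ℕ) [Fact p.Prime]

theorem isUT_heckeDiagMatrix : IsUT (ModularForm.heckeDiagMatrix p) p 0 1 where
  val := by rw [ModularForm.val_heckeDiagMatrix (Fact.out : p.Prime).ne_zero]; simp
  apos := by exact_mod_cast (Fact.out : p.Prime).pos
  dpos := one_pos

theorem exists_isUT_heckeRep (x : OnePoint (ZMod p)) : ∃ a b d : ℤ, IsUT (heckeRep p x) a b d := by
  induction x using OnePoint.rec with
  | infty => exact ⟨_, _, _, isUT_heckeDiagMatrix p⟩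
  | coe j => exact ⟨_, _, _, isUT_heckeMatrix p j.val⟩

/-- The representatives of `T_p` (`p ∤ N`) form a coset family for `Γ₀(N)`. -/
theorem isCosetFamily_heckeRep (hpN : ¬ p ∣ N) : IsCosetFamily (eG N) (heckeRep p) where
  inj_e := eG_injective N
  perm := by
    intro γ x
    have hcN : (N : ℤ) ∣ (γ : SL(2, ℤ)) 1 0 :=
      (ZMod.intCast_zmod_eq_zero_iff_dvd _ _).mp (Gamma0_mem.mp γ.2)
    obtain ⟨g', hg', hmul⟩ := heckeRep_mul hpN (γ : SL(2, ℤ)) hcN x
    exact ⟨_, ⟨g', Gamma0_mem.mpr ((ZMod.intCast_zmod_eq_zero_iff_dvd _ _).mpr hg')⟩, hmul⟩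
  distinct := by
    have hp1 : (p : ℤ) ≠ 1 := by exact_mod_cast (Fact.out : p.Prime).one_lt.ne'
    intro x y γ hxy
    induction x using OnePoint.rec with
    | infty =>
      induction y using OnePoint.rec with
      | infty => rfl
      | coe j' =>
        obtain ⟨ha, -, -⟩ := ut_eq_of_mul (isUT_heckeDiagMatrix p) (isUT_heckeMatrix p j'.val)
          (γ : SL(2, ℤ)) hxy
        exact absurd ha hp1
    | coe j =>
      induction y using OnePoint.rec with
      | infty =>
        obtain ⟨ha, -, -⟩ := ut_eq_of_mul (isUT_heckeMatrix p j.val) (isUT_heckeDiagMatrix p)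
          (γ : SL(2, ℤ)) hxy
        exact absurd ha.symm hp1
      | coe j' =>
        obtain ⟨-, -, hb⟩ := ut_eq_of_mul (isUT_heckeMatrix p j.val) (isUT_heckeMatrix p j'.val)
          (γ : SL(2, ℤ)) hxy
        have := congrArg (Int.cast : ℤ → ZMod p) hb
        push_cast at this
        rw [ZMod.natCast_zmod_val, ZMod.natCast_zmod_val, ZMod.natCast_self, mul_zero,
          add_zero] at this
        rw [this]

/-- The involution `∞ ↦ ∞`, `j ↦ -j` of `ℙ¹(𝔽_p)`. -/
def negOnePoint : OnePoint (ZMod p) → OnePoint (ZMod p) := fun x => x.elim OnePoint.infty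
  (fun j => ((-j : ZMod p) : OnePoint (ZMod p)))

theorem negOnePoint_involutive : Function.Involutive (negOnePoint p) := by
  intro x
  induction x using OnePoint.rec with
  | infty => rfl
  | coe j => show (((- -j : ZMod p)) : OnePoint (ZMod p)) = j; rw [neg_neg]

theorem eps_heckeRep (x : OnePoint (ZMod p)) :
    ∃ u : Gamma0 N, epsG * heckeRep p x = eG N u * heckeRep p (negOnePoint p x) * epsG := by
  induction x using OnePoint.rec with
  | infty =>
    refine ⟨1, ?_⟩
    rw [map_one, one_mul]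
    show epsG * ModularForm.heckeDiagMatrix p = ModularForm.heckeDiagMatrix p * epsG
    apply Units.ext
    rw [Units.val_mul, Units.val_mul, val_epsG,
      ModularForm.val_heckeDiagMatrix (Fact.out : p.Prime).ne_zero]
    ext i j
    fin_cases i <;> fin_cases j <;> simp [Matrix.mul_apply, Fin.sum_univ_two]
  | coe j =>
    exact eps_heckeMatrix N p j

end T

end Fermat.Agent.Lib.HeckeHomGL
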