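import Mathlib
import Fermat.Agent.Lib.HeckeHomReps

/-!
# The Hecke operators `T_ℓ` on `Hom(Γ₀(N), A)` commute

Abstract part (vocabulary of `Lib/HeckeHom`):

* `heckeHom_eq_of_equiv` / `heckeHom_eq_of_exists`: two coset families whose cosets match up
  (`P x = e (u x) * Q (π x)`) define the same operator on `Hom(Γ, A)`;
* `isCosetFamily_mul` / `heckeHom_mul`: if the products `δ i * δ' j` lie in pairwise distinct
  cosets they form a coset family, whose operator is the composite `Θ' ∘ Θ`;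
* `heckeHom_comm_of_matching`, `heckeHom_comm_of_exists`: the operators of two families commute
  as soon as the product families `δ' j * δ i` and `δ i * δ' j` match up.

Concrete part: `heckeHom_heckeRep_comm`, the operators of `T_ℓ` and `T_ℓ'` (`ℓ, ℓ' ∤ N`) on
`Hom(Γ₀(N), A)` commute, for every abelian group `A`.
-/

set_option autoImplicit false

namespace Fermat.Agent.Lib.HeckeHomComm

open Fermat.Agent.Lib.HeckeHom

section Abstract

variable {Γ G : Type*} [Group Γ] [Group G] {e : Γ →* G}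

section Matching

variable {κ κ' : Type*} [Fintype κ] [Fintype κ'] {P : κ → G} {Q : κ' → G}
  {A : Type*} [AddCommGroup A]

/-- Two coset families whose cosets match up along a bijection define the same operator. -/
theorem heckeHom_eq_of_equiv (hP : IsCosetFamily e P) (hQ : IsCosetFamily e Q) (π : κ ≃ κ')
    (u : κ → Γ) (hπ : ∀ x, P x = e (u x) * Q (π x)) (φ : Additive Γ →+ A) :
    hP.heckeHom φ = hQ.heckeHom φ := by
  refine AddMonoidHom.ext fun γa => ?_
  obtain ⟨γ, rfl⟩ : ∃ γ : Γ, Additive.ofMul γ = γa := ⟨Additive.toMul γa, rfl⟩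
  rw [IsCosetFamily.heckeHom_apply, IsCosetFamily.heckeHom_apply]
  have key : ∀ x, Q (π x) * e γ =
      e ((u x)⁻¹ * hP.cof γ x * u (hP.nxt γ x)) * Q (π (hP.nxt γ x)) := by
    intro x
    have h1 := hP.spec γ x
    rw [hπ x, hπ (hP.nxt γ x)] at h1
    calc Q (π x) * e γ = (e (u x))⁻¹ * (e (u x) * Q (π x) * e γ) := by
          rw [mul_assoc, inv_mul_cancel_left]
      _ = _ := by rw [h1]; simp only [map_mul, map_inv, mul_assoc]
  have hc : ∀ x, hQ.cof γ (π x) = (u x)⁻¹ * hP.cof γ x * u (hP.nxt γ x) :=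
    fun x => hQ.cof_eq (key x)
  have h2 : ∑ y, φ (Additive.ofMul (hQ.cof γ y)) =
      ∑ x, φ (Additive.ofMul (hQ.cof γ (π x))) :=
    (Equiv.sum_comp π (fun y => φ (Additive.ofMul (hQ.cof γ y)))).symm
  rw [h2]
  simp only [hc, ofMul_mul, ofMul_inv, map_add, map_neg, Finset.sum_add_distrib,
    Finset.sum_neg_distrib]
  have h3 : ∑ x, φ (Additive.ofMul (u (hP.nxt γ x))) = ∑ x, φ (Additive.ofMul (u x)) :=
    Equiv.sum_comp (hP.nxtPerm γ) (fun x => φ (Additive.ofMul (u x)))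
  rw [h3]
  abel

/-- Two coset families with equally many members, each coset of the first being a coset of the
second, define the same operator. -/
theorem heckeHom_eq_of_exists (hP : IsCosetFamily e P) (hQ : IsCosetFamily e Q)
    (hcard : Fintype.card κ = Fintype.card κ')
    (hm : ∀ x, ∃ (y : κ') (u : Γ), P x = e u * Q y) (φ : Additive Γ →+ A) :
    hP.heckeHom φ = hQ.heckeHom φ := by
  choose π u hπ using hm
  have hinj : Function.Injective π := by
    intro x x' hxx'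
    refine hP.distinct x x' (u x * (u x')⁻¹) ?_
    rw [hπ x, hπ x', hxx', map_mul, map_inv, mul_assoc, inv_mul_cancel_left]
  have hbij : Function.Bijective π :=
    (Fintype.bijective_iff_injective_and_card π).mpr ⟨hinj, hcard⟩
  exact heckeHom_eq_of_equiv hP hQ (Equiv.ofBijective π hbij) u hπ φ

end Matching

section Product

variable {ι ι' : Type*} {δ : ι → G} {δ' : ι' → G}

/-- The products `δ i * δ' j` of two coset families form a coset family as soon as they lie in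
pairwise distinct cosets. -/
theorem isCosetFamily_mul (h : IsCosetFamily e δ) (h' : IsCosetFamily e δ')
    (hdist : ∀ i j k l γ, δ i * δ' j = e γ * (δ k * δ' l) → i = k ∧ j = l) :
    IsCosetFamily e (fun x : ι × ι' => δ x.1 * δ' x.2) where
  inj_e := h.inj_e
  perm := by
    rintro γ ⟨i, j⟩
    refine ⟨(h.nxt (h'.cof γ j) i, h'.nxt γ j), h.cof (h'.cof γ j) i, ?_⟩
    show δ i * δ' j * e γ = e (h.cof (h'.cof γ j) i) * (δ (h.nxt (h'.cof γ j) i) * δ' (h'.nxt γ j))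
    rw [mul_assoc, h'.spec γ j, ← mul_assoc, h.spec (h'.cof γ j) i, mul_assoc]
  distinct := by
    rintro ⟨i, j⟩ ⟨k, l⟩ γ hγ
    obtain ⟨h1, h2⟩ := hdist i j k l γ hγ
    rw [h1, h2]

variable [Fintype ι] [Fintype ι'] {A : Type*} [AddCommGroup A]

/-- The operator of the product family `δ i * δ' j` is `Θ' ∘ Θ`. -/
theorem heckeHom_mul (h : IsCosetFamily e δ) (h' : IsCosetFamily e δ')
    (hQ : IsCosetFamily e (fun x : ι × ι' => δ x.1 * δ' x.2)) (φ : Additive Γ →+ A) :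
    hQ.heckeHom φ = h'.heckeHom (h.heckeHom φ) := by
  refine AddMonoidHom.ext fun γa => ?_
  obtain ⟨γ, rfl⟩ : ∃ γ : Γ, Additive.ofMul γ = γa := ⟨Additive.toMul γa, rfl⟩
  rw [IsCosetFamily.heckeHom_apply, IsCosetFamily.heckeHom_apply]
  have hc : ∀ x : ι × ι', hQ.cof γ x = h.cof (h'.cof γ x.2) x.1 := by
    rintro ⟨i, j⟩
    refine hQ.cof_eq (j := (h.nxt (h'.cof γ j) i, h'.nxt γ j)) ?_
    show δ i * δ' j * e γ = e (h.cof (h'.cof γ j) i) * (δ (h.nxt (h'.cof γ j) i) * δ' (h'.nxt γ j))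
    rw [mul_assoc, h'.spec γ j, ← mul_assoc, h.spec (h'.cof γ j) i, mul_assoc]
  simp only [hc, IsCosetFamily.heckeHom_apply]
  rw [Fintype.sum_prod_type_right]

/-- The operator of the product family `δ' j * δ i` (indexed by `ι × ι'`) is `Θ ∘ Θ'`. -/
theorem heckeHom_mul' (h : IsCosetFamily e δ) (h' : IsCosetFamily e δ')
    (hP : IsCosetFamily e (fun x : ι × ι' => δ' x.2 * δ x.1)) (φ : Additive Γ →+ A) :
    hP.heckeHom φ = h.heckeHom (h'.heckeHom φ) := by
  refine AddMonoidHom.ext fun γa => ?_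
  obtain ⟨γ, rfl⟩ : ∃ γ : Γ, Additive.ofMul γ = γa := ⟨Additive.toMul γa, rfl⟩
  rw [IsCosetFamily.heckeHom_apply, IsCosetFamily.heckeHom_apply]
  have hc : ∀ x : ι × ι', hP.cof γ x = h'.cof (h.cof γ x.1) x.2 := by
    rintro ⟨i, j⟩
    refine hP.cof_eq (j := (h.nxt γ i, h'.nxt (h.cof γ i) j)) ?_
    show δ' j * δ i * e γ = e (h'.cof (h.cof γ i) j) * (δ' (h'.nxt (h.cof γ i) j) * δ (h.nxt γ i))
    rw [mul_assoc, h.spec γ i, ← mul_assoc, h'.spec (h.cof γ i) j, mul_assoc]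
  simp only [hc, IsCosetFamily.heckeHom_apply]
  rw [Fintype.sum_prod_type]

/-- **Commutation, existence form.**  The operators of two coset families commute as soon as both
product families have pairwise distinct cosets and every coset `e Γ · δ' j · δ i` is a coset
`e Γ · δ k · δ' l`. -/
theorem heckeHom_comm_of_exists (h : IsCosetFamily e δ) (h' : IsCosetFamily e δ')
    (hdist : ∀ i j k l γ, δ i * δ' j = e γ * (δ k * δ' l) → i = k ∧ j = l)
    (hdist' : ∀ i j k l γ, δ' j * δ i = e γ * (δ' l * δ k) → i = k ∧ j = l)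
    (hm : ∀ i j, ∃ (k : ι) (l : ι') (u : Γ), δ' j * δ i = e u * (δ k * δ' l))
    (φ : Additive Γ →+ A) :
    h.heckeHom (h'.heckeHom φ) = h'.heckeHom (h.heckeHom φ) := by
  have hQ : IsCosetFamily e (fun x : ι × ι' => δ x.1 * δ' x.2) := isCosetFamily_mul h h' hdist
  have hP : IsCosetFamily e (fun x : ι × ι' => δ' x.2 * δ x.1) := by
    refine ⟨h.inj_e, ?_, ?_⟩
    · rintro γ ⟨i, j⟩
      refine ⟨(h.nxt γ i, h'.nxt (h.cof γ i) j), h'.cof (h.cof γ i) j, ?_⟩
      show δ' j * δ i * e γ =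
        e (h'.cof (h.cof γ i) j) * (δ' (h'.nxt (h.cof γ i) j) * δ (h.nxt γ i))
      rw [mul_assoc, h.spec γ i, ← mul_assoc, h'.spec (h.cof γ i) j, mul_assoc]
    · rintro ⟨i, j⟩ ⟨k, l⟩ γ hγ
      obtain ⟨h1, h2⟩ := hdist' i j k l γ hγ
      rw [h1, h2]
  rw [← heckeHom_mul' h h' hP φ, ← heckeHom_mul h h' hQ φ]
  refine heckeHom_eq_of_exists hP hQ rfl ?_ φ
  rintro ⟨i, j⟩
  obtain ⟨k, l, u, hu⟩ := hm i j
  exact ⟨(k, l), u, hu⟩

end Product

end Abstract

end Fermat.Agent.Lib.HeckeHomComm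


namespace Fermat.Agent.Lib.HeckeHomComm

open scoped MatrixGroups
open CongruenceSubgroup Matrix.SpecialLinearGroup
open Fermat.Agent.Lib.HeckeHom Fermat.Agent.Lib.HeckePeriod Fermat.Agent.Lib.HeckeHomGL
open P2MW.S_ModularForm_heckeT_slash_eq_self_of_mem_Gamma0.ModularForm.HeckeSlashInvariance

/-- The product of two upper triangular matrices. -/
theorem isUT_mul {δ δ' : GL (Fin 2) ℝ} {a b d a' b' d' : ℤ} (h : IsUT δ a b d)
    (h' : IsUT δ' a' b' d') : IsUT (δ * δ') (a * a') (a * b' + b * d') (d * d') where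
  val := by
    rw [Units.val_mul, h.val, h'.val]
    ext i j
    fin_cases i <;> fin_cases j <;> simp [Matrix.mul_apply, Fin.sum_univ_two]
  apos := mul_pos h.apos h'.apos
  dpos := mul_pos h.dpos h'.dpos

/-- Two products of upper triangular matrices differing by a unipotent element of `Γ₀(N)`. -/
theorem ut_mul_eq_unip_mul (N : ℕ) {δ₁ δ₂ δ₃ δ₄ : GL (Fin 2) ℝ}
    {a₁ b₁ d₁ a₂ b₂ d₂ a₃ b₃ d₃ a₄ b₄ d₄ m : ℤ}
    (h₁ : IsUT δ₁ a₁ b₁ d₁) (h₂ : IsUT δ₂ a₂ b₂ d₂) (h₃ : IsUT δ₃ a₃ b₃ d₃)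
    (h₄ : IsUT δ₄ a₄ b₄ d₄) (ha : a₁ * a₂ = a₃ * a₄) (hd : d₁ * d₂ = d₃ * d₄)
    (hb : a₁ * b₂ + b₁ * d₂ = a₃ * b₄ + b₃ * d₄ + m * (d₃ * d₄)) :
    δ₁ * δ₂ = eG N (unipG N m) * (δ₃ * δ₄) := by
  have ha' : (a₁ : ℝ) * a₂ = a₃ * a₄ := by exact_mod_cast ha
  have hd' : (d₁ : ℝ) * d₂ = d₃ * d₄ := by exact_mod_cast hd
  have hb' : (a₁ : ℝ) * b₂ + b₁ * d₂ = a₃ * b₄ + b₃ * d₄ + m * (d₃ * d₄) := by exact_mod_cast hb
  apply Units.ext
  rw [Units.val_mul, Units.val_mul, Units.val_mul, coe_eG_unipG, h₁.val, h₂.val, h₃.val, h₄.val]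
  ext i j
  fin_cases i <;> fin_cases j <;> simp [Matrix.mul_apply, Fin.sum_univ_two]
  · exact ha'
  · linear_combination hb'
  · exact hd'

section Entries

variable (p : ℕ)

/-- The upper left entry of the representative `heckeRep p x` of `T_p`. -/
def aT (x : OnePoint (ZMod p)) : ℤ := x.elim (p : ℤ) (fun _ => 1)

/-- The upper right entry of the representative `heckeRep p x` of `T_p`. -/
def bT (x : OnePoint (ZMod p)) : ℤ := x.elim 0 (fun j => (j.val : ℤ))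

/-- The lower right entry of the representative `heckeRep p x` of `T_p`. -/
def dT (x : OnePoint (ZMod p)) : ℤ := x.elim 1 (fun _ => (p : ℤ))

theorem aT_mul_dT (x : OnePoint (ZMod p)) : aT p x * dT p x = p := by
  induction x using OnePoint.rec with
  | infty => show (p : ℤ) * 1 = p; rw [mul_one]
  | coe j => show (1 : ℤ) * p = p; rw [one_mul]

theorem aT_dvd (x : OnePoint (ZMod p)) : aT p x ∣ (p : ℤ) := Dvd.intro _ (aT_mul_dT p x)

theorem dT_dvd (x : OnePoint (ZMod p)) : dT p x ∣ (p : ℤ) := Dvd.intro_left _ (aT_mul_dT p x)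

variable [Fact p.Prime]

theorem isUT_heckeRep (x : OnePoint (ZMod p)) : IsUT (heckeRep p x) (aT p x) (bT p x) (dT p x) := by
  induction x using OnePoint.rec with
  | infty => exact isUT_heckeDiagMatrix p
  | coe j => exact isUT_heckeMatrix p j.val

theorem aT_pos (x : OnePoint (ZMod p)) : 0 < aT p x := (isUT_heckeRep p x).apos

theorem dT_pos (x : OnePoint (ZMod p)) : 0 < dT p x := (isUT_heckeRep p x).dpos

theorem dT_eq_of_aT_eq {x y : OnePoint (ZMod p)} (ha : aT p x = aT p y) : dT p x = dT p y := by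
  have h1 := aT_mul_dT p x
  rw [← aT_mul_dT p y, ha] at h1
  exact mul_left_cancel₀ (aT_pos p y).ne' h1

/-- A representative is determined by its diagonal and its upper right entry modulo the lower
right one. -/
theorem eq_of_aT_eq_of_dvd {x y : OnePoint (ZMod p)} (ha : aT p x = aT p y)
    (hb : dT p x ∣ bT p x - bT p y) : x = y := by
  have hp1 : (p : ℤ) ≠ 1 := by exact_mod_cast (Fact.out : p.Prime).one_lt.ne'
  induction x using OnePoint.rec with
  | infty =>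
    induction y using OnePoint.rec with
    | infty => rfl
    | coe c => exact absurd ha hp1
  | coe b =>
    induction y using OnePoint.rec with
    | infty => exact absurd ha.symm hp1
    | coe c =>
      have hb' : (p : ℤ) ∣ (b.val : ℤ) - (c.val : ℤ) := hb
      have h2 := (ZMod.intCast_zmod_eq_zero_iff_dvd _ p).mpr hb'
      push_cast at h2
      rw [ZMod.natCast_zmod_val, ZMod.natCast_zmod_val, sub_eq_zero] at h2
      rw [h2]

/-- Every residue class modulo the lower right entry occurs as an upper right entry, without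
changing the diagonal. -/
theorem exists_bT (x : OnePoint (ZMod p)) (t : ℤ) :
    ∃ y : OnePoint (ZMod p), aT p y = aT p x ∧ dT p x ∣ bT p y - t := by
  induction x using OnePoint.rec with
  | infty => exact ⟨OnePoint.infty, rfl, one_dvd _⟩
  | coe b =>
    refine ⟨((t : ZMod p) : OnePoint (ZMod p)), rfl, ?_⟩
    show (p : ℤ) ∣ (((t : ZMod p).val : ℕ) : ℤ) - t
    rw [← ZMod.intCast_zmod_eq_zero_iff_dvd]
    push_cast
    rw [ZMod.natCast_zmod_val, sub_self]

end Entries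

section Coprime

variable {ℓ ℓ' : ℕ} [Fact ℓ.Prime] [Fact ℓ'.Prime]

theorem isCoprime_of_ne (hne : ℓ ≠ ℓ') : IsCoprime (ℓ : ℤ) (ℓ' : ℤ) :=
  Nat.isCoprime_iff_coprime.mpr ((Nat.coprime_primes Fact.out Fact.out).mpr hne)

/-- The products `heckeRep ℓ i * heckeRep ℓ' j` lie in pairwise distinct `Γ₀(N)`-cosets. -/
theorem heckeRep_mul_distinct (hne : ℓ ≠ ℓ') (N : ℕ) (i : OnePoint (ZMod ℓ))
    (j : OnePoint (ZMod ℓ')) (k : OnePoint (ZMod ℓ)) (l : OnePoint (ZMod ℓ')) (γ : Gamma0 N)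
    (hγ : heckeRep ℓ i * heckeRep ℓ' j = eG N γ * (heckeRep ℓ k * heckeRep ℓ' l)) :
    i = k ∧ j = l := by
  obtain ⟨h1, -, h3⟩ := ut_eq_of_mul (isUT_mul (isUT_heckeRep ℓ i) (isUT_heckeRep ℓ' j))
    (isUT_mul (isUT_heckeRep ℓ k) (isUT_heckeRep ℓ' l)) (γ : SL(2, ℤ)) hγ
  have hcop := isCoprime_of_ne hne
  -- the diagonals agree
  have hik : aT ℓ i = aT ℓ k := by
    refine Int.dvd_antisymm (aT_pos ℓ i).le (aT_pos ℓ k).le ?_ ?_
    · exact ((hcop.of_isCoprime_of_dvd_left (aT_dvd ℓ i)).of_isCoprime_of_dvd_right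
        (aT_dvd ℓ' l)).dvd_of_dvd_mul_right (Dvd.intro _ h1)
    · exact ((hcop.of_isCoprime_of_dvd_left (aT_dvd ℓ k)).of_isCoprime_of_dvd_right
        (aT_dvd ℓ' j)).dvd_of_dvd_mul_right (Dvd.intro _ h1.symm)
  have hjl : aT ℓ' j = aT ℓ' l := by
    rw [hik] at h1
    exact mul_left_cancel₀ (aT_pos ℓ k).ne' h1
  have hdik : dT ℓ i = dT ℓ k := dT_eq_of_aT_eq ℓ hik
  have hdjl : dT ℓ' j = dT ℓ' l := dT_eq_of_aT_eq ℓ' hjl
  rw [← hik, ← hdik, ← hdjl] at h3
  -- the second index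
  have hj : j = l := by
    refine eq_of_aT_eq_of_dvd ℓ' hjl ?_
    have hd : dT ℓ' j ∣ (bT ℓ' j - bT ℓ' l) * aT ℓ i :=
      ⟨bT ℓ k - bT ℓ i + ((γ : SL(2, ℤ)) 0 1) * dT ℓ i, by linear_combination h3⟩
    exact ((hcop.symm.of_isCoprime_of_dvd_left (dT_dvd ℓ' j)).of_isCoprime_of_dvd_right
      (aT_dvd ℓ i)).dvd_of_dvd_mul_right hd
  subst hj
  refine ⟨eq_of_aT_eq_of_dvd ℓ hik ?_, rfl⟩
  refine ⟨(γ : SL(2, ℤ)) 0 1, ?_⟩
  have h4 : (bT ℓ i - bT ℓ k) * dT ℓ' j = dT ℓ i * ((γ : SL(2, ℤ)) 0 1) * dT ℓ' j := by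
    linear_combination h3
  exact mul_right_cancel₀ (dT_pos ℓ' j).ne' h4

/-- Every coset of a product `heckeRep ℓ' j * heckeRep ℓ i` is the coset of a product
`heckeRep ℓ k * heckeRep ℓ' l`. -/
theorem heckeRep_mul_match (hne : ℓ ≠ ℓ') (N : ℕ) (i : OnePoint (ZMod ℓ))
    (j : OnePoint (ZMod ℓ')) :
    ∃ (k : OnePoint (ZMod ℓ)) (l : OnePoint (ZMod ℓ')) (u : Gamma0 N),
      heckeRep ℓ' j * heckeRep ℓ i = eG N u * (heckeRep ℓ k * heckeRep ℓ' l) := by
  have hcop : IsCoprime (aT ℓ i) (dT ℓ' j) :=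
    ((isCoprime_of_ne hne).of_isCoprime_of_dvd_left (aT_dvd ℓ i)).of_isCoprime_of_dvd_right
      (dT_dvd ℓ' j)
  obtain ⟨s, r, hsr⟩ := hcop
  obtain ⟨l, hal, w, hw⟩ :=
    exists_bT ℓ' j (s * (aT ℓ' j * bT ℓ i + bT ℓ' j * dT ℓ i))
  obtain ⟨k, hak, v, hv⟩ :=
    exists_bT ℓ i (r * (aT ℓ' j * bT ℓ i + bT ℓ' j * dT ℓ i) - aT ℓ i * w)
  have hdl : dT ℓ' l = dT ℓ' j := dT_eq_of_aT_eq ℓ' hal
  have hdk : dT ℓ k = dT ℓ i := dT_eq_of_aT_eq ℓ hak
  refine ⟨k, l, unipG N (-v), ?_⟩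
  refine ut_mul_eq_unip_mul N (isUT_heckeRep ℓ' j) (isUT_heckeRep ℓ i) (isUT_heckeRep ℓ k)
    (isUT_heckeRep ℓ' l) ?_ ?_ ?_
  · rw [hak, hal, mul_comm]
  · rw [hdk, hdl, mul_comm]
  · rw [hak, hdk, hdl]
    linear_combination (-(aT ℓ' j * bT ℓ i + bT ℓ' j * dT ℓ i)) * hsr - aT ℓ i * hw -
      dT ℓ' j * hv

end Coprime

end Fermat.Agent.Lib.HeckeHomComm

namespace Fermat.Agent.Lib.HeckeHomGL

open scoped MatrixGroups
open CongruenceSubgroup Matrix.SpecialLinearGroup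
open Fermat.Agent.Lib.HeckeHom Fermat.Agent.Lib.HeckeHomComm
open P2MW.S_ModularForm_heckeT_slash_eq_self_of_mem_Gamma0.ModularForm.HeckeSlashInvariance

section

variable {Γ G : Type*} [Group Γ] [Group G] {e : Γ →* G} {ι ι' : Type*} {δ : ι → G} {δ' : ι' → G}
  [Fintype ι] [Fintype ι'] {A : Type*} [AddCommGroup A]

/-- **Commutation, matching form.**  The operators of two coset families commute as soon as the
products `δ i * δ' j` lie in pairwise distinct cosets and the products `δ' j * δ i` match them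
along a bijection. -/
theorem heckeHom_comm_of_matching (h : IsCosetFamily e δ) (h' : IsCosetFamily e δ')
    (π : ι × ι' ≃ ι × ι') (u : ι × ι' → Γ)
    (hπ : ∀ i j, δ' j * δ i = e (u (i, j)) * (δ (π (i, j)).1 * δ' (π (i, j)).2))
    (hdist : ∀ i j k l γ, δ i * δ' j = e γ * (δ k * δ' l) → i = k ∧ j = l)
    (φ : Additive Γ →+ A) :
    h.heckeHom (h'.heckeHom φ) = h'.heckeHom (h.heckeHom φ) := by
  have hQ : IsCosetFamily e (fun x : ι × ι' => δ x.1 * δ' x.2) := isCosetFamily_mul h h' hdist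
  have hP : IsCosetFamily e (fun x : ι × ι' => δ' x.2 * δ x.1) := by
    refine ⟨h.inj_e, ?_, ?_⟩
    · rintro γ ⟨i, j⟩
      refine ⟨(h.nxt γ i, h'.nxt (h.cof γ i) j), h'.cof (h.cof γ i) j, ?_⟩
      show δ' j * δ i * e γ =
        e (h'.cof (h.cof γ i) j) * (δ' (h'.nxt (h.cof γ i) j) * δ (h.nxt γ i))
      rw [mul_assoc, h.spec γ i, ← mul_assoc, h'.spec (h.cof γ i) j, mul_assoc]
    · rintro ⟨i, j⟩ ⟨k, l⟩ γ hγ
      have hγ' : δ' j * δ i = e γ * (δ' l * δ k) := hγ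
      rw [hπ i j, hπ k l] at hγ'
      have h3 : δ (π (i, j)).1 * δ' (π (i, j)).2 =
          e ((u (i, j))⁻¹ * γ * u (k, l)) * (δ (π (k, l)).1 * δ' (π (k, l)).2) := by
        calc δ (π (i, j)).1 * δ' (π (i, j)).2
            = (e (u (i, j)))⁻¹ * (e (u (i, j)) * (δ (π (i, j)).1 * δ' (π (i, j)).2)) := by
              rw [inv_mul_cancel_left]
          _ = _ := by rw [hγ']; simp only [map_mul, map_inv, mul_assoc]
      obtain ⟨h1, h2⟩ := hdist _ _ _ _ _ h3
      exact π.injective (Prod.ext h1 h2)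
  rw [← heckeHom_mul' h h' hP φ, ← heckeHom_mul h h' hQ φ]
  exact heckeHom_eq_of_equiv hP hQ π u (fun x => hπ x.1 x.2) φ

end

/-- **The Hecke operators `T_ℓ` and `T_ℓ'` (`ℓ, ℓ' ∤ N`) on `Hom(Γ₀(N), A)` commute.** -/
theorem heckeHom_heckeRep_comm (N ℓ ℓ' : ℕ) [Fact ℓ.Prime] [Fact ℓ'.Prime] (hℓ : ¬ ℓ ∣ N)
    (hℓ' : ¬ ℓ' ∣ N) {A : Type*} [AddCommGroup A] (φ : Additive ↥(Gamma0 N) →+ A) :
    (isCosetFamily_heckeRep N ℓ hℓ).heckeHom ((isCosetFamily_heckeRep N ℓ' hℓ').heckeHom φ) =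
      (isCosetFamily_heckeRep N ℓ' hℓ').heckeHom ((isCosetFamily_heckeRep N ℓ hℓ).heckeHom φ) := by
  by_cases hne : ℓ = ℓ'
  · subst hne
    rfl
  · exact heckeHom_comm_of_exists _ _ (heckeRep_mul_distinct hne N)
      (fun i j k l γ h => (heckeRep_mul_distinct (Ne.symm hne) N j i l k γ h).symm)
      (heckeRep_mul_match hne N) φ

end Fermat.Agent.Lib.HeckeHomGL
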