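import Mathlib
import Fermat.Agent.Lib.HeckeHomReps

/-!
# Integer-matrix form of the transfer relations for `T_ℓ` and `U_p`

The coset relations `δ i * γ = cof γ i * δ (nxt γ i)` of `Lib/HeckeHomReps` (in `GL₂(ℝ)`),
rewritten as identities of integer matrices with the explicit upper triangular representatives
`repT ℓ` (`[ℓ 0; 0 1]`, `[1 j; 0 ℓ]`) and `repU p` (`[1 j; 0 p]`).
-/

set_option autoImplicit false

namespace Fermat.Agent.Lib.HeckeHomGL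

open UpperHalfPlane hiding I
open scoped MatrixGroups ModularForm
open CongruenceSubgroup Matrix.SpecialLinearGroup
open Fermat.Agent.Lib.HeckeHom Fermat.Agent.Lib.HeckePeriod
open P2MW.S_ModularForm_heckeT_slash_eq_self_of_mem_Gamma0.ModularForm.HeckeSlashInvariance

theorem coe_mapGL_eq_map (g : SL(2, ℤ)) :
    ((mapGL ℝ g : GL (Fin 2) ℝ) : Matrix (Fin 2) (Fin 2) ℝ) =
      (g : Matrix (Fin 2) (Fin 2) ℤ).map (Int.castRingHom ℝ) := by
  ext i j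
  fin_cases i <;> fin_cases j <;> simp

/-- A relation in `GL₂(ℝ)` between integral matrices is a relation of integer matrices. -/
theorem int_rel_of_real {δ δ' : GL (Fin 2) ℝ} {M M' : Matrix (Fin 2) (Fin 2) ℤ}
    (hM : (δ : Matrix (Fin 2) (Fin 2) ℝ) = M.map (Int.castRingHom ℝ))
    (hM' : (δ' : Matrix (Fin 2) (Fin 2) ℝ) = M'.map (Int.castRingHom ℝ))
    (g g' : SL(2, ℤ)) (h : δ * mapGL ℝ g = mapGL ℝ g' * δ') :
    M * (g : Matrix (Fin 2) (Fin 2) ℤ) = (g' : Matrix (Fin 2) (Fin 2) ℤ) * M' := by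
  have h' := congrArg (fun x : GL (Fin 2) ℝ => (x : Matrix (Fin 2) (Fin 2) ℝ)) h
  simp only [Units.val_mul] at h'
  rw [hM, hM', coe_mapGL_eq_map, coe_mapGL_eq_map, ← Matrix.map_mul, ← Matrix.map_mul] at h'
  exact Matrix.map_injective (Int.cast_injective (α := ℝ)) h'

/-- The integral representatives of `U_p`: `[1 j; 0 p]`. -/
def repU (p : ℕ) (x : ZMod p) : Matrix (Fin 2) (Fin 2) ℤ := !![1, (x.val : ℤ); 0, (p : ℤ)]

/-- The integral representatives of `T_ℓ`: `[ℓ 0; 0 1]` and `[1 j; 0 ℓ]`. -/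
def repT (ℓ : ℕ) (x : OnePoint (ZMod ℓ)) : Matrix (Fin 2) (Fin 2) ℤ :=
  x.elim !![(ℓ : ℤ), 0; 0, 1] (fun j => !![1, (j.val : ℤ); 0, (ℓ : ℤ)])

theorem repU_one_zero (p : ℕ) (x : ZMod p) : repU p x 1 0 = 0 := by simp [repU]

theorem repU_zero_zero (p : ℕ) (x : ZMod p) : repU p x 0 0 = 1 := by simp [repU]

theorem repT_one_zero (ℓ : ℕ) (x : OnePoint (ZMod ℓ)) : repT ℓ x 1 0 = 0 := by
  induction x using OnePoint.rec with
  | infty => show (!![(ℓ : ℤ), 0; 0, 1] : Matrix (Fin 2) (Fin 2) ℤ) 1 0 = 0; simp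
  | coe j => show (!![1, (j.val : ℤ); 0, (ℓ : ℤ)] : Matrix (Fin 2) (Fin 2) ℤ) 1 0 = 0; simp

theorem repT_zero_zero (ℓ : ℕ) (x : OnePoint (ZMod ℓ)) : repT ℓ x 0 0 = 1 ∨ repT ℓ x 0 0 = ℓ := by
  induction x using OnePoint.rec with
  | infty => right; show (!![(ℓ : ℤ), 0; 0, 1] : Matrix (Fin 2) (Fin 2) ℤ) 0 0 = ℓ; simp
  | coe j => left; show (!![1, (j.val : ℤ); 0, (ℓ : ℤ)] : Matrix (Fin 2) (Fin 2) ℤ) 0 0 = 1; simp

theorem val_heckeMatrix_eq_map (p : ℕ) [NeZero p] (x : ZMod p) :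
    ((ModularForm.heckeMatrix p x.val : GL (Fin 2) ℝ) : Matrix (Fin 2) (Fin 2) ℝ) =
      (repU p x).map (Int.castRingHom ℝ) := by
  rw [ModularForm.val_heckeMatrix (NeZero.ne p)]
  ext i j
  fin_cases i <;> fin_cases j <;> simp [repU]

theorem val_heckeRep_eq_map (ℓ : ℕ) [Fact ℓ.Prime] (x : OnePoint (ZMod ℓ)) :
    ((heckeRep ℓ x : GL (Fin 2) ℝ) : Matrix (Fin 2) (Fin 2) ℝ) =
      (repT ℓ x).map (Int.castRingHom ℝ) := by
  have hℓ : ℓ ≠ 0 := (Fact.out : ℓ.Prime).ne_zero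
  induction x using OnePoint.rec with
  | infty =>
    show ((ModularForm.heckeDiagMatrix ℓ : GL (Fin 2) ℝ) : Matrix (Fin 2) (Fin 2) ℝ) =
      (!![(ℓ : ℤ), 0; 0, 1] : Matrix (Fin 2) (Fin 2) ℤ).map (Int.castRingHom ℝ)
    rw [ModularForm.val_heckeDiagMatrix hℓ]
    ext i j
    fin_cases i <;> fin_cases j <;> simp
  | coe j =>
    show ((ModularForm.heckeMatrix ℓ j.val : GL (Fin 2) ℝ) : Matrix (Fin 2) (Fin 2) ℝ) =
      (!![1, (j.val : ℤ); 0, (ℓ : ℤ)] : Matrix (Fin 2) (Fin 2) ℤ).map (Int.castRingHom ℝ)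
    rw [ModularForm.val_heckeMatrix hℓ]
    ext i j
    fin_cases i <;> fin_cases j <;> simp

/-- The transfer relation of `U_p` (`p ∣ N`) over `ℤ`. -/
theorem spec_int_U (N p : ℕ) [NeZero p] (hpN : p ∣ N) (γ : Gamma0 N) (x : ZMod p) :
    repU p x * ((γ : SL(2, ℤ)) : Matrix (Fin 2) (Fin 2) ℤ) =
      (((isCosetFamily_heckeMatrix N p hpN).cof γ x : Gamma0 N) : SL(2, ℤ)).val *
        repU p ((isCosetFamily_heckeMatrix N p hpN).nxt γ x) :=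
  int_rel_of_real (val_heckeMatrix_eq_map p x) (val_heckeMatrix_eq_map p _) _ _
    ((isCosetFamily_heckeMatrix N p hpN).spec γ x)

/-- The transfer relation of `T_ℓ` (`ℓ ∤ N`) over `ℤ`. -/
theorem spec_int_T (N ℓ : ℕ) [Fact ℓ.Prime] (hℓN : ¬ ℓ ∣ N) (γ : Gamma0 N)
    (x : OnePoint (ZMod ℓ)) :
    repT ℓ x * ((γ : SL(2, ℤ)) : Matrix (Fin 2) (Fin 2) ℤ) =
      (((isCosetFamily_heckeRep N ℓ hℓN).cof γ x : Gamma0 N) : SL(2, ℤ)).val *
        repT ℓ ((isCosetFamily_heckeRep N ℓ hℓN).nxt γ x) :=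
  int_rel_of_real (val_heckeRep_eq_map ℓ x) (val_heckeRep_eq_map ℓ _) _ _
    ((isCosetFamily_heckeRep N ℓ hℓN).spec γ x)

theorem card_onePoint_zmod (ℓ : ℕ) [NeZero ℓ] : Fintype.card (OnePoint (ZMod ℓ)) = ℓ + 1 := by
  show Fintype.card (Option (ZMod ℓ)) = ℓ + 1
  rw [Fintype.card_option, ZMod.card]

end Fermat.Agent.Lib.HeckeHomGL
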