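import Mathlib

set_option autoImplicit false

namespace Fermat.Agent.Lib.PermGenus

open Equiv MulAction Module

/-- Number of orbits of the cyclic group generated by `σ`. -/
noncomputable def cyc {X : Type*} (σ : Equiv.Perm X) : ℕ :=
  Nat.card (MulAction.orbitRel.Quotient (Subgroup.zpowers σ) X)

section basic

variable {X : Type*}

theorem orbitRel_zpowers_iff (σ : Equiv.Perm X) (x y : X) :
    (MulAction.orbitRel (Subgroup.zpowers σ) X) x y ↔ σ.SameCycle y x := by
  rw [MulAction.orbitRel_apply, MulAction.mem_orbit_iff]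
  constructor
  · rintro ⟨⟨g, hg⟩, h⟩
    obtain ⟨k, rfl⟩ := Subgroup.mem_zpowers_iff.mp hg
    exact ⟨k, h⟩
  · rintro ⟨k, h⟩
    exact ⟨⟨σ ^ k, Subgroup.mem_zpowers_iff.mpr ⟨k, rfl⟩⟩, h⟩

/-- The subgroup of permutations leaving a function invariant. -/
def stab {Y : Type*} (v : X → Y) : Subgroup (Equiv.Perm X) where
  carrier := {g | ∀ x, v (g x) = v x}
  mul_mem' := by
    intro g h hg hh x
    have hg' : ∀ x, v (g x) = v x := hg
    have hh' : ∀ x, v (h x) = v x := hh
    rw [Equiv.Perm.mul_apply, hg', hh']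
  one_mem' := by intro x; simp
  inv_mem' := by
    intro g hg x
    have hg' : ∀ x, v (g x) = v x := hg
    have := hg' (g⁻¹ x)
    rw [Equiv.Perm.inv_def, Equiv.apply_symm_apply] at this
    rw [Equiv.Perm.inv_def]
    exact this.symm

theorem mem_stab {Y : Type*} (v : X → Y) (g : Equiv.Perm X) :
    g ∈ stab v ↔ ∀ x, v (g x) = v x := Iff.rfl

end basic

theorem finrank_span_single_le {V : Type*} [AddCommGroup V] [Module ℚ V] (v : V) :
    finrank ℚ ↥(Submodule.span ℚ {v}) ≤ 1 := by
  have := finrank_span_le_card (R := ℚ) ({v} : Set V)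
  simpa using this

section linear

variable {X : Type*} [Fintype X] [DecidableEq X]

/-- `v ↦ v ∘ σ - v`. -/
noncomputable def D (σ : Equiv.Perm X) : (X → ℚ) →ₗ[ℚ] (X → ℚ) :=
  LinearMap.funLeft ℚ ℚ σ - LinearMap.id

omit [Fintype X] [DecidableEq X] in
theorem D_apply (σ : Equiv.Perm X) (v : X → ℚ) (x : X) : D σ v x = v (σ x) - v x := by
  simp [D, LinearMap.funLeft_apply]

omit [Fintype X] [DecidableEq X] in
theorem mem_ker_D (σ : Equiv.Perm X) (v : X → ℚ) :
    v ∈ LinearMap.ker (D σ) ↔ ∀ x, v (σ x) = v x := by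
  rw [LinearMap.mem_ker]
  constructor
  · intro h x
    have := congrFun h x
    rw [D_apply] at this
    simpa [sub_eq_zero] using this
  · intro h
    funext x
    rw [D_apply, h x]
    simp

theorem finrank_ker_D (σ : Equiv.Perm X) :
    finrank ℚ (LinearMap.ker (D σ)) = cyc σ := by
  classical
  let Q := MulAction.orbitRel.Quotient (Subgroup.zpowers σ) X
  let _ : Fintype Q := Fintype.ofFinite Q
  let π : X → Q := Quotient.mk''
  have hπ : Function.Surjective π := Quotient.mk''_surjective
  let L : (Q → ℚ) →ₗ[ℚ] (X → ℚ) := LinearMap.funLeft ℚ ℚ π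
  have hL : Function.Injective L := LinearMap.funLeft_injective_of_surjective ℚ ℚ π hπ
  have hrange : LinearMap.range L = LinearMap.ker (D σ) := by
    apply le_antisymm
    · rintro _ ⟨f, rfl⟩
      rw [mem_ker_D]
      intro x
      show f (π (σ x)) = f (π x)
      congr 1
      apply Quotient.sound'
      rw [orbitRel_zpowers_iff]
      exact ⟨1, by simp⟩
    · intro v hv
      rw [mem_ker_D] at hv
      have hst : Subgroup.zpowers σ ≤ stab v := by
        rw [Subgroup.zpowers_le]
        exact hv
      have hresp : ∀ x y : X, (MulAction.orbitRel (Subgroup.zpowers σ) X) x y → v x = v y := by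
        intro x y hxy
        rw [orbitRel_zpowers_iff] at hxy
        obtain ⟨k, rfl⟩ := hxy
        have := hst (Subgroup.mem_zpowers_iff.mpr ⟨k, rfl⟩)
        exact (mem_stab v _).mp this y
      refine ⟨Quotient.lift v hresp, ?_⟩
      funext x
      rfl
  rw [← hrange, LinearMap.finrank_range_of_inj hL, Module.finrank_fintype_fun_eq_card]
  show Fintype.card Q = Nat.card Q
  rw [Nat.card_eq_fintype_card]

theorem finrank_range_D_add (σ : Equiv.Perm X) :
    finrank ℚ (LinearMap.range (D σ)) + cyc σ = Fintype.card X := by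
  rw [← finrank_ker_D, LinearMap.finrank_range_add_finrank_ker, Module.finrank_fintype_fun_eq_card]

/-- Scott's inequality for two permutations. -/
theorem finrank_ker_mul_le (a b : Equiv.Perm X) :
    finrank ℚ (LinearMap.ker (D (a * b))) ≤
      finrank ℚ ↥(LinearMap.ker (D a) ⊓ LinearMap.ker (D b)) +
        finrank ℚ ↥(LinearMap.range (D a) ⊓ LinearMap.range (D b)) := by
  set Fab := LinearMap.ker (D (a * b)) with hFab
  let g : Fab →ₗ[ℚ] (X → ℚ) := (D a).domRestrict Fab
  have hrk := LinearMap.finrank_range_add_finrank_ker g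
  have h1 : LinearMap.range g ≤ LinearMap.range (D a) ⊓ LinearMap.range (D b) := by
    rintro _ ⟨⟨v, hv⟩, rfl⟩
    rw [hFab, mem_ker_D] at hv
    refine ⟨⟨v, rfl⟩, ⟨-(fun y => v (a y)), ?_⟩⟩
    funext x
    show D b (-(fun y => v (a y))) x = D a v x
    rw [D_apply, D_apply]
    have := hv x
    rw [Equiv.Perm.mul_apply] at this
    simp only [Pi.neg_apply]
    rw [this]
    ring
  have h2 : finrank ℚ (LinearMap.ker g) ≤
      finrank ℚ ↥(LinearMap.ker (D a) ⊓ LinearMap.ker (D b)) := by
    let φ : LinearMap.ker g →ₗ[ℚ] ↥(LinearMap.ker (D a) ⊓ LinearMap.ker (D b)) :=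
      LinearMap.codRestrict _ (Fab.subtype.comp (LinearMap.ker g).subtype) (by
        rintro ⟨⟨v, hv⟩, hk⟩
        rw [hFab, mem_ker_D] at hv
        have hk' : D a v = 0 := hk
        have hva : ∀ x, v (a x) = v x := (mem_ker_D a v).mp hk'
        refine ⟨hk', ?_⟩
        show v ∈ LinearMap.ker (D b)
        rw [mem_ker_D]
        intro x
        have := hv x
        rw [Equiv.Perm.mul_apply, hva] at this
        exact this)
    have hφ : Function.Injective φ := by
      intro u w h
      have := congrArg (fun z : ↥(LinearMap.ker (D a) ⊓ LinearMap.ker (D b)) => (z : X → ℚ)) h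
      apply Subtype.ext
      apply Subtype.ext
      exact this
    exact LinearMap.finrank_le_finrank_of_injective hφ
  have h3 := Submodule.finrank_mono h1
  omega

theorem forall_mem_closure_of_mem_ker {a b : Equiv.Perm X} {v : X → ℚ}
    (ha : v ∈ LinearMap.ker (D a)) (hb : v ∈ LinearMap.ker (D b)) :
    ∀ g ∈ Subgroup.closure {a, b}, ∀ x, v (g x) = v x := by
  have hle : Subgroup.closure {a, b} ≤ stab v := by
    rw [Subgroup.closure_le]
    intro g hg
    rcases hg with rfl | hg
    · exact (mem_ker_D _ v).mp ha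
    · rw [Set.mem_singleton_iff] at hg
      subst hg
      exact (mem_ker_D _ v).mp hb
  intro g hg
  exact (mem_stab v g).mp (hle hg)

theorem finrank_inf_ker_le_one (a b : Equiv.Perm X)
    (htr : MulAction.IsPretransitive (Subgroup.closure {a, b}) X) :
    finrank ℚ ↥(LinearMap.ker (D a) ⊓ LinearMap.ker (D b)) ≤ 1 := by
  have hle : LinearMap.ker (D a) ⊓ LinearMap.ker (D b) ≤ Submodule.span ℚ {(fun _ => 1 : X → ℚ)} := by
    rintro v ⟨ha, hb⟩
    have hinv := forall_mem_closure_of_mem_ker ha hb
    rcases isEmpty_or_nonempty X with hX | ⟨⟨x₀⟩⟩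
    · have : v = 0 := by
        funext x
        exact (hX.false x).elim
      rw [this]
      exact Submodule.zero_mem _
    · rw [Submodule.mem_span_singleton]
      refine ⟨v x₀, ?_⟩
      funext y
      obtain ⟨g, hg⟩ := htr.exists_smul_eq x₀ y
      have := hinv g.1 g.2 x₀
      have hgy : (g : Equiv.Perm X) x₀ = y := hg
      rw [hgy] at this
      simp [this]
  calc finrank ℚ ↥(LinearMap.ker (D a) ⊓ LinearMap.ker (D b))
      ≤ finrank ℚ ↥(Submodule.span ℚ {(fun _ => 1 : X → ℚ)}) := Submodule.finrank_mono hle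
    _ ≤ 1 := finrank_span_single_le _

theorem single_sub_single_mem (a b : Equiv.Perm X) :
    ∀ g ∈ Subgroup.closure {a, b}, ∀ x : X,
      (Pi.single x (1 : ℚ) - Pi.single (g x) (1 : ℚ) : X → ℚ) ∈
        LinearMap.range (D a) ⊔ LinearMap.range (D b) := by
  have key : ∀ (σ : Equiv.Perm X) (x : X),
      (Pi.single x (1 : ℚ) - Pi.single (σ x) (1 : ℚ) : X → ℚ) ∈ LinearMap.range (D σ) := by
    intro σ x
    refine ⟨Pi.single (σ x) (1 : ℚ), ?_⟩
    funext z
    rw [D_apply]
    simp only [Pi.sub_apply, Pi.single_apply]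
    by_cases hz : z = x
    · subst hz
      simp
    · have : σ z ≠ σ x := fun h => hz (σ.injective h)
      simp [hz, this]
  intro g hg
  induction hg using Subgroup.closure_induction with
  | mem g hg =>
    intro x
    rcases hg with rfl | hg
    · exact Submodule.mem_sup_left (key _ x)
    · rw [Set.mem_singleton_iff] at hg
      subst hg
      exact Submodule.mem_sup_right (key _ x)
  | one =>
    intro x
    simp
  | mul g h _ _ ihg ihh =>
    intro x
    have := Submodule.add_mem _ (ihh x) (ihg (h x))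
    rw [Equiv.Perm.mul_apply]
    convert this using 1
    abel
  | inv g _ ih =>
    intro x
    have := Submodule.neg_mem _ (ih (g⁻¹ x))
    rw [Equiv.Perm.inv_def, Equiv.apply_symm_apply] at this
    rw [Equiv.Perm.inv_def]
    convert this using 1
    abel

theorem card_le_one_add_finrank_sup (a b : Equiv.Perm X)
    (htr : MulAction.IsPretransitive (Subgroup.closure {a, b}) X) :
    Fintype.card X ≤ 1 + finrank ℚ ↥(LinearMap.range (D a) ⊔ LinearMap.range (D b)) := by
  rcases isEmpty_or_nonempty X with hX | ⟨⟨x₀⟩⟩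
  · rw [Fintype.card_eq_zero]
    exact Nat.zero_le _
  · set W := LinearMap.range (D a) ⊔ LinearMap.range (D b) with hW
    have htop : (⊤ : Submodule ℚ (X → ℚ)) ≤ Submodule.span ℚ {(Pi.single x₀ (1 : ℚ) : X → ℚ)} ⊔ W := by
      rw [← (Pi.basisFun ℚ X).span_eq, Submodule.span_le]
      rintro _ ⟨y, rfl⟩
      obtain ⟨g, hg⟩ := htr.exists_smul_eq y x₀
      have hgy : (g : Equiv.Perm X) y = x₀ := hg
      have h1 := single_sub_single_mem a b g.1 g.2 y
      rw [hgy] at h1
      have h2 : (Pi.single x₀ (1 : ℚ) : X → ℚ) ∈ Submodule.span ℚ {(Pi.single x₀ (1 : ℚ) : X → ℚ)} :=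
        Submodule.mem_span_singleton_self _
      have h3 := Submodule.add_mem _ (Submodule.mem_sup_left h2) (Submodule.mem_sup_right h1 :
        _ ∈ Submodule.span ℚ {(Pi.single x₀ (1 : ℚ) : X → ℚ)} ⊔ W)
      simp only [Pi.basisFun_apply, SetLike.mem_coe]
      convert h3 using 1
      abel
    have h4 : finrank ℚ (X → ℚ) ≤ finrank ℚ ↥(Submodule.span ℚ {(Pi.single x₀ (1 : ℚ) : X → ℚ)} ⊔ W) := by
      rw [← finrank_top ℚ (X → ℚ)]
      exact Submodule.finrank_mono htop
    rw [Module.finrank_fintype_fun_eq_card] at h4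
    have h5 := Submodule.finrank_add_le_finrank_add_finrank
      (Submodule.span ℚ {(Pi.single x₀ (1 : ℚ) : X → ℚ)}) W
    have h6 : finrank ℚ ↥(Submodule.span ℚ {(Pi.single x₀ (1 : ℚ) : X → ℚ)}) ≤ 1 :=
      finrank_span_single_le _
    omega

/-- (H1) Ree's inequality. -/
theorem card_orbits_add_le (a b : Equiv.Perm X)
    (htr : MulAction.IsPretransitive (Subgroup.closure {a, b}) X) :
    cyc a + cyc b + cyc (a * b) ≤ Fintype.card X + 2 := by
  have h1 := finrank_ker_mul_le a b
  have h2 := finrank_inf_ker_le_one a b htr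
  have h3 := card_le_one_add_finrank_sup a b htr
  have h4 := Submodule.finrank_sup_add_finrank_inf_eq (LinearMap.range (D a)) (LinearMap.range (D b))
  have h5 := finrank_range_D_add a
  have h6 := finrank_range_D_add b
  rw [finrank_ker_D] at h1
  omega

end linear

section cycles

variable {X : Type*} [Fintype X] [DecidableEq X]

/-- auxiliary classifying map: orbits correspond to cycle factors and fixed points. -/
noncomputable def theta (σ : Equiv.Perm X) (x : X) :
    {c // c ∈ σ.cycleFactorsFinset} ⊕ {x // σ x = x} :=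
  if h : σ x = x then Sum.inr ⟨x, h⟩
  else Sum.inl ⟨σ.cycleOf x,
    Equiv.Perm.cycleOf_mem_cycleFactorsFinset_iff.mpr (Equiv.Perm.mem_support.mpr h)⟩

theorem theta_eq_iff (σ : Equiv.Perm X) (x y : X) :
    theta σ x = theta σ y ↔ σ.SameCycle x y := by
  unfold theta
  by_cases hx : σ x = x
  · by_cases hy : σ y = y
    · rw [dif_pos hx, dif_pos hy]
      constructor
      · intro h
        have : x = y := by simpa using h
        rw [this]
      · intro h
        have : x = y := h.eq_of_left hx
        subst this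
        rfl
    · rw [dif_pos hx, dif_neg hy]
      constructor
      · intro h
        simp at h
      · intro h
        exact absurd (h.apply_eq_self_iff.mp hx) hy
  · by_cases hy : σ y = y
    · rw [dif_neg hx, dif_pos hy]
      constructor
      · intro h
        simp at h
      · intro h
        exact absurd (h.apply_eq_self_iff.mpr hy) hx
    · rw [dif_neg hx, dif_neg hy]
      rw [Equiv.Perm.sameCycle_iff_cycleOf_eq_of_mem_support (Equiv.Perm.mem_support.mpr hx)
        (Equiv.Perm.mem_support.mpr hy)]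
      constructor
      · intro h
        simpa using h
      · intro h
        simp [h]

theorem theta_surjective (σ : Equiv.Perm X) : Function.Surjective (theta σ) := by
  rintro (⟨c, hc⟩ | ⟨x, hx⟩)
  · have hcyc := (Equiv.Perm.mem_cycleFactorsFinset_iff.mp hc).1
    obtain ⟨a, ha⟩ := hcyc.nonempty_support
    have hca : c = σ.cycleOf a := Equiv.Perm.cycle_is_cycleOf ha hc
    have has : a ∈ σ.support := Equiv.Perm.mem_cycleFactorsFinset_support_le hc ha
    refine ⟨a, ?_⟩
    unfold theta
    rw [dif_neg (Equiv.Perm.mem_support.mp has)]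
    simp [hca]
  · refine ⟨x, ?_⟩
    unfold theta
    rw [dif_pos hx]

theorem cyc_eq_card_sum (σ : Equiv.Perm X) :
    cyc σ = σ.cycleFactorsFinset.card + Fintype.card {x // σ x = x} := by
  classical
  let Q := MulAction.orbitRel.Quotient (Subgroup.zpowers σ) X
  have hresp : ∀ x y : X, (MulAction.orbitRel (Subgroup.zpowers σ) X) x y →
      theta σ x = theta σ y := by
    intro x y h
    rw [theta_eq_iff]
    exact ((orbitRel_zpowers_iff σ x y).mp h).symm
  let f : Q → {c // c ∈ σ.cycleFactorsFinset} ⊕ {x // σ x = x} := Quotient.lift (theta σ) hresp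
  have hf : Function.Bijective f := by
    constructor
    · intro q₁ q₂
      induction q₁ using Quotient.inductionOn with
      | h x =>
        induction q₂ using Quotient.inductionOn with
        | h y =>
          intro h
          apply Quotient.sound
          show (MulAction.orbitRel (Subgroup.zpowers σ) X) x y
          rw [orbitRel_zpowers_iff]
          exact ((theta_eq_iff σ x y).mp h).symm
    · intro t
      obtain ⟨x, hx⟩ := theta_surjective σ t
      exact ⟨Quotient.mk _ x, hx⟩
  unfold cyc
  rw [Nat.card_congr (Equiv.ofBijective f hf), Nat.card_eq_fintype_card, Fintype.card_sum]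
  simp

theorem card_fixed_add_support (σ : Equiv.Perm X) :
    Fintype.card {x // σ x = x} + σ.support.card = Fintype.card X := by
  rw [Fintype.card_subtype]
  have h : σ.support = Finset.univ.filter (fun x => ¬ σ x = x) := by
    ext x
    simp
  rw [h]
  exact Finset.card_filter_add_card_filter_not (s := (Finset.univ : Finset X)) (fun x => σ x = x)

/-- orbits versus cycle factors. -/
theorem cyc_add_card_support (σ : Equiv.Perm X) :
    cyc σ + σ.support.card = Fintype.card X + σ.cycleFactorsFinset.card := by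
  have h1 := cyc_eq_card_sum σ
  have h2 := card_fixed_add_support σ
  omega

theorem card_cycleType_eq (σ : Equiv.Perm X) :
    Multiset.card σ.cycleType = σ.cycleFactorsFinset.card := by
  rw [Equiv.Perm.cycleType_def, Multiset.card_map]
  rfl

theorem sign_eq_neg_one_pow (σ : Equiv.Perm X) :
    Equiv.Perm.sign σ = (-1 : ℤˣ) ^ (Fintype.card X + cyc σ) := by
  rw [Equiv.Perm.sign_of_cycleType, Equiv.Perm.sum_cycleType, card_cycleType_eq]
  have h := cyc_add_card_support σ
  have hle : σ.support.card ≤ Fintype.card X := Finset.card_le_univ _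
  have e : Fintype.card X + cyc σ =
      σ.support.card + σ.cycleFactorsFinset.card + 2 * (Fintype.card X - σ.support.card) := by
    omega
  rw [e, pow_add _ (σ.support.card + σ.cycleFactorsFinset.card), pow_mul]
  simp

/-- (H2) parity. -/
theorem card_orbits_parity (a b : Equiv.Perm X) :
    (cyc a + cyc b + cyc (a * b)) % 2 = Fintype.card X % 2 := by
  have h := Equiv.Perm.sign_mul a b
  rw [sign_eq_neg_one_pow, sign_eq_neg_one_pow, sign_eq_neg_one_pow, ← pow_add] at h
  have hu : ∀ m : ℕ, ((-1 : ℤˣ) ^ m = 1 ↔ Even m) := by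
    intro m
    constructor
    · intro hm
      by_contra hodd
      rw [Nat.not_even_iff_odd] at hodd
      rw [hodd.neg_one_pow] at hm
      exact absurd hm (by decide)
    · intro hm
      exact hm.neg_one_pow
  have h2 : (-1 : ℤˣ) ^ (Fintype.card X + cyc (a * b) + (Fintype.card X + cyc a +
      (Fintype.card X + cyc b))) = 1 := by
    rw [pow_add, h, ← pow_add]
    rw [hu]
    exact ⟨_, rfl⟩
  rw [hu] at h2
  obtain ⟨k, hk⟩ := h2
  omega

/-- prime order: `p * cyc σ = n + (p - 1) * fix σ`. -/
theorem prime_mul_cyc (σ : Equiv.Perm X) (p : ℕ) (hp : p.Prime) (h : σ ^ p = 1) :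
    p * cyc σ = Fintype.card X + (p - 1) * Fintype.card {x // σ x = x} := by
  have h1 := cyc_eq_card_sum σ
  have h2 := card_fixed_add_support σ
  have hdvd : orderOf σ ∣ p := orderOf_dvd_of_pow_eq_one h
  have hsupp : σ.support.card = p * σ.cycleFactorsFinset.card := by
    rcases (Nat.dvd_prime hp).mp hdvd with h1' | hp'
    · rw [orderOf_eq_one_iff] at h1'
      subst h1'
      simp
    · have hpr : (orderOf σ).Prime := hp' ▸ hp
      obtain ⟨n, hn⟩ := Equiv.Perm.cycleType_prime_order hpr
      have hs := Equiv.Perm.sum_cycleType σ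
      have hc := card_cycleType_eq σ
      rw [hn] at hs hc
      simp only [Multiset.sum_replicate, Multiset.card_replicate, smul_eq_mul] at hs hc
      rw [← hs, ← hc, hp', mul_comm]
  obtain ⟨q, hq⟩ : ∃ q, p = q + 1 := ⟨p - 1, by have := hp.pos; omega⟩
  subst hq
  simp only [Nat.add_sub_cancel]
  rw [h1]
  have h3 : Fintype.card X = Fintype.card {x // σ x = x} + (q + 1) * σ.cycleFactorsFinset.card := by
    omega
  rw [h3]
  ring

/-- (H3) involutions. -/
theorem two_mul_card_orbits (σ : Equiv.Perm X) (h : σ ^ 2 = 1) :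
    2 * cyc σ = Fintype.card X + Fintype.card (Function.fixedPoints σ) := by
  have := prime_mul_cyc σ 2 Nat.prime_two h
  have e : Fintype.card (Function.fixedPoints σ) = Fintype.card {x // σ x = x} :=
    Fintype.card_congr (Equiv.refl _)
  rw [e]
  simpa using this

/-- (H4) order three. -/
theorem three_mul_card_orbits (σ : Equiv.Perm X) (h : σ ^ 3 = 1) :
    3 * cyc σ = Fintype.card X + 2 * Fintype.card (Function.fixedPoints σ) := by
  have := prime_mul_cyc σ 3 Nat.prime_three h
  have e : Fintype.card (Function.fixedPoints σ) = Fintype.card {x // σ x = x} :=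
    Fintype.card_congr (Equiv.refl _)
  rw [e]
  simpa using this

end cycles

section action

variable {G X : Type*} [Group G] [MulAction G X]

theorem toPerm_zpow_apply (g : G) (k : ℤ) (x : X) :
    ((MulAction.toPerm g : Equiv.Perm X) ^ k) x = g ^ k • x := by
  have h : (MulAction.toPerm g : Equiv.Perm X) ^ k = MulAction.toPerm (g ^ k) :=
    ((MulAction.toPermHom G X).map_zpow g k).symm
  rw [h]
  rfl

/-- (H5) orbits of `zpowers g` for a group action are the orbits of the permutation `toPerm g`. -/
theorem card_orbits_zpowers_eq_cyc (g : G) :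
    Nat.card (MulAction.orbitRel.Quotient (Subgroup.zpowers g) X) =
      cyc (MulAction.toPerm g : Equiv.Perm X) := by
  unfold cyc
  apply Nat.card_congr
  refine Quotient.congr (Equiv.refl X) ?_
  intro x y
  show (MulAction.orbitRel (Subgroup.zpowers g) X) x y ↔
    (MulAction.orbitRel (Subgroup.zpowers (MulAction.toPerm g : Equiv.Perm X)) X) x y
  rw [orbitRel_zpowers_iff, MulAction.orbitRel_apply, MulAction.mem_orbit_iff]
  constructor
  · rintro ⟨⟨h, hh⟩, e⟩
    obtain ⟨k, rfl⟩ := Subgroup.mem_zpowers_iff.mp hh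
    refine ⟨k, ?_⟩
    rw [toPerm_zpow_apply]
    exact e
  · rintro ⟨k, e⟩
    rw [toPerm_zpow_apply] at e
    exact ⟨⟨g ^ k, Subgroup.mem_zpowers_iff.mpr ⟨k, rfl⟩⟩, e⟩

theorem isPretransitive_closure_toPerm [MulAction.IsPretransitive G X] (s t : G)
    (hgen : Subgroup.closure {s, t} = ⊤) :
    MulAction.IsPretransitive
      (Subgroup.closure {(MulAction.toPerm s : Equiv.Perm X), MulAction.toPerm t}) X := by
  constructor
  intro x y
  obtain ⟨g, hg⟩ := MulAction.exists_smul_eq G x y
  have hmem : MulAction.toPermHom G X g ∈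
      Subgroup.closure {(MulAction.toPerm s : Equiv.Perm X), MulAction.toPerm t} := by
    have h1 : g ∈ Subgroup.closure {s, t} := by rw [hgen]; exact Subgroup.mem_top g
    have h2 := Subgroup.mem_map_of_mem (MulAction.toPermHom G X) h1
    rw [MonoidHom.map_closure, Set.image_pair] at h2
    exact h2
  exact ⟨⟨_, hmem⟩, hg⟩

/-- Ree's inequality for a transitive action of a group generated by `s` and `t`. -/
theorem card_orbits_add_le_of_action [Finite X] [MulAction.IsPretransitive G X] (s t : G)
    (hgen : Subgroup.closure {s, t} = ⊤) :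
    Nat.card (MulAction.orbitRel.Quotient (Subgroup.zpowers s) X) +
      Nat.card (MulAction.orbitRel.Quotient (Subgroup.zpowers t) X) +
      Nat.card (MulAction.orbitRel.Quotient (Subgroup.zpowers (s * t)) X) ≤ Nat.card X + 2 := by
  classical
  let _ : Fintype X := Fintype.ofFinite X
  rw [card_orbits_zpowers_eq_cyc, card_orbits_zpowers_eq_cyc, card_orbits_zpowers_eq_cyc,
    Nat.card_eq_fintype_card]
  have h := card_orbits_add_le (MulAction.toPerm s : Equiv.Perm X) (MulAction.toPerm t)
    (isPretransitive_closure_toPerm s t hgen)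
  have e : (MulAction.toPerm (s * t) : Equiv.Perm X) = MulAction.toPerm s * MulAction.toPerm t :=
    (MulAction.toPermHom G X).map_mul s t
  rw [e]
  exact h

/-- Parity for a group action. -/
theorem card_orbits_parity_of_action [Finite X] (s t : G) :
    (Nat.card (MulAction.orbitRel.Quotient (Subgroup.zpowers s) X) +
      Nat.card (MulAction.orbitRel.Quotient (Subgroup.zpowers t) X) +
      Nat.card (MulAction.orbitRel.Quotient (Subgroup.zpowers (s * t)) X)) % 2 =
      Nat.card X % 2 := by
  classical
  let _ : Fintype X := Fintype.ofFinite X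
  rw [card_orbits_zpowers_eq_cyc, card_orbits_zpowers_eq_cyc, card_orbits_zpowers_eq_cyc,
    Nat.card_eq_fintype_card]
  have h := card_orbits_parity (MulAction.toPerm s : Equiv.Perm X) (MulAction.toPerm t)
  have e : (MulAction.toPerm (s * t) : Equiv.Perm X) = MulAction.toPerm s * MulAction.toPerm t :=
    (MulAction.toPermHom G X).map_mul s t
  rw [e]
  exact h

theorem card_fixedBy_eq [Fintype X] [DecidableEq X] (g : G) :
    Nat.card (MulAction.fixedBy X g) =
      Fintype.card (Function.fixedPoints (MulAction.toPerm g : Equiv.Perm X)) := by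
  rw [← Nat.card_eq_fintype_card]
  exact Nat.card_congr (Equiv.refl _)

/-- an element acting as an involution. -/
theorem two_mul_card_orbits_of_action [Finite X] (g : G) (h : ∀ x : X, g • g • x = x) :
    2 * Nat.card (MulAction.orbitRel.Quotient (Subgroup.zpowers g) X) =
      Nat.card X + Nat.card (MulAction.fixedBy X g) := by
  classical
  let _ : Fintype X := Fintype.ofFinite X
  rw [card_orbits_zpowers_eq_cyc, card_fixedBy_eq, Nat.card_eq_fintype_card]
  apply two_mul_card_orbits
  ext x
  simp only [pow_two, Equiv.Perm.mul_apply, MulAction.toPerm_apply, Equiv.Perm.one_apply]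
  exact h x

/-- an element acting with order dividing three. -/
theorem three_mul_card_orbits_of_action [Finite X] (g : G) (h : ∀ x : X, g • g • g • x = x) :
    3 * Nat.card (MulAction.orbitRel.Quotient (Subgroup.zpowers g) X) =
      Nat.card X + 2 * Nat.card (MulAction.fixedBy X g) := by
  classical
  let _ : Fintype X := Fintype.ofFinite X
  rw [card_orbits_zpowers_eq_cyc, card_fixedBy_eq, Nat.card_eq_fintype_card]
  apply three_mul_card_orbits
  ext x
  simp only [pow_succ, pow_zero, one_mul, Equiv.Perm.mul_apply, MulAction.toPerm_apply,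
    Equiv.Perm.one_apply]
  exact h x

end action

section modular

open scoped MatrixGroups
open ModularGroup

theorem neg_one_smul_coset (Γ : Subgroup SL(2, ℤ)) (hneg : -1 ∈ Γ) (x : SL(2, ℤ) ⧸ Γ) :
    (-1 : SL(2, ℤ)) • x = x := by
  induction x using QuotientGroup.induction_on with
  | H g =>
    show ((-1 * g : SL(2, ℤ)) : SL(2, ℤ) ⧸ Γ) = (g : SL(2, ℤ) ⧸ Γ)
    rw [QuotientGroup.eq]
    have : (-1 * g)⁻¹ * g = (-1 : SL(2, ℤ)) := by
      simp
    rw [this]
    exact hneg

theorem S_mul_S : S * S = (-1 : SL(2, ℤ)) := by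
  decide

theorem S_mul_T_cube : (S * T) * (S * T) * (S * T) = (-1 : SL(2, ℤ)) := by
  decide

/-- The genus of a finite-index subgroup of `SL(2, ℤ)` containing `-1`, as a natural number,
computed from the orbit counts of `S`, `T` and `S * T` on the coset space. -/
theorem exists_genus_nat (Γ : Subgroup SL(2, ℤ)) [Γ.FiniteIndex] (hneg : -1 ∈ Γ) :
    ∃ g : ℕ,
      Nat.card (MulAction.orbitRel.Quotient (Subgroup.zpowers S) (SL(2, ℤ) ⧸ Γ)) +
        Nat.card (MulAction.orbitRel.Quotient (Subgroup.zpowers T) (SL(2, ℤ) ⧸ Γ)) +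
        Nat.card (MulAction.orbitRel.Quotient (Subgroup.zpowers (S * T)) (SL(2, ℤ) ⧸ Γ)) +
        2 * g = Γ.index + 2 ∧
      2 * Nat.card (MulAction.orbitRel.Quotient (Subgroup.zpowers S) (SL(2, ℤ) ⧸ Γ)) =
        Γ.index + Nat.card (MulAction.fixedBy (SL(2, ℤ) ⧸ Γ) S) ∧
      3 * Nat.card (MulAction.orbitRel.Quotient (Subgroup.zpowers (S * T)) (SL(2, ℤ) ⧸ Γ)) =
        Γ.index + 2 * Nat.card (MulAction.fixedBy (SL(2, ℤ) ⧸ Γ) (S * T)) ∧
      (12 * g : ℤ) = Γ.index + 12 - 3 * Nat.card (MulAction.fixedBy (SL(2, ℤ) ⧸ Γ) S) -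
        4 * Nat.card (MulAction.fixedBy (SL(2, ℤ) ⧸ Γ) (S * T)) -
        6 * Nat.card (MulAction.orbitRel.Quotient (Subgroup.zpowers T) (SL(2, ℤ) ⧸ Γ)) := by
  set rS := Nat.card (MulAction.orbitRel.Quotient (Subgroup.zpowers S) (SL(2, ℤ) ⧸ Γ)) with hrS
  set rT := Nat.card (MulAction.orbitRel.Quotient (Subgroup.zpowers T) (SL(2, ℤ) ⧸ Γ)) with hrT
  set rST := Nat.card (MulAction.orbitRel.Quotient (Subgroup.zpowers (S * T)) (SL(2, ℤ) ⧸ Γ))
    with hrST
  set fS := Nat.card (MulAction.fixedBy (SL(2, ℤ) ⧸ Γ) S) with hfS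
  set fST := Nat.card (MulAction.fixedBy (SL(2, ℤ) ⧸ Γ) (S * T)) with hfST
  have hidx : Nat.card (SL(2, ℤ) ⧸ Γ) = Γ.index := rfl
  have hle : rS + rT + rST ≤ Γ.index + 2 := by
    rw [← hidx]
    exact card_orbits_add_le_of_action (X := SL(2, ℤ) ⧸ Γ) S T SpecialLinearGroup.SL2Z_generators
  have hpar : (rS + rT + rST) % 2 = Γ.index % 2 := by
    rw [← hidx]
    exact card_orbits_parity_of_action (X := SL(2, ℤ) ⧸ Γ) S T
  have h2 : 2 * rS = Γ.index + fS := by
    rw [← hidx]
    exact two_mul_card_orbits_of_action (X := SL(2, ℤ) ⧸ Γ) S (by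
      intro x
      rw [← mul_smul, S_mul_S]
      exact neg_one_smul_coset Γ hneg x)
  have h3 : 3 * rST = Γ.index + 2 * fST := by
    rw [← hidx]
    exact three_mul_card_orbits_of_action (X := SL(2, ℤ) ⧸ Γ) (S * T) (by
      intro x
      rw [← mul_smul, ← mul_smul, S_mul_T_cube]
      exact neg_one_smul_coset Γ hneg x)
  refine ⟨(Γ.index + 2 - (rS + rT + rST)) / 2, ?_, h2, h3, ?_⟩
  · omega
  · omega

end modular

end Fermat.Agent.Lib.PermGenus
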