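import Fermat.Agent.Lib.PlaceGaloisFibre
import Fermat.Agent.Lib.PlaceChart
import Fermat.Agent.S24.PlaceGaloisFixed

/-!
# Backup of S24 package A5 (b) in the shape of the plan (helper84)

The four statements of section A5 (b) of the S24 plan, derived from the fibre lemma
(`Lib/PlaceEmbed`, `Lib/PlaceGaloisFibre`), helper9's `S24/PlaceGaloisFixed` and helper34's
`Lib/PlaceChart`.  The only extra inputs are the two instances of the degree theorem (plan A1:
`zerosOf_finite`, `sum_ord_zerosOf`) for `y` in `F` and in `M`, taken as explicit hypotheses.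
-/

set_option autoImplicit false
set_option linter.unusedSectionVars false

namespace Fermat.Agent.Lib.PlaceGaloisPlan

open AlgebraicCurve IntermediateField Fermat.Agent.Lib.PlaceEmbed Fermat.Agent.S24

section Residue

variable {K F : Type*} [Field K] [Field F] [Algebra K F]

theorem ord_pos_of_mem_maximalIdeal (v : Place K F) (x : v.toValuationSubring)
    (hx : x ∈ IsLocalRing.maximalIdeal v.toValuationSubring) (hx0 : (x : F) ≠ 0) :
    0 < v.ord (x : F) := by
  have h0 := ord_nonneg_of_mem v x.2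
  rcases h0.lt_or_eq with h | h
  · exact h
  · exfalso
    have hinv : (x : F)⁻¹ ∈ v.toValuationSubring :=
      mem_of_ord_nonneg v (by rw [v.ord_inv, ← h]; simp)
    have hu : IsUnit x :=
      IsUnit.of_mul_eq_one (⟨_, hinv⟩ : v.toValuationSubring) (Subtype.ext (by simp [hx0]))
    exact (IsLocalRing.mem_maximalIdeal x).mp hx hu

/-- residue field `= K`, in the shape used by the fibre lemma. -/
theorem residue_of_isFF1 [IsAlgClosed K] [CharZero K] (h : IsFF1 K F) (v : Place K F) (x : F)
    (hx : 0 ≤ v.ord x) : ∃ a : K, (placeOrd v).Ge (x - algebraMap K F a) 1 := by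
  have hmem : x ∈ v.toValuationSubring := mem_of_ord_nonneg v hx
  obtain ⟨a, ha⟩ := Fermat.Agent.Lib.PlaceChart.exists_sub_mem_maximalIdeal
    (h.exists_gen : Fermat.Agent.Lib.PlaceChart.IsFunctionField1 K F) v ⟨x, hmem⟩
  refine ⟨a, ?_⟩
  by_cases h0 : x - algebraMap K F a = 0
  · exact Or.inl h0
  · refine Or.inr ?_
    have h1 := ord_pos_of_mem_maximalIdeal v _ ha h0
    exact h1

end Residue

section A5b

variable {K F M : Type*} [Field K] [IsAlgClosed K] [CharZero K] [Field F] [Field M]
  [Algebra K F] [Algebra K M] [Algebra F M] [IsScalarTower K F M]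
  (G : Subgroup (M ≃ₐ[K] M)) [Finite G] (y : F) (hy : Transcendental K y)
  (hG : ∀ m : M, (∀ σ ∈ G, σ m = m) ↔ m ∈ K⟮algebraMap F M y⟯)
  (hfinM : (zerosOf K (algebraMap F M y)).Finite)
  (hsumM : ∑ᶠ W ∈ zerosOf K (algebraMap F M y), W.ord (algebraMap F M y)
    = (Module.finrank K⟮algebraMap F M y⟯ M : ℤ))
  (hfinF : (zerosOf K y).Finite)
  (hsumF : ∑ᶠ w ∈ zerosOf K y, w.ord y = (Module.finrank K⟮y⟯ F : ℤ))

include hG in
theorem fixed_y : ∀ σ ∈ G, σ (algebraMap F M y) = algebraMap F M y := fun σ hσ =>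
  (hG (algebraMap F M y)).mpr (mem_adjoin_simple_self K _) σ hσ

include hy hG hfinM hsumM in
/-- `G` is transitive on the places of `M` over `y = 0`. -/
theorem exists_smul_eq (W W' : Place K M) (hW : 0 < W.ord (algebraMap F M y))
    (hW' : 0 < W'.ord (algebraMap F M y)) : ∃ σ : G, σ • W = W' := by
  obtain ⟨-, hM, -⟩ := isFF1_of_fixed G y hy hG
  refine Fermat.Agent.Lib.PlaceGaloisFibre.exists_smul_eq G (residue_of_isFF1 hM)
    (algebraMap F M y) (fixed_y G y hG) hfinM.toFinset (fun W => ?_) ?_ W W' hW hW'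
  · rw [Set.Finite.mem_toFinset]
    rfl
  · rw [← finsum_mem_eq_finite_toFinset_sum _ hfinM, hsumM,
      PlaceGaloisFixed.card_eq_finrank_top G y hG]

include hy hG hfinM hsumM in
/-- decomposition group = ramification index. -/
theorem card_stabilizer (W : Place K M) (hW : 0 < W.ord (algebraMap F M y)) :
    (Nat.card (MulAction.stabilizer G W) : ℤ) = W.ord (algebraMap F M y) := by
  obtain ⟨-, hM, -⟩ := isFF1_of_fixed G y hy hG
  refine Fermat.Agent.Lib.PlaceGaloisFibre.card_stabilizer G (residue_of_isFF1 hM)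
    (algebraMap F M y) (fixed_y G y hG) hfinM.toFinset (fun W => ?_) ?_ W hW
  · rw [Set.Finite.mem_toFinset]
    rfl
  · rw [← finsum_mem_eq_finite_toFinset_sum _ hfinM, hsumM,
      PlaceGaloisFixed.card_eq_finrank_top G y hG]

include hy hG hfinM hsumM hfinF hsumF in
/-- the places of `F` over `y = 0` are the orbits of the decomposition group on `G ⧸ H`. -/
theorem card_zerosOf_eq_card_orbits (W : Place K M) (hW : 0 < W.ord (algebraMap F M y)) :
    Nat.card (zerosOf K y) =
      Nat.card (MulAction.orbitRel.Quotient (MulAction.stabilizer G W) (G ⧸ fixerOf F G)) := by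
  obtain ⟨hF, hM, -⟩ := isFF1_of_fixed G y hy hG
  have h1 := Fermat.Agent.Lib.PlaceGaloisFibre.card_zeros_eq_card_orbits G
    (residue_of_isFF1 hM) (residue_of_isFF1 hF) y (fixed_y G y hG) hfinM.toFinset
    (fun W => by rw [Set.Finite.mem_toFinset]; rfl)
    (by rw [← finsum_mem_eq_finite_toFinset_sum _ hfinM, hsumM,
      PlaceGaloisFixed.card_eq_finrank_top G y hG])
    hfinF.toFinset (fun w => by rw [Set.Finite.mem_toFinset]; rfl)
    (by rw [← finsum_mem_eq_finite_toFinset_sum _ hfinF, hsumF,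
      finrank_eq_card_quotient G y hy hG])
    W hW
  rw [← h1, Nat.card_eq_card_finite_toFinset hfinF]

include hy hG hfinF hsumF in
/-- unramified criterion. -/
theorem ord_eq_one_of_exists (W : Place K M) (hW : W.ord (algebraMap F M y) = 1)
    (w : Place K F) (hw : 0 < w.ord y) : w.ord y = 1 := by
  obtain ⟨hF, -, -⟩ := isFF1_of_fixed G y hy hG
  exact Fermat.Agent.Lib.PlaceGaloisFibre.ord_eq_one_of_exists G (residue_of_isFF1 hF) y
    (fixed_y G y hG) hfinF.toFinset (fun w => by rw [Set.Finite.mem_toFinset]; rfl)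
    (by rw [← finsum_mem_eq_finite_toFinset_sum _ hfinF, hsumF,
      finrank_eq_card_quotient G y hy hG])
    W hW w hw

end A5b

end Fermat.Agent.Lib.PlaceGaloisPlan
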