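import Mathlib

set_option autoImplicit false

/-!
# Local facts about the `j`-function (level one)

Everything is phrased with Mathlib's `E₄`, `E₆` and `ModularForm.discriminant`:

* `E₆_I`, `E₄_rho`: the elliptic points;
* `exists_E₄_cube_eq`: surjectivity of `j = E₄³/Δ`;
* derivative identities and orders of vanishing (second half of the file).
-/

namespace Fermat.Agent.Lib.JLocal

open UpperHalfPlane ModularGroup SlashInvariantForm ModularForm Complex
  CongruenceSubgroup Real Function SlashInvariantFormClass ModularFormClass MatrixGroups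
  EisensteinSeries Filter Topology
open scoped Manifold

local notation "Δ" => ModularForm.discriminant

/-! ## The elliptic points -/

theorem S_smul_I : S • UpperHalfPlane.I = UpperHalfPlane.I := by
  rw [modular_S_smul]
  ext
  simp [UpperHalfPlane.I]

/-- `E₆` vanishes at `i`. -/
theorem E₆_I : E₆ UpperHalfPlane.I = 0 := by
  have inst : SlashInvariantFormClass (ModularForm 𝒮ℒ 6) Γ(1) 6 :=
    Gamma_one_coe_eq_SL ▸ (inferInstance : SlashInvariantFormClass (ModularForm 𝒮ℒ 6) 𝒮ℒ 6)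
  have h := slash_action_eqn_SL'' E₆ (mem_Gamma_one S) UpperHalfPlane.I
  rw [S_smul_I, denom_S] at h
  have h6 : ((UpperHalfPlane.I : ℍ) : ℂ) ^ (6 : ℤ) = -1 := by
    have : ((UpperHalfPlane.I : ℍ) : ℂ) = Complex.I := rfl
    rw [this]
    norm_cast
    rw [show (6 : ℕ) = 2 * 3 by norm_num, pow_mul, Complex.I_sq]
    norm_num
  rw [h6] at h
  linear_combination h / 2

/-- The point `ρ = -1/2 + (√3/2) i`. -/
noncomputable def rho : ℍ := ⟨⟨-1 / 2, Real.sqrt 3 / 2⟩, by
  show 0 < Real.sqrt 3 / 2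
  positivity⟩

theorem rho_coe : (rho : ℂ) = ⟨-1 / 2, Real.sqrt 3 / 2⟩ := rfl

theorem rho_sq_add : (rho : ℂ) ^ 2 + (rho : ℂ) + 1 = 0 := by
  have h3 : Real.sqrt 3 * Real.sqrt 3 = 3 := Real.mul_self_sqrt (by norm_num)
  rw [rho_coe]
  apply Complex.ext
  · simp [pow_two]
    nlinarith [h3]
  · simp [pow_two]
    ring

theorem ST_smul_rho : S • (T • rho) = rho := by
  rw [modular_S_smul]
  ext
  rw [UpperHalfPlane.coe_mk, modular_T_smul, UpperHalfPlane.coe_vadd]
  have h := rho_sq_add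
  rw [inv_eq_of_mul_eq_one_left]
  push_cast
  linear_combination -h

/-- `E₄` vanishes at `ρ`. -/
theorem E₄_rho : E₄ rho = 0 := by
  have hT : E₄ ((1 : ℝ) +ᵥ rho) = E₄ rho :=
    SlashInvariantForm.vAdd_apply_of_mem_strictPeriods E₄ rho one_mem_strictPeriods_SL
  have inst : SlashInvariantFormClass (ModularForm 𝒮ℒ 4) Γ(1) 4 :=
    Gamma_one_coe_eq_SL ▸ (inferInstance : SlashInvariantFormClass (ModularForm 𝒮ℒ 4) 𝒮ℒ 4)
  have hS := slash_action_eqn_SL'' E₄ (mem_Gamma_one S) (T • rho)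
  rw [ST_smul_rho, denom_S] at hS
  rw [modular_T_smul, hT, UpperHalfPlane.coe_vadd] at hS
  have h := rho_sq_add
  have h4 : (((1 : ℝ) : ℂ) + (rho : ℂ)) ^ (4 : ℤ) = -1 - (rho : ℂ) := by
    norm_cast
    push_cast
    linear_combination ((rho : ℂ) ^ 2 + 3 * (rho : ℂ) + 2) * h
  rw [h4] at hS
  have hne : (2 : ℂ) + (rho : ℂ) ≠ 0 := by
    intro h0
    have := congrArg Complex.re h0
    rw [rho_coe] at this
    norm_num at this
  have : (2 + (rho : ℂ)) * E₄ rho = 0 := by linear_combination hS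
  exact (mul_eq_zero.mp this).resolve_left hne

/-! ## Limits at `i∞` -/

/-- A level one modular form tends to the constant term of its `q`-expansion at `i∞`. -/
theorem tendsto_atImInfty {k : ℤ} (f : ModularForm 𝒮ℒ k) :
    Tendsto f atImInfty (𝓝 ((qExpansion 1 f).coeff 0)) := by
  have han := ModularFormClass.analyticAt_cuspFunction_zero f one_pos one_mem_strictPeriods_SL
  have h1 : (cuspFunction 1 f ∘ fun τ : ℍ ↦ Periodic.qParam 1 τ) = f := by
    funext τ
    exact SlashInvariantFormClass.eq_cuspFunction f τ one_mem_strictPeriods_SL one_ne_zero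
  have h2 := han.continuousAt.tendsto.comp (qParam_tendsto_atImInfty one_pos)
  rw [h1] at h2
  have h3 : (qExpansion 1 f).coeff 0 = cuspFunction 1 f 0 := by
    simp [qExpansion_coeff]
  rw [h3]
  exact h2

theorem tendsto_E₄ : Tendsto E₄ atImInfty (𝓝 1) := by
  have h := tendsto_atImInfty E₄
  rwa [E_qExpansion_coeff_zero _ ⟨2, rfl⟩] at h

theorem tendsto_E₆ : Tendsto E₆ atImInfty (𝓝 1) := by
  have h := tendsto_atImInfty E₆
  rwa [E_qExpansion_coeff_zero _ ⟨3, rfl⟩] at h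

theorem tendsto_discriminant : Tendsto Δ atImInfty (𝓝 0) := discriminant_isZeroAtImInfty

/-! ## Surjectivity of `j` -/

theorem E₄_slash (γ : SL(2, ℤ)) : (E₄ : ℍ → ℂ) ∣[(4 : ℤ)] γ = E₄ :=
  E₄.slash_action_eq' _ ⟨γ, rfl⟩

theorem E₆_slash (γ : SL(2, ℤ)) : (E₆ : ℍ → ℂ) ∣[(6 : ℤ)] γ = E₆ :=
  E₆.slash_action_eq' _ ⟨γ, rfl⟩

theorem discriminant_slash (γ : SL(2, ℤ)) : Δ ∣[(12 : ℤ)] γ = Δ :=
  CuspForm.discriminant.slash_action_eq' _ ⟨γ, rfl⟩

/-- The weight 12 function `E₄³ - c Δ`. -/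
noncomputable def pencil (c : ℂ) : ℍ → ℂ := fun z => E₄ z ^ 3 - c * Δ z

theorem pencil_slash (c : ℂ) (γ : SL(2, ℤ)) : pencil c ∣[(12 : ℤ)] γ = pencil c := by
  have h1 : pencil c = (E₄ : ℍ → ℂ) * ((E₄ : ℍ → ℂ) * (E₄ : ℍ → ℂ)) + (-c) • Δ := by
    funext z
    simp [pencil, pow_succ, mul_assoc, sub_eq_add_neg]
  have h2 : ((E₄ : ℍ → ℂ) * ((E₄ : ℍ → ℂ) * (E₄ : ℍ → ℂ))) ∣[(12 : ℤ)] γ
      = (E₄ : ℍ → ℂ) * ((E₄ : ℍ → ℂ) * (E₄ : ℍ → ℂ)) := by
    have h8 : ((E₄ : ℍ → ℂ) * (E₄ : ℍ → ℂ)) ∣[(8 : ℤ)] γ = (E₄ : ℍ → ℂ) * (E₄ : ℍ → ℂ) := by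
      have := ModularForm.mul_slash_SL2 4 4 γ (E₄ : ℍ → ℂ) (E₄ : ℍ → ℂ)
      rw [E₄_slash] at this
      exact this
    have := ModularForm.mul_slash_SL2 4 8 γ (E₄ : ℍ → ℂ) ((E₄ : ℍ → ℂ) * (E₄ : ℍ → ℂ))
    rw [E₄_slash, h8] at this
    exact this
  rw [h1, SlashAction.add_slash, h2, ModularForm.SL_smul_slash, discriminant_slash]

theorem pencil_mdiff (c : ℂ) : MDiff (pencil c) := by
  have h1 : MDiff (E₄ : ℍ → ℂ) := ModularFormClass.holo E₄
  have h2 : MDiff Δ := ModularFormClass.holo CuspForm.discriminant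
  exact (h1.pow 3).sub (mdifferentiable_const.mul h2)

theorem tendsto_pencil (c : ℂ) : Tendsto (pencil c) atImInfty (𝓝 1) := by
  have h := (tendsto_E₄.pow 3).sub (tendsto_discriminant.const_mul c)
  show Tendsto (fun z => E₄ z ^ 3 - c * Δ z) atImInfty (𝓝 1)
  simpa using h

/-- **Surjectivity of `j`**: every complex number is a value of `E₄³/Δ`. -/
theorem exists_E₄_cube_eq (c : ℂ) : ∃ τ : ℍ, E₄ τ ^ 3 = c * Δ τ := by
  by_contra hne
  push Not at hne
  have hne' : ∀ τ : ℍ, pencil c τ ≠ 0 := fun τ h => hne τ (sub_eq_zero.mp h)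
  have hslash : ∀ γ : SL(2, ℤ), (fun z => (pencil c z)⁻¹) ∣[(-12 : ℤ)] γ
      = fun z => (pencil c z)⁻¹ := by
    intro γ
    have h1 : (fun z => (pencil c z)⁻¹) = (1 : ℍ → ℂ) / pencil c := by
      funext z; simp
    have h0 : (1 : ℍ → ℂ) ∣[(0 : ℤ)] γ = 1 := by
      ext z
      simp [ModularForm.SL_slash_apply]
    have := ModularForm.div_slash_SL2 0 12 γ (1 : ℍ → ℂ) (pencil c)
    rw [h0, pencil_slash] at this
    rw [h1]
    exact this
  let G : ModularForm 𝒮ℒ (-12) :=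
    { toFun := fun z => (pencil c z)⁻¹
      slash_action_eq' := fun _ ⟨γ, hγ⟩ ↦ hγ ▸ hslash γ
      holo' := by
        have h1 : MDiff (fun _ : ℍ => (1 : ℂ)) := mdifferentiable_const
        have h2 : MDiff ((fun _ : ℍ => (1 : ℂ)) / pencil c) := h1.div (pencil_mdiff c) hne'
        have h3 : (fun z => (pencil c z)⁻¹) = (fun _ : ℍ => (1 : ℂ)) / pencil c := by
          funext z; simp
        show MDiff (fun z => (pencil c z)⁻¹)
        rw [h3]
        exact h2
      bdd_at_cusps' := fun {cc} hc => by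
        rw [Subgroup.IsArithmetic.isCusp_iff_isCusp_SL2Z] at hc
        rw [OnePoint.isBoundedAt_iff_forall_SL2Z hc]
        intro γ _
        rw [hslash γ]
        have ht : Tendsto (fun z => (pencil c z)⁻¹) atImInfty (𝓝 (1 : ℂ)⁻¹) :=
          (tendsto_pencil c).inv₀ one_ne_zero
        exact ht.isBigO_one ℝ }
  have hG := ModularFormClass.levelOne_neg_weight_eq_zero (by norm_num : (-12 : ℤ) < 0) G
  have hG1 : G UpperHalfPlane.I = 0 := by rw [hG]; rfl
  exact hne' UpperHalfPlane.I (inv_eq_zero.mp hG1)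

end Fermat.Agent.Lib.JLocal

/-!
## The derivative of `j` and its local orders

`bracket_eq` (`3 D(E₄) E₆ - 2 E₄ D(E₆) = 1728 Δ`), `hasDerivAt_j` (`j' = -2πi E₄² E₆ / Δ`),
and the orders of `j - j(τ)` at `τ`: `order_j_generic` (`= 1`), `order_j_of_E₄_eq_zero` (`= 3`),
`order_j_of_E₆_eq_zero` (`= 2`).  Here `j` is written out as `E₄ ^ 3 / Δ`.
-/

namespace Fermat.Agent.Lib.JLocal

open UpperHalfPlane ModularForm MatrixGroups EisensteinSeries Complex CongruenceSubgroup Filter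
open Function
open scoped Manifold Real Topology
open Derivative

local notation "𝕢" => Periodic.qParam

/-- Level-one modularity in the pointwise form `f (γ • z) = denom γ z ^ k * f z`. -/
theorem levelOne_smul {k : ℤ} (f : ModularForm 𝒮ℒ k) (γ : SL(2, ℤ)) (z : ℍ) :
    f (γ • z) = denom γ z ^ k * f z := by
  have : SlashInvariantFormClass (ModularForm 𝒮ℒ k) Γ(1) k := Gamma_one_coe_eq_SL ▸ inferInstance
  exact SlashInvariantForm.slash_action_eqn_SL'' f (mem_Gamma_one γ) z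

theorem levelOne_slash {k : ℤ} (f : ModularForm 𝒮ℒ k) (γ : SL(2, ℤ)) :
    (f : ℍ → ℂ) ∣[k] γ = f := by
  rw [SL_slash]
  exact SlashInvariantFormClass.slash_action_eq f _ ⟨γ, rfl⟩


/-- Cauchy estimate: the normalised derivative of a holomorphic function bounded at `i∞`
tends to zero at `i∞`. -/
theorem isZeroAtImInfty_D {F : ℍ → ℂ} (hF : MDiff F) (hb : IsBoundedAtImInfty F) :
    IsZeroAtImInfty (D F) := by
  rw [UpperHalfPlane.isBoundedAtImInfty_iff] at hb
  obtain ⟨M, A, hMA⟩ := hb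
  rw [UpperHalfPlane.isZeroAtImInfty_iff]
  intro ε hε
  have hM0 : 0 ≤ |M| := abs_nonneg M
  set R : ℝ := |M| / ε + 1 with hR
  have hRpos : 0 < R := by positivity
  refine ⟨max A 0 + R + 1, fun z hz => ?_⟩
  have hdiff : DifferentiableOn ℂ (F ∘ ofComplex) upperHalfPlaneSet :=
    UpperHalfPlane.mdifferentiable_iff.mp hF
  have hsub : Metric.closedBall (z : ℂ) R ⊆ upperHalfPlaneSet := by
    intro w hw
    have h1 : |w.im - (z : ℂ).im| ≤ R := by
      have := Complex.abs_im_le_norm (w - z)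
      rw [Complex.sub_im] at this
      exact this.trans (by simpa [dist_eq_norm] using hw)
    have h2 : (z : ℂ).im = z.im := rfl
    have h3 := abs_le.mp h1
    have h4 : max A 0 ≥ 0 := le_max_right _ _
    show 0 < w.im
    linarith [h3.1]
  have hbound : ∀ w ∈ Metric.sphere (z : ℂ) R, ‖(F ∘ ofComplex) w‖ ≤ |M| := by
    intro w hw
    have hw' : w ∈ Metric.closedBall (z : ℂ) R := Metric.sphere_subset_closedBall hw
    have hwpos : 0 < w.im := hsub hw'
    have h1 : |w.im - (z : ℂ).im| ≤ R := by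
      have := Complex.abs_im_le_norm (w - z)
      rw [Complex.sub_im] at this
      exact this.trans (by simpa [dist_eq_norm] using hw')
    have h2 : (z : ℂ).im = z.im := rfl
    have h3 := abs_le.mp h1
    have h4 : max A 0 ≥ A := le_max_left _ _
    have hA : A ≤ (⟨w, hwpos⟩ : ℍ).im := by
      show A ≤ w.im
      linarith [h3.1]
    have := hMA ⟨w, hwpos⟩ hA
    simp only [Function.comp_apply, ofComplex_apply_of_im_pos hwpos]
    exact this.trans (le_abs_self M)
  have hdc : DiffContOnCl ℂ (F ∘ ofComplex) (Metric.ball (z : ℂ) R) := by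
    apply DifferentiableOn.diffContOnCl
    rw [closure_ball _ hRpos.ne']
    exact hdiff.mono hsub
  have hC := Complex.norm_deriv_le_of_forall_mem_sphere_norm_le hRpos hdc hbound
  have h2pi : ‖((2 * π * Complex.I : ℂ))⁻¹‖ ≤ 1 := by
    rw [norm_inv, norm_mul, norm_mul, Complex.norm_I, mul_one]
    simp only [Complex.norm_ofNat, Complex.norm_real, Real.norm_eq_abs, abs_of_pos Real.pi_pos]
    have : (1 : ℝ) ≤ 2 * π := by nlinarith [Real.pi_gt_three]
    exact inv_le_one_of_one_le₀ this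
  show ‖(2 * π * Complex.I : ℂ)⁻¹ * deriv (F ∘ ofComplex) z‖ ≤ ε
  rw [norm_mul]
  calc ‖((2 * π * Complex.I : ℂ))⁻¹‖ * ‖deriv (F ∘ ofComplex) z‖
      ≤ 1 * (|M| / R) := by gcongr
    _ = |M| / R := one_mul _
    _ ≤ ε := by
      rw [div_le_iff₀ hRpos, hR]
      have : ε * (|M| / ε + 1) = |M| + ε := by field_simp
      rw [this]; linarith

/-- Transformation of the normalised derivative of a level-one form (quasi-modularity). -/
theorem D_smul {k : ℤ} (f : ModularForm 𝒮ℒ k) (γ : SL(2, ℤ)) (z : ℍ) :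
    D f (γ • z) = denom γ z ^ (k + 2) *
      (D f z + (k : ℂ) * (2 * π * Complex.I)⁻¹ * ((γ 1 0 : ℂ) / denom γ z) * f z) := by
  have h := congrFun (normalizedDerivOfComplex_SL_slash (k := k) (F := f) (ModularFormClass.holo f)
    (γ := γ)) z
  rw [levelOne_slash f γ] at h
  simp only [Pi.sub_apply, SL_slash_apply] at h
  have hd : denom γ z ≠ 0 := denom_ne_zero γ z
  have hd' : denom γ z ^ (k + 2) ≠ 0 := zpow_ne_zero _ hd
  rw [zpow_neg] at h
  field_simp at h ⊢
  linear_combination (-1 : ℂ) * h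

/-- The first Rankin–Cohen bracket of `E₄` and `E₆` (a weight 12 cusp form). -/
noncomputable def bracket (z : ℍ) : ℂ := 3 * D E₄ z * E₆ z - 2 * E₄ z * D E₆ z

theorem bracket_smul (γ : SL(2, ℤ)) (z : ℍ) :
    bracket (γ • z) = denom γ z ^ (12 : ℕ) * bracket z := by
  have hd : denom γ z ≠ 0 := denom_ne_zero γ z
  have h4 := levelOne_smul E₄ γ z
  have h6 := levelOne_smul E₆ γ z
  have hD4 := D_smul E₄ γ z
  have hD6 := D_smul E₆ γ z
  have e4 : denom γ z ^ (4 : ℤ) = denom γ z ^ (4 : ℕ) := by norm_cast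
  have e6 : denom γ z ^ (6 : ℤ) = denom γ z ^ (6 : ℕ) := by norm_cast
  have e42 : denom γ z ^ ((4 : ℤ) + 2) = denom γ z ^ (6 : ℕ) := by norm_cast
  have e62 : denom γ z ^ ((6 : ℤ) + 2) = denom γ z ^ (8 : ℕ) := by norm_cast
  rw [e4] at h4
  rw [e6] at h6
  rw [e42] at hD4
  rw [e62] at hD6
  unfold bracket
  rw [h4, h6, hD4, hD6]
  push_cast
  field_simp
  ring

theorem bracket_slash (γ : SL(2, ℤ)) : bracket ∣[(12 : ℤ)] γ = bracket := by
  funext z
  rw [SL_slash_apply, bracket_smul]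
  have hd : denom γ z ≠ 0 := denom_ne_zero γ z
  rw [zpow_neg, show ((12 : ℤ)) = ((12 : ℕ) : ℤ) by norm_num, zpow_natCast]
  field_simp

theorem mdiff_bracket : MDiff bracket := by
  have h4 : MDiff (E₄ : ℍ → ℂ) := ModularFormClass.holo E₄
  have h6 : MDiff (E₆ : ℍ → ℂ) := ModularFormClass.holo E₆
  have hD4 := normalizedDerivOfComplex_mdifferentiable h4
  have hD6 := normalizedDerivOfComplex_mdifferentiable h6
  have : bracket = (fun _ => (3 : ℂ)) * (D (E₄ : ℍ → ℂ)) * (E₆ : ℍ → ℂ)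
      - (fun _ => (2 : ℂ)) * (E₄ : ℍ → ℂ) * D (E₆ : ℍ → ℂ) := by
    funext z; simp [bracket]
  rw [this]
  exact ((mdifferentiable_const.mul hD4).mul h6).sub ((mdifferentiable_const.mul h4).mul hD6)

theorem isZeroAtImInfty_bracket : IsZeroAtImInfty bracket := by
  have h4 : MDiff (E₄ : ℍ → ℂ) := ModularFormClass.holo E₄
  have h6 : MDiff (E₆ : ℍ → ℂ) := ModularFormClass.holo E₆
  have b4 : IsBoundedAtImInfty (E₄ : ℍ → ℂ) := ModularFormClass.bdd_at_infty E₄
  have b6 : IsBoundedAtImInfty (E₆ : ℍ → ℂ) := ModularFormClass.bdd_at_infty E₆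
  have z4 := isZeroAtImInfty_D h4 b4
  have z6 := isZeroAtImInfty_D h6 b6
  have t1 : IsZeroAtImInfty (D (E₄ : ℍ → ℂ) * (E₆ : ℍ → ℂ)) := z4.mul_boundedAtFilter b6
  have t2 : IsZeroAtImInfty ((E₄ : ℍ → ℂ) * D (E₆ : ℍ → ℂ)) := b4.mul_zeroAtFilter z6
  have : bracket = (3 : ℂ) • (D (E₄ : ℍ → ℂ) * (E₆ : ℍ → ℂ))
      + (-2 : ℂ) • ((E₄ : ℍ → ℂ) * D (E₆ : ℍ → ℂ)) := by
    funext z; simp [bracket]; ring
  rw [this]
  exact (t1.smul 3).add (t2.smul (-2))

/-- The bracket as a cusp form of weight 12 and level one. -/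
noncomputable def bracketForm : CuspForm 𝒮ℒ 12 where
  toFun := bracket
  slash_action_eq' := fun _ ⟨γ, hγ⟩ ↦ hγ ▸ (by
    have := bracket_slash γ
    rwa [SL_slash] at this)
  holo' := mdiff_bracket
  zero_at_cusps' {c} hc := by
    rw [OnePoint.isZeroAt_iff_forall_SL2Z hc]
    intro γ _
    rw [bracket_slash γ]
    exact isZeroAtImInfty_bracket

theorem exists_bracket_eq : ∃ c : ℂ, ∀ z : ℍ, bracket z = c * discriminant z := by
  obtain ⟨c, hc⟩ := CuspForm.exists_smul_discriminant_of_weight_eq_twelve bracketForm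
  refine ⟨c, fun z => ?_⟩
  have := congrArg (fun f : CuspForm 𝒮ℒ 12 => f z) hc
  simp at this
  exact this.symm

/-- The normalised derivative of a level one form, in terms of its cusp function:
`D f = q · F'(q)`. -/
theorem D_eq_qParam_mul {k : ℤ} (f : ModularForm 𝒮ℒ k) (z : ℍ) :
    D f z = 𝕢 1 z * deriv (cuspFunction 1 f) (𝕢 1 z) := by
  have hq : ‖𝕢 1 (z : ℂ)‖ < 1 := Periodic.norm_qParam_lt_one one_pos z.im_pos
  have hF : DifferentiableAt ℂ (cuspFunction 1 f) (𝕢 1 z) :=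
    ModularFormClass.differentiableAt_cuspFunction f one_pos one_mem_strictPeriods_SL hq
  have hqd : HasDerivAt (𝕢 1) (2 * π * Complex.I * 𝕢 1 (z : ℂ)) (z : ℂ) := by
    have h1 : HasDerivAt (fun w : ℂ => 2 * π * Complex.I * w / ((1 : ℝ) : ℂ)) (2 * π * Complex.I)
        (z : ℂ) := by
      simpa using ((hasDerivAt_id (z : ℂ)).const_mul (2 * π * Complex.I)).div_const ((1 : ℝ) : ℂ)
    have h2 := h1.cexp
    have h4 : HasDerivAt (fun w : ℂ => cexp (2 * π * Complex.I * w / ((1 : ℝ) : ℂ)))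
        (2 * π * Complex.I * cexp (2 * π * Complex.I * (z : ℂ) / ((1 : ℝ) : ℂ))) (z : ℂ) := by
      exact h2.congr_deriv (mul_comm _ _)
    exact h4
  have hcomp : HasDerivAt (cuspFunction 1 f ∘ 𝕢 1)
      (deriv (cuspFunction 1 f) (𝕢 1 z) * (2 * π * Complex.I * 𝕢 1 (z : ℂ))) (z : ℂ) :=
    hF.hasDerivAt.comp (z : ℂ) hqd
  have heq : (f ∘ ofComplex) =ᶠ[𝓝 (z : ℂ)] (cuspFunction 1 f ∘ 𝕢 1) := by
    filter_upwards [isOpen_upperHalfPlaneSet.mem_nhds z.im_pos] with w hw
    have := SlashInvariantFormClass.eq_cuspFunction (h := 1) f ⟨w, hw⟩ one_mem_strictPeriods_SL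
      one_ne_zero
    simp only [Function.comp_apply, ofComplex_apply_of_im_pos hw]
    exact this.symm
  have hd : deriv (f ∘ ofComplex) z = deriv (cuspFunction 1 f) (𝕢 1 z) * (2 * π * Complex.I * 𝕢 1 (z : ℂ)) :=
    (hcomp.congr_of_eventuallyEq heq).deriv
  show (2 * π * Complex.I)⁻¹ * deriv (f ∘ ofComplex) z = _
  rw [hd]
  have hpi : (2 * π * Complex.I : ℂ) ≠ 0 := by
    simp [Real.pi_ne_zero]
  field_simp

theorem tendsto_levelOne {k : ℤ} (f : ModularForm 𝒮ℒ k) :
    Tendsto (fun z : ℍ => f z) atImInfty (𝓝 ((qExpansion 1 f).coeff 0)) := by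
  have hA : AnalyticAt ℂ (cuspFunction 1 f) 0 :=
    ModularFormClass.analyticAt_cuspFunction_zero f one_pos one_mem_strictPeriods_SL
  have h0 : (qExpansion 1 f).coeff 0 = cuspFunction 1 f 0 := by
    simp [qExpansion_coeff]
  rw [h0]
  have := hA.continuousAt.tendsto.comp (qParam_tendsto_atImInfty one_pos)
  refine this.congr fun z => ?_
  exact SlashInvariantFormClass.eq_cuspFunction (h := 1) f z one_mem_strictPeriods_SL one_ne_zero

theorem tendsto_D_div {k : ℤ} (f : ModularForm 𝒮ℒ k) :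
    Tendsto (fun z : ℍ => D f z / 𝕢 1 z) atImInfty (𝓝 ((qExpansion 1 f).coeff 1)) := by
  have hA : AnalyticAt ℂ (cuspFunction 1 f) 0 :=
    ModularFormClass.analyticAt_cuspFunction_zero f one_pos one_mem_strictPeriods_SL
  have h1 : (qExpansion 1 f).coeff 1 = deriv (cuspFunction 1 f) 0 := by
    simp [qExpansion_coeff]
  rw [h1]
  have := hA.deriv.continuousAt.tendsto.comp (qParam_tendsto_atImInfty one_pos)
  refine this.congr fun z => ?_
  rw [D_eq_qParam_mul]
  have : 𝕢 1 (z : ℂ) ≠ 0 := Periodic.qParam_ne_zero _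
  simp only [Function.comp_apply]
  field_simp

theorem tendsto_discriminant_div :
    Tendsto (fun z : ℍ => discriminant z / 𝕢 1 z) atImInfty (𝓝 1) := by
  refine tendsto_atImInfty_tprod_one_sub_eta_q_pow.congr fun z => ?_
  rw [discriminant_eq_q_prod]
  have : 𝕢 1 (z : ℂ) ≠ 0 := Periodic.qParam_ne_zero _
  field_simp

/-- `3 D(E₄) E₆ - 2 E₄ D(E₆) = 1728 Δ`. -/
theorem bracket_eq (z : ℍ) : bracket z = 1728 * discriminant z := by
  obtain ⟨c, hc⟩ := exists_bracket_eq
  have h40 : (qExpansion 1 E₄).coeff 0 = 1 := E_qExpansion_coeff_zero _ ⟨2, rfl⟩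
  have h60 : (qExpansion 1 E₆).coeff 0 = 1 := E_qExpansion_coeff_zero _ ⟨3, rfl⟩
  have l4 := tendsto_levelOne E₄
  have l6 := tendsto_levelOne E₆
  have d4 := tendsto_D_div E₄
  have d6 := tendsto_D_div E₆
  rw [h40] at l4
  rw [h60] at l6
  rw [E₄_qExpansion_coeff_one] at d4
  rw [E₆_qExpansion_coeff_one] at d6
  have lim1 : Tendsto (fun z : ℍ => bracket z / 𝕢 1 z) atImInfty (𝓝 (c * 1)) := by
    have := tendsto_discriminant_div.const_mul c
    refine this.congr fun z => ?_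
    rw [hc z]; ring
  have lim2 : Tendsto (fun z : ℍ => bracket z / 𝕢 1 z) atImInfty
      (𝓝 (3 * 240 * 1 - 2 * 1 * (-504))) := by
    have := ((d4.const_mul 3).mul l6).sub ((l4.const_mul 2).mul d6)
    refine this.congr fun z => ?_
    have hq : 𝕢 1 (z : ℂ) ≠ 0 := Periodic.qParam_ne_zero _
    simp only [bracket]
    field_simp
  have hc' : c = 1728 := by
    have := tendsto_nhds_unique lim1 lim2
    rw [mul_one] at this
    rw [this]; norm_num
  rw [hc z, hc']

/-! ### Consequences of the bracket identity -/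

theorem discriminant_eq (z : ℍ) : 1728 * discriminant z = E₄ z ^ 3 - E₆ z ^ 2 := by
  rw [discriminant_eq_E₄_cube_sub_E₆_sq]; ring

theorem E₆_ne_zero_of_E₄_eq_zero (τ : ℍ) (h : E₄ τ = 0) : E₆ τ ≠ 0 := by
  intro h6
  have := discriminant_eq τ
  rw [h, h6] at this
  have h0 : discriminant τ = 0 := by
    have : (1728 : ℂ) * discriminant τ = 0 := by rw [this]; ring
    simpa using this
  exact discriminant_ne_zero τ h0

theorem E₄_ne_zero_of_E₆_eq_zero (τ : ℍ) (h : E₆ τ = 0) : E₄ τ ≠ 0 :=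
  fun h4 => E₆_ne_zero_of_E₄_eq_zero τ h4 h

theorem D_E₄_ne_zero (τ : ℍ) (h : E₄ τ = 0) : D E₄ τ ≠ 0 := by
  intro hD
  have := bracket_eq τ
  simp only [bracket, h, hD] at this
  have h0 : discriminant τ = 0 := by
    have : (1728 : ℂ) * discriminant τ = 0 := by rw [← this]; ring
    simpa using this
  exact discriminant_ne_zero τ h0

theorem D_E₆_ne_zero (τ : ℍ) (h : E₆ τ = 0) : D E₆ τ ≠ 0 := by
  intro hD
  have := bracket_eq τ
  simp only [bracket, h, hD] at this
  have h0 : discriminant τ = 0 := by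
    have : (1728 : ℂ) * discriminant τ = 0 := by rw [← this]; ring
    simpa using this
  exact discriminant_ne_zero τ h0

/-- `deriv (f ∘ ofComplex) τ = 2πi · D f τ`. -/
theorem deriv_comp_ofComplex (F : ℍ → ℂ) (τ : ℍ) :
    deriv (F ∘ ofComplex) (τ : ℂ) = 2 * π * Complex.I * D F τ := by
  have hpi : (2 * π * Complex.I : ℂ) ≠ 0 := by simp [Real.pi_ne_zero]
  show _ = 2 * π * Complex.I * ((2 * π * Complex.I)⁻¹ * deriv (F ∘ ofComplex) τ)
  field_simp

theorem hasDerivAt_comp_ofComplex {k : ℤ} (f : ModularForm 𝒮ℒ k) (τ : ℍ) :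
    HasDerivAt ((f : ℍ → ℂ) ∘ ofComplex) (2 * π * Complex.I * D f τ) (τ : ℂ) := by
  rw [← deriv_comp_ofComplex]
  exact (UpperHalfPlane.mdifferentiableAt_iff.mp (ModularFormClass.holo f τ)).hasDerivAt

theorem analyticAt_comp_ofComplex {k : ℤ} (f : ModularForm 𝒮ℒ k) (τ : ℍ) :
    AnalyticAt ℂ ((f : ℍ → ℂ) ∘ ofComplex) (τ : ℂ) := by
  have hdiff : DifferentiableOn ℂ ((f : ℍ → ℂ) ∘ ofComplex) upperHalfPlaneSet :=
    UpperHalfPlane.mdifferentiable_iff.mp (ModularFormClass.holo f)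
  exact hdiff.analyticAt (isOpen_upperHalfPlaneSet.mem_nhds τ.im_pos)

theorem discriminant_comp_eq :
    (discriminant ∘ ofComplex) = fun w : ℂ =>
      ((E₄ ∘ ofComplex) w ^ 3 - (E₆ ∘ ofComplex) w ^ 2) / 1728 := by
  funext w
  simp only [Function.comp_apply]
  rw [discriminant_eq_E₄_cube_sub_E₆_sq]

theorem analyticAt_discriminant (τ : ℍ) : AnalyticAt ℂ (discriminant ∘ ofComplex) (τ : ℂ) := by
  rw [discriminant_comp_eq]
  exact (((analyticAt_comp_ofComplex E₄ τ).pow 3).sub ((analyticAt_comp_ofComplex E₆ τ).pow 2)).div_const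

theorem hasDerivAt_discriminant (τ : ℍ) :
    HasDerivAt (discriminant ∘ ofComplex)
      ((3 * E₄ τ ^ 2 * (2 * π * Complex.I * D E₄ τ) - 2 * E₆ τ * (2 * π * Complex.I * D E₆ τ)) / 1728)
      (τ : ℂ) := by
  rw [discriminant_comp_eq]
  have h4 := (hasDerivAt_comp_ofComplex E₄ τ).fun_pow 3
  have h6 := (hasDerivAt_comp_ofComplex E₆ τ).fun_pow 2
  have := (h4.fun_sub h6).div_const 1728
  simp only [Function.comp_apply, ofComplex_apply] at this
  refine this.congr_deriv ?_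
  norm_num

/-- The derivative of `j = E₄³/Δ`: `j' = -2πi · E₄² E₆ / Δ`. -/
theorem hasDerivAt_j (τ : ℍ) :
    HasDerivAt (fun z : ℂ => E₄ (ofComplex z) ^ 3 / discriminant (ofComplex z))
      (-(2 * π * Complex.I) * E₄ τ ^ 2 * E₆ τ / discriminant τ) (τ : ℂ) := by
  have h4 := (hasDerivAt_comp_ofComplex E₄ τ).fun_pow 3
  have hΔ := hasDerivAt_discriminant τ
  have hne : (discriminant ∘ ofComplex) (τ : ℂ) ≠ 0 := by
    simp only [Function.comp_apply, ofComplex_apply]
    exact discriminant_ne_zero τ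
  have := h4.fun_div hΔ hne
  simp only [Function.comp_apply, ofComplex_apply] at this
  have hb := bracket_eq τ
  have hd := discriminant_eq τ
  have hne' : discriminant τ ≠ 0 := discriminant_ne_zero τ
  simp only [bracket] at hb
  refine this.congr_deriv ?_
  rw [div_eq_div_iff (pow_ne_zero 2 hne') hne']
  linear_combination
    (discriminant τ / 1728 * 3 * E₄ τ ^ 2 * (2 * π * Complex.I) * D E₄ τ) * hd -
    (discriminant τ / 1728 * (2 * π * Complex.I) * E₄ τ ^ 2 * E₆ τ) * hb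

/-! ### Local orders of `j` -/

theorem analyticAt_inv_discriminant (τ : ℍ) :
    AnalyticAt ℂ (fun z : ℂ => (discriminant (ofComplex z))⁻¹) (τ : ℂ) := by
  have hne : (discriminant ∘ ofComplex) (τ : ℂ) ≠ 0 := by
    simp only [Function.comp_apply, ofComplex_apply]
    exact discriminant_ne_zero τ
  exact (analyticAt_discriminant τ).inv hne

/-- `j ∘ ofComplex` is analytic at every point of the upper half plane. -/
theorem analyticAt_j (τ : ℍ) :
    AnalyticAt ℂ (fun z : ℂ => E₄ (ofComplex z) ^ 3 / discriminant (ofComplex z)) (τ : ℂ) := by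
  have hne : (discriminant ∘ ofComplex) (τ : ℂ) ≠ 0 := by
    simp only [Function.comp_apply, ofComplex_apply]
    exact discriminant_ne_zero τ
  exact ((analyticAt_comp_ofComplex E₄ τ).pow 3).div (analyticAt_discriminant τ) hne

/-- `j τ = 0` exactly at the zeros of `E₄`. -/
theorem j_eq_zero_iff (τ : ℍ) : E₄ τ ^ 3 / discriminant τ = 0 ↔ E₄ τ = 0 := by
  rw [div_eq_zero_iff]
  constructor
  · rintro (h | h)
    · exact pow_eq_zero_iff (n := 3) (by norm_num) |>.mp h
    · exact absurd h (discriminant_ne_zero τ)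
  · intro h
    left
    rw [h]
    norm_num

/-- `j τ - 1728 = E₆ τ ^ 2 / Δ τ`. -/
theorem j_sub_1728 (τ : ℍ) :
    E₄ τ ^ 3 / discriminant τ - 1728 = E₆ τ ^ 2 / discriminant τ := by
  have hd := discriminant_eq τ
  have hne := discriminant_ne_zero τ
  field_simp
  linear_combination -hd

/-- `j τ = 1728` exactly at the zeros of `E₆`. -/
theorem j_eq_1728_iff (τ : ℍ) : E₄ τ ^ 3 / discriminant τ = 1728 ↔ E₆ τ = 0 := by
  rw [← sub_eq_zero, j_sub_1728, div_eq_zero_iff]
  constructor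
  · rintro (h | h)
    · exact pow_eq_zero_iff (n := 2) (by norm_num) |>.mp h
    · exact absurd h (discriminant_ne_zero τ)
  · intro h
    left
    rw [h]
    norm_num

/-- Generic points: `j - j(τ)` vanishes to order exactly `1` at `τ`. -/
theorem order_j_generic (τ : ℍ) (h4 : E₄ τ ≠ 0) (h6 : E₆ τ ≠ 0) :
    analyticOrderAt (fun z : ℂ => E₄ (ofComplex z) ^ 3 / discriminant (ofComplex z)
      - E₄ τ ^ 3 / discriminant τ) (τ : ℂ) = 1 := by
  have hpi : (2 * π * Complex.I : ℂ) ≠ 0 := by simp [Real.pi_ne_zero]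
  have hne : deriv (fun z : ℂ => E₄ (ofComplex z) ^ 3 / discriminant (ofComplex z)) (τ : ℂ)
      ≠ 0 := by
    rw [(hasDerivAt_j τ).deriv]
    exact div_ne_zero (mul_ne_zero (mul_ne_zero (neg_ne_zero.mpr hpi) (pow_ne_zero 2 h4)) h6)
      (discriminant_ne_zero τ)
  have := (analyticAt_j τ).analyticOrderAt_sub_eq_one_of_deriv_ne_zero hne
  simpa only [ofComplex_apply] using this

/-- Generic points, phrased with the value: if `j τ = c` and `c ≠ 0`, `c ≠ 1728`, then `j - c`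
vanishes to order exactly `1` at `τ`. -/
theorem order_j_generic' (τ : ℍ) (c : ℂ) (hc : E₄ τ ^ 3 / discriminant τ = c) (h0 : c ≠ 0)
    (h1 : c ≠ 1728) :
    analyticOrderAt (fun z : ℂ => E₄ (ofComplex z) ^ 3 / discriminant (ofComplex z) - c)
      (τ : ℂ) = 1 := by
  subst hc
  exact order_j_generic τ (fun h => h0 ((j_eq_zero_iff τ).mpr h))
    (fun h => h1 ((j_eq_1728_iff τ).mpr h))

/-- `E₄ ∘ ofComplex` has a simple zero at every zero of `E₄`. -/
theorem order_E₄ (τ : ℍ) (h : E₄ τ = 0) :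
    analyticOrderAt ((E₄ : ℍ → ℂ) ∘ ofComplex) (τ : ℂ) = 1 := by
  have hpi : (2 * π * Complex.I : ℂ) ≠ 0 := by simp [Real.pi_ne_zero]
  refine (analyticAt_comp_ofComplex E₄ τ).analyticOrderAt_eq_one_of_zero_deriv_ne_zero ?_ ?_
  · simpa only [Function.comp_apply, ofComplex_apply] using h
  · rw [deriv_comp_ofComplex]
    exact mul_ne_zero hpi (D_E₄_ne_zero τ h)

/-- `E₆ ∘ ofComplex` has a simple zero at every zero of `E₆`. -/
theorem order_E₆ (τ : ℍ) (h : E₆ τ = 0) :
    analyticOrderAt ((E₆ : ℍ → ℂ) ∘ ofComplex) (τ : ℂ) = 1 := by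
  have hpi : (2 * π * Complex.I : ℂ) ≠ 0 := by simp [Real.pi_ne_zero]
  refine (analyticAt_comp_ofComplex E₆ τ).analyticOrderAt_eq_one_of_zero_deriv_ne_zero ?_ ?_
  · simpa only [Function.comp_apply, ofComplex_apply] using h
  · rw [deriv_comp_ofComplex]
    exact mul_ne_zero hpi (D_E₆_ne_zero τ h)

theorem deriv_E₄_ne_zero (τ : ℍ) (h : E₄ τ = 0) : deriv ((E₄ : ℍ → ℂ) ∘ ofComplex) (τ : ℂ) ≠ 0 := by
  have hpi : (2 * π * Complex.I : ℂ) ≠ 0 := by simp [Real.pi_ne_zero]
  rw [deriv_comp_ofComplex]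
  exact mul_ne_zero hpi (D_E₄_ne_zero τ h)

theorem deriv_E₆_ne_zero (τ : ℍ) (h : E₆ τ = 0) : deriv ((E₆ : ℍ → ℂ) ∘ ofComplex) (τ : ℂ) ≠ 0 := by
  have hpi : (2 * π * Complex.I : ℂ) ≠ 0 := by simp [Real.pi_ne_zero]
  rw [deriv_comp_ofComplex]
  exact mul_ne_zero hpi (D_E₆_ne_zero τ h)

theorem order_inv_discriminant (τ : ℍ) :
    analyticOrderAt (fun z : ℂ => (discriminant (ofComplex z))⁻¹) (τ : ℂ) = 0 := by
  rw [(analyticAt_inv_discriminant τ).analyticOrderAt_eq_zero]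
  simp only [ofComplex_apply]
  exact inv_ne_zero (discriminant_ne_zero τ)

/-- At a zero of `E₄` (e.g. at `ρ`), `j` vanishes to order exactly `3`. -/
theorem order_j_of_E₄_eq_zero (τ : ℍ) (h : E₄ τ = 0) :
    analyticOrderAt (fun z : ℂ => E₄ (ofComplex z) ^ 3 / discriminant (ofComplex z)) (τ : ℂ)
      = 3 := by
  have h1 : (fun z : ℂ => E₄ (ofComplex z) ^ 3 / discriminant (ofComplex z))
      = ((E₄ : ℍ → ℂ) ∘ ofComplex) ^ 3 * (fun z : ℂ => (discriminant (ofComplex z))⁻¹) := by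
    funext z
    simp [div_eq_mul_inv]
  rw [h1, analyticOrderAt_mul ((analyticAt_comp_ofComplex E₄ τ).pow 3)
    (analyticAt_inv_discriminant τ), analyticOrderAt_pow (analyticAt_comp_ofComplex E₄ τ),
    order_E₄ τ h, order_inv_discriminant]
  rfl

/-- At a zero of `E₆` (e.g. at `i`), `j - 1728` vanishes to order exactly `2`. -/
theorem order_j_of_E₆_eq_zero (τ : ℍ) (h : E₆ τ = 0) :
    analyticOrderAt (fun z : ℂ => E₄ (ofComplex z) ^ 3 / discriminant (ofComplex z) - 1728)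
      (τ : ℂ) = 2 := by
  have h1 : (fun z : ℂ => E₄ (ofComplex z) ^ 3 / discriminant (ofComplex z) - 1728)
      = ((E₆ : ℍ → ℂ) ∘ ofComplex) ^ 2 * (fun z : ℂ => (discriminant (ofComplex z))⁻¹) := by
    funext z
    rw [j_sub_1728]
    simp [div_eq_mul_inv]
  rw [h1, analyticOrderAt_mul ((analyticAt_comp_ofComplex E₆ τ).pow 2)
    (analyticAt_inv_discriminant τ), analyticOrderAt_pow (analyticAt_comp_ofComplex E₆ τ),
    order_E₆ τ h, order_inv_discriminant]
  rfl

/-- `j ρ = 0`. -/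
theorem j_rho : E₄ rho ^ 3 / discriminant rho = 0 := (j_eq_zero_iff rho).mpr E₄_rho

/-- `j i = 1728`. -/
theorem j_I : E₄ UpperHalfPlane.I ^ 3 / discriminant UpperHalfPlane.I = 1728 :=
  (j_eq_1728_iff UpperHalfPlane.I).mpr E₆_I

/-- `j` vanishes to order exactly `3` at `ρ`. -/
theorem order_j_rho :
    analyticOrderAt (fun z : ℂ => E₄ (ofComplex z) ^ 3 / discriminant (ofComplex z))
      ((rho : ℍ) : ℂ) = 3 :=
  order_j_of_E₄_eq_zero rho E₄_rho

/-- `j - 1728` vanishes to order exactly `2` at `i`. -/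
theorem order_j_I :
    analyticOrderAt (fun z : ℂ => E₄ (ofComplex z) ^ 3 / discriminant (ofComplex z) - 1728)
      ((UpperHalfPlane.I : ℍ) : ℂ) = 2 :=
  order_j_of_E₆_eq_zero UpperHalfPlane.I E₆_I

/-- `(S * T) • ρ = ρ` (product form of `ST_smul_rho`). -/
theorem ST_mul_smul_rho : (ModularGroup.S * ModularGroup.T : SL(2, ℤ)) • rho = rho := by
  rw [mul_smul]
  exact ST_smul_rho

/-- The order of `E₄³ - c Δ` (the `pencil`) at `τ` is the order of `j - c`. -/
theorem order_pencil (c : ℂ) (τ : ℍ) :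
    analyticOrderAt (fun z : ℂ => pencil c (ofComplex z)) (τ : ℂ)
      = analyticOrderAt (fun z : ℂ => E₄ (ofComplex z) ^ 3 / discriminant (ofComplex z) - c)
        (τ : ℂ) := by
  have h1 : (fun z : ℂ => pencil c (ofComplex z))
      = (fun z : ℂ => E₄ (ofComplex z) ^ 3 / discriminant (ofComplex z) - c)
        * (discriminant ∘ ofComplex) := by
    funext z
    have hne := discriminant_ne_zero (ofComplex z)
    simp only [pencil, Pi.mul_apply, Function.comp_apply]
    field_simp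
  have h0 : analyticOrderAt (discriminant ∘ ofComplex) (τ : ℂ) = 0 := by
    rw [(analyticAt_discriminant τ).analyticOrderAt_eq_zero]
    simp only [Function.comp_apply, ofComplex_apply]
    exact discriminant_ne_zero τ
  rw [h1, analyticOrderAt_mul ((analyticAt_j τ).fun_sub analyticAt_const) (analyticAt_discriminant τ),
    h0, add_zero]

/-- ℤ-valued (meromorphic order) forms of the three local statements. -/
theorem meromorphicOrderAt_j_sub (c : ℂ) (τ : ℍ) :
    meromorphicOrderAt (fun z : ℂ => E₄ (ofComplex z) ^ 3 / discriminant (ofComplex z) - c) (τ : ℂ)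
      = (analyticOrderAt (fun z : ℂ => E₄ (ofComplex z) ^ 3 / discriminant (ofComplex z) - c)
        (τ : ℂ)).map (↑) :=
  ((analyticAt_j τ).fun_sub analyticAt_const).meromorphicOrderAt_eq

end Fermat.Agent.Lib.JLocal
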