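/-
P5 [HECKE-κ] leaf (H4) (helper97): **the Prelude Hecke operator on a Kummer divisor.**

If `n • D = div f` on `F_N` (over `Q̄`), then `n • (α_* β^* D) = div (Norm_α (β f))`, where
`α, β : F_N → F_{Nℓ}` are the two degeneracy maps and the norm is taken along `α`; and the
Prelude's `heckeOperatorBar N ℓ` sends the class of `D` to the class of `α_* β^* D`.
-/
import Mathlib
import Fermat.Prelude.Def_ModularCurve_HeckeModule
import Fermat.Agent.S37.HeckeInputs

set_option autoImplicit false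
set_option linter.style.haveILetI false

noncomputable section

namespace Fermat.Agent.Lib.HeckeKummerDiv

open AlgebraicCurve ModularCurve Fermat.Agent.S24 Fermat.Agent.S37.HeckeInputs

variable (N ℓ : ℕ) [NeZero N] [NeZero ℓ]

/-- The pull-back along `β` of a divisor `D₁ = div f` is `div (β f)`. -/
theorem pullbackAlong_beta_ord (D₁ : Divisor Kbar (FN N)) (f : FN N)
    (hD : ∀ v : Place Kbar (FN N), D₁ v = v.ord f) (w : Place Kbar (FN (N * ℓ))) :
    haveI := hasPrincipalDivisors_FN (N * ℓ)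
    Divisor.pullbackAlong (heckeBetaBar Kbar N ℓ) (heckeBetaBarIntegral N ℓ) D₁ w =
      w.ord (heckeBetaBar Kbar N ℓ f) := by
  haveI := hasPrincipalDivisors_FN (N * ℓ)
  letI := algebraAlong (heckeBetaBar Kbar N ℓ)
  haveI := isScalarTower_along (heckeBetaBar Kbar N ℓ)
  haveI := isIntegral_along (heckeBetaBar Kbar N ℓ) (heckeBetaBarIntegral N ℓ)
  exact Divisor.pullback_apply_eq_ord hD w

/-- **Divisor level.** If `n • D = div f`, then `n • (α_* β^* D) = div (Norm_α (β f))`. -/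
theorem heckeDivBar_ord (n : ℤ) (D : Divisor Kbar (FN N)) (f : FN N) (hf : f ≠ 0)
    (hD : ∀ v : Place Kbar (FN N), n * D v = v.ord f) (v : Place Kbar (FN N)) :
    haveI := hasPrincipalDivisors_FN (N * ℓ)
    letI := algebraAlong (heckeAlphaBar Kbar N ℓ)
    n * heckeDivBar (heckeAlphaBarIntegral N ℓ) (heckeBetaBarIntegral N ℓ) D v =
      v.ord (Algebra.norm (FN N) (heckeBetaBar Kbar N ℓ f)) := by
  haveI := hasPrincipalDivisors_FN (N * ℓ)
  have h1 : n * heckeDivBar (heckeAlphaBarIntegral N ℓ) (heckeBetaBarIntegral N ℓ) D v =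
      heckeDivBar (heckeAlphaBarIntegral N ℓ) (heckeBetaBarIntegral N ℓ) (n • D) v := by
    rw [map_zsmul, Finsupp.smul_apply, smul_eq_mul]
  rw [h1, heckeDivBar, Divisor.correspondence_apply]
  have h2 : ∀ w : Place Kbar (FN (N * ℓ)),
      Divisor.pullbackAlong (heckeBetaBar Kbar N ℓ) (heckeBetaBarIntegral N ℓ) (n • D) w =
        w.ord (heckeBetaBar Kbar N ℓ f) :=
    pullbackAlong_beta_ord N ℓ (n • D) f (fun v => by
      rw [Finsupp.smul_apply, smul_eq_mul]; exact hD v)
  have hβf : heckeBetaBar Kbar N ℓ f ≠ 0 := by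
    intro h0
    exact hf ((heckeBetaBar Kbar N ℓ).toRingHom.injective (by simpa using h0))
  have hN := normFormulaAlong_alpha N ℓ
  letI := algebraAlong (heckeAlphaBar Kbar N ℓ)
  haveI := isScalarTower_along (heckeAlphaBar Kbar N ℓ)
  haveI : Module.Finite (FN N) (FN (N * ℓ)) := finiteAlong_alpha N ℓ
  exact hN (heckeBetaBar Kbar N ℓ f) hβf _ h2 v

/-- The norm along `α` of `β f` is nonzero for `f ≠ 0`. -/
theorem norm_beta_ne_zero (f : FN N) (hf : f ≠ 0) :
    letI := algebraAlong (heckeAlphaBar Kbar N ℓ)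
    Algebra.norm (FN N) (heckeBetaBar Kbar N ℓ f) ≠ 0 := by
  letI := algebraAlong (heckeAlphaBar Kbar N ℓ)
  haveI : Module.Finite (FN N) (FN (N * ℓ)) := finiteAlong_alpha N ℓ
  rw [Algebra.norm_ne_zero_iff]
  intro h0
  exact hf ((heckeBetaBar Kbar N ℓ).toRingHom.injective (by simpa using h0))

/-- **(H4)** The Prelude Hecke operator on the class of a degree-zero divisor `D` with
`n • D = div f`: it is the class of a degree-zero divisor `D'` with
`n • D' = div (Norm_α (β f))`. -/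
theorem exists_hecke_datum (hℓ : ℓ.Prime) (n : ℤ)
    (D : Divisor.degZero (K := Kbar) (F := FN N)) (f : FN N) (hf : f ≠ 0)
    (hD : ∀ v : Place Kbar (FN N), n * (D : Divisor Kbar (FN N)) v = v.ord f) :
    letI := algebraAlong (heckeAlphaBar Kbar N ℓ)
    ∃ D' : Divisor.degZero (K := Kbar) (F := FN N),
      heckeOperatorBar N ⟨ℓ, hℓ⟩ (Pic0.mk D) = Pic0.mk D' ∧
      Algebra.norm (FN N) (heckeBetaBar Kbar N ℓ f) ≠ 0 ∧
      ∀ v : Place Kbar (FN N), n * (D' : Divisor Kbar (FN N)) v =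
        v.ord (Algebra.norm (FN N) (heckeBetaBar Kbar N ℓ f)) := by
  haveI := hasPrincipalDivisors_FN (N * ℓ)
  obtain ⟨h, hmk⟩ := heckeOperatorAlong_mk N ℓ D
  refine ⟨⟨_, h⟩, ?_, norm_beta_ne_zero N ℓ f hf, fun v => heckeDivBar_ord N ℓ n D f hf hD v⟩
  rw [heckeOperatorBar_apply]
  exact hmk

end Fermat.Agent.Lib.HeckeKummerDiv
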