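import Mathlib
import Fermat.Prelude.Def_ModularForm_HeckeOperator
import Fermat.Prelude.Sol.S_ModularForm_heckeT_slash_eq_self_of_mem_Gamma0
import Fermat.Agent.S22.HeckeDatum

/-!
# The Hecke operators `T_p` and `U_p` are Hecke data

For `Fermat.Agent.S22.HeckeDatum.IsHeckeDatum` we exhibit the coset representatives of
`T_p` (`p ∤ N`, indexed by `OnePoint (ZMod p)`) and of `U_p` (`p ∣ N`, indexed by `ZMod p`),
and the permutation of these cosets induced by right multiplication with `Γ₀(N)`.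
-/

set_option autoImplicit false

open UpperHalfPlane hiding I
open scoped MatrixGroups ModularForm
open Matrix.SpecialLinearGroup

namespace Fermat.Agent.Lib.HeckePerm

open P2MW.S_ModularForm_heckeT_slash_eq_self_of_mem_Gamma0.ModularForm.HeckeSlashInvariance

/-- `T_p` for `p ∤ N` is a Hecke datum of level `N`. -/
theorem isHeckeDatum_heckeT {N p : ℕ} (hp : p.Prime) (hpN : ¬ p ∣ N) (k : ℤ) :
    Fermat.Agent.S22.HeckeDatum.IsHeckeDatum N k (ModularForm.heckeT k p) := by
  have : Fact p.Prime := ⟨hp⟩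
  have : NeZero p := ⟨hp.ne_zero⟩
  have hp0 : p ≠ 0 := hp.ne_zero
  have hpz : (0 : ℤ) < (p : ℤ) := by exact_mod_cast hp.pos
  refine ⟨OnePoint (ZMod p), inferInstance, heckeRep p,
    fun x => x.elim (p : ℤ) (fun _ => 1),
    fun x => x.elim 0 (fun j => (j.val : ℤ)),
    fun x => x.elim 1 (fun _ => (p : ℤ)), (p : ℤ), ?_, ?_, ?_, ?_, ?_, ?_⟩
  · intro x
    induction x using OnePoint.rec with
    | infty =>
      show ((ModularForm.heckeDiagMatrix p : GL (Fin 2) ℝ) : Matrix (Fin 2) (Fin 2) ℝ) = _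
      rw [ModularForm.val_heckeDiagMatrix hp0]
      simp
    | coe j =>
      show ((ModularForm.heckeMatrix p j.val : GL (Fin 2) ℝ) : Matrix (Fin 2) (Fin 2) ℝ) = _
      rw [ModularForm.val_heckeMatrix hp0]
      simp
  · intro x
    induction x using OnePoint.rec with
    | infty => exact hpz
    | coe j => exact one_pos
  · intro x
    induction x using OnePoint.rec with
    | infty => exact one_pos
    | coe j => exact hpz
  · intro x
    induction x using OnePoint.rec with
    | infty => exact mul_one _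
    | coe j => exact one_mul _
  · intro f
    exact heckeT_eq_sum_onePoint k f
  · intro g hg
    have hcN : (N : ℤ) ∣ g 1 0 :=
      (ZMod.intCast_zmod_eq_zero_iff_dvd _ _).mp (CongruenceSubgroup.Gamma0_mem.mp hg)
    refine ⟨MulAction.toPerm (redMatrix p g), fun x => ?_⟩
    obtain ⟨g', hg', hmul⟩ := heckeRep_mul hpN g hcN x
    exact ⟨g', CongruenceSubgroup.Gamma0_mem.mpr
      ((ZMod.intCast_zmod_eq_zero_iff_dvd _ _).mpr hg'), hmul⟩

/-- `U_p` for `p ∣ N` is a Hecke datum of level `N`. -/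
theorem isHeckeDatum_heckeU {N p : ℕ} [NeZero N] (hp : p.Prime) (hpN : p ∣ N) (k : ℤ) :
    Fermat.Agent.S22.HeckeDatum.IsHeckeDatum N k (ModularForm.heckeU k p) := by
  have : NeZero p := ⟨hp.ne_zero⟩
  have hp0 : p ≠ 0 := hp.ne_zero
  have hpz : (0 : ℤ) < (p : ℤ) := by exact_mod_cast hp.pos
  refine ⟨ZMod p, inferInstance, fun x => ModularForm.heckeMatrix p x.val,
    fun _ => 1, fun x => (x.val : ℤ), fun _ => (p : ℤ), (p : ℤ), ?_, ?_, ?_, ?_, ?_, ?_⟩
  · intro x
    rw [ModularForm.val_heckeMatrix hp0]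
    simp
  · intro x
    exact one_pos
  · intro x
    exact hpz
  · intro x
    exact one_mul _
  · intro f
    exact heckeU_eq_sum_zmod k f
  · intro g hg
    have hcN : (N : ℤ) ∣ g 1 0 :=
      (ZMod.intCast_zmod_eq_zero_iff_dvd _ _).mp (CongruenceSubgroup.Gamma0_mem.mp hg)
    have hc : (p : ℤ) ∣ g 1 0 := (Int.natCast_dvd_natCast.mpr hpN).trans hcN
    refine ⟨affinePerm g ((ZMod.intCast_zmod_eq_zero_iff_dvd _ _).mpr hc), fun x => ?_⟩
    obtain ⟨g', hg', hmul⟩ := heckeMatrix_mul_of_dvd g hc x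
    refine ⟨g', ?_, hmul⟩
    rw [CongruenceSubgroup.Gamma0_mem, hg']
    push_cast
    rw [CongruenceSubgroup.Gamma0_mem.mp hg, mul_zero]

end Fermat.Agent.Lib.HeckePerm
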