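/-
The addition-subtraction law on `x`-coordinates of a Weierstrass curve over a field:
`(x(P)x(Q) : x(P)+x(Q) : 1) ↦ (x(P+Q)x(P-Q) : x(P+Q)+x(P-Q) : 1)` is given by three explicit
quadratic forms, for ALL pairs of points (with the projective conventions at the origin).
Owner: helper62.
-/
import Mathlib

set_option autoImplicit false

namespace Fermat.Agent.Lib.XAddSub

open Polynomial WeierstrassCurve WeierstrassCurve.Affine

variable {K : Type*} [Field K] (W : WeierstrassCurve.Affine K)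

/-- the three quadratic forms of the addition-subtraction map on `x`-coordinates. -/
def g0 (s t u : K) : K := s ^ 2 - W.b₄ * s * u - W.b₆ * t * u - W.b₈ * u ^ 2
def g1 (s t u : K) : K := 2 * t * s + W.b₂ * s * u + W.b₄ * t * u + W.b₆ * u ^ 2
def g2 (s t u : K) : K := t ^ 2 - 4 * s * u

lemma g_eq_zero (hΔ : W.Δ ≠ 0) {s t u : K} (h0 : g0 W s t u = 0) (h1 : g1 W s t u = 0)
    (h2 : g2 s t u = 0) : s = 0 ∧ t = 0 ∧ u = 0 := by
  have : WeierstrassCurve.IsElliptic W := ⟨isUnit_iff_ne_zero.mpr hΔ⟩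
  by_contra hcon
  have hx : (![s, t, u] : Fin 3 → K) ≠ 0 := by
    intro h
    apply hcon
    have h0' := congrFun h 0
    have h1' := congrFun h 1
    have h2' := congrFun h 2
    simp at h0' h1' h2'
    exact ⟨h0', h1', h2'⟩
  apply WeierstrassCurve.addSubMap_ne_zero W hx
  funext i
  fin_cases i
  · simpa [WeierstrassCurve.addSubMap, g0] using h0
  · simpa [WeierstrassCurve.addSubMap, g1] using h1
  · simpa [WeierstrassCurve.addSubMap, g2] using h2

variable [DecidableEq K]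

/-- The normalised addition-subtraction law in terms of `xRep`. -/
def Law (P Q : W.Point) : Prop :=
  ∃ c : K, c ≠ 0 ∧
    g0 W (P.xRep 0 * Q.xRep 0) (P.xRep 0 * Q.xRep 1 + P.xRep 1 * Q.xRep 0) (P.xRep 1 * Q.xRep 1)
      = c * ((P + Q).xRep 0 * (P - Q).xRep 0) ∧
    g1 W (P.xRep 0 * Q.xRep 0) (P.xRep 0 * Q.xRep 1 + P.xRep 1 * Q.xRep 0) (P.xRep 1 * Q.xRep 1)
      = c * ((P + Q).xRep 0 * (P - Q).xRep 1 + (P + Q).xRep 1 * (P - Q).xRep 0) ∧
    g2 (P.xRep 0 * Q.xRep 0) (P.xRep 0 * Q.xRep 1 + P.xRep 1 * Q.xRep 0) (P.xRep 1 * Q.xRep 1)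
      = c * ((P + Q).xRep 1 * (P - Q).xRep 1)

variable {W}

lemma Law.neg_right {P Q : W.Point} (h : Law W P Q) : Law W P (-Q) := by
  obtain ⟨c, hc, h0, h1, h2⟩ := h
  refine ⟨c, hc, ?_, ?_, ?_⟩
  · rw [Point.xRep_neg, ← sub_eq_add_neg, sub_neg_eq_add, h0]; ring
  · rw [Point.xRep_neg, ← sub_eq_add_neg, sub_neg_eq_add, h1]; ring
  · rw [Point.xRep_neg, ← sub_eq_add_neg, sub_neg_eq_add, h2]; ring

lemma law_zero_left (Q : W.Point) : Law W 0 Q := by
  refine ⟨1, one_ne_zero, ?_, ?_, ?_⟩ <;>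
  · rw [zero_add, zero_sub, Point.xRep_neg]
    simp [g0, g1, g2]
    try ring

lemma law_zero_right (P : W.Point) : Law W P 0 := by
  refine ⟨1, one_ne_zero, ?_, ?_, ?_⟩ <;>
  · rw [add_zero, sub_zero]
    simp [g0, g1, g2]
    try ring


lemma law_of_X_ne {x₁ y₁ x₂ y₂ : K} (h₁ : W.Nonsingular x₁ y₁) (h₂ : W.Nonsingular x₂ y₂)
    (hx : x₁ ≠ x₂) : Law W (Point.some x₁ y₁ h₁) (Point.some x₂ y₂ h₂) := by
  have hx' : x₁ - x₂ ≠ 0 := sub_ne_zero.mpr hx
  have e₁ := (W.equation_iff x₁ y₁).mp h₁.1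
  have e₂ := (W.equation_iff x₂ y₂).mp h₂.1
  refine ⟨(x₁ - x₂) ^ 2, pow_ne_zero 2 hx', ?_, ?_, ?_⟩
  all_goals
    rw [show Point.some x₁ y₁ h₁ - Point.some x₂ y₂ h₂
        = Point.some x₁ y₁ h₁ + Point.some x₂ (W.negY x₂ y₂) ((nonsingular_neg ..).mpr h₂) from by
          rw [sub_eq_add_neg, Point.neg_some],
      Point.add_of_X_ne hx, Point.add_of_X_ne hx]
    simp only [Point.xRep_some, Matrix.cons_val_zero, Matrix.cons_val_one, slope_of_X_ne hx,
      addX, negY, g0, g1, g2, WeierstrassCurve.b₂, WeierstrassCurve.b₄, WeierstrassCurve.b₆,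
      WeierstrassCurve.b₈]
    field_simp
    grind


lemma law_self_of_Y_ne {x y : K} (h : W.Nonsingular x y) (hy : y ≠ W.negY x y) :
    Law W (Point.some x y h) (Point.some x y h) := by
  have e := (W.equation_iff x y).mp h.1
  obtain ⟨D, hDdef⟩ : ∃ D : K, D = 2 * y + W.a₁ * x + W.a₃ := ⟨_, rfl⟩
  have hD' : y - W.negY x y = D := by rw [hDdef]; simp only [negY]; ring
  have hD : D ≠ 0 := by rw [← hD']; exact sub_ne_zero.mpr hy
  have key : W.slope x x y y = (3 * x ^ 2 + 2 * W.a₂ * x + W.a₄ - W.a₁ * y) / D := by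
    rw [slope_of_Y_ne rfl hy, hD']
  refine ⟨D ^ 2, pow_ne_zero 2 hD, ?_, ?_, ?_⟩
  all_goals
    rw [sub_self, Point.add_self_of_Y_ne hy]
    simp only [Point.xRep_some, Point.xRep_zero, Matrix.cons_val_zero, Matrix.cons_val_one,
      key, addX, g0, g1, g2, WeierstrassCurve.b₂, WeierstrassCurve.b₄,
      WeierstrassCurve.b₆, WeierstrassCurve.b₈]
    field_simp
    grind

lemma law_self_of_Y_eq (hΔ : W.Δ ≠ 0) {x y : K} (h : W.Nonsingular x y) (hy : y = W.negY x y) :
    Law W (Point.some x y h) (Point.some x y h) := by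
  have e := (W.equation_iff x y).mp h.1
  have hy' : 2 * y + W.a₁ * x + W.a₃ = 0 := by
    have := hy
    simp only [negY] at this
    linear_combination this
  have h1 : g1 W (x * x) (x * 1 + 1 * x) (1 * 1) = 0 := by
    simp only [g1, WeierstrassCurve.b₂, WeierstrassCurve.b₄, WeierstrassCurve.b₆]
    grind
  have h2 : g2 (x * x) (x * 1 + 1 * x) (1 * 1) = 0 := by
    simp only [g2]; ring
  have h0 : g0 W (x * x) (x * 1 + 1 * x) (1 * 1) ≠ 0 := by
    intro h0
    have := (g_eq_zero W hΔ h0 h1 h2).2.2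
    simp at this
  refine ⟨g0 W (x * x) (x * 1 + 1 * x) (1 * 1), h0, ?_, ?_, ?_⟩
  all_goals
    rw [sub_self, Point.add_self_of_Y_eq hy]
    simp only [Point.xRep_some, Point.xRep_zero, Matrix.cons_val_zero, Matrix.cons_val_one]
  · ring
  · rw [h1]; ring
  · rw [h2]; ring

theorem law (hΔ : W.Δ ≠ 0) (P Q : W.Point) : Law W P Q := by
  match P, Q with
  | 0, Q => exact law_zero_left Q
  | P, 0 => exact law_zero_right P
  | .some x₁ y₁ h₁, .some x₂ y₂ h₂ =>
    by_cases hx : x₁ = x₂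
    · subst hx
      have hself : Law W (Point.some x₁ y₁ h₁) (Point.some x₁ y₁ h₁) := by
        by_cases hy : y₁ = W.negY x₁ y₁
        · exact law_self_of_Y_eq hΔ h₁ hy
        · exact law_self_of_Y_ne h₁ hy
      rcases Y_eq_of_X_eq h₁.1 h₂.1 rfl with hy | hy
      · subst hy
        exact hself
      · have : Point.some x₁ y₂ h₂ = -Point.some x₁ y₁ h₁ := by
          rw [Point.neg_some]
          congr 1
          rw [hy, negY_negY]
        rw [this]
        exact hself.neg_right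
    · exact law_of_X_ne h₁ h₂ hx

end Fermat.Agent.Lib.XAddSub
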