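import Mathlib
import Fermat.Agent.Lib.XAddSub

/-!
# The exact parallelogram law for degrees of `x`-coordinates (helper66)

Let `W` be an elliptic curve over a field `k`.  If the projective `x`-coordinates of four points
`P`, `Q`, `P + Q`, `P - Q` (of `W` over some field `L ⊇ k[X]`) are given by coprime pairs of
polynomials `(pᵢ : qᵢ)`, then
`d(P + Q) + d(P - Q) = 2 d(P) + 2 d(Q)`, where `d = max (natDegree p) (natDegree q)`.

The input is the addition-subtraction law on `x`-coordinates (`Lib/XAddSub.law`); the proof uses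
Mathlib's Nullstellensatz certificate `WeierstrassCurve.addSubMapCoeff_condition`.
-/

set_option autoImplicit false

namespace Fermat.Agent.Lib.HeightLaw

open Polynomial

section Forms

variable {k : Type*} [Field k] (W : WeierstrassCurve k)

/-- The addition-subtraction forms with constant coefficients, on polynomials. -/
noncomputable def G0 (s t u : k[X]) : k[X] :=
  s ^ 2 - C W.b₄ * s * u - C W.b₆ * t * u - C W.b₈ * u ^ 2

/-- The addition-subtraction forms with constant coefficients, on polynomials. -/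
noncomputable def G1 (s t u : k[X]) : k[X] :=
  2 * t * s + C W.b₂ * s * u + C W.b₄ * t * u + C W.b₆ * u ^ 2

/-- The addition-subtraction forms with constant coefficients, on polynomials. -/
noncomputable def G2 (s t u : k[X]) : k[X] := t ^ 2 - 4 * s * u

/-- The maximum of the degrees of a triple. -/
noncomputable def maxDeg (s t u : k[X]) : ℕ := max (max s.natDegree t.natDegree) u.natDegree

lemma eval_addSubMap_map_zero (s t u : k[X]) :
    MvPolynomial.eval ![s, t, u] (WeierstrassCurve.addSubMap (W.map C) 0) = G0 W s t u := by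
  simp [WeierstrassCurve.addSubMap, G0]

lemma eval_addSubMap_map_one (s t u : k[X]) :
    MvPolynomial.eval ![s, t, u] (WeierstrassCurve.addSubMap (W.map C) 1) = G1 W s t u := by
  simp [WeierstrassCurve.addSubMap, G1]

lemma eval_addSubMap_map_two (s t u : k[X]) :
    MvPolynomial.eval ![s, t, u] (WeierstrassCurve.addSubMap (W.map C) 2) = G2 s t u := by
  simp [WeierstrassCurve.addSubMap, G2]

/-- **Primitivity.** If `(s, t, u)` generates the unit ideal, so does `(G0, G1, G2)(s, t, u)`. -/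
theorem span_addSub_eq_top (hΔ : W.Δ ≠ 0) {s t u : k[X]}
    (h : Ideal.span ({s, t, u} : Set k[X]) = ⊤) :
    Ideal.span ({G0 W s t u, G1 W s t u, G2 s t u} : Set k[X]) = ⊤ := by
  have hell : W.IsElliptic := ⟨isUnit_iff_ne_zero.mpr hΔ⟩
  have key : ∀ i : Fin 3, (![s, t, u] i) ^ 4 ∈
      Ideal.span ({G0 W s t u, G1 W s t u, G2 s t u} : Set k[X]) := by
    intro i
    have hc := WeierstrassCurve.addSubMapCoeff_condition (W.map C) ![s, t, u] i
    rw [Fin.sum_univ_three, eval_addSubMap_map_zero, eval_addSubMap_map_one,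
      eval_addSubMap_map_two] at hc
    rw [← hc]
    refine add_mem (add_mem ?_ ?_) ?_
    · exact Ideal.mul_mem_left _ _ (Ideal.subset_span (by simp))
    · exact Ideal.mul_mem_left _ _ (Ideal.subset_span (by simp))
    · exact Ideal.mul_mem_left _ _ (Ideal.subset_span (by simp))
  have h4 := Ideal.span_pow_eq_top ({s, t, u} : Set k[X]) h 4
  rw [eq_top_iff, ← h4, Ideal.span_le]
  rintro _ ⟨x, hx, rfl⟩
  rcases hx with rfl | rfl | rfl
  · exact key 0
  · exact key 1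
  · exact key 2

lemma coeff_G0 {s t u : k[X]} {d : ℕ} (hs : s.natDegree ≤ d) (ht : t.natDegree ≤ d)
    (hu : u.natDegree ≤ d) :
    (G0 W s t u).coeff (d + d) = (s.coeff d) ^ 2 - W.b₄ * s.coeff d * u.coeff d
      - W.b₆ * t.coeff d * u.coeff d - W.b₈ * (u.coeff d) ^ 2 := by
  simp only [G0, coeff_sub, pow_two, mul_assoc, coeff_C_mul,
    coeff_mul_add_eq_of_natDegree_le hs hs, coeff_mul_add_eq_of_natDegree_le hs hu,
    coeff_mul_add_eq_of_natDegree_le ht hu, coeff_mul_add_eq_of_natDegree_le hu hu]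

lemma coeff_G1 {s t u : k[X]} {d : ℕ} (hs : s.natDegree ≤ d) (ht : t.natDegree ≤ d)
    (hu : u.natDegree ≤ d) :
    (G1 W s t u).coeff (d + d) = 2 * t.coeff d * s.coeff d + W.b₂ * s.coeff d * u.coeff d
      + W.b₄ * t.coeff d * u.coeff d + W.b₆ * (u.coeff d) ^ 2 := by
  have h2 : (2 : k[X]) = C 2 := (map_ofNat C 2).symm
  simp only [G1, h2, coeff_add, pow_two, mul_assoc, coeff_C_mul,
    coeff_mul_add_eq_of_natDegree_le ht hs, coeff_mul_add_eq_of_natDegree_le hs hu,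
    coeff_mul_add_eq_of_natDegree_le ht hu, coeff_mul_add_eq_of_natDegree_le hu hu]

omit W in
lemma coeff_G2 {s t u : k[X]} {d : ℕ} (hs : s.natDegree ≤ d) (ht : t.natDegree ≤ d)
    (hu : u.natDegree ≤ d) :
    (G2 s t u).coeff (d + d) = (t.coeff d) ^ 2 - 4 * s.coeff d * u.coeff d := by
  have h4 : (4 : k[X]) = C 4 := (map_ofNat C 4).symm
  simp only [G2, h4, coeff_sub, pow_two, mul_assoc, coeff_C_mul,
    coeff_mul_add_eq_of_natDegree_le ht ht, coeff_mul_add_eq_of_natDegree_le hs hu]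

omit W in
lemma natDegree_sub_le' {p q : k[X]} {n : ℕ} (hp : p.natDegree ≤ n) (hq : q.natDegree ≤ n) :
    (p - q).natDegree ≤ n :=
  (natDegree_sub_le p q).trans (max_le hp hq)

lemma natDegree_G0_le {s t u : k[X]} {d : ℕ} (hs : s.natDegree ≤ d) (ht : t.natDegree ≤ d)
    (hu : u.natDegree ≤ d) : (G0 W s t u).natDegree ≤ d + d := by
  unfold G0
  refine natDegree_sub_le' (natDegree_sub_le' (natDegree_sub_le' ?_ ?_) ?_) ?_
  · exact natDegree_pow_le_of_le 2 hs |>.trans (by omega)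
  · exact natDegree_mul_le_of_le (natDegree_C_mul_le _ _ |>.trans hs) hu
  · exact natDegree_mul_le_of_le (natDegree_C_mul_le _ _ |>.trans ht) hu
  · exact (natDegree_C_mul_le _ _).trans (natDegree_pow_le_of_le 2 hu |>.trans (by omega))

lemma natDegree_G1_le {s t u : k[X]} {d : ℕ} (hs : s.natDegree ≤ d) (ht : t.natDegree ≤ d)
    (hu : u.natDegree ≤ d) : (G1 W s t u).natDegree ≤ d + d := by
  unfold G1
  have h2 : (2 : k[X]) = C 2 := (map_ofNat C 2).symm
  refine natDegree_add_le_of_degree_le (natDegree_add_le_of_degree_le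
    (natDegree_add_le_of_degree_le ?_ ?_) ?_) ?_
  · rw [h2]
    exact natDegree_mul_le_of_le (natDegree_C_mul_le _ _ |>.trans ht) hs
  · exact natDegree_mul_le_of_le (natDegree_C_mul_le _ _ |>.trans hs) hu
  · exact natDegree_mul_le_of_le (natDegree_C_mul_le _ _ |>.trans ht) hu
  · exact (natDegree_C_mul_le _ _).trans (natDegree_pow_le_of_le 2 hu |>.trans (by omega))

omit W in
lemma natDegree_G2_le {s t u : k[X]} {d : ℕ} (hs : s.natDegree ≤ d) (ht : t.natDegree ≤ d)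
    (hu : u.natDegree ≤ d) : (G2 s t u).natDegree ≤ d + d := by
  unfold G2
  have h4 : (4 : k[X]) = C 4 := (map_ofNat C 4).symm
  refine natDegree_sub_le' ?_ ?_
  · exact natDegree_pow_le_of_le 2 ht |>.trans (by omega)
  · rw [h4]
    exact natDegree_mul_le_of_le (natDegree_C_mul_le _ _ |>.trans hs) hu

omit W in
/-- A nonzero triple has a nonzero coefficient in degree `maxDeg`. -/
lemma exists_coeff_maxDeg_ne_zero {s t u : k[X]} (h : ¬ (s = 0 ∧ t = 0 ∧ u = 0)) :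
    ¬ (s.coeff (maxDeg s t u) = 0 ∧ t.coeff (maxDeg s t u) = 0 ∧ u.coeff (maxDeg s t u) = 0) := by
  rintro ⟨h1, h2, h3⟩
  have hs : s.natDegree ≤ maxDeg s t u := le_trans (le_max_left _ _) (le_max_left _ _)
  have ht : t.natDegree ≤ maxDeg s t u := le_trans (le_max_right _ _) (le_max_left _ _)
  have hu : u.natDegree ≤ maxDeg s t u := le_max_right _ _
  have aux : ∀ p : k[X], p.natDegree ≤ maxDeg s t u → p.coeff (maxDeg s t u) = 0 →
      p = 0 ∨ p.natDegree < maxDeg s t u := by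
    intro p hp hc
    by_cases hp0 : p = 0
    · exact Or.inl hp0
    · right
      refine lt_of_le_of_ne hp ?_
      intro heq
      rw [← heq] at hc
      exact hp0 (leadingCoeff_eq_zero.mp hc)
  rcases aux s hs h1 with hs0 | hs'
  · rcases aux t ht h2 with ht0 | ht'
    · rcases aux u hu h3 with hu0 | hu'
      · exact h ⟨hs0, ht0, hu0⟩
      · have : maxDeg s t u = u.natDegree := by
          simp [maxDeg, hs0, ht0]
        omega
    · rcases aux u hu h3 with hu0 | hu'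
      · have : maxDeg s t u = t.natDegree := by
          simp [maxDeg, hs0, hu0]
        omega
      · have : maxDeg s t u = max t.natDegree u.natDegree := by
          simp [maxDeg, hs0]
        omega
  · rcases aux t ht h2 with ht0 | ht'
    · rcases aux u hu h3 with hu0 | hu'
      · have : maxDeg s t u = s.natDegree := by
          simp [maxDeg, ht0, hu0]
        omega
      · have : maxDeg s t u = max s.natDegree u.natDegree := by
          simp [maxDeg, ht0]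
        omega
    · rcases aux u hu h3 with hu0 | hu'
      · have : maxDeg s t u = max s.natDegree t.natDegree := by
          simp [maxDeg, hu0]
        omega
      · have : maxDeg s t u = max (max s.natDegree t.natDegree) u.natDegree := rfl
        omega

/-- **Degree.** The forms exactly double the maximal degree of a nonzero triple. -/
theorem maxDeg_addSub (hΔ : W.Δ ≠ 0) {s t u : k[X]} (h : ¬ (s = 0 ∧ t = 0 ∧ u = 0)) :
    maxDeg (G0 W s t u) (G1 W s t u) (G2 s t u) = 2 * maxDeg s t u := by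
  have hell : W.IsElliptic := ⟨isUnit_iff_ne_zero.mpr hΔ⟩
  have hs : s.natDegree ≤ maxDeg s t u := le_trans (le_max_left _ _) (le_max_left _ _)
  have ht : t.natDegree ≤ maxDeg s t u := le_trans (le_max_right _ _) (le_max_left _ _)
  have hu : u.natDegree ≤ maxDeg s t u := le_max_right _ _
  have h0 := natDegree_G0_le W hs ht hu
  have h1 := natDegree_G1_le W hs ht hu
  have h2 := natDegree_G2_le hs ht hu
  have hle : maxDeg (G0 W s t u) (G1 W s t u) (G2 s t u) ≤ 2 * maxDeg s t u := by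
    rw [two_mul]
    exact max_le (max_le h0 h1) h2
  refine le_antisymm hle ?_
  -- leading coefficients
  have hx : (![s.coeff (maxDeg s t u), t.coeff (maxDeg s t u), u.coeff (maxDeg s t u)] :
      Fin 3 → k) ≠ 0 := by
    intro h0
    apply exists_coeff_maxDeg_ne_zero h
    have e0 := congrFun h0 0
    have e1 := congrFun h0 1
    have e2 := congrFun h0 2
    simp at e0 e1 e2
    exact ⟨e0, e1, e2⟩
  have hne := WeierstrassCurve.addSubMap_ne_zero W hx
  have hex : ¬ ((G0 W s t u).coeff (maxDeg s t u + maxDeg s t u) = 0 ∧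
      (G1 W s t u).coeff (maxDeg s t u + maxDeg s t u) = 0 ∧
      (G2 s t u).coeff (maxDeg s t u + maxDeg s t u) = 0) := by
    rintro ⟨c0, c1, c2⟩
    apply hne
    rw [coeff_G0 W hs ht hu] at c0
    rw [coeff_G1 W hs ht hu] at c1
    rw [coeff_G2 hs ht hu] at c2
    funext i
    fin_cases i
    · simpa [WeierstrassCurve.addSubMap] using c0
    · simpa [WeierstrassCurve.addSubMap] using c1
    · simpa [WeierstrassCurve.addSubMap] using c2
  rw [two_mul]
  by_contra hlt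
  rw [not_le] at hlt
  apply hex
  have l0 : (G0 W s t u).natDegree < maxDeg s t u + maxDeg s t u :=
    lt_of_le_of_lt (le_trans (le_max_left _ _) (le_max_left _ _)) hlt
  have l1 : (G1 W s t u).natDegree < maxDeg s t u + maxDeg s t u :=
    lt_of_le_of_lt (le_trans (le_max_right _ _) (le_max_left _ _)) hlt
  have l2 : (G2 s t u).natDegree < maxDeg s t u + maxDeg s t u :=
    lt_of_le_of_lt (le_max_right _ _) hlt
  exact ⟨coeff_eq_zero_of_natDegree_lt l0, coeff_eq_zero_of_natDegree_lt l1,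
    coeff_eq_zero_of_natDegree_lt l2⟩

end Forms

section Sym

variable {k : Type*} [Field k]

/-- The height of a projective point `(p : q)` given by a pair of polynomials. -/
noncomputable def ht (p q : k[X]) : ℕ := max p.natDegree q.natDegree

/-- A coprime pair has a nonzero coefficient in degree `ht`. -/
lemma coeff_ht_ne_zero {p q : k[X]} (h : IsCoprime p q) :
    ¬ (p.coeff (ht p q) = 0 ∧ q.coeff (ht p q) = 0) := by
  rintro ⟨h1, h2⟩
  have hp : p.natDegree ≤ ht p q := le_max_left _ _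
  have hq : q.natDegree ≤ ht p q := le_max_right _ _
  have aux : ∀ r : k[X], r.natDegree ≤ ht p q → r.coeff (ht p q) = 0 →
      r = 0 ∨ r.natDegree < ht p q := by
    intro r hr hc
    by_cases hr0 : r = 0
    · exact Or.inl hr0
    · right
      refine lt_of_le_of_ne hr ?_
      intro heq
      rw [← heq] at hc
      exact hr0 (leadingCoeff_eq_zero.mp hc)
  rcases aux p hp h1 with hp0 | hp'
  · rcases aux q hq h2 with hq0 | hq'
    · rw [hp0, hq0] at h
      exact not_isCoprime_zero_zero h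
    · have : ht p q = q.natDegree := by simp [ht, hp0]
      omega
  · rcases aux q hq h2 with hq0 | hq'
    · have : ht p q = p.natDegree := by simp [ht, hq0]
      omega
    · have : ht p q = max p.natDegree q.natDegree := rfl
      omega

/-- **Gauss lemma for pairs, primitivity.** -/
theorem span_sym2_eq_top {p₁ q₁ p₂ q₂ : k[X]} (h₁ : IsCoprime p₁ q₁) (h₂ : IsCoprime p₂ q₂) :
    Ideal.span ({p₁ * p₂, p₁ * q₂ + q₁ * p₂, q₁ * q₂} : Set k[X]) = ⊤ := by
  set I := Ideal.span ({p₁ * p₂, p₁ * q₂ + q₁ * p₂, q₁ * q₂} : Set k[X]) with hI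
  have hs : p₁ * p₂ ∈ I := Ideal.subset_span (by simp)
  have ht : p₁ * q₂ + q₁ * p₂ ∈ I := Ideal.subset_span (by simp)
  have hu : q₁ * q₂ ∈ I := Ideal.subset_span (by simp)
  have e1 : (p₁ * p₂) ^ 2 ∈ I := by
    rw [pow_two]
    exact Ideal.mul_mem_left _ _ hs
  have e2 : (q₁ * q₂) ^ 2 ∈ I := by
    rw [pow_two]
    exact Ideal.mul_mem_left _ _ hu
  have e3 : (p₁ * q₂) ^ 2 ∈ I := by
    have : (p₁ * q₂) ^ 2 = (p₁ * q₂) * (p₁ * q₂ + q₁ * p₂) - (p₁ * p₂) * (q₁ * q₂) := by ring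
    rw [this]
    exact sub_mem (Ideal.mul_mem_left _ _ ht) (Ideal.mul_mem_left _ _ hu)
  have e4 : (q₁ * p₂) ^ 2 ∈ I := by
    have : (q₁ * p₂) ^ 2 = (q₁ * p₂) * (p₁ * q₂ + q₁ * p₂) - (p₁ * p₂) * (q₁ * q₂) := by ring
    rw [this]
    exact sub_mem (Ideal.mul_mem_left _ _ ht) (Ideal.mul_mem_left _ _ hu)
  obtain ⟨a, b, hab⟩ := (h₁.pow (m := 2) (n := 2))
  obtain ⟨c, e, hce⟩ := (h₂.pow (m := 2) (n := 2))
  rw [Ideal.eq_top_iff_one]
  have h1 : (1 : k[X]) = a * c * (p₁ * p₂) ^ 2 + a * e * (p₁ * q₂) ^ 2 + b * c * (q₁ * p₂) ^ 2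
      + b * e * (q₁ * q₂) ^ 2 := by
    linear_combination (-1 : k[X]) * hab * (c * p₂ ^ 2 + e * q₂ ^ 2) - hce
  rw [h1]
  exact add_mem (add_mem (add_mem (Ideal.mul_mem_left _ _ e1) (Ideal.mul_mem_left _ _ e3))
    (Ideal.mul_mem_left _ _ e4)) (Ideal.mul_mem_left _ _ e2)

/-- **Gauss lemma for pairs, degree.** -/
theorem maxDeg_sym2 {p₁ q₁ p₂ q₂ : k[X]} (h₁ : IsCoprime p₁ q₁) (h₂ : IsCoprime p₂ q₂) :
    maxDeg (p₁ * p₂) (p₁ * q₂ + q₁ * p₂) (q₁ * q₂) = ht p₁ q₁ + ht p₂ q₂ := by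
  have hp₁ : p₁.natDegree ≤ ht p₁ q₁ := le_max_left _ _
  have hq₁ : q₁.natDegree ≤ ht p₁ q₁ := le_max_right _ _
  have hp₂ : p₂.natDegree ≤ ht p₂ q₂ := le_max_left _ _
  have hq₂ : q₂.natDegree ≤ ht p₂ q₂ := le_max_right _ _
  have l0 : (p₁ * p₂).natDegree ≤ ht p₁ q₁ + ht p₂ q₂ := natDegree_mul_le_of_le hp₁ hp₂
  have l1 : (p₁ * q₂ + q₁ * p₂).natDegree ≤ ht p₁ q₁ + ht p₂ q₂ :=
    natDegree_add_le_of_degree_le (natDegree_mul_le_of_le hp₁ hq₂) (natDegree_mul_le_of_le hq₁ hp₂)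
  have l2 : (q₁ * q₂).natDegree ≤ ht p₁ q₁ + ht p₂ q₂ := natDegree_mul_le_of_le hq₁ hq₂
  refine le_antisymm (max_le (max_le l0 l1) l2) ?_
  by_contra hlt
  rw [not_le] at hlt
  have c0 : (p₁ * p₂).coeff (ht p₁ q₁ + ht p₂ q₂) = 0 :=
    coeff_eq_zero_of_natDegree_lt
      (lt_of_le_of_lt (le_trans (le_max_left _ _) (le_max_left _ _)) hlt)
  have c1 : (p₁ * q₂ + q₁ * p₂).coeff (ht p₁ q₁ + ht p₂ q₂) = 0 :=
    coeff_eq_zero_of_natDegree_lt
      (lt_of_le_of_lt (le_trans (le_max_right _ _) (le_max_left _ _)) hlt)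
  have c2 : (q₁ * q₂).coeff (ht p₁ q₁ + ht p₂ q₂) = 0 :=
    coeff_eq_zero_of_natDegree_lt (lt_of_le_of_lt (le_max_right _ _) hlt)
  rw [coeff_mul_add_eq_of_natDegree_le hp₁ hp₂] at c0
  rw [coeff_add, coeff_mul_add_eq_of_natDegree_le hp₁ hq₂,
    coeff_mul_add_eq_of_natDegree_le hq₁ hp₂] at c1
  rw [coeff_mul_add_eq_of_natDegree_le hq₁ hq₂] at c2
  have n₁ := coeff_ht_ne_zero h₁
  have n₂ := coeff_ht_ne_zero h₂
  rcases mul_eq_zero.mp c0 with ha | ha
  · have hb : q₁.coeff (ht p₁ q₁) ≠ 0 := fun hb => n₁ ⟨ha, hb⟩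
    have hb2 : q₂.coeff (ht p₂ q₂) = 0 := (mul_eq_zero.mp c2).resolve_left hb
    have ha2 : p₂.coeff (ht p₂ q₂) ≠ 0 := fun h => n₂ ⟨h, hb2⟩
    rw [ha, zero_mul, zero_add] at c1
    exact (mul_ne_zero hb ha2) c1
  · have hb : q₂.coeff (ht p₂ q₂) ≠ 0 := fun hb => n₂ ⟨ha, hb⟩
    have hb1 : q₁.coeff (ht p₁ q₁) = 0 := (mul_eq_zero.mp c2).resolve_right hb
    have ha1 : p₁.coeff (ht p₁ q₁) ≠ 0 := fun h => n₁ ⟨h, hb1⟩
    rw [hb1, zero_mul, add_zero] at c1
    exact (mul_ne_zero ha1 hb) c1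

/-- Two proportional triples generating the unit ideal have the same degrees. -/
theorem natDegree_eq_of_proportional {a₀ a₁ a₂ b₀ b₁ b₂ : k[X]}
    (ha : Ideal.span ({a₀, a₁, a₂} : Set k[X]) = ⊤)
    (hb : Ideal.span ({b₀, b₁, b₂} : Set k[X]) = ⊤)
    (h01 : a₀ * b₁ = a₁ * b₀) (h02 : a₀ * b₂ = a₂ * b₀) (h12 : a₁ * b₂ = a₂ * b₁) :
    b₀.natDegree = a₀.natDegree ∧ b₁.natDegree = a₁.natDegree ∧ b₂.natDegree = a₂.natDegree := by
  have ha1 : (1 : k[X]) ∈ Ideal.span ({a₀, a₁, a₂} : Set k[X]) := by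
    rw [ha]
    exact Submodule.mem_top
  have hb1 : (1 : k[X]) ∈ Ideal.span ({b₀, b₁, b₂} : Set k[X]) := by
    rw [hb]
    exact Submodule.mem_top
  obtain ⟨x₀, z, hz, hx⟩ := Ideal.mem_span_insert.mp ha1
  obtain ⟨x₁, x₂, rfl⟩ := Ideal.mem_span_pair.mp hz
  obtain ⟨y₀, w, hw, hy⟩ := Ideal.mem_span_insert.mp hb1
  obtain ⟨y₁, y₂, rfl⟩ := Ideal.mem_span_pair.mp hw
  -- `b = a * β`, `a = b * α`
  have eb0 : b₀ = a₀ * (x₀ * b₀ + x₁ * b₁ + x₂ * b₂) := by
    linear_combination b₀ * hx - x₁ * h01 - x₂ * h02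
  have eb1 : b₁ = a₁ * (x₀ * b₀ + x₁ * b₁ + x₂ * b₂) := by
    linear_combination b₁ * hx + x₀ * h01 - x₂ * h12
  have eb2 : b₂ = a₂ * (x₀ * b₀ + x₁ * b₁ + x₂ * b₂) := by
    linear_combination b₂ * hx + x₀ * h02 + x₁ * h12
  have ea0 : a₀ = b₀ * (y₀ * a₀ + y₁ * a₁ + y₂ * a₂) := by
    linear_combination a₀ * hy + y₁ * h01 + y₂ * h02
  have ea1 : a₁ = b₁ * (y₀ * a₀ + y₁ * a₁ + y₂ * a₂) := by
    linear_combination a₁ * hy - y₀ * h01 + y₂ * h12
  have ea2 : a₂ = b₂ * (y₀ * a₀ + y₁ * a₁ + y₂ * a₂) := by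
    linear_combination a₂ * hy - y₀ * h02 - y₁ * h12
  set β := x₀ * b₀ + x₁ * b₁ + x₂ * b₂ with hβ
  set α := y₀ * a₀ + y₁ * a₁ + y₂ * a₂ with hα
  have hunit : β * α = 1 := by
    have hb0 : ¬ (b₀ = 0 ∧ b₁ = 0 ∧ b₂ = 0) := by
      rintro ⟨h0, h1, h2⟩
      rw [h0, h1, h2] at hy
      simp at hy
    have key : ∀ b a : k[X], b = a * β → a = b * α → b ≠ 0 → β * α = 1 := by
      intro b a hb ha hne
      have : b * (β * α - 1) = 0 := by
        linear_combination (-1 : k[X]) * hb - β * ha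
      rcases mul_eq_zero.mp this with h | h
      · exact absurd h hne
      · exact sub_eq_zero.mp h
    by_cases h0 : b₀ = 0
    · by_cases h1 : b₁ = 0
      · exact key b₂ a₂ eb2 ea2 (fun h2 => hb0 ⟨h0, h1, h2⟩)
      · exact key b₁ a₁ eb1 ea1 h1
    · exact key b₀ a₀ eb0 ea0 h0
  have hβu : IsUnit β := IsUnit.of_mul_eq_one _ hunit
  obtain ⟨c, hc, hcβ⟩ := Polynomial.isUnit_iff.mp hβu
  have hc0 : c ≠ 0 := hc.ne_zero
  refine ⟨?_, ?_, ?_⟩
  · rw [eb0, ← hcβ, natDegree_mul_C hc0]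
  · rw [eb1, ← hcβ, natDegree_mul_C hc0]
  · rw [eb2, ← hcβ, natDegree_mul_C hc0]

/-- Two proportional triples generating the unit ideal have the same maximal degree. -/
theorem maxDeg_eq_of_proportional {a₀ a₁ a₂ b₀ b₁ b₂ : k[X]}
    (ha : Ideal.span ({a₀, a₁, a₂} : Set k[X]) = ⊤)
    (hb : Ideal.span ({b₀, b₁, b₂} : Set k[X]) = ⊤)
    (h01 : a₀ * b₁ = a₁ * b₀) (h02 : a₀ * b₂ = a₂ * b₀) (h12 : a₁ * b₂ = a₂ * b₁) :
    maxDeg b₀ b₁ b₂ = maxDeg a₀ a₁ a₂ := by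
  obtain ⟨e0, e1, e2⟩ := natDegree_eq_of_proportional ha hb h01 h02 h12
  unfold maxDeg
  rw [e0, e1, e2]

end Sym

section Main

variable {k : Type*} [Field k] (W : WeierstrassCurve k)

/-- The polynomial form of the parallelogram law: if `(G0, G1, G2)` of the symmetric triple of
`(p₁ : q₁)`, `(p₂ : q₂)` is proportional to the symmetric triple of `(p₃ : q₃)`, `(p₄ : q₄)`, then
`ht₃ + ht₄ = 2 ht₁ + 2 ht₂`. -/
theorem ht_add_of_proportional (hΔ : W.Δ ≠ 0) {p₁ q₁ p₂ q₂ p₃ q₃ p₄ q₄ : k[X]}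
    (h₁ : IsCoprime p₁ q₁) (h₂ : IsCoprime p₂ q₂) (h₃ : IsCoprime p₃ q₃) (h₄ : IsCoprime p₄ q₄)
    (h01 : G0 W (p₁ * p₂) (p₁ * q₂ + q₁ * p₂) (q₁ * q₂) * (p₃ * q₄ + q₃ * p₄) =
      G1 W (p₁ * p₂) (p₁ * q₂ + q₁ * p₂) (q₁ * q₂) * (p₃ * p₄))
    (h02 : G0 W (p₁ * p₂) (p₁ * q₂ + q₁ * p₂) (q₁ * q₂) * (q₃ * q₄) =
      G2 (p₁ * p₂) (p₁ * q₂ + q₁ * p₂) (q₁ * q₂) * (p₃ * p₄))
    (h12 : G1 W (p₁ * p₂) (p₁ * q₂ + q₁ * p₂) (q₁ * q₂) * (q₃ * q₄) =
      G2 (p₁ * p₂) (p₁ * q₂ + q₁ * p₂) (q₁ * q₂) * (p₃ * q₄ + q₃ * p₄)) :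
    ht p₃ q₃ + ht p₄ q₄ = 2 * ht p₁ q₁ + 2 * ht p₂ q₂ := by
  have hs12 := span_sym2_eq_top h₁ h₂
  have hs34 := span_sym2_eq_top h₃ h₄
  have hG := span_addSub_eq_top W hΔ hs12
  have hne : ¬ (p₁ * p₂ = 0 ∧ p₁ * q₂ + q₁ * p₂ = 0 ∧ q₁ * q₂ = 0) := by
    rintro ⟨e0, e1, e2⟩
    rw [e0, e1, e2] at hs12
    have : (1 : k[X]) ∈ Ideal.span ({0, 0, 0} : Set k[X]) := by
      rw [hs12]
      exact Submodule.mem_top
    simp at this
  have hdeg := maxDeg_eq_of_proportional hG hs34 h01 h02 h12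
  rw [maxDeg_sym2 h₃ h₄, maxDeg_addSub W hΔ hne, maxDeg_sym2 h₁ h₂] at hdeg
  rw [hdeg]
  ring

/-- **The exact parallelogram law for degrees of `x`-coordinates.**  `(pᵢ : qᵢ)` are the projective
`x`-coordinates, in lowest terms, of `P`, `Q`, `P + Q`, `P - Q`; the hypotheses `e0 e1 e2` are the
addition-subtraction law `Lib/XAddSub.law` read in a field `L ⊇ k[X]`. -/
theorem height_law (hΔ : W.Δ ≠ 0) {L : Type*} [Field L] [Algebra k L] (φ : k[X] →ₐ[k] L)
    (hφ : Function.Injective φ) {p₁ q₁ p₂ q₂ p₃ q₃ p₄ q₄ : k[X]}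
    (h₁ : IsCoprime p₁ q₁) (h₂ : IsCoprime p₂ q₂) (h₃ : IsCoprime p₃ q₃) (h₄ : IsCoprime p₄ q₄)
    {c : L} (_hc : c ≠ 0)
    (e0 : XAddSub.g0 (W.map (algebraMap k L)).toAffine (φ (p₁ * p₂)) (φ (p₁ * q₂ + q₁ * p₂))
      (φ (q₁ * q₂)) = c * φ (p₃ * p₄))
    (e1 : XAddSub.g1 (W.map (algebraMap k L)).toAffine (φ (p₁ * p₂)) (φ (p₁ * q₂ + q₁ * p₂))
      (φ (q₁ * q₂)) = c * φ (p₃ * q₄ + q₃ * p₄))
    (e2 : XAddSub.g2 (φ (p₁ * p₂)) (φ (p₁ * q₂ + q₁ * p₂)) (φ (q₁ * q₂)) = c * φ (q₃ * q₄)) :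
    max p₃.natDegree q₃.natDegree + max p₄.natDegree q₄.natDegree =
      2 * max p₁.natDegree q₁.natDegree + 2 * max p₂.natDegree q₂.natDegree := by
  have hC : ∀ a : k, φ (C a) = algebraMap k L a := fun a => by
    rw [← Polynomial.algebraMap_eq, AlgHom.commutes]
  have f0 : φ (G0 W (p₁ * p₂) (p₁ * q₂ + q₁ * p₂) (q₁ * q₂)) = c * φ (p₃ * p₄) := by
    rw [← e0]
    simp only [G0, XAddSub.g0, map_sub, map_mul, map_pow, hC, WeierstrassCurve.map_b₄,
      WeierstrassCurve.map_b₆, WeierstrassCurve.map_b₈]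
  have f1 : φ (G1 W (p₁ * p₂) (p₁ * q₂ + q₁ * p₂) (q₁ * q₂)) = c * φ (p₃ * q₄ + q₃ * p₄) := by
    rw [← e1]
    simp only [G1, XAddSub.g1, map_add, map_mul, map_pow, hC, WeierstrassCurve.map_b₂,
      WeierstrassCurve.map_b₄, WeierstrassCurve.map_b₆, map_ofNat]
  have f2 : φ (G2 (p₁ * p₂) (p₁ * q₂ + q₁ * p₂) (q₁ * q₂)) = c * φ (q₃ * q₄) := by
    rw [← e2]
    simp only [G2, XAddSub.g2, map_sub, map_mul, map_pow, map_ofNat]
  have key : ∀ a b a' b' : k[X], φ a = c * φ a' → φ b = c * φ b' → φ (a * b') = φ (b * a') := by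
    intro a b a' b' ha hb
    rw [map_mul, map_mul, ha, hb]
    ring
  exact ht_add_of_proportional W hΔ h₁ h₂ h₃ h₄ (hφ (key _ _ _ _ f0 f1)) (hφ (key _ _ _ _ f0 f2))
    (hφ (key _ _ _ _ f1 f2))

/-! ### The law for points -/

open WeierstrassCurve.Affine in
/-- `(p : q)` is the projective `x`-coordinate of the point `P` (`(1 : 0)` for the origin). -/
def IsXRep {L : Type*} [Field L] [Algebra k L] (φ : k[X] →ₐ[k] L)
    (P : (W.map (algebraMap k L)).toAffine.Point) (p q : k[X]) : Prop :=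
  ∃ c : L, c ≠ 0 ∧ P.xRep 0 = c * φ p ∧ P.xRep 1 = c * φ q

variable {W} in
open WeierstrassCurve.Affine in
lemma isXRep_zero {L : Type*} [Field L] [Algebra k L] (φ : k[X] →ₐ[k] L) :
    IsXRep W φ (0 : (W.map (algebraMap k L)).toAffine.Point) 1 0 :=
  ⟨1, one_ne_zero, by simp [Point.xRep_zero], by simp [Point.xRep_zero]⟩

variable {W} in
open WeierstrassCurve.Affine in
lemma isXRep_some {L : Type*} [Field L] [Algebra k L] (φ : k[X] →ₐ[k] L) {x y : L}
    (h : (W.map (algebraMap k L)).toAffine.Nonsingular x y) {p q : k[X]} (hq : φ q ≠ 0)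
    (hx : x * φ q = φ p) : IsXRep W φ (Point.some x y h) p q :=
  ⟨(φ q)⁻¹, inv_ne_zero hq, by
    rw [Point.xRep_some]
    simp only [Matrix.cons_val_zero]
    rw [← hx, mul_comm, mul_assoc, mul_inv_cancel₀ hq, mul_one], by
    rw [Point.xRep_some]
    simp only [Matrix.cons_val_one, Matrix.cons_val_zero]
    rw [inv_mul_cancel₀ hq]⟩

open WeierstrassCurve.Affine in
/-- **The exact parallelogram law for points**: if `(pᵢ : qᵢ)` are coprime polynomial
representatives of the `x`-coordinates of `P`, `Q`, `P + Q`, `P - Q`, then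
`ht (P + Q) + ht (P - Q) = 2 ht P + 2 ht Q` (no restriction on `P`, `Q`). -/
theorem height_law_points (hΔ : W.Δ ≠ 0) {L : Type*} [Field L] [DecidableEq L] [Algebra k L]
    (φ : k[X] →ₐ[k] L) (hφ : Function.Injective φ)
    (P Q : (W.map (algebraMap k L)).toAffine.Point) {p₁ q₁ p₂ q₂ p₃ q₃ p₄ q₄ : k[X]}
    (h₁ : IsCoprime p₁ q₁) (h₂ : IsCoprime p₂ q₂) (h₃ : IsCoprime p₃ q₃) (h₄ : IsCoprime p₄ q₄)
    (r₁ : IsXRep W φ P p₁ q₁) (r₂ : IsXRep W φ Q p₂ q₂) (r₃ : IsXRep W φ (P + Q) p₃ q₃)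
    (r₄ : IsXRep W φ (P - Q) p₄ q₄) :
    ht p₃ q₃ + ht p₄ q₄ = 2 * ht p₁ q₁ + 2 * ht p₂ q₂ := by
  have hΔL : (W.map (algebraMap k L)).toAffine.Δ ≠ 0 := by
    rw [WeierstrassCurve.map_Δ]
    exact fun h => hΔ ((algebraMap k L).injective (h.trans (map_zero _).symm))
  obtain ⟨c, hc, l0, l1, l2⟩ := XAddSub.law hΔL P Q
  obtain ⟨c₁, hc₁, a₁, b₁⟩ := r₁
  obtain ⟨c₂, hc₂, a₂, b₂⟩ := r₂
  obtain ⟨c₃, hc₃, a₃, b₃⟩ := r₃
  obtain ⟨c₄, hc₄, a₄, b₄⟩ := r₄
  simp only [a₁, b₁, a₂, b₂, a₃, b₃, a₄, b₄] at l0 l1 l2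
  have hcc : c₁ * c₂ ≠ 0 := mul_ne_zero hc₁ hc₂
  refine height_law W hΔ φ hφ h₁ h₂ h₃ h₄ (c := c * c₃ * c₄ / (c₁ * c₂) ^ 2)
    (div_ne_zero (mul_ne_zero (mul_ne_zero hc hc₃) hc₄) (pow_ne_zero 2 hcc)) ?_ ?_ ?_
  · rw [div_mul_eq_mul_div, eq_div_iff (pow_ne_zero 2 hcc)]
    simp only [XAddSub.g0, map_mul, map_add] at l0 ⊢
    linear_combination l0
  · rw [div_mul_eq_mul_div, eq_div_iff (pow_ne_zero 2 hcc)]
    simp only [XAddSub.g1, map_mul, map_add] at l1 ⊢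
    linear_combination l1
  · rw [div_mul_eq_mul_div, eq_div_iff (pow_ne_zero 2 hcc)]
    simp only [XAddSub.g2, map_mul, map_add] at l2 ⊢
    linear_combination l2

end Main

end Fermat.Agent.Lib.HeightLaw
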