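import Mathlib
import Fermat.Agent.Lib.HolVal

/-!
# Division in the ring `Hol` of holomorphic functions on `ℍ`

Design-neutral analytic bricks on the vocabulary of `Lib/HolVal` (`Hol`, `ordNat`, `ordAt`,
`ordAtFrac`):

* `exists_analytic_div` : plain `ℂ → ℂ` form — if `A`, `B` are analytic on a set `U`, `B` has
  finite order everywhere on `U` and `ord B ≤ ord A` on `U`, then `A = Q * B` on `U` with `Q`
  analytic on `U` (removable singularities);
* `exists_eq_mul_of_ordAt_le` : `b ∣ a` in `Hol` as soon as `ordAt τ a ≤ ordAt τ b` for all `τ`;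
* `exists_algebraMap_eq_of_ordAtFrac_le_one` : an element of `FractionRing Hol` without poles
  lies in `Hol`;
* `isIntegrallyClosed_Hol` : `Hol` is integrally closed; `exists_algebraMap_eq_of_isIntegral`;
* `isUnit_of_forall_ne_zero` : a nowhere vanishing holomorphic function is a unit of `Hol`;
* `finite_zeros_of_isCompact` : a nonzero holomorphic function has finitely many zeros in a
  compact subset of `ℍ`; `finite_ordAtFrac_ne_one_of_isCompact` : a nonzero element of
  `FractionRing Hol` has finitely many zeros and poles in a compact subset of `ℍ`;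
* `isCompact_fd_im_le` : the truncated fundamental domain of the modular group is compact;
* `ordAtFrac_map_compHom`, `ordAtFrac_smul_of_fixed` : point valuations and precomposition
  with elements of the modular group;
* `exists_finset_orbits_of_invariant` : zeros and poles of an invariant element lie, up to
  the region `Im > c`, in finitely many orbits of the modular group.
-/

namespace Fermat.Agent.Lib.HolDiv

open UpperHalfPlane Filter Topology Fermat.Agent.Lib.HolVal
open scoped Manifold WithZero MatrixGroups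

/-! ### The plain complex-analytic core -/

/-- **Division with removable singularities.** If `A`, `B` are analytic on `U`, `B` has finite
order at every point of `U`, and `ord_z B ≤ ord_z A` for all `z ∈ U`, then there is `Q`
analytic on `U` with `A = Q * B` on `U`. -/
theorem exists_analytic_div {U : Set ℂ} {A B : ℂ → ℂ}
    (hA : AnalyticOnNhd ℂ A U) (hB : AnalyticOnNhd ℂ B U)
    (hBfin : ∀ z ∈ U, analyticOrderAt B z ≠ ⊤)
    (hord : ∀ z ∈ U, analyticOrderAt B z ≤ analyticOrderAt A z) :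
    ∃ Q : ℂ → ℂ, AnalyticOnNhd ℂ Q U ∧ ∀ z ∈ U, A z = Q z * B z := by
  have hf : MeromorphicOn (A * B⁻¹) U := fun z hz =>
    (hA z hz).meromorphicAt.mul (hB z hz).meromorphicAt.inv
  have hQan : AnalyticOnNhd ℂ (toMeromorphicNFOn (A * B⁻¹) U) U := by
    intro z hz
    have hNF := meromorphicNFOn_toMeromorphicNFOn (A * B⁻¹) U hz
    rw [← hNF.meromorphicOrderAt_nonneg_iff_analyticAt, meromorphicOrderAt_toMeromorphicNFOn hf hz,
      meromorphicOrderAt_mul (hA z hz).meromorphicAt (hB z hz).meromorphicAt.inv,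
      meromorphicOrderAt_inv, (hA z hz).meromorphicOrderAt_eq, (hB z hz).meromorphicOrderAt_eq]
    have h1 := hord z hz
    have h2 := hBfin z hz
    lift analyticOrderAt B z to ℕ using h2 with k
    cases hm : analyticOrderAt A z with
    | top => simp
    | coe m =>
      rw [hm] at h1
      have hkm : k ≤ m := by exact_mod_cast h1
      simp only [ENat.map_natCast]
      have : ((m : ℤ) : WithTop ℤ) + -((k : ℤ) : WithTop ℤ) = (((m : ℤ) - (k : ℤ) : ℤ) : WithTop ℤ) := by
        rw [sub_eq_add_neg, WithTop.coe_add]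
        rfl
      rw [this]
      exact_mod_cast sub_nonneg.mpr (Int.ofNat_le.mpr hkm)
  refine ⟨toMeromorphicNFOn (A * B⁻¹) U, hQan, ?_⟩
  intro z hz
  have h1 : toMeromorphicNFOn (A * B⁻¹) U =ᶠ[𝓝[≠] z] A * B⁻¹ :=
    hf.toMeromorphicNFOn_eq_self_on_nhdsNE hz
  have h2 : ∀ᶠ w in 𝓝[≠] z, B w ≠ 0 := by
    rcases (hB z hz).eventually_eq_zero_or_eventually_ne_zero with h | h
    · exact absurd (analyticOrderAt_eq_top.mpr h) (hBfin z hz)
    · exact h
  have h3 : (fun w => toMeromorphicNFOn (A * B⁻¹) U w * B w) =ᶠ[𝓝[≠] z] A := by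
    filter_upwards [h1, h2] with w hw hBw
    rw [hw]
    simp only [Pi.mul_apply, Pi.inv_apply]
    field_simp
  have hc1 : ContinuousAt (fun w => toMeromorphicNFOn (A * B⁻¹) U w * B w) z :=
    (hQan z hz).continuousAt.mul (hB z hz).continuousAt
  have h4 := (hc1.eventuallyEq_nhds_iff_eventuallyEq_nhdsNE (hA z hz).continuousAt).mp h3
  exact h4.eq_of_nhds.symm

/-! ### Division in `Hol` -/

/-- The function on `ℂ` attached to an element of `Hol` is analytic on the upper half plane. -/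
theorem analyticOnNhd_comp_ofComplex (a : Hol) :
    AnalyticOnNhd ℂ ((a : ℍ → ℂ) ∘ ofComplex) {z : ℂ | 0 < z.im} := by
  intro z hz
  exact analyticAt_of_mdiff a.2 ⟨z, hz⟩

/-- A function analytic on the upper half plane defines an element of `Hol`. -/
theorem restrict_mem_Hol {Q : ℂ → ℂ} (hQ : AnalyticOnNhd ℂ Q {z : ℂ | 0 < z.im}) :
    (fun τ : ℍ => Q (τ : ℂ)) ∈ Hol := by
  rw [mem_Hol, UpperHalfPlane.mdifferentiable_iff]
  refine hQ.differentiableOn.congr ?_
  intro z hz
  simp only [Function.comp_apply]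
  rw [ofComplex_apply_of_im_pos hz]

/-- **(D1)** If `ord_τ a ≥ ord_τ b` at every `τ : ℍ` (i.e. `ordAt τ a ≤ ordAt τ b`), then `b`
divides `a` in `Hol`. -/
theorem exists_eq_mul_of_ordAt_le (a b : Hol) (hb : b ≠ 0)
    (h : ∀ τ : ℍ, ordAt τ a ≤ ordAt τ b) : ∃ q : Hol, a = q * b := by
  by_cases ha : a = 0
  · exact ⟨0, by rw [ha, zero_mul]⟩
  have hord : ∀ z ∈ {z : ℂ | 0 < z.im},
      analyticOrderAt ((b : ℍ → ℂ) ∘ ofComplex) z ≤ analyticOrderAt ((a : ℍ → ℂ) ∘ ofComplex) z := by
    intro z hz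
    have h1 := h ⟨z, hz⟩
    rw [ordAt_apply _ ha, ordAt_apply _ hb, WithZero.exp_le_exp] at h1
    have h2 : ordNat ⟨z, hz⟩ (b : ℍ → ℂ) ≤ ordNat ⟨z, hz⟩ (a : ℍ → ℂ) := by omega
    have h3 := cast_ordNat a.2 (coe_ne_zero ha) ⟨z, hz⟩
    have h4 := cast_ordNat b.2 (coe_ne_zero hb) ⟨z, hz⟩
    change (ordNat ⟨z, hz⟩ (a : ℍ → ℂ) : ℕ∞) = analyticOrderAt ((a : ℍ → ℂ) ∘ ofComplex) z at h3
    change (ordNat ⟨z, hz⟩ (b : ℍ → ℂ) : ℕ∞) = analyticOrderAt ((b : ℍ → ℂ) ∘ ofComplex) z at h4
    rw [← h3, ← h4]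
    exact_mod_cast h2
  have hfin : ∀ z ∈ {z : ℂ | 0 < z.im}, analyticOrderAt ((b : ℍ → ℂ) ∘ ofComplex) z ≠ ⊤ := by
    intro z hz
    exact order_ne_top b.2 (coe_ne_zero hb) ⟨z, hz⟩
  obtain ⟨Q, hQ, hQmul⟩ := exists_analytic_div (analyticOnNhd_comp_ofComplex a)
    (analyticOnNhd_comp_ofComplex b) hfin hord
  refine ⟨⟨fun τ : ℍ => Q (τ : ℂ), restrict_mem_Hol hQ⟩, ?_⟩
  apply Subtype.ext
  funext τ
  have h1 := hQmul (τ : ℂ) τ.im_pos
  simp only [Function.comp_apply, ofComplex_apply] at h1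
  exact h1

/-- **(D2)** An element of `FractionRing Hol` without poles (all point valuations `≤ 1`) is
holomorphic. -/
theorem exists_algebraMap_eq_of_ordAtFrac_le_one (x : FractionRing Hol)
    (h : ∀ τ : ℍ, ordAtFrac (M := FractionRing Hol) (RingHom.id Hol)
      Function.injective_id τ x ≤ 1) :
    ∃ q : Hol, algebraMap Hol (FractionRing Hol) q = x := by
  obtain ⟨a, b, hb, rfl⟩ := IsFractionRing.div_surjective Hol x
  have hb0 : b ≠ 0 := nonZeroDivisors.ne_zero hb
  have hb' : algebraMap Hol (FractionRing Hol) b ≠ 0 := by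
    intro h0
    exact hb0 (IsFractionRing.injective Hol (FractionRing Hol) (by rw [h0, map_zero]))
  have hle : ∀ τ : ℍ, ordAt τ a ≤ ordAt τ b := by
    intro τ
    have h1 := h τ
    have hval : ordAtFrac (M := FractionRing Hol) (RingHom.id Hol) Function.injective_id τ
        (algebraMap Hol (FractionRing Hol) a / algebraMap Hol (FractionRing Hol) b)
        = ordAt τ a / ordAt τ b := by
      rw [map_div₀, ordAtFrac_algebraMap, ordAtFrac_algebraMap]
      rfl
    rw [hval] at h1
    exact (div_le_one₀ (zero_lt_iff.mpr (ordAt_ne_zero τ hb0))).mp h1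
  obtain ⟨q, hq⟩ := exists_eq_mul_of_ordAt_le a b hb0 hle
  refine ⟨q, ?_⟩
  rw [hq, map_mul, mul_div_assoc, div_self hb', mul_one]

/-- Integral elements over a subring on which a valuation is `≤ 1` have valuation `≤ 1`. -/
theorem val_le_one_of_isIntegral {O R Γ₀ : Type*} [CommRing O] [CommRing R] [Algebra O R]
    [Nontrivial R] [LinearOrderedCommGroupWithZero Γ₀] (v : Valuation R Γ₀)
    (hO : ∀ r : O, v (algebraMap O R r) ≤ 1) {x : R} (hx : IsIntegral O x) : v x ≤ 1 := by
  obtain ⟨f, hm, hf⟩ := hx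
  by_cases hn : f.natDegree = 0
  · have hf1 : f = 1 := by
      rw [Polynomial.natDegree_eq_zero] at hn
      obtain ⟨c, rfl⟩ := hn
      have hc : c = 1 := by
        have := hm.leadingCoeff
        rwa [Polynomial.leadingCoeff_C] at this
      rw [hc, Polynomial.C_1]
    rw [hf1, Polynomial.eval₂_one] at hf
    exact absurd hf one_ne_zero
  simp only [Polynomial.eval₂_eq_sum_range, Finset.sum_range_succ, hm.coeff_natDegree, map_one,
    one_mul, add_eq_zero_iff_eq_neg] at hf
  apply_fun v at hf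
  rw [Valuation.map_neg, map_pow] at hf
  by_contra hcon
  rw [not_le] at hcon
  refine absurd hf (ne_of_lt (v.map_sum_lt ?_ ?_))
  · exact pow_ne_zero _ (hcon.trans' zero_lt_one).ne'
  · simp only [Finset.mem_range, map_mul, map_pow]
    intro i hi
    exact mul_lt_of_le_one_of_lt (hO _) (pow_lt_pow_right₀ hcon hi)

/-- **(D3), usable form.** An element of `FractionRing Hol` integral over `Hol` lies in `Hol`. -/
theorem exists_algebraMap_eq_of_isIntegral (x : FractionRing Hol) (hx : IsIntegral Hol x) :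
    ∃ q : Hol, algebraMap Hol (FractionRing Hol) q = x := by
  refine exists_algebraMap_eq_of_ordAtFrac_le_one x ?_
  intro τ
  refine val_le_one_of_isIntegral _ ?_ hx
  intro r
  rw [ordAtFrac_algebraMap]
  exact ordAt_le_one τ r

/-- **(D3)** `Hol` is integrally closed. -/
theorem isIntegrallyClosed_Hol : IsIntegrallyClosed Hol :=
  (isIntegrallyClosed_iff (FractionRing Hol)).mpr fun {x} hx =>
    exists_algebraMap_eq_of_isIntegral x hx

/-- **(D4)** A nowhere vanishing holomorphic function on `ℍ` is a unit of `Hol`. -/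
theorem isUnit_of_forall_ne_zero (u : Hol) (h : ∀ τ : ℍ, (u : ℍ → ℂ) τ ≠ 0) : IsUnit u := by
  have hu : u ≠ 0 := by
    intro h0
    apply h UpperHalfPlane.I
    rw [h0]
    rfl
  have hle : ∀ τ : ℍ, ordAt τ (1 : Hol) ≤ ordAt τ u := by
    intro τ
    rw [map_one, ordAt_eq_one_of_ne_zero τ u (h τ)]
  obtain ⟨q, hq⟩ := exists_eq_mul_of_ordAt_le 1 u hu hle
  exact IsUnit.of_mul_eq_one q (by rw [mul_comm, ← hq])

/-! ### Finiteness of zeros and poles on compact sets -/

/-- **(D5)** A nonzero holomorphic function on `ℍ` has finitely many zeros in a compact set. -/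
theorem finite_zeros_of_isCompact (b : Hol) (hb : b ≠ 0) (K : Set ℍ) (hK : IsCompact K) :
    {τ ∈ K | (b : ℍ → ℂ) τ = 0}.Finite := by
  by_contra hinf
  have hinf' : ((fun τ : ℍ => (τ : ℂ)) '' {τ ∈ K | (b : ℍ → ℂ) τ = 0}).Infinite :=
    (Set.infinite_image_iff (fun x _ y _ hxy => UpperHalfPlane.ext hxy)).mpr hinf
  have hKc : IsCompact ((fun τ : ℍ => (τ : ℂ)) '' K) := hK.image UpperHalfPlane.continuous_coe
  obtain ⟨z₀, hz₀K, hacc⟩ := hinf'.exists_accPt_of_subset_isCompact hKc
    (Set.image_mono (Set.sep_subset _ _))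
  obtain ⟨τ₀, -, rfl⟩ := hz₀K
  rw [accPt_iff_frequently_nhdsNE] at hacc
  have hfreq : ∃ᶠ w in 𝓝[≠] (τ₀ : ℂ), ((b : ℍ → ℂ) ∘ ofComplex) w = 0 := by
    refine hacc.mono ?_
    rintro w ⟨τ, ⟨-, hτ⟩, rfl⟩
    simp only [Function.comp_apply, ofComplex_apply]
    exact hτ
  have han := analyticAt_of_mdiff b.2 τ₀
  have hev := han.frequently_zero_iff_eventually_zero.mp hfreq
  exact order_ne_top b.2 (coe_ne_zero hb) τ₀ (analyticOrderAt_eq_top.mpr hev)

/-- A nonzero element of `FractionRing Hol` has finitely many zeros and poles in a compact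
subset of `ℍ`. -/
theorem finite_ordAtFrac_ne_one_of_isCompact (x : FractionRing Hol) (hx : x ≠ 0) (K : Set ℍ)
    (hK : IsCompact K) :
    {τ ∈ K | ordAtFrac (M := FractionRing Hol) (RingHom.id Hol)
      Function.injective_id τ x ≠ 1}.Finite := by
  obtain ⟨a, b, hb, rfl⟩ := IsFractionRing.div_surjective Hol x
  have hb0 : b ≠ 0 := nonZeroDivisors.ne_zero hb
  have ha0 : a ≠ 0 := by
    rintro rfl
    apply hx
    rw [map_zero, zero_div]
  refine ((finite_zeros_of_isCompact a ha0 K hK).union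
    (finite_zeros_of_isCompact b hb0 K hK)).subset ?_
  rintro τ ⟨hτK, hτ⟩
  by_contra hcon
  apply hτ
  have ha1 : (a : ℍ → ℂ) τ ≠ 0 := fun h0 => hcon (Or.inl ⟨hτK, h0⟩)
  have hb1 : (b : ℍ → ℂ) τ ≠ 0 := fun h0 => hcon (Or.inr ⟨hτK, h0⟩)
  rw [map_div₀, ordAtFrac_algebraMap, ordAtFrac_algebraMap]
  change ordAt τ a / ordAt τ b = 1
  rw [ordAt_eq_one_of_ne_zero τ a ha1, ordAt_eq_one_of_ne_zero τ b hb1, div_one]

/-! ### The modular group: truncated fundamental domain, invariant elements -/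

/-- **(D6)** The truncated standard fundamental domain `{τ ∈ 𝒟 | Im τ ≤ c}` is compact. -/
theorem isCompact_fd_im_le (c : ℝ) : IsCompact {τ : ℍ | τ ∈ ModularGroup.fd ∧ τ.im ≤ c} := by
  rw [isEmbedding_coe.isCompact_iff]
  have himg : ((↑) : ℍ → ℂ) '' {τ : ℍ | τ ∈ ModularGroup.fd ∧ τ.im ≤ c}
      = {z : ℂ | 1 ≤ Complex.normSq z ∧ |z.re| ≤ 1 / 2 ∧ 1 / 2 ≤ z.im ∧ z.im ≤ c} := by
    ext z
    constructor
    · rintro ⟨τ, ⟨⟨h1, h2⟩, h3⟩, rfl⟩
      refine ⟨h1, h2, ?_, h3⟩
      have him : 0 < (τ : ℂ).im := τ.im_pos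
      have hn : Complex.normSq (τ : ℂ) = (τ : ℂ).re * (τ : ℂ).re + (τ : ℂ).im * (τ : ℂ).im :=
        Complex.normSq_apply _
      have hre : (τ : ℂ).re * (τ : ℂ).re ≤ 1 / 4 := by
        have := abs_le.mp h2
        have h2' : |(τ : ℂ).re| ≤ 1 / 2 := h2
        nlinarith [abs_le.mp h2', sq_abs (τ : ℂ).re]
      by_contra hlt
      rw [not_le] at hlt
      have : (τ : ℂ).im * (τ : ℂ).im < 1 / 4 := by nlinarith
      linarith
    · rintro ⟨h1, h2, h3, h4⟩
      exact ⟨⟨z, by linarith⟩, ⟨⟨h1, h2⟩, h4⟩, rfl⟩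
  rw [himg]
  apply Metric.isCompact_of_isClosed_isBounded
  · have e1 : IsClosed {z : ℂ | 1 ≤ Complex.normSq z} :=
      isClosed_le continuous_const Complex.continuous_normSq
    have e2 : IsClosed {z : ℂ | |z.re| ≤ 1 / 2} :=
      isClosed_le (continuous_abs.comp Complex.continuous_re) continuous_const
    have e3 : IsClosed {z : ℂ | 1 / 2 ≤ z.im} := isClosed_le continuous_const Complex.continuous_im
    have e4 : IsClosed {z : ℂ | z.im ≤ c} := isClosed_le Complex.continuous_im continuous_const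
    exact e1.inter (e2.inter (e3.inter e4))
  · rw [Metric.isBounded_iff_subset_closedBall 0]
    refine ⟨1 / 2 + |c|, ?_⟩
    rintro z ⟨-, h2, h3, h4⟩
    rw [mem_closedBall_zero_iff]
    have hz : ‖z‖ ≤ |z.re| + |z.im| := Complex.norm_le_abs_re_add_abs_im z
    have him : |z.im| ≤ |c| := by
      rw [abs_of_nonneg (by linarith : (0 : ℝ) ≤ z.im)]
      exact h4.trans (le_abs_self c)
    linarith

/-- **(D7a)** Transport of point valuations: if `σ` is a ring endomorphism of `FractionRing Hol`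
extending precomposition with `γ` on `Hol`, then `ord_τ (σ x) = ord_{γ τ} x`. -/
theorem ordAtFrac_map_compHom (γ : SL(2, ℤ)) (σ : FractionRing Hol →+* FractionRing Hol)
    (hσ : ∀ f : Hol, σ (algebraMap Hol (FractionRing Hol) f)
      = algebraMap Hol (FractionRing Hol) (compHom γ f))
    (x : FractionRing Hol) (τ : ℍ) :
    ordAtFrac (M := FractionRing Hol) (RingHom.id Hol) Function.injective_id τ (σ x)
      = ordAtFrac (M := FractionRing Hol) (RingHom.id Hol) Function.injective_id (γ • τ) x := by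
  obtain ⟨a, b, -, rfl⟩ := IsFractionRing.div_surjective Hol x
  rw [map_div₀, hσ, hσ, map_div₀, map_div₀, ordAtFrac_algebraMap, ordAtFrac_algebraMap,
    ordAtFrac_algebraMap, ordAtFrac_algebraMap]
  change ordAt τ (compHom γ a) / ordAt τ (compHom γ b) = ordAt (γ • τ) a / ordAt (γ • τ) b
  rw [ordAt_compHom, ordAt_compHom]

/-- **(D7)** An element of `FractionRing Hol` fixed by (an extension of) precomposition with `γ`
has the same point valuation at `τ` and at `γ • τ`. -/
theorem ordAtFrac_smul_of_fixed (γ : SL(2, ℤ)) (σ : FractionRing Hol →+* FractionRing Hol)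
    (hσ : ∀ f : Hol, σ (algebraMap Hol (FractionRing Hol) f)
      = algebraMap Hol (FractionRing Hol) (compHom γ f))
    (x : FractionRing Hol) (hx : σ x = x) (τ : ℍ) :
    ordAtFrac (M := FractionRing Hol) (RingHom.id Hol) Function.injective_id (γ • τ) x
      = ordAtFrac (M := FractionRing Hol) (RingHom.id Hol) Function.injective_id τ x := by
  rw [← ordAtFrac_map_compHom γ σ hσ x τ, hx]

/-- **(D8)** Zeros and poles of an `SL(2, ℤ)`-invariant element lie, up to the region
`Im > c`, in finitely many orbits: there is a finite set `S ⊆ 𝒟 ∩ {Im ≤ c}` such that every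
zero or pole `τ` has a translate `γ • τ` which is a zero or pole with `c < Im (γ • τ)`, or
which belongs to `S`. -/
theorem exists_finset_orbits_of_invariant (x : FractionRing Hol) (hx : x ≠ 0)
    (hinv : ∀ (γ : SL(2, ℤ)) (τ : ℍ),
      ordAtFrac (M := FractionRing Hol) (RingHom.id Hol) Function.injective_id (γ • τ) x
        = ordAtFrac (M := FractionRing Hol) (RingHom.id Hol) Function.injective_id τ x)
    (c : ℝ) :
    ∃ S : Finset ℍ,
      (∀ σ ∈ S, σ ∈ ModularGroup.fd ∧ σ.im ≤ c ∧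
        ordAtFrac (M := FractionRing Hol) (RingHom.id Hol) Function.injective_id σ x ≠ 1) ∧
      ∀ τ : ℍ, ordAtFrac (M := FractionRing Hol) (RingHom.id Hol) Function.injective_id τ x ≠ 1 →
        ∃ γ : SL(2, ℤ), γ • τ ∈ ModularGroup.fd ∧ (c < (γ • τ).im ∨ γ • τ ∈ S) := by
  have hfin := finite_ordAtFrac_ne_one_of_isCompact x hx _ (isCompact_fd_im_le c)
  refine ⟨hfin.toFinset, ?_, ?_⟩
  · intro σ hσ
    rw [Set.Finite.mem_toFinset] at hσ
    exact ⟨hσ.1.1, hσ.1.2, hσ.2⟩
  · intro τ hτ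
    obtain ⟨γ, hγ⟩ := ModularGroup.exists_smul_mem_fd τ
    refine ⟨γ, hγ, ?_⟩
    by_cases hc : c < (γ • τ).im
    · exact Or.inl hc
    · right
      rw [Set.Finite.mem_toFinset]
      refine ⟨⟨hγ, not_lt.mp hc⟩, ?_⟩
      rw [hinv γ τ]
      exact hτ

end Fermat.Agent.Lib.HolDiv
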