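import Mathlib

set_option autoImplicit false

/-!
# Holomorphic `n`-th roots on the upper half plane

* `exists_root_ball_of_ne_zero`: a nonvanishing holomorphic function on a ball has a holomorphic
  `n`-th root (primitive of the logarithmic derivative).
* `exists_root_ball`: a function analytic near a closed ball, all of whose zero orders are
  divisible by `n`, has a holomorphic `n`-th root on the open ball.
* `eqOn_of_pow_eq`, `exists_const_mul_of_pow_eq`: uniqueness of holomorphic `n`-th roots on a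
  preconnected open set up to a constant `n`-th root of unity.
* `exists_holomorphic_root`: a holomorphic function on the upper half plane all of whose zero
  orders are divisible by `n` is the `n`-th power of a holomorphic function.
-/

namespace Fermat.Agent.Lib.HolRoot

open Complex Metric Set Filter Topology

/-! ### Step 1: nonvanishing functions on a ball -/

/-- A nonvanishing holomorphic function on a ball has a holomorphic logarithm. -/
theorem exists_log_ball {c : ℂ} {r : ℝ} {g : ℂ → ℂ} (hg : DifferentiableOn ℂ g (ball c r))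
    (hg0 : ∀ z ∈ ball c r, g z ≠ 0) :
    ∃ L : ℂ → ℂ, DifferentiableOn ℂ L (ball c r) ∧ ∀ z ∈ ball c r, exp (L z) = g z := by
  rcases (ball c r).eq_empty_or_nonempty with he | ⟨z₀, hz₀⟩
  · exact ⟨0, by simp [he], by simp [he]⟩
  have hopen : IsOpen (ball c r) := isOpen_ball
  have hφ : DifferentiableOn ℂ (fun z => deriv g z / g z) (ball c r) :=
    (hg.deriv hopen).div hg hg0
  obtain ⟨L, hL⟩ := hφ.isExactOn_ball
  -- `w = g * exp (-L)` has derivative zero
  have hw : ∀ z ∈ ball c r, HasDerivAt (fun z => g z * exp (-L z)) 0 z := by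
    intro z hz
    have h1 : HasDerivAt g (deriv g z) z :=
      (hg.differentiableAt (hopen.mem_nhds hz)).hasDerivAt
    have h2 : HasDerivAt (fun z => exp (-L z)) (exp (-L z) * -(deriv g z / g z)) z :=
      ((hL z hz).neg).cexp
    have h3 := h1.mul h2
    have h4 : deriv g z * exp (-L z) + g z * (exp (-L z) * -(deriv g z / g z)) = 0 := by
      have hgz := hg0 z hz
      field_simp
      ring
    rw [h4] at h3
    exact h3
  have hwd : DifferentiableOn ℂ (fun z => g z * exp (-L z)) (ball c r) := fun z hz =>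
    (hw z hz).differentiableAt.differentiableWithinAt
  have hconst : ∀ z ∈ ball c r, g z * exp (-L z) = g z₀ * exp (-L z₀) := by
    intro z hz
    exact hopen.is_const_of_deriv_eq_zero (convex_ball c r).isPreconnected hwd
      (fun x hx => (hw x hx).deriv) hz hz₀
  have hC : g z₀ * exp (-L z₀) ≠ 0 := mul_ne_zero (hg0 z₀ hz₀) (exp_ne_zero _)
  refine ⟨fun z => Complex.log (g z₀ * exp (-L z₀)) + L z, ?_, ?_⟩
  · exact (differentiableOn_const _).add (fun z hz => (hL z hz).differentiableAt.differentiableWithinAt)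
  · intro z hz
    rw [exp_add, exp_log hC, ← hconst z hz, mul_assoc, ← exp_add, neg_add_cancel, exp_zero, mul_one]

/-- A nonvanishing holomorphic function on a ball has a holomorphic `n`-th root. -/
theorem exists_root_ball_of_ne_zero (n : ℕ) (hn : n ≠ 0) {c : ℂ} {r : ℝ} {g : ℂ → ℂ}
    (hg : DifferentiableOn ℂ g (ball c r)) (hg0 : ∀ z ∈ ball c r, g z ≠ 0) :
    ∃ h : ℂ → ℂ, DifferentiableOn ℂ h (ball c r) ∧ ∀ z ∈ ball c r, h z ^ n = g z := by
  obtain ⟨L, hL, hLg⟩ := exists_log_ball hg hg0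
  refine ⟨fun z => exp (L z / n), ?_, ?_⟩
  · exact (hL.div_const _).cexp
  · intro z hz
    rw [← exp_nat_mul, mul_div_cancel₀ _ (Nat.cast_ne_zero.mpr hn), hLg z hz]

/-! ### Step 2: uniqueness of holomorphic roots -/

/-- Two holomorphic functions on a preconnected open set with the same `n`-th power which agree
at one point where they do not vanish are equal. -/
theorem eqOn_of_pow_eq (n : ℕ) {S : Set ℂ} (hS : IsOpen S) (hSc : IsPreconnected S)
    {G₁ G₂ : ℂ → ℂ} (h₁ : DifferentiableOn ℂ G₁ S) (h₂ : DifferentiableOn ℂ G₂ S)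
    (hpow : ∀ z ∈ S, G₁ z ^ n = G₂ z ^ n) {z₀ : ℂ} (hz₀ : z₀ ∈ S) (hn : n ≠ 0) (h0 : G₂ z₀ ≠ 0)
    (heq : G₁ z₀ = G₂ z₀) : EqOn G₁ G₂ S := by
  have han : AnalyticOnNhd ℂ (fun z => G₁ z - G₂ z) S := (h₁.sub h₂).analyticOnNhd hS
  have hc₁ : ContinuousAt G₁ z₀ := h₁.continuousOn.continuousAt (hS.mem_nhds hz₀)
  have hc₂ : ContinuousAt G₂ z₀ := h₂.continuousOn.continuousAt (hS.mem_nhds hz₀)
  have hsumc : ContinuousAt (fun z => ∑ i ∈ Finset.range n, G₁ z ^ i * G₂ z ^ (n - 1 - i)) z₀ := by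
    fun_prop
  have hsum0 : (∑ i ∈ Finset.range n, G₁ z₀ ^ i * G₂ z₀ ^ (n - 1 - i)) ≠ 0 := by
    rw [heq, geom_sum₂_self]
    exact mul_ne_zero (Nat.cast_ne_zero.mpr hn) (pow_ne_zero _ h0)
  have hev : ∀ᶠ z in 𝓝 z₀, G₁ z - G₂ z = 0 := by
    filter_upwards [hsumc.eventually_ne hsum0, hS.mem_nhds hz₀] with z hz hzS
    have h := geom_sum₂_mul (G₁ z) (G₂ z) n
    rw [hpow z hzS, sub_self] at h
    exact (mul_eq_zero.mp h).resolve_left hz
  have h := han.eqOn_zero_of_preconnected_of_eventuallyEq_zero hSc hz₀ hev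
  intro z hz
  exact sub_eq_zero.mp (h hz)

/-- Two holomorphic `n`-th roots of the same function on a preconnected open set differ by a
constant `n`-th root of unity. -/
theorem exists_const_mul_of_pow_eq (n : ℕ) (hn : n ≠ 0) {S : Set ℂ} (hS : IsOpen S)
    (hSc : IsPreconnected S) {G₁ G₂ : ℂ → ℂ} (h₁ : DifferentiableOn ℂ G₁ S)
    (h₂ : DifferentiableOn ℂ G₂ S) (hpow : ∀ z ∈ S, G₁ z ^ n = G₂ z ^ n)
    (hne : ∃ z ∈ S, G₂ z ≠ 0) : ∃ ζ : ℂ, ζ ^ n = 1 ∧ ∀ z ∈ S, G₁ z = ζ * G₂ z := by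
  obtain ⟨z₀, hz₀, h0⟩ := hne
  have hζ : (G₁ z₀ / G₂ z₀) ^ n = 1 := by
    rw [div_pow, hpow z₀ hz₀, div_self (pow_ne_zero _ h0)]
  refine ⟨G₁ z₀ / G₂ z₀, hζ, ?_⟩
  have hζ0 : G₁ z₀ / G₂ z₀ ≠ 0 := fun h => by
    rw [h, zero_pow hn] at hζ
    exact zero_ne_one hζ
  refine eqOn_of_pow_eq n hS hSc h₁ (h₂.const_mul _) ?_ hz₀ hn (mul_ne_zero hζ0 h0) ?_
  · intro z hz
    rw [mul_pow, hζ, one_mul, hpow z hz]
  · rw [div_mul_cancel₀ _ h0]

/-! ### Step 3: roots on a ball, zeros allowed -/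

/-- A function analytic near a closed ball, not locally zero, all of whose zero orders on the
closed ball are divisible by `n`, has a holomorphic `n`-th root on the open ball. -/
theorem exists_root_ball (n : ℕ) (hn : n ≠ 0) {u : ℂ → ℂ} {c : ℂ} {r : ℝ}
    (hu : AnalyticOnNhd ℂ u (closedBall c r))
    (hfin : ∀ z ∈ closedBall c r, analyticOrderAt u z ≠ ⊤)
    (hdiv : ∀ z ∈ closedBall c r, n ∣ analyticOrderNatAt u z) :
    ∃ G : ℂ → ℂ, DifferentiableOn ℂ G (ball c r) ∧ ∀ z ∈ ball c r, G z ^ n = u z := by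
  classical
  have hmer : MeromorphicOn u (closedBall c r) := fun z hz => (hu z hz).meromorphicAt
  have hordeq : ∀ z ∈ closedBall c r,
      meromorphicOrderAt u z = ((analyticOrderNatAt u z : ℤ) : WithTop ℤ) := by
    intro z hz
    rw [(hu z hz).meromorphicOrderAt_eq, ← Nat.cast_analyticOrderNatAt (hfin z hz)]
    rfl
  have hord : ∀ z : closedBall c r, meromorphicOrderAt u z ≠ ⊤ := by
    rintro ⟨z, hz⟩
    rw [hordeq z hz]
    exact WithTop.coe_ne_top
  have hsupp : (MeromorphicOn.divisor u (closedBall c r)).support.Finite :=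
    (MeromorphicOn.divisor u (closedBall c r)).finiteSupport (isCompact_closedBall c r)
  obtain ⟨g, hg, hg0, hgeq⟩ := hmer.extract_zeros_poles hord hsupp
  -- the exponents
  set e : ℂ → ℕ := fun a => if a ∈ closedBall c r then analyticOrderNatAt u a / n else 0 with he
  have hD : ∀ a, MeromorphicOn.divisor u (closedBall c r) a = ((n * e a : ℕ) : ℤ) := by
    intro a
    by_cases ha : a ∈ closedBall c r
    · rw [MeromorphicOn.divisor_apply hmer ha, hordeq a ha, he]
      simp only [ha, if_true]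
      rw [Nat.mul_div_cancel' (hdiv a ha)]
      rfl
    · rw [Function.locallyFinsuppWithin.apply_eq_zero_of_notMem _ ha, he]
      simp [ha]
  set s : Finset ℂ := hsupp.toFinset with hs
  have hprod : ∀ z : ℂ, (∏ᶠ a, (· - a) ^ MeromorphicOn.divisor u (closedBall c r) a) z =
      (∏ a ∈ s, (z - a) ^ e a) ^ n := by
    intro z
    rw [Function.FactorizedRational.finprod_eq_fun hsupp]
    show (∏ᶠ a, (z - a) ^ MeromorphicOn.divisor u (closedBall c r) a) = _
    rw [finprod_eq_prod_of_mulSupport_subset (s := s)]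
    · rw [← Finset.prod_pow]
      refine Finset.prod_congr rfl fun a _ => ?_
      rw [hD a, zpow_natCast, mul_comm, pow_mul]
    · intro a ha
      rw [hs, Set.Finite.coe_toFinset]
      rw [Function.mem_mulSupport] at ha
      rw [Function.mem_support]
      intro h0
      exact ha (by rw [h0, zpow_zero])
  -- the root of `g`
  obtain ⟨h, hh, hhg⟩ := exists_root_ball_of_ne_zero n hn
    (hg.differentiableOn.mono ball_subset_closedBall)
    (fun z hz => hg0 ⟨z, ball_subset_closedBall hz⟩)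
  refine ⟨fun z => (∏ a ∈ s, (z - a) ^ e a) * h z, ?_, ?_⟩
  · refine DifferentiableOn.mul ?_ hh
    fun_prop
  · intro z hz
    have hzU : closedBall c r ∈ 𝓝 z := mem_of_superset (isOpen_ball.mem_nhds hz)
      ball_subset_closedBall
    -- equality on a punctured neighbourhood
    have hev : ∀ᶠ w in 𝓝[≠] z, u w = ((∏ a ∈ s, (w - a) ^ e a) * h w) ^ n := by
      have h1 := (mem_codiscreteWithin.mp hgeq) z (ball_subset_closedBall hz)
      rw [disjoint_principal_right] at h1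
      filter_upwards [h1, nhdsWithin_le_nhds (isOpen_ball.mem_nhds hz)] with w hw hwb
      have hwU : w ∈ closedBall c r := ball_subset_closedBall hwb
      have hw' : u w = ((∏ᶠ a, (· - a) ^ MeromorphicOn.divisor u (closedBall c r) a) • g) w := by
        by_contra hne
        exact hw ⟨hwU, hne⟩
      rw [hw', Pi.smul_apply', hprod w, smul_eq_mul, mul_pow, hhg w hwb]
    have hcu : ContinuousAt u z := (hu z (ball_subset_closedBall hz)).continuousAt
    have hcG : ContinuousAt (fun w => ((∏ a ∈ s, (w - a) ^ e a) * h w) ^ n) z := by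
      have hch : ContinuousAt h z := hh.continuousOn.continuousAt (isOpen_ball.mem_nhds hz)
      have hcP : ContinuousAt (fun w : ℂ => ∏ a ∈ s, (w - a) ^ e a) z := by fun_prop
      exact (hcP.mul hch).pow n
    exact (tendsto_nhds_unique_of_eventuallyEq (hcu.tendsto.mono_left nhdsWithin_le_nhds)
      (hcG.tendsto.mono_left nhdsWithin_le_nhds) hev).symm

/-! ### Step 4: the upper half plane -/

/-- Any two points of the upper half plane lie in a common ball whose closure is contained in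
the upper half plane. -/
theorem exists_ball_im_pos {z₀ z : ℂ} (hz₀ : 0 < z₀.im) (hz : 0 < z.im) :
    ∃ (c : ℂ) (r : ℝ), z₀ ∈ ball c r ∧ z ∈ ball c r ∧ closedBall c r ⊆ {w : ℂ | 0 < w.im} := by
  obtain ⟨t, ht1, htz, htz₀⟩ : ∃ t : ℝ, 1 ≤ t ∧ (z.re ^ 2 + z.im ^ 2 + 2) / (2 * z.im) < t ∧
      (z₀.re ^ 2 + z₀.im ^ 2 + 2) / (2 * z₀.im) < t := by
    refine ⟨max 1 (max ((z.re ^ 2 + z.im ^ 2 + 2) / (2 * z.im))
      ((z₀.re ^ 2 + z₀.im ^ 2 + 2) / (2 * z₀.im))) + 1, ?_, ?_, ?_⟩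
    · have := le_max_left (1 : ℝ) (max ((z.re ^ 2 + z.im ^ 2 + 2) / (2 * z.im))
        ((z₀.re ^ 2 + z₀.im ^ 2 + 2) / (2 * z₀.im)))
      linarith
    · have h1 := le_max_right (1 : ℝ) (max ((z.re ^ 2 + z.im ^ 2 + 2) / (2 * z.im))
        ((z₀.re ^ 2 + z₀.im ^ 2 + 2) / (2 * z₀.im)))
      have h2 := le_max_left ((z.re ^ 2 + z.im ^ 2 + 2) / (2 * z.im))
        ((z₀.re ^ 2 + z₀.im ^ 2 + 2) / (2 * z₀.im))
      linarith
    · have h1 := le_max_right (1 : ℝ) (max ((z.re ^ 2 + z.im ^ 2 + 2) / (2 * z.im))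
        ((z₀.re ^ 2 + z₀.im ^ 2 + 2) / (2 * z₀.im)))
      have h2 := le_max_right ((z.re ^ 2 + z.im ^ 2 + 2) / (2 * z.im))
        ((z₀.re ^ 2 + z₀.im ^ 2 + 2) / (2 * z₀.im))
      linarith
  have ht0 : 0 < t := by linarith
  have hinv : t * (1 / t) = 1 := mul_one_div_cancel ht0.ne'
  have hinv0 : 0 < 1 / t := by positivity
  have hinv1 : 1 / t ≤ 1 := by rw [div_le_one ht0]; exact ht1
  have key : ∀ w : ℂ, 0 < w.im → (w.re ^ 2 + w.im ^ 2 + 2) / (2 * w.im) < t →
      w ∈ ball ((t : ℂ) * I) (t - 1 / t) := by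
    intro w hw hwt
    rw [div_lt_iff₀ (by positivity)] at hwt
    rw [mem_ball, dist_eq_norm]
    refine lt_of_pow_lt_pow_left₀ 2 (by linarith) ?_
    rw [Complex.sq_norm, Complex.normSq_apply]
    simp only [sub_re, mul_re, ofReal_re, I_re, mul_zero, ofReal_im, I_im, mul_one, sub_self,
      sub_zero, sub_im, mul_im, add_zero]
    nlinarith [sq_nonneg (1 / t)]
  refine ⟨(t : ℂ) * I, t - 1 / t, key z₀ hz₀ htz₀, key z hz htz, ?_⟩
  intro w hw
  rw [mem_closedBall, dist_eq_norm] at hw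
  have h1 := (Complex.abs_im_le_norm (w - (t : ℂ) * I)).trans hw
  simp only [sub_im, mul_im, ofReal_re, I_im, mul_one, ofReal_im, I_re, mul_zero, add_zero] at h1
  have h2 := (abs_le.mp h1).1
  show 0 < w.im
  linarith

/-- **Holomorphic `n`-th roots on the upper half plane.**  A holomorphic function on the upper
half plane all of whose orders of vanishing are divisible by `n` is the `n`-th power of a
holomorphic function.  (For `u = 0` the orders are the junk value `0`, and `G = 0` works.) -/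
theorem exists_holomorphic_root (n : ℕ) (hn : n ≠ 0) (u : ℂ → ℂ)
    (hu : DifferentiableOn ℂ u {z : ℂ | 0 < z.im})
    (hdiv : ∀ z : ℂ, 0 < z.im → n ∣ analyticOrderNatAt u z) :
    ∃ G : ℂ → ℂ, DifferentiableOn ℂ G {z : ℂ | 0 < z.im} ∧
      ∀ z : ℂ, 0 < z.im → G z ^ n = u z := by
  classical
  have hΩ : IsOpen {z : ℂ | 0 < z.im} := isOpen_lt continuous_const Complex.continuous_im
  have hΩc : IsPreconnected {z : ℂ | 0 < z.im} := (convex_halfSpace_im_gt 0).isPreconnected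
  have han : AnalyticOnNhd ℂ u {z : ℂ | 0 < z.im} := hu.analyticOnNhd hΩ
  by_cases hzero : ∀ z : ℂ, 0 < z.im → u z = 0
  · exact ⟨0, differentiableOn_const 0, fun z hz => by
      rw [hzero z hz]; exact zero_pow hn⟩
  obtain ⟨z₀, hz₀, huz₀⟩ : ∃ z₀ : ℂ, 0 < z₀.im ∧ u z₀ ≠ 0 := by
    by_contra hcon
    exact hzero fun z hz => by_contra fun h => hcon ⟨z, hz, h⟩
  have hfin : ∀ z : ℂ, 0 < z.im → analyticOrderAt u z ≠ ⊤ := by
    intro z hz htop
    rw [analyticOrderAt_eq_top] at htop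
    exact huz₀ (han.eqOn_zero_of_preconnected_of_eventuallyEq_zero hΩc hz htop hz₀)
  obtain ⟨w₀, hw₀⟩ := IsAlgClosed.exists_pow_nat_eq (u z₀) (Nat.pos_of_ne_zero hn)
  have hw₀0 : w₀ ≠ 0 := fun h => huz₀ (by rw [← hw₀, h, zero_pow hn])
  -- normalised roots on admissible balls
  have hball : ∀ p : ℂ × ℝ, ∃ G : ℂ → ℂ, z₀ ∈ ball p.1 p.2 →
      closedBall p.1 p.2 ⊆ {z : ℂ | 0 < z.im} →
      DifferentiableOn ℂ G (ball p.1 p.2) ∧ (∀ z ∈ ball p.1 p.2, G z ^ n = u z) ∧ G z₀ = w₀ := by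
    intro p
    by_cases hp : z₀ ∈ ball p.1 p.2 ∧ closedBall p.1 p.2 ⊆ {z : ℂ | 0 < z.im}
    · obtain ⟨G', hG', hG'u⟩ := exists_root_ball n hn (han.mono hp.2)
        (fun z hz => hfin z (hp.2 hz)) (fun z hz => hdiv z (hp.2 hz))
      have hG'0 : G' z₀ ≠ 0 := fun h => huz₀ (by rw [← hG'u z₀ hp.1, h, zero_pow hn])
      refine ⟨fun z => w₀ / G' z₀ * G' z, fun _ _ => ⟨hG'.const_mul _, fun z hz => ?_, ?_⟩⟩
      · show (w₀ / G' z₀ * G' z) ^ n = u z
        rw [mul_pow, div_pow, hG'u z hz, hw₀, hG'u z₀ hp.1, div_self huz₀, one_mul]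
      · exact div_mul_cancel₀ _ hG'0
    · exact ⟨0, fun h1 h2 => absurd ⟨h1, h2⟩ hp⟩
  choose 𝒢 h𝒢 using hball
  -- agreement on overlaps
  have hagree : ∀ p p' : ℂ × ℝ, z₀ ∈ ball p.1 p.2 → closedBall p.1 p.2 ⊆ {z : ℂ | 0 < z.im} →
      z₀ ∈ ball p'.1 p'.2 → closedBall p'.1 p'.2 ⊆ {z : ℂ | 0 < z.im} →
      EqOn (𝒢 p) (𝒢 p') (ball p.1 p.2 ∩ ball p'.1 p'.2) := by
    intro p p' h1 h2 h1' h2'
    obtain ⟨hd, hpw, hv⟩ := h𝒢 p h1 h2
    obtain ⟨hd', hpw', hv'⟩ := h𝒢 p' h1' h2'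
    refine eqOn_of_pow_eq n (isOpen_ball.inter isOpen_ball)
      ((convex_ball _ _).inter (convex_ball _ _)).isPreconnected
      (hd.mono inter_subset_left) (hd'.mono inter_subset_right) ?_ ⟨h1, h1'⟩ hn ?_ ?_
    · intro z hz
      rw [hpw z hz.1, hpw' z hz.2]
    · rw [hv']; exact hw₀0
    · rw [hv, hv']
  -- a ball for every point
  have hpt : ∀ z : ℂ, ∃ p : ℂ × ℝ, 0 < z.im →
      z₀ ∈ ball p.1 p.2 ∧ z ∈ ball p.1 p.2 ∧ closedBall p.1 p.2 ⊆ {w : ℂ | 0 < w.im} := by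
    intro z
    by_cases hz : 0 < z.im
    · obtain ⟨c, r, h1, h2, h3⟩ := exists_ball_im_pos hz₀ hz
      exact ⟨(c, r), fun _ => ⟨h1, h2, h3⟩⟩
    · exact ⟨(0, 0), fun h => absurd h hz⟩
  choose B hB using hpt
  have hGeq : ∀ z : ℂ, 0 < z.im → ∀ w ∈ ball (B z).1 (B z).2, 𝒢 (B w) w = 𝒢 (B z) w := by
    intro z hz w hw
    obtain ⟨h1, h2, h3⟩ := hB z hz
    have hwim : 0 < w.im := h3 (ball_subset_closedBall hw)
    obtain ⟨h1', h2', h3'⟩ := hB w hwim
    exact hagree (B w) (B z) h1' h3' h1 h3 ⟨h2', hw⟩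
  refine ⟨fun z => 𝒢 (B z) z, ?_, ?_⟩
  · intro z hz
    obtain ⟨h1, h2, h3⟩ := hB z hz
    obtain ⟨hd, -, -⟩ := h𝒢 (B z) h1 h3
    have hdz : DifferentiableAt ℂ (𝒢 (B z)) z := hd.differentiableAt (isOpen_ball.mem_nhds h2)
    have hev : (fun w => 𝒢 (B w) w) =ᶠ[𝓝 z] 𝒢 (B z) := by
      filter_upwards [isOpen_ball.mem_nhds h2] with w hw
      exact hGeq z hz w hw
    exact (hdz.congr_of_eventuallyEq hev).differentiableWithinAt
  · intro z hz
    obtain ⟨h1, h2, h3⟩ := hB z hz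
    exact (h𝒢 (B z) h1 h3).2.1 z h2

end Fermat.Agent.Lib.HolRoot
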