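import Mathlib
import Fermat.Agent.Lib.HolRoot
import Fermat.Agent.Lib.HolVal

/-!
# `n`-th roots in the ring `Hol` of holomorphic functions on `ℍ` and in its fraction field

Wrappers of `Lib/HolRoot.exists_holomorphic_root` in the vocabulary of `Lib/HolVal`
(`Hol`, `ordNat`, `ordAt`, `ordAtFrac`):

* `exists_hol_root` : a `u : Hol` all of whose orders of vanishing are divisible by `n` is an
  `n`-th power in `Hol`;
* `exists_root_div`, `exists_root_mer`, `exists_root_of_ordAtFrac` : the same for quotients, i.e.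
  in `FractionRing Hol` (the field of "meromorphic functions on `ℍ`"), and for the image of an
  element of any fraction field `M` of a ring `R` of holomorphic functions;
* `exists_const_of_pow_eq_one`, `exists_const_mul_of_pow_eq_field`,
  `existsUnique_const_mul_of_pow_eq_field` : in a field `K` containing `ℂ` (through a ring hom
  `c : ℂ →+* K`), two `n`-th roots of the same nonzero element differ by a unique complex
  `n`-th root of unity;
* `exists_char_of_root`, `exists_char_of_root'` : the character `Γ →* ℂˣ` (with values in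
  `n`-th roots of unity) attached to an `n`-th root `F` of an invariant element, for a group `Γ`
  acting on `K` by ring homs fixing the constants.
-/

namespace Fermat.Agent.Lib.HolRoot

open UpperHalfPlane Fermat.Agent.Lib.HolVal
open scoped Manifold WithZero

/-- **(W1)** A holomorphic function on `ℍ` all of whose orders of vanishing are divisible by `n`
is an `n`-th power of a holomorphic function on `ℍ` (`u = 0` allowed). -/
theorem exists_hol_root (n : ℕ) (hn : n ≠ 0) (u : Hol)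
    (h : ∀ τ : ℍ, n ∣ ordNat τ (u : ℍ → ℂ)) : ∃ G : Hol, G ^ n = u := by
  have hu : DifferentiableOn ℂ ((u : ℍ → ℂ) ∘ ofComplex) {z : ℂ | 0 < z.im} :=
    UpperHalfPlane.mdifferentiable_iff.mp u.2
  have hdiv : ∀ z : ℂ, 0 < z.im → n ∣ analyticOrderNatAt ((u : ℍ → ℂ) ∘ ofComplex) z := by
    intro z hz
    exact h ⟨z, hz⟩
  obtain ⟨G, hG, hGn⟩ := exists_holomorphic_root n hn _ hu hdiv
  have hmem : (fun τ : ℍ => G (τ : ℂ)) ∈ Hol := by
    rw [mem_Hol, UpperHalfPlane.mdifferentiable_iff]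
    refine hG.congr ?_
    intro z hz
    simp only [Function.comp_apply]
    rw [ofComplex_apply_of_im_pos hz]
  refine ⟨⟨fun τ : ℍ => G (τ : ℂ), hmem⟩, ?_⟩
  apply Subtype.ext
  funext τ
  have h1 := hGn (τ : ℂ) τ.im_pos
  simp only [Function.comp_apply, ofComplex_apply] at h1
  exact h1

/-- **(W2, basic form)** If `a, b : Hol`, `b ≠ 0`, and `ord_τ a ≡ ord_τ b mod n` at every `τ`,
then `a / b` is an `n`-th power in `FractionRing Hol`. -/
theorem exists_root_div (n : ℕ) (hn : n ≠ 0) (a b : Hol) (hb : b ≠ 0)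
    (h : ∀ τ : ℍ, (n : ℤ) ∣ (ordNat τ (a : ℍ → ℂ) : ℤ) - (ordNat τ (b : ℍ → ℂ) : ℤ)) :
    ∃ F : FractionRing Hol,
      F ^ n = algebraMap Hol (FractionRing Hol) a / algebraMap Hol (FractionRing Hol) b := by
  have hb' : algebraMap Hol (FractionRing Hol) b ≠ 0 := by
    intro h0
    exact hb (IsFractionRing.injective Hol (FractionRing Hol) (by rw [h0, map_zero]))
  by_cases ha : a = 0
  · refine ⟨0, ?_⟩
    rw [ha, map_zero, zero_div, zero_pow hn]
  obtain ⟨m, rfl⟩ : ∃ m, n = m + 1 := Nat.exists_eq_succ_of_ne_zero hn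
  have hu0 : a * b ^ m ≠ 0 := mul_ne_zero ha (pow_ne_zero m hb)
  have hord : ∀ τ : ℍ, (m + 1) ∣ ordNat τ ((a * b ^ m : Hol) : ℍ → ℂ) := by
    intro τ
    have h1 : (ordNat τ ((a * b ^ m : Hol) : ℍ → ℂ) : ℤ)
        = (ordNat τ (a : ℍ → ℂ) : ℤ) + m * (ordNat τ (b : ℍ → ℂ) : ℤ) := by
      rw [← log_ordAt τ hu0, map_mul, map_pow, WithZero.log_mul (ordAt_ne_zero τ ha)
        (pow_ne_zero m (ordAt_ne_zero τ hb)), WithZero.log_pow, ← log_ordAt τ ha,
        ← log_ordAt τ hb]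
      simp only [nsmul_eq_mul]
      ring
    obtain ⟨k, hk⟩ := h τ
    have h2 : ((m + 1 : ℕ) : ℤ) ∣ (ordNat τ ((a * b ^ m : Hol) : ℍ → ℂ) : ℤ) := by
      refine ⟨k + (ordNat τ (b : ℍ → ℂ) : ℤ), ?_⟩
      rw [h1]
      push_cast at hk ⊢
      linear_combination hk
    exact Int.natCast_dvd_natCast.mp h2
  obtain ⟨G, hG⟩ := exists_hol_root (m + 1) (Nat.succ_ne_zero m) (a * b ^ m) hord
  refine ⟨algebraMap Hol (FractionRing Hol) G / algebraMap Hol (FractionRing Hol) b, ?_⟩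
  rw [div_pow, ← map_pow, hG, map_mul, map_pow, pow_succ]
  field_simp

/-- **(W2, `FractionRing Hol` form)** An element of `FractionRing Hol` whose point valuations
`ordAtFrac id _ τ` are all `n`-th powers in `ℤᵐ⁰` is an `n`-th power. -/
theorem exists_root_mer (n : ℕ) (hn : n ≠ 0) (x : FractionRing Hol)
    (h : ∀ τ : ℍ, ∃ w : ℤᵐ⁰, ordAtFrac (M := FractionRing Hol) (RingHom.id Hol)
      Function.injective_id τ x = w ^ n) :
    ∃ F : FractionRing Hol, F ^ n = x := by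
  obtain ⟨a, b, hb, rfl⟩ := IsFractionRing.div_surjective Hol x
  have hb0 : b ≠ 0 := nonZeroDivisors.ne_zero hb
  by_cases ha : a = 0
  · refine ⟨0, ?_⟩
    rw [ha, map_zero, zero_div, zero_pow hn]
  refine exists_root_div n hn a b hb0 ?_
  intro τ
  obtain ⟨w, hw⟩ := h τ
  have hval : ordAtFrac (M := FractionRing Hol) (RingHom.id Hol) Function.injective_id τ
      (algebraMap Hol (FractionRing Hol) a / algebraMap Hol (FractionRing Hol) b)
      = ordAt τ a / ordAt τ b := by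
    rw [map_div₀, ordAtFrac_algebraMap, ordAtFrac_algebraMap]
    rfl
  rw [hval] at hw
  have hw0 : w ≠ 0 := by
    intro h0
    rw [h0, zero_pow hn] at hw
    exact div_ne_zero (ordAt_ne_zero τ ha) (ordAt_ne_zero τ hb0) hw
  have hlog := congrArg WithZero.log hw
  rw [WithZero.log_div (ordAt_ne_zero τ ha) (ordAt_ne_zero τ hb0), WithZero.log_pow] at hlog
  refine ⟨-WithZero.log w, ?_⟩
  rw [← log_ordAt τ ha, ← log_ordAt τ hb0]
  simp only [nsmul_eq_mul] at hlog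
  linear_combination -hlog

/-- **(W2, general form)** Let `R` be a ring of holomorphic functions on `ℍ` (through an
injective `φ : R →+* Hol`) with fraction field `M`, and `ι : M →+* FractionRing Hol` the
induced embedding. If all point valuations `ordAtFrac φ hφ τ x` of `x : M` are `n`-th powers
in `ℤᵐ⁰`, then `ι x` is an `n`-th power in `FractionRing Hol`. -/
theorem exists_root_of_ordAtFrac {R M : Type*} [CommRing R] [Field M] [Algebra R M]
    [IsFractionRing R M] (φ : R →+* Hol) (hφ : Function.Injective φ)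
    (ι : M →+* FractionRing Hol)
    (hι : ∀ r : R, ι (algebraMap R M r) = algebraMap Hol (FractionRing Hol) (φ r))
    (n : ℕ) (hn : n ≠ 0) (x : M)
    (h : ∀ τ : ℍ, ∃ w : ℤᵐ⁰, ordAtFrac (M := M) φ hφ τ x = w ^ n) :
    ∃ F : FractionRing Hol, F ^ n = ι x := by
  obtain ⟨a, b, hb, rfl⟩ := IsFractionRing.div_surjective R x
  have : Nontrivial R := (algebraMap R M).domain_nontrivial
  have hb0 : b ≠ 0 := nonZeroDivisors.ne_zero hb
  have hφb : φ b ≠ 0 := fun h0 => hb0 (hφ (by rw [h0, map_zero]))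
  rw [map_div₀, hι, hι]
  by_cases ha : a = 0
  · refine ⟨0, ?_⟩
    rw [ha, map_zero, map_zero, zero_div, zero_pow hn]
  have hφa : φ a ≠ 0 := fun h0 => ha (hφ (by rw [h0, map_zero]))
  refine exists_root_div n hn (φ a) (φ b) hφb ?_
  intro τ
  obtain ⟨w, hw⟩ := h τ
  have hval : ordAtFrac (M := M) φ hφ τ (algebraMap R M a / algebraMap R M b)
      = ordAt τ (φ a) / ordAt τ (φ b) := by
    rw [map_div₀, ordAtFrac_algebraMap, ordAtFrac_algebraMap]
  rw [hval] at hw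
  have hw0 : w ≠ 0 := by
    intro h0
    rw [h0, zero_pow hn] at hw
    exact div_ne_zero (ordAt_ne_zero τ hφa) (ordAt_ne_zero τ hφb) hw
  have hlog := congrArg WithZero.log hw
  rw [WithZero.log_div (ordAt_ne_zero τ hφa) (ordAt_ne_zero τ hφb), WithZero.log_pow] at hlog
  refine ⟨-WithZero.log w, ?_⟩
  rw [← log_ordAt τ hφa, ← log_ordAt τ hφb]
  simp only [nsmul_eq_mul] at hlog
  linear_combination -hlog

/-! ### Uniqueness of roots up to roots of unity, in any field containing `ℂ` -/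

section field

variable {K : Type*} [Field K] (c : ℂ →+* K)

/-- **(W3)** In a field `K` containing `ℂ`, every `n`-th root of unity is a complex constant. -/
theorem exists_const_of_pow_eq_one (n : ℕ) (hn : n ≠ 0) (x : K) (hx : x ^ n = 1) :
    ∃ ζ : ℂ, ζ ^ n = 1 ∧ x = c ζ := by
  obtain ⟨ω, hprim⟩ : ∃ ω : ℂ, IsPrimitiveRoot ω n := ⟨_, Complex.isPrimitiveRoot_exp n hn⟩
  have hprimK : IsPrimitiveRoot (c ω) n := hprim.map_of_injective c.injective
  have : NeZero n := ⟨hn⟩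
  obtain ⟨i, -, hi⟩ := hprimK.eq_pow_of_pow_eq_one hx
  refine ⟨ω ^ i, ?_, ?_⟩
  · rw [← pow_mul, mul_comm, pow_mul, hprim.pow_eq_one, one_pow]
  · rw [map_pow, hi]

/-- **(U)** Two `n`-th roots of the same nonzero element of a field containing `ℂ` differ by a
complex `n`-th root of unity. -/
theorem exists_const_mul_of_pow_eq_field (n : ℕ) (hn : n ≠ 0) (F₁ F₂ : K) (hF₂ : F₂ ≠ 0)
    (h : F₁ ^ n = F₂ ^ n) : ∃ ζ : ℂ, ζ ^ n = 1 ∧ F₁ = c ζ * F₂ := by
  have hx : (F₁ / F₂) ^ n = 1 := by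
    rw [div_pow, h, div_self (pow_ne_zero n hF₂)]
  obtain ⟨ζ, hζ, hζx⟩ := exists_const_of_pow_eq_one c n hn (F₁ / F₂) hx
  refine ⟨ζ, hζ, ?_⟩
  rw [← hζx, div_mul_cancel₀ F₁ hF₂]

/-- **(U), unique form.** -/
theorem existsUnique_const_mul_of_pow_eq_field (n : ℕ) (hn : n ≠ 0) (F₁ F₂ : K) (hF₂ : F₂ ≠ 0)
    (h : F₁ ^ n = F₂ ^ n) : ∃! ζ : ℂ, ζ ^ n = 1 ∧ F₁ = c ζ * F₂ := by
  obtain ⟨ζ, hζ, hζF⟩ := exists_const_mul_of_pow_eq_field c n hn F₁ F₂ hF₂ h
  refine ⟨ζ, ⟨hζ, hζF⟩, ?_⟩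
  rintro ζ' ⟨-, hζ'F⟩
  have h1 : c ζ' * F₂ = c ζ * F₂ := by rw [← hζ'F, ← hζF]
  exact c.injective (mul_right_cancel₀ hF₂ h1)

/-- A scalar `ζ` with `σ F = c ζ * F` is determined by `σ F` and `F ≠ 0`. -/
theorem const_unique_of_mul_eq {F : K} (hF : F ≠ 0) {ζ ζ' : ℂ} (h : c ζ * F = c ζ' * F) :
    ζ = ζ' :=
  c.injective (mul_right_cancel₀ hF h)

/-- **Character of a root (left-action convention).** Let a group `Γ` act on a field `K ⊇ ℂ`
through ring homs `ρ γ` fixing the constants, with `ρ (γ₁ * γ₂) = ρ γ₁ ∘ ρ γ₂`. If `F ≠ 0` and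
`F ^ n` is `Γ`-invariant, then there is a (unique) character `ψ : Γ →* ℂˣ` with values in `n`-th
roots of unity such that `ρ γ F = ψ γ · F`. -/
theorem exists_char_of_root {Γ : Type*} [Group Γ] (ρ : Γ → K →+* K)
    (hρc : ∀ (γ : Γ) (z : ℂ), ρ γ (c z) = c z)
    (hρmul : ∀ (γ₁ γ₂ : Γ) (x : K), ρ (γ₁ * γ₂) x = ρ γ₁ (ρ γ₂ x))
    (n : ℕ) (hn : n ≠ 0) (F : K) (hF : F ≠ 0) (hfix : ∀ γ : Γ, ρ γ (F ^ n) = F ^ n) :
    ∃ ψ : Γ →* ℂˣ, (∀ γ : Γ, ψ γ ^ n = 1) ∧ ∀ γ : Γ, ρ γ F = c (ψ γ : ℂ) * F := by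
  have hex : ∀ γ : Γ, ∃ ζ : ℂ, ζ ^ n = 1 ∧ ρ γ F = c ζ * F := by
    intro γ
    refine exists_const_mul_of_pow_eq_field c n hn (ρ γ F) F hF ?_
    rw [← map_pow, hfix γ]
  choose ζ hζ hζF using hex
  have hζ0 : ∀ γ, ζ γ ≠ 0 := by
    intro γ h0
    have := hζ γ
    rw [h0, zero_pow hn] at this
    exact zero_ne_one this
  have hζmul : ∀ γ₁ γ₂ : Γ, ζ (γ₁ * γ₂) = ζ γ₁ * ζ γ₂ := by
    intro γ₁ γ₂
    apply const_unique_of_mul_eq c hF
    rw [← hζF (γ₁ * γ₂), hρmul, hζF γ₂, map_mul, hρc, hζF γ₁, map_mul]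
    ring
  have hζone : ζ 1 = 1 := by
    have h1 := hζmul 1 1
    rw [mul_one] at h1
    exact (mul_eq_left₀ (hζ0 1)).mp h1.symm
  refine ⟨{ toFun := fun γ => Units.mk0 (ζ γ) (hζ0 γ)
            map_one' := Units.ext (by simpa using hζone)
            map_mul' := fun γ₁ γ₂ => Units.ext (by simpa using hζmul γ₁ γ₂) }, ?_, ?_⟩
  · intro γ
    apply Units.ext
    simpa using hζ γ
  · intro γ
    simpa using hζF γ

/-- **Character of a root (right-action convention)**: the same as `exists_char_of_root` for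
`ρ (γ₁ * γ₂) = ρ γ₂ ∘ ρ γ₁` (e.g. pre-composition with a left action on `ℍ`). -/
theorem exists_char_of_root' {Γ : Type*} [Group Γ] (ρ : Γ → K →+* K)
    (hρc : ∀ (γ : Γ) (z : ℂ), ρ γ (c z) = c z)
    (hρmul : ∀ (γ₁ γ₂ : Γ) (x : K), ρ (γ₁ * γ₂) x = ρ γ₂ (ρ γ₁ x))
    (n : ℕ) (hn : n ≠ 0) (F : K) (hF : F ≠ 0) (hfix : ∀ γ : Γ, ρ γ (F ^ n) = F ^ n) :
    ∃ ψ : Γ →* ℂˣ, (∀ γ : Γ, ψ γ ^ n = 1) ∧ ∀ γ : Γ, ρ γ F = c (ψ γ : ℂ) * F := by
  have hex : ∀ γ : Γ, ∃ ζ : ℂ, ζ ^ n = 1 ∧ ρ γ F = c ζ * F := by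
    intro γ
    refine exists_const_mul_of_pow_eq_field c n hn (ρ γ F) F hF ?_
    rw [← map_pow, hfix γ]
  choose ζ hζ hζF using hex
  have hζ0 : ∀ γ, ζ γ ≠ 0 := by
    intro γ h0
    have := hζ γ
    rw [h0, zero_pow hn] at this
    exact zero_ne_one this
  have hζmul : ∀ γ₁ γ₂ : Γ, ζ (γ₁ * γ₂) = ζ γ₁ * ζ γ₂ := by
    intro γ₁ γ₂
    apply const_unique_of_mul_eq c hF
    rw [← hζF (γ₁ * γ₂), hρmul, hζF γ₁, map_mul, hρc, hζF γ₂, map_mul]
    ring
  have hζone : ζ 1 = 1 := by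
    have h1 := hζmul 1 1
    rw [mul_one] at h1
    exact (mul_eq_left₀ (hζ0 1)).mp h1.symm
  refine ⟨{ toFun := fun γ => Units.mk0 (ζ γ) (hζ0 γ)
            map_one' := Units.ext (by simpa using hζone)
            map_mul' := fun γ₁ γ₂ => Units.ext (by simpa using hζmul γ₁ γ₂) }, ?_, ?_⟩
  · intro γ
    apply Units.ext
    simpa using hζ γ
  · intro γ
    simpa using hζF γ

end field

end Fermat.Agent.Lib.HolRoot
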