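import Mathlib

/-!
# Euler products over the prime ideals of a Dedekind domain

Generic part: for a Dedekind domain `R`, a complete normed field `F` and a completely
multiplicative `f : Ideal R →*₀ F` with `Summable (‖f ·‖)`,
`∏' v : HeightOneSpectrum R, (1 - f v.asIdeal)⁻¹ = ∑' I : Ideal R, f I`.
-/

set_option autoImplicit false
set_option linter.unusedSectionVars false

namespace Fermat.Agent.Lib.IdealEuler

open IsDedekindDomain Finset

open scoped Classical

noncomputable section

section Generic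

variable {R : Type*} [CommRing R] [IsDedekindDomain R]

/-- The nonzero ideals all of whose prime factors lie in the finite set `s`. -/
def factoredIdeals (s : Finset (HeightOneSpectrum R)) : Set (Ideal R) :=
  {I | I ≠ ⊥ ∧ ∀ v : HeightOneSpectrum R, v.asIdeal ∣ I → v ∈ s}

lemma mem_factoredIdeals {s : Finset (HeightOneSpectrum R)} {I : Ideal R} :
    I ∈ factoredIdeals s ↔ I ≠ ⊥ ∧ ∀ v : HeightOneSpectrum R, v.asIdeal ∣ I → v ∈ s := Iff.rfl

lemma factoredIdeals_mono {s t : Finset (HeightOneSpectrum R)} (h : s ⊆ t) :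
    factoredIdeals s ⊆ factoredIdeals t := fun _ hI => ⟨hI.1, fun v hv => h (hI.2 v hv)⟩

lemma bot_notMem_factoredIdeals (s : Finset (HeightOneSpectrum R)) :
    (⊥ : Ideal R) ∉ factoredIdeals s := fun h => h.1 rfl

/-- A proper nonzero ideal is divisible by some prime. -/
lemma exists_heightOne_dvd {I : Ideal R} (h0 : I ≠ ⊥) (h1 : I ≠ ⊤) :
    ∃ v : HeightOneSpectrum R, v.asIdeal ∣ I := by
  obtain ⟨M, hM, hIM⟩ := Ideal.exists_le_maximal I h1
  have hM0 : M ≠ ⊥ := fun h => h0 (le_bot_iff.mp (h ▸ hIM))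
  exact ⟨⟨M, hM.isPrime, hM0⟩, Ideal.dvd_iff_le.mpr hIM⟩

lemma factoredIdeals_empty : factoredIdeals (∅ : Finset (HeightOneSpectrum R)) = {1} := by
  ext I
  simp only [mem_factoredIdeals, Finset.notMem_empty, imp_false, Set.mem_singleton_iff,
    Ideal.one_eq_top]
  constructor
  · rintro ⟨h0, h⟩
    by_contra h1
    obtain ⟨v, hv⟩ := exists_heightOne_dvd h0 h1
    exact h v hv
  · rintro rfl
    refine ⟨top_ne_bot, fun v hv => ?_⟩
    have := Ideal.dvd_iff_le.mp hv
    exact v.isPrime.ne_top (top_le_iff.mp this)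

lemma heightOne_dvd_iff_eq {v w : HeightOneSpectrum R} : w.asIdeal ∣ v.asIdeal ↔ w = v := by
  constructor
  · intro h
    have hle := Ideal.dvd_iff_le.mp h
    exact (HeightOneSpectrum.ext (v.isMaximal.eq_of_le w.isPrime.ne_top hle)).symm
  · rintro rfl; exact dvd_rfl

lemma heightOne_prime (v : HeightOneSpectrum R) : Prime v.asIdeal := v.prime

/-- `(n, J) ↦ v ^ n * J` maps `ℕ × factoredIdeals s` into `factoredIdeals (insert v s)`. -/
lemma pow_mul_mem_factoredIdeals {s : Finset (HeightOneSpectrum R)} (v : HeightOneSpectrum R)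
    (n : ℕ) {J : Ideal R} (hJ : J ∈ factoredIdeals s) :
    v.asIdeal ^ n * J ∈ factoredIdeals (insert v s) := by
  refine ⟨mul_ne_zero (pow_ne_zero _ v.ne_bot) hJ.1, fun w hw => ?_⟩
  rcases (heightOne_prime w).dvd_or_dvd hw with h | h
  · have := (heightOne_prime w).dvd_of_dvd_pow h
    rw [heightOne_dvd_iff_eq] at this
    exact this ▸ Finset.mem_insert_self _ _
  · exact Finset.mem_insert_of_mem (hJ.2 w h)

/-- The map `(n, J) ↦ v ^ n * J` as a function into the subtype. -/
noncomputable def powMulMap {s : Finset (HeightOneSpectrum R)} (v : HeightOneSpectrum R) :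
    ℕ × factoredIdeals s → factoredIdeals (insert v s) :=
  fun x => ⟨v.asIdeal ^ x.1 * x.2.1, pow_mul_mem_factoredIdeals v x.1 x.2.2⟩

lemma powMulMap_bijective {s : Finset (HeightOneSpectrum R)} {v : HeightOneSpectrum R}
    (hv : v ∉ s) : Function.Bijective (powMulMap (s := s) v) := by
  have hvs : ∀ J ∈ factoredIdeals s, ¬ v.asIdeal ∣ J := fun J hJ h => hv (hJ.2 v h)
  constructor
  · rintro ⟨n, J, hJ⟩ ⟨m, J', hJ'⟩ h
    have h' : v.asIdeal ^ n * J = v.asIdeal ^ m * J' := congrArg Subtype.val h
    have key : ∀ (a b : ℕ) (A B : Ideal R), ¬ v.asIdeal ∣ A → a < b →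
        v.asIdeal ^ a * A ≠ v.asIdeal ^ b * B := by
      intro a b A B hA hab heq
      obtain ⟨c, rfl⟩ := Nat.exists_eq_add_of_lt hab
      rw [show a + c + 1 = a + (c + 1) by ring, pow_add, mul_assoc] at heq
      have := mul_left_cancel₀ (pow_ne_zero a v.ne_bot) heq
      exact hA ⟨v.asIdeal ^ c * B, by rw [this, pow_succ']; ring⟩
    have hnm : n = m := by
      rcases lt_trichotomy n m with hlt | heq | hgt
      · exact absurd h' (key n m J J' (hvs J hJ) hlt)
      · exact heq
      · exact absurd h'.symm (key m n J' J (hvs J' hJ') hgt)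
    subst hnm
    have := mul_left_cancel₀ (pow_ne_zero n v.ne_bot) h'
    subst this
    rfl
  · rintro ⟨I, hI⟩
    obtain ⟨n, J, hndvd, rfl⟩ :=
      WfDvdMonoid.max_power_factor (α := Ideal R) hI.1 (heightOne_prime v).irreducible
    have hJ : J ∈ factoredIdeals s := by
      refine ⟨right_ne_zero_of_mul hI.1, fun w hw => ?_⟩
      have := hI.2 w (hw.mul_left _)
      rcases Finset.mem_insert.mp this with rfl | h
      · exact absurd hw hndvd
      · exact h
    exact ⟨⟨n, J, hJ⟩, rfl⟩

/-- The equivalence `ℕ × factoredIdeals s ≃ factoredIdeals (insert v s)` for `v ∉ s`. -/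
noncomputable def equivProdNatFactoredIdeals {s : Finset (HeightOneSpectrum R)}
    {v : HeightOneSpectrum R} (hv : v ∉ s) :
    ℕ × factoredIdeals s ≃ factoredIdeals (insert v s) :=
  Equiv.ofBijective _ (powMulMap_bijective hv)

@[simp] lemma equivProdNatFactoredIdeals_apply {s : Finset (HeightOneSpectrum R)}
    {v : HeightOneSpectrum R} (hv : v ∉ s) (x : ℕ × factoredIdeals s) :
    ((equivProdNatFactoredIdeals hv x : factoredIdeals (insert v s)) : Ideal R) =
      v.asIdeal ^ x.1 * x.2.1 := rfl

variable {F : Type*} [NormedField F] [CompleteSpace F]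

/-- Finite Euler product: the sum of a (completely) multiplicative `f` over the `s`-factored
ideals is `∏ v ∈ s, (1 - f v)⁻¹`, with absolute convergence. -/
theorem summable_and_hasSum_factoredIdeals (f : Ideal R →* F)
    (h : ∀ v : HeightOneSpectrum R, ‖f v.asIdeal‖ < 1) (s : Finset (HeightOneSpectrum R)) :
    Summable (fun I : factoredIdeals s => ‖f I‖) ∧
      HasSum (fun I : factoredIdeals s => f I) (∏ v ∈ s, (1 - f v.asIdeal)⁻¹) := by
  induction s using Finset.induction with
  | empty =>
    rw [factoredIdeals_empty]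
    simp only [Finset.prod_empty]
    exact ⟨(Set.finite_singleton 1).summable (‖f ·‖), f.map_one ▸ hasSum_singleton 1 (f ·)⟩
  | insert v s hv ih =>
    have hgeo : Summable (fun n : ℕ => ‖f v.asIdeal ^ n‖) := by
      simp only [norm_pow]
      exact summable_geometric_of_lt_one (norm_nonneg _) (h v)
    have ih1 : Summable (fun I : factoredIdeals s => ‖f I‖) := ih.1
    have ih2 : HasSum (fun I : factoredIdeals s => f I) (∏ v ∈ s, (1 - f v.asIdeal)⁻¹) := ih.2
    have hS : Summable (fun x : ℕ × factoredIdeals s => ‖f v.asIdeal ^ x.1‖ * ‖f x.2‖) := by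
      apply Summable.mul_of_nonneg hgeo ih1 <;> exact fun n ↦ norm_nonneg _
    have hS' : Summable (fun x : ℕ × factoredIdeals s => f v.asIdeal ^ x.1 * f x.2) := by
      refine Summable.of_norm ?_
      simpa only [norm_mul] using hS
    have hH : HasSum (fun x : ℕ × factoredIdeals s => f v.asIdeal ^ x.1 * f x.2)
        ((1 - f v.asIdeal)⁻¹ * ∏ v ∈ s, (1 - f v.asIdeal)⁻¹) := by
      have : T3Space F := instT3Space
      have hg : HasSum (fun n : ℕ => f v.asIdeal ^ n) (1 - f v.asIdeal)⁻¹ :=
        hasSum_geometric_of_norm_lt_one (h v)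
      apply hg.mul ih2
      exact hS'
    constructor
    · rw [← (equivProdNatFactoredIdeals hv).summable_iff]
      have : ((fun I : factoredIdeals (insert v s) => ‖f I‖) ∘ (equivProdNatFactoredIdeals hv))
          = fun x : ℕ × factoredIdeals s => ‖f v.asIdeal ^ x.1‖ * ‖f x.2‖ := by
        funext x
        simp [map_mul, map_pow]
      rw [this]
      exact hS
    · rw [Finset.prod_insert hv, ← (equivProdNatFactoredIdeals hv).hasSum_iff]
      have : ((fun I : factoredIdeals (insert v s) => f I) ∘ (equivProdNatFactoredIdeals hv))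
          = fun x : ℕ × factoredIdeals s => f v.asIdeal ^ x.1 * f x.2 := by
        funext x
        simp [map_mul, map_pow]
      rw [this]
      exact hH

/-- `‖f v‖ < 1` for every prime ideal, from summability. -/
lemma norm_lt_one_of_summable (f : Ideal R →* F) (hsum : Summable (fun I : Ideal R => ‖f I‖))
    (v : HeightOneSpectrum R) : ‖f v.asIdeal‖ < 1 := by
  refine summable_geometric_iff_norm_lt_one.mp ?_
  have hinj : Function.Injective (fun n : ℕ => v.asIdeal ^ n) :=
    (Ideal.pow_right_strictAnti _ v.ne_bot v.isPrime.ne_top).injective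
  have := (hsum.of_norm).comp_injective hinj
  simpa [Function.comp_def, map_pow] using this

/-- Finite Euler product, value form. -/
theorem tsum_factoredIdeals_eq_prod (f : Ideal R →* F)
    (hsum : Summable (fun I : Ideal R => ‖f I‖)) (s : Finset (HeightOneSpectrum R)) :
    ∑' I : factoredIdeals s, f I = ∏ v ∈ s, (1 - f v.asIdeal)⁻¹ :=
  (summable_and_hasSum_factoredIdeals f (norm_lt_one_of_summable f hsum) s).2.tsum_eq

/-- Summing over `s`-factored ideals for large `s` approximates the full sum. -/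
lemma norm_tsum_sub_tsum_factoredIdeals_lt (f : Ideal R → F) (hsum : Summable f)
    (hf0 : f ⊥ = 0) {ε : ℝ} (hε : 0 < ε) :
    ∃ s0 : Finset (HeightOneSpectrum R), ∀ s : Finset (HeightOneSpectrum R), s0 ⊆ s →
      ‖(∑' I, f I) - ∑' I : factoredIdeals s, f I‖ < ε := by
  obtain ⟨T, hT⟩ := summable_iff_tsum_vanishing.mp hsum (Metric.ball 0 ε)
    (Metric.ball_mem_nhds 0 hε)
  simp_rw [mem_ball_zero_iff] at hT
  let s0 : Finset (HeightOneSpectrum R) :=
    T.biUnion (fun I => if h : I = ⊥ then ∅ else (Ideal.finite_factors h).toFinset)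
  refine ⟨s0, fun s hs => ?_⟩
  have hdisj : Disjoint ((factoredIdeals s)ᶜ \ {⊥}) (T : Set (Ideal R)) := by
    rw [Set.disjoint_left]
    rintro I ⟨hI, hI0⟩ hIT
    apply hI
    have hI0' : I ≠ ⊥ := by simpa using hI0
    refine ⟨hI0', fun v hv => hs ?_⟩
    simp only [s0, Finset.mem_biUnion]
    exact ⟨I, hIT, by simp [dif_neg hI0', hv]⟩
  have := hT _ hdisj
  rwa [← hsum.tsum_subtype_add_tsum_subtype_compl (factoredIdeals s), add_sub_cancel_left,
    tsum_eq_tsum_sdiff_singleton (factoredIdeals s)ᶜ hf0]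

/-- **Euler product over the prime ideals of a Dedekind domain**, for a completely
multiplicative norm-summable function. -/
theorem eulerProduct_hasProd (f : Ideal R →*₀ F) (hsum : Summable (fun I : Ideal R => ‖f I‖)) :
    HasProd (fun v : HeightOneSpectrum R => (1 - f v.asIdeal)⁻¹) (∑' I, f I) := by
  rw [HasProd, SummationFilter.unconditional, Metric.tendsto_atTop]
  intro ε hε
  obtain ⟨s0, hs0⟩ := norm_tsum_sub_tsum_factoredIdeals_lt (fun I => f I) hsum.of_norm
    (by rw [← Ideal.zero_eq_bot]; exact map_zero f) hε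
  refine ⟨s0, fun s hs => ?_⟩
  have key : ∑' I : factoredIdeals s, f I = ∏ v ∈ s, (1 - f v.asIdeal)⁻¹ :=
    tsum_factoredIdeals_eq_prod (f : Ideal R →* F) hsum s
  rw [dist_eq_norm, ← key, norm_sub_rev]
  exact hs0 s hs

/-- **Euler product**, `tprod` form. -/
theorem eulerProduct_tprod (f : Ideal R →*₀ F) (hsum : Summable (fun I : Ideal R => ‖f I‖)) :
    ∏' v : HeightOneSpectrum R, (1 - f v.asIdeal)⁻¹ = ∑' I, f I :=
  (eulerProduct_hasProd f hsum).tprod_eq

end Generic

end

end Fermat.Agent.Lib.IdealEuler
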