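/-
Dedekind zeta bounds near `s = 1` and sums over prime ideals (helper17; S14 Thaine route,
analytic leaf for the density step (B3); split with helper27's `Lib/IdealEuler`).

Everything that needs the identification of `∑ N(I)^(-s)` with Mathlib's `dedekindZeta` takes
it as the hypothesis `ZetaBridge K` (helper27's N1).
-/
import Mathlib
import Fermat.Agent.Lib.IdealEuler

set_option autoImplicit false

noncomputable section

namespace Fermat.Agent.Lib.IdealEulerZeta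

open IsDedekindDomain NumberField Ideal Filter Topology

variable (K : Type*) [Field K] [NumberField K]

/-- Hypothesis form of the bridge to Mathlib's `dedekindZeta`: for real `s > 1` the series
`∑ N(I)^(-s)` over all ideals (the zero ideal contributes `0`) converges to `dedekindZeta K s`. -/
def ZetaBridge : Prop :=
  ∀ s : ℝ, 1 < s → Summable (fun I : Ideal (𝓞 K) => (absNorm I : ℝ) ^ (-s)) ∧
    ((∑' I : Ideal (𝓞 K), (absNorm I : ℝ) ^ (-s) : ℝ) : ℂ) = dedekindZeta K s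

/-- `I ↦ N(I)^(-s)` as a monoid homomorphism. -/
def normRpow (s : ℝ) : Ideal (𝓞 K) →* ℝ where
  toFun I := (absNorm I : ℝ) ^ (-s)
  map_one' := by simp
  map_mul' I J := by
    rw [map_mul, Nat.cast_mul, Real.mul_rpow (Nat.cast_nonneg _) (Nat.cast_nonneg _)]

@[simp] theorem normRpow_apply (s : ℝ) (I : Ideal (𝓞 K)) :
    normRpow K s I = (absNorm I : ℝ) ^ (-s) := rfl

/-- `I ↦ N(I)^(-s)` as a monoid-with-zero homomorphism (`s ≠ 0`). -/
def normRpow₀ (s : ℝ) (hs : s ≠ 0) : Ideal (𝓞 K) →*₀ ℝ where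
  toFun I := (absNorm I : ℝ) ^ (-s)
  map_zero' := by
    rw [Ideal.zero_eq_bot, absNorm_bot, Nat.cast_zero, Real.zero_rpow (neg_ne_zero.mpr hs)]
  map_one' := by simp
  map_mul' I J := by
    rw [map_mul, Nat.cast_mul, Real.mul_rpow (Nat.cast_nonneg _) (Nat.cast_nonneg _)]

@[simp] theorem normRpow₀_apply (s : ℝ) (hs : s ≠ 0) (I : Ideal (𝓞 K)) :
    normRpow₀ K s hs I = (absNorm I : ℝ) ^ (-s) := rfl

variable {K}

theorem rpow_nonneg' (s : ℝ) (I : Ideal (𝓞 K)) : 0 ≤ (absNorm I : ℝ) ^ (-s) :=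
  Real.rpow_nonneg (Nat.cast_nonneg _) _

/-- `N(I)^(-s)` is antitone in `s` (also at the zero ideal, for positive exponents). -/
theorem rpow_anti {s t : ℝ} (hs : 0 < s) (hst : s ≤ t) (I : Ideal (𝓞 K)) :
    (absNorm I : ℝ) ^ (-t) ≤ (absNorm I : ℝ) ^ (-s) := by
  rcases Nat.eq_zero_or_pos (absNorm I) with h | h
  · rw [h, Nat.cast_zero, Real.zero_rpow (by linarith), Real.zero_rpow (by linarith)]
  · exact Real.rpow_le_rpow_of_exponent_le (by exact_mod_cast h) (by linarith)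

theorem summable_norm_of_bridge (h : ZetaBridge K) {s : ℝ} (hs : 1 < s) :
    Summable (fun I : Ideal (𝓞 K) => ‖normRpow K s I‖) := by
  have := (h s hs).1
  simpa [Real.norm_of_nonneg (rpow_nonneg' s _)] using this

theorem one_le_tsum (h : ZetaBridge K) {s : ℝ} (hs : 1 < s) :
    1 ≤ ∑' I : Ideal (𝓞 K), (absNorm I : ℝ) ^ (-s) := by
  have h1 := (h s hs).1.le_tsum (⊤ : Ideal (𝓞 K)) (fun J _ => rpow_nonneg' s J)
  simpa using h1

theorem tsum_anti (h : ZetaBridge K) {s t : ℝ} (hs : 1 < s) (hst : s ≤ t) :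
    ∑' I : Ideal (𝓞 K), (absNorm I : ℝ) ^ (-t) ≤ ∑' I : Ideal (𝓞 K), (absNorm I : ℝ) ^ (-s) :=
  (h t (lt_of_lt_of_le hs hst)).1.tsum_le_tsum (fun I => rpow_anti (by linarith) hst I)
    (h s hs).1

/-- `(s - 1) ζ_K(s) → residue` as `s → 1⁺`, for the real series. -/
theorem tendsto_sub_one_mul_tsum (h : ZetaBridge K) :
    Tendsto (fun s : ℝ => (s - 1) * ∑' I : Ideal (𝓞 K), (absNorm I : ℝ) ^ (-s)) (𝓝[>] 1)
      (𝓝 (dedekindZeta_residue K)) := by
  have h1 := tendsto_sub_one_mul_dedekindZeta_nhdsGT K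
  have h2 : Tendsto (fun s : ℝ => ((s - 1) * dedekindZeta K s).re) (𝓝[>] 1)
      (𝓝 ((dedekindZeta_residue K : ℂ).re)) := (Complex.continuous_re.tendsto _).comp h1
  rw [Complex.ofReal_re] at h2
  refine h2.congr' ?_
  filter_upwards [self_mem_nhdsWithin] with s hs
  rw [← (h s hs).2, ← Complex.ofReal_one, ← Complex.ofReal_sub, ← Complex.ofReal_mul,
    Complex.ofReal_re]

variable (K)

/-- Upper bound `ζ_K(s) ≤ C / (s - 1)` on `(1, 2]`. -/
theorem exists_zeta_le (h : ZetaBridge K) : ∃ C : ℝ, 0 < C ∧ ∀ s : ℝ, 1 < s → s ≤ 2 →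
    ∑' I : Ideal (𝓞 K), (absNorm I : ℝ) ^ (-s) ≤ C / (s - 1) := by
  have hres := dedekindZeta_residue_pos K
  have hev : ∀ᶠ s in 𝓝[>] (1 : ℝ), (s - 1) * ∑' I : Ideal (𝓞 K), (absNorm I : ℝ) ^ (-s)
      < dedekindZeta_residue K + 1 :=
    (tendsto_sub_one_mul_tsum h).eventually (gt_mem_nhds (by linarith))
  obtain ⟨u, hu, hsub⟩ := mem_nhdsGT_iff_exists_Ioo_subset.mp hev
  have hu1 : (1 : ℝ) < u := hu
  set s₀ : ℝ := (1 + u) / 2 with hs₀
  have hs₀1 : 1 < s₀ := by rw [hs₀]; linarith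
  have hs₀u : s₀ < u := by rw [hs₀]; linarith
  set Z₀ : ℝ := ∑' I : Ideal (𝓞 K), (absNorm I : ℝ) ^ (-s₀) with hZ₀
  have hZ₀1 : 1 ≤ Z₀ := one_le_tsum h hs₀1
  refine ⟨max (dedekindZeta_residue K + 1) Z₀, lt_max_of_lt_left (by linarith), ?_⟩
  intro s hs hs2
  have hs' : 0 < s - 1 := by linarith
  rw [le_div_iff₀ hs']
  rcases lt_or_ge s s₀ with hlt | hge
  · have := hsub (show s ∈ Set.Ioo 1 u from ⟨hs, hlt.trans hs₀u⟩)
    have h3 : (s - 1) * ∑' I : Ideal (𝓞 K), (absNorm I : ℝ) ^ (-s)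
        < dedekindZeta_residue K + 1 := this
    rw [mul_comm]
    exact h3.le.trans (le_max_left _ _)
  · have h4 := tsum_anti h hs₀1 hge
    have h5 : (∑' I : Ideal (𝓞 K), (absNorm I : ℝ) ^ (-s)) * (s - 1) ≤ Z₀ * 1 :=
      mul_le_mul h4 (by linarith) hs'.le (by linarith)
    rw [mul_one] at h5
    exact h5.trans (le_max_right _ _)

/-- Lower bound `c / (s - 1) ≤ ζ_K(s)` on `(1, 2]`. -/
theorem exists_le_zeta (h : ZetaBridge K) : ∃ c : ℝ, 0 < c ∧ ∀ s : ℝ, 1 < s → s ≤ 2 →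
    c / (s - 1) ≤ ∑' I : Ideal (𝓞 K), (absNorm I : ℝ) ^ (-s) := by
  have hres := dedekindZeta_residue_pos K
  have hev : ∀ᶠ s in 𝓝[>] (1 : ℝ), dedekindZeta_residue K / 2
      < (s - 1) * ∑' I : Ideal (𝓞 K), (absNorm I : ℝ) ^ (-s) :=
    (tendsto_sub_one_mul_tsum h).eventually (lt_mem_nhds (by linarith))
  obtain ⟨u, hu, hsub⟩ := mem_nhdsGT_iff_exists_Ioo_subset.mp hev
  have hu1 : (1 : ℝ) < u := hu
  set s₀ : ℝ := (1 + u) / 2 with hs₀
  have hs₀1 : 1 < s₀ := by rw [hs₀]; linarith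
  have hs₀u : s₀ < u := by rw [hs₀]; linarith
  refine ⟨min (dedekindZeta_residue K / 2) (s₀ - 1), lt_min (by linarith) (by linarith), ?_⟩
  intro s hs hs2
  have hs' : 0 < s - 1 := by linarith
  rw [div_le_iff₀ hs']
  rcases lt_or_ge s s₀ with hlt | hge
  · have := hsub (show s ∈ Set.Ioo 1 u from ⟨hs, hlt.trans hs₀u⟩)
    have h3 : dedekindZeta_residue K / 2
        < (s - 1) * ∑' I : Ideal (𝓞 K), (absNorm I : ℝ) ^ (-s) := this
    rw [mul_comm]
    exact (min_le_left _ _).trans h3.le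
  · have h4 := one_le_tsum h hs
    calc min (dedekindZeta_residue K / 2) (s₀ - 1) ≤ s₀ - 1 := min_le_right _ _
      _ ≤ 1 * (s - 1) := by linarith
      _ ≤ (∑' I : Ideal (𝓞 K), (absNorm I : ℝ) ^ (-s)) * (s - 1) :=
        mul_le_mul_of_nonneg_right h4 hs'.le

/-! ### Elementary real inequalities -/

theorem exp_le_inv_one_sub {x : ℝ} (hx : x < 1) : Real.exp x ≤ (1 - x)⁻¹ := by
  have h1 : 1 - x ≤ Real.exp (-x) := by
    have := Real.add_one_le_exp (-x)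
    linarith
  have h2 : 0 < 1 - x := by linarith
  rw [Real.exp_neg] at h1
  exact (le_inv_comm₀ h2 (Real.exp_pos x)).mp h1

theorem inv_one_sub_le_exp {x : ℝ} (hx : x ≤ 1 / 2) :
    (1 - x)⁻¹ ≤ Real.exp (x + 2 * x ^ 2) := by
  have h1 : 0 < 1 - x := by linarith
  have h2 : (1 - x)⁻¹ = 1 + x / (1 - x) := by
    field_simp
    ring
  have h3 : x / (1 - x) ≤ x + 2 * x ^ 2 := by
    rw [div_le_iff₀ h1]
    nlinarith [sq_nonneg x, mul_nonneg (sub_nonneg.mpr hx) (sq_nonneg x)]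
  calc (1 - x)⁻¹ = 1 + x / (1 - x) := h2
    _ ≤ 1 + (x + 2 * x ^ 2) := by linarith
    _ ≤ Real.exp (x + 2 * x ^ 2) := by linarith [Real.add_one_le_exp (x + 2 * x ^ 2)]

/-! ### Norms of primes -/

variable {K}

theorem two_le_absNorm (Q : HeightOneSpectrum (𝓞 K)) : 2 ≤ absNorm Q.asIdeal := by
  have h0 : absNorm Q.asIdeal ≠ 0 := fun h => Q.ne_bot (absNorm_eq_zero_iff.mp h)
  have h1 : absNorm Q.asIdeal ≠ 1 := fun h => Q.isPrime.ne_top (absNorm_eq_one_iff.mp h)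
  omega

theorem prime_rpow_nonneg (s : ℝ) (Q : HeightOneSpectrum (𝓞 K)) :
    0 ≤ (absNorm Q.asIdeal : ℝ) ^ (-s) := rpow_nonneg' s _

theorem prime_rpow_le_half {s : ℝ} (hs : 1 ≤ s) (Q : HeightOneSpectrum (𝓞 K)) :
    (absNorm Q.asIdeal : ℝ) ^ (-s) ≤ 1 / 2 := by
  have h2 : (2 : ℝ) ≤ absNorm Q.asIdeal := by exact_mod_cast two_le_absNorm Q
  calc (absNorm Q.asIdeal : ℝ) ^ (-s) ≤ (2 : ℝ) ^ (-s) :=
        Real.rpow_le_rpow_of_nonpos (by norm_num) h2 (by linarith)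
    _ ≤ (2 : ℝ) ^ (-1 : ℝ) := Real.rpow_le_rpow_of_exponent_le (by norm_num) (by linarith)
    _ = 1 / 2 := by rw [Real.rpow_neg_one]; norm_num

theorem sum_primes_le_tsum (h : ZetaBridge K) {s : ℝ} (hs : 1 < s)
    (T : Finset (HeightOneSpectrum (𝓞 K))) :
    ∑ Q ∈ T, (absNorm Q.asIdeal : ℝ) ^ (-s) ≤ ∑' I : Ideal (𝓞 K), (absNorm I : ℝ) ^ (-s) := by
  classical
  have hinj : Set.InjOn (fun Q : HeightOneSpectrum (𝓞 K) => Q.asIdeal) (T : Set _) :=
    fun Q _ Q' _ hQQ' => HeightOneSpectrum.ext hQQ'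
  have h1 : ∑ Q ∈ T, (absNorm Q.asIdeal : ℝ) ^ (-s)
      = ∑ I ∈ T.image (fun Q : HeightOneSpectrum (𝓞 K) => Q.asIdeal), (absNorm I : ℝ) ^ (-s) :=
    (Finset.sum_image (f := fun I : Ideal (𝓞 K) => (absNorm I : ℝ) ^ (-s)) hinj).symm
  rw [h1]
  exact (h s hs).1.sum_le_tsum _ (fun I _ => rpow_nonneg' s I)

variable (K)

/-- **Prime sums, upper bound**: `Σ_{Q ∈ T} N(Q)^(-s) ≤ log (1/(s-1)) + C` for every finite set
`T` of primes, uniformly on `(1, 2]`. -/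
theorem exists_sum_primes_le (h : ZetaBridge K) : ∃ C : ℝ, ∀ s : ℝ, 1 < s → s ≤ 2 →
    ∀ T : Finset (HeightOneSpectrum (𝓞 K)),
      ∑ Q ∈ T, (absNorm Q.asIdeal : ℝ) ^ (-s) ≤ Real.log (1 / (s - 1)) + C := by
  obtain ⟨C, hC, hle⟩ := exists_zeta_le K h
  refine ⟨Real.log C, fun s hs hs2 T => ?_⟩
  have hs' : 0 < s - 1 := by linarith
  have hsum := summable_norm_of_bridge h hs
  have hprod : ∑' I : IdealEuler.factoredIdeals T, normRpow K s I
      = ∏ v ∈ T, (1 - normRpow K s v.asIdeal)⁻¹ :=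
    IdealEuler.tsum_factoredIdeals_eq_prod (normRpow K s) hsum T
  have h1 : Real.exp (∑ Q ∈ T, (absNorm Q.asIdeal : ℝ) ^ (-s))
      ≤ ∏ v ∈ T, (1 - normRpow K s v.asIdeal)⁻¹ := by
    rw [Real.exp_sum]
    refine Finset.prod_le_prod (fun _ _ => (Real.exp_pos _).le) (fun Q _ => ?_)
    exact exp_le_inv_one_sub (lt_of_le_of_lt (prime_rpow_le_half hs.le Q) (by norm_num))
  have h2 : ∑' I : IdealEuler.factoredIdeals T, normRpow K s I
      ≤ ∑' I : Ideal (𝓞 K), (absNorm I : ℝ) ^ (-s) :=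
    Summable.tsum_subtype_le (fun I : Ideal (𝓞 K) => (absNorm I : ℝ) ^ (-s)) _
      (fun I => rpow_nonneg' s I) (h s hs).1
  have h3 : Real.exp (∑ Q ∈ T, (absNorm Q.asIdeal : ℝ) ^ (-s)) ≤ C / (s - 1) :=
    (h1.trans (hprod ▸ h2)).trans (hle s hs hs2)
  have h4 := Real.log_le_log (Real.exp_pos _) h3
  rw [Real.log_exp, show C / (s - 1) = 1 / (s - 1) * C by ring,
    Real.log_mul (by positivity) hC.ne'] at h4
  exact h4

/-- **Prime sums, lower bound**: for every `s ∈ (1, 2]` there is a finite set `T` of primes with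
`log (1/(s-1)) - C ≤ Σ_{Q ∈ T} N(Q)^(-s)`. -/
theorem exists_le_sum_primes (h : ZetaBridge K) : ∃ C : ℝ, ∀ s : ℝ, 1 < s → s ≤ 2 →
    ∃ T : Finset (HeightOneSpectrum (𝓞 K)),
      Real.log (1 / (s - 1)) - C ≤ ∑ Q ∈ T, (absNorm Q.asIdeal : ℝ) ^ (-s) := by
  obtain ⟨c, hc, hle⟩ := exists_le_zeta K h
  set Z2 : ℝ := ∑' I : Ideal (𝓞 K), (absNorm I : ℝ) ^ (-(2 : ℝ)) with hZ2
  refine ⟨2 * Z2 - Real.log (c / 2), fun s hs hs2 => ?_⟩
  have hs' : 0 < s - 1 := by linarith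
  have hs0 : s ≠ 0 := by linarith
  set Z : ℝ := ∑' I : Ideal (𝓞 K), (absNorm I : ℝ) ^ (-s) with hZ
  have hZpos : 0 < Z := lt_of_lt_of_le one_pos (one_le_tsum h hs)
  have hprod : HasProd (fun v : HeightOneSpectrum (𝓞 K) => (1 - normRpow₀ K s hs0 v.asIdeal)⁻¹)
      (∑' I, normRpow₀ K s hs0 I) :=
    IdealEuler.eulerProduct_hasProd (normRpow₀ K s hs0) (summable_norm_of_bridge h hs)
  have hev : ∀ᶠ T : Finset (HeightOneSpectrum (𝓞 K)) in atTop,
      Z / 2 < ∏ v ∈ T, (1 - (absNorm v.asIdeal : ℝ) ^ (-s))⁻¹ := by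
    have hlt : Z / 2 < ∑' I, normRpow₀ K s hs0 I := by
      show Z / 2 < Z
      linarith
    exact hprod.eventually (lt_mem_nhds hlt)
  obtain ⟨T, hT⟩ := hev.exists
  refine ⟨T, ?_⟩
  -- the sum of the squares is bounded by `ζ_K(2)`
  have hsq : ∑ v ∈ T, ((absNorm v.asIdeal : ℝ) ^ (-s)) ^ 2 ≤ Z2 := by
    refine le_trans (Finset.sum_le_sum fun v _ => ?_) (sum_primes_le_tsum h (by norm_num) T)
    have h1 : (absNorm v.asIdeal : ℝ) ^ (-s) ≤ (absNorm v.asIdeal : ℝ) ^ (-(1 : ℝ)) :=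
      rpow_anti one_pos hs.le _
    have h2 : ((absNorm v.asIdeal : ℝ) ^ (-s)) ^ 2 ≤ ((absNorm v.asIdeal : ℝ) ^ (-(1 : ℝ))) ^ 2 :=
      pow_le_pow_left₀ (prime_rpow_nonneg s v) h1 2
    have h3 : ((absNorm v.asIdeal : ℝ) ^ (-(1 : ℝ))) ^ 2 = (absNorm v.asIdeal : ℝ) ^ (-(2 : ℝ)) := by
      rw [← Real.rpow_mul_natCast (Nat.cast_nonneg _)]
      norm_num
    rw [h3] at h2
    exact h2
  have hup : ∏ v ∈ T, (1 - (absNorm v.asIdeal : ℝ) ^ (-s))⁻¹
      ≤ Real.exp (∑ v ∈ T, (absNorm v.asIdeal : ℝ) ^ (-s) + 2 * Z2) := by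
    calc ∏ v ∈ T, (1 - (absNorm v.asIdeal : ℝ) ^ (-s))⁻¹
        ≤ ∏ v ∈ T, Real.exp ((absNorm v.asIdeal : ℝ) ^ (-s)
            + 2 * ((absNorm v.asIdeal : ℝ) ^ (-s)) ^ 2) := by
          refine Finset.prod_le_prod (fun v _ => ?_) (fun v _ => ?_)
          · have := prime_rpow_le_half hs.le v
            exact inv_nonneg.mpr (by linarith)
          · exact inv_one_sub_le_exp (prime_rpow_le_half hs.le v)
      _ = Real.exp (∑ v ∈ T, ((absNorm v.asIdeal : ℝ) ^ (-s)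
            + 2 * ((absNorm v.asIdeal : ℝ) ^ (-s)) ^ 2)) := (Real.exp_sum _ _).symm
      _ ≤ Real.exp (∑ v ∈ T, (absNorm v.asIdeal : ℝ) ^ (-s) + 2 * Z2) := by
          refine Real.exp_le_exp.mpr ?_
          rw [Finset.sum_add_distrib, ← Finset.mul_sum]
          linarith
  have hlow : c / 2 * (1 / (s - 1)) ≤ Z / 2 := by
    have := hle s hs hs2
    calc c / 2 * (1 / (s - 1)) = c / (s - 1) / 2 := by ring
      _ ≤ Z / 2 := by linarith
  have hchain : c / 2 * (1 / (s - 1))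
      ≤ Real.exp (∑ v ∈ T, (absNorm v.asIdeal : ℝ) ^ (-s) + 2 * Z2) :=
    hlow.trans (hT.le.trans hup)
  have hpos : 0 < c / 2 * (1 / (s - 1)) := by positivity
  have hlog := Real.log_le_log hpos hchain
  rw [Real.log_exp, Real.log_mul (by positivity) (by positivity)] at hlog
  linarith

/-! ### Primes of degree `≥ 2` -/

variable {K}

/-- Every nonzero prime of `𝓞 K` contains a rational prime. -/
theorem exists_prime_natCast_mem (Q : HeightOneSpectrum (𝓞 K)) :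
    ∃ q : ℕ, q.Prime ∧ (q : 𝓞 K) ∈ Q.asIdeal := by
  have := Q.isPrime
  have key : ∀ m : ℕ, 2 ≤ m → (m : 𝓞 K) ∈ Q.asIdeal → ∃ q : ℕ, q.Prime ∧ (q : 𝓞 K) ∈ Q.asIdeal := by
    intro m
    induction m using Nat.strong_induction_on with
    | _ m ih =>
      intro hm hmem
      by_cases hp : m.Prime
      · exact ⟨m, hp, hmem⟩
      · obtain ⟨a, ha1, ha2⟩ := Nat.exists_dvd_of_not_prime2 hm hp
        obtain ⟨b, rfl⟩ := ha1
        have hb2 : 2 ≤ b := by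
          by_contra hb
          have : b = 0 ∨ b = 1 := by omega
          rcases this with rfl | rfl
          · omega
          · omega
        have hblt : b < a * b := by nlinarith [ha2.1]
        rw [Nat.cast_mul] at hmem
        rcases Ideal.IsPrime.mem_or_mem ‹_› hmem with h | h
        · exact ih a ha2.2 ha2.1 h
        · exact ih b hblt hb2 h
  exact key _ (two_le_absNorm Q) (absNorm_mem _)

theorem absNorm_span_natCast (q : ℕ) :
    absNorm (span {(q : 𝓞 K)}) = q ^ Module.finrank ℚ K := by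
  rw [absNorm_span_singleton]
  have h1 : ((q : ℕ) : 𝓞 K) = algebraMap ℤ (𝓞 K) (q : ℤ) := by simp
  rw [h1, Algebra.norm_algebraMap_of_basis (Module.Free.chooseBasis ℤ (𝓞 K)) (q : ℤ),
    ← Module.finrank_eq_card_chooseBasisIndex, RingOfIntegers.rank, Int.natAbs_pow,
    Int.natAbs_natCast]

/-- If a prime `Q` contains the rational prime `q`, then `N(Q) = q ^ f` with `1 ≤ f`. -/
theorem exists_absNorm_eq_pow {Q : HeightOneSpectrum (𝓞 K)} {q : ℕ} (hq : q.Prime)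
    (hmem : (q : 𝓞 K) ∈ Q.asIdeal) : ∃ f : ℕ, 1 ≤ f ∧ absNorm Q.asIdeal = q ^ f := by
  have hle : span {(q : 𝓞 K)} ≤ Q.asIdeal := (span_singleton_le_iff_mem _).mpr hmem
  have hdvd : absNorm Q.asIdeal ∣ q ^ Module.finrank ℚ K := by
    rw [← absNorm_span_natCast]
    exact absNorm_dvd_absNorm_of_le hle
  obtain ⟨f, -, hf⟩ := (Nat.dvd_prime_pow hq).mp hdvd
  refine ⟨f, ?_, hf⟩
  by_contra h0
  have : f = 0 := by omega
  rw [this, pow_zero] at hf
  have := two_le_absNorm Q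
  omega

/-- At most `[K : ℚ]` primes of `𝓞 K` contain a given rational prime. -/
theorem card_le_of_forall_mem {q : ℕ} (hq : q.Prime) (S : Finset (HeightOneSpectrum (𝓞 K)))
    (hS : ∀ Q ∈ S, (q : 𝓞 K) ∈ Q.asIdeal) : S.card ≤ Module.finrank ℚ K := by
  classical
  have hinj : Set.InjOn (fun Q : HeightOneSpectrum (𝓞 K) => Q.asIdeal) (S : Set _) :=
    fun Q _ Q' _ hQQ' => HeightOneSpectrum.ext hQQ'
  have h1 : ∏ I ∈ S.image (fun Q : HeightOneSpectrum (𝓞 K) => Q.asIdeal), I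
      ∣ span {(q : 𝓞 K)} := by
    refine Finset.prod_primes_dvd _ (fun I hI => ?_) (fun I hI => ?_)
    · obtain ⟨Q, -, rfl⟩ := Finset.mem_image.mp hI
      exact Q.prime
    · obtain ⟨Q, hQ, rfl⟩ := Finset.mem_image.mp hI
      exact Ideal.dvd_iff_le.mpr ((span_singleton_le_iff_mem _).mpr (hS Q hQ))
  rw [Finset.prod_image hinj] at h1
  have h2 : absNorm (∏ Q ∈ S, Q.asIdeal) ∣ q ^ Module.finrank ℚ K := by
    rw [← absNorm_span_natCast]
    exact map_dvd absNorm h1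
  rw [map_prod] at h2
  have h3 : q ^ S.card ∣ ∏ Q ∈ S, absNorm Q.asIdeal := by
    rw [← Finset.prod_const]
    refine Finset.prod_dvd_prod_of_dvd _ _ (fun Q hQ => ?_)
    obtain ⟨f, hf1, hf⟩ := exists_absNorm_eq_pow hq (hS Q hQ)
    rw [hf]
    exact dvd_pow_self q (by omega)
  exact (Nat.pow_dvd_pow_iff_le_right hq.one_lt).mp (h3.trans h2)

variable (K)

/-- A rational prime contained in the prime `Q`. -/
def residueChar (Q : HeightOneSpectrum (𝓞 K)) : ℕ := (exists_prime_natCast_mem Q).choose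

variable {K}

theorem residueChar_prime (Q : HeightOneSpectrum (𝓞 K)) : (residueChar K Q).Prime :=
  (exists_prime_natCast_mem Q).choose_spec.1

theorem residueChar_mem (Q : HeightOneSpectrum (𝓞 K)) : ((residueChar K Q : ℕ) : 𝓞 K) ∈ Q.asIdeal :=
  (exists_prime_natCast_mem Q).choose_spec.2

/-- A prime whose norm is not a prime number has `N(Q)^(-s) ≤ q^(-2)` for `s ≥ 1`. -/
theorem rpow_le_of_not_prime {s : ℝ} (hs : 1 ≤ s) {Q : HeightOneSpectrum (𝓞 K)}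
    (hQ : ¬ (absNorm Q.asIdeal).Prime) :
    (absNorm Q.asIdeal : ℝ) ^ (-s) ≤ (((residueChar K Q : ℕ) : ℝ) ^ 2)⁻¹ := by
  obtain ⟨f, hf1, hf⟩ := exists_absNorm_eq_pow (residueChar_prime Q) (residueChar_mem Q)
  have hq := residueChar_prime Q
  set q := residueChar K Q
  have hf2 : 2 ≤ f := by
    by_contra h
    have : f = 1 := by omega
    rw [this, pow_one] at hf
    exact hQ (hf ▸ hq)
  have hqpos : (0 : ℝ) < q := by exact_mod_cast hq.pos
  have hle : ((q : ℝ) ^ 2) ≤ (absNorm Q.asIdeal : ℝ) := by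
    rw [hf]
    push_cast
    exact pow_le_pow_right₀ (by exact_mod_cast hq.one_lt.le) hf2
  calc (absNorm Q.asIdeal : ℝ) ^ (-s) ≤ (absNorm Q.asIdeal : ℝ) ^ (-(1 : ℝ)) :=
        rpow_anti one_pos hs _
    _ ≤ ((q : ℝ) ^ 2) ^ (-(1 : ℝ)) :=
        Real.rpow_le_rpow_of_nonpos (by positivity) hle (by norm_num)
    _ = ((q : ℝ) ^ 2)⁻¹ := Real.rpow_neg_one _

variable (K)

/-- **Primes of degree `≥ 2` are negligible**: the sum of `N(Q)^(-s)` over any finite set of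
primes whose norm is not a prime number is bounded, uniformly in `s ≥ 1`. -/
theorem exists_sum_nonprime_le : ∃ C : ℝ, ∀ s : ℝ, 1 ≤ s →
    ∀ T : Finset (HeightOneSpectrum (𝓞 K)), (∀ Q ∈ T, ¬ (absNorm Q.asIdeal).Prime) →
      ∑ Q ∈ T, (absNorm Q.asIdeal : ℝ) ^ (-s) ≤ C := by
  classical
  have hsum : Summable (fun m : ℕ => (((m : ℕ) : ℝ) ^ 2)⁻¹) := Real.summable_nat_pow_inv.mpr one_lt_two
  refine ⟨Module.finrank ℚ K * ∑' m : ℕ, (((m : ℕ) : ℝ) ^ 2)⁻¹, fun s hs T hT => ?_⟩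
  have h1 : ∑ Q ∈ T, (absNorm Q.asIdeal : ℝ) ^ (-s)
      ≤ ∑ Q ∈ T, (((residueChar K Q : ℕ) : ℝ) ^ 2)⁻¹ :=
    Finset.sum_le_sum fun Q hQ => rpow_le_of_not_prime hs (hT Q hQ)
  have h2 : ∑ Q ∈ T, (((residueChar K Q : ℕ) : ℝ) ^ 2)⁻¹
      = ∑ m ∈ T.image (residueChar K), ∑ Q ∈ T with residueChar K Q = m,
          (((residueChar K Q : ℕ) : ℝ) ^ 2)⁻¹ :=
    (Finset.sum_fiberwise_of_maps_to (fun Q hQ => Finset.mem_image_of_mem _ hQ) _).symm
  have h3 : ∀ m ∈ T.image (residueChar K), ∑ Q ∈ T with residueChar K Q = m,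
      (((residueChar K Q : ℕ) : ℝ) ^ 2)⁻¹ ≤ Module.finrank ℚ K * (((m : ℕ) : ℝ) ^ 2)⁻¹ := by
    intro m hm
    obtain ⟨Q₀, hQ₀, rfl⟩ := Finset.mem_image.mp hm
    have hcard : (T.filter fun Q => residueChar K Q = residueChar K Q₀).card
        ≤ Module.finrank ℚ K := by
      refine card_le_of_forall_mem (residueChar_prime Q₀) _ (fun Q hQ => ?_)
      rw [← (Finset.mem_filter.mp hQ).2]
      exact residueChar_mem Q
    calc ∑ Q ∈ T with residueChar K Q = residueChar K Q₀, (((residueChar K Q : ℕ) : ℝ) ^ 2)⁻¹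
        = ∑ Q ∈ T with residueChar K Q = residueChar K Q₀,
            (((residueChar K Q₀ : ℕ) : ℝ) ^ 2)⁻¹ :=
          Finset.sum_congr rfl fun Q hQ => by rw [(Finset.mem_filter.mp hQ).2]
      _ = (T.filter fun Q => residueChar K Q = residueChar K Q₀).card
            * (((residueChar K Q₀ : ℕ) : ℝ) ^ 2)⁻¹ := by
          rw [Finset.sum_const, nsmul_eq_mul]
      _ ≤ Module.finrank ℚ K * (((residueChar K Q₀ : ℕ) : ℝ) ^ 2)⁻¹ :=
          mul_le_mul_of_nonneg_right (by exact_mod_cast hcard) (by positivity)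
  calc ∑ Q ∈ T, (absNorm Q.asIdeal : ℝ) ^ (-s)
      ≤ ∑ Q ∈ T, (((residueChar K Q : ℕ) : ℝ) ^ 2)⁻¹ := h1
    _ = ∑ m ∈ T.image (residueChar K), ∑ Q ∈ T with residueChar K Q = m,
          (((residueChar K Q : ℕ) : ℝ) ^ 2)⁻¹ := h2
    _ ≤ ∑ m ∈ T.image (residueChar K), Module.finrank ℚ K * (((m : ℕ) : ℝ) ^ 2)⁻¹ :=
        Finset.sum_le_sum h3
    _ = Module.finrank ℚ K * ∑ m ∈ T.image (residueChar K), (((m : ℕ) : ℝ) ^ 2)⁻¹ := by
        rw [Finset.mul_sum]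
    _ ≤ Module.finrank ℚ K * ∑' m : ℕ, (((m : ℕ) : ℝ) ^ 2)⁻¹ :=
        mul_le_mul_of_nonneg_left (hsum.sum_le_tsum _ (fun m _ => by positivity))
          (Nat.cast_nonneg _)

/-! ### The density corollary -/

/-- **Density corollary (abstract predicate form).** Let `P` be a predicate on primes such that
the primes satisfying `P` have `p · Σ N(Q)^(-s) ≤ log (1/(s-1)) + B` (in the application:
`P Q ↔ ψ(Q) = 1` for a class character `ψ` of order `p`, and the bound comes from the Euler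
products of `∏_{k<p} L(s, ψ^k)` and the boundedness of `L(s, ψ^k)`, `k ≠ 0`).  Then the primes
of degree one *not* satisfying `P`, outside any finite exceptional set `E`, carry at least
`(1 - 1/p) · log (1/(s-1)) - C`. -/
theorem exists_le_sum_degree_one (h : ZetaBridge K) (p : ℕ) (hp : 0 < p)
    (P : HeightOneSpectrum (𝓞 K) → Prop)
    (hP : ∃ B : ℝ, ∀ s : ℝ, 1 < s → s ≤ 2 → ∀ T : Finset (HeightOneSpectrum (𝓞 K)),
      (∀ Q ∈ T, P Q) →
        (p : ℝ) * ∑ Q ∈ T, (absNorm Q.asIdeal : ℝ) ^ (-s) ≤ Real.log (1 / (s - 1)) + B)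
    (E : Finset (HeightOneSpectrum (𝓞 K))) :
    ∃ C : ℝ, ∀ s : ℝ, 1 < s → s ≤ 2 → ∃ T : Finset (HeightOneSpectrum (𝓞 K)),
      (∀ Q ∈ T, Q ∉ E ∧ (absNorm Q.asIdeal).Prime ∧ ¬ P Q) ∧
      (1 - 1 / (p : ℝ)) * Real.log (1 / (s - 1)) - C
        ≤ ∑ Q ∈ T, (absNorm Q.asIdeal : ℝ) ^ (-s) := by
  classical
  obtain ⟨C1, h1⟩ := exists_le_sum_primes K h
  obtain ⟨C2, h2⟩ := exists_sum_nonprime_le K
  obtain ⟨B, hB⟩ := hP
  have hp' : (0 : ℝ) < p := by exact_mod_cast hp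
  refine ⟨C1 + C2 + B / p + E.card, fun s hs hs2 => ?_⟩
  obtain ⟨T₀, hT₀⟩ := h1 s hs hs2
  set x : HeightOneSpectrum (𝓞 K) → ℝ := fun Q => (absNorm Q.asIdeal : ℝ) ^ (-s) with hx
  set T1 := T₀.filter (· ∈ E) with hT1
  set T1' := T₀.filter (· ∉ E) with hT1'
  set T2 := T1'.filter P with hT2
  set T2' := T1'.filter (fun Q => ¬ P Q) with hT2'
  set T3 := T2'.filter (fun Q => (absNorm Q.asIdeal).Prime) with hT3
  set T3' := T2'.filter (fun Q => ¬ (absNorm Q.asIdeal).Prime) with hT3'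
  have e1 : ∑ Q ∈ T1, x Q + ∑ Q ∈ T1', x Q = ∑ Q ∈ T₀, x Q :=
    Finset.sum_filter_add_sum_filter_not T₀ (· ∈ E) x
  have e2 : ∑ Q ∈ T2, x Q + ∑ Q ∈ T2', x Q = ∑ Q ∈ T1', x Q :=
    Finset.sum_filter_add_sum_filter_not T1' P x
  have e3 : ∑ Q ∈ T3, x Q + ∑ Q ∈ T3', x Q = ∑ Q ∈ T2', x Q :=
    Finset.sum_filter_add_sum_filter_not T2' (fun Q => (absNorm Q.asIdeal).Prime) x
  -- the exceptional primes
  have b1 : ∑ Q ∈ T1, x Q ≤ E.card := by
    have hle : ∑ Q ∈ T1, x Q ≤ T1.card • (1 : ℝ) :=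
      Finset.sum_le_card_nsmul _ _ _ fun Q _ =>
        (prime_rpow_le_half hs.le Q).trans (by norm_num)
    have hcard : T1.card ≤ E.card :=
      Finset.card_le_card fun Q hQ => (Finset.mem_filter.mp hQ).2
    rw [nsmul_eq_mul, mul_one] at hle
    exact hle.trans (by exact_mod_cast hcard)
  -- the primes satisfying `P`
  have b2 : ∑ Q ∈ T2, x Q ≤ (Real.log (1 / (s - 1)) + B) / p := by
    rw [le_div_iff₀ hp', mul_comm]
    exact hB s hs hs2 T2 fun Q hQ => (Finset.mem_filter.mp hQ).2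
  -- the primes of degree `≥ 2`
  have b3 : ∑ Q ∈ T3', x Q ≤ C2 :=
    h2 s hs.le T3' fun Q hQ => (Finset.mem_filter.mp hQ).2
  refine ⟨T3, fun Q hQ => ?_, ?_⟩
  · obtain ⟨hQ2', hprime⟩ := Finset.mem_filter.mp hQ
    obtain ⟨hQ1', hnP⟩ := Finset.mem_filter.mp hQ2'
    exact ⟨(Finset.mem_filter.mp hQ1').2, hprime, hnP⟩
  · have hexp : (1 - 1 / (p : ℝ)) * Real.log (1 / (s - 1)) - (C1 + C2 + B / p + E.card)
        = Real.log (1 / (s - 1)) - C1 - E.card - (Real.log (1 / (s - 1)) + B) / p - C2 := by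
      field_simp
      ring
    rw [hexp]
    linarith

/-- The final real-variable contradiction: `a · log (1/(s-1))` is unbounded on `(1, 2]`. -/
theorem false_of_log_le {a C : ℝ} (ha : 0 < a)
    (h : ∀ s : ℝ, 1 < s → s ≤ 2 → a * Real.log (1 / (s - 1)) ≤ C) : False := by
  set L : ℝ := max (C / a) 0 + 1 with hL
  have hL0 : 0 < L := by rw [hL]; positivity
  have hL1 : C / a < L := by rw [hL]; linarith [le_max_left (C / a) 0]
  have he0 : 0 < Real.exp (-L) := Real.exp_pos _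
  have he1 : Real.exp (-L) ≤ 1 := Real.exp_le_one_iff.mpr (by linarith)
  have := h (1 + Real.exp (-L)) (by linarith) (by linarith)
  rw [add_sub_cancel_left, one_div, ← Real.exp_neg, neg_neg, Real.log_exp] at this
  have h2 : L ≤ C / a := by rw [le_div_iff₀ ha]; linarith
  linarith

end Fermat.Agent.Lib.IdealEulerZeta
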