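/-
Unconditional forms of `Lib/IdealEulerZeta` (helper17): the bridge hypothesis `ZetaBridge K`
is discharged by helper27's `Lib/IdealEulerNF` (summability of `∑ N(I)^(-s)` and its
identification with Mathlib's `dedekindZeta`).
-/
import Mathlib
import Fermat.Agent.Lib.IdealEulerZeta
import Fermat.Agent.Lib.IdealEulerNF

set_option autoImplicit false

noncomputable section

namespace Fermat.Agent.Lib.IdealEulerBounds

open IsDedekindDomain NumberField Ideal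

variable (K : Type*) [Field K] [NumberField K]

/-- The bridge to Mathlib's `dedekindZeta` holds (helper27's N1). -/
theorem zetaBridge : IdealEulerZeta.ZetaBridge K := fun _ hs =>
  ⟨IdealEulerNF.summable_absNorm_rpow K hs, IdealEulerNF.tsum_absNorm_rpow_eq_dedekindZeta K hs⟩

/-- `ζ_K(s) ≤ C / (s - 1)` on `(1, 2]`. -/
theorem exists_zeta_le : ∃ C : ℝ, 0 < C ∧ ∀ s : ℝ, 1 < s → s ≤ 2 →
    ∑' I : Ideal (𝓞 K), (absNorm I : ℝ) ^ (-s) ≤ C / (s - 1) :=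
  IdealEulerZeta.exists_zeta_le K (zetaBridge K)

/-- `c / (s - 1) ≤ ζ_K(s)` on `(1, 2]`. -/
theorem exists_le_zeta : ∃ c : ℝ, 0 < c ∧ ∀ s : ℝ, 1 < s → s ≤ 2 →
    c / (s - 1) ≤ ∑' I : Ideal (𝓞 K), (absNorm I : ℝ) ^ (-s) :=
  IdealEulerZeta.exists_le_zeta K (zetaBridge K)

/-- `Σ_{Q ∈ T} N(Q)^(-s) ≤ log (1/(s-1)) + C` for every finite set `T` of primes, on `(1, 2]`. -/
theorem exists_sum_primes_le : ∃ C : ℝ, ∀ s : ℝ, 1 < s → s ≤ 2 →
    ∀ T : Finset (HeightOneSpectrum (𝓞 K)),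
      ∑ Q ∈ T, (absNorm Q.asIdeal : ℝ) ^ (-s) ≤ Real.log (1 / (s - 1)) + C :=
  IdealEulerZeta.exists_sum_primes_le K (zetaBridge K)

/-- For every `s ∈ (1, 2]` some finite set `T` of primes has
`log (1/(s-1)) - C ≤ Σ_{Q ∈ T} N(Q)^(-s)`. -/
theorem exists_le_sum_primes : ∃ C : ℝ, ∀ s : ℝ, 1 < s → s ≤ 2 →
    ∃ T : Finset (HeightOneSpectrum (𝓞 K)),
      Real.log (1 / (s - 1)) - C ≤ ∑ Q ∈ T, (absNorm Q.asIdeal : ℝ) ^ (-s) :=
  IdealEulerZeta.exists_le_sum_primes K (zetaBridge K)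

/-- Primes whose norm is not a prime number are negligible (uniformly in `s ≥ 1`). -/
theorem exists_sum_nonprime_le : ∃ C : ℝ, ∀ s : ℝ, 1 ≤ s →
    ∀ T : Finset (HeightOneSpectrum (𝓞 K)), (∀ Q ∈ T, ¬ (absNorm Q.asIdeal).Prime) →
      ∑ Q ∈ T, (absNorm Q.asIdeal : ℝ) ^ (-s) ≤ C :=
  IdealEulerZeta.exists_sum_nonprime_le K

/-- Density corollary, abstract predicate form (see `IdealEulerZeta.exists_le_sum_degree_one`). -/
theorem exists_le_sum_degree_one (p : ℕ) (hp : 0 < p)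
    (P : HeightOneSpectrum (𝓞 K) → Prop)
    (hP : ∃ B : ℝ, ∀ s : ℝ, 1 < s → s ≤ 2 → ∀ T : Finset (HeightOneSpectrum (𝓞 K)),
      (∀ Q ∈ T, P Q) →
        (p : ℝ) * ∑ Q ∈ T, (absNorm Q.asIdeal : ℝ) ^ (-s) ≤ Real.log (1 / (s - 1)) + B)
    (E : Finset (HeightOneSpectrum (𝓞 K))) :
    ∃ C : ℝ, ∀ s : ℝ, 1 < s → s ≤ 2 → ∃ T : Finset (HeightOneSpectrum (𝓞 K)),
      (∀ Q ∈ T, Q ∉ E ∧ (absNorm Q.asIdeal).Prime ∧ ¬ P Q) ∧
      (1 - 1 / (p : ℝ)) * Real.log (1 / (s - 1)) - C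
        ≤ ∑ Q ∈ T, (absNorm Q.asIdeal : ℝ) ^ (-s) :=
  IdealEulerZeta.exists_le_sum_degree_one K (zetaBridge K) p hp P hP E

end Fermat.Agent.Lib.IdealEulerBounds
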