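/-
The analytic inputs (A2)–(A5) of helper7's `S14/Thaine/Density.lean`, VERBATIM in its vocabulary
(helper17): pole bound for `classL K 1`, the two prime-sum bounds, and negligibility of the
primes of degree `≥ 2`.  Adapters on top of `Lib/IdealEulerBounds`.
-/
import Mathlib
import Fermat.Agent.Lib.IdealEulerBounds
import Fermat.Agent.S14.Thaine.Density

set_option autoImplicit false

noncomputable section

namespace Fermat.Agent.Lib.IdealEulerDensity

open IsDedekindDomain NumberField Ideal
open Fermat.Agent.S14.Thaine.Density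
open scoped nonZeroDivisors

variable (K : Type*) [Field K] [NumberField K]

/-- `classL K 1 s` is the real series `∑ N(I)^(-s)` over all ideals. -/
theorem classL_one_eq {s : ℝ} (hs : 1 < s) :
    classL K (fun _ => 1) s = ((∑' I : Ideal (𝓞 K), (absNorm I : ℝ) ^ (-s) : ℝ) : ℂ) := by
  rw [classL, ← IdealEulerNF.tsum_absNorm_rpow_nonZero K hs, Complex.ofReal_tsum]
  exact tsum_congr fun I => one_mul _

/-- (A2) `‖classL K 1 s‖ ≤ C / (s - 1)` on `(1, 2]`. -/
theorem exists_classL_one_le :
    ∃ C : ℝ, ∀ s ∈ Set.Ioc (1 : ℝ) 2, ‖classL K (fun _ => 1) s‖ ≤ C / (s - 1) := by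
  obtain ⟨C, -, hC⟩ := IdealEulerBounds.exists_zeta_le K
  refine ⟨C, fun s hs => ?_⟩
  rw [classL_one_eq K hs.1, Complex.norm_real, Real.norm_of_nonneg
    (tsum_nonneg fun I => IdealEulerZeta.rpow_nonneg' s I)]
  exact hC s hs.1 hs.2

/-- (A3) -/
theorem primeSumUpper : PrimeSumUpper K := by
  obtain ⟨C, hC⟩ := IdealEulerBounds.exists_sum_primes_le K
  exact ⟨C, fun s hs T => hC s hs.1 hs.2 T⟩

/-- (A4) -/
theorem primeSumLower : PrimeSumLower K := by
  obtain ⟨C, hC⟩ := IdealEulerBounds.exists_le_sum_primes K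
  exact ⟨C, fun s hs => hC s hs.1 hs.2⟩

/-- (A5) The primes whose norm is not a prime number are negligible. -/
theorem negligible_not_prime :
    Negligible K {Q | ¬ (Ideal.absNorm Q.asIdeal).Prime} := by
  obtain ⟨C, hC⟩ := IdealEulerBounds.exists_sum_nonprime_le K
  refine ⟨C, fun T hT => ?_⟩
  have := hC 1 le_rfl T hT
  simpa [Real.rpow_neg_one] using this

/-- Only finitely many primes of `𝓞 K` contain a given rational prime. -/
theorem finite_setOf_natCast_mem {q : ℕ} (hq : q.Prime) :
    {Q : HeightOneSpectrum (𝓞 K) | (q : 𝓞 K) ∈ Q.asIdeal}.Finite := by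
  by_contra hinf
  obtain ⟨S, hS, hcard⟩ :=
    (Set.not_finite.mp hinf : Set.Infinite _).exists_subset_card_eq (Module.finrank ℚ K + 1)
  have := IdealEulerZeta.card_le_of_forall_mem hq S (fun Q hQ => hS hQ)
  omega

/-- The primes containing a given rational prime form a negligible set. -/
theorem negligible_natCast_mem {q : ℕ} (hq : q.Prime) :
    Negligible K {Q | (q : 𝓞 K) ∈ Q.asIdeal} :=
  Negligible.of_finite (finite_setOf_natCast_mem K hq)

/-- The exceptional set of the density argument: primes of degree `≥ 2` or above `q`. -/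
theorem negligible_not_prime_union {q : ℕ} (hq : q.Prime) :
    Negligible K ({Q | ¬ (Ideal.absNorm Q.asIdeal).Prime} ∪ {Q | (q : 𝓞 K) ∈ Q.asIdeal}) :=
  (negligible_not_prime K).union (negligible_natCast_mem K hq)

end Fermat.Agent.Lib.IdealEulerDensity
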