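import Mathlib

/-!
# Abstract inclusion–exclusion for Dirichlet densities (finite-set form)

`X` is a set of "primes" with nonnegative weights `w s x` (think `N(x) ^ (-s)`), `good` a
predicate, and `A i` (`i ∈ J`) finitely many predicates ("`x` splits completely in `E_i`") with
integers `d i ≥ 2`.  If for every subset `I ⊆ J` the set `{good ∧ ∀ i ∈ I, A i}` has two-sided
Dirichlet density `1 / ∏_{i ∈ I} d i` (in the finite-set form of `Lib/IdealEulerBounds`), then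
some good `x` satisfies no `A i`: the density of that set is `∏_{i ∈ J} (1 - 1 / d i) > 0`.
-/

set_option autoImplicit false

namespace Fermat.Agent.Lib.InclExclDensity

open Finset

variable {X ι : Type*}

/-- `∑_{I ⊆ J} (-1)^{|I|} ∏_{i ∈ I} a i = ∏_{i ∈ J} (1 - a i)`. -/
theorem sum_powerset_neg_one_pow_mul_prod (J : Finset ι) (a : ι → ℝ) :
    ∑ I ∈ J.powerset, (-1 : ℝ) ^ #I * ∏ i ∈ I, a i = ∏ i ∈ J, (1 - a i) := by
  have h := Finset.prod_one_add (f := fun i => - a i) J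
  simp only [← sub_eq_add_neg] at h
  rw [h]
  refine Finset.sum_congr rfl fun I _ => ?_
  rw [Finset.prod_neg]

/-- **Abstract inclusion–exclusion.**  Two-sided finite-set density bounds for all the sets
`{good ∧ ∀ i ∈ I, A i}` (`I ⊆ J`) give a good element satisfying no `A i`. -/
theorem exists_good_forall_not (w : ℝ → X → ℝ) (hw : ∀ s x, 0 ≤ w s x) (good : X → Prop)
    (J : Finset ι) (A : ι → X → Prop) (d : ι → ℕ) (hd : ∀ i ∈ J, 2 ≤ d i)
    (hU : ∀ I ⊆ J, ∃ C : ℝ, ∀ s : ℝ, 1 < s → s ≤ 2 → ∀ T : Finset X,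
        (∀ x ∈ T, good x ∧ ∀ i ∈ I, A i x) →
          ((∏ i ∈ I, d i : ℕ) : ℝ) * ∑ x ∈ T, w s x ≤ Real.log (1 / (s - 1)) + C)
    (hL : ∀ I ⊆ J, ∃ C : ℝ, ∀ s : ℝ, 1 < s → s ≤ 2 → ∃ T : Finset X,
        (∀ x ∈ T, good x ∧ ∀ i ∈ I, A i x) ∧
          Real.log (1 / (s - 1)) - C ≤ ((∏ i ∈ I, d i : ℕ) : ℝ) * ∑ x ∈ T, w s x) :
    ∃ x, good x ∧ ∀ i ∈ J, ¬ A i x := by
  classical
  by_contra hcon
  have hcon' : ∀ x, good x → ∃ i ∈ J, A i x := by
    intro x hx
    by_contra h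
    exact hcon ⟨x, hx, fun i hi hA => h ⟨i, hi, hA⟩⟩
  -- uniform constants
  obtain ⟨CU, hCU0, hCU⟩ : ∃ C : ℝ, 0 ≤ C ∧ ∀ I ⊆ J, ∀ s : ℝ, 1 < s → s ≤ 2 → ∀ T : Finset X,
      (∀ x ∈ T, good x ∧ ∀ i ∈ I, A i x) →
        ((∏ i ∈ I, d i : ℕ) : ℝ) * ∑ x ∈ T, w s x ≤ Real.log (1 / (s - 1)) + C := by
    choose! c hc using hU
    refine ⟨∑ I ∈ J.powerset, |c I|, Finset.sum_nonneg fun _ _ => abs_nonneg _,
      fun I hI s hs hs2 T hT => ?_⟩
    have h1 := hc I hI s hs hs2 T hT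
    have h2 : c I ≤ ∑ I ∈ J.powerset, |c I| :=
      (le_abs_self _).trans (Finset.single_le_sum (f := fun I => |c I|)
        (fun _ _ => abs_nonneg _) (Finset.mem_powerset.mpr hI))
    linarith
  obtain ⟨CL, hCL0, hCL⟩ : ∃ C : ℝ, 0 ≤ C ∧ ∀ I ⊆ J, ∀ s : ℝ, 1 < s → s ≤ 2 → ∃ T : Finset X,
      (∀ x ∈ T, good x ∧ ∀ i ∈ I, A i x) ∧
        Real.log (1 / (s - 1)) - C ≤ ((∏ i ∈ I, d i : ℕ) : ℝ) * ∑ x ∈ T, w s x := by
    choose! c hc using hL
    refine ⟨∑ I ∈ J.powerset, |c I|, Finset.sum_nonneg fun _ _ => abs_nonneg _,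
      fun I hI s hs hs2 => ?_⟩
    obtain ⟨T, hT, h1⟩ := hc I hI s hs hs2
    have h2 : c I ≤ ∑ I ∈ J.powerset, |c I| :=
      (le_abs_self _).trans (Finset.single_le_sum (f := fun I => |c I|)
        (fun _ _ => abs_nonneg _) (Finset.mem_powerset.mpr hI))
    exact ⟨T, hT, by linarith⟩
  -- the density of the complement
  set c₀ : ℝ := ∏ i ∈ J, (1 - 1 / (d i : ℝ)) with hc₀
  have hc₀pos : 0 < c₀ := Finset.prod_pos fun i hi => by
    have h2 : (2 : ℝ) ≤ d i := by exact_mod_cast hd i hi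
    have h3 : 1 / (d i : ℝ) ≤ 1 / 2 := one_div_le_one_div_of_le (by norm_num) h2
    linarith
  set Ctot : ℝ := (J.powerset.card : ℝ) * (CU + CL) with hCtot
  have hCtot0 : 0 ≤ Ctot := by positivity
  set t : ℝ := Ctot / c₀ + 1 with ht
  have htpos : 0 < t := by positivity
  set s : ℝ := 1 + Real.exp (-t) with hs
  have hs1 : 1 < s := by linarith [Real.exp_pos (-t)]
  have hs2 : s ≤ 2 := by
    have : Real.exp (-t) ≤ 1 := Real.exp_le_one_iff.mpr (by linarith)
    linarith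
  have hlog : Real.log (1 / (s - 1)) = t := by
    rw [hs, add_sub_cancel_left, one_div, ← Real.exp_neg, neg_neg, Real.log_exp]
  -- witnesses of the lower bounds and their union
  have hex : ∀ I : Finset ι, ∃ T : Finset X, I ⊆ J → (∀ x ∈ T, good x ∧ ∀ i ∈ I, A i x) ∧
      Real.log (1 / (s - 1)) - CL ≤ ((∏ i ∈ I, d i : ℕ) : ℝ) * ∑ x ∈ T, w s x := by
    intro I
    by_cases hI : I ⊆ J
    · obtain ⟨T, hT⟩ := hCL I hI s hs1 hs2
      exact ⟨T, fun _ => hT⟩
    · exact ⟨∅, fun h => absurd h hI⟩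
  choose TL hTL using hex
  set U : Finset X := J.powerset.biUnion TL with hUdef
  have hUgood : ∀ x ∈ U, good x := by
    intro x hx
    obtain ⟨I, hI, hxI⟩ := Finset.mem_biUnion.mp hx
    exact ((hTL I (Finset.mem_powerset.mp hI)).1 x hxI).1
  -- indicators
  let a : ι → X → ℝ := fun i x => if A i x then 1 else 0
  let Ssum : Finset ι → ℝ := fun I => ∑ x ∈ U, (∏ i ∈ I, a i x) * w s x
  let D : Finset ι → ℝ := fun I => ((∏ i ∈ I, d i : ℕ) : ℝ)
  have hfilter : ∀ I, Ssum I = ∑ x ∈ U.filter (fun x => ∀ i ∈ I, A i x), w s x := by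
    intro I
    rw [Finset.sum_filter]
    refine Finset.sum_congr rfl fun x _ => ?_
    show (∏ i ∈ I, (if A i x then (1 : ℝ) else 0)) * w s x = _
    rw [Finset.prod_ite_zero]
    split_ifs <;> simp
  have hupper : ∀ I ⊆ J, D I * Ssum I ≤ t + CU := by
    intro I hI
    rw [hfilter, ← hlog]
    apply hCU I hI s hs1 hs2
    intro x hx
    rw [Finset.mem_filter] at hx
    exact ⟨hUgood x hx.1, hx.2⟩
  have hlower : ∀ I ⊆ J, t - CL ≤ D I * Ssum I := by
    intro I hI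
    obtain ⟨h1, h2⟩ := hTL I hI
    rw [hlog] at h2
    refine h2.trans ?_
    rw [hfilter]
    apply mul_le_mul_of_nonneg_left _ (Nat.cast_nonneg _)
    apply Finset.sum_le_sum_of_subset_of_nonneg
    · intro x hx
      rw [Finset.mem_filter]
      exact ⟨Finset.mem_biUnion.mpr ⟨I, Finset.mem_powerset.mpr hI, hx⟩, (h1 x hx).2⟩
    · intro x _ _
      exact hw s x
  -- the alternating sum vanishes
  have hzero : ∑ I ∈ J.powerset, (-1 : ℝ) ^ #I * Ssum I = 0 := by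
    have h1 : ∑ I ∈ J.powerset, (-1 : ℝ) ^ #I * Ssum I =
        ∑ x ∈ U, (∏ i ∈ J, (1 - a i x)) * w s x := by
      simp only [Ssum, Finset.mul_sum]
      rw [Finset.sum_comm]
      refine Finset.sum_congr rfl fun x _ => ?_
      rw [← sum_powerset_neg_one_pow_mul_prod, Finset.sum_mul]
      refine Finset.sum_congr rfl fun I _ => by ring
    rw [h1]
    refine Finset.sum_eq_zero fun x hx => ?_
    obtain ⟨i, hi, hAi⟩ := hcon' x (hUgood x hx)
    have h2 : ∏ i ∈ J, (1 - a i x) = 0 := Finset.prod_eq_zero hi (by simp [a, hAi])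
    rw [h2, zero_mul]
  -- estimates
  have hD1 : ∀ I ⊆ J, 1 ≤ D I := by
    intro I hI
    have h1 : 1 ≤ ∏ i ∈ I, d i := Nat.one_le_iff_ne_zero.mpr (Finset.prod_ne_zero_iff.mpr
      fun i hi => by
        have := hd i (hI hi)
        omega)
    show (1 : ℝ) ≤ ((∏ i ∈ I, d i : ℕ) : ℝ)
    exact_mod_cast h1
  have hkey : ∀ I ⊆ J, |Ssum I - t / D I| ≤ CU + CL := by
    intro I hI
    have hDpos : 0 < D I := lt_of_lt_of_le one_pos (hD1 I hI)
    have h1 := hupper I hI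
    have h2 := hlower I hI
    have h3 : Ssum I - t / D I = (D I * Ssum I - t) / D I := by
      field_simp
    rw [h3, abs_div, abs_of_pos hDpos, div_le_iff₀ hDpos]
    have h4 : |D I * Ssum I - t| ≤ CU + CL := by
      rw [abs_le]
      constructor <;> linarith
    have h5 : CU + CL ≤ (CU + CL) * D I := by
      have := hD1 I hI
      nlinarith
    linarith
  have hsum1 : ∑ I ∈ J.powerset, (-1 : ℝ) ^ #I * (t / D I) = t * c₀ := by
    rw [hc₀, ← sum_powerset_neg_one_pow_mul_prod, Finset.mul_sum]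
    refine Finset.sum_congr rfl fun I _ => ?_
    have h1 : (1 : ℝ) / D I = ∏ i ∈ I, (1 / (d i : ℝ)) := by
      simp only [D, one_div]
      rw [Nat.cast_prod, Finset.prod_inv_distrib]
    rw [← h1]
    ring
  have hle : t * c₀ ≤ Ctot := by
    have h1 : t * c₀ = ∑ I ∈ J.powerset, (-1 : ℝ) ^ #I * (t / D I - Ssum I) := by
      simp only [mul_sub, Finset.sum_sub_distrib]
      rw [hsum1, hzero, sub_zero]
    rw [h1]
    calc ∑ I ∈ J.powerset, (-1 : ℝ) ^ #I * (t / D I - Ssum I)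
        ≤ ∑ I ∈ J.powerset, |(-1 : ℝ) ^ #I * (t / D I - Ssum I)| :=
          Finset.sum_le_sum fun I _ => le_abs_self _
      _ ≤ ∑ _I ∈ J.powerset, (CU + CL) := Finset.sum_le_sum fun I hI => by
          rw [abs_mul, abs_pow, abs_neg, abs_one, one_pow, one_mul, abs_sub_comm]
          exact hkey I (Finset.mem_powerset.mp hI)
      _ = Ctot := by rw [Finset.sum_const, nsmul_eq_mul]
  have heq : t * c₀ = Ctot + c₀ := by
    rw [ht]
    field_simp
  linarith

end Fermat.Agent.Lib.InclExclDensity
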