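import Mathlib
import Fermat.Prelude.Def_FLTPrelim_Ramification
import Fermat.Agent.Lib.FrobExists
import Fermat.Agent.Lib.InertiaGlue

/-!
# Minkowski glue for the absolute Galois group of `ℚ`

A normal subgroup of finite level of `Gal(Qb/ℚ)` which contains, for every prime `q`, the
inertia group (in the sense of the Prelude, `ValuationSubring.inertiaSubgroupIn`) of one
valuation subring of `Qb` over `q`, is the whole group (`minkowski`).

The only non-formal input is the lifting of a finite-level inertial automorphism to the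
absolute inertia group (`exists_inertia_lift_over`), obtained from the results on profinite
group actions in `Mathlib/RingTheory/Invariant/Profinite.lean`.
-/

set_option autoImplicit false

namespace Fermat.Agent.Lib.InertiaMinkowski

open scoped Pointwise
open Fermat.Agent.Lib.FrobExists Fermat.Agent.Lib.InertiaGlue

universe u

/-- Abstract lifting of inertia: `G` a profinite group acting continuously on a discrete ring
`B`, `H` a closed normal subgroup, `Q` a prime of `B`, and `τ : G` acting trivially modulo `Q`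
on the `H`-invariants. Then some element of the coset `H τ` acts trivially on `B ⧸ Q`. -/
theorem exists_mul_forall_sub_mem
    {G : Type u} {B : Type*} [Group G] [CommRing B] [MulSemiringAction G B]
    [TopologicalSpace G] [CompactSpace G] [TotallyDisconnectedSpace G] [IsTopologicalGroup G]
    [TopologicalSpace B] [DiscreteTopology B] [ContinuousSMul G B]
    (H : Subgroup G) [hHn : H.Normal] (hH : IsClosed (H : Set G)) (Q : Ideal B) [Q.IsPrime] (τ : G)
    (hτ : ∀ b : B, (∀ h ∈ H, h • b = b) → τ • b - b ∈ Q) :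
    ∃ h ∈ H, ∀ b : B, (h * τ) • b - b ∈ Q := by
  have : CompactSpace H := isCompact_iff_compactSpace.mp hH.isCompact
  have : Algebra.IsInvariant (FixedPoints.subring B H) B H :=
    ⟨fun b hb => ⟨⟨b, hb⟩, rfl⟩⟩
  -- membership in the invariants
  have hmem : ∀ a : FixedPoints.subring B H, ∀ h ∈ H, h • (a : B) = a := fun a h hh => a.2 ⟨h, hh⟩
  -- invariants are stable under `G`
  have hstab : ∀ (g : G) (a : B), (∀ h ∈ H, h • a = a) → ∀ h ∈ H, h • (g • a) = g • a := by
    intro g a ha h hh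
    have h1 : g⁻¹ * h * g ∈ H := by
      have := hHn.conj_mem h hh g⁻¹
      rwa [inv_inv] at this
    have h2 : h • g • a = g • ((g⁻¹ * h * g) • a) := by
      rw [← mul_smul, ← mul_smul]
      congr 1
      group
    rw [h2, ha _ h1]
  -- `τ • Q` and `Q` lie over the same prime of the invariants
  have hunder : (τ • Q).under (FixedPoints.subring B H) = Q.under (FixedPoints.subring B H) := by
    ext a
    rw [Ideal.under_def, Ideal.under_def, Ideal.mem_comap, Ideal.mem_comap,
      Ideal.mem_pointwise_smul_iff_inv_smul_mem]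
    change τ⁻¹ • (a : B) ∈ Q ↔ (a : B) ∈ Q
    have h1 : τ • (τ⁻¹ • (a : B)) - τ⁻¹ • (a : B) ∈ Q :=
      hτ _ (hstab τ⁻¹ a (hmem a))
    rw [smul_inv_smul] at h1
    constructor
    · intro h2
      have h3 := Q.add_mem h1 h2
      rwa [sub_add_cancel] at h3
    · intro h2
      have h3 := Q.sub_mem h2 h1
      rwa [sub_sub_cancel] at h3
  obtain ⟨h₁, hh₁⟩ := Algebra.IsInvariant.exists_smul_of_under_eq_of_profinite
    (A := FixedPoints.subring B H) (G := H) (τ • Q) Q hunder
  -- `g := h₁ τ` stabilises `Q`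
  have hg : ((h₁ : G) * τ) • Q = Q := by
    rw [mul_smul]
    exact hh₁.symm
  have hgmem : ∀ b : B, ((h₁ : G) * τ) • b ∈ Q ↔ b ∈ Q := by
    intro b
    conv_lhs => rw [← hg]
    exact Ideal.smul_mem_pointwise_smul_iff
  -- `g` is trivial on the invariants modulo `Q`
  have hga : ∀ a : FixedPoints.subring B H, ((h₁ : G) * τ) • (a : B) - (a : B) ∈ Q := by
    intro a
    rw [mul_smul, hstab τ a (hmem a) h₁ h₁.2]
    exact hτ a (hmem a)
  -- the automorphism of `B ⧸ Q` induced by `g`
  have hmap : Q = Ideal.map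
      ((MulSemiringAction.toRingEquiv G B ((h₁ : G) * τ) : B ≃+* B) : B →+* B) Q := by
    conv_lhs => rw [← hg]
    rfl
  let e : (B ⧸ Q) ≃+* (B ⧸ Q) :=
    Ideal.quotientEquiv Q Q (MulSemiringAction.toRingEquiv G B ((h₁ : G) * τ)) hmap
  have he : ∀ b : B, e (Ideal.Quotient.mk Q b) = Ideal.Quotient.mk Q (((h₁ : G) * τ) • b) :=
    fun b => rfl
  let φ : (B ⧸ Q) ≃ₐ[FixedPoints.subring B H ⧸ Q.under (FixedPoints.subring B H)] (B ⧸ Q) :=
    AlgEquiv.ofRingEquiv (f := e) (by
      intro x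
      obtain ⟨a, rfl⟩ := Ideal.Quotient.mk_surjective x
      rw [Ideal.Quotient.algebraMap_mk_of_liesOver, he]
      exact Ideal.Quotient.eq.mpr (hga a))
  obtain ⟨⟨h₂, hh₂⟩, hφ⟩ := Ideal.Quotient.stabilizerHom_surjective_of_profinite (G := H)
    (Q.under (FixedPoints.subring B H)) Q φ
  refine ⟨((h₂⁻¹ * h₁ : H) : G), (h₂⁻¹ * h₁).2, fun b => ?_⟩
  have h3 := congrArg (fun f => f (Ideal.Quotient.mk Q b)) hφ
  simp only [Ideal.Quotient.stabilizerHom_apply] at h3
  have h4 : φ (Ideal.Quotient.mk Q b) = Ideal.Quotient.mk Q (((h₁ : G) * τ) • b) := he b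
  rw [h4] at h3
  have h5 : ((h₁ : G) * τ) • b - (h₂ : G) • b ∈ Q := Ideal.Quotient.eq.mp h3.symm
  have h6 : (h₂ : G) • Q = Q := hh₂
  have h7 : (h₂ : G)⁻¹ • (((h₁ : G) * τ) • b - (h₂ : G) • b) ∈ Q := by
    rw [← Ideal.mem_pointwise_smul_iff_inv_smul_mem, h6]
    exact h5
  have h8 : (((h₂⁻¹ * h₁ : H) : G) * τ) • b - b =
      (h₂ : G)⁻¹ • (((h₁ : G) * τ) • b - (h₂ : G) • b) := by
    rw [smul_sub, inv_smul_smul, ← mul_smul, Subgroup.coe_mul, Subgroup.coe_inv, mul_assoc]
  rw [h8]
  exact h7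

/-- An automorphism acting trivially on the algebraic integers modulo the center of `A`
lies in the inertia group of `A`. -/
theorem mem_inertiaSubgroupIn_of_forall (A : ValuationSubring Qb) (ℓ : ℕ) (hℓ : ℓ.Prime)
    (hA : A.LiesOverPrime ℓ) (σ : Qb ≃ₐ[ℚ] Qb)
    (hσ : ∀ b : integralClosure ℤ Qb, σ • b - b ∈ center A) :
    σ ∈ A.inertiaSubgroupIn ℚ := by
  have hst : ∀ b : integralClosure ℤ Qb, σ • b ∈ center A ↔ b ∈ center A := by
    intro b
    have h := hσ b
    constructor
    · intro hb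
      have h2 := (center A).sub_mem hb h
      rwa [sub_sub_cancel] at h2
    · intro hb
      have h2 := (center A).add_mem h hb
      rwa [sub_add_cancel] at h2
  have hst' : ∀ b : integralClosure ℤ Qb, σ⁻¹ • b ∈ center A → b ∈ center A := by
    intro b hb
    have h1 := (hst (σ⁻¹ • b)).mpr hb
    rwa [smul_inv_smul] at h1
  have hσA : σ ∈ A.decompositionSubgroup ℚ := by
    rw [MulAction.mem_stabilizer_iff]
    apply ValuationSubring.ext
    intro x
    rw [ValuationSubring.mem_pointwise_smul_iff_inv_smul_mem]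
    constructor
    · intro hx
      have h1 := map_mem_of_stable A ℓ hℓ hA σ (fun b hb => (hst b).mp hb) _ hx
      rwa [← AlgEquiv.smul_def, smul_inv_smul] at h1
    · intro hx
      exact map_mem_of_stable A ℓ hℓ hA σ⁻¹ hst' x hx
  have hB : ∀ b : integralClosure ℤ Qb,
      (⟨σ, hσA⟩ : A.decompositionSubgroup ℚ) • IsLocalRing.residue A (incl A b) =
        IsLocalRing.residue A (incl A b) := by
    intro b
    rw [← IsLocalRing.ResidueField.residue_smul]
    have h1 : (⟨σ, hσA⟩ : A.decompositionSubgroup ℚ) • incl A b = incl A (σ • b) :=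
      Subtype.ext rfl
    rw [h1, ← sub_eq_zero, ← map_sub, IsLocalRing.residue_eq_zero_iff, ← map_sub]
    exact hσ b
  have hall : ∀ x : IsLocalRing.ResidueField A,
      (⟨σ, hσA⟩ : A.decompositionSubgroup ℚ) • x = x := by
    intro x
    obtain ⟨a, rfl⟩ := IsLocalRing.residue_surjective x
    have halg : IsAlgebraic ℤ a.1 :=
      (IsFractionRing.isAlgebraic_iff ℤ ℚ (AlgebraicClosure ℚ)).mpr
        (Algebra.IsAlgebraic.isAlgebraic a.1)
    obtain ⟨y, hy, hay, hyn⟩ := exists_integral_fraction A ℓ hℓ hA a.1 a.2 halg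
    have hz : incl A ⟨a.1 * y, hay⟩ = a * incl A ⟨y, hy⟩ := Subtype.ext rfl
    have hy0 : IsLocalRing.residue A (incl A ⟨y, hy⟩) ≠ 0 := by
      rw [Ne, IsLocalRing.residue_eq_zero_iff, ← ValuationSubring.coe_mem_nonunits_iff]
      exact hyn
    have e1 := hB ⟨a.1 * y, hay⟩
    rw [hz, map_mul, smul_mul', hB ⟨y, hy⟩] at e1
    exact mul_right_cancel₀ hy0 e1
  refine ⟨⟨σ, hσA⟩, ?_, rfl⟩
  show (⟨σ, hσA⟩ : A.decompositionSubgroup ℚ) ∈ A.inertiaSubgroup ℚ
  rw [ValuationSubring.inertiaSubgroup, MonoidHom.mem_ker]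
  ext x
  exact hall x


/-- Lifting a finite-level inertial automorphism to the absolute inertia group. -/
theorem exists_inertia_lift_over (K : IntermediateField ℚ Qb) [FiniteDimensional ℚ K]
    [Normal ℚ K] (A : ValuationSubring Qb) (ℓ : ℕ) (hℓ : ℓ.Prime) (hA : A.LiesOverPrime ℓ)
    (τ : K ≃ₐ[ℚ] K)
    (hτ : ∀ x : K, IsIntegral ℤ x → ((τ x : K) : Qb) - (x : Qb) ∈ A.nonunits) :
    ∃ σ ∈ A.inertiaSubgroupIn ℚ, ∀ x : K, σ (x : Qb) = ((τ x : K) : Qb) := by
  let _ : TopologicalSpace (integralClosure ℤ Qb) := ⊥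
  have : DiscreteTopology (integralClosure ℤ Qb) := ⟨rfl⟩
  have : ContinuousSMul (Qb ≃ₐ[ℚ] Qb) (integralClosure ℤ Qb) := continuousSMulIntegralClosure
  have hgal : IsGalois ℚ K := ⟨⟩
  have hnormal : K.fixingSubgroup.Normal := (InfiniteGalois.normal_iff_isGalois K).mpr hgal
  have hclosed : IsClosed (K.fixingSubgroup : Set (Qb ≃ₐ[ℚ] Qb)) :=
    IntermediateField.fixingSubgroup_isClosed K
  have hσ₀ : ∀ x : K, (τ.liftNormal Qb) (x : Qb) = ((τ x : K) : Qb) :=
    fun x => τ.liftNormal_commutes Qb x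
  obtain ⟨h, hh, hall⟩ := exists_mul_forall_sub_mem K.fixingSubgroup hclosed (center A)
    (τ.liftNormal Qb) (by
      intro b hb
      have hbK : b.1 ∈ K := by
        rw [← InfiniteGalois.fixedField_fixingSubgroup K, IntermediateField.mem_fixedField_iff]
        intro f hf
        exact congrArg Subtype.val (hb f hf)
      have hint : IsIntegral ℤ (⟨b.1, hbK⟩ : K) :=
        (isIntegral_algebraMap_iff (algebraMap K Qb).injective).mp b.2
      have h1 := hτ ⟨b.1, hbK⟩ hint
      rw [mem_center]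
      show (τ.liftNormal Qb) b.1 - b.1 ∈ A.nonunits
      rw [hσ₀ ⟨b.1, hbK⟩]
      exact h1)
  refine ⟨h * τ.liftNormal Qb, mem_inertiaSubgroupIn_of_forall A ℓ hℓ hA _ hall, fun x => ?_⟩
  rw [AlgEquiv.mul_apply, hσ₀]
  exact (IntermediateField.mem_fixingSubgroup_iff K h).mp hh _ (τ x).2

/-- The lifting statement of `InertiaGlue` (for valuation subrings over a prime). -/
theorem liftStatementOver : LiftStatementOver :=
  fun K _ _ A q hq hA τ hτ => exists_inertia_lift_over K A q hq hA τ hτ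

/-- A finite Galois extension `K ≠ ℚ` inside `Qb` has a prime `q` such that for EVERY valuation
subring `A` of `Qb` over `q` the inertia group of `A` moves `K`. -/
theorem exists_mem_inertia_ne (K : IntermediateField ℚ Qb) [FiniteDimensional ℚ K]
    [IsGalois ℚ K] (hK : K ≠ ⊥) :
    ∃ q : ℕ, q.Prime ∧ ∀ A : ValuationSubring Qb, A.LiesOverPrime q →
      ∃ σ ∈ A.inertiaSubgroupIn ℚ, ∃ x ∈ K, σ x ≠ x :=
  exists_mem_inertia_ne_of_liftOver liftStatementOver K hK

/-- Minkowski: a normal subgroup of finite level containing one inertia group per prime is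
everything. -/
theorem eq_top_of_isOpen (N : Subgroup (Qb ≃ₐ[ℚ] Qb)) [N.Normal]
    (hN : IsOpen (N : Set (Qb ≃ₐ[ℚ] Qb)))
    (h : ∀ q : ℕ, q.Prime →
      ∃ A : ValuationSubring Qb, A.LiesOverPrime q ∧ A.inertiaSubgroupIn ℚ ≤ N) : N = ⊤ :=
  eq_top_of_liftOver liftStatementOver N hN h

/-- Minkowski, in the shape of the S13 plan. -/
theorem minkowski (H : Subgroup (Qb ≃ₐ[ℚ] Qb)) (hH : H.Normal)
    (hopen : ∃ F : IntermediateField ℚ Qb, FiniteDimensional ℚ F ∧ F.fixingSubgroup ≤ H)
    (hunr : ∀ q : ℕ, q.Prime →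
      ∃ A : ValuationSubring Qb, A.LiesOverPrime q ∧ A.inertiaSubgroupIn ℚ ≤ H) :
    H = ⊤ := by
  obtain ⟨F, hFfin, hF⟩ := hopen
  exact eq_top_of_liftOver_of_fixingSubgroup_le liftStatementOver H F hF hunr

/-- Minkowski for a group homomorphism of finite level: if it is trivial on one inertia group
per prime, it is trivial. -/
theorem forall_eq_one {H : Type*} [Group H] (χ : (Qb ≃ₐ[ℚ] Qb) →* H)
    (F : IntermediateField ℚ Qb) [FiniteDimensional ℚ F] (hF : F.fixingSubgroup ≤ χ.ker)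
    (h : ∀ q : ℕ, q.Prime →
      ∃ A : ValuationSubring Qb, A.LiesOverPrime q ∧ ∀ σ ∈ A.inertiaSubgroupIn ℚ, χ σ = 1)
    (σ : Qb ≃ₐ[ℚ] Qb) : χ σ = 1 :=
  forall_eq_one_of_liftOver liftStatementOver χ F hF h σ

end Fermat.Agent.Lib.InertiaMinkowski
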