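import Mathlib

/-!
# Galois-stable principal ideals in cyclic extensions of number fields

Let `F / K` be a cyclic extension of number fields with generator `τ`, totally ramified at the
primes of a finite set `S` and unramified at every other prime.  If `β ≠ 0` is an integer of `F`
with `τ β = δ β` for a unit `δ`, then the ideal `(N β)` of `𝓞 K` is an `[F : K]`-th power times
`∏_{Q ∈ S} Q ^ r(Q)`, and `δ ≡ g ^ r(Q)` modulo the prime above `Q`, where `τ lam ≡ g lam`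
modulo the square of that prime for a common uniformiser `lam` (`exists_exponents`).  This is the
ideal-theoretic core of Thaine's relation for cyclotomic units; nothing here mentions cyclotomic
fields.  `exists_exponents_classGroup` is the class group form and
`exists_exponents_of_ramificationIdx` takes the ramification hypotheses through
`Ideal.ramificationIdx`.
-/

set_option autoImplicit false
set_option linter.unusedSectionVars false
set_option linter.style.haveILetI false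

open scoped NumberField nonZeroDivisors
open IsDedekindDomain UniqueFactorizationMonoid

namespace Fermat.Agent.Lib.InvariantIdeal


section Dedekind

variable {R : Type*} [CommRing R] [IsDedekindDomain R]

/-- An ideal all of whose prime multiplicities away from a finite set `S` are divisible by `n`
is an `n`-th power times its `S`-part. -/
theorem exists_pow_mul_prod (I : Ideal R) (hI : I ≠ ⊥) (n : ℕ) (S : Finset (Ideal R))
    (hdiv : ∀ P ∈ normalizedFactors I, P ∉ S → n ∣ Multiset.count P (normalizedFactors I)) :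
    ∃ c : Ideal R, c ≠ ⊥ ∧
      I = c ^ n * ∏ Q ∈ S, Q ^ Multiset.count Q (normalizedFactors I) := by
  classical
  refine ⟨∏ P ∈ (normalizedFactors I).toFinset \ S,
    P ^ (Multiset.count P (normalizedFactors I) / n), ?_, ?_⟩
  · rw [← Ideal.zero_eq_bot, Finset.prod_ne_zero_iff]
    intro P hP
    have hPF : P ∈ normalizedFactors I := Multiset.mem_toFinset.mp (Finset.mem_sdiff.mp hP).1
    exact pow_ne_zero _ (ne_zero_of_mem_normalizedFactors hPF)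
  · have h1 : I = ∏ P ∈ (normalizedFactors I).toFinset,
        P ^ Multiset.count P (normalizedFactors I) := by
      rw [← Finset.prod_multiset_count]
      exact (Ideal.prod_normalizedFactors_eq_self hI).symm
    have h2 : (∏ P ∈ (normalizedFactors I).toFinset \ S,
        P ^ (Multiset.count P (normalizedFactors I) / n)) ^ n =
        ∏ P ∈ (normalizedFactors I).toFinset \ S, P ^ Multiset.count P (normalizedFactors I) := by
      rw [← Finset.prod_pow]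
      refine Finset.prod_congr rfl fun P hP => ?_
      obtain ⟨hP1, hP2⟩ := Finset.mem_sdiff.mp hP
      rw [← pow_mul, Nat.div_mul_cancel (hdiv P (Multiset.mem_toFinset.mp hP1) hP2)]
    have h3 : ∏ Q ∈ S, Q ^ Multiset.count Q (normalizedFactors I) =
        ∏ Q ∈ (normalizedFactors I).toFinset ∩ S, Q ^ Multiset.count Q (normalizedFactors I) := by
      symm
      refine Finset.prod_subset Finset.inter_subset_right fun Q hQ hQ' => ?_
      have : Q ∉ normalizedFactors I := fun h =>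
        hQ' (Finset.mem_inter.mpr ⟨Multiset.mem_toFinset.mpr h, hQ⟩)
      rw [Multiset.count_eq_zero_of_notMem this, pow_zero]
    rw [h2, h3, mul_comm, Finset.prod_inter_mul_prod_sdiff]
    exact h1

/-- The valuation of a nonzero element is `exp (-j)` for a natural number `j`. -/
theorem exists_intValuation_eq (w : HeightOneSpectrum R) {x : R} (hx : x ≠ 0) :
    ∃ j : ℕ, w.intValuation x = WithZero.exp (-(j : ℤ)) :=
  ⟨_, w.intValuation_if_neg hx⟩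

theorem mem_pow_iff_of_intValuation_eq (w : HeightOneSpectrum R) {x : R} {j : ℕ}
    (h : w.intValuation x = WithZero.exp (-(j : ℤ))) (i : ℕ) :
    x ∈ w.asIdeal ^ i ↔ i ≤ j := by
  rw [← w.intValuation_le_pow_iff_mem, h, WithZero.exp_le_exp, neg_le_neg_iff, Nat.cast_le]

theorem count_eq_of_intValuation_eq (w : HeightOneSpectrum R) {x : R} (hx : x ≠ 0) {j : ℕ}
    (h : w.intValuation x = WithZero.exp (-(j : ℤ))) :
    Multiset.count w.asIdeal (normalizedFactors (Ideal.span {x})) = j := by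
  classical
  have hsr : Ideal.span {x} ≠ 0 := by
    rw [Ne, Ideal.zero_eq_bot, Ideal.span_singleton_eq_bot]
    exact hx
  rw [w.intValuation_if_neg hx, WithZero.exp_inj, neg_inj, Nat.cast_inj] at h
  rw [← Ideal.count_associates_factors_eq hsr w.isPrime w.ne_bot]
  exact h

theorem intValuation_eq_of_mem_of_notMem (w : HeightOneSpectrum R) {x : R} {j : ℕ}
    (h1 : x ∈ w.asIdeal ^ j) (h2 : x ∉ w.asIdeal ^ (j + 1)) :
    w.intValuation x = WithZero.exp (-(j : ℤ)) := by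
  have hx : x ≠ 0 := by
    rintro rfl
    exact h2 (Ideal.zero_mem _)
  obtain ⟨i, hi⟩ := exists_intValuation_eq w hx
  have h3 := (mem_pow_iff_of_intValuation_eq w hi j).mp h1
  have h4 := (mem_pow_iff_of_intValuation_eq w hi (j + 1)).not.mp h2
  have : i = j := by omega
  rw [hi, this]

/-- If `a ≡ b` modulo `P ^ 2` and both lie in `P`, then `a ^ k ≡ b ^ k` modulo `P ^ (k + 1)`. -/
theorem pow_sub_pow_mem (P : Ideal R) {a b : R} (ha : a ∈ P) (hb : b ∈ P) (hab : a - b ∈ P ^ 2)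
    (k : ℕ) : a ^ k - b ^ k ∈ P ^ (k + 1) := by
  induction k with
  | zero => simp
  | succ k ih =>
    have h1 : a ^ (k + 1) - b ^ (k + 1) = a * (a ^ k - b ^ k) + (a - b) * b ^ k := by ring
    rw [h1]
    refine Ideal.add_mem _ ?_ ?_
    · rw [pow_succ' P (k + 1)]
      exact Ideal.mul_mem_mul ha ih
    · have h2 : P ^ (k + 1 + 1) = P ^ 2 * P ^ k := by rw [← pow_add]; congr 1; omega
      rw [h2]
      exact Ideal.mul_mem_mul hab (Ideal.pow_mem_pow hb k)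

end Dedekind


section NumberField

variable {K F : Type*} [Field K] [NumberField K] [Field F] [NumberField F] [Algebra K F]

theorem finrank_ne_zero' : Module.finrank K F ≠ 0 := Module.finrank_pos.ne'

/-- A prime of `𝓞 F` lying over a nonzero prime of `𝓞 K` is nonzero. -/
theorem ne_bot_of_under_ne_bot {P : Ideal (𝓞 F)} (h : P.under (𝓞 K) ≠ ⊥) : P ≠ ⊥ := by
  rintro rfl
  apply h
  rw [Ideal.under_def, Ideal.comap_bot_of_injective _ (FaithfulSMul.algebraMap_injective (𝓞 K) (𝓞 F))]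

/-- Totally ramified primes have the same absolute norm as the prime below. -/
theorem absNorm_eq_of_map_eq_pow {Q : Ideal (𝓞 K)} {P : Ideal (𝓞 F)}
    (h : Q.map (algebraMap (𝓞 K) (𝓞 F)) = P ^ Module.finrank K F) :
    Ideal.absNorm P = Ideal.absNorm Q := by
  have h1 := Ideal.absNorm_algebraMap (𝓞 K) (𝓞 F) Q
  rw [h, map_pow, ← IsFractionRing.finrank_eq (𝓞 K) K (𝓞 F) F] at h1
  exact Nat.pow_left_injective finrank_ne_zero' h1

/-- At a totally ramified prime the residue field does not grow. -/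
theorem exists_sub_mem_of_map_eq_pow {Q : Ideal (𝓞 K)} (hQ : Q ≠ ⊥) {P : Ideal (𝓞 F)}
    (hPQ : P.under (𝓞 K) = Q)
    (h : Q.map (algebraMap (𝓞 K) (𝓞 F)) = P ^ Module.finrank K F) (x : 𝓞 F) :
    ∃ a : 𝓞 K, x - algebraMap (𝓞 K) (𝓞 F) a ∈ P := by
  have hP0 : P ≠ ⊥ := ne_bot_of_under_ne_bot (by rw [hPQ]; exact hQ)
  have hle : Q ≤ Ideal.comap (algebraMap (𝓞 K) (𝓞 F)) P := by rw [← hPQ, Ideal.under_def]
  have hinj : Function.Injective (Ideal.quotientMap P (algebraMap (𝓞 K) (𝓞 F)) hle) :=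
    Ideal.quotientMap_injective' (by rw [← hPQ, Ideal.under_def])
  haveI : Finite (𝓞 F ⧸ P) := Ideal.finiteQuotientOfFreeOfNeBot P hP0
  have hcard : Nat.card (𝓞 F ⧸ P) ≤ Nat.card (𝓞 K ⧸ Q) := by
    have h1 := absNorm_eq_of_map_eq_pow h
    rw [Ideal.absNorm_apply, Ideal.absNorm_apply] at h1
    exact le_of_eq h1
  obtain ⟨a', ha'⟩ := (hinj.bijective_of_nat_card_le hcard).2 (Ideal.Quotient.mk P x)
  obtain ⟨a, rfl⟩ := Ideal.Quotient.mk_surjective a'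
  refine ⟨a, ?_⟩
  rw [← Ideal.Quotient.eq, ← ha']
  rfl

/-- A totally ramified prime is stable under every automorphism. -/
theorem galRestrict_mem_of_map_eq_pow {Q : Ideal (𝓞 K)} {P : Ideal (𝓞 F)} [P.IsPrime]
    (h : Q.map (algebraMap (𝓞 K) (𝓞 F)) = P ^ Module.finrank K F) (σ : Gal(F/K)) {x : 𝓞 F}
    (hx : x ∈ P) : galRestrict (𝓞 K) K F (𝓞 F) σ x ∈ P := by
  have h1 : x ^ Module.finrank K F ∈ Q.map (algebraMap (𝓞 K) (𝓞 F)) := by
    rw [h]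
    exact Ideal.pow_mem_pow hx _
  have h2 : (Q.map (algebraMap (𝓞 K) (𝓞 F))).map
      ((galRestrict (𝓞 K) K F (𝓞 F) σ : 𝓞 F ≃ₐ[𝓞 K] 𝓞 F) : 𝓞 F →+* 𝓞 F) =
      Q.map (algebraMap (𝓞 K) (𝓞 F)) := by
    rw [Ideal.map_map]
    congr 1
    ext a
    simp
  have h3 : galRestrict (𝓞 K) K F (𝓞 F) σ (x ^ Module.finrank K F) ∈
      Q.map (algebraMap (𝓞 K) (𝓞 F)) := by
    rw [← h2]
    exact Ideal.mem_map_of_mem _ h1
  rw [map_pow, h] at h3
  exact Ideal.IsPrime.mem_of_pow_mem inferInstance _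
    (Ideal.pow_le_self finrank_ne_zero' h3)

/-- At a totally ramified prime every automorphism acts trivially on the residue field. -/
theorem galRestrict_sub_mem_of_map_eq_pow {Q : Ideal (𝓞 K)} (hQ : Q ≠ ⊥) {P : Ideal (𝓞 F)}
    [P.IsPrime] (hPQ : P.under (𝓞 K) = Q)
    (h : Q.map (algebraMap (𝓞 K) (𝓞 F)) = P ^ Module.finrank K F) (σ : Gal(F/K)) (x : 𝓞 F) :
    galRestrict (𝓞 K) K F (𝓞 F) σ x - x ∈ P := by
  obtain ⟨a, ha⟩ := exists_sub_mem_of_map_eq_pow hQ hPQ h x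
  have h1 := galRestrict_mem_of_map_eq_pow h σ ha
  rw [map_sub, AlgEquiv.commutes] at h1
  have h2 : galRestrict (𝓞 K) K F (𝓞 F) σ x - x =
      (galRestrict (𝓞 K) K F (𝓞 F) σ x - algebraMap (𝓞 K) (𝓞 F) a) -
        (x - algebraMap (𝓞 K) (𝓞 F) a) := by ring
  rw [h2]
  exact Ideal.sub_mem _ h1 ha

end NumberField


section NumberField

variable {K F : Type*} [Field K] [NumberField K] [Field F] [NumberField F] [Algebra K F]

/-- If `τ` generates the Galois group and `τ β = δ β` with `δ` a unit, then every conjugate of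
`β` is a unit multiple of `β`. -/
theorem exists_unit_mul_of_generator (τ : Gal(F/K)) (hτ : ∀ σ : Gal(F/K), σ ∈ Subgroup.zpowers τ)
    {β δ : 𝓞 F} (hδ : IsUnit δ) (hτβ : galRestrict (𝓞 K) K F (𝓞 F) τ β = δ * β) (σ : Gal(F/K)) :
    ∃ u : (𝓞 F)ˣ, galRestrict (𝓞 K) K F (𝓞 F) σ β = u * β := by
  let H : Subgroup Gal(F/K) :=
    { carrier := {σ | ∃ u : (𝓞 F)ˣ, galRestrict (𝓞 K) K F (𝓞 F) σ β = u * β}
      one_mem' := ⟨1, by simp⟩
      mul_mem' := by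
        rintro σ σ' ⟨u, hu⟩ ⟨u', hu'⟩
        refine ⟨Units.map ((galRestrict (𝓞 K) K F (𝓞 F) σ : 𝓞 F ≃ₐ[𝓞 K] 𝓞 F) : 𝓞 F →* 𝓞 F) u' * u,
          ?_⟩
        rw [map_mul, AlgEquiv.mul_apply, hu', map_mul, hu]
        simp only [Units.val_mul, Units.coe_map, MonoidHom.coe_coe]
        ring
      inv_mem' := by
        rintro σ ⟨u, hu⟩
        refine ⟨(Units.map ((galRestrict (𝓞 K) K F (𝓞 F) σ⁻¹ : 𝓞 F ≃ₐ[𝓞 K] 𝓞 F) :
          𝓞 F →* 𝓞 F) u)⁻¹, ?_⟩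
        have h1 : galRestrict (𝓞 K) K F (𝓞 F) σ⁻¹ (galRestrict (𝓞 K) K F (𝓞 F) σ β) = β := by
          rw [← AlgEquiv.mul_apply, ← map_mul, inv_mul_cancel, map_one, AlgEquiv.one_apply]
        rw [hu, map_mul] at h1
        rw [Units.eq_inv_mul_iff_mul_eq]
        simpa using h1 }
  have h1 : τ ∈ H := ⟨hδ.unit, by rw [hτβ, IsUnit.unit_spec]⟩
  exact (Subgroup.zpowers_le.mpr h1) (hτ σ)

/-- The norm of `β` is a unit multiple of `β ^ [F : K]` when the ideal `(β)` is Galois stable. -/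
theorem exists_unit_intNorm [IsGalois K F] (τ : Gal(F/K))
    (hτ : ∀ σ : Gal(F/K), σ ∈ Subgroup.zpowers τ)
    {β δ : 𝓞 F} (hδ : IsUnit δ) (hτβ : galRestrict (𝓞 K) K F (𝓞 F) τ β = δ * β) :
    ∃ u : (𝓞 F)ˣ, algebraMap (𝓞 K) (𝓞 F) (Algebra.intNorm (𝓞 K) (𝓞 F) β) =
      u * β ^ Module.finrank K F := by
  classical
  have h1 : algebraMap (𝓞 K) (𝓞 F) (Algebra.intNorm (𝓞 K) (𝓞 F) β) =
      ∏ σ : Gal(F/K), galRestrict (𝓞 K) K F (𝓞 F) σ β := by
    apply FaithfulSMul.algebraMap_injective (𝓞 F) F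
    rw [← IsScalarTower.algebraMap_apply (𝓞 K) (𝓞 F) F, IsScalarTower.algebraMap_apply (𝓞 K) K F,
      Algebra.algebraMap_intNorm (L := F), Algebra.norm_eq_prod_automorphisms, map_prod]
    refine Finset.prod_congr rfl fun σ _ => ?_
    rw [algebraMap_galRestrict_apply]
  choose u hu using exists_unit_mul_of_generator τ hτ hδ hτβ
  refine ⟨∏ σ : Gal(F/K), u σ, ?_⟩
  rw [h1, Finset.prod_congr rfl (fun σ _ => hu σ), Finset.prod_mul_distrib, Finset.prod_const,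
    Finset.card_univ, ← Nat.card_eq_fintype_card, IsGalois.card_aut_eq_finrank, Units.coe_prod]

theorem intValuation_unit (w : HeightOneSpectrum (𝓞 F)) (u : (𝓞 F)ˣ) :
    w.intValuation (u : 𝓞 F) = 1 := by
  rw [HeightOneSpectrum.intValuation_eq_one_iff_mem_primeCompl]
  intro h
  exact w.isPrime.ne_top (Ideal.eq_top_of_isUnit_mem _ h u.isUnit)

/-- Comparison of the valuations of `N β` and of `β`. -/
theorem ramificationIdx_mul_eq [IsGalois K F] (τ : Gal(F/K))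
    (hτ : ∀ σ : Gal(F/K), σ ∈ Subgroup.zpowers τ)
    {β δ : 𝓞 F} (hδ : IsUnit δ) (hτβ : galRestrict (𝓞 K) K F (𝓞 F) τ β = δ * β)
    (v : HeightOneSpectrum (𝓞 K)) (w : HeightOneSpectrum (𝓞 F))
    (hwv : w.asIdeal.under (𝓞 K) = v.asIdeal) {m j : ℕ}
    (hm : v.intValuation (Algebra.intNorm (𝓞 K) (𝓞 F) β) = WithZero.exp (-(m : ℤ)))
    (hj : w.intValuation β = WithZero.exp (-(j : ℤ))) :
    v.asIdeal.ramificationIdx' w.asIdeal * m = Module.finrank K F * j := by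
  obtain ⟨u, hu⟩ := exists_unit_intNorm τ hτ hδ hτβ
  haveI : w.asIdeal.LiesOver v.asIdeal := ⟨hwv.symm⟩
  have h1 := HeightOneSpectrum.intValuation_liesOver v w (Algebra.intNorm (𝓞 K) (𝓞 F) β)
  rw [hu, map_mul, map_pow, intValuation_unit, one_mul, hm, hj, ← WithZero.exp_nsmul,
    ← WithZero.exp_nsmul, WithZero.exp_inj] at h1
  simp only [nsmul_eq_mul, mul_neg, neg_inj] at h1
  exact_mod_cast h1

end NumberField


section NumberField

variable {K F : Type*} [Field K] [NumberField K] [Field F] [NumberField F] [Algebra K F]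

/-- The local congruence at a totally ramified prime `P`: if `β` has `P`-adic valuation `j`
and `τ lam ≡ g lam` modulo `P ^ 2` for a uniformiser `lam`, then `τ β ≡ g ^ j β` modulo
`P ^ (j + 1)`. -/
theorem galRestrict_sub_pow_mul_mem {Q : Ideal (𝓞 K)} (hQ : Q ≠ ⊥) {P : Ideal (𝓞 F)}
    [P.IsPrime] (hPQ : P.under (𝓞 K) = Q)
    (h : Q.map (algebraMap (𝓞 K) (𝓞 F)) = P ^ Module.finrank K F) (τ : Gal(F/K))
    {lam : 𝓞 F} (hlam1 : lam ∈ P) (hlam2 : lam ∉ P ^ 2) {g : 𝓞 K}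
    (hg : galRestrict (𝓞 K) K F (𝓞 F) τ lam - algebraMap (𝓞 K) (𝓞 F) g * lam ∈ P ^ 2)
    {β : 𝓞 F} {j : ℕ} (hβ : β ∈ P ^ j) :
    galRestrict (𝓞 K) K F (𝓞 F) τ β - algebraMap (𝓞 K) (𝓞 F) (g ^ j) * β ∈ P ^ (j + 1) := by
  have hP0 : P ≠ ⊥ := ne_bot_of_under_ne_bot (by rw [hPQ]; exact hQ)
  let w : HeightOneSpectrum (𝓞 F) := ⟨P, inferInstance, hP0⟩
  have hwlam : w.intValuation lam = WithZero.exp (-((1 : ℕ) : ℤ)) :=
    intValuation_eq_of_mem_of_notMem w (j := 1) (by simpa [w] using hlam1) hlam2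
  have hwlamj : w.intValuation (lam ^ j) = WithZero.exp (-(j : ℤ)) := by
    rw [map_pow, hwlam, ← WithZero.exp_nsmul]
    simp
  have h1 : lam ^ j ∈ P ^ j := (mem_pow_iff_of_intValuation_eq w hwlamj j).mpr le_rfl
  have h2 : lam ^ j ∉ P ^ (j + 1) := fun h' => by
    have := (mem_pow_iff_of_intValuation_eq w hwlamj (j + 1)).mp h'
    omega
  obtain ⟨d, e, he, hde⟩ := Ideal.exists_mul_add_mem_pow_succ hP0 (lam ^ j) β h1 h2 hβ
  set t := galRestrict (𝓞 K) K F (𝓞 F) τ with ht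
  have hgl : algebraMap (𝓞 K) (𝓞 F) g * lam ∈ P := P.mul_mem_left _ hlam1
  have htl : t lam ∈ P := by
    have h3 : t lam = (t lam - algebraMap (𝓞 K) (𝓞 F) g * lam) + algebraMap (𝓞 K) (𝓞 F) g * lam := by
      ring
    rw [h3]
    exact Ideal.add_mem _ (Ideal.pow_le_self two_ne_zero hg) hgl
  have hT1 : (t lam) ^ j - (algebraMap (𝓞 K) (𝓞 F) g * lam) ^ j ∈ P ^ (j + 1) :=
    pow_sub_pow_mem P htl hgl hg j
  have hT2 : (algebraMap (𝓞 K) (𝓞 F) g * lam) ^ j * (t d - d) ∈ P ^ (j + 1) := by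
    rw [pow_succ]
    exact Ideal.mul_mem_mul (Ideal.pow_mem_pow hgl j)
      (galRestrict_sub_mem_of_map_eq_pow hQ hPQ h τ d)
  have hT3 : t e ∈ P ^ (j + 1) := by
    have h4 : (P ^ (j + 1)).map ((t : 𝓞 F ≃ₐ[𝓞 K] 𝓞 F) : 𝓞 F →+* 𝓞 F) ≤ P ^ (j + 1) := by
      rw [Ideal.map_pow]
      refine Ideal.pow_right_mono ?_ _
      rw [Ideal.map_le_iff_le_comap]
      intro x hx
      exact galRestrict_mem_of_map_eq_pow h τ hx
    exact h4 (Ideal.mem_map_of_mem _ he)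
  have hmain : t β - algebraMap (𝓞 K) (𝓞 F) (g ^ j) * β =
      ((t lam) ^ j - (algebraMap (𝓞 K) (𝓞 F) g * lam) ^ j) * t d +
        (algebraMap (𝓞 K) (𝓞 F) g * lam) ^ j * (t d - d) +
        (t e - algebraMap (𝓞 K) (𝓞 F) (g ^ j) * e) := by
    rw [← hde]
    simp only [map_add, map_mul, map_pow]
    ring
  rw [hmain]
  exact Ideal.add_mem _ (Ideal.add_mem _ (Ideal.mul_mem_right _ _ hT1) hT2)
    (Ideal.sub_mem _ hT3 (Ideal.mul_mem_left _ _ he))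

/-- **Invariant principal ideals in a cyclic extension, totally ramified at `S` and unramified
elsewhere.**  If `τ` generates `Gal(F/K)` and `τ β = δ β` with `δ` a unit, then
`(N β) = c ^ [F:K] * ∏_{Q ∈ S} Q ^ r(Q)`, and `δ ≡ g ^ r(Q)` modulo the prime above `Q`, where
`τ lam ≡ g lam` for a common uniformiser `lam` at the primes above `S`. -/
theorem exists_exponents [IsGalois K F] (τ : Gal(F/K))
    (hτ : ∀ σ : Gal(F/K), σ ∈ Subgroup.zpowers τ)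
    (S : Finset (Ideal (𝓞 K))) (hS : ∀ Q ∈ S, Q.IsPrime ∧ Q ≠ ⊥)
    (hram : ∀ Q ∈ S, ∀ P : Ideal (𝓞 F), P.IsPrime → P.under (𝓞 K) = Q →
      Q.map (algebraMap (𝓞 K) (𝓞 F)) = P ^ Module.finrank K F)
    (hunr : ∀ P : Ideal (𝓞 F), P.IsPrime → P ≠ ⊥ → P.under (𝓞 K) ∉ S →
      ¬ (P.under (𝓞 K)).map (algebraMap (𝓞 K) (𝓞 F)) ≤ P ^ 2)
    (lam : 𝓞 F)
    (hlam : ∀ Q ∈ S, ∀ P : Ideal (𝓞 F), P.IsPrime → P.under (𝓞 K) = Q → lam ∈ P ∧ lam ∉ P ^ 2)
    (g : 𝓞 K)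
    (hg : ∀ Q ∈ S, ∀ P : Ideal (𝓞 F), P.IsPrime → P.under (𝓞 K) = Q →
      galRestrict (𝓞 K) K F (𝓞 F) τ lam - algebraMap (𝓞 K) (𝓞 F) g * lam ∈ P ^ 2)
    (β δ : 𝓞 F) (hβ : β ≠ 0) (hδ : IsUnit δ)
    (hτβ : galRestrict (𝓞 K) K F (𝓞 F) τ β = δ * β) :
    ∃ (r : Ideal (𝓞 K) → ℕ) (c : Ideal (𝓞 K)), c ≠ ⊥ ∧
      (∀ Q ∈ S, ∀ P : Ideal (𝓞 F), P.IsPrime → P.under (𝓞 K) = Q →
        δ - algebraMap (𝓞 K) (𝓞 F) (g ^ r Q) ∈ P) ∧
      Ideal.span {Algebra.intNorm (𝓞 K) (𝓞 F) β} = c ^ Module.finrank K F * ∏ Q ∈ S, Q ^ r Q := by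
  classical
  obtain ⟨u, hu⟩ := exists_unit_intNorm τ hτ hδ hτβ
  have hN0 : Algebra.intNorm (𝓞 K) (𝓞 F) β ≠ 0 := by
    intro h0
    rw [h0, map_zero] at hu
    exact (mul_ne_zero u.ne_zero (pow_ne_zero _ hβ)) hu.symm
  have hdiv : ∀ P ∈ normalizedFactors (Ideal.span {Algebra.intNorm (𝓞 K) (𝓞 F) β}), P ∉ S →
      Module.finrank K F ∣
        Multiset.count P (normalizedFactors (Ideal.span {Algebra.intNorm (𝓞 K) (𝓞 F) β})) := by
    intro P hP hPS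
    have hPprime : Prime P := prime_of_normalized_factor P hP
    have hP0 : P ≠ ⊥ := hPprime.ne_zero
    haveI hPp : P.IsPrime := Ideal.isPrime_of_prime hPprime
    let v : HeightOneSpectrum (𝓞 K) := ⟨P, hPp, hP0⟩
    obtain ⟨⟨P', hP'prime, hP'over⟩⟩ := Ideal.nonempty_primesOver (S := 𝓞 F) P
    have hover : P'.under (𝓞 K) = P := hP'over.over.symm
    have hP'0 : P' ≠ ⊥ := ne_bot_of_under_ne_bot (by rw [hover]; exact hP0)
    let w : HeightOneSpectrum (𝓞 F) := ⟨P', hP'prime, hP'0⟩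
    obtain ⟨m, hm⟩ := exists_intValuation_eq v hN0
    obtain ⟨j, hj⟩ := exists_intValuation_eq w hβ
    have he : P.ramificationIdx' P' = 1 := by
      refine Ideal.ramificationIdx'_spec ?_ ?_
      · rw [pow_one]
        exact Ideal.map_le_of_le_comap (le_of_eq hover.symm)
      · have := hunr P' hP'prime hP'0 (by rw [hover]; exact hPS)
        rwa [hover] at this
    have h1 := ramificationIdx_mul_eq τ hτ hδ hτβ v w hover hm hj
    rw [he, one_mul] at h1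
    have h2 := count_eq_of_intValuation_eq v hN0 hm
    rw [h2, h1]
    exact dvd_mul_right _ _
  obtain ⟨c, hc0, hc⟩ := exists_pow_mul_prod (Ideal.span {Algebra.intNorm (𝓞 K) (𝓞 F) β})
    (by rw [Ne, Ideal.span_singleton_eq_bot]; exact hN0) (Module.finrank K F) S hdiv
  refine ⟨fun Q => Multiset.count Q
    (normalizedFactors (Ideal.span {Algebra.intNorm (𝓞 K) (𝓞 F) β})), c, hc0, ?_, hc⟩
  intro Q hQ P hP hPQ
  obtain ⟨hQprime, hQ0⟩ := hS Q hQ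
  haveI := hP
  have hP0 : P ≠ ⊥ := ne_bot_of_under_ne_bot (by rw [hPQ]; exact hQ0)
  let v : HeightOneSpectrum (𝓞 K) := ⟨Q, hQprime, hQ0⟩
  let w : HeightOneSpectrum (𝓞 F) := ⟨P, hP, hP0⟩
  obtain ⟨m, hm⟩ := exists_intValuation_eq v hN0
  obtain ⟨j, hj⟩ := exists_intValuation_eq w hβ
  have hmap := hram Q hQ P hP hPQ
  have he : Q.ramificationIdx' P = Module.finrank K F := by
    refine Ideal.ramificationIdx'_spec (le_of_eq hmap) ?_
    rw [hmap]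
    exact not_le_of_gt (Ideal.pow_succ_lt_pow hP0 _)
  have h1 := ramificationIdx_mul_eq τ hτ hδ hτβ v w hPQ hm hj
  rw [he] at h1
  have hmj : m = j := Nat.eq_of_mul_eq_mul_left (Nat.pos_of_ne_zero finrank_ne_zero') h1
  have h2 : Multiset.count Q
      (normalizedFactors (Ideal.span {Algebra.intNorm (𝓞 K) (𝓞 F) β})) = j := by
    rw [← hmj]
    exact count_eq_of_intValuation_eq v hN0 hm
  show δ - algebraMap (𝓞 K) (𝓞 F) (g ^ Multiset.count Q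
      (normalizedFactors (Ideal.span {Algebra.intNorm (𝓞 K) (𝓞 F) β}))) ∈ P
  rw [h2]
  have h3 : β ∈ P ^ j := (mem_pow_iff_of_intValuation_eq w hj j).mpr le_rfl
  have h4 : β ∉ P ^ (j + 1) := fun h' => by
    have := (mem_pow_iff_of_intValuation_eq w hj (j + 1)).mp h'
    omega
  obtain ⟨hl1, hl2⟩ := hlam Q hQ P hP hPQ
  have h5 := galRestrict_sub_pow_mul_mem hQ0 hPQ hmap τ hl1 hl2 (hg Q hQ P hP hPQ) h3
  rw [hτβ] at h5
  have h6 : β * (δ - algebraMap (𝓞 K) (𝓞 F) (g ^ j)) ∈ P ^ (j + 1) := by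
    have : β * (δ - algebraMap (𝓞 K) (𝓞 F) (g ^ j)) =
        δ * β - algebraMap (𝓞 K) (𝓞 F) (g ^ j) * β := by ring
    rw [this]
    exact h5
  exact Ideal.mem_prime_of_mul_mem_pow hP0 h4 h6

end NumberField


section NumberField

variable {K F : Type*} [Field K] [NumberField K] [Field F] [NumberField F] [Algebra K F]

/-- A prime whose ramification index is the full degree is totally ramified. -/
theorem map_eq_pow_of_ramificationIdx'_eq {Q : Ideal (𝓞 K)} (hQ : Q ≠ ⊥) {P : Ideal (𝓞 F)}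
    [P.IsPrime] (hPQ : P.under (𝓞 K) = Q)
    (he : Q.ramificationIdx' P = Module.finrank K F) :
    Q.map (algebraMap (𝓞 K) (𝓞 F)) = P ^ Module.finrank K F := by
  have hP0 : P ≠ ⊥ := ne_bot_of_under_ne_bot (by rw [hPQ]; exact hQ)
  have h1 : Q.map (algebraMap (𝓞 K) (𝓞 F)) ≤ P ^ Module.finrank K F := by
    rw [← he]
    exact Ideal.le_pow_ramificationIdx'
  obtain ⟨J, hJ⟩ := Ideal.dvd_iff_le.mpr h1
  have h2 := Ideal.absNorm_algebraMap (𝓞 K) (𝓞 F) Q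
  rw [hJ, map_mul, map_pow, ← IsFractionRing.finrank_eq (𝓞 K) K (𝓞 F) F] at h2
  have hle : Q ≤ Ideal.comap (algebraMap (𝓞 K) (𝓞 F)) P := by rw [← hPQ, Ideal.under_def]
  have hinj : Function.Injective (Ideal.quotientMap P (algebraMap (𝓞 K) (𝓞 F)) hle) :=
    Ideal.quotientMap_injective' (by rw [← hPQ, Ideal.under_def])
  have : Finite (𝓞 F ⧸ P) := Ideal.finiteQuotientOfFreeOfNeBot P hP0
  have h3' : Nat.card (𝓞 K ⧸ Q) ≤ Nat.card (𝓞 F ⧸ P) := Nat.card_le_card_of_injective _ hinj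
  have h3 : Ideal.absNorm Q ≤ Ideal.absNorm P := by
    rw [Ideal.absNorm_apply, Ideal.absNorm_apply]
    exact h3'
  have hQn : Ideal.absNorm Q ≠ 0 := by
    rw [Ne, Ideal.absNorm_eq_zero_iff]
    exact hQ
  have h4 : Ideal.absNorm J = 1 := by
    have h5 : Ideal.absNorm Q ^ Module.finrank K F ≤ Ideal.absNorm P ^ Module.finrank K F :=
      Nat.pow_le_pow_left h3 _
    have h6 : 0 < Ideal.absNorm Q ^ Module.finrank K F := Nat.pos_of_ne_zero (pow_ne_zero _ hQn)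
    have h7 : Ideal.absNorm J ≠ 0 := by
      intro h0
      rw [h0, mul_zero] at h2
      omega
    by_contra h8
    have h9 : 2 ≤ Ideal.absNorm J := by omega
    have : Ideal.absNorm P ^ Module.finrank K F * 2 ≤
        Ideal.absNorm P ^ Module.finrank K F * Ideal.absNorm J := Nat.mul_le_mul_left _ h9
    omega
  rw [Ideal.absNorm_eq_one_iff] at h4
  rw [hJ, h4, Ideal.mul_top]

/-- The same for the ramification index defined through localisations. -/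
theorem map_eq_pow_of_ramificationIdx_eq {Q : Ideal (𝓞 K)} (hQ : Q ≠ ⊥) {P : Ideal (𝓞 F)}
    [P.IsPrime] (hPQ : P.under (𝓞 K) = Q)
    (he : P.ramificationIdx (𝓞 K) = Module.finrank K F) :
    Q.map (algebraMap (𝓞 K) (𝓞 F)) = P ^ Module.finrank K F := by
  have : P.LiesOver Q := ⟨hPQ.symm⟩
  refine map_eq_pow_of_ramificationIdx'_eq hQ hPQ ?_
  rw [Ideal.ramificationIdx'_eq_ramificationIdx Q P hQ, he]

/-- Ramification index one means that the prime below does not lie in the square. -/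
theorem not_map_le_sq_of_ramificationIdx_eq_one {P : Ideal (𝓞 F)} [P.IsPrime]
    (hP : P.under (𝓞 K) ≠ ⊥) (he : P.ramificationIdx (𝓞 K) = 1) :
    ¬ (P.under (𝓞 K)).map (algebraMap (𝓞 K) (𝓞 F)) ≤ P ^ 2 := by
  have : P.LiesOver (P.under (𝓞 K)) := ⟨rfl⟩
  have h1 : (P.under (𝓞 K)).ramificationIdx' P = 1 := by
    rw [Ideal.ramificationIdx'_eq_ramificationIdx (P.under (𝓞 K)) P hP, he]
  intro h2
  have h3 : (P.under (𝓞 K)).map (algebraMap (𝓞 K) (𝓞 F)) ≤ P :=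
    Ideal.map_le_of_le_comap (le_of_eq (Ideal.under_def (𝓞 K) P))
  exact ((Ideal.ramificationIdx'_ne_one_iff h3).mpr h2) h1

/-- `exists_exponents` with the ramification hypotheses stated through `Ideal.ramificationIdx`. -/
theorem exists_exponents_of_ramificationIdx [IsGalois K F] (τ : Gal(F/K))
    (hτ : ∀ σ : Gal(F/K), σ ∈ Subgroup.zpowers τ)
    (S : Finset (Ideal (𝓞 K))) (hS : ∀ Q ∈ S, Q.IsPrime ∧ Q ≠ ⊥)
    (hram : ∀ Q ∈ S, ∀ P : Ideal (𝓞 F), P.IsPrime → P.under (𝓞 K) = Q →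
      P.ramificationIdx (𝓞 K) = Module.finrank K F)
    (hunr : ∀ P : Ideal (𝓞 F), P.IsPrime → P ≠ ⊥ → P.under (𝓞 K) ∉ S →
      P.ramificationIdx (𝓞 K) = 1)
    (lam : 𝓞 F)
    (hlam : ∀ Q ∈ S, ∀ P : Ideal (𝓞 F), P.IsPrime → P.under (𝓞 K) = Q → lam ∈ P ∧ lam ∉ P ^ 2)
    (g : 𝓞 K)
    (hg : ∀ Q ∈ S, ∀ P : Ideal (𝓞 F), P.IsPrime → P.under (𝓞 K) = Q →
      galRestrict (𝓞 K) K F (𝓞 F) τ lam - algebraMap (𝓞 K) (𝓞 F) g * lam ∈ P ^ 2)
    (β δ : 𝓞 F) (hβ : β ≠ 0) (hδ : IsUnit δ)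
    (hτβ : galRestrict (𝓞 K) K F (𝓞 F) τ β = δ * β) :
    ∃ (r : Ideal (𝓞 K) → ℕ) (c : Ideal (𝓞 K)), c ≠ ⊥ ∧
      (∀ Q ∈ S, ∀ P : Ideal (𝓞 F), P.IsPrime → P.under (𝓞 K) = Q →
        δ - algebraMap (𝓞 K) (𝓞 F) (g ^ r Q) ∈ P) ∧
      Ideal.span {Algebra.intNorm (𝓞 K) (𝓞 F) β} = c ^ Module.finrank K F * ∏ Q ∈ S, Q ^ r Q := by
  refine exists_exponents τ hτ S hS ?_ ?_ lam hlam g hg β δ hβ hδ hτβ
  · intro Q hQ P hP hPQ
    have := hP
    exact map_eq_pow_of_ramificationIdx_eq (hS Q hQ).2 hPQ (hram Q hQ P hP hPQ)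
  · intro P hP hP0 hPS
    have := hP
    have hP' : P.under (𝓞 K) ≠ ⊥ := by
      have : P.under (𝓞 K) ≠ ⊥ := by
        intro h
        have hmax : P.IsMaximal := Ideal.IsPrime.isMaximal hP hP0
        have : (P.under (𝓞 K)).IsMaximal := Ideal.isMaximal_comap_of_isIntegral_of_isMaximal P
        rw [h] at this
        exact Ring.ne_bot_of_isMaximal_of_not_isField this
          (NumberField.RingOfIntegers.not_isField K) rfl
      exact this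
    exact not_map_le_sq_of_ramificationIdx_eq_one hP' (hunr P hP hP0 hPS)

/-- The class group form: the classes of the primes in `S`, weighted by the exponents, give an
`[F : K]`-th power. -/
theorem exists_exponents_classGroup [IsGalois K F] (τ : Gal(F/K))
    (hτ : ∀ σ : Gal(F/K), σ ∈ Subgroup.zpowers τ)
    (S : Finset (Ideal (𝓞 K))⁰) (hS : ∀ Q ∈ S, (Q : Ideal (𝓞 K)).IsPrime)
    (hram : ∀ Q ∈ S, ∀ P : Ideal (𝓞 F), P.IsPrime → P.under (𝓞 K) = Q →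
      (Q : Ideal (𝓞 K)).map (algebraMap (𝓞 K) (𝓞 F)) = P ^ Module.finrank K F)
    (hunr : ∀ P : Ideal (𝓞 F), P.IsPrime → P ≠ ⊥ → (∀ Q ∈ S, P.under (𝓞 K) ≠ Q) →
      ¬ (P.under (𝓞 K)).map (algebraMap (𝓞 K) (𝓞 F)) ≤ P ^ 2)
    (lam : 𝓞 F)
    (hlam : ∀ Q ∈ S, ∀ P : Ideal (𝓞 F), P.IsPrime → P.under (𝓞 K) = Q → lam ∈ P ∧ lam ∉ P ^ 2)
    (g : 𝓞 K)
    (hg : ∀ Q ∈ S, ∀ P : Ideal (𝓞 F), P.IsPrime → P.under (𝓞 K) = Q →
      galRestrict (𝓞 K) K F (𝓞 F) τ lam - algebraMap (𝓞 K) (𝓞 F) g * lam ∈ P ^ 2)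
    (β δ : 𝓞 F) (hβ : β ≠ 0) (hδ : IsUnit δ)
    (hτβ : galRestrict (𝓞 K) K F (𝓞 F) τ β = δ * β) :
    ∃ (r : (Ideal (𝓞 K))⁰ → ℕ) (c : ClassGroup (𝓞 K)),
      (∀ Q ∈ S, ∀ P : Ideal (𝓞 F), P.IsPrime → P.under (𝓞 K) = Q →
        δ - algebraMap (𝓞 K) (𝓞 F) (g ^ r Q) ∈ P) ∧
      ∏ Q ∈ S, ClassGroup.mk0 Q ^ r Q = c ^ Module.finrank K F := by
  classical
  obtain ⟨r, c, hc0, hr, hc⟩ := exists_exponents τ hτ (S.image (fun Q : (Ideal (𝓞 K))⁰ => (Q : Ideal (𝓞 K))))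
    (by
      intro Q hQ
      obtain ⟨Q', hQ', rfl⟩ := Finset.mem_image.mp hQ
      exact ⟨hS Q' hQ', nonZeroDivisors.coe_ne_zero Q'⟩)
    (by
      intro Q hQ P hP hPQ
      obtain ⟨Q', hQ', rfl⟩ := Finset.mem_image.mp hQ
      exact hram Q' hQ' P hP hPQ)
    (by
      intro P hP hP0 hPS
      refine hunr P hP hP0 fun Q hQ h => hPS ?_
      rw [h]
      exact Finset.mem_image_of_mem _ hQ)
    lam
    (by
      intro Q hQ P hP hPQ
      obtain ⟨Q', hQ', rfl⟩ := Finset.mem_image.mp hQ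
      exact hlam Q' hQ' P hP hPQ)
    g
    (by
      intro Q hQ P hP hPQ
      obtain ⟨Q', hQ', rfl⟩ := Finset.mem_image.mp hQ
      exact hg Q' hQ' P hP hPQ)
    β δ hβ hδ hτβ
  have hN0 : Ideal.span {Algebra.intNorm (𝓞 K) (𝓞 F) β} ≠ 0 := by
    rw [hc]
    refine mul_ne_zero (pow_ne_zero _ hc0) ?_
    rw [Finset.prod_ne_zero_iff]
    intro Q hQ
    obtain ⟨Q', hQ', rfl⟩ := Finset.mem_image.mp hQ
    exact pow_ne_zero _ (nonZeroDivisors.coe_ne_zero Q')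
  refine ⟨fun Q => r (Q : Ideal (𝓞 K)),
    (ClassGroup.mk0 ⟨c, mem_nonZeroDivisors_iff_ne_zero.mpr hc0⟩)⁻¹,
    fun Q hQ P hP hPQ => hr _ (Finset.mem_image_of_mem _ hQ) P hP hPQ, ?_⟩
  have h1 : (⟨Ideal.span {Algebra.intNorm (𝓞 K) (𝓞 F) β},
      mem_nonZeroDivisors_iff_ne_zero.mpr hN0⟩ : (Ideal (𝓞 K))⁰) =
      ⟨c, mem_nonZeroDivisors_iff_ne_zero.mpr hc0⟩ ^ Module.finrank K F *
        ∏ Q ∈ S, Q ^ r (Q : Ideal (𝓞 K)) := by
    apply Subtype.ext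
    rw [Submonoid.coe_mul, SubmonoidClass.coe_pow, Submonoid.coe_finsetProd]
    simp only [SubmonoidClass.coe_pow]
    rw [hc, Finset.prod_image (fun x _ y _ h => Subtype.ext h)]
  have h2 : ClassGroup.mk0 (⟨Ideal.span {Algebra.intNorm (𝓞 K) (𝓞 F) β},
      mem_nonZeroDivisors_iff_ne_zero.mpr hN0⟩ : (Ideal (𝓞 K))⁰) = 1 := by
    rw [ClassGroup.mk0_eq_one_iff]
    exact ⟨⟨_, rfl⟩⟩
  rw [h1, map_mul, map_pow, map_prod] at h2
  simp only [map_pow] at h2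
  rw [inv_pow, eq_inv_iff_mul_eq_one, mul_comm]
  exact h2

end NumberField


section ClassGroupForm

variable {R : Type*} [CommRing R] [IsDedekindDomain R]

/-- From an ideal identity `(x) = c ^ n * ∏_{Q ∈ S} Q ^ r(Q)` to the class group. -/
theorem prod_mk0_pow_eq {x : R} (hx : x ≠ 0) (S : Finset (Ideal R)) (r : Ideal R → ℕ)
    {c : Ideal R} (hc0 : c ≠ ⊥) (n : ℕ)
    (h : Ideal.span {x} = c ^ n * ∏ Q ∈ S, Q ^ r Q) (h0 : ∀ Q ∈ S, Q ∈ (Ideal R)⁰) :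
    ∏ Q ∈ S.attach, ClassGroup.mk0 ⟨Q.1, h0 Q.1 Q.2⟩ ^ r Q.1 =
      (ClassGroup.mk0 ⟨c, mem_nonZeroDivisors_iff_ne_zero.mpr hc0⟩)⁻¹ ^ n := by
  classical
  have hN0 : Ideal.span {x} ≠ 0 := by
    rw [Ne, Ideal.zero_eq_bot, Ideal.span_singleton_eq_bot]
    exact hx
  have h1 : (⟨Ideal.span {x}, mem_nonZeroDivisors_iff_ne_zero.mpr hN0⟩ : (Ideal R)⁰) =
      ⟨c, mem_nonZeroDivisors_iff_ne_zero.mpr hc0⟩ ^ n *
        ∏ Q ∈ S.attach, (⟨Q.1, h0 Q.1 Q.2⟩ : (Ideal R)⁰) ^ r Q.1 := by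
    apply Subtype.ext
    rw [Submonoid.coe_mul, SubmonoidClass.coe_pow, Submonoid.coe_finsetProd]
    simp only [SubmonoidClass.coe_pow]
    rw [h, Finset.prod_attach S (fun Q => Q ^ r Q)]
  have h2 : ClassGroup.mk0 (⟨Ideal.span {x}, mem_nonZeroDivisors_iff_ne_zero.mpr hN0⟩ :
      (Ideal R)⁰) = 1 := by
    rw [ClassGroup.mk0_eq_one_iff]
    exact ⟨⟨_, rfl⟩⟩
  rw [h1, map_mul, map_pow, map_prod] at h2
  simp only [map_pow] at h2
  rw [inv_pow, eq_inv_iff_mul_eq_one, mul_comm]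
  exact h2

end ClassGroupForm

section NumberField

variable {K F : Type*} [Field K] [NumberField K] [Field F] [NumberField F] [Algebra K F]

/-- A totally ramified prime is the only prime above the prime below it. -/
theorem eq_of_map_eq_pow {Q : Ideal (𝓞 K)} (hQ : Q ≠ ⊥) {P₀ P : Ideal (𝓞 F)} [P₀.IsPrime]
    [P.IsPrime] (h : Q.map (algebraMap (𝓞 K) (𝓞 F)) = P₀ ^ Module.finrank K F)
    (hPQ : P.under (𝓞 K) = Q) : P = P₀ := by
  have hP₀0 : P₀ ≠ ⊥ := by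
    rintro rfl
    rw [Ideal.bot_pow finrank_ne_zero', Ideal.map_eq_bot_iff_of_injective
      (FaithfulSMul.algebraMap_injective (𝓞 K) (𝓞 F))] at h
    exact hQ h
  have h1 : P₀ ^ Module.finrank K F ≤ P := by
    rw [← h]
    exact Ideal.map_le_of_le_comap (by rw [← hPQ, Ideal.under_def])
  have h2 : P₀ ≤ P := Ideal.IsPrime.le_of_pow_le h1
  have hmax : P₀.IsMaximal := Ideal.IsPrime.isMaximal inferInstance hP₀0
  exact (hmax.eq_of_le (Ideal.IsPrime.ne_top inferInstance) h2).symm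

/-- A totally ramified prime lies over the prime it comes from. -/
theorem under_eq_of_map_eq_pow {Q : Ideal (𝓞 K)} [Q.IsPrime] (hQ : Q ≠ ⊥) {P₀ : Ideal (𝓞 F)}
    [P₀.IsPrime] (h : Q.map (algebraMap (𝓞 K) (𝓞 F)) = P₀ ^ Module.finrank K F) :
    P₀.under (𝓞 K) = Q := by
  have hmax : Q.IsMaximal := Ideal.IsPrime.isMaximal inferInstance hQ
  have h1 : Q ≤ P₀.under (𝓞 K) := by
    rw [Ideal.under_def, ← Ideal.map_le_iff_le_comap, h]
    exact Ideal.pow_le_self finrank_ne_zero'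
  have h2 : P₀.under (𝓞 K) ≠ ⊤ := by
    rw [Ideal.under_def]
    exact Ideal.comap_ne_top _ (Ideal.IsPrime.ne_top inferInstance)
  exact (hmax.eq_of_le h2 h1).symm

/-- `exists_exponents` with a chosen prime `𝔔 Q` above every `Q ∈ S`. -/
theorem exists_exponents_fun [IsGalois K F] (τ : Gal(F/K))
    (hτ : ∀ σ : Gal(F/K), σ ∈ Subgroup.zpowers τ)
    (S : Finset (Ideal (𝓞 K))) (hS : ∀ Q ∈ S, Q.IsPrime ∧ Q ≠ ⊥)
    (𝔔 : Ideal (𝓞 K) → Ideal (𝓞 F)) (h𝔔 : ∀ Q ∈ S, (𝔔 Q).IsPrime)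
    (hram : ∀ Q ∈ S, Q.map (algebraMap (𝓞 K) (𝓞 F)) = 𝔔 Q ^ Module.finrank K F)
    (hunr : ∀ P : Ideal (𝓞 F), P.IsPrime → P ≠ ⊥ → P.under (𝓞 K) ∉ S →
      ¬ (P.under (𝓞 K)).map (algebraMap (𝓞 K) (𝓞 F)) ≤ P ^ 2)
    (lam : 𝓞 F) (hlam : ∀ Q ∈ S, lam ∈ 𝔔 Q ∧ lam ∉ 𝔔 Q ^ 2)
    (g : 𝓞 K)
    (hg : ∀ Q ∈ S,
      galRestrict (𝓞 K) K F (𝓞 F) τ lam - algebraMap (𝓞 K) (𝓞 F) g * lam ∈ 𝔔 Q ^ 2)
    (β δ : 𝓞 F) (hβ : β ≠ 0) (hδ : IsUnit δ)
    (hτβ : galRestrict (𝓞 K) K F (𝓞 F) τ β = δ * β) :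
    ∃ (r : Ideal (𝓞 K) → ℕ) (c : Ideal (𝓞 K)), c ≠ ⊥ ∧
      (∀ Q ∈ S, δ - algebraMap (𝓞 K) (𝓞 F) (g ^ r Q) ∈ 𝔔 Q) ∧
      Ideal.span {Algebra.intNorm (𝓞 K) (𝓞 F) β} = c ^ Module.finrank K F * ∏ Q ∈ S, Q ^ r Q := by
  have huniq : ∀ Q ∈ S, ∀ P : Ideal (𝓞 F), P.IsPrime → P.under (𝓞 K) = Q → P = 𝔔 Q := by
    intro Q hQ P hP hPQ
    have := hP
    have := h𝔔 Q hQ
    exact eq_of_map_eq_pow (hS Q hQ).2 (hram Q hQ) hPQ
  obtain ⟨r, c, hc0, hr, hc⟩ := exists_exponents τ hτ S hS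
    (fun Q hQ P hP hPQ => by rw [huniq Q hQ P hP hPQ]; exact hram Q hQ)
    hunr lam
    (fun Q hQ P hP hPQ => by rw [huniq Q hQ P hP hPQ]; exact hlam Q hQ)
    g
    (fun Q hQ P hP hPQ => by rw [huniq Q hQ P hP hPQ]; exact hg Q hQ)
    β δ hβ hδ hτβ
  refine ⟨r, c, hc0, fun Q hQ => ?_, hc⟩
  have := (hS Q hQ).1
  have := h𝔔 Q hQ
  exact hr Q hQ (𝔔 Q) (h𝔔 Q hQ) (under_eq_of_map_eq_pow (hS Q hQ).2 (hram Q hQ))

/-- `exists_exponents_fun` with the relation read in the class group. -/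
theorem exists_exponents_fun_classGroup [IsGalois K F] (τ : Gal(F/K))
    (hτ : ∀ σ : Gal(F/K), σ ∈ Subgroup.zpowers τ)
    (S : Finset (Ideal (𝓞 K))) (hS : ∀ Q ∈ S, Q.IsPrime ∧ Q ≠ ⊥)
    (𝔔 : Ideal (𝓞 K) → Ideal (𝓞 F)) (h𝔔 : ∀ Q ∈ S, (𝔔 Q).IsPrime)
    (hram : ∀ Q ∈ S, Q.map (algebraMap (𝓞 K) (𝓞 F)) = 𝔔 Q ^ Module.finrank K F)
    (hunr : ∀ P : Ideal (𝓞 F), P.IsPrime → P ≠ ⊥ → P.under (𝓞 K) ∉ S →
      ¬ (P.under (𝓞 K)).map (algebraMap (𝓞 K) (𝓞 F)) ≤ P ^ 2)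
    (lam : 𝓞 F) (hlam : ∀ Q ∈ S, lam ∈ 𝔔 Q ∧ lam ∉ 𝔔 Q ^ 2)
    (g : 𝓞 K)
    (hg : ∀ Q ∈ S,
      galRestrict (𝓞 K) K F (𝓞 F) τ lam - algebraMap (𝓞 K) (𝓞 F) g * lam ∈ 𝔔 Q ^ 2)
    (β δ : 𝓞 F) (hβ : β ≠ 0) (hδ : IsUnit δ)
    (hτβ : galRestrict (𝓞 K) K F (𝓞 F) τ β = δ * β) :
    ∃ (r : Ideal (𝓞 K) → ℕ) (c : ClassGroup (𝓞 K)),
      (∀ Q ∈ S, δ - algebraMap (𝓞 K) (𝓞 F) (g ^ r Q) ∈ 𝔔 Q) ∧
      ∀ h0 : ∀ Q ∈ S, Q ∈ (Ideal (𝓞 K))⁰,
        ∏ Q ∈ S.attach, ClassGroup.mk0 ⟨Q.1, h0 Q.1 Q.2⟩ ^ r Q.1 = c ^ Module.finrank K F := by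
  obtain ⟨r, c, hc0, hr, hc⟩ := exists_exponents_fun τ hτ S hS 𝔔 h𝔔 hram hunr lam hlam g hg
    β δ hβ hδ hτβ
  have hN0 : Algebra.intNorm (𝓞 K) (𝓞 F) β ≠ 0 := by
    intro h0
    rw [h0, Ideal.span_singleton_eq_bot.mpr rfl] at hc
    have h1 : c ^ Module.finrank K F * ∏ Q ∈ S, Q ^ r Q ≠ 0 := by
      refine mul_ne_zero (pow_ne_zero _ hc0) ?_
      rw [Finset.prod_ne_zero_iff]
      intro Q hQ
      exact pow_ne_zero _ (hS Q hQ).2
    exact h1 hc.symm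
  exact ⟨r, (ClassGroup.mk0 ⟨c, mem_nonZeroDivisors_iff_ne_zero.mpr hc0⟩)⁻¹, hr,
    fun h0 => prod_mk0_pow_eq hN0 S r hc0 _ hc h0⟩

end NumberField

end Fermat.Agent.Lib.InvariantIdeal
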