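import Mathlib

/-!
# Level one analysis of the `j`-invariant

`jInv τ = E₄ τ ^ 3 / Δ τ` on the upper half plane: invariance, holomorphy, the values at the
elliptic points, surjectivity, Ramanujan's identities for `E₄`, `E₆`, `Δ`, the derivative
`D j = -E₄² E₆ / Δ`, the local orders of `j`, the pole at the cusp, and the fact that an invariant
holomorphic function with a pole of finite order at the cusp is a polynomial in `j`.
-/

set_option autoImplicit false

open UpperHalfPlane hiding I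
open Complex Filter Topology
open scoped MatrixGroups ModularForm Manifold
open ModularForm Derivative

namespace Fermat.Agent.Lib.JLevelOne

local notation "Δ" => ModularForm.discriminant

/-- Transformation law of a level one form under `SL(2, ℤ)`. -/
theorem levelOne_smul {k : ℤ} {F : Type*} [FunLike F ℍ ℂ] [SlashInvariantFormClass F 𝒮ℒ k]
    (f : F) (γ : SL(2, ℤ)) (τ : ℍ) : f (γ • τ) = denom γ τ ^ k * f τ :=
  SlashInvariantForm.slash_action_eqn'' f (⟨γ, rfl⟩ : (γ : GL (Fin 2) ℝ) ∈ 𝒮ℒ) τ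

theorem discriminant_smul (γ : SL(2, ℤ)) (τ : ℍ) : Δ (γ • τ) = denom γ τ ^ (12 : ℤ) * Δ τ := by
  have h := levelOne_smul CuspForm.discriminant γ τ
  exact h

/-- The analytic `j`-invariant `E₄³ / Δ`. -/
noncomputable def jInv (τ : ℍ) : ℂ := E₄ τ ^ 3 / Δ τ

theorem jInv_smul (γ : SL(2, ℤ)) (τ : ℍ) : jInv (γ • τ) = jInv τ := by
  unfold jInv
  rw [levelOne_smul E₄ γ τ, discriminant_smul γ τ]
  have hd : denom γ τ ≠ 0 := denom_ne_zero γ τ
  have hΔ := discriminant_ne_zero τ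
  have h1 : (denom γ τ ^ (4 : ℤ)) ^ 3 = denom γ τ ^ (12 : ℤ) := by
    rw [← zpow_natCast, ← zpow_mul]; norm_num
  rw [mul_pow, h1]
  field_simp

theorem jInv_mul_discriminant (τ : ℍ) : jInv τ * Δ τ = E₄ τ ^ 3 := by
  unfold jInv
  field_simp [discriminant_ne_zero τ]

theorem jInv_sub (τ : ℍ) : jInv τ - 1728 = E₆ τ ^ 2 / Δ τ := by
  unfold jInv
  have hΔ := discriminant_ne_zero τ
  have h := discriminant_eq_E₄_cube_sub_E₆_sq τ
  field_simp
  rw [h]
  field_simp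
  ring

theorem mdiff_discriminant : MDiff Δ := CuspForm.discriminant.holo'

theorem mdiff_jInv : MDiff jInv := by
  have h1 : MDiff (fun τ => E₄ τ ^ 3) := (E₄.holo').pow 3
  exact h1.div mdiff_discriminant discriminant_ne_zero

/-! ### Vanishing at elliptic points -/

/-- A level one form vanishes at a fixed point of `γ` unless the automorphy factor is `1`. -/
theorem eq_zero_of_fixed {k : ℤ} {F : Type*} [FunLike F ℍ ℂ] [SlashInvariantFormClass F 𝒮ℒ k]
    (f : F) (γ : SL(2, ℤ)) (τ₀ : ℍ) (hfix : γ • τ₀ = τ₀) (hne : denom γ τ₀ ^ k ≠ 1) :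
    f τ₀ = 0 := by
  have h := levelOne_smul f γ τ₀
  rw [hfix] at h
  have h2 : (1 - denom γ τ₀ ^ k) * f τ₀ = 0 := by linear_combination h
  rcases mul_eq_zero.mp h2 with h3 | h3
  · exact absurd (sub_eq_zero.mp h3).symm hne
  · exact h3

theorem S_smul_I : ModularGroup.S • UpperHalfPlane.I = UpperHalfPlane.I := by
  rw [modular_S_smul]
  ext
  simp [UpperHalfPlane.I]

theorem E₆_I : E₆ UpperHalfPlane.I = 0 := by
  refine eq_zero_of_fixed E₆ ModularGroup.S UpperHalfPlane.I S_smul_I ?_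
  rw [ModularGroup.denom_S]
  have h : ((UpperHalfPlane.I : ℍ) : ℂ) = Complex.I := rfl
  rw [h]
  have h6 : (Complex.I : ℂ) ^ (6 : ℤ) = -1 := by
    rw [show (6 : ℤ) = ((6 : ℕ) : ℤ) by norm_num, zpow_natCast,
      show (6 : ℕ) = 2 * 3 by norm_num, pow_mul, Complex.I_sq]
    norm_num
  rw [h6]
  norm_num

/-- The elliptic point `ρ = (-1 + √3 i) / 2` of order three. -/
noncomputable def rho : ℍ := ⟨⟨-1 / 2, Real.sqrt 3 / 2⟩, by simp⟩

theorem coe_rho : (rho : ℂ) = ⟨-1 / 2, Real.sqrt 3 / 2⟩ := rfl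

theorem rho_sq : (rho : ℂ) ^ 2 + (rho : ℂ) + 1 = 0 := by
  have h3 : Real.sqrt 3 * Real.sqrt 3 = 3 := Real.mul_self_sqrt (by norm_num)
  rw [coe_rho]
  apply Complex.ext
  · simp [pow_two]
    nlinarith
  · simp [pow_two]
    ring

theorem ST_smul_rho : (ModularGroup.S * ModularGroup.T) • rho = rho := by
  have hne : (rho : ℂ) + 1 ≠ 0 := by
    intro h
    have h2 := congrArg Complex.im h
    rw [coe_rho] at h2
    simp at h2
  ext1
  rw [coe_specialLinearGroup_apply]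
  simp [ModularGroup.S, ModularGroup.T]
  rw [div_eq_iff hne]
  linear_combination -rho_sq

theorem denom_ST_rho :
    denom ((ModularGroup.S * ModularGroup.T : SL(2, ℤ)) : GL (Fin 2) ℝ) rho = (rho : ℂ) + 1 := by
  simp [denom, ModularGroup.S, ModularGroup.T, Matrix.mul_apply, Fin.sum_univ_two]

theorem E₄_rho : E₄ rho = 0 := by
  refine eq_zero_of_fixed E₄ (ModularGroup.S * ModularGroup.T) rho ST_smul_rho ?_
  rw [denom_ST_rho]
  have h1 : ((rho : ℂ) + 1) ^ 2 = (rho : ℂ) := by linear_combination rho_sq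
  have h4 : ((rho : ℂ) + 1) ^ (4 : ℤ) = -(rho : ℂ) - 1 := by
    rw [show (4 : ℤ) = ((4 : ℕ) : ℤ) by norm_num, zpow_natCast,
      show (4 : ℕ) = 2 * 2 by norm_num, pow_mul, h1]
    linear_combination rho_sq
  rw [h4]
  intro h
  have h2 := congrArg Complex.im h
  rw [coe_rho] at h2
  simp at h2

theorem jInv_rho : jInv rho = 0 := by
  unfold jInv
  rw [E₄_rho]
  simp

theorem jInv_I : jInv UpperHalfPlane.I = 1728 := by
  have h := jInv_sub UpperHalfPlane.I
  rw [E₆_I] at h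
  simp at h
  linear_combination h

/-! ### Level one forms from functions; limits at `i∞` -/

/-- A level one modular form from a holomorphic, slash-invariant function bounded at `i∞`. -/
noncomputable def mkLevelOne (k : ℤ) (g : ℍ → ℂ) (hg : MDiff g)
    (hinv : ∀ γ : SL(2, ℤ), g ∣[k] γ = g) (hb : IsBoundedAtImInfty g) : ModularForm 𝒮ℒ k where
  toFun := g
  slash_action_eq' A hA := by
    obtain ⟨γ, rfl⟩ := hA
    exact hinv γ
  holo' := hg
  bdd_at_cusps' hc := by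
    rw [Subgroup.IsArithmetic.isCusp_iff_isCusp_SL2Z] at hc
    rw [OnePoint.isBoundedAt_iff_forall_SL2Z hc]
    intro γ _
    rw [hinv γ]
    exact hb

@[simp] theorem mkLevelOne_apply (k : ℤ) (g : ℍ → ℂ) (hg : MDiff g)
    (hinv : ∀ γ : SL(2, ℤ), g ∣[k] γ = g) (hb : IsBoundedAtImInfty g) (τ : ℍ) :
    mkLevelOne k g hg hinv hb τ = g τ := rfl

theorem coe_mkLevelOne (k : ℤ) (g : ℍ → ℂ) (hg : MDiff g)
    (hinv : ∀ γ : SL(2, ℤ), g ∣[k] γ = g) (hb : IsBoundedAtImInfty g) :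
    ⇑(mkLevelOne k g hg hinv hb) = g := rfl

/-- A level one form tends to its constant `q`-coefficient at `i∞`. -/
theorem tendsto_levelOne {k : ℤ} (F : ModularForm 𝒮ℒ k) :
    Tendsto F atImInfty (𝓝 ((qExpansion 1 F).coeff 0)) := by
  have hanal := ModularFormClass.analyticAt_cuspFunction_zero F one_pos one_mem_strictPeriods_SL
  have h1 : Tendsto F atImInfty (𝓝 (cuspFunction 1 F 0)) :=
    (hanal.continuousAt.tendsto.comp (qParam_tendsto_atImInfty one_pos)).congr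
      (fun τ => SlashInvariantFormClass.eq_cuspFunction F τ one_mem_strictPeriods_SL one_ne_zero)
  have h2 : (qExpansion 1 F).coeff 0 = cuspFunction 1 F 0 := by
    simp [qExpansion_coeff]
  rw [h2]
  exact h1

theorem tendsto_E₄ : Tendsto E₄ atImInfty (𝓝 1) := by
  have h := tendsto_levelOne E₄
  rwa [EisensteinSeries.E_qExpansion_coeff_zero _ ⟨2, rfl⟩] at h

theorem tendsto_E₆ : Tendsto E₆ atImInfty (𝓝 1) := by
  have h := tendsto_levelOne E₆
  rwa [EisensteinSeries.E_qExpansion_coeff_zero _ ⟨3, rfl⟩] at h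

theorem tendsto_discriminant : Tendsto Δ atImInfty (𝓝 0) := discriminant_isZeroAtImInfty

theorem isBoundedAtImInfty_of_tendsto {f : ℍ → ℂ} {L : ℂ} (h : Tendsto f atImInfty (𝓝 L)) :
    IsBoundedAtImInfty f :=
  h.isBigO_one ℝ

/-- Slash invariance in terms of the transformation law. -/
theorem slash_eq_of_smul {k : ℤ} {g : ℍ → ℂ}
    (h : ∀ (γ : SL(2, ℤ)) (τ : ℍ), g (γ • τ) = denom γ τ ^ k * g τ) (γ : SL(2, ℤ)) :
    g ∣[k] γ = g := by
  funext τ
  rw [SL_slash_apply, h γ τ, zpow_neg]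
  have hd : denom γ τ ^ k ≠ 0 := zpow_ne_zero _ (denom_ne_zero γ τ)
  field_simp

/-! ### Surjectivity of `j` -/

theorem jInv_ne_const (c : ℂ) : ¬ ∀ τ, jInv τ = c := by
  intro h
  have h1 := h rho
  have h2 := h UpperHalfPlane.I
  rw [jInv_rho] at h1
  rw [jInv_I] at h2
  rw [← h1] at h2
  norm_num at h2

/-- `Δ / E₄³ → 0` at `i∞`, i.e. `j` has a pole at the cusp. -/
theorem tendsto_inv_jInv : Tendsto (fun τ : ℍ => Δ τ / E₄ τ ^ 3) atImInfty (𝓝 0) := by
  have h : Tendsto (fun τ : ℍ => Δ τ / E₄ τ ^ 3) atImInfty (𝓝 (0 / 1 ^ 3)) :=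
    tendsto_discriminant.div (tendsto_E₄.pow 3) (by norm_num)
  simpa using h

theorem eventually_E₄_ne_zero : ∀ᶠ τ in atImInfty, E₄ τ ≠ 0 :=
  tendsto_E₄.eventually_ne one_ne_zero

/-- The `j`-invariant is surjective. -/
theorem jInv_surjective : Function.Surjective jInv := by
  intro a
  by_contra hne0
  have hne : ∀ τ, jInv τ ≠ a := fun τ h => hne0 ⟨τ, h⟩
  have hne' : ∀ τ, jInv τ - a ≠ 0 := fun τ => sub_ne_zero.mpr (hne τ)
  set f : ℍ → ℂ := fun τ => (jInv τ - a)⁻¹ with hf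
  have hmd : MDiff f := by
    have h1 : MDiff (fun τ => jInv τ - a) := mdiff_jInv.sub mdifferentiable_const
    exact h1.inv hne'
  have hinv : ∀ γ : SL(2, ℤ), f ∣[(0 : ℤ)] γ = f := by
    refine slash_eq_of_smul (fun γ τ => ?_)
    simp only [hf, jInv_smul, zpow_zero, one_mul]
  have htend : Tendsto f atImInfty (𝓝 0) := by
    have h1 : Tendsto (fun τ : ℍ => (Δ τ / E₄ τ ^ 3) / (1 - a * (Δ τ / E₄ τ ^ 3))) atImInfty
        (𝓝 (0 / (1 - a * 0))) :=
      tendsto_inv_jInv.div (tendsto_const_nhds.sub (tendsto_const_nhds.mul tendsto_inv_jInv))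
        (by norm_num)
    rw [zero_div] at h1
    refine h1.congr' ?_
    filter_upwards [eventually_E₄_ne_zero] with τ hτ
    have hΔ := discriminant_ne_zero τ
    have h2 := hne' τ
    simp only [hf]
    unfold jInv at h2 ⊢
    have h3 : E₄ τ ^ 3 - a * Δ τ ≠ 0 := by
      intro h4
      apply h2
      field_simp
      linear_combination h4
    field_simp
  let F := mkLevelOne 0 f hmd hinv (isBoundedAtImInfty_of_tendsto htend)
  obtain ⟨c, hc⟩ := ModularFormClass.levelOne_weight_zero_const F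
  have hc' : ∀ τ, f τ = c := fun τ => congrFun hc τ
  apply jInv_ne_const (c⁻¹ + a)
  intro τ
  have h1 := hc' τ
  simp only [hf] at h1
  rw [← h1, inv_inv]
  ring

/-! ### Invariant functions with a pole of finite order at the cusp are polynomials in `j` -/

theorem discriminant_pow_smul (m : ℕ) (γ : SL(2, ℤ)) (τ : ℍ) :
    Δ (γ • τ) ^ m = denom γ τ ^ ((12 : ℤ) * (m : ℤ)) * Δ τ ^ m := by
  rw [discriminant_smul, mul_pow, ← zpow_natCast (denom γ τ ^ (12 : ℤ)) m, ← zpow_mul]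

theorem E₄_pow_smul (m : ℕ) (γ : SL(2, ℤ)) (τ : ℍ) :
    E₄ (γ • τ) ^ (3 * m) = denom γ τ ^ ((12 : ℤ) * (m : ℤ)) * E₄ τ ^ (3 * m) := by
  have h4 : E₄ (γ • τ) = denom γ τ ^ (4 : ℤ) * E₄ τ := levelOne_smul E₄ γ τ
  rw [h4, mul_pow, ← zpow_natCast (denom γ τ ^ (4 : ℤ)) (3 * m), ← zpow_mul]
  congr 2
  push_cast
  ring

/-- A holomorphic `SL(2, ℤ)`-invariant function `f` on `ℍ` such that `f * Δ ^ m` is bounded at
`i∞` is a polynomial of degree at most `m` in `j`. -/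
theorem exists_polynomial_of_invariant (m : ℕ) : ∀ (f : ℍ → ℂ), MDiff f →
    (∀ (γ : SL(2, ℤ)) (τ : ℍ), f (γ • τ) = f τ) →
    IsBoundedAtImInfty (fun τ => f τ * Δ τ ^ m) →
    ∃ P : Polynomial ℂ, P.natDegree ≤ m ∧ ∀ τ, f τ = P.eval (jInv τ) := by
  induction m with
  | zero =>
    intro f hf hinv hb
    have hb' : IsBoundedAtImInfty f := by simpa using hb
    let F := mkLevelOne 0 f hf
      (slash_eq_of_smul (fun γ τ => by rw [hinv γ τ, zpow_zero, one_mul])) hb'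
    obtain ⟨c, hc⟩ := ModularFormClass.levelOne_weight_zero_const F
    refine ⟨Polynomial.C c, by simp, fun τ => ?_⟩
    have h1 := congrFun hc τ
    simpa [F] using h1
  | succ m ih =>
    intro f hf hinv hb
    have hA_md : MDiff (fun τ => f τ * Δ τ ^ (m + 1)) :=
      hf.mul (mdiff_discriminant.pow (m + 1))
    have hA_inv : ∀ γ : SL(2, ℤ),
        (fun τ => f τ * Δ τ ^ (m + 1)) ∣[(12 : ℤ) * ((m + 1 : ℕ) : ℤ)] γ
          = fun τ => f τ * Δ τ ^ (m + 1) :=
      slash_eq_of_smul (fun γ τ => by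
        rw [hinv γ τ, discriminant_pow_smul]; ring)
    let A := mkLevelOne ((12 : ℤ) * ((m + 1 : ℕ) : ℤ)) _ hA_md hA_inv hb
    have hB_md : MDiff (fun τ => E₄ τ ^ (3 * (m + 1))) := E₄.holo'.pow _
    have hB_inv : ∀ γ : SL(2, ℤ),
        (fun τ => E₄ τ ^ (3 * (m + 1))) ∣[(12 : ℤ) * ((m + 1 : ℕ) : ℤ)] γ
          = fun τ => E₄ τ ^ (3 * (m + 1)) :=
      slash_eq_of_smul (fun γ τ => E₄_pow_smul (m + 1) γ τ)
    have hB_t : Tendsto (fun τ => E₄ τ ^ (3 * (m + 1))) atImInfty (𝓝 1) := by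
      simpa using tendsto_E₄.pow (3 * (m + 1))
    let B := mkLevelOne ((12 : ℤ) * ((m + 1 : ℕ) : ℤ)) _ hB_md hB_inv
      (isBoundedAtImInfty_of_tendsto hB_t)
    have hB0 : (qExpansion 1 B).coeff 0 = 1 := tendsto_nhds_unique (tendsto_levelOne B) hB_t
    obtain ⟨S, hS⟩ := sub_smul_isCuspForm A B hB0
    set c := (qExpansion 1 A).coeff 0 with hc
    have hSapp : ∀ τ, S τ = f τ * Δ τ ^ (m + 1) - c * E₄ τ ^ (3 * (m + 1)) := by
      intro τ
      have h1 := DFunLike.congr_fun hS τ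
      simpa [A, B] using h1
    have hdiv : ∀ τ, (CuspForm.discriminantEquiv S) τ =
        (f τ - c * jInv τ ^ (m + 1)) * Δ τ ^ m := by
      intro τ
      have hΔ := discriminant_ne_zero τ
      rw [CuspForm.discriminantEquiv_apply, hSapp τ]
      unfold jInv
      rw [div_pow, ← pow_mul]
      field_simp
      ring
    obtain ⟨P₁, hP₁, hP₁e⟩ := ih (fun τ => f τ - c * jInv τ ^ (m + 1))
      (hf.sub (mdifferentiable_const.mul (mdiff_jInv.pow (m + 1))))
      (fun γ τ => by simp only [hinv γ τ, jInv_smul])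
      (by
        have hb2 := ModularFormClass.bdd_at_infty (CuspForm.discriminantEquiv S)
        have heq : (fun τ => (f τ - c * jInv τ ^ (m + 1)) * Δ τ ^ m)
            = ⇑(CuspForm.discriminantEquiv S) := by
          funext τ; exact (hdiv τ).symm
        rw [heq]
        exact hb2)
    refine ⟨P₁ + Polynomial.C c * Polynomial.X ^ (m + 1), ?_, fun τ => ?_⟩
    · refine (Polynomial.natDegree_add_le _ _).trans (max_le (hP₁.trans (Nat.le_succ m)) ?_)
      exact (Polynomial.natDegree_C_mul_le _ _).trans (Polynomial.natDegree_X_pow_le _)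
    · have h1 := hP₁e τ
      simp only [Polynomial.eval_add, Polynomial.eval_mul, Polynomial.eval_C, Polynomial.eval_pow,
        Polynomial.eval_X, ← h1]
      ring

/-! ### Limits at `i∞` of periodic functions and of their derivatives -/

local notation "𝕢" => Function.Periodic.qParam

theorem hasDerivAt_qParam_one (z : ℂ) :
    HasDerivAt (𝕢 1) (𝕢 1 z * (2 * Real.pi * Complex.I)) z := by
  have h1 : HasDerivAt (fun z : ℂ => 2 * Real.pi * Complex.I * z / ((1 : ℝ) : ℂ))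
      (2 * Real.pi * Complex.I) z := by
    simpa using ((hasDerivAt_id z).const_mul (2 * Real.pi * Complex.I)).div_const ((1 : ℝ) : ℂ)
  exact h1.cexp

/-- A `1`-periodic holomorphic function bounded at `i∞` tends to the value of its cusp function
at `0`. -/
theorem tendsto_of_periodic {g : ℍ → ℂ} (hper : Function.Periodic (g ∘ ofComplex) 1)
    (hmd : MDiff g) (hb : IsBoundedAtImInfty g) :
    Tendsto g atImInfty (𝓝 (cuspFunction 1 g 0)) := by
  have hanal := analyticAt_cuspFunction_zero one_pos hper hmd hb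
  exact (hanal.continuousAt.tendsto.comp (qParam_tendsto_atImInfty one_pos)).congr
    (fun τ => eq_cuspFunction τ one_ne_zero hper)

/-- The normalized derivative in terms of the cusp function. -/
theorem D_eq_of_periodic {g : ℍ → ℂ} (hper : Function.Periodic (g ∘ ofComplex) 1)
    (hmd : MDiff g) (hb : IsBoundedAtImInfty g) (τ : ℍ) :
    D g τ = 𝕢 1 τ * deriv (cuspFunction 1 g) (𝕢 1 τ) := by
  have hq : ‖𝕢 1 (τ : ℂ)‖ < 1 := Function.Periodic.norm_qParam_lt_one one_pos τ.im_pos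
  have hc : DifferentiableAt ℂ (cuspFunction 1 g) (𝕢 1 (τ : ℂ)) :=
    differentiableAt_cuspFunction one_pos hper hmd hb hq
  have h1 : HasDerivAt (cuspFunction 1 g ∘ 𝕢 1)
      (deriv (cuspFunction 1 g) (𝕢 1 τ) * (𝕢 1 τ * (2 * Real.pi * Complex.I))) τ :=
    hc.hasDerivAt.comp (τ : ℂ) (hasDerivAt_qParam_one τ)
  have h2 : g ∘ ofComplex =ᶠ[𝓝 (τ : ℂ)] cuspFunction 1 g ∘ 𝕢 1 := by
    filter_upwards [isOpen_upperHalfPlaneSet.mem_nhds τ.im_pos] with w hw
    have h3 := eq_cuspFunction (f := g) ⟨w, hw⟩ one_ne_zero hper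
    simp only [Function.comp_apply, ofComplex_apply_of_im_pos hw]
    exact h3.symm
  have h4 := (h1.congr_of_eventuallyEq h2).deriv
  unfold normalizedDerivOfComplex
  rw [h4]
  have hpi : (2 * Real.pi * Complex.I : ℂ) ≠ 0 := Complex.two_pi_I_ne_zero
  field_simp

/-- The normalized derivative of a `1`-periodic holomorphic function bounded at `i∞` tends to
`0` at `i∞`. -/
theorem tendsto_D_of_periodic {g : ℍ → ℂ} (hper : Function.Periodic (g ∘ ofComplex) 1)
    (hmd : MDiff g) (hb : IsBoundedAtImInfty g) : Tendsto (D g) atImInfty (𝓝 0) := by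
  have hanal := analyticAt_cuspFunction_zero one_pos hper hmd hb
  have hd : ContinuousAt (deriv (cuspFunction 1 g)) 0 := hanal.deriv.continuousAt
  have hq := qParam_tendsto_atImInfty one_pos
  have h1 : Tendsto (fun τ : ℍ => 𝕢 1 τ * deriv (cuspFunction 1 g) (𝕢 1 τ)) atImInfty
      (𝓝 (0 * deriv (cuspFunction 1 g) 0)) := hq.mul (hd.tendsto.comp hq)
  rw [zero_mul] at h1
  exact h1.congr (fun τ => (D_eq_of_periodic hper hmd hb τ).symm)

theorem periodic_levelOne {k : ℤ} (F : ModularForm 𝒮ℒ k) :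
    Function.Periodic (F ∘ ofComplex) 1 :=
  SlashInvariantFormClass.periodic_comp_ofComplex F one_mem_strictPeriods_SL

theorem isBoundedAtImInfty_levelOne {k : ℤ} (F : ModularForm 𝒮ℒ k) : IsBoundedAtImInfty F :=
  isBoundedAtImInfty_of_tendsto (tendsto_levelOne F)

theorem tendsto_D_levelOne {k : ℤ} (F : ModularForm 𝒮ℒ k) : Tendsto (D F) atImInfty (𝓝 0) :=
  tendsto_D_of_periodic (periodic_levelOne F) F.holo' (isBoundedAtImInfty_levelOne F)

/-! ### `E₂` at `i∞` and the derivative of `Δ` -/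

open EisensteinSeries in
theorem hasSum_E2 (τ : ℍ) :
    HasSum (fun m : ℕ => (if m = 0 then 1 else -24 * (ArithmeticFunction.sigma 1 m : ℂ) : ℂ) •
      𝕢 1 τ ^ m) (E2 τ) := by
  simpa only [Function.Periodic.qParam, ofReal_one, div_one] using hasSum_qExpansion_E2 (z := τ)

theorem qParam_vadd_one (τ : ℍ) : 𝕢 1 (((1 : ℝ) +ᵥ τ : ℍ) : ℂ) = 𝕢 1 (τ : ℂ) := by
  simp only [Function.Periodic.qParam, coe_vadd, ofReal_one, div_one]
  rw [mul_add, mul_one, Complex.exp_add, Complex.exp_two_pi_mul_I, one_mul]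

theorem periodic_of_vadd {g : ℍ → ℂ} (h : ∀ τ : ℍ, g ((1 : ℝ) +ᵥ τ) = g τ) :
    Function.Periodic (g ∘ ofComplex) 1 := by
  intro w
  by_cases hw : 0 < w.im
  · have hw' : 0 < (w + ((1 : ℝ) : ℂ)).im := by simpa using hw
    have h1 := h ⟨w, hw⟩
    simp only [Function.comp_apply]
    rw [show (w + 1 : ℂ) = w + ((1 : ℝ) : ℂ) by simp, ofComplex_apply_of_im_pos hw',
      ofComplex_apply_of_im_pos hw, ← h1]
    congr 1
    ext
    simp [add_comm]
  · have hw1 : w.im ≤ 0 := not_lt.mp hw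
    have hw' : (w + 1).im ≤ 0 := by simpa using hw1
    simp [ofComplex_apply_of_im_nonpos hw', ofComplex_apply_of_im_nonpos hw1]

open EisensteinSeries in
theorem E2_vadd_one (τ : ℍ) : E2 ((1 : ℝ) +ᵥ τ) = E2 τ := by
  have h1 := hasSum_E2 ((1 : ℝ) +ᵥ τ)
  rw [qParam_vadd_one] at h1
  exact h1.unique (hasSum_E2 τ)

open EisensteinSeries in
theorem periodic_E2 : Function.Periodic (E2 ∘ ofComplex) 1 := periodic_of_vadd E2_vadd_one


open EisensteinSeries in
theorem tendsto_E2 : Tendsto E2 atImInfty (𝓝 1) := by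
  have hanal := analyticAt_cuspFunction_zero one_pos periodic_E2 E2_mdifferentiable
    isBoundedAtImInfty_E2
  have h1 := tendsto_of_periodic periodic_E2 E2_mdifferentiable isBoundedAtImInfty_E2
  have h2 := (hasFPowerSeriesOnBall_cuspFunction one_pos hanal hasSum_E2).coeff_zero (fun _ => 0)
  rw [← h2] at h1
  simpa using h1


open EisensteinSeries in
/-- Ramanujan's identity `D Δ = E₂ Δ`. -/
theorem D_discriminant (τ : ℍ) : D Δ τ = E2 τ * Δ τ := by
  have hη : DifferentiableAt ℂ ModularForm.eta (τ : ℂ) :=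
    differentiableAt_eta_of_mem_upperHalfPlaneSet τ.im_pos
  have hη0 : ModularForm.eta (τ : ℂ) ≠ 0 := eta_ne_zero τ.im_pos
  have hlog := logDeriv_eta_eq_E2 τ
  rw [logDeriv_apply, div_eq_iff hη0] at hlog
  have h1 : HasDerivAt (fun w : ℂ => ModularForm.eta w ^ 24)
      (24 * ModularForm.eta (τ : ℂ) ^ 23 * deriv ModularForm.eta (τ : ℂ)) τ := by
    have := hη.hasDerivAt.fun_pow 24
    simpa using this
  have h2 : Δ ∘ ofComplex =ᶠ[𝓝 (τ : ℂ)] fun w : ℂ => ModularForm.eta w ^ 24 := by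
    filter_upwards [isOpen_upperHalfPlaneSet.mem_nhds τ.im_pos] with w hw
    simp only [Function.comp_apply, ofComplex_apply_of_im_pos hw]
    rfl
  have h3 := (h1.congr_of_eventuallyEq h2).deriv
  have hΔ : Δ τ = ModularForm.eta (τ : ℂ) ^ 24 := rfl
  have hpi : (Real.pi : ℂ) ≠ 0 := by exact_mod_cast Real.pi_ne_zero
  have hI : (Complex.I : ℂ) ≠ 0 := Complex.I_ne_zero
  unfold normalizedDerivOfComplex
  rw [h3, hlog, hΔ]
  field_simp
  ring

/-! ### Ramanujan's identities for `E₄` and `E₆` -/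

theorem slash_levelOne {k : ℤ} (F : ModularForm 𝒮ℒ k) (γ : SL(2, ℤ)) : ⇑F ∣[k] γ = ⇑F :=
  SlashInvariantForm.slash_action_eqn F (γ : GL (Fin 2) ℝ) ⟨γ, rfl⟩

open EisensteinSeries in
theorem tendsto_serre {k : ℤ} (F : ModularForm 𝒮ℒ k) {a : ℂ} (hF : Tendsto F atImInfty (𝓝 a)) :
    Tendsto (serreDerivative (k : ℂ) F) atImInfty (𝓝 (-((k : ℂ) * 12⁻¹ * a))) := by
  have h1 := (tendsto_D_levelOne F).sub
    (((tendsto_const_nhds (x := ((k : ℂ) * 12⁻¹))).mul tendsto_E2).mul hF)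
  simp only [mul_one, zero_sub] at h1
  exact h1

/-- The Serre derivative of a level one form of weight `k`, as a level one form of weight
`k + 2`. -/
noncomputable def serreForm {k : ℤ} (F : ModularForm 𝒮ℒ k) : ModularForm 𝒮ℒ (k + 2) :=
  mkLevelOne (k + 2) (serreDerivative (k : ℂ) F) (serreDerivative_mdifferentiable (k : ℂ) F.holo')
    (fun γ => serreDerivative_slash_invariant F.holo' (slash_levelOne F γ))
    (isBoundedAtImInfty_of_tendsto (tendsto_serre F (tendsto_levelOne F)))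

theorem serreForm_apply {k : ℤ} (F : ModularForm 𝒮ℒ k) (τ : ℍ) :
    serreForm F τ = serreDerivative (k : ℂ) F τ := rfl

theorem tendsto_serre_E₄ :
    Tendsto (serreDerivative 4 E₄) atImInfty (𝓝 (-(1 / 3 : ℂ))) := by
  have h := tendsto_serre E₄ tendsto_E₄
  simp only [Int.cast_ofNat] at h
  convert h using 2
  norm_num

theorem tendsto_serre_E₆ :
    Tendsto (serreDerivative 6 E₆) atImInfty (𝓝 (-(1 / 2 : ℂ))) := by
  have h := tendsto_serre E₆ tendsto_E₆
  simp only [Int.cast_ofNat] at h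
  convert h using 2
  norm_num

/-- `∂₄ E₄ = -E₆ / 3`. -/
theorem serre_E₄ (τ : ℍ) : serreDerivative 4 E₄ τ = -(1 / 3) * E₆ τ := by
  have hinv : ∀ γ : SL(2, ℤ), serreDerivative 4 E₄ ∣[(6 : ℤ)] γ = serreDerivative 4 E₄ := by
    intro γ
    have h := serreDerivative_slash_invariant E₄.holo' (slash_levelOne E₄ γ)
    have h6 : (4 : ℤ) + 2 = 6 := by norm_num
    rw [h6] at h
    simp only [Int.cast_ofNat] at h
    exact h
  let S := mkLevelOne 6 (serreDerivative 4 E₄) (serreDerivative_mdifferentiable 4 E₄.holo') hinv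
    (isBoundedAtImInfty_of_tendsto tendsto_serre_E₄)
  obtain ⟨c, hc⟩ : ∃ c : ℂ, c • E₆ = S :=
    (finrank_eq_one_iff_of_nonzero' E₆ (EisensteinSeries.E_ne_zero _ ⟨3, rfl⟩)).mp
      (Module.rank_eq_one_iff_finrank_eq_one.mp levelOne_weight_six_rank_one) S
  have hcτ : ∀ τ, c * E₆ τ = serreDerivative 4 E₄ τ := fun τ => DFunLike.congr_fun hc τ
  have h1 : Tendsto (fun τ => c * E₆ τ) atImInfty (𝓝 (c * 1)) := tendsto_E₆.const_mul c
  have h2 : Tendsto (fun τ => c * E₆ τ) atImInfty (𝓝 (-(1 / 3 : ℂ))) :=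
    tendsto_serre_E₄.congr (fun τ => (hcτ τ).symm)
  have hc3 : c = -(1 / 3) := by
    have := tendsto_nhds_unique h1 h2
    simpa using this
  rw [← hcτ τ, hc3]

theorem levelOne_weight_eight_rank_one : Module.rank ℂ (ModularForm 𝒮ℒ 8) = 1 := by
  have h := dimension_level_one 8 ⟨4, rfl⟩
  have h2 : ¬ (8 ≡ 2 [MOD 12]) := by decide
  rw [if_neg h2] at h
  simpa using h

/-- `∂₆ E₆ = -E₄² / 2`. -/
theorem serre_E₆ (τ : ℍ) : serreDerivative 6 E₆ τ = -(1 / 2) * E₄ τ ^ 2 := by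
  have hinv : ∀ γ : SL(2, ℤ), serreDerivative 6 E₆ ∣[(8 : ℤ)] γ = serreDerivative 6 E₆ := by
    intro γ
    have h := serreDerivative_slash_invariant E₆.holo' (slash_levelOne E₆ γ)
    have h8 : (6 : ℤ) + 2 = 8 := by norm_num
    rw [h8] at h
    simp only [Int.cast_ofNat] at h
    exact h
  let S := mkLevelOne 8 (serreDerivative 6 E₆) (serreDerivative_mdifferentiable 6 E₆.holo') hinv
    (isBoundedAtImInfty_of_tendsto tendsto_serre_E₆)
  have hG_t : Tendsto (fun τ => E₄ τ ^ 2) atImInfty (𝓝 1) := by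
    simpa using tendsto_E₄.pow 2
  have hG_inv : ∀ γ : SL(2, ℤ), (fun τ => E₄ τ ^ 2) ∣[(8 : ℤ)] γ = fun τ => E₄ τ ^ 2 :=
    slash_eq_of_smul (fun γ τ => by
      have h4 : E₄ (γ • τ) = denom γ τ ^ (4 : ℤ) * E₄ τ := levelOne_smul E₄ γ τ
      rw [h4, mul_pow, ← zpow_natCast (denom γ τ ^ (4 : ℤ)) 2, ← zpow_mul]
      norm_num)
  let G := mkLevelOne 8 (fun τ => E₄ τ ^ 2) (E₄.holo'.pow 2) hG_inv
    (isBoundedAtImInfty_of_tendsto hG_t)
  have hG0 : G ≠ 0 := by
    intro h0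
    have h1 : Tendsto (fun τ => E₄ τ ^ 2) atImInfty (𝓝 0) := by
      have h2 : (fun τ => E₄ τ ^ 2) = fun _ => (0 : ℂ) := by
        funext τ
        have := DFunLike.congr_fun h0 τ
        simpa [G] using this
      rw [h2]
      exact tendsto_const_nhds
    exact one_ne_zero (tendsto_nhds_unique hG_t h1)
  obtain ⟨c, hc⟩ : ∃ c : ℂ, c • G = S :=
    (finrank_eq_one_iff_of_nonzero' G hG0).mp
      (Module.rank_eq_one_iff_finrank_eq_one.mp levelOne_weight_eight_rank_one) S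
  have hcτ : ∀ τ, c * E₄ τ ^ 2 = serreDerivative 6 E₆ τ := fun τ => DFunLike.congr_fun hc τ
  have h1 : Tendsto (fun τ => c * E₄ τ ^ 2) atImInfty (𝓝 (c * 1)) := hG_t.const_mul c
  have h2 : Tendsto (fun τ => c * E₄ τ ^ 2) atImInfty (𝓝 (-(1 / 2 : ℂ))) :=
    tendsto_serre_E₆.congr (fun τ => (hcτ τ).symm)
  have hc3 : c = -(1 / 2) := by
    have := tendsto_nhds_unique h1 h2
    simpa using this
  rw [← hcτ τ, hc3]

open EisensteinSeries in
/-- Ramanujan: `D E₄ = (E₂ E₄ - E₆) / 3`. -/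
theorem D_E₄ (τ : ℍ) : D E₄ τ = (E2 τ * E₄ τ - E₆ τ) / 3 := by
  have h := serre_E₄ τ
  rw [serreDerivative_apply] at h
  linear_combination h

open EisensteinSeries in
/-- Ramanujan: `D E₆ = (E₂ E₆ - E₄²) / 2`. -/
theorem D_E₆ (τ : ℍ) : D E₆ τ = (E2 τ * E₆ τ - E₄ τ ^ 2) / 2 := by
  have h := serre_E₆ τ
  rw [serreDerivative_apply] at h
  linear_combination h

/-- The bracket identity `3 D(E₄) E₆ - 2 E₄ D(E₆) = E₄³ - E₆² = 1728 Δ`. -/
theorem bracket (τ : ℍ) :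
    3 * D E₄ τ * E₆ τ - 2 * E₄ τ * D E₆ τ = E₄ τ ^ 3 - E₆ τ ^ 2 := by
  rw [D_E₄, D_E₆]
  ring

theorem E₄_cube_sub_E₆_sq (τ : ℍ) : E₄ τ ^ 3 - E₆ τ ^ 2 = 1728 * Δ τ := by
  have h := discriminant_eq_E₄_cube_sub_E₆_sq τ
  linear_combination -1728 * h

theorem E₄_cube_sub_E₆_sq_ne_zero (τ : ℍ) : E₄ τ ^ 3 - E₆ τ ^ 2 ≠ 0 := by
  rw [E₄_cube_sub_E₆_sq]
  exact mul_ne_zero (by norm_num) (discriminant_ne_zero τ)

/-- `E₄` and `E₆` have no common zero. -/
theorem E₆_ne_zero_of_E₄_eq_zero {τ : ℍ} (h : E₄ τ = 0) : E₆ τ ≠ 0 := by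
  intro h6
  apply E₄_cube_sub_E₆_sq_ne_zero τ
  rw [h, h6]
  ring

theorem E₄_ne_zero_of_E₆_eq_zero {τ : ℍ} (h : E₆ τ = 0) : E₄ τ ≠ 0 := by
  intro h4
  apply E₄_cube_sub_E₆_sq_ne_zero τ
  rw [h, h4]
  ring

/-- Zeros of `E₄` are simple. -/
theorem D_E₄_ne_zero {τ : ℍ} (h : E₄ τ = 0) : D E₄ τ ≠ 0 := by
  rw [D_E₄, h]
  have h6 := E₆_ne_zero_of_E₄_eq_zero h
  simp [h6]

/-- Zeros of `E₆` are simple. -/
theorem D_E₆_ne_zero {τ : ℍ} (h : E₆ τ = 0) : D E₆ τ ≠ 0 := by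
  rw [D_E₆, h]
  have h4 := E₄_ne_zero_of_E₆_eq_zero h
  simp [h4]

/-- The derivative of `j`: `D j = -E₄² E₆ / Δ`. -/
theorem D_jInv (τ : ℍ) : D jInv τ = -E₄ τ ^ 2 * E₆ τ / Δ τ := by
  have hΔ := discriminant_ne_zero τ
  have h1 : jInv * Δ = fun τ => E₄ τ ^ 3 := by
    funext τ
    exact jInv_mul_discriminant τ
  have h2 := congrFun (normalizedDerivOfComplex_mul jInv Δ mdiff_jInv mdiff_discriminant) τ
  have h3 : D (fun τ => E₄ τ ^ 3) τ = 3 * E₄ τ ^ 2 * D E₄ τ := by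
    have h5 := congrFun (normalizedDerivOfComplex_pow E₄ 3 E₄.holo') τ
    have h6 : (⇑E₄ ^ 3 : ℍ → ℂ) = fun τ => E₄ τ ^ 3 := rfl
    rw [h6] at h5
    simpa using h5
  rw [h1, h3] at h2
  simp only [Pi.add_apply, Pi.mul_apply] at h2
  rw [D_discriminant, D_E₄] at h2
  have h4 := jInv_mul_discriminant τ
  rw [eq_div_iff hΔ]
  linear_combination -h2 - (EisensteinSeries.E2 τ) * h4

/-! ### Local orders of `j` -/

theorem analyticAt_comp_ofComplex {F : ℍ → ℂ} (hF : MDiff F) (τ : ℍ) :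
    AnalyticAt ℂ (F ∘ ofComplex) (τ : ℂ) :=
  (UpperHalfPlane.mdifferentiable_iff.mp hF).analyticAt
    (isOpen_upperHalfPlaneSet.mem_nhds τ.im_pos)

theorem deriv_eq_D (F : ℍ → ℂ) (τ : ℍ) :
    deriv (F ∘ ofComplex) (τ : ℂ) = 2 * Real.pi * Complex.I * D F τ := by
  unfold normalizedDerivOfComplex
  have hpi : (2 * Real.pi * Complex.I : ℂ) ≠ 0 := Complex.two_pi_I_ne_zero
  field_simp

theorem deriv_ne_zero_of_D_ne_zero {F : ℍ → ℂ} {τ : ℍ} (h : D F τ ≠ 0) :
    deriv (F ∘ ofComplex) (τ : ℂ) ≠ 0 := by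
  rw [deriv_eq_D]
  exact mul_ne_zero Complex.two_pi_I_ne_zero h

theorem D_jInv_ne_zero {τ : ℍ} (h4 : E₄ τ ≠ 0) (h6 : E₆ τ ≠ 0) : D jInv τ ≠ 0 := by
  rw [D_jInv]
  exact div_ne_zero (mul_ne_zero (neg_ne_zero.mpr (pow_ne_zero 2 h4)) h6) (discriminant_ne_zero τ)

/-- Away from the zeros of `E₄` and `E₆`, the function `j - j(τ₀)` has a simple zero at `τ₀`. -/
theorem analyticOrderAt_jInv_sub {τ₀ : ℍ} (h4 : E₄ τ₀ ≠ 0) (h6 : E₆ τ₀ ≠ 0) :
    analyticOrderAt (fun z : ℂ => jInv (ofComplex z) - jInv τ₀) (τ₀ : ℂ) = 1 := by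
  have h := (analyticAt_comp_ofComplex mdiff_jInv τ₀).analyticOrderAt_sub_eq_one_of_deriv_ne_zero
    (deriv_ne_zero_of_D_ne_zero (D_jInv_ne_zero h4 h6))
  simpa [Function.comp_apply, ofComplex_apply] using h

/-- A zero of `E₄` is a simple zero. -/
theorem analyticOrderAt_E₄ {τ₀ : ℍ} (h : E₄ τ₀ = 0) :
    analyticOrderAt (E₄ ∘ ofComplex) (τ₀ : ℂ) = 1 :=
  (analyticAt_comp_ofComplex E₄.holo' τ₀).analyticOrderAt_eq_one_of_zero_deriv_ne_zero
    (by simpa [ofComplex_apply] using h) (deriv_ne_zero_of_D_ne_zero (D_E₄_ne_zero h))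

/-- A zero of `E₆` is a simple zero. -/
theorem analyticOrderAt_E₆ {τ₀ : ℍ} (h : E₆ τ₀ = 0) :
    analyticOrderAt (E₆ ∘ ofComplex) (τ₀ : ℂ) = 1 :=
  (analyticAt_comp_ofComplex E₆.holo' τ₀).analyticOrderAt_eq_one_of_zero_deriv_ne_zero
    (by simpa [ofComplex_apply] using h) (deriv_ne_zero_of_D_ne_zero (D_E₆_ne_zero h))

theorem analyticOrderAt_inv_discriminant (τ₀ : ℍ) :
    analyticOrderAt (fun z : ℂ => (Δ (ofComplex z))⁻¹) (τ₀ : ℂ) = 0 := by
  have h1 : AnalyticAt ℂ (fun z : ℂ => (Δ (ofComplex z))⁻¹) (τ₀ : ℂ) :=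
    (analyticAt_comp_ofComplex mdiff_discriminant τ₀).inv
      (by simpa [ofComplex_apply] using discriminant_ne_zero τ₀)
  rw [h1.analyticOrderAt_eq_zero]
  simpa [ofComplex_apply] using discriminant_ne_zero τ₀

/-- At a zero of `E₄`, the function `j` vanishes to order exactly `3`. -/
theorem analyticOrderAt_jInv_of_E₄ {τ₀ : ℍ} (h : E₄ τ₀ = 0) :
    analyticOrderAt (fun z : ℂ => jInv (ofComplex z)) (τ₀ : ℂ) = 3 := by
  have h1 : AnalyticAt ℂ (fun z : ℂ => (Δ (ofComplex z))⁻¹) (τ₀ : ℂ) :=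
    (analyticAt_comp_ofComplex mdiff_discriminant τ₀).inv
      (by simpa [ofComplex_apply] using discriminant_ne_zero τ₀)
  have h2 : AnalyticAt ℂ (E₄ ∘ ofComplex) (τ₀ : ℂ) := analyticAt_comp_ofComplex E₄.holo' τ₀
  have heq : (fun z : ℂ => jInv (ofComplex z))
      = (E₄ ∘ ofComplex) ^ 3 * fun z : ℂ => (Δ (ofComplex z))⁻¹ := by
    funext z
    simp [jInv, div_eq_mul_inv]
  rw [heq, analyticOrderAt_mul (h2.pow 3) h1, analyticOrderAt_pow h2, analyticOrderAt_E₄ h,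
    analyticOrderAt_inv_discriminant]
  rfl

/-- At a zero of `E₆`, the function `j - 1728` vanishes to order exactly `2`. -/
theorem analyticOrderAt_jInv_sub_of_E₆ {τ₀ : ℍ} (h : E₆ τ₀ = 0) :
    analyticOrderAt (fun z : ℂ => jInv (ofComplex z) - 1728) (τ₀ : ℂ) = 2 := by
  have h1 : AnalyticAt ℂ (fun z : ℂ => (Δ (ofComplex z))⁻¹) (τ₀ : ℂ) :=
    (analyticAt_comp_ofComplex mdiff_discriminant τ₀).inv
      (by simpa [ofComplex_apply] using discriminant_ne_zero τ₀)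
  have h2 : AnalyticAt ℂ (E₆ ∘ ofComplex) (τ₀ : ℂ) := analyticAt_comp_ofComplex E₆.holo' τ₀
  have heq : (fun z : ℂ => jInv (ofComplex z) - 1728)
      = (E₆ ∘ ofComplex) ^ 2 * fun z : ℂ => (Δ (ofComplex z))⁻¹ := by
    funext z
    simp [jInv_sub, div_eq_mul_inv]
  rw [heq, analyticOrderAt_mul (h2.pow 2) h1, analyticOrderAt_pow h2, analyticOrderAt_E₆ h,
    analyticOrderAt_inv_discriminant]
  rfl

theorem analyticOrderAt_jInv_rho :
    analyticOrderAt (fun z : ℂ => jInv (ofComplex z)) (rho : ℂ) = 3 :=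
  analyticOrderAt_jInv_of_E₄ E₄_rho

theorem analyticOrderAt_jInv_I :
    analyticOrderAt (fun z : ℂ => jInv (ofComplex z) - 1728) (UpperHalfPlane.I : ℂ) = 2 :=
  analyticOrderAt_jInv_sub_of_E₆ E₆_I

/-! ### The pole of `j` at the cusp -/

/-- `q * j → 1` at `i∞`: `j` has a simple pole with residue `1` in the parameter `q`. -/
theorem tendsto_qParam_mul_jInv : Tendsto (fun τ : ℍ => 𝕢 1 τ * jInv τ) atImInfty (𝓝 1) := by
  have h1 : Tendsto (fun τ : ℍ => E₄ τ ^ 3 / ∏' n : ℕ, (1 - eta_q n τ) ^ 24) atImInfty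
      (𝓝 (1 ^ 3 / 1)) :=
    (tendsto_E₄.pow 3).div tendsto_atImInfty_tprod_one_sub_eta_q_pow one_ne_zero
  simp only [one_pow, div_one] at h1
  refine h1.congr (fun τ => ?_)
  have hΔ := discriminant_ne_zero τ
  have hq : 𝕢 1 (τ : ℂ) ≠ 0 := Function.Periodic.qParam_ne_zero _
  have hprod := discriminant_eq_q_prod τ
  have hP : (∏' n : ℕ, (1 - eta_q n τ) ^ 24) ≠ 0 := by
    intro h0
    apply hΔ
    rw [hprod, h0, mul_zero]
  unfold jInv
  rw [hprod]
  field_simp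

end Fermat.Agent.Lib.JLevelOne
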