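import Mathlib

set_option autoImplicit false

open UpperHalfPlane ModularForm ModularFormClass MatrixGroups EisensteinSeries

namespace Fermat.Agent.Lib.LevelOneInt

/-- The subring of complex power series with integer coefficients. -/
noncomputable def intSub : Subring (PowerSeries ℂ) := (PowerSeries.map (Int.castRingHom ℂ)).range

theorem mem_intSub_iff (p : PowerSeries ℂ) :
    p ∈ intSub ↔ ∀ n : ℕ, ∃ m : ℤ, PowerSeries.coeff n p = (m : ℂ) := by
  constructor
  · rintro ⟨P, rfl⟩ n
    exact ⟨PowerSeries.coeff n P, by simp⟩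
  · intro h
    choose m hm using h
    refine ⟨PowerSeries.mk m, ?_⟩
    ext n
    simp [hm n]

theorem natCast_smul_mem_intSub {p : PowerSeries ℂ} (hp : p ∈ intSub) (D : ℕ) :
    (D : ℂ) • p ∈ intSub := by
  rw [mem_intSub_iff] at hp ⊢
  intro n
  obtain ⟨m, hm⟩ := hp n
  exact ⟨D * m, by simp [hm]⟩

/-- Eisenstein series have bounded denominators. -/
theorem exists_smul_qExpansion_E_mem {k : ℕ} (hk : 3 ≤ k) (hk2 : Even k) :
    ∃ D : ℕ, D ≠ 0 ∧ (D : ℂ) • qExpansion 1 (E hk) ∈ intSub := by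
  set r : ℚ := -(2 * k / bernoulli k) with hr
  refine ⟨r.den, r.den_ne_zero, ?_⟩
  rw [mem_intSub_iff]
  intro m
  rw [PowerSeries.coeff_smul, E_qExpansion_coeff hk hk2 m]
  split_ifs with hm
  · exact ⟨r.den, by simp⟩
  · refine ⟨r.num * (ArithmeticFunction.sigma (k - 1) m : ℕ), ?_⟩
    have h1 : (-(2 * (k : ℂ) / (bernoulli k : ℂ))) = ((r : ℚ) : ℂ) := by
      rw [hr]; push_cast; ring
    have h2 : ((r.den : ℚ) * r : ℚ) = r.num := Rat.den_mul_eq_num r
    have h3 : ((r.den : ℂ) * ((r : ℚ) : ℂ)) = (r.num : ℂ) := by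
      exact_mod_cast h2
    rw [smul_eq_mul, h1, ← mul_assoc, h3]
    push_cast
    ring

local notation "Δ" => ModularForm.discriminant

theorem smul_qExpansion_discriminant :
    (1728 : ℂ) • qExpansion 1 Δ = qExpansion 1 E₄ ^ 3 - qExpansion 1 E₆ ^ 2 := by
  have hfun : ((1728 : ℂ) • (CuspForm.discriminant : ℍ → ℂ)) =
      ⇑((E₄.mul E₄).mul E₄) - ⇑(E₆.mul E₆) := by
    funext z
    simp only [Pi.smul_apply, Pi.sub_apply, ModularForm.coe_mul, Pi.mul_apply, smul_eq_mul]
    rw [show (CuspForm.discriminant : ℍ → ℂ) z = Δ z from rfl,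
      discriminant_eq_E₄_cube_sub_E₆_sq z]
    ring
  rw [← CuspForm.coe_discriminant,
    ← ModularForm.qExpansion_smul one_pos one_mem_strictPeriods_SL, hfun,
    ModularForm.qExpansion_sub one_pos one_mem_strictPeriods_SL,
    ModularForm.qExpansion_mul one_pos one_mem_strictPeriods_SL,
    ModularForm.qExpansion_mul one_pos one_mem_strictPeriods_SL,
    ModularForm.qExpansion_mul one_pos one_mem_strictPeriods_SL]
  ring

/-- The discriminant has bounded denominators. -/
theorem exists_smul_qExpansion_discriminant_mem :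
    ∃ D : ℕ, D ≠ 0 ∧ (D : ℂ) • qExpansion 1 Δ ∈ intSub := by
  obtain ⟨D4, hD4, h4⟩ := exists_smul_qExpansion_E_mem (k := 4) (by norm_num) ⟨2, rfl⟩
  obtain ⟨D6, hD6, h6⟩ := exists_smul_qExpansion_E_mem (k := 6) (by norm_num) ⟨3, rfl⟩
  refine ⟨1728 * D4 ^ 3 * D6 ^ 2, by positivity, ?_⟩
  have key : ((1728 * D4 ^ 3 * D6 ^ 2 : ℕ) : ℂ) • qExpansion 1 Δ =
      (D6 : ℂ) ^ 2 • ((D4 : ℂ) • qExpansion 1 E₄) ^ 3 -
        (D4 : ℂ) ^ 3 • ((D6 : ℂ) • qExpansion 1 E₆) ^ 2 := by
    have h := smul_qExpansion_discriminant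
    have : ((1728 * D4 ^ 3 * D6 ^ 2 : ℕ) : ℂ) • qExpansion 1 Δ =
        ((D4 : ℂ) ^ 3 * (D6 : ℂ) ^ 2) • ((1728 : ℂ) • qExpansion 1 Δ) := by
      rw [smul_smul]; push_cast; ring_nf
    rw [this, h]
    simp only [smul_pow, smul_sub, smul_smul]
    ring_nf
  rw [key]
  have e6 : ((D6 : ℂ) ^ 2 : ℂ) = ((D6 ^ 2 : ℕ) : ℂ) := by push_cast; ring
  have e4 : ((D4 : ℂ) ^ 3 : ℂ) = ((D4 ^ 3 : ℕ) : ℂ) := by push_cast; ring
  rw [e6, e4]
  exact sub_mem (natCast_smul_mem_intSub (pow_mem h4 3) _)
    (natCast_smul_mem_intSub (pow_mem h6 2) _)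

/-- The span of the level one forms with integral `q`-expansion. -/
noncomputable def intSpan (k : ℤ) : Submodule ℂ (ModularForm 𝒮ℒ k) :=
  Submodule.span ℂ {g | qExpansion 1 g ∈ intSub}

theorem mem_intSpan_of_smul_mem {k : ℤ} (g : ModularForm 𝒮ℒ k) {D : ℕ} (hD : D ≠ 0)
    (h : (D : ℂ) • qExpansion 1 g ∈ intSub) : g ∈ intSpan k := by
  have h1 : (D : ℂ) • g ∈ intSpan k := by
    apply Submodule.subset_span
    show qExpansion 1 ⇑((D : ℂ) • g) ∈ intSub
    rw [FunLike.coe_smul, ModularForm.qExpansion_smul one_pos one_mem_strictPeriods_SL]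
    exact h
  have h2 : g = (D : ℂ)⁻¹ • ((D : ℂ) • g) := by
    rw [smul_smul, inv_mul_cancel₀ (Nat.cast_ne_zero.mpr hD), one_smul]
  rw [h2]
  exact Submodule.smul_mem _ _ h1

/-- Multiplication by the discriminant, as a linear map. -/
noncomputable def mulDisc (k : ℤ) : ModularForm 𝒮ℒ (k - 12) →ₗ[ℂ] ModularForm 𝒮ℒ k :=
  CuspForm.toModularFormₗ ∘ₗ (CuspForm.discriminantEquiv (k := k)).symm.toLinearMap

theorem mulDisc_apply (k : ℤ) (h : ModularForm 𝒮ℒ (k - 12)) (z : ℍ) :
    mulDisc k h z = Δ z * h z := rfl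

theorem qExpansion_mulDisc (k : ℤ) (h : ModularForm 𝒮ℒ (k - 12)) :
    qExpansion 1 (mulDisc k h) = qExpansion 1 Δ * qExpansion 1 h := by
  have : (⇑(mulDisc k h) : ℍ → ℂ) = ⇑CuspForm.discriminant * ⇑h := by
    funext z; rfl
  rw [this, ModularForm.qExpansion_mul_coe one_pos one_mem_strictPeriods_SL]
  rfl

theorem mulDisc_mem_intSpan {k : ℤ} {h : ModularForm 𝒮ℒ (k - 12)} (hh : h ∈ intSpan (k - 12)) :
    mulDisc k h ∈ intSpan k := by
  obtain ⟨D, hD, hΔ⟩ := exists_smul_qExpansion_discriminant_mem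
  induction hh using Submodule.span_induction with
  | mem x hx =>
    apply mem_intSpan_of_smul_mem _ hD
    rw [qExpansion_mulDisc, ← smul_mul_assoc]
    exact mul_mem hΔ hx
  | zero => simp
  | add x y _ _ hx hy => rw [map_add]; exact add_mem hx hy
  | smul c x _ hx => rw [map_smul]; exact Submodule.smul_mem _ _ hx

theorem mem_intSpan_aux : ∀ n : ℕ, ∀ k : ℤ, k < 12 * n → ∀ g : ModularForm 𝒮ℒ k,
    g ∈ intSpan k := by
  intro n
  induction n with
  | zero =>
    intro k hk g
    have : g = 0 := by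
      ext z
      simpa using congrFun (levelOne_neg_weight_eq_zero (by simpa using hk) g) z
    rw [this]; exact zero_mem _
  | succ n ih =>
    intro k hk g
    rcases lt_or_ge k 0 with hneg | hnn
    · have : g = 0 := by
        ext z
        simpa using congrFun (levelOne_neg_weight_eq_zero hneg g) z
      rw [this]; exact zero_mem _
    rcases Int.even_or_odd k with hev | hodd
    swap
    · rw [ModularForm.levelOne_odd_weight_eq_zero hodd g]; exact zero_mem _
    by_cases h0 : k = 0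
    · subst h0
      obtain ⟨c, hc⟩ := levelOne_weight_zero_const g
      have hg : g = c • (1 : ModularForm 𝒮ℒ 0) := by
        ext z
        simp [hc]
      rw [hg]
      refine Submodule.smul_mem _ _ (Submodule.subset_span ?_)
      show qExpansion 1 ⇑(1 : ModularForm 𝒮ℒ 0) ∈ intSub
      rw [ModularForm.qExpansion_one]
      exact one_mem _
    by_cases h2 : k = 2
    · subst h2
      rw [rank_zero_iff_forall_zero.mp levelOne_weight_two_rank_zero g]
      exact zero_mem _
    lift k to ℕ using hnn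
    have hev' : Even k := by exact_mod_cast hev
    have hk3 : 3 ≤ k := by
      obtain ⟨m, rfl⟩ := hev'
      have : m ≠ 0 := by rintro rfl; simp at h0
      have : m ≠ 1 := by rintro rfl; simp at h2
      omega
    obtain ⟨D, hD, hE⟩ := exists_smul_qExpansion_E_mem hk3 hev'
    have hcusp : IsCuspForm (g - (PowerSeries.coeff 0 (qExpansion 1 g)) • E hk3) :=
      sub_smul_isCuspForm g (E hk3) (E_qExpansion_coeff_zero hk3 hev')
    have h0' := (isCuspForm_iff_coeffZero_eq_zero _).mp hcusp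
    have hh : CuspForm.discriminantEquiv (toCuspForm _ h0') ∈ intSpan ((k : ℤ) - 12) :=
      ih _ (by push_cast at hk ⊢; omega) _
    have hf0 : g - (PowerSeries.coeff 0 (qExpansion 1 g)) • E hk3 =
        mulDisc k (CuspForm.discriminantEquiv (toCuspForm _ h0')) := by
      ext z
      rw [mulDisc_apply, discriminant_mul_discriminantEquiv_apply]
      rfl
    have hg : g = (PowerSeries.coeff 0 (qExpansion 1 g)) • E hk3 +
        mulDisc k (CuspForm.discriminantEquiv (toCuspForm _ h0')) := by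
      rw [← hf0]; abel
    rw [hg]
    exact add_mem (Submodule.smul_mem _ _ (mem_intSpan_of_smul_mem _ hD hE))
      (mulDisc_mem_intSpan hh)

theorem intSpan_eq_top (k : ℤ) : intSpan k = ⊤ := by
  rw [eq_top_iff]
  intro g _
  exact mem_intSpan_aux (k.toNat + 1) k (by omega) g

/-- (a) Level one modular forms are spanned by forms with integral `q`-expansion. -/
theorem span_intCoeff_eq_top (k : ℤ) :
    Submodule.span ℂ {g : ModularForm 𝒮ℒ k |
      ∀ n : ℕ, ∃ m : ℤ, (qExpansion 1 g).coeff n = (m : ℂ)} = ⊤ := by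
  have : {g : ModularForm 𝒮ℒ k | ∀ n : ℕ, ∃ m : ℤ, (qExpansion 1 g).coeff n = (m : ℂ)} =
      {g : ModularForm 𝒮ℒ k | qExpansion 1 g ∈ intSub} := by
    ext g; exact (mem_intSub_iff _).symm
  rw [this]
  exact intSpan_eq_top k

/-- The span of the level one cusp forms with integral `q`-expansion. -/
noncomputable def intSpanCusp (k : ℤ) : Submodule ℂ (CuspForm 𝒮ℒ k) :=
  Submodule.span ℂ {g | qExpansion 1 g ∈ intSub}

theorem intSpanCusp_eq_top (k : ℤ) : intSpanCusp k = ⊤ := by
  rw [eq_top_iff]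
  intro f _
  obtain ⟨D, hD, hΔ⟩ := exists_smul_qExpansion_discriminant_mem
  have key : ∀ h ∈ intSpan (k - 12),
      (CuspForm.discriminantEquiv (k := k)).symm h ∈ intSpanCusp k := by
    intro h hh
    induction hh using Submodule.span_induction with
    | mem x hx =>
      have h1 : (D : ℂ) • (CuspForm.discriminantEquiv (k := k)).symm x ∈ intSpanCusp k := by
        apply Submodule.subset_span
        show qExpansion 1 ⇑((D : ℂ) • (CuspForm.discriminantEquiv (k := k)).symm x) ∈ intSub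
        rw [FunLike.coe_smul, ModularForm.qExpansion_smul one_pos one_mem_strictPeriods_SL]
        have : qExpansion 1 ⇑((CuspForm.discriminantEquiv (k := k)).symm x) =
            qExpansion 1 Δ * qExpansion 1 x := qExpansion_mulDisc k x
        rw [this, ← smul_mul_assoc]
        exact mul_mem hΔ hx
      have h2 : (CuspForm.discriminantEquiv (k := k)).symm x =
          (D : ℂ)⁻¹ • ((D : ℂ) • (CuspForm.discriminantEquiv (k := k)).symm x) := by
        rw [smul_smul, inv_mul_cancel₀ (Nat.cast_ne_zero.mpr hD), one_smul]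
      rw [h2]
      exact Submodule.smul_mem _ _ h1
    | zero => simp
    | add x y _ _ hx hy => rw [map_add]; exact add_mem hx hy
    | smul c x _ hx => rw [map_smul]; exact Submodule.smul_mem _ _ hx
  have := key (CuspForm.discriminantEquiv f) (by rw [intSpan_eq_top]; trivial)
  rwa [LinearEquiv.symm_apply_apply] at this

/-- (a') Level one cusp forms are spanned by cusp forms with integral `q`-expansion. -/
theorem span_intCoeff_cusp_eq_top (k : ℤ) :
    Submodule.span ℂ {g : CuspForm 𝒮ℒ k |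
      ∀ n : ℕ, ∃ m : ℤ, (qExpansion 1 g).coeff n = (m : ℂ)} = ⊤ := by
  have : {g : CuspForm 𝒮ℒ k | ∀ n : ℕ, ∃ m : ℤ, (qExpansion 1 g).coeff n = (m : ℂ)} =
      {g : CuspForm 𝒮ℒ k | qExpansion 1 g ∈ intSub} := by
    ext g; exact (mem_intSub_iff _).symm
  rw [this]
  exact intSpanCusp_eq_top k

/-- (b) Conjugating the `q`-expansion of a level one form by a ring endomorphism of `ℂ`
gives the `q`-expansion of a level one form. -/
theorem exists_conj (k : ℤ) (σ : ℂ →+* ℂ) (g : ModularForm 𝒮ℒ k) :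
    ∃ g' : ModularForm 𝒮ℒ k,
      ∀ n : ℕ, (qExpansion 1 g').coeff n = σ ((qExpansion 1 g).coeff n) := by
  have hg : g ∈ intSpan k := by rw [intSpan_eq_top]; trivial
  induction hg using Submodule.span_induction with
  | mem x hx =>
    refine ⟨x, fun n => ?_⟩
    obtain ⟨m, hm⟩ := (mem_intSub_iff _).mp hx n
    rw [hm]; simp
  | zero =>
    refine ⟨0, fun n => ?_⟩
    simp [UpperHalfPlane.qExpansion_zero]
  | add x y _ _ hx hy =>
    obtain ⟨x', hx'⟩ := hx
    obtain ⟨y', hy'⟩ := hy
    refine ⟨x' + y', fun n => ?_⟩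
    rw [FunLike.coe_add, ModularForm.qExpansion_add one_pos one_mem_strictPeriods_SL,
      FunLike.coe_add, ModularForm.qExpansion_add one_pos one_mem_strictPeriods_SL,
      map_add, map_add, map_add, hx', hy']
  | smul c x _ hx =>
    obtain ⟨x', hx'⟩ := hx
    refine ⟨σ c • x', fun n => ?_⟩
    rw [FunLike.coe_smul, ModularForm.qExpansion_smul one_pos one_mem_strictPeriods_SL,
      FunLike.coe_smul, ModularForm.qExpansion_smul one_pos one_mem_strictPeriods_SL,
      PowerSeries.coeff_smul, PowerSeries.coeff_smul, smul_eq_mul, smul_eq_mul, map_mul, hx']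

/-- (b') The cusp form version of `exists_conj`. -/
theorem exists_conj_cusp (k : ℤ) (σ : ℂ →+* ℂ) (g : CuspForm 𝒮ℒ k) :
    ∃ g' : CuspForm 𝒮ℒ k,
      ∀ n : ℕ, (qExpansion 1 g').coeff n = σ ((qExpansion 1 g).coeff n) := by
  have hg : g ∈ intSpanCusp k := by rw [intSpanCusp_eq_top]; trivial
  induction hg using Submodule.span_induction with
  | mem x hx =>
    refine ⟨x, fun n => ?_⟩
    obtain ⟨m, hm⟩ := (mem_intSub_iff _).mp hx n
    rw [hm]; simp
  | zero =>
    refine ⟨0, fun n => ?_⟩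
    simp [UpperHalfPlane.qExpansion_zero]
  | add x y _ _ hx hy =>
    obtain ⟨x', hx'⟩ := hx
    obtain ⟨y', hy'⟩ := hy
    refine ⟨x' + y', fun n => ?_⟩
    rw [FunLike.coe_add, ModularForm.qExpansion_add one_pos one_mem_strictPeriods_SL,
      FunLike.coe_add, ModularForm.qExpansion_add one_pos one_mem_strictPeriods_SL,
      map_add, map_add, map_add, hx', hy']
  | smul c x _ hx =>
    obtain ⟨x', hx'⟩ := hx
    refine ⟨σ c • x', fun n => ?_⟩
    rw [FunLike.coe_smul, ModularForm.qExpansion_smul one_pos one_mem_strictPeriods_SL,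
      FunLike.coe_smul, ModularForm.qExpansion_smul one_pos one_mem_strictPeriods_SL,
      PowerSeries.coeff_smul, PowerSeries.coeff_smul, smul_eq_mul, smul_eq_mul, map_mul, hx']

end Fermat.Agent.Lib.LevelOneInt
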