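import Mathlib
import Fermat.Prelude.Thm_UpperHalfPlane_qExpansion_coeff_nat_mul
import Fermat.Prelude.Thm_UpperHalfPlane_qExpansion_prod
import Fermat.Agent.S23.Defs
import Fermat.Agent.S23.LevelOne
import Fermat.Agent.Lib.CoeffLattice

set_option autoImplicit false

/-!
# Key Lemma K: the `q`-coefficients of a modular form of level `Γ₀(N)` lie in a finitely
generated `ℤ`-module

This file contains the *assembly*: the inputs (level one integrality, the trace/Lagrange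
package, the expansions of the conjugates of an auxiliary form `F`) are hypotheses.
-/

namespace Fermat.Agent.Lib.KeyLemmaK

open UpperHalfPlane Filter PowerSeries Fermat.Agent.S23 Fermat.Agent.Lib.CoeffLattice
open scoped MatrixGroups ModularForm Manifold

/-- **Period transfer.** If `D` is `1`-periodic and its expansion in `t = exp(2πiz/N)` is a nonzero
constant times an `A`-unital series, then its `q`-expansion is `c' • (X ^ μ * R)` with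
`R ∈ 1 + X A[[X]]`. -/
theorem qExpansion_one_of_nat {A : Subalgebra ℤ ℂ} {D : ℍ → ℂ} (hD : Nice D) {N : ℕ} (hN : 0 < N)
    {c : ℂ} (hc : c ≠ 0) {T : PowerSeries ℂ} (hT : IsUnitalOver A T)
    (h : qExpansion (N : ℝ) D = c • T) :
    ∃ (c' : ℂ) (μ : ℕ) (R : PowerSeries ℂ), c' ≠ 0 ∧ coeff 0 R = 1 ∧ (∀ n, coeff n R ∈ A) ∧
      qExpansion 1 D = c' • (X ^ μ * R) := by
  obtain ⟨u, v, n₀, R', hu, hv, huv, hR', hR'0, rfl⟩ := hT
  have hu0 : u ≠ 0 := left_ne_zero_of_mul_eq_one huv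
  have hnat : ∀ n, (qExpansion (N : ℝ) D).coeff n =
      if N ∣ n then (qExpansion 1 D).coeff (n / N) else 0 := by
    intro n
    have := UpperHalfPlane.qExpansion_coeff_nat_mul (h := 1) one_pos hD.per hD.holo hD.bdd hN n
    rwa [mul_one] at this
  have hcoeff : ∀ n, (qExpansion (N : ℝ) D).coeff n =
      c * u * if n₀ ≤ n then coeff (n - n₀) R' else 0 := by
    intro n
    rw [h, coeff_smul, coeff_smul, coeff_X_pow_mul', smul_eq_mul, smul_eq_mul, mul_assoc]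
  have hdvd : N ∣ n₀ := by
    by_contra hnd
    have h1 := hnat n₀
    rw [if_neg hnd, hcoeff n₀, if_pos le_rfl, Nat.sub_self, hR'0, mul_one] at h1
    exact mul_ne_zero hc hu0 h1
  obtain ⟨μ, rfl⟩ := hdvd
  refine ⟨c * u, μ, PowerSeries.mk fun n => coeff (N * n) R', mul_ne_zero hc hu0, ?_,
    fun n => ?_, ?_⟩
  · rw [coeff_mk, mul_zero, hR'0]
  · rw [coeff_mk]; exact hR' _
  · ext n
    have h1 := hnat (N * n)
    rw [if_pos (dvd_mul_right N n), Nat.mul_div_cancel_left n hN, hcoeff] at h1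
    rw [← h1, coeff_smul, coeff_X_pow_mul', smul_eq_mul]
    by_cases hμ : μ ≤ n
    · rw [if_pos hμ, if_pos (Nat.mul_le_mul_left N hμ), coeff_mk, Nat.mul_sub]
    · rw [if_neg hμ, if_neg (fun hle => hμ (Nat.le_of_mul_le_mul_left hle hN))]

/-- **Product of conjugate differences.** If `D = ∏ i, H i` is nice and each `c i • H i` has an
`A`-unital expansion in `t = exp(2πiz/N)`, then the `t`-expansion of `D` is a nonzero constant
times an `A`-unital series. -/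
theorem qExpansion_nat_of_prod {A : Subalgebra ℤ ℂ} {N : ℕ} (hN : 0 < N) {D : ℍ → ℂ}
    (hD : Nice D) {ι : Type*} [Fintype ι] (H : ι → ℍ → ℂ) (c : ι → ℂ) (hc : ∀ i, c i ≠ 0)
    (han : ∀ i, AnalyticAt ℂ (cuspFunction (N : ℝ) (c i • H i)) 0)
    (hun : ∀ i, IsUnitalOver A (qExpansion (N : ℝ) (c i • H i)))
    (hprod : ∀ z, D z = ∏ i, H i z) :
    ∃ (C : ℂ) (T : PowerSeries ℂ), C ≠ 0 ∧ IsUnitalOver A T ∧ qExpansion (N : ℝ) D = C • T := by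
  have hNR : (0 : ℝ) < N := Nat.cast_pos.mpr hN
  have hperN : Function.Periodic (D ∘ ofComplex) (N : ℝ) := by
    have := hD.per.nat_mul N
    simpa using this
  have hDan : AnalyticAt ℂ (cuspFunction (N : ℝ) D) 0 :=
    analyticAt_cuspFunction_zero hNR hperN hD.holo hD.bdd
  have hfun : ∏ i, (c i • H i) = (∏ i, c i) • D := by
    ext z
    simp [Finset.prod_apply, hprod z, Finset.prod_mul_distrib]
  have h1 : qExpansion (N : ℝ) (∏ i, (c i • H i)) = ∏ i, qExpansion (N : ℝ) (c i • H i) :=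
    UpperHalfPlane.qExpansion_prod Finset.univ fun i _ => han i
  have h2 : qExpansion (N : ℝ) ((∏ i, c i) • D) = (∏ i, c i) • qExpansion (N : ℝ) D :=
    qExpansion_smul hDan _
  have hC : (∏ i, c i) ≠ 0 := Finset.prod_ne_zero_iff.mpr fun i _ => hc i
  refine ⟨(∏ i, c i)⁻¹, ∏ i, qExpansion (N : ℝ) (c i • H i), inv_ne_zero hC,
    IsUnitalOver.prod _ fun i _ => hun i, ?_⟩
  rw [← h1, hfun, h2, smul_smul, inv_mul_cancel₀ hC, one_smul]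

/-- Level one input in the shape of `Fermat.Agent.S23.levelOne_int_span`. -/
theorem hasFGCoeffs_of_int_span {k : ℤ} {g : ℍ → ℂ}
    (h : ∃ (n : ℕ) (c : Fin n → ℂ) (b : Fin n → ℍ → ℂ),
      (∀ i, IsMF 𝒮ℒ k (b i)) ∧ (∀ i j, ∃ m : ℤ, (qExpansion 1 (b i)).coeff j = m) ∧
      g = ∑ i, c i • b i) : HasFGCoeffs (qExpansion 1 g) := by
  obtain ⟨n, c, b, hb, hint, rfl⟩ := h
  have hnice : ∀ i ∈ Finset.univ, Nice (c i • b i) := fun i _ => (hb i).niceSL.smul (c i)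
  rw [Nice.qExp_sum Finset.univ hnice]
  refine HasFGCoeffs.sum _ fun i _ => ?_
  rw [(hb i).niceSL.qExp_smul]
  exact (HasFGCoeffs.of_int (hint i)).smul _

/-- **Key Lemma K, assembly.** -/
theorem hasFGCoeffs_of_parts (N : ℕ) [NeZero N] (A : Subalgebra ℤ ℂ) (hA : Module.Finite ℤ A)
    (hlev : ∀ (k : ℤ) (g : ℍ → ℂ), IsMF 𝒮ℒ k g → HasFGCoeffs (qExpansion 1 g))
    {w : ℤ} {F : ℍ → ℂ} (hF : IsMF (G0 N) w F)
    (hFint : HasFGCoeffs (qExpansion 1 F))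
    (hconj : ∀ γ : SL(2, ℤ), γ ∉ CongruenceSubgroup.Gamma0 N → ∃ c : ℂ, c ≠ 0 ∧
      AnalyticAt ℂ (cuspFunction (N : ℝ) (c • (F - F ∣[w] γ))) 0 ∧
      IsUnitalOver A (qExpansion (N : ℝ) (c • (F - F ∣[w] γ))))
    (htrace : ∃ (m : ℕ) (ψ : ℕ → ℍ → ℂ) (ι : Type) (_ : Fintype ι) (γ : ι → SL(2, ℤ)),
      0 < m ∧ (∀ e : ℕ, IsMF 𝒮ℒ (w * e) (ψ e)) ∧
      (∀ i, γ i ∉ CongruenceSubgroup.Gamma0 N) ∧
      (∀ z, ∑ e ∈ Finset.range m, ψ e z * F z ^ (m - 1 - e) = ∏ i, (F z - (F ∣[w] γ i) z)) ∧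
      ∀ (k : ℤ) (f : ℍ → ℂ), IsMF (G0 N) k f →
        ∃ q : ℕ → ℍ → ℂ, (∀ e : ℕ, IsMF 𝒮ℒ (k + w * e) (q e)) ∧
          ∀ z, f z * ∑ e ∈ Finset.range m, ψ e z * F z ^ (m - 1 - e)
            = ∑ e ∈ Finset.range m, q e z * F z ^ (m - 1 - e))
    {k : ℤ} {f : ℍ → ℂ} (hf : IsMF (G0 N) k f) : HasFGCoeffs (qExpansion 1 f) := by
  obtain ⟨m, ψ, ι, _, γ, hm, hψ, hγ, hD, hq⟩ := htrace
  obtain ⟨q, hq1, hq2⟩ := hq k f hf
  have hFn : Nice F := hF.niceG0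
  have hfn : Nice f := hf.niceG0
  set D : ℍ → ℂ := ∑ e ∈ Finset.range m, ψ e * F ^ (m - 1 - e) with hDdef
  have hDn : Nice D := Nice.sum _ fun e _ => (hψ e).niceSL.mul (hFn.pow _)
  have hDz : ∀ z, D z = ∏ i, (F z - (F ∣[w] γ i) z) := by
    intro z
    rw [← hD z]
    simp [D, Finset.sum_apply]
  choose c hc han hun using fun i => hconj (γ i) (hγ i)
  obtain ⟨C, T, hC, hT, hDN⟩ := qExpansion_nat_of_prod (A := A) (NeZero.pos N) hDn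
    (fun i => F - F ∣[w] γ i) c hc han hun (by intro z; rw [hDz z]; rfl)
  obtain ⟨c', μ, R, hc', hR0, hR, hD1⟩ := qExpansion_one_of_nat hDn (NeZero.pos N) hC hT hDN
  have hrhs : f * D = ∑ e ∈ Finset.range m, q e * F ^ (m - 1 - e) := by
    ext z
    have := hq2 z
    simp only [Pi.mul_apply, D, Finset.sum_apply, Pi.pow_apply]
    exact this
  have hQ : HasFGCoeffs (qExpansion 1 (f * D)) := by
    rw [hrhs, Nice.qExp_sum _ fun e _ => (hq1 e).niceSL.mul (hFn.pow _)]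
    refine HasFGCoeffs.sum _ fun e _ => ?_
    rw [(hq1 e).niceSL.qExp_mul (hFn.pow _), hFn.qExp_pow]
    exact (hlev _ _ (hq1 e)).mul (hFint.pow _)
  rw [hfn.qExp_mul hDn, hD1] at hQ
  exact HasFGCoeffs.of_mul_eq hc' A hA hR0 hR hQ rfl

/-- Level one modular forms have `q`-coefficients in a finitely generated `ℤ`-module. -/
theorem hasFGCoeffs_levelOne {k : ℤ} {g : ℍ → ℂ} (hg : IsMF 𝒮ℒ k g) :
    HasFGCoeffs (qExpansion 1 g) :=
  hasFGCoeffs_of_int_span (levelOne_int_span hg)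

/-- **Key Lemma K** from the conjugate expansions of an auxiliary form `F` (Module C) and the
trace package for `F` (Module D). -/
theorem keyLemma_of_conj_trace (N : ℕ) [NeZero N] (A : Subalgebra ℤ ℂ) (hA : Module.Finite ℤ A)
    {w : ℤ} {F : ℍ → ℂ} (hF : IsMF (G0 N) w F)
    (hFint : ∀ n, ∃ m : ℤ, (qExpansion 1 F).coeff n = m)
    (hconj : ∀ γ : SL(2, ℤ), γ ∉ CongruenceSubgroup.Gamma0 N → ∃ c : ℂ, c ≠ 0 ∧
      AnalyticAt ℂ (cuspFunction (N : ℝ) (c • (F - F ∣[w] γ))) 0 ∧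
      IsUnitalOver A (qExpansion (N : ℝ) (c • (F - F ∣[w] γ))))
    (htrace : ∃ (m : ℕ) (ψ : ℕ → ℍ → ℂ) (ι : Type) (_ : Fintype ι) (γ : ι → SL(2, ℤ)),
      0 < m ∧ (∀ e : ℕ, IsMF 𝒮ℒ (w * e) (ψ e)) ∧
      (∀ i, γ i ∉ CongruenceSubgroup.Gamma0 N) ∧
      (∀ z, ∑ e ∈ Finset.range m, ψ e z * F z ^ (m - 1 - e) = ∏ i, (F z - (F ∣[w] γ i) z)) ∧
      ∀ (k : ℤ) (f : ℍ → ℂ), IsMF (G0 N) k f →
        ∃ q : ℕ → ℍ → ℂ, (∀ e : ℕ, IsMF 𝒮ℒ (k + w * e) (q e)) ∧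
          ∀ z, f z * ∑ e ∈ Finset.range m, ψ e z * F z ^ (m - 1 - e)
            = ∑ e ∈ Finset.range m, q e z * F z ^ (m - 1 - e))
    {k : ℤ} {f : ℍ → ℂ} (hf : IsMF (G0 N) k f) : HasFGCoeffs (qExpansion 1 f) :=
  hasFGCoeffs_of_parts N A hA (fun _ _ hg => hasFGCoeffs_levelOne hg) hF
    (HasFGCoeffs.of_int hFint) hconj htrace hf

/-- **S22 from Modules C and D**: finiteness of the Hecke algebra, all weights, all `S`. -/
theorem finite_heckeAlgebra_of_conj_trace (N : ℕ) [NeZero N] (k : ℤ) (S : Set ℕ)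
    (A : Subalgebra ℤ ℂ) (hA : Module.Finite ℤ A)
    {w : ℤ} {F : ℍ → ℂ} (hF : IsMF (G0 N) w F)
    (hFint : ∀ n, ∃ m : ℤ, (qExpansion 1 F).coeff n = m)
    (hconj : ∀ γ : SL(2, ℤ), γ ∉ CongruenceSubgroup.Gamma0 N → ∃ c : ℂ, c ≠ 0 ∧
      AnalyticAt ℂ (cuspFunction (N : ℝ) (c • (F - F ∣[w] γ))) 0 ∧
      IsUnitalOver A (qExpansion (N : ℝ) (c • (F - F ∣[w] γ))))
    (htrace : ∃ (m : ℕ) (ψ : ℕ → ℍ → ℂ) (ι : Type) (_ : Fintype ι) (γ : ι → SL(2, ℤ)),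
      0 < m ∧ (∀ e : ℕ, IsMF 𝒮ℒ (w * e) (ψ e)) ∧
      (∀ i, γ i ∉ CongruenceSubgroup.Gamma0 N) ∧
      (∀ z, ∑ e ∈ Finset.range m, ψ e z * F z ^ (m - 1 - e) = ∏ i, (F z - (F ∣[w] γ i) z)) ∧
      ∀ (k : ℤ) (f : ℍ → ℂ), IsMF (G0 N) k f →
        ∃ q : ℕ → ℍ → ℂ, (∀ e : ℕ, IsMF 𝒮ℒ (k + w * e) (q e)) ∧
          ∀ z, f z * ∑ e ∈ Finset.range m, ψ e z * F z ^ (m - 1 - e)
            = ∑ e ∈ Finset.range m, q e z * F z ^ (m - 1 - e)) :
    Module.Finite ℤ (CuspForm.heckeAlgebra N k S) :=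
  finite_heckeAlgebra_of_coeff_fg N k S fun f =>
    keyLemma_of_conj_trace N A hA hF hFint hconj htrace (IsCF.coe f).isMF

/-- **Bounded denominators (S23 module I) from Modules C and D.** -/
theorem bddDenom_of_conj_trace (N : ℕ) [NeZero N] (A : Subalgebra ℤ ℂ) (hA : Module.Finite ℤ A)
    {w : ℤ} {F : ℍ → ℂ} (hF : IsMF (G0 N) w F)
    (hFint : ∀ n, ∃ m : ℤ, (qExpansion 1 F).coeff n = m)
    (hconj : ∀ γ : SL(2, ℤ), γ ∉ CongruenceSubgroup.Gamma0 N → ∃ c : ℂ, c ≠ 0 ∧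
      AnalyticAt ℂ (cuspFunction (N : ℝ) (c • (F - F ∣[w] γ))) 0 ∧
      IsUnitalOver A (qExpansion (N : ℝ) (c • (F - F ∣[w] γ))))
    (htrace : ∃ (m : ℕ) (ψ : ℕ → ℍ → ℂ) (ι : Type) (_ : Fintype ι) (γ : ι → SL(2, ℤ)),
      0 < m ∧ (∀ e : ℕ, IsMF 𝒮ℒ (w * e) (ψ e)) ∧
      (∀ i, γ i ∉ CongruenceSubgroup.Gamma0 N) ∧
      (∀ z, ∑ e ∈ Finset.range m, ψ e z * F z ^ (m - 1 - e) = ∏ i, (F z - (F ∣[w] γ i) z)) ∧
      ∀ (k : ℤ) (f : ℍ → ℂ), IsMF (G0 N) k f →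
        ∃ q : ℕ → ℍ → ℂ, (∀ e : ℕ, IsMF 𝒮ℒ (k + w * e) (q e)) ∧
          ∀ z, f z * ∑ e ∈ Finset.range m, ψ e z * F z ^ (m - 1 - e)
            = ∑ e ∈ Finset.range m, q e z * F z ^ (m - 1 - e))
    {k : ℤ} {f : ℍ → ℂ} (hf : IsMF (G0 N) k f)
    (hrat : ∀ n, ∃ r : ℚ, (qExpansion 1 f).coeff n = r) :
    ∃ M : ℕ, 0 < M ∧ ∀ n, ∃ m : ℤ, (M : ℂ) * (qExpansion 1 f).coeff n = m :=
  (keyLemma_of_conj_trace N A hA hF hFint hconj htrace hf).exists_denominator hrat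

end Fermat.Agent.Lib.KeyLemmaK
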