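import Mathlib
import Fermat.Prelude.Def_ModularCurve_X0
import Fermat.Prelude.Def_ModularCurve_LaurentCoeff

/-!
# Kronecker congruence on Laurent series (core, S18-independent)

* `twist u : R((q)) →+* R((q))`, `f(q) ↦ f(u q)`;
* descent: a series fixed by `twist ζ` (`ζ` a primitive `ℓ`-th root of unity, `R` a domain) is of
  the form `g(q^ℓ)`;
* `conjProd ζ ℓ f = ∏_{b<ℓ} (Y - f(ζ^b q))` descends to a polynomial `phi ζ ℓ f` in `q^ℓ`;
* congruence: under `π : R → k`, `char k = ℓ`, `π ζ = 1`: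
  `phi ζ ℓ f ↦ Y^ℓ - (coefficientwise Frobenius of π f)`.
-/

set_option autoImplicit false

noncomputable section

namespace Fermat.Agent.Lib.KroneckerCong

open ModularCurve Polynomial

variable {R : Type*} [CommRing R]

/-! ### (K0) the twist `f(q) ↦ f(u q)` -/

/-- Underlying function of `twist`. -/
def twistFun (u : Rˣ) (f : LaurentSeries R) : LaurentSeries R where
  coeff n := ((u ^ n : Rˣ) : R) * f.coeff n
  isPWO_support' := f.isPWO_support.mono (fun n hn => by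
    simp only [Function.mem_support, ne_eq] at hn ⊢
    intro h; exact hn (by rw [h, mul_zero]))

lemma twistFun_coeff (u : Rˣ) (f : LaurentSeries R) (n : ℤ) :
    (twistFun u f).coeff n = ((u ^ n : Rˣ) : R) * f.coeff n := rfl

lemma support_twistFun (u : Rˣ) (f : LaurentSeries R) :
    (twistFun u f).support = f.support := by
  ext n
  simp only [HahnSeries.mem_support, twistFun_coeff, ne_eq]
  rw [Units.mul_right_eq_zero]

lemma twistFun_mul (u : Rˣ) (f g : LaurentSeries R) :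
    twistFun u (f * g) = twistFun u f * twistFun u g := by
  ext n
  rw [twistFun_coeff, HahnSeries.coeff_mul, HahnSeries.coeff_mul, Finset.mul_sum]
  have hs : Finset.antidiagonal (twistFun u f).isPWO_support (twistFun u g).isPWO_support n
      = Finset.antidiagonal f.isPWO_support g.isPWO_support n := by
    ext ij
    simp only [Finset.mem_antidiagonal, support_twistFun]
  rw [hs]
  refine Finset.sum_congr rfl fun ij hij => ?_
  obtain ⟨-, -, h⟩ := Finset.mem_antidiagonal.mp hij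
  rw [twistFun_coeff, twistFun_coeff, ← h, zpow_add, Units.val_mul]
  ring

/-- `twist u f (q) = f (u q)`: the coefficient of `q^n` is multiplied by `u^n`. -/
def twist (u : Rˣ) : LaurentSeries R →+* LaurentSeries R where
  toFun := twistFun u
  map_one' := by
    ext n
    rw [twistFun_coeff, HahnSeries.coeff_one]
    split_ifs with h
    · subst h; simp
    · simp
  map_mul' := twistFun_mul u
  map_zero' := by
    ext n
    rw [twistFun_coeff]; simp
  map_add' f g := by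
    ext n
    rw [HahnSeries.coeff_add, twistFun_coeff, twistFun_coeff, twistFun_coeff, HahnSeries.coeff_add,
      mul_add]

@[simp]
lemma twist_coeff (u : Rˣ) (f : LaurentSeries R) (n : ℤ) :
    (twist u f).coeff n = ((u ^ n : Rˣ) : R) * f.coeff n := rfl

@[simp]
lemma twist_one (f : LaurentSeries R) : twist (1 : Rˣ) f = f := by
  ext n; simp

lemma twist_twist (u v : Rˣ) (f : LaurentSeries R) : twist u (twist v f) = twist (u * v) f := by
  ext n
  rw [twist_coeff, twist_coeff, twist_coeff, mul_zpow, Units.val_mul, mul_assoc]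

lemma twist_injective (u : Rˣ) : Function.Injective (twist u : LaurentSeries R → LaurentSeries R) := by
  intro f g h
  have := congrArg (twist u⁻¹) h
  simpa [twist_twist] using this

lemma twist_single (u : Rˣ) (n : ℤ) (r : R) :
    twist u (HahnSeries.single n r) = HahnSeries.single n (((u ^ n : Rˣ) : R) * r) := by
  ext m
  rw [twist_coeff]
  rcases eq_or_ne m n with rfl | hm
  · rw [HahnSeries.coeff_single_same, HahnSeries.coeff_single_same]
  · rw [HahnSeries.coeff_single_of_ne hm, HahnSeries.coeff_single_of_ne hm, mul_zero]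

lemma twist_C (u : Rˣ) (r : R) : twist u (HahnSeries.C r) = HahnSeries.C r := by
  rw [HahnSeries.C_apply, twist_single]; simp

lemma coeffMap_twist {S : Type*} [CommRing S] (π : R →+* S) (u : Rˣ) (f : LaurentSeries R) :
    coeffMap π (twist u f) = twist (Units.map (π : R →* S) u) (coeffMap π f) := by
  ext n
  rw [coeffMap_coeff, twist_coeff, twist_coeff, coeffMap_coeff, map_mul, ← map_zpow,
    Units.coe_map]
  rfl

lemma twist_qExpand (u : Rˣ) (ℓ : ℕ) [NeZero ℓ] (f : LaurentSeries R) :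
    twist u (qExpand R ℓ f) = qExpand R ℓ (twist (u ^ ℓ) f) := by
  ext n
  by_cases hn : (ℓ : ℤ) ∣ n
  · obtain ⟨k, rfl⟩ := hn
    rw [twist_coeff, qExpand_coeff_mul, qExpand_coeff_mul, twist_coeff, zpow_mul, zpow_natCast]
  · rw [twist_coeff, qExpand_coeff_of_not_dvd ℓ _ hn, qExpand_coeff_of_not_dvd ℓ _ hn, mul_zero]

lemma twist_qExpand_of_pow_eq_one {u : Rˣ} {ℓ : ℕ} [NeZero ℓ] (hu : u ^ ℓ = 1)
    (f : LaurentSeries R) : twist u (qExpand R ℓ f) = qExpand R ℓ f := by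
  rw [twist_qExpand, hu, twist_one]

/-! ### (K1) descent to `q^ℓ` -/

lemma mem_range_qExpand_iff (ℓ : ℕ) [NeZero ℓ] (g : LaurentSeries R) :
    g ∈ Set.range (qExpand R ℓ) ↔ ∀ n : ℤ, ¬ (ℓ : ℤ) ∣ n → g.coeff n = 0 := by
  constructor
  · rintro ⟨g', rfl⟩ n hn
    exact qExpand_coeff_of_not_dvd ℓ g' hn
  · intro h
    have hℓ : (0 : ℤ) < ℓ := by exact_mod_cast Nat.pos_of_ne_zero (NeZero.ne ℓ)
    have hb : BddBelow (Function.support fun k : ℤ => g.coeff ((ℓ : ℤ) * k)) := by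
      refine ⟨min g.order 0, fun m hm' => ?_⟩
      by_contra hm
      rw [not_le] at hm
      apply hm'
      show g.coeff ((ℓ : ℤ) * m) = 0
      refine HahnSeries.coeff_eq_zero_of_lt_order ?_
      have h1 : m < g.order := lt_of_lt_of_le hm (min_le_left _ _)
      have h2 : m < 0 := lt_of_lt_of_le hm (min_le_right _ _)
      have h3 : (ℓ : ℤ) * m ≤ m := by nlinarith
      exact lt_of_le_of_lt h3 h1
    refine ⟨HahnSeries.ofSuppBddBelow _ hb, ?_⟩
    ext n
    by_cases hn : (ℓ : ℤ) ∣ n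
    · obtain ⟨k, rfl⟩ := hn
      rw [qExpand_coeff_mul, HahnSeries.coeff_ofSuppBddBelow]
    · rw [qExpand_coeff_of_not_dvd ℓ _ hn, h n hn]

lemma mem_range_qExpand_of_twist_eq [IsDomain R] {ℓ : ℕ} [NeZero ℓ] {ζ : Rˣ}
    (hζ : IsPrimitiveRoot ζ ℓ) {g : LaurentSeries R} (h : twist ζ g = g) :
    g ∈ Set.range (qExpand R ℓ) := by
  rw [mem_range_qExpand_iff]
  intro n hn
  have h1 := congrArg (fun x => x.coeff n) h
  simp only [twist_coeff] at h1
  have h2 : (((ζ ^ n : Rˣ) : R) - 1) * g.coeff n = 0 := by rw [sub_mul, h1, one_mul, sub_self]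
  rcases mul_eq_zero.mp h2 with h3 | h3
  · exfalso
    apply hn
    rw [← hζ.zpow_eq_one_iff_dvd]
    exact Units.ext (by simpa using sub_eq_zero.mp h3)
  · exact h3

/-- `∏_{b<ℓ} (Y - f(ζ^b q))`. -/
def conjProd (ζ : Rˣ) (ℓ : ℕ) (f : LaurentSeries R) : (LaurentSeries R)[X] :=
  ∏ b ∈ Finset.range ℓ, (X - C (twist (ζ ^ b) f))

lemma conjProd_monic (ζ : Rˣ) (ℓ : ℕ) (f : LaurentSeries R) : (conjProd ζ ℓ f).Monic :=
  monic_prod_of_monic _ _ fun _ _ => monic_X_sub_C _

lemma natDegree_conjProd [Nontrivial R] (ζ : Rˣ) (ℓ : ℕ) (f : LaurentSeries R) :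
    (conjProd ζ ℓ f).natDegree = ℓ := by
  rw [conjProd, natDegree_prod_of_monic _ _ fun _ _ => monic_X_sub_C _]
  simp

lemma map_twist_conjProd {ζ : Rˣ} {ℓ : ℕ} (hζ : ζ ^ ℓ = 1) (f : LaurentSeries R) :
    (conjProd ζ ℓ f).map (twist ζ) = conjProd ζ ℓ f := by
  rw [conjProd, Polynomial.map_prod]
  have h1 : ∀ b : ℕ, (X - C (twist (ζ ^ b) f)).map (twist ζ) = X - C (twist (ζ ^ (b + 1)) f) := by
    intro b
    rw [Polynomial.map_sub, map_X, map_C, twist_twist, pow_succ']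
  simp only [h1]
  rcases ℓ with _ | m
  · simp
  · rw [Finset.prod_range_succ, Finset.prod_range_succ' (fun b => X - C (twist (ζ ^ b) f)), hζ,
      pow_zero]

lemma conjProd_mem_lifts [IsDomain R] {ℓ : ℕ} [NeZero ℓ] {ζ : Rˣ} (hζ : IsPrimitiveRoot ζ ℓ)
    (f : LaurentSeries R) : conjProd ζ ℓ f ∈ Polynomial.lifts (qExpand R ℓ) := by
  rw [Polynomial.lifts_iff_coeff_lifts]
  intro n
  apply mem_range_qExpand_of_twist_eq hζ
  have h := congrArg (fun P => P.coeff n) (map_twist_conjProd hζ.pow_eq_one f)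
  simpa [coeff_map] using h

/-- The polynomial `Φ_f` over `R((q))` with `Φ_f(q^ℓ) = ∏_{b<ℓ} (Y - f(ζ^b q))`. -/
def phi [IsDomain R] {ℓ : ℕ} [NeZero ℓ] {ζ : Rˣ} (hζ : IsPrimitiveRoot ζ ℓ)
    (f : LaurentSeries R) : (LaurentSeries R)[X] :=
  Classical.choose ((Polynomial.mem_lifts _).mp (conjProd_mem_lifts hζ f))

lemma phi_map [IsDomain R] {ℓ : ℕ} [NeZero ℓ] {ζ : Rˣ} (hζ : IsPrimitiveRoot ζ ℓ)
    (f : LaurentSeries R) : (phi hζ f).map (qExpand R ℓ) = conjProd ζ ℓ f :=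
  Classical.choose_spec ((Polynomial.mem_lifts _).mp (conjProd_mem_lifts hζ f))

lemma eq_phi_of_map [IsDomain R] {ℓ : ℕ} [NeZero ℓ] {ζ : Rˣ} (hζ : IsPrimitiveRoot ζ ℓ)
    (f : LaurentSeries R) {P : (LaurentSeries R)[X]} (hP : P.map (qExpand R ℓ) = conjProd ζ ℓ f) :
    P = phi hζ f :=
  Polynomial.map_injective _ (qExpand_injective ℓ) (hP.trans (phi_map hζ f).symm)

lemma phi_monic [IsDomain R] {ℓ : ℕ} [NeZero ℓ] {ζ : Rˣ} (hζ : IsPrimitiveRoot ζ ℓ)
    (f : LaurentSeries R) : (phi hζ f).Monic := by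
  have h := conjProd_monic ζ ℓ f
  rw [← phi_map hζ f] at h
  exact Polynomial.monic_of_injective (qExpand_injective ℓ) h

lemma natDegree_phi [IsDomain R] {ℓ : ℕ} [NeZero ℓ] {ζ : Rˣ} (hζ : IsPrimitiveRoot ζ ℓ)
    (f : LaurentSeries R) : (phi hζ f).natDegree = ℓ := by
  have h := natDegree_conjProd ζ ℓ f
  rw [← phi_map hζ f, Polynomial.natDegree_map_eq_of_injective (qExpand_injective ℓ)] at h
  exact h

lemma eval_conjProd (ζ : Rˣ) (ℓ : ℕ) (f c : LaurentSeries R) :
    (conjProd ζ ℓ f).eval c = ∏ b ∈ Finset.range ℓ, (c - twist (ζ ^ b) f) := by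
  rw [conjProd, Polynomial.eval_prod]
  simp

/-- Norm form: `Φ_f(c)(q^ℓ) = ∏_{b<ℓ} (c(q^ℓ) - f(ζ^b q))`. -/
lemma qExpand_eval_phi [IsDomain R] {ℓ : ℕ} [NeZero ℓ] {ζ : Rˣ} (hζ : IsPrimitiveRoot ζ ℓ)
    (f c : LaurentSeries R) :
    qExpand R ℓ ((phi hζ f).eval c) = ∏ b ∈ Finset.range ℓ, (qExpand R ℓ c - twist (ζ ^ b) f) := by
  rw [← eval_conjProd, ← phi_map hζ f, Polynomial.eval_map, Polynomial.eval₂_at_apply]

/-! ### (K2) Frobenius on Laurent series and the congruence -/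

section Frobenius

variable {k : Type*} [CommRing k]

lemma coeffMap_comm_qExpand {S : Type*} [CommRing S] (π : R →+* S) (n : ℕ) [NeZero n]
    (x : LaurentSeries R) : coeffMap π (qExpand R n x) = qExpand S n (coeffMap π x) := by
  ext m
  by_cases hm : (n : ℤ) ∣ m
  · obtain ⟨j, rfl⟩ := hm
    rw [coeffMap_coeff, qExpand_coeff_mul, qExpand_coeff_mul, coeffMap_coeff]
  · rw [coeffMap_coeff, qExpand_coeff_of_not_dvd n _ hm, qExpand_coeff_of_not_dvd n _ hm,
      map_zero]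

lemma coeffMap_ofPowerSeries {S : Type*} [CommRing S] (π : R →+* S) (g : PowerSeries R) :
    coeffMap π (HahnSeries.ofPowerSeries ℤ R g) = HahnSeries.ofPowerSeries ℤ S (g.map π) := by
  ext n
  rw [coeffMap_coeff]
  rcases lt_or_ge n 0 with hn | hn
  · rw [ofPowerSeries_coeff_of_neg _ hn, ofPowerSeries_coeff_of_neg _ hn, map_zero]
  · lift n to ℕ using hn
    rw [HahnSeries.ofPowerSeries_apply_coeff, HahnSeries.ofPowerSeries_apply_coeff,
      PowerSeries.coeff_map]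

lemma qExpand_ofPowerSeries (ℓ : ℕ) [NeZero ℓ] (g : PowerSeries R) :
    qExpand R ℓ (HahnSeries.ofPowerSeries ℤ R g)
      = HahnSeries.ofPowerSeries ℤ R (g.expand ℓ (NeZero.ne ℓ)) := by
  have hℓ : (0 : ℤ) < ℓ := by exact_mod_cast Nat.pos_of_ne_zero (NeZero.ne ℓ)
  ext n
  by_cases hn : (ℓ : ℤ) ∣ n
  · obtain ⟨j, rfl⟩ := hn
    rw [qExpand_coeff_mul]
    rcases lt_or_ge j 0 with hj | hj
    · rw [ofPowerSeries_coeff_of_neg _ hj, ofPowerSeries_coeff_of_neg _ (by nlinarith)]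
    · lift j to ℕ using hj
      rw [HahnSeries.ofPowerSeries_apply_coeff,
        show ((ℓ : ℤ) * (j : ℤ)) = ((ℓ * j : ℕ) : ℤ) by push_cast; ring,
        HahnSeries.ofPowerSeries_apply_coeff, PowerSeries.coeff_expand_mul]
  · rw [qExpand_coeff_of_not_dvd ℓ _ hn]
    rcases lt_or_ge n 0 with hn0 | hn0
    · rw [ofPowerSeries_coeff_of_neg _ hn0]
    · lift n to ℕ using hn0
      rw [HahnSeries.ofPowerSeries_apply_coeff, PowerSeries.coeff_expand_of_not_dvd]
      exact_mod_cast hn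

/-- In characteristic `ℓ`: `x(q)^ℓ = x^{(ℓ)}(q^ℓ)` (coefficientwise Frobenius, then `q ↦ q^ℓ`). -/
lemma pow_char_eq (ℓ : ℕ) [NeZero ℓ] [Fact ℓ.Prime] [CharP k ℓ] (x : LaurentSeries k) :
    x ^ ℓ = qExpand k ℓ (coeffMap (frobenius k ℓ) x) := by
  have : CharP (LaurentSeries k) ℓ :=
    charP_of_injective_ringHom (f := (HahnSeries.C : k →+* LaurentSeries k))
      HahnSeries.C_injective ℓ
  have key : frobenius (LaurentSeries k) ℓ = (qExpand k ℓ).comp (coeffMap (frobenius k ℓ)) := by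
    refine IsLocalization.ringHom_ext (Submonoid.powers (PowerSeries.X : PowerSeries k)) ?_
    refine RingHom.ext fun g => ?_
    simp only [RingHom.comp_apply, LaurentSeries.coe_algebraMap, frobenius_def]
    rw [coeffMap_ofPowerSeries, qExpand_ofPowerSeries, ← map_pow]
    rw [← PowerSeries.map_expand]
    exact congrArg (HahnSeries.ofPowerSeries ℤ k)
      (MvPowerSeries.map_frobenius_expand (R := k) ℓ (NeZero.ne ℓ) (f := g)).symm
  have := congrArg (fun φ : LaurentSeries k →+* LaurentSeries k => φ x) key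
  simpa [frobenius_def] using this

lemma conjProd_map_coeffMap {ℓ : ℕ} [Fact ℓ.Prime] [CharP k ℓ] {ζ : Rˣ} (π : R →+* k)
    (hπ : π (ζ : R) = 1) (f : LaurentSeries R) :
    (conjProd ζ ℓ f).map (coeffMap π) = X ^ ℓ - C ((coeffMap π f) ^ ℓ) := by
  have : CharP (LaurentSeries k) ℓ :=
    charP_of_injective_ringHom (f := (HahnSeries.C : k →+* LaurentSeries k))
      HahnSeries.C_injective ℓ
  rw [conjProd, Polynomial.map_prod]
  have h1 : ∀ b : ℕ, (X - C (twist (ζ ^ b) f)).map (coeffMap π) = X - C (coeffMap π f) := by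
    intro b
    rw [Polynomial.map_sub, map_X, map_C, coeffMap_twist]
    have h2 : Units.map (π : R →* k) (ζ ^ b) = 1 := by
      ext
      simp [hπ]
    rw [h2, twist_one]
  simp only [h1, Finset.prod_const, Finset.card_range]
  rw [sub_pow_char, ← C_pow]

/-- **Kronecker congruence**, coefficient form: `Φ_f ≡ Y^ℓ - f^{(ℓ)}` modulo any `π : R → k` with
`char k = ℓ` and `π ζ = 1`. -/
theorem phi_map_coeffMap [IsDomain R] {ℓ : ℕ} [NeZero ℓ] [Fact ℓ.Prime] [CharP k ℓ] {ζ : Rˣ}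
    (hζ : IsPrimitiveRoot ζ ℓ) (π : R →+* k) (hπ : π (ζ : R) = 1) (f : LaurentSeries R) :
    (phi hζ f).map (coeffMap π) = X ^ ℓ - C (coeffMap (frobenius k ℓ) (coeffMap π f)) := by
  apply Polynomial.map_injective _ (qExpand_injective (R := k) ℓ)
  have hcomm : (qExpand k ℓ).comp (coeffMap π) = (coeffMap π).comp (qExpand R ℓ) := by
    ext1 x
    exact (coeffMap_comm_qExpand π ℓ x).symm
  rw [Polynomial.map_map, hcomm, ← Polynomial.map_map, phi_map, conjProd_map_coeffMap π hπ,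
    Polynomial.map_sub, Polynomial.map_pow, map_X, map_C, pow_char_eq]

/-- The other factor: `f(q^ℓ) ≡ (f^{(1/ℓ)})^ℓ`. -/
lemma coeffMap_qExpand_eq_pow {ℓ : ℕ} [NeZero ℓ] [Fact ℓ.Prime] [CharP k ℓ] (π : R →+* k)
    (s : k ≃+* k) (hs : ∀ x, s x ^ ℓ = x) (f : LaurentSeries R) :
    coeffMap π (qExpand R ℓ f) = (coeffMap (s : k →+* k) (coeffMap π f)) ^ ℓ := by
  rw [pow_char_eq, coeffMap_comm_qExpand, coeffMap_coeffMap]
  congr 1
  conv_lhs => rw [← coeffMap_id (coeffMap π f)]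
  refine coeffMap_congr ?_ _
  ext x
  simp [frobenius_def, hs]

/-- **Kronecker congruence** for `Χ_f := (Y - f(q^ℓ)) · Φ_f`:
`Χ_f ≡ (Y - (s f̄)^ℓ) · (Y^ℓ - f̄^{(ℓ)})`, `s` = inverse Frobenius of `k`. -/
theorem chi_map_coeffMap [IsDomain R] {ℓ : ℕ} [NeZero ℓ] [Fact ℓ.Prime] [CharP k ℓ] {ζ : Rˣ}
    (hζ : IsPrimitiveRoot ζ ℓ) (π : R →+* k) (hπ : π (ζ : R) = 1)
    (s : k ≃+* k) (hs : ∀ x, s x ^ ℓ = x) (f : LaurentSeries R) :
    ((X - C (qExpand R ℓ f)) * phi hζ f).map (coeffMap π)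
      = (X - C ((coeffMap (s : k →+* k) (coeffMap π f)) ^ ℓ))
        * (X ^ ℓ - C (coeffMap (frobenius k ℓ) (coeffMap π f))) := by
  rw [Polynomial.map_mul, phi_map_coeffMap hζ π hπ, Polynomial.map_sub, map_X, map_C,
    coeffMap_qExpand_eq_pow π s hs]

end Frobenius

end Fermat.Agent.Lib.KroneckerCong
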