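import Mathlib
import Fermat.Agent.Lib.KroneckerCong
import Fermat.Agent.S18.ContentBase

/-!
# Kronecker congruence in the content valuation ring `Ocal A` (S37 [KRON], (K3))

On top of `Lib/KroneckerCong` (twist, descent, congruence) and `S18/ContentBase` (`Ocal A`, `red A`):

* `twist` preserves `Ocal A` and commutes with `red`;
* `qExpand K ℓ g ∈ Ocal A ↔ g ∈ Ocal A`, and `red` commutes with `qExpand`;
* for `f ∈ Ocal A`: `phi hζ f` has coefficients in `Ocal A`, and its reduction is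
  `Y^ℓ - (coefficientwise Frobenius of red f)`.
-/

set_option autoImplicit false

noncomputable section

namespace Fermat.Agent.Lib.KroneckerCong

open ModularCurve Polynomial Fermat.Agent.S18.Content

/-! ### Decomposition of a Laurent series along the residues mod `ℓ` -/

section Decimate

variable {R : Type*} [CommRing R] (ℓ : ℕ) [NeZero ℓ]

/-- `dec ℓ r w = ∑_k w_{ℓ k + r} q^k`. -/
def dec (r : ℕ) (w : LaurentSeries R) : LaurentSeries R :=
  HahnSeries.ofSuppBddBelow (fun j : ℤ => w.coeff ((ℓ : ℤ) * j + r)) (by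
    have hℓ : (0 : ℤ) < ℓ := by exact_mod_cast Nat.pos_of_ne_zero (NeZero.ne ℓ)
    refine ⟨min (w.order - r) 0, fun m hm' => ?_⟩
    by_contra hm
    rw [not_le] at hm
    apply hm'
    show w.coeff ((ℓ : ℤ) * m + r) = 0
    refine HahnSeries.coeff_eq_zero_of_lt_order ?_
    have h1 : m < w.order - r := lt_of_lt_of_le hm (min_le_left _ _)
    have h2 : m < 0 := lt_of_lt_of_le hm (min_le_right _ _)
    have h3 : (ℓ : ℤ) * m ≤ m := by nlinarith
    linarith)

lemma dec_coeff (r : ℕ) (w : LaurentSeries R) (j : ℤ) :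
    (dec ℓ r w).coeff j = w.coeff ((ℓ : ℤ) * j + r) := rfl

lemma coeff_sum_single_mul_qExpand (a : ℕ → LaurentSeries R) (j : ℤ) {r : ℕ} (hr : r < ℓ) :
    (∑ s ∈ Finset.range ℓ, HahnSeries.single (s : ℤ) (1 : R) * qExpand R ℓ (a s)).coeff
      ((ℓ : ℤ) * j + r) = (a r).coeff j := by
  rw [HahnSeries.coeff_sum, Finset.sum_eq_single r]
  · have h1 : (ℓ : ℤ) * j + r = (ℓ : ℤ) * j + (r : ℤ) := rfl
    rw [HahnSeries.coeff_single_mul_add, one_mul, qExpand_coeff_mul]
  · intro s hs hsr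
    have hs' : s < ℓ := Finset.mem_range.mp hs
    have h1 : (ℓ : ℤ) * j + r = ((ℓ : ℤ) * j + r - s) + (s : ℤ) := by ring
    rw [h1, HahnSeries.coeff_single_mul_add, one_mul]
    refine qExpand_coeff_of_not_dvd ℓ _ ?_
    intro hdvd
    have h2 : (ℓ : ℤ) ∣ (r : ℤ) - s := by
      have h3 : (ℓ : ℤ) * j + r - s = (ℓ : ℤ) * j + ((r : ℤ) - s) := by ring
      rw [h3] at hdvd
      exact (Int.dvd_add_right (dvd_mul_right _ _)).mp hdvd
    have h4 : (r : ℤ) - s = 0 := by
      refine Int.eq_zero_of_abs_lt_dvd h2 ?_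
      rw [abs_lt]
      constructor <;> omega
    apply hsr
    omega
  · intro h
    exact absurd (Finset.mem_range.mpr hr) h

lemma sum_dec (w : LaurentSeries R) :
    ∑ s ∈ Finset.range ℓ, HahnSeries.single (s : ℤ) (1 : R) * qExpand R ℓ (dec ℓ s w) = w := by
  have hℓ : (0 : ℤ) < ℓ := by exact_mod_cast Nat.pos_of_ne_zero (NeZero.ne ℓ)
  ext n
  have h1 : n = (ℓ : ℤ) * (n / ℓ) + ((n % ℓ).toNat : ℕ) := by
    rw [Int.toNat_of_nonneg (Int.emod_nonneg n hℓ.ne')]
    exact (Int.mul_ediv_add_emod n ℓ).symm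
  have h2 : (n % ℓ).toNat < ℓ := by
    have := Int.emod_lt_of_pos n hℓ
    have h0 := Int.emod_nonneg n hℓ.ne'
    omega
  conv_lhs => rw [h1]
  rw [coeff_sum_single_mul_qExpand ℓ _ _ h2, dec_coeff, ← h1]

lemma eq_of_sum_single_mul_qExpand_eq {a b : ℕ → LaurentSeries R}
    (h : ∑ s ∈ Finset.range ℓ, HahnSeries.single (s : ℤ) (1 : R) * qExpand R ℓ (a s)
      = ∑ s ∈ Finset.range ℓ, HahnSeries.single (s : ℤ) (1 : R) * qExpand R ℓ (b s))
    {r : ℕ} (hr : r < ℓ) : a r = b r := by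
  ext j
  rw [← coeff_sum_single_mul_qExpand ℓ a j hr, ← coeff_sum_single_mul_qExpand ℓ b j hr, h]

end Decimate

/-! ### `twist`, `qExpand` and `Ocal` -/

section OcalPart

variable {K : Type*} [Field K] (A : ValuationSubring K)

/-- The image of a unit of `A` in `K`. -/
abbrev unitK : Aˣ →* Kˣ := Units.map ((A.subtype : A →+* K) : A →* K)

/-- The image of a unit of `A` in the residue field. -/
abbrev unitk : Aˣ →* (IsLocalRing.ResidueField A)ˣ :=
  Units.map ((IsLocalRing.residue A : A →+* IsLocalRing.ResidueField A) : A →* _)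

lemma iota_twist (u : Aˣ) (w : LaurentSeries A) :
    iota A (twist u w) = twist (unitK A u) (iota A w) := coeffMap_twist _ u w

lemma rho_twist (u : Aˣ) (w : LaurentSeries A) :
    rho A (twist u w) = twist (unitk A u) (rho A w) := coeffMap_twist _ u w

theorem twist_mem_Ocal (u : Aˣ) {y : LaurentSeries K} (hy : y ∈ Ocal A) :
    twist (unitK A u) y ∈ Ocal A := by
  obtain ⟨u₀, v, hv, h⟩ := hy
  refine ⟨twist u u₀, twist u v, ?_, ?_⟩
  · rw [rho_twist]
    intro h0
    exact hv (twist_injective _ (h0.trans (map_zero _).symm))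
  · rw [iota_twist, iota_twist, ← map_mul, h]

theorem red_twist (u : Aˣ) (y : Ocal A) :
    red A ⟨_, twist_mem_Ocal A u y.2⟩ = twist (unitk A u) (red A y) := by
  obtain ⟨u₀, v, hv, h⟩ := y.2
  have hv' : rho A (twist u v) ≠ 0 := by
    rw [rho_twist]
    intro h0
    exact hv (twist_injective _ (h0.trans (map_zero _).symm))
  have h' : twist (unitK A u) (y : LaurentSeries K) * iota A (twist u v) = iota A (twist u u₀) := by
    rw [iota_twist, iota_twist, ← map_mul, h]
  rw [red_mk_eq A _ _ (twist u u₀) (twist u v) hv' h', red_eq A y u₀ v hv h, rho_twist, rho_twist,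
    map_div₀]

variable (ℓ : ℕ) [NeZero ℓ]

lemma iota_qExpand (w : LaurentSeries A) : iota A (qExpand A ℓ w) = qExpand K ℓ (iota A w) :=
  coeffMap_comm_qExpand _ ℓ w

lemma rho_qExpand (w : LaurentSeries A) :
    rho A (qExpand A ℓ w) = qExpand (IsLocalRing.ResidueField A) ℓ (rho A w) :=
  coeffMap_comm_qExpand _ ℓ w

theorem qExpand_mem_Ocal {y : LaurentSeries K} (hy : y ∈ Ocal A) : qExpand K ℓ y ∈ Ocal A := by
  obtain ⟨u₀, v, hv, h⟩ := hy
  refine ⟨qExpand A ℓ u₀, qExpand A ℓ v, ?_, ?_⟩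
  · rw [rho_qExpand]
    intro h0
    exact hv (qExpand_injective ℓ (h0.trans (map_zero _).symm))
  · rw [iota_qExpand, iota_qExpand, ← map_mul, h]

theorem red_qExpand (y : Ocal A) :
    red A ⟨_, qExpand_mem_Ocal A ℓ y.2⟩ = qExpand (IsLocalRing.ResidueField A) ℓ (red A y) := by
  obtain ⟨u₀, v, hv, h⟩ := y.2
  have hv' : rho A (qExpand A ℓ v) ≠ 0 := by
    rw [rho_qExpand]
    intro h0
    exact hv (qExpand_injective ℓ (h0.trans (map_zero _).symm))
  have h' : qExpand K ℓ (y : LaurentSeries K) * iota A (qExpand A ℓ v)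
      = iota A (qExpand A ℓ u₀) := by
    rw [iota_qExpand, iota_qExpand, ← map_mul, h]
  rw [red_mk_eq A _ _ (qExpand A ℓ u₀) (qExpand A ℓ v) hv' h', red_eq A y u₀ v hv h, rho_qExpand,
    rho_qExpand, map_div₀]

/-- `g(q^ℓ) ∈ Ocal A → g ∈ Ocal A`. -/
theorem mem_Ocal_of_qExpand_mem {g : LaurentSeries K} (h : qExpand K ℓ g ∈ Ocal A) :
    g ∈ Ocal A := by
  obtain ⟨u₀, v, hv, h⟩ := h
  -- decompose `v` and `u₀`
  have hvd := sum_dec ℓ v
  have hud := sum_dec ℓ u₀
  -- the equation, componentwise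
  have key : ∀ r, r < ℓ → g * iota A (dec ℓ r v) = iota A (dec ℓ r u₀) := by
    have h1 : ∑ s ∈ Finset.range ℓ, HahnSeries.single (s : ℤ) (1 : K)
          * qExpand K ℓ (g * iota A (dec ℓ s v))
        = ∑ s ∈ Finset.range ℓ, HahnSeries.single (s : ℤ) (1 : K)
          * qExpand K ℓ (iota A (dec ℓ s u₀)) := by
      have e1 : ∀ w : LaurentSeries A, iota A w = ∑ s ∈ Finset.range ℓ,
          HahnSeries.single (s : ℤ) (1 : K) * qExpand K ℓ (iota A (dec ℓ s w)) := by
        intro w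
        conv_lhs => rw [← sum_dec ℓ w]
        rw [map_sum]
        refine Finset.sum_congr rfl fun s _ => ?_
        rw [map_mul, iota_qExpand]
        congr 1
        show coeffMap A.subtype (HahnSeries.single (s : ℤ) (1 : A)) = _
        rw [coeffMap_single, map_one]
      rw [← e1 u₀, ← h, e1 v, Finset.mul_sum]
      refine Finset.sum_congr rfl fun s _ => ?_
      rw [map_mul]
      ring
    intro r hr
    exact eq_of_sum_single_mul_qExpand_eq ℓ h1 hr
  -- some component of `v` has nonzero reduction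
  have hex : ∃ r, r < ℓ ∧ rho A (dec ℓ r v) ≠ 0 := by
    by_contra hcon
    push Not at hcon
    apply hv
    rw [← hvd, map_sum]
    refine Finset.sum_eq_zero fun s hs => ?_
    rw [map_mul, rho_qExpand, hcon s (Finset.mem_range.mp hs), map_zero, mul_zero]
  obtain ⟨r, hr, hr0⟩ := hex
  exact ⟨dec ℓ r u₀, dec ℓ r v, hr0, key r hr⟩

theorem qExpand_mem_Ocal_iff {g : LaurentSeries K} : qExpand K ℓ g ∈ Ocal A ↔ g ∈ Ocal A :=
  ⟨mem_Ocal_of_qExpand_mem A ℓ, qExpand_mem_Ocal A ℓ⟩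

/-- `qExpand` as an endomorphism of `Ocal A`. -/
def qExpandO : Ocal A →+* Ocal A :=
  ((qExpand K ℓ).comp (Ocal A).subtype).codRestrict (Ocal A) fun y => qExpand_mem_Ocal A ℓ y.2

@[simp]
lemma coe_qExpandO (y : Ocal A) : ((qExpandO A ℓ y : Ocal A) : LaurentSeries K) = qExpand K ℓ y :=
  rfl

lemma red_qExpandO (y : Ocal A) :
    red A (qExpandO A ℓ y) = qExpand (IsLocalRing.ResidueField A) ℓ (red A y) :=
  red_qExpand A ℓ y

/-- `twist` as an endomorphism of `Ocal A`. -/
def twistO (u : Aˣ) : Ocal A →+* Ocal A :=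
  ((twist (unitK A u)).comp (Ocal A).subtype).codRestrict (Ocal A) fun y => twist_mem_Ocal A u y.2

@[simp]
lemma coe_twistO (u : Aˣ) (y : Ocal A) :
    ((twistO A u y : Ocal A) : LaurentSeries K) = twist (unitK A u) y := rfl

lemma red_twistO (u : Aˣ) (y : Ocal A) : red A (twistO A u y) = twist (unitk A u) (red A y) :=
  red_twist A u y

/-! ### Roots of unity -/

/-- A root of unity of `K` is a unit of `A`. -/
lemma exists_unit_of_pow_eq_one {ζ : Kˣ} {n : ℕ} (hn : n ≠ 0) (h : ζ ^ n = 1) :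
    ∃ ζA : Aˣ, unitK A ζA = ζ := by
  have h1 : A.valuation (ζ : K) = 1 := by
    have h2 : A.valuation (ζ : K) ^ n = 1 := by
      rw [← map_pow, ← Units.val_pow_eq_pow_val, h, Units.val_one, map_one]
    exact (pow_eq_one_iff_of_nonneg zero_le hn).mp h2
  have hmem : (ζ : K) ∈ A := (A.valuation_le_one_iff _).mp h1.le
  have hu : IsUnit (⟨(ζ : K), hmem⟩ : A) := (A.valuation_eq_one_iff _).mpr h1
  obtain ⟨ζA, hζA⟩ := hu
  refine ⟨ζA, Units.ext ?_⟩
  show ((ζA : A) : K) = ζ
  rw [hζA]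

end OcalPart

/-! ### The Kronecker congruence in `Ocal A` -/

section Main

variable {K : Type*} [Field K] (A : ValuationSubring K) {ℓ : ℕ} [NeZero ℓ] [Fact ℓ.Prime]
  [CharP (IsLocalRing.ResidueField A) ℓ]

omit [NeZero ℓ] in
/-- An `ℓ`-th root of unity of `A` reduces to `1` (residue characteristic `ℓ`). -/
lemma unitk_eq_one_of_pow_eq_one (u : Aˣ) (h : u ^ ℓ = 1) : unitk A u = 1 := by
  have h1 : (unitk A u) ^ ℓ = 1 := by rw [← map_pow, h, map_one]
  have h2 : ((unitk A u : (IsLocalRing.ResidueField A)ˣ) : IsLocalRing.ResidueField A) ^ ℓ = 1 := by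
    rw [← Units.val_pow_eq_pow_val, h1, Units.val_one]
  have h3 : (((unitk A u : (IsLocalRing.ResidueField A)ˣ) : IsLocalRing.ResidueField A) - 1) ^ ℓ
      = 0 := by
    rw [sub_pow_char, h2, one_pow, sub_self]
  exact Units.ext (sub_eq_zero.mp (pow_eq_zero_iff (Fact.out : ℓ.Prime).ne_zero |>.mp h3))

variable (ℓ) in
/-- `∏_{b<ℓ} (Y - f(u^b q))` as a polynomial over `Ocal A`. -/
def conjProdO (u : Aˣ) (f : Ocal A) : (Ocal A)[X] :=
  ∏ b ∈ Finset.range ℓ, (X - C (twistO A (u ^ b) f))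

omit [NeZero ℓ] [Fact ℓ.Prime] [CharP (IsLocalRing.ResidueField A) ℓ] in
lemma conjProdO_map_subtype (u : Aˣ) (f : Ocal A) :
    (conjProdO A ℓ u f).map (Ocal A).subtype = conjProd (unitK A u) ℓ (f : LaurentSeries K) := by
  rw [conjProdO, conjProd, Polynomial.map_prod]
  refine Finset.prod_congr rfl fun b _ => ?_
  rw [Polynomial.map_sub, map_X, map_C]
  show X - C (twist (unitK A (u ^ b)) (f : LaurentSeries K)) = _
  rw [map_pow]

omit [NeZero ℓ] in
lemma conjProdO_map_red (u : Aˣ) (hu : u ^ ℓ = 1) (f : Ocal A) :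
    (conjProdO A ℓ u f).map (red A) = X ^ ℓ - C ((red A f) ^ ℓ) := by
  have : CharP (LaurentSeries (IsLocalRing.ResidueField A)) ℓ :=
    charP_of_injective_ringHom
      (f := (HahnSeries.C : IsLocalRing.ResidueField A →+* LaurentSeries _))
      HahnSeries.C_injective ℓ
  rw [conjProdO, Polynomial.map_prod]
  have h1 : ∀ b : ℕ, (X - C (twistO A (u ^ b) f)).map (red A) = X - C (red A f) := by
    intro b
    rw [Polynomial.map_sub, map_X, map_C, red_twistO]
    have h2 : unitk A (u ^ b) = 1 := by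
      rw [map_pow, unitk_eq_one_of_pow_eq_one A u hu, one_pow]
    rw [h2, twist_one]
  simp only [h1, Finset.prod_const, Finset.card_range]
  rw [sub_pow_char, ← C_pow]

/-- **Kronecker congruence in `Ocal A`.** For `f ∈ Ocal A` the polynomial `Φ_f`
(`Φ_f(q^ℓ) = ∏_{b<ℓ} (Y - f(ζ^b q))`) has coefficients in `Ocal A`, and its reduction is
`Y^ℓ - f̄^{(ℓ)}` (coefficientwise Frobenius of `red f`). -/
theorem exists_phiO {ζ : Kˣ} (hζ : IsPrimitiveRoot ζ ℓ) (f : Ocal A) :
    ∃ Ψ : (Ocal A)[X], Ψ.map (Ocal A).subtype = phi hζ (f : LaurentSeries K) ∧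
      Ψ.map (red A)
        = X ^ ℓ - C (coeffMap (frobenius (IsLocalRing.ResidueField A) ℓ) (red A f)) := by
  obtain ⟨u, hu⟩ := exists_unit_of_pow_eq_one A (NeZero.ne ℓ) hζ.pow_eq_one
  have huℓ : u ^ ℓ = 1 := by
    have hinj : Function.Injective (unitK A) :=
      Units.map_injective (f := ((A.subtype : A →+* K) : A →* K)) Subtype.val_injective
    apply hinj
    rw [map_pow, hu, hζ.pow_eq_one, map_one]
  -- the coefficients of `phi` lie in `Ocal`
  have hmem : phi hζ (f : LaurentSeries K) ∈ Polynomial.lifts (Ocal A).subtype := by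
    rw [Polynomial.lifts_iff_coeff_lifts]
    intro n
    have h1 : qExpand K ℓ ((phi hζ (f : LaurentSeries K)).coeff n)
        = (((conjProdO A ℓ u f).coeff n : Ocal A) : LaurentSeries K) := by
      rw [← Polynomial.coeff_map, phi_map, ← hu, ← conjProdO_map_subtype, Polynomial.coeff_map]
      rfl
    have h2 : (phi hζ (f : LaurentSeries K)).coeff n ∈ Ocal A := by
      apply mem_Ocal_of_qExpand_mem A ℓ
      rw [h1]
      exact SetLike.coe_mem _
    exact ⟨⟨_, h2⟩, rfl⟩
  obtain ⟨Ψ, hΨ⟩ := (Polynomial.mem_lifts _).mp hmem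
  refine ⟨Ψ, hΨ, ?_⟩
  have h3 : Ψ.map (qExpandO A ℓ) = conjProdO A ℓ u f := by
    apply Polynomial.map_injective (Ocal A).subtype Subtype.val_injective
    have hc : (Ocal A).subtype.comp (qExpandO A ℓ) = (qExpand K ℓ).comp (Ocal A).subtype := rfl
    rw [Polynomial.map_map, hc, ← Polynomial.map_map, hΨ, phi_map, conjProdO_map_subtype, hu]
  apply Polynomial.map_injective _ (qExpand_injective (R := IsLocalRing.ResidueField A) ℓ)
  have hcomm : (qExpand (IsLocalRing.ResidueField A) ℓ).comp (red A)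
      = (red A).comp (qExpandO A ℓ) := by
    ext1 y
    exact (red_qExpandO A ℓ y).symm
  rw [Polynomial.map_map, hcomm, ← Polynomial.map_map, h3, conjProdO_map_red A u huℓ,
    Polynomial.map_sub, Polynomial.map_pow, map_X, map_C, pow_char_eq]

/-- **Kronecker congruence in `Ocal A`** for `Χ_f = (Y - f(q^ℓ)) · Φ_f`: coefficients in `Ocal A`,
reduction `(Y - (s f̄)^ℓ) · (Y^ℓ - f̄^{(ℓ)})` with `s` the inverse Frobenius of the residue field. -/
theorem exists_chiO {ζ : Kˣ} (hζ : IsPrimitiveRoot ζ ℓ)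
    (s : IsLocalRing.ResidueField A ≃+* IsLocalRing.ResidueField A) (hs : ∀ x, s x ^ ℓ = x)
    (f : Ocal A) :
    ∃ Χ : (Ocal A)[X],
      Χ.map (Ocal A).subtype
        = (X - C (qExpand K ℓ (f : LaurentSeries K))) * phi hζ (f : LaurentSeries K) ∧
      Χ.map (red A)
        = (X - C ((coeffMap (s : IsLocalRing.ResidueField A →+* IsLocalRing.ResidueField A)
              (red A f)) ^ ℓ))
          * (X ^ ℓ - C (coeffMap (frobenius (IsLocalRing.ResidueField A) ℓ) (red A f))) := by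
  obtain ⟨Ψ, h1, h2⟩ := exists_phiO A hζ f
  refine ⟨(X - C (qExpandO A ℓ f)) * Ψ, ?_, ?_⟩
  · rw [Polynomial.map_mul, h1, Polynomial.map_sub, map_X, map_C]
    rfl
  · rw [Polynomial.map_mul, h2, Polynomial.map_sub, map_X, map_C, red_qExpandO]
    have h3 := coeffMap_qExpand_eq_pow (RingHom.id (IsLocalRing.ResidueField A)) s hs (red A f)
    rw [coeffMap_id, coeffMap_id] at h3
    rw [h3]

/-- Variant of `exists_chiO` with the first factor written as `Y - f̄(q^ℓ)` (no inverse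
Frobenius needed). -/
theorem exists_chiO' {ζ : Kˣ} (hζ : IsPrimitiveRoot ζ ℓ) (f : Ocal A) :
    ∃ Χ : (Ocal A)[X],
      Χ.map (Ocal A).subtype
        = (X - C (qExpand K ℓ (f : LaurentSeries K))) * phi hζ (f : LaurentSeries K) ∧
      Χ.map (red A)
        = (X - C (qExpand (IsLocalRing.ResidueField A) ℓ (red A f)))
          * (X ^ ℓ - C (coeffMap (frobenius (IsLocalRing.ResidueField A) ℓ) (red A f))) := by
  obtain ⟨Ψ, h1, h2⟩ := exists_phiO A hζ f
  refine ⟨(X - C (qExpandO A ℓ f)) * Ψ, ?_, ?_⟩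
  · rw [Polynomial.map_mul, h1, Polynomial.map_sub, map_X, map_C]
    rfl
  · rw [Polynomial.map_mul, h2, Polynomial.map_sub, map_X, map_C, red_qExpandO]

/-- Coefficientwise form: the coefficients of `Φ_f` lie in `Ocal A`. -/
theorem coeff_phi_mem_Ocal {ζ : Kˣ} (hζ : IsPrimitiveRoot ζ ℓ) (f : Ocal A) (n : ℕ) :
    (phi hζ (f : LaurentSeries K)).coeff n ∈ Ocal A := by
  obtain ⟨Ψ, h1, -⟩ := exists_phiO A hζ f
  rw [← h1, Polynomial.coeff_map]
  exact SetLike.coe_mem _

end Main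

end Fermat.Agent.Lib.KroneckerCong
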