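import Mathlib

set_option autoImplicit false

open Polynomial NumberField

namespace Fermat.Agent.Lib.KummerCrit

section Basic

variable {p : ℕ} [hp : Fact p.Prime] {K : Type*} [Field K] [NumberField K]
  [IsCyclotomicExtension {p} ℚ K]

theorem exists_aeval_sub_one {ζ : K} (hζ : IsPrimitiveRoot ζ p) (x : 𝓞 K) :
    ∃ h : ℤ[X], aeval (hζ.toInteger - 1) h = x := by
  have : NeZero p := ⟨hp.out.ne_zero⟩
  obtain ⟨f, hf⟩ := hζ.subOneIntegralPowerBasis.exists_eq_aeval' x
  refine ⟨f, ?_⟩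
  rw [hf, IsPrimitiveRoot.subOneIntegralPowerBasis_gen]
  rfl

theorem dvd_of_aeval_sub_one_eq_zero {ζ : K} (hζ : IsPrimitiveRoot ζ p) (q : ℤ[X])
    (hq : aeval (hζ.toInteger - 1) q = 0) : (cyclotomic p ℤ).comp (X + 1) ∣ q := by
  have : NeZero p := ⟨hp.out.ne_zero⟩
  have h1 : aeval hζ.toInteger (q.comp (X - 1)) = 0 := by
    rw [aeval_comp]
    simpa using hq
  have h2 : aeval ζ (q.comp (X - 1)) = 0 := by
    have := congrArg (algebraMap (𝓞 K) K) h1
    rw [← aeval_algebraMap_apply, map_zero] at this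
    exact this
  have h3 : cyclotomic p ℤ ∣ q.comp (X - 1) := by
    rw [cyclotomic_eq_minpoly hζ hp.out.pos]
    exact minpoly.isIntegrallyClosed_dvd (hζ.isIntegral hp.out.pos) h2
  obtain ⟨k, hk⟩ := h3
  refine ⟨k.comp (X + 1), ?_⟩
  rw [← mul_comp, ← hk, comp_assoc]
  simp

theorem map_cyclotomic_comp_X_add_one :
    ((cyclotomic p ℤ).comp (X + 1)).map (Int.castRingHom (ZMod p)) = X ^ (p - 1) := by
  rw [map_comp, map_cyclotomic]
  have h := cyclotomic_mul_prime_pow_eq (ZMod p) (p := p) (m := 1) hp.out.not_dvd_one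
    (k := 1) one_pos
  simp only [pow_one, mul_one, cyclotomic_one] at h
  rw [h]
  simp

end Basic

section Main

theorem prod_mul_derivative_prod_pow {R : Type*} [CommRing R] {r : ℕ} (f : Fin r → R[X])
    (c : Fin r → ℕ) :
    (∏ j, f j) * derivative (∏ i, f i ^ c i) =
      (∏ j, f j ^ c j) *
        ∑ i, C (c i : R) * (derivative (f i) * ∏ j ∈ Finset.univ.erase i, f j) := by
  rw [derivative_prod_finset, Finset.mul_sum, Finset.mul_sum]
  refine Finset.sum_congr rfl fun i _ => ?_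
  rw [derivative_pow]
  have h1 : (∏ j, f j) = f i * ∏ j ∈ Finset.univ.erase i, f j :=
    (Finset.mul_prod_erase _ _ (Finset.mem_univ i)).symm
  have h2 : (∏ j, f j ^ c j) = f i ^ c i * ∏ j ∈ Finset.univ.erase i, f j ^ c j :=
    (Finset.mul_prod_erase _ (fun j => f j ^ c j) (Finset.mem_univ i)).symm
  rw [h1, h2]
  have h3 : f i * (C (c i : R) * f i ^ (c i - 1)) = C (c i : R) * f i ^ c i := by
    rcases Nat.eq_zero_or_pos (c i) with h | h
    · simp [h]
    · obtain ⟨m, hm⟩ : ∃ m, c i = m + 1 := ⟨c i - 1, by omega⟩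
      rw [hm, Nat.add_sub_cancel, pow_succ]
      ring
  calc f i * (∏ j ∈ Finset.univ.erase i, f j) *
        ((∏ j ∈ Finset.univ.erase i, f j ^ c j) *
          (C (c i : R) * f i ^ (c i - 1) * derivative (f i)))
      = (f i * (C (c i : R) * f i ^ (c i - 1))) *
          ((∏ j ∈ Finset.univ.erase i, f j) * (∏ j ∈ Finset.univ.erase i, f j ^ c j) *
            derivative (f i)) := by ring
    _ = _ := by rw [h3]; ring

variable {p : ℕ} [hp : Fact p.Prime] {K : Type*} [Field K] [NumberField K]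
  [IsCyclotomicExtension {p} ℚ K]

theorem hind_of_cert {ζ : K} (hζ : IsPrimitiveRoot ζ p) {r : ℕ}
    (G : Fin r → ℤ[X]) (e : Fin r → (𝓞 K)ˣ)
    (he : ∀ i, (e i : 𝓞 K) = aeval (hζ.toInteger - 1) (G i))
    (hG0 : ∀ i, ¬ (p : ℤ) ∣ (G i).coeff 0)
    (Hc : Fin r → ℕ → ℤ)
    (hH : ∀ i, ∃ A B : ℤ[X],
      G i * (∑ d ∈ Finset.range (p - 2), C (Hc i d) * X ^ d) - derivative (G i) =
        X ^ (p - 2) * A + C (p : ℤ) * B)
    (L : Fin r → ℕ → ℤ)
    (hL : ∀ i j, (p : ℤ) ∣
      (∑ d ∈ Finset.range (p - 2), L i d * Hc j d) - (if i = j then 1 else 0))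
    (c : Fin r → ℕ)
    (hc : ∃ n : ℤ, (p : 𝓞 K) ∣ ((∏ i, e i ^ c i : (𝓞 K)ˣ) : 𝓞 K) - n) :
    ∀ i, p ∣ c i := by
  obtain ⟨n, β, hβ⟩ := hc
  set lam := hζ.toInteger - 1 with hlam
  set φ := Int.castRingHom (ZMod p) with hφ
  set Q : ℤ[X] := ∏ i, G i ^ c i with hQ
  have hQe : ((∏ i, e i ^ c i : (𝓞 K)ˣ) : 𝓞 K) = aeval lam Q := by
    rw [hQ, map_prod, Units.coe_prod]
    refine Finset.prod_congr rfl fun i _ => ?_
    rw [map_pow, Units.val_pow_eq_pow_val, he]
  obtain ⟨h, hh⟩ := exists_aeval_sub_one hζ β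
  have h0 : aeval lam (Q - C n - C (p : ℤ) * h) = 0 := by
    have hh' : aeval lam h = β := hh
    simp only [map_sub, map_mul, aeval_C, hh', ← hQe]
    rw [eq_intCast, eq_intCast, Int.cast_natCast]
    linear_combination hβ
  obtain ⟨k, hk⟩ := dvd_of_aeval_sub_one_eq_zero hζ _ h0
  have hk' : Q.map φ - C (n : ZMod p) = X ^ (p - 1) * k.map φ := by
    have := congrArg (Polynomial.map φ) hk
    rw [Polynomial.map_mul, map_cyclotomic_comp_X_add_one] at this
    rw [← this]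
    simp [φ]
  have hd : X ^ (p - 2) ∣ derivative (Q.map φ) := by
    have h1 : derivative (Q.map φ) = derivative (X ^ (p - 1) * k.map φ) := by
      rw [← hk']; simp
    rw [h1, derivative_mul, derivative_X_pow]
    have hp1 : p - 1 = (p - 2) + 1 := by have := hp.out.two_le; omega
    refine dvd_add (Dvd.dvd.mul_right (Dvd.dvd.mul_left (by simp [hp1]) _) _)
      (Dvd.dvd.mul_right (pow_dvd_pow X (by omega)) _)
  set g : Fin r → (ZMod p)[X] := fun i => (G i).map φ with hg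
  have hQmap : Q.map φ = ∏ i, g i ^ c i := by
    simp [Q, g, Polynomial.map_prod, Polynomial.map_pow]
  have key := prod_mul_derivative_prod_pow g c
  have hS : X ^ (p - 2) ∣ (∏ j, g j ^ c j) *
      ∑ i, C (c i : ZMod p) * (derivative (g i) * ∏ j ∈ Finset.univ.erase i, g j) := by
    rw [← key, ← hQmap]
    exact Dvd.dvd.mul_left hd _
  have hg0 : ∀ i, ¬ X ∣ g i := by
    intro i hX
    rw [X_dvd_iff] at hX
    simp only [g, coeff_map] at hX
    exact hG0 i ((ZMod.intCast_zmod_eq_zero_iff_dvd _ _).mp hX)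
  have hXprime : Prime (X : (ZMod p)[X]) := prime_X
  have hnd1 : ¬ X ∣ ∏ j, g j ^ c j := by
    intro hX
    obtain ⟨j, -, hj⟩ := (Prime.dvd_finsetProd_iff hXprime _).mp hX
    exact hg0 j (hXprime.dvd_of_dvd_pow hj)
  have hnd2 : ¬ X ∣ ∏ j, g j := by
    intro hX
    obtain ⟨j, -, hj⟩ := (Prime.dvd_finsetProd_iff hXprime _).mp hX
    exact hg0 j hj
  have hS' := hXprime.pow_dvd_of_dvd_mul_left (p - 2) hnd1 hS
  set Hb : Fin r → (ZMod p)[X] :=
    fun i => ∑ d ∈ Finset.range (p - 2), C ((Hc i d : ℤ) : ZMod p) * X ^ d with hHbdef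
  have hHb : ∀ i, X ^ (p - 2) ∣ g i * Hb i - derivative (g i) := by
    intro i
    obtain ⟨A, B, hAB⟩ := hH i
    have := congrArg (Polynomial.map φ) hAB
    refine ⟨A.map φ, ?_⟩
    simpa [g, Hb, φ, Polynomial.map_sum, derivative_map] using this
  have hS2 : X ^ (p - 2) ∣ (∏ j, g j) * ∑ i, C (c i : ZMod p) * Hb i := by
    have : (∏ j, g j) * ∑ i, C (c i : ZMod p) * Hb i =
        ∑ i, C (c i : ZMod p) * (derivative (g i) * ∏ j ∈ Finset.univ.erase i, g j) +
        ∑ i, C (c i : ZMod p) *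
          ((g i * Hb i - derivative (g i)) * ∏ j ∈ Finset.univ.erase i, g j) := by
      rw [← Finset.sum_add_distrib, Finset.mul_sum]
      refine Finset.sum_congr rfl fun i _ => ?_
      rw [← Finset.mul_prod_erase _ _ (Finset.mem_univ i)]
      ring
    rw [this]
    refine dvd_add hS' (Finset.dvd_sum fun i _ => ?_)
    exact Dvd.dvd.mul_left (Dvd.dvd.mul_right (hHb i) _) _
  have hS3 := hXprime.pow_dvd_of_dvd_mul_left (p - 2) hnd2 hS2
  rw [X_pow_dvd_iff] at hS3
  have hcoef : ∀ d < p - 2, ∑ i, (c i : ZMod p) * ((Hc i d : ℤ) : ZMod p) = 0 := by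
    intro d hd
    have := hS3 d hd
    rw [finsetSum_coeff] at this
    rw [← this]
    refine Finset.sum_congr rfl fun i _ => ?_
    rw [coeff_C_mul]
    congr 1
    simp only [Hb, finsetSum_coeff, coeff_C_mul, coeff_X_pow]
    simp [hd]
  intro i
  rw [← ZMod.natCast_eq_zero_iff]
  have hLz : ∀ j, ((∑ d ∈ Finset.range (p - 2), L i d * Hc j d : ℤ) : ZMod p) =
      if i = j then 1 else 0 := by
    intro j
    have := (ZMod.intCast_zmod_eq_zero_iff_dvd _ _).mpr (hL i j)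
    push_cast at this
    push_cast
    rw [sub_eq_zero] at this
    rw [this]
  have h1 : (c i : ZMod p) =
      ∑ j, (c j : ZMod p) * ((∑ d ∈ Finset.range (p - 2), L i d * Hc j d : ℤ) : ZMod p) := by
    simp only [hLz]
    simp
  rw [h1]
  push_cast
  simp only [Finset.mul_sum]
  rw [Finset.sum_comm]
  refine Finset.sum_eq_zero fun d hd => ?_
  have := hcoef d (Finset.mem_range.mp hd)
  calc ∑ j, (c j : ZMod p) * ((L i d : ZMod p) * (Hc j d : ZMod p))
      = (L i d : ZMod p) * ∑ j, (c j : ZMod p) * ((Hc j d : ℤ) : ZMod p) := by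
        rw [Finset.mul_sum]
        refine Finset.sum_congr rfl fun j _ => ?_
        ring
    _ = 0 := by rw [this, mul_zero]

end Main

end Fermat.Agent.Lib.KummerCrit
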