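import Mathlib
import Fermat.Agent.Lib.KummerCrit

set_option autoImplicit false

open Polynomial NumberField

namespace Fermat.Agent.Lib.Kummer11

noncomputable def G : Fin 5 → ℤ[X] :=
  ![X + 1,
    X + 2,
    X ^ 2 + 3 * X + 3,
    X ^ 3 + 4 * X ^ 2 + 6 * X + 4,
    X ^ 4 + 5 * X ^ 3 + 10 * X ^ 2 + 10 * X + 5]

def Hc : Fin 5 → ℕ → ℤ := fun i d =>
  ([[1, 10, 1, 10, 1, 10, 1, 10, 1],
    [6, 8, 7, 2, 10, 6, 8, 7, 2],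
    [1, 7, 0, 5, 6, 7, 2, 3, 0],
    [7, 8, 1, 8, 7, 6, 4, 0, 0],
    [2, 0, 10, 3, 0, 6, 5, 6, 5]].getD i.val []).getD d 0

def L : Fin 5 → ℕ → ℤ := fun i d =>
  ([[9, 1, 0, 9, 0, 0, 0, 9, 0],
    [6, 8, 0, 0, 0, 8, 0, 1, 0],
    [7, 7, 0, 1, 0, 5, 0, 5, 0],
    [0, 4, 0, 3, 0, 0, 0, 4, 0],
    [2, 2, 0, 1, 0, 1, 0, 9, 0]].getD i.val []).getD d 0

variable {K : Type*} [Field K] [NumberField K] [IsCyclotomicExtension {11} ℚ K]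

noncomputable def e {ζ : K} (hζ : IsPrimitiveRoot ζ 11) : Fin ((11 - 1) / 2) → (𝓞 K)ˣ :=
  ![(hζ.toInteger_isPrimitiveRoot.isUnit (by norm_num)).unit,
    (hζ.toInteger_isPrimitiveRoot.geom_sum_isUnit (j := 2) (by norm_num) (by norm_num)).unit,
    (hζ.toInteger_isPrimitiveRoot.geom_sum_isUnit (j := 3) (by norm_num) (by norm_num)).unit,
    (hζ.toInteger_isPrimitiveRoot.geom_sum_isUnit (j := 4) (by norm_num) (by norm_num)).unit,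
    (hζ.toInteger_isPrimitiveRoot.geom_sum_isUnit (j := 5) (by norm_num) (by norm_num)).unit]

theorem hind_eleven {ζ : K} (hζ : IsPrimitiveRoot ζ 11) (c : Fin ((11 - 1) / 2) → ℕ)
    (hc : ∃ n : ℤ, ((11 : ℕ) : 𝓞 K) ∣ ((∏ i, e hζ i ^ c i : (𝓞 K)ˣ) : 𝓞 K) - n) :
    ∀ i, 11 ∣ c i := by
  have : Fact (Nat.Prime 11) := ⟨by norm_num⟩
  refine Fermat.Agent.Lib.KummerCrit.hind_of_cert (p := 11) hζ G (e hζ) ?_ ?_ Hc ?_ L ?_ c hc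
  · intro i
    fin_cases i
    · simp [e, G]
    · simp [e, G, Finset.sum_range_succ, map_ofNat]
      ring
    · simp [e, G, Finset.sum_range_succ, map_ofNat]
      ring
    · simp [e, G, Finset.sum_range_succ, map_ofNat]
      ring
    · simp [e, G, Finset.sum_range_succ, map_ofNat]
      ring
  · intro i
    fin_cases i <;> simp [G]
  · intro i
    fin_cases i
    · refine ⟨1, X ^ 8 + X ^ 7 + X ^ 6 + X ^ 5 + X ^ 4 + X ^ 3 + X ^ 2 + X, ?_⟩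
      simp [G, Hc, Finset.sum_range_succ]
      ring
    · refine ⟨2, X ^ 8 + 2 * X ^ 7 + 2 * X ^ 6 + 2 * X ^ 5 + 2 * X ^ 4 + X ^ 3 + 2 * X ^ 2 + 2 * X + 1, ?_⟩
      simp [G, Hc, Finset.sum_range_succ]
      ring
    · refine ⟨3, X ^ 8 + 2 * X ^ 7 + 3 * X ^ 6 + 4 * X ^ 5 + 3 * X ^ 4 + 2 * X ^ 3 + 2 * X ^ 2 + 2 * X, ?_⟩
      simp [G, Hc, Finset.sum_range_succ]
      ring
    · refine ⟨4, 2 * X ^ 8 + 5 * X ^ 7 + 8 * X ^ 6 + 9 * X ^ 5 + 8 * X ^ 4 + 7 * X ^ 3 + 7 * X ^ 2 + 6 * X + 2, ?_⟩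
      simp [G, Hc, Finset.sum_range_succ]
      ring
    · refine ⟨5 * X ^ 3 + 31 * X ^ 2 + 85 * X + 141, 15 * X ^ 8 + 13 * X ^ 7 + 10 * X ^ 6 + 10 * X ^ 5 + 12 * X ^ 4 + 11 * X ^ 3 + 5 * X ^ 2, ?_⟩
      simp [G, Hc, Finset.sum_range_succ]
      ring
  · decide

end Fermat.Agent.Lib.Kummer11
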