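import Mathlib
import Fermat.Agent.Lib.KummerCrit

set_option autoImplicit false

open Polynomial NumberField

namespace Fermat.Agent.Lib.Kummer13

noncomputable def G : Fin 6 → ℤ[X] :=
  ![X + 1,
    X + 2,
    X ^ 2 + 3 * X + 3,
    X ^ 3 + 4 * X ^ 2 + 6 * X + 4,
    X ^ 4 + 5 * X ^ 3 + 10 * X ^ 2 + 10 * X + 5,
    X ^ 5 + 6 * X ^ 4 + 15 * X ^ 3 + 20 * X ^ 2 + 15 * X + 6]

def Hc : Fin 6 → ℕ → ℤ := fun i d =>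
  ([[1, 12, 1, 12, 1, 12, 1, 12, 1, 12, 1],
    [7, 3, 5, 4, 11, 1, 6, 10, 8, 9, 2],
    [1, 4, 0, 3, 10, 2, 12, 9, 0, 10, 3],
    [8, 3, 11, 11, 1, 1, 11, 5, 4, 9, 4],
    [2, 0, 12, 6, 0, 2, 11, 4, 7, 3, 5],
    [9, 8, 3, 8, 9, 1, 6, 7, 6, 7, 6]].getD i.val []).getD d 0

def L : Fin 6 → ℕ → ℤ := fun i d =>
  ([[1, 3, 0, 3, 0, 9, 0, 7, 0, 4, 0],
    [10, 2, 0, 10, 0, 7, 0, 11, 0, 6, 0],
    [12, 12, 0, 2, 0, 4, 0, 0, 0, 7, 0],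
    [7, 11, 0, 9, 0, 9, 0, 6, 0, 11, 0],
    [4, 2, 0, 2, 0, 7, 0, 1, 0, 5, 0],
    [4, 1, 0, 2, 0, 11, 0, 1, 0, 2, 0]].getD i.val []).getD d 0

variable {K : Type*} [Field K] [NumberField K] [IsCyclotomicExtension {13} ℚ K]

noncomputable def e {ζ : K} (hζ : IsPrimitiveRoot ζ 13) : Fin ((13 - 1) / 2) → (𝓞 K)ˣ :=
  ![(hζ.toInteger_isPrimitiveRoot.isUnit (by norm_num)).unit,
    (hζ.toInteger_isPrimitiveRoot.geom_sum_isUnit (j := 2) (by norm_num) (by norm_num)).unit,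
    (hζ.toInteger_isPrimitiveRoot.geom_sum_isUnit (j := 3) (by norm_num) (by norm_num)).unit,
    (hζ.toInteger_isPrimitiveRoot.geom_sum_isUnit (j := 4) (by norm_num) (by norm_num)).unit,
    (hζ.toInteger_isPrimitiveRoot.geom_sum_isUnit (j := 5) (by norm_num) (by norm_num)).unit,
    (hζ.toInteger_isPrimitiveRoot.geom_sum_isUnit (j := 6) (by norm_num) (by norm_num)).unit]

theorem hind_thirteen {ζ : K} (hζ : IsPrimitiveRoot ζ 13) (c : Fin ((13 - 1) / 2) → ℕ)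
    (hc : ∃ n : ℤ, ((13 : ℕ) : 𝓞 K) ∣ ((∏ i, e hζ i ^ c i : (𝓞 K)ˣ) : 𝓞 K) - n) :
    ∀ i, 13 ∣ c i := by
  have : Fact (Nat.Prime 13) := ⟨by norm_num⟩
  refine Fermat.Agent.Lib.KummerCrit.hind_of_cert (p := 13) hζ G (e hζ) ?_ ?_ Hc ?_ L ?_ c hc
  · intro i
    fin_cases i
    · simp [e, G]
    · simp [e, G, Finset.sum_range_succ, map_ofNat]
      ring
    · simp [e, G, Finset.sum_range_succ, map_ofNat]
      ring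
    · simp [e, G, Finset.sum_range_succ, map_ofNat]
      ring
    · simp [e, G, Finset.sum_range_succ, map_ofNat]
      ring
    · simp [e, G, Finset.sum_range_succ, map_ofNat]
      ring
  · intro i
    fin_cases i <;> simp [G]
  · intro i
    fin_cases i
    · refine ⟨1, X ^ 10 + X ^ 9 + X ^ 8 + X ^ 7 + X ^ 6 + X ^ 5 + X ^ 4 + X ^ 3 + X ^ 2 + X, ?_⟩
      simp [G, Hc, Finset.sum_range_succ]
      ring
    · refine ⟨2, X ^ 10 + 2 * X ^ 9 + 2 * X ^ 8 + 2 * X ^ 7 + X ^ 6 + X ^ 5 + 2 * X ^ 4 + X ^ 3 + X ^ 2 + X + 1, ?_⟩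
      simp [G, Hc, Finset.sum_range_succ]
      ring
    · refine ⟨3 * X + 19, 3 * X ^ 10 + 3 * X ^ 9 + 3 * X ^ 8 + 5 * X ^ 7 + 4 * X ^ 6 + 3 * X ^ 5 + 3 * X ^ 4 + X ^ 3 + X ^ 2 + X, ?_⟩
      simp [G, Hc, Finset.sum_range_succ]
      ring
    · refine ⟨4 * X ^ 2 + 25 * X + 64, 7 * X ^ 10 + 7 * X ^ 9 + 7 * X ^ 8 + 7 * X ^ 7 + 5 * X ^ 6 + 5 * X ^ 5 + 9 * X ^ 4 + 10 * X ^ 3 + 7 * X ^ 2 + 4 * X + 2, ?_⟩
      simp [G, Hc, Finset.sum_range_succ]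
      ring
    · refine ⟨5 * X ^ 3 + 28 * X ^ 2 + 72 * X + 119, 12 * X ^ 10 + 14 * X ^ 9 + 15 * X ^ 8 + 12 * X ^ 7 + 9 * X ^ 6 + 10 * X ^ 5 + 14 * X ^ 4 + 12 * X ^ 3 + 5 * X ^ 2, ?_⟩
      simp [G, Hc, Finset.sum_range_succ]
      ring
    · refine ⟨6 * X ^ 4 + 43 * X ^ 3 + 138 * X ^ 2 + 268 * X + 368, 31 * X ^ 10 + 29 * X ^ 9 + 26 * X ^ 8 + 26 * X ^ 7 + 29 * X ^ 6 + 31 * X ^ 5 + 31 * X ^ 4 + 28 * X ^ 3 + 21 * X ^ 2 + 11 * X + 3, ?_⟩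
      simp [G, Hc, Finset.sum_range_succ]
      ring
  · decide

end Fermat.Agent.Lib.Kummer13
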