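import Mathlib
import Fermat.Agent.Lib.KummerCrit

set_option autoImplicit false

open Polynomial NumberField

namespace Fermat.Agent.Lib.Kummer5

noncomputable def G : Fin 2 → ℤ[X] :=
  ![X + 1,
    X + 2]

def Hc : Fin 2 → ℕ → ℤ := fun i d =>
  ([[1, 4, 1],
    [3, 1, 2]].getD i.val []).getD d 0

def L : Fin 2 → ℕ → ℤ := fun i d =>
  ([[4, 3, 0],
    [4, 4, 0]].getD i.val []).getD d 0

variable {K : Type*} [Field K] [NumberField K] [IsCyclotomicExtension {5} ℚ K]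

noncomputable def e {ζ : K} (hζ : IsPrimitiveRoot ζ 5) : Fin ((5 - 1) / 2) → (𝓞 K)ˣ :=
  ![(hζ.toInteger_isPrimitiveRoot.isUnit (by norm_num)).unit,
    (hζ.toInteger_isPrimitiveRoot.geom_sum_isUnit (j := 2) (by norm_num) (by norm_num)).unit]

theorem hind_five {ζ : K} (hζ : IsPrimitiveRoot ζ 5) (c : Fin ((5 - 1) / 2) → ℕ)
    (hc : ∃ n : ℤ, ((5 : ℕ) : 𝓞 K) ∣ ((∏ i, e hζ i ^ c i : (𝓞 K)ˣ) : 𝓞 K) - n) :
    ∀ i, 5 ∣ c i := by
  have : Fact (Nat.Prime 5) := ⟨by norm_num⟩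
  refine Fermat.Agent.Lib.KummerCrit.hind_of_cert (p := 5) hζ G (e hζ) ?_ ?_ Hc ?_ L ?_ c hc
  · intro i
    fin_cases i
    · simp [e, G]
    · simp [e, G, Finset.sum_range_succ, map_ofNat]
      ring
  · intro i
    fin_cases i <;> simp [G]
  · intro i
    fin_cases i
    · refine ⟨1, X ^ 2 + X, ?_⟩
      simp [G, Hc, Finset.sum_range_succ]
      ring
    · refine ⟨2, X ^ 2 + X + 1, ?_⟩
      simp [G, Hc, Finset.sum_range_succ]
      ring
  · decide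

end Fermat.Agent.Lib.Kummer5
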