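import Mathlib

set_option autoImplicit false

namespace Fermat.Agent.Lib.KummerCaseII

open Polynomial

section Abstract

variable {R : Type*} [CommRing R] [IsDomain R]
variable {p : ℕ} {ζ : R}

lemma lam_dvd_all (hp : p.Prime) (hp2 : p ≠ 2) (hζ : IsPrimitiveRoot ζ p)
    (hlam : Prime (ζ - 1)) {x y : R} (h : ζ - 1 ∣ x ^ p + y ^ p) {η : R}
    (hη : η ∈ nthRootsFinset p (1 : R)) : ζ - 1 ∣ x + η * y := by
  rw [hζ.pow_add_pow_eq_prod_add_mul x y (hp.odd_of_ne_two hp2)] at h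
  obtain ⟨η₀, hη₀, h₀⟩ := (Prime.dvd_finsetProd_iff hlam _).1 h
  have h1 : ζ - 1 ∣ η - η₀ := hζ.sub_one_dvd_sub hp hη hη₀
  have e : x + η * y = (x + η₀ * y) + (η - η₀) * y := by ring
  rw [e]
  exact dvd_add h₀ (Dvd.dvd.mul_right h1 y)

/-- The difference of two cofactors is a unit multiple of `y`, and a companion identity for `x`. -/
lemma cofactor_diff (hp : p.Prime) (hζ : IsPrimitiveRoot ζ p) (hlam : Prime (ζ - 1))
    {x y : R} {f : R → R}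
    (hf : ∀ η ∈ nthRootsFinset p (1 : R), x + η * y = (ζ - 1) * f η)
    {η₁ η₂ : R} (h₁ : η₁ ∈ nthRootsFinset p (1 : R)) (h₂ : η₂ ∈ nthRootsFinset p (1 : R))
    (hne : η₁ ≠ η₂) :
    ∃ u : Rˣ, f η₁ - f η₂ = u * y ∧ η₂ * f η₁ - η₁ * f η₂ = -(u * x) := by
  obtain ⟨u, hu⟩ := hζ.nthRootsFinset_pairwise_associated_sub_one_sub_of_prime hp h₁ h₂ hne
  refine ⟨u, ?_, ?_⟩
  · apply mul_left_cancel₀ hlam.ne_zero
    have e1 := hf η₁ h₁
    have e2 := hf η₂ h₂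
    linear_combination e2 - e1 - y * hu
  · apply mul_left_cancel₀ hlam.ne_zero
    have e1 := hf η₁ h₁
    have e2 := hf η₂ h₂
    linear_combination η₁ * e2 - η₂ * e1 + x * hu

lemma cofactor_not_dvd_sub (hp : p.Prime) (hζ : IsPrimitiveRoot ζ p) (hlam : Prime (ζ - 1))
    {x y : R} {f : R → R}
    (hf : ∀ η ∈ nthRootsFinset p (1 : R), x + η * y = (ζ - 1) * f η)
    (hy : ¬ ζ - 1 ∣ y)
    {η₁ η₂ : R} (h₁ : η₁ ∈ nthRootsFinset p (1 : R)) (h₂ : η₂ ∈ nthRootsFinset p (1 : R))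
    (hne : η₁ ≠ η₂) : ¬ ζ - 1 ∣ f η₁ - f η₂ := by
  obtain ⟨u, hu, -⟩ := cofactor_diff hp hζ hlam hf h₁ h₂ hne
  rw [hu]
  intro h
  exact hy ((Units.dvd_mul_left).1 h)

lemma cofactor_isCoprime (hp : p.Prime) (hζ : IsPrimitiveRoot ζ p) (hlam : Prime (ζ - 1))
    {x y : R} {f : R → R}
    (hf : ∀ η ∈ nthRootsFinset p (1 : R), x + η * y = (ζ - 1) * f η)
    (hxy : IsCoprime x y)
    {η₁ η₂ : R} (h₁ : η₁ ∈ nthRootsFinset p (1 : R)) (h₂ : η₂ ∈ nthRootsFinset p (1 : R))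
    (hne : η₁ ≠ η₂) : IsCoprime (f η₁) (f η₂) := by
  obtain ⟨u, hu1, hu2⟩ := cofactor_diff hp hζ hlam hf h₁ h₂ hne
  obtain ⟨a, b, hab⟩ := hxy
  have hinv : ((u⁻¹ : Rˣ) : R) * (u : R) = 1 := by simp
  refine ⟨((u⁻¹ : Rˣ) : R) * (b - a * η₂), ((u⁻¹ : Rˣ) : R) * (a * η₁ - b), ?_⟩
  linear_combination (((u⁻¹ : Rˣ) : R) * b) * hu1 - (((u⁻¹ : Rˣ) : R) * a) * hu2
    + (a * x + b * y) * hinv + hab

/-- Pigeonhole: some cofactor is divisible by `ζ - 1`. -/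
lemma exists_cofactor_dvd (hp : p.Prime) (hζ : IsPrimitiveRoot ζ p) (hlam : Prime (ζ - 1))
    (hcard : Nat.card (R ⧸ Ideal.span {ζ - 1}) = p)
    {x y : R} {f : R → R}
    (hf : ∀ η ∈ nthRootsFinset p (1 : R), x + η * y = (ζ - 1) * f η)
    (hy : ¬ ζ - 1 ∣ y) :
    ∃ η₀ ∈ nthRootsFinset p (1 : R), ζ - 1 ∣ f η₀ := by
  classical
  have hfin : Finite (R ⧸ Ideal.span {ζ - 1}) :=
    Nat.finite_of_card_ne_zero (by rw [hcard]; exact hp.ne_zero)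
  let g : (nthRootsFinset p (1 : R)) → R ⧸ Ideal.span {ζ - 1} :=
    fun η => Ideal.Quotient.mk _ (f η.1)
  have hg : Function.Injective g := by
    intro η₁ η₂ h
    by_contra hne
    have hne' : η₁.1 ≠ η₂.1 := fun h' => hne (Subtype.ext h')
    have := cofactor_not_dvd_sub hp hζ hlam hf hy η₁.2 η₂.2 hne'
    apply this
    rw [← Ideal.mem_span_singleton, ← Ideal.Quotient.eq]
    exact h
  have hbij : Function.Bijective g := by
    apply hg.bijective_of_nat_card_le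
    rw [hcard, Nat.card_eq_fintype_card, Fintype.card_coe, hζ.card_nthRootsFinset]
  obtain ⟨η₀, h₀⟩ := hbij.2 0
  refine ⟨η₀.1, η₀.2, ?_⟩
  rw [← Ideal.mem_span_singleton, ← Ideal.Quotient.eq_zero_iff_mem]
  exact h₀


theorem descent [IsPrincipalIdealRing R] (hp : p.Prime) (hp2 : p ≠ 2) (hζ : IsPrimitiveRoot ζ p)
    (hlam : Prime (ζ - 1))
    (hcard : Nat.card (R ⧸ Ideal.span {ζ - 1}) = p)
    (hpow : ∀ x : R, ∃ n : ℤ, (p : R) ∣ x ^ p - n)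
    (hassoc : Associated ((ζ - 1) ^ (p - 1)) (p : R))
    (hkum : ∀ u : Rˣ, (∃ n : ℤ, (p : R) ∣ (u : R) - n) → ∃ v : Rˣ, u = v ^ p)
    {x y z : R} {ε : Rˣ} {m : ℕ} (hm : 1 ≤ m)
    (hy : ¬ ζ - 1 ∣ y) (hz : ¬ ζ - 1 ∣ z) (hxy : IsCoprime x y)
    (h : x ^ p + y ^ p = ε * (ζ - 1) ^ (p * m) * z ^ p) :
    2 ≤ m ∧ ∃ (x' y' z' : R) (ε' : Rˣ), ¬ ζ - 1 ∣ y' ∧ ¬ ζ - 1 ∣ z' ∧ IsCoprime x' y' ∧
      x' ^ p + y' ^ p = ε' * (ζ - 1) ^ (p * (m - 1)) * z' ^ p := by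
  classical
  set lam := ζ - 1 with hlamdef
  set S := nthRootsFinset p (1 : R) with hS
  have hpos : 0 < p := hp.pos
  have hdvd : lam ∣ x ^ p + y ^ p := by
    rw [h]
    exact Dvd.dvd.mul_right (Dvd.dvd.mul_left
      (dvd_pow_self _ (Nat.mul_ne_zero hp.ne_zero (by omega))) _) _
  have hall : ∀ η : R, ∃ c : R, η ∈ S → x + η * y = lam * c := by
    intro η
    by_cases hη : η ∈ S
    · obtain ⟨c, hc⟩ := lam_dvd_all hp hp2 hζ hlam hdvd hη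
      exact ⟨c, fun _ => hc⟩
    · exact ⟨0, fun h' => absurd h' hη⟩
  choose f hf' using hall
  have hf : ∀ η ∈ S, x + η * y = lam * f η := fun η hη => hf' η hη
  obtain ⟨η₀, hη₀, hdvd₀⟩ := exists_cofactor_dvd hp hζ hlam hcard hf hy
  have hnd : ∀ η ∈ S, η ≠ η₀ → ¬ lam ∣ f η := by
    intro η hη hne hd
    exact cofactor_not_dvd_sub hp hζ hlam hf hy hη hη₀ hne (dvd_sub hd hdvd₀)
  have hprod : ∏ η ∈ S, f η = ε * lam ^ (p * (m - 1)) * z ^ p := by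
    have h1 : ∏ η ∈ S, (x + η * y) = lam ^ p * ∏ η ∈ S, f η := by
      rw [Finset.prod_congr rfl hf, Finset.prod_mul_distrib, Finset.prod_const,
        hζ.card_nthRootsFinset]
    rw [← hζ.pow_add_pow_eq_prod_add_mul x y (hp.odd_of_ne_two hp2), h] at h1
    have hm' : p * m = p + p * (m - 1) := by
      obtain ⟨k, rfl⟩ : ∃ k, m = k + 1 := ⟨m - 1, by omega⟩
      simp only [Nat.add_sub_cancel]; ring
    rw [hm', pow_add] at h1
    apply mul_left_cancel₀ (pow_ne_zero p hlam.ne_zero)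
    linear_combination -h1
  have hsplit : ∏ η ∈ S, f η = f η₀ * ∏ η ∈ S.erase η₀, f η :=
    (Finset.mul_prod_erase S f hη₀).symm
  set F := ∏ η ∈ S.erase η₀, f η with hF
  have hFnd : ¬ lam ∣ F := by
    intro hd
    obtain ⟨η, hη, hd'⟩ := (Prime.dvd_finsetProd_iff hlam _).1 hd
    exact hnd η (Finset.mem_of_mem_erase hη) (Finset.ne_of_mem_erase hη) hd'
  have hunit_or : ∀ t : R, lam ∣ (ε : R) * z ^ p → False := by
    intro _ this
    rcases hlam.dvd_or_dvd this with h' | h'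
    · exact hlam.not_isUnit (isUnit_of_dvd_unit h' ε.isUnit)
    · exact hz (hlam.dvd_of_dvd_pow h')
  have hm2 : 2 ≤ m := by
    by_contra hlt
    have hm1 : m = 1 := by omega
    rw [hsplit, hm1] at hprod
    simp only [Nat.sub_self, mul_zero, pow_zero, mul_one] at hprod
    exact hunit_or 0 (hprod ▸ Dvd.dvd.mul_right hdvd₀ F)
  refine ⟨hm2, ?_⟩
  have hpk : lam ^ (p * (m - 1)) ∣ f η₀ := by
    apply hlam.pow_dvd_of_dvd_mul_right _ hFnd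
    rw [← hsplit, hprod]
    exact Dvd.dvd.mul_right (Dvd.intro_left _ rfl) _
  obtain ⟨g, hg⟩ := hpk
  have hgF : g * F = ε * z ^ p := by
    apply mul_left_cancel₀ (pow_ne_zero (p * (m - 1)) hlam.ne_zero)
    rw [hsplit, hg] at hprod
    linear_combination hprod
  have hgnd : ¬ lam ∣ g := by
    intro hd
    exact hunit_or 0 (hgF ▸ Dvd.dvd.mul_right hd F)
  have hη₀pow : η₀ ^ p = 1 := (mem_nthRootsFinset hpos 1).1 hη₀
  have hη₀ne : η₀ ≠ 0 := by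
    rintro rfl
    rw [zero_pow hp.ne_zero] at hη₀pow
    exact zero_ne_one hη₀pow
  have hζp : ζ ^ p = 1 := hζ.pow_eq_one
  have hζinv : ζ * ζ ^ (p - 1) = 1 := by
    rw [← pow_succ', Nat.sub_add_cancel hp.one_le, hζp]
  have hp3 : 3 ≤ p := by
    have := hp.two_le
    omega
  have hη₁ : η₀ * ζ ∈ S := by
    rw [hS, mem_nthRootsFinset hpos 1, mul_pow, hη₀pow, hζp, one_mul]
  have hη₂ : η₀ * ζ ^ (p - 1) ∈ S := by
    rw [hS, mem_nthRootsFinset hpos 1, mul_pow, hη₀pow, ← pow_mul, mul_comm (p - 1), pow_mul,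
      hζp, one_pow, one_mul]
  have h10 : η₀ * ζ ≠ η₀ := by
    intro h'
    have : ζ = 1 := by
      apply mul_left_cancel₀ hη₀ne
      rw [mul_one]; exact h'
    exact hζ.ne_one hp.one_lt this
  have h20 : η₀ * ζ ^ (p - 1) ≠ η₀ := by
    intro h'
    have : ζ ^ (p - 1) = 1 := by
      apply mul_left_cancel₀ hη₀ne
      rw [mul_one]; exact h'
    exact hζ.pow_ne_one_of_pos_of_lt (by omega) (by omega) this
  have h12 : η₀ * ζ ≠ η₀ * ζ ^ (p - 1) := by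
    intro h'
    have h'' : ζ = ζ ^ (p - 1) := mul_left_cancel₀ hη₀ne h'
    have : ζ ^ 2 = 1 := by
      rw [pow_two]; nth_rewrite 2 [h'']; exact hζinv
    exact hζ.pow_ne_one_of_pos_of_lt (by omega) (by omega) this
  have hcop : ∀ η ∈ S, ∀ η' ∈ S, η ≠ η' → IsCoprime (f η) (f η') :=
    fun η hη η' hη' hne => cofactor_isCoprime hp hζ hlam hf hxy hη hη' hne
  have hg_cop : ∀ η ∈ S, η ≠ η₀ → IsCoprime (f η) g := by
    intro η hη hne
    have := hcop η hη η₀ hη₀ hne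
    rw [hg] at this
    exact this.of_mul_right_right
  have key : ∀ η ∈ S, η ≠ η₀ → ∃ ρ : R, ∃ u : Rˣ, ρ ^ p * u = f η := by
    intro η hη hne
    have hmem : η ∈ S.erase η₀ := Finset.mem_erase.2 ⟨hne, hη⟩
    have hFs : F = f η * ∏ η' ∈ (S.erase η₀).erase η, f η' :=
      (Finset.mul_prod_erase _ f hmem).symm
    have hc : IsCoprime (f η) (g * ∏ η' ∈ (S.erase η₀).erase η, f η') := by
      apply IsCoprime.mul_right (hg_cop η hη hne)
      apply IsCoprime.prod_right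
      intro η' hη'
      have h1 := Finset.mem_of_mem_erase hη'
      exact hcop η hη η' (Finset.mem_of_mem_erase h1) (Finset.ne_of_mem_erase hη').symm
    have hassoc' : Associated (z ^ p) (f η * (g * ∏ η' ∈ (S.erase η₀).erase η, f η')) := by
      refine ⟨ε, ?_⟩
      rw [mul_comm (z ^ p), ← hgF, hFs]; ring
    obtain ⟨ρ, u, hu⟩ := exists_associated_pow_of_associated_pow_mul hc hassoc'
    exact ⟨ρ, u, hu⟩
  obtain ⟨ρ₁, u₁, hρ₁⟩ := key _ hη₁ h10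
  obtain ⟨ρ₂, u₂, hρ₂⟩ := key _ hη₂ h20
  have hcg : IsCoprime g F := by
    have h1 : IsCoprime (f η₀) F := by
      apply IsCoprime.prod_right
      intro η hη
      exact hcop η₀ hη₀ η (Finset.mem_of_mem_erase hη) (Finset.ne_of_mem_erase hη).symm
    rw [hg] at h1
    exact h1.of_mul_left_right
  obtain ⟨ρ₀, u₀, hρ₀⟩ : ∃ ρ : R, ∃ u : Rˣ, ρ ^ p * u = g := by
    have hassoc' : Associated (z ^ p) (g * F) := ⟨ε, by rw [hgF, mul_comm]⟩
    obtain ⟨ρ, u, hu⟩ := exists_associated_pow_of_associated_pow_mul hcg hassoc'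
    exact ⟨ρ, u, hu⟩
  have hid : ζ * f (η₀ * ζ ^ (p - 1)) + f (η₀ * ζ) = (1 + ζ) * f η₀ := by
    apply mul_left_cancel₀ hlam.ne_zero
    have e0 := hf η₀ hη₀
    have e1 := hf _ hη₁
    have e2 := hf _ hη₂
    linear_combination (-ζ) * e2 - e1 + (1 + ζ) * e0 + (η₀ * y) * hζinv
  obtain ⟨ζu, hζu⟩ : ∃ ζu : Rˣ, (ζu : R) = ζ := ⟨(hζ.isUnit hp.ne_zero).unit, rfl⟩
  obtain ⟨su, hsu⟩ : ∃ su : Rˣ, (su : R) = 1 + ζ := by
    have := hζ.geom_sum_isUnit hp.two_le (j := 2)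
      ((Nat.coprime_primes Nat.prime_two hp).2 (Ne.symm hp2))
    rw [Finset.sum_range_succ, Finset.sum_range_one, pow_zero, pow_one] at this
    exact ⟨this.unit, rfl⟩
  have hinv : ((u₁⁻¹ : Rˣ) : R) * (u₁ : R) = 1 := by simp
  obtain ⟨w, hw⟩ : ∃ w : Rˣ, (w : R) = ζ * (u₂ : R) * ((u₁⁻¹ : Rˣ) : R) :=
    ⟨ζu * u₂ * u₁⁻¹, by simp [hζu]⟩
  obtain ⟨ε', hε'⟩ : ∃ ε' : Rˣ, (ε' : R) = (1 + ζ) * (u₀ : R) * ((u₁⁻¹ : Rˣ) : R) :=
    ⟨su * u₀ * u₁⁻¹, by simp [hsu]⟩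
  have hnew : ρ₁ ^ p + (w : R) * ρ₂ ^ p = (ε' : R) * lam ^ (p * (m - 1)) * ρ₀ ^ p := by
    rw [hg, ← hρ₀, ← hρ₁, ← hρ₂] at hid
    rw [hw, hε']
    linear_combination ((u₁⁻¹ : Rˣ) : R) * hid - ρ₁ ^ p * hinv
  have hpdvd : (p : R) ∣ lam ^ (p * (m - 1)) := by
    refine hassoc.symm.dvd.trans (pow_dvd_pow _ ?_)
    calc p - 1 ≤ p := Nat.sub_le _ _
      _ = p * 1 := (mul_one p).symm
      _ ≤ p * (m - 1) := Nat.mul_le_mul_left p (by omega)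
  have hlamp : lam ∣ (p : R) := (dvd_pow_self lam (by omega : p - 1 ≠ 0)).trans hassoc.dvd
  obtain ⟨n₁, c₁, hc₁⟩ := hpow ρ₁
  obtain ⟨n₂, c₂, hc₂⟩ := hpow ρ₂
  obtain ⟨c₃, hc₃⟩ : (p : R) ∣ ρ₁ ^ p + (w : R) * ρ₂ ^ p := by
    rw [hnew]
    exact Dvd.dvd.mul_right (Dvd.dvd.mul_left hpdvd _) _
  have hρ₂nd : ¬ lam ∣ ρ₂ := by
    intro hd
    apply hnd _ hη₂ h20
    rw [← hρ₂]
    exact Dvd.dvd.mul_right (dvd_pow hd hp.ne_zero) _
  have hn₂ : ¬ (p : ℤ) ∣ n₂ := by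
    intro hd
    apply hρ₂nd
    apply hlam.dvd_of_dvd_pow (n := p)
    have h1 : lam ∣ (n₂ : R) := by
      obtain ⟨k, rfl⟩ := hd
      push_cast
      exact Dvd.dvd.mul_right hlamp _
    have h2 : ρ₂ ^ p = (p : R) * c₂ + n₂ := by linear_combination hc₂
    rw [h2]
    exact dvd_add (Dvd.dvd.mul_right hlamp _) h1
  obtain ⟨a, b, hab⟩ : IsCoprime (p : ℤ) n₂ :=
    (Nat.prime_iff_prime_int.mp hp).coprime_iff_not_dvd.2 hn₂
  have hab' : (a : R) * (p : R) + (b : R) * (n₂ : R) = 1 := by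
    have := congrArg (Int.cast : ℤ → R) hab
    push_cast at this
    exact this
  have hcong : ∃ n : ℤ, (p : R) ∣ (w : R) - n := by
    refine ⟨-(b * n₁), (a : R) * (w : R)
      + b * (c₃ - c₁ - (w : R) * c₂), ?_⟩
    push_cast
    linear_combination (-(w : R)) * hab' + (b : R) * hc₃ - (b : R) * hc₁
      - (b : R) * (w : R) * hc₂
  obtain ⟨v, hv⟩ := hkum _ hcong
  refine ⟨ρ₁, v * ρ₂, ρ₀, ε', ?_, ?_, ?_, ?_⟩
  · intro hd
    exact hρ₂nd ((Units.dvd_mul_left).1 hd)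
  · intro hd
    apply hgnd
    rw [← hρ₀]
    exact Dvd.dvd.mul_right (dvd_pow hd hp.ne_zero) _
  · have h1 : IsCoprime (f (η₀ * ζ)) (f (η₀ * ζ ^ (p - 1))) := hcop _ hη₁ _ hη₂ h12
    rw [← hρ₁, ← hρ₂] at h1
    have h2 : IsCoprime (ρ₁ ^ p) (ρ₂ ^ p) := h1.of_mul_left_left.of_mul_right_left
    have h3 : IsCoprime ρ₁ ρ₂ := (IsCoprime.pow_iff hpos hpos).1 h2
    exact (isCoprime_mul_unit_left_right v.isUnit ρ₁ ρ₂).2 h3
  · rw [mul_pow, ← Units.val_pow_eq_pow_val, ← hv]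
    exact hnew

theorem no_solution [IsPrincipalIdealRing R] (hp : p.Prime) (hp2 : p ≠ 2)
    (hζ : IsPrimitiveRoot ζ p) (hlam : Prime (ζ - 1))
    (hcard : Nat.card (R ⧸ Ideal.span {ζ - 1}) = p)
    (hpow : ∀ x : R, ∃ n : ℤ, (p : R) ∣ x ^ p - n)
    (hassoc : Associated ((ζ - 1) ^ (p - 1)) (p : R))
    (hkum : ∀ u : Rˣ, (∃ n : ℤ, (p : R) ∣ (u : R) - n) → ∃ v : Rˣ, u = v ^ p)
    (m : ℕ) (hm : 1 ≤ m) : ∀ (x y z : R) (ε : Rˣ),
    ¬ ζ - 1 ∣ y → ¬ ζ - 1 ∣ z → IsCoprime x y →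
    x ^ p + y ^ p ≠ ε * (ζ - 1) ^ (p * m) * z ^ p := by
  induction m, hm using Nat.le_induction with
  | base =>
    intro x y z ε hy hz hxy h
    have := (descent hp hp2 hζ hlam hcard hpow hassoc hkum le_rfl hy hz hxy h).1
    omega
  | succ m hm ih =>
    intro x y z ε hy hz hxy h
    obtain ⟨-, x', y', z', ε', hy', hz', hxy', h'⟩ :=
      descent hp hp2 hζ hlam hcard hpow hassoc hkum (by omega) hy hz hxy h
    rw [Nat.add_sub_cancel] at h'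
    exact ih x' y' z' ε' hy' hz' hxy' h'

end Abstract

section NumberField

open NumberField

variable {p : ℕ} [hp : Fact p.Prime] {K : Type*} [Field K] [NumberField K]
  [IsCyclotomicExtension {p} ℚ K]

lemma exists_int_pow_sub_dvd (x : 𝓞 K) : ∃ n : ℤ, (p : 𝓞 K) ∣ x ^ p - n := by
  have hζ := IsCyclotomicExtension.zeta_spec p ℚ K
  have htop : Algebra.adjoin ℤ {hζ.toInteger} = ⊤ := by
    have := hζ.integralPowerBasis.adjoin_gen_eq_top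
    rwa [hζ.integralPowerBasis_gen] at this
  have hx : x ∈ Algebra.adjoin ℤ {hζ.toInteger} := by rw [htop]; trivial
  induction hx using Algebra.adjoin_induction with
  | mem y hy =>
    rw [Set.mem_singleton_iff] at hy
    subst hy
    refine ⟨1, ?_⟩
    rw [hζ.toInteger_isPrimitiveRoot.pow_eq_one]; simp
  | algebraMap r => exact ⟨r ^ p, by simp⟩
  | add y z _ _ hy hz =>
    obtain ⟨n, a, ha⟩ := hy
    obtain ⟨n', b, hb⟩ := hz
    obtain ⟨r, hr⟩ := exists_add_pow_prime_eq hp.out y z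
    refine ⟨n + n', a + b + y * z * r, ?_⟩
    push_cast
    linear_combination hr + ha + hb
  | mul y z _ _ hy hz =>
    obtain ⟨n, a, ha⟩ := hy
    obtain ⟨n', b, hb⟩ := hz
    refine ⟨n * n', a * z ^ p + n * b, ?_⟩
    push_cast
    linear_combination z ^ p * ha + (n : 𝓞 K) * hb

theorem caseII (hp2 : p ≠ 2)
    (hpid : IsPrincipalIdealRing (𝓞 K))
    (hkummer : ∀ u : (𝓞 K)ˣ, (∃ n : ℤ, (p : 𝓞 K) ∣ (u : 𝓞 K) - n) → ∃ v : (𝓞 K)ˣ, u = v ^ p)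
    (a b c : ℤ) (hc : c ≠ 0) (_ha : ¬ (p : ℤ) ∣ a) (hb : ¬ (p : ℤ) ∣ b) (hpc : (p : ℤ) ∣ c)
    (hab : IsCoprime a b) : a ^ p + b ^ p ≠ c ^ p := by
  intro h
  have hζ := IsCyclotomicExtension.zeta_spec p ℚ K
  have hζ' : IsPrimitiveRoot hζ.toInteger p := hζ.toInteger_isPrimitiveRoot
  have hlam : Prime (hζ.toInteger - 1) := hζ.zeta_sub_one_prime'
  have hcard : Nat.card (𝓞 K ⧸ Ideal.span {hζ.toInteger - 1}) = p := by
    rw [hζ.card_quotient_toInteger_sub_one, hζ.norm_toInteger_sub_one_of_prime_ne_two' hp2]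
    simp
  have hassoc : Associated ((hζ.toInteger - 1) ^ (p - 1)) (p : 𝓞 K) :=
    IsCyclotomicExtension.Rat.associated_zeta_sub_one_pow_prime p hζ
  have hint : ∀ n : ℤ, hζ.toInteger - 1 ∣ (n : 𝓞 K) ↔ (p : ℤ) ∣ n := fun n =>
    IsCyclotomicExtension.Rat.zeta_sub_one_dvd_intCast_iff' p hζ
  have hfin : FiniteMultiplicity (p : ℤ) c :=
    Int.finiteMultiplicity_iff.2 ⟨by simpa using hp.out.ne_one, hc⟩
  obtain ⟨c₀, hc₀, hc₀nd⟩ := hfin.exists_eq_pow_mul_and_not_dvd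
  set k := multiplicity (p : ℤ) c with hk
  have hk1 : 1 ≤ k := by
    by_contra hlt
    have : k = 0 := by omega
    rw [this, pow_zero, one_mul] at hc₀
    exact hc₀nd (hc₀ ▸ hpc)
  have hassoc2 := hassoc
  obtain ⟨u, hu⟩ := hassoc2
  have hR : ((a : 𝓞 K)) ^ p + (b : 𝓞 K) ^ p = ((u ^ (k * p) : (𝓞 K)ˣ) : 𝓞 K) *
      (hζ.toInteger - 1) ^ (p * ((p - 1) * k)) * (c₀ : 𝓞 K) ^ p := by
    have h' := congrArg (Int.cast : ℤ → 𝓞 K) h
    push_cast at h'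
    rw [h', hc₀]
    push_cast
    rw [← hu]
    ring
  have := hpid
  exact no_solution hp.out hp2 hζ' hlam hcard exists_int_pow_sub_dvd hassoc hkummer
    ((p - 1) * k) (Nat.mul_pos (by have := hp.out.two_le; omega) hk1) a b c₀ (u ^ (k * p))
    ((hint b).not.2 hb) ((hint c₀).not.2 hc₀nd) hab.intCast hR

end NumberField

end Fermat.Agent.Lib.KummerCaseII
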