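import Mathlib
import Fermat.Prelude.Def_AlgebraicCurve_CanonicalDivisor

set_option autoImplicit false

namespace Fermat.Agent.Lib.PlaceEmbed

open AlgebraicCurve

/-- An integer valued order function on a field (a discrete valuation written additively;
the value at `0` is irrelevant). -/
structure IntOrd (M : Type*) [Field M] where
  ord : M → ℤ
  map_mul : ∀ x y : M, x ≠ 0 → y ≠ 0 → ord (x * y) = ord x + ord y
  map_add : ∀ x y : M, x + y ≠ 0 → min (ord x) (ord y) ≤ ord (x + y)

namespace IntOrd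

variable {M : Type*} [Field M] (W : IntOrd M)

theorem ord_one : W.ord 1 = 0 := by
  have h := W.map_mul 1 1 one_ne_zero one_ne_zero
  rw [mul_one] at h
  omega

theorem ord_inv {x : M} (hx : x ≠ 0) : W.ord x⁻¹ = -W.ord x := by
  have h := W.map_mul x x⁻¹ hx (inv_ne_zero hx)
  rw [mul_inv_cancel₀ hx, W.ord_one] at h
  omega

theorem ord_neg_one : W.ord (-1) = 0 := by
  have h := W.map_mul (-1) (-1) (neg_ne_zero.mpr one_ne_zero) (neg_ne_zero.mpr one_ne_zero)
  rw [neg_mul_neg, mul_one, W.ord_one] at h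
  omega

theorem ord_neg (x : M) : W.ord (-x) = W.ord x := by
  rcases eq_or_ne x 0 with rfl | hx
  · simp
  · have h := W.map_mul (-1) x (neg_ne_zero.mpr one_ne_zero) hx
    rw [neg_one_mul, W.ord_neg_one] at h
    omega

theorem ord_pow {x : M} (hx : x ≠ 0) (n : ℕ) : W.ord (x ^ n) = n * W.ord x := by
  induction n with
  | zero => simp [W.ord_one]
  | succ n ih =>
    rw [pow_succ, W.map_mul _ _ (pow_ne_zero n hx) hx, ih]
    push_cast
    ring

theorem ord_zpow {x : M} (hx : x ≠ 0) (n : ℤ) : W.ord (x ^ n) = n * W.ord x := by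
  rcases n with n | n
  · simpa using W.ord_pow hx n
  · rw [Int.negSucc_eq, zpow_neg, W.ord_inv (zpow_ne_zero _ hx)]
    have h := W.ord_pow hx (n + 1)
    have h2 : x ^ ((n : ℤ) + 1) = x ^ (n + 1) := by
      exact_mod_cast zpow_natCast x (n + 1)
    rw [h2, h]
    push_cast
    ring

theorem ord_div {x y : M} (hx : x ≠ 0) (hy : y ≠ 0) : W.ord (x / y) = W.ord x - W.ord y := by
  rw [div_eq_mul_inv, W.map_mul _ _ hx (inv_ne_zero hy), W.ord_inv hy]
  ring

/-- `W.Ge x k` : `x` has order at least `k` (with `0` of infinite order). -/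
def Ge (x : M) (k : ℤ) : Prop := x = 0 ∨ k ≤ W.ord x

variable {W}

theorem Ge.zero (k : ℤ) : W.Ge 0 k := Or.inl rfl

theorem Ge.mono {x : M} {k l : ℤ} (h : W.Ge x k) (hl : l ≤ k) : W.Ge x l := by
  rcases h with h | h
  · exact Or.inl h
  · exact Or.inr (hl.trans h)

theorem Ge.add {x y : M} {k : ℤ} (hx : W.Ge x k) (hy : W.Ge y k) : W.Ge (x + y) k := by
  rcases hx with rfl | hx
  · simpa using hy
  rcases hy with rfl | hy
  · rw [add_zero]; exact Or.inr hx
  by_cases h : x + y = 0
  · exact Or.inl h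
  · exact Or.inr ((le_min hx hy).trans (W.map_add x y h))

theorem Ge.neg {x : M} {k : ℤ} (hx : W.Ge x k) : W.Ge (-x) k := by
  rcases hx with rfl | hx
  · simp [Ge]
  · exact Or.inr (by rw [W.ord_neg]; exact hx)

theorem Ge.sub {x y : M} {k : ℤ} (hx : W.Ge x k) (hy : W.Ge y k) : W.Ge (x - y) k := by
  rw [sub_eq_add_neg]
  exact hx.add hy.neg

theorem Ge.mul {x y : M} {k l : ℤ} (hx : W.Ge x k) (hy : W.Ge y l) : W.Ge (x * y) (k + l) := by
  rcases hx with rfl | hx
  · simp [Ge]
  rcases hy with rfl | hy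
  · simp [Ge]
  by_cases hx0 : x = 0
  · subst hx0; simp [Ge]
  by_cases hy0 : y = 0
  · subst hy0; simp [Ge]
  exact Or.inr (by rw [W.map_mul x y hx0 hy0]; omega)

theorem ge_of_ord {x : M} {k : ℤ} (h : k ≤ W.ord x) : W.Ge x k := Or.inr h

theorem Ge.sum {ι : Type*} (s : Finset ι) (f : ι → M) (k : ℤ) (h : ∀ i ∈ s, W.Ge (f i) k) :
    W.Ge (∑ i ∈ s, f i) k := by
  classical
  induction s using Finset.induction_on with
  | empty => simp [Ge]
  | insert a s ha ih =>
    rw [Finset.sum_insert ha]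
    exact (h a (Finset.mem_insert_self a s)).add
      (ih fun i hi => h i (Finset.mem_insert_of_mem hi))

/-- strict triangle inequality -/
theorem add_ne_zero_and_ord_eq {x y : M} {b : ℤ} (hx : x ≠ 0) (hy : W.Ge y b)
    (hlt : W.ord x < b) : x + y ≠ 0 ∧ W.ord (x + y) = W.ord x := by
  rcases hy with rfl | hy
  · simpa using hx
  have hne : x + y ≠ 0 := by
    intro h
    have hyx : y = -x := by linear_combination h
    rw [hyx, W.ord_neg] at hy
    omega
  refine ⟨hne, le_antisymm ?_ ?_⟩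
  · have h2 := W.map_add (x + y) (-y) (by simpa using hx)
    rw [add_neg_cancel_right, W.ord_neg] at h2
    rcases min_le_iff.mp h2 with h3 | h3
    · exact h3
    · omega
  · have := W.map_add x y hne
    exact (le_min le_rfl (by omega)).trans this

end IntOrd

section PlaceBasics

variable {K F : Type*} [Field K] [Field F] [Algebra K F] (v : Place K F)

theorem place_ord_add_ge (x y : F) (h : x + y ≠ 0) : min (v.ord x) (v.ord y) ≤ v.ord (x + y) := by
  rcases eq_or_ne x 0 with rfl | hx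
  · simp
  rcases eq_or_ne y 0 with rfl | hy
  · simp
  have hx' := v.adicValuation_ne_zero hx
  have hy' := v.adicValuation_ne_zero hy
  have hxy' := v.adicValuation_ne_zero h
  have hadd := v.adicValuation.map_add x y
  simp only [Place.ord]
  rcases le_total (v.adicValuation x) (v.adicValuation y) with hle | hle
  · rw [max_eq_right hle] at hadd
    have := (WithZero.log_le_log hxy' hy').mpr hadd
    exact (min_le_right _ _).trans (by omega)
  · rw [max_eq_left hle] at hadd
    have := (WithZero.log_le_log hxy' hx').mpr hadd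
    exact (min_le_left _ _).trans (by omega)

/-- The order function of a place as an `IntOrd`. -/
noncomputable def placeOrd : IntOrd F where
  ord := v.ord
  map_mul := fun _ _ hx hy => v.ord_mul hx hy
  map_add := place_ord_add_ge v

@[simp] theorem placeOrd_ord (x : F) : (placeOrd v).ord x = v.ord x := rfl

theorem ord_nonneg_of_mem {x : F} (hx : x ∈ v.toValuationSubring) : 0 ≤ v.ord x := by
  rcases eq_or_ne x 0 with rfl | hx0
  · simp
  have h1 : v.adicValuation x ≤ 1 := by
    have := v.adicValuation_coe ⟨x, hx⟩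
    simp only at this
    rw [this]
    exact IsDedekindDomain.HeightOneSpectrum.intValuation_le_one _ _
  have h2 := (WithZero.log_le_log (v.adicValuation_ne_zero hx0) one_ne_zero).mpr h1
  simp only [Place.ord]
  simp only [WithZero.log_one] at h2
  omega

theorem exists_uniformizer :
    ∃ π : F, π ∈ v.toValuationSubring ∧ π ≠ 0 ∧ v.ord π = 1 ∧
      ∀ f : F, f ≠ 0 → ∃ u : F, u ∈ v.toValuationSubring ∧ u⁻¹ ∈ v.toValuationSubring ∧
        u ≠ 0 ∧ v.ord u = 0 ∧ f = u * π ^ (v.ord f) := by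
  obtain ⟨π, hπ⟩ := IsDiscreteValuationRing.exists_irreducible v.toValuationSubring
  have hπ0 : (π : F) ≠ 0 := by
    simpa [ne_eq, ZeroMemClass.coe_eq_zero] using hπ.ne_zero
  refine ⟨π, π.2, hπ0, v.ord_coe_irreducible hπ, fun f hf => ?_⟩
  obtain ⟨u, hu⟩ := v.exists_unit_mul_zpow hf hπ
  refine ⟨((u : v.toValuationSubring) : F), (u : v.toValuationSubring).2, ?_, ?_,
    v.ord_coe_unit u, hu⟩
  · have : (((u⁻¹ : (v.toValuationSubring)ˣ) : v.toValuationSubring) : F)
        = ((u : v.toValuationSubring) : F)⁻¹ := by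
      have h1 : ((u : v.toValuationSubring) : F) * (((u⁻¹ : (v.toValuationSubring)ˣ) :
          v.toValuationSubring) : F) = 1 := by
        have h0 := congrArg (Subtype.val) (u.mul_inv)
        exact h0
      exact eq_inv_of_mul_eq_one_right h1
    rw [← this]
    exact ((u⁻¹ : (v.toValuationSubring)ˣ) : v.toValuationSubring).2
  · simp [ne_eq, ZeroMemClass.coe_eq_zero]

theorem mem_of_ord_nonneg {x : F} (hx : 0 ≤ v.ord x) : x ∈ v.toValuationSubring := by
  rcases eq_or_ne x 0 with rfl | hx0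
  · exact zero_mem _
  obtain ⟨π, hπ, hπ0, hπ1, hfac⟩ := exists_uniformizer v
  obtain ⟨u, hu, -, -, -, hxu⟩ := hfac x hx0
  rw [hxu]
  refine mul_mem hu ?_
  obtain ⟨n, hn⟩ := Int.eq_ofNat_of_zero_le hx
  rw [hn, zpow_natCast]
  exact pow_mem hπ n

theorem mem_iff_ord_nonneg {x : F} (_hx : x ≠ 0) : x ∈ v.toValuationSubring ↔ 0 ≤ v.ord x :=
  ⟨ord_nonneg_of_mem v, mem_of_ord_nonneg v⟩

theorem ord_algebraMap (a : K) : v.ord (algebraMap K F a) = 0 := by
  have h1 := ord_nonneg_of_mem v (v.algebraMap_mem' a)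
  have h2 := ord_nonneg_of_mem v (v.algebraMap_mem' a⁻¹)
  rw [map_inv₀, v.ord_inv] at h2
  omega

end PlaceBasics

section Embed

variable {K F M : Type*} [Field K] [Field F] [Algebra K F] [Field M] [Algebra K M]

/-- `φ` induces the place `v`: the preimage under `φ` of the valuation ring of `W` is the
valuation ring of `v`. -/
def Induces (W : IntOrd M) (φ : F →ₐ[K] M) (v : Place K F) : Prop :=
  ∀ x : F, x ≠ 0 → (0 ≤ W.ord (φ x) ↔ 0 ≤ v.ord x)

variable {W : IntOrd M} {φ : F →ₐ[K] M} {v : Place K F}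

theorem Induces.ord_eq_zero (h : Induces W φ v) {x : F} (hx : x ≠ 0) (hx0 : v.ord x = 0) :
    W.ord (φ x) = 0 := by
  have h1 := (h x hx).mpr (by omega)
  have h2 := (h x⁻¹ (inv_ne_zero hx)).mpr (by rw [v.ord_inv]; omega)
  rw [map_inv₀, W.ord_inv ((map_ne_zero φ).mpr hx)] at h2
  omega

theorem Induces.ord_eq (h : Induces W φ v) {π : F} (hπ : v.ord π = 1) :
    0 < W.ord (φ π) ∧ ∀ x : F, x ≠ 0 → W.ord (φ x) = W.ord (φ π) * v.ord x := by
  have hπ0 : π ≠ 0 := by
    rintro rfl
    simp at hπ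
  have hφπ : φ π ≠ 0 := (map_ne_zero φ).mpr hπ0
  constructor
  · have h1 := (h π⁻¹ (inv_ne_zero hπ0)).not.mpr (by rw [v.ord_inv]; omega)
    rw [map_inv₀, W.ord_inv hφπ] at h1
    omega
  · intro x hx
    have hy0 : x * (π ^ (v.ord x))⁻¹ ≠ 0 := mul_ne_zero hx (inv_ne_zero (zpow_ne_zero _ hπ0))
    have hy : v.ord (x * (π ^ (v.ord x))⁻¹) = 0 := by
      rw [v.ord_mul hx (inv_ne_zero (zpow_ne_zero _ hπ0)), v.ord_inv, v.ord_zpow, hπ]
      ring
    have h1 := h.ord_eq_zero hy0 hy
    have hx2 : x = (x * (π ^ (v.ord x))⁻¹) * π ^ (v.ord x) := by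
      field_simp
    have h2 : W.ord (φ x) = W.ord (φ (x * (π ^ (v.ord x))⁻¹)) + W.ord (φ (π ^ (v.ord x))) := by
      conv_lhs => rw [hx2]
      rw [map_mul, W.map_mul _ _ ((map_ne_zero φ).mpr hy0)
        ((map_ne_zero φ).mpr (zpow_ne_zero _ hπ0))]
    rw [h2, h1, map_zpow₀, W.ord_zpow hφπ]
    ring

theorem Induces.ge_zero (h : Induces W φ v) {x : F} (hx : 0 ≤ v.ord x) : W.Ge (φ x) 0 := by
  rcases eq_or_ne x 0 with rfl | hx0
  · simp [IntOrd.Ge]
  · exact Or.inr ((h x hx0).mpr hx)

/-- powers close to `1` -/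
theorem ge_pow_sub_one {r : M} (hr : W.Ge (r - 1) 1) (i : ℕ) : W.Ge (r ^ i - 1) 1 := by
  have hr0 : W.Ge r 0 := by
    have h1 : W.Ge (1 : M) 0 := Or.inr (by rw [W.ord_one])
    have := h1.add (hr.mono (by norm_num : (0 : ℤ) ≤ 1))
    simpa using this
  induction i with
  | zero => simp [IntOrd.Ge]
  | succ i ih =>
    have h2 : r ^ (i + 1) - 1 = (r ^ i - 1) * r + (r - 1) := by ring
    rw [h2]
    have h3 := ih.mul hr0
    simp only [add_zero] at h3
    exact h3.add hr

theorem ord_natCast [CharZero K] (hWK : ∀ a : K, a ≠ 0 → W.ord (algebraMap K M a) = 0)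
    {n : ℕ} (hn : n ≠ 0) : (n : M) ≠ 0 ∧ W.ord (n : M) = 0 := by
  have h1 : (n : M) = algebraMap K M (n : K) := by simp
  have h2 : (n : K) ≠ 0 := by exact_mod_cast hn
  rw [h1]
  exact ⟨(map_ne_zero (algebraMap K M)).mpr h2, hWK _ h2⟩

/-- geometric sums close to their length -/
theorem geom_sum_ne_zero_and_ord [CharZero K]
    (hWK : ∀ a : K, a ≠ 0 → W.ord (algebraMap K M a) = 0) {r : M} (hr : W.Ge (r - 1) 1)
    {n : ℕ} (hn : n ≠ 0) :
    (∑ i ∈ Finset.range n, r ^ i) ≠ 0 ∧ W.ord (∑ i ∈ Finset.range n, r ^ i) = 0 := by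
  have h1 : (∑ i ∈ Finset.range n, r ^ i) = (n : M) + ∑ i ∈ Finset.range n, (r ^ i - 1) := by
    rw [Finset.sum_sub_distrib]
    simp
  obtain ⟨hn0, hn1⟩ := ord_natCast (W := W) hWK hn
  have h2 : W.Ge (∑ i ∈ Finset.range n, (r ^ i - 1)) 1 :=
    IntOrd.Ge.sum _ _ _ fun i _ => ge_pow_sub_one hr i
  have h3 := IntOrd.add_ne_zero_and_ord_eq hn0 h2 (by rw [hn1]; norm_num)
  rw [h1]
  exact ⟨h3.1, by rw [h3.2, hn1]⟩

/-- Two embeddings inducing the same place, agreeing at an element `T` of positive order, and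
having the same leading behaviour at a uniformizer, are equal. -/
theorem eq_of_induces_of_close [CharZero K]
    (hWK : ∀ a : K, a ≠ 0 → W.ord (algebraMap K M a) = 0)
    (hres : ∀ x : F, 0 ≤ v.ord x → ∃ a : K, (placeOrd v).Ge (x - algebraMap K F a) 1)
    {φ φ' : F →ₐ[K] M} (h : Induces W φ v) (h' : Induces W φ' v)
    {T : F} (hT : 0 < v.ord T) (hTeq : φ T = φ' T)
    {π : F} (hπ : v.ord π = 1)
    (hclose : W.Ge (φ' π - φ π) (W.ord (φ π) + 1)) : φ = φ' := by
  have hπ0 : π ≠ 0 := by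
    rintro rfl
    simp at hπ
  obtain ⟨hm, hord⟩ := h.ord_eq hπ
  obtain ⟨hm', hord'⟩ := h'.ord_eq hπ
  set m := W.ord (φ π) with hmdef
  have hT0 : T ≠ 0 := by
    rintro rfl
    simp at hT
  have hmm : W.ord (φ' π) = m := by
    have h1 := hord T hT0
    have h2 := hord' T hT0
    rw [hTeq] at h1
    rw [h1] at h2
    have h3 : (m - W.ord (φ' π)) * v.ord T = 0 := by linarith
    rcases mul_eq_zero.mp h3 with h3 | h3
    · omega
    · omega
  rw [hmm] at hord' hm'
  have hδmul : ∀ x y : F,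
      φ' (x * y) - φ (x * y) = φ' x * (φ' y - φ y) + (φ' x - φ x) * φ y := by
    intro x y
    rw [map_mul, map_mul]
    ring
  have stepA : ∀ k : ℤ, W.Ge (φ' π - φ π) k → ∀ j : ℕ, ∀ x : F, 0 ≤ v.ord x →
      W.Ge (φ' x - φ x) (min ((j : ℤ) * m) k) := by
    intro k hk j
    induction j with
    | zero =>
      intro x hx
      have h0 := (h'.ge_zero hx).sub (h.ge_zero hx)
      exact h0.mono (by simp)
    | succ j ih =>
      intro x hx
      obtain ⟨a, ha⟩ := hres x hx
      set y := (x - algebraMap K F a) * π⁻¹ with hy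
      have hxy : x = algebraMap K F a + π * y := by
        rw [hy]
        field_simp
        ring
      have hyord : 0 ≤ v.ord y := by
        rcases ha with ha | ha
        · rw [hy, ha]
          simp
        · by_cases hxa : x - algebraMap K F a = 0
          · rw [hy, hxa]
            simp
          · rw [hy, v.ord_mul hxa (inv_ne_zero hπ0), v.ord_inv, hπ]
            simp only [placeOrd_ord] at ha
            omega
      have e1 : φ' x - φ x = φ' π * (φ' y - φ y) + (φ' π - φ π) * φ y := by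
        rw [← hδmul]
        conv_lhs => rw [hxy]
        rw [map_add, map_add, AlgHom.commutes, AlgHom.commutes]
        ring
      rw [e1]
      have g1 : W.Ge (φ' π) m := Or.inr (by rw [hmm])
      have t1 := g1.mul (ih y hyord)
      have t2 := hk.mul (h.ge_zero hyord)
      have hj : ((j + 1 : ℕ) : ℤ) * m = (j : ℤ) * m + m := by
        push_cast
        ring
      rw [hj]
      generalize (j : ℤ) * m = A at t1 ⊢
      refine (t1.mono ?_).add (t2.mono ?_)
      · omega
      · omega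
  have stepA' : ∀ k : ℤ, W.Ge (φ' π - φ π) k → ∀ x : F, 0 ≤ v.ord x →
      W.Ge (φ' x - φ x) k := by
    intro k hk x hx
    have h0 := stepA k hk k.toNat x hx
    refine h0.mono (le_min ?_ le_rfl)
    have h1 : k ≤ (k.toNat : ℤ) := Int.self_le_toNat k
    have h2 : (0 : ℤ) ≤ (k.toNat : ℤ) := Int.natCast_nonneg _
    nlinarith
  have hδπ : φ' π - φ π = 0 := by
    by_contra hne
    have hκ : m + 1 ≤ W.ord (φ' π - φ π) := by
      rcases hclose with h0 | h0
      · exact absurd h0 hne
      · exact h0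
    set κ := W.ord (φ' π - φ π) with hκdef
    obtain ⟨e, he⟩ : ∃ e : ℕ, v.ord T = e := ⟨(v.ord T).toNat, by omega⟩
    have he0 : e ≠ 0 := by
      rintro rfl
      simp [he] at hT
    have hπe0 : π ^ e ≠ 0 := pow_ne_zero e hπ0
    set ε := T * (π ^ e)⁻¹ with hε
    have hε0 : ε ≠ 0 := mul_ne_zero hT0 (inv_ne_zero hπe0)
    have hπeord : v.ord (π ^ e) = e := by
      rw [← zpow_natCast, v.ord_zpow, hπ]
      ring
    have hεord : v.ord ε = 0 := by
      rw [hε, v.ord_mul hT0 (inv_ne_zero hπe0), v.ord_inv, hπeord, he]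
      ring
    have hTε : T = π ^ e * ε := by
      rw [hε]
      field_simp
    have e1 : φ' T - φ T
        = φ' (π ^ e) * (φ' ε - φ ε) + (φ' (π ^ e) - φ (π ^ e)) * φ ε := by
      rw [← hδmul, ← hTε]
    have hzero : φ' (π ^ e) * (φ' ε - φ ε) + (φ' (π ^ e) - φ (π ^ e)) * φ ε = 0 := by
      rw [← e1, hTeq]
      ring
    have hY : W.Ge (φ' (π ^ e) * (φ' ε - φ ε)) ((e : ℤ) * m + κ) := by
      have g1 : W.Ge (φ' (π ^ e)) ((e : ℤ) * m) :=
        Or.inr (by rw [hord' _ hπe0, hπeord, mul_comm])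
      exact g1.mul (stepA' κ (Or.inr le_rfl) ε (by omega))
    set p := φ π with hp
    have hp0 : p ≠ 0 := (map_ne_zero φ).mpr hπ0
    set r := φ' π / p with hr
    have hr1 : r - 1 = (φ' π - p) / p := by
      rw [hr]
      field_simp
    have hr1ne : r - 1 ≠ 0 := by
      rw [hr1]
      exact div_ne_zero hne hp0
    have hr1ord : W.ord (r - 1) = κ - m := by
      rw [hr1, W.ord_div hne hp0]
    have hrge : W.Ge (r - 1) 1 := Or.inr (by omega)
    obtain ⟨hG0, hGord⟩ := geom_sum_ne_zero_and_ord (W := W) hWK hrge he0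
    have hdiff : φ' (π ^ e) - φ (π ^ e)
        = p ^ e * ((∑ i ∈ Finset.range e, r ^ i) * (r - 1)) := by
      rw [geom_sum_mul, map_pow, map_pow, hr, ← hp, div_pow, mul_sub,
        mul_div_cancel₀ _ (pow_ne_zero e hp0), mul_one]
    have hε' : φ ε ≠ 0 := (map_ne_zero φ).mpr hε0
    have hpe0 : p ^ e ≠ 0 := pow_ne_zero _ hp0
    have hGr : (∑ i ∈ Finset.range e, r ^ i) * (r - 1) ≠ 0 := mul_ne_zero hG0 hr1ne
    have hX0 : (φ' (π ^ e) - φ (π ^ e)) * φ ε ≠ 0 := by
      rw [hdiff]
      exact mul_ne_zero (mul_ne_zero hpe0 hGr) hε'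
    have hXord : W.ord ((φ' (π ^ e) - φ (π ^ e)) * φ ε) = (e : ℤ) * m + κ - m := by
      rw [hdiff, W.map_mul _ _ (mul_ne_zero hpe0 hGr) hε', W.map_mul _ _ hpe0 hGr,
        W.map_mul _ _ hG0 hr1ne, W.ord_pow hp0, hGord, hr1ord, h.ord_eq_zero hε0 hεord]
      ring
    have hfin := (IntOrd.add_ne_zero_and_ord_eq hX0 hY (by rw [hXord]; omega)).1
    exact hfin (by rw [add_comm]; exact hzero)
  have hall : ∀ x : F, 0 ≤ v.ord x → φ' x = φ x := by
    intro x hx
    by_contra hne
    have hne' : φ' x - φ x ≠ 0 := sub_ne_zero.mpr hne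
    have h0 := stepA' (W.ord (φ' x - φ x) + 1) (Or.inl hδπ) x hx
    rcases h0 with h0 | h0
    · exact hne' h0
    · omega
  refine AlgHom.ext fun x => ?_
  rcases le_or_gt 0 (v.ord x) with hx | hx
  · exact (hall x hx).symm
  · have h0 := hall x⁻¹ (by rw [v.ord_inv]; omega)
    rw [map_inv₀, map_inv₀] at h0
    exact (inv_injective h0).symm

/-- **Fibre lemma.** The `K`-embeddings `F → M` inducing a given place `v` and taking a
prescribed value at an element `T` with `e = v.ord T > 0` number at most `e`. -/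
theorem card_le_ord [IsAlgClosed K] [CharZero K]
    (hWK : ∀ a : K, a ≠ 0 → W.ord (algebraMap K M a) = 0)
    (hres : ∀ x : F, 0 ≤ v.ord x → ∃ a : K, (placeOrd v).Ge (x - algebraMap K F a) 1)
    {T : F} (hT : 0 < v.ord T) (T0 : M)
    (s : Finset (F →ₐ[K] M)) (hs : ∀ φ ∈ s, Induces W φ v ∧ φ T = T0) :
    (s.card : ℤ) ≤ v.ord T := by
  classical
  rcases s.eq_empty_or_nonempty with rfl | ⟨φ₀, hφ₀⟩
  · simp only [Finset.card_empty, Nat.cast_zero]
    omega
  obtain ⟨π, -, hπ0, hπ, -⟩ := exists_uniformizer v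
  obtain ⟨e, he⟩ : ∃ e : ℕ, v.ord T = e := ⟨(v.ord T).toNat, by omega⟩
  have he0 : e ≠ 0 := by
    rintro rfl
    simp [he] at hT
  have hT0 : T ≠ 0 := by
    rintro rfl
    simp at hT
  have hπe0 : π ^ e ≠ 0 := pow_ne_zero e hπ0
  set ε := T * (π ^ e)⁻¹ with hε
  have hε0 : ε ≠ 0 := mul_ne_zero hT0 (inv_ne_zero hπe0)
  have hπeord : v.ord (π ^ e) = e := by
    rw [← zpow_natCast, v.ord_zpow, hπ]
    ring
  have hεord : v.ord ε = 0 := by
    rw [hε, v.ord_mul hT0 (inv_ne_zero hπe0), v.ord_inv, hπeord, he]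
    ring
  have hTε : T = π ^ e * ε := by
    rw [hε]
    field_simp
  obtain ⟨t, ht⟩ := hres ε (by omega)
  have hεφ : ∀ φ ∈ s, W.Ge (φ ε - algebraMap K M t) 1 := by
    intro φ hφ
    have hind := (hs φ hφ).1
    have h1 : φ ε - algebraMap K M t = φ (ε - algebraMap K F t) := by
      rw [map_sub, AlgHom.commutes]
    rw [h1]
    rcases ht with ht | ht
    · rw [ht]
      simp [IntOrd.Ge]
    · by_cases h0 : ε - algebraMap K F t = 0
      · rw [h0]
        simp [IntOrd.Ge]
      · obtain ⟨hm, hord⟩ := hind.ord_eq hπ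
        refine Or.inr ?_
        rw [hord _ h0]
        simp only [placeOrd_ord] at ht
        nlinarith
  set p₀ := φ₀ π with hp₀def
  have hp₀ : p₀ ≠ 0 := (map_ne_zero φ₀).mpr hπ0
  have hmφ : ∀ φ ∈ s, W.ord (φ π) = W.ord p₀ := by
    intro φ hφ
    obtain ⟨hm, hord⟩ := (hs φ hφ).1.ord_eq hπ
    obtain ⟨hm0, hord0⟩ := (hs φ₀ hφ₀).1.ord_eq hπ
    have h1 := hord T hT0
    have h2 := hord0 T hT0
    rw [(hs φ hφ).2] at h1
    rw [(hs φ₀ hφ₀).2] at h2
    have h3 : (W.ord (φ π) - W.ord p₀) * v.ord T = 0 := by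
      rw [hp₀def]
      linarith
    rcases mul_eq_zero.mp h3 with h3 | h3
    · omega
    · omega
  have hrφ : ∀ φ ∈ s, W.Ge ((φ π / p₀) ^ e - 1) 1 := by
    intro φ hφ
    have hφε0 : φ ε ≠ 0 := (map_ne_zero φ).mpr hε0
    have hφπ0 : φ π ≠ 0 := (map_ne_zero φ).mpr hπ0
    have h1 : (φ π) ^ e * φ ε = p₀ ^ e * φ₀ ε := by
      rw [hp₀def, ← map_pow, ← map_mul, ← hTε, (hs φ hφ).2, ← map_pow, ← map_mul, ← hTε,
        (hs φ₀ hφ₀).2]
    have h2 : (φ π / p₀) ^ e - 1 = (φ₀ ε - φ ε) * (φ ε)⁻¹ := by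
      have h1' : (φ π) ^ e = p₀ ^ e * φ₀ ε * (φ ε)⁻¹ := by
        rw [← h1, mul_assoc, mul_inv_cancel₀ hφε0, mul_one]
      rw [div_pow, h1', sub_mul, mul_inv_cancel₀ hφε0]
      have hpe : p₀ ^ e ≠ 0 := pow_ne_zero e hp₀
      field_simp
    rw [h2]
    have h3 : W.Ge (φ₀ ε - φ ε) 1 := by
      have h0 := (hεφ φ₀ hφ₀).sub (hεφ φ hφ)
      simpa using h0
    have h4 : W.Ge (φ ε)⁻¹ 0 :=
      Or.inr (by rw [W.ord_inv hφε0, (hs φ hφ).1.ord_eq_zero hε0 hεord]; simp)
    simpa using h3.mul h4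
  have hsplit : ∀ r : M,
      r ^ e - 1 = ((Polynomial.nthRoots e (1 : M)).map (fun ζ => r - ζ)).prod := by
    intro r
    have hmon : (Polynomial.X ^ e - Polynomial.C (1 : M)).Monic :=
      Polynomial.monic_X_pow_sub_C 1 he0
    have hspl : (Polynomial.X ^ e - Polynomial.C (1 : M)).Splits := by
      have h0 := IsAlgClosed.splits_domain (f := algebraMap K M)
        (Polynomial.X ^ e - Polynomial.C (1 : K))
      simpa using h0
    have h0 := hspl.eval_eq_prod_roots_of_monic hmon r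
    simpa [Polynomial.nthRoots] using h0
  have hexists : ∀ φ ∈ s, ∃ ζ ∈ Polynomial.nthRoots e (1 : M), W.Ge (φ π / p₀ - ζ) 1 := by
    intro φ hφ
    by_contra hcon
    simp only [not_exists, not_and] at hcon
    have hφπ0 : φ π ≠ 0 := (map_ne_zero φ).mpr hπ0
    have hr0 : W.ord (φ π / p₀) = 0 := by
      rw [W.ord_div hφπ0 hp₀, hmφ φ hφ]
      ring
    have key : ∀ (R : Multiset M), (∀ ζ ∈ R, ζ ^ e = 1) →
        (∀ ζ ∈ R, ¬ W.Ge (φ π / p₀ - ζ) 1) →
        (R.map (fun ζ => φ π / p₀ - ζ)).prod ≠ 0 ∧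
          W.ord ((R.map (fun ζ => φ π / p₀ - ζ)).prod) = 0 := by
      intro R
      induction R using Multiset.induction_on with
      | empty =>
        intro _ _
        simp [W.ord_one]
      | cons a R ih =>
        intro h1 h2
        obtain ⟨i1, i2⟩ := ih (fun ζ hζ => h1 ζ (Multiset.mem_cons_of_mem hζ))
          (fun ζ hζ => h2 ζ (Multiset.mem_cons_of_mem hζ))
        have ha := h2 a (Multiset.mem_cons_self a R)
        have ha1 := h1 a (Multiset.mem_cons_self a R)
        have ha0 : a ≠ 0 := by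
          rintro rfl
          simp [zero_pow he0] at ha1
        have haord : W.ord a = 0 := by
          have h3 := W.ord_pow ha0 e
          rw [ha1, W.ord_one] at h3
          have he' : (e : ℤ) ≠ 0 := by exact_mod_cast he0
          rcases mul_eq_zero.mp h3.symm with h | h
          · exact absurd h he'
          · exact h
        have hge0 : W.Ge (φ π / p₀ - a) 0 :=
          (IntOrd.ge_of_ord (by rw [hr0])).sub (IntOrd.ge_of_ord (by rw [haord]))
        have hne : φ π / p₀ - a ≠ 0 := fun h0 => ha (Or.inl h0)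
        have hord0 : W.ord (φ π / p₀ - a) = 0 := by
          rcases hge0 with h0 | h0
          · exact absurd h0 hne
          · have h3 : ¬ (1 ≤ W.ord (φ π / p₀ - a)) := fun h3 => ha (Or.inr h3)
            omega
        rw [Multiset.map_cons, Multiset.prod_cons]
        exact ⟨mul_ne_zero hne i1, by rw [W.map_mul _ _ hne i1, hord0, i2]; rfl⟩
    obtain ⟨k1, k2⟩ := key (Polynomial.nthRoots e (1 : M))
      (fun ζ hζ => (Polynomial.mem_nthRoots (Nat.pos_of_ne_zero he0)).mp hζ) hcon
    rw [← hsplit] at k1 k2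
    rcases hrφ φ hφ with h0 | h0
    · exact k1 h0
    · omega
  choose! ζ hζmem hζ using hexists
  have hinj : Set.InjOn ζ (s : Set (F →ₐ[K] M)) := by
    intro φ hφ φ' hφ' heq
    have h1 := hζ φ hφ
    have h2 := hζ φ' hφ'
    rw [← heq] at h2
    have h3 : W.Ge (φ' π / p₀ - φ π / p₀) 1 := by
      have h0 := h2.sub h1
      simpa using h0
    have h4 : φ' π - φ π = (φ' π / p₀ - φ π / p₀) * p₀ := by
      field_simp
    have h5 : W.Ge (φ' π - φ π) (W.ord (φ π) + 1) := by
      rw [h4, hmφ φ hφ]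
      have h0 := h3.mul (IntOrd.ge_of_ord (le_refl (W.ord p₀)))
      rw [add_comm]
      exact h0
    exact eq_of_induces_of_close hWK hres (hs φ hφ).1 (hs φ' hφ').1 hT
      ((hs φ hφ).2.trans (hs φ' hφ').2.symm) hπ h5
  have hcard : s.card ≤ (Polynomial.nthRoots e (1 : M)).toFinset.card :=
    Finset.card_le_card_of_injOn ζ (fun φ hφ => by simpa using hζmem φ hφ) hinj
  have h6 : (Polynomial.nthRoots e (1 : M)).toFinset.card ≤ e :=
    (Multiset.toFinset_card_le _).trans (Polynomial.card_nthRoots e 1)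
  rw [he]
  exact_mod_cast hcard.trans h6

end Embed

section InducedPlace

variable {K F M : Type*} [Field K] [Field F] [Algebra K F] [Field M] [Algebra K M]

/-- The valuation subring of `F` pulled back from `W` along `φ`. -/
def pullbackSubring (W : IntOrd M) (φ : F →ₐ[K] M) : ValuationSubring F where
  carrier := {f | W.Ge (φ f) 0}
  mul_mem' := fun {a b} ha hb => by
    show W.Ge (φ (a * b)) 0
    rw [map_mul]
    simpa using IntOrd.Ge.mul ha hb
  one_mem' := by
    show W.Ge (φ 1) 0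
    rw [map_one]
    exact Or.inr (by rw [W.ord_one])
  add_mem' := fun {a b} ha hb => by
    show W.Ge (φ (a + b)) 0
    rw [map_add]
    exact IntOrd.Ge.add ha hb
  zero_mem' := by
    show W.Ge (φ 0) 0
    rw [map_zero]
    exact IntOrd.Ge.zero 0
  neg_mem' := fun {a} ha => by
    show W.Ge (φ (-a)) 0
    rw [map_neg]
    exact IntOrd.Ge.neg ha
  mem_or_inv_mem' := fun x => by
    by_cases hx : x = 0
    · left
      subst hx
      show W.Ge (φ 0) 0
      rw [map_zero]
      exact IntOrd.Ge.zero 0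
    · have hφx : φ x ≠ 0 := (map_ne_zero φ).mpr hx
      rcases le_total 0 (W.ord (φ x)) with h | h
      · left
        exact Or.inr h
      · right
        show W.Ge (φ x⁻¹) 0
        rw [map_inv₀]
        exact Or.inr (by rw [W.ord_inv hφx]; omega)

theorem mem_pullbackSubring {W : IntOrd M} {φ : F →ₐ[K] M} {x : F} :
    x ∈ pullbackSubring W φ ↔ W.Ge (φ x) 0 := Iff.rfl

theorem mem_pullbackSubring_iff {W : IntOrd M} {φ : F →ₐ[K] M} {x : F} (hx : x ≠ 0) :
    x ∈ pullbackSubring W φ ↔ 0 ≤ W.ord (φ x) := by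
  rw [mem_pullbackSubring]
  constructor
  · rintro (h | h)
    · exact absurd h ((map_ne_zero φ).mpr hx)
    · exact h
  · exact Or.inr

theorem pullback_isPrincipalIdealRing (W : IntOrd M) (φ : F →ₐ[K] M) (T : F) (hT0 : T ≠ 0)
    (hT : 0 < W.ord (φ T)) : IsPrincipalIdealRing (pullbackSubring W φ) := by
  classical
  let S : ℕ → Prop := fun n => 0 < n ∧ ∃ f : F, f ≠ 0 ∧ W.ord (φ f) = n
  have hS : ∃ n, S n := ⟨(W.ord (φ T)).toNat, by omega, T, hT0, by omega⟩
  obtain ⟨hm0, π, hπ0, hπ⟩ := Nat.find_spec hS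
  set m := Nat.find hS with hmdef
  have hφπ : φ π ≠ 0 := (map_ne_zero φ).mpr hπ0
  have hmZ : (0 : ℤ) < (m : ℤ) := by exact_mod_cast hm0
  have hdiv : ∀ f : F, f ≠ 0 → (m : ℤ) ∣ W.ord (φ f) := by
    intro f hf
    have hφf : φ f ≠ 0 := (map_ne_zero φ).mpr hf
    by_contra hnd
    have hrpos : 0 < W.ord (φ f) % (m : ℤ) :=
      (Int.emod_pos_of_not_dvd hnd).resolve_left hmZ.ne'
    have hrlt : W.ord (φ f) % (m : ℤ) < m := Int.emod_lt_of_pos _ hmZ
    have hS' : S (W.ord (φ f) % (m : ℤ)).toNat := by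
      refine ⟨by omega, f * (π ^ (W.ord (φ f) / (m : ℤ)))⁻¹,
        mul_ne_zero hf (inv_ne_zero (zpow_ne_zero _ hπ0)), ?_⟩
      rw [map_mul, map_inv₀, map_zpow₀, W.map_mul _ _ hφf (inv_ne_zero (zpow_ne_zero _ hφπ)),
        W.ord_inv (zpow_ne_zero _ hφπ), W.ord_zpow hφπ, hπ]
      have h1 := Int.emod_add_mul_ediv (W.ord (φ f)) (m : ℤ)
      rw [Int.toNat_of_nonneg hrpos.le]
      linarith
    have h2 := Nat.find_min' hS hS'
    omega
  have hπmem : π ∈ pullbackSubring W φ := Or.inr (by rw [hπ]; exact hmZ.le)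
  have hunit : ∀ x : pullbackSubring W φ, (x : F) ≠ 0 → W.ord (φ (x : F)) = 0 → IsUnit x := by
    intro x hx0 hx
    have hinv : (x : F)⁻¹ ∈ pullbackSubring W φ := by
      show W.Ge (φ (x : F)⁻¹) 0
      rw [map_inv₀]
      exact Or.inr (by rw [W.ord_inv ((map_ne_zero φ).mpr hx0), hx]; simp)
    exact IsUnit.of_mul_eq_one (⟨_, hinv⟩ : pullbackSubring W φ)
      (Subtype.ext (by simp [hx0]))
  have hord_nonneg : ∀ x : pullbackSubring W φ, (x : F) ≠ 0 → 0 ≤ W.ord (φ (x : F)) :=
    fun x hx0 => (mem_pullbackSubring_iff hx0).mp x.2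
  have : IsDiscreteValuationRing (pullbackSubring W φ) := by
    refine IsDiscreteValuationRing.ofHasUnitMulPowIrreducibleFactorization
      ⟨⟨π, hπmem⟩, ⟨?_, ?_⟩, ?_⟩
    · intro hu
      obtain ⟨q, hq⟩ := hu.exists_right_inv
      have hq' : π * (q : F) = 1 := by
        have h0 := congrArg Subtype.val hq
        exact h0
      have hq0 : (q : F) ≠ 0 := by
        rintro h0
        rw [h0, mul_zero] at hq'
        exact zero_ne_one hq'
      have h1 := hord_nonneg q hq0
      have h2 : W.ord (φ π) + W.ord (φ (q : F)) = 0 := by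
        rw [← W.map_mul _ _ hφπ ((map_ne_zero φ).mpr hq0), ← map_mul, hq', map_one, W.ord_one]
      omega
    · intro a b hab
      have hab' : π = (a : F) * (b : F) := by
        have h0 := congrArg Subtype.val hab
        exact h0
      have ha0 : (a : F) ≠ 0 := by
        rintro h0
        rw [h0, zero_mul] at hab'
        exact hπ0 hab'
      have hb0 : (b : F) ≠ 0 := by
        rintro h0
        rw [h0, mul_zero] at hab'
        exact hπ0 hab'
      have h1 := hord_nonneg a ha0
      have h2 := hord_nonneg b hb0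
      have h3 : W.ord (φ (a : F)) + W.ord (φ (b : F)) = m := by
        rw [← W.map_mul _ _ ((map_ne_zero φ).mpr ha0) ((map_ne_zero φ).mpr hb0), ← map_mul,
          ← hab', hπ]
      obtain ⟨ka, hka⟩ := hdiv _ ha0
      obtain ⟨kb, hkb⟩ := hdiv _ hb0
      by_cases hka0 : W.ord (φ (a : F)) = 0
      · exact Or.inl (hunit a ha0 hka0)
      · right
        refine hunit b hb0 ?_
        have hka1 : 1 ≤ ka := by
          by_contra hcon
          have : ka ≤ 0 := by omega
          have : (m : ℤ) * ka ≤ 0 := mul_nonpos_of_nonneg_of_nonpos hmZ.le this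
          omega
        have : (m : ℤ) ≤ (m : ℤ) * ka := by nlinarith
        omega
    · intro x hx
      have hx0 : (x : F) ≠ 0 := by
        simpa [ne_eq, ZeroMemClass.coe_eq_zero] using hx
      have hφx : φ (x : F) ≠ 0 := (map_ne_zero φ).mpr hx0
      obtain ⟨k, hk⟩ := hdiv _ hx0
      have h1 := hord_nonneg x hx0
      have hk0 : 0 ≤ k := by
        by_contra hcon
        have : k ≤ -1 := by omega
        have : (m : ℤ) * k ≤ (m : ℤ) * (-1) := mul_le_mul_of_nonneg_left this hmZ.le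
        omega
      obtain ⟨n, rfl⟩ := Int.eq_ofNat_of_zero_le hk0
      refine ⟨n, ?_⟩
      have hπn0 : π ^ n ≠ 0 := pow_ne_zero n hπ0
      have hu0 : (x : F) * (π ^ n)⁻¹ ≠ 0 := mul_ne_zero hx0 (inv_ne_zero hπn0)
      have huord : W.ord (φ ((x : F) * (π ^ n)⁻¹)) = 0 := by
        rw [map_mul, map_inv₀, map_pow, W.map_mul _ _ hφx (inv_ne_zero (pow_ne_zero n hφπ)),
          W.ord_inv (pow_ne_zero n hφπ), W.ord_pow hφπ, hπ, hk]
        ring
      have humem : (x : F) * (π ^ n)⁻¹ ∈ pullbackSubring W φ :=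
        (mem_pullbackSubring_iff hu0).mpr (by rw [huord])
      have hu := hunit ⟨_, humem⟩ hu0 huord
      refine ⟨hu.unit, Subtype.ext ?_⟩
      show (π ^ n) * ((x : F) * (π ^ n)⁻¹) = (x : F)
      field_simp
  infer_instance

theorem exists_place_induces (W : IntOrd M)
    (hWK : ∀ a : K, a ≠ 0 → W.ord (algebraMap K M a) = 0) (φ : F →ₐ[K] M) (T : F)
    (hT0 : T ≠ 0) (hT : 0 < W.ord (φ T)) : ∃ v : Place K F, Induces W φ v := by
  refine ⟨⟨pullbackSubring W φ, ?_, ?_, pullback_isPrincipalIdealRing W φ T hT0 hT⟩, ?_⟩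
  · intro a
    show W.Ge (φ (algebraMap K F a)) 0
    rw [AlgHom.commutes]
    by_cases ha : a = 0
    · subst ha
      simp [IntOrd.Ge]
    · exact Or.inr (by rw [hWK a ha])
  · intro htop
    have h0 : T⁻¹ ∈ pullbackSubring W φ := by
      rw [htop]
      exact ValuationSubring.mem_top _
    rw [mem_pullbackSubring_iff (inv_ne_zero hT0), map_inv₀,
      W.ord_inv ((map_ne_zero φ).mpr hT0)] at h0
    omega
  · intro x hx
    rw [← mem_iff_ord_nonneg _ hx]
    exact (mem_pullbackSubring_iff hx).symm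

theorem Induces.unique {W : IntOrd M} {φ : F →ₐ[K] M} {v v' : Place K F}
    (h : Induces W φ v) (h' : Induces W φ v') : v = v' := by
  apply Place.ext
  ext x
  by_cases hx : x = 0
  · subst hx
    simp [zero_mem]
  · rw [mem_iff_ord_nonneg v hx, mem_iff_ord_nonneg v' hx, ← h x hx, ← h' x hx]

end InducedPlace

section LocalCount

variable {K F M : Type*} [Field K] [Field F] [Algebra K F] [Field M] [Algebra K M]

theorem pl_zpow_smul {X G P : Type*} [Group G] [MulAction G X] (g : G) (pl : X → P)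
    (h : ∀ x, pl (g • x) = pl x) (k : ℤ) (x : X) : pl (g ^ k • x) = pl x := by
  have hinv : ∀ x, pl (g⁻¹ • x) = pl x := fun x => by
    have h1 := h (g⁻¹ • x)
    rw [smul_inv_smul] at h1
    exact h1.symm
  have hpow : ∀ (a : G), (∀ x, pl (a • x) = pl x) → ∀ (n : ℕ) (x : X), pl (a ^ n • x) = pl x := by
    intro a ha n
    induction n with
    | zero => intro x; simp
    | succ n ih => intro x; rw [pow_succ, mul_smul, ih, ha]
  rcases k with n | n
  · simpa using hpow g h n x
  · rw [zpow_negSucc, ← inv_pow]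
    exact hpow g⁻¹ hinv (n + 1) x

/-- **Local counting theorem.** -/
theorem local_count [IsAlgClosed K] [CharZero K]
    (W : IntOrd M) (hWK : ∀ a : K, a ≠ 0 → W.ord (algebraMap K M a) = 0)
    (hres : ∀ (v : Place K F) (x : F), 0 ≤ v.ord x →
      ∃ a : K, (placeOrd v).Ge (x - algebraMap K F a) 1)
    (T : F) (P : Finset (Place K F)) (hP : ∀ v : Place K F, v ∈ P ↔ 0 < v.ord T)
    {X : Type*} [Fintype X]
    (hsum : ∑ v ∈ P, v.ord T = (Fintype.card X : ℤ))
    (φ : X → (F →ₐ[K] M)) (hinj : Function.Injective φ)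
    (T0 : M) (hT0 : ∀ x, φ x T = T0) (e0 : ℕ) (he0 : 0 < e0) (hT0ne : T0 ≠ 0)
    (hT0ord : W.ord T0 = e0)
    {G : Type*} [Group G] [MulAction G X] (g : G)
    (hg : ∀ (x : X) (f : F), f ≠ 0 → W.ord (φ (g • x) f) = W.ord (φ x f))
    (hdiv : ∀ (x : X) (h : ℕ), 0 < h → g ^ h • x = x →
      ∀ f : F, f ≠ 0 → ((e0 / Nat.gcd h e0 : ℕ) : ℤ) ∣ W.ord (φ x f)) :
    (∀ v ∈ P, ∃ x, Induces W (φ x) v) ∧
      P.card = Nat.card (MulAction.orbitRel.Quotient (Subgroup.zpowers g) X) := by
  classical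
  rcases isEmpty_or_nonempty X with hX | ⟨⟨x₀⟩⟩
  · have hPe : P = ∅ := by
      by_contra hne
      obtain ⟨v, hv⟩ := Finset.nonempty_iff_ne_empty.mpr hne
      have h1 : v.ord T ≤ ∑ w ∈ P, w.ord T :=
        Finset.single_le_sum (f := fun w : Place K F => w.ord T)
          (fun w hw => ((hP w).mp hw).le) hv
      have h2 := (hP v).mp hv
      rw [hsum] at h1
      simp at h1
      omega
    subst hPe
    refine ⟨by simp, ?_⟩
    have : IsEmpty (MulAction.orbitRel.Quotient (Subgroup.zpowers g) X) :=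
      ⟨fun q => Quotient.inductionOn' q fun x => hX.false x⟩
    simp
  have hTne : T ≠ 0 := by
    rintro rfl
    have h1 := hT0 x₀
    rw [map_zero] at h1
    exact hT0ne h1.symm
  have he0Z : (0 : ℤ) < (e0 : ℤ) := by exact_mod_cast he0
  have hpl : ∀ x, ∃ v : Place K F, Induces W (φ x) v := fun x =>
    exists_place_induces W hWK (φ x) T hTne (by rw [hT0, hT0ord]; exact he0Z)
  choose pl hpl using hpl
  have hplP : ∀ x, pl x ∈ P := by
    intro x
    rw [hP]
    obtain ⟨π, -, hπ0, hπ, -⟩ := exists_uniformizer (pl x)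
    obtain ⟨hm, hord⟩ := (hpl x).ord_eq hπ
    have h1 := hord T hTne
    rw [hT0, hT0ord] at h1
    by_contra hcon
    have h2 : W.ord (φ x π) * (pl x).ord T ≤ 0 :=
      mul_nonpos_of_nonneg_of_nonpos hm.le (by omega)
    omega
  have hfib : ∀ v ∈ P, ((Finset.univ.filter (fun x => pl x = v)).card : ℤ) ≤ v.ord T := by
    intro v hv
    have h1 := card_le_ord (W := W) (v := v) hWK (hres v) ((hP v).mp hv) T0
      ((Finset.univ.filter (fun x => pl x = v)).image φ) (by
        intro ψ hψ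
        obtain ⟨x, hx, rfl⟩ := Finset.mem_image.mp hψ
        have hx' : pl x = v := (Finset.mem_filter.mp hx).2
        exact ⟨hx' ▸ hpl x, hT0 x⟩)
    rwa [Finset.card_image_of_injective _ hinj] at h1
  have hcardsum : (Fintype.card X : ℤ)
      = ∑ v ∈ P, ((Finset.univ.filter (fun x => pl x = v)).card : ℤ) := by
    have h1 := Finset.card_eq_sum_card_fiberwise (s := (Finset.univ : Finset X)) (t := P)
      (f := pl) (fun x _ => hplP x)
    rw [Finset.card_univ] at h1
    rw [h1]
    push_cast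
    rfl
  have hfibeq : ∀ v ∈ P, ((Finset.univ.filter (fun x => pl x = v)).card : ℤ) = v.ord T :=
    (Finset.sum_eq_sum_iff_of_le hfib).mp (by rw [← hcardsum, hsum])
  have hplg : ∀ x, pl (g • x) = pl x := by
    intro x
    refine Induces.unique (hpl (g • x)) ?_
    intro f hf
    rw [hg x f hf]
    exact hpl x f hf
  have hplz : ∀ (z : Subgroup.zpowers g) (x : X), pl (z • x) = pl x := by
    rintro ⟨z, hz⟩ x
    obtain ⟨k, rfl⟩ := Subgroup.mem_zpowers_iff.mp hz
    exact pl_zpow_smul g pl hplg k x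
  have horb : ∀ x : X, MulAction.orbit (Subgroup.zpowers g) x = {y | pl y = pl x} := by
    intro x
    have hsub : MulAction.orbit (Subgroup.zpowers g) x ⊆ {y | pl y = pl x} := by
      rintro _ ⟨z, rfl⟩
      exact hplz z x
    refine Set.eq_of_subset_of_ncard_le hsub ?_ (Set.toFinite _)
    set h := Function.minimalPeriod (g • · : X → X) x with hdef
    have hper : g ^ h • x = x := by
      have h1 := Function.isPeriodicPt_minimalPeriod (g • · : X → X) x
      rw [Function.IsPeriodicPt, Function.IsFixedPt, smul_iterate] at h1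
      exact h1
    have hpos : 0 < h := by
      apply Function.IsPeriodicPt.minimalPeriod_pos
        (n := orderOf (MulAction.toPermHom G X g)) (orderOf_pos _)
      rw [Function.IsPeriodicPt, Function.IsFixedPt, smul_iterate]
      have h1 := pow_orderOf_eq_one (MulAction.toPermHom G X g)
      rw [← map_pow] at h1
      have h2 := congrArg (fun σ : Equiv.Perm X => σ x) h1
      exact h2
    have hcardorb : (MulAction.orbit (Subgroup.zpowers g) x).ncard = h := by
      have : Fintype (MulAction.orbit (Subgroup.zpowers g) x) := Fintype.ofFinite _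
      rw [hdef, MulAction.minimalPeriod_eq_card, Set.ncard_eq_toFinset_card', Set.toFinset_card]
    have hfibcard : ({y | pl y = pl x} : Set X).ncard
        = (Finset.univ.filter (fun y => pl y = pl x)).card := by
      rw [Set.ncard_eq_toFinset_card']
      congr 1
      ext y
      simp
    rw [hcardorb, hfibcard]
    have hev := hfibeq (pl x) (hplP x)
    have hevpos := (hP (pl x)).mp (hplP x)
    obtain ⟨π, -, hπ0, hπ, -⟩ := exists_uniformizer (pl x)
    obtain ⟨hm, hord⟩ := (hpl x).ord_eq hπ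
    have hT' := hord T hTne
    rw [hT0, hT0ord] at hT'
    have hd := hdiv x h hpos hper π hπ0
    have hg0 : 0 < Nat.gcd h e0 := Nat.gcd_pos_of_pos_left _ hpos
    obtain ⟨q, hq⟩ := Nat.gcd_dvd_right h e0
    have hq' : e0 / Nat.gcd h e0 = q := Nat.div_eq_of_eq_mul_right hg0 hq
    have hqpos : 0 < q := by
      rcases Nat.eq_zero_or_pos q with h0 | h0
      · rw [h0, mul_zero] at hq
        omega
      · exact h0
    rw [hq'] at hd
    obtain ⟨c, hc⟩ := hd
    have hqZ : (0 : ℤ) < (q : ℤ) := by exact_mod_cast hqpos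
    have hc1 : 1 ≤ c := by
      by_contra hcon
      have h1 : c ≤ 0 := by omega
      have h2 : (q : ℤ) * c ≤ 0 := mul_nonpos_of_nonneg_of_nonpos hqZ.le h1
      omega
    have hgle : Nat.gcd h e0 ≤ h := Nat.gcd_le_left _ hpos
    have hqZ' : (e0 : ℤ) = (Nat.gcd h e0 : ℤ) * q := by exact_mod_cast hq
    have h3 : (Nat.gcd h e0 : ℤ) * q = (q : ℤ) * (c * (pl x).ord T) := by
      rw [← hqZ', hT', hc]
      ring
    have h4 : (Nat.gcd h e0 : ℤ) = c * (pl x).ord T := by
      have h5 : (q : ℤ) * (Nat.gcd h e0 : ℤ) = (q : ℤ) * (c * (pl x).ord T) := by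
        rw [← h3]
        ring
      exact mul_left_cancel₀ hqZ.ne' h5
    have h6 : (pl x).ord T ≤ (Nat.gcd h e0 : ℤ) := by
      rw [h4]
      nlinarith
    have h7 : ((Finset.univ.filter (fun y => pl y = pl x)).card : ℤ) ≤ (h : ℤ) := by
      rw [hev]
      have : (Nat.gcd h e0 : ℤ) ≤ (h : ℤ) := by exact_mod_cast hgle
      omega
    exact_mod_cast h7
  refine ⟨?_, ?_⟩
  · intro v hv
    have h1 := hfibeq v hv
    have h2 := (hP v).mp hv
    have hpos : 0 < (Finset.univ.filter (fun x => pl x = v)).card := by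
      have : (0 : ℤ) < ((Finset.univ.filter (fun x => pl x = v)).card : ℤ) := by omega
      exact_mod_cast this
    obtain ⟨x, hx⟩ := Finset.card_pos.mp hpos
    exact ⟨x, (Finset.mem_filter.mp hx).2 ▸ hpl x⟩
  · let f : MulAction.orbitRel.Quotient (Subgroup.zpowers g) X → P :=
      Quotient.lift (fun x => (⟨pl x, hplP x⟩ : P)) (by
        intro a b hab
        have h1 : a ∈ MulAction.orbit (Subgroup.zpowers g) b := hab
        rw [horb b] at h1
        exact Subtype.ext h1)
    have hbij : Function.Bijective f := by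
      constructor
      · intro a b
        refine Quotient.inductionOn₂' a b fun a b hab => ?_
        apply Quotient.sound'
        show a ∈ MulAction.orbit (Subgroup.zpowers g) b
        rw [horb b]
        exact congrArg Subtype.val hab
      · rintro ⟨v, hv⟩
        have h1 := hfibeq v hv
        have h2 := (hP v).mp hv
        have hpos : 0 < (Finset.univ.filter (fun x => pl x = v)).card := by
          have : (0 : ℤ) < ((Finset.univ.filter (fun x => pl x = v)).card : ℤ) := by omega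
          exact_mod_cast this
        obtain ⟨x, hx⟩ := Finset.card_pos.mp hpos
        exact ⟨Quotient.mk'' x, Subtype.ext (Finset.mem_filter.mp hx).2⟩
    rw [Nat.card_eq_of_bijective f hbij]
    simp

end LocalCount

section Differential

variable {K F M : Type*} [Field K] [Field F] [Algebra K F] [Field M] [Algebra K M]

/-- The (private) coordinate differential of a place is `d π` for a uniformizer `π`. -/
theorem dCoord_eq (v : Place K F) :
    ∃ π : F, v.ord π = 1 ∧ v.dCoord = KaehlerDifferential.D K F π :=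
  ⟨((IsDiscreteValuationRing.exists_irreducible v.toValuationSubring).choose : F),
    v.ord_coe_irreducible
      (IsDiscreteValuationRing.exists_irreducible v.toValuationSubring).choose_spec, rfl⟩

/-- **Order of a differential via an embedding into a valued differential field.** -/
theorem ordDifferential_D_of_induces (W : IntOrd M) (φ : F →ₐ[K] M) (v : Place K F)
    (hind : Induces W φ v) (δ : Derivation K M M) (κ : ℤ)
    (hδ : ∀ y : M, y ≠ 0 → W.ord y ≠ 0 → δ y ≠ 0 ∧ W.ord (δ y) = W.ord y + κ)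
    (hspan : ∀ ω : Ω[F⁄K], ∃ f : F, ω = f • v.dCoord)
    (x : F) (hx : v.ord x ≠ 0) :
    v.ordDifferential (KaehlerDifferential.D K F x) = v.ord x - 1 := by
  obtain ⟨π, hπ, hd⟩ := dCoord_eq v
  have hx0 : x ≠ 0 := by
    rintro rfl
    simp at hx
  have hπ0 : π ≠ 0 := by
    rintro rfl
    simp at hπ
  obtain ⟨hm, hord⟩ := hind.ord_eq hπ
  have hex := hspan (KaehlerDifferential.D K F x)
  have hcoef : v.differentialCoeff (KaehlerDifferential.D K F x) = hex.choose := by
    unfold Place.differentialCoeff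
    rw [dif_pos hex]
  have hspec := hex.choose_spec
  rw [Place.ordDifferential, hcoef]
  set f := hex.choose with hfdef
  letI : Algebra F M := φ.toRingHom.toAlgebra
  have htower : IsScalarTower K F M :=
    IsScalarTower.of_algebraMap_eq (fun a => (φ.commutes a).symm)
  let d' : Derivation K F M := δ.compAlgebraMap F
  have hd' : ∀ y : F, d' y = δ (φ y) := fun y => rfl
  have h1 := congrArg d'.liftKaehlerDifferential hspec
  rw [hd, map_smul, Derivation.liftKaehlerDifferential_comp_D,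
    Derivation.liftKaehlerDifferential_comp_D, hd', hd'] at h1
  have h2 : δ (φ x) = φ f * δ (φ π) := h1
  have hφx : φ x ≠ 0 := (map_ne_zero φ).mpr hx0
  have hφπ : φ π ≠ 0 := (map_ne_zero φ).mpr hπ0
  obtain ⟨a1, a2⟩ := hδ (φ x) hφx (by rw [hord x hx0]; exact mul_ne_zero hm.ne' hx)
  obtain ⟨b1, b2⟩ := hδ (φ π) hφπ (by rw [hord π hπ0, hπ]; simpa using hm.ne')
  have hφf : φ f ≠ 0 := by
    intro h0
    rw [h2, h0, zero_mul] at a1
    exact a1 rfl
  have hf0 : f ≠ 0 := fun h0 => hφf (by rw [h0, map_zero])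
  have h3 : W.ord (δ (φ x)) = W.ord (φ f) + W.ord (δ (φ π)) := by
    rw [h2, W.map_mul _ _ hφf b1]
  rw [a2, b2, hord x hx0, hord f hf0, hord π hπ0, hπ] at h3
  have h4 : W.ord (φ π) * (v.ord x - 1 - v.ord f) = 0 := by linarith
  rcases mul_eq_zero.mp h4 with h5 | h5
  · omega
  · omega

/-- Variant: the order of `d x` at a place where `x - a` has non-zero order. -/
theorem ordDifferential_D_sub_of_induces (W : IntOrd M) (φ : F →ₐ[K] M) (v : Place K F)
    (hind : Induces W φ v) (δ : Derivation K M M) (κ : ℤ)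
    (hδ : ∀ y : M, y ≠ 0 → W.ord y ≠ 0 → δ y ≠ 0 ∧ W.ord (δ y) = W.ord y + κ)
    (hspan : ∀ ω : Ω[F⁄K], ∃ f : F, ω = f • v.dCoord)
    (x : F) (a : K) (hx : v.ord (x - algebraMap K F a) ≠ 0) :
    v.ordDifferential (KaehlerDifferential.D K F x) = v.ord (x - algebraMap K F a) - 1 := by
  have h1 : KaehlerDifferential.D K F x = KaehlerDifferential.D K F (x - algebraMap K F a) := by
    rw [map_sub, Derivation.map_algebraMap, sub_zero]
  rw [h1]
  exact ordDifferential_D_of_induces W φ v hind δ κ hδ hspan _ hx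

end Differential

end Fermat.Agent.Lib.PlaceEmbed
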