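import Mathlib
import Fermat.Agent.Lib.PlaceEmbed

/-!
# Kummer descent

`K ⊆ F ⊆ E` fields, `K` algebraically closed.  If `g ∈ E` has a power `g ^ m` in `F`
(`0 < m`) then `g ∈ F` as soon as

* `m` is coprime to `[E : F]` (`mem_range_of_coprime`), or
* `[E : F]` is prime and there is a discrete valuation `W` of `E`, trivial on `K`, with
  residue field `K`, which is ramified over `F` and at which the order of `g` is the order of
  an element of `F` (`mem_range_of_prime_of_ramified`; characteristic zero).

The second statement is the descent of a torsion divisor class which becomes principal after a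
pull-back: a generator of the pull-back is a Kummer generator, and a Kummer extension
generated by a unit at a ramified point is trivial.
-/

set_option autoImplicit false

namespace Fermat.Agent.Lib.KummerDescent

open Fermat.Agent.Lib.PlaceEmbed

section Roots

variable {K E : Type*} [Field K] [Field E] [Algebra K E]

/-- a root of unity of an extension of an algebraically closed field is a constant -/
theorem root_of_unity_mem_range [IsAlgClosed K] {m : ℕ} (hm : 0 < m) {ω : E}
    (h : ω ^ m = 1) : ω ∈ (algebraMap K E).range := by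
  have hint : IsIntegral K ω := by
    refine ⟨Polynomial.X ^ m - Polynomial.C 1, ?_, ?_⟩
    · exact Polynomial.monic_X_pow_sub_C (1 : K) hm.ne'
    · simp [h]
  have hdeg : (minpoly K ω).degree = 1 :=
    IsAlgClosed.degree_eq_one_of_irreducible K (minpoly.irreducible hint)
  exact minpoly.mem_range_of_degree_eq_one K ω hdeg

end Roots

section Coprime

variable {K F E : Type*} [Field K] [Field F] [Field E] [Algebra K F] [Algebra F E] [Algebra K E]
  [IsScalarTower K F E]

/-- if `g ^ m ∈ F` then `g ^ [E : F] ∈ F` (constants algebraically closed) -/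
theorem pow_finrank_mem_range [IsAlgClosed K] [FiniteDimensional F E] {m : ℕ} (hm : 0 < m)
    {g : E} (hg : g ^ m ∈ (algebraMap F E).range) :
    g ^ Module.finrank F E ∈ (algebraMap F E).range := by
  rcases eq_or_ne g 0 with rfl | hg0
  · have hpos : 0 < Module.finrank F E := Module.finrank_pos
    rw [zero_pow hpos.ne']
    exact zero_mem _
  obtain ⟨f, hf⟩ := hg
  set D := Module.finrank F E with hD
  set n := Algebra.norm F g with hn
  have hn0 : n ≠ 0 := Algebra.norm_ne_zero_iff.mpr hg0
  have h1 : n ^ m = f ^ D := by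
    rw [hn, ← map_pow, ← hf, Algebra.norm_algebraMap]
  have hf0 : f ≠ 0 := by
    rintro rfl
    rw [map_zero] at hf
    exact hg0 (pow_eq_zero_iff hm.ne' |>.mp hf.symm)
  have h2 : (g ^ D / algebraMap F E n) ^ m = 1 := by
    rw [div_pow, ← map_pow, h1, map_pow, hf, ← pow_mul, ← pow_mul, mul_comm]
    exact div_self (pow_ne_zero _ hg0)
  obtain ⟨a, ha⟩ := root_of_unity_mem_range (K := K) hm h2
  refine ⟨algebraMap K F a * n, ?_⟩
  rw [map_mul, ← IsScalarTower.algebraMap_apply, ha,
    div_mul_cancel₀ _ ((map_ne_zero (algebraMap F E)).mpr hn0)]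

/-- **Kummer descent, coprime case**: `g ^ m ∈ F` and `m` coprime to `[E : F]` force
`g ∈ F`. -/
theorem mem_range_of_coprime [IsAlgClosed K] [FiniteDimensional F E] {m : ℕ} (hm : 0 < m)
    (hcop : Nat.Coprime m (Module.finrank F E))
    {g : E} (hg : g ^ m ∈ (algebraMap F E).range) : g ∈ (algebraMap F E).range := by
  rcases eq_or_ne g 0 with rfl | hg0
  · exact zero_mem _
  have hD := pow_finrank_mem_range (K := K) hm hg
  set D := Module.finrank F E with hDdef
  -- Bezout
  have hb : (m : ℤ) * Nat.gcdA m D + (D : ℤ) * Nat.gcdB m D = 1 := by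
    have := Nat.gcd_eq_gcd_ab m D
    rw [hcop.gcd_eq_one] at this
    exact_mod_cast this.symm
  have hmem : g ∈ (algebraMap F E).fieldRange := by
    have h1 : g = (g ^ m) ^ (Nat.gcdA m D) * (g ^ D) ^ (Nat.gcdB m D) := by
      rw [← zpow_natCast g m, ← zpow_natCast g D, ← zpow_mul, ← zpow_mul, ← zpow_add₀ hg0, hb,
        zpow_one]
    rw [h1]
    have hm' : g ^ m ∈ (algebraMap F E).fieldRange := by
      obtain ⟨f, hf⟩ := hg
      exact ⟨f, hf⟩
    have hD' : g ^ D ∈ (algebraMap F E).fieldRange := by
      obtain ⟨f, hf⟩ := hD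
      exact ⟨f, hf⟩
    exact mul_mem (zpow_mem hm' _) (zpow_mem hD' _)
  obtain ⟨f, hf⟩ := hmem
  exact ⟨f, hf⟩

end Coprime

section Closure

variable {F E : Type*} [Field F] [Field E] [Algebra F E] (W : IntOrd E)

/-- the elements of `E` which are limits of elements of `F` for the valuation `W` -/
def closureField : IntermediateField F E where
  carrier := {y | ∀ k : ℤ, ∃ c : F, W.Ge (y - algebraMap F E c) k}
  mul_mem' := by
    intro y y' hy hy' k
    -- a lower bound for `y'`
    obtain ⟨b, hb⟩ : ∃ b : ℤ, W.Ge y' b := ⟨W.ord y', Or.inr le_rfl⟩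
    obtain ⟨c, hc⟩ := hy (k - b)
    obtain ⟨b', hb'⟩ : ∃ b' : ℤ, W.Ge (algebraMap F E c) b' :=
      ⟨W.ord (algebraMap F E c), Or.inr le_rfl⟩
    obtain ⟨c', hc'⟩ := hy' (k - b')
    refine ⟨c * c', ?_⟩
    have h1 : y * y' - algebraMap F E (c * c')
        = (y - algebraMap F E c) * y' + algebraMap F E c * (y' - algebraMap F E c') := by
      rw [map_mul]; ring
    rw [h1]
    have h2 := hc.mul hb
    have h3 := hb'.mul hc'
    rw [show k - b + b = k by ring] at h2
    rw [show b' + (k - b') = k by ring] at h3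
    exact h2.add h3
  add_mem' := by
    intro y y' hy hy' k
    obtain ⟨c, hc⟩ := hy k
    obtain ⟨c', hc'⟩ := hy' k
    refine ⟨c + c', ?_⟩
    have h1 : y + y' - algebraMap F E (c + c')
        = (y - algebraMap F E c) + (y' - algebraMap F E c') := by
      rw [map_add]; ring
    rw [h1]
    exact hc.add hc'
  algebraMap_mem' := by
    intro r k
    exact ⟨r, by rw [sub_self]; exact IntOrd.Ge.zero k⟩
  inv_mem' := by
    intro y hy k
    rcases eq_or_ne y 0 with rfl | hy0
    · exact ⟨0, by simp [IntOrd.Ge]⟩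
    obtain ⟨c, hc⟩ := hy (max (W.ord y + 1) (k + 2 * W.ord y))
    have hc1 : W.Ge (algebraMap F E c - y) (W.ord y + 1) := by
      have := (hc.mono (le_max_left _ _)).neg
      rwa [neg_sub] at this
    have hc2 := IntOrd.add_ne_zero_and_ord_eq hy0 hc1 (by omega)
    rw [add_sub_cancel] at hc2
    have hcE : algebraMap F E c ≠ 0 := hc2.1
    refine ⟨c⁻¹, ?_⟩
    have h1 : y⁻¹ - algebraMap F E c⁻¹ = (algebraMap F E c - y) * (y * algebraMap F E c)⁻¹ := by
      rw [map_inv₀]
      field_simp
    rw [h1]
    have h2 : W.Ge (algebraMap F E c - y) (k + 2 * W.ord y) := by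
      have := (hc.mono (le_max_right _ _)).neg
      rwa [neg_sub] at this
    have h3 : W.Ge ((y * algebraMap F E c)⁻¹) (-(2 * W.ord y)) := by
      refine Or.inr ?_
      rw [W.ord_inv (mul_ne_zero hy0 hcE), W.map_mul _ _ hy0 hcE, hc2.2]
      omega
    have h4 := h2.mul h3
    rwa [show k + 2 * W.ord y + -(2 * W.ord y) = k by ring] at h4

theorem mem_closureField {y : E} :
    y ∈ closureField (F := F) W ↔ ∀ k : ℤ, ∃ c : F, W.Ge (y - algebraMap F E c) k := Iff.rfl

end Closure

section Ramified

variable {K F E : Type*} [Field K] [Field F] [Field E] [Algebra K F] [Algebra F E] [Algebra K E]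
  [IsScalarTower K F E]

omit [Algebra K F] [IsScalarTower K F E] in
/-- Newton iteration: a `W`-unit `u ≡ 1` with `u ^ n ∈ F` is a limit of elements of `F`. -/
theorem mem_closureField_of_pow_mem [CharZero K] (W : IntOrd E)
    (hconst : ∀ a : K, a ≠ 0 → W.ord (algebraMap K E a) = 0)
    {n : ℕ} (hn : 0 < n) {u : E} (hu1 : W.Ge (u - 1) 1)
    (hun : u ^ n ∈ (algebraMap F E).range) : u ∈ closureField (F := F) W := by
  obtain ⟨w, hw⟩ := hun
  have hnE := ord_natCast (K := K) (M := E) (W := W) hconst hn.ne'
  -- approximations of every positive order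
  have key : ∀ k : ℕ, ∃ c : F, W.Ge (u - algebraMap F E c) ((k : ℤ) + 1) := by
    intro k
    induction k with
    | zero => exact ⟨1, by simpa using hu1⟩
    | succ k ih =>
      obtain ⟨c, hc⟩ := ih
      set cE := algebraMap F E c with hcE
      have hc1 : W.Ge (cE - 1) 1 := by
        have h1 : cE - 1 = (u - 1) - (u - cE) := by ring
        rw [h1]
        exact hu1.sub (hc.mono (by omega))
      set S : E := ∑ i ∈ Finset.range n, u ^ i * cE ^ (n - 1 - i) with hS
      have hSmul : S * (u - cE) = u ^ n - cE ^ n := geom_sum₂_mul u cE n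
      have hSn : W.Ge (S - (n : E)) 1 := by
        have h1 : S - (n : E) = ∑ i ∈ Finset.range n, (u ^ i * cE ^ (n - 1 - i) - 1) := by
          rw [Finset.sum_sub_distrib, hS]
          simp
        rw [h1]
        refine IntOrd.Ge.sum _ _ _ fun i _ => ?_
        have h2 : u ^ i * cE ^ (n - 1 - i) - 1
            = (u ^ i - 1) * cE ^ (n - 1 - i) + (cE ^ (n - 1 - i) - 1) := by ring
        rw [h2]
        have h3 : W.Ge (cE ^ (n - 1 - i)) 0 := by
          have h4 : W.Ge (1 : E) 0 := Or.inr (by rw [W.ord_one])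
          have h5 := h4.add ((ge_pow_sub_one hc1 (n - 1 - i)).mono (by norm_num : (0 : ℤ) ≤ 1))
          simpa using h5
        have h6 := (ge_pow_sub_one hu1 i).mul h3
        rw [add_zero] at h6
        exact h6.add (ge_pow_sub_one hc1 (n - 1 - i))
      refine ⟨c + (w - c ^ n) / (n : F), ?_⟩
      have h7 : u - algebraMap F E (c + (w - c ^ n) / (n : F))
          = (u - cE) * (((n : E) - S) * (n : E)⁻¹) := by
        rw [map_add, map_div₀, map_sub, map_pow, map_natCast, hw, ← hcE, ← hSmul]
        field_simp [hnE.1]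
        ring
      rw [h7]
      have h8 : W.Ge (((n : E) - S) * (n : E)⁻¹) 1 := by
        have h9 : W.Ge ((n : E) - S) 1 := by
          have := hSn.neg
          rwa [neg_sub] at this
        have h10 : W.Ge ((n : E)⁻¹) 0 := Or.inr (by rw [W.ord_inv hnE.1, hnE.2]; simp)
        have := h9.mul h10
        rwa [add_zero] at this
      have h11 := hc.mul h8
      have h12 : ((k : ℤ) + 1 + 1) = ((k + 1 : ℕ) : ℤ) + 1 := by push_cast; ring
      rwa [h12] at h11
  intro k
  obtain ⟨c, hc⟩ := key k.toNat
  exact ⟨c, hc.mono (by omega)⟩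

/-- **Kummer descent, ramified prime case.**  `E / F` of prime degree, `W` a discrete
valuation of `E` trivial on the algebraically closed constant field `K` of characteristic zero,
with residue field `K`, and ramified over `F` (all orders of elements of `F` are divisible by
`e ≥ 2`, while `E` has an element of order `1`).  If `g ^ m ∈ F` and the order of `g` is the
order of an element of `F`, then `g ∈ F`. -/
theorem mem_range_of_prime_of_ramified [IsAlgClosed K] [CharZero K] [FiniteDimensional F E]
    (hprime : (Module.finrank F E).Prime) (W : IntOrd E)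
    (hconst : ∀ a : K, a ≠ 0 → W.ord (algebraMap K E a) = 0)
    (hres : ∀ x : E, x ≠ 0 → W.ord x = 0 → ∃ a : K, W.Ge (x - algebraMap K E a) 1)
    (ht : ∃ t : E, t ≠ 0 ∧ W.ord t = 1)
    {e : ℤ} (he : 2 ≤ e) (hram : ∀ x : F, e ∣ W.ord (algebraMap F E x))
    {m : ℕ} (hm : 0 < m) {g : E} (hgm : g ^ m ∈ (algebraMap F E).range)
    (hpull : ∃ x₀ : F, x₀ ≠ 0 ∧ W.ord g = W.ord (algebraMap F E x₀)) :
    g ∈ (algebraMap F E).range := by
  rcases eq_or_ne g 0 with rfl | hg0
  · exact zero_mem _
  obtain ⟨x₀, hx₀, hord⟩ := hpull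
  have hx₀E : algebraMap F E x₀ ≠ 0 := (map_ne_zero (algebraMap F E)).mpr hx₀
  -- normalise to a unit
  set u₀ : E := g / algebraMap F E x₀ with hu₀
  have hu₀0 : u₀ ≠ 0 := div_ne_zero hg0 hx₀E
  have hu₀ord : W.ord u₀ = 0 := by rw [hu₀, W.ord_div hg0 hx₀E, hord, sub_self]
  obtain ⟨γ, hγ⟩ := hres u₀ hu₀0 hu₀ord
  have hγ0 : γ ≠ 0 := by
    rintro rfl
    rw [map_zero, sub_zero] at hγ
    rcases hγ with h | h
    · exact hu₀0 h
    · omega
  have hγE : algebraMap K E γ ≠ 0 := (map_ne_zero (algebraMap K E)).mpr hγ0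
  -- normalise to a unit congruent to `1`
  set u : E := u₀ / algebraMap K E γ with hu
  have hu1 : W.Ge (u - 1) 1 := by
    have h1 : u - 1 = (u₀ - algebraMap K E γ) * (algebraMap K E γ)⁻¹ := by
      rw [hu]; field_simp
    rw [h1]
    have h2 : W.Ge ((algebraMap K E γ)⁻¹) 0 :=
      Or.inr (by rw [W.ord_inv hγE, hconst γ hγ0]; simp)
    have := hγ.mul h2
    rwa [add_zero] at this
  have hγF : algebraMap K E γ = algebraMap F E (algebraMap K F γ) :=
    IsScalarTower.algebraMap_apply K F E γ
  have hum : u ^ m ∈ (algebraMap F E).range := by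
    obtain ⟨f, hf⟩ := hgm
    refine ⟨f / (x₀ ^ m * (algebraMap K F γ) ^ m), ?_⟩
    rw [map_div₀, map_mul, map_pow, map_pow, hf, hu, hu₀, hγF, div_pow, div_pow, div_div]
  have hucl : u ∈ closureField (F := F) W := mem_closureField_of_pow_mem W hconst hm hu1 hum
  -- the closure is `F` or `E`
  have hmul := Module.finrank_mul_finrank F (closureField (F := F) W) E
  have hdvd : Module.finrank F (closureField (F := F) W) ∣ Module.finrank F E :=
    Dvd.intro _ hmul
  rcases (Nat.dvd_prime hprime).mp hdvd with h1 | hp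
  · -- the closure is `F`
    have hbot : closureField (F := F) W = ⊥ := IntermediateField.finrank_eq_one_iff.mp h1
    rw [hbot, IntermediateField.mem_bot] at hucl
    obtain ⟨c, hc⟩ := hucl
    refine ⟨c * algebraMap K F γ * x₀, ?_⟩
    rw [map_mul, map_mul, hc, ← hγF, hu, hu₀, div_mul_cancel₀ _ hγE, div_mul_cancel₀ _ hx₀E]
  · -- the closure is `E`: impossible by ramification
    exfalso
    have htop : closureField (F := F) W = ⊤ := by
      rw [← IntermediateField.finrank_eq_one_iff_eq_top]
      rw [hp] at hmul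
      have hpos : 0 < Module.finrank F E := hprime.pos
      exact Nat.eq_of_mul_eq_mul_left hpos (by rw [hmul, mul_one])
    obtain ⟨t, ht0, ht1⟩ := ht
    have htmem : t ∈ closureField (F := F) W := by rw [htop]; exact IntermediateField.mem_top
    obtain ⟨c, hc⟩ := htmem 2
    have hc' : W.Ge (algebraMap F E c - t) 2 := by
      have := hc.neg
      rwa [neg_sub] at this
    have h2 := IntOrd.add_ne_zero_and_ord_eq ht0 hc' (by omega)
    rw [add_sub_cancel] at h2
    have h3 := hram c
    rw [h2.2, ht1] at h3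
    have h4 : e ≤ 1 := Int.le_of_dvd one_pos h3
    omega

end Ramified

section Places

open AlgebraicCurve

variable {K F E : Type*} [Field K] [Field F] [Field E] [Algebra K F] [Algebra F E] [Algebra K E]
  [IsScalarTower K F E]

/-- **Kummer descent at a ramified place** (`Place` form of
`mem_range_of_prime_of_ramified`; `hres` is the shape of the statement "the residue field of
`P` is `K`"). -/
theorem place_mem_range_of_prime_of_ramified [IsAlgClosed K] [CharZero K]
    [FiniteDimensional F E] (hprime : (Module.finrank F E).Prime) (P : Place K E)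
    (hres : ∀ f : E, f ∈ P.toValuationSubring →
      ∃ a : K, f = algebraMap K E a ∨ 0 < P.ord (f - algebraMap K E a))
    {e : ℤ} (he : 2 ≤ e) (hram : ∀ x : F, e ∣ P.ord (algebraMap F E x))
    {m : ℕ} (hm : 0 < m) {g : E} (hgm : g ^ m ∈ (algebraMap F E).range)
    (hpull : ∃ x₀ : F, x₀ ≠ 0 ∧ P.ord g = P.ord (algebraMap F E x₀)) :
    g ∈ (algebraMap F E).range := by
  obtain ⟨π, -, hπ0, hπ1, -⟩ := exists_uniformizer P
  refine mem_range_of_prime_of_ramified (K := K) hprime (placeOrd P)
    (fun a _ => ord_algebraMap P a) ?_ ⟨π, hπ0, hπ1⟩ he hram hm hgm hpull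
  intro x hx0 hx
  have hmem : x ∈ P.toValuationSubring := mem_of_ord_nonneg P (by
    rw [placeOrd_ord] at hx; omega)
  obtain ⟨a, ha | ha⟩ := hres x hmem
  · exact ⟨a, Or.inl (sub_eq_zero.mpr ha)⟩
  · exact ⟨a, Or.inr (by rw [placeOrd_ord]; omega)⟩

/-- **Kummer descent at a ramified place**, with the place `Q` of `F` below `P` and the
ramification index `e ≥ 2`: if `g ^ m ∈ F` and `ord_P g` is a multiple of `e`, then `g ∈ F`. -/
theorem place_mem_range_of_prime_of_ramified' [IsAlgClosed K] [CharZero K]
    [FiniteDimensional F E] (hprime : (Module.finrank F E).Prime) (P : Place K E)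
    (hres : ∀ f : E, f ∈ P.toValuationSubring →
      ∃ a : K, f = algebraMap K E a ∨ 0 < P.ord (f - algebraMap K E a))
    (Q : Place K F) {e : ℤ} (he : 2 ≤ e)
    (hPQ : ∀ x : F, x ≠ 0 → P.ord (algebraMap F E x) = e * Q.ord x)
    {m : ℕ} (hm : 0 < m) {g : E} (hgm : g ^ m ∈ (algebraMap F E).range)
    {d : ℤ} (hg : P.ord g = e * d) :
    g ∈ (algebraMap F E).range := by
  obtain ⟨π, -, hπ0, hπ1, -⟩ := exists_uniformizer Q
  refine place_mem_range_of_prime_of_ramified (K := K) hprime P hres he ?_ hm hgm
    ⟨π ^ d, zpow_ne_zero _ hπ0, ?_⟩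
  · intro x
    rcases eq_or_ne x 0 with rfl | hx
    · simp
    · rw [hPQ x hx]
      exact dvd_mul_right _ _
  · rw [hg, hPQ _ (zpow_ne_zero _ hπ0)]
    have := (placeOrd Q).ord_zpow hπ0 d
    rw [placeOrd_ord, placeOrd_ord, hπ1] at this
    rw [this, mul_one]

end Places

end Fermat.Agent.Lib.KummerDescent
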