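import Mathlib
import Fermat.Prelude.Def_AlgebraicCurve_DivisorClassGroup

/-!
# Finiteness of the `n`-torsion of `Pic⁰` by Kummer theory

Abstract form of the classical argument "`J[n]` embeds into `Hom(Γ, μ_n)`".

`F / K` is a field extension (in the Prelude vocabulary of places and divisors), realised inside a
field `M` (`r : F →+* M`, think of meromorphic functions on a simply connected cover) on which a
finitely generated group `Γ` acts by ring endomorphisms `ρ γ` fixing `r F`.  Assume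

* `hroot`: every `u ≠ 0` in `F` all of whose orders are divisible by `n` has an `n`-th root in
  `M`;
* `hinj`: a `Γ`-invariant element of `M` whose `n`-th power lies in `r F` lies in `r F`;
* `K` contains a primitive `n`-th root of unity.

Then `Pic⁰(F)[n]` is finite (`finite_torsion`).  Proof: for a class `x = [D]` with
`n • D = div u` choose `G` with `G ^ n = r u`; then `ψ γ := ρ γ G / G` is a homomorphism from `Γ`
to the `n`-th roots of unity of `M`, determined by its values on a finite generating set, and two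
classes with the same `ψ` are equal by `hinj`.
-/

set_option autoImplicit false

noncomputable section

namespace Fermat.Agent.Lib.KummerFinite

open AlgebraicCurve

variable {K F M Γ : Type*} [Field K] [Field F] [Algebra K F] [Field M] [Group Γ]

/-- The Kummer relation between a class `x` and a "character" `ψ`. -/
def Rel (r : F →+* M) (ρ : Γ → M →+* M) (n : ℕ) (x : Pic0 K F) (ψ : Γ → M) : Prop :=
  ∃ (D : Divisor.degZero (K := K) (F := F)) (u : F) (G : M), Pic0.mk D = x ∧ u ≠ 0 ∧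
    (∀ P : Place K F, (n : ℤ) * (D : Divisor K F) P = P.ord u) ∧ G ^ n = r u ∧
    ∀ γ, ρ γ G = ψ γ * G

omit [Group Γ] in
/-- Every `n`-torsion class is related to some `ψ`. -/
theorem exists_rel (r : F →+* M) (ρ : Γ → M →+* M) (n : ℕ) (hn : 0 < n)
    (hroot : ∀ u : F, u ≠ 0 → (∀ P : Place K F, (n : ℤ) ∣ P.ord u) → ∃ G : M, G ^ n = r u)
    (x : Pic0 K F) (hx : x ∈ Pic0.torsion K F n) : ∃ ψ, Rel r ρ n x ψ := by
  obtain ⟨D, rfl⟩ := Pic0.mk_surjective x
  rw [Pic0.mem_torsion] at hx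
  have h1 : ((n : ℤ) • (D : Divisor K F)) ∈ Divisor.principal (K := K) (F := F) := by
    have h2 : ((n : ℤ) • D) ∈
        (Divisor.principal (K := K) (F := F)).addSubgroupOf (Divisor.degZero (K := K) (F := F)) :=
      (QuotientAddGroup.eq_zero_iff _).mp hx
    rw [AddSubgroup.mem_addSubgroupOf] at h2
    exact h2
  obtain ⟨u, hu0, hu⟩ := h1
  have hu' : ∀ P : Place K F, (n : ℤ) * (D : Divisor K F) P = P.ord u := by
    intro P
    rw [← hu P]
    simp
  obtain ⟨G, hG⟩ := hroot u hu0 (fun P => ⟨(D : Divisor K F) P, (hu' P).symm⟩)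
  have hG0 : G ≠ 0 := by
    rintro rfl
    rw [zero_pow hn.ne'] at hG
    exact hu0 (r.injective (by rw [← hG, map_zero]))
  exact ⟨fun γ => ρ γ G / G, D, u, G, rfl, hu0, hu', hG, fun γ => (div_mul_cancel₀ _ hG0).symm⟩

omit [Group Γ] in
/-- Two classes related to the same `ψ` are equal. -/
theorem eq_of_rel (r : F →+* M) (ρ : Γ → M →+* M) (n : ℕ) (hn : 0 < n)
    (hinj : ∀ G : M, (∀ γ, ρ γ G = G) → (∃ u : F, G ^ n = r u) → ∃ h : F, G = r h)
    {x x' : Pic0 K F} {ψ : Γ → M} (h : Rel r ρ n x ψ) (h' : Rel r ρ n x' ψ) : x = x' := by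
  obtain ⟨D, u, G, rfl, hu0, hu, hG, hψ⟩ := h
  obtain ⟨D', u', G', rfl, hu0', hu', hG', hψ'⟩ := h'
  have hru0 : r u ≠ 0 := (map_ne_zero r).mpr hu0
  have hru0' : r u' ≠ 0 := (map_ne_zero r).mpr hu0'
  have hG0 : G ≠ 0 := by
    rintro rfl
    rw [zero_pow hn.ne'] at hG
    exact hru0 hG.symm
  have hG0' : G' ≠ 0 := by
    rintro rfl
    rw [zero_pow hn.ne'] at hG'
    exact hru0' hG'.symm
  have hψ0 : ∀ γ, ψ γ ≠ 0 := by
    intro γ h0
    have h1 := hψ γ
    rw [h0, zero_mul] at h1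
    exact hG0 ((ρ γ).injective (by rw [h1, map_zero]))
  obtain ⟨h, hh⟩ := hinj (G / G')
    (fun γ => by rw [map_div₀, hψ γ, hψ' γ, mul_div_mul_left _ _ (hψ0 γ)])
    ⟨u / u', by rw [div_pow, hG, hG', map_div₀]⟩
  have hh0 : h ≠ 0 := by
    rintro rfl
    rw [map_zero] at hh
    exact (div_ne_zero hG0 hG0') hh
  have huh : u = u' * h ^ n := by
    apply r.injective
    rw [map_mul, map_pow, ← hh, div_pow, hG, hG', mul_div_cancel₀ _ hru0']
  apply (QuotientAddGroup.eq).mpr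
  rw [AddSubgroup.mem_addSubgroupOf]
  refine ⟨h⁻¹, inv_ne_zero hh0, fun P => ?_⟩
  have h1 := hu P
  have h2 := hu' P
  rw [huh, P.ord_mul hu0' (pow_ne_zero n hh0), ← zpow_natCast, P.ord_zpow] at h1
  have hn' : (n : ℤ) ≠ 0 := by exact_mod_cast hn.ne'
  have h3 : (n : ℤ) * ((D : Divisor K F) P - (D' : Divisor K F) P - P.ord h) = 0 := by
    linarith
  have h4 : (D : Divisor K F) P - (D' : Divisor K F) P - P.ord h = 0 := by
    rcases mul_eq_zero.mp h3 with h5 | h5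
    · exact absurd h5 hn'
    · exact h5
  rw [P.ord_inv]
  simp only [AddSubgroup.coe_add, NegMemClass.coe_neg, Finsupp.coe_add, Finsupp.coe_neg,
    Pi.add_apply, Pi.neg_apply]
  linarith

/-- A `ψ` related to some class is multiplicative with values in the `n`-th roots of unity,
provided `ρ` is compatible with products in the weak sense `hρmul` and fixes the roots of
unity. -/
theorem rel_hom (r : F →+* M) (ρ : Γ → M →+* M) (n : ℕ) (hn : 0 < n)
    (hρ1 : ∀ G, ρ 1 G = G)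
    (hρmul : ∀ (γ γ' : Γ) (G a b : M), ρ γ G = a * G → ρ γ' G = b * G → (∀ γ'', ρ γ'' a = a) →
      (∀ γ'', ρ γ'' b = b) → ρ (γ * γ') G = a * b * G)
    (hinv : ∀ γ (u : F), ρ γ (r u) = r u)
    (hfix : ∀ ξ : M, ξ ^ n = 1 → ∀ γ, ρ γ ξ = ξ)
    {x : Pic0 K F} {ψ : Γ → M} (h : Rel r ρ n x ψ) :
    ψ 1 = 1 ∧ (∀ γ γ', ψ (γ * γ') = ψ γ * ψ γ') ∧ ∀ γ, ψ γ ^ n = 1 := by
  obtain ⟨D, u, G, -, hu0, -, hG, hψ⟩ := h
  have hru0 : r u ≠ 0 := (map_ne_zero r).mpr hu0
  have hG0 : G ≠ 0 := by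
    rintro rfl
    rw [zero_pow hn.ne'] at hG
    exact hru0 hG.symm
  have hpow : ∀ γ, ψ γ ^ n = 1 := by
    intro γ
    have h1 : (ρ γ G) ^ n = G ^ n := by rw [← map_pow, hG, hinv]
    rw [hψ γ, mul_pow] at h1
    exact mul_right_cancel₀ (pow_ne_zero n hG0) (by rw [h1, one_mul])
  refine ⟨?_, fun γ γ' => ?_, hpow⟩
  · have h1 := hψ 1
    rw [hρ1] at h1
    exact (mul_right_cancel₀ hG0 (by rw [← h1, one_mul])).symm
  · have h1 := hρmul γ γ' G (ψ γ) (ψ γ') (hψ γ) (hψ γ') (hfix _ (hpow γ)) (hfix _ (hpow γ'))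
    rw [hψ (γ * γ')] at h1
    exact mul_right_cancel₀ hG0 h1

/-- **Kummer finiteness**, general form (`hρmul` covers both composition conventions). -/
theorem finite_torsion_aux (r : F →+* M) (ρ : Γ → M →+* M)
    (hρ1 : ∀ G, ρ 1 G = G)
    (hρmul : ∀ (γ γ' : Γ) (G a b : M), ρ γ G = a * G → ρ γ' G = b * G → (∀ γ'', ρ γ'' a = a) →
      (∀ γ'', ρ γ'' b = b) → ρ (γ * γ') G = a * b * G)
    (hinv : ∀ γ (u : F), ρ γ (r u) = r u) (hfg : Group.FG Γ) (n : ℕ) (hn : 0 < n)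
    (hζ : ∃ ζ : K, IsPrimitiveRoot ζ n)
    (hroot : ∀ u : F, u ≠ 0 → (∀ P : Place K F, (n : ℤ) ∣ P.ord u) → ∃ G : M, G ^ n = r u)
    (hinj : ∀ G : M, (∀ γ, ρ γ G = G) → (∃ u : F, G ^ n = r u) → ∃ h : F, G = r h) :
    Finite (Pic0.torsion K F n) := by
  classical
  obtain ⟨ζ, hζ⟩ := hζ
  have : NeZero n := ⟨hn.ne'⟩
  have hζ' : IsPrimitiveRoot (r (algebraMap K F ζ)) n :=
    hζ.map_of_injective (f := r.comp (algebraMap K F)) (RingHom.injective _)
  have hfix : ∀ ξ : M, ξ ^ n = 1 → ∀ γ, ρ γ ξ = ξ := by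
    intro ξ hξ γ
    obtain ⟨i, -, rfl⟩ := hζ'.eq_pow_of_pow_eq_one hξ
    rw [map_pow, hinv]
  obtain ⟨S, hS, hSfin⟩ := Group.fg_iff.mp hfg
  -- the finite set of `n`-th roots of unity of `M`
  have hμfin : {ξ : M | ξ ^ n = 1}.Finite := by
    refine Set.Finite.subset ((Finset.range n).image fun i => (r (algebraMap K F ζ)) ^ i).finite_toSet
      ?_
    intro ξ hξ
    obtain ⟨i, hi, rfl⟩ := hζ'.eq_pow_of_pow_eq_one hξ
    exact Finset.mem_coe.mpr (Finset.mem_image.mpr ⟨i, Finset.mem_range.mpr hi, rfl⟩)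
  have : Finite {ξ : M | ξ ^ n = 1} := hμfin.to_subtype
  have : Finite S := hSfin.to_subtype
  choose Ψ hΨ using fun x : Pic0.torsion K F n => exists_rel r ρ n hn hroot x.1 x.2
  have hhom := fun x : Pic0.torsion K F n =>
    rel_hom r ρ n hn hρ1 hρmul hinv hfix (hΨ x)
  let Φ : Pic0.torsion K F n → (S → {ξ : M | ξ ^ n = 1}) :=
    fun x s => ⟨Ψ x s.1, (hhom x).2.2 s.1⟩
  refine Finite.of_injective Φ ?_
  intro x x' hxx'
  let f : Γ →* M := ⟨⟨Ψ x, (hhom x).1⟩, (hhom x).2.1⟩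
  let f' : Γ →* M := ⟨⟨Ψ x', (hhom x').1⟩, (hhom x').2.1⟩
  have hff' : f = f' := by
    refine MonoidHom.eq_of_eqOn_dense hS fun s hs => ?_
    have h1 := congrFun hxx' ⟨s, hs⟩
    exact congrArg Subtype.val h1
  have hΨeq : Ψ x = Ψ x' := by
    funext γ
    exact DFunLike.congr_fun hff' γ
  have h2 := hΨ x'
  rw [← hΨeq] at h2
  exact Subtype.ext (eq_of_rel r ρ n hn hinj (hΨ x) h2)

/-- **Kummer finiteness**, precomposition convention `ρ (γ * γ') = ρ γ' ∘ ρ γ`. -/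
theorem finite_torsion (r : F →+* M) (ρ : Γ → M →+* M)
    (hρ1 : ∀ G, ρ 1 G = G) (hρmul : ∀ γ γ' G, ρ (γ * γ') G = ρ γ' (ρ γ G))
    (hinv : ∀ γ (u : F), ρ γ (r u) = r u) (hfg : Group.FG Γ) (n : ℕ) (hn : 0 < n)
    (hζ : ∃ ζ : K, IsPrimitiveRoot ζ n)
    (hroot : ∀ u : F, u ≠ 0 → (∀ P : Place K F, (n : ℤ) ∣ P.ord u) → ∃ G : M, G ^ n = r u)
    (hinj : ∀ G : M, (∀ γ, ρ γ G = G) → (∃ u : F, G ^ n = r u) → ∃ h : F, G = r h) :
    Finite (Pic0.torsion K F n) :=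
  finite_torsion_aux r ρ hρ1
    (fun γ γ' G a b ha hb haf _ => by
      rw [hρmul, ha, map_mul, haf, hb, mul_assoc])
    hinv hfg n hn hζ hroot hinj

/-- **Kummer finiteness**, left-action convention `ρ (γ * γ') = ρ γ ∘ ρ γ'`. -/
theorem finite_torsion' (r : F →+* M) (ρ : Γ → M →+* M)
    (hρ1 : ∀ G, ρ 1 G = G) (hρmul : ∀ γ γ' G, ρ (γ * γ') G = ρ γ (ρ γ' G))
    (hinv : ∀ γ (u : F), ρ γ (r u) = r u) (hfg : Group.FG Γ) (n : ℕ) (hn : 0 < n)
    (hζ : ∃ ζ : K, IsPrimitiveRoot ζ n)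
    (hroot : ∀ u : F, u ≠ 0 → (∀ P : Place K F, (n : ℤ) ∣ P.ord u) → ∃ G : M, G ^ n = r u)
    (hinj : ∀ G : M, (∀ γ, ρ γ G = G) → (∃ u : F, G ^ n = r u) → ∃ h : F, G = r h) :
    Finite (Pic0.torsion K F n) :=
  finite_torsion_aux r ρ hρ1
    (fun γ γ' G a b ha hb _ hbf => by
      rw [hρmul, hb, map_mul, hbf, ha]
      ring)
    hinv hfg n hn hζ hroot hinj

end Fermat.Agent.Lib.KummerFinite
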