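import Mathlib
import Fermat.Prelude.Def_AlgebraicCurve_DivisorClassGroup
import Fermat.Agent.S24.PlaceVal
import Fermat.Agent.Lib.HolVal
import Fermat.Agent.Lib.HolRoot

set_option autoImplicit false

/-!
# Kummer finiteness for function fields realised by meromorphic functions (helper28)

Design-neutral core of "the `n`-torsion of `Pic⁰` is finite" (block (I2) of P5 [DESC]).

* `exists_finset_mul_pow`, `finite_torsion_of_kummer`: pure algebra.  `F / K` any field
  extension, `r : F →+* M` a ring hom into a field carrying a family of endomorphisms `act γ`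
  fixing `r F`; if `n`-divisible functions have `n`-th roots in `M` (`hroot`), invariance under
  finitely many `act s` implies invariance under all (`hgen`), and invariant `n`-th roots of
  elements of `F` lie in `F` (`hmod`), then there are finitely many `n`-divisible functions modulo
  `n`-th powers and `Pic0.torsion K F n` is finite.
* `exists_hol_root`: holomorphic `n`-th roots on `ℍ` in the vocabulary of `Lib/HolVal`.
* `dvd_log_merVal`, `exists_root_of_dvd_ord`: for `M = FractionRing Hol` the hypothesis `hroot`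
  holds for every realisation sending nonzero constants to nowhere vanishing functions.
* `finite_torsion_of_realisation`, `finite_torsion_of_group_realisation`: the combination.
-/

namespace Fermat.Agent.Lib.KummerFiniteMer

open AlgebraicCurve UpperHalfPlane
open Fermat.Agent.Lib.HolVal
open scoped Manifold WithZero

/-! ### Pure algebra -/

section abstract

variable {K F : Type*} [Field K] [Field F] [Algebra K F]
variable {M : Type*} [Field M] (r : F →+* M)
variable {Γ : Type*} (act : Γ → M →+* M) (S : Finset Γ)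

/-- The `n`-th roots of unity of a field form a finite set. -/
theorem finite_setOf_pow_eq_one (n : ℕ) (hn : 0 < n) : {z : M | z ^ n = 1}.Finite := by
  classical
  refine Set.Finite.subset (Polynomial.nthRoots n (1 : M)).toFinset.finite_toSet ?_
  intro z hz
  simp only [Finset.mem_coe, Multiset.mem_toFinset, Polynomial.mem_nthRoots hn]
  exact hz

/-- **Kummer finiteness, function form.**  If every `n`-divisible function has an `n`-th root in
an ambient field `M` carrying a family of endomorphisms `act γ` fixing the image of `F`, if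
invariance under the finitely many `act s`, `s ∈ S`, implies invariance under all `act γ`, and if
the invariant `n`-th roots of elements of `F` lie in `F`, then there are only finitely many
classes of `n`-divisible functions modulo `n`-th powers. -/
theorem exists_finset_mul_pow
    (hgen : ∀ H : M, (∀ s ∈ S, act s H = H) → ∀ γ : Γ, act γ H = H)
    (hinv : ∀ (γ : Γ) (f : F), act γ (r f) = r f) (n : ℕ) (hn : 0 < n)
    (hroot : ∀ f : F, f ≠ 0 → (∀ v : Place K F, (n : ℤ) ∣ v.ord f) → ∃ G : M, G ^ n = r f)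
    (hmod : ∀ G : M, (∀ γ : Γ, act γ G = G) → (∃ f : F, G ^ n = r f) → ∃ g : F, G = r g) :
    ∃ T : Finset F, (∀ t ∈ T, t ≠ 0 ∧ ∀ v : Place K F, (n : ℤ) ∣ v.ord t) ∧
      ∀ u : F, u ≠ 0 → (∀ v : Place K F, (n : ℤ) ∣ v.ord u) →
        ∃ t ∈ T, ∃ g : F, g ≠ 0 ∧ u = t * g ^ n := by
  classical
  set U : Set F := {u | u ≠ 0 ∧ ∀ v : Place K F, (n : ℤ) ∣ v.ord u} with hU
  -- chosen roots
  have hex : ∀ u : F, ∃ G : M, u ∈ U → G ^ n = r u := by
    intro u
    by_cases h : u ∈ U
    · obtain ⟨G, hG⟩ := hroot u h.1 h.2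
      exact ⟨G, fun _ => hG⟩
    · exact ⟨1, fun h' => absurd h' h⟩
  choose G hG using hex
  have hG0 : ∀ u ∈ U, G u ≠ 0 := by
    intro u hu h0
    have h1 := hG u hu
    rw [h0, zero_pow hn.ne'] at h1
    exact hu.1 ((map_eq_zero r).mp h1.symm)
  -- signatures
  let sig : F → (S → M) := fun u s => act s (G u) / G u
  have hsig : ∀ u ∈ U, sig u ∈ Set.pi Set.univ (fun _ : S => {z : M | z ^ n = 1}) := by
    intro u hu s _
    show (act s (G u) / G u) ^ n = 1
    rw [div_pow, ← map_pow, hG u hu, hinv, div_self]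
    exact (map_ne_zero r).mpr hu.1
  have hfin : (sig '' U).Finite := by
    refine Set.Finite.subset (Set.Finite.pi' fun _ => finite_setOf_pow_eq_one n hn) ?_
    rintro _ ⟨u, hu, rfl⟩
    exact fun i => hsig u hu i (Set.mem_univ i)
  -- representatives
  have hrep : ∀ φ : S → M, ∃ t : F, φ ∈ sig '' U → t ∈ U ∧ sig t = φ := by
    intro φ
    by_cases h : φ ∈ sig '' U
    · obtain ⟨t, ht, rfl⟩ := h
      exact ⟨t, fun _ => ⟨ht, rfl⟩⟩
    · exact ⟨0, fun h' => absurd h' h⟩
  choose rep hrep using hrep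
  refine ⟨hfin.toFinset.image rep, ?_, ?_⟩
  · intro t ht
    obtain ⟨φ, hφ, rfl⟩ := Finset.mem_image.mp ht
    exact (hrep φ (hfin.mem_toFinset.mp hφ)).1
  · intro u hu0 hudiv
    have hu : u ∈ U := ⟨hu0, hudiv⟩
    have hφ : sig u ∈ sig '' U := ⟨u, hu, rfl⟩
    obtain ⟨ht, hts⟩ := hrep (sig u) hφ
    set t := rep (sig u) with htdef
    refine ⟨t, Finset.mem_image.mpr ⟨sig u, hfin.mem_toFinset.mpr hφ, rfl⟩, ?_⟩
    have hGu := hG0 u hu
    have hGt := hG0 t ht
    -- the quotient of the two roots is invariant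
    have hHS : ∀ s ∈ S, act s (G u / G t) = G u / G t := by
      intro s hs
      have h1 : act s (G t) / G t = act s (G u) / G u := congrFun hts ⟨s, hs⟩
      have h2 : act s (G t) ≠ 0 := (map_ne_zero (act s)).mpr hGt
      rw [map_div₀]
      rw [div_eq_div_iff hGt hGu] at h1
      rw [div_eq_div_iff h2 hGt]
      linear_combination -h1
    have hHΓ := hgen _ hHS
    have hpow : (G u / G t) ^ n = r (u / t) := by
      rw [div_pow, hG u hu, hG t ht, map_div₀]
    obtain ⟨g, hg⟩ := hmod _ hHΓ ⟨u / t, hpow⟩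
    have hgn : g ^ n = u / t := by
      apply r.injective
      rw [map_pow, ← hg, hpow]
    have ht0 : t ≠ 0 := ht.1
    refine ⟨g, ?_, ?_⟩
    · rintro rfl
      rw [zero_pow hn.ne'] at hgn
      exact (div_ne_zero hu0 ht0) hgn.symm
    · rw [hgn, mul_div_cancel₀ _ ht0]

/-- **Kummer finiteness.**  Under the hypotheses of `exists_finset_mul_pow`, the `n`-torsion of
`Pic⁰` is finite. -/
theorem finite_torsion_of_kummer
    (hgen : ∀ H : M, (∀ s ∈ S, act s H = H) → ∀ γ : Γ, act γ H = H)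
    (hinv : ∀ (γ : Γ) (f : F), act γ (r f) = r f) (n : ℕ) (hn : 0 < n)
    (hroot : ∀ f : F, f ≠ 0 → (∀ v : Place K F, (n : ℤ) ∣ v.ord f) → ∃ G : M, G ^ n = r f)
    (hmod : ∀ G : M, (∀ γ : Γ, act γ G = G) → (∃ f : F, G ^ n = r f) → ∃ g : F, G = r g) :
    Finite (Pic0.torsion K F n) := by
  classical
  obtain ⟨T, -, hT⟩ := exists_finset_mul_pow r act S hgen hinv n hn hroot hmod
  -- data attached to a torsion class
  have hdata : ∀ x : Pic0.torsion K F n, ∃ (D : Divisor.degZero (K := K) (F := F)) (f : F)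
      (t : F) (g : F), Pic0.mk D = (x : Pic0 K F) ∧ f ≠ 0 ∧
        (∀ v : Place K F, (n : ℤ) * (D : Divisor K F) v = v.ord f) ∧ t ∈ T ∧ g ≠ 0 ∧
        f = t * g ^ n := by
    intro x
    obtain ⟨D, hD⟩ := Pic0.mk_surjective (x : Pic0 K F)
    have hx : (n : ℤ) • (x : Pic0 K F) = 0 := Pic0.mem_torsion.mp x.2
    have h1 : ((n : ℤ) • D : Divisor.degZero (K := K) (F := F)) ∈
        (Divisor.principal (K := K) (F := F)).addSubgroupOf
          (Divisor.degZero (K := K) (F := F)) := by
      rw [← QuotientAddGroup.eq_zero_iff]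
      rw [← hD] at hx
      exact hx
    obtain ⟨f, hf0, hf⟩ := h1
    have hf' : ∀ v : Place K F, (n : ℤ) * (D : Divisor K F) v = v.ord f := by
      intro v
      rw [← hf v]
      simp
    obtain ⟨t, ht, g, hg0, hg⟩ := hT f hf0 (fun v => ⟨_, (hf' v).symm⟩)
    exact ⟨D, f, t, g, hD, hf0, hf', ht, hg0, hg⟩
  choose D f t g hD hf0 hf ht hg0 hg using hdata
  refine Finite.of_injective (fun x => (⟨t x, ht x⟩ : T)) ?_
  intro x y hxy
  have hxy' : t x = t y := congrArg Subtype.val hxy
  apply Subtype.ext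
  rw [← hD x, ← hD y]
  refine (QuotientAddGroup.eq).mpr ?_
  show ((-D x + D y : Divisor.degZero (K := K) (F := F)) : Divisor K F) ∈
    Divisor.principal (K := K) (F := F)
  have ht0 : t y ≠ 0 := by
    intro h0
    exact hf0 y (by rw [hg y, h0, zero_mul])
  refine ⟨g y / g x, div_ne_zero (hg0 y) (hg0 x), fun v => ?_⟩
  have hnZ : (n : ℤ) ≠ 0 := by exact_mod_cast hn.ne'
  have e1 : v.ord (f x) = v.ord (t y) + (n : ℤ) * v.ord (g x) := by
    rw [hg x, hxy', v.ord_mul ht0 (pow_ne_zero n (hg0 x)), ← zpow_natCast, v.ord_zpow]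
  have e2 : v.ord (f y) = v.ord (t y) + (n : ℤ) * v.ord (g y) := by
    rw [hg y, v.ord_mul ht0 (pow_ne_zero n (hg0 y)), ← zpow_natCast, v.ord_zpow]
  have e3 : v.ord (g y / g x) = v.ord (g y) - v.ord (g x) := by
    rw [div_eq_mul_inv, v.ord_mul (hg0 y) (inv_ne_zero (hg0 x)), v.ord_inv]
    ring
  rw [e3]
  have e4 : (n : ℤ) * ((D y : Divisor K F) v - (D x : Divisor K F) v) =
      (n : ℤ) * (v.ord (g y) - v.ord (g x)) := by
    rw [mul_sub, hf y v, hf x v, e1, e2]
    ring
  have e5 := mul_left_cancel₀ hnZ e4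
  simp only [AddSubgroup.coe_add, AddSubgroup.coe_neg, Finsupp.add_apply, Finsupp.neg_apply]
  linarith

end abstract

/-! ### Roots of `n`-divisible functions in `Mer(ℍ)` -/

section analytic

/-- **Holomorphic roots, in `Hol` vocabulary.**  A holomorphic function on `ℍ` all of whose
orders of vanishing are divisible by `n` is an `n`-th power in `Hol`. -/
theorem exists_hol_root (n : ℕ) (hn : 0 < n) (u : Hol)
    (hdiv : ∀ τ : ℍ, n ∣ ordNat τ (u : ℍ → ℂ)) : ∃ G : Hol, G ^ n = u := by
  have hu : DifferentiableOn ℂ ((u : ℍ → ℂ) ∘ ofComplex) {z : ℂ | 0 < z.im} :=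
    UpperHalfPlane.mdifferentiable_iff.mp u.2
  obtain ⟨G₀, hG₀, hG₀u⟩ := HolRoot.exists_holomorphic_root n hn.ne' _ hu
    (fun z hz => hdiv ⟨z, hz⟩)
  have hg : MDiff (fun τ : ℍ => G₀ (τ : ℂ)) := by
    rw [UpperHalfPlane.mdifferentiable_iff]
    refine hG₀.congr fun z hz => ?_
    show G₀ ((ofComplex z : ℍ) : ℂ) = G₀ z
    rw [ofComplex_apply_of_im_pos hz]
  refine ⟨⟨_, hg⟩, Subtype.ext (funext fun τ => ?_)⟩
  have h1 := hG₀u (τ : ℂ) τ.im_pos
  have h2 : ((u : ℍ → ℂ) ∘ ofComplex) (τ : ℂ) = (u : ℍ → ℂ) τ := by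
    simp [ofComplex_apply]
  rw [h2] at h1
  exact h1

variable {K F : Type*} [Field K] [Field F] [Algebra K F]

/-- The point valuation at `τ` on the field of meromorphic functions `FractionRing Hol`. -/
noncomputable def merVal (τ : ℍ) : Valuation (FractionRing Hol) ℤᵐ⁰ :=
  ordAtFrac (M := FractionRing Hol) (RingHom.id Hol) Function.injective_id τ

theorem merVal_algebraMap (τ : ℍ) (a : Hol) :
    merVal τ (algebraMap Hol (FractionRing Hol) a) = ordAt τ a :=
  ordAtFrac_algebraMap _ _ τ a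

/-- **The order lemma.**  Let `r : F →+* Mer(ℍ)` be a realisation of a field `F ⊇ K` by
meromorphic functions on `ℍ`, sending nonzero constants to nowhere vanishing holomorphic
functions.  If all orders of `f` at the places of `F / K` are divisible by `n`, then so are all
orders of `r f` at the points of `ℍ`. -/
theorem dvd_log_merVal (r : F →+* FractionRing Hol)
    (hK : ∀ a : K, a ≠ 0 → ∃ u : Hol, (∀ τ : ℍ, (u : ℍ → ℂ) τ ≠ 0) ∧
      r (algebraMap K F a) = algebraMap Hol (FractionRing Hol) u)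
    (n : ℕ) (f : F) (hf : f ≠ 0) (hdiv : ∀ v : Place K F, (n : ℤ) ∣ v.ord f) (τ : ℍ) :
    (n : ℤ) ∣ -(WithZero.log (merVal τ (r f))) := by
  set v : Valuation F ℤᵐ⁰ := (merVal τ).comap r with hv
  have hKv : ∀ a : K, a ≠ 0 → v (algebraMap K F a) = 1 := by
    intro a ha
    obtain ⟨u, hu, hr⟩ := hK a ha
    show merVal τ (r (algebraMap K F a)) = 1
    rw [hr, merVal_algebraMap]
    exact ordAt_eq_one_of_ne_zero τ u (hu τ)
  by_cases hnt : ∃ m : F, m ≠ 0 ∧ v m ≠ 1
  · obtain ⟨W, -, e, -, hW⟩ := Fermat.Agent.S24.exists_place_of_valuation (K := K) v hKv hnt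
    have h1 := hW f hf
    have h2 : v f = merVal τ (r f) := rfl
    rw [← h2, h1]
    exact Dvd.dvd.mul_left (hdiv W) _
  · have h1 : v f = 1 := by
      by_contra h
      exact hnt ⟨f, hf, h⟩
    have h2 : v f = merVal τ (r f) := rfl
    rw [← h2, h1]
    simp

/-- **Roots of `n`-divisible functions.**  In the situation of `dvd_log_merVal`, `r f` is an
`n`-th power in `Mer(ℍ) = FractionRing Hol`. -/
theorem exists_root_of_dvd_ord (r : F →+* FractionRing Hol)
    (hK : ∀ a : K, a ≠ 0 → ∃ u : Hol, (∀ τ : ℍ, (u : ℍ → ℂ) τ ≠ 0) ∧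
      r (algebraMap K F a) = algebraMap Hol (FractionRing Hol) u)
    (n : ℕ) (hn : 0 < n) (f : F) (hf : f ≠ 0) (hdiv : ∀ v : Place K F, (n : ℤ) ∣ v.ord f) :
    ∃ G : FractionRing Hol, G ^ n = r f := by
  obtain ⟨a, b, hb, hab⟩ := IsFractionRing.div_surjective Hol (r f)
  have hb0 : b ≠ 0 := nonZeroDivisors.ne_zero hb
  have hrf : r f ≠ 0 := (map_ne_zero r).mpr hf
  have ha0 : a ≠ 0 := by
    rintro rfl
    rw [map_zero, zero_div] at hab
    exact hrf hab.symm
  have hinj : Function.Injective (algebraMap Hol (FractionRing Hol)) :=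
    IsFractionRing.injective Hol (FractionRing Hol)
  have hbM : algebraMap Hol (FractionRing Hol) b ≠ 0 := fun h =>
    hb0 (hinj (by rw [h, map_zero]))
  -- orders of `a * b ^ (n - 1)`
  have hord : ∀ τ : ℍ, n ∣ ordNat τ ((a * b ^ (n - 1) : Hol) : ℍ → ℂ) := by
    intro τ
    have h1 := dvd_log_merVal r hK n f hf hdiv τ
    rw [← hab, map_div₀, merVal_algebraMap, merVal_algebraMap,
      WithZero.log_div (ordAt_ne_zero τ ha0) (ordAt_ne_zero τ hb0)] at h1
    have hA := log_ordAt τ ha0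
    have hB := log_ordAt τ hb0
    have hu0 : a * b ^ (n - 1) ≠ 0 := mul_ne_zero ha0 (pow_ne_zero _ hb0)
    have hU := log_ordAt τ hu0
    rw [map_mul, map_pow, WithZero.log_mul (ordAt_ne_zero τ ha0)
      (pow_ne_zero _ (ordAt_ne_zero τ hb0)), WithZero.log_pow, nsmul_eq_mul] at hU
    have h2 : ((ordNat τ ((a * b ^ (n - 1) : Hol) : ℍ → ℂ) : ℕ) : ℤ) =
        -(WithZero.log (ordAt τ a) - WithZero.log (ordAt τ b)) +
          (n : ℤ) * (ordNat τ (b : ℍ → ℂ) : ℤ) := by
      rw [← hU, ← hB]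
      have hn1 : (((n - 1 : ℕ) : ℕ) : ℤ) = (n : ℤ) - 1 := by
        rw [Nat.cast_sub hn]; simp
      rw [hn1]
      ring
    have h3 : (n : ℤ) ∣ ((ordNat τ ((a * b ^ (n - 1) : Hol) : ℍ → ℂ) : ℕ) : ℤ) := by
      rw [h2]
      exact dvd_add h1 (dvd_mul_right _ _)
    exact Int.natCast_dvd_natCast.mp h3
  obtain ⟨G₀, hG₀⟩ := exists_hol_root n hn (a * b ^ (n - 1)) hord
  refine ⟨algebraMap Hol (FractionRing Hol) G₀ / algebraMap Hol (FractionRing Hol) b, ?_⟩
  rw [div_pow, ← map_pow, hG₀, ← hab, map_mul, map_pow, div_eq_div_iff (pow_ne_zero _ hbM) hbM]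
  have hn1 : n = (n - 1) + 1 := by omega
  conv_rhs => rw [hn1, pow_succ]
  ring

end analytic

/-! ### The generation hypothesis for group actions -/

section gen

variable {M : Type*} [Field M] {Γ : Type*} [Group Γ]

/-- `hgen` for a right action (`act (γ * γ') = act γ' ∘ act γ`, e.g. precomposition
`F ↦ F ∘ γ`) of a group generated by `S`. -/
theorem forall_act_eq_of_closure (act : Γ → M →+* M) (hone : ∀ m : M, act 1 m = m)
    (hmul : ∀ (γ γ' : Γ) (m : M), act (γ * γ') m = act γ' (act γ m))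
    (S : Set Γ) (hS : Subgroup.closure S = ⊤) (H : M) (h : ∀ s ∈ S, act s H = H) (γ : Γ) :
    act γ H = H := by
  have hγ : γ ∈ Subgroup.closure S := by rw [hS]; exact Subgroup.mem_top γ
  induction hγ using Subgroup.closure_induction with
  | mem x hx => exact h x hx
  | one => exact hone H
  | mul x y _ _ hx hy => rw [hmul, hx, hy]
  | inv x _ hx =>
    have h1 : act (x * x⁻¹) H = act x⁻¹ (act x H) := hmul x x⁻¹ H
    rw [mul_inv_cancel, hone, hx] at h1
    exact h1.symm

/-- `hgen` for a left action (`act (γ * γ') = act γ ∘ act γ'`) of a group generated by `S`. -/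
theorem forall_act_eq_of_closure' (act : Γ → M →+* M) (hone : ∀ m : M, act 1 m = m)
    (hmul : ∀ (γ γ' : Γ) (m : M), act (γ * γ') m = act γ (act γ' m))
    (S : Set Γ) (hS : Subgroup.closure S = ⊤) (H : M) (h : ∀ s ∈ S, act s H = H) (γ : Γ) :
    act γ H = H := by
  have hγ : γ ∈ Subgroup.closure S := by rw [hS]; exact Subgroup.mem_top γ
  induction hγ using Subgroup.closure_induction with
  | mem x hx => exact h x hx
  | one => exact hone H
  | mul x y _ _ hx hy => rw [hmul, hy, hx]
  | inv x _ hx =>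
    have h1 : act (x⁻¹ * x) H = act x⁻¹ (act x H) := hmul x⁻¹ x H
    rw [inv_mul_cancel, hone, hx] at h1
    exact h1.symm

end gen

/-! ### The combination -/

section combined

variable {K F : Type*} [Field K] [Field F] [Algebra K F]

/-- **Kummer finiteness for a realisation by meromorphic functions**, function form. -/
theorem exists_finset_mul_pow_of_realisation (r : F →+* FractionRing Hol)
    (hK : ∀ a : K, a ≠ 0 → ∃ u : Hol, (∀ τ : ℍ, (u : ℍ → ℂ) τ ≠ 0) ∧
      r (algebraMap K F a) = algebraMap Hol (FractionRing Hol) u)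
    {Γ : Type*} (act : Γ → FractionRing Hol →+* FractionRing Hol) (S : Finset Γ)
    (hgen : ∀ H : FractionRing Hol, (∀ s ∈ S, act s H = H) → ∀ γ : Γ, act γ H = H)
    (hinv : ∀ (γ : Γ) (f : F), act γ (r f) = r f) (n : ℕ) (hn : 0 < n)
    (hmod : ∀ G : FractionRing Hol, (∀ γ : Γ, act γ G = G) → (∃ f : F, G ^ n = r f) →
      ∃ g : F, G = r g) :
    ∃ T : Finset F, (∀ t ∈ T, t ≠ 0 ∧ ∀ v : Place K F, (n : ℤ) ∣ v.ord t) ∧
      ∀ u : F, u ≠ 0 → (∀ v : Place K F, (n : ℤ) ∣ v.ord u) →
        ∃ t ∈ T, ∃ g : F, g ≠ 0 ∧ u = t * g ^ n :=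
  exists_finset_mul_pow r act S hgen hinv n hn
    (fun f hf hdiv => exists_root_of_dvd_ord r hK n hn f hf hdiv) hmod

/-- **Kummer finiteness for a realisation by meromorphic functions.**  If `F / K` is realised
inside `Mer(ℍ) = FractionRing Hol` by functions invariant under a family `act γ` of
endomorphisms, generated (for invariance purposes) by finitely many of them, and every invariant
`n`-th root of an element of `F` lies in `F`, then `Pic⁰(F)[n]` is finite. -/
theorem finite_torsion_of_realisation (r : F →+* FractionRing Hol)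
    (hK : ∀ a : K, a ≠ 0 → ∃ u : Hol, (∀ τ : ℍ, (u : ℍ → ℂ) τ ≠ 0) ∧
      r (algebraMap K F a) = algebraMap Hol (FractionRing Hol) u)
    {Γ : Type*} (act : Γ → FractionRing Hol →+* FractionRing Hol) (S : Finset Γ)
    (hgen : ∀ H : FractionRing Hol, (∀ s ∈ S, act s H = H) → ∀ γ : Γ, act γ H = H)
    (hinv : ∀ (γ : Γ) (f : F), act γ (r f) = r f) (n : ℕ) (hn : 0 < n)
    (hmod : ∀ G : FractionRing Hol, (∀ γ : Γ, act γ G = G) → (∃ f : F, G ^ n = r f) →
      ∃ g : F, G = r g) :
    Finite (Pic0.torsion K F n) :=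
  finite_torsion_of_kummer r act S hgen hinv n hn
    (fun f hf hdiv => exists_root_of_dvd_ord r hK n hn f hf hdiv) hmod

/-- The same for a finitely generated group acting on the right (`act (γ * γ') = act γ' ∘ act γ`,
e.g. `F ↦ F ∘ γ`). -/
theorem finite_torsion_of_group_realisation {Γ : Type*} [Group Γ] (hfg : Group.FG Γ)
    (r : F →+* FractionRing Hol)
    (hK : ∀ a : K, a ≠ 0 → ∃ u : Hol, (∀ τ : ℍ, (u : ℍ → ℂ) τ ≠ 0) ∧
      r (algebraMap K F a) = algebraMap Hol (FractionRing Hol) u)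
    (act : Γ → FractionRing Hol →+* FractionRing Hol)
    (hone : ∀ m : FractionRing Hol, act 1 m = m)
    (hmul : ∀ (γ γ' : Γ) (m : FractionRing Hol), act (γ * γ') m = act γ' (act γ m))
    (hinv : ∀ (γ : Γ) (f : F), act γ (r f) = r f) (n : ℕ) (hn : 0 < n)
    (hmod : ∀ G : FractionRing Hol, (∀ γ : Γ, act γ G = G) → (∃ f : F, G ^ n = r f) →
      ∃ g : F, G = r g) :
    Finite (Pic0.torsion K F n) := by
  classical
  obtain ⟨S, hS, hSfin⟩ := Group.fg_iff.mp hfg
  refine finite_torsion_of_realisation r hK act hSfin.toFinset (fun H hH γ => ?_) hinv n hn hmod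
  exact forall_act_eq_of_closure act hone hmul S hS H
    (fun s hs => hH s (hSfin.mem_toFinset.mpr hs)) γ

/-- Function form of `finite_torsion_of_group_realisation`. -/
theorem exists_finset_mul_pow_of_group_realisation {Γ : Type*} [Group Γ] (hfg : Group.FG Γ)
    (r : F →+* FractionRing Hol)
    (hK : ∀ a : K, a ≠ 0 → ∃ u : Hol, (∀ τ : ℍ, (u : ℍ → ℂ) τ ≠ 0) ∧
      r (algebraMap K F a) = algebraMap Hol (FractionRing Hol) u)
    (act : Γ → FractionRing Hol →+* FractionRing Hol)
    (hone : ∀ m : FractionRing Hol, act 1 m = m)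
    (hmul : ∀ (γ γ' : Γ) (m : FractionRing Hol), act (γ * γ') m = act γ' (act γ m))
    (hinv : ∀ (γ : Γ) (f : F), act γ (r f) = r f) (n : ℕ) (hn : 0 < n)
    (hmod : ∀ G : FractionRing Hol, (∀ γ : Γ, act γ G = G) → (∃ f : F, G ^ n = r f) →
      ∃ g : F, G = r g) :
    ∃ T : Finset F, (∀ t ∈ T, t ≠ 0 ∧ ∀ v : Place K F, (n : ℤ) ∣ v.ord t) ∧
      ∀ u : F, u ≠ 0 → (∀ v : Place K F, (n : ℤ) ∣ v.ord u) →
        ∃ t ∈ T, ∃ g : F, g ≠ 0 ∧ u = t * g ^ n := by
  classical
  obtain ⟨S, hS, hSfin⟩ := Group.fg_iff.mp hfg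
  refine exists_finset_mul_pow_of_realisation r hK act hSfin.toFinset (fun H hH γ => ?_) hinv n hn
    hmod
  exact forall_act_eq_of_closure act hone hmul S hS H
    (fun s hs => hH s (hSfin.mem_toFinset.mpr hs)) γ

end combined

end Fermat.Agent.Lib.KummerFiniteMer
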