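import Mathlib

/-!
# Kummer generators of a cyclic extension of prime degree, and their equivariance

`L / K` Galois of prime degree `p`, `K` containing a primitive `p`-th root of unity.

* `exists_kummer` : `L = K(β)` with `β ^ p = α ∈ K`, `α` not a `p`-th power in `K`, every
  `τ ∈ Gal(L/K)` multiplies `β` by a `p`-th root of unity of `K`, and only `τ = 1` fixes `β`.
* `exists_eq_pow_mul_of_conj` : if a ring automorphism `s` of `L` restricts to `σ` on `K`,
  conjugates `τ` to `τ ^ e`, and `σ` raises the `p`-th roots of unity to the `n`-th power, then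
  `σ α = c ^ p * α ^ m` for some `c ∈ K`, whenever `e * m ≡ n mod p` and `p ∤ e`.
-/

set_option autoImplicit false

namespace Fermat.Agent.Lib.KummerGen

open Polynomial IntermediateField Module

variable {K L : Type*} [Field K] [Field L] [Algebra K L]

/-- The data of a Kummer generator of `L / K` of exponent `p`. -/
structure IsKummerGen (p : ℕ) (α : K) (β : L) : Prop where
  pow_eq : β ^ p = algebraMap K L α
  ne_zero : β ≠ 0
  not_pow : ¬ ∃ c : K, c ^ p = α
  smul_eq : ∀ τ : L ≃ₐ[K] L, ∃ ξ : K, ξ ^ p = 1 ∧ τ β = algebraMap K L ξ * β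
  eq_one_of_fix : ∀ τ : L ≃ₐ[K] L, τ β = β → τ = 1

theorem IsKummerGen.alpha_ne_zero {p : ℕ} {α : K} {β : L} (h : IsKummerGen p α β) : α ≠ 0 := by
  intro h0
  have := h.pow_eq
  rw [h0, map_zero] at this
  exact h.ne_zero (eq_zero_of_pow_eq_zero this)

/-- A `p`-th root of unity of `L` lies in `K` when `K` contains a primitive `p`-th root. -/
theorem exists_algebraMap_eq_of_pow_eq_one {p : ℕ} (hp : 0 < p) {ζ : K} (hζ : IsPrimitiveRoot ζ p)
    {x : L} (hx : x ^ p = 1) : ∃ ξ : K, ξ ^ p = 1 ∧ algebraMap K L ξ = x := by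
  have hζ' : IsPrimitiveRoot (algebraMap K L ζ) p :=
    hζ.map_of_injective (algebraMap K L).injective
  have : NeZero p := ⟨hp.ne'⟩
  obtain ⟨i, -, hi⟩ := hζ'.eq_pow_of_pow_eq_one hx
  refine ⟨ζ ^ i, ?_, ?_⟩
  · rw [← pow_mul, mul_comm, pow_mul, hζ.pow_eq_one, one_pow]
  · rw [map_pow, hi]

/-- Kummer theory in prime degree. -/
theorem exists_kummer [FiniteDimensional K L] [IsGalois K L] {p : ℕ} (hp : p.Prime)
    (hdeg : finrank K L = p) {ζ : K} (hζ : IsPrimitiveRoot ζ p) :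
    ∃ (α : K) (β : L), IsKummerGen p α β := by
  have hcard : Nat.card (L ≃ₐ[K] L) = p := by rw [IsGalois.card_aut_eq_finrank, hdeg]
  have : Fact p.Prime := ⟨hp⟩
  have hcyc : IsCyclic (L ≃ₐ[K] L) := isCyclic_of_prime_card hcard
  have hK : (primitiveRoots (finrank K L) K).Nonempty :=
    ⟨ζ, by rw [hdeg, mem_primitiveRoots hp.pos]; exact hζ⟩
  obtain ⟨β, ⟨α, hα⟩, hβ⟩ := exists_root_adjoin_eq_top_of_isCyclic K L hK
  rw [hdeg] at hα
  have hfix : ∀ τ : L ≃ₐ[K] L, τ β = β → τ = 1 := by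
    intro τ hτ
    have h1 : ∀ x ∈ K⟮β⟯, τ x = x := by
      intro x hx
      induction hx using IntermediateField.adjoin_induction with
      | mem y hy => rw [Set.mem_singleton_iff.mp hy, hτ]
      | algebraMap y => exact τ.commutes y
      | add x y _ _ hx hy => rw [map_add, hx, hy]
      | inv x _ hx => rw [map_inv₀, hx]
      | mul x y _ _ hx hy => rw [map_mul, hx, hy]
    ext x
    exact h1 x (by rw [hβ]; exact IntermediateField.mem_top)
  have hβ0 : β ≠ 0 := by
    intro h0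
    have hone : ∀ τ : L ≃ₐ[K] L, τ = 1 := fun τ => hfix τ (by rw [h0, map_zero])
    have : Nat.card (L ≃ₐ[K] L) ≤ 1 := by
      have : Subsingleton (L ≃ₐ[K] L) := ⟨fun a b => by rw [hone a, hone b]⟩
      exact Finite.card_le_one_iff_subsingleton.mpr this
    rw [hcard] at this
    exact absurd hp.one_lt (not_lt.mpr this)
  have hsmul : ∀ τ : L ≃ₐ[K] L, ∃ ξ : K, ξ ^ p = 1 ∧ τ β = algebraMap K L ξ * β := by
    intro τ
    have h1 : (τ β / β) ^ p = 1 := by
      rw [div_pow, ← map_pow, ← hα, τ.commutes, div_self]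
      rw [hα]; exact pow_ne_zero _ hβ0
    obtain ⟨ξ, hξ, hξ'⟩ := exists_algebraMap_eq_of_pow_eq_one hp.pos hζ h1
    exact ⟨ξ, hξ, by rw [hξ', div_mul_cancel₀ _ hβ0]⟩
  refine ⟨α, β, hα.symm, hβ0, ?_, hsmul, hfix⟩
  rintro ⟨c, hc⟩
  have h1 : (β / algebraMap K L c) ^ p = 1 := by
    have hc0 : algebraMap K L c ≠ 0 := by
      intro h0
      have : algebraMap K L α = 0 := by rw [← hc, map_pow, h0, zero_pow hp.ne_zero]
      rw [hα] at this
      exact hβ0 (pow_eq_zero_iff hp.ne_zero |>.mp this)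
    rw [div_pow, ← map_pow, hc, hα, div_self]
    rw [← hα, ← hc, map_pow]; exact pow_ne_zero _ hc0
  obtain ⟨ξ, -, hξ'⟩ := exists_algebraMap_eq_of_pow_eq_one hp.pos hζ h1
  have hc0 : algebraMap K L c ≠ 0 := by
    intro h0
    rw [h0, div_zero, zero_pow hp.ne_zero] at h1
    exact zero_ne_one h1
  have hβK : β = algebraMap K L (ξ * c) := by
    rw [map_mul, hξ', div_mul_cancel₀ _ hc0]
  have hone : ∀ τ : L ≃ₐ[K] L, τ = 1 := fun τ => hfix τ (by rw [hβK, τ.commutes])
  have : Nat.card (L ≃ₐ[K] L) ≤ 1 := by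
    have : Subsingleton (L ≃ₐ[K] L) := ⟨fun a b => by rw [hone a, hone b]⟩
    exact Finite.card_le_one_iff_subsingleton.mpr this
  rw [hcard] at this
  exact absurd hp.one_lt (not_lt.mpr this)

/-- Equivariance of a Kummer generator under an automorphism of `L` normalising `Gal(L/K)`. -/
theorem exists_eq_pow_mul_of_conj [FiniteDimensional K L] [IsGalois K L] {p : ℕ} (hp : p.Prime)
    (hdeg : finrank K L = p) {α : K} {β : L} (h : IsKummerGen p α β)
    (s : L ≃+* L) (σ : K →+* K) (hs : ∀ x : K, s (algebraMap K L x) = algebraMap K L (σ x))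
    (e n m : ℕ) (hconj : ∀ (τ : L ≃ₐ[K] L) (x : L), s (τ (s.symm x)) = (τ ^ e) x)
    (hσ : ∀ ξ : K, ξ ^ p = 1 → σ ξ = ξ ^ n) (he : ¬ p ∣ e) (hem : e * m ≡ n [MOD p]) :
    ∃ c : K, σ α = c ^ p * α ^ m := by
  have hcard : Nat.card (L ≃ₐ[K] L) = p := by rw [IsGalois.card_aut_eq_finrank, hdeg]
  have hβ0 := h.ne_zero
  -- every element of the Galois group is an `e`-th power
  have hpow : ∀ τ' : L ≃ₐ[K] L, ∃ τ : L ≃ₐ[K] L, τ ^ e = τ' := by
    have hcop : (Nat.card (L ≃ₐ[K] L)).Coprime e := by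
      rw [hcard]; exact (Nat.Prime.coprime_iff_not_dvd hp).mpr he
    intro τ'
    exact (powCoprime hcop).surjective τ'
  -- `γ = s β / β ^ m` is fixed by the Galois group
  have hfix : ∀ τ' : L ≃ₐ[K] L, τ' (s β / β ^ m) = s β / β ^ m := by
    intro τ'
    obtain ⟨τ, rfl⟩ := hpow τ'
    obtain ⟨ξ, hξ, hτ⟩ := h.smul_eq τ
    have h1 : (τ ^ e) (s β) = algebraMap K L (ξ ^ n) * s β := by
      rw [← hconj τ (s β), RingEquiv.symm_apply_apply, hτ, map_mul, hs, hσ ξ hξ]
    have h2 : ∀ k : ℕ, (τ ^ k) β = algebraMap K L (ξ ^ k) * β := by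
      intro k
      induction k with
      | zero => simp
      | succ k ih =>
        rw [pow_succ, AlgEquiv.mul_apply, hτ, map_mul, AlgEquiv.commutes, ih, pow_succ, map_mul]
        ring
    have h3 : ξ ^ (e * m) = ξ ^ n := by
      have : ∀ a b : ℕ, a ≡ b [MOD p] → ξ ^ a = ξ ^ b := by
        intro a b hab
        rw [← Nat.mod_add_div a p, ← Nat.mod_add_div b p, pow_add, pow_add, pow_mul, pow_mul, hξ,
          one_pow, one_pow, mul_one, mul_one, hab]
      exact this _ _ hem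
    rw [map_div₀, map_pow, h1, h2 e, mul_pow, ← map_pow, ← pow_mul, h3]
    have hξ0 : algebraMap K L (ξ ^ n) ≠ 0 := by
      rw [Ne, map_eq_zero]
      intro h0
      have : ξ = 0 := eq_zero_of_pow_eq_zero h0
      rw [this, zero_pow hp.ne_zero] at hξ
      exact zero_ne_one hξ
    field_simp
  obtain ⟨c, hc⟩ : ∃ c : K, algebraMap K L c = s β / β ^ m := by
    have hmem : s β / β ^ m ∈ (⊥ : IntermediateField K L) := by
      rw [← IsGalois.fixedField_top (F := K) (E := L)]
      rintro ⟨τ, -⟩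
      exact hfix τ
    exact IntermediateField.mem_bot.mp hmem
  refine ⟨c, (algebraMap K L).injective ?_⟩
  have hsb : s β = algebraMap K L c * β ^ m := by
    rw [hc, div_mul_cancel₀ _ (pow_ne_zero _ hβ0)]
  rw [← hs, ← h.pow_eq, map_pow, hsb, mul_pow, map_mul, map_pow, map_pow, ← h.pow_eq, ← pow_mul,
    ← pow_mul, mul_comm m p]

end Fermat.Agent.Lib.KummerGen
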