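import Mathlib
import Fermat.Agent.S11.KummerAbstract
import Fermat.Agent.Lib.Kummer5
import Fermat.Agent.Lib.Kummer7
import Fermat.Agent.Lib.Kummer11
import Fermat.Agent.Lib.Kummer13

set_option autoImplicit false

open NumberField

namespace Fermat.Agent.Lib.KummerInst

theorem kummer_five {K : Type*} [Field K] [NumberField K] [IsCyclotomicExtension {5} ℚ K]
    (u : (𝓞 K)ˣ) (hu : ∃ n : ℤ, ((5 : ℕ) : 𝓞 K) ∣ (u : 𝓞 K) - n) :
    ∃ v : (𝓞 K)ˣ, u = v ^ 5 := by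
  have : Fact (Nat.Prime 5) := ⟨by norm_num⟩
  exact Fermat.Agent.S11.KummerAbstract.kummer_of_independent (p := 5) (by norm_num)
    (Fermat.Agent.Lib.Kummer5.e (IsCyclotomicExtension.zeta_spec 5 ℚ K))
    (Fermat.Agent.Lib.Kummer5.hind_five _) u hu

theorem kummer_seven {K : Type*} [Field K] [NumberField K] [IsCyclotomicExtension {7} ℚ K]
    (u : (𝓞 K)ˣ) (hu : ∃ n : ℤ, ((7 : ℕ) : 𝓞 K) ∣ (u : 𝓞 K) - n) :
    ∃ v : (𝓞 K)ˣ, u = v ^ 7 := by
  have : Fact (Nat.Prime 7) := ⟨by norm_num⟩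
  exact Fermat.Agent.S11.KummerAbstract.kummer_of_independent (p := 7) (by norm_num)
    (Fermat.Agent.Lib.Kummer7.e (IsCyclotomicExtension.zeta_spec 7 ℚ K))
    (Fermat.Agent.Lib.Kummer7.hind_seven _) u hu

theorem kummer_eleven {K : Type*} [Field K] [NumberField K] [IsCyclotomicExtension {11} ℚ K]
    (u : (𝓞 K)ˣ) (hu : ∃ n : ℤ, ((11 : ℕ) : 𝓞 K) ∣ (u : 𝓞 K) - n) :
    ∃ v : (𝓞 K)ˣ, u = v ^ 11 := by
  have : Fact (Nat.Prime 11) := ⟨by norm_num⟩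
  exact Fermat.Agent.S11.KummerAbstract.kummer_of_independent (p := 11) (by norm_num)
    (Fermat.Agent.Lib.Kummer11.e (IsCyclotomicExtension.zeta_spec 11 ℚ K))
    (Fermat.Agent.Lib.Kummer11.hind_eleven _) u hu

theorem kummer_thirteen {K : Type*} [Field K] [NumberField K] [IsCyclotomicExtension {13} ℚ K]
    (u : (𝓞 K)ˣ) (hu : ∃ n : ℤ, ((13 : ℕ) : 𝓞 K) ∣ (u : 𝓞 K) - n) :
    ∃ v : (𝓞 K)ˣ, u = v ^ 13 := by
  have : Fact (Nat.Prime 13) := ⟨by norm_num⟩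
  exact Fermat.Agent.S11.KummerAbstract.kummer_of_independent (p := 13) (by norm_num)
    (Fermat.Agent.Lib.Kummer13.e (IsCyclotomicExtension.zeta_spec 13 ℚ K))
    (Fermat.Agent.Lib.Kummer13.hind_thirteen _) u hu

end Fermat.Agent.Lib.KummerInst
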