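import Mathlib

/-!
# Splitting of primes in a Kummer extension of prime degree

`K` a number field containing a primitive `p`-th root of unity `ζ` (`p` prime), `ξ ∈ 𝓞 K` not a
`p`-th power in `K`, `M ⊇ K` a number field of degree `p` with `α ∈ 𝓞 M`, `α ^ p = ξ`
(so `M = K(ξ^(1/p))`).  If `Q` is a nonzero prime of `𝓞 K` with `p ∉ Q`, `ξ ∉ Q` and
`ξ ≡ c ^ p mod Q`, then there are `p` distinct primes of `𝓞 M` above `Q`, each of the same
absolute norm as `Q` (`exists_primes_over`).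

No Kummer–Dedekind / conductor argument: the ideals `A j = Q·𝓞 M + (α - ζ ^ j c)`, `j < p`, are
pairwise comaximal with product `Q·𝓞 M`; the automorphism `α ↦ ζ α` permutes them, so they all have
the same norm, which must be `N(Q)`.
-/

set_option autoImplicit false
set_option linter.unusedSectionVars false

namespace Fermat.Agent.Lib.KummerSplit

open NumberField Polynomial IntermediateField

section Generic

variable {S : Type*} [CommRing S]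

/-- `∏ (I + (b j)) ≤ I + (∏ b j)`. -/
theorem prod_sup_span_le (I : Ideal S) {ι : Type*} (s : Finset ι) (b : ι → S) :
    ∏ j ∈ s, (I ⊔ Ideal.span {b j}) ≤ I ⊔ Ideal.span {∏ j ∈ s, b j} := by
  classical
  induction s using Finset.induction_on with
  | empty => simp
  | insert a s ha ih =>
    rw [Finset.prod_insert ha, Finset.prod_insert ha]
    refine (Ideal.mul_mono_right ih).trans ?_
    rw [Ideal.mul_le]
    intro x hx y hy
    obtain ⟨x₁, hx₁, x₂, hx₂, rfl⟩ := Submodule.mem_sup.mp hx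
    obtain ⟨y₁, hy₁, y₂, hy₂, rfl⟩ := Submodule.mem_sup.mp hy
    obtain ⟨u, rfl⟩ := Ideal.mem_span_singleton'.mp hx₂
    obtain ⟨v, rfl⟩ := Ideal.mem_span_singleton'.mp hy₂
    have h1 : (x₁ + u * b a) * (y₁ + v * ∏ j ∈ s, b j) =
        (x₁ * (y₁ + v * ∏ j ∈ s, b j) + u * b a * y₁) + (u * v) * (b a * ∏ j ∈ s, b j) := by
      ring
    rw [h1]
    refine Submodule.add_mem_sup (I.add_mem (I.mul_mem_right _ hx₁) (I.mul_mem_left _ hy₁)) ?_
    exact Ideal.mem_span_singleton'.mpr ⟨u * v, rfl⟩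

/-- The absolute norm is invariant under ring automorphisms. -/
theorem absNorm_map_ringEquiv {S : Type*} [CommRing S] [IsDedekindDomain S]
    [Module.Free ℤ S] (e : S ≃+* S) (I : Ideal S) :
    Ideal.absNorm (I.map (e : S →+* S)) = Ideal.absNorm I := by
  rw [Ideal.absNorm_apply, Ideal.absNorm_apply, Submodule.cardQuot_apply, Submodule.cardQuot_apply]
  exact (Nat.card_congr (Ideal.quotientEquiv I (I.map (e : S →+* S)) e rfl).toEquiv).symm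

end Generic

section Main

variable {p : ℕ} [hp : Fact p.Prime] {K M : Type*} [Field K] [NumberField K] [Field M]
  [NumberField M] [Algebra K M]

/-- The `j`-th ideal above `Q`: `Q·𝓞 M + (α - ζ ^ j c)`. -/
noncomputable def above (Q : Ideal (𝓞 K)) (ζ c : 𝓞 K) (α : 𝓞 M) (j : ℕ) : Ideal (𝓞 M) :=
  Q.map (algebraMap (𝓞 K) (𝓞 M)) ⊔ Ideal.span {α - algebraMap (𝓞 K) (𝓞 M) (ζ ^ j * c)}

theorem map_le_above (Q : Ideal (𝓞 K)) (ζ c : 𝓞 K) (α : 𝓞 M) (j : ℕ) :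
    Q.map (algebraMap (𝓞 K) (𝓞 M)) ≤ above Q ζ c α j := le_sup_left

/-- Distinct powers of a primitive `p`-th root of unity stay distinct modulo a prime not
containing `p`. -/
theorem zeta_pow_sub_not_mem {ζ : 𝓞 K} (hζ : IsPrimitiveRoot ζ p) (Q : Ideal (𝓞 K)) [Q.IsPrime]
    (hpQ : (p : 𝓞 K) ∉ Q) {i j : ℕ} (hij : i < j) (hj : j < p) : ζ ^ j - ζ ^ i ∉ Q := by
  intro h
  have h1 : ζ ^ j - ζ ^ i = ζ ^ i * (ζ ^ (j - i) - 1) := by
    rw [mul_sub, ← pow_add, mul_one, Nat.add_sub_cancel' hij.le]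
  rw [h1] at h
  rcases Ideal.IsPrime.mem_or_mem inferInstance h with h2 | h2
  · have h3 : (ζ ^ i) ^ p ∈ Q := Ideal.pow_mem_of_mem Q h2 p hp.out.pos
    rw [← pow_mul, mul_comm, pow_mul, hζ.pow_eq_one, one_pow] at h3
    exact (Ideal.IsPrime.ne_top inferInstance) ((Ideal.eq_top_iff_one Q).mpr h3)
  · have hη : IsPrimitiveRoot (ζ ^ (j - i)) p :=
      hζ.pow_of_coprime (j - i) (Nat.coprime_of_lt_prime (by omega) (by omega) hp.out).symm
    have h4 := hη.geom_sum_eq_zero hp.out.one_lt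
    have h5 : Ideal.Quotient.mk Q (ζ ^ (j - i)) = 1 := by
      rw [← sub_eq_zero, ← map_one (Ideal.Quotient.mk Q), ← map_sub]
      exact Ideal.Quotient.eq_zero_iff_mem.mpr h2
    have h6 := congrArg (Ideal.Quotient.mk Q) h4
    rw [map_sum, map_zero] at h6
    simp only [map_pow, h5, one_pow, Finset.sum_const, Finset.card_range, nsmul_eq_mul,
      mul_one] at h6
    rw [← map_natCast (Ideal.Quotient.mk Q)] at h6
    exact hpQ (Ideal.Quotient.eq_zero_iff_mem.mp h6)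

/-- The ideals `above Q ζ c α j`, `j < p`, are pairwise comaximal. -/
theorem above_sup_above {ζ : 𝓞 K} (hζ : IsPrimitiveRoot ζ p) {ξ : 𝓞 K} (Q : Ideal (𝓞 K))
    [Q.IsPrime] (hQ0 : Q ≠ ⊥) (hpQ : (p : 𝓞 K) ∉ Q) (hξQ : ξ ∉ Q) {c : 𝓞 K} (hc : ξ - c ^ p ∈ Q)
    (α : 𝓞 M) {i j : ℕ} (hij : i < j) (hj : j < p) :
    above Q ζ c α i ⊔ above Q ζ c α j = ⊤ := by
  have hQmax : Q.IsMaximal := Ideal.IsPrime.isMaximal inferInstance hQ0
  have hcQ : c ∉ Q := by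
    intro h
    apply hξQ
    have := Q.add_mem hc (Ideal.pow_mem_of_mem Q h p hp.out.pos)
    simpa using this
  have hx : (ζ ^ j - ζ ^ i) * c ∉ Q := by
    intro h
    rcases Ideal.IsPrime.mem_or_mem inferInstance h with h2 | h2
    · exact zeta_pow_sub_not_mem hζ Q hpQ hij hj h2
    · exact hcQ h2
  obtain ⟨y, q, hq, hyq⟩ := hQmax.exists_inv hx
  rw [Ideal.eq_top_iff_one]
  have h1 : (1 : 𝓞 M) = algebraMap (𝓞 K) (𝓞 M) y *
      ((α - algebraMap (𝓞 K) (𝓞 M) (ζ ^ i * c)) - (α - algebraMap (𝓞 K) (𝓞 M) (ζ ^ j * c))) +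
      algebraMap (𝓞 K) (𝓞 M) q := by
    rw [← map_one (algebraMap (𝓞 K) (𝓞 M)), ← hyq]
    simp only [map_add, map_mul, map_sub, map_pow]
    ring
  rw [h1]
  refine Ideal.add_mem _ (Ideal.mul_mem_left _ _ (Ideal.sub_mem _ ?_ ?_)) ?_
  · exact Ideal.mem_sup_left (Ideal.mem_sup_right (Ideal.subset_span rfl))
  · exact Ideal.mem_sup_right (Ideal.mem_sup_right (Ideal.subset_span rfl))
  · exact Ideal.mem_sup_left (Ideal.mem_sup_left (Ideal.mem_map_of_mem _ hq))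

/-- The product of the ideals `above Q ζ c α j`, `j < p`, is `Q·𝓞 M`. -/
theorem prod_above {ζ : 𝓞 K} (hζ : IsPrimitiveRoot ζ p) {ξ : 𝓞 K} (Q : Ideal (𝓞 K))
    [Q.IsPrime] (hQ0 : Q ≠ ⊥) (hpQ : (p : 𝓞 K) ∉ Q) (hξQ : ξ ∉ Q) {c : 𝓞 K} (hc : ξ - c ^ p ∈ Q)
    {α : 𝓞 M} (hα : α ^ p = algebraMap (𝓞 K) (𝓞 M) ξ) :
    ∏ j ∈ Finset.range p, above Q ζ c α j = Q.map (algebraMap (𝓞 K) (𝓞 M)) := by
  have hinj : Function.Injective (algebraMap (𝓞 K) (𝓞 M)) :=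
    FaithfulSMul.algebraMap_injective (𝓞 K) (𝓞 M)
  refine le_antisymm ?_ ?_
  · refine (prod_sup_span_le _ _ _).trans (sup_le le_rfl ?_)
    rw [Ideal.span_le, Set.singleton_subset_iff]
    have h1 := X_pow_sub_C_eq_prod (hζ.map_of_injective hinj) hp.out.pos
      (rfl : (algebraMap (𝓞 K) (𝓞 M) c) ^ p = _)
    have h2 := congrArg (Polynomial.eval α) h1
    rw [Polynomial.eval_prod] at h2
    simp only [Polynomial.eval_sub, Polynomial.eval_pow, Polynomial.eval_X, Polynomial.eval_C]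
      at h2
    have h3 : ∏ j ∈ Finset.range p, (α - algebraMap (𝓞 K) (𝓞 M) (ζ ^ j * c)) =
        algebraMap (𝓞 K) (𝓞 M) (ξ - c ^ p) := by
      rw [map_sub, map_pow, ← hα, h2]
      exact Finset.prod_congr rfl fun j _ => by rw [map_mul, map_pow]
    rw [h3]
    exact Ideal.mem_map_of_mem _ hc
  · apply Ideal.le_of_dvd
    refine Finset.prod_dvd_of_coprime ?_ fun j _ => Ideal.dvd_iff_le.mpr (map_le_above Q ζ c α j)
    intro i hi j hj hij
    rw [Function.onFun, Ideal.isCoprime_iff_sup_eq]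
    simp only [Finset.coe_range, Set.mem_Iio] at hi hj
    rcases lt_or_gt_of_ne hij with h | h
    · exact above_sup_above hζ Q hQ0 hpQ hξQ hc α h hj
    · rw [sup_comm]
      exact above_sup_above hζ Q hQ0 hpQ hξQ hc α h hi

/-- The Kummer automorphism `α ↦ ζ α`. -/
theorem exists_algEquiv (hdeg : Module.finrank K M = p) {ζ : 𝓞 K} (hζ : IsPrimitiveRoot ζ p)
    {ξ : 𝓞 K} (hξ : ∀ x : K, x ^ p ≠ (ξ : K)) {α : 𝓞 M}
    (hα : α ^ p = algebraMap (𝓞 K) (𝓞 M) ξ) :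
    ∃ τ : M ≃ₐ[K] M, τ (α : M) = algebraMap K M (ζ : K) * (α : M) := by
  have hζK : IsPrimitiveRoot (ζ : K) p :=
    hζ.map_of_injective (FaithfulSMul.algebraMap_injective (𝓞 K) K)
  have hαM : (α : M) ^ p = algebraMap K M (ξ : K) :=
    (map_pow (algebraMap (𝓞 M) M) α p).symm.trans (congrArg (algebraMap (𝓞 M) M) hα)
  have H : Irreducible (X ^ p - C (ξ : K)) := X_pow_sub_C_irreducible_of_prime hp.out hξ
  have hmin : minpoly K (α : M) = X ^ p - C (ξ : K) := by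
    refine (minpoly.eq_of_irreducible_of_monic H ?_ (monic_X_pow_sub_C _ hp.out.ne_zero)).symm
    simp [hαM]
  have htop : K⟮(α : M)⟯ = ⊤ := by
    rw [Field.primitive_element_iff_minpoly_natDegree_eq, hmin, natDegree_X_pow_sub_C, hdeg]
  subst hdeg
  have hK : (primitiveRoots (Module.finrank K M) K).Nonempty :=
    ⟨(ζ : K), (mem_primitiveRoots hp.out.pos).mpr hζK⟩
  have : NeZero (Module.finrank K M) := ⟨hp.out.ne_zero⟩
  have := isSplittingField_X_pow_sub_C_of_root_adjoin_eq_top hK hαM htop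
  refine ⟨(autEquivZmod H M hζK).symm (Multiplicative.ofAdd ((1 : ℕ) : ZMod _)), ?_⟩
  rw [autEquivZmod_symm_apply_natCast H M hαM hζK 1, pow_one, Algebra.smul_def]

/-- The Kummer automorphism shifts the ideals `above Q ζ c α j`, so they all have the same
absolute norm. -/
theorem absNorm_above_succ (hdeg : Module.finrank K M = p) {ζ : 𝓞 K} (hζ : IsPrimitiveRoot ζ p)
    {ξ : 𝓞 K} (hξ : ∀ x : K, x ^ p ≠ (ξ : K)) {α : 𝓞 M}
    (hα : α ^ p = algebraMap (𝓞 K) (𝓞 M) ξ) (Q : Ideal (𝓞 K)) (c : 𝓞 K) (j : ℕ) :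
    Ideal.absNorm (above Q ζ c α (j + 1)) = Ideal.absNorm (above Q ζ c α j) := by
  obtain ⟨τ, hτ⟩ := exists_algEquiv hdeg hζ hξ hα
  set σ : 𝓞 M ≃+* 𝓞 M := RingOfIntegers.mapRingEquiv (τ : M ≃+* M) with hσ
  have hσalg : ∀ r : 𝓞 K, σ (algebraMap (𝓞 K) (𝓞 M) r) = algebraMap (𝓞 K) (𝓞 M) r := by
    intro r
    apply RingOfIntegers.ext
    rw [hσ, RingOfIntegers.mapRingEquiv_apply]
    exact τ.commutes (r : K)
  have hσα : σ α = algebraMap (𝓞 K) (𝓞 M) ζ * α := by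
    apply RingOfIntegers.ext
    rw [hσ, RingOfIntegers.mapRingEquiv_apply]
    exact hτ
  have hcomp : (σ : 𝓞 M →+* 𝓞 M).comp (algebraMap (𝓞 K) (𝓞 M)) = algebraMap (𝓞 K) (𝓞 M) :=
    RingHom.ext hσalg
  have hunit : IsUnit (algebraMap (𝓞 K) (𝓞 M) ζ) :=
    (hζ.isUnit hp.out.ne_zero).map _
  have hmap : (above Q ζ c α (j + 1)).map (σ : 𝓞 M →+* 𝓞 M) = above Q ζ c α j := by
    rw [above, above, Ideal.map_sup, Ideal.map_map, hcomp, Ideal.map_span, Set.image_singleton]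
    congr 1
    have h1 : (σ : 𝓞 M →+* 𝓞 M) (α - algebraMap (𝓞 K) (𝓞 M) (ζ ^ (j + 1) * c)) =
        algebraMap (𝓞 K) (𝓞 M) ζ * (α - algebraMap (𝓞 K) (𝓞 M) (ζ ^ j * c)) := by
      rw [RingEquiv.coe_toRingHom, map_sub, hσalg, hσα, mul_sub, ← map_mul, pow_succ]
      congr 2
      ring
    rw [h1, Ideal.span_singleton_mul_left_unit hunit]
  rw [← hmap, absNorm_map_ringEquiv]

theorem absNorm_above (hdeg : Module.finrank K M = p) {ζ : 𝓞 K} (hζ : IsPrimitiveRoot ζ p)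
    {ξ : 𝓞 K} (hξ : ∀ x : K, x ^ p ≠ (ξ : K)) {α : 𝓞 M}
    (hα : α ^ p = algebraMap (𝓞 K) (𝓞 M) ξ) (Q : Ideal (𝓞 K)) [Q.IsPrime] (hQ0 : Q ≠ ⊥)
    (hpQ : (p : 𝓞 K) ∉ Q) (hξQ : ξ ∉ Q) {c : 𝓞 K} (hc : ξ - c ^ p ∈ Q) (j : ℕ) :
    Ideal.absNorm (above Q ζ c α j) = Ideal.absNorm Q := by
  have hall : ∀ j : ℕ, Ideal.absNorm (above Q ζ c α j) = Ideal.absNorm (above Q ζ c α 0) := by
    intro j
    induction j with
    | zero => rfl
    | succ j ih => rw [absNorm_above_succ hdeg hζ hξ hα, ih]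
  have h1 := congrArg Ideal.absNorm (prod_above hζ Q hQ0 hpQ hξQ hc hα)
  rw [map_prod, Finset.prod_congr rfl (fun j _ => hall j), Finset.prod_const, Finset.card_range,
    Ideal.absNorm_algebraMap, ← IsFractionRing.finrank_eq (𝓞 K) K (𝓞 M) M, hdeg] at h1
  rw [hall j]
  exact Nat.pow_left_injective hp.out.ne_zero h1

theorem above_ne_top (hdeg : Module.finrank K M = p) {ζ : 𝓞 K} (hζ : IsPrimitiveRoot ζ p)
    {ξ : 𝓞 K} (hξ : ∀ x : K, x ^ p ≠ (ξ : K)) {α : 𝓞 M}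
    (hα : α ^ p = algebraMap (𝓞 K) (𝓞 M) ξ) (Q : Ideal (𝓞 K)) [Q.IsPrime] (hQ0 : Q ≠ ⊥)
    (hpQ : (p : 𝓞 K) ∉ Q) (hξQ : ξ ∉ Q) {c : 𝓞 K} (hc : ξ - c ^ p ∈ Q) (j : ℕ) :
    above Q ζ c α j ≠ ⊤ := by
  intro h
  have hN := absNorm_above hdeg hζ hξ hα Q hQ0 hpQ hξQ hc j
  rw [h, Ideal.absNorm_top] at hN
  exact (Ideal.IsPrime.ne_top inferInstance) (Ideal.absNorm_eq_one_iff.mp hN.symm)

theorem above_under (hdeg : Module.finrank K M = p) {ζ : 𝓞 K} (hζ : IsPrimitiveRoot ζ p)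
    {ξ : 𝓞 K} (hξ : ∀ x : K, x ^ p ≠ (ξ : K)) {α : 𝓞 M}
    (hα : α ^ p = algebraMap (𝓞 K) (𝓞 M) ξ) (Q : Ideal (𝓞 K)) [Q.IsPrime] (hQ0 : Q ≠ ⊥)
    (hpQ : (p : 𝓞 K) ∉ Q) (hξQ : ξ ∉ Q) {c : 𝓞 K} (hc : ξ - c ^ p ∈ Q) (j : ℕ) :
    (above Q ζ c α j).under (𝓞 K) = Q := by
  have hQmax : Q.IsMaximal := Ideal.IsPrime.isMaximal inferInstance hQ0
  symm
  refine hQmax.eq_of_le ?_ (Ideal.le_comap_of_map_le (map_le_above Q ζ c α j))
  intro h
  apply above_ne_top hdeg hζ hξ hα Q hQ0 hpQ hξQ hc j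
  rw [Ideal.eq_top_iff_one]
  have h1 : (1 : 𝓞 K) ∈ (above Q ζ c α j).under (𝓞 K) := by rw [h]; trivial
  rw [Ideal.under_def, Ideal.mem_comap, map_one] at h1
  exact h1

theorem above_isPrime (hdeg : Module.finrank K M = p) {ζ : 𝓞 K} (hζ : IsPrimitiveRoot ζ p)
    {ξ : 𝓞 K} (hξ : ∀ x : K, x ^ p ≠ (ξ : K)) {α : 𝓞 M}
    (hα : α ^ p = algebraMap (𝓞 K) (𝓞 M) ξ) (Q : Ideal (𝓞 K)) [Q.IsPrime] (hQ0 : Q ≠ ⊥)
    (hpQ : (p : 𝓞 K) ∉ Q) (hξQ : ξ ∉ Q) {c : 𝓞 K} (hc : ξ - c ^ p ∈ Q) (j : ℕ) :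
    (above Q ζ c α j).IsPrime := by
  have hQmax : Q.IsMaximal := Ideal.IsPrime.isMaximal inferInstance hQ0
  have hN := absNorm_above hdeg hζ hξ hα Q hQ0 hpQ hξQ hc j
  have hunder := above_under hdeg hζ hξ hα Q hQ0 hpQ hξQ hc j
  rw [Ideal.under_def] at hunder
  have hinj : Function.Injective
      (Ideal.quotientMap (above Q ζ c α j) (algebraMap (𝓞 K) (𝓞 M)) hunder.ge) :=
    Ideal.quotientMap_injective' hunder.le
  have hcard : Nat.card (𝓞 M ⧸ above Q ζ c α j) = Nat.card (𝓞 K ⧸ Q) := by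
    rw [← Submodule.cardQuot_apply, ← Submodule.cardQuot_apply, ← Ideal.absNorm_apply,
      ← Ideal.absNorm_apply, hN]
  have hfin : Finite (𝓞 M ⧸ above Q ζ c α j) := by
    apply Nat.finite_of_card_ne_zero
    rw [hcard, ← Submodule.cardQuot_apply, ← Ideal.absNorm_apply]
    exact fun h => hQ0 (Ideal.absNorm_eq_zero_iff.mp h)
  have hbij := hinj.bijective_of_nat_card_le hcard.le
  have hfield : IsField (𝓞 M ⧸ above Q ζ c α j) :=
    (RingEquiv.ofBijective _ hbij).symm.toMulEquiv.isField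
      ((Ideal.Quotient.maximal_ideal_iff_isField_quotient Q).mp hQmax)
  exact (Ideal.Quotient.maximal_of_isField _ hfield).isPrime

/-- **Splitting in a Kummer extension.**  `K ∋ ζ_p`, `ξ ∈ 𝓞 K` not a `p`-th power in `K`,
`[M : K] = p`, `α ∈ 𝓞 M` with `α ^ p = ξ`.  If `Q` is a nonzero prime of `𝓞 K` with `p ∉ Q`,
`ξ ∉ Q` and `ξ ≡ c ^ p mod Q`, then there are `p` distinct primes of `𝓞 M` above `Q`, each with the
same absolute norm as `Q`. -/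
theorem exists_primes_over (hdeg : Module.finrank K M = p) {ζ : 𝓞 K} (hζ : IsPrimitiveRoot ζ p)
    {ξ : 𝓞 K} (hξ : ∀ x : K, x ^ p ≠ (ξ : K)) {α : 𝓞 M}
    (hα : α ^ p = algebraMap (𝓞 K) (𝓞 M) ξ) (Q : Ideal (𝓞 K)) [Q.IsPrime] (hQ0 : Q ≠ ⊥)
    (hpQ : (p : 𝓞 K) ∉ Q) (hξQ : ξ ∉ Q) {c : 𝓞 K} (hc : ξ - c ^ p ∈ Q) :
    ∃ s : Finset (Ideal (𝓞 M)), s.card = p ∧
      ∀ P ∈ s, P.IsPrime ∧ P.under (𝓞 K) = Q ∧ Ideal.absNorm P = Ideal.absNorm Q := by
  classical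
  refine ⟨(Finset.range p).image (above Q ζ c α), ?_, ?_⟩
  · rw [Finset.card_image_of_injOn, Finset.card_range]
    intro i hi j hj hij
    simp only [Finset.coe_range, Set.mem_Iio] at hi hj
    by_contra hne
    rcases lt_or_gt_of_ne hne with h | h
    · have h1 := above_sup_above hζ Q hQ0 hpQ hξQ hc α h hj
      rw [hij, sup_idem] at h1
      exact above_ne_top hdeg hζ hξ hα Q hQ0 hpQ hξQ hc j h1
    · have h1 := above_sup_above hζ Q hQ0 hpQ hξQ hc α h hi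
      rw [hij, sup_idem] at h1
      exact above_ne_top hdeg hζ hξ hα Q hQ0 hpQ hξQ hc j h1
  · intro P hP
    obtain ⟨j, -, rfl⟩ := Finset.mem_image.mp hP
    exact ⟨above_isPrime hdeg hζ hξ hα Q hQ0 hpQ hξQ hc j,
      above_under hdeg hζ hξ hα Q hQ0 hpQ hξQ hc j,
      absNorm_above hdeg hζ hξ hα Q hQ0 hpQ hξQ hc j⟩

/-- Counting form: a finite set `T` of primes of `𝓞 K` at which `ξ` is a `p`-th power lifts to a
finite set `T'` of primes of `𝓞 M`, `p` of them over each `Q ∈ T`, with the same norms. -/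
theorem exists_finset_primes (hdeg : Module.finrank K M = p) {ζ : 𝓞 K}
    (hζ : IsPrimitiveRoot ζ p) {ξ : 𝓞 K} (hξ : ∀ x : K, x ^ p ≠ (ξ : K)) {α : 𝓞 M}
    (hα : α ^ p = algebraMap (𝓞 K) (𝓞 M) ξ) (T : Finset (Ideal (𝓞 K)))
    (hT : ∀ Q ∈ T, Q.IsPrime ∧ Q ≠ ⊥ ∧ (p : 𝓞 K) ∉ Q ∧ ξ ∉ Q ∧ ∃ c : 𝓞 K, ξ - c ^ p ∈ Q) :
    ∃ T' : Finset (Ideal (𝓞 M)), (∀ P ∈ T', P.IsPrime ∧ P ≠ ⊥ ∧ P.under (𝓞 K) ∈ T) ∧
      ∀ {A : Type} [AddCommMonoid A] (f : ℕ → A),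
        ∑ P ∈ T', f (Ideal.absNorm P) = p • ∑ Q ∈ T, f (Ideal.absNorm Q) := by
  classical
  have key : ∀ Q ∈ T, ∃ s : Finset (Ideal (𝓞 M)), s.card = p ∧
      ∀ P ∈ s, P.IsPrime ∧ P.under (𝓞 K) = Q ∧ Ideal.absNorm P = Ideal.absNorm Q := by
    intro Q hQ
    obtain ⟨h1, h2, h3, h4, c, hc⟩ := hT Q hQ
    exact exists_primes_over hdeg hζ hξ hα Q h2 h3 h4 hc
  choose! s hs using key
  refine ⟨T.biUnion s, ?_, ?_⟩
  · intro P hP
    obtain ⟨Q, hQ, hPQ⟩ := Finset.mem_biUnion.mp hP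
    obtain ⟨h1, h2, h3⟩ := (hs Q hQ).2 P hPQ
    refine ⟨h1, ?_, h2 ▸ hQ⟩
    intro h
    rw [h, Ideal.absNorm_bot] at h3
    exact (hT Q hQ).2.1 (Ideal.absNorm_eq_zero_iff.mp h3.symm)
  · intro A _ f
    rw [Finset.sum_biUnion, Finset.smul_sum]
    · refine Finset.sum_congr rfl fun Q hQ => ?_
      rw [Finset.sum_congr rfl (fun P hP => by rw [((hs Q hQ).2 P hP).2.2]), Finset.sum_const,
        (hs Q hQ).1]
    · intro Q hQ Q' hQ' hne
      rw [Function.onFun, Finset.disjoint_left]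
      intro P hP hP'
      exact hne (((hs Q hQ).2 P hP).2.1.symm.trans ((hs Q' hQ').2 P hP').2.1)

end Main

section Field

variable (p : ℕ) [hp : Fact p.Prime] {K : Type*} [Field K] [NumberField K]

/-- The Kummer field `K(ξ^(1/p))`, as the splitting field of `X ^ p - ξ`. -/
abbrev KummerField (ξ : 𝓞 K) : Type _ := (X ^ p - C (ξ : K)).SplittingField

instance instNumberFieldKummerField (ξ : 𝓞 K) : NumberField (KummerField p ξ) :=
  NumberField.of_module_finite K _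

/-- `[K(ξ^(1/p)) : K] = p` when `K ∋ ζ_p` and `ξ` is not a `p`-th power. -/
theorem finrank_kummerField {ζ : 𝓞 K} (hζ : IsPrimitiveRoot ζ p) {ξ : 𝓞 K}
    (hξ : ∀ x : K, x ^ p ≠ (ξ : K)) : Module.finrank K (KummerField p ξ) = p := by
  have hζK : IsPrimitiveRoot (ζ : K) p :=
    hζ.map_of_injective (FaithfulSMul.algebraMap_injective (𝓞 K) K)
  exact finrank_of_isSplittingField_X_pow_sub_C
    ⟨(ζ : K), (mem_primitiveRoots hp.out.pos).mpr hζK⟩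
    (X_pow_sub_C_irreducible_of_prime hp.out hξ) _

/-- A `p`-th root of `ξ` in the ring of integers of the Kummer field. -/
theorem exists_root_kummerField (ξ : 𝓞 K) :
    ∃ α : 𝓞 (KummerField p ξ), α ^ p = algebraMap (𝓞 K) (𝓞 (KummerField p ξ)) ξ := by
  have : NeZero p := ⟨hp.out.ne_zero⟩
  have ha : (rootOfSplitsXPowSubC (NeZero.pos p) (ξ : K) (KummerField p ξ)) ^ p =
      algebraMap K (KummerField p ξ) (ξ : K) := rootOfSplitsXPowSubC_pow (ξ : K) _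
  have hint : IsIntegral ℤ (rootOfSplitsXPowSubC (NeZero.pos p) (ξ : K) (KummerField p ξ)) := by
    refine IsIntegral.of_pow hp.out.pos ?_
    rw [ha]
    exact (RingOfIntegers.isIntegral_coe ξ).algebraMap
  refine ⟨⟨_, hint⟩, ?_⟩
  apply RingOfIntegers.ext
  exact ha

/-- **Ready-made form.**  For `K ∋ ζ_p` and `ξ ∈ 𝓞 K` not a `p`-th power in `K`, the number field
`M = KummerField p ξ` has the property: every finite set `T` of nonzero primes `Q` of `𝓞 K` with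
`p ∉ Q`, `ξ ∉ Q`, `ξ` a `p`-th power mod `Q` lifts to a finite set `T'` of nonzero primes of `𝓞 M`
with `∑_{P ∈ T'} f (N P) = p • ∑_{Q ∈ T} f (N Q)` for every `f`. -/
theorem exists_finset_primes_kummerField {ζ : 𝓞 K} (hζ : IsPrimitiveRoot ζ p) {ξ : 𝓞 K}
    (hξ : ∀ x : K, x ^ p ≠ (ξ : K)) (T : Finset (Ideal (𝓞 K)))
    (hT : ∀ Q ∈ T, Q.IsPrime ∧ Q ≠ ⊥ ∧ (p : 𝓞 K) ∉ Q ∧ ξ ∉ Q ∧ ∃ c : 𝓞 K, ξ - c ^ p ∈ Q) :
    ∃ T' : Finset (Ideal (𝓞 (KummerField p ξ))),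
      (∀ P ∈ T', P.IsPrime ∧ P ≠ ⊥ ∧ P.under (𝓞 K) ∈ T) ∧
      ∀ {A : Type} [AddCommMonoid A] (f : ℕ → A),
        ∑ P ∈ T', f (Ideal.absNorm P) = p • ∑ Q ∈ T, f (Ideal.absNorm Q) := by
  obtain ⟨α, hα⟩ := exists_root_kummerField p ξ
  exact exists_finset_primes (finrank_kummerField p hζ hξ) hζ hξ hα T hT

end Field

end Fermat.Agent.Lib.KummerSplit
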