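import Mathlib

/-!
# A nontrivial extension of number fields has a prime that does not split completely

Pure counting proof (no zeta function, no Euler product): if every nonzero prime of `𝓞 L` had
residue degree one and were unramified over `𝓞 K`, with `[L : K] ≥ 2`, then pairs of nonzero
ideals of `𝓞 K` would inject norm-multiplicatively into the nonzero ideals of `𝓞 L`, and the
number of ideals of `𝓞 L` of norm `≤ X` would grow faster than linearly, contradicting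
`NumberField.Ideal.tendsto_norm_le_div_atTop₀`.
-/

set_option linter.unusedSectionVars false

namespace Fermat.Agent.Lib.NoTotalSplit

open NumberField Ideal Filter Topology nonZeroDivisors UniqueFactorizationMonoid

variable (K L : Type*) [Field K] [NumberField K] [Field L] [NumberField L] [Algebra K L]

/-- Every nonzero prime of `𝓞 L` has residue degree one and is unramified over `𝓞 K`. -/
def AllSplit : Prop :=
  ∀ Q : Ideal (𝓞 L), Q.IsPrime → Q ≠ ⊥ →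
    absNorm Q = absNorm (Q.under (𝓞 K)) ∧
      ¬ (Q.under (𝓞 K)).map (algebraMap (𝓞 K) (𝓞 L)) ≤ Q ^ 2

variable {K L}

theorem one_lt_absNorm_of_isPrime {F : Type*} [Field F] [NumberField F] {q : Ideal (𝓞 F)}
    (hq : q.IsPrime) (hq0 : q ≠ ⊥) : 1 < absNorm q := by
  have h1 : absNorm q ≠ 1 := by
    rw [Ne, absNorm_eq_one_iff]
    exact hq.ne_top
  have h0 : absNorm q ≠ 0 := by
    rw [Ne, absNorm_eq_zero_iff]
    exact hq0
  omega

set_option linter.deprecated false in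
theorem exists_two_primes (hs : AllSplit K L) (h : 2 ≤ Module.finrank K L)
    (q : Ideal (𝓞 K)) (hq : q.IsPrime) (hq0 : q ≠ ⊥) :
    ∃ Q₁ Q₂ : Ideal (𝓞 L), Q₁ ≠ Q₂ ∧ Q₁.IsPrime ∧ Q₂.IsPrime ∧ Q₁ ≠ ⊥ ∧ Q₂ ≠ ⊥ ∧
      Q₁.under (𝓞 K) = q ∧ Q₂.under (𝓞 K) = q := by
  have hmax : q.IsMaximal := hq.isMaximal hq0
  have hsum := Ideal.sum_ramification_inertia (𝓞 L) K L hq0 (p := q)
  have hmem : ∀ P ∈ IsDedekindDomain.primesOverFinset q (𝓞 L),
      P.IsPrime ∧ P ≠ ⊥ ∧ P.under (𝓞 K) = q := by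
    intro P hP
    rw [IsDedekindDomain.mem_primesOverFinset_iff hq0] at hP
    obtain ⟨hPprime, hPover⟩ := hP
    refine ⟨hPprime, ?_, hPover.over.symm⟩
    exact Ideal.ne_bot_of_liesOver_of_ne_bot hq0 P
  have h1 : ∀ P ∈ IsDedekindDomain.primesOverFinset q (𝓞 L),
      q.ramificationIdx' P * q.inertiaDeg' P = 1 := by
    intro P hP
    obtain ⟨hPprime, hP0, hund⟩ := hmem P hP
    obtain ⟨hN, hram⟩ := hs P hPprime hP0
    rw [hund] at hN hram
    have he : q.ramificationIdx' P = 1 := by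
      refine Ideal.ramificationIdx'_spec ?_ hram
      rw [pow_one, Ideal.map_le_iff_le_comap]
      exact hund.ge
    have hf : q.inertiaDeg' P = 1 := by
      have hlo : P.LiesOver q := ⟨hund.symm⟩
      have := Ideal.absNorm_eq_pow_inertiaDeg'_of_liesOver P q hq hq0
      rw [hN] at this
      have h2 := one_lt_absNorm_of_isPrime hq hq0
      have h3 : absNorm q ^ 1 = absNorm q ^ q.inertiaDeg' P := by rw [pow_one]; exact this
      exact (Nat.pow_right_injective h2 h3).symm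
    rw [he, hf]
  rw [Finset.sum_congr rfl h1, Finset.sum_const, smul_eq_mul, mul_one] at hsum
  have hcard : 1 < (IsDedekindDomain.primesOverFinset q (𝓞 L)).card := by omega
  obtain ⟨Q₁, hQ₁, Q₂, hQ₂, hne⟩ := Finset.one_lt_card.mp hcard
  obtain ⟨a1, a2, a3⟩ := hmem Q₁ hQ₁
  obtain ⟨b1, b2, b3⟩ := hmem Q₂ hQ₂
  exact ⟨Q₁, Q₂, hne, a1, b1, a2, b2, a3, b3⟩

/-- Multiplicative lift of a map on primes to all nonzero ideals. -/
noncomputable def lift (f : Ideal (𝓞 K) → Ideal (𝓞 L)) (a : Ideal (𝓞 K)) : Ideal (𝓞 L) :=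
  ((normalizedFactors a).map f).prod

/-- `f` sends nonzero primes to nonzero primes of the same absolute norm. -/
def Good (f : Ideal (𝓞 K) → Ideal (𝓞 L)) : Prop :=
  ∀ q : Ideal (𝓞 K), q.IsPrime → q ≠ ⊥ →
    (f q).IsPrime ∧ f q ≠ ⊥ ∧ absNorm (f q) = absNorm q

theorem mem_factors {F : Type*} [Field F] [NumberField F] {a q : Ideal (𝓞 F)}
    (hq : q ∈ normalizedFactors a) : q.IsPrime ∧ q ≠ ⊥ := by
  have hp := prime_of_normalized_factor q hq
  exact ⟨Ideal.isPrime_of_prime hp, hp.ne_zero⟩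

theorem factors_lift {f : Ideal (𝓞 K) → Ideal (𝓞 L)} (hf : Good f) (a : Ideal (𝓞 K)) :
    normalizedFactors (lift f a) = (normalizedFactors a).map f := by
  unfold lift
  apply normalizedFactors_prod_of_prime
  intro P hP
  obtain ⟨q, hq, rfl⟩ := Multiset.mem_map.mp hP
  obtain ⟨h1, h2⟩ := mem_factors hq
  obtain ⟨h3, h4, -⟩ := hf q h1 h2
  exact Ideal.prime_of_isPrime h4 h3

theorem lift_ne_bot {f : Ideal (𝓞 K) → Ideal (𝓞 L)} (hf : Good f) (a : Ideal (𝓞 K)) :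
    lift f a ≠ ⊥ := by
  unfold lift
  rw [← Ideal.zero_eq_bot]
  apply Multiset.prod_ne_zero
  intro h0
  obtain ⟨q, hq, hq0⟩ := Multiset.mem_map.mp h0
  obtain ⟨h1, h2⟩ := mem_factors hq
  exact (hf q h1 h2).2.1 hq0

theorem absNorm_lift {f : Ideal (𝓞 K) → Ideal (𝓞 L)} (hf : Good f) {a : Ideal (𝓞 K)}
    (ha : a ≠ ⊥) : absNorm (lift f a) = absNorm a := by
  unfold lift
  rw [map_multiset_prod, Multiset.map_map]
  conv_rhs => rw [← Ideal.prod_normalizedFactors_eq_self ha, map_multiset_prod]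
  congr 1
  apply Multiset.map_congr rfl
  intro q hq
  obtain ⟨h1, h2⟩ := mem_factors hq
  exact (hf q h1 h2).2.2

/-- The pairing map. -/
noncomputable def pair (f₁ f₂ : Ideal (𝓞 K) → Ideal (𝓞 L)) (a b : Ideal (𝓞 K)) : Ideal (𝓞 L) :=
  lift f₁ a * lift f₂ b

theorem pair_ne_bot {f₁ f₂ : Ideal (𝓞 K) → Ideal (𝓞 L)} (h₁ : Good f₁) (h₂ : Good f₂)
    (a b : Ideal (𝓞 K)) : pair f₁ f₂ a b ≠ ⊥ := by
  unfold pair
  rw [← Ideal.zero_eq_bot]
  exact mul_ne_zero (lift_ne_bot h₁ a) (lift_ne_bot h₂ b)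

theorem absNorm_pair {f₁ f₂ : Ideal (𝓞 K) → Ideal (𝓞 L)} (h₁ : Good f₁) (h₂ : Good f₂)
    {a b : Ideal (𝓞 K)} (ha : a ≠ ⊥) (hb : b ≠ ⊥) :
    absNorm (pair f₁ f₂ a b) = absNorm a * absNorm b := by
  unfold pair
  rw [map_mul, absNorm_lift h₁ ha, absNorm_lift h₂ hb]

theorem factors_pair {f₁ f₂ : Ideal (𝓞 K) → Ideal (𝓞 L)} (h₁ : Good f₁) (h₂ : Good f₂)
    (a b : Ideal (𝓞 K)) :
    normalizedFactors (pair f₁ f₂ a b) =
      (normalizedFactors a).map f₁ + (normalizedFactors b).map f₂ := by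
  unfold pair
  rw [normalizedFactors_mul (lift_ne_bot h₁ a) (lift_ne_bot h₂ b), factors_lift h₁,
    factors_lift h₂]

open Classical in
/-- Marker: recovers the prime below `P` if `P` is the chosen prime `f (P ∩ 𝓞 K)`. -/
noncomputable def marker (f : Ideal (𝓞 K) → Ideal (𝓞 L)) (P : Ideal (𝓞 L)) : Ideal (𝓞 K) :=
  if P = f (P.under (𝓞 K)) then P.under (𝓞 K) else 1

theorem recover_left {f₁ f₂ : Ideal (𝓞 K) → Ideal (𝓞 L)} (h₁ : Good f₁) (h₂ : Good f₂)
    (hu₁ : ∀ q : Ideal (𝓞 K), q.IsPrime → q ≠ ⊥ → (f₁ q).under (𝓞 K) = q)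
    (hu₂ : ∀ q : Ideal (𝓞 K), q.IsPrime → q ≠ ⊥ → (f₂ q).under (𝓞 K) = q)
    (hne : ∀ q : Ideal (𝓞 K), q.IsPrime → q ≠ ⊥ → f₁ q ≠ f₂ q)
    {a : Ideal (𝓞 K)} (ha : a ≠ ⊥) (b : Ideal (𝓞 K)) :
    ((normalizedFactors (pair f₁ f₂ a b)).map (marker f₁)).prod = a := by
  rw [factors_pair h₁ h₂, Multiset.map_add, Multiset.prod_add, Multiset.map_map, Multiset.map_map]
  have e1 : (normalizedFactors a).map (marker f₁ ∘ f₁) = normalizedFactors a := by
    conv_rhs => rw [← Multiset.map_id (normalizedFactors a)]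
    apply Multiset.map_congr rfl
    intro q hq
    obtain ⟨p1, p2⟩ := mem_factors hq
    simp only [Function.comp_apply, marker, hu₁ q p1 p2, if_true, id]
  have e2 : ((normalizedFactors b).map (marker f₁ ∘ f₂)).prod = 1 := by
    apply Multiset.prod_eq_one
    intro x hx
    obtain ⟨q, hq, rfl⟩ := Multiset.mem_map.mp hx
    obtain ⟨p1, p2⟩ := mem_factors hq
    simp only [Function.comp_apply, marker, hu₂ q p1 p2]
    rw [if_neg (hne q p1 p2).symm]
  rw [e1, e2, mul_one, Ideal.prod_normalizedFactors_eq_self ha]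

theorem recover_right {f₁ f₂ : Ideal (𝓞 K) → Ideal (𝓞 L)} (h₁ : Good f₁) (h₂ : Good f₂)
    (hu₁ : ∀ q : Ideal (𝓞 K), q.IsPrime → q ≠ ⊥ → (f₁ q).under (𝓞 K) = q)
    (hu₂ : ∀ q : Ideal (𝓞 K), q.IsPrime → q ≠ ⊥ → (f₂ q).under (𝓞 K) = q)
    (hne : ∀ q : Ideal (𝓞 K), q.IsPrime → q ≠ ⊥ → f₁ q ≠ f₂ q)
    (a : Ideal (𝓞 K)) {b : Ideal (𝓞 K)} (hb : b ≠ ⊥) :
    ((normalizedFactors (pair f₁ f₂ a b)).map (marker f₂)).prod = b := by
  rw [factors_pair h₁ h₂, Multiset.map_add, Multiset.prod_add, Multiset.map_map, Multiset.map_map]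
  have e1 : (normalizedFactors b).map (marker f₂ ∘ f₂) = normalizedFactors b := by
    conv_rhs => rw [← Multiset.map_id (normalizedFactors b)]
    apply Multiset.map_congr rfl
    intro q hq
    obtain ⟨p1, p2⟩ := mem_factors hq
    simp only [Function.comp_apply, marker, hu₂ q p1 p2, if_true, id]
  have e2 : ((normalizedFactors a).map (marker f₂ ∘ f₁)).prod = 1 := by
    apply Multiset.prod_eq_one
    intro x hx
    obtain ⟨q, hq, rfl⟩ := Multiset.mem_map.mp hx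
    obtain ⟨p1, p2⟩ := mem_factors hq
    simp only [Function.comp_apply, marker, hu₁ q p1 p2]
    rw [if_neg (hne q p1 p2)]
  rw [e1, e2, one_mul, Ideal.prod_normalizedFactors_eq_self hb]

/-! ### Counting -/

/-- Number of nonzero ideals of `𝓞 F` of absolute norm `≤ t`. -/
noncomputable def cnt (F : Type*) [Field F] [NumberField F] (t : ℝ) : ℕ :=
  Nat.card {I : (Ideal (𝓞 F))⁰ // (absNorm (I : Ideal (𝓞 F)) : ℝ) ≤ t}

theorem finite_le (F : Type*) [Field F] [NumberField F] (t : ℝ) :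
    {I : (Ideal (𝓞 F))⁰ | (absNorm (I : Ideal (𝓞 F)) : ℝ) ≤ t}.Finite := by
  refine (Ideal.finite_setOfPred_absNorm_le₀ (S := 𝓞 F) ⌊t⌋₊).subset ?_
  intro I hI
  exact Nat.le_floor hI

/-- The finset of nonzero ideals of norm `≤ t`. -/
noncomputable def fin (F : Type*) [Field F] [NumberField F] (t : ℝ) : Finset (Ideal (𝓞 F))⁰ :=
  (finite_le F t).toFinset

theorem mem_fin {F : Type*} [Field F] [NumberField F] {t : ℝ} {I : (Ideal (𝓞 F))⁰} :
    I ∈ fin F t ↔ (absNorm (I : Ideal (𝓞 F)) : ℝ) ≤ t := by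
  simp [fin]

theorem card_fin (F : Type*) [Field F] [NumberField F] (t : ℝ) : (fin F t).card = cnt F t := by
  unfold cnt fin
  rw [← Nat.card_eq_card_finite_toFinset (finite_le F t)]
  rfl

theorem tendsto_cnt (F : Type*) [Field F] [NumberField F] :
    Tendsto (fun s : ℝ => (cnt F s : ℝ) / s) atTop (𝓝 (dedekindZeta_residue F)) :=
  NumberField.Ideal.tendsto_norm_le_div_atTop₀ F

theorem absNorm_pos' {F : Type*} [Field F] [NumberField F] (a : (Ideal (𝓞 F))⁰) :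
    (0 : ℝ) < absNorm (a : Ideal (𝓞 F)) := by
  have h0 : absNorm (a : Ideal (𝓞 F)) ≠ 0 := by
    rw [Ne, absNorm_eq_zero_iff]
    exact mem_nonZeroDivisors_iff_ne_zero.mp a.2
  exact_mod_cast Nat.pos_of_ne_zero h0

theorem sum_cnt_le (hs : AllSplit K L) (h : 2 ≤ Module.finrank K L)
    (F : Finset (Ideal (𝓞 K))⁰) (s : ℝ) :
    ∑ a ∈ F, cnt K (s / absNorm (a : Ideal (𝓞 K))) ≤ cnt L s := by
  classical
  -- the two choice functions
  let f₁ : Ideal (𝓞 K) → Ideal (𝓞 L) := fun q =>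
    if hq : q.IsPrime ∧ q ≠ ⊥ then (exists_two_primes hs h q hq.1 hq.2).choose else ⊥
  let f₂ : Ideal (𝓞 K) → Ideal (𝓞 L) := fun q =>
    if hq : q.IsPrime ∧ q ≠ ⊥ then (exists_two_primes hs h q hq.1 hq.2).choose_spec.choose else ⊥
  have spec : ∀ q : Ideal (𝓞 K), q.IsPrime → q ≠ ⊥ →
      f₁ q ≠ f₂ q ∧ (f₁ q).IsPrime ∧ (f₂ q).IsPrime ∧ f₁ q ≠ ⊥ ∧ f₂ q ≠ ⊥ ∧
        (f₁ q).under (𝓞 K) = q ∧ (f₂ q).under (𝓞 K) = q := by
    intro q hq hq0
    have hq' : q.IsPrime ∧ q ≠ ⊥ := ⟨hq, hq0⟩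
    simp only [f₁, f₂, dif_pos hq']
    exact (exists_two_primes hs h q hq hq0).choose_spec.choose_spec
  have g₁ : Good f₁ := by
    intro q hq hq0
    obtain ⟨-, a1, -, a2, -, a3, -⟩ := spec q hq hq0
    refine ⟨a1, a2, ?_⟩
    have := (hs (f₁ q) a1 a2).1
    rw [a3] at this
    exact this
  have g₂ : Good f₂ := by
    intro q hq hq0
    obtain ⟨-, -, a1, -, a2, -, a3⟩ := spec q hq hq0
    refine ⟨a1, a2, ?_⟩
    have := (hs (f₂ q) a1 a2).1
    rw [a3] at this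
    exact this
  have hu₁ : ∀ q : Ideal (𝓞 K), q.IsPrime → q ≠ ⊥ → (f₁ q).under (𝓞 K) = q :=
    fun q hq hq0 => (spec q hq hq0).2.2.2.2.2.1
  have hu₂ : ∀ q : Ideal (𝓞 K), q.IsPrime → q ≠ ⊥ → (f₂ q).under (𝓞 K) = q :=
    fun q hq hq0 => (spec q hq hq0).2.2.2.2.2.2
  have hne : ∀ q : Ideal (𝓞 K), q.IsPrime → q ≠ ⊥ → f₁ q ≠ f₂ q :=
    fun q hq hq0 => (spec q hq hq0).1
  -- the injection
  let φ : (Σ _ : (Ideal (𝓞 K))⁰, (Ideal (𝓞 K))⁰) → (Ideal (𝓞 L))⁰ := fun x =>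
    ⟨pair f₁ f₂ (x.1 : Ideal (𝓞 K)) (x.2 : Ideal (𝓞 K)),
      mem_nonZeroDivisors_iff_ne_zero.mpr (pair_ne_bot g₁ g₂ _ _)⟩
  have hcard := Finset.card_le_card_of_injOn (s := F.sigma fun a => fin K (s / absNorm (a : Ideal (𝓞 K))))
    (t := fin L s) φ ?_ ?_
  · rw [Finset.card_sigma, card_fin] at hcard
    simpa only [card_fin] using hcard
  · intro x hx
    rw [Finset.mem_coe, Finset.mem_sigma] at hx
    obtain ⟨-, hx2⟩ := hx
    rw [mem_fin] at hx2
    rw [Finset.mem_coe, mem_fin]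
    have ha0 : (x.1 : Ideal (𝓞 K)) ≠ ⊥ := mem_nonZeroDivisors_iff_ne_zero.mp x.1.2
    have hb0 : (x.2 : Ideal (𝓞 K)) ≠ ⊥ := mem_nonZeroDivisors_iff_ne_zero.mp x.2.2
    show ((absNorm (pair f₁ f₂ (x.1 : Ideal (𝓞 K)) (x.2 : Ideal (𝓞 K))) : ℕ) : ℝ) ≤ s
    rw [absNorm_pair g₁ g₂ ha0 hb0, Nat.cast_mul]
    have hpos := absNorm_pos' x.1
    calc (absNorm (x.1 : Ideal (𝓞 K)) : ℝ) * absNorm (x.2 : Ideal (𝓞 K))
        ≤ absNorm (x.1 : Ideal (𝓞 K)) * (s / absNorm (x.1 : Ideal (𝓞 K))) :=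
          mul_le_mul_of_nonneg_left hx2 hpos.le
      _ = s := by field_simp
  · intro x hx y hy hxy
    have hxy' : pair f₁ f₂ (x.1 : Ideal (𝓞 K)) (x.2 : Ideal (𝓞 K)) =
        pair f₁ f₂ (y.1 : Ideal (𝓞 K)) (y.2 : Ideal (𝓞 K)) := congrArg Subtype.val hxy
    have hxa0 : (x.1 : Ideal (𝓞 K)) ≠ ⊥ := mem_nonZeroDivisors_iff_ne_zero.mp x.1.2
    have hxb0 : (x.2 : Ideal (𝓞 K)) ≠ ⊥ := mem_nonZeroDivisors_iff_ne_zero.mp x.2.2
    have hya0 : (y.1 : Ideal (𝓞 K)) ≠ ⊥ := mem_nonZeroDivisors_iff_ne_zero.mp y.1.2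
    have hyb0 : (y.2 : Ideal (𝓞 K)) ≠ ⊥ := mem_nonZeroDivisors_iff_ne_zero.mp y.2.2
    have e1 : (x.1 : Ideal (𝓞 K)) = y.1 := by
      rw [← recover_left g₁ g₂ hu₁ hu₂ hne hxa0 (x.2 : Ideal (𝓞 K)), hxy',
        recover_left g₁ g₂ hu₁ hu₂ hne hya0]
    have e2 : (x.2 : Ideal (𝓞 K)) = y.2 := by
      rw [← recover_right g₁ g₂ hu₁ hu₂ hne (x.1 : Ideal (𝓞 K)) hxb0, hxy',
        recover_right g₁ g₂ hu₁ hu₂ hne _ hyb0]
    obtain ⟨x1, x2⟩ := x
    obtain ⟨y1, y2⟩ := y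
    simp only at e1 e2
    have e1' : x1 = y1 := Subtype.ext e1
    have e2' : x2 = y2 := Subtype.ext e2
    subst e1' e2'
    rfl

/-! ### Analysis -/

theorem kappa_le (hs : AllSplit K L) (h : 2 ≤ Module.finrank K L)
    (F : Finset (Ideal (𝓞 K))⁰) :
    dedekindZeta_residue K * ∑ a ∈ F, (1 : ℝ) / absNorm (a : Ideal (𝓞 K)) ≤
      dedekindZeta_residue L := by
  have hL := tendsto_cnt L
  have hK : Tendsto (fun s : ℝ => ∑ a ∈ F, ((cnt K (s / absNorm (a : Ideal (𝓞 K))) : ℝ) / s))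
      atTop (𝓝 (∑ a ∈ F, dedekindZeta_residue K * (1 / absNorm (a : Ideal (𝓞 K))))) := by
    apply tendsto_finsetSum
    intro a _
    have hpos := absNorm_pos' a
    have h1 : Tendsto (fun s : ℝ => s / (absNorm (a : Ideal (𝓞 K)) : ℝ)) atTop atTop :=
      tendsto_id.atTop_div_const hpos
    have h2 := ((tendsto_cnt K).comp h1).mul_const (1 / (absNorm (a : Ideal (𝓞 K)) : ℝ))
    refine h2.congr' ?_
    filter_upwards [eventually_gt_atTop 0] with s hs0
    simp only [Function.comp_apply]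
    field_simp
  rw [Finset.mul_sum]
  refine le_of_tendsto_of_tendsto hK hL ?_
  filter_upwards [eventually_gt_atTop 0] with s hs0
  rw [← Finset.sum_div]
  apply div_le_div_of_nonneg_right _ hs0.le
  exact_mod_cast sum_cnt_le hs h F s

/-- The partial sums of `1 / N(a)` over nonzero ideals are unbounded. -/
theorem exists_large_sum (F : Type*) [Field F] [NumberField F] (M : ℝ) :
    ∃ S : Finset (Ideal (𝓞 F))⁰, M ≤ ∑ a ∈ S, (1 : ℝ) / absNorm (a : Ideal (𝓞 F)) := by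
  set κ := dedekindZeta_residue F with hκ
  have κpos : 0 < κ := dedekindZeta_residue_pos F
  -- the sum over ideals of norm ≤ Y
  let T : ℝ → ℝ := fun Y => ∑ a ∈ fin F Y, (1 : ℝ) / absNorm (a : Ideal (𝓞 F))
  have Tnonneg : ∀ Y, 0 ≤ T Y := fun Y =>
    Finset.sum_nonneg fun a _ => div_nonneg zero_le_one (absNorm_pos' a).le
  -- dyadic step
  have hstep0 : ∀ Y : ℝ, 0 < Y →
      ((cnt F (2 * Y) : ℝ) - cnt F Y) / (2 * Y) ≤ T (2 * Y) - T Y := by
    intro Y hY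
    have hsub : fin F Y ⊆ fin F (2 * Y) := by
      intro a ha
      rw [mem_fin] at ha ⊢
      linarith
    have hsplit : T (2 * Y) = T Y + ∑ a ∈ fin F (2 * Y) \ fin F Y,
        (1 : ℝ) / absNorm (a : Ideal (𝓞 F)) := by
      simp only [T]
      rw [add_comm, Finset.sum_sdiff hsub]
    have hlow : ((fin F (2 * Y) \ fin F Y).card : ℝ) * (1 / (2 * Y)) ≤
        ∑ a ∈ fin F (2 * Y) \ fin F Y, (1 : ℝ) / absNorm (a : Ideal (𝓞 F)) := by
      rw [← nsmul_eq_mul, ← Finset.sum_const]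
      apply Finset.sum_le_sum
      intro a ha
      rw [Finset.mem_sdiff, mem_fin] at ha
      exact one_div_le_one_div_of_le (absNorm_pos' a) ha.1
    have hcard : ((fin F (2 * Y) \ fin F Y).card : ℝ) = (cnt F (2 * Y) : ℝ) - cnt F Y := by
      rw [Finset.card_sdiff_of_subset hsub, card_fin, card_fin, Nat.cast_sub]
      rw [← card_fin, ← card_fin]
      exact Finset.card_le_card hsub
    rw [hsplit, add_sub_cancel_left]
    calc ((cnt F (2 * Y) : ℝ) - cnt F Y) / (2 * Y)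
        = ((fin F (2 * Y) \ fin F Y).card : ℝ) * (1 / (2 * Y)) := by rw [hcard]; ring
      _ ≤ _ := hlow
  have hlim : Tendsto (fun Y : ℝ => ((cnt F (2 * Y) : ℝ) - cnt F Y) / (2 * Y)) atTop
      (𝓝 (κ - 1 / 2 * κ)) := by
    have h2 : Tendsto (fun Y : ℝ => 2 * Y) atTop atTop :=
      tendsto_id.const_mul_atTop (by norm_num : (0 : ℝ) < 2)
    have ha := (tendsto_cnt F).comp h2
    have hb := (tendsto_cnt F).const_mul (1 / 2 : ℝ)
    refine (ha.sub hb).congr' ?_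
    filter_upwards [eventually_gt_atTop 0] with Y hY
    simp only [Function.comp_apply]
    field_simp
  have hev : ∀ᶠ Y : ℝ in atTop, κ / 4 < ((cnt F (2 * Y) : ℝ) - cnt F Y) / (2 * Y) := by
    apply hlim.eventually
    apply lt_mem_nhds
    linarith
  obtain ⟨Y₀, hY₀⟩ := Filter.eventually_atTop.mp hev
  set Y₁ := max Y₀ 1 with hY₁
  have hY₁pos : 0 < Y₁ := lt_of_lt_of_le one_pos (le_max_right _ _)
  have hstep : ∀ Y : ℝ, Y₁ ≤ Y → T Y + κ / 4 ≤ T (2 * Y) := by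
    intro Y hY
    have hYpos : 0 < Y := lt_of_lt_of_le hY₁pos hY
    have h1 := hY₀ Y (le_trans (le_max_left _ _) hY)
    have h2 := hstep0 Y hYpos
    linarith
  have hind : ∀ j : ℕ, (j : ℝ) * (κ / 4) ≤ T (2 ^ j * Y₁) := by
    intro j
    induction j with
    | zero => simpa using Tnonneg _
    | succ j ih =>
      have hge : Y₁ ≤ 2 ^ j * Y₁ := by
        have : (1 : ℝ) ≤ 2 ^ j := one_le_pow₀ (by norm_num)
        nlinarith
      have h3 := hstep (2 ^ j * Y₁) hge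
      have h4 : (2 : ℝ) ^ (j + 1) * Y₁ = 2 * (2 ^ j * Y₁) := by ring
      rw [h4]
      push_cast
      linarith
  obtain ⟨j, hj⟩ := exists_nat_gt (M / (κ / 4))
  refine ⟨fin F (2 ^ j * Y₁), ?_⟩
  have h5 := hind j
  have h6 : M < (j : ℝ) * (κ / 4) := by
    rw [div_lt_iff₀ (by positivity)] at hj
    exact hj
  exact le_trans h6.le h5

/-- **Main theorem**: in an extension of number fields of degree `≥ 2`, it is impossible that
every nonzero prime of `𝓞 L` has residue degree one and is unramified over `𝓞 K`. -/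
theorem not_allSplit (h : 2 ≤ Module.finrank K L) : ¬ AllSplit K L := by
  intro hs
  have κK := dedekindZeta_residue_pos K
  obtain ⟨S, hS⟩ := exists_large_sum K ((dedekindZeta_residue L + 1) / dedekindZeta_residue K)
  have h1 := kappa_le hs h S
  have h2 : dedekindZeta_residue L + 1 ≤
      dedekindZeta_residue K * ∑ a ∈ S, (1 : ℝ) / absNorm (a : Ideal (𝓞 K)) := by
    calc dedekindZeta_residue L + 1
        = dedekindZeta_residue K * ((dedekindZeta_residue L + 1) / dedekindZeta_residue K) := by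
          field_simp
      _ ≤ _ := mul_le_mul_of_nonneg_left hS κK.le
  linarith

variable (K L)

/-- In an extension `L / K` of number fields of degree `≥ 2` some nonzero prime `Q` of `𝓞 L` has
residue degree `> 1` (`N Q ≠ N (Q ∩ 𝓞 K)`) or is ramified (`(Q ∩ 𝓞 K) 𝓞 L ⊆ Q ^ 2`) over `K`. -/
theorem exists_prime_not_split (h : 2 ≤ Module.finrank K L) :
    ∃ Q : Ideal (𝓞 L), Q.IsPrime ∧ Q ≠ ⊥ ∧
      (absNorm Q ≠ absNorm (Q.under (𝓞 K)) ∨
        (Q.under (𝓞 K)).map (algebraMap (𝓞 K) (𝓞 L)) ≤ Q ^ 2) := by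
  by_contra hcon
  apply not_allSplit h
  intro Q hQ hQ0
  constructor
  · by_contra hc
    exact hcon ⟨Q, hQ, hQ0, Or.inl hc⟩
  · intro hc
    exact hcon ⟨Q, hQ, hQ0, Or.inr hc⟩

variable {K L}

/-- If the identity is an arithmetic Frobenius at the nonzero prime `Q`, then `Q` has residue
degree one over `𝓞 K`. -/
theorem absNorm_eq_of_forall_sub_pow_mem {Q : Ideal (𝓞 L)} (hQ : Q.IsPrime) (hQ0 : Q ≠ ⊥)
    (hfr : ∀ x : 𝓞 L, x - x ^ Nat.card (𝓞 K ⧸ Q.under (𝓞 K)) ∈ Q) :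
    absNorm Q = absNorm (Q.under (𝓞 K)) := by
  classical
  set q := Q.under (𝓞 K) with hq
  have hqprime : q.IsPrime := Ideal.IsPrime.under (𝓞 K) Q
  have hq0 : q ≠ ⊥ := Ideal.IsIntegral.comap_ne_bot (𝓞 K) hQ0
  have hlo : Q.LiesOver q := ⟨rfl⟩
  have hpow := Ideal.absNorm_eq_pow_inertiaDeg'_of_liesOver Q q hqprime hq0
  have hm : Nat.card (𝓞 K ⧸ q) = absNorm q := by
    rw [Ideal.absNorm_apply, Submodule.cardQuot_apply]
  rw [hm] at hfr
  set m := absNorm q with hmdef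
  have hm2 : 1 < m := one_lt_absNorm_of_isPrime hqprime hq0
  have hQ2 : 1 < absNorm Q := one_lt_absNorm_of_isPrime hQ hQ0
  -- the residue field
  have hmax : Q.IsMaximal := hQ.isMaximal hQ0
  let _ : Field (𝓞 L ⧸ Q) := Ideal.Quotient.field Q
  have : Finite (𝓞 L ⧸ Q) := Ideal.finiteQuotientOfFreeOfNeBot Q hQ0
  let _ : Fintype (𝓞 L ⧸ Q) := Fintype.ofFinite _
  have hroot : ∀ y : 𝓞 L ⧸ Q, y ^ m = y := by
    intro y
    obtain ⟨x, rfl⟩ := Ideal.Quotient.mk_surjective y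
    have := hfr x
    rw [← Ideal.Quotient.eq_zero_iff_mem, map_sub, map_pow, sub_eq_zero] at this
    exact this.symm
  have hcardle : Fintype.card (𝓞 L ⧸ Q) ≤ m := by
    have hP0 : (Polynomial.X ^ m - Polynomial.X : Polynomial (𝓞 L ⧸ Q)) ≠ 0 :=
      FiniteField.X_pow_card_sub_X_ne_zero (𝓞 L ⧸ Q) hm2
    have hdeg : (Polynomial.X ^ m - Polynomial.X : Polynomial (𝓞 L ⧸ Q)).natDegree = m :=
      FiniteField.X_pow_card_sub_X_natDegree_eq (𝓞 L ⧸ Q) hm2
    have hsub : (Finset.univ : Finset (𝓞 L ⧸ Q)) ⊆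
        (Polynomial.X ^ m - Polynomial.X : Polynomial (𝓞 L ⧸ Q)).roots.toFinset := by
      intro y _
      rw [Multiset.mem_toFinset, Polynomial.mem_roots hP0]
      simp [Polynomial.IsRoot, hroot y]
    calc Fintype.card (𝓞 L ⧸ Q) = (Finset.univ : Finset (𝓞 L ⧸ Q)).card := rfl
      _ ≤ _ := Finset.card_le_card hsub
      _ ≤ (Polynomial.X ^ m - Polynomial.X : Polynomial (𝓞 L ⧸ Q)).roots.card :=
          Multiset.toFinset_card_le _
      _ ≤ _ := Polynomial.card_roots' _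
      _ = m := hdeg
  have hNQ : absNorm Q = Fintype.card (𝓞 L ⧸ Q) := by
    rw [Ideal.absNorm_apply, Submodule.cardQuot_apply, Nat.card_eq_fintype_card]
  have hf0 : q.inertiaDeg' Q ≠ 0 := by
    intro h0
    rw [h0, pow_zero] at hpow
    omega
  have hge : m ≤ absNorm Q := by
    rw [hpow]
    exact Nat.le_self_pow hf0 m
  omega

variable (K L)

/-- In an extension `L / K` of number fields of degree `≥ 2`, the identity is not an arithmetic
Frobenius at every prime: some nonzero prime `Q` of `𝓞 L` is ramified over `K` or has an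
`x` with `x ^ #(𝓞 K / Q ∩ 𝓞 K) ≢ x mod Q`. -/
theorem exists_prime_not_isArithFrobAt_id (h : 2 ≤ Module.finrank K L) :
    ∃ Q : Ideal (𝓞 L), Q.IsPrime ∧ Q ≠ ⊥ ∧
      (¬ (AlgHom.id (𝓞 K) (𝓞 L)).IsArithFrobAt Q ∨
        (Q.under (𝓞 K)).map (algebraMap (𝓞 K) (𝓞 L)) ≤ Q ^ 2) := by
  obtain ⟨Q, hQ, hQ0, hor⟩ := exists_prime_not_split K L h
  refine ⟨Q, hQ, hQ0, ?_⟩
  rcases hor with h1 | h2
  · left
    intro hfr
    exact h1 (absNorm_eq_of_forall_sub_pow_mem hQ hQ0 hfr)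
  · exact Or.inr h2

/-- Same statement for the unit of a monoid acting on `𝓞 L` by `𝓞 K`-algebra maps
(e.g. `Gal(L/K)`): `1` is not an arithmetic Frobenius at every unramified prime. -/
theorem exists_prime_not_isArithFrobAt_one {G : Type*} [Monoid G] [MulSemiringAction G (𝓞 L)]
    [SMulCommClass G (𝓞 K) (𝓞 L)] (h : 2 ≤ Module.finrank K L) :
    ∃ Q : Ideal (𝓞 L), Q.IsPrime ∧ Q ≠ ⊥ ∧
      (¬ IsArithFrobAt (𝓞 K) (1 : G) Q ∨
        (Q.under (𝓞 K)).map (algebraMap (𝓞 K) (𝓞 L)) ≤ Q ^ 2) := by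
  obtain ⟨Q, hQ, hQ0, hor⟩ := exists_prime_not_isArithFrobAt_id K L h
  refine ⟨Q, hQ, hQ0, ?_⟩
  rcases hor with h1 | h2
  · left
    intro hfr
    apply h1
    intro x
    have := hfr x
    simpa using this
  · exact Or.inr h2

end Fermat.Agent.Lib.NoTotalSplit
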