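import Mathlib
import Fermat.Agent.Lib.NoTotalSplit

/-!
# Outside any finite set of primes, some prime does not split completely

Strengthening of `Fermat.Agent.Lib.NoTotalSplit`: in an extension `L / K` of number fields of
degree `≥ 2` and for any finite set of primes, some nonzero prime of `𝓞 L` outside this set has
residue degree `> 1` or is ramified over `K`.  Again a pure counting proof: the injection of pairs
of ideals is restricted to ideals prime to the exceptional set, and the only new input is the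
positive density of the ideals prime to a finite set of primes.
-/

set_option linter.unusedSectionVars false

namespace Fermat.Agent.Lib.NoTotalSplitOutside

open NumberField Ideal Filter Topology nonZeroDivisors UniqueFactorizationMonoid
open Fermat.Agent.Lib.NoTotalSplit

variable {K L : Type*} [Field K] [NumberField K] [Field L] [NumberField L] [Algebra K L]

/-- `a` has no prime factor in `S`. -/
def Cop {F : Type*} [Field F] [NumberField F] (S : Set (Ideal (𝓞 F))) (a : Ideal (𝓞 F)) : Prop :=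
  ∀ q ∈ normalizedFactors a, q ∉ S

variable (K L) in
/-- Every nonzero prime of `𝓞 L` that does not lie over a member of `S` has residue degree one
and is unramified over `𝓞 K`. -/
def SplitOutside (S : Set (Ideal (𝓞 K))) : Prop :=
  ∀ Q : Ideal (𝓞 L), Q.IsPrime → Q ≠ ⊥ → Q.under (𝓞 K) ∉ S →
    absNorm Q = absNorm (Q.under (𝓞 K)) ∧
      ¬ (Q.under (𝓞 K)).map (algebraMap (𝓞 K) (𝓞 L)) ≤ Q ^ 2

set_option linter.deprecated false in
theorem exists_two_primes_outside {S : Set (Ideal (𝓞 K))} (hs : SplitOutside K L S)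
    (h : 2 ≤ Module.finrank K L) (q : Ideal (𝓞 K)) (hq : q.IsPrime) (hq0 : q ≠ ⊥) (hqS : q ∉ S) :
    ∃ Q₁ Q₂ : Ideal (𝓞 L), Q₁ ≠ Q₂ ∧ Q₁.IsPrime ∧ Q₂.IsPrime ∧ Q₁ ≠ ⊥ ∧ Q₂ ≠ ⊥ ∧
      Q₁.under (𝓞 K) = q ∧ Q₂.under (𝓞 K) = q := by
  have hmax : q.IsMaximal := hq.isMaximal hq0
  have hsum := Ideal.sum_ramification_inertia (𝓞 L) K L hq0 (p := q)
  have hmem : ∀ P ∈ IsDedekindDomain.primesOverFinset q (𝓞 L),
      P.IsPrime ∧ P ≠ ⊥ ∧ P.under (𝓞 K) = q := by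
    intro P hP
    rw [IsDedekindDomain.mem_primesOverFinset_iff hq0] at hP
    obtain ⟨hPprime, hPover⟩ := hP
    refine ⟨hPprime, ?_, hPover.over.symm⟩
    exact Ideal.ne_bot_of_liesOver_of_ne_bot hq0 P
  have h1 : ∀ P ∈ IsDedekindDomain.primesOverFinset q (𝓞 L),
      q.ramificationIdx' P * q.inertiaDeg' P = 1 := by
    intro P hP
    obtain ⟨hPprime, hP0, hund⟩ := hmem P hP
    obtain ⟨hN, hram⟩ := hs P hPprime hP0 (by rw [hund]; exact hqS)
    rw [hund] at hN hram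
    have he : q.ramificationIdx' P = 1 := by
      refine Ideal.ramificationIdx'_spec ?_ hram
      rw [pow_one, Ideal.map_le_iff_le_comap]
      exact hund.ge
    have hf : q.inertiaDeg' P = 1 := by
      have hlo : P.LiesOver q := ⟨hund.symm⟩
      have := Ideal.absNorm_eq_pow_inertiaDeg'_of_liesOver P q hq hq0
      rw [hN] at this
      have h2 := one_lt_absNorm_of_isPrime hq hq0
      have h3 : absNorm q ^ 1 = absNorm q ^ q.inertiaDeg' P := by rw [pow_one]; exact this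
      exact (Nat.pow_right_injective h2 h3).symm
    rw [he, hf]
  rw [Finset.sum_congr rfl h1, Finset.sum_const, smul_eq_mul, mul_one] at hsum
  have hcard : 1 < (IsDedekindDomain.primesOverFinset q (𝓞 L)).card := by omega
  obtain ⟨Q₁, hQ₁, Q₂, hQ₂, hne⟩ := Finset.one_lt_card.mp hcard
  obtain ⟨a1, a2, a3⟩ := hmem Q₁ hQ₁
  obtain ⟨b1, b2, b3⟩ := hmem Q₂ hQ₂
  exact ⟨Q₁, Q₂, hne, a1, b1, a2, b2, a3, b3⟩

/-- `f` sends nonzero primes outside `S` to nonzero primes of the same absolute norm. -/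
def GoodOn (S : Set (Ideal (𝓞 K))) (f : Ideal (𝓞 K) → Ideal (𝓞 L)) : Prop :=
  ∀ q : Ideal (𝓞 K), q.IsPrime → q ≠ ⊥ → q ∉ S →
    (f q).IsPrime ∧ f q ≠ ⊥ ∧ absNorm (f q) = absNorm q

theorem factors_lift_on {S : Set (Ideal (𝓞 K))} {f : Ideal (𝓞 K) → Ideal (𝓞 L)} (hf : GoodOn S f)
    {a : Ideal (𝓞 K)} (ha : Cop S a) :
    normalizedFactors (lift f a) = (normalizedFactors a).map f := by
  unfold lift
  apply normalizedFactors_prod_of_prime
  intro P hP
  obtain ⟨q, hq, rfl⟩ := Multiset.mem_map.mp hP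
  obtain ⟨h1, h2⟩ := mem_factors hq
  obtain ⟨h3, h4, -⟩ := hf q h1 h2 (ha q hq)
  exact Ideal.prime_of_isPrime h4 h3

theorem lift_ne_bot_on {S : Set (Ideal (𝓞 K))} {f : Ideal (𝓞 K) → Ideal (𝓞 L)} (hf : GoodOn S f)
    {a : Ideal (𝓞 K)} (ha : Cop S a) : lift f a ≠ ⊥ := by
  unfold lift
  rw [← Ideal.zero_eq_bot]
  apply Multiset.prod_ne_zero
  intro h0
  obtain ⟨q, hq, hq0⟩ := Multiset.mem_map.mp h0
  obtain ⟨h1, h2⟩ := mem_factors hq
  exact (hf q h1 h2 (ha q hq)).2.1 hq0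

theorem absNorm_lift_on {S : Set (Ideal (𝓞 K))} {f : Ideal (𝓞 K) → Ideal (𝓞 L)} (hf : GoodOn S f)
    {a : Ideal (𝓞 K)} (ha0 : a ≠ ⊥) (ha : Cop S a) : absNorm (lift f a) = absNorm a := by
  unfold lift
  rw [map_multiset_prod, Multiset.map_map]
  conv_rhs => rw [← Ideal.prod_normalizedFactors_eq_self ha0, map_multiset_prod]
  congr 1
  apply Multiset.map_congr rfl
  intro q hq
  obtain ⟨h1, h2⟩ := mem_factors hq
  exact (hf q h1 h2 (ha q hq)).2.2

theorem pair_ne_bot_on {S : Set (Ideal (𝓞 K))} {f₁ f₂ : Ideal (𝓞 K) → Ideal (𝓞 L)}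
    (h₁ : GoodOn S f₁) (h₂ : GoodOn S f₂) {a b : Ideal (𝓞 K)} (ha : Cop S a) (hb : Cop S b) :
    pair f₁ f₂ a b ≠ ⊥ := by
  unfold pair
  rw [← Ideal.zero_eq_bot]
  exact mul_ne_zero (lift_ne_bot_on h₁ ha) (lift_ne_bot_on h₂ hb)

theorem absNorm_pair_on {S : Set (Ideal (𝓞 K))} {f₁ f₂ : Ideal (𝓞 K) → Ideal (𝓞 L)}
    (h₁ : GoodOn S f₁) (h₂ : GoodOn S f₂) {a b : Ideal (𝓞 K)} (ha0 : a ≠ ⊥) (hb0 : b ≠ ⊥)
    (ha : Cop S a) (hb : Cop S b) :
    absNorm (pair f₁ f₂ a b) = absNorm a * absNorm b := by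
  unfold pair
  rw [map_mul, absNorm_lift_on h₁ ha0 ha, absNorm_lift_on h₂ hb0 hb]

theorem factors_pair_on {S : Set (Ideal (𝓞 K))} {f₁ f₂ : Ideal (𝓞 K) → Ideal (𝓞 L)}
    (h₁ : GoodOn S f₁) (h₂ : GoodOn S f₂) {a b : Ideal (𝓞 K)} (ha : Cop S a) (hb : Cop S b) :
    normalizedFactors (pair f₁ f₂ a b) =
      (normalizedFactors a).map f₁ + (normalizedFactors b).map f₂ := by
  unfold pair
  rw [normalizedFactors_mul (lift_ne_bot_on h₁ ha) (lift_ne_bot_on h₂ hb), factors_lift_on h₁ ha,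
    factors_lift_on h₂ hb]

theorem recover_left_on {S : Set (Ideal (𝓞 K))} {f₁ f₂ : Ideal (𝓞 K) → Ideal (𝓞 L)}
    (h₁ : GoodOn S f₁) (h₂ : GoodOn S f₂)
    (hu₁ : ∀ q : Ideal (𝓞 K), q.IsPrime → q ≠ ⊥ → q ∉ S → (f₁ q).under (𝓞 K) = q)
    (hu₂ : ∀ q : Ideal (𝓞 K), q.IsPrime → q ≠ ⊥ → q ∉ S → (f₂ q).under (𝓞 K) = q)
    (hne : ∀ q : Ideal (𝓞 K), q.IsPrime → q ≠ ⊥ → q ∉ S → f₁ q ≠ f₂ q)
    {a b : Ideal (𝓞 K)} (ha0 : a ≠ ⊥) (ha : Cop S a) (hb : Cop S b) :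
    ((normalizedFactors (pair f₁ f₂ a b)).map (marker f₁)).prod = a := by
  rw [factors_pair_on h₁ h₂ ha hb, Multiset.map_add, Multiset.prod_add, Multiset.map_map,
    Multiset.map_map]
  have e1 : (normalizedFactors a).map (marker f₁ ∘ f₁) = normalizedFactors a := by
    conv_rhs => rw [← Multiset.map_id (normalizedFactors a)]
    apply Multiset.map_congr rfl
    intro q hq
    obtain ⟨p1, p2⟩ := mem_factors hq
    simp only [Function.comp_apply, marker, hu₁ q p1 p2 (ha q hq), if_true, id]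
  have e2 : ((normalizedFactors b).map (marker f₁ ∘ f₂)).prod = 1 := by
    apply Multiset.prod_eq_one
    intro x hx
    obtain ⟨q, hq, rfl⟩ := Multiset.mem_map.mp hx
    obtain ⟨p1, p2⟩ := mem_factors hq
    simp only [Function.comp_apply, marker, hu₂ q p1 p2 (hb q hq)]
    rw [if_neg (hne q p1 p2 (hb q hq)).symm]
  rw [e1, e2, mul_one, Ideal.prod_normalizedFactors_eq_self ha0]

theorem recover_right_on {S : Set (Ideal (𝓞 K))} {f₁ f₂ : Ideal (𝓞 K) → Ideal (𝓞 L)}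
    (h₁ : GoodOn S f₁) (h₂ : GoodOn S f₂)
    (hu₁ : ∀ q : Ideal (𝓞 K), q.IsPrime → q ≠ ⊥ → q ∉ S → (f₁ q).under (𝓞 K) = q)
    (hu₂ : ∀ q : Ideal (𝓞 K), q.IsPrime → q ≠ ⊥ → q ∉ S → (f₂ q).under (𝓞 K) = q)
    (hne : ∀ q : Ideal (𝓞 K), q.IsPrime → q ≠ ⊥ → q ∉ S → f₁ q ≠ f₂ q)
    {a b : Ideal (𝓞 K)} (hb0 : b ≠ ⊥) (ha : Cop S a) (hb : Cop S b) :
    ((normalizedFactors (pair f₁ f₂ a b)).map (marker f₂)).prod = b := by
  rw [factors_pair_on h₁ h₂ ha hb, Multiset.map_add, Multiset.prod_add, Multiset.map_map,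
    Multiset.map_map]
  have e1 : (normalizedFactors b).map (marker f₂ ∘ f₂) = normalizedFactors b := by
    conv_rhs => rw [← Multiset.map_id (normalizedFactors b)]
    apply Multiset.map_congr rfl
    intro q hq
    obtain ⟨p1, p2⟩ := mem_factors hq
    simp only [Function.comp_apply, marker, hu₂ q p1 p2 (hb q hq), if_true, id]
  have e2 : ((normalizedFactors a).map (marker f₂ ∘ f₁)).prod = 1 := by
    apply Multiset.prod_eq_one
    intro x hx
    obtain ⟨q, hq, rfl⟩ := Multiset.mem_map.mp hx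
    obtain ⟨p1, p2⟩ := mem_factors hq
    simp only [Function.comp_apply, marker, hu₁ q p1 p2 (ha q hq)]
    rw [if_neg (hne q p1 p2 (ha q hq))]
  rw [e1, e2, one_mul, Ideal.prod_normalizedFactors_eq_self hb0]

/-! ### Counting ideals prime to `S` -/

open Classical in
/-- The finset of nonzero ideals of norm `≤ t` without prime factor in `S`. -/
noncomputable def finS (F : Type*) [Field F] [NumberField F] (S : Set (Ideal (𝓞 F))) (t : ℝ) :
    Finset (Ideal (𝓞 F))⁰ :=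
  (fin F t).filter fun I => Cop S (I : Ideal (𝓞 F))

theorem mem_finS {F : Type*} [Field F] [NumberField F] {S : Set (Ideal (𝓞 F))} {t : ℝ}
    {I : (Ideal (𝓞 F))⁰} :
    I ∈ finS F S t ↔ (absNorm (I : Ideal (𝓞 F)) : ℝ) ≤ t ∧ Cop S (I : Ideal (𝓞 F)) := by
  classical
  unfold finS
  rw [Finset.mem_filter, mem_fin]

/-- Number of nonzero ideals of norm `≤ t` without prime factor in `S`. -/
noncomputable def cntS (F : Type*) [Field F] [NumberField F] (S : Set (Ideal (𝓞 F))) (t : ℝ) : ℕ :=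
  (finS F S t).card

theorem cntS_empty (F : Type*) [Field F] [NumberField F] (t : ℝ) : cntS F ∅ t = cnt F t := by
  unfold cntS
  rw [← card_fin]
  congr 1
  ext I
  rw [mem_finS, mem_fin]
  constructor
  · exact fun h => h.1
  · exact fun h => ⟨h, fun _ _ hq => hq⟩

theorem ne_bot_of_mem {F : Type*} [Field F] [NumberField F] (I : (Ideal (𝓞 F))⁰) :
    (I : Ideal (𝓞 F)) ≠ ⊥ := mem_nonZeroDivisors_iff_ne_zero.mp I.2

theorem factors_prime_mul {F : Type*} [Field F] [NumberField F] {P J : Ideal (𝓞 F)}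
    (hP : P.IsPrime) (hP0 : P ≠ ⊥) (hJ : J ≠ ⊥) :
    normalizedFactors (P * J) = P ::ₘ normalizedFactors J := by
  rw [normalizedFactors_mul hP0 hJ,
    normalizedFactors_irreducible (Ideal.prime_of_isPrime hP0 hP).irreducible, normalize_eq]
  rfl

theorem cntS_insert {F : Type*} [Field F] [NumberField F] (S : Set (Ideal (𝓞 F)))
    {P : Ideal (𝓞 F)} (hP : P.IsPrime) (hP0 : P ≠ ⊥) (hPS : P ∉ S) (t : ℝ) :
    cntS F (insert P S) t + cntS F S (t / absNorm P) = cntS F S t := by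
  classical
  have hNP : (0 : ℝ) < absNorm P := by
    have := one_lt_absNorm_of_isPrime hP hP0
    exact_mod_cast (by omega : 0 < absNorm P)
  have h1 : finS F (insert P S) t =
      (finS F S t).filter (fun I : (Ideal (𝓞 F))⁰ => ¬ ((I : Ideal (𝓞 F)) ≤ P)) := by
    ext I
    have hI0 := ne_bot_of_mem I
    rw [Finset.mem_filter, mem_finS, mem_finS]
    constructor
    · rintro ⟨hN, hc⟩
      refine ⟨⟨hN, fun q hq hqS => hc q hq (Set.mem_insert_of_mem _ hqS)⟩, ?_⟩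
      intro hle
      have : P ∈ normalizedFactors (I : Ideal (𝓞 F)) :=
        (Ideal.mem_normalizedFactors_iff hI0).mpr ⟨hP, hle⟩
      exact hc P this (Set.mem_insert _ _)
    · rintro ⟨⟨hN, hc⟩, hnle⟩
      refine ⟨hN, fun q hq hqS => ?_⟩
      rcases Set.mem_insert_iff.mp hqS with rfl | hqS
      · exact hnle ((Ideal.mem_normalizedFactors_iff hI0).mp hq).2
      · exact hc q hq hqS
  have h2 : (finS F S (t / absNorm P)).card =
      ((finS F S t).filter (fun I : (Ideal (𝓞 F))⁰ => (I : Ideal (𝓞 F)) ≤ P)).card := by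
    refine Finset.card_bij (fun J _ => (⟨P * (J : Ideal (𝓞 F)),
      mem_nonZeroDivisors_iff_ne_zero.mpr (mul_ne_zero hP0 (ne_bot_of_mem J))⟩ :
        (Ideal (𝓞 F))⁰)) ?_ ?_ ?_
    · intro J hJ
      rw [mem_finS] at hJ
      rw [Finset.mem_filter, mem_finS]
      refine ⟨⟨?_, ?_⟩, ?_⟩
      · show ((absNorm (P * (J : Ideal (𝓞 F))) : ℕ) : ℝ) ≤ t
        rw [map_mul, Nat.cast_mul]
        calc (absNorm P : ℝ) * absNorm (J : Ideal (𝓞 F))
            ≤ absNorm P * (t / absNorm P) := mul_le_mul_of_nonneg_left hJ.1 hNP.le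
          _ = t := by field_simp
      · intro q hq
        change q ∈ normalizedFactors (P * (J : Ideal (𝓞 F))) at hq
        rw [factors_prime_mul hP hP0 (ne_bot_of_mem J), Multiset.mem_cons] at hq
        rcases hq with rfl | hq
        · exact hPS
        · exact hJ.2 q hq
      · show P * (J : Ideal (𝓞 F)) ≤ P
        exact Ideal.mul_le_left
    · intro J₁ _ J₂ _ h12
      have h12' : P * (J₁ : Ideal (𝓞 F)) = P * (J₂ : Ideal (𝓞 F)) := congrArg Subtype.val h12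
      exact Subtype.ext (mul_left_cancel₀ hP0 h12')
    · intro I hI
      rw [Finset.mem_filter, mem_finS] at hI
      obtain ⟨⟨hN, hc⟩, hle⟩ := hI
      have hI0 := ne_bot_of_mem I
      obtain ⟨J, hJ⟩ := Ideal.dvd_iff_le.mpr hle
      have hJ0 : J ≠ ⊥ := by
        rintro rfl
        apply hI0
        rw [hJ]
        simp
      refine ⟨⟨J, mem_nonZeroDivisors_iff_ne_zero.mpr hJ0⟩, ?_, Subtype.ext hJ.symm⟩
      rw [mem_finS]
      refine ⟨?_, ?_⟩
      · show ((absNorm J : ℕ) : ℝ) ≤ t / absNorm P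
        rw [hJ, map_mul, Nat.cast_mul] at hN
        rw [le_div_iff₀' hNP]
        exact hN
      · intro q hq
        apply hc q
        rw [hJ, factors_prime_mul hP hP0 hJ0]
        exact Multiset.mem_cons_of_mem hq
  unfold cntS
  rw [h1, h2, add_comm]
  exact Finset.card_filter_add_card_filter_not _

theorem cntS_insert_of_not {F : Type*} [Field F] [NumberField F] (S : Set (Ideal (𝓞 F)))
    {P : Ideal (𝓞 F)} (hP : ¬ (P.IsPrime ∧ P ≠ ⊥)) (t : ℝ) :
    cntS F (insert P S) t = cntS F S t := by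
  unfold cntS
  congr 1
  ext I
  rw [mem_finS, mem_finS]
  constructor
  · rintro ⟨hN, hc⟩
    exact ⟨hN, fun q hq hqS => hc q hq (Set.mem_insert_of_mem _ hqS)⟩
  · rintro ⟨hN, hc⟩
    refine ⟨hN, fun q hq hqS => ?_⟩
    rcases Set.mem_insert_iff.mp hqS with rfl | hqS
    · exact hP (mem_factors hq)
    · exact hc q hq hqS

/-- The ideals prime to a finite set have a positive natural density. -/
theorem exists_tendsto_cntS (F : Type*) [Field F] [NumberField F] (S : Finset (Ideal (𝓞 F))) :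
    ∃ c : ℝ, 0 < c ∧
      Tendsto (fun t : ℝ => (cntS F (S : Set (Ideal (𝓞 F))) t : ℝ) / t) atTop (𝓝 c) := by
  classical
  induction S using Finset.induction_on with
  | empty =>
    refine ⟨dedekindZeta_residue F, dedekindZeta_residue_pos F, ?_⟩
    simp only [Finset.coe_empty, cntS_empty]
    exact tendsto_cnt F
  | insert P S hPS ih =>
    obtain ⟨c, hc, hlim⟩ := ih
    rw [Finset.coe_insert]
    by_cases hP : P.IsPrime ∧ P ≠ ⊥
    · have hN1 : (1 : ℝ) < absNorm P := by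
        exact_mod_cast one_lt_absNorm_of_isPrime hP.1 hP.2
      have hN0 : (0 : ℝ) < absNorm P := by linarith
      refine ⟨c * (1 - 1 / absNorm P), ?_, ?_⟩
      · apply mul_pos hc
        rw [sub_pos, div_lt_one hN0]
        exact hN1
      · have h1 : Tendsto (fun t : ℝ => t / (absNorm P : ℝ)) atTop atTop :=
          tendsto_id.atTop_div_const hN0
        have h2 := (hlim.comp h1).mul_const (1 / (absNorm P : ℝ))
        have h3 := hlim.sub h2
        have e : c - c * (1 / (absNorm P : ℝ)) = c * (1 - 1 / absNorm P) := by ring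
        rw [e] at h3
        refine h3.congr' ?_
        filter_upwards [eventually_gt_atTop 0] with t ht
        have hins := cntS_insert (S : Set (Ideal (𝓞 F))) hP.1 hP.2
          (by simpa using hPS) t
        have hins' : (cntS F (insert P (S : Set (Ideal (𝓞 F)))) t : ℝ) =
            cntS F (S : Set (Ideal (𝓞 F))) t - cntS F (S : Set (Ideal (𝓞 F))) (t / absNorm P) := by
          rw [← hins]
          push_cast
          ring
        simp only [Function.comp_apply]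
        rw [hins']
        field_simp
    · refine ⟨c, hc, ?_⟩
      simp only [cntS_insert_of_not _ hP]
      exact hlim

/-- The partial sums of `1 / N(a)` over nonzero ideals prime to a finite set are unbounded. -/
theorem exists_large_sum_cop (F : Type*) [Field F] [NumberField F] (S : Finset (Ideal (𝓞 F)))
    (M : ℝ) :
    ∃ A : Finset (Ideal (𝓞 F))⁰, (∀ a ∈ A, Cop (S : Set (Ideal (𝓞 F))) (a : Ideal (𝓞 F))) ∧
      M ≤ ∑ a ∈ A, (1 : ℝ) / absNorm (a : Ideal (𝓞 F)) := by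
  obtain ⟨κ, κpos, hκ⟩ := exists_tendsto_cntS F S
  set S' : Set (Ideal (𝓞 F)) := (S : Set (Ideal (𝓞 F))) with hS'
  -- the sum over ideals of norm ≤ Y
  let T : ℝ → ℝ := fun Y => ∑ a ∈ finS F S' Y, (1 : ℝ) / absNorm (a : Ideal (𝓞 F))
  have Tnonneg : ∀ Y, 0 ≤ T Y := fun Y =>
    Finset.sum_nonneg fun a _ => div_nonneg zero_le_one (absNorm_pos' a).le
  -- dyadic step
  have hstep0 : ∀ Y : ℝ, 0 < Y →
      ((cntS F S' (2 * Y) : ℝ) - cntS F S' Y) / (2 * Y) ≤ T (2 * Y) - T Y := by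
    intro Y hY
    have hsub : finS F S' Y ⊆ finS F S' (2 * Y) := by
      intro a ha
      rw [mem_finS] at ha ⊢
      exact ⟨by linarith [ha.1], ha.2⟩
    have hsplit : T (2 * Y) = T Y + ∑ a ∈ finS F S' (2 * Y) \ finS F S' Y,
        (1 : ℝ) / absNorm (a : Ideal (𝓞 F)) := by
      simp only [T]
      rw [add_comm, Finset.sum_sdiff hsub]
    have hlow : ((finS F S' (2 * Y) \ finS F S' Y).card : ℝ) * (1 / (2 * Y)) ≤
        ∑ a ∈ finS F S' (2 * Y) \ finS F S' Y, (1 : ℝ) / absNorm (a : Ideal (𝓞 F)) := by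
      rw [← nsmul_eq_mul, ← Finset.sum_const]
      apply Finset.sum_le_sum
      intro a ha
      rw [Finset.mem_sdiff, mem_finS] at ha
      exact one_div_le_one_div_of_le (absNorm_pos' a) ha.1.1
    have hcard : ((finS F S' (2 * Y) \ finS F S' Y).card : ℝ) =
        (cntS F S' (2 * Y) : ℝ) - cntS F S' Y := by
      rw [Finset.card_sdiff_of_subset hsub, Nat.cast_sub (Finset.card_le_card hsub)]
      rfl
    rw [hsplit, add_sub_cancel_left]
    calc ((cntS F S' (2 * Y) : ℝ) - cntS F S' Y) / (2 * Y)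
        = ((finS F S' (2 * Y) \ finS F S' Y).card : ℝ) * (1 / (2 * Y)) := by rw [hcard]; ring
      _ ≤ _ := hlow
  have hlim : Tendsto (fun Y : ℝ => ((cntS F S' (2 * Y) : ℝ) - cntS F S' Y) / (2 * Y)) atTop
      (𝓝 (κ - 1 / 2 * κ)) := by
    have h2 : Tendsto (fun Y : ℝ => 2 * Y) atTop atTop :=
      tendsto_id.const_mul_atTop (by norm_num : (0 : ℝ) < 2)
    have ha := hκ.comp h2
    have hb := hκ.const_mul (1 / 2 : ℝ)
    refine (ha.sub hb).congr' ?_
    filter_upwards [eventually_gt_atTop 0] with Y hY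
    simp only [Function.comp_apply]
    field_simp
  have hev : ∀ᶠ Y : ℝ in atTop, κ / 4 < ((cntS F S' (2 * Y) : ℝ) - cntS F S' Y) / (2 * Y) := by
    apply hlim.eventually
    apply lt_mem_nhds
    linarith
  obtain ⟨Y₀, hY₀⟩ := Filter.eventually_atTop.mp hev
  set Y₁ := max Y₀ 1 with hY₁
  have hY₁pos : 0 < Y₁ := lt_of_lt_of_le one_pos (le_max_right _ _)
  have hstep : ∀ Y : ℝ, Y₁ ≤ Y → T Y + κ / 4 ≤ T (2 * Y) := by
    intro Y hY
    have hYpos : 0 < Y := lt_of_lt_of_le hY₁pos hY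
    have h1 := hY₀ Y (le_trans (le_max_left _ _) hY)
    have h2 := hstep0 Y hYpos
    linarith
  have hind : ∀ j : ℕ, (j : ℝ) * (κ / 4) ≤ T (2 ^ j * Y₁) := by
    intro j
    induction j with
    | zero => simpa using Tnonneg _
    | succ j ih =>
      have hge : Y₁ ≤ 2 ^ j * Y₁ := by
        have : (1 : ℝ) ≤ 2 ^ j := one_le_pow₀ (by norm_num)
        nlinarith
      have h3 := hstep (2 ^ j * Y₁) hge
      have h4 : (2 : ℝ) ^ (j + 1) * Y₁ = 2 * (2 ^ j * Y₁) := by ring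
      rw [h4]
      push_cast
      linarith
  obtain ⟨j, hj⟩ := exists_nat_gt (M / (κ / 4))
  refine ⟨finS F S' (2 ^ j * Y₁), fun a ha => (mem_finS.mp ha).2, ?_⟩
  have h5 := hind j
  have h6 : M < (j : ℝ) * (κ / 4) := by
    rw [div_lt_iff₀ (by positivity)] at hj
    exact hj
  exact le_trans h6.le h5

/-! ### The injection -/

theorem sum_cntS_le {S : Set (Ideal (𝓞 K))} (hs : SplitOutside K L S)
    (h : 2 ≤ Module.finrank K L) (A : Finset (Ideal (𝓞 K))⁰)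
    (hA : ∀ a ∈ A, Cop S (a : Ideal (𝓞 K))) (s : ℝ) :
    ∑ a ∈ A, cntS K S (s / absNorm (a : Ideal (𝓞 K))) ≤ cnt L s := by
  classical
  -- the two choice functions
  let f₁ : Ideal (𝓞 K) → Ideal (𝓞 L) := fun q =>
    if hq : q.IsPrime ∧ q ≠ ⊥ ∧ q ∉ S then
      (exists_two_primes_outside hs h q hq.1 hq.2.1 hq.2.2).choose else ⊥
  let f₂ : Ideal (𝓞 K) → Ideal (𝓞 L) := fun q =>
    if hq : q.IsPrime ∧ q ≠ ⊥ ∧ q ∉ S then
      (exists_two_primes_outside hs h q hq.1 hq.2.1 hq.2.2).choose_spec.choose else ⊥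
  have spec : ∀ q : Ideal (𝓞 K), q.IsPrime → q ≠ ⊥ → q ∉ S →
      f₁ q ≠ f₂ q ∧ (f₁ q).IsPrime ∧ (f₂ q).IsPrime ∧ f₁ q ≠ ⊥ ∧ f₂ q ≠ ⊥ ∧
        (f₁ q).under (𝓞 K) = q ∧ (f₂ q).under (𝓞 K) = q := by
    intro q hq hq0 hqS
    have hq' : q.IsPrime ∧ q ≠ ⊥ ∧ q ∉ S := ⟨hq, hq0, hqS⟩
    simp only [f₁, f₂, dif_pos hq']
    exact (exists_two_primes_outside hs h q hq hq0 hqS).choose_spec.choose_spec
  have g₁ : GoodOn S f₁ := by
    intro q hq hq0 hqS
    obtain ⟨-, a1, -, a2, -, a3, -⟩ := spec q hq hq0 hqS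
    refine ⟨a1, a2, ?_⟩
    have := (hs (f₁ q) a1 a2 (by rw [a3]; exact hqS)).1
    rw [a3] at this
    exact this
  have g₂ : GoodOn S f₂ := by
    intro q hq hq0 hqS
    obtain ⟨-, -, a1, -, a2, -, a3⟩ := spec q hq hq0 hqS
    refine ⟨a1, a2, ?_⟩
    have := (hs (f₂ q) a1 a2 (by rw [a3]; exact hqS)).1
    rw [a3] at this
    exact this
  have hu₁ : ∀ q : Ideal (𝓞 K), q.IsPrime → q ≠ ⊥ → q ∉ S → (f₁ q).under (𝓞 K) = q :=
    fun q hq hq0 hqS => (spec q hq hq0 hqS).2.2.2.2.2.1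
  have hu₂ : ∀ q : Ideal (𝓞 K), q.IsPrime → q ≠ ⊥ → q ∉ S → (f₂ q).under (𝓞 K) = q :=
    fun q hq hq0 hqS => (spec q hq hq0 hqS).2.2.2.2.2.2
  have hne : ∀ q : Ideal (𝓞 K), q.IsPrime → q ≠ ⊥ → q ∉ S → f₁ q ≠ f₂ q :=
    fun q hq hq0 hqS => (spec q hq hq0 hqS).1
  -- the map (total; only used on pairs of ideals prime to `S`)
  let φ : (Σ _ : (Ideal (𝓞 K))⁰, (Ideal (𝓞 K))⁰) → (Ideal (𝓞 L))⁰ := fun x =>
    if hx : pair f₁ f₂ (x.1 : Ideal (𝓞 K)) (x.2 : Ideal (𝓞 K)) ≠ ⊥ then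
      ⟨pair f₁ f₂ (x.1 : Ideal (𝓞 K)) (x.2 : Ideal (𝓞 K)), mem_nonZeroDivisors_iff_ne_zero.mpr hx⟩
    else 1
  have hφ : ∀ x : (Σ _ : (Ideal (𝓞 K))⁰, (Ideal (𝓞 K))⁰), Cop S (x.1 : Ideal (𝓞 K)) →
      Cop S (x.2 : Ideal (𝓞 K)) →
      ((φ x : (Ideal (𝓞 L))⁰) : Ideal (𝓞 L)) =
        pair f₁ f₂ (x.1 : Ideal (𝓞 K)) (x.2 : Ideal (𝓞 K)) := by
    intro x h1 h2
    simp only [φ, dif_pos (pair_ne_bot_on g₁ g₂ h1 h2)]
  have hcard := Finset.card_le_card_of_injOn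
    (s := A.sigma fun a => finS K S (s / absNorm (a : Ideal (𝓞 K))))
    (t := fin L s) φ ?_ ?_
  · rw [Finset.card_sigma, card_fin] at hcard
    exact hcard
  · intro x hx
    rw [Finset.mem_coe, Finset.mem_sigma] at hx
    obtain ⟨hx1, hx2⟩ := hx
    rw [mem_finS] at hx2
    have hc1 := hA x.1 hx1
    rw [Finset.mem_coe, mem_fin]
    have ha0 : (x.1 : Ideal (𝓞 K)) ≠ ⊥ := ne_bot_of_mem x.1
    have hb0 : (x.2 : Ideal (𝓞 K)) ≠ ⊥ := ne_bot_of_mem x.2
    rw [hφ x hc1 hx2.2, absNorm_pair_on g₁ g₂ ha0 hb0 hc1 hx2.2, Nat.cast_mul]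
    have hpos := absNorm_pos' x.1
    calc (absNorm (x.1 : Ideal (𝓞 K)) : ℝ) * absNorm (x.2 : Ideal (𝓞 K))
        ≤ absNorm (x.1 : Ideal (𝓞 K)) * (s / absNorm (x.1 : Ideal (𝓞 K))) :=
          mul_le_mul_of_nonneg_left hx2.1 hpos.le
      _ = s := by field_simp
  · intro x hx y hy hxy
    rw [Finset.mem_coe, Finset.mem_sigma] at hx hy
    obtain ⟨hx1, hx2⟩ := hx
    obtain ⟨hy1, hy2⟩ := hy
    rw [mem_finS] at hx2 hy2
    have hcx1 := hA x.1 hx1
    have hcy1 := hA y.1 hy1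
    have hxy' : pair f₁ f₂ (x.1 : Ideal (𝓞 K)) (x.2 : Ideal (𝓞 K)) =
        pair f₁ f₂ (y.1 : Ideal (𝓞 K)) (y.2 : Ideal (𝓞 K)) := by
      rw [← hφ x hcx1 hx2.2, ← hφ y hcy1 hy2.2, hxy]
    have hxa0 : (x.1 : Ideal (𝓞 K)) ≠ ⊥ := ne_bot_of_mem x.1
    have hxb0 : (x.2 : Ideal (𝓞 K)) ≠ ⊥ := ne_bot_of_mem x.2
    have hya0 : (y.1 : Ideal (𝓞 K)) ≠ ⊥ := ne_bot_of_mem y.1
    have hyb0 : (y.2 : Ideal (𝓞 K)) ≠ ⊥ := ne_bot_of_mem y.2
    have e1 : (x.1 : Ideal (𝓞 K)) = y.1 := by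
      rw [← recover_left_on g₁ g₂ hu₁ hu₂ hne hxa0 hcx1 hx2.2, hxy',
        recover_left_on g₁ g₂ hu₁ hu₂ hne hya0 hcy1 hy2.2]
    have e2 : (x.2 : Ideal (𝓞 K)) = y.2 := by
      rw [← recover_right_on g₁ g₂ hu₁ hu₂ hne hxb0 hcx1 hx2.2, hxy',
        recover_right_on g₁ g₂ hu₁ hu₂ hne hyb0 hcy1 hy2.2]
    obtain ⟨x1, x2⟩ := x
    obtain ⟨y1, y2⟩ := y
    simp only at e1 e2
    have e1' : x1 = y1 := Subtype.ext e1
    have e2' : x2 = y2 := Subtype.ext e2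
    subst e1' e2'
    rfl

/-! ### Analysis -/

theorem kappa_le_outside {S : Set (Ideal (𝓞 K))} (hs : SplitOutside K L S)
    (h : 2 ≤ Module.finrank K L) {c : ℝ}
    (hc : Tendsto (fun t : ℝ => (cntS K S t : ℝ) / t) atTop (𝓝 c))
    (A : Finset (Ideal (𝓞 K))⁰) (hA : ∀ a ∈ A, Cop S (a : Ideal (𝓞 K))) :
    c * ∑ a ∈ A, (1 : ℝ) / absNorm (a : Ideal (𝓞 K)) ≤ dedekindZeta_residue L := by
  have hL := tendsto_cnt L
  have hK : Tendsto (fun s : ℝ => ∑ a ∈ A, ((cntS K S (s / absNorm (a : Ideal (𝓞 K))) : ℝ) / s))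
      atTop (𝓝 (∑ a ∈ A, c * (1 / absNorm (a : Ideal (𝓞 K))))) := by
    apply tendsto_finsetSum
    intro a _
    have hpos := absNorm_pos' a
    have h1 : Tendsto (fun s : ℝ => s / (absNorm (a : Ideal (𝓞 K)) : ℝ)) atTop atTop :=
      tendsto_id.atTop_div_const hpos
    have h2 := (hc.comp h1).mul_const (1 / (absNorm (a : Ideal (𝓞 K)) : ℝ))
    refine h2.congr' ?_
    filter_upwards [eventually_gt_atTop 0] with s hs0
    simp only [Function.comp_apply]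
    field_simp
  rw [Finset.mul_sum]
  refine le_of_tendsto_of_tendsto hK hL ?_
  filter_upwards [eventually_gt_atTop 0] with s hs0
  rw [← Finset.sum_div]
  apply div_le_div_of_nonneg_right _ hs0.le
  exact_mod_cast sum_cntS_le hs h A hA s

/-- **Main theorem**: in an extension of number fields of degree `≥ 2` and for a finite set `S`
of ideals of `𝓞 K`, it is impossible that every nonzero prime of `𝓞 L` not lying over a member of
`S` has residue degree one and is unramified over `𝓞 K`. -/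
theorem not_splitOutside (h : 2 ≤ Module.finrank K L) (S : Finset (Ideal (𝓞 K))) :
    ¬ SplitOutside K L (S : Set (Ideal (𝓞 K))) := by
  intro hs
  obtain ⟨c, hc0, hc⟩ := exists_tendsto_cntS K S
  obtain ⟨A, hA, hAM⟩ := exists_large_sum_cop K S ((dedekindZeta_residue L + 1) / c)
  have h1 := kappa_le_outside hs h hc A hA
  have h2 : dedekindZeta_residue L + 1 ≤
      c * ∑ a ∈ A, (1 : ℝ) / absNorm (a : Ideal (𝓞 K)) := by
    calc dedekindZeta_residue L + 1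
        = c * ((dedekindZeta_residue L + 1) / c) := by
          field_simp
      _ ≤ _ := mul_le_mul_of_nonneg_left hAM hc0.le
  linarith

variable (K L)

/-- In an extension `L / K` of number fields of degree `≥ 2`, for every finite set `S` of ideals
of `𝓞 K` some nonzero prime `Q` of `𝓞 L` with `Q ∩ 𝓞 K ∉ S` has residue degree `> 1`
(`N Q ≠ N (Q ∩ 𝓞 K)`) or is ramified (`(Q ∩ 𝓞 K) 𝓞 L ⊆ Q ^ 2`) over `K`. -/
theorem exists_prime_not_split_under_not_mem (h : 2 ≤ Module.finrank K L)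
    (S : Set (Ideal (𝓞 K))) (hS : S.Finite) :
    ∃ Q : Ideal (𝓞 L), Q.IsPrime ∧ Q ≠ ⊥ ∧ Q.under (𝓞 K) ∉ S ∧
      (absNorm Q ≠ absNorm (Q.under (𝓞 K)) ∨
        (Q.under (𝓞 K)).map (algebraMap (𝓞 K) (𝓞 L)) ≤ Q ^ 2) := by
  by_contra hcon
  apply not_splitOutside h hS.toFinset
  intro Q hQ hQ0 hQS
  rw [Set.Finite.coe_toFinset] at hQS
  constructor
  · by_contra hc
    exact hcon ⟨Q, hQ, hQ0, hQS, Or.inl hc⟩
  · intro hc
    exact hcon ⟨Q, hQ, hQ0, hQS, Or.inr hc⟩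

/-- In an extension `L / K` of number fields of degree `≥ 2`, for every finite set `T` of ideals
of `𝓞 L` some nonzero prime `Q ∉ T` of `𝓞 L` has residue degree `> 1` or is ramified over `K`. -/
theorem exists_prime_not_split_not_mem (h : 2 ≤ Module.finrank K L)
    (T : Set (Ideal (𝓞 L))) (hT : T.Finite) :
    ∃ Q : Ideal (𝓞 L), Q.IsPrime ∧ Q ≠ ⊥ ∧ Q ∉ T ∧
      (absNorm Q ≠ absNorm (Q.under (𝓞 K)) ∨
        (Q.under (𝓞 K)).map (algebraMap (𝓞 K) (𝓞 L)) ≤ Q ^ 2) := by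
  obtain ⟨Q, hQ, hQ0, hQS, hor⟩ := exists_prime_not_split_under_not_mem K L h
    ((fun Q : Ideal (𝓞 L) => Q.under (𝓞 K)) '' T) (hT.image _)
  exact ⟨Q, hQ, hQ0, fun hQT => hQS ⟨Q, hQT, rfl⟩, hor⟩

/-- `IsArithFrobAt` form with the exceptional set upstairs: outside any finite set `T` of ideals
of `𝓞 L`, the identity is not an arithmetic Frobenius at every unramified prime. -/
theorem exists_prime_not_isArithFrobAt_id_not_mem (h : 2 ≤ Module.finrank K L)
    (T : Set (Ideal (𝓞 L))) (hT : T.Finite) :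
    ∃ Q : Ideal (𝓞 L), Q.IsPrime ∧ Q ≠ ⊥ ∧ Q ∉ T ∧
      (¬ (AlgHom.id (𝓞 K) (𝓞 L)).IsArithFrobAt Q ∨
        (Q.under (𝓞 K)).map (algebraMap (𝓞 K) (𝓞 L)) ≤ Q ^ 2) := by
  obtain ⟨Q, hQ, hQ0, hQT, hor⟩ := exists_prime_not_split_not_mem K L h T hT
  refine ⟨Q, hQ, hQ0, hQT, ?_⟩
  rcases hor with h1 | h2
  · left
    intro hfr
    exact h1 (absNorm_eq_of_forall_sub_pow_mem hQ hQ0 hfr)
  · exact Or.inr h2

/-- Same statement for the unit of a monoid acting on `𝓞 L` by `𝓞 K`-algebra maps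
(e.g. `Gal(L/K)`). -/
theorem exists_prime_not_isArithFrobAt_one_not_mem {G : Type*} [Monoid G]
    [MulSemiringAction G (𝓞 L)] [SMulCommClass G (𝓞 K) (𝓞 L)] (h : 2 ≤ Module.finrank K L)
    (T : Set (Ideal (𝓞 L))) (hT : T.Finite) :
    ∃ Q : Ideal (𝓞 L), Q.IsPrime ∧ Q ≠ ⊥ ∧ Q ∉ T ∧
      (¬ IsArithFrobAt (𝓞 K) (1 : G) Q ∨
        (Q.under (𝓞 K)).map (algebraMap (𝓞 K) (𝓞 L)) ≤ Q ^ 2) := by
  obtain ⟨Q, hQ, hQ0, hQT, hor⟩ := exists_prime_not_isArithFrobAt_id_not_mem K L h T hT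
  refine ⟨Q, hQ, hQ0, hQT, ?_⟩
  rcases hor with h1 | h2
  · left
    intro hfr
    apply h1
    intro x
    have := hfr x
    simpa using this
  · exact Or.inr h2

/-! ### Ramified primes are finite in number; unramified non-split primes -/

set_option linter.deprecated false in
/-- The nonzero primes of `𝓞 L` that are ramified over `𝓞 K` divide the different ideal. -/
theorem dvd_differentIdeal_of_ramified {Q : Ideal (𝓞 L)} (hQ : Q.IsPrime) (hQ0 : Q ≠ ⊥)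
    (hram : (Q.under (𝓞 K)).map (algebraMap (𝓞 K) (𝓞 L)) ≤ Q ^ 2) :
    Q ∣ differentIdeal (𝓞 K) (𝓞 L) := by
  have hq0 : Q.under (𝓞 K) ≠ ⊥ := Ideal.IsIntegral.comap_ne_bot (𝓞 K) hQ0
  have hlo : Q.LiesOver (Q.under (𝓞 K)) := ⟨rfl⟩
  have hle : (Q.under (𝓞 K)).map (algebraMap (𝓞 K) (𝓞 L)) ≤ Q :=
    Ideal.map_le_iff_le_comap.mpr le_rfl
  have h1 : (Q.under (𝓞 K)).ramificationIdx' Q ≠ 1 :=
    (Ideal.ramificationIdx'_ne_one_iff hle).mpr hram
  rw [Ideal.ramificationIdx_eq_ramificationIdx' (Q.under (𝓞 K)) Q hq0] at h1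
  rw [dvd_differentIdeal_iff]
  intro hunr
  exact h1 (Algebra.isUnramifiedAt_iff_of_isDedekindDomain.mp hunr)

/-- Only finitely many nonzero primes of `𝓞 L` are ramified over `𝓞 K`. -/
theorem finite_ramified :
    {Q : Ideal (𝓞 L) | Q.IsPrime ∧ Q ≠ ⊥ ∧
      (Q.under (𝓞 K)).map (algebraMap (𝓞 K) (𝓞 L)) ≤ Q ^ 2}.Finite := by
  classical
  refine (normalizedFactors (differentIdeal (𝓞 K) (𝓞 L))).toFinset.finite_toSet.subset ?_
  rintro Q ⟨hQ, hQ0, hram⟩
  rw [Finset.mem_coe, Multiset.mem_toFinset, Ideal.mem_normalizedFactors_iff differentIdeal_ne_bot]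
  exact ⟨hQ, Ideal.dvd_iff_le.mp (dvd_differentIdeal_of_ramified K L hQ hQ0 hram)⟩

/-- In an extension `L / K` of number fields of degree `≥ 2`, for every finite set `T` of ideals
of `𝓞 L` some nonzero prime `Q ∉ T` of `𝓞 L` is **unramified** over `K` and has residue degree
`> 1` (`N Q ≠ N (Q ∩ 𝓞 K)`). -/
theorem exists_prime_unramified_inertia_not_mem (h : 2 ≤ Module.finrank K L)
    (T : Set (Ideal (𝓞 L))) (hT : T.Finite) :
    ∃ Q : Ideal (𝓞 L), Q.IsPrime ∧ Q ≠ ⊥ ∧ Q ∉ T ∧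
      ¬ (Q.under (𝓞 K)).map (algebraMap (𝓞 K) (𝓞 L)) ≤ Q ^ 2 ∧
      absNorm Q ≠ absNorm (Q.under (𝓞 K)) := by
  obtain ⟨Q, hQ, hQ0, hQT, hor⟩ := exists_prime_not_split_not_mem K L h
    (T ∪ {Q : Ideal (𝓞 L) | Q.IsPrime ∧ Q ≠ ⊥ ∧
      (Q.under (𝓞 K)).map (algebraMap (𝓞 K) (𝓞 L)) ≤ Q ^ 2}) (hT.union (finite_ramified K L))
  have hnr : ¬ (Q.under (𝓞 K)).map (algebraMap (𝓞 K) (𝓞 L)) ≤ Q ^ 2 :=
    fun hr => hQT (Or.inr ⟨hQ, hQ0, hr⟩)
  refine ⟨Q, hQ, hQ0, fun hm => hQT (Or.inl hm), hnr, ?_⟩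
  rcases hor with h1 | h2
  · exact h1
  · exact absurd h2 hnr

/-- Unramified version in `IsArithFrobAt` form: outside any finite set `T`, there is an unramified
prime at which the identity is not an arithmetic Frobenius. -/
theorem exists_prime_unramified_not_isArithFrobAt_one_not_mem {G : Type*} [Monoid G]
    [MulSemiringAction G (𝓞 L)] [SMulCommClass G (𝓞 K) (𝓞 L)] (h : 2 ≤ Module.finrank K L)
    (T : Set (Ideal (𝓞 L))) (hT : T.Finite) :
    ∃ Q : Ideal (𝓞 L), Q.IsPrime ∧ Q ≠ ⊥ ∧ Q ∉ T ∧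
      ¬ (Q.under (𝓞 K)).map (algebraMap (𝓞 K) (𝓞 L)) ≤ Q ^ 2 ∧
      ¬ IsArithFrobAt (𝓞 K) (1 : G) Q := by
  obtain ⟨Q, hQ, hQ0, hQT, hnr, hN⟩ := exists_prime_unramified_inertia_not_mem K L h T hT
  refine ⟨Q, hQ, hQ0, hQT, hnr, ?_⟩
  intro hfr
  apply hN
  apply absNorm_eq_of_forall_sub_pow_mem hQ hQ0
  intro x
  have := hfr x
  simpa using this

end Fermat.Agent.Lib.NoTotalSplitOutside
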