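import Mathlib
import Fermat.Agent.Lib.NoTotalSplitOutside
import Fermat.Agent.Lib.KummerSplit

/-!
# Kummer form of "some prime does not split": non-residues outside any finite set

Let `K` be a number field containing a primitive `p`-th root of unity and let `x ∈ 𝓞 K` be not a
`p`-th power.  Then outside any finite set of primes there is a prime `Q` of `𝓞 K`, prime to `p`
and `x`, at which `x` is not a `p`-th power residue.  Tower form: if `x` is not a `p`-th power in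
a finite extension `F / K`, then `Q` can moreover be chosen such that every element of `𝓞 K` that
becomes a `p`-th power in `F` is a `p`-th power residue mod `Q`.

No density theorem is used: the input is the counting lemma
`Fermat.Agent.Lib.NoTotalSplitOutside` and the explicit splitting of primes in a Kummer extension
(`Fermat.Agent.Lib.KummerSplit`).
-/

set_option linter.unusedSectionVars false

namespace Fermat.Agent.Lib.KummerNonResidue

open NumberField Ideal UniqueFactorizationMonoid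

/-! ### Finite fields -/

/-- In a finite field `E` with `p ∣ #E - 1`, an element `t` with `t ^ ((#E - 1) / p) = 1` is a
`p`-th power. -/
theorem exists_pow_eq_of_pow_div_eq_one {E : Type*} [Field E] [Fintype E] {p : ℕ}
    (hdvd : p ∣ Fintype.card E - 1) {t : E} (ht : t ^ ((Fintype.card E - 1) / p) = 1) :
    ∃ w : E, w ^ p = t := by
  classical
  set m := (Fintype.card E - 1) / p with hm
  have hpm : p * m = Fintype.card E - 1 := Nat.mul_div_cancel' hdvd
  have hcard : 1 < Fintype.card E := Fintype.one_lt_card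
  have hm0 : 0 < m := by
    rcases Nat.eq_zero_or_pos m with h | h
    · rw [h, mul_zero] at hpm
      omega
    · exact h
  have ht0 : t ≠ 0 := by
    rintro rfl
    rw [zero_pow hm0.ne'] at ht
    exact zero_ne_one ht
  obtain ⟨g, hg⟩ := IsCyclic.exists_generator (α := Eˣ)
  have hord : orderOf g = Fintype.card E - 1 := by
    rw [orderOf_eq_card_of_forall_mem_zpowers hg, Nat.card_eq_fintype_card, Fintype.card_units]
  obtain ⟨a, ha⟩ := Subgroup.mem_zpowers_iff.mp (hg (Units.mk0 t ht0))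
  have h1 : g ^ (a * (m : ℤ)) = 1 := by
    rw [zpow_mul, ha, zpow_natCast]
    ext
    simp [ht]
  have h2 : ((orderOf g : ℕ) : ℤ) ∣ a * (m : ℤ) := orderOf_dvd_iff_zpow_eq_one.mpr h1
  rw [hord, ← hpm] at h2
  have h3 : (p : ℤ) ∣ a := by
    push_cast at h2
    exact Int.dvd_of_mul_dvd_mul_right (by exact_mod_cast hm0.ne') h2
  obtain ⟨b, rfl⟩ := h3
  refine ⟨((g ^ b : Eˣ) : E), ?_⟩
  have h4 : (g ^ b) ^ p = Units.mk0 t ht0 := by
    rw [← ha, ← zpow_natCast, ← zpow_mul, mul_comm]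
  have h5 := congrArg Units.val h4
  simpa using h5

/-- Descent of `p`-th power residues along an extension of finite fields `k ⊆ k'` with
`μ_p ⊆ k`: if some `x ∈ k` is not a `p`-th power in `k'`, then every `y ∈ k` that is a `p`-th
power in `k'` is already a `p`-th power in `k`. -/
theorem exists_pow_eq_of_exists_pow_eq_map {k k' : Type*} [Field k] [Fintype k] [Field k']
    [Fintype k'] (φ : k →+* k') {p : ℕ} (hp : p.Prime) {ζ : k} (hζ : ζ ^ p = 1) (hζ1 : ζ ≠ 1)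
    {x y : k} (hx0 : x ≠ 0) (hx : ∀ w : k', w ^ p ≠ φ x) (hy : ∃ z : k', z ^ p = φ y) :
    ∃ c : k, c ^ p = y := by
  classical
  by_cases hy0 : y = 0
  · exact ⟨0, by rw [hy0, zero_pow hp.ne_zero]⟩
  have hφ : Function.Injective φ := φ.injective
  set N := Fintype.card k with hN
  set N' := Fintype.card k' with hN'
  have hN1 : 1 < N := Fintype.one_lt_card
  have hN'1 : 1 < N' := Fintype.one_lt_card
  -- p ∣ N - 1
  have hζ0 : ζ ≠ 0 := by
    rintro rfl
    rw [zero_pow hp.ne_zero] at hζ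
    exact zero_ne_one hζ
  have hpN : p ∣ N - 1 := by
    have : Fact p.Prime := ⟨hp⟩
    have h1 : orderOf (Units.mk0 ζ hζ0) = p := by
      apply orderOf_eq_prime
      · ext
        simp [hζ]
      · intro h
        apply hζ1
        have := congrArg Units.val h
        simpa using this
    have h2 : orderOf (Units.mk0 ζ hζ0) ∣ Fintype.card kˣ := orderOf_dvd_card
    rw [h1, Fintype.card_units] at h2
    exact h2
  -- N - 1 ∣ N' - 1
  have hNN' : N - 1 ∣ N' - 1 := by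
    have h1 : Nat.card kˣ ∣ Nat.card k'ˣ :=
      Subgroup.card_dvd_of_injective (Units.map (φ : k →* k')) (Units.map_injective hφ)
    rw [Nat.card_eq_fintype_card, Nat.card_eq_fintype_card, Fintype.card_units,
      Fintype.card_units] at h1
    exact h1
  obtain ⟨m, hm⟩ := hpN
  obtain ⟨s, hs⟩ := hNN'
  have hpN' : p ∣ N' - 1 := ⟨m * s, by rw [hs, hm, mul_assoc]⟩
  have hdiv : (N - 1) / p = m := by rw [hm]; exact Nat.mul_div_cancel_left m hp.pos
  have hdiv' : (N' - 1) / p = m * s := by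
    rw [hs, hm, mul_assoc]
    exact Nat.mul_div_cancel_left (m * s) hp.pos
  -- the values g(x) = x^m, g(y) = y^m
  have hgxp : (x ^ m) ^ p = 1 := by
    rw [← pow_mul, mul_comm, ← hm]
    exact FiniteField.pow_card_sub_one_eq_one x hx0
  have hgyp : (y ^ m) ^ p = 1 := by
    rw [← pow_mul, mul_comm, ← hm]
    exact FiniteField.pow_card_sub_one_eq_one y hy0
  have hgxs : (x ^ m) ^ s ≠ 1 := by
    intro h
    have h1 : (φ x) ^ ((N' - 1) / p) = 1 := by
      rw [hdiv', pow_mul, ← map_pow, ← map_pow, h, map_one]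
    obtain ⟨w, hw⟩ := exists_pow_eq_of_pow_div_eq_one hpN' h1
    exact hx w hw
  have hgys : (y ^ m) ^ s = 1 := by
    obtain ⟨z, hz⟩ := hy
    have hz0 : z ≠ 0 := by
      rintro rfl
      rw [zero_pow hp.ne_zero] at hz
      exact hy0 (hφ (by rw [← hz, map_zero]))
    apply hφ
    rw [map_one, map_pow, map_pow, ← hz, ← pow_mul, ← pow_mul, ← mul_assoc, ← hm, ← hs]
    exact FiniteField.pow_card_sub_one_eq_one z hz0
  have hps : ¬ p ∣ s := by
    rintro ⟨t, rfl⟩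
    apply hgxs
    rw [pow_mul, hgxp, one_pow]
  have hcop : Nat.Coprime p s := (Nat.Prime.coprime_iff_not_dvd hp).mpr hps
  have hgy : y ^ m = 1 := by
    have h1 : orderOf (y ^ m) ∣ p := orderOf_dvd_of_pow_eq_one hgyp
    have h2 : orderOf (y ^ m) ∣ s := orderOf_dvd_of_pow_eq_one hgys
    have h3 : orderOf (y ^ m) ∣ 1 := by
      rw [← Nat.Coprime.gcd_eq_one hcop]
      exact Nat.dvd_gcd h1 h2
    exact orderOf_eq_one_iff.mp (Nat.dvd_one.mp h3)
  exact exists_pow_eq_of_pow_div_eq_one ⟨m, hm⟩ (by rw [hdiv]; exact hgy)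

/-! ### Number fields -/

/-- Only finitely many primes contain a given nonzero element. -/
theorem finite_primes_of_mem {F : Type*} [Field F] [NumberField F] {a : 𝓞 F} (ha : a ≠ 0) :
    {Q : Ideal (𝓞 F) | Q.IsPrime ∧ a ∈ Q}.Finite := by
  classical
  have h0 : Ideal.span {a} ≠ (⊥ : Ideal (𝓞 F)) := by
    rw [Ne, Ideal.span_singleton_eq_bot]
    exact ha
  refine (normalizedFactors (Ideal.span {a})).toFinset.finite_toSet.subset ?_
  rintro Q ⟨hQ, haQ⟩
  rw [Finset.mem_coe, Multiset.mem_toFinset, Ideal.mem_normalizedFactors_iff h0]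
  exact ⟨hQ, (Ideal.span_singleton_le_iff_mem Q).mpr haQ⟩

/-- The nonzero primes of `𝓞 F` lying over a member of a finite set of ideals of `𝓞 K` are
finite in number. -/
theorem finite_primes_under_mem (K F : Type*) [Field K] [NumberField K] [Field F] [NumberField F]
    [Algebra K F] (T : Set (Ideal (𝓞 K))) (hT : T.Finite) :
    {Q' : Ideal (𝓞 F) | Q'.IsPrime ∧ Q' ≠ ⊥ ∧ Q'.under (𝓞 K) ∈ T}.Finite := by
  classical
  have hsub : {Q' : Ideal (𝓞 F) | Q'.IsPrime ∧ Q' ≠ ⊥ ∧ Q'.under (𝓞 K) ∈ T} ⊆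
      ⋃ q ∈ T, {Q' : Ideal (𝓞 F) | Q'.IsPrime ∧ Q' ≠ ⊥ ∧ Q'.under (𝓞 K) = q} := by
    rintro Q' ⟨h1, h2, h3⟩
    exact Set.mem_biUnion h3 ⟨h1, h2, rfl⟩
  refine (Set.Finite.biUnion hT ?_).subset hsub
  intro q _
  by_cases hq : q.IsPrime ∧ q ≠ ⊥
  · obtain ⟨hqp, hq0⟩ := hq
    have hmax : q.IsMaximal := hqp.isMaximal hq0
    refine (IsDedekindDomain.primesOverFinset q (𝓞 F)).finite_toSet.subset ?_
    rintro Q' ⟨h1, -, h3⟩
    rw [Finset.mem_coe, IsDedekindDomain.mem_primesOverFinset_iff hq0]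
    exact ⟨h1, ⟨h3.symm⟩⟩
  · convert Set.finite_empty
    ext Q'
    simp only [Set.mem_ofPred_eq, Set.mem_empty_iff_false, iff_false]
    rintro ⟨h1, h2, h3⟩
    apply hq
    rw [← h3]
    exact ⟨Ideal.IsPrime.under (𝓞 K) Q', Ideal.IsIntegral.comap_ne_bot (𝓞 K) h2⟩

/-- `NoTotalSplitOutside` with the exceptional set downstairs and the ramified primes removed:
in an extension `L / K` of degree `≥ 2`, for every finite set `S` of ideals of `𝓞 K` there is a
nonzero prime `Q` of `𝓞 L` with `Q ∩ 𝓞 K ∉ S`, unramified over `K`, of residue degree `> 1`. -/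
theorem exists_prime_unramified_inertia_under_not_mem (K L : Type*) [Field K] [NumberField K]
    [Field L] [NumberField L] [Algebra K L] (h : 2 ≤ Module.finrank K L)
    (S : Set (Ideal (𝓞 K))) (hS : S.Finite) :
    ∃ Q : Ideal (𝓞 L), Q.IsPrime ∧ Q ≠ ⊥ ∧ Q.under (𝓞 K) ∉ S ∧
      ¬ (Q.under (𝓞 K)).map (algebraMap (𝓞 K) (𝓞 L)) ≤ Q ^ 2 ∧
      absNorm Q ≠ absNorm (Q.under (𝓞 K)) := by
  obtain ⟨Q, hQ, hQ0, hQS, hor⟩ :=
    NoTotalSplitOutside.exists_prime_not_split_under_not_mem K L h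
      (S ∪ (fun Q : Ideal (𝓞 L) => Q.under (𝓞 K)) '' {Q : Ideal (𝓞 L) | Q.IsPrime ∧ Q ≠ ⊥ ∧
        (Q.under (𝓞 K)).map (algebraMap (𝓞 K) (𝓞 L)) ≤ Q ^ 2})
      (hS.union ((NoTotalSplitOutside.finite_ramified K L).image _))
  have hnr : ¬ (Q.under (𝓞 K)).map (algebraMap (𝓞 K) (𝓞 L)) ≤ Q ^ 2 :=
    fun hr => hQS (Or.inr ⟨Q, ⟨hQ, hQ0, hr⟩, rfl⟩)
  exact ⟨Q, hQ, hQ0, fun hm => hQS (Or.inl hm), hnr, hor.resolve_right hnr⟩

set_option linter.deprecated false in
/-- **Non-residues exist outside any finite set.**  `K ∋ ζ_p`, `x ∈ 𝓞 K` not a `p`-th power in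
`K`, `T` a finite set of ideals: there is a nonzero prime `Q ∉ T` of `𝓞 K` with `p ∉ Q`, `x ∉ Q`
such that `x` is not a `p`-th power modulo `Q`. -/
theorem exists_prime_not_pow_residue (p : ℕ) [hp : Fact p.Prime] {K : Type*} [Field K]
    [NumberField K] {ζ : 𝓞 K} (hζ : IsPrimitiveRoot ζ p) {x : 𝓞 K}
    (hx : ∀ y : K, y ^ p ≠ (x : K)) (T : Set (Ideal (𝓞 K))) (hT : T.Finite) :
    ∃ Q : Ideal (𝓞 K), Q.IsPrime ∧ Q ≠ ⊥ ∧ Q ∉ T ∧ (p : 𝓞 K) ∉ Q ∧ x ∉ Q ∧
      ¬ ∃ c : 𝓞 K, x - c ^ p ∈ Q := by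
  classical
  have hx0 : x ≠ 0 := by
    rintro rfl
    exact hx 0 (by simp [hp.out.ne_zero])
  have hp0 : (p : 𝓞 K) ≠ 0 := by exact_mod_cast hp.out.ne_zero
  have hdeg : Module.finrank K (KummerSplit.KummerField p x) = p :=
    KummerSplit.finrank_kummerField p hζ hx
  obtain ⟨α, hα⟩ := KummerSplit.exists_root_kummerField p x
  obtain ⟨Q', hQ', hQ'0, hQS, -, hN⟩ :=
    exists_prime_unramified_inertia_under_not_mem K (KummerSplit.KummerField p x)
      (by rw [hdeg]; exact hp.out.two_le)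
      (T ∪ {Q | Q.IsPrime ∧ (p : 𝓞 K) ∈ Q} ∪ {Q | Q.IsPrime ∧ x ∈ Q})
      ((hT.union (finite_primes_of_mem hp0)).union (finite_primes_of_mem hx0))
  have hQprime : (Q'.under (𝓞 K)).IsPrime := Ideal.IsPrime.under (𝓞 K) Q'
  have hQ0 : Q'.under (𝓞 K) ≠ ⊥ := Ideal.IsIntegral.comap_ne_bot (𝓞 K) hQ'0
  have hpQ : (p : 𝓞 K) ∉ Q'.under (𝓞 K) := fun h => hQS (Or.inl (Or.inr ⟨hQprime, h⟩))
  have hxQ : x ∉ Q'.under (𝓞 K) := fun h => hQS (Or.inr ⟨hQprime, h⟩)
  refine ⟨Q'.under (𝓞 K), hQprime, hQ0, fun h => hQS (Or.inl (Or.inl h)), hpQ, hxQ, ?_⟩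
  rintro ⟨c, hc⟩
  obtain ⟨s, hs, hsP⟩ :=
    KummerSplit.exists_primes_over hdeg hζ hx hα (Q'.under (𝓞 K)) hQ0 hpQ hxQ hc
  have hmax : (Q'.under (𝓞 K)).IsMaximal := hQprime.isMaximal hQ0
  have hsub : s ⊆ IsDedekindDomain.primesOverFinset (Q'.under (𝓞 K))
      (𝓞 (KummerSplit.KummerField p x)) := by
    intro P hP
    obtain ⟨h1, h2, -⟩ := hsP P hP
    rw [IsDedekindDomain.mem_primesOverFinset_iff hQ0]
    exact ⟨h1, ⟨h2.symm⟩⟩
  have hle : (IsDedekindDomain.primesOverFinset (Q'.under (𝓞 K))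
      (𝓞 (KummerSplit.KummerField p x))).card ≤ s.card := by
    have hsum := Ideal.sum_ramification_inertia (𝓞 (KummerSplit.KummerField p x)) K
      (KummerSplit.KummerField p x) hQ0 (p := Q'.under (𝓞 K))
    have h1 : (IsDedekindDomain.primesOverFinset (Q'.under (𝓞 K))
        (𝓞 (KummerSplit.KummerField p x))).card ≤
        ∑ P ∈ IsDedekindDomain.primesOverFinset (Q'.under (𝓞 K))
          (𝓞 (KummerSplit.KummerField p x)),
          (Q'.under (𝓞 K)).ramificationIdx' P * (Q'.under (𝓞 K)).inertiaDeg' P := by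
      rw [Finset.card_eq_sum_ones]
      refine Finset.sum_le_sum fun P hP => ?_
      obtain ⟨hPprime, hPover⟩ := (IsDedekindDomain.mem_primesOverFinset_iff hQ0 _).mp hP
      have h2 : (Q'.under (𝓞 K)).ramificationIdx' P ≠ 0 :=
        IsDedekindDomain.ramificationIdx'_ne_zero_of_liesOver P hQ0
      have h3 : (Q'.under (𝓞 K)).inertiaDeg' P ≠ 0 := Ideal.inertiaDeg'_ne_zero _ P
      exact Right.one_le_mul (Nat.pos_of_ne_zero h2) (Nat.pos_of_ne_zero h3)
    rw [hsum, hdeg] at h1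
    rw [hs]
    exact h1
  have heq := Finset.eq_of_subset_of_card_le hsub hle
  have hQ'mem : Q' ∈ s := by
    rw [heq, IsDedekindDomain.mem_primesOverFinset_iff hQ0]
    exact ⟨hQ', ⟨rfl⟩⟩
  exact hN (hsP Q' hQ'mem).2.2

/-- **Tower / hyperplane form.**  `K ∋ ζ_p`, `F / K` a finite extension of number fields,
`x ∈ 𝓞 K` not a `p`-th power in `F`, `T` a finite set of ideals of `𝓞 K`: there is a nonzero prime
`Q ∉ T` of `𝓞 K` with `p ∉ Q`, `x ∉ Q` such that `x` is not a `p`-th power modulo `Q`, while every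
`y ∈ 𝓞 K` that is a `p`-th power in `F` is a `p`-th power modulo `Q`. -/
theorem exists_prime_not_pow_residue_tower (p : ℕ) [hp : Fact p.Prime] {K F : Type*} [Field K]
    [NumberField K] [Field F] [NumberField F] [Algebra K F] {ζ : 𝓞 K} (hζ : IsPrimitiveRoot ζ p)
    {x : 𝓞 K} (hx : ∀ y : F, y ^ p ≠ algebraMap K F (x : K)) (T : Set (Ideal (𝓞 K)))
    (hT : T.Finite) :
    ∃ Q : Ideal (𝓞 K), Q.IsPrime ∧ Q ≠ ⊥ ∧ Q ∉ T ∧ (p : 𝓞 K) ∉ Q ∧ x ∉ Q ∧
      (¬ ∃ c : 𝓞 K, x - c ^ p ∈ Q) ∧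
      ∀ y : 𝓞 K, (∃ z : F, z ^ p = algebraMap K F (y : K)) → ∃ c : 𝓞 K, y - c ^ p ∈ Q := by
  classical
  have hinj : Function.Injective (algebraMap (𝓞 K) (𝓞 F)) :=
    FaithfulSMul.algebraMap_injective (𝓞 K) (𝓞 F)
  have hζ' : IsPrimitiveRoot (algebraMap (𝓞 K) (𝓞 F) ζ) p := hζ.map_of_injective hinj
  obtain ⟨Q', hQ', hQ'0, hQ'T, hpQ', hxQ', hres'⟩ :=
    exists_prime_not_pow_residue p hζ' (x := algebraMap (𝓞 K) (𝓞 F) x) hx
      {Q' : Ideal (𝓞 F) | Q'.IsPrime ∧ Q' ≠ ⊥ ∧ Q'.under (𝓞 K) ∈ T}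
      (finite_primes_under_mem K F T hT)
  have hQprime : (Q'.under (𝓞 K)).IsPrime := Ideal.IsPrime.under (𝓞 K) Q'
  have hQ0 : Q'.under (𝓞 K) ≠ ⊥ := Ideal.IsIntegral.comap_ne_bot (𝓞 K) hQ'0
  have hmemiff : ∀ a : 𝓞 K, a ∈ Q'.under (𝓞 K) ↔ algebraMap (𝓞 K) (𝓞 F) a ∈ Q' :=
    fun a => Iff.rfl
  have hpQ : (p : 𝓞 K) ∉ Q'.under (𝓞 K) := by
    intro h
    apply hpQ'
    have := (hmemiff _).mp h
    rwa [map_natCast] at this
  have hxQ : x ∉ Q'.under (𝓞 K) := fun h => hxQ' ((hmemiff _).mp h)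
  have hres : ¬ ∃ c : 𝓞 K, x - c ^ p ∈ Q'.under (𝓞 K) := by
    rintro ⟨c, hc⟩
    apply hres'
    refine ⟨algebraMap (𝓞 K) (𝓞 F) c, ?_⟩
    have := (hmemiff _).mp hc
    rwa [map_sub, map_pow] at this
  refine ⟨Q'.under (𝓞 K), hQprime, hQ0, fun h => hQ'T ⟨hQ', hQ'0, h⟩, hpQ, hxQ, hres, ?_⟩
  rintro y ⟨z, hz⟩
  -- the residue fields
  have hmax : (Q'.under (𝓞 K)).IsMaximal := hQprime.isMaximal hQ0
  have hmax' : Q'.IsMaximal := hQ'.isMaximal hQ'0
  let _ : Field (𝓞 K ⧸ Q'.under (𝓞 K)) := Ideal.Quotient.field _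
  let _ : Field (𝓞 F ⧸ Q') := Ideal.Quotient.field _
  have : Finite (𝓞 K ⧸ Q'.under (𝓞 K)) := Ideal.finiteQuotientOfFreeOfNeBot _ hQ0
  have : Finite (𝓞 F ⧸ Q') := Ideal.finiteQuotientOfFreeOfNeBot _ hQ'0
  let _ : Fintype (𝓞 K ⧸ Q'.under (𝓞 K)) := Fintype.ofFinite _
  let _ : Fintype (𝓞 F ⧸ Q') := Fintype.ofFinite _
  let φ : (𝓞 K ⧸ Q'.under (𝓞 K)) →+* (𝓞 F ⧸ Q') :=
    Ideal.quotientMap Q' (algebraMap (𝓞 K) (𝓞 F)) le_rfl
  -- the root of unity
  have hζp : (Ideal.Quotient.mk (Q'.under (𝓞 K)) ζ) ^ p = 1 := by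
    rw [← map_pow, hζ.pow_eq_one, map_one]
  have hζ1 : Ideal.Quotient.mk (Q'.under (𝓞 K)) ζ ≠ 1 := by
    intro h
    have h1 : ζ ^ 1 - ζ ^ 0 ∉ Q'.under (𝓞 K) :=
      KummerSplit.zeta_pow_sub_not_mem hζ (Q'.under (𝓞 K)) hpQ Nat.zero_lt_one hp.out.one_lt
    apply h1
    rw [pow_one, pow_zero, ← Ideal.Quotient.eq_zero_iff_mem, map_sub, map_one, h, sub_self]
  have hx0 : Ideal.Quotient.mk (Q'.under (𝓞 K)) x ≠ 0 := by
    rw [Ne, Ideal.Quotient.eq_zero_iff_mem]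
    exact hxQ
  have hxnot : ∀ w : 𝓞 F ⧸ Q', w ^ p ≠ φ (Ideal.Quotient.mk (Q'.under (𝓞 K)) x) := by
    intro w hw
    obtain ⟨c', rfl⟩ := Ideal.Quotient.mk_surjective w
    apply hres'
    refine ⟨c', ?_⟩
    rw [← Ideal.Quotient.eq_zero_iff_mem, map_sub, map_pow, hw]
    simp only [φ, Ideal.quotientMap_mk, sub_self]
  -- `z` is integral
  have hzint : IsIntegral ℤ z := by
    refine IsIntegral.of_pow hp.out.pos ?_
    rw [hz]
    exact (RingOfIntegers.isIntegral_coe y).algebraMap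
  obtain ⟨z₀, hz₀⟩ : ∃ z₀ : 𝓞 F, (z₀ : F) = z := ⟨⟨z, hzint⟩, rfl⟩
  have hz' : z₀ ^ p = algebraMap (𝓞 K) (𝓞 F) y := by
    apply RingOfIntegers.ext
    show (z₀ : F) ^ p = algebraMap K F (y : K)
    rw [hz₀]
    exact hz
  have hyex : ∃ w : 𝓞 F ⧸ Q', w ^ p = φ (Ideal.Quotient.mk (Q'.under (𝓞 K)) y) := by
    refine ⟨Ideal.Quotient.mk Q' z₀, ?_⟩
    rw [← map_pow, hz']
    simp only [φ, Ideal.quotientMap_mk]
  obtain ⟨cbar, hcbar⟩ := exists_pow_eq_of_exists_pow_eq_map φ hp.out hζp hζ1 hx0 hxnot hyex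
  obtain ⟨c, rfl⟩ := Ideal.Quotient.mk_surjective cbar
  refine ⟨c, ?_⟩
  rw [← Ideal.Quotient.eq_zero_iff_mem, map_sub, map_pow, hcbar, sub_self]

/-! ### Kummer theory: prescribing the residue pattern of finitely many elements -/

section Kummer

open Polynomial

/-- One-generator Kummer theory: if `K ∋ ζ_p`, `a ∈ K` is not a `p`-th power and `x ∈ K` becomes
a `p`-th power in `K(a^(1/p))`, then `x ∈ ⟨a⟩ · K^p`. -/
theorem exists_eq_pow_mul_pow_of_isSplittingField {K : Type*} [Field K] {p : ℕ} (hp : p.Prime)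
    {ζ : K} (hζ : IsPrimitiveRoot ζ p) {a : K} (ha : ∀ y : K, y ^ p ≠ a) (L : Type*) [Field L]
    [Algebra K L] [IsSplittingField K L (X ^ p - C a)] {x : K}
    (hx : ∃ w : L, w ^ p = algebraMap K L x) : ∃ (j : ℕ) (u : K), x = a ^ j * u ^ p := by
  have : NeZero p := ⟨hp.ne_zero⟩
  obtain ⟨w, hw⟩ := hx
  by_cases hx0 : x = 0
  · exact ⟨1, 0, by rw [hx0, zero_pow hp.ne_zero, mul_zero]⟩
  have H : Irreducible (X ^ p - C a) := X_pow_sub_C_irreducible_of_prime hp ha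
  have hζ' : (primitiveRoots p K).Nonempty := ⟨ζ, (mem_primitiveRoots hp.pos).mpr hζ⟩
  have : IsGalois K L := isGalois_of_isSplittingField_X_pow_sub_C hζ' H L
  have : FiniteDimensional K L := IsSplittingField.finiteDimensional L (X ^ p - C a)
  have hinj : Function.Injective (algebraMap K L) := (algebraMap K L).injective
  have ha0 : a ≠ 0 := fun h => ha 0 (by rw [h, zero_pow hp.ne_zero])
  have hα : (rootOfSplitsXPowSubC hp.pos a L) ^ p = algebraMap K L a :=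
    rootOfSplitsXPowSubC_pow a L
  generalize rootOfSplitsXPowSubC hp.pos a L = α at hα
  have hα0 : α ≠ 0 := by
    intro h
    rw [h, zero_pow hp.ne_zero] at hα
    exact ha0 (hinj (by rw [← hα, map_zero]))
  have hw0 : w ≠ 0 := by
    intro h
    rw [h, zero_pow hp.ne_zero] at hw
    exact hx0 (hinj (by rw [← hw, map_zero]))
  have hζL : IsPrimitiveRoot (algebraMap K L ζ) p := hζ.map_of_injective hinj
  have hζL0 : algebraMap K L ζ ≠ 0 := hζL.ne_zero hp.ne_zero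
  let e := autEquivZmod H L hζ
  let σ : L ≃ₐ[K] L := e.symm (Multiplicative.ofAdd (1 : ZMod p))
  have hσα : σ α = algebraMap K L ζ * α := by
    have h1 := autEquivZmod_symm_apply_natCast H L hα hζ 1
    rw [Nat.cast_one, pow_one, Algebra.smul_def] at h1
    exact h1
  have h1 : (σ w / w) ^ p = 1 := by
    rw [div_pow, ← map_pow, hw, AlgEquiv.commutes, ← hw, div_self (pow_ne_zero p hw0)]
  obtain ⟨j, -, hj⟩ := hζL.eq_pow_of_pow_eq_one h1
  have hσw : σ w = algebraMap K L ζ ^ j * w := by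
    rw [hj, div_mul_cancel₀ _ hw0]
  have hσv : σ (w / α ^ j) = w / α ^ j := by
    rw [map_div₀, map_pow, hσw, hσα, mul_pow]
    field_simp
  have hfix : ∀ τ : L ≃ₐ[K] L, τ (w / α ^ j) = w / α ^ j := by
    intro τ
    have hτ : τ = σ ^ (Multiplicative.toAdd (e τ)).val := by
      apply e.injective
      rw [map_pow, MulEquiv.apply_symm_apply, ← ofAdd_nsmul, nsmul_one, ZMod.natCast_zmod_val,
        ofAdd_toAdd]
    rw [hτ]
    generalize (Multiplicative.toAdd (e τ)).val = m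
    induction m with
    | zero => simp
    | succ m ih => rw [pow_succ, AlgEquiv.mul_apply, hσv, ih]
  obtain ⟨u, hu⟩ := (IsGalois.mem_range_algebraMap_iff_fixed (w / α ^ j)).mpr hfix
  refine ⟨j, u, hinj ?_⟩
  rw [map_mul, map_pow, map_pow, hu, ← hα, div_pow, ← hw]
  field_simp
  ring

universe u

/-- Field-theoretic core: if `x ∉ ⟨h₁, …, hₙ⟩ · K^p` (with `K ∋ ζ_p`), there is a number field
`F ⊇ K` in which every `hᵢ` is a `p`-th power but `x` is not. -/
theorem exists_field_pow_not_pow (p : ℕ) [hp : Fact p.Prime] :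
    ∀ (n : ℕ) (K : Type u) [Field K] [NumberField K] (ζ : K) (_ : IsPrimitiveRoot ζ p)
      (h : Fin n → K) (x : K)
      (_ : ∀ (e : Fin n → ℕ) (v : K), x * ∏ i, h i ^ e i ≠ v ^ p),
      ∃ (F : Type u) (_ : Field F) (_ : NumberField F) (ι : K →+* F),
        (∀ w : F, w ^ p ≠ ι x) ∧ ∀ i, ∃ w : F, w ^ p = ι (h i) := by
  intro n
  induction n with
  | zero =>
    intro K _ _ ζ hζ h x hx
    refine ⟨K, inferInstance, inferInstance, RingHom.id K, ?_, fun i => i.elim0⟩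
    intro w hw
    apply hx (fun i => i.elim0) w
    simp [hw]
  | succ n ih =>
    intro K _ _ ζ hζ h x hx
    by_cases h0 : ∃ y : K, y ^ p = h 0
    · obtain ⟨y, hy⟩ := h0
      obtain ⟨F, _, _, ι, hF1, hF2⟩ := ih K ζ hζ (fun i => h i.succ) x (by
        intro e v hv
        apply hx (Fin.cons 0 e) v
        rw [Fin.prod_univ_succ]
        simp only [Fin.cons_zero, pow_zero, one_mul, Fin.cons_succ]
        exact hv)
      refine ⟨F, inferInstance, inferInstance, ι, hF1, ?_⟩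
      intro i
      refine Fin.cases ?_ (fun j => ?_) i
      · exact ⟨ι y, by rw [← map_pow, hy]⟩
      · exact hF2 j
    · have h0' : ∀ y : K, y ^ p ≠ h 0 := fun y hy => h0 ⟨y, hy⟩
      have hK₁ : NumberField (X ^ p - C (h 0)).SplittingField :=
        NumberField.of_module_finite K _
      have hinj : Function.Injective (algebraMap K (X ^ p - C (h 0)).SplittingField) :=
        (algebraMap K _).injective
      obtain ⟨F, _, _, ι, hF1, hF2⟩ := ih (X ^ p - C (h 0)).SplittingField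
        (algebraMap K _ ζ) (hζ.map_of_injective hinj)
        (fun i => algebraMap K _ (h i.succ)) (algebraMap K _ x) (by
        intro e v hv
        have hv' : ∃ w : (X ^ p - C (h 0)).SplittingField,
            w ^ p = algebraMap K _ (x * ∏ i, h i.succ ^ e i) := by
          refine ⟨v, ?_⟩
          rw [← hv, map_mul, map_prod]
          simp only [map_pow]
        obtain ⟨j, u, hju⟩ := exists_eq_pow_mul_pow_of_isSplittingField hp.out hζ h0'
          (X ^ p - C (h 0)).SplittingField hv'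
        apply hx (Fin.cons (j * (p - 1)) e) (h 0 ^ j * u)
        rw [Fin.prod_univ_succ]
        simp only [Fin.cons_zero, Fin.cons_succ]
        have hp1 : p - 1 + 1 = p := Nat.sub_add_cancel hp.out.pos
        calc x * (h 0 ^ (j * (p - 1)) * ∏ i : Fin n, h i.succ ^ e i)
            = h 0 ^ (j * (p - 1)) * (x * ∏ i : Fin n, h i.succ ^ e i) := by ring
          _ = h 0 ^ (j * (p - 1)) * (h 0 ^ j * u ^ p) := by rw [hju]
          _ = (h 0 ^ j) ^ (p - 1 + 1) * u ^ p := by ring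
          _ = (h 0 ^ j * u) ^ p := by rw [hp1, mul_pow])
      refine ⟨F, inferInstance, inferInstance, ι.comp (algebraMap K _), hF1, ?_⟩
      intro i
      refine Fin.cases ?_ (fun j => ?_) i
      · have : NeZero p := ⟨hp.out.ne_zero⟩
        refine ⟨ι (rootOfSplitsXPowSubC hp.out.pos (h 0) (X ^ p - C (h 0)).SplittingField), ?_⟩
        rw [← map_pow, rootOfSplitsXPowSubC_pow]
        rfl
      · exact hF2 j

end Kummer

/-- **Prescribed residue pattern.**  `K ∋ ζ_p`; `h₁, …, hₙ, x ∈ 𝓞 K` with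
`x ∉ ⟨h₁, …, hₙ⟩ · K^p`.  Outside any finite set there is a prime `Q` of `𝓞 K` prime to `p`, `x`
and all `hᵢ`, such that every `hᵢ` is a `p`-th power modulo `Q` but `x` is not. -/
theorem exists_prime_pow_residue_pattern (p : ℕ) [hp : Fact p.Prime] {K : Type*} [Field K]
    [NumberField K] {ζ : 𝓞 K} (hζ : IsPrimitiveRoot ζ p) {n : ℕ} (h : Fin n → 𝓞 K) (x : 𝓞 K)
    (hx : ∀ (e : Fin n → ℕ) (v : K), (x : K) * ∏ i, (h i : K) ^ e i ≠ v ^ p)
    (T : Set (Ideal (𝓞 K))) (hT : T.Finite) :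
    ∃ Q : Ideal (𝓞 K), Q.IsPrime ∧ Q ≠ ⊥ ∧ Q ∉ T ∧ (p : 𝓞 K) ∉ Q ∧ x ∉ Q ∧
      (¬ ∃ c : 𝓞 K, x - c ^ p ∈ Q) ∧ ∀ i, h i ∉ Q ∧ ∃ c : 𝓞 K, h i - c ^ p ∈ Q := by
  classical
  have hζK : IsPrimitiveRoot (ζ : K) p :=
    hζ.map_of_injective (FaithfulSMul.algebraMap_injective (𝓞 K) K)
  obtain ⟨F, _, _, ι, hF1, hF2⟩ := exists_field_pow_not_pow p n K (ζ : K) hζK
    (fun i => (h i : K)) (x : K) hx
  let _ : Algebra K F := ι.toAlgebra
  have hh0 : ∀ i, h i ≠ 0 := by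
    intro i hi
    apply hx (fun j => if j = i then 1 else 0) 0
    rw [zero_pow hp.out.ne_zero]
    apply mul_eq_zero_of_right
    apply Finset.prod_eq_zero (Finset.mem_univ i)
    simp [hi]
  obtain ⟨Q, hQ, hQ0, hQT, hpQ, hxQ, hres, hall⟩ :=
    exists_prime_not_pow_residue_tower p (F := F) hζ (x := x) hF1
      (T ∪ ⋃ i, {Q : Ideal (𝓞 K) | Q.IsPrime ∧ h i ∈ Q})
      (hT.union (Set.finite_iUnion fun i => finite_primes_of_mem (hh0 i)))
  refine ⟨Q, hQ, hQ0, fun hm => hQT (Or.inl hm), hpQ, hxQ, hres, fun i => ⟨?_, ?_⟩⟩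
  · intro hi
    exact hQT (Or.inr (Set.mem_iUnion.mpr ⟨i, hQ, hi⟩))
  · exact hall (h i) (hF2 i)

/-! ### Field elements (`S`-units etc.): representative-independent form -/

/-- Every element of `K` becomes integral after multiplication by the `p`-th power of a nonzero
integer. -/
theorem exists_integral_mul_pow {K : Type*} [Field K] [NumberField K] {p : ℕ} (hp : 0 < p)
    (a : K) : ∃ b d : 𝓞 K, d ≠ 0 ∧ (b : K) = a * (d : K) ^ p := by
  obtain ⟨n, m, hm, rfl⟩ := IsFractionRing.div_surjective (A := 𝓞 K) a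
  have hm0 : m ≠ 0 := nonZeroDivisors.ne_zero hm
  have hm0' : (algebraMap (𝓞 K) K m) ≠ 0 := by
    rw [Ne, map_eq_zero_iff _ (FaithfulSMul.algebraMap_injective (𝓞 K) K)]
    exact hm0
  refine ⟨n * m ^ (p - 1), m, hm0, ?_⟩
  have hp1 : p = p - 1 + 1 := (Nat.sub_add_cancel hp).symm
  show algebraMap (𝓞 K) K (n * m ^ (p - 1)) = _ * (algebraMap (𝓞 K) K m) ^ p
  rw [map_mul, map_pow]
  conv_rhs => rw [hp1, pow_succ]
  field_simp

/-- Transfer of `p`-th power residues between two integral representatives of the same class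
modulo `p`-th powers. -/
theorem residue_transfer {K : Type*} [Field K] [NumberField K] {p : ℕ} {Q : Ideal (𝓞 K)}
    (hQ : Q.IsPrime) (hQ0 : Q ≠ ⊥) {b₁ b₂ d₁ d₂ : 𝓞 K} (hrel : b₁ * d₂ ^ p = b₂ * d₁ ^ p)
    (hd₁ : d₁ ∉ Q) (h : ∃ c : 𝓞 K, b₁ - c ^ p ∈ Q) : ∃ c : 𝓞 K, b₂ - c ^ p ∈ Q := by
  have hmax : Q.IsMaximal := hQ.isMaximal hQ0
  let _ : Field (𝓞 K ⧸ Q) := Ideal.Quotient.field Q
  obtain ⟨c, hc⟩ := h
  have hc' : Ideal.Quotient.mk Q b₁ = (Ideal.Quotient.mk Q c) ^ p := by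
    rw [← map_pow, ← sub_eq_zero, ← map_sub]
    exact Ideal.Quotient.eq_zero_iff_mem.mpr hc
  have hd : Ideal.Quotient.mk Q d₁ ≠ 0 := by
    rw [Ne, Ideal.Quotient.eq_zero_iff_mem]
    exact hd₁
  have hrel' := congrArg (Ideal.Quotient.mk Q) hrel
  rw [map_mul, map_mul, map_pow, map_pow, hc'] at hrel'
  obtain ⟨c₂, hc₂⟩ := Ideal.Quotient.mk_surjective
    (Ideal.Quotient.mk Q c * Ideal.Quotient.mk Q d₂ / Ideal.Quotient.mk Q d₁)
  refine ⟨c₂, ?_⟩
  rw [← Ideal.Quotient.eq_zero_iff_mem, map_sub, map_pow, hc₂, sub_eq_zero, div_pow, mul_pow,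
    eq_div_iff (pow_ne_zero p hd)]
  exact hrel'.symm

/-- **Prescribed residue pattern, field elements.**  `K ∋ ζ_p`; `h₁, …, hₙ, x ∈ K` with
`x ∉ ⟨h₁, …, hₙ⟩ · K^p`.  Outside any finite set there is a prime `Q` of `𝓞 K`, `p ∉ Q`, such that
for EVERY integral representative `b = a · d ^ p` (`b, d ∈ 𝓞 K`, `d ∉ Q`) of `a = x` resp.
`a = hᵢ`: `b ∉ Q`, and `b` is not a `p`-th power modulo `Q` for `a = x`, while `b` is a `p`-th
power modulo `Q` for `a = hᵢ`. -/
theorem exists_prime_pow_residue_pattern_field (p : ℕ) [hp : Fact p.Prime] {K : Type*} [Field K]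
    [NumberField K] {ζ : 𝓞 K} (hζ : IsPrimitiveRoot ζ p) {n : ℕ} (h : Fin n → K) (x : K)
    (hx : ∀ (e : Fin n → ℕ) (v : K), x * ∏ i, h i ^ e i ≠ v ^ p)
    (T : Set (Ideal (𝓞 K))) (hT : T.Finite) :
    ∃ Q : Ideal (𝓞 K), Q.IsPrime ∧ Q ≠ ⊥ ∧ Q ∉ T ∧ (p : 𝓞 K) ∉ Q ∧
      (∀ b d : 𝓞 K, (b : K) = x * (d : K) ^ p → d ∉ Q →
        b ∉ Q ∧ ¬ ∃ c : 𝓞 K, b - c ^ p ∈ Q) ∧
      ∀ i, ∀ b d : 𝓞 K, (b : K) = h i * (d : K) ^ p → d ∉ Q →
        b ∉ Q ∧ ∃ c : 𝓞 K, b - c ^ p ∈ Q := by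
  classical
  have hinj : Function.Injective (algebraMap (𝓞 K) K) :=
    FaithfulSMul.algebraMap_injective (𝓞 K) K
  obtain ⟨bx, dx, hdx, hbx⟩ := exists_integral_mul_pow hp.out.pos x
  choose bh dh hdh hbh using fun i => exists_integral_mul_pow hp.out.pos (h i)
  have hdxK : (dx : K) ≠ 0 := fun h0 => hdx (hinj (by rw [map_zero]; exact h0))
  have hdhK : ∀ i, (dh i : K) ≠ 0 := fun i h0 => hdh i (hinj (by rw [map_zero]; exact h0))
  have hx' : ∀ (e : Fin n → ℕ) (v : K), (bx : K) * ∏ i, (bh i : K) ^ e i ≠ v ^ p := by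
    intro e v hv
    apply hx e (v / ((dx : K) * ∏ i, (dh i : K) ^ e i))
    have hne : ((dx : K) * ∏ i, (dh i : K) ^ e i) ≠ 0 :=
      mul_ne_zero hdxK (Finset.prod_ne_zero_iff.mpr fun i _ => pow_ne_zero _ (hdhK i))
    rw [div_pow, eq_div_iff (pow_ne_zero p hne), ← hv, hbx, mul_pow, ← Finset.prod_pow]
    have : ∀ i, (bh i : K) ^ e i = h i ^ e i * ((dh i : K) ^ e i) ^ p := by
      intro i
      rw [hbh i, mul_pow, ← pow_mul, ← pow_mul, mul_comm p]
    simp only [this, Finset.prod_mul_distrib]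
    ring
  obtain ⟨Q, hQ, hQ0, hQT, hpQ, hbxQ, hres, hall⟩ :=
    exists_prime_pow_residue_pattern p hζ bh bx hx'
      (T ∪ {Q : Ideal (𝓞 K) | Q.IsPrime ∧ dx ∈ Q} ∪ ⋃ i, {Q : Ideal (𝓞 K) | Q.IsPrime ∧ dh i ∈ Q})
      ((hT.union (finite_primes_of_mem hdx)).union
        (Set.finite_iUnion fun i => finite_primes_of_mem (hdh i)))
  have hdxQ : dx ∉ Q := fun hm => hQT (Or.inl (Or.inr ⟨hQ, hm⟩))
  have hdhQ : ∀ i, dh i ∉ Q := fun i hm => hQT (Or.inr (Set.mem_iUnion.mpr ⟨i, hQ, hm⟩))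
  refine ⟨Q, hQ, hQ0, fun hm => hQT (Or.inl (Or.inl hm)), hpQ, ?_, ?_⟩
  · intro b d hb hd
    have hrel : b * dx ^ p = bx * d ^ p := by
      apply hinj
      show (b : K) * (dx : K) ^ p = (bx : K) * (d : K) ^ p
      rw [hb, hbx]
      ring
    constructor
    · intro hbQ
      have h1 : bx * d ^ p ∈ Q := by
        rw [← hrel]
        exact Ideal.mul_mem_right _ _ hbQ
      rcases hQ.mem_or_mem h1 with h2 | h2
      · exact hbxQ h2
      · exact hd (hQ.mem_of_pow_mem p h2)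
    · intro hc
      exact hres (residue_transfer hQ hQ0 hrel hd hc)
  · intro i b d hb hd
    have hrel : bh i * d ^ p = b * dh i ^ p := by
      apply hinj
      show (bh i : K) * (d : K) ^ p = (b : K) * (dh i : K) ^ p
      rw [hb, hbh i]
      ring
    constructor
    · intro hbQ
      have h1 : bh i * d ^ p ∈ Q := by
        rw [hrel]
        exact Ideal.mul_mem_right _ _ hbQ
      rcases hQ.mem_or_mem h1 with h2 | h2
      · exact (hall i).1 h2
      · exact hd (hQ.mem_of_pow_mem p h2)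
    · exact residue_transfer hQ hQ0 hrel (hdhQ i) (hall i).2

end Fermat.Agent.Lib.KummerNonResidue
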