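import Mathlib

set_option autoImplicit false

noncomputable section

namespace Fermat.Agent.Lib.KummerPairing

open IntermediateField Polynomial

variable (K L : Type*) [Field K] [Field L] [Algebra K L]

/-- The image of `Kˣ` in `Lˣ`. -/
def baseGroup : Subgroup Lˣ := (Units.map (algebraMap K L : K →* L)).range

/-- Units of `L` whose `p`-th power lies in (the image of) `K`. -/
def radGroup (p : ℕ) : Subgroup Lˣ := (baseGroup K L).comap (powMonoidHom p)

variable {K L}

theorem mem_baseGroup_iff {u : Lˣ} :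
    u ∈ baseGroup K L ↔ ∃ a : K, algebraMap K L a = (u : L) := by
  constructor
  · rintro ⟨a, rfl⟩
    exact ⟨a, rfl⟩
  · rintro ⟨a, ha⟩
    have ha0 : a ≠ 0 := by
      rintro rfl
      rw [map_zero] at ha
      exact u.ne_zero ha.symm
    exact ⟨Units.mk0 a ha0, Units.ext ha⟩

theorem mem_radGroup_iff {p : ℕ} {u : Lˣ} :
    u ∈ radGroup K L p ↔ ∃ a : K, algebraMap K L a = (u : L) ^ p := by
  rw [radGroup, Subgroup.mem_comap, mem_baseGroup_iff]
  simp

theorem baseGroup_le_radGroup (p : ℕ) : baseGroup K L ≤ radGroup K L p := fun u hu => by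
  rw [radGroup, Subgroup.mem_comap]
  exact pow_mem hu p

/-- The subfield of `L` generated over `K` by a subgroup of `Lˣ`. -/
def kummerField (K : Type*) {L : Type*} [Field K] [Field L] [Algebra K L] (B : Subgroup Lˣ) :
    IntermediateField K L :=
  adjoin K (Units.val '' (B : Set Lˣ))

theorem coe_mem_kummerField {B : Subgroup Lˣ} {u : Lˣ} (hu : u ∈ B) :
    (u : L) ∈ kummerField K B :=
  subset_adjoin K _ ⟨u, hu, rfl⟩

theorem kummerField_mono {B B' : Subgroup Lˣ} (h : B ≤ B') :
    kummerField K B ≤ kummerField K B' :=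
  adjoin.mono K _ _ (Set.image_mono h)

section Galois

variable {p : ℕ} [hp : Fact p.Prime] {ζ : K} (hζ : IsPrimitiveRoot ζ p)

theorem aeval_eq_zero_of_pow_eq {u : L} {a : K} (ha : algebraMap K L a = u ^ p) :
    aeval u (X ^ p - C a : K[X]) = 0 := by
  simp [ha]

theorem isIntegral_of_mem_radGroup {u : Lˣ} (hu : u ∈ radGroup K L p) :
    IsIntegral K (u : L) := by
  obtain ⟨a, ha⟩ := mem_radGroup_iff.mp hu
  exact ⟨X ^ p - C a, monic_X_pow_sub_C a hp.out.ne_zero, aeval_eq_zero_of_pow_eq ha⟩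

include hζ in
theorem splits_minpoly_of_mem {u : Lˣ} (hu : u ∈ radGroup K L p)
    (N : IntermediateField K L) (huN : (u : L) ∈ N) :
    ((minpoly K (u : L)).map (algebraMap K N)).Splits := by
  obtain ⟨a, ha⟩ := mem_radGroup_iff.mp hu
  have h1 : ((X ^ p - C a : K[X]).map (algebraMap K N)).Splits := by
    rw [Polynomial.map_sub, Polynomial.map_pow, Polynomial.map_X, Polynomial.map_C]
    refine X_pow_sub_C_splits_of_isPrimitiveRoot
      (hζ.map_of_injective (algebraMap K N).injective) (α := ⟨u, huN⟩) ?_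
    apply Subtype.ext
    simp [ha]
  refine h1.of_dvd ?_ (Polynomial.map_dvd _ (minpoly.dvd K _ (aeval_eq_zero_of_pow_eq ha)))
  exact (Polynomial.map_ne_zero_iff (algebraMap K N).injective).mpr
    (X_pow_sub_C_ne_zero hp.out.pos a)

include hζ in
theorem isSeparable_of_mem_radGroup {u : Lˣ} (hu : u ∈ radGroup K L p) :
    IsSeparable K (u : L) := by
  obtain ⟨a, ha⟩ := mem_radGroup_iff.mp hu
  have ha0 : a ≠ 0 := by
    rintro rfl
    rw [map_zero] at ha
    exact (pow_ne_zero p u.ne_zero) ha.symm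
  haveI : NeZero p := ⟨hp.out.ne_zero⟩
  have hsep : (X ^ p - C a : K[X]).Separable :=
    separable_X_pow_sub_C a hζ.neZero'.ne ha0
  exact hsep.of_dvd (minpoly.dvd K _ (aeval_eq_zero_of_pow_eq ha))

include hζ in
/-- (K1) The Kummer field is Galois over `K`. -/
theorem isGalois_kummerField (B : Subgroup Lˣ) (hB : B ≤ radGroup K L p) :
    IsGalois K (kummerField K B) := by
  have hint : ∀ x ∈ Units.val '' (B : Set Lˣ), IsIntegral K x := by
    rintro x ⟨u, hu, rfl⟩
    exact isIntegral_of_mem_radGroup (hB hu)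
  have halg : Algebra.IsAlgebraic K (kummerField K B) := isAlgebraic_adjoin hint
  rw [isGalois_iff]
  constructor
  · rw [kummerField, IntermediateField.isSeparable_adjoin_iff_isSeparable]
    rintro x ⟨u, hu, rfl⟩
    exact isSeparable_of_mem_radGroup hζ (hB hu)
  · rw [normal_iff]
    intro x
    refine ⟨(halg.isAlgebraic x).isIntegral, ?_⟩
    have h := splits_of_mem_adjoin (F := K) (K := L) (L := kummerField K B)
      (S := Units.val '' (B : Set Lˣ)) ?_ x.2
    · rwa [← IntermediateField.minpoly_eq] at h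
    · rintro y ⟨u, hu, rfl⟩
      exact ⟨isIntegral_of_mem_radGroup (hB hu),
        splits_minpoly_of_mem hζ (hB hu) _ (coe_mem_kummerField hu)⟩

/-- Finite index over the base group makes the Kummer field finite-dimensional. -/
theorem finiteDimensional_kummerField (B : Subgroup Lˣ) (hB : B ≤ radGroup K L p)
    [Finite (↥B ⧸ (baseGroup K L).subgroupOf B)] :
    FiniteDimensional K (kummerField K B) := by
  classical
  let T : Set L := Set.range
    (fun q : ↥B ⧸ (baseGroup K L).subgroupOf B => (((Quotient.out q : ↥B) : Lˣ) : L))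
  have hT : kummerField K B = adjoin K T := by
    apply le_antisymm
    · apply adjoin_le_iff.mpr
      rintro x ⟨u, hu, rfl⟩
      let q : ↥B ⧸ (baseGroup K L).subgroupOf B := QuotientGroup.mk ⟨u, hu⟩
      have hq : (QuotientGroup.mk (Quotient.out q) : ↥B ⧸ (baseGroup K L).subgroupOf B) = q :=
        Quotient.out_eq q
      have hmem : (Quotient.out q)⁻¹ * ⟨u, hu⟩ ∈ (baseGroup K L).subgroupOf B :=
        QuotientGroup.eq.mp hq
      obtain ⟨k, hk⟩ := mem_baseGroup_iff.mp (Subgroup.mem_subgroupOf.mp hmem)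
      have hu' : (u : L) = (((Quotient.out q : ↥B) : Lˣ) : L) * algebraMap K L k := by
        rw [hk]
        simp
      rw [SetLike.mem_coe, hu']
      exact mul_mem (subset_adjoin K T ⟨q, rfl⟩) (IntermediateField.algebraMap_mem _ k)
    · apply adjoin.mono
      rintro x ⟨q, rfl⟩
      exact ⟨_, (Quotient.out q).2, rfl⟩
  rw [hT]
  haveI : Finite T := Set.finite_range _
  refine finiteDimensional_adjoin (fun x hx => ?_)
  obtain ⟨q, rfl⟩ := hx
  exact isIntegral_of_mem_radGroup (hB (Quotient.out q).2)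

end Galois

section Pairing

variable {p : ℕ} [hp : Fact p.Prime] {ζ : K} (hζ : IsPrimitiveRoot ζ p)

/-- The inclusion of `B` into the units of its Kummer field. -/
def toN (K : Type*) {L : Type*} [Field K] [Field L] [Algebra K L] (B : Subgroup Lˣ) :
    ↥B →* (kummerField K B)ˣ where
  toFun b := ⟨⟨((b : Lˣ) : L), coe_mem_kummerField b.2⟩,
    ⟨(((b⁻¹ : ↥B) : Lˣ) : L), coe_mem_kummerField (b⁻¹).2⟩,
    by apply Subtype.ext; simp, by apply Subtype.ext; simp⟩
  map_one' := by apply Units.ext; apply Subtype.ext; simp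
  map_mul' := by intro a b; apply Units.ext; apply Subtype.ext; simp

@[simp] theorem coe_toN (B : Subgroup Lˣ) (b : ↥B) :
    (((toN K B b : (kummerField K B)ˣ) : kummerField K B) : L) = ((b : Lˣ) : L) := rfl

include hζ in
/-- An automorphism multiplies a `p`-th root of an element of `K` by a `p`-th root of unity. -/
theorem exists_root_of_aut' (N : IntermediateField K L) (σ : N ≃ₐ[K] N) (x : N) (hx0 : x ≠ 0)
    (a : K) (hxp : x ^ p = algebraMap K N a) :
    ∃ c : K, c ^ p = 1 ∧ σ x = algebraMap K N c * x := by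
  have hy : (σ x / x) ^ p = 1 := by
    rw [div_pow, ← map_pow, hxp, AlgEquiv.commutes, div_self]
    rw [← hxp]
    exact pow_ne_zero p hx0
  haveI : NeZero p := ⟨hp.out.ne_zero⟩
  obtain ⟨i, -, hi⟩ := (hζ.map_of_injective
    (algebraMap K N).injective).eq_pow_of_pow_eq_one hy
  refine ⟨ζ ^ i, ?_, ?_⟩
  · rw [← pow_mul, mul_comm, pow_mul, hζ.pow_eq_one, one_pow]
  · rw [map_pow, hi, div_mul_cancel₀ _ hx0]

include hζ in
/-- An automorphism multiplies each element of `B` by a `p`-th root of unity of `K`. -/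
theorem exists_root_of_aut (B : Subgroup Lˣ) (hB : B ≤ radGroup K L p)
    (σ : kummerField K B ≃ₐ[K] kummerField K B) (b : ↥B) :
    ∃ c : K, c ^ p = 1 ∧
      σ (toN K B b : kummerField K B) = algebraMap K (kummerField K B) c * (toN K B b) := by
  obtain ⟨a, ha⟩ := mem_radGroup_iff.mp (hB b.2)
  set x : kummerField K B := (toN K B b : kummerField K B) with hx
  have hx0 : x ≠ 0 := (toN K B b).ne_zero
  have hxp : x ^ p = algebraMap K (kummerField K B) a := by
    apply Subtype.ext
    simp [hx, ha]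
  have hy : (σ x / x) ^ p = 1 := by
    rw [div_pow, ← map_pow, hxp, AlgEquiv.commutes, div_self]
    rw [← hxp]
    exact pow_ne_zero p hx0
  haveI : NeZero p := ⟨hp.out.ne_zero⟩
  obtain ⟨i, -, hi⟩ := (hζ.map_of_injective
    (algebraMap K (kummerField K B)).injective).eq_pow_of_pow_eq_one hy
  refine ⟨ζ ^ i, ?_, ?_⟩
  · rw [← pow_mul, mul_comm, pow_mul, hζ.pow_eq_one, one_pow]
  · rw [map_pow, hi, div_mul_cancel₀ _ hx0]

end Pairing

section Count

variable {p : ℕ} [hp : Fact p.Prime] {ζ : K} (hζ : IsPrimitiveRoot ζ p)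
variable (B : Subgroup Lˣ) (hB : B ≤ radGroup K L p)

/-- The quotient of `B` by the elements coming from `K`. -/
abbrev RadQuot (K : Type*) {L : Type*} [Field K] [Field L] [Algebra K L] (B : Subgroup Lˣ) :
    Type _ :=
  ↥B ⧸ (baseGroup K L).subgroupOf B

/-- `b ↦ σ b / b` as a homomorphism on `B`. -/
def phi (σ : kummerField K B ≃ₐ[K] kummerField K B) : ↥B →* (kummerField K B)ˣ :=
  ((Units.map (σ : kummerField K B →* kummerField K B)).comp (toN K B)) / toN K B

theorem coe_phi_apply (σ : kummerField K B ≃ₐ[K] kummerField K B) (b : ↥B) :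
    ((phi B σ b : (kummerField K B)ˣ) : kummerField K B) =
      σ (toN K B b : kummerField K B) / (toN K B b : kummerField K B) := by
  simp [phi, Units.val_div_eq_div_val]

theorem phi_eq_one_of_mem_base (σ : kummerField K B ≃ₐ[K] kummerField K B) (b : ↥B)
    (hb : (b : Lˣ) ∈ baseGroup K L) : phi B σ b = 1 := by
  obtain ⟨k, hk⟩ := mem_baseGroup_iff.mp hb
  apply Units.ext
  rw [coe_phi_apply]
  have h1 : (toN K B b : kummerField K B) = algebraMap K (kummerField K B) k :=
    Subtype.ext hk.symm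
  rw [h1, AlgEquiv.commutes, Units.val_one, div_self]
  rw [← h1]
  exact (toN K B b).ne_zero

/-- The character of `B / K` attached to an automorphism. -/
def chi (σ : kummerField K B ≃ₐ[K] kummerField K B) : RadQuot K B →* (kummerField K B)ˣ :=
  QuotientGroup.lift _ (phi B σ) (fun b hb => by
    rw [MonoidHom.mem_ker]
    exact phi_eq_one_of_mem_base B σ b (Subgroup.mem_subgroupOf.mp hb))

theorem chi_mk (σ : kummerField K B ≃ₐ[K] kummerField K B) (b : ↥B) :
    chi B σ (QuotientGroup.mk b) = phi B σ b := rfl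

include hζ hB in
theorem chi_mul (σ τ : kummerField K B ≃ₐ[K] kummerField K B) :
    chi B (σ * τ) = chi B σ * chi B τ := by
  refine MonoidHom.ext fun q => ?_
  induction q using QuotientGroup.induction_on with
  | _ b =>
    apply Units.ext
    rw [MonoidHom.mul_apply, chi_mk, chi_mk, chi_mk, Units.val_mul, coe_phi_apply, coe_phi_apply,
      coe_phi_apply, AlgEquiv.mul_apply]
    obtain ⟨c, -, hc⟩ := exists_root_of_aut hζ B hB τ b
    have hx0 : (toN K B b : kummerField K B) ≠ 0 := (toN K B b).ne_zero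
    rw [hc, map_mul, AlgEquiv.commutes]
    field_simp

theorem chi_one : chi B (1 : kummerField K B ≃ₐ[K] kummerField K B) = 1 := by
  refine MonoidHom.ext fun q => ?_
  induction q using QuotientGroup.induction_on with
  | _ b =>
    apply Units.ext
    rw [chi_mk, coe_phi_apply, AlgEquiv.one_apply, div_self (toN K B b).ne_zero]
    rfl

/-- The Kummer homomorphism `Gal(N/K) → Hom(B/K, Nˣ)`. -/
def Phi : (kummerField K B ≃ₐ[K] kummerField K B) →* (RadQuot K B →* (kummerField K B)ˣ) where
  toFun := chi B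
  map_one' := chi_one B
  map_mul' := chi_mul hζ B hB

theorem Phi_apply (σ : kummerField K B ≃ₐ[K] kummerField K B) : Phi hζ B hB σ = chi B σ := rfl

theorem aut_apply_eq_of_chi_eq_one (σ : kummerField K B ≃ₐ[K] kummerField K B) (b : ↥B)
    (h : chi B σ (QuotientGroup.mk b) = 1) :
    σ (toN K B b : kummerField K B) = (toN K B b : kummerField K B) := by
  have h1 := congrArg (fun u : (kummerField K B)ˣ => (u : kummerField K B)) h
  simp only [chi_mk, coe_phi_apply, Units.val_one] at h1
  exact (div_eq_one_iff_eq (toN K B b).ne_zero).mp h1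

theorem Phi_injective : Function.Injective (Phi hζ B hB) := by
  rw [injective_iff_map_eq_one]
  intro σ hσ
  apply AlgEquiv.coe_toAlgHom_injective
  refine IntermediateField.algHom_ext_of_eq_adjoin K (S := kummerField K B) rfl ?_
  rintro x ⟨u, hu, rfl⟩
  have h1 : chi B σ (QuotientGroup.mk ⟨u, hu⟩) = 1 := by
    rw [← Phi_apply hζ B hB, hσ]
    rfl
  exact aut_apply_eq_of_chi_eq_one B σ ⟨u, hu⟩ h1

include hζ hB in
theorem eq_one_of_forall_chi_eq_one [Finite (RadQuot K B)] (q : RadQuot K B)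
    (h : ∀ σ : kummerField K B ≃ₐ[K] kummerField K B, chi B σ q = 1) : q = 1 := by
  haveI : IsGalois K (kummerField K B) := isGalois_kummerField hζ B hB
  haveI : FiniteDimensional K (kummerField K B) := finiteDimensional_kummerField B hB
  induction q using QuotientGroup.induction_on with
  | _ b =>
    have hfix : ∀ σ : kummerField K B ≃ₐ[K] kummerField K B,
        σ (toN K B b : kummerField K B) = (toN K B b : kummerField K B) :=
      fun σ => aut_apply_eq_of_chi_eq_one B σ b (h σ)
    obtain ⟨k, hk⟩ := (IsGalois.mem_range_algebraMap_iff_fixed _).mpr hfix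
    rw [QuotientGroup.eq_one_iff, Subgroup.mem_subgroupOf, mem_baseGroup_iff]
    exact ⟨k, congrArg Subtype.val hk⟩

include hB in
theorem exponent_radQuot_dvd : Monoid.exponent (RadQuot K B) ∣ p := by
  apply Monoid.exponent_dvd_of_forall_pow_eq_one
  intro q
  induction q using QuotientGroup.induction_on with
  | _ b =>
    rw [← QuotientGroup.mk_pow, QuotientGroup.eq_one_iff, Subgroup.mem_subgroupOf]
    have := hB b.2
    simpa [radGroup] using this

include hζ in
theorem hasEnoughRootsOfUnity_kummerField :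
    HasEnoughRootsOfUnity (kummerField K B) p :=
  ⟨⟨algebraMap K _ ζ, hζ.map_of_injective (algebraMap K (kummerField K B)).injective⟩,
    inferInstance⟩

include hζ hB in
theorem card_hom_radQuot [Finite (RadQuot K B)] :
    Nat.card (RadQuot K B →* (kummerField K B)ˣ) = Nat.card (RadQuot K B) := by
  haveI : NeZero p := ⟨hp.out.ne_zero⟩
  haveI := hasEnoughRootsOfUnity_kummerField hζ B
  haveI : HasEnoughRootsOfUnity (kummerField K B) (Monoid.exponent (RadQuot K B)) :=
    HasEnoughRootsOfUnity.of_dvd _ (exponent_radQuot_dvd B hB)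
  exact CommGroup.card_monoidHom_of_hasEnoughRootsOfUnity (RadQuot K B) (kummerField K B)

include hζ hB in
theorem card_aut_le [Finite (RadQuot K B)] :
    Nat.card (kummerField K B ≃ₐ[K] kummerField K B) ≤ Nat.card (RadQuot K B) := by
  have hD := card_hom_radQuot hζ B hB
  haveI : Finite (RadQuot K B →* (kummerField K B)ˣ) :=
    Nat.finite_of_card_ne_zero (by rw [hD]; exact Nat.card_pos.ne')
  rw [← hD]
  exact Nat.card_le_card_of_injective _ (Phi_injective hζ B hB)

include hζ hB in
theorem card_radQuot_le [Finite (RadQuot K B)] :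
    Nat.card (RadQuot K B) ≤ Nat.card (kummerField K B ≃ₐ[K] kummerField K B) := by
  haveI : IsGalois K (kummerField K B) := isGalois_kummerField hζ B hB
  haveI : FiniteDimensional K (kummerField K B) := finiteDimensional_kummerField B hB
  haveI : NeZero p := ⟨hp.out.ne_zero⟩
  haveI := hasEnoughRootsOfUnity_kummerField hζ B
  have hQ := exponent_radQuot_dvd B hB
  have hD := card_hom_radQuot hζ B hB
  haveI : Finite (RadQuot K B →* (kummerField K B)ˣ) :=
    Nat.finite_of_card_ne_zero (by rw [hD]; exact Nat.card_pos.ne')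
  have hH : Monoid.exponent (Phi hζ B hB).range ∣ p := by
    apply Monoid.exponent_dvd_of_forall_pow_eq_one
    rintro ⟨f, hf⟩
    apply Subtype.ext
    refine MonoidHom.ext fun q => ?_
    have hq : q ^ p = 1 := Monoid.exponent_dvd_iff_forall_pow_eq_one.mp hQ q
    change (f ^ p) q = 1
    rw [MonoidHom.pow_apply, ← map_pow, hq, map_one]
  haveI : HasEnoughRootsOfUnity (kummerField K B) (Monoid.exponent (Phi hζ B hB).range) :=
    HasEnoughRootsOfUnity.of_dvd _ hH
  have hHcard : Nat.card (↥(Phi hζ B hB).range →* (kummerField K B)ˣ) =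
      Nat.card (Phi hζ B hB).range :=
    CommGroup.card_monoidHom_of_hasEnoughRootsOfUnity (↥(Phi hζ B hB).range) (kummerField K B)
  haveI : Finite (↥(Phi hζ B hB).range →* (kummerField K B)ˣ) :=
    Nat.finite_of_card_ne_zero (by rw [hHcard]; exact Nat.card_pos.ne')
  let ev : RadQuot K B → (↥(Phi hζ B hB).range →* (kummerField K B)ˣ) := fun q =>
    { toFun := fun f => (f : RadQuot K B →* (kummerField K B)ˣ) q
      map_one' := rfl
      map_mul' := fun _ _ => rfl }
  have hev : Function.Injective ev := by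
    intro q q' hqq
    have h1 : ∀ σ : kummerField K B ≃ₐ[K] kummerField K B, chi B σ (q * q'⁻¹) = 1 := by
      intro σ
      have := DFunLike.congr_fun hqq ⟨Phi hζ B hB σ, ⟨σ, rfl⟩⟩
      change chi B σ q = chi B σ q' at this
      rw [map_mul, map_inv, this, mul_inv_cancel]
    exact mul_inv_eq_one.mp (eq_one_of_forall_chi_eq_one hζ B hB _ h1)
  have hge : Nat.card (RadQuot K B) ≤ Nat.card (Phi hζ B hB).range := by
    rw [← hHcard]
    exact Nat.card_le_card_of_injective ev hev
  have hHG : Nat.card (Phi hζ B hB).range ≤ Nat.card (kummerField K B ≃ₐ[K] kummerField K B) :=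
    Nat.card_le_card_of_surjective _ (Phi hζ B hB).rangeRestrict_surjective
  exact hge.trans hHG

include hζ hB in
/-- `|Gal(N/K)| = [B : B ∩ Kˣ]`. -/
theorem card_aut_eq_card_radQuot [Finite (RadQuot K B)] :
    Nat.card (kummerField K B ≃ₐ[K] kummerField K B) = Nat.card (RadQuot K B) :=
  le_antisymm (card_aut_le hζ B hB) (card_radQuot_le hζ B hB)

include hζ hB in
/-- (K2) `[K(B) : K] = [B : B ∩ Kˣ]`. -/
theorem finrank_kummerField [Finite (RadQuot K B)] :
    Module.finrank K (kummerField K B) = Nat.card (RadQuot K B) := by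
  haveI : IsGalois K (kummerField K B) := isGalois_kummerField hζ B hB
  haveI : FiniteDimensional K (kummerField K B) := finiteDimensional_kummerField B hB
  rw [← IsGalois.card_aut_eq_finrank, card_aut_eq_card_radQuot hζ B hB]

include hζ hB in
/-- (K2) in terms of the relative index. -/
theorem finrank_kummerField_eq_relIndex (hfin : (baseGroup K L).relIndex B ≠ 0) :
    Module.finrank K (kummerField K B) = (baseGroup K L).relIndex B := by
  haveI : ((baseGroup K L).subgroupOf B).FiniteIndex := ⟨hfin⟩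
  haveI : Finite (RadQuot K B) := Subgroup.finite_quotient_of_finiteIndex
  rw [finrank_kummerField hζ B hB, Subgroup.relIndex, Subgroup.index_eq_card]

include hζ hB in
/-- (K4) The Kummer homomorphism is bijective. -/
theorem Phi_bijective [Finite (RadQuot K B)] : Function.Bijective (Phi hζ B hB) := by
  have hD := card_hom_radQuot hζ B hB
  haveI : Finite (RadQuot K B →* (kummerField K B)ˣ) :=
    Nat.finite_of_card_ne_zero (by rw [hD]; exact Nat.card_pos.ne')
  rw [Nat.bijective_iff_injective_and_card]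
  exact ⟨Phi_injective hζ B hB, by rw [card_aut_eq_card_radQuot hζ B hB, hD]⟩

/-- (K4) `Gal(K(B)/K) ≃* Hom(B / (B ∩ Kˣ), μ)`. -/
def autEquivHom [Finite (RadQuot K B)] :
    (kummerField K B ≃ₐ[K] kummerField K B) ≃* (RadQuot K B →* (kummerField K B)ˣ) :=
  MulEquiv.ofBijective (Phi hζ B hB) (Phi_bijective hζ B hB)

theorem autEquivHom_apply_mk [Finite (RadQuot K B)]
    (σ : kummerField K B ≃ₐ[K] kummerField K B) (b : ↥B) :
    ((autEquivHom hζ B hB σ (QuotientGroup.mk b) : (kummerField K B)ˣ) : kummerField K B) =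
      σ (toN K B b : kummerField K B) / (toN K B b : kummerField K B) :=
  coe_phi_apply B σ b

include hζ hB in
/-- (K4) every character of `B` with values in `Kˣ`, trivial on `B ∩ Kˣ`, comes from a unique
automorphism. -/
theorem existsUnique_aut_of_char [Finite (RadQuot K B)] (χ : ↥B →* Kˣ)
    (hχ : ∀ b : ↥B, (b : Lˣ) ∈ baseGroup K L → χ b = 1) :
    ∃! σ : kummerField K B ≃ₐ[K] kummerField K B, ∀ b : ↥B,
      σ (toN K B b : kummerField K B) =
        algebraMap K (kummerField K B) (χ b) * (toN K B b : kummerField K B) := by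
  let ι : Kˣ →* (kummerField K B)ˣ := Units.map (algebraMap K (kummerField K B) : K →* _)
  let χ' : RadQuot K B →* (kummerField K B)ˣ :=
    QuotientGroup.lift _ (ι.comp χ) (fun b hb => by
      rw [MonoidHom.mem_ker, MonoidHom.comp_apply, hχ b (Subgroup.mem_subgroupOf.mp hb), map_one])
  have key : ∀ σ : kummerField K B ≃ₐ[K] kummerField K B,
      (∀ b : ↥B, σ (toN K B b : kummerField K B) =
        algebraMap K (kummerField K B) (χ b) * (toN K B b : kummerField K B)) ↔
      Phi hζ B hB σ = χ' := by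
    intro σ
    constructor
    · intro h
      refine MonoidHom.ext fun q => ?_
      induction q using QuotientGroup.induction_on with
      | _ b =>
        apply Units.ext
        rw [Phi_apply, chi_mk, coe_phi_apply, h b,
          mul_div_assoc, div_self (toN K B b).ne_zero, mul_one]
        rfl
    · intro h b
      have h1 := congrArg (fun f : RadQuot K B →* (kummerField K B)ˣ =>
        ((f (QuotientGroup.mk b) : (kummerField K B)ˣ) : kummerField K B)) h
      simp only [Phi_apply, chi_mk, coe_phi_apply] at h1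
      rw [div_eq_iff (toN K B b).ne_zero] at h1
      rw [h1]
      rfl
  obtain ⟨σ, hσ⟩ := (Phi_bijective hζ B hB).2 χ'
  refine ⟨σ, (key σ).mpr hσ, fun τ hτ => ?_⟩
  exact (Phi_bijective hζ B hB).1 (((key τ).mp hτ).trans hσ.symm)

include hζ hB in
/-- (K3) Saturation: a `p`-th root of an element of `K` lying in `K(B)` is in `B · Kˣ`. -/
theorem exists_mul_of_mem_kummerField [Finite (RadQuot K B)] {u : Lˣ}
    (hu : u ∈ radGroup K L p) (huN : (u : L) ∈ kummerField K B) :
    ∃ b : ↥B, ∃ k : K, (u : L) = ((b : Lˣ) : L) * algebraMap K L k := by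
  haveI : IsGalois K (kummerField K B) := isGalois_kummerField hζ B hB
  haveI : FiniteDimensional K (kummerField K B) := finiteDimensional_kummerField B hB
  haveI : NeZero p := ⟨hp.out.ne_zero⟩
  haveI := hasEnoughRootsOfUnity_kummerField hζ B
  haveI : HasEnoughRootsOfUnity (kummerField K B) (Monoid.exponent (RadQuot K B)) :=
    HasEnoughRootsOfUnity.of_dvd _ (exponent_radQuot_dvd B hB)
  obtain ⟨a, ha⟩ := mem_radGroup_iff.mp hu
  let x : kummerField K B := ⟨(u : L), huN⟩
  have hx0 : x ≠ 0 := fun h => u.ne_zero (congrArg Subtype.val h)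
  have hxp : x ^ p = algebraMap K (kummerField K B) a := Subtype.ext (by simp [x, ha])
  let xu : (kummerField K B)ˣ := Units.mk0 x hx0
  have hψ : ∀ σ τ : kummerField K B ≃ₐ[K] kummerField K B,
      (σ * τ) x / x = (σ x / x) * (τ x / x) := by
    intro σ τ
    obtain ⟨c, -, hc⟩ := exists_root_of_aut' hζ (kummerField K B) τ x hx0 a hxp
    rw [AlgEquiv.mul_apply, hc, map_mul, AlgEquiv.commutes]
    field_simp
  let ψ : (kummerField K B ≃ₐ[K] kummerField K B) →* (kummerField K B)ˣ :=
    { toFun := fun σ => Units.mk0 (σ x / x) (div_ne_zero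
        ((map_ne_zero_iff _ σ.injective).mpr hx0) hx0)
      map_one' := by
        apply Units.ext
        simp [div_self hx0]
      map_mul' := by
        intro σ τ
        apply Units.ext
        simpa using hψ σ τ }
  let e := autEquivHom hζ B hB
  let η : (RadQuot K B →* (kummerField K B)ˣ) →* (kummerField K B)ˣ :=
    ψ.comp e.symm.toMonoidHom
  have hq : ∀ σ : kummerField K B ≃ₐ[K] kummerField K B,
      chi B σ (CommGroup.monoidHomMonoidHomEquiv (RadQuot K B) (kummerField K B) η) = ψ σ := by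
    intro σ
    have h0 := CommGroup.apply_monoidHomMonoidHomEquiv (G := RadQuot K B) (kummerField K B) (chi B σ) η
    rw [h0]
    change ψ (e.symm (e σ)) = ψ σ
    rw [MulEquiv.symm_apply_apply]
  obtain ⟨b, hb⟩ := QuotientGroup.mk_surjective
    (CommGroup.monoidHomMonoidHomEquiv (RadQuot K B) (kummerField K B) η)
  rw [← hb] at hq
  have hfix : ∀ σ : kummerField K B ≃ₐ[K] kummerField K B,
      σ (x / (toN K B b : kummerField K B)) = x / (toN K B b : kummerField K B) := by
    intro σ
    have h1 := congrArg (fun w : (kummerField K B)ˣ => (w : kummerField K B)) (hq σ)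
    have hψapp : ((ψ σ : (kummerField K B)ˣ) : kummerField K B) = σ x / x := rfl
    simp only [chi_mk, coe_phi_apply, hψapp] at h1
    have hb0 : (toN K B b : kummerField K B) ≠ 0 := (toN K B b).ne_zero
    have hσb0 : σ (toN K B b : kummerField K B) ≠ 0 := (map_ne_zero_iff _ σ.injective).mpr hb0
    rw [map_div₀]
    rw [div_eq_div_iff hb0 hx0] at h1
    rw [div_eq_div_iff hσb0 hb0]
    linear_combination -h1
  obtain ⟨k, hk⟩ := (IsGalois.mem_range_algebraMap_iff_fixed _).mpr hfix
  refine ⟨b, k, ?_⟩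
  have hk' := congrArg Subtype.val hk
  have hb0 : (((b : Lˣ) : L)) ≠ 0 := (b : Lˣ).ne_zero
  have hk'' : algebraMap K L k = (u : L) / ((b : Lˣ) : L) := hk'
  rw [hk'', mul_div_cancel₀ _ hb0]

include hζ hB in
/-- (K3) when `B` contains the base group. -/
theorem mem_of_mem_kummerField [Finite (RadQuot K B)] (hbase : baseGroup K L ≤ B) {u : Lˣ}
    (hu : u ∈ radGroup K L p) (huN : (u : L) ∈ kummerField K B) : u ∈ B := by
  obtain ⟨b, k, hk⟩ := exists_mul_of_mem_kummerField hζ B hB hu huN
  have hk0 : k ≠ 0 := by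
    rintro rfl
    rw [map_zero, mul_zero] at hk
    exact u.ne_zero hk
  have : u = (b : Lˣ) * Units.map (algebraMap K L : K →* L) (Units.mk0 k hk0) :=
    Units.ext hk
  rw [this]
  exact mul_mem b.2 (hbase ⟨_, rfl⟩)

end Count

/-! ## The downstairs form: `K(Δ^{1/p})` for a subgroup `Δ ≤ Kˣ` -/

section Downstairs

variable {p : ℕ} [hp : Fact p.Prime] {ζ : K} (hζ : IsPrimitiveRoot ζ p)

/-- The embedding `Kˣ → Lˣ`. -/
def unitsMap (K L : Type*) [Field K] [Field L] [Algebra K L] : Kˣ →* Lˣ :=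
  Units.map (algebraMap K L : K →* L)

theorem unitsMap_injective : Function.Injective (unitsMap K L) :=
  Units.map_injective (algebraMap K L).injective

@[simp] theorem coe_unitsMap (k : Kˣ) : ((unitsMap K L k : Lˣ) : L) = algebraMap K L (k : K) := rfl

/-- The `p`-th powers in `Kˣ`. -/
def powGroup (K : Type*) [Field K] (p : ℕ) : Subgroup Kˣ := (powMonoidHom p : Kˣ →* Kˣ).range

theorem mem_powGroup_iff {b : Kˣ} : b ∈ powGroup K p ↔ ∃ k : Kˣ, k ^ p = b := Iff.rfl

variable (L) (Δ : Subgroup Kˣ)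

/-- Units of `L` whose `p`-th power lies in (the image of) `Δ`. -/
def rootsGroup (p : ℕ) : Subgroup Lˣ := (Δ.map (unitsMap K L)).comap (powMonoidHom p)

theorem mem_rootsGroup_iff {u : Lˣ} :
    u ∈ rootsGroup L Δ p ↔ ∃ d ∈ Δ, algebraMap K L (d : K) = (u : L) ^ p := by
  rw [rootsGroup, Subgroup.mem_comap, Subgroup.mem_map]
  constructor
  · rintro ⟨d, hd, h⟩
    exact ⟨d, hd, by simpa using congrArg Units.val h⟩
  · rintro ⟨d, hd, h⟩
    exact ⟨d, hd, Units.ext (by simpa using h)⟩

theorem rootsGroup_le_radGroup : rootsGroup L Δ p ≤ radGroup K L p := fun u hu => by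
  obtain ⟨d, -, h⟩ := (mem_rootsGroup_iff L Δ).mp hu
  exact mem_radGroup_iff.mpr ⟨d, h⟩

/-- The field `K(Δ^{1/p})` inside `L`. -/
abbrev kummerExt (p : ℕ) : IntermediateField K L := kummerField K (rootsGroup L Δ p)

theorem mem_kummerExt_of_pow_eq {x : L} {d : Kˣ} (hd : d ∈ Δ)
    (hx : x ^ p = algebraMap K L (d : K)) : x ∈ kummerExt L Δ p := by
  have hx0 : x ≠ 0 := by
    rintro rfl
    rw [zero_pow hp.out.ne_zero] at hx
    exact (map_ne_zero_iff _ (algebraMap K L).injective).mpr d.ne_zero hx.symm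
  have : Units.mk0 x hx0 ∈ rootsGroup L Δ p :=
    (mem_rootsGroup_iff L Δ).mpr ⟨d, hd, by simpa using hx.symm⟩
  exact coe_mem_kummerField (K := K) this

include hζ in
theorem isGalois_kummerExt : IsGalois K (kummerExt L Δ p) :=
  isGalois_kummerField hζ _ (rootsGroup_le_radGroup L Δ)

/-- `u ↦ u ^ p`, as a map `rootsGroup → Δ`. -/
def powHom (p : ℕ) : ↥(rootsGroup L Δ p) →* ↥Δ :=
  (Δ.equivMapOfInjective (unitsMap K L) unitsMap_injective).symm.toMonoidHom.comp
    (((powMonoidHom p).comp (rootsGroup L Δ p).subtype).codRestrict (Δ.map (unitsMap K L))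
      (fun u => u.2))

theorem unitsMap_powHom (u : ↥(rootsGroup L Δ p)) :
    unitsMap K L ((powHom L Δ p u : ↥Δ) : Kˣ) = (u : Lˣ) ^ p := by
  have h := (Δ.equivMapOfInjective (unitsMap K L) unitsMap_injective).apply_symm_apply
    ((((powMonoidHom p).comp (rootsGroup L Δ p).subtype).codRestrict (Δ.map (unitsMap K L))
      (fun u => u.2)) u)
  have h2 := congrArg Subtype.val h
  rw [Subgroup.coe_equivMapOfInjective_apply] at h2
  exact h2

theorem coe_powHom (u : ↥(rootsGroup L Δ p)) :
    algebraMap K L (((powHom L Δ p u : ↥Δ) : Kˣ) : K) = ((u : Lˣ) : L) ^ p := by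
  have h := congrArg Units.val (unitsMap_powHom L Δ u)
  simpa using h

theorem powHom_eq_iff (u : ↥(rootsGroup L Δ p)) (d : ↥Δ) :
    powHom L Δ p u = d ↔ algebraMap K L ((d : Kˣ) : K) = ((u : Lˣ) : L) ^ p := by
  constructor
  · rintro rfl
    exact coe_powHom L Δ u
  · intro h
    apply Subtype.ext
    apply Units.ext
    apply (algebraMap K L).injective
    rw [coe_powHom, h]

/-- The map `rootsGroup → Δ / (Δ ∩ Kˣᵖ)`. -/
def powQuotHom (p : ℕ) : ↥(rootsGroup L Δ p) →* ↥Δ ⧸ (powGroup K p).subgroupOf Δ :=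
  (QuotientGroup.mk' _).comp (powHom L Δ p)

include hζ in
theorem powQuotHom_ker :
    (powQuotHom L Δ p).ker = (baseGroup K L).subgroupOf (rootsGroup L Δ p) := by
  ext u
  rw [MonoidHom.mem_ker, powQuotHom, MonoidHom.comp_apply, QuotientGroup.mk'_apply,
    QuotientGroup.eq_one_iff, Subgroup.mem_subgroupOf, Subgroup.mem_subgroupOf, mem_powGroup_iff,
    mem_baseGroup_iff]
  constructor
  · rintro ⟨k, hk⟩
    have h1 : (algebraMap K L (k : K)) ^ p = ((u : Lˣ) : L) ^ p := by
      rw [← coe_powHom L Δ u, ← hk, Units.val_pow_eq_pow_val, map_pow]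
    have hk0 : algebraMap K L (k : K) ≠ 0 :=
      (map_ne_zero_iff _ (algebraMap K L).injective).mpr k.ne_zero
    have h2 : (((u : Lˣ) : L) / algebraMap K L (k : K)) ^ p = 1 := by
      rw [div_pow, h1, div_self (pow_ne_zero p (u : Lˣ).ne_zero)]
    haveI : NeZero p := ⟨hp.out.ne_zero⟩
    obtain ⟨i, -, hi⟩ := (hζ.map_of_injective (algebraMap K L).injective).eq_pow_of_pow_eq_one h2
    refine ⟨ζ ^ i * k, ?_⟩
    rw [map_mul, map_pow, hi, div_mul_cancel₀ _ hk0]
  · rintro ⟨a, ha⟩
    have ha0 : a ≠ 0 := by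
      rintro rfl
      rw [map_zero] at ha
      exact (u : Lˣ).ne_zero ha.symm
    refine ⟨Units.mk0 a ha0, ?_⟩
    apply Units.ext
    apply (algebraMap K L).injective
    rw [coe_powHom, ← ha, Units.val_pow_eq_pow_val, map_pow, Units.val_mk0]

theorem powQuotHom_surjective (hroots : ∀ d ∈ Δ, ∃ x : L, x ^ p = algebraMap K L (d : K)) :
    Function.Surjective (powQuotHom L Δ p) := by
  intro q
  induction q using QuotientGroup.induction_on with
  | _ d =>
    obtain ⟨x, hx⟩ := hroots d d.2
    have hx0 : x ≠ 0 := by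
      rintro rfl
      rw [zero_pow hp.out.ne_zero] at hx
      exact (map_ne_zero_iff _ (algebraMap K L).injective).mpr (d : Kˣ).ne_zero hx.symm
    have hu : Units.mk0 x hx0 ∈ rootsGroup L Δ p :=
      (mem_rootsGroup_iff L Δ).mpr ⟨d, d.2, by simpa using hx.symm⟩
    refine ⟨⟨Units.mk0 x hx0, hu⟩, ?_⟩
    rw [powQuotHom, MonoidHom.comp_apply, QuotientGroup.mk'_apply]
    congr 1
    rw [powHom_eq_iff]
    simpa using hx.symm

/-- `rootsGroup / (rootsGroup ∩ Kˣ) ≃* Δ / (Δ ∩ Kˣᵖ)`. -/
def radQuotEquiv (hroots : ∀ d ∈ Δ, ∃ x : L, x ^ p = algebraMap K L (d : K)) :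
    RadQuot K (rootsGroup L Δ p) ≃* ↥Δ ⧸ (powGroup K p).subgroupOf Δ :=
  (QuotientGroup.quotientMulEquivOfEq (powQuotHom_ker L hζ Δ).symm).trans
    (QuotientGroup.quotientKerEquivOfSurjective (powQuotHom L Δ p)
      (powQuotHom_surjective L Δ hroots))

include hζ in
/-- `[K(Δ^{1/p}) : K] = [Δ : Δ ∩ Kˣᵖ]`. -/
theorem finrank_kummerExt (hroots : ∀ d ∈ Δ, ∃ x : L, x ^ p = algebraMap K L (d : K))
    (hfin : (powGroup K p).relIndex Δ ≠ 0) :
    Module.finrank K (kummerExt L Δ p) = (powGroup K p).relIndex Δ := by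
  haveI : ((powGroup K p).subgroupOf Δ).FiniteIndex := ⟨hfin⟩
  haveI : Finite (↥Δ ⧸ (powGroup K p).subgroupOf Δ) := Subgroup.finite_quotient_of_finiteIndex
  haveI : Finite (RadQuot K (rootsGroup L Δ p)) :=
    Finite.of_equiv _ (radQuotEquiv L hζ Δ hroots).symm.toEquiv
  rw [kummerExt, finrank_kummerField hζ _ (rootsGroup_le_radGroup L Δ),
    Nat.card_congr (radQuotEquiv L hζ Δ hroots).toEquiv, Subgroup.relIndex,
    Subgroup.index_eq_card]

include hζ in
theorem finiteDimensional_kummerExt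
    (hroots : ∀ d ∈ Δ, ∃ x : L, x ^ p = algebraMap K L (d : K))
    (hfin : (powGroup K p).relIndex Δ ≠ 0) : FiniteDimensional K (kummerExt L Δ p) := by
  haveI : ((powGroup K p).subgroupOf Δ).FiniteIndex := ⟨hfin⟩
  haveI : Finite (↥Δ ⧸ (powGroup K p).subgroupOf Δ) := Subgroup.finite_quotient_of_finiteIndex
  haveI : Finite (RadQuot K (rootsGroup L Δ p)) :=
    Finite.of_equiv _ (radQuotEquiv L hζ Δ hroots).symm.toEquiv
  exact finiteDimensional_kummerField _ (rootsGroup_le_radGroup L Δ)

include hζ in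
/-- `b ∈ Kˣ` has a `p`-th root in `K(Δ^{1/p})` iff `b ∈ Δ · Kˣᵖ`. -/
theorem exists_root_mem_kummerExt_iff
    (hroots : ∀ d ∈ Δ, ∃ x : L, x ^ p = algebraMap K L (d : K))
    (hfin : (powGroup K p).relIndex Δ ≠ 0) (b : Kˣ) :
    (∃ x ∈ kummerExt L Δ p, x ^ p = algebraMap K L (b : K)) ↔ b ∈ Δ ⊔ powGroup K p := by
  haveI : ((powGroup K p).subgroupOf Δ).FiniteIndex := ⟨hfin⟩
  haveI : Finite (↥Δ ⧸ (powGroup K p).subgroupOf Δ) := Subgroup.finite_quotient_of_finiteIndex
  haveI : Finite (RadQuot K (rootsGroup L Δ p)) :=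
    Finite.of_equiv _ (radQuotEquiv L hζ Δ hroots).symm.toEquiv
  constructor
  · rintro ⟨x, hxN, hx⟩
    have hx0 : x ≠ 0 := by
      rintro rfl
      rw [zero_pow hp.out.ne_zero] at hx
      exact (map_ne_zero_iff _ (algebraMap K L).injective).mpr b.ne_zero hx.symm
    have hu : Units.mk0 x hx0 ∈ radGroup K L p :=
      mem_radGroup_iff.mpr ⟨b, by simpa using hx.symm⟩
    obtain ⟨r, k, hk⟩ := exists_mul_of_mem_kummerField hζ _ (rootsGroup_le_radGroup L Δ) hu hxN
    rw [Units.val_mk0] at hk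
    have hk0 : k ≠ 0 := by
      rintro rfl
      rw [map_zero, mul_zero] at hk
      exact hx0 hk
    have hb : b = ((powHom L Δ p r : ↥Δ) : Kˣ) * Units.mk0 k hk0 ^ p := by
      apply Units.ext
      apply (algebraMap K L).injective
      rw [← hx, Units.val_mul, map_mul, coe_powHom, Units.val_pow_eq_pow_val, map_pow,
        Units.val_mk0, ← mul_pow, hk]
    rw [hb]
    exact Subgroup.mul_mem_sup (powHom L Δ p r).2 ⟨Units.mk0 k hk0, rfl⟩
  · intro hb
    obtain ⟨d, hd, c, hc, rfl⟩ := Subgroup.mem_sup.mp hb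
    obtain ⟨k, rfl⟩ := hc
    obtain ⟨x, hx⟩ := hroots d hd
    refine ⟨x * algebraMap K L (k : K), mul_mem (mem_kummerExt_of_pow_eq L Δ hd hx)
      (IntermediateField.algebraMap_mem _ _), ?_⟩
    rw [mul_pow, hx]
    simp

include hζ in
/-- Characters of `Δ / (Δ ∩ Kˣᵖ)` with values in `Kˣ` correspond to automorphisms of
`K(Δ^{1/p})`: `σ x = χ(d) x` whenever `x ^ p = d ∈ Δ`. -/
theorem existsUnique_aut_kummerExt
    (hroots : ∀ d ∈ Δ, ∃ x : L, x ^ p = algebraMap K L (d : K))
    (hfin : (powGroup K p).relIndex Δ ≠ 0) (χ : ↥Δ →* Kˣ)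
    (hχ : ∀ d : ↥Δ, (d : Kˣ) ∈ powGroup K p → χ d = 1) :
    ∃! σ : kummerExt L Δ p ≃ₐ[K] kummerExt L Δ p, ∀ (d : ↥Δ) (x : kummerExt L Δ p),
      x ^ p = algebraMap K (kummerExt L Δ p) ((d : Kˣ) : K) →
        σ x = algebraMap K (kummerExt L Δ p) ((χ d : Kˣ) : K) * x := by
  haveI : ((powGroup K p).subgroupOf Δ).FiniteIndex := ⟨hfin⟩
  haveI : Finite (↥Δ ⧸ (powGroup K p).subgroupOf Δ) := Subgroup.finite_quotient_of_finiteIndex
  haveI : Finite (RadQuot K (rootsGroup L Δ p)) :=
    Finite.of_equiv _ (radQuotEquiv L hζ Δ hroots).symm.toEquiv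
  have hchar : ∀ r : ↥(rootsGroup L Δ p), ((r : Lˣ) ∈ baseGroup K L) →
      (χ.comp (powHom L Δ p)) r = 1 := by
    intro r hr
    rw [MonoidHom.comp_apply]
    apply hχ
    have h1 : r ∈ (powQuotHom L Δ p).ker := by
      rw [powQuotHom_ker L hζ Δ]
      exact Subgroup.mem_subgroupOf.mpr hr
    rw [MonoidHom.mem_ker, powQuotHom, MonoidHom.comp_apply, QuotientGroup.mk'_apply,
      QuotientGroup.eq_one_iff, Subgroup.mem_subgroupOf] at h1
    exact h1
  obtain ⟨σ, hσ, huniq⟩ := existsUnique_aut_of_char hζ _ (rootsGroup_le_radGroup L Δ)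
    (χ.comp (powHom L Δ p)) hchar
  refine ⟨σ, ?_, ?_⟩
  · intro d x hx
    have hx0 : (x : L) ≠ 0 := by
      intro h0
      have hx' := congrArg Subtype.val hx
      simp only [SubmonoidClass.coe_pow, h0, zero_pow hp.out.ne_zero] at hx'
      exact (map_ne_zero_iff _ (algebraMap K L).injective).mpr (d : Kˣ).ne_zero hx'.symm
    have hxL : (x : L) ^ p = algebraMap K L ((d : Kˣ) : K) := by
      have hx' := congrArg Subtype.val hx
      simpa using hx'
    have hr : Units.mk0 (x : L) hx0 ∈ rootsGroup L Δ p :=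
      (mem_rootsGroup_iff L Δ).mpr ⟨d, d.2, by simpa using hxL.symm⟩
    have hrd : powHom L Δ p ⟨Units.mk0 (x : L) hx0, hr⟩ = d :=
      (powHom_eq_iff L Δ _ d).mpr (by simpa using hxL.symm)
    have h2 := hσ ⟨Units.mk0 (x : L) hx0, hr⟩
    have hxr : (toN K (rootsGroup L Δ p) ⟨Units.mk0 (x : L) hx0, hr⟩ : kummerExt L Δ p) = x :=
      Subtype.ext rfl
    rw [hxr, MonoidHom.comp_apply, hrd] at h2
    exact h2
  · intro τ hτ
    apply huniq
    intro r
    exact hτ (powHom L Δ p r) (toN K (rootsGroup L Δ p) r)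
      (Subtype.ext (by simp [coe_powHom]))

end Downstairs

end Fermat.Agent.Lib.KummerPairing
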