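import Mathlib

/-!
# Local splitting criterion for Kummer extensions (primes over `p` included)

Let `W` be a nonzero prime of a Dedekind domain `S`, `ζ ∈ S` a primitive `p`-th root of unity
and `M` the valuation of `1 - ζ` at `W` (`M = 0` when `W ∤ p`).  If `α ^ p ≡ b ^ p` modulo
`W ^ (p * M + 1)` with `b` prime to `W`, then `α ≡ η * b` modulo `W ^ (M + 1)` for a `p`-th root of
unity `η` (the product `∏ (α - η b) = α ^ p - b ^ p` and additivity of the valuation), and every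
ring endomorphism `σ` fixing `ζ`, `b`, `α ^ p` and preserving `W` fixes `α`
(`σ α = η' α` and `η b (η' - 1) ∈ W ^ (M + 1)` force `η' = 1`).

Consequences for number fields `L / K`, `v` a prime of `K`, `e0` the valuation of `1 - ζ` at `v`:
if `x ≡ b ^ p` modulo `v ^ (p * e0 + 1)` (`b` prime to `v`) and `α ^ p = x`, the decomposition
group of every prime of `L` over `v` fixes `α`; for `L = K(α)` it is trivial, i.e. `v` splits
completely in `K(x ^ (1/p))`.  No Dedekind–Kummer theorem and no Artin–Schreier reduction is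
used.  The valuation forms are stated for `x * y⁻¹ ^ p ≡ 1` modulo `v ^ (p * e0 + 1)`.
-/

set_option autoImplicit false

namespace Fermat.Agent.Lib.KummerPrimary

open Polynomial

/-! ### Abstract core in a Dedekind domain -/

section Abstract

variable {S : Type*} [CommRing S] [IsDedekindDomain S]

/-- Additivity of the valuation at a prime, in the form used here: if a product of `s.card`
factors lies in `W ^ (s.card * M + 1)`, one of the factors lies in `W ^ (M + 1)`. -/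
theorem exists_mem_pow_of_prod_mem (W : Ideal S) [hW : W.IsPrime] (hW0 : W ≠ ⊥) {ι : Type*}
    (s : Finset ι) (f : ι → S) (M : ℕ) (h : ∏ i ∈ s, f i ∈ W ^ (s.card * M + 1)) :
    ∃ i ∈ s, f i ∈ W ^ (M + 1) := by
  by_contra hcon
  have hcon' : ∀ i ∈ s, f i ∉ W ^ (M + 1) := fun i hi hmem => hcon ⟨i, hi, hmem⟩
  have hp : Prime W := Ideal.prime_of_isPrime hW0 hW
  have h1 : ∀ i ∈ s, emultiplicity W (Ideal.span {f i}) ≤ (M : ℕ∞) := by
    intro i hi
    have h2 : emultiplicity W (Ideal.span {f i}) < ((M + 1 : ℕ) : ℕ∞) := by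
      rw [emultiplicity_lt_iff_not_dvd, Ideal.dvd_span_singleton]
      exact hcon' i hi
    rw [Nat.cast_add, Nat.cast_one] at h2
    exact (ENat.lt_add_one_iff (ENat.natCast_ne_top M)).mp h2
  have h3 : emultiplicity W (Ideal.span {∏ i ∈ s, f i}) ≤ ((s.card * M : ℕ) : ℕ∞) := by
    rw [← Ideal.prod_span_singleton, Finset.emultiplicity_prod hp]
    calc ∑ i ∈ s, emultiplicity W (Ideal.span {f i}) ≤ s.card • (M : ℕ∞) :=
          Finset.sum_le_card_nsmul _ _ _ h1
      _ = ((s.card * M : ℕ) : ℕ∞) := by rw [nsmul_eq_mul, Nat.cast_mul]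
  have h4 : ((s.card * M + 1 : ℕ) : ℕ∞) ≤ emultiplicity W (Ideal.span {∏ i ∈ s, f i}) := by
    rw [← pow_dvd_iff_le_emultiplicity, Ideal.dvd_span_singleton]
    exact h
  have h5 := h4.trans h3
  rw [Nat.cast_le] at h5
  omega

variable {p : ℕ} [hp : Fact p.Prime]

/-- **Local structure of a primary Kummer generator**: if `α ^ p ≡ b ^ p` modulo
`W ^ (p * M + 1)`, then `α ≡ η * b` modulo `W ^ (M + 1)` for a `p`-th root of unity `η`. -/
theorem exists_root_sub_mem_pow (W : Ideal S) [hW : W.IsPrime] (hW0 : W ≠ ⊥) {ζ : S}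
    (hζ : IsPrimitiveRoot ζ p) (M : ℕ) (α b : S) (h : α ^ p - b ^ p ∈ W ^ (p * M + 1)) :
    ∃ η : S, η ^ p = 1 ∧ α - η * b ∈ W ^ (M + 1) := by
  have hpos : 0 < p := hp.out.pos
  have hcard : (nthRootsFinset p (1 : S)).card = p := hζ.card_nthRootsFinset
  have h' : ∏ η ∈ nthRootsFinset p (1 : S), (α - η * b) ∈
      W ^ ((nthRootsFinset p (1 : S)).card * M + 1) := by
    rw [hcard, ← hζ.pow_sub_pow_eq_prod_sub_mul α b hpos]
    exact h
  obtain ⟨η, hη, hmem⟩ := exists_mem_pow_of_prod_mem W hW0 _ _ M h'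
  exact ⟨η, (mem_nthRootsFinset hpos 1).mp hη, hmem⟩

/-- **Triviality of the decomposition group on a primary Kummer generator** (abstract form).
`M` is (an upper bound for) the valuation of `1 - ζ` at `W`; `M = 0` is the tame case. -/
theorem apply_eq_self_of_primary (W : Ideal S) [hW : W.IsPrime] (hW0 : W ≠ ⊥) {ζ : S}
    (hζ : IsPrimitiveRoot ζ p) (M : ℕ) (hM : 1 - ζ ∉ W ^ (M + 1)) (α b : S) (hb : b ∉ W)
    (h : α ^ p - b ^ p ∈ W ^ (p * M + 1)) (σ : S →+* S) (hσζ : σ ζ = ζ) (hσb : σ b = b)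
    (hσα : σ (α ^ p) = α ^ p) (hσW : ∀ y ∈ W ^ (M + 1), σ y ∈ W ^ (M + 1)) : σ α = α := by
  have hpos : 0 < p := hp.out.pos
  obtain ⟨η, hη, hmem⟩ := exists_root_sub_mem_pow W hW0 hζ M α b h
  -- `σ α = η' * α`
  have h0 : (σ α) ^ p - α ^ p = 0 := by rw [← map_pow, hσα, sub_self]
  rw [hζ.pow_sub_pow_eq_prod_sub_mul (σ α) α hpos, Finset.prod_eq_zero_iff] at h0
  obtain ⟨η', hη', hη'α⟩ := h0
  rw [mem_nthRootsFinset hpos 1] at hη'
  rw [sub_eq_zero] at hη'α
  -- roots of unity are fixed by `σ`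
  have hfix : ∀ ξ : S, ξ ^ p = 1 → σ ξ = ξ := by
    intro ξ hξ
    obtain ⟨i, -, rfl⟩ := hζ.eq_pow_of_pow_eq_one hξ
    rw [map_pow, hσζ]
  by_cases h1 : η' = 1
  · rw [hη'α, h1, one_mul]
  exfalso
  -- `η * b * (η' - 1) ∈ W ^ (M + 1)`
  have h2 : η * b * (η' - 1) ∈ W ^ (M + 1) := by
    have h3 : σ (α - η * b) ∈ W ^ (M + 1) := hσW _ hmem
    rw [map_sub, map_mul, hfix η hη, hσb, hη'α] at h3
    have h4 : η' * (α - η * b) ∈ W ^ (M + 1) := Ideal.mul_mem_left _ _ hmem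
    have h5 := Ideal.sub_mem _ h3 h4
    have h6 : η' * α - η * b - η' * (α - η * b) = η * b * (η' - 1) := by ring
    rwa [h6] at h5
  have hηW : η ∉ W := by
    intro hηW
    have : (1 : S) ∈ W := hη ▸ Ideal.pow_mem_of_mem W hηW p hpos
    exact hW.ne_top ((Ideal.eq_top_iff_one W).mpr this)
  have hηb : η * b ∉ W := fun hc => (hW.mem_or_mem hc).elim hηW hb
  have h7 : η' - 1 ∈ W ^ (M + 1) :=
    (Ideal.IsPrime.mul_mem_pow W h2).resolve_left hηb
  -- `ζ` is a power of `η'`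
  obtain ⟨i, hi, rfl⟩ := hζ.eq_pow_of_pow_eq_one hη'
  have hi0 : i ≠ 0 := by
    rintro rfl
    exact h1 (pow_zero ζ)
  have hcop : i.Coprime p := Nat.coprime_comm.mp
    ((Nat.Prime.coprime_iff_not_dvd hp.out).mpr fun hdvd => by
      have := Nat.le_of_dvd (Nat.pos_of_ne_zero hi0) hdvd
      omega)
  obtain ⟨k, -, hk⟩ := (hζ.pow_of_coprime i hcop).eq_pow_of_pow_eq_one hζ.pow_eq_one
  apply hM
  have h8 : ζ ^ i - 1 ∣ (ζ ^ i) ^ k - 1 ^ k := sub_dvd_pow_sub_pow _ _ k
  rw [one_pow, hk] at h8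
  obtain ⟨c, hc⟩ := h8
  have h9 : 1 - ζ = (ζ ^ i - 1) * (-c) := by rw [mul_neg, ← hc]; ring
  rw [h9]
  exact Ideal.mul_mem_right _ _ h7

end Abstract

/-! ### Relative form: a prime `W` of `S` over a prime `v` of `R` -/

section Relative

variable {R S : Type*} [CommRing R] [IsDedekindDomain R] [CommRing S] [IsDedekindDomain S]
  [Algebra R S] [FaithfulSMul R S]

/-- The valuation at `W` of an element of `R` is `e(W|v)` times its valuation at `v`
(upper bound form). -/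
theorem algebraMap_notMem_pow (v : Ideal R) [hv : v.IsPrime] (hv0 : v ≠ ⊥) (W : Ideal S)
    [hW : W.IsPrime] [W.LiesOver v] {y : R} {n : ℕ} (hy : y ∉ v ^ (n + 1)) :
    algebraMap R S y ∉ W ^ (Ideal.ramificationIdx' v W * n + 1) := by
  have hW0 : W ≠ ⊥ := Ideal.ne_bot_of_liesOver_of_ne_bot hv0 W
  have hy0 : y ≠ 0 := by
    rintro rfl
    exact hy (zero_mem _)
  have hspan : Ideal.span {y} ≠ ⊥ := by
    rwa [Ne, Ideal.span_singleton_eq_bot]
  have hvirr : Irreducible v := (Ideal.prime_of_isPrime hv0 hv).irreducible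
  have hWirr : Irreducible W := (Ideal.prime_of_isPrime hW0 hW).irreducible
  have h1 := Ideal.IsDedekindDomain.emultiplicity_map_eq_ramificationIdx'_mul
    (S := S) (w := W) hspan hvirr hWirr hW0
  rw [Ideal.map_span, Set.image_singleton] at h1
  have h2 : emultiplicity v (Ideal.span {y}) ≤ (n : ℕ∞) := by
    have h2 : emultiplicity v (Ideal.span {y}) < ((n + 1 : ℕ) : ℕ∞) := by
      rw [emultiplicity_lt_iff_not_dvd, Ideal.dvd_span_singleton]
      exact hy
    rw [Nat.cast_add, Nat.cast_one] at h2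
    exact (ENat.lt_add_one_iff (ENat.natCast_ne_top n)).mp h2
  intro hmem
  have h3 : ((Ideal.ramificationIdx' v W * n + 1 : ℕ) : ℕ∞) ≤
      emultiplicity W (Ideal.span {algebraMap R S y}) := by
    rw [← pow_dvd_iff_le_emultiplicity, Ideal.dvd_span_singleton]
    exact hmem
  rw [h1] at h3
  have h4 : (Ideal.ramificationIdx' v W : ℕ∞) * emultiplicity v (Ideal.span {y}) ≤
      (Ideal.ramificationIdx' v W : ℕ∞) * (n : ℕ∞) := mul_le_mul_right h2 _
  have h5 := h3.trans h4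
  rw [← Nat.cast_mul, Nat.cast_le] at h5
  omega

omit [IsDedekindDomain R] [IsDedekindDomain S] [FaithfulSMul R S] in
/-- The valuation at `W` of an element of `R` is `e(W|v)` times its valuation at `v`
(lower bound form). -/
theorem algebraMap_mem_pow (v : Ideal R) (W : Ideal S) {y : R} {n : ℕ} (hy : y ∈ v ^ n) :
    algebraMap R S y ∈ W ^ (Ideal.ramificationIdx' v W * n) := by
  have h1 : algebraMap R S y ∈ (v ^ n).map (algebraMap R S) := Ideal.mem_map_of_mem _ hy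
  rw [Ideal.map_pow] at h1
  rw [pow_mul]
  exact Ideal.pow_right_mono Ideal.le_pow_ramificationIdx' n h1

variable {p : ℕ} [hp : Fact p.Prime]

/-- **Local splitting criterion for Kummer extensions, relative form.**  Let `v` be a nonzero
prime of `R`, `ζ : R` a primitive `p`-th root of unity, `e0` (an upper bound for) the valuation
of `1 - ζ` at `v`, and `x ≡ b ^ p` modulo `v ^ (p * e0 + 1)` with `b` prime to `v`.  If
`α ^ p = x` in `S` and `σ` is an `R`-algebra endomorphism of `S` preserving a prime `W` over `v`,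
then `σ α = α`. -/
theorem apply_eq_self_of_liesOver (v : Ideal R) [hv : v.IsPrime] (hv0 : v ≠ ⊥) (W : Ideal S)
    [hW : W.IsPrime] [W.LiesOver v] {ζ : R} (hζ : IsPrimitiveRoot ζ p) (e0 : ℕ)
    (he0 : 1 - ζ ∉ v ^ (e0 + 1)) (x b : R) (hb : b ∉ v) (h : x - b ^ p ∈ v ^ (p * e0 + 1))
    (α : S) (hα : α ^ p = algebraMap R S x) (σ : S →ₐ[R] S) (hσW : ∀ y ∈ W, σ y ∈ W) :
    σ α = α := by
  have hW0 : W ≠ ⊥ := Ideal.ne_bot_of_liesOver_of_ne_bot hv0 W
  have hE : Ideal.ramificationIdx' v W ≠ 0 :=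
    Ideal.IsDedekindDomain.ramificationIdx'_ne_zero_of_liesOver W hv0
  set E := Ideal.ramificationIdx' v W with hEdef
  have hζS : IsPrimitiveRoot (algebraMap R S ζ) p :=
    hζ.map_of_injective (FaithfulSMul.algebraMap_injective R S)
  refine apply_eq_self_of_primary W hW0 hζS (E * e0) ?_ α (algebraMap R S b) ?_ ?_
    (σ : S →+* S) (σ.commutes ζ) (σ.commutes b) ?_ ?_
  · have h1 := algebraMap_notMem_pow v hv0 W he0
    rwa [map_sub, map_one] at h1
  · rwa [← Ideal.mem_of_liesOver W v b]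
  · have h1 := algebraMap_mem_pow v W (S := S) h
    rw [map_sub, map_pow, ← hα] at h1
    refine Ideal.pow_le_pow_right ?_ h1
    have : 1 ≤ E := Nat.one_le_iff_ne_zero.mpr hE
    calc p * (E * e0) + 1 = E * (p * e0) + 1 := by ring
      _ ≤ E * (p * e0) + E := by omega
      _ = E * (p * e0 + 1) := by ring
  · show σ (α ^ p) = α ^ p
    rw [hα, σ.commutes]
  · intro y hy
    have h1 : σ y ∈ (W ^ (E * e0 + 1)).map (σ : S →+* S) := Ideal.mem_map_of_mem _ hy
    rw [Ideal.map_pow] at h1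
    refine Ideal.pow_right_mono ?_ _ h1
    rw [Ideal.map_le_iff_le_comap]
    exact fun z hz => hσW z hz

end Relative

/-! ### Number fields -/

section NumberField

open scoped NumberField Pointwise

variable {K L : Type*} [Field K] [Field L] [NumberField K] [NumberField L] [Algebra K L]
  {p : ℕ} [hp : Fact p.Prime]

/-- **Local splitting criterion for Kummer extensions of number fields** (integral form).
Let `v` be a nonzero prime of `𝓞 K`, `ζ` a primitive `p`-th root of unity in `𝓞 K`, `e0` (an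
upper bound for) the valuation of `1 - ζ` at `v` (`e0 = 0` if `v ∤ p`), and `x ≡ b ^ p` modulo
`v ^ (p * e0 + 1)` with `b` prime to `v`.  If `α ^ p = x` in `𝓞 L`, then every element of the
decomposition group of a prime `W` of `L` over `v` fixes `α`. -/
theorem apply_eq_self_of_smul_eq (v : Ideal (𝓞 K)) [v.IsPrime] (hv0 : v ≠ ⊥) (W : Ideal (𝓞 L))
    [W.IsPrime] [W.LiesOver v] {ζ : 𝓞 K} (hζ : IsPrimitiveRoot ζ p) (e0 : ℕ)
    (he0 : 1 - ζ ∉ v ^ (e0 + 1)) (x b : 𝓞 K) (hb : b ∉ v) (h : x - b ^ p ∈ v ^ (p * e0 + 1))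
    (α : 𝓞 L) (hα : α ^ p = algebraMap (𝓞 K) (𝓞 L) x) (τ : L ≃ₐ[K] L) (hτ : τ • W = W) :
    τ (α : L) = α := by
  have h1 := apply_eq_self_of_liesOver v hv0 W hζ e0 he0 x b hb h α hα
    (NumberField.RingOfIntegers.mapAlgHom τ) ?_
  · exact congrArg (fun y : 𝓞 L => (y : L)) h1
  · intro y hy
    have h2 : τ • y ∈ τ • W := Ideal.smul_mem_pointwise_smul τ y W hy
    rw [hτ] at h2
    exact h2

omit [NumberField K] [NumberField L] in
/-- An automorphism of `L = K(α)` fixing `α` is trivial. -/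
theorem eq_one_of_apply_eq_self {α : L} (hgen : IntermediateField.adjoin K {α} = ⊤)
    (τ : L ≃ₐ[K] L) (h1 : τ α = α) : τ = 1 := by
  have h2 : IntermediateField.adjoin K {α} ≤
      IntermediateField.fixedField (Subgroup.zpowers τ) := by
    rw [IntermediateField.adjoin_le_iff, Set.singleton_subset_iff]
    rintro ⟨g, hg⟩
    obtain ⟨k, rfl⟩ := Subgroup.mem_zpowers_iff.mp hg
    have h3 : ∀ n : ℕ, (τ ^ n) α = α := by
      intro n
      induction n with
      | zero => rfl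
      | succ n ih => rw [pow_succ, AlgEquiv.mul_apply, h1, ih]
    have h4 : ∀ n : ℕ, (τ ^ n)⁻¹ α = α := by
      intro n
      have := h3 n
      rw [AlgEquiv.aut_inv, AlgEquiv.symm_apply_eq]
      exact this.symm
    obtain ⟨n, rfl | rfl⟩ := Int.eq_nat_or_neg k
    · simpa using h3 n
    · simpa using h4 n
  rw [hgen] at h2
  ext y
  have h5 : y ∈ IntermediateField.fixedField (Subgroup.zpowers τ) := h2 IntermediateField.mem_top
  exact h5 ⟨τ, Subgroup.mem_zpowers τ⟩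

/-- If moreover `L = K(α)`, the decomposition group of `W` is trivial. -/
theorem eq_one_of_smul_eq (v : Ideal (𝓞 K)) [v.IsPrime] (hv0 : v ≠ ⊥) (W : Ideal (𝓞 L))
    [W.IsPrime] [W.LiesOver v] {ζ : 𝓞 K} (hζ : IsPrimitiveRoot ζ p) (e0 : ℕ)
    (he0 : 1 - ζ ∉ v ^ (e0 + 1)) (x b : 𝓞 K) (hb : b ∉ v) (h : x - b ^ p ∈ v ^ (p * e0 + 1))
    (α : 𝓞 L) (hα : α ^ p = algebraMap (𝓞 K) (𝓞 L) x)
    (hgen : IntermediateField.adjoin K {(α : L)} = ⊤) (τ : L ≃ₐ[K] L) (hτ : τ • W = W) :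
    τ = 1 :=
  eq_one_of_apply_eq_self hgen τ
    (apply_eq_self_of_smul_eq v hv0 W hζ e0 he0 x b hb h α hα τ hτ)

open IsDedekindDomain in
/-- **Local splitting criterion, valuation form** (the shape of the local groups
`L_v = {x | ∃ y, v (x * y⁻¹ ^ p - 1) ≤ exp (-k_v)}`): if `x * y⁻¹ ^ p ≡ 1` modulo
`v ^ (p * e0 + 1)`, where `e0` bounds the valuation of `1 - ζ` at `v`, and `α ^ p = x` in `L`,
then every element of the decomposition group of a prime `W` of `L` over `v` fixes `α`. -/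
theorem apply_eq_self_of_valuation_le (v : HeightOneSpectrum (𝓞 K)) (W : Ideal (𝓞 L))
    [W.IsPrime] [W.LiesOver v.asIdeal] {ζ : 𝓞 K} (hζ : IsPrimitiveRoot ζ p) (e0 : ℕ)
    (he0 : 1 - ζ ∉ v.asIdeal ^ (e0 + 1)) (x y : K) (hy : y ≠ 0)
    (h : v.valuation K (x * y⁻¹ ^ p - 1) ≤ WithZero.exp (-((p * e0 + 1 : ℕ) : ℤ)))
    (α : L) (hα : α ^ p = algebraMap K L x) (τ : L ≃ₐ[K] L) (hτ : τ • W = W) : τ α = α := by
  have hpos : 0 < p := hp.out.pos
  set z : K := x * y⁻¹ ^ p with hz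
  -- `z` is `v`-integral
  have hexp : WithZero.exp (-((p * e0 + 1 : ℕ) : ℤ)) ≤ (1 : WithZero (Multiplicative ℤ)) := by
    rw [← WithZero.exp_zero, WithZero.exp_le_exp]
    omega
  have hz1 : v.valuation K z ≤ 1 := by
    have h1 : z = (z - 1) + 1 := by ring
    rw [h1]
    exact (v.valuation K).map_add_le (h.trans hexp) (by rw [map_one])
  obtain ⟨n, ⟨d, hd⟩, hnd⟩ := v.exists_primeCompl_mul_eq_of_integer z hz1
  have hdv : d ∉ v.asIdeal := hd
  have hd0 : d ≠ 0 := by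
    rintro rfl
    exact hdv (zero_mem _)
  have hdK : algebraMap (𝓞 K) K d ≠ 0 := by
    rwa [Ne, FaithfulSMul.algebraMap_eq_zero_iff]
  -- `n ≡ d` modulo `v ^ (p * e0 + 1)`
  have hnd' : n - d ∈ v.asIdeal ^ (p * e0 + 1) := by
    have h1 : algebraMap (𝓞 K) K (n - d) = (z - 1) * algebraMap (𝓞 K) K d := by
      rw [map_sub, ← hnd]
      ring
    have h2 : v.valuation K (algebraMap (𝓞 K) K (n - d)) ≤
        WithZero.exp (-((p * e0 + 1 : ℕ) : ℤ)) := by
      rw [h1, map_mul, v.valuation_of_algebraMap]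
      calc v.valuation K (z - 1) * v.intValuation d
          ≤ WithZero.exp (-((p * e0 + 1 : ℕ) : ℤ)) * 1 :=
            mul_le_mul' h (v.intValuation_le_one d)
        _ = WithZero.exp (-((p * e0 + 1 : ℕ) : ℤ)) := mul_one _
    rw [← v.intValuation_le_pow_iff_mem, ← v.valuation_of_algebraMap (K := K)]
    exact h2
  -- the integral Kummer generator
  have hx'' : n * d ^ (p - 1) - d ^ p ∈ v.asIdeal ^ (p * e0 + 1) := by
    have h1 : n * d ^ (p - 1) - d ^ p = d ^ (p - 1) * (n - d) := by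
      have h2 : d ^ p = d ^ (p - 1) * d := by
        rw [← pow_succ]
        congr 1
        omega
      rw [h2]
      ring
    rw [h1]
    exact Ideal.mul_mem_left _ _ hnd'
  set c : K := y⁻¹ * algebraMap (𝓞 K) K d with hc
  have hc0 : c ≠ 0 := mul_ne_zero (inv_ne_zero hy) hdK
  have hxc : x * c ^ p = algebraMap (𝓞 K) K (n * d ^ (p - 1)) := by
    have h2 : (algebraMap (𝓞 K) K d) ^ p = (algebraMap (𝓞 K) K d) ^ (p - 1) *
        algebraMap (𝓞 K) K d := by
      rw [← pow_succ]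
      congr 1
      omega
    rw [hc, mul_pow, map_mul, map_pow, ← hnd, h2, hz]
    ring
  have hαp : (α * algebraMap K L c) ^ p =
      algebraMap (𝓞 L) L (algebraMap (𝓞 K) (𝓞 L) (n * d ^ (p - 1))) := by
    rw [mul_pow, hα, ← map_pow, ← map_mul, hxc]
    rfl
  have hint : IsIntegral ℤ (α * algebraMap K L c) := by
    refine IsIntegral.of_pow hpos ?_
    rw [hαp]
    exact NumberField.RingOfIntegers.isIntegral_coe _
  have hv0 : v.asIdeal ≠ ⊥ := v.ne_bot
  have : v.asIdeal.IsPrime := v.isPrime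
  have h3 := apply_eq_self_of_smul_eq v.asIdeal hv0 W hζ e0 he0 (n * d ^ (p - 1)) d hdv hx''
    (⟨α * algebraMap K L c, hint⟩ : 𝓞 L)
    (NumberField.RingOfIntegers.ext hαp) τ hτ
  have h4 : τ (α * algebraMap K L c) = α * algebraMap K L c := h3
  rw [map_mul, τ.commutes] at h4
  have hcL : algebraMap K L c ≠ 0 := by
    rwa [Ne, FaithfulSMul.algebraMap_eq_zero_iff]
  exact mul_right_cancel₀ hcL h4

open IsDedekindDomain in
/-- Valuation form, with `L = K(α)`: the decomposition group of `W` is trivial. -/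
theorem eq_one_of_valuation_le (v : HeightOneSpectrum (𝓞 K)) (W : Ideal (𝓞 L))
    [W.IsPrime] [W.LiesOver v.asIdeal] {ζ : 𝓞 K} (hζ : IsPrimitiveRoot ζ p) (e0 : ℕ)
    (he0 : 1 - ζ ∉ v.asIdeal ^ (e0 + 1)) (x y : K) (hy : y ≠ 0)
    (h : v.valuation K (x * y⁻¹ ^ p - 1) ≤ WithZero.exp (-((p * e0 + 1 : ℕ) : ℤ)))
    (α : L) (hα : α ^ p = algebraMap K L x) (hgen : IntermediateField.adjoin K {α} = ⊤)
    (τ : L ≃ₐ[K] L) (hτ : τ • W = W) : τ = 1 :=
  eq_one_of_apply_eq_self hgen τ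
    (apply_eq_self_of_valuation_le v W hζ e0 he0 x y hy h α hα τ hτ)

open IsDedekindDomain in
/-- Valuation form, for a nontrivial Galois extension `L = K(α)`: there is a second prime of `L`
over `v` (so `v` is neither inert nor totally ramified in `L`). -/
theorem exists_ne_prime_of_valuation_le [IsGalois K L] (v : HeightOneSpectrum (𝓞 K))
    (W : Ideal (𝓞 L)) [W.IsPrime] [W.LiesOver v.asIdeal] {ζ : 𝓞 K} (hζ : IsPrimitiveRoot ζ p)
    (e0 : ℕ) (he0 : 1 - ζ ∉ v.asIdeal ^ (e0 + 1)) (x y : K) (hy : y ≠ 0)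
    (h : v.valuation K (x * y⁻¹ ^ p - 1) ≤ WithZero.exp (-((p * e0 + 1 : ℕ) : ℤ)))
    (α : L) (hα : α ^ p = algebraMap K L x) (hgen : IntermediateField.adjoin K {α} = ⊤)
    (hnt : ∃ τ : L ≃ₐ[K] L, τ ≠ 1) :
    ∃ W' : Ideal (𝓞 L), W'.IsPrime ∧ W'.LiesOver v.asIdeal ∧ W' ≠ W := by
  obtain ⟨τ, hτ⟩ := hnt
  exact ⟨τ • W, inferInstance, inferInstance, fun hW =>
    hτ (eq_one_of_valuation_le v W hζ e0 he0 x y hy h α hα hgen τ hW)⟩

/-- Integral form, for a nontrivial Galois extension `L = K(α)`: there is a second prime of `L`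
over `v`. -/
theorem exists_ne_prime_of_primary [IsGalois K L] (v : Ideal (𝓞 K)) [v.IsPrime] (hv0 : v ≠ ⊥)
    (W : Ideal (𝓞 L)) [W.IsPrime] [W.LiesOver v] {ζ : 𝓞 K} (hζ : IsPrimitiveRoot ζ p) (e0 : ℕ)
    (he0 : 1 - ζ ∉ v ^ (e0 + 1)) (x b : 𝓞 K) (hb : b ∉ v) (h : x - b ^ p ∈ v ^ (p * e0 + 1))
    (α : 𝓞 L) (hα : α ^ p = algebraMap (𝓞 K) (𝓞 L) x)
    (hgen : IntermediateField.adjoin K {(α : L)} = ⊤) (hnt : ∃ τ : L ≃ₐ[K] L, τ ≠ 1) :
    ∃ W' : Ideal (𝓞 L), W'.IsPrime ∧ W'.LiesOver v ∧ W' ≠ W := by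
  obtain ⟨τ, hτ⟩ := hnt
  exact ⟨τ • W, inferInstance, inferInstance, fun hW =>
    hτ (eq_one_of_smul_eq v hv0 W hζ e0 he0 x b hb h α hα hgen τ hW)⟩

end NumberField

end Fermat.Agent.Lib.KummerPrimary
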