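import Mathlib
import Fermat.Agent.CFT.Coh.Herbrand

/-!
# The lattice lemma for Herbrand quotients

* `exists_intertwiner` (Noether–Deuring, matrix form): two families of square matrices over an
  infinite field `K` that are simultaneously conjugate over an extension field `L` are
  simultaneously conjugate over `K`.
* `exists_equivariant_embedding`: two full `ℤ`-lattices of a real vector space, both stable under
  a family of linear endomorphisms, admit an injective equivariant additive map with image of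
  finite index.
* `hq_eq_of_isZLattice`: consequently their Herbrand quotients agree.
-/

set_option autoImplicit false

namespace Fermat.Agent.Lib.LatticeHerbrand

open Matrix Module

section NoetherDeuring

variable {K L : Type*} [Field K] [Field L] [Algebra K L]
  {n ι : Type*} [Fintype n] [DecidableEq n]

/-- entrywise application of a `K`-linear functional -/
def coordMat (c : L →ₗ[K] K) (P : Matrix n n L) : Matrix n n K := fun a b => c (P a b)

omit [DecidableEq n] in
lemma coordMat_mul_map (c : L →ₗ[K] K) (P : Matrix n n L) (A : Matrix n n K) :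
    coordMat c (P * A.map (algebraMap K L)) = coordMat c P * A := by
  ext a b
  simp only [coordMat, Matrix.mul_apply, Matrix.map_apply, map_sum]
  refine Finset.sum_congr rfl fun x _ => ?_
  rw [mul_comm (P a x), ← Algebra.smul_def, map_smul, smul_eq_mul, mul_comm]

omit [DecidableEq n] in
lemma coordMat_map_mul (c : L →ₗ[K] K) (P : Matrix n n L) (C : Matrix n n K) :
    coordMat c (C.map (algebraMap K L) * P) = C * coordMat c P := by
  ext a b
  simp only [coordMat, Matrix.mul_apply, Matrix.map_apply, map_sum]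
  refine Finset.sum_congr rfl fun x _ => ?_
  rw [← Algebra.smul_def, map_smul, smul_eq_mul]

lemma exists_intertwiner_aux [Infinite K] {κ : Type*} (B : Basis κ K L)
    (A C : ι → Matrix n n K) (P : Matrix n n L) (hP : P.det ≠ 0)
    (h : ∀ i, P * (A i).map (algebraMap K L) = (C i).map (algebraMap K L) * P) :
    ∃ X : Matrix n n K, X.det ≠ 0 ∧ ∀ i, X * A i = C i * X := by
  classical
  let s : Finset κ :=
    (Finset.univ : Finset (n × n)).biUnion fun ab => (B.repr (P ab.1 ab.2)).support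
  let Xj : κ → Matrix n n K := fun j => coordMat (B.coord j) P
  have hXj : ∀ j i, Xj j * A i = C i * Xj j := by
    intro j i
    rw [← coordMat_mul_map, ← coordMat_map_mul, h i]
  -- the entries of `P` in the basis
  have hPent : ∀ a b, P a b = ∑ j ∈ s, algebraMap K L (Xj j a b) * B j := by
    intro a b
    have h1 := B.linearCombination_repr (P a b)
    rw [Finsupp.linearCombination_apply] at h1
    have hsub : (B.repr (P a b)).support ⊆ s := by
      intro j hj
      exact Finset.mem_biUnion.mpr ⟨(a, b), Finset.mem_univ _, hj⟩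
    have h2 := Finsupp.sum_of_support_subset (B.repr (P a b)) hsub (fun i a => a • B i)
      (fun i _ => zero_smul K (B i))
    rw [h2] at h1
    conv_lhs => rw [← h1]
    refine Finset.sum_congr rfl fun j _ => ?_
    rw [Algebra.smul_def]
    rfl
  -- the generic linear combination
  let M : Matrix n n (MvPolynomial κ K) :=
    ∑ j ∈ s, (MvPolynomial.X j : MvPolynomial κ K) • (Xj j).map (MvPolynomial.C (σ := κ))
  have hMent : ∀ a b, M a b = ∑ j ∈ s, MvPolynomial.X j * MvPolynomial.C (Xj j a b) := by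
    intro a b
    simp only [M, Matrix.sum_apply, Matrix.smul_apply, Matrix.map_apply, smul_eq_mul]
  have hev : (MvPolynomial.aeval (fun j => B j) : MvPolynomial κ K →ₐ[K] L).mapMatrix M = P := by
    ext a b
    rw [AlgHom.mapMatrix_apply, Matrix.map_apply, hMent, map_sum, hPent]
    refine Finset.sum_congr rfl fun j _ => ?_
    rw [map_mul, MvPolynomial.aeval_X, MvPolynomial.aeval_C, mul_comm]
  have hD : M.det ≠ 0 := by
    intro h0
    have := AlgHom.map_det (MvPolynomial.aeval (fun j => B j) : MvPolynomial κ K →ₐ[K] L) M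
    rw [hev, h0, map_zero] at this
    exact hP this.symm
  obtain ⟨q, hq⟩ : ∃ q, MvPolynomial.eval q M.det ≠ 0 := by
    by_contra hcon
    push Not at hcon
    apply hD
    apply MvPolynomial.funext
    intro x
    rw [hcon x, map_zero]
  refine ⟨∑ j ∈ s, q j • Xj j, ?_, ?_⟩
  · have hX : (MvPolynomial.eval q).mapMatrix M = ∑ j ∈ s, q j • Xj j := by
      ext a b
      rw [RingHom.mapMatrix_apply, Matrix.map_apply, hMent, map_sum, Matrix.sum_apply]
      refine Finset.sum_congr rfl fun j _ => ?_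
      rw [map_mul, MvPolynomial.eval_X, MvPolynomial.eval_C, Matrix.smul_apply, smul_eq_mul]
    rw [← hX, ← RingHom.map_det]
    exact hq
  · intro i
    rw [Finset.sum_mul, Finset.mul_sum]
    refine Finset.sum_congr rfl fun j _ => ?_
    rw [Matrix.smul_mul, Matrix.mul_smul, hXj j i]

/-- **Noether–Deuring** in matrix form: simultaneous conjugacy descends from an extension field
to an infinite base field. -/
theorem exists_intertwiner [Infinite K] (A C : ι → Matrix n n K) (P : Matrix n n L)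
    (hP : P.det ≠ 0)
    (h : ∀ i, P * (A i).map (algebraMap K L) = (C i).map (algebraMap K L) * P) :
    ∃ X : Matrix n n K, X.det ≠ 0 ∧ ∀ i, X * A i = C i * X :=
  exists_intertwiner_aux (Basis.ofVectorSpace K L) A C P hP h

end NoetherDeuring

section Core

variable {M₁ M₂ V : Type*} [AddCommGroup M₁] [AddCommGroup M₂] [AddCommGroup V] [Module ℝ V]
  {d : ℕ} (b₁ : Basis (Fin d) ℤ M₁) (b₂ : Basis (Fin d) ℤ M₂)
  (B₁ B₂ : Basis (Fin d) ℝ V) (j₁ : M₁ →ₗ[ℤ] V) (j₂ : M₂ →ₗ[ℤ] V)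

omit [AddCommGroup M₂] in
/-- the real matrix of `T` is the integer matrix of its restriction to the lattice -/
lemma toMatrix_eq_map
    (hB₁ : ∀ (x : M₁) (k : Fin d), B₁.repr (j₁ x) k = (b₁.repr x k : ℝ))
    (T : V →ₗ[ℝ] V) (t₁ : M₁ →ₗ[ℤ] M₁) (h₁ : ∀ x, j₁ (t₁ x) = T (j₁ x)) :
    LinearMap.toMatrix B₁ B₁ T = (LinearMap.toMatrix b₁ b₁ t₁).map (Int.cast : ℤ → ℝ) := by
  have hb : ∀ l, j₁ (b₁ l) = B₁ l := by
    intro l
    apply B₁.repr.injective
    ext k
    rw [hB₁, Basis.repr_self, Basis.repr_self, Finsupp.single_apply, Finsupp.single_apply]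
    split_ifs <;> simp
  ext k l
  rw [LinearMap.toMatrix_apply, Matrix.map_apply, LinearMap.toMatrix_apply, ← hb, ← h₁, hB₁]

/-- **core of the lattice lemma**: two lattices with bases `b₁`, `b₂` that are real bases of the
same space, stable under a family of endomorphisms, admit an injective equivariant map. -/
theorem exists_equivariant_core
    (hB₁ : ∀ (x : M₁) (k : Fin d), B₁.repr (j₁ x) k = (b₁.repr x k : ℝ))
    (hB₂ : ∀ (x : M₂) (k : Fin d), B₂.repr (j₂ x) k = (b₂.repr x k : ℝ))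
    {ι : Type*} (T : ι → V →ₗ[ℝ] V) (t₁ : ι → M₁ →ₗ[ℤ] M₁) (t₂ : ι → M₂ →ₗ[ℤ] M₂)
    (h₁ : ∀ i x, j₁ (t₁ i x) = T i (j₁ x)) (h₂ : ∀ i x, j₂ (t₂ i x) = T i (j₂ x)) :
    ∃ ψ : M₁ →ₗ[ℤ] M₂, Function.Injective ψ ∧ ∀ i, ψ ∘ₗ t₁ i = t₂ i ∘ₗ ψ := by
  classical
  let A : ι → Matrix (Fin d) (Fin d) ℤ := fun i => LinearMap.toMatrix b₁ b₁ (t₁ i)
  let C : ι → Matrix (Fin d) (Fin d) ℤ := fun i => LinearMap.toMatrix b₂ b₂ (t₂ i)
  let P : Matrix (Fin d) (Fin d) ℝ := B₂.toMatrix B₁
  have hP : P.det ≠ 0 := by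
    have h := congrArg Matrix.det (B₂.toMatrix_mul_toMatrix_flip B₁)
    rw [Matrix.det_mul, Matrix.det_one] at h
    exact left_ne_zero_of_mul_eq_one h
  have hcast : ∀ Z : Matrix (Fin d) (Fin d) ℤ,
      (Z.map (Int.cast : ℤ → ℚ)).map (algebraMap ℚ ℝ) = Z.map (Int.cast : ℤ → ℝ) := by
    intro Z
    ext k l
    simp
  have hPAC : ∀ i, P * ((A i).map (Int.cast : ℤ → ℚ)).map (algebraMap ℚ ℝ) =
      ((C i).map (Int.cast : ℤ → ℚ)).map (algebraMap ℚ ℝ) * P := by
    intro i
    rw [hcast, hcast, ← toMatrix_eq_map b₁ B₁ j₁ hB₁ (T i) (t₁ i) (h₁ i),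
      ← toMatrix_eq_map b₂ B₂ j₂ hB₂ (T i) (t₂ i) (h₂ i)]
    rw [basis_toMatrix_mul_linearMap_toMatrix, linearMap_toMatrix_mul_basis_toMatrix]
  obtain ⟨X, hX, hXAC⟩ := exists_intertwiner (K := ℚ) (L := ℝ)
    (fun i => (A i).map (Int.cast : ℤ → ℚ)) (fun i => (C i).map (Int.cast : ℤ → ℚ)) P hP hPAC
  -- clear denominators
  obtain ⟨m, hm⟩ := IsLocalization.exist_integer_multiples_of_finite (nonZeroDivisors ℤ)
    (fun ab : Fin d × Fin d => X ab.1 ab.2)
  have hm0 : (m : ℤ) ≠ 0 := nonZeroDivisors.coe_ne_zero m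
  choose z hz using hm
  let Z : Matrix (Fin d) (Fin d) ℤ := fun a b => z (a, b)
  have hZ : Z.map (Int.cast : ℤ → ℚ) = ((m : ℤ) : ℚ) • X := by
    ext a b
    have h3 := hz (a, b)
    rw [eq_intCast] at h3
    show ((z (a, b) : ℤ) : ℚ) = (((m : ℤ) : ℚ) • X) a b
    rw [h3, Matrix.smul_apply, zsmul_eq_mul, smul_eq_mul]
  have hZdet : Z.det ≠ 0 := by
    intro h0
    have h1 : (Z.map (Int.cast : ℤ → ℚ)).det = 0 := by
      have := (Int.castRingHom ℚ).map_det Z
      rw [h0, map_zero] at this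
      exact this.symm
    rw [hZ, Matrix.det_smul] at h1
    rcases mul_eq_zero.mp h1 with h2 | h2
    · exact pow_ne_zero _ (Int.cast_ne_zero.mpr hm0) h2
    · exact hX h2
  have hZAC : ∀ i, Z * A i = C i * Z := by
    intro i
    have hinj : Function.Injective
        (fun W : Matrix (Fin d) (Fin d) ℤ => W.map (Int.cast : ℤ → ℚ)) := by
      intro W W' hW
      ext a b
      have := congrFun (congrFun hW a) b
      simpa using this
    apply hinj
    show (Z * A i).map (Int.castRingHom ℚ) = (C i * Z).map (Int.castRingHom ℚ)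
    rw [Matrix.map_mul, Matrix.map_mul]
    show Z.map (Int.cast : ℤ → ℚ) * (A i).map (Int.cast : ℤ → ℚ) =
      (C i).map (Int.cast : ℤ → ℚ) * Z.map (Int.cast : ℤ → ℚ)
    rw [hZ, Matrix.smul_mul, Matrix.mul_smul, hXAC i]
  refine ⟨Matrix.toLin b₁ b₂ Z, ?_, ?_⟩
  · rw [← LinearMap.ker_eq_bot, LinearMap.ker_eq_bot']
    intro x hx
    have h1 := LinearMap.toMatrix_mulVec_repr b₁ b₂ (Matrix.toLin b₁ b₂ Z) x
    rw [LinearMap.toMatrix_toLin, hx, map_zero] at h1
    have h2 : (b₁.repr x : Fin d → ℤ) = 0 := Matrix.eq_zero_of_mulVec_eq_zero hZdet h1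
    apply b₁.repr.injective
    ext k
    rw [map_zero]
    exact congrFun h2 k
  · intro i
    have e1 : Matrix.toLin b₁ b₂ (Z * A i) = (Matrix.toLin b₁ b₂ Z) ∘ₗ t₁ i := by
      rw [Matrix.toLin_mul b₁ b₁ b₂, Matrix.toLin_toMatrix]
    have e2 : Matrix.toLin b₁ b₂ (C i * Z) = t₂ i ∘ₗ (Matrix.toLin b₁ b₂ Z) := by
      rw [Matrix.toLin_mul b₁ b₂ b₂, Matrix.toLin_toMatrix]
    rw [← e1, ← e2, hZAC i]

end Core

section Abstract

open Fermat.Agent.CFT

variable {A B : Type*} [AddCommGroup A] [AddCommGroup B]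

/-- the Herbrand quotient is unchanged along an injective map with finite cokernel that
intertwines the two pairs of endomorphisms (wrapper of `Herbrand.hq_eq_of_finite_coker`). -/
theorem hq_eq_of_injective_of_finite_coker (ψ : A →+ B) (hinj : Function.Injective ψ)
    [hfin : Finite (B ⧸ ψ.range)] (fA gA : A →+ A) (fB gB : B →+ B)
    (hfgB : fB.comp gB = 0) (hgfB : gB.comp fB = 0)
    (hf : ∀ a, fB (ψ a) = ψ (fA a)) (hg : ∀ a, gB (ψ a) = ψ (gA a)) :
    (Herbrand.IsFin fA gA ↔ Herbrand.IsFin fB gB) ∧ Herbrand.hq fA gA = Herbrand.hq fB gB := by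
  have hfle : ψ.range ≤ ψ.range.comap fB := by
    rintro _ ⟨a, rfl⟩
    exact ⟨fA a, (hf a).symm⟩
  have hgle : ψ.range ≤ ψ.range.comap gB := by
    rintro _ ⟨a, rfl⟩
    exact ⟨gA a, (hg a).symm⟩
  have hE : Herbrand.Exact3 ψ (QuotientAddGroup.mk' ψ.range) fA gA fB gB
      (QuotientAddGroup.map ψ.range ψ.range fB hfle)
      (QuotientAddGroup.map ψ.range ψ.range gB hgle) :=
    { inj := hinj
      surj := QuotientAddGroup.mk'_surjective _
      exact := (QuotientAddGroup.ker_mk' _).symm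
      fgB := hfgB
      gfB := hgfB
      fi := hf
      gi := hg
      fp := fun b => rfl
      gp := fun b => rfl }
  exact Herbrand.hq_eq_of_finite_coker hE

end Abstract

section ZLattice

open Fermat.Agent.CFT

variable {V : Type*} [NormedAddCommGroup V] [NormedSpace ℝ V] [FiniteDimensional ℝ V]
  (L₁ L₂ : Submodule ℤ V) [DiscreteTopology L₁] [IsZLattice ℝ L₁]
  [DiscreteTopology L₂] [IsZLattice ℝ L₂]

/-- **the lattice lemma**: two full lattices of a real vector space, both stable under a family of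
linear endomorphisms, admit an injective equivariant `ℤ`-linear map with finite cokernel. -/
theorem exists_equivariant_linear {ι : Type*} (T : ι → V →ₗ[ℝ] V)
    (h₁ : ∀ i, ∀ x ∈ L₁, T i x ∈ L₁) (h₂ : ∀ i, ∀ x ∈ L₂, T i x ∈ L₂) :
    ∃ ψ : L₁ →ₗ[ℤ] L₂, Function.Injective ψ ∧ Finite (L₂ ⧸ LinearMap.range ψ) ∧
      ∀ i (x : L₁), (ψ ⟨T i x, h₁ i x x.2⟩ : V) = T i (ψ x) := by
  classical
  have r₁ : finrank ℤ L₁ = finrank ℝ V := ZLattice.rank ℝ L₁
  have r₂ : finrank ℤ L₂ = finrank ℝ V := ZLattice.rank ℝ L₂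
  let b₁ : Basis (Fin (finrank ℝ V)) ℤ L₁ := (Module.finBasis ℤ L₁).reindex (finCongr r₁)
  let b₂ : Basis (Fin (finrank ℝ V)) ℤ L₂ := (Module.finBasis ℤ L₂).reindex (finCongr r₂)
  let t₁ : ι → L₁ →ₗ[ℤ] L₁ := fun i => ((T i).restrictScalars ℤ).restrict (h₁ i)
  let t₂ : ι → L₂ →ₗ[ℤ] L₂ := fun i => ((T i).restrictScalars ℤ).restrict (h₂ i)
  obtain ⟨ψ, hinj, hψ⟩ := exists_equivariant_core b₁ b₂ (b₁.ofZLatticeBasis ℝ L₁)
    (b₂.ofZLatticeBasis ℝ L₂) L₁.subtype L₂.subtype
    (fun x k => b₁.ofZLatticeBasis_repr_apply ℝ L₁ x k)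
    (fun x k => b₂.ofZLatticeBasis_repr_apply ℝ L₂ x k) T t₁ t₂
    (fun i x => rfl) (fun i x => rfl)
  refine ⟨ψ, hinj, ?_, ?_⟩
  · apply Submodule.finiteQuotientOfFreeOfRankEq
    rw [LinearMap.finrank_range_of_inj hinj, r₁, r₂]
  · intro i x
    have := LinearMap.congr_fun (hψ i) x
    exact congrArg Subtype.val this

/-- additive form of the lattice lemma -/
theorem exists_equivariant_embedding {ι : Type*} (T : ι → V →ₗ[ℝ] V)
    (h₁ : ∀ i, ∀ x ∈ L₁, T i x ∈ L₁) (h₂ : ∀ i, ∀ x ∈ L₂, T i x ∈ L₂) :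
    ∃ ψ : L₁ →+ L₂, Function.Injective ψ ∧ Finite (L₂ ⧸ ψ.range) ∧
      ∀ i (x : L₁), (ψ ⟨T i x, h₁ i x x.2⟩ : V) = T i (ψ x) := by
  obtain ⟨ψ, hinj, hfin, hψ⟩ := exists_equivariant_linear L₁ L₂ T h₁ h₂
  refine ⟨ψ.toAddMonoidHom, hinj, ?_, hψ⟩
  have e : (ψ.toAddMonoidHom.range : AddSubgroup L₂) = (LinearMap.range ψ).toAddSubgroup := by
    ext x
    simp
  rw [e]
  exact hfin

/-- restriction of a real-linear endomorphism to a stable lattice, as an additive endomorphism -/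
def restrictAdd (f : V →ₗ[ℝ] V) (L : Submodule ℤ V) (h : ∀ x ∈ L, f x ∈ L) : L →+ L :=
  (((f.restrictScalars ℤ).restrict h : L →ₗ[ℤ] L)).toAddMonoidHom

omit [FiniteDimensional ℝ V] in
@[simp] lemma restrictAdd_coe (f : V →ₗ[ℝ] V) (L : Submodule ℤ V) (h : ∀ x ∈ L, f x ∈ L)
    (x : L) : (restrictAdd f L h x : V) = f x := rfl

/-- **Herbrand quotients of two stable full lattices agree.** -/
theorem hq_eq_of_isZLattice (f g : V →ₗ[ℝ] V) (hfg : f ∘ₗ g = 0) (hgf : g ∘ₗ f = 0)
    (hf₁ : ∀ x ∈ L₁, f x ∈ L₁) (hg₁ : ∀ x ∈ L₁, g x ∈ L₁)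
    (hf₂ : ∀ x ∈ L₂, f x ∈ L₂) (hg₂ : ∀ x ∈ L₂, g x ∈ L₂) :
    (Herbrand.IsFin (restrictAdd f L₁ hf₁) (restrictAdd g L₁ hg₁) ↔
        Herbrand.IsFin (restrictAdd f L₂ hf₂) (restrictAdd g L₂ hg₂)) ∧
      Herbrand.hq (restrictAdd f L₁ hf₁) (restrictAdd g L₁ hg₁) =
        Herbrand.hq (restrictAdd f L₂ hf₂) (restrictAdd g L₂ hg₂) := by
  obtain ⟨ψ, hinj, hfin, hψ⟩ := exists_equivariant_embedding L₁ L₂
    (fun b : Bool => if b then f else g)
    (fun b x hx => by cases b <;> simp [hf₁ x hx, hg₁ x hx])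
    (fun b x hx => by cases b <;> simp [hf₂ x hx, hg₂ x hx])
  refine hq_eq_of_injective_of_finite_coker ψ hinj _ _ _ _ ?_ ?_ ?_ ?_
  · ext x
    have := LinearMap.congr_fun hfg (x : V)
    simpa using this
  · ext x
    have := LinearMap.congr_fun hgf (x : V)
    simpa using this
  · intro a
    apply Subtype.ext
    have := hψ true a
    simp only [if_true] at this
    rw [restrictAdd_coe, ← this]
    rfl
  · intro a
    apply Subtype.ext
    have := hψ false a
    simp only [Bool.false_eq_true, if_false] at this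
    rw [restrictAdd_coe, ← this]
    rfl

end ZLattice

end Fermat.Agent.Lib.LatticeHerbrand
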