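/-
P5 (S30), block [MODFUN], sub-leaf (MF-ROOT) (helper81).

An `n`-th root in `ℂ((q))` of a Laurent series with coefficients in an algebraically closed
subfield `ι : K →+* ℂ` has its coefficients in `K`.

* `mem_range_of_pow_mem_range`   : `w ^ n ∈ ι(K)` ⟹ `w ∈ ι(K)` (any field `Ω`, `K` algebraically
                                   closed);
* `exists_const_of_pow_eq`       : two Laurent series over `ℂ` with the same `n`-th power differ
                                   by a constant `n`-th root of unity;
* `mem_range_coeffMap_of_forall` : a Laurent series all of whose coefficients lie in `ι(K)` is in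
                                   the range of `coeffMap ι`;
* `mem_range_coeffMap_of_pow`    : the statement of (MF-ROOT).
-/
import Mathlib
import Fermat.Prelude.Def_ModularCurve_LaurentCoeff
import Fermat.Agent.Lib.AutTranscendental

set_option autoImplicit false

namespace Fermat.Agent.Lib.LaurentRoot

open ModularCurve

/-- Over an algebraically closed `K`, an element of an extension field whose `n`-th power lies in
`K` lies in `K`. -/
theorem mem_range_of_pow_mem_range {K Ω : Type*} [Field K] [Field Ω] [IsAlgClosed K]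
    (ι : K →+* Ω) (n : ℕ) (hn : 0 < n) (w : Ω) (h : w ^ n ∈ Set.range ι) :
    w ∈ Set.range ι := by
  obtain ⟨a, ha⟩ := h
  letI : Algebra K Ω := ι.toAlgebra
  have halg : IsAlgebraic K w := by
    refine ⟨Polynomial.X ^ n - Polynomial.C a, ?_, ?_⟩
    · exact Polynomial.X_pow_sub_C_ne_zero hn a
    · simp only [map_sub, map_pow, Polynomial.aeval_X, Polynomial.aeval_C]
      rw [sub_eq_zero]
      exact ha.symm
  exact Fermat.Agent.Lib.AutTranscendental.mem_range_of_isAlgebraic w halg

/-- A Laurent series over a field whose coefficients all lie in the range of `ι` is in the range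
of `coeffMap ι`. -/
theorem mem_range_coeffMap_of_forall {K Ω : Type*} [Field K] [Field Ω] (ι : K →+* Ω)
    (x : LaurentSeries Ω) (h : ∀ k : ℤ, x.coeff k ∈ Set.range ι) :
    x ∈ Set.range (coeffMap ι) := by
  classical
  let g : ZeroHom Ω K :=
    { toFun := fun w => if hw : w ∈ Set.range ι then hw.choose else 0
      map_zero' := by
        have h0 : (0 : Ω) ∈ Set.range ι := ⟨0, map_zero ι⟩
        rw [dif_pos h0]
        exact ι.injective (h0.choose_spec.trans (map_zero ι).symm) }
  refine ⟨x.map g, ?_⟩
  ext k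
  rw [coeffMap_coeff, HahnSeries.map_coeff]
  have hk := h k
  show ι (if hw : x.coeff k ∈ Set.range ι then hw.choose else 0) = x.coeff k
  rw [dif_pos hk]
  exact hk.choose_spec

/-- Two Laurent series over `ℂ` with the same `n`-th power differ by a constant `n`-th root of
unity. -/
theorem exists_const_of_pow_eq (n : ℕ) (hn : 0 < n) (x z : LaurentSeries ℂ) (hx : x ≠ 0)
    (h : z ^ n = x ^ n) : ∃ w : ℂ, w ^ n = 1 ∧ ∀ k : ℤ, z.coeff k = w * x.coeff k := by
  haveI : NeZero n := ⟨hn.ne'⟩
  have hζ := Complex.isPrimitiveRoot_exp n hn.ne'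
  set ζ : ℂ := Complex.exp (2 * Real.pi * Complex.I / n) with hζdef
  have hζ' : IsPrimitiveRoot ((HahnSeries.C : ℂ →+* LaurentSeries ℂ) ζ) n :=
    hζ.map_of_injective HahnSeries.C_injective
  have hq : (z / x) ^ n = 1 := by
    rw [div_pow, h]
    exact div_self (pow_ne_zero n hx)
  obtain ⟨i, -, hi⟩ := hζ'.eq_pow_of_pow_eq_one hq
  refine ⟨ζ ^ i, ?_, fun k => ?_⟩
  · rw [← pow_mul, mul_comm, pow_mul, hζ.pow_eq_one, one_pow]
  · have hz : z = (HahnSeries.C : ℂ →+* LaurentSeries ℂ) (ζ ^ i) * x := by
      rw [map_pow, hi]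
      exact (div_mul_cancel₀ z hx).symm
    rw [hz, HahnSeries.C_mul_eq_smul, HahnSeries.coeff_smul, smul_eq_mul]

/-- **(MF-ROOT)** an `n`-th root in `ℂ((q))` of a Laurent series with coefficients in an
algebraically closed subfield `ι : K →+* ℂ` has coefficients in `K`. -/
theorem mem_range_coeffMap_of_pow {K : Type*} [Field K] [IsAlgClosed K] [CharZero K]
    (ι : K →+* ℂ) (n : ℕ) (hn : 0 < n) (x : LaurentSeries ℂ) (y : LaurentSeries K)
    (h : x ^ n = ModularCurve.coeffMap ι y) : x ∈ Set.range (ModularCurve.coeffMap ι) := by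
  by_cases hx : x = 0
  · exact ⟨0, by rw [hx, map_zero]⟩
  letI : Algebra K ℂ := ι.toAlgebra
  -- every automorphism multiplies `x` by a constant root of unity
  have key : ∀ σ : ℂ ≃ₐ[K] ℂ, ∃ w : ℂ, w ^ n = 1 ∧ ∀ k : ℤ, σ (x.coeff k) = w * x.coeff k := by
    intro σ
    have hz : (coeffMap (σ : ℂ →+* ℂ) x) ^ n = x ^ n := by
      rw [← map_pow, h, coeffMap_coeffMap]
      refine coeffMap_congr (RingHom.ext fun a => ?_) y
      exact σ.commutes a
    obtain ⟨w, hw, hwk⟩ := exists_const_of_pow_eq n hn x _ hx hz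
    exact ⟨w, hw, fun k => by simpa using hwk k⟩
  -- a nonzero coefficient
  obtain ⟨k₀, hk₀⟩ : ∃ k₀ : ℤ, x.coeff k₀ ≠ 0 := by
    by_contra hcon
    push Not at hcon
    exact hx (HahnSeries.ext (funext hcon))
  -- its `n`-th power is fixed by every automorphism, hence lies in `K`
  have hcn : x.coeff k₀ ^ n ∈ Set.range ι := by
    have := Fermat.Agent.Lib.AutTranscendental.mem_range_of_fixed (K := K) (x.coeff k₀ ^ n)
      (fun σ => by
        obtain ⟨w, hw, hwk⟩ := key σ
        rw [map_pow, hwk k₀, mul_pow, hw, one_mul])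
    exact this
  obtain ⟨c, hc⟩ := mem_range_of_pow_mem_range ι n hn _ hcn
  -- so the constant is `1` for every automorphism
  have hfix : ∀ (σ : ℂ ≃ₐ[K] ℂ) (k : ℤ), σ (x.coeff k) = x.coeff k := by
    intro σ k
    obtain ⟨w, -, hwk⟩ := key σ
    have h1 : σ (x.coeff k₀) = x.coeff k₀ := by
      rw [← hc]
      exact σ.commutes c
    have hw1 : w = 1 := by
      have h2 := hwk k₀
      rw [h1] at h2
      exact (mul_right_cancel₀ hk₀ (by rw [one_mul]; exact h2)).symm
    rw [hwk k, hw1, one_mul]
  refine mem_range_coeffMap_of_forall ι x fun k => ?_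
  exact Fermat.Agent.Lib.AutTranscendental.mem_range_of_fixed (K := K) (x.coeff k)
    (fun σ => hfix σ k)

end Fermat.Agent.Lib.LaurentRoot
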