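import Mathlib
import Fermat.Agent.Lib.DeltaInt
import Fermat.Agent.Lib.LevelOneInt

/-!
# The low coefficients of a level one form determine all of them, integrally

`coeff_mem_of_low`: for an additive subgroup `A` of `ℂ` and a level one modular form `g` of
weight `k`, if the `q`-expansion coefficients `a_n(g)` with `12 n ≤ k` lie in `A`, then all
coefficients lie in `A`.
-/

set_option autoImplicit false

open UpperHalfPlane ModularForm ModularFormClass MatrixGroups EisensteinSeries

namespace Fermat.Agent.Lib.LevelOneLow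

open Fermat.Agent.Lib.DeltaInt Fermat.Agent.Lib.LevelOneInt

local notation "ι" => PowerSeries.map (Int.castRingHom ℂ)

/-- Coefficients of `ι V * W` are integer combinations of the coefficients of `W`. -/
theorem coeff_map_mul_mem (A : AddSubgroup ℂ) (V : PowerSeries ℤ) (W : PowerSeries ℂ) (n : ℕ)
    (h : ∀ m ≤ n, PowerSeries.coeff m W ∈ A) : PowerSeries.coeff n (ι V * W) ∈ A := by
  rw [PowerSeries.coeff_mul]
  refine A.sum_mem fun x hx => ?_
  have hx2 : x.2 ≤ n := by
    have := Finset.HasAntidiagonal.mem_antidiagonal.mp hx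
    omega
  rw [PowerSeries.coeff_map]
  have : (Int.castRingHom ℂ) (PowerSeries.coeff x.1 V) * PowerSeries.coeff x.2 W =
      (PowerSeries.coeff x.1 V) • PowerSeries.coeff x.2 W := by
    simp [zsmul_eq_mul]
  rw [this]
  exact A.zsmul_mem (h _ hx2) _

/-- For every even `k ≥ 4` there is a level one form of weight `k` with integral
`q`-expansion and constant term `1`. -/
theorem exists_int_form : ∀ n : ℕ, ∀ k : ℕ, k < n → Even k → 4 ≤ k →
    ∃ (E : ModularForm 𝒮ℒ (k : ℤ)) (Q : PowerSeries ℤ),
      qExpansion 1 E = ι Q ∧ PowerSeries.coeff 0 Q = 1 := by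
  intro n
  induction n with
  | zero => intro k hk; omega
  | succ n ih =>
    intro k hk hev h4
    by_cases hk4 : k = 4
    · subst hk4
      refine ⟨E₄, 1 + 240 * sigmaSeries 3, qExpansion_E₄, ?_⟩
      have h240 : (240 : PowerSeries ℤ) = ((240 : ℤ) : PowerSeries ℤ) := by norm_num
      rw [map_add, h240, coeff_intCast_mul]
      simp
    by_cases hk6 : k = 6
    · subst hk6
      refine ⟨E₆, 1 - 504 * sigmaSeries 5, qExpansion_E₆, ?_⟩
      have h504 : (504 : PowerSeries ℤ) = ((504 : ℤ) : PowerSeries ℤ) := by norm_num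
      rw [map_sub, h504, coeff_intCast_mul]
      simp
    have hk8 : 8 ≤ k := by
      obtain ⟨m, rfl⟩ := hev
      omega
    obtain ⟨E, Q, hE, hQ⟩ := ih (k - 4) (by omega)
      (by obtain ⟨m, rfl⟩ := hev; exact ⟨m - 2, by omega⟩) (by omega)
    refine ⟨ModularForm.mcast (by push_cast [Nat.cast_sub (show 4 ≤ k by omega)]; ring)
      (E.mul E₄), Q * (1 + 240 * sigmaSeries 3), ?_, ?_⟩
    · rw [ModularForm.qExpansion_mcast,
        ModularForm.qExpansion_mul one_pos one_mem_strictPeriods_SL, hE, qExpansion_E₄, map_mul]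
    · have h240 : (240 : PowerSeries ℤ) = ((240 : ℤ) : PowerSeries ℤ) := by norm_num
      rw [PowerSeries.coeff_zero_eq_constantCoeff_apply, map_mul,
        ← PowerSeries.coeff_zero_eq_constantCoeff_apply,
        ← PowerSeries.coeff_zero_eq_constantCoeff_apply, hQ, map_add, h240, coeff_intCast_mul]
      simp

theorem coeff_mem_of_low_aux (A : AddSubgroup ℂ) : ∀ n : ℕ, ∀ k : ℤ, k < 12 * n →
    ∀ g : ModularForm 𝒮ℒ k,
      (∀ m : ℕ, 12 * (m : ℤ) ≤ k → PowerSeries.coeff m (qExpansion 1 g) ∈ A) →
      ∀ m : ℕ, PowerSeries.coeff m (qExpansion 1 g) ∈ A := by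
  intro n
  induction n with
  | zero =>
    intro k hk g _ m
    have : g = 0 := by
      ext z
      simpa using congrFun (levelOne_neg_weight_eq_zero (by simpa using hk) g) z
    rw [this, FunLike.coe_zero, qExpansion_zero]
    simp
  | succ n ih =>
    intro k hk g hlow m
    rcases lt_or_ge k 0 with hneg | hnn
    · have : g = 0 := by
        ext z
        simpa using congrFun (levelOne_neg_weight_eq_zero hneg g) z
      rw [this, FunLike.coe_zero, qExpansion_zero]
      simp
    rcases Int.even_or_odd k with hev | hodd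
    swap
    · rw [ModularForm.levelOne_odd_weight_eq_zero hodd g, FunLike.coe_zero, qExpansion_zero]
      simp
    by_cases h0 : k = 0
    · subst h0
      obtain ⟨c, hc⟩ := levelOne_weight_zero_const g
      have hg : (g : ℍ → ℂ) = c • (1 : ℍ → ℂ) := by
        funext z
        simp [hc]
      have h1 : qExpansion 1 (g : ℍ → ℂ) = c • (1 : PowerSeries ℂ) := by
        have := ModularForm.qExpansion_smul one_pos one_mem_strictPeriods_SL c
          (1 : ModularForm 𝒮ℒ 0)
        rw [hg]
        rw [ModularForm.one_coe_eq_one] at this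
        rw [this, qExpansion_one]
      have hc0 := hlow 0 (by simp)
      rw [h1] at hc0 ⊢
      rw [PowerSeries.coeff_smul, PowerSeries.coeff_one] at hc0 ⊢
      by_cases hm : m = 0
      · subst hm; exact hc0
      · simp [hm]
    by_cases h2 : k = 2
    · subst h2
      rw [rank_zero_iff_forall_zero.mp levelOne_weight_two_rank_zero g, FunLike.coe_zero,
        qExpansion_zero]
      simp
    lift k to ℕ using hnn
    have hev' : Even k := by exact_mod_cast hev
    have hk4 : 4 ≤ k := by
      obtain ⟨j, rfl⟩ := hev'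
      have : j ≠ 0 := by rintro rfl; simp at h0
      have : j ≠ 1 := by rintro rfl; simp at h2
      omega
    obtain ⟨E, Q, hE, hQ⟩ := exists_int_form (k + 1) k (by omega) hev' hk4
    set c : ℂ := PowerSeries.coeff 0 (qExpansion 1 g) with hc
    have hcA : c ∈ A := hlow 0 (by positivity)
    have hE0 : PowerSeries.coeff 0 (qExpansion 1 E) = 1 := by
      rw [hE, PowerSeries.coeff_map, hQ]; simp
    have hcusp : IsCuspForm (g - c • E) := sub_smul_isCuspForm g E hE0
    have h0' := (isCuspForm_iff_coeffZero_eq_zero _).mp hcusp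
    set h : ModularForm 𝒮ℒ ((k : ℤ) - 12) := CuspForm.discriminantEquiv (toCuspForm _ h0')
      with hh
    have hf0 : g - c • E = mulDisc k h := by
      ext z
      rw [mulDisc_apply, discriminant_mul_discriminantEquiv_apply]
      rfl
    have hg : g = c • E + mulDisc k h := by
      rw [← hf0]; abel
    obtain ⟨U, hU1, hU⟩ := exists_DeltaZ_eq_X_mul
    -- the q-expansion of g
    have hq : qExpansion 1 g = c • ι Q + PowerSeries.X * (ι U * qExpansion 1 h) := by
      conv_lhs => rw [hg]
      rw [FunLike.coe_add, ModularForm.qExpansion_add one_pos one_mem_strictPeriods_SL,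
        FunLike.coe_smul, ModularForm.qExpansion_smul one_pos one_mem_strictPeriods_SL, hE,
        qExpansion_mulDisc,
        qExpansion_discriminant_eq, hU, map_mul, PowerSeries.map_X, mul_assoc]
    set W : PowerSeries ℂ := ι U * qExpansion 1 h with hW
    have hcoeff : ∀ j : ℕ, PowerSeries.coeff (j + 1) (qExpansion 1 g) =
        c * ((PowerSeries.coeff (j + 1) Q : ℤ) : ℂ) + PowerSeries.coeff j W := by
      intro j
      rw [hq, map_add, PowerSeries.coeff_smul, PowerSeries.coeff_map,
        PowerSeries.coeff_succ_X_mul]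
      simp
    have hcQ : ∀ j : ℕ, c * ((PowerSeries.coeff j Q : ℤ) : ℂ) ∈ A := by
      intro j
      have : c * ((PowerSeries.coeff j Q : ℤ) : ℂ) = (PowerSeries.coeff j Q) • c := by
        rw [zsmul_eq_mul, mul_comm]
      rw [this]
      exact A.zsmul_mem hcA _
    -- low coefficients of W
    have hWlow : ∀ j : ℕ, 12 * ((j : ℤ) + 1) ≤ k → PowerSeries.coeff j W ∈ A := by
      intro j hj
      have h1 := hlow (j + 1) (by push_cast; exact hj)
      rw [hcoeff j] at h1
      have := A.sub_mem h1 (hcQ (j + 1))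
      simpa using this
    -- the inverse of U
    have hUunit : IsUnit U := by
      rw [PowerSeries.isUnit_iff_constantCoeff, hU1]
      exact isUnit_one
    obtain ⟨V, hV⟩ := hUunit.exists_left_inv
    have hhW : qExpansion 1 h = ι V * W := by
      rw [hW, ← mul_assoc, ← map_mul, hV, map_one, one_mul]
    have hhlow : ∀ j : ℕ, 12 * (j : ℤ) ≤ (k : ℤ) - 12 →
        PowerSeries.coeff j (qExpansion 1 h) ∈ A := by
      intro j hj
      rw [hhW]
      refine coeff_map_mul_mem A V W j fun i hi => hWlow i ?_
      have : (i : ℤ) ≤ j := by exact_mod_cast hi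
      omega
    have hall := ih ((k : ℤ) - 12) (by push_cast at hk ⊢; omega) h hhlow
    have hWall : ∀ j : ℕ, PowerSeries.coeff j W ∈ A := fun j =>
      coeff_map_mul_mem A U _ j fun i _ => hall i
    rcases Nat.eq_zero_or_pos m with rfl | hm
    · exact hcA
    · obtain ⟨j, rfl⟩ : ∃ j, m = j + 1 := ⟨m - 1, by omega⟩
      rw [hcoeff j]
      exact A.add_mem (hcQ _) (hWall j)

/-- **Low coefficients determine integrality**: if the `q`-expansion coefficients `a_n` of a
level one form of weight `k` with `12 n ≤ k` lie in an additive subgroup `A` of `ℂ`, then so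
do all its coefficients. -/
theorem coeff_mem_of_low (A : AddSubgroup ℂ) (k : ℤ) (g : ModularForm 𝒮ℒ k)
    (h : ∀ n : ℕ, 12 * (n : ℤ) ≤ k → PowerSeries.coeff n (qExpansion 1 g) ∈ A) :
    ∀ n : ℕ, PowerSeries.coeff n (qExpansion 1 g) ∈ A :=
  coeff_mem_of_low_aux A (k.toNat + 1) k (by omega) g h

/-- Divisibility form: if the low coefficients are `ℓ`-multiples of elements of a subring
`R`, so are all coefficients. -/
theorem coeff_mul_mem_of_low (R : Subring ℂ) (ℓ : ℂ) (k : ℤ) (g : ModularForm 𝒮ℒ k)
    (h : ∀ n : ℕ, 12 * (n : ℤ) ≤ k → ∃ r ∈ R, PowerSeries.coeff n (qExpansion 1 g) = ℓ * r) :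
    ∀ n : ℕ, ∃ r ∈ R, PowerSeries.coeff n (qExpansion 1 g) = ℓ * r := by
  have key := coeff_mem_of_low (R.toAddSubgroup.map (AddMonoidHom.mulLeft ℓ)) k g (by
    intro n hn
    obtain ⟨r, hr, hrn⟩ := h n hn
    exact ⟨r, hr, by simp [hrn]⟩)
  intro n
  obtain ⟨r, hr, hrn⟩ := key n
  exact ⟨r, hr, by simpa using hrn.symm⟩

/-- Subring form: if the low coefficients lie in a subring `R`, so do all coefficients. -/
theorem coeff_mem_subring_of_low (R : Subring ℂ) (k : ℤ) (g : ModularForm 𝒮ℒ k)
    (h : ∀ n : ℕ, 12 * (n : ℤ) ≤ k → PowerSeries.coeff n (qExpansion 1 g) ∈ R) :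
    ∀ n : ℕ, PowerSeries.coeff n (qExpansion 1 g) ∈ R :=
  coeff_mem_of_low R.toAddSubgroup k g h

end Fermat.Agent.Lib.LevelOneLow
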