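import Mathlib
import Fermat.Agent.Lib.DeltaInt
import Fermat.Agent.Lib.LevelOneInt
import Fermat.Agent.S23.Defs

/-!
# Level one Sturm bound for an arbitrary additive subgroup of `ℂ`

If `f` is a level one modular form of weight `k` and `M` is an additive subgroup of `ℂ`
containing the `q`-expansion coefficients `aₙ(f)` for all `n ≤ k / 12`, then `M` contains all
coefficients of `f`.  (Every coefficient is a `ℤ`-linear combination of the first
`⌊k/12⌋ + 1` ones: the Miller basis.)

Proof: induction `k → k - 12` using a monomial `E₄^a E₆^b` (integral `q`-expansion, constant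
term `1`) and `Δ = q · unit` over `ℤ`.
-/

set_option autoImplicit false

open UpperHalfPlane ModularForm ModularFormClass MatrixGroups EisensteinSeries

namespace Fermat.Agent.Lib.LevelOneSturm

open Fermat.Agent.Lib.DeltaInt Fermat.Agent.Lib.LevelOneInt

local notation "Δ" => ModularForm.discriminant

/-- `M` is stable under multiplication by integers. -/
theorem intCast_mul_mem (M : AddSubgroup ℂ) (m : ℤ) {x : ℂ} (hx : x ∈ M) : (m : ℂ) * x ∈ M := by
  have h := M.zsmul_mem hx m
  rwa [zsmul_eq_mul] at h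

/-- Division by `X · U` with `U` an integral power series with constant term one: the
coefficient `n` of the quotient is in `M` as soon as the coefficients `≤ n + 1` of the
product are. -/
theorem coeff_quot_mem (M : AddSubgroup ℂ) (U : PowerSeries ℤ)
    (hU : PowerSeries.constantCoeff U = 1) (P H : PowerSeries ℂ)
    (hP : P = PowerSeries.X * PowerSeries.map (Int.castRingHom ℂ) U * H) :
    ∀ n : ℕ, (∀ m : ℕ, m ≤ n + 1 → P.coeff m ∈ M) → H.coeff n ∈ M := by
  intro n
  induction n using Nat.strong_induction_on with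
  | _ n ih =>
    intro h
    have h1 : P.coeff (n + 1) = (PowerSeries.map (Int.castRingHom ℂ) U * H).coeff n := by
      rw [hP, mul_assoc, PowerSeries.coeff_succ_X_mul]
    rw [PowerSeries.coeff_mul] at h1
    have hn : (n, 0) ∈ Finset.HasAntidiagonal.antidiagonal n := by simp
    -- isolate the term `(0, n)`
    have h0 : (0, n) ∈ Finset.HasAntidiagonal.antidiagonal n := by simp
    rw [← Finset.add_sum_erase _ _ h0] at h1
    have hU0 : (PowerSeries.map (Int.castRingHom ℂ) U).coeff 0 = 1 := by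
      rw [PowerSeries.coeff_map, PowerSeries.coeff_zero_eq_constantCoeff_apply, hU]
      simp
    rw [hU0, one_mul] at h1
    have hrest : ∑ x ∈ (Finset.HasAntidiagonal.antidiagonal n).erase (0, n),
        (PowerSeries.map (Int.castRingHom ℂ) U).coeff x.1 * H.coeff x.2 ∈ M := by
      refine M.sum_mem fun x hx => ?_
      rw [Finset.mem_erase, Finset.HasAntidiagonal.mem_antidiagonal] at hx
      have hx2 : x.2 < n := by
        rcases hx with ⟨hne, hsum⟩
        by_contra hcon
        have h2 : x.2 = n := by omega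
        have h1' : x.1 = 0 := by omega
        exact hne (Prod.ext h1' h2)
      rw [PowerSeries.coeff_map]
      simp only [eq_intCast]
      exact intCast_mul_mem M _ (ih x.2 hx2 fun m hm => h m (by omega))
    have hPn : P.coeff (n + 1) ∈ M := h (n + 1) le_rfl
    have : H.coeff n = P.coeff (n + 1) - ∑ x ∈ (Finset.HasAntidiagonal.antidiagonal n).erase (0, n),
        (PowerSeries.map (Int.castRingHom ℂ) U).coeff x.1 * H.coeff x.2 := by
      rw [h1]; ring
    rw [this]
    exact M.sub_mem hPn hrest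

/-- Multiplication by an integral power series preserves "all coefficients in `M`". -/
theorem coeff_intMul_mem (M : AddSubgroup ℂ) (Q : PowerSeries ℤ) (H : PowerSeries ℂ)
    (hH : ∀ n, H.coeff n ∈ M) (n : ℕ) :
    (PowerSeries.map (Int.castRingHom ℂ) Q * H).coeff n ∈ M := by
  rw [PowerSeries.coeff_mul]
  refine M.sum_mem fun x _ => ?_
  rw [PowerSeries.coeff_map]
  simp only [eq_intCast]
  exact intCast_mul_mem M _ (hH x.2)

/-- `E₄^a E₆^b` as a level one form of weight `4a + 6b`, with its integral `q`-expansion. -/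
theorem exists_monomial_aux (a b : ℕ) :
    ∃ g : ModularForm 𝒮ℒ ((a : ℤ) * 4 + (b : ℤ) * 6),
      qExpansion 1 g = PowerSeries.map (Int.castRingHom ℂ)
        ((1 + 240 * sigmaSeries 3) ^ a * (1 - 504 * sigmaSeries 5) ^ b) := by
  refine ⟨(E₄.pow a).mul (E₆.pow b), ?_⟩
  rw [ModularForm.qExpansion_mul one_pos one_mem_strictPeriods_SL,
    ModularForm.qExpansion_pow one_pos one_mem_strictPeriods_SL,
    ModularForm.qExpansion_pow one_pos one_mem_strictPeriods_SL, qExpansion_E₄, qExpansion_E₆,
    map_mul, map_pow, map_pow]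

theorem constantCoeff_monomial (a b : ℕ) :
    PowerSeries.constantCoeff
      ((1 + 240 * sigmaSeries 3) ^ a * (1 - 504 * sigmaSeries 5) ^ b) = 1 := by
  have h3 : PowerSeries.constantCoeff (sigmaSeries 3) = 0 := by
    rw [← PowerSeries.coeff_zero_eq_constantCoeff_apply, coeff_sigmaSeries]; simp
  have h5 : PowerSeries.constantCoeff (sigmaSeries 5) = 0 := by
    rw [← PowerSeries.coeff_zero_eq_constantCoeff_apply, coeff_sigmaSeries]; simp
  simp [h3, h5]

/-- For every even weight `k ≥ 4` there is a level one form with integral `q`-expansion and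
constant term `1`. -/
theorem exists_monomial (k : ℕ) (hk : Even k) (hk4 : 4 ≤ k) :
    ∃ (g : ModularForm 𝒮ℒ (k : ℤ)) (Q : PowerSeries ℤ),
      qExpansion 1 g = PowerSeries.map (Int.castRingHom ℂ) Q ∧
        PowerSeries.constantCoeff Q = 1 := by
  obtain ⟨a, b, hab⟩ : ∃ a b : ℕ, k = a * 4 + b * 6 := by
    obtain ⟨m, rfl⟩ := hk
    rcases Nat.even_or_odd m with ⟨j, rfl⟩ | ⟨j, rfl⟩
    · exact ⟨j, 0, by omega⟩
    · exact ⟨j - 1, 1, by omega⟩
  obtain ⟨g, hg⟩ := exists_monomial_aux a b
  have hw : ((a : ℤ) * 4 + (b : ℤ) * 6) = (k : ℤ) := by rw [hab]; push_cast; ring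
  refine ⟨ModularForm.mcast hw g, _, ?_, constantCoeff_monomial a b⟩
  rw [ModularForm.coe_mcast, hg]

/-- The main induction. -/
theorem coeff_mem_aux (M : AddSubgroup ℂ) : ∀ N : ℕ, ∀ k : ℤ, k < 12 * N →
    ∀ f : ModularForm 𝒮ℒ k, (∀ n : ℕ, 12 * (n : ℤ) ≤ k → (qExpansion 1 f).coeff n ∈ M) →
      ∀ n : ℕ, (qExpansion 1 f).coeff n ∈ M := by
  intro N
  induction N with
  | zero =>
    intro k hk f _ n
    have hf : (f : ℍ → ℂ) = 0 := levelOne_neg_weight_eq_zero (by simpa using hk) f
    rw [hf, UpperHalfPlane.qExpansion_zero]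
    simp
  | succ N ih =>
    intro k hk f hf n
    rcases lt_or_ge k 0 with hneg | hnn
    · have hf0 : (f : ℍ → ℂ) = 0 := levelOne_neg_weight_eq_zero hneg f
      rw [hf0, UpperHalfPlane.qExpansion_zero]
      simp
    rcases Int.even_or_odd k with hev | hodd
    swap
    · rw [ModularForm.levelOne_odd_weight_eq_zero hodd f]
      rw [show ((0 : ModularForm 𝒮ℒ k) : ℍ → ℂ) = 0 from rfl, UpperHalfPlane.qExpansion_zero]
      simp
    have h0M : (qExpansion 1 f).coeff 0 ∈ M := hf 0 (by simpa using hnn)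
    by_cases h0 : k = 0
    · subst h0
      obtain ⟨c, hc⟩ := levelOne_weight_zero_const f
      have hfc : (f : ℍ → ℂ) = c • ((1 : ModularForm 𝒮ℒ 0) : ℍ → ℂ) := by
        rw [hc]
        funext z
        simp
      have hq : qExpansion 1 (f : ℍ → ℂ) = c • (1 : PowerSeries ℂ) := by
        rw [hfc, ModularForm.qExpansion_smul one_pos one_mem_strictPeriods_SL,
          ModularForm.qExpansion_one]
      rw [hq] at h0M ⊢
      rcases Nat.eq_zero_or_pos n with rfl | hn
      · exact h0M
      · rw [PowerSeries.coeff_smul, PowerSeries.coeff_one, if_neg (by omega)]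
        simp
    by_cases h2 : k = 2
    · subst h2
      rw [rank_zero_iff_forall_zero.mp levelOne_weight_two_rank_zero f]
      rw [show ((0 : ModularForm 𝒮ℒ 2) : ℍ → ℂ) = 0 from rfl, UpperHalfPlane.qExpansion_zero]
      simp
    lift k to ℕ using hnn
    have hev' : Even k := by exact_mod_cast hev
    have hk4 : 4 ≤ k := by
      obtain ⟨m, rfl⟩ := hev'
      have : m ≠ 0 := by rintro rfl; simp at h0
      have : m ≠ 1 := by rintro rfl; simp at h2
      omega
    obtain ⟨E, Q, hEQ, hQ0⟩ := exists_monomial k hev' hk4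
    have hE0 : (qExpansion 1 E).coeff 0 = 1 := by
      rw [hEQ, PowerSeries.coeff_map, PowerSeries.coeff_zero_eq_constantCoeff_apply, hQ0]
      simp
    set c : ℂ := (qExpansion 1 f).coeff 0 with hc
    have hcusp : IsCuspForm (f - c • E) := sub_smul_isCuspForm f E hE0
    have h0' := (isCuspForm_iff_coeffZero_eq_zero _).mp hcusp
    set h : ModularForm 𝒮ℒ ((k : ℤ) - 12) := CuspForm.discriminantEquiv (toCuspForm _ h0')
      with hh
    have hf0 : f - c • E = mulDisc k h := by
      ext z
      rw [mulDisc_apply, discriminant_mul_discriminantEquiv_apply]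
      rfl
    -- `q`-expansion of `g := f - c • E`
    have hqg : qExpansion 1 ((f - c • E : ModularForm 𝒮ℒ k) : ℍ → ℂ) =
        qExpansion 1 f - c • qExpansion 1 E := by
      have h1 : ((f - c • E : ModularForm 𝒮ℒ k) : ℍ → ℂ) =
          (f : ℍ → ℂ) - ((c • E : ModularForm 𝒮ℒ k) : ℍ → ℂ) := rfl
      rw [h1, ModularForm.qExpansion_sub one_pos one_mem_strictPeriods_SL f (c • E)]
      have h2' : ((c • E : ModularForm 𝒮ℒ k) : ℍ → ℂ) = c • (E : ℍ → ℂ) := rfl
      rw [h2', ModularForm.qExpansion_smul one_pos one_mem_strictPeriods_SL]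
    obtain ⟨U, hU1, hUX⟩ := exists_DeltaZ_eq_X_mul
    have hqg' : qExpansion 1 ((f - c • E : ModularForm 𝒮ℒ k) : ℍ → ℂ) =
        PowerSeries.X * PowerSeries.map (Int.castRingHom ℂ) U * qExpansion 1 h := by
      rw [hf0, qExpansion_mulDisc, qExpansion_discriminant_eq, hUX, map_mul, PowerSeries.map_X]
    -- coefficients of `g` in low degree
    have hg_low : ∀ m : ℕ, 12 * (m : ℤ) ≤ k →
        (qExpansion 1 ((f - c • E : ModularForm 𝒮ℒ k) : ℍ → ℂ)).coeff m ∈ M := by
      intro m hm
      rw [hqg, map_sub, PowerSeries.coeff_smul, hEQ, PowerSeries.coeff_map, smul_eq_mul,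
        mul_comm]
      simp only [eq_intCast]
      exact M.sub_mem (hf m hm) (intCast_mul_mem M _ h0M)
    -- hence the low coefficients of `h`
    have hh_low : ∀ m : ℕ, 12 * (m : ℤ) ≤ (k : ℤ) - 12 → (qExpansion 1 h).coeff m ∈ M := by
      intro m hm
      refine coeff_quot_mem M U hU1 _ _ hqg' m fun j hj => hg_low j ?_
      have : (j : ℤ) ≤ m + 1 := by exact_mod_cast hj
      omega
    have hh_all : ∀ m : ℕ, (qExpansion 1 h).coeff m ∈ M :=
      ih _ (by push_cast at hk ⊢; omega) h hh_low
    -- back to `g` and `f`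
    have hg_all : (qExpansion 1 ((f - c • E : ModularForm 𝒮ℒ k) : ℍ → ℂ)).coeff n ∈ M := by
      rw [hqg', ← PowerSeries.map_X (Int.castRingHom ℂ), ← map_mul]
      exact coeff_intMul_mem M _ _ hh_all n
    have hfn : (qExpansion 1 f).coeff n =
        (qExpansion 1 ((f - c • E : ModularForm 𝒮ℒ k) : ℍ → ℂ)).coeff n +
          ((Q.coeff n : ℤ) : ℂ) * c := by
      rw [hqg, map_sub, PowerSeries.coeff_smul, hEQ, PowerSeries.coeff_map, smul_eq_mul]
      simp only [eq_intCast]
      ring
    rw [hfn]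
    exact M.add_mem hg_all (intCast_mul_mem M _ h0M)

/-- **Level one Sturm bound for an additive subgroup.** If the coefficients `aₙ(f)` with
`12 n ≤ k` of a level one form of weight `k` lie in the additive subgroup `M`, then all
coefficients do. -/
theorem coeff_mem_of_le (M : AddSubgroup ℂ) (k : ℤ) (f : ModularForm 𝒮ℒ k)
    (h : ∀ n : ℕ, 12 * (n : ℤ) ≤ k → (qExpansion 1 f).coeff n ∈ M) :
    ∀ n : ℕ, (qExpansion 1 f).coeff n ∈ M :=
  coeff_mem_aux M (k.toNat + 1) k (by omega) f h

/-- The same statement for functions satisfying `IsMF 𝒮ℒ k`. -/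
theorem coeff_mem_of_le_isMF (M : AddSubgroup ℂ) {k : ℤ} {f : ℍ → ℂ}
    (hf : Fermat.Agent.S23.IsMF 𝒮ℒ k f)
    (h : ∀ n : ℕ, 12 * (n : ℤ) ≤ k → (qExpansion 1 f).coeff n ∈ M) :
    ∀ n : ℕ, (qExpansion 1 f).coeff n ∈ M := by
  obtain ⟨F, rfl⟩ := hf
  exact coeff_mem_of_le M k F h

end Fermat.Agent.Lib.LevelOneSturm
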