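import Mathlib

/-!
# Liouville's theorem for finite index subgroups of `SL(2, ℤ)`

A holomorphic function on the upper half plane which is invariant under a finite index subgroup
`Γ` of `SL(2, ℤ)` and all of whose `SL(2, ℤ)`-translates are bounded at `i∞` is constant.
(Mathlib: a modular form of weight zero for an arithmetic subgroup is constant.)
-/

set_option autoImplicit false

open UpperHalfPlane ModularForm Matrix.SpecialLinearGroup
open scoped MatrixGroups Manifold ModularForm

namespace Fermat.Agent.Lib.LiouvilleGamma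

/-- **Liouville for `Γ`.** -/
theorem eq_const_of_invariant_of_bounded (Γ : Subgroup SL(2, ℤ)) [Γ.FiniteIndex] (h : ℍ → ℂ)
    (hh : MDiff h) (hinv : ∀ γ ∈ Γ, ∀ τ : ℍ, h (γ • τ) = h τ)
    (hbd : ∀ γ : SL(2, ℤ), IsBoundedAtImInfty (fun τ : ℍ => h (γ • τ))) :
    ∃ c : ℂ, h = Function.const ℍ c := by
  have hslash : ∀ γ : SL(2, ℤ), h ∣[(0 : ℤ)] γ = fun τ : ℍ => h (γ • τ) := by
    intro γ
    rw [SL_slash_def]
    funext τ
    simp
  let f : ModularForm (Γ : Subgroup (GL (Fin 2) ℝ)) 0 :=
    { toFun := h
      slash_action_eq' := by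
        rintro _ ⟨γ, hγ, rfl⟩
        have h1 : h ∣[(0 : ℤ)] γ = h := by
          rw [hslash]
          funext τ
          exact hinv γ hγ τ
        exact h1
      holo' := hh
      bdd_at_cusps' := by
        intro c hc
        have hc' : IsCusp c 𝒮ℒ :=
          (Subgroup.IsArithmetic.isCusp_iff_isCusp_SL2Z (Γ : Subgroup (GL (Fin 2) ℝ))).mp hc
        rw [OnePoint.isBoundedAt_iff_forall_SL2Z hc']
        intro γ _
        rw [hslash]
        exact hbd γ }
  exact ModularForm.eq_const_of_weight_zero f

end Fermat.Agent.Lib.LiouvilleGamma
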