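import Mathlib
set_option autoImplicit false

/-!
# The local count behind "reduction of places commutes with divisors" (S37 [LOC])

Mathlib-only commutative algebra.  `A` is a local integrally closed domain whose fraction
field `K` is algebraically closed (a valuation ring of `Q̄`), `k` its residue field, `B` an
`A`-algebra with a generic fibre `DK` (a Dedekind `K`-algebra) and a special fibre `D`
(a Dedekind `k`-algebra), connected by `ι : B → DK` and `red : B → D`.

Main result: `local_count` — for `y : B`, a maximal ideal `Q` of `D`, and finitely many primes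
`P` of `DK` specialising to `Q`,  `∑_P min (ord_P f) (ord_P y) ≤ ord_Q (red y)`.
-/

namespace Fermat.Agent.Lib.LocalCount

open Polynomial IsLocalRing



section Split

variable {A : Type*} [CommRing A] [IsIntegrallyClosed A]

theorem exists_multiset_map_eq {α β : Type*} (φ : α → β) (m : Multiset β)
    (h : ∀ r ∈ m, ∃ a, φ a = r) : ∃ s : Multiset α, s.map φ = m := by
  induction m using Multiset.induction_on with
  | empty => exact ⟨0, rfl⟩
  | cons r m ih =>
    obtain ⟨s, hs⟩ := ih fun r' hr' => h r' (Multiset.mem_cons_of_mem hr')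
    obtain ⟨a, ha⟩ := h r (Multiset.mem_cons_self r m)
    exact ⟨a ::ₘ s, by rw [Multiset.map_cons, ha, hs]⟩

/-- (T0) Over an integrally closed domain with algebraically closed fraction field, every monic
polynomial is a product of linear factors. -/
theorem exists_multiset_of_monic (K : Type*) [Field K] [Algebra A K] [IsFractionRing A K]
    [IsAlgClosed K] (P : A[X]) (hP : P.Monic) :
    ∃ s : Multiset A, P = (s.map fun a => X - C a).prod := by
  have hsplit := IsAlgClosed.splits (P.map (algebraMap A K))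
  have hmon : (P.map (algebraMap A K)).Monic := hP.map _
  have hroots : ∀ r ∈ (P.map (algebraMap A K)).roots, ∃ a : A, algebraMap A K a = r := by
    intro r hr
    have hr' : (P.map (algebraMap A K)).eval r = 0 := (Polynomial.mem_roots'.mp hr).2
    have hint : IsIntegral A r := ⟨P, hP, by rwa [Polynomial.eval_map] at hr'⟩
    exact IsIntegrallyClosed.isIntegral_iff.mp hint
  obtain ⟨s, hs⟩ := exists_multiset_map_eq (algebraMap A K) _ hroots
  refine ⟨s, ?_⟩
  apply Polynomial.map_injective (algebraMap A K) (IsFractionRing.injective A K)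
  rw [hsplit.eq_prod_roots_of_monic hmon, ← hs, Polynomial.map_multiset_prod,
    Multiset.map_map, Multiset.map_map]
  congr 1
  apply Multiset.map_congr rfl
  intro a _
  simp

end Split

section Idem

variable {A : Type*} [CommRing A] (s : Multiset A) (D : A → Prop) [DecidablePred D]

/-- The product of the linear factors whose root satisfies `D`. -/
noncomputable def polyPos : A[X] := ((s.filter D).map fun a => X - C a).prod

/-- The product of the linear factors whose root does not satisfy `D`. -/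
noncomputable def polyNeg : A[X] := ((s.filter fun a => ¬ D a).map fun a => X - C a).prod

theorem polyPos_mul_polyNeg :
    polyPos s D * polyNeg s D = (s.map fun a => X - C a).prod := by
  unfold polyPos polyNeg
  rw [← Multiset.prod_add, ← Multiset.map_add, Multiset.filter_add_not]

theorem eval_polyPos {a : A} (ha : a ∈ s) (hD : D a) : (polyPos s D).eval a = 0 := by
  unfold polyPos
  rw [Polynomial.eval_multiset_prod]
  apply Multiset.prod_eq_zero
  rw [Multiset.mem_map]
  exact ⟨X - C a, Multiset.mem_map.mpr ⟨a, Multiset.mem_filter.mpr ⟨ha, hD⟩, rfl⟩, by simp⟩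

theorem eval_polyNeg {a : A} (ha : a ∈ s) (hD : ¬ D a) : (polyNeg s D).eval a = 0 := by
  unfold polyNeg
  rw [Polynomial.eval_multiset_prod]
  apply Multiset.prod_eq_zero
  rw [Multiset.mem_map]
  exact ⟨X - C a, Multiset.mem_map.mpr ⟨a, Multiset.mem_filter.mpr ⟨ha, hD⟩, rfl⟩, by simp⟩

theorem isCoprime_multiset_prod_left {R : Type*} [CommSemiring R] (m : Multiset R) (x : R)
    (h : ∀ p ∈ m, IsCoprime p x) : IsCoprime m.prod x := by
  induction m using Multiset.induction_on with
  | empty => simpa using isCoprime_one_left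
  | cons p m ih =>
    rw [Multiset.prod_cons]
    exact IsCoprime.mul_left (h p (Multiset.mem_cons_self p m))
      (ih fun p' hp' => h p' (Multiset.mem_cons_of_mem hp'))

theorem isCoprime_polyPos_polyNeg
    (hD : ∀ a ∈ s, ∀ b ∈ s, D a → ¬ D b → IsUnit (a - b)) :
    IsCoprime (polyPos s D) (polyNeg s D) := by
  unfold polyPos polyNeg
  apply isCoprime_multiset_prod_left
  intro p hp
  obtain ⟨a, ha, rfl⟩ := Multiset.mem_map.mp hp
  obtain ⟨has, hDa⟩ := Multiset.mem_filter.mp ha
  apply IsCoprime.symm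
  apply isCoprime_multiset_prod_left
  intro p' hp'
  obtain ⟨b, hb, rfl⟩ := Multiset.mem_map.mp hp'
  obtain ⟨hbs, hDb⟩ := Multiset.mem_filter.mp hb
  exact (Polynomial.isCoprime_X_sub_C_of_isUnit_sub (hD a has b hbs hDa hDb)).symm

variable {B : Type*} [CommRing B] [Algebra A B]

/-- Evaluating `aeval g F` under a ring hom `ψ` with `ψ g = ψ a`. -/
theorem map_aeval_of_eq {κ : Type*} [CommRing κ] (ψ : B →+* κ) (g : B) (a : A)
    (h : ψ g = ψ (algebraMap A B a)) (F : A[X]) :
    ψ (aeval g F) = ψ (algebraMap A B (F.eval a)) := by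
  rw [Polynomial.aeval_def, Polynomial.hom_eval₂, h]
  change Polynomial.eval₂ (ψ.comp (algebraMap A B)) ((ψ.comp (algebraMap A B)) a) F = _
  rw [Polynomial.eval₂_at_apply]
  rfl

/-- A root of the product is hit: in a domain, `ψ g` is the image of some root. -/
theorem exists_root_of_map_aeval_eq_zero {κ : Type*} [CommRing κ] [IsDomain κ] (ψ : B →+* κ)
    (g : B) (h : ψ (aeval g (s.map fun a => X - C a).prod) = 0) :
    ∃ a ∈ s, ψ g = ψ (algebraMap A B a) := by
  rw [Polynomial.aeval_def, Polynomial.hom_eval₂] at h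
  have h2 : Polynomial.eval₂ (ψ.comp (algebraMap A B)) (ψ g) (s.map fun a => X - C a).prod
      = (s.map fun a => ψ g - ψ (algebraMap A B a)).prod := by
    have := map_multiset_prod (Polynomial.eval₂RingHom (ψ.comp (algebraMap A B)) (ψ g))
      (s.map fun a => X - C a)
    rw [Polynomial.coe_eval₂RingHom] at this
    rw [this, Multiset.map_map]
    congr 1
    apply Multiset.map_congr rfl
    intro a _
    simp
  rw [h2, Multiset.prod_eq_zero_iff] at h
  obtain ⟨a, ha, h0⟩ := Multiset.mem_map.mp h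
  exact ⟨a, ha, sub_eq_zero.mp h0⟩

/-- Variant: the product of linear factors evaluated at `g` lies in `(f)` and `ψ f = 0`. -/
theorem exists_root_of_map_eq_zero {κ : Type*} [CommRing κ] [IsDomain κ] (ψ : B →+* κ)
    (g f : B) (h : aeval g (s.map fun a => X - C a).prod ∈ Ideal.span {f}) (hψf : ψ f = 0) :
    ∃ a ∈ s, ψ g = ψ (algebraMap A B a) := by
  apply exists_root_of_map_aeval_eq_zero s ψ g
  obtain ⟨c, hc⟩ := Ideal.mem_span_singleton'.mp h
  rw [← hc, map_mul, hψf, mul_zero]

end Idem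




section Nakayama

variable {A K B DK : Type*} [CommRing A] [IsLocalRing A]
  [Field K] [Algebra A K] [IsFractionRing A K]
  [CommRing B] [Algebra A B]
  [CommRing DK] [Algebra K DK] [Algebra A DK] [IsScalarTower A K DK]

/-- (SC) Semicontinuity in generating-family form.  If `B ⧸ J` is a finite `A`-module that is
generated modulo the maximal ideal by `n` elements, then the generic fibre `DK ⧸ J·DK`
has dimension at most `n`. -/
theorem finrank_generic_le (ι : B →ₐ[A] DK)
    (hι : ∀ x : DK, ∃ a : A, a ≠ 0 ∧ ∃ b : B, a • x = ι b)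
    (J : Ideal B) (hfin : Module.Finite A (B ⧸ J)) (n : ℕ) (t : Fin n → B)
    (ht : ∀ b : B, ∃ a : Fin n → A,
      b - ∑ i, a i • t i ∈ J ⊔ (maximalIdeal A).map (algebraMap A B)) :
    FiniteDimensional K (DK ⧸ J.map (ι : B →+* DK)) ∧
      Module.finrank K (DK ⧸ J.map (ι : B →+* DK)) ≤ n := by
  classical
  -- Nakayama: the classes of the `t i` generate `B ⧸ J`.
  let N : Submodule A (B ⧸ J) := Submodule.span A (Set.range fun i => Ideal.Quotient.mk J (t i))
  have hmem : ∀ μ ∈ (maximalIdeal A).map (algebraMap A B),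
      Ideal.Quotient.mk J μ ∈ (maximalIdeal A) • (⊤ : Submodule A (B ⧸ J)) := by
    intro μ hμ
    refine Submodule.span_induction (p := fun μ _ => Ideal.Quotient.mk J μ ∈
      (maximalIdeal A) • (⊤ : Submodule A (B ⧸ J))) ?_ ?_ ?_ ?_ hμ
    · rintro _ ⟨a, ha, rfl⟩
      have : Ideal.Quotient.mk J (algebraMap A B a) = a • (1 : B ⧸ J) := by
        rw [Algebra.smul_def, mul_one]; rfl
      rw [this]
      exact Submodule.smul_mem_smul ha Submodule.mem_top
    · simp
    · intro x y _ _ hx hy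
      rw [map_add]; exact Submodule.add_mem _ hx hy
    · intro b x _ hx
      rw [smul_eq_mul, map_mul]
      have : Ideal.Quotient.mk J b * Ideal.Quotient.mk J x
          = (Ideal.Quotient.mk J b) • (Ideal.Quotient.mk J x) := rfl
      rw [this]
      -- `m • ⊤` is stable under the `B ⧸ J`-action
      refine Submodule.smul_induction_on (p := fun w => (Ideal.Quotient.mk J b) • w ∈
        (maximalIdeal A) • (⊤ : Submodule A (B ⧸ J))) hx ?_ ?_
      · intro r hr w _
        rw [smul_comm]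
        exact Submodule.smul_mem_smul hr Submodule.mem_top
      · intro w₁ w₂ h₁ h₂
        rw [smul_add]; exact Submodule.add_mem _ h₁ h₂
  have htop : (⊤ : Submodule A (B ⧸ J)) ≤ N ⊔ (maximalIdeal A) • (⊤ : Submodule A (B ⧸ J)) := by
    intro c _
    obtain ⟨b, rfl⟩ := Ideal.Quotient.mk_surjective c
    obtain ⟨a, ha⟩ := ht b
    obtain ⟨j, hj, μ, hμ, hjμ⟩ := Submodule.mem_sup.mp ha
    have hb : b = ∑ i, a i • t i + j + μ := by rw [add_assoc, hjμ]; ring
    have h1 : Ideal.Quotient.mk J b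
        = ∑ i, a i • Ideal.Quotient.mk J (t i) + Ideal.Quotient.mk J μ := by
      conv_lhs => rw [hb]
      rw [map_add, map_add, Ideal.Quotient.eq_zero_iff_mem.mpr hj, add_zero, map_sum]
      rfl
    rw [h1]
    refine Submodule.add_mem _ (Submodule.mem_sup_left ?_) (Submodule.mem_sup_right (hmem μ hμ))
    exact Submodule.sum_mem _ fun i _ =>
      Submodule.smul_mem _ _ (Submodule.subset_span ⟨i, rfl⟩)
  have hN : N = ⊤ := by
    apply top_le_iff.mp
    exact Submodule.le_of_le_smul_of_le_jacobson_bot (Module.finite_def.mp hfin)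
      (IsLocalRing.maximalIdeal_le_jacobson ⊥) htop
  -- every element of `B` is an `A`-combination of the `t i` modulo `J`
  have hcomb : ∀ b : B, ∃ a : Fin n → A, b - ∑ i, a i • t i ∈ J := by
    intro b
    have hb : Ideal.Quotient.mk J b ∈ N := hN ▸ Submodule.mem_top
    obtain ⟨a, ha⟩ := (Submodule.mem_span_range_iff_exists_fun A).mp hb
    refine ⟨a, ?_⟩
    rw [← Ideal.Quotient.eq_zero_iff_mem, map_sub, ← ha, map_sum, sub_eq_zero]
    apply Finset.sum_congr rfl
    intro i _
    exact (map_smul (Ideal.Quotient.mkₐ A J) (a i) (t i)).symm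
  -- the images span the generic fibre over `K`
  set V := DK ⧸ J.map (ι : B →+* DK) with hV
  let v : Fin n → V := fun i => Ideal.Quotient.mk _ (ι (t i))
  have hspan : Submodule.span K (Set.range v) = ⊤ := by
    apply top_le_iff.mp
    intro x _
    obtain ⟨x, rfl⟩ := Ideal.Quotient.mk_surjective x
    obtain ⟨a, ha0, b, hb⟩ := hι x
    obtain ⟨c, hc⟩ := hcomb b
    have haK : algebraMap A K a ≠ 0 := by
      rwa [Ne, IsFractionRing.to_map_eq_zero_iff (K := K)]
    have h1 : Ideal.Quotient.mk (J.map (ι : B →+* DK)) (ι b)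
        = ∑ i, (algebraMap A K (c i)) • v i := by
      have : ι b = ι (b - ∑ i, c i • t i) + ∑ i, c i • ι (t i) := by
        rw [map_sub, map_sum]; simp
      have hc' : ι (b - ∑ i, c i • t i) ∈ J.map (ι : B →+* DK) :=
        Ideal.mem_map_of_mem (ι : B →+* DK) hc
      rw [this, map_add, Ideal.Quotient.eq_zero_iff_mem.mpr hc', zero_add, map_sum]
      apply Finset.sum_congr rfl
      intro i _
      rw [← algebraMap_smul K (c i) (ι (t i))]
      rfl
    have h2 : Ideal.Quotient.mk (J.map (ι : B →+* DK)) x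
        = (algebraMap A K a)⁻¹ • Ideal.Quotient.mk (J.map (ι : B →+* DK)) (ι b) := by
      rw [← hb, ← algebraMap_smul K a x]
      change _ = (algebraMap A K a)⁻¹ • ((algebraMap A K a) • Ideal.Quotient.mk _ x)
      rw [smul_smul, inv_mul_cancel₀ haK, one_smul]
    rw [h2, h1]
    exact Submodule.smul_mem _ _ (Submodule.sum_mem _ fun i _ =>
      Submodule.smul_mem _ _ (Submodule.subset_span ⟨i, rfl⟩))
  have hfd : FiniteDimensional K V :=
    Module.Finite.of_fg_top (hspan ▸ Submodule.fg_span (Set.finite_range v))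
  refine ⟨hfd, ?_⟩
  calc Module.finrank K V = Module.finrank K (⊤ : Submodule K V) := (finrank_top K V).symm
    _ = (Set.range v).finrank K := by rw [← hspan]; rfl
    _ ≤ Fintype.card (Fin n) := finrank_range_le_card v
    _ = n := Fintype.card_fin n

end Nakayama




section ImgSub

variable {K R : Type*} [Field K] [CommRing R] [Algebra K R]

/-- The image of an ideal in a quotient, as a `K`-subspace. -/
noncomputable def imgSub (𝔍 I : Ideal R) : Submodule K (R ⧸ 𝔍) :=
  (I.restrictScalars K).map (Ideal.Quotient.mkₐ K 𝔍).toLinearMap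

theorem mem_imgSub {𝔍 I : Ideal R} {v : R ⧸ 𝔍} :
    v ∈ imgSub (K := K) 𝔍 I ↔ ∃ x ∈ I, Ideal.Quotient.mk 𝔍 x = v := by
  unfold imgSub
  rw [Submodule.mem_map]
  rfl

theorem imgSub_top (𝔍 : Ideal R) : imgSub (K := K) 𝔍 ⊤ = ⊤ := by
  apply top_le_iff.mp
  intro v _
  obtain ⟨x, rfl⟩ := Ideal.Quotient.mk_surjective v
  exact mem_imgSub.mpr ⟨x, Submodule.mem_top, rfl⟩

theorem imgSub_self (𝔍 : Ideal R) : imgSub (K := K) 𝔍 𝔍 = ⊥ := by
  apply le_bot_iff.mp
  intro v hv
  obtain ⟨x, hx, rfl⟩ := mem_imgSub.mp hv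
  rw [Submodule.mem_bot]
  exact Ideal.Quotient.eq_zero_iff_mem.mpr hx

theorem imgSub_lt {𝔍 I I' : Ideal R} (h𝔍 : 𝔍 ≤ I') (hle : I' ≤ I) (hne : I' ≠ I) :
    imgSub (K := K) 𝔍 I' < imgSub (K := K) 𝔍 I := by
  refine lt_of_le_of_ne ?_ ?_
  · intro v hv
    obtain ⟨x, hx, rfl⟩ := mem_imgSub.mp hv
    exact mem_imgSub.mpr ⟨x, hle hx, rfl⟩
  · intro heq
    apply hne
    apply le_antisymm hle
    intro x hx
    have : Ideal.Quotient.mk 𝔍 x ∈ imgSub (K := K) 𝔍 I' := by
      rw [heq]; exact mem_imgSub.mpr ⟨x, hx, rfl⟩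
    obtain ⟨x', hx', hxx'⟩ := mem_imgSub.mp this
    have h2 : x' - x ∈ 𝔍 := Ideal.Quotient.eq.mp hxx'
    have : x = x' - (x' - x) := by ring
    rw [this]
    exact I'.sub_mem hx' (h𝔍 h2)

end ImgSub

section Prime

theorem pow_sub_dvd_of_pow_dvd_mul {M : Type*} [CommMonoidWithZero M] [IsCancelMulZero M]
    {p : M} (hp : Prime p) (m : ℕ) :
    ∀ (L : ℕ) (a b : M), p ^ L ∣ a * b → ¬ p ^ (m + 1) ∣ a → p ^ (L - m) ∣ b := by
  induction m with
  | zero =>
    intro L a b h hna
    rw [zero_add, pow_one] at hna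
    exact hp.pow_dvd_of_dvd_mul_left L hna h
  | succ m ih =>
    intro L a b h hna
    by_cases hpa : p ∣ a
    · obtain ⟨a', rfl⟩ := hpa
      rcases L with _ | L
      · simp
      · have h1 : p ^ L ∣ a' * b := by
          rw [pow_succ', mul_assoc] at h
          exact (mul_dvd_mul_iff_left hp.ne_zero).mp h
        have h2 : ¬ p ^ (m + 1) ∣ a' := by
          intro h3
          apply hna
          rw [pow_succ' p (m + 1)]
          exact mul_dvd_mul_left p h3
        have := ih L a' b h1 h2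
        rwa [Nat.succ_sub_succ]
    · exact (pow_dvd_pow p (Nat.sub_le _ _)).trans (hp.pow_dvd_of_dvd_mul_left L hpa h)

end Prime

section Special

variable {k D : Type*} [Field k] [CommRing D] [IsDedekindDomain D] [Algebra k D]

theorem mem_pow_sub_of_mul_mem_pow (Q : Ideal D) [Q.IsPrime] (hQ0 : Q ≠ ⊥) {y d : D} {m L : ℕ}
    (hm : y ∉ Q ^ (m + 1)) (h : y * d ∈ Q ^ L) : d ∈ Q ^ (L - m) := by
  rw [← Ideal.span_singleton_le_iff_mem, ← Ideal.dvd_iff_le] at hm h ⊢
  rw [← Ideal.span_singleton_mul_span_singleton] at h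
  exact pow_sub_dvd_of_pow_dvd_mul (Ideal.prime_of_isPrime hQ0 inferInstance) m L _ _ h hm

theorem finrank_imgSub_pow_le (Q : Ideal D) [Q.IsMaximal] (hQ0 : Q ≠ ⊥)
    (hQres : ∀ d : D, ∃ c : k, d - algebraMap k D c ∈ Q) (L : ℕ) :
    ∀ j i : ℕ, i + j = L → FiniteDimensional k (imgSub (K := k) (Q ^ L) (Q ^ i)) ∧
      Module.finrank k (imgSub (K := k) (Q ^ L) (Q ^ i)) ≤ j := by
  intro j
  induction j with
  | zero =>
    intro i hi
    rw [add_zero] at hi
    subst hi
    rw [imgSub_self]
    exact ⟨inferInstance, by simp⟩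
  | succ j ih =>
    intro i hi
    obtain ⟨hfd, hfr⟩ := ih (i + 1) (by omega)
    obtain ⟨a, ha, hna⟩ := Ideal.exists_mem_pow_notMem_pow_succ Q hQ0
      (Ideal.IsMaximal.ne_top inferInstance) i
    have hle : imgSub (K := k) (Q ^ L) (Q ^ i)
        ≤ Submodule.span k {Ideal.Quotient.mk (Q ^ L) a} ⊔ imgSub (K := k) (Q ^ L) (Q ^ (i + 1)) := by
      intro v hv
      obtain ⟨x, hx, rfl⟩ := mem_imgSub.mp hv
      obtain ⟨d, e, he, hde⟩ := Ideal.exists_mul_add_mem_pow_succ hQ0 a x ha hna hx
      obtain ⟨c, hc⟩ := hQres d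
      have hx' : x = c • a + (a * (d - algebraMap k D c) + e) := by
        rw [Algebra.smul_def, ← hde]; ring
      rw [hx', map_add]
      refine Submodule.add_mem _ (Submodule.mem_sup_left ?_) (Submodule.mem_sup_right ?_)
      · have : Ideal.Quotient.mk (Q ^ L) (c • a) = c • Ideal.Quotient.mk (Q ^ L) a :=
          map_smul (Ideal.Quotient.mkₐ k (Q ^ L)) c a
        rw [this]
        exact Submodule.smul_mem _ _ (Submodule.mem_span_singleton_self _)
      · refine mem_imgSub.mpr ⟨_, ?_, rfl⟩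
        refine Ideal.add_mem _ ?_ he
        rw [pow_succ]
        exact Ideal.mul_mem_mul ha hc
    have := hfd
    have : FiniteDimensional k (Submodule.span k {Ideal.Quotient.mk (Q ^ L) a}) :=
      FiniteDimensional.span_singleton k _
    have hfd' : FiniteDimensional k (imgSub (K := k) (Q ^ L) (Q ^ i)) :=
      Submodule.finiteDimensional_of_le hle
    have h1 : Module.finrank k (Submodule.span k {Ideal.Quotient.mk (Q ^ L) a}) ≤ 1 := by
      have := finrank_span_le_card (R := k) ({Ideal.Quotient.mk (Q ^ L) a} : Set (D ⧸ Q ^ L))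
      simpa using this
    refine ⟨hfd', ?_⟩
    calc Module.finrank k (imgSub (K := k) (Q ^ L) (Q ^ i))
        ≤ Module.finrank k ↥(Submodule.span k {Ideal.Quotient.mk (Q ^ L) a} ⊔
            imgSub (K := k) (Q ^ L) (Q ^ (i + 1))) := Submodule.finrank_mono hle
      _ ≤ Module.finrank k (Submodule.span k {Ideal.Quotient.mk (Q ^ L) a}) +
            Module.finrank k (imgSub (K := k) (Q ^ L) (Q ^ (i + 1))) :=
          Submodule.finrank_add_le_finrank_add_finrank _ _
      _ ≤ 1 + j := Nat.add_le_add h1 hfr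
      _ = j + 1 := by ring

variable {A B : Type*} [CommRing A] [Algebra A k] [CommRing B] [Algebra A B] [Algebra A D]
  [IsScalarTower A k D]

/-- (k-side) The special fibre of `B ⧸ (I + y B)` is generated by at most `ord_Q (red y)`
elements, as soon as `I` contains the kernel of `red`, an element with nonzero reduction, and
is "local at `Q`". -/
theorem special_bound (hk : Function.Surjective (algebraMap A k))
    (red : B →ₐ[A] D) (z : D) (hz : z ≠ 0) (hzS : ∀ d : D, ∃ b : B, red b = z * d)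
    (q : ℕ) (hq : 0 < q) (hrad : ∀ d : D, ∃ b : B, red b = d ^ q)
    (Q : Ideal D) [Q.IsMaximal] (hQ0 : Q ≠ ⊥)
    (hQres : ∀ d : D, ∃ c : k, d - algebraMap k D c ∈ Q)
    (I : Ideal B) (hI : ∀ b : B, red b = 0 → b ∈ I) (f : B) (hfI : f ∈ I) (hf0 : red f ≠ 0)
    (hloc : ∀ b : B, red b ∉ Q → ∃ u : B, b * u - 1 ∈ I)
    (y : B) (m : ℕ) (hm : red y ∉ Q ^ (m + 1)) :
    ∃ n ≤ m, ∃ t : Fin n → B, ∀ b : B, ∃ a : Fin n → A,
      b - ∑ i, a i • t i ∈ I ⊔ Ideal.span {y} := by
  classical
  -- Step 1: a power of `Q` is absorbed by `I`.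
  have hQprime : Prime Q := Ideal.prime_of_isPrime hQ0 inferInstance
  have hspan0 : Ideal.span {red f * z} ≠ (0 : Ideal D) := by
    rw [Ideal.zero_eq_bot, Ne, Ideal.span_singleton_eq_bot]
    exact mul_ne_zero hf0 hz
  obtain ⟨L, 𝔞, h𝔞, hfac⟩ := WfDvdMonoid.max_power_factor hspan0 hQprime.irreducible
  have h𝔞' : ¬ 𝔞 ≤ Q := fun h => h𝔞 (Ideal.dvd_iff_le.mpr h)
  obtain ⟨w, hw𝔞, hwQ⟩ := SetLike.not_le_iff_exists.mp h𝔞'
  obtain ⟨bw, hbw⟩ := hrad w
  have hbwQ : red bw ∉ Q := by
    rw [hbw]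
    exact fun h => hwQ (Ideal.IsPrime.mem_of_pow_mem inferInstance q h)
  obtain ⟨u, hu⟩ := hloc bw hbwQ
  have hL : ∀ b, red b ∈ Q ^ L → b ∈ I := by
    intro b hb
    have h1 : red b * w ^ q ∈ Ideal.span {red f * z} := by
      rw [hfac]
      exact Ideal.mul_mem_mul hb (Ideal.pow_mem_of_mem _ hw𝔞 q hq)
    obtain ⟨d, hd⟩ := Ideal.mem_span_singleton'.mp h1
    obtain ⟨bd, hbd⟩ := hzS d
    have h2 : b * bw - f * bd ∈ I := by
      apply hI
      rw [map_sub, map_mul, map_mul, hbw, hbd, ← hd]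
      ring
    have h3 : b * bw ∈ I := by
      have : b * bw = (b * bw - f * bd) + f * bd := by ring
      rw [this]
      exact I.add_mem h2 (I.mul_mem_right _ hfI)
    have : b = (b * bw) * u - b * (bw * u - 1) := by ring
    rw [this]
    exact I.sub_mem (I.mul_mem_right _ h3) (I.mul_mem_left _ hu)
  -- Step 2: the finite-dimensional space `X = D ⧸ Q ^ L`.
  set X := D ⧸ Q ^ L with hX
  let σ : B →+* X := (Ideal.Quotient.mk (Q ^ L)).comp (red : B →+* D)
  have hσ_smul : ∀ (a : A) (b : B), σ (a • b) = algebraMap A k a • σ b := by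
    intro a b
    rw [Algebra.smul_def, map_mul, Algebra.smul_def]
    congr 1
    change Ideal.Quotient.mk (Q ^ L) (red (algebraMap A B a)) = _
    rw [AlgHom.commutes, IsScalarTower.algebraMap_apply A k D]
    rfl
  have hσ0 : ∀ b, σ b = 0 → b ∈ I := fun b hb => hL b (Ideal.Quotient.eq_zero_iff_mem.mp hb)
  let U : Submodule k X :=
    { carrier := Set.range σ
      add_mem' := by
        rintro _ _ ⟨b, rfl⟩ ⟨b', rfl⟩
        exact ⟨b + b', map_add σ b b'⟩
      zero_mem' := ⟨0, map_zero σ⟩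
      smul_mem' := by
        rintro c _ ⟨b, rfl⟩
        obtain ⟨a, rfl⟩ := hk c
        exact ⟨a • b, hσ_smul a b⟩ }
  have hUmem : ∀ x : X, x ∈ U ↔ ∃ b, σ b = x := fun x => Iff.rfl
  let μ : X →ₗ[k] X := LinearMap.mulLeft k (σ y)
  have hμU : ∀ x ∈ U, μ x ∈ U := by
    rintro _ ⟨b, rfl⟩
    exact ⟨y * b, by rw [map_mul]; rfl⟩
  let μU : U →ₗ[k] U := μ.restrict hμU
  have hfin := finrank_imgSub_pow_le (k := k) Q hQ0 hQres L
  have hXfd : FiniteDimensional k X := by
    obtain ⟨h1, -⟩ := hfin L 0 (by omega)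
    rw [pow_zero, Ideal.one_eq_top, imgSub_top] at h1
    exact Module.finite_def.mpr (Module.Finite.iff_fg.mp h1)
  have hker : LinearMap.ker μ ≤ imgSub (K := k) (Q ^ L) (Q ^ (L - m)) := by
    intro x hx
    obtain ⟨d, rfl⟩ := Ideal.Quotient.mk_surjective x
    have h1 : Ideal.Quotient.mk (Q ^ L) (red y * d) = 0 := by
      rw [map_mul]; exact LinearMap.mem_ker.mp hx
    exact mem_imgSub.mpr ⟨d, mem_pow_sub_of_mul_mem_pow Q hQ0 hm
      (Ideal.Quotient.eq_zero_iff_mem.mp h1), rfl⟩
  have hkerdim : Module.finrank k (LinearMap.ker μ) ≤ m := by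
    obtain ⟨h1, h2⟩ := hfin (L - (L - m)) (L - m) (by omega)
    have := h1
    calc Module.finrank k (LinearMap.ker μ)
        ≤ Module.finrank k (imgSub (K := k) (Q ^ L) (Q ^ (L - m))) := Submodule.finrank_mono hker
      _ ≤ L - (L - m) := h2
      _ ≤ m := by omega
  have hkerU : Module.finrank k (LinearMap.ker μU) ≤ Module.finrank k (LinearMap.ker μ) := by
    rw [← Submodule.finrank_map_subtype_eq U (LinearMap.ker μU)]
    apply Submodule.finrank_mono
    rintro _ ⟨x, hx, rfl⟩
    rw [LinearMap.mem_ker]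
    have : μU x = 0 := LinearMap.mem_ker.mp hx
    have h2 : ((μU x : U) : X) = μ (x : X) := rfl
    have h3 : ((μU x : U) : X) = 0 := by rw [this]; rfl
    exact h2.symm.trans h3
  have hWdim : Module.finrank k (U ⧸ LinearMap.range μU) ≤ m := by
    have h1 := Submodule.finrank_quotient_add_finrank (LinearMap.range μU)
    have h2 := LinearMap.finrank_range_add_finrank_ker μU
    omega
  -- Step 3: lift a basis of the cokernel.
  let bas := Module.finBasis k (U ⧸ LinearMap.range μU)
  have hlift : ∀ w : U ⧸ LinearMap.range μU,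
      ∃ b : B, ∃ hb : σ b ∈ U, (LinearMap.range μU).mkQ (⟨σ b, hb⟩ : U) = w := by
    intro w
    obtain ⟨⟨x, b, rfl⟩, rfl⟩ := Submodule.Quotient.mk_surjective _ w
    exact ⟨b, ⟨b, rfl⟩, rfl⟩
  choose tt htU htt using fun i => hlift (bas i)
  refine ⟨Module.finrank k (U ⧸ LinearMap.range μU), hWdim, tt, ?_⟩
  intro b
  have hbU : σ b ∈ U := ⟨b, rfl⟩
  choose a ha using fun i => hk (bas.repr ((LinearMap.range μU).mkQ (⟨σ b, hbU⟩ : U)) i)
  refine ⟨a, ?_⟩
  have hsumU : σ (∑ i, a i • tt i) ∈ U := ⟨_, rfl⟩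
  have h1 : (LinearMap.range μU).mkQ
      ((⟨σ b, hbU⟩ : U) - ⟨σ (∑ i, a i • tt i), hsumU⟩) = 0 := by
    rw [map_sub]
    have h2 : (⟨σ (∑ i, a i • tt i), hsumU⟩ : U)
        = ∑ i, algebraMap A k (a i) • (⟨σ (tt i), htU i⟩ : U) := by
      apply Subtype.ext
      change σ (∑ i, a i • tt i)
        = ((∑ i, algebraMap A k (a i) • (⟨σ (tt i), htU i⟩ : U) : U) : X)
      rw [Submodule.coe_sum, map_sum]
      apply Finset.sum_congr rfl
      intro i _
      rw [hσ_smul]; rfl
    rw [h2, map_sum]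
    have h3 : ∀ i, (LinearMap.range μU).mkQ
        (algebraMap A k (a i) • (⟨σ (tt i), htU i⟩ : U))
        = bas.repr ((LinearMap.range μU).mkQ (⟨σ b, hbU⟩ : U)) i • bas i := by
      intro i
      rw [map_smul, htt i, ha i]
    rw [Finset.sum_congr rfl fun i _ => h3 i, bas.sum_repr, sub_self]
  rw [Submodule.mkQ_apply, Submodule.Quotient.mk_eq_zero] at h1
  obtain ⟨⟨_, b', rfl⟩, hb'⟩ := h1
  have h4 : σ (b - ∑ i, a i • tt i - y * b') = 0 := by
    have h5 := congrArg (Subtype.val) hb'
    have h6 : ((μU ⟨σ b', ⟨b', rfl⟩⟩ : U) : X) = σ y * σ b' := rfl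
    rw [h6] at h5
    rw [map_sub, map_sub, map_mul, h5]
    change σ b - σ (∑ i, a i • tt i) - (σ b - σ (∑ i, a i • tt i)) = 0
    rw [sub_self]
  have h7 := hσ0 _ h4
  have : b - ∑ i, a i • tt i = (b - ∑ i, a i • tt i - y * b') + y * b' := by ring
  rw [this]
  exact Submodule.add_mem _ (Submodule.mem_sup_left h7)
    (Submodule.mem_sup_right (Ideal.mul_mem_right _ _ (Ideal.mem_span_singleton_self y)))

end Special


section Generic

variable {K DK : Type*} [Field K] [CommRing DK] [IsDedekindDomain DK] [Algebra K DK]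

theorem card_add_finrank_le (𝔍 : Ideal DK) [FiniteDimensional K (DK ⧸ 𝔍)]
    (t : Multiset (Ideal DK)) (ht : ∀ P ∈ t, P.IsPrime ∧ P ≠ ⊥) (h𝔍 : 𝔍 ≤ t.prod) :
    t.card + Module.finrank K (imgSub (K := K) 𝔍 t.prod) ≤ Module.finrank K (DK ⧸ 𝔍) := by
  induction t using Multiset.induction_on with
  | empty =>
    rw [Multiset.card_zero, zero_add, Multiset.prod_zero, Ideal.one_eq_top, imgSub_top,
      finrank_top]
  | cons P t ih =>
    rw [Multiset.prod_cons] at h𝔍 ⊢
    have hP := ht P (Multiset.mem_cons_self P t)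
    have ht' : ∀ P' ∈ t, P'.IsPrime ∧ P' ≠ ⊥ := fun P' hP' => ht P' (Multiset.mem_cons_of_mem hP')
    have hle : P * t.prod ≤ t.prod := Ideal.mul_le_right
    have ih' := ih ht' (h𝔍.trans hle)
    have hprod0 : t.prod ≠ ⊥ := by
      rw [← Ideal.zero_eq_bot]
      apply Multiset.prod_ne_zero
      intro h0
      exact (ht' _ h0).2 rfl
    have hne : P * t.prod ≠ t.prod := by
      intro h
      have h1 : P = 1 := by
        have h2 : P * t.prod = 1 * t.prod := by rw [h, one_mul]
        exact mul_right_cancel₀ (by rwa [Ideal.zero_eq_bot]) h2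
      exact hP.1.ne_top (by rw [h1, Ideal.one_eq_top])
    have hlt := Submodule.finrank_lt_finrank_of_lt (imgSub_lt (K := K) h𝔍 hle hne)
    rw [Multiset.card_cons]
    omega

/-- (K-side) If `𝔍 ≤ P ^ n P` for finitely many distinct nonzero primes `P`, then
`∑ n P ≤ dim_K (DK ⧸ 𝔍)`. -/
theorem sum_le_finrank_quotient (𝔍 : Ideal DK) [FiniteDimensional K (DK ⧸ 𝔍)]
    (Ps : Finset (Ideal DK)) (n : Ideal DK → ℕ)
    (hPs : ∀ P ∈ Ps, P.IsPrime ∧ P ≠ ⊥ ∧ 𝔍 ≤ P ^ n P) :
    ∑ P ∈ Ps, n P ≤ Module.finrank K (DK ⧸ 𝔍) := by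
  classical
  let t : Multiset (Ideal DK) := ∑ P ∈ Ps, Multiset.replicate (n P) P
  have htmem : ∀ P ∈ t, P.IsPrime ∧ P ≠ ⊥ := by
    intro P hP
    obtain ⟨P', hP', hPP'⟩ := Multiset.mem_sum.mp hP
    have := Multiset.eq_of_mem_replicate hPP'
    subst this
    exact ⟨(hPs P hP').1, (hPs P hP').2.1⟩
  have htprod : t.prod = ∏ P ∈ Ps, P ^ n P := by
    simp only [t]
    rw [Multiset.prod_sum]
    apply Finset.prod_congr rfl
    intro P _
    rw [Multiset.prod_replicate]
  have htcard : t.card = ∑ P ∈ Ps, n P := by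
    simp only [t]
    rw [Multiset.card_sum]
    apply Finset.sum_congr rfl
    intro P _
    rw [Multiset.card_replicate]
  have hle : 𝔍 ≤ t.prod := by
    rw [htprod, ← IsDedekindDomain.inf_pow_eq_prod_of_prime Ps (fun P => P) n
      (fun P hP => Ideal.prime_of_isPrime (hPs P hP).2.1 (hPs P hP).1)
      (fun P _ P' _ h => h)]
    apply Finset.le_inf
    intro P hP
    exact (hPs P hP).2.2
  have := card_add_finrank_le (K := K) 𝔍 t htmem hle
  rw [htcard] at this
  omega

end Generic


section Main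

/-- The maximal ideal of a local ring is killed by any surjection onto a field. -/
theorem algebraMap_eq_zero_of_mem_maximalIdeal {A k : Type*} [CommRing A] [IsLocalRing A]
    [Field k] [Algebra A k] (hk : Function.Surjective (algebraMap A k))
    {a : A} (ha : a ∈ maximalIdeal A) : algebraMap A k a = 0 := by
  by_contra h0
  obtain ⟨a', ha'⟩ := hk (algebraMap A k a)⁻¹
  have h1 : algebraMap A k (1 - a * a') = 0 := by
    rw [map_sub, map_one, map_mul, ha', mul_inv_cancel₀ h0, sub_self]
  have h2 : IsUnit (1 - a * a') := by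
    rw [← IsLocalRing.notMem_maximalIdeal]
    intro h3
    have h4 : (1 : A) ∈ maximalIdeal A := by
      have : (1 : A) = (1 - a * a') + a * a' := by ring
      rw [this]
      exact Ideal.add_mem _ h3 (Ideal.mul_mem_right _ _ ha)
    exact (Ideal.ne_top_iff_one _).mp (IsLocalRing.maximalIdeal.isMaximal A).ne_top h4
  exact (h2.map (algebraMap A k)).ne_zero h1

/-- **The local count.**  Let `A` be a local integrally closed domain with algebraically closed
fraction field `K` and residue field `k`; `B` an `A`-algebra with generic fibre `ι : B → DK`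
(every element of `DK` is `ι b / a`) and special fibre `red : B → D` (kernel `𝔪_A B`), both
Dedekind; assume `red B` has nonzero conductor in `D` (`z`), and `d ^ q ∈ red B` for all `d`.
Let `f : B` with `B ⧸ f B` finite over `A` and `red f ≠ 0`.  Let `Q` be a maximal ideal of `D`
with residue field `k`, let `y : B` with `red y ∉ Q ^ (m + 1)`.  Then for any finite set of
nonzero primes `P` of `DK` specialising to `Q` (`ι b ∈ P → red b ∈ Q`) and multiplicities
`n P ≤ min (ord_P f) (ord_P y)`:  `∑ n P ≤ m`. -/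
theorem local_count {A k B DK D : Type*} (K : Type*)
    [CommRing A] [IsDomain A] [IsLocalRing A] [IsIntegrallyClosed A]
    [Field K] [Algebra A K] [IsFractionRing A K] [IsAlgClosed K]
    [Field k] [Algebra A k]
    [CommRing B] [Algebra A B]
    [CommRing DK] [IsDedekindDomain DK] [Algebra K DK] [Algebra A DK] [IsScalarTower A K DK]
    [CommRing D] [IsDedekindDomain D] [Algebra k D] [Algebra A D] [IsScalarTower A k D]
    (hk : Function.Surjective (algebraMap A k))
    (ι : B →ₐ[A] DK) (hι : ∀ x : DK, ∃ a : A, a ≠ 0 ∧ ∃ b : B, a • x = ι b)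
    (red : B →ₐ[A] D)
    (hred : ∀ b : B, red b = 0 → b ∈ (maximalIdeal A).map (algebraMap A B))
    (z : D) (hz : z ≠ 0) (hzS : ∀ d : D, ∃ b : B, red b = z * d)
    (q : ℕ) (hq : 0 < q) (hrad : ∀ d : D, ∃ b : B, red b = d ^ q)
    (f : B) (hf : Module.Finite A (B ⧸ Ideal.span {f})) (hf0 : red f ≠ 0)
    (Q : Ideal D) [Q.IsMaximal] (hQ0 : Q ≠ ⊥)
    (hQres : ∀ d : D, ∃ c : k, d - algebraMap k D c ∈ Q)
    (y : B) (m : ℕ) (hm : red y ∉ Q ^ (m + 1))
    (Ps : Finset (Ideal DK)) (n : Ideal DK → ℕ)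
    (hPs : ∀ P ∈ Ps, P.IsPrime ∧ P ≠ ⊥ ∧ ι f ∈ P ^ n P ∧ ι y ∈ P ^ n P ∧
      ∀ b : B, ι b ∈ P → red b ∈ Q) :
    ∑ P ∈ Ps, n P ≤ m := by
  classical
  have hQmax : Q.IsMaximal := inferInstance
  have hQprime : Prime Q := Ideal.prime_of_isPrime hQ0 inferInstance
  -- (a) the separating element `g`
  have hspan0 : Ideal.span {red f} ≠ (0 : Ideal D) := by
    rw [Ideal.zero_eq_bot, Ne, Ideal.span_singleton_eq_bot]
    exact hf0
  obtain ⟨a₀, 𝔣, h𝔣, hfac⟩ := WfDvdMonoid.max_power_factor hspan0 hQprime.irreducible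
  have h𝔣' : ¬ 𝔣 ≤ Q := fun h => h𝔣 (Ideal.dvd_iff_le.mpr h)
  have hsup : Q ⊔ 𝔣 = ⊤ := by
    by_contra hne
    have := hQmax.eq_of_le hne le_sup_left
    exact h𝔣' (this ▸ le_sup_right)
  obtain ⟨d₀, hd₀, e₀, he₀, hde⟩ := Submodule.mem_sup.mp (hsup ▸ Submodule.mem_top : (1 : D) ∈ Q ⊔ 𝔣)
  obtain ⟨g, hg⟩ := hrad d₀
  have hgQ : red g ∈ Q := by
    rw [hg]; exact Ideal.pow_mem_of_mem _ hd₀ q hq
  have hsep : ∀ Q' : Ideal D, Q'.IsPrime → Q' ≠ ⊤ → red f ∈ Q' → red g ∈ Q' → Q' = Q := by
    intro Q' hQ' hQ'top hfQ' hgQ'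
    have hd₀' : d₀ ∈ Q' := hQ'.mem_of_pow_mem q (hg ▸ hgQ')
    have h1 : Q ^ a₀ * 𝔣 ≤ Q' := by
      rw [← hfac, Ideal.span_singleton_le_iff_mem]; exact hfQ'
    rcases hQ'.mul_le.mp h1 with h2 | h2
    · exact (hQmax.eq_of_le hQ'top (Ideal.IsPrime.le_of_pow_le h2)).symm
    · exfalso
      apply hQ'top
      rw [Ideal.eq_top_iff_one, ← hde]
      exact Ideal.add_mem _ hd₀' (h2 he₀)
  -- (b) `g` is integral over `A` modulo `f`; the idempotent
  have hint : IsIntegral A (Ideal.Quotient.mk (Ideal.span {f}) g) :=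
    Algebra.IsIntegral.isIntegral _
  obtain ⟨P₀, hP₀mon, hP₀⟩ := hint
  have hP₀' : aeval g P₀ ∈ Ideal.span {f} := by
    rw [← Ideal.Quotient.eq_zero_iff_mem]
    have : Ideal.Quotient.mk (Ideal.span {f}) (aeval g P₀)
        = aeval (Ideal.Quotient.mkₐ A (Ideal.span {f}) g) P₀ :=
      (Polynomial.aeval_algHom_apply (Ideal.Quotient.mkₐ A (Ideal.span {f})) g P₀).symm
    rw [this]
    exact hP₀
  obtain ⟨s, hs⟩ := exists_multiset_of_monic K P₀ hP₀mon
  rw [hs] at hP₀'
  let Dp : A → Prop := fun a => a ∈ maximalIdeal A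
  have hDunit : ∀ a ∈ s, ∀ b ∈ s, Dp a → ¬ Dp b → IsUnit (a - b) := by
    intro a _ b _ ha hb
    rw [← IsLocalRing.notMem_maximalIdeal]
    intro hab
    apply hb
    have : b = a - (a - b) := by ring
    change b ∈ maximalIdeal A
    rw [this]
    exact Ideal.sub_mem _ ha hab
  obtain ⟨u, v, huv⟩ := isCoprime_polyPos_polyNeg s Dp hDunit
  set E : A[X] := v * polyNeg s Dp with hE
  set e : B := aeval g E with he
  have he1 : e * (1 - e) ∈ Ideal.span {f} := by
    have h1 : E * (1 - E) = u * v * (s.map fun a => X - C a).prod := by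
      rw [← polyPos_mul_polyNeg s Dp]
      have : 1 - E = u * polyPos s Dp := by rw [hE, ← huv]; ring
      rw [this, hE]; ring
    have h2 : e * (1 - e) = aeval g (u * v) * aeval g (s.map fun a => X - C a).prod := by
      rw [← map_mul, ← h1, map_mul, map_sub, map_one]
    rw [h2]
    exact Ideal.mul_mem_left _ _ hP₀'
  have hE1 : ∀ a ∈ s, Dp a → E.eval a = 1 := by
    intro a has hDa
    have h2 := congrArg (Polynomial.eval a) huv
    rw [Polynomial.eval_add, Polynomial.eval_mul, Polynomial.eval_mul, eval_polyPos s Dp has hDa,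
      mul_zero, zero_add, Polynomial.eval_one] at h2
    rw [hE, Polynomial.eval_mul, h2]
  have hE0 : ∀ a ∈ s, ¬ Dp a → E.eval a = 0 := by
    intro a has hDa
    rw [hE, Polynomial.eval_mul, eval_polyNeg s Dp has hDa, mul_zero]
  -- (c) the special fibre
  let J₀ : Ideal B := Ideal.span {f, 1 - e}
  let I : Ideal B := J₀ ⊔ (maximalIdeal A).map (algebraMap A B)
  have hfJ₀ : f ∈ J₀ := Ideal.subset_span (by simp)
  have heJ₀ : 1 - e ∈ J₀ := Ideal.subset_span (by simp)
  have hI : ∀ b : B, red b = 0 → b ∈ I := fun b hb => Submodule.mem_sup_right (hred b hb)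
  have hmA : ∀ a : A, a ∈ maximalIdeal A → red (algebraMap A B a) = 0 := by
    intro a ha
    rw [AlgHom.commutes, IsScalarTower.algebraMap_apply A k D,
      algebraMap_eq_zero_of_mem_maximalIdeal hk ha, map_zero]
  have hIred : ∀ b ∈ I, ∀ Q' : Ideal D, red f ∈ Q' → red (1 - e) ∈ Q' → red b ∈ Q' := by
    intro b hb Q' hfQ' heQ'
    have hle : I ≤ Q'.comap (red : B →+* D) := by
      refine sup_le ?_ ?_
      · rw [Ideal.span_le]
        intro x hx
        rcases hx with rfl | rfl
        · exact hfQ'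
        · exact heQ'
      · rw [Ideal.map_le_iff_le_comap]
        intro a ha
        change red (algebraMap A B a) ∈ Q'
        rw [hmA a ha]
        exact Q'.zero_mem
    exact hle hb
  have hloc : ∀ b : B, red b ∉ Q → ∃ u : B, b * u - 1 ∈ I := by
    intro b hbQ
    by_contra hno
    have hne : I ⊔ Ideal.span {b} ≠ ⊤ := by
      intro htop
      have h1 : (1 : B) ∈ I ⊔ Ideal.span {b} := htop ▸ Submodule.mem_top
      obtain ⟨i, hi, x, hx, hix⟩ := Submodule.mem_sup.mp h1
      obtain ⟨u', rfl⟩ := Ideal.mem_span_singleton'.mp hx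
      apply hno
      refine ⟨u', ?_⟩
      have : b * u' - 1 = -i := by rw [← hix]; ring
      rw [this]
      exact I.neg_mem hi
    obtain ⟨𝔫, h𝔫max, h𝔫le⟩ := Ideal.exists_le_maximal _ hne
    let _ : Algebra B D := (red : B →+* D).toAlgebra
    have halg : ∀ b' : B, algebraMap B D b' = red b' := fun _ => rfl
    have : Algebra.IsIntegral B D := by
      refine ⟨fun d => ?_⟩
      obtain ⟨bd, hbd⟩ := hrad d
      refine ⟨X ^ q - C bd, monic_X_pow_sub_C bd hq.ne', ?_⟩
      rw [Polynomial.eval₂_sub, Polynomial.eval₂_X_pow, Polynomial.eval₂_C, halg, hbd, sub_self]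
    have hkerle : RingHom.ker (algebraMap B D) ≤ 𝔫 := by
      intro b' hb'
      exact h𝔫le (Submodule.mem_sup_left (hI b' (by rw [← halg]; exact hb')))
    obtain ⟨Q', hQ'max, hQ'comap⟩ := Ideal.exists_ideal_over_maximal_of_isIntegral 𝔫 hkerle
    have hmemQ' : ∀ b' ∈ 𝔫, red b' ∈ Q' := by
      intro b' hb'
      rw [← hQ'comap] at hb'
      exact hb'
    have hfQ' : red f ∈ Q' := hmemQ' f (h𝔫le (Submodule.mem_sup_left (Submodule.mem_sup_left hfJ₀)))
    have heQ' : red (1 - e) ∈ Q' :=
      hmemQ' _ (h𝔫le (Submodule.mem_sup_left (Submodule.mem_sup_left heJ₀)))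
    have hbQ' : red b ∈ Q' :=
      hmemQ' b (h𝔫le (Submodule.mem_sup_right (Ideal.mem_span_singleton_self b)))
    have := hQ'max.isPrime
    let ψ : B →+* D ⧸ Q' := (Ideal.Quotient.mk Q').comp (red : B →+* D)
    have hψ0 : ∀ b', red b' ∈ Q' → ψ b' = 0 := fun b' hb' => Ideal.Quotient.eq_zero_iff_mem.mpr hb'
    obtain ⟨a, has, hψg⟩ := exists_root_of_map_eq_zero s ψ g f hP₀' (hψ0 f hfQ')
    have hψe : ψ e = 1 := by
      have := hψ0 _ heQ'
      rw [map_sub, map_one, sub_eq_zero] at this
      exact this.symm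
    have hDa : Dp a := by
      by_contra hDa
      have h0 : ψ e = 0 := by
        rw [he, map_aeval_of_eq ψ g a hψg, hE0 a has hDa, map_zero, map_zero]
      rw [hψe] at h0
      exact one_ne_zero h0
    have hψg0 : ψ g = 0 := by
      rw [hψg]
      change Ideal.Quotient.mk Q' (red (algebraMap A B a)) = 0
      rw [hmA a hDa, map_zero]
    have hgQ' : red g ∈ Q' := Ideal.Quotient.eq_zero_iff_mem.mp hψg0
    have := hsep Q' hQ'max.isPrime hQ'max.ne_top hfQ' hgQ'
    exact hbQ (this ▸ hbQ')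
  obtain ⟨n₀, hn₀, t, ht⟩ := special_bound hk red z hz hzS q hq hrad Q hQ0 hQres I hI f
    (Submodule.mem_sup_left hfJ₀) hf0 hloc y m hm
  -- (d) semicontinuity
  let J : Ideal B := J₀ ⊔ Ideal.span {y}
  have hJfin : Module.Finite A (B ⧸ J) := by
    have hle : Ideal.span {f} ≤ J := by
      rw [Ideal.span_singleton_le_iff_mem]
      exact Submodule.mem_sup_left hfJ₀
    have := hf
    exact Module.Finite.of_surjective (Ideal.Quotient.factorₐ A hle).toLinearMap
      (Ideal.Quotient.factor_surjective hle)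
  have ht' : ∀ b : B, ∃ a : Fin n₀ → A,
      b - ∑ i, a i • t i ∈ J ⊔ (maximalIdeal A).map (algebraMap A B) := by
    intro b
    obtain ⟨a, ha⟩ := ht b
    refine ⟨a, ?_⟩
    have : J ⊔ (maximalIdeal A).map (algebraMap A B) = I ⊔ Ideal.span {y} := sup_right_comm _ _ _
    rw [this]
    exact ha
  obtain ⟨hfd, hfr⟩ := finrank_generic_le (K := K) ι hι J hJfin n₀ t ht'
  -- (e) the generic fibre
  have := hfd
  have hgen := sum_le_finrank_quotient (K := K) (J.map (ι : B →+* DK)) Ps n (by
    intro P hP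
    obtain ⟨hPprime, hP0, hfP, hyP, hspec⟩ := hPs P hP
    refine ⟨hPprime, hP0, ?_⟩
    rw [Ideal.map_le_iff_le_comap]
    refine sup_le ?_ ?_
    · rw [Ideal.span_le]
      intro x hx
      rcases hx with rfl | rfl
      · exact hfP
      · change ι (1 - e) ∈ P ^ n P
        by_cases hn0 : n P = 0
        · rw [hn0, pow_zero, Ideal.one_eq_top]; exact Submodule.mem_top
        · have hfP' : ι f ∈ P := Ideal.pow_le_self hn0 hfP
          let ψ : B →+* DK ⧸ P := (Ideal.Quotient.mk P).comp (ι : B →+* DK)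
          have hψf : ψ f = 0 := Ideal.Quotient.eq_zero_iff_mem.mpr hfP'
          obtain ⟨a, has, hψg⟩ := exists_root_of_map_eq_zero s ψ g f hP₀' hψf
          have hDa : Dp a := by
            by_contra hDa
            have h1 : ι (g - algebraMap A B a) ∈ P := by
              rw [← Ideal.Quotient.eq_zero_iff_mem]
              change ψ (g - algebraMap A B a) = 0
              rw [map_sub, hψg, sub_self]
            have h2 := hspec _ h1
            rw [map_sub] at h2
            have h3 : red (algebraMap A B a) ∈ Q := by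
              have : red (algebraMap A B a) = red g - (red g - red (algebraMap A B a)) := by ring
              rw [this]
              exact Q.sub_mem hgQ h2
            have h4 : IsUnit a := IsLocalRing.notMem_maximalIdeal.mp hDa
            have h5 : IsUnit (red (algebraMap A B a)) := (h4.map (algebraMap A B)).map red
            exact hQmax.ne_top (Ideal.eq_top_of_isUnit_mem _ h3 h5)
          have hψe : ψ e = 1 := by
            rw [he, map_aeval_of_eq ψ g a hψg, hE1 a has hDa, map_one, map_one]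
          have heP : ι e ∉ P := by
            intro h
            have : ψ e = 0 := Ideal.Quotient.eq_zero_iff_mem.mpr h
            rw [hψe] at this
            exact one_ne_zero this
          have hprod : ι e * ι (1 - e) ∈ P ^ n P := by
            obtain ⟨c, hc⟩ := Ideal.mem_span_singleton'.mp he1
            rw [← map_mul, ← hc, map_mul]
            exact Ideal.mul_mem_left _ _ hfP
          exact (Ideal.IsPrime.mul_mem_pow P hprod).resolve_left heP
    · rw [Ideal.span_singleton_le_iff_mem]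
      exact hyP)
  omega

end Main

end Fermat.Agent.Lib.LocalCount
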