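import Mathlib

set_option autoImplicit false

namespace Fermat.Agent.Lib.LocalDisc

open Module

section MatrixLemma

variable {κ : Type*} [Field κ] {ι : Type*} [Fintype ι] [DecidableEq ι]

/-- Over a field of characteristic zero, a non-nilpotent matrix `N` has a polynomial multiple
`N * q(N)` of nonzero trace (a nonzero idempotent in `κ[N]`). -/
theorem exists_trace_mul_aeval_ne_zero [CharZero κ] (N : Matrix ι ι κ) (hN : ¬ IsNilpotent N) :
    ∃ q : Polynomial κ, (N * Polynomial.aeval N q).trace ≠ 0 := by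
  classical
  have hχ0 : N.charpoly ≠ 0 := (Matrix.charpoly_monic N).ne_zero
  obtain ⟨g, hg, hXg⟩ :=
    Polynomial.exists_eq_pow_rootMultiplicity_mul_and_not_dvd N.charpoly hχ0 0
  obtain ⟨a, ha⟩ : ∃ a : ℕ, a = Polynomial.rootMultiplicity 0 N.charpoly := ⟨_, rfl⟩
  rw [← ha] at hg
  simp only [map_zero, sub_zero] at hg hXg
  have hg0 : g.coeff 0 ≠ 0 := fun h0 => hXg (Polynomial.X_dvd_iff.mpr h0)
  obtain ⟨c, hc⟩ : ∃ c : κ, c = (g.coeff 0)⁻¹ := ⟨_, rfl⟩
  obtain ⟨g₁, hg₁⟩ : ∃ g₁ : Polynomial κ, g₁ = g.divX := ⟨_, rfl⟩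
  obtain ⟨h, hh⟩ : ∃ h : Polynomial κ, h = - Polynomial.C c * g₁ := ⟨_, rfl⟩
  -- polynomial identity `X^a = X^a * (X * h) + C (g 0)⁻¹ * χ`
  have hpoly : (Polynomial.X : Polynomial κ) ^ a
      = Polynomial.X ^ a * (Polynomial.X * h) + Polynomial.C c * N.charpoly := by
    have hgX : g = Polynomial.X * g₁ + Polynomial.C (g.coeff 0) := by
      rw [hg₁]; exact (Polynomial.X_mul_divX_add g).symm
    have hC : Polynomial.C c * Polynomial.C (g.coeff 0) = (1 : Polynomial κ) := by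
      rw [← Polynomial.C_mul, hc, inv_mul_cancel₀ hg0, Polynomial.C_1]
    have h2 : Polynomial.C c * g = Polynomial.C c * (Polynomial.X * g₁) + 1 := by
      rw [← hC, ← mul_add, ← hgX]
    rw [hg, hh]
    linear_combination (-(Polynomial.X : Polynomial κ) ^ a) * h2
  obtain ⟨τ, hτ⟩ : ∃ τ : Matrix ι ι κ, τ = Polynomial.aeval N (Polynomial.X * h) := ⟨_, rfl⟩
  have hNa : N ^ a = N ^ a * τ := by
    have := congrArg (Polynomial.aeval N) hpoly
    simpa [Matrix.aeval_self_charpoly, hτ] using this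
  have hNak : ∀ k : ℕ, N ^ a = N ^ a * τ ^ k := by
    intro k
    induction k with
    | zero => simp
    | succ k ih => rw [pow_succ, ← mul_assoc, ← ih, ← hNa]
  -- `τ ^ a = N ^ a * h(N) ^ a`
  have hτa : τ ^ a = N ^ a * Polynomial.aeval N (h ^ a) := by
    rw [hτ, ← map_pow, mul_pow, map_mul, map_pow, Polynomial.aeval_X]
  have hcomm : Commute τ (Polynomial.aeval N (h ^ a)) := by
    rw [hτ]
    exact (Commute.all (Polynomial.X * h) (h ^ a)).map (Polynomial.aeval N)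
  have hτsucc : τ ^ (a + 1) = τ ^ a := by
    rw [pow_succ, hτa, mul_assoc, ← hcomm.eq, ← mul_assoc, ← hNa]
  have hτadd : ∀ k : ℕ, τ ^ (a + k) = τ ^ a := by
    intro k
    induction k with
    | zero => simp
    | succ k ih => rw [← add_assoc, pow_succ, ih, ← pow_succ, hτsucc]
  have hidem : IsIdempotentElem (τ ^ a) := by
    unfold IsIdempotentElem
    rw [← pow_add, hτadd]
  have hne : τ ^ a ≠ 0 := by
    intro h0
    apply hN
    refine ⟨a, ?_⟩
    rw [hNak a, h0, mul_zero]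
  refine ⟨h * (Polynomial.X * h) ^ a, ?_⟩
  have hE : N * Polynomial.aeval N (h * (Polynomial.X * h) ^ a) = τ ^ a := by
    have h1 : N * Polynomial.aeval N (h * (Polynomial.X * h) ^ a)
        = Polynomial.aeval N ((Polynomial.X * h) ^ (a + 1)) := by
      rw [pow_succ', mul_assoc, map_mul (Polynomial.aeval N) Polynomial.X, Polynomial.aeval_X]
    rw [h1, map_pow, ← hτ, hτsucc]
  rw [hE, ← Matrix.trace_toLin'_eq]
  have hidem' : IsIdempotentElem (Matrix.toLin' (τ ^ a)) := by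
    unfold IsIdempotentElem
    rw [Module.End.mul_eq_comp, ← Matrix.toLin'_mul, hidem.eq]
  intro htr
  have h0 := (LinearMap.IsIdempotentElem.trace_eq_zero_iff hidem').mp htr
  exact hne (Matrix.toLin'.injective (by rw [h0, map_zero]))

end MatrixLemma

section Reduction

variable {R : Type*} [CommRing R] {κ : Type*} [Field κ] (ρ : R →+* κ)
  {B : Type*} [CommRing B] [Algebra R B]
  {ι : Type*} [Fintype ι] [DecidableEq ι] (c : Basis ι R B)

/-- The regular representation of `B` in the basis `c`, reduced along `ρ : R →+* κ`. -/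
noncomputable def redMul : B →+* Matrix ι ι κ :=
  (RingHom.mapMatrix ρ).comp (Algebra.leftMulMatrix c).toRingHom

theorem redMul_apply (x : B) :
    redMul ρ c x = (Algebra.leftMulMatrix c x).map ρ := rfl

theorem trace_redMul (x : B) :
    (redMul ρ c x).trace = ρ (Algebra.trace R B x) := by
  rw [Algebra.trace_eq_matrix_trace c, redMul_apply, AddMonoidHom.map_trace]

theorem redMul_algebraMap (r : R) :
    redMul ρ c (algebraMap R B r) = algebraMap κ (Matrix ι ι κ) (ρ r) := by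
  rw [redMul_apply, AlgHom.commutes]
  ext i j
  rw [Matrix.map_apply, Matrix.algebraMap_matrix_apply, Matrix.algebraMap_matrix_apply]
  split_ifs
  · rfl
  · exact map_zero _

/-- If the reduced multiplication matrix of `x` vanishes then `x ∈ ϖ B`. -/
theorem mem_span_of_redMul_eq_zero {ϖ : R} (hρ : ∀ r : R, ρ r = 0 ↔ ϖ ∣ r)
    (x : B) (hx : redMul ρ c x = 0) : x ∈ Ideal.span {algebraMap R B ϖ} := by
  have hentry : ∀ i j, ϖ ∣ Algebra.leftMulMatrix c x i j := by
    intro i j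
    have h1 := congrFun (congrFun hx i) j
    rw [redMul_apply, Matrix.map_apply, Matrix.zero_apply, hρ] at h1
    exact h1
  have hrepr : ∀ i, ϖ ∣ c.repr x i := by
    intro i
    have h1 := congrFun (Algebra.leftMulMatrix_mulVec_repr c x 1) i
    rw [mul_one] at h1
    rw [← h1]
    exact Finset.dvd_sum (fun j _ => Dvd.dvd.mul_right (hentry i j) _)
  choose t ht using hrepr
  rw [Ideal.mem_span_singleton]
  refine ⟨∑ i, t i • c i, ?_⟩
  conv_lhs => rw [← c.sum_repr x]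
  rw [Finset.mul_sum]
  refine Finset.sum_congr rfl (fun i _ => ?_)
  rw [ht i, mul_smul, Algebra.smul_def ϖ]

/-- The trace of an element of `rad (ϖ B)` is divisible by `ϖ`. -/
theorem dvd_trace_of_mem_radical (ρ : R →+* κ) (c : Basis ι R B) {ϖ : R}
    (hρ : ∀ r : R, ρ r = 0 ↔ ϖ ∣ r)
    {x : B} (hx : x ∈ (Ideal.span {algebraMap R B ϖ}).radical) : ϖ ∣ Algebra.trace R B x := by
  obtain ⟨k, hk⟩ := Ideal.mem_radical_iff.mp hx
  obtain ⟨y, hy⟩ := Ideal.mem_span_singleton.mp hk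
  have hnil : IsNilpotent (redMul ρ c x) := by
    refine ⟨k, ?_⟩
    rw [← map_pow, hy, map_mul, redMul_algebraMap, (hρ ϖ).mpr dvd_rfl, map_zero, zero_mul]
  have htr := Matrix.isNilpotent_trace_of_isNilpotent hnil
  rw [trace_redMul] at htr
  exact (hρ _).mp htr.eq_zero

/-- Tameness in residue characteristic zero: an element outside `rad (ϖ B)` has a multiple whose
trace is not divisible by `ϖ`. -/
theorem exists_not_dvd_trace_mul [CharZero κ] (ρ : R →+* κ) (c : Basis ι R B)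
    {ϖ : R} (hρ : ∀ r : R, ρ r = 0 ↔ ϖ ∣ r) (hρs : Function.Surjective ρ)
    {b : B} (hb : b ∉ (Ideal.span {algebraMap R B ϖ}).radical) :
    ∃ y : B, ¬ ϖ ∣ Algebra.trace R B (b * y) := by
  have hN : ¬ IsNilpotent (redMul ρ c b) := by
    rintro ⟨k, hk⟩
    apply hb
    rw [Ideal.mem_radical_iff]
    refine ⟨k, mem_span_of_redMul_eq_zero ρ c hρ _ ?_⟩
    rw [map_pow, hk]
  obtain ⟨q, hq⟩ := exists_trace_mul_aeval_ne_zero _ hN
  obtain ⟨q', rfl⟩ := Polynomial.map_surjective _ hρs q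
  refine ⟨Polynomial.aeval b q', fun hdvd => hq ?_⟩
  have hcomp : (redMul ρ c).comp (algebraMap R B)
      = (algebraMap κ (Matrix ι ι κ)).comp ρ :=
    RingHom.ext fun r => redMul_algebraMap ρ c r
  have h1 : redMul ρ c (Polynomial.aeval b q')
      = Polynomial.aeval (redMul ρ c b) (q'.map ρ) := by
    rw [Polynomial.aeval_def, Polynomial.aeval_def, Polynomial.hom_eval₂, Polynomial.eval₂_map,
      hcomp]
  rw [← h1, ← map_mul, trace_redMul, hρ]
  exact hdvd

end Reduction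

section Dedekind

/-- In a Dedekind domain, if `z ∉ (w)` then some multiple `z * y = w * t` has `t` outside a
prime containing `w`. -/
theorem exists_mul_eq_mul_not_mem {B : Type*} [CommRing B] [IsDedekindDomain B]
    {w z : B} (hw : w ≠ 0) (hz : z ∉ Ideal.span {w}) :
    ∃ y t : B, z * y = w * t ∧ ∃ P : Ideal B, P.IsPrime ∧ w ∈ P ∧ t ∉ P := by
  classical
  obtain ⟨I, hI⟩ : ∃ I : Ideal B, I = Ideal.span {z} := ⟨_, rfl⟩
  obtain ⟨W, hW⟩ : ∃ W : Ideal B, W = Ideal.span {w} := ⟨_, rfl⟩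
  obtain ⟨𝔡, h𝔡⟩ : ∃ 𝔡 : Ideal B, 𝔡 = I ⊔ W := ⟨_, rfl⟩
  have hW0 : W ≠ ⊥ := by
    rw [hW, Ne, Ideal.span_singleton_eq_bot]
    exact hw
  have h𝔡0 : 𝔡 ≠ ⊥ := by
    intro h
    apply hW0
    rw [← le_bot_iff, ← h, h𝔡]
    exact le_sup_right
  obtain ⟨𝔞, h𝔞⟩ : 𝔡 ∣ W := Ideal.dvd_iff_le.mpr (h𝔡 ▸ le_sup_right)
  obtain ⟨𝔟, h𝔟⟩ : 𝔡 ∣ I := Ideal.dvd_iff_le.mpr (h𝔡 ▸ le_sup_left)
  have hsup : 𝔟 ⊔ 𝔞 = ⊤ := by
    have h1 : 𝔡 * (𝔟 ⊔ 𝔞) = 𝔡 * ⊤ := by
      rw [Ideal.mul_sup, ← h𝔟, ← h𝔞, Ideal.mul_top, h𝔡]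
    exact mul_left_cancel₀ h𝔡0 h1
  have h𝔞top : 𝔞 ≠ ⊤ := by
    intro h
    apply hz
    rw [h, Ideal.mul_top] at h𝔞
    rw [← hW, h𝔞, h𝔡, hI]
    exact Ideal.mem_sup_left (Ideal.mem_span_singleton_self z)
  obtain ⟨P, hPmax, h𝔞P⟩ := Ideal.exists_le_maximal 𝔞 h𝔞top
  have hwP : w ∈ P := by
    apply h𝔞P
    have h1 : w ∈ 𝔡 * 𝔞 := by
      rw [← h𝔞, hW]
      exact Ideal.mem_span_singleton_self w
    exact (Ideal.mul_le_left : 𝔞 * 𝔡 ≤ 𝔞) (mul_comm 𝔡 𝔞 ▸ h1)
  have hI𝔞 : I * 𝔞 = W * 𝔟 := by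
    rw [h𝔟, h𝔞, mul_assoc, mul_assoc, mul_comm 𝔟 𝔞]
  by_contra hcon
  push Not at hcon
  have hle : W * 𝔟 ≤ W * P := by
    rw [← hI𝔞, hI, Ideal.span_singleton_mul_le_iff]
    intro y hy
    have h1 : z * y ∈ W * 𝔟 := by
      rw [← hI𝔞, hI]
      exact Ideal.mul_mem_mul (Ideal.mem_span_singleton_self z) hy
    rw [hW] at h1
    obtain ⟨t, -, ht⟩ := Ideal.mem_span_singleton_mul.mp h1
    have h2 := hcon y t ht.symm P hPmax.isPrime hwP
    rw [← ht, hW]
    exact Ideal.mul_mem_mul (Ideal.mem_span_singleton_self w) h2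
  have h𝔟P : 𝔟 ≤ P := by
    have h1 : W * P ∣ W * 𝔟 := Ideal.dvd_iff_le.mpr hle
    exact Ideal.dvd_iff_le.mp ((mul_dvd_mul_iff_left hW0).mp h1)
  have h1 : (⊤ : Ideal B) ≤ P := hsup ▸ sup_le h𝔟P h𝔞P
  exact hPmax.ne_top (top_le_iff.mp h1)

variable {R : Type*} [CommRing R] [IsDomain R] {κ : Type*} [Field κ]
  {B : Type*} [CommRing B] [IsDedekindDomain B] [Algebra R B]
  {ι : Type*} [Fintype ι] [DecidableEq ι]

/-- The key step for the exact discriminant formula: if all traces `tr (z y)` are divisible by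
`ϖ ^ 2`, then `z ∈ ϖ * rad (ϖ B)`. -/
theorem exists_eq_mul_of_sq_dvd_trace [CharZero κ] (ρ : R →+* κ) (c : Basis ι R B)
    {ϖ : R} (hρ : ∀ r : R, ρ r = 0 ↔ ϖ ∣ r) (hρs : Function.Surjective ρ) (hϖ0 : ϖ ≠ 0)
    (hϖB : algebraMap R B ϖ ≠ 0)
    {z : B} (hz : ∀ y : B, ϖ ^ 2 ∣ Algebra.trace R B (z * y)) :
    ∃ w ∈ (Ideal.span {algebraMap R B ϖ}).radical, z = algebraMap R B ϖ * w := by
  have hz1 : z ∈ Ideal.span {algebraMap R B ϖ} := by
    by_contra hz1
    obtain ⟨y, t, hyt, P, hP, hϖP, htP⟩ := exists_mul_eq_mul_not_mem hϖB hz1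
    have htJ : t ∉ (Ideal.span {algebraMap R B ϖ}).radical := fun h =>
      htP (hP.radical_le_iff.mpr ((Ideal.span_singleton_le_iff_mem _).mpr hϖP) h)
    obtain ⟨y', hy'⟩ := exists_not_dvd_trace_mul ρ c hρ hρs htJ
    apply hy'
    have h1 := hz (y * y')
    have h2 : z * (y * y') = ϖ • (t * y') := by
      rw [← mul_assoc, hyt, Algebra.smul_def, mul_assoc]
    rw [h2, map_smul, smul_eq_mul, pow_two] at h1
    exact (mul_dvd_mul_iff_left hϖ0).mp h1
  obtain ⟨w, hw⟩ := Ideal.mem_span_singleton.mp hz1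
  refine ⟨w, ?_, hw⟩
  by_contra hwJ
  obtain ⟨y', hy'⟩ := exists_not_dvd_trace_mul ρ c hρ hρs hwJ
  apply hy'
  have h1 := hz y'
  rw [hw, mul_assoc, ← Algebra.smul_def, map_smul, smul_eq_mul, pow_two] at h1
  exact (mul_dvd_mul_iff_left hϖ0).mp h1

end Dedekind

section Smith

variable {R : Type*} [CommRing R] [IsDomain R] [IsPrincipalIdealRing R]
  {B : Type*} [CommRing B] [IsDomain B] [Algebra R B]
  {ι : Type*} [Fintype ι]

theorem algebraMap_injective_of_basis {R : Type*} [CommRing R] {B : Type*} [CommRing B]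
    [Nontrivial B] [Algebra R B] {ι : Type*} (b : Basis ι R B) :
    Function.Injective (algebraMap R B) := by
  have : Module.Free R B := Module.Free.of_basis b
  exact FaithfulSMul.algebraMap_injective R B

/-- The Smith coefficients of an ideal `J` with `r B ⊆ J` divide `r`. -/
theorem smithCoeffs_dvd (b₀ : Basis ι R B) (J : Ideal B) (hJ : J ≠ ⊥) {r : R}
    (hr : ∀ x : B, r • x ∈ J) (i : ι) : Ideal.smithCoeffs b₀ J hJ i ∣ r := by
  classical
  have h1 := ((Ideal.selfBasis b₀ J hJ).sum_repr ⟨r • Ideal.ringBasis b₀ J hJ i, hr _⟩)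
  have h2 := congrArg (fun x : J => (Ideal.ringBasis b₀ J hJ).repr (x : B) i) h1
  simp only [Submodule.coe_sum, Submodule.coe_smul_of_tower, Ideal.selfBasis_def, map_sum, map_smul,
    Basis.repr_self, Finsupp.smul_apply, Finsupp.coe_finsetSum, Finset.sum_apply,
    Finsupp.single_apply, smul_eq_mul, mul_ite, mul_one, mul_zero, Finset.sum_ite_eq',
    Finset.mem_univ, if_true] at h2
  exact ⟨_, by rw [← h2, mul_comm]⟩

theorem smithCoeffs_isUnit_or_associated {ϖ : R} (hϖ : Irreducible ϖ) (b₀ : Basis ι R B)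
    (J : Ideal B) (hJ : J ≠ ⊥) (hr : ∀ x : B, ϖ • x ∈ J) (i : ι) :
    IsUnit (Ideal.smithCoeffs b₀ J hJ i) ∨ Associated (Ideal.smithCoeffs b₀ J hJ i) ϖ := by
  obtain ⟨t, ht⟩ := smithCoeffs_dvd b₀ J hJ hr i
  rcases hϖ.isUnit_or_isUnit ht with h | h
  · exact Or.inl h
  · exact Or.inr ⟨h.unit, by rw [ht, IsUnit.unit_spec]⟩

/-- `R ⧸ ϖ` is a simple `R`-module. -/
theorem length_quotient_span_irreducible {ϖ : R} (hϖ : Irreducible ϖ) :
    Module.length R (R ⧸ Ideal.span {ϖ}) = 1 := by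
  rw [Module.length_eq_one_iff]
  exact isSimpleModule_iff_isCoatom.mpr
    (Ideal.isMaximal_def.mp (PrincipalIdealRing.isMaximal_of_irreducible hϖ))

/-- The length of `B ⧸ J` (for `ϖ B ⊆ J`) is the number of non-unit Smith coefficients. -/
theorem length_quotient_eq_card {ϖ : R} (hϖ : Irreducible ϖ) (b₀ : Basis ι R B)
    (J : Ideal B) (hJ : J ≠ ⊥) (hr : ∀ x : B, ϖ • x ∈ J)
    [DecidablePred fun i => ¬ IsUnit (Ideal.smithCoeffs b₀ J hJ i)] :
    Module.length R (B ⧸ J)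
      = ((Finset.univ.filter fun i => ¬ IsUnit (Ideal.smithCoeffs b₀ J hJ i)).card : ℕ∞) := by
  classical
  rw [(Ideal.quotientEquivPiSpan J b₀ hJ).length_eq, Module.length_pi_of_fintype]
  have key : ∀ i, Module.length R (R ⧸ Ideal.span {Ideal.smithCoeffs b₀ J hJ i})
      = if IsUnit (Ideal.smithCoeffs b₀ J hJ i) then 0 else 1 := by
    intro i
    split_ifs with h
    · have : Subsingleton (R ⧸ Ideal.span {Ideal.smithCoeffs b₀ J hJ i}) := by
        rw [Ideal.span_singleton_eq_top.mpr h]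
        exact Ideal.Quotient.subsingleton_iff.mpr rfl
      exact Module.length_eq_zero
    · have hassoc := (smithCoeffs_isUnit_or_associated hϖ b₀ J hJ hr i).resolve_left h
      rw [Ideal.span_singleton_eq_span_singleton.mpr hassoc]
      exact length_quotient_span_irreducible hϖ
  simp_rw [key]
  rw [Finset.sum_ite]
  simp only [Finset.sum_const_zero, zero_add, Finset.sum_const, nsmul_eq_mul, mul_one]
  congr!

end Smith

section Generic

variable {R : Type*} [CommRing R] {B : Type*} [CommRing B] [Algebra R B]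
  {ι : Type*} [Fintype ι] [DecidableEq ι]

/-- Two bases with the same index type have discriminants differing by a unit (a square). -/
theorem exists_unit_discr_eq (b c : Basis ι R B) :
    ∃ v : Rˣ, Algebra.discr R b = v * Algebra.discr R c := by
  have h1 := Algebra.discr_of_matrix_vecMul (⇑c) (c.toMatrix b)
  rw [Basis.toMatrix_map_vecMul] at h1
  obtain ⟨w, hw⟩ := c.isUnit_det b
  refine ⟨w ^ 2, ?_⟩
  rw [h1, ← Basis.det_apply, ← hw, Units.val_pow_eq_pow_val]

/-- The determinant identity behind the discriminant estimate. -/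
theorem prod_mul_discr_eq (c : Basis ι R B) (a : ι → R) (ϖ : R) (Φ : Matrix ι ι R)
    (hΦ : ∀ i j, Algebra.trace R B ((a i • c i) * c j) = ϖ * Φ i j) :
    (∏ i, a i) * Algebra.discr R c = ϖ ^ Fintype.card ι * Φ.det := by
  have h : Matrix.diagonal a * Algebra.traceMatrix R c = ϖ • Φ := by
    ext i j
    rw [Matrix.diagonal_mul, Matrix.smul_apply, smul_eq_mul, ← hΦ i j, Algebra.traceMatrix_apply,
      Algebra.traceForm_apply, smul_mul_assoc, map_smul, smul_eq_mul]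
  rw [Algebra.discr_def, ← Matrix.det_diagonal, ← Matrix.det_mul, h, Matrix.det_smul]

theorem smul_mem_radical (ϖ : R) (x : B) :
    ϖ • x ∈ (Ideal.span {algebraMap R B ϖ}).radical := by
  rw [Algebra.smul_def]
  exact Ideal.le_radical (Ideal.mul_mem_right _ _ (Ideal.mem_span_singleton_self _))

theorem radical_ne_bot [Nontrivial B] {ϖ : R} (hϖ : ϖ ≠ 0) (b : Basis ι R B) :
    (Ideal.span {algebraMap R B ϖ}).radical ≠ ⊥ := by
  intro h
  have h1 : algebraMap R B ϖ ∈ (Ideal.span {algebraMap R B ϖ}).radical :=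
    Ideal.le_radical (Ideal.mem_span_singleton_self _)
  rw [h, Ideal.mem_bot] at h1
  exact hϖ ((algebraMap_injective_of_basis b) (by rw [h1, map_zero]))

end Generic

section Main

variable {R : Type*} [CommRing R] [IsDomain R] [IsPrincipalIdealRing R]
  {B : Type*} [CommRing B] [IsDomain B] [Algebra R B]
  {ι : Type*} [Fintype ι] [DecidableEq ι]

/-- Smith normal form data for `J = rad (ϖ B)`: a basis `c` of `B`, a basis `s` of `J`, and a
matrix `Φ` with `tr (s i * c j) = ϖ * Φ i j` and `disc c = unit * ϖ ^ (n - d) * det Φ`, where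
`d = length (B ⧸ J)`. -/
theorem exists_smith_data {ϖ : R} (hϖ : Irreducible ϖ) (b : Basis ι R B) :
    ∃ (c : Basis ι R B) (s : Basis ι R ↥((Ideal.span {algebraMap R B ϖ}).radical))
      (Φ : Matrix ι ι R) (d : ℕ) (u : Rˣ),
      Module.length R (B ⧸ (Ideal.span {algebraMap R B ϖ}).radical) = d ∧
      d ≤ Fintype.card ι ∧
      (∀ i j, Algebra.trace R B ((s i : B) * c j) = ϖ * Φ i j) ∧
      Algebra.discr R c = u * ϖ ^ (Fintype.card ι - d) * Φ.det := by
  classical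
  have hmax : (Ideal.span {ϖ}).IsMaximal := PrincipalIdealRing.isMaximal_of_irreducible hϖ
  let _ : Field (R ⧸ Ideal.span {ϖ}) := Ideal.Quotient.field _
  have hρ : ∀ r : R, Ideal.Quotient.mk (Ideal.span {ϖ}) r = 0 ↔ ϖ ∣ r := fun r => by
    rw [Ideal.Quotient.eq_zero_iff_mem, Ideal.mem_span_singleton]
  obtain ⟨J, hJdef⟩ : ∃ J : Ideal B, J = (Ideal.span {algebraMap R B ϖ}).radical := ⟨_, rfl⟩
  rw [← hJdef]
  have hJ : J ≠ ⊥ := hJdef ▸ radical_ne_bot hϖ.ne_zero b
  have hr : ∀ x : B, ϖ • x ∈ J := hJdef ▸ smul_mem_radical ϖ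
  obtain ⟨c, hc⟩ : ∃ c, c = Ideal.ringBasis b J hJ := ⟨_, rfl⟩
  obtain ⟨a, ha⟩ : ∃ a, a = Ideal.smithCoeffs b J hJ := ⟨_, rfl⟩
  obtain ⟨s, hs⟩ : ∃ s, s = Ideal.selfBasis b J hJ := ⟨_, rfl⟩
  have hsc : ∀ i, (s i : B) = a i • c i := by
    intro i
    rw [hs, ha, hc]
    exact Ideal.selfBasis_def b J hJ i
  have hdvd : ∀ i j, ϖ ∣ Algebra.trace R B ((s i : B) * c j) := fun i j =>
    dvd_trace_of_mem_radical (Ideal.Quotient.mk (Ideal.span {ϖ})) c hρ
      (hJdef ▸ Ideal.mul_mem_right _ _ (s i).2)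
  choose Φ hΦ using hdvd
  obtain ⟨d, hd⟩ : ∃ d : ℕ, d = (Finset.univ.filter fun i => ¬ IsUnit (a i)).card := ⟨_, rfl⟩
  have hdn : d ≤ Fintype.card ι := hd ▸ Finset.card_le_univ _
  have hlen : Module.length R (B ⧸ J) = d := by
    rw [hd, ha]
    exact length_quotient_eq_card hϖ b J hJ hr
  have hdet : (∏ i, a i) * Algebra.discr R c = ϖ ^ Fintype.card ι * (Matrix.of Φ).det :=
    prod_mul_discr_eq c a ϖ (Matrix.of Φ) (fun i j => by rw [← hsc]; exact hΦ i j)
  have hassoc : Associated (∏ i, a i) (ϖ ^ d) := by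
    have hu : ∀ i, IsUnit (a i) ∨ Associated (a i) ϖ := fun i =>
      ha ▸ smithCoeffs_isUnit_or_associated hϖ b J hJ hr i
    have hprod : ∏ i, (if IsUnit (a i) then (1 : R) else ϖ) = ϖ ^ d := by
      rw [Finset.prod_ite, Finset.prod_const_one, one_mul, Finset.prod_const, hd]
    rw [← hprod]
    refine associated_of_dvd_dvd (Finset.prod_dvd_prod_of_dvd _ _ fun i _ => ?_)
      (Finset.prod_dvd_prod_of_dvd _ _ fun i _ => ?_)
    · split_ifs with h
      · exact h.dvd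
      · exact ((hu i).resolve_left h).dvd
    · split_ifs with h
      · exact one_dvd _
      · exact ((hu i).resolve_left h).symm.dvd
  obtain ⟨u, hu⟩ := hassoc.symm
  refine ⟨c, s, Matrix.of Φ, d, u⁻¹, hlen, hdn, hΦ, ?_⟩
  have hne : ϖ ^ d ≠ 0 := pow_ne_zero _ hϖ.ne_zero
  apply mul_left_cancel₀ hne
  have hpow : ϖ ^ Fintype.card ι = ϖ ^ d * ϖ ^ (Fintype.card ι - d) := by
    rw [← pow_add, Nat.add_sub_cancel' hdn]
  rw [← hu, hpow] at hdet
  have huu : ((u⁻¹ : Rˣ) : R) * (u : R) = 1 := by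
    rw [← Units.val_mul, inv_mul_cancel, Units.val_one]
  linear_combination ((u⁻¹ : Rˣ) : R) * hdet - (ϖ ^ d * Algebra.discr R c) * huu

/-- **Local discriminant lemma, lower bound (any residue characteristic).**
`ϖ ^ (n - d)` divides the discriminant, `n = rank_R B`, `d = length_R (B ⧸ rad (ϖ B))`. -/
theorem pow_dvd_discr {ϖ : R} (hϖ : Irreducible ϖ) (b : Basis ι R B) :
    ∃ d : ℕ, Module.length R (B ⧸ (Ideal.span {algebraMap R B ϖ}).radical) = d ∧
      d ≤ Fintype.card ι ∧ ϖ ^ (Fintype.card ι - d) ∣ Algebra.discr R b := by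
  obtain ⟨c, s, Φ, d, u, hlen, hdn, -, hdisc⟩ := exists_smith_data hϖ b
  obtain ⟨v, hv⟩ := exists_unit_discr_eq b c
  refine ⟨d, hlen, hdn, ?_⟩
  rw [hv, hdisc]
  exact ⟨v * u * Φ.det, by ring⟩

end Main

section Tame

variable {R : Type*} [CommRing R] [IsDomain R] [IsPrincipalIdealRing R] {κ : Type*} [Field κ]
  {B : Type*} [CommRing B] [IsDedekindDomain B] [Algebra R B]
  {ι : Type*} [Fintype ι] [DecidableEq ι]

/-- In residue characteristic zero with `B` Dedekind, the matrix `Φ` of the Smith data is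
invertible modulo `ϖ`. -/
theorem not_dvd_det_of_trace_eq [CharZero κ] (ρ : R →+* κ)
    {ϖ : R} (hρ : ∀ r : R, ρ r = 0 ↔ ϖ ∣ r) (hρs : Function.Surjective ρ) (hϖ0 : ϖ ≠ 0)
    (c : Basis ι R B)
    (s : Basis ι R ↥((Ideal.span {algebraMap R B ϖ}).radical)) (Φ : Matrix ι ι R)
    (hΦ : ∀ i j, Algebra.trace R B ((s i : B) * c j) = ϖ * Φ i j) : ¬ ϖ ∣ Φ.det := by
  classical
  have hϖB : algebraMap R B ϖ ≠ 0 := fun h =>
    hϖ0 ((algebraMap_injective_of_basis c) (by rw [h, map_zero]))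
  rw [← hρ, RingHom.map_det, ← Ne, ← isUnit_iff_ne_zero,
    ← Matrix.isUnit_iff_isUnit_det, ← Matrix.vecMul_injective_iff_isUnit]
  intro v w hvw
  have h0 : Matrix.vecMul (v - w) (ρ.mapMatrix Φ) = 0 := by
    rw [Matrix.sub_vecMul]
    exact sub_eq_zero.mpr hvw
  choose r hr using fun i => hρs ((v - w) i)
  obtain ⟨Z, hZdef⟩ : ∃ Z : ↥((Ideal.span {algebraMap R B ϖ}).radical), Z = ∑ i, r i • s i :=
    ⟨_, rfl⟩
  have htr : ∀ j, ϖ ^ 2 ∣ Algebra.trace R B ((Z : B) * c j) := by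
    intro j
    have h1 : Algebra.trace R B ((Z : B) * c j) = ϖ * ∑ i, r i * Φ i j := by
      rw [hZdef]
      simp only [Submodule.coe_sum, Submodule.coe_smul_of_tower, Finset.sum_mul, smul_mul_assoc,
        map_sum, map_smul, hΦ, smul_eq_mul, Finset.mul_sum]
      refine Finset.sum_congr rfl fun i _ => by ring
    have h2 : ϖ ∣ ∑ i, r i * Φ i j := by
      rw [← hρ, map_sum]
      have h3 := congrFun h0 j
      simp only [Matrix.vecMul, dotProduct, RingHom.mapMatrix_apply, Matrix.map_apply,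
        Pi.zero_apply] at h3
      rw [← h3]
      refine Finset.sum_congr rfl fun i _ => by rw [map_mul, hr i]
    rw [h1, pow_two]
    exact mul_dvd_mul_left ϖ h2
  have htr' : ∀ y : B, ϖ ^ 2 ∣ Algebra.trace R B ((Z : B) * y) := by
    intro y
    rw [← c.sum_repr y, Finset.mul_sum, map_sum]
    refine Finset.dvd_sum fun j _ => ?_
    rw [mul_smul_comm, map_smul, smul_eq_mul]
    exact Dvd.dvd.mul_left (htr j) _
  obtain ⟨w', hw'J, hw'⟩ := exists_eq_mul_of_sq_dvd_trace ρ c hρ hρs hϖ0 hϖB htr'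
  have hZ : Z = ϖ • (⟨w', hw'J⟩ : ↥((Ideal.span {algebraMap R B ϖ}).radical)) := by
    apply Subtype.ext
    rw [hw', Submodule.coe_smul_of_tower, Algebra.smul_def]
  have hrepr : ∀ i, s.repr Z i = r i := by
    intro i
    rw [hZdef]
    simp only [map_sum, map_smul, Basis.repr_self, Finsupp.coe_finsetSum, Finset.sum_apply,
      Finsupp.smul_apply, Finsupp.single_apply, smul_eq_mul, mul_ite, mul_one, mul_zero,
      Finset.sum_ite_eq', Finset.mem_univ, if_true]
  funext i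
  have h3 : r i = ϖ * s.repr ⟨w', hw'J⟩ i := by
    rw [← hrepr i, hZ, map_smul, Finsupp.smul_apply, smul_eq_mul]
  have h4 : (v - w) i = 0 := by
    rw [← hr i, h3, map_mul, (hρ ϖ).mpr dvd_rfl, zero_mul]
  exact sub_eq_zero.mp h4

/-- **Local discriminant lemma, exact form (tame case), abstract residue map.**  If `B` is a
Dedekind domain and `κ = R ⧸ ϖ` has characteristic zero, then
`disc (B / R) = ϖ ^ (n - d) * t` with `ϖ ∤ t`. -/
theorem discr_eq_pow_mul_not_dvd_of_residue [CharZero κ] (ρ : R →+* κ)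
    {ϖ : R} (hρ : ∀ r : R, ρ r = 0 ↔ ϖ ∣ r) (hρs : Function.Surjective ρ)
    (hϖ : Irreducible ϖ) (b : Basis ι R B) :
    ∃ d : ℕ, Module.length R (B ⧸ (Ideal.span {algebraMap R B ϖ}).radical) = d ∧
      d ≤ Fintype.card ι ∧
      ∃ t : R, ¬ ϖ ∣ t ∧ Algebra.discr R b = ϖ ^ (Fintype.card ι - d) * t := by
  obtain ⟨c, s, Φ, d, u, hlen, hdn, hΦ, hdisc⟩ := exists_smith_data hϖ b
  obtain ⟨v, hv⟩ := exists_unit_discr_eq b c
  have hdet := not_dvd_det_of_trace_eq ρ hρ hρs hϖ.ne_zero c s Φ hΦ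
  refine ⟨d, hlen, hdn, v * u * Φ.det, ?_, ?_⟩
  · intro h
    apply hdet
    have h1 : ϖ ∣ ((v * u : Rˣ) : R) * Φ.det := by
      rw [Units.val_mul]
      exact h
    exact (Units.dvd_mul_left).mp h1
  · rw [hv, hdisc]
    ring

/-- **Local discriminant lemma, exact form (tame case), principal ideal domain.**  The tameness
hypothesis `hchar` says that `R ⧸ ϖ` has characteristic zero. -/
theorem discr_eq_pow_mul_not_dvd {ϖ : R} (hϖ : Irreducible ϖ)
    (hchar : ∀ m : ℕ, m ≠ 0 → ¬ ϖ ∣ (m : R)) (b : Basis ι R B) :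
    ∃ d : ℕ, Module.length R (B ⧸ (Ideal.span {algebraMap R B ϖ}).radical) = d ∧
      d ≤ Fintype.card ι ∧
      ∃ t : R, ¬ ϖ ∣ t ∧ Algebra.discr R b = ϖ ^ (Fintype.card ι - d) * t := by
  have hmax : (Ideal.span {ϖ}).IsMaximal := PrincipalIdealRing.isMaximal_of_irreducible hϖ
  let _ : Field (R ⧸ Ideal.span {ϖ}) := Ideal.Quotient.field _
  have hρ : ∀ r : R, Ideal.Quotient.mk (Ideal.span {ϖ}) r = 0 ↔ ϖ ∣ r := fun r => by
    rw [Ideal.Quotient.eq_zero_iff_mem, Ideal.mem_span_singleton]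
  have : CharZero (R ⧸ Ideal.span {ϖ}) := by
    refine charZero_of_inj_zero fun m hm => ?_
    by_contra hm0
    apply hchar m hm0
    rw [← hρ, map_natCast]
    exact hm
  exact discr_eq_pow_mul_not_dvd_of_residue (Ideal.Quotient.mk (Ideal.span {ϖ})) hρ
    Ideal.Quotient.mk_surjective hϖ b

end Tame

section TameDVR

variable {R : Type*} [CommRing R] [IsDomain R] [IsDiscreteValuationRing R]
  {B : Type*} [CommRing B] [IsDedekindDomain B] [Algebra R B]
  {ι : Type*} [Fintype ι] [DecidableEq ι]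

/-- **Local discriminant lemma, exact form (tame case), discrete valuation ring.**
`disc (B / R) = unit * ϖ ^ (n - d)`. -/
theorem discr_eq_unit_mul_pow
    [CharZero (IsLocalRing.ResidueField R)] {ϖ : R} (hϖ : Irreducible ϖ) (b : Basis ι R B) :
    ∃ d : ℕ, Module.length R (B ⧸ (Ideal.span {algebraMap R B ϖ}).radical) = d ∧
      d ≤ Fintype.card ι ∧ ∃ u : Rˣ, Algebra.discr R b = u * ϖ ^ (Fintype.card ι - d) := by
  have hρ : ∀ r : R, IsLocalRing.residue R r = 0 ↔ ϖ ∣ r := fun r => by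
    rw [IsLocalRing.residue_eq_zero_iff, hϖ.maximalIdeal_eq, Ideal.mem_span_singleton]
  obtain ⟨d, hlen, hdn, t, ht, hdisc⟩ :=
    discr_eq_pow_mul_not_dvd_of_residue (IsLocalRing.residue R) hρ
      IsLocalRing.residue_surjective hϖ b
  have htu : IsUnit t := by
    rw [← IsLocalRing.residue_ne_zero_iff_isUnit, Ne, hρ]
    exact ht
  obtain ⟨u, rfl⟩ := htu
  exact ⟨d, hlen, hdn, u, by rw [hdisc, mul_comm]⟩

end TameDVR

end Fermat.Agent.Lib.LocalDisc
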