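import Fermat.Agent.Lib.LocalDiscCount

/-!
# The local discriminant lemma: abstract residue field and DVR forms (S18, generic package G5)

* `pow_dvd_discr_of_isAlgClosed_residue` / `discr_eq_pow_mul_not_dvd_of_isAlgClosed_residue`:
  `R` a principal ideal domain, `ρ : R →+* κ` a surjection with kernel `(ϖ)` onto an algebraically
  closed field: `ϖ ^ (n - g) ∣ disc`, `g` the number of primes of `B` over `ϖ`, with equality of
  exponents in characteristic zero.
* `pow_dvd_discr_dvr`, `le_addVal_discr_dvr`, `discr_eq_unit_mul_pow_dvr`, `addVal_discr_dvr`: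
  `R` a discrete valuation ring with algebraically closed residue field, `g` the number of maximal
  ideals of `B`.
-/

set_option autoImplicit false

namespace Fermat.Agent.Lib.LocalDisc

open Module

section Residue

variable {R : Type*} [CommRing R] {κ : Type*} [Field κ]
  {B : Type*} [CommRing B] [Algebra R B] [Module.Finite R B]

/-- If `R ⧸ ϖ = κ` is algebraically closed, then all residue degrees over `ϖ` are one. -/
theorem surjective_algebraMap_quotient_of_residue [IsAlgClosed κ] (ρ : R →+* κ)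
    {ϖ : R} (hρ : ∀ r : R, ρ r = 0 ↔ ϖ ∣ r) (hρs : Function.Surjective ρ)
    {P : Ideal B} (hP : P.IsPrime) (hϖP : algebraMap R B ϖ ∈ P) :
    Function.Surjective (algebraMap R (B ⧸ P)) := by
  have hdom : IsDomain (B ⧸ P) := Ideal.Quotient.isDomain P
  have hϖ0 : algebraMap R (B ⧸ P) ϖ = 0 := by
    rw [← Ideal.Quotient.mk_algebraMap, Ideal.Quotient.eq_zero_iff_mem]
    exact hϖP
  have hker : RingHom.ker ρ ≤ RingHom.ker (algebraMap R (B ⧸ P)) := by
    intro r hr
    rw [RingHom.mem_ker, hρ] at hr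
    obtain ⟨t, rfl⟩ := hr
    rw [RingHom.mem_ker, map_mul, hϖ0, zero_mul]
  obtain ⟨ψ, hψ⟩ : ∃ ψ : κ →+* B ⧸ P, ∀ r : R, ψ (ρ r) = algebraMap R (B ⧸ P) r :=
    ⟨RingHom.liftOfRightInverse ρ _ (Function.rightInverse_surjInv hρs)
        ⟨algebraMap R (B ⧸ P), hker⟩,
      fun r => RingHom.liftOfRightInverse_comp_apply ρ _ _ ⟨algebraMap R (B ⧸ P), hker⟩ r⟩
  have hcomp : ψ.comp ρ = algebraMap R (B ⧸ P) := RingHom.ext hψ
  have hint : ψ.IsIntegral := by
    intro x
    obtain ⟨y, rfl⟩ := Ideal.Quotient.mk_surjective x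
    obtain ⟨p, hp, hpy⟩ := Algebra.IsIntegral.isIntegral (R := R) y
    refine ⟨p.map ρ, hp.map ρ, ?_⟩
    rw [Polynomial.eval₂_map, hcomp]
    have h1 := congrArg (Ideal.Quotient.mk P) hpy
    rw [Polynomial.hom_eval₂, map_zero] at h1
    exact h1
  have hsurj := (IsAlgClosed.ringHom_bijective_of_isIntegral ψ hint).2
  intro x
  obtain ⟨a, rfl⟩ := hsurj x
  obtain ⟨r, rfl⟩ := hρs a
  exact ⟨r, (hψ r).symm⟩

end Residue

section ResidueCombined

variable {R : Type*} [CommRing R] [IsDomain R] [IsPrincipalIdealRing R] {κ : Type*} [Field κ]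
  {B : Type*} [CommRing B] [Algebra R B]
  {ι : Type*} [Fintype ι] [DecidableEq ι]

/-- **Local discriminant lemma, lower bound, algebraically closed residue field.**
`ϖ ^ (n - g) ∣ disc`, `g` the number of primes of `B` over `ϖ`. -/
theorem pow_dvd_discr_of_isAlgClosed_residue [IsDomain B] [IsAlgClosed κ] (ρ : R →+* κ)
    {ϖ : R} (hρ : ∀ r : R, ρ r = 0 ↔ ϖ ∣ r) (hρs : Function.Surjective ρ)
    (hϖ : Irreducible ϖ) (b : Basis ι R B) :
    Nat.card {P : Ideal B // P.IsPrime ∧ algebraMap R B ϖ ∈ P} ≤ Fintype.card ι ∧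
      ϖ ^ (Fintype.card ι - Nat.card {P : Ideal B // P.IsPrime ∧ algebraMap R B ϖ ∈ P})
        ∣ Algebra.discr R b := by
  have : Module.Finite R B := Module.Finite.of_basis b
  exact pow_dvd_discr_of_surjective hϖ b fun P hP hϖP =>
    surjective_algebraMap_quotient_of_residue ρ hρ hρs hP hϖP

/-- **Local discriminant lemma, exact form, algebraically closed residue field of characteristic
zero.**  `disc = ϖ ^ (n - g) * t` with `ϖ ∤ t`, `g` the number of primes of `B` over `ϖ`. -/
theorem discr_eq_pow_mul_not_dvd_of_isAlgClosed_residue [IsDedekindDomain B] [IsAlgClosed κ]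
    [CharZero κ] (ρ : R →+* κ)
    {ϖ : R} (hρ : ∀ r : R, ρ r = 0 ↔ ϖ ∣ r) (hρs : Function.Surjective ρ)
    (hϖ : Irreducible ϖ) (b : Basis ι R B) :
    Nat.card {P : Ideal B // P.IsPrime ∧ algebraMap R B ϖ ∈ P} ≤ Fintype.card ι ∧
      ∃ t : R, ¬ ϖ ∣ t ∧ Algebra.discr R b
        = ϖ ^ (Fintype.card ι - Nat.card {P : Ideal B // P.IsPrime ∧ algebraMap R B ϖ ∈ P}) * t := by
  have : Module.Finite R B := Module.Finite.of_basis b
  have hchar : ∀ m : ℕ, m ≠ 0 → ¬ ϖ ∣ (m : R) := by
    intro m hm hdvd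
    rw [← hρ, map_natCast] at hdvd
    exact hm (Nat.cast_eq_zero.mp hdvd)
  exact discr_eq_pow_mul_not_dvd_of_surjective hϖ hchar b fun P hP hϖP =>
    surjective_algebraMap_quotient_of_residue ρ hρ hρs hP hϖP

end ResidueCombined

section DVR

variable {R : Type*} [CommRing R] [IsDomain R] [IsDiscreteValuationRing R]
  {B : Type*} [CommRing B] [Algebra R B]
  {ι : Type*} [Fintype ι] [DecidableEq ι]

/-- Over a discrete valuation ring, the maximal ideals of a finite algebra are the primes
containing the uniformiser. -/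
theorem isMaximal_iff_isPrime_and_mem [Module.Finite R B] {ϖ : R} (hϖ : Irreducible ϖ)
    (P : Ideal B) : P.IsMaximal ↔ P.IsPrime ∧ algebraMap R B ϖ ∈ P := by
  constructor
  · intro hP
    refine ⟨hP.isPrime, ?_⟩
    have h1 : (P.comap (algebraMap R B)).IsMaximal :=
      Ideal.isMaximal_comap_of_isIntegral_of_isMaximal P
    have h2 : ϖ ∈ P.comap (algebraMap R B) := by
      rw [IsLocalRing.eq_maximalIdeal h1, hϖ.maximalIdeal_eq]
      exact Ideal.mem_span_singleton_self ϖ
    exact h2
  · rintro ⟨hP, hϖP⟩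
    exact isMaximal_of_mem hϖ hP hϖP

/-- The number of maximal ideals equals the number of primes over the uniformiser. -/
theorem card_maximal_eq_card_primes_over [Module.Finite R B] {ϖ : R} (hϖ : Irreducible ϖ) :
    Nat.card {M : Ideal B // M.IsMaximal}
      = Nat.card {P : Ideal B // P.IsPrime ∧ algebraMap R B ϖ ∈ P} :=
  Nat.card_congr (Equiv.subtypeEquivRight fun P => isMaximal_iff_isPrime_and_mem hϖ P)

theorem residue_eq_zero_iff_dvd {ϖ : R} (hϖ : Irreducible ϖ) (r : R) :
    IsLocalRing.residue R r = 0 ↔ ϖ ∣ r := by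
  rw [IsLocalRing.residue_eq_zero_iff, hϖ.maximalIdeal_eq, Ideal.mem_span_singleton]

/-- **Local discriminant lemma over a DVR with algebraically closed residue field, lower bound
(any residue characteristic).**  `ϖ ^ (n - g) ∣ disc`, `g` the number of maximal ideals of `B`. -/
theorem pow_dvd_discr_dvr [IsDomain B] [IsAlgClosed (IsLocalRing.ResidueField R)] {ϖ : R}
    (hϖ : Irreducible ϖ) (b : Basis ι R B) :
    Nat.card {M : Ideal B // M.IsMaximal} ≤ Fintype.card ι ∧
      ϖ ^ (Fintype.card ι - Nat.card {M : Ideal B // M.IsMaximal}) ∣ Algebra.discr R b := by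
  have : Module.Finite R B := Module.Finite.of_basis b
  rw [card_maximal_eq_card_primes_over hϖ]
  exact pow_dvd_discr_of_isAlgClosed_residue (IsLocalRing.residue R) (residue_eq_zero_iff_dvd hϖ)
    IsLocalRing.residue_surjective hϖ b

/-- Valuation form of `pow_dvd_discr_dvr`: `n - g ≤ v (disc)`. -/
theorem le_addVal_discr_dvr [IsDomain B] [IsAlgClosed (IsLocalRing.ResidueField R)]
    (b : Basis ι R B) :
    ((Fintype.card ι - Nat.card {M : Ideal B // M.IsMaximal} : ℕ) : ℕ∞)
      ≤ IsDiscreteValuationRing.addVal R (Algebra.discr R b) := by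
  obtain ⟨ϖ, hϖ⟩ := IsDiscreteValuationRing.exists_irreducible R
  obtain ⟨-, t, ht⟩ := pow_dvd_discr_dvr hϖ b
  rw [ht, AddValuation.map_mul, IsDiscreteValuationRing.addVal_pow,
    IsDiscreteValuationRing.addVal_uniformizer hϖ, nsmul_eq_mul, mul_one]
  exact le_self_add

/-- **Local discriminant lemma over a DVR with algebraically closed residue field of
characteristic zero, exact form.**  `disc = unit * ϖ ^ (n - g)`. -/
theorem discr_eq_unit_mul_pow_dvr [IsDedekindDomain B] [IsAlgClosed (IsLocalRing.ResidueField R)]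
    [CharZero (IsLocalRing.ResidueField R)] {ϖ : R} (hϖ : Irreducible ϖ) (b : Basis ι R B) :
    Nat.card {M : Ideal B // M.IsMaximal} ≤ Fintype.card ι ∧
      ∃ u : Rˣ, Algebra.discr R b
        = u * ϖ ^ (Fintype.card ι - Nat.card {M : Ideal B // M.IsMaximal}) := by
  have : Module.Finite R B := Module.Finite.of_basis b
  rw [card_maximal_eq_card_primes_over hϖ]
  obtain ⟨hle, t, ht, hdisc⟩ := discr_eq_pow_mul_not_dvd_of_isAlgClosed_residue
    (IsLocalRing.residue R) (residue_eq_zero_iff_dvd hϖ) IsLocalRing.residue_surjective hϖ b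
  have htu : IsUnit t := by
    rw [← IsLocalRing.residue_ne_zero_iff_isUnit, Ne, residue_eq_zero_iff_dvd hϖ]
    exact ht
  obtain ⟨u, rfl⟩ := htu
  exact ⟨hle, u, by rw [hdisc, mul_comm]⟩

/-- Valuation form of `discr_eq_unit_mul_pow_dvr`: `v (disc) = n - g`. -/
theorem addVal_discr_dvr [IsDedekindDomain B] [IsAlgClosed (IsLocalRing.ResidueField R)]
    [CharZero (IsLocalRing.ResidueField R)] (b : Basis ι R B) :
    IsDiscreteValuationRing.addVal R (Algebra.discr R b)
      = ((Fintype.card ι - Nat.card {M : Ideal B // M.IsMaximal} : ℕ) : ℕ∞) := by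
  obtain ⟨ϖ, hϖ⟩ := IsDiscreteValuationRing.exists_irreducible R
  obtain ⟨-, u, hu⟩ := discr_eq_unit_mul_pow_dvr hϖ b
  exact IsDiscreteValuationRing.addVal_def _ u hϖ _ hu

end DVR

end Fermat.Agent.Lib.LocalDisc
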