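import Fermat.Agent.Lib.LocalDiscDVR

/-!
# The local discriminant lemma: integral-basis spelling (S18, glue G5 → Dedekind–Weber)

`A` a principal ideal domain with fraction field `K`, `L / K` a field extension, `b` a `K`-basis
of `L` which is an *integral basis*: `IsIntegral A f ↔ ∀ i, b.repr f i ∈ range (algebraMap A K)`.

* `exists_basis_integralClosure`: `b` comes from an `A`-basis `b0` of `integralClosure A L` and
  `discr K b = algebraMap A K (discr A b0)`.
* `pow_dvd_of_integral_basis*`: the local discriminant lemma for `D` with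
  `discr K b = algebraMap A K D`.
* `le_rootMultiplicity_of_integral_basis`, `sum_le_natDegree_of_integral_basis`,
  `rootMultiplicity_eq_of_integral_basis`, `natDegree_eq_sum_of_integral_basis`:
  the case `A = κ[X]`, `κ` algebraically closed.
* `mem_primesOver_iff`, `card_primesOver_eq`: the primes containing `ϖ` are `primesOver (ϖ)`.
-/

set_option autoImplicit false

namespace Fermat.Agent.Lib.LocalDisc

open Module

section PrimesOver

variable {R : Type*} [CommRing R] [IsPrincipalIdealRing R] {B : Type*} [CommRing B] [Algebra R B]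

/-- The primes over `(ϖ)` are the primes containing (the image of) `ϖ`. -/
theorem mem_primesOver_iff {ϖ : R} (hϖ : Irreducible ϖ) (P : Ideal B) :
    P ∈ (Ideal.span {ϖ}).primesOver B ↔ P.IsPrime ∧ algebraMap R B ϖ ∈ P := by
  have hmax : (Ideal.span {ϖ}).IsMaximal := PrincipalIdealRing.isMaximal_of_irreducible hϖ
  constructor
  · rintro ⟨hP, hover⟩
    refine ⟨hP, ?_⟩
    have h1 : ϖ ∈ Ideal.under R P := by
      rw [← (Ideal.liesOver_iff P _).mp hover]
      exact Ideal.mem_span_singleton_self ϖ
    exact h1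
  · rintro ⟨hP, hϖP⟩
    refine ⟨hP, (Ideal.liesOver_iff P _).mpr ?_⟩
    have hle : Ideal.span {ϖ} ≤ P.comap (algebraMap R B) := by
      rw [Ideal.span_singleton_le_iff_mem]
      exact hϖP
    have hcomap : (P.comap (algebraMap R B)).IsPrime := Ideal.comap_isPrime _ P
    exact hmax.eq_of_le hcomap.ne_top hle

theorem card_primesOver_eq {ϖ : R} (hϖ : Irreducible ϖ) :
    Nat.card ((Ideal.span {ϖ}).primesOver B)
      = Nat.card {P : Ideal B // P.IsPrime ∧ algebraMap R B ϖ ∈ P} :=
  Nat.card_congr (Equiv.subtypeEquivRight fun P => mem_primesOver_iff hϖ P)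

end PrimesOver

section IntegralBasis

variable {A K L : Type*} [CommRing A] [Field K] [Algebra A K] [IsFractionRing A K] [Field L]
  [Algebra K L] [Algebra A L] [IsScalarTower A K L]
  {ι : Type*} [Fintype ι] [DecidableEq ι]

/-- An integral basis in the `K`-basis spelling comes from an `A`-basis of the integral closure,
with the same discriminant. -/
theorem exists_basis_integralClosure (b : Basis ι K L)
    (hb : ∀ f : L, IsIntegral A f ↔ ∀ i, b.repr f i ∈ Set.range (algebraMap A K)) :
    ∃ b0 : Basis ι A (integralClosure A L), (∀ i, ((b0 i : integralClosure A L) : L) = b i) ∧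
      Algebra.discr K b = algebraMap A K (Algebra.discr A b0) := by
  classical
  have hinj : Function.Injective (algebraMap A K) := IsFractionRing.injective A K
  have hbi : ∀ i, IsIntegral A (b i) := fun i => (hb (b i)).mpr fun j => by
    rw [Basis.repr_self, Finsupp.single_apply]
    split_ifs
    · exact ⟨1, map_one _⟩
    · exact ⟨0, map_zero _⟩
  obtain ⟨φ, hφ⟩ : ∃ φ : integralClosure A L →ₐ[A] L, ∀ x, φ x = (x : L) :=
    ⟨(integralClosure A L).val, fun x => rfl⟩
  have hφinj : Function.Injective φ := fun x y hxy => Subtype.ext (by rw [← hφ x, ← hφ y, hxy])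
  obtain ⟨c, hc⟩ : ∃ c : ι → integralClosure A L, ∀ i, φ (c i) = b i :=
    ⟨fun i => ⟨b i, hbi i⟩, fun i => hφ _⟩
  have hsmul : ∀ (a : A) (x : L), a • x = algebraMap A K a • x :=
    fun a x => (algebraMap_smul K a x).symm
  have hli : LinearIndependent A c := by
    rw [Fintype.linearIndependent_iff]
    intro g hg i
    have h1 := congrArg φ hg
    rw [map_sum, map_zero] at h1
    have h2 : ∑ i, algebraMap A K (g i) • b i = 0 := by
      rw [← h1]
      refine Finset.sum_congr rfl fun j _ => ?_
      rw [map_smul, hc, hsmul]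
    have h3 := Fintype.linearIndependent_iff.mp b.linearIndependent _ h2 i
    exact hinj (by rw [h3, map_zero])
  have hsp : ⊤ ≤ Submodule.span A (Set.range c) := by
    rintro x -
    choose a ha using (hb (φ x)).mp (by rw [hφ]; exact x.2)
    have hx : x = ∑ i, a i • c i := by
      apply hφinj
      rw [map_sum]
      conv_lhs => rw [← b.sum_repr (φ x)]
      refine Finset.sum_congr rfl fun j _ => ?_
      rw [map_smul, hc, hsmul, ha]
    rw [hx]
    exact Submodule.sum_mem _ fun i _ => Submodule.smul_mem _ _ (Submodule.subset_span ⟨i, rfl⟩)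
  obtain ⟨b0, hb0⟩ : ∃ b0 : Basis ι A (integralClosure A L), ∀ i, φ (b0 i) = b i :=
    ⟨Basis.mk hli hsp, fun i => by rw [Basis.mk_apply, hc]⟩
  have hrepr : ∀ (y : integralClosure A L) (i : ι),
      b.repr (φ y) i = algebraMap A K (b0.repr y i) := by
    intro y i
    have h1 : φ y = ∑ j, algebraMap A K (b0.repr y j) • b j := by
      conv_lhs => rw [← b0.sum_repr y]
      rw [map_sum]
      refine Finset.sum_congr rfl fun j _ => ?_
      rw [map_smul, hb0 j, hsmul]
    rw [h1, b.repr_sum_self]
  have htr : ∀ y : integralClosure A L,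
      Algebra.trace K L (φ y) = algebraMap A K (Algebra.trace A (integralClosure A L) y) := by
    intro y
    rw [Algebra.trace_eq_matrix_trace b, Algebra.trace_eq_matrix_trace b0, Matrix.trace,
      Matrix.trace, map_sum]
    refine Finset.sum_congr rfl fun i _ => ?_
    rw [Matrix.diag_apply, Matrix.diag_apply, Algebra.leftMulMatrix_eq_repr_mul,
      Algebra.leftMulMatrix_eq_repr_mul, ← hrepr, map_mul φ, hb0 i]
  refine ⟨b0, fun i => by rw [← hφ, hb0], ?_⟩
  rw [Algebra.discr_def, Algebra.discr_def, RingHom.map_det]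
  congr 1
  ext i j
  rw [RingHom.mapMatrix_apply, Matrix.map_apply, Algebra.traceMatrix_apply,
    Algebra.traceMatrix_apply, Algebra.traceForm_apply, Algebra.traceForm_apply, ← htr,
    map_mul φ, hb0, hb0]

variable [IsDomain A] [IsPrincipalIdealRing A]

/-- **Local discriminant lemma, integral-basis spelling, lower bound.** -/
theorem pow_dvd_of_integral_basis (b : Basis ι K L)
    (hb : ∀ f : L, IsIntegral A f ↔ ∀ i, b.repr f i ∈ Set.range (algebraMap A K))
    {D : A} (hD : Algebra.discr K b = algebraMap A K D) {ϖ : A} (hϖ : Irreducible ϖ) :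
    ∃ d : ℕ, Module.length A (integralClosure A L ⧸
        (Ideal.span {algebraMap A (integralClosure A L) ϖ}).radical) = d ∧
      d ≤ Fintype.card ι ∧ ϖ ^ (Fintype.card ι - d) ∣ D := by
  obtain ⟨b0, -, hdisc⟩ := exists_basis_integralClosure b hb
  have hD' : D = Algebra.discr A b0 := IsFractionRing.injective A K (by rw [← hD, hdisc])
  rw [hD']
  exact pow_dvd_discr hϖ b0

/-- **Local discriminant lemma, integral-basis spelling, algebraically closed residue field.**
`ϖ ^ (n - g) ∣ D`, `g` the number of primes of the integral closure containing `ϖ`. -/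
theorem pow_dvd_of_integral_basis_of_isAlgClosed {κ : Type*} [Field κ] [IsAlgClosed κ]
    (ρ : A →+* κ) {ϖ : A} (hρ : ∀ r : A, ρ r = 0 ↔ ϖ ∣ r) (hρs : Function.Surjective ρ)
    (hϖ : Irreducible ϖ) (b : Basis ι K L)
    (hb : ∀ f : L, IsIntegral A f ↔ ∀ i, b.repr f i ∈ Set.range (algebraMap A K))
    {D : A} (hD : Algebra.discr K b = algebraMap A K D) :
    Nat.card {P : Ideal (integralClosure A L) //
        P.IsPrime ∧ algebraMap A (integralClosure A L) ϖ ∈ P} ≤ Fintype.card ι ∧
      ϖ ^ (Fintype.card ι - Nat.card {P : Ideal (integralClosure A L) //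
        P.IsPrime ∧ algebraMap A (integralClosure A L) ϖ ∈ P}) ∣ D := by
  obtain ⟨b0, -, hdisc⟩ := exists_basis_integralClosure b hb
  have hD' : D = Algebra.discr A b0 := IsFractionRing.injective A K (by rw [← hD, hdisc])
  rw [hD']
  exact pow_dvd_discr_of_isAlgClosed_residue ρ hρ hρs hϖ b0

/-- **Local discriminant lemma, integral-basis spelling, tame exact form.**
`D = ϖ ^ (n - g) * t` with `ϖ ∤ t`. -/
theorem eq_pow_mul_of_integral_basis_of_isAlgClosed {κ : Type*} [Field κ] [IsAlgClosed κ]
    [CharZero κ] [IsDedekindDomain (integralClosure A L)]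
    (ρ : A →+* κ) {ϖ : A} (hρ : ∀ r : A, ρ r = 0 ↔ ϖ ∣ r) (hρs : Function.Surjective ρ)
    (hϖ : Irreducible ϖ) (b : Basis ι K L)
    (hb : ∀ f : L, IsIntegral A f ↔ ∀ i, b.repr f i ∈ Set.range (algebraMap A K))
    {D : A} (hD : Algebra.discr K b = algebraMap A K D) :
    Nat.card {P : Ideal (integralClosure A L) //
        P.IsPrime ∧ algebraMap A (integralClosure A L) ϖ ∈ P} ≤ Fintype.card ι ∧
      ∃ t : A, ¬ ϖ ∣ t ∧ D = ϖ ^ (Fintype.card ι - Nat.card {P : Ideal (integralClosure A L) //
        P.IsPrime ∧ algebraMap A (integralClosure A L) ϖ ∈ P}) * t := by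
  obtain ⟨b0, -, hdisc⟩ := exists_basis_integralClosure b hb
  have hD' : D = Algebra.discr A b0 := IsFractionRing.injective A K (by rw [← hD, hdisc])
  rw [hD']
  exact discr_eq_pow_mul_not_dvd_of_isAlgClosed_residue ρ hρ hρs hϖ b0

end IntegralBasis

section PolynomialRing

open Polynomial

theorem sum_count_le_card {α : Type*} [DecidableEq α] (S : Finset α) (s : Multiset α) :
    ∑ a ∈ S, s.count a ≤ s.card := by
  calc ∑ a ∈ S, s.count a = ∑ a ∈ S.filter (· ∈ s), s.count a := by
        rw [Finset.sum_filter]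
        refine Finset.sum_congr rfl fun a _ => ?_
        split_ifs with h
        · rfl
        · exact Multiset.count_eq_zero_of_notMem h
    _ ≤ ∑ a ∈ s.toFinset, s.count a :=
        Finset.sum_le_sum_of_subset
          (fun a ha => Multiset.mem_toFinset.mpr (Finset.mem_filter.mp ha).2)
    _ = s.card := Multiset.toFinset_sum_count_eq s

variable {κ : Type*} [Field κ] [IsAlgClosed κ] {K L : Type*} [Field K] [Algebra κ[X] K]
  [IsFractionRing κ[X] K] [Field L] [Algebra K L] [Algebra κ[X] L] [IsScalarTower κ[X] K L]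
  {ι : Type*} [Fintype ι] [DecidableEq ι]

/-- **Global form over `κ[X]`, `κ` algebraically closed (any characteristic).**  At every point
`a`, the discriminant `D` of an integral basis vanishes to order at least `n - g_a`, where `g_a`
is the number of primes of the integral closure over `X - a`. -/
theorem le_rootMultiplicity_of_integral_basis (b : Basis ι K L)
    (hb : ∀ f : L, IsIntegral κ[X] f ↔ ∀ i, b.repr f i ∈ Set.range (algebraMap κ[X] K))
    {D : κ[X]} (hD0 : D ≠ 0) (hD : Algebra.discr K b = algebraMap κ[X] K D) (a : κ) :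
    Nat.card {P : Ideal (integralClosure κ[X] L) //
        P.IsPrime ∧ algebraMap κ[X] (integralClosure κ[X] L) (X - C a) ∈ P} ≤ Fintype.card ι ∧
      Fintype.card ι - Nat.card {P : Ideal (integralClosure κ[X] L) //
        P.IsPrime ∧ algebraMap κ[X] (integralClosure κ[X] L) (X - C a) ∈ P}
        ≤ D.rootMultiplicity a := by
  have hρ : ∀ r : κ[X], Polynomial.evalRingHom a r = 0 ↔ (X - C a) ∣ r := fun r => by
    rw [Polynomial.coe_evalRingHom, Polynomial.dvd_iff_isRoot]
    rfl
  have hρs : Function.Surjective (Polynomial.evalRingHom a) := fun c =>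
    ⟨C c, by rw [Polynomial.coe_evalRingHom, Polynomial.eval_C]⟩
  obtain ⟨h1, h2⟩ := pow_dvd_of_integral_basis_of_isAlgClosed (Polynomial.evalRingHom a) hρ hρs
    (Polynomial.irreducible_X_sub_C a) b hb hD
  exact ⟨h1, (Polynomial.le_rootMultiplicity_iff hD0).mpr h2⟩

/-- Summed form: `∑_{a ∈ S} (n - g_a) ≤ deg D` for every finite set `S` of points. -/
theorem sum_le_natDegree_of_integral_basis (b : Basis ι K L)
    (hb : ∀ f : L, IsIntegral κ[X] f ↔ ∀ i, b.repr f i ∈ Set.range (algebraMap κ[X] K))
    {D : κ[X]} (hD0 : D ≠ 0) (hD : Algebra.discr K b = algebraMap κ[X] K D) (S : Finset κ) :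
    ∑ a ∈ S, (Fintype.card ι - Nat.card {P : Ideal (integralClosure κ[X] L) //
        P.IsPrime ∧ algebraMap κ[X] (integralClosure κ[X] L) (X - C a) ∈ P}) ≤ D.natDegree := by
  classical
  calc ∑ a ∈ S, (Fintype.card ι - Nat.card {P : Ideal (integralClosure κ[X] L) //
          P.IsPrime ∧ algebraMap κ[X] (integralClosure κ[X] L) (X - C a) ∈ P})
        ≤ ∑ a ∈ S, D.rootMultiplicity a :=
          Finset.sum_le_sum fun a _ => (le_rootMultiplicity_of_integral_basis b hb hD0 hD a).2
    _ = ∑ a ∈ S, D.roots.count a :=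
          Finset.sum_congr rfl fun a _ => (Polynomial.count_roots D).symm
    _ ≤ D.roots.card := sum_count_le_card S D.roots
    _ ≤ D.natDegree := Polynomial.card_roots' D

/-- **Tame exact form over `κ[X]`, `κ` algebraically closed of characteristic zero.** -/
theorem rootMultiplicity_eq_of_integral_basis [CharZero κ]
    [IsDedekindDomain (integralClosure κ[X] L)] (b : Basis ι K L)
    (hb : ∀ f : L, IsIntegral κ[X] f ↔ ∀ i, b.repr f i ∈ Set.range (algebraMap κ[X] K))
    {D : κ[X]} (hD0 : D ≠ 0) (hD : Algebra.discr K b = algebraMap κ[X] K D) (a : κ) :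
    D.rootMultiplicity a = Fintype.card ι - Nat.card {P : Ideal (integralClosure κ[X] L) //
        P.IsPrime ∧ algebraMap κ[X] (integralClosure κ[X] L) (X - C a) ∈ P} := by
  have hρ : ∀ r : κ[X], Polynomial.evalRingHom a r = 0 ↔ (X - C a) ∣ r := fun r => by
    rw [Polynomial.coe_evalRingHom, Polynomial.dvd_iff_isRoot]
    rfl
  have hρs : Function.Surjective (Polynomial.evalRingHom a) := fun c =>
    ⟨C c, by rw [Polynomial.coe_evalRingHom, Polynomial.eval_C]⟩
  obtain ⟨-, t, ht, hDt⟩ := eq_pow_mul_of_integral_basis_of_isAlgClosed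
    (Polynomial.evalRingHom a) hρ hρs (Polynomial.irreducible_X_sub_C a) b hb hD
  apply le_antisymm
  · by_contra hlt
    push Not at hlt
    have h1 := (Polynomial.le_rootMultiplicity_iff hD0).mp (Nat.succ_le_of_lt hlt)
    rw [hDt, pow_succ] at h1
    exact ht ((mul_dvd_mul_iff_left (pow_ne_zero _ (Polynomial.X_sub_C_ne_zero a))).mp h1)
  · exact (Polynomial.le_rootMultiplicity_iff hD0).mpr ⟨t, hDt⟩

/-- Summed tame form: `deg D = ∑_{a ∈ S} (n - g_a)` for every finite `S` containing all roots of
`D` (all branch points). -/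
theorem natDegree_eq_sum_of_integral_basis [CharZero κ]
    [IsDedekindDomain (integralClosure κ[X] L)] (b : Basis ι K L)
    (hb : ∀ f : L, IsIntegral κ[X] f ↔ ∀ i, b.repr f i ∈ Set.range (algebraMap κ[X] K))
    {D : κ[X]} (hD0 : D ≠ 0) (hD : Algebra.discr K b = algebraMap κ[X] K D) (S : Finset κ)
    (hS : ∀ a : κ, D.IsRoot a → a ∈ S) :
    D.natDegree = ∑ a ∈ S, (Fintype.card ι - Nat.card {P : Ideal (integralClosure κ[X] L) //
        P.IsPrime ∧ algebraMap κ[X] (integralClosure κ[X] L) (X - C a) ∈ P}) := by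
  classical
  have hsub : D.roots.toFinset ⊆ S := fun a ha =>
    hS a ((Polynomial.mem_roots hD0).mp (Multiset.mem_toFinset.mp ha))
  calc D.natDegree = D.roots.card :=
        (Polynomial.splits_iff_card_roots.mp (IsAlgClosed.splits D)).symm
    _ = ∑ a ∈ D.roots.toFinset, D.roots.count a := (Multiset.toFinset_sum_count_eq _).symm
    _ = ∑ a ∈ S, D.roots.count a :=
        Finset.sum_subset hsub fun a _ ha =>
          Multiset.count_eq_zero_of_notMem fun h => ha (Multiset.mem_toFinset.mpr h)
    _ = ∑ a ∈ S, (Fintype.card ι - Nat.card {P : Ideal (integralClosure κ[X] L) //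
          P.IsPrime ∧ algebraMap κ[X] (integralClosure κ[X] L) (X - C a) ∈ P}) :=
        Finset.sum_congr rfl fun a _ => by
          rw [Polynomial.count_roots, rootMultiplicity_eq_of_integral_basis b hb hD0 hD a]

end PolynomialRing

end Fermat.Agent.Lib.LocalDisc
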