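import Fermat.Agent.Lib.LocalDiscGlue
import Fermat.Agent.Lib.DedekindWeber.IntegralBasis

/-!
# The local discriminant lemma at a discrete valuation (S18, glue G5 → Dedekind–Weber, (GL4))

`v : Valuation E ℤᵐ⁰` with a uniformiser `t` (`v t = exp (-1)`) and an algebraically closed
field of constants `k →+* E` mapping onto the residue field.  For a `v`-integral basis `e` of a
field extension `L / E` (in the spelling `IsIntegral O_v f ↔ ∀ i, v (e.repr f i) ≤ 1`):

`v (disc e) ≤ exp (-(n - g))`, where `g` is the number of maximal ideals of the integral closure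
of `O_v` in `L`, with equality in characteristic zero.

Specialised to the place at infinity of `κ(X)` (`inftyValuation_discr_le`,
`inftyValuation_discr_eq`).
-/

set_option autoImplicit false

namespace Fermat.Agent.Lib.LocalDisc

open WithZero Module

section LocalPID

variable {R : Type*} [CommRing R] [IsLocalRing R] [IsPrincipalIdealRing R]
  {B : Type*} [CommRing B] [Algebra R B] [Module.Finite R B]

/-- Over a local principal ideal ring, the maximal ideals of a finite algebra are the primes
containing the uniformiser. -/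
theorem isMaximal_iff_isPrime_and_mem_of_isLocalRing {ϖ : R} (hϖ : Irreducible ϖ)
    (P : Ideal B) : P.IsMaximal ↔ P.IsPrime ∧ algebraMap R B ϖ ∈ P := by
  have hmax : (Ideal.span {ϖ}).IsMaximal := PrincipalIdealRing.isMaximal_of_irreducible hϖ
  constructor
  · intro hP
    refine ⟨hP.isPrime, ?_⟩
    have h1 : (P.comap (algebraMap R B)).IsMaximal :=
      Ideal.isMaximal_comap_of_isIntegral_of_isMaximal P
    have h2 : ϖ ∈ P.comap (algebraMap R B) := by
      rw [IsLocalRing.eq_maximalIdeal h1, ← IsLocalRing.eq_maximalIdeal hmax]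
      exact Ideal.mem_span_singleton_self ϖ
    exact h2
  · rintro ⟨hP, hϖP⟩
    exact isMaximal_of_mem hϖ hP hϖP

theorem card_maximal_eq_card_primes_over_of_isLocalRing {ϖ : R} (hϖ : Irreducible ϖ) :
    Nat.card {M : Ideal B // M.IsMaximal}
      = Nat.card {P : Ideal B // P.IsPrime ∧ algebraMap R B ϖ ∈ P} :=
  Nat.card_congr
    (Equiv.subtypeEquivRight fun P => isMaximal_iff_isPrime_and_mem_of_isLocalRing hϖ P)

end LocalPID

section Valuation

variable {E : Type*} [Field E] (v : Valuation E ℤᵐ⁰)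

theorem lt_one_iff_le_exp_neg_one (x : ℤᵐ⁰) : x < 1 ↔ x ≤ exp (-1 : ℤ) := by
  have h := DedekindWeber.lt_exp_iff_le_exp_sub_one x 0
  rw [exp_zero] at h
  exact h

theorem isUnit_iff_valuation_eq_one (x : v.valuationSubring) : IsUnit x ↔ v (x : E) = 1 := by
  have hx1 : v (x : E) ≤ 1 := (Valuation.mem_valuationSubring_iff v _).mp x.2
  constructor
  · rintro ⟨u, rfl⟩
    have h1 : v ((u : v.valuationSubring) : E) * v (((u⁻¹ : (v.valuationSubring)ˣ) :
        v.valuationSubring) : E) = 1 := by
      rw [← map_mul, ← Subring.coe_mul, Units.mul_inv]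
      exact map_one v
    have h2 : v (((u⁻¹ : (v.valuationSubring)ˣ) : v.valuationSubring) : E) ≤ 1 :=
      (Valuation.mem_valuationSubring_iff v _).mp (Subtype.property _)
    refine le_antisymm hx1 ?_
    calc (1 : ℤᵐ⁰) = v ((u : v.valuationSubring) : E) * v (((u⁻¹ : (v.valuationSubring)ˣ) :
          v.valuationSubring) : E) := h1.symm
      _ ≤ v ((u : v.valuationSubring) : E) * 1 := mul_le_mul' le_rfl h2
      _ = v ((u : v.valuationSubring) : E) := mul_one _
  · intro h
    have hx0 : (x : E) ≠ 0 := by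
      intro h0
      rw [h0, map_zero] at h
      exact zero_ne_one h
    have hinv : (x : E)⁻¹ ∈ v.valuationSubring := by
      rw [Valuation.mem_valuationSubring_iff, map_inv₀, h, inv_one]
    exact IsUnit.of_mul_eq_one (⟨(x : E)⁻¹, hinv⟩ : v.valuationSubring)
      (Subtype.ext (mul_inv_cancel₀ hx0))

/-- A uniformiser of a `ℤᵐ⁰`-valued valuation is an irreducible element of the valuation ring,
generating the maximal ideal. -/
theorem exists_uniformizer {t : E} (ht : v t = exp (-1 : ℤ)) :
    ∃ ϖ : v.valuationSubring, (ϖ : E) = t ∧ Irreducible ϖ ∧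
      (∀ x : v.valuationSubring, v (x : E) < 1 → ϖ ∣ x) ∧
      ∀ (m : ℕ) (x : v.valuationSubring), ϖ ^ m ∣ x → v (x : E) ≤ exp (-(m : ℤ)) := by
  have ht0 : t ≠ 0 := by
    intro h0
    rw [h0, map_zero] at ht
    exact exp_ne_zero ht.symm
  have hlt : v t < 1 := by
    rw [lt_one_iff_le_exp_neg_one, ht]
  have htA : t ∈ v.valuationSubring := (Valuation.mem_valuationSubring_iff v _).mpr hlt.le
  have hdiv : ∀ x : v.valuationSubring, v (x : E) < 1 →
      (⟨t, htA⟩ : v.valuationSubring) ∣ x := by
    intro x hx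
    rw [lt_one_iff_le_exp_neg_one] at hx
    have hy : (x : E) / t ∈ v.valuationSubring := by
      rw [Valuation.mem_valuationSubring_iff, map_div₀, ht]
      exact (div_le_one₀ exp_pos).mpr hx
    exact ⟨⟨_, hy⟩, Subtype.ext (mul_div_cancel₀ _ ht0).symm⟩
  refine ⟨⟨t, htA⟩, rfl, ?_, hdiv, ?_⟩
  · rw [irreducible_iff]
    refine ⟨?_, ?_⟩
    · rw [isUnit_iff_valuation_eq_one]
      exact hlt.ne
    · intro a b hab
      by_contra hcon
      push Not at hcon
      obtain ⟨ha, hb⟩ := hcon
      rw [isUnit_iff_valuation_eq_one] at ha hb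
      have ha1 : v (a : E) ≤ 1 := (Valuation.mem_valuationSubring_iff v _).mp a.2
      have hb1 : v (b : E) ≤ 1 := (Valuation.mem_valuationSubring_iff v _).mp b.2
      have ha2 : v (a : E) ≤ exp (-1 : ℤ) :=
        (lt_one_iff_le_exp_neg_one _).mp (lt_of_le_of_ne ha1 ha)
      have hb2 : v (b : E) < 1 := lt_of_le_of_ne hb1 hb
      have h1 : v t = v (a : E) * v (b : E) := by
        rw [← map_mul, ← Subring.coe_mul, ← hab]
      have h2 : v (a : E) * v (b : E) < exp (-1 : ℤ) := by
        calc v (a : E) * v (b : E) ≤ exp (-1 : ℤ) * v (b : E) := mul_le_mul' ha2 le_rfl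
          _ < exp (-1 : ℤ) * 1 := by
              exact (mul_lt_mul_iff_right₀ exp_pos).mpr hb2
          _ = exp (-1 : ℤ) := mul_one _
      rw [← h1, ht] at h2
      exact lt_irrefl _ h2
  · rintro m x ⟨y, rfl⟩
    have hy : v (y : E) ≤ 1 := (Valuation.mem_valuationSubring_iff v _).mp y.2
    rw [Subring.coe_mul, SubmonoidClass.coe_pow, map_mul, map_pow, ht]
    calc exp (-1 : ℤ) ^ m * v (y : E) ≤ exp (-1 : ℤ) ^ m * 1 := mul_le_mul' le_rfl hy
      _ = exp (-(m : ℤ)) := by
          rw [mul_one, ← exp_nsmul]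
          congr 1
          simp

variable {k : Type*} [Field k] [IsAlgClosed k]
  {L : Type*} [Field L] [Algebra E L] {ι : Type*} [Fintype ι] [DecidableEq ι]

/-- Common set-up for the two theorems below: the integral basis `e` comes from a basis `e0` of
the integral closure of the valuation ring, all residue degrees are one, and the uniformiser
`ϖ` is as in `exists_uniformizer`. -/
theorem exists_setup_of_integral_basis (φ : k →+* E)
    (hφ : ∀ c : k, v (φ c) ≤ 1) (hres : ∀ a : E, v a ≤ 1 → ∃ c : k, v (a - φ c) < 1)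
    {t : E} (ht : v t = exp (-1 : ℤ)) (e : Basis ι E L)
    (he : ∀ f : L, IsIntegral v.valuationSubring f ↔ ∀ i, v (e.repr f i) ≤ 1) :
    ∃ (ϖ : v.valuationSubring) (e0 : Basis ι v.valuationSubring
        (integralClosure v.valuationSubring L)) (φ' : k →+* v.valuationSubring),
      Irreducible ϖ ∧ (∀ c, (φ' c : E) = φ c) ∧
      (∀ x : v.valuationSubring, v (x : E) < 1 → ϖ ∣ x) ∧
      (∀ (m : ℕ) (x : v.valuationSubring), ϖ ^ m ∣ x → v (x : E) ≤ exp (-(m : ℤ))) ∧
      (ϖ : E) = t ∧
      Algebra.discr E e = ((Algebra.discr v.valuationSubring e0 : v.valuationSubring) : E) ∧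
      (∀ P : Ideal (integralClosure v.valuationSubring L), P.IsPrime →
        algebraMap v.valuationSubring (integralClosure v.valuationSubring L) ϖ ∈ P →
        Function.Surjective (algebraMap v.valuationSubring
          (integralClosure v.valuationSubring L ⧸ P))) := by
  classical
  obtain ⟨ϖ, hϖt, hϖ, hdiv, hval⟩ := exists_uniformizer v ht
  have hb : ∀ f : L, IsIntegral v.valuationSubring f ↔
      ∀ i, e.repr f i ∈ Set.range (algebraMap v.valuationSubring E) := by
    intro f
    rw [he f]
    refine forall_congr' fun i => ?_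
    constructor
    · intro h
      exact ⟨⟨_, (Valuation.mem_valuationSubring_iff v _).mpr h⟩, rfl⟩
    · rintro ⟨x, hx⟩
      rw [← hx]
      exact (Valuation.mem_valuationSubring_iff v _).mp x.2
  obtain ⟨e0, -, hdisc⟩ := exists_basis_integralClosure e hb
  have hfin : Module.Finite v.valuationSubring (integralClosure v.valuationSubring L) :=
    Module.Finite.of_basis e0
  obtain ⟨φ', hφ'⟩ : ∃ φ' : k →+* v.valuationSubring, ∀ c, (φ' c : E) = φ c :=
    ⟨RingHom.codRestrict φ v.valuationSubring
      (fun c => (Valuation.mem_valuationSubring_iff v _).mpr (hφ c)), fun c => rfl⟩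
  have hk : ∀ r : v.valuationSubring, ∃ a : k, ϖ ∣ r - φ' a := by
    intro r
    obtain ⟨c, hc⟩ := hres (r : E) ((Valuation.mem_valuationSubring_iff v _).mp r.2)
    refine ⟨c, hdiv _ ?_⟩
    rw [AddSubgroupClass.coe_sub, hφ']
    exact hc
  exact ⟨ϖ, e0, φ', hϖ, hφ', hdiv, hval, hϖt, hdisc, fun P hP hϖP =>
    surjective_algebraMap_quotient_of_isAlgClosed φ' hk hP hϖP⟩

/-- **Local discriminant lemma at a discrete valuation, lower bound (any residue
characteristic).**  `v (disc e) ≤ exp (-(n - g))`, `g` the number of maximal ideals of the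
integral closure of the valuation ring. -/
theorem valuation_discr_le_of_integral_basis (φ : k →+* E)
    (hφ : ∀ c : k, v (φ c) ≤ 1) (hres : ∀ a : E, v a ≤ 1 → ∃ c : k, v (a - φ c) < 1)
    {t : E} (ht : v t = exp (-1 : ℤ)) (e : Basis ι E L)
    (he : ∀ f : L, IsIntegral v.valuationSubring f ↔ ∀ i, v (e.repr f i) ≤ 1) :
    Nat.card {P : Ideal (integralClosure v.valuationSubring L) // P.IsMaximal} ≤ Fintype.card ι ∧
      v (Algebra.discr E e) ≤ exp (-((Fintype.card ι - Nat.card
        {P : Ideal (integralClosure v.valuationSubring L) // P.IsMaximal} : ℕ) : ℤ)) := by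
  have hPID : IsPrincipalIdealRing v.valuationSubring :=
    DedekindWeber.isPrincipalIdealRing_valuationSubring v
  obtain ⟨ϖ, e0, φ', hϖ, -, -, hval, -, hdisc, hf⟩ :=
    exists_setup_of_integral_basis v φ hφ hres ht e he
  have hfin : Module.Finite v.valuationSubring (integralClosure v.valuationSubring L) :=
    Module.Finite.of_basis e0
  obtain ⟨hle, hdvd⟩ := pow_dvd_discr_of_surjective hϖ e0 hf
  rw [card_maximal_eq_card_primes_over_of_isLocalRing hϖ]
  refine ⟨hle, ?_⟩
  rw [hdisc]
  exact hval _ _ hdvd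

/-- **Local discriminant lemma at a discrete valuation, tame exact form (characteristic
zero).**  `v (disc e) = exp (-(n - g))`. -/
theorem valuation_discr_eq_of_integral_basis [CharZero k]
    [IsDedekindDomain (integralClosure v.valuationSubring L)] (φ : k →+* E)
    (hφ : ∀ c : k, v (φ c) ≤ 1) (hres : ∀ a : E, v a ≤ 1 → ∃ c : k, v (a - φ c) < 1)
    {t : E} (ht : v t = exp (-1 : ℤ)) (e : Basis ι E L)
    (he : ∀ f : L, IsIntegral v.valuationSubring f ↔ ∀ i, v (e.repr f i) ≤ 1) :
    Nat.card {P : Ideal (integralClosure v.valuationSubring L) // P.IsMaximal} ≤ Fintype.card ι ∧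
      v (Algebra.discr E e) = exp (-((Fintype.card ι - Nat.card
        {P : Ideal (integralClosure v.valuationSubring L) // P.IsMaximal} : ℕ) : ℤ)) := by
  have hPID : IsPrincipalIdealRing v.valuationSubring :=
    DedekindWeber.isPrincipalIdealRing_valuationSubring v
  obtain ⟨ϖ, e0, φ', hϖ, hφ', hdiv, hval, hϖt, hdisc, hf⟩ :=
    exists_setup_of_integral_basis v φ hφ hres ht e he
  have hfin : Module.Finite v.valuationSubring (integralClosure v.valuationSubring L) :=
    Module.Finite.of_basis e0
  have hchar : ∀ m : ℕ, m ≠ 0 → ¬ ϖ ∣ (m : v.valuationSubring) := by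
    intro m hm hdvd
    have h1 := hval 1 _ ((pow_one ϖ).symm ▸ hdvd)
    have h2 : ((m : v.valuationSubring) : E) = φ (m : k) := by
      rw [← hφ', map_natCast]
    have hm0 : (m : k) ≠ 0 := Nat.cast_ne_zero.mpr hm
    have h3 : v (φ (m : k)) * v (φ ((m : k)⁻¹)) = 1 := by
      rw [← map_mul, ← map_mul, mul_inv_cancel₀ hm0, map_one, map_one]
    have h4 : (1 : ℤᵐ⁰) ≤ v (φ (m : k)) := by
      calc (1 : ℤᵐ⁰) = v (φ (m : k)) * v (φ ((m : k)⁻¹)) := h3.symm
        _ ≤ v (φ (m : k)) * 1 := mul_le_mul' le_rfl (hφ _)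
        _ = v (φ (m : k)) := mul_one _
    rw [h2] at h1
    have h5 : (1 : ℤᵐ⁰) ≤ exp (-((1 : ℕ) : ℤ)) := h4.trans h1
    rw [← exp_zero, exp_le_exp] at h5
    omega
  obtain ⟨hle, t', ht', hdt⟩ := discr_eq_pow_mul_not_dvd_of_surjective hϖ hchar e0 hf
  rw [card_maximal_eq_card_primes_over_of_isLocalRing hϖ]
  refine ⟨hle, ?_⟩
  have ht'1 : v (t' : E) = 1 := by
    have h1 : v (t' : E) ≤ 1 := (Valuation.mem_valuationSubring_iff v _).mp t'.2
    by_contra hne
    exact ht' (hdiv t' (lt_of_le_of_ne h1 hne))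
  rw [hdisc, hdt, Subring.coe_mul, SubmonoidClass.coe_pow, map_mul, map_pow, hϖt, ht, ht'1,
    mul_one, ← exp_nsmul]
  congr 1
  simp

end Valuation

section Infinity

variable {κ : Type*} [Field κ] [DecidableEq (RatFunc κ)]

theorem inftyValuation_algebraMap_le_one (c : κ) :
    RatFunc.inftyValuation κ (algebraMap κ (RatFunc κ) c) ≤ 1 := by
  rcases eq_or_ne c 0 with rfl | hc
  · rw [map_zero, map_zero]
    exact zero_le_one
  · rw [RatFunc.algebraMap_eq_C]
    exact (RatFunc.inftyValuation.C κ hc).le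

theorem exists_const_inftyValuation_sub_lt (a : RatFunc κ)
    (ha : RatFunc.inftyValuation κ a ≤ 1) :
    ∃ c : κ, RatFunc.inftyValuation κ (a - algebraMap κ (RatFunc κ) c) < 1 := by
  obtain ⟨p, hp, hp'⟩ := (DedekindWeber.setup_ratFunc κ).res a ha
  rcases hp' with rfl | hu
  · exact ⟨0, by rwa [map_zero] at hp ⊢⟩
  · obtain ⟨r, -, rfl⟩ := Polynomial.isUnit_iff.mp hu
    exact ⟨r, by rwa [RatFunc.algebraMap_C, ← RatFunc.algebraMap_eq_C] at hp⟩

variable [IsAlgClosed κ]
  {L : Type*} [Field L] [Algebra (RatFunc κ) L] {ι : Type*} [Fintype ι] [DecidableEq ι]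

/-- **The point at infinity of `κ(X)`, lower bound (any characteristic).** -/
theorem inftyValuation_discr_le (e : Basis ι (RatFunc κ) L)
    (he : ∀ f : L, IsIntegral (DedekindWeber.Oinf κ) f ↔
      ∀ i, RatFunc.inftyValuation κ (e.repr f i) ≤ 1) :
    Nat.card {P : Ideal (integralClosure (DedekindWeber.Oinf κ) L) // P.IsMaximal}
        ≤ Fintype.card ι ∧
      RatFunc.inftyValuation κ (Algebra.discr (RatFunc κ) e) ≤ exp (-((Fintype.card ι - Nat.card
        {P : Ideal (integralClosure (DedekindWeber.Oinf κ) L) // P.IsMaximal} : ℕ) : ℤ)) :=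
  valuation_discr_le_of_integral_basis (RatFunc.inftyValuation κ) (algebraMap κ (RatFunc κ))
    inftyValuation_algebraMap_le_one exists_const_inftyValuation_sub_lt
    (DedekindWeber.setup_ratFunc κ).val_t e he

/-- **The point at infinity of `κ(X)`, tame exact form (characteristic zero).** -/
theorem inftyValuation_discr_eq [CharZero κ]
    [IsDedekindDomain (integralClosure (DedekindWeber.Oinf κ) L)] (e : Basis ι (RatFunc κ) L)
    (he : ∀ f : L, IsIntegral (DedekindWeber.Oinf κ) f ↔
      ∀ i, RatFunc.inftyValuation κ (e.repr f i) ≤ 1) :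
    Nat.card {P : Ideal (integralClosure (DedekindWeber.Oinf κ) L) // P.IsMaximal}
        ≤ Fintype.card ι ∧
      RatFunc.inftyValuation κ (Algebra.discr (RatFunc κ) e) = exp (-((Fintype.card ι - Nat.card
        {P : Ideal (integralClosure (DedekindWeber.Oinf κ) L) // P.IsMaximal} : ℕ) : ℤ)) :=
  valuation_discr_eq_of_integral_basis (RatFunc.inftyValuation κ) (algebraMap κ (RatFunc κ))
    inftyValuation_algebraMap_le_one exists_const_inftyValuation_sub_lt
    (DedekindWeber.setup_ratFunc κ).val_t e he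

end Infinity

section DedekindWeber

open Polynomial

variable (κ : Type*) [Field κ] [IsAlgClosed κ] [DecidableEq (RatFunc κ)]
variable (L : Type*) [Field L] [Algebra (RatFunc κ) L] [Algebra κ[X] L]
  [IsScalarTower κ[X] (RatFunc κ) L] [Algebra κ L] [IsScalarTower κ (RatFunc κ) L]
  [FiniteDimensional (RatFunc κ) L] [Algebra.IsSeparable (RatFunc κ) L]

/-- **Dedekind–Weber exponents and fibre cardinalities (any characteristic).**  For a finite
separable extension `L / κ(X)`, `κ` algebraically closed, the Dedekind–Weber exponents `δ`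
(`dim L(c (X)_∞) = ∑ max (0, c - δ i + 1)`) satisfy
`2 ∑ δ ≥ ∑_{a ∈ S} (n - g_a) + (n - g_∞)` for every finite set `S` of points, where `g_a` is the
number of primes of the integral closure of `κ[X]` over `X - a` and `g_∞` the number of maximal
ideals of the integral closure of the valuation ring at infinity. -/
theorem exists_exponents_sum_le :
    ∃ δ : Fin (Module.finrank (RatFunc κ) L) → ℤ,
      (∀ c : ℤ, Module.Finite κ (DedekindWeber.RRSpace κ L c) ∧
        Module.finrank κ (DedekindWeber.RRSpace κ L c) = ∑ i, (c - δ i + 1).toNat) ∧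
      ∀ S : Finset κ,
        (∑ a ∈ S, ((Module.finrank (RatFunc κ) L - Nat.card {P : Ideal (integralClosure κ[X] L) //
            P.IsPrime ∧ algebraMap κ[X] (integralClosure κ[X] L) (X - C a) ∈ P} : ℕ) : ℤ))
          + ((Module.finrank (RatFunc κ) L - Nat.card
            {P : Ideal (integralClosure (DedekindWeber.Oinf κ) L) // P.IsMaximal} : ℕ) : ℤ)
          ≤ 2 * ∑ i, δ i := by
  classical
  obtain ⟨δ, w0, e, D, hw0, he, hD0, hD, hdim, hval⟩ :=
    DedekindWeber.exists_exponents_functionField κ L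
  refine ⟨δ, hdim, fun S => ?_⟩
  have h1 := sum_le_natDegree_of_integral_basis w0 hw0 hD0 hD S
  obtain ⟨-, h2⟩ := inftyValuation_discr_le e he
  rw [Fintype.card_fin] at h2
  simp only [Fintype.card_fin] at h1
  have h3 : exp (D.natDegree : ℤ) ≤ exp (-((Module.finrank (RatFunc κ) L - Nat.card
      {P : Ideal (integralClosure (DedekindWeber.Oinf κ) L) // P.IsMaximal} : ℕ) : ℤ)
        + 2 * ∑ i, δ i) := by
    rw [← hval, exp_add]
    exact mul_le_mul' h2 le_rfl
  rw [exp_le_exp] at h3
  have h4 : (∑ a ∈ S, ((Module.finrank (RatFunc κ) L - Nat.card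
      {P : Ideal (integralClosure κ[X] L) //
        P.IsPrime ∧ algebraMap κ[X] (integralClosure κ[X] L) (X - C a) ∈ P} : ℕ) : ℤ))
      ≤ (D.natDegree : ℤ) := by
    rw [← Nat.cast_sum]
    exact_mod_cast h1
  linarith

/-- **Dedekind–Weber exponents and fibre cardinalities, tame exact form (characteristic
zero).**  `2 ∑ δ = ∑_{a ∈ S} (n - g_a) + (n - g_∞)` for every finite `S` containing the (finite)
branch locus `S₀`. -/
theorem exists_exponents_sum_eq [CharZero κ] :
    ∃ δ : Fin (Module.finrank (RatFunc κ) L) → ℤ,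
      (∀ c : ℤ, Module.Finite κ (DedekindWeber.RRSpace κ L c) ∧
        Module.finrank κ (DedekindWeber.RRSpace κ L c) = ∑ i, (c - δ i + 1).toNat) ∧
      ∃ S₀ : Finset κ, ∀ S : Finset κ, S₀ ⊆ S →
        (∑ a ∈ S, ((Module.finrank (RatFunc κ) L - Nat.card {P : Ideal (integralClosure κ[X] L) //
            P.IsPrime ∧ algebraMap κ[X] (integralClosure κ[X] L) (X - C a) ∈ P} : ℕ) : ℤ))
          + ((Module.finrank (RatFunc κ) L - Nat.card
            {P : Ideal (integralClosure (DedekindWeber.Oinf κ) L) // P.IsMaximal} : ℕ) : ℤ)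
          = 2 * ∑ i, δ i := by
  classical
  have hPID : IsPrincipalIdealRing (DedekindWeber.Oinf κ) :=
    DedekindWeber.isPrincipalIdealRing_valuationSubring _
  have hDed1 : IsDedekindDomain (integralClosure κ[X] L) :=
    integralClosure.isDedekindDomain κ[X] (RatFunc κ) L
  have hDed2 : IsDedekindDomain (integralClosure (DedekindWeber.Oinf κ) L) :=
    integralClosure.isDedekindDomain (DedekindWeber.Oinf κ) (RatFunc κ) L
  obtain ⟨δ, w0, e, D, hw0, he, hD0, hD, hdim, hval⟩ :=
    DedekindWeber.exists_exponents_functionField κ L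
  refine ⟨δ, hdim, D.roots.toFinset, fun S hS => ?_⟩
  have h1 := natDegree_eq_sum_of_integral_basis w0 hw0 hD0 hD S
    (fun a ha => hS (Multiset.mem_toFinset.mpr ((Polynomial.mem_roots hD0).mpr ha)))
  obtain ⟨-, h2⟩ := inftyValuation_discr_eq e he
  rw [Fintype.card_fin] at h2
  simp only [Fintype.card_fin] at h1
  have h3 : exp (D.natDegree : ℤ) = exp (-((Module.finrank (RatFunc κ) L - Nat.card
      {P : Ideal (integralClosure (DedekindWeber.Oinf κ) L) // P.IsMaximal} : ℕ) : ℤ)
        + 2 * ∑ i, δ i) := by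
    rw [← hval, exp_add, h2]
  rw [exp_inj] at h3
  have h4 : (∑ a ∈ S, ((Module.finrank (RatFunc κ) L - Nat.card
      {P : Ideal (integralClosure κ[X] L) //
        P.IsPrime ∧ algebraMap κ[X] (integralClosure κ[X] L) (X - C a) ∈ P} : ℕ) : ℤ))
      = (D.natDegree : ℤ) := by
    rw [← Nat.cast_sum]
    exact_mod_cast h1.symm
  linarith

end DedekindWeber

end Fermat.Agent.Lib.LocalDisc
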