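import Mathlib

set_option autoImplicit false

namespace Fermat.Agent.Lib.LocalOrder

open Filter Topology UpperHalfPlane ModularGroup
open scoped MatrixGroups

/-- (O1) A meromorphic germ invariant under a local biholomorphism fixing the point, whose
multiplier is a primitive `k`-th root of unity, has order divisible by `k`. -/
theorem dvd_order_of_comp_eq {f φ : ℂ → ℂ} {z₀ ζ : ℂ} {k : ℕ}
    (hφ : AnalyticAt ℂ φ z₀) (hfix : φ z₀ = z₀) (hder : deriv φ z₀ = ζ)
    (hζ : IsPrimitiveRoot ζ k) (hk : k ≠ 0) (hf : MeromorphicAt f z₀)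
    (hinv : ∀ᶠ z in 𝓝[≠] z₀, f (φ z) = f z) {n : ℤ}
    (hn : meromorphicOrderAt f z₀ = n) : (k : ℤ) ∣ n := by
  have hζ0 : ζ ≠ 0 := hζ.ne_zero hk
  obtain ⟨u, hu, hu0, hfu⟩ := (meromorphicOrderAt_eq_int_iff hf).1 hn
  have hder' : deriv φ z₀ ≠ 0 := by rw [hder]; exact hζ0
  have hord : analyticOrderAt (φ · - φ z₀) z₀ = ((1 : ℕ) : ℕ∞) := by
    simpa using hφ.analyticOrderAt_sub_eq_one_of_deriv_ne_zero hder'
  have hφ' : AnalyticAt ℂ (φ · - φ z₀) z₀ := hφ.sub analyticAt_const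
  obtain ⟨ψ, hψ, hψ0, hφψ⟩ := hφ'.analyticOrderAt_eq_natCast.1 hord
  simp only [pow_one, smul_eq_mul, hfix] at hφψ
  have hψζ : ψ z₀ = ζ := by
    have h1 : HasDerivAt (fun z => (z - z₀) * ψ z) (1 * ψ z₀ + (z₀ - z₀) * deriv ψ z₀) z₀ :=
      ((hasDerivAt_id z₀).sub_const z₀).mul hψ.differentiableAt.hasDerivAt
    have h2 : HasDerivAt (fun z => φ z - z₀) (deriv φ z₀) z₀ :=
      hφ.differentiableAt.hasDerivAt.sub_const z₀
    have h3 : HasDerivAt (fun z => φ z - z₀) (1 * ψ z₀ + (z₀ - z₀) * deriv ψ z₀) z₀ :=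
      h1.congr_of_eventuallyEq hφψ
    have := h2.unique h3
    rw [hder] at this
    simpa using this.symm
  have hnc : ¬ EventuallyConst φ (𝓝 z₀) := by
    rw [eventuallyConst_iff_analyticOrderAt_sub_eq_top, hord]
    exact ENat.natCast_ne_top 1
  have hmap : Tendsto φ (𝓝[≠] z₀) (𝓝[≠] z₀) := by
    have := hφ.map_nhdsNE hnc
    rwa [hfix] at this
  have hfu' : ∀ᶠ z in 𝓝[≠] z₀, f (φ z) = (φ z - z₀) ^ n • u (φ z) := hmap.eventually hfu
  have hφψ' : ∀ᶠ z in 𝓝[≠] z₀, φ z - z₀ = (z - z₀) * ψ z :=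
    eventually_nhdsWithin_of_eventually_nhds hφψ
  have hne : ∀ᶠ z in 𝓝[≠] z₀, z ≠ z₀ := eventually_mem_nhdsWithin
  have key : (fun z => ψ z ^ n * u (φ z)) =ᶠ[𝓝[≠] z₀] u := by
    filter_upwards [hinv, hfu, hfu', hφψ', hne] with z h1 h2 h3 h4 h5
    have hz : z - z₀ ≠ 0 := sub_ne_zero.2 h5
    rw [h3, h2, h4, mul_zpow, smul_eq_mul, smul_eq_mul, mul_assoc] at h1
    exact mul_left_cancel₀ (zpow_ne_zero n hz) h1
  have hcont1 : ContinuousAt (fun z => ψ z ^ n * u (φ z)) z₀ := by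
    have hψc : ContinuousAt ψ z₀ := hψ.continuousAt
    have huc : ContinuousAt u (φ z₀) := by rw [hfix]; exact hu.continuousAt
    have hφc : ContinuousAt φ z₀ := hφ.continuousAt
    exact (hψc.zpow₀ n (Or.inl hψ0)).mul (huc.comp hφc)
  have hcont2 : ContinuousAt u z₀ := hu.continuousAt
  have key2 := (hcont1.eventuallyEq_nhds_iff_eventuallyEq_nhdsNE hcont2).1 key
  have key3 : ψ z₀ ^ n * u (φ z₀) = u z₀ := key2.self_of_nhds
  rw [hfix, hψζ] at key3
  have hζn : ζ ^ n = 1 := by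
    have : (ζ ^ n - 1) * u z₀ = 0 := by rw [sub_mul, key3, one_mul, sub_self]
    rcases mul_eq_zero.1 this with h | h
    · exact sub_eq_zero.1 h
    · exact absurd h hu0
  exact (hζ.zpow_eq_one_iff_dvd n).1 hζn

/-- (O4, plain form) A meromorphic germ at `0` invariant under the rotation by a primitive
`k`-th root of unity has order divisible by `k`. -/
theorem dvd_order_of_rotation_invariant {F : ℂ → ℂ} {ζ : ℂ} {k : ℕ} (hζ : IsPrimitiveRoot ζ k)
    (hk : k ≠ 0) (hF : MeromorphicAt F 0) (hinv : ∀ᶠ t in 𝓝[≠] (0 : ℂ), F (ζ * t) = F t) {n : ℤ}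
    (hn : meromorphicOrderAt F 0 = n) : (k : ℤ) ∣ n := by
  refine dvd_order_of_comp_eq (φ := fun t => ζ * t) (z₀ := 0) (ζ := ζ) ?_ (by simp) ?_ hζ hk hF
    hinv hn
  · fun_prop
  · simp

theorem det_coe_eq_one (γ : SL(2, ℤ)) : ((γ : GL (Fin 2) ℝ)).val.det = 1 := by
  have h := Matrix.SpecialLinearGroup.det_mapGL (S := ℝ) γ
  have h2 := congrArg Units.val h
  exact h2

theorem det_coe_pos (γ : SL(2, ℤ)) : 0 < ((γ : GL (Fin 2) ℝ)).val.det := by
  rw [det_coe_eq_one]; exact one_pos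

/-- (O1') If `γ ∈ SL(2,ℤ)` fixes `τ₀`, `(cτ₀+d)^2` is a primitive `k`-th root of unity and
`f` is `γ`-invariant, then the order of `f` at `τ₀` is divisible by `k`. -/
theorem dvd_order_of_smul_invariant {f : ℍ → ℂ} (γ : SL(2, ℤ)) (τ₀ : ℍ) (hfix : γ • τ₀ = τ₀)
    {k : ℕ} (hk : k ≠ 0) (hprim : IsPrimitiveRoot (denom (γ : GL (Fin 2) ℝ) τ₀ ^ 2) k)
    (hf : MeromorphicAt (fun z : ℂ => f (ofComplex z)) τ₀)
    (hinv : ∀ z : ℍ, f (γ • z) = f z) {n : ℤ}
    (hn : meromorphicOrderAt (fun z : ℂ => f (ofComplex z)) τ₀ = n) : (k : ℤ) ∣ n := by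
  have hdet := det_coe_pos γ
  refine dvd_order_of_comp_eq (φ := fun z : ℂ => (((γ : GL (Fin 2) ℝ) • ofComplex z : ℍ) : ℂ))
    (z₀ := (τ₀ : ℂ)) (ζ := (denom (γ : GL (Fin 2) ℝ) τ₀ ^ 2)⁻¹)
    (τ₀.analyticAt_smul hdet) ?_ ?_ hprim.inv hk hf ?_ hn
  · show (((γ : GL (Fin 2) ℝ) • ofComplex (τ₀ : ℂ) : ℍ) : ℂ) = τ₀
    rw [ofComplex_apply]
    exact congrArg _ hfix
  · rw [τ₀.deriv_smul hdet, det_coe_eq_one]
    simp
  · refine Eventually.of_forall fun z => ?_
    show f (ofComplex (((γ : GL (Fin 2) ℝ) • ofComplex z : ℍ) : ℂ)) = f (ofComplex z)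
    rw [ofComplex_apply]
    exact hinv (ofComplex z)

/-- Conjugated form of (O1'): invariance under `g γ g⁻¹` gives divisibility at `g • τ₀`. -/
theorem dvd_order_of_conj_smul_invariant {f : ℍ → ℂ} (g γ : SL(2, ℤ)) (τ₀ : ℍ)
    (hfix : γ • τ₀ = τ₀) {k : ℕ} (hk : k ≠ 0)
    (hprim : IsPrimitiveRoot (denom (γ : GL (Fin 2) ℝ) τ₀ ^ 2) k)
    (hf : MeromorphicAt (fun z : ℂ => f (ofComplex z)) ↑(g • τ₀))
    (hinv : ∀ z : ℍ, f ((g * γ * g⁻¹) • z) = f z) {n : ℤ}
    (hn : meromorphicOrderAt (fun z : ℂ => f (ofComplex z)) ↑(g • τ₀) = n) : (k : ℤ) ∣ n := by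
  have hdet := det_coe_pos g
  have hord : meromorphicOrderAt (fun z : ℂ => f ((g : GL (Fin 2) ℝ) • ofComplex z)) τ₀ = n := by
    rw [meromorphicOrderAt_comp_smul hdet]
    exact hn
  have hmer : MeromorphicAt (fun z : ℂ => f ((g : GL (Fin 2) ℝ) • ofComplex z)) τ₀ := by
    have h1 : (fun z : ℂ => f ((g : GL (Fin 2) ℝ) • ofComplex z))
        = (fun z : ℂ => f (ofComplex z)) ∘ (fun z : ℂ => (((g : GL (Fin 2) ℝ) • ofComplex z : ℍ) : ℂ)) := by
      funext z
      simp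
    rw [h1, meromorphicAt_comp_iff_of_deriv_ne_zero (τ₀.analyticAt_smul hdet)
      (τ₀.deriv_smul_ne_zero hdet)]
    simpa using hf
  refine dvd_order_of_smul_invariant (f := fun z : ℍ => f (g • z)) γ τ₀ hfix hk hprim hmer ?_ hord
  intro z
  have := hinv (g • z)
  rw [mul_smul, mul_smul, inv_smul_smul] at this
  exact this

/-! ### The elliptic point of order two -/

theorem S_smul_I : ModularGroup.S • (UpperHalfPlane.I : ℍ) = UpperHalfPlane.I := by
  rw [UpperHalfPlane.ext_iff, UpperHalfPlane.modular_S_smul]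
  simp [inv_neg, Complex.inv_I]

theorem isPrimitiveRoot_denom_S :
    IsPrimitiveRoot (denom ((ModularGroup.S : SL(2, ℤ)) : GL (Fin 2) ℝ) (UpperHalfPlane.I : ℍ) ^ 2) 2 := by
  have h : denom ((ModularGroup.S : SL(2, ℤ)) : GL (Fin 2) ℝ) (UpperHalfPlane.I : ℍ) ^ 2 = -1 := by
    rw [ModularGroup.denom_S]
    simp
  rw [h]
  exact IsPrimitiveRoot.neg_one 0 (by norm_num)

/-- (O2) A function invariant under `g S g⁻¹` has even order at `g • i`. -/
theorem two_dvd_order_of_S_invariant {f : ℍ → ℂ} (g : SL(2, ℤ))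
    (hf : MeromorphicAt (fun z : ℂ => f (ofComplex z)) ↑(g • UpperHalfPlane.I))
    (hinv : ∀ z : ℍ, f ((g * ModularGroup.S * g⁻¹) • z) = f z) {n : ℤ}
    (hn : meromorphicOrderAt (fun z : ℂ => f (ofComplex z)) ↑(g • UpperHalfPlane.I) = n) :
    (2 : ℤ) ∣ n := by
  have := dvd_order_of_conj_smul_invariant g ModularGroup.S UpperHalfPlane.I S_smul_I
    (by norm_num : (2 : ℕ) ≠ 0) isPrimitiveRoot_denom_S hf hinv hn
  exact_mod_cast this

/-! ### The elliptic points of order three -/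

theorem coe_ST : ((ModularGroup.S * ModularGroup.T : SL(2, ℤ)) : Matrix (Fin 2) (Fin 2) ℤ)
    = !![0, -1; 1, 1] := by
  rw [Matrix.SpecialLinearGroup.coe_mul, ModularGroup.coe_S, ModularGroup.coe_T]
  ext i j
  fin_cases i <;> fin_cases j <;> simp [Matrix.mul_apply, Fin.sum_univ_two]

theorem ST_apply_zero_zero : (ModularGroup.S * ModularGroup.T : SL(2, ℤ)) 0 0 = 0 := by
  show ((ModularGroup.S * ModularGroup.T : SL(2, ℤ)) : Matrix (Fin 2) (Fin 2) ℤ) 0 0 = 0
  rw [coe_ST]; rfl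

theorem ST_apply_zero_one : (ModularGroup.S * ModularGroup.T : SL(2, ℤ)) 0 1 = -1 := by
  show ((ModularGroup.S * ModularGroup.T : SL(2, ℤ)) : Matrix (Fin 2) (Fin 2) ℤ) 0 1 = -1
  rw [coe_ST]; rfl

theorem ST_apply_one_zero : (ModularGroup.S * ModularGroup.T : SL(2, ℤ)) 1 0 = 1 := by
  show ((ModularGroup.S * ModularGroup.T : SL(2, ℤ)) : Matrix (Fin 2) (Fin 2) ℤ) 1 0 = 1
  rw [coe_ST]; rfl

theorem ST_apply_one_one : (ModularGroup.S * ModularGroup.T : SL(2, ℤ)) 1 1 = 1 := by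
  show ((ModularGroup.S * ModularGroup.T : SL(2, ℤ)) : Matrix (Fin 2) (Fin 2) ℤ) 1 1 = 1
  rw [coe_ST]; rfl

theorem denom_ST (τ : ℍ) :
    denom (((ModularGroup.S * ModularGroup.T : SL(2, ℤ))) : GL (Fin 2) ℝ) τ = (τ : ℂ) + 1 := by
  rw [ModularGroup.denom_apply, ST_apply_one_zero, ST_apply_one_one]
  simp

theorem sq_add_self_add_one_of_ST_fixed (τ : ℍ)
    (h : (ModularGroup.S * ModularGroup.T) • τ = τ) : (τ : ℂ) ^ 2 + τ + 1 = 0 := by
  have h1 : (((ModularGroup.S * ModularGroup.T) • τ : ℍ) : ℂ) = (τ : ℂ) := by rw [h]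
  rw [UpperHalfPlane.coe_specialLinearGroup_apply, ST_apply_zero_zero, ST_apply_zero_one,
    ST_apply_one_zero, ST_apply_one_one] at h1
  have hne : (τ : ℂ) + 1 ≠ 0 := by
    intro h0
    have := congrArg Complex.im h0
    simp at this
    exact τ.im_pos.ne' this
  have h2 : (-1 : ℂ) / ((τ : ℂ) + 1) = τ := by
    simpa using h1
  rw [div_eq_iff hne] at h2
  linear_combination -h2

theorem isPrimitiveRoot_denom_ST (τ : ℍ) (h : (ModularGroup.S * ModularGroup.T) • τ = τ) :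
    IsPrimitiveRoot
      (denom (((ModularGroup.S * ModularGroup.T : SL(2, ℤ))) : GL (Fin 2) ℝ) τ ^ 2) 3 := by
  have hq := sq_add_self_add_one_of_ST_fixed τ h
  have h2 : denom (((ModularGroup.S * ModularGroup.T : SL(2, ℤ))) : GL (Fin 2) ℝ) τ ^ 2
      = (τ : ℂ) := by
    rw [denom_ST]
    linear_combination hq
  rw [h2]
  have him : (τ : ℂ).im ≠ 0 := τ.im_pos.ne'
  rw [IsPrimitiveRoot.iff (by norm_num : 0 < 3)]
  refine ⟨by linear_combination ((τ : ℂ) - 1) * hq, ?_⟩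
  intro l hl0 hl3
  interval_cases l
  · intro h1
    rw [pow_one] at h1
    rw [h1] at him
    simp at him
  · intro h1
    have h3 : (τ : ℂ) = -2 := by linear_combination hq - h1
    rw [h3] at him
    simp at him

/-- (O3) A function invariant under `g (ST) g⁻¹` has order divisible by three at `g • τ₀`,
for any fixed point `τ₀` of `ST`. -/
theorem three_dvd_order_of_ST_invariant {f : ℍ → ℂ} (g : SL(2, ℤ)) (τ₀ : ℍ)
    (hτ₀ : (ModularGroup.S * ModularGroup.T) • τ₀ = τ₀)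
    (hf : MeromorphicAt (fun z : ℂ => f (ofComplex z)) ↑(g • τ₀))
    (hinv : ∀ z : ℍ, f ((g * (ModularGroup.S * ModularGroup.T) * g⁻¹) • z) = f z) {n : ℤ}
    (hn : meromorphicOrderAt (fun z : ℂ => f (ofComplex z)) ↑(g • τ₀) = n) :
    (3 : ℤ) ∣ n := by
  have := dvd_order_of_conj_smul_invariant g (ModularGroup.S * ModularGroup.T) τ₀ hτ₀
    (by norm_num : (3 : ℕ) ≠ 0) (isPrimitiveRoot_denom_ST τ₀ hτ₀) hf hinv hn
  exact_mod_cast this

/-! ### Cusps -/

/-- (O4) If `F` is `h`-periodic and `h ∣ N`, the order at `0` of the `N`-cusp function of `F`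
(i.e. `F` written in the parameter `t = exp (2πi z / N)`) is divisible by `N / h`. -/
theorem dvd_order_cuspFunction_of_periodic {F : ℂ → ℂ} {N h : ℕ} (hh : 0 < h) (hN : 0 < N)
    (hhN : h ∣ N) (hper : Function.Periodic F (h : ℂ))
    (hmer : MeromorphicAt (Function.Periodic.cuspFunction (N : ℝ) F) 0) {n : ℤ}
    (hn : meromorphicOrderAt (Function.Periodic.cuspFunction (N : ℝ) F) 0 = n) :
    ((N / h : ℕ) : ℤ) ∣ n := by
  obtain ⟨k, rfl⟩ := hhN
  have hk : 0 < k := by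
    rcases Nat.eq_zero_or_pos k with h0 | h0
    · subst h0; simp at hN
    · exact h0
  have hkdiv : h * k / h = k := Nat.mul_div_cancel_left k hh
  rw [hkdiv]
  have hNne : ((h * k : ℕ) : ℝ) ≠ 0 := by exact_mod_cast hN.ne'
  have hperN : Function.Periodic F (((h * k : ℕ) : ℝ) : ℂ) := by
    have h1 : Function.Periodic F ((k : ℂ) * (h : ℂ)) := hper.nat_mul k
    have e : (((h * k : ℕ) : ℝ) : ℂ) = (k : ℂ) * (h : ℂ) := by
      push_cast
      ring
    rw [e]
    exact h1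
  have hζ : IsPrimitiveRoot (Complex.exp (2 * Real.pi * Complex.I / k)) k :=
    Complex.isPrimitiveRoot_exp k hk.ne'
  refine dvd_order_of_rotation_invariant hζ hk.ne' hmer ?_ hn
  refine eventually_mem_nhdsWithin.mono fun t ht => ?_
  have ht0 : t ≠ 0 := ht
  set z := Function.Periodic.invQParam ((h * k : ℕ) : ℝ) t with hz
  have hqz : Function.Periodic.qParam ((h * k : ℕ) : ℝ) z = t :=
    Function.Periodic.qParam_right_inv hNne ht0
  have hqz' : Function.Periodic.qParam ((h * k : ℕ) : ℝ) (z + h)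
      = Complex.exp (2 * Real.pi * Complex.I / k) * t := by
    rw [← hqz]
    unfold Function.Periodic.qParam
    rw [← Complex.exp_add]
    congr 1
    have hh' : (h : ℂ) ≠ 0 := by exact_mod_cast hh.ne'
    have hk' : (k : ℂ) ≠ 0 := by exact_mod_cast hk.ne'
    push_cast
    field_simp
    ring
  rw [← hqz', Function.Periodic.eq_cuspFunction hNne hperN, hper z]
  conv_rhs => rw [← hqz]
  rw [Function.Periodic.eq_cuspFunction hNne hperN]

/-- A function on `ℍ` invariant under `T ^ h` is `h`-periodic after composing with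
`ofComplex`. -/
theorem periodic_of_T_pow_invariant {f : ℍ → ℂ} (h : ℕ)
    (hinv : ∀ z : ℍ, f ((ModularGroup.T ^ (h : ℤ)) • z) = f z) :
    Function.Periodic (fun z : ℂ => f (ofComplex z)) (h : ℂ) := by
  intro z
  show f (ofComplex (z + (h : ℂ))) = f (ofComplex z)
  rcases lt_or_ge 0 z.im with hz | hz
  · have hz' : 0 < (z + (h : ℂ)).im := by simpa using hz
    have e : ofComplex (z + (h : ℂ)) = (ModularGroup.T ^ (h : ℤ)) • ofComplex z := by
      rw [UpperHalfPlane.ext_iff, UpperHalfPlane.modular_T_zpow_smul, UpperHalfPlane.coe_vadd,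
        ofComplex_apply_of_im_pos hz', ofComplex_apply_of_im_pos hz]
      push_cast
      ring
    rw [e, hinv]
  · have hz' : (z + (h : ℂ)).im ≤ 0 := by simpa using hz
    rw [ofComplex_apply_eq_of_im_nonpos hz' hz]

/-- (O4, modular form) If `f` is invariant under `T ^ h` and `h ∣ N`, then the order at the
cusp of `f`, measured in the parameter `t = exp (2πi z / N)`, is divisible by `N / h`. -/
theorem dvd_order_cusp_of_T_pow_invariant {f : ℍ → ℂ} {N h : ℕ} (hh : 0 < h) (hN : 0 < N)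
    (hhN : h ∣ N) (hinv : ∀ z : ℍ, f ((ModularGroup.T ^ (h : ℤ)) • z) = f z)
    (hmer : MeromorphicAt
      (Function.Periodic.cuspFunction (N : ℝ) (fun z : ℂ => f (ofComplex z))) 0) {n : ℤ}
    (hn : meromorphicOrderAt
      (Function.Periodic.cuspFunction (N : ℝ) (fun z : ℂ => f (ofComplex z))) 0 = n) :
    ((N / h : ℕ) : ℤ) ∣ n :=
  dvd_order_cuspFunction_of_periodic hh hN hhN (periodic_of_T_pow_invariant h hinv) hmer hn

end Fermat.Agent.Lib.LocalOrder
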