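import Mathlib

/-!
# Lucas sequences and the closure argument (P5, block [G6])

Design-neutral algebra for step 6 of the construction of the Galois representation attached to a
Hecke eigencharacter: the set `Z = {g : g + δ(g) g⁻¹ is scalar}` is stable under powers and closed
for the adic topology, hence equal to the whole group as soon as the powers of the elements of a
subset `Fr ⊆ Z` (Frobenius lifts) are dense.

* `lucasV s d` : the Lucas sequence `V₀ = 2`, `V₁ = s`, `V_{j+2} = s V_{j+1} - d V_j`;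
* `pow_add_pow_eq_lucasV` : in any algebra, `x y = y x = d`, `x + y = s` ⟹ `x^j + y^j = V_j(s, d)`;
* `exists_eq_smul_id_of_forall_mem_pow` : an endomorphism of a finite free module which is a
  scalar modulo `I ^ k` for all `k` (`⋂ I ^ k = 0`) is a scalar;
* `exists_eq_smul_one_of_dense_powers` : the closure statement for an abstract group;
* `exists_eq_smul_one_of_continuous` : the same for the automorphism group of a field extension,
  with "adic continuity" and "weak Chebotarev" as hypotheses in the Prelude's spelling.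
-/

set_option autoImplicit false

namespace Fermat.Agent.Lib.LucasClosure

/-! ## Lucas sequences -/

/-- The Lucas sequence `V_j(s, d)`: `V₀ = 2`, `V₁ = s`, `V_{j+2} = s V_{j+1} - d V_j`. -/
def lucasV {O : Type*} [CommRing O] (s d : O) : ℕ → O
  | 0 => 2
  | 1 => s
  | (j + 2) => s * lucasV s d (j + 1) - d * lucasV s d j

@[simp] theorem lucasV_zero {O : Type*} [CommRing O] (s d : O) : lucasV s d 0 = 2 := rfl

@[simp] theorem lucasV_one {O : Type*} [CommRing O] (s d : O) : lucasV s d 1 = s := rfl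

theorem lucasV_add_two {O : Type*} [CommRing O] (s d : O) (j : ℕ) :
    lucasV s d (j + 2) = s * lucasV s d (j + 1) - d * lucasV s d j := rfl

/-- **Lucas**: if `x y = y x = d` and `x + y = s` are scalars, then `x ^ j + y ^ j = V_j(s, d)`. -/
theorem pow_add_pow_eq_lucasV {O A : Type*} [CommRing O] [Ring A] [Algebra O A] (x y : A)
    (s d : O) (hxy : x * y = algebraMap O A d) (hyx : y * x = algebraMap O A d)
    (hs : x + y = algebraMap O A s) (j : ℕ) :
    x ^ j + y ^ j = algebraMap O A (lucasV s d j) := by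
  induction j using Nat.twoStepInduction with
  | zero => rw [pow_zero, pow_zero, lucasV_zero, map_ofNat, one_add_one_eq_two]
  | one => rw [pow_one, pow_one, lucasV_one, hs]
  | more j ih0 ih1 =>
    have h1 : x * y ^ (j + 1) = (x * y) * y ^ j := by rw [pow_succ', mul_assoc]
    have h2 : y * x ^ (j + 1) = (y * x) * x ^ j := by rw [pow_succ', mul_assoc]
    have e : x ^ (j + 2) + y ^ (j + 2) =
        (x + y) * (x ^ (j + 1) + y ^ (j + 1)) - ((x * y) * y ^ j + (y * x) * x ^ j) := by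
      rw [add_mul, mul_add, mul_add, h1, h2, ← pow_succ', ← pow_succ']
      abel
    have e2 : (x * y) * y ^ j + (y * x) * x ^ j =
        algebraMap O A d * algebraMap O A (lucasV s d j) := by
      rw [hxy, hyx, ← mul_add, add_comm, ih0]
    rw [e, e2, hs, ih1, lucasV_add_two, map_sub, map_mul, map_mul]

/-! ## Endomorphisms which are scalars modulo every power of an ideal -/

section Closed

variable {O W : Type*} [CommRing O] [AddCommGroup W] [Module O W]

/-- The coordinates of an element of `I • ⊤` lie in `I`. -/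
theorem repr_mem_of_mem_smul_top {ι : Type*} (b : Module.Basis ι O W) (I : Ideal O) {w : W}
    (hw : w ∈ I • (⊤ : Submodule O W)) (i : ι) : b.repr w i ∈ I := by
  refine Submodule.smul_induction_on (p := fun w => b.repr w i ∈ I) hw ?_ ?_
  · intro r hr m _
    rw [map_smul, Finsupp.smul_apply, smul_eq_mul]
    exact I.mul_mem_right _ hr
  · intro x y hx hy
    rw [map_add, Finsupp.add_apply]
    exact I.add_mem hx hy

/-- A linear map sends `I • ⊤` into `I • ⊤`. -/
theorem map_mem_smul_top {W' : Type*} [AddCommGroup W'] [Module O W'] (I : Ideal O)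
    (f : W →ₗ[O] W') {w : W} (hw : w ∈ I • (⊤ : Submodule O W)) :
    f w ∈ I • (⊤ : Submodule O W') :=
  Submodule.smul_top_le_comap_smul_top I f hw

/-- **Closedness**: an endomorphism `T` of a finite free module which is congruent to a scalar
modulo `I ^ k` for every `k`, where `⋂ I ^ k = 0`, is a scalar. -/
theorem exists_eq_smul_id_of_forall_mem_pow [Module.Free O W] [Module.Finite O W]
    (I : Ideal O) (hI : ∀ x : O, (∀ k : ℕ, x ∈ I ^ k) → x = 0) (T : W →ₗ[O] W)
    (hT : ∀ k : ℕ, ∃ c : O, ∀ w : W, T w - c • w ∈ I ^ k • (⊤ : Submodule O W)) :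
    ∃ c : O, T = c • (LinearMap.id : W →ₗ[O] W) := by
  classical
  let b := Module.Free.chooseBasis O W
  rcases isEmpty_or_nonempty (Module.Free.ChooseBasisIndex O W) with hemp | ⟨⟨i₀⟩⟩
  · exact ⟨0, b.ext fun i => (hemp.false i).elim⟩
  · refine ⟨b.repr (T (b i₀)) i₀, b.ext fun i => ?_⟩
    apply b.repr.injective
    ext j
    apply eq_of_sub_eq_zero
    apply hI
    intro k
    obtain ⟨ck, hck⟩ := hT k
    have h0 := repr_mem_of_mem_smul_top b (I ^ k) (hck (b i₀)) i₀
    have h1 := repr_mem_of_mem_smul_top b (I ^ k) (hck (b i)) j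
    rw [map_sub, map_smul, Finsupp.sub_apply, Finsupp.smul_apply, Module.Basis.repr_self,
      smul_eq_mul] at h0 h1
    rw [Finsupp.single_eq_same, mul_one] at h0
    have e : b.repr (T (b i)) j -
        b.repr ((b.repr (T (b i₀)) i₀ • (LinearMap.id : W →ₗ[O] W)) (b i)) j =
        (b.repr (T (b i)) j - ck * (Finsupp.single i (1 : O)) j) -
          (b.repr (T (b i₀)) i₀ - ck) * (Finsupp.single i (1 : O)) j := by
      rw [LinearMap.smul_apply, LinearMap.id_apply, map_smul, Finsupp.smul_apply,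
        Module.Basis.repr_self, smul_eq_mul]
      ring
    rw [e]
    exact (I ^ k).sub_mem h1 ((I ^ k).mul_mem_right _ h0)

end Closed

/-! ## The closure statement -/

section Group

variable {G O W : Type*} [Group G] [CommRing O] [AddCommGroup W] [Module O W]

/-- `ρ g⁻¹` is the inverse of `ρ g`. -/
theorem rho_mul_rho_inv (ρ : G →* Module.End O W) (g : G) : ρ g * ρ g⁻¹ = 1 := by
  rw [← map_mul, mul_inv_cancel, map_one]

theorem rho_inv_mul_rho (ρ : G →* Module.End O W) (g : G) : ρ g⁻¹ * ρ g = 1 := by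
  rw [← map_mul, inv_mul_cancel, map_one]

/-- Powers: if `ρ σ + δ σ • ρ σ⁻¹` is the scalar `s`, then `ρ (σ ^ j) + δ (σ ^ j) • ρ (σ ^ j)⁻¹`
is the scalar `V_j(s, δ σ)`. -/
theorem rho_pow_add_eq_lucasV (ρ : G →* Module.End O W) (δ : G →* O) (σ : G) (s : O)
    (hσ : ρ σ + δ σ • ρ σ⁻¹ = s • (1 : Module.End O W)) (j : ℕ) :
    ρ (σ ^ j) + δ (σ ^ j) • ρ (σ ^ j)⁻¹ = lucasV s (δ σ) j • (1 : Module.End O W) := by
  have h := pow_add_pow_eq_lucasV (O := O) (A := Module.End O W) (ρ σ) (δ σ • ρ σ⁻¹) s (δ σ)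
    (by rw [mul_smul_comm, rho_mul_rho_inv, Algebra.algebraMap_eq_smul_one])
    (by rw [smul_mul_assoc, rho_inv_mul_rho, Algebra.algebraMap_eq_smul_one])
    (by rw [hσ, Algebra.algebraMap_eq_smul_one]) j
  rw [smul_pow, ← map_pow, ← map_pow, ← map_pow, inv_pow, Algebra.algebraMap_eq_smul_one] at h
  exact h

variable [Module.Free O W] [Module.Finite O W]

/-- **Closure** (abstract group form).  `ρ : G →* End_O(W)` on a finite free `O`-module,
`δ : G →* O`, `I` an ideal with `⋂ I ^ k = 0`.  If `ρ σ + δ σ • ρ σ⁻¹` is a scalar for all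
`σ ∈ Fr`, and the powers of the elements of `Fr` are dense (every `g` is, modulo every `I ^ k`,
a power of an element of `Fr`, for `ρ` and for `δ`), then `ρ g + δ g • ρ g⁻¹` is a scalar for
every `g : G`. -/
theorem exists_eq_smul_one_of_dense_powers (I : Ideal O)
    (hI : ∀ x : O, (∀ k : ℕ, x ∈ I ^ k) → x = 0) (ρ : G →* Module.End O W) (δ : G →* O)
    (Fr : Set G)
    (hFr : ∀ σ ∈ Fr, ∃ c : O, ρ σ + δ σ • ρ σ⁻¹ = c • (1 : Module.End O W))
    (hdense : ∀ (g : G) (k : ℕ), ∃ σ ∈ Fr, ∃ j : ℕ,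
      (∀ w : W, ρ (σ ^ j) w - ρ g w ∈ I ^ k • (⊤ : Submodule O W)) ∧
        δ (σ ^ j) - δ g ∈ I ^ k)
    (g : G) : ∃ c : O, ρ g + δ g • ρ g⁻¹ = c • (1 : Module.End O W) := by
  refine exists_eq_smul_id_of_forall_mem_pow I hI (ρ g + δ g • ρ g⁻¹) fun k => ?_
  obtain ⟨σ, hσFr, j, hρ, hδ⟩ := hdense g k
  obtain ⟨s, hs⟩ := hFr σ hσFr
  have hL := rho_pow_add_eq_lucasV ρ δ σ s hs j
  refine ⟨lucasV s (δ σ) j, fun w => ?_⟩
  -- the inverses are congruent as well
  have hinv : ∀ w : W, ρ g⁻¹ w - ρ (σ ^ j)⁻¹ w ∈ I ^ k • (⊤ : Submodule O W) := by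
    intro w
    have a1 : ρ (σ ^ j)⁻¹ (ρ (σ ^ j) (ρ g⁻¹ w)) = ρ g⁻¹ w := by
      have := congrArg (fun f : Module.End O W => f (ρ g⁻¹ w)) (rho_inv_mul_rho ρ (σ ^ j))
      simpa using this
    have a2 : ρ g (ρ g⁻¹ w) = w := by
      have := congrArg (fun f : Module.End O W => f w) (rho_mul_rho_inv ρ g)
      simpa using this
    have e : ρ g⁻¹ w - ρ (σ ^ j)⁻¹ w =
        ρ (σ ^ j)⁻¹ (ρ (σ ^ j) (ρ g⁻¹ w) - ρ g (ρ g⁻¹ w)) := by
      rw [map_sub, a1, a2]
    rw [e]
    exact map_mem_smul_top (I ^ k) _ (hρ _)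
  have hLw : lucasV s (δ σ) j • w = ρ (σ ^ j) w + δ (σ ^ j) • ρ (σ ^ j)⁻¹ w := by
    have := congrArg (fun f : Module.End O W => f w) hL
    simpa using this.symm
  have e : (ρ g + δ g • ρ g⁻¹) w - lucasV s (δ σ) j • w =
      -(ρ (σ ^ j) w - ρ g w) + (δ g • (ρ g⁻¹ w - ρ (σ ^ j)⁻¹ w) -
        (δ (σ ^ j) - δ g) • ρ (σ ^ j)⁻¹ w) := by
    rw [hLw, LinearMap.add_apply, LinearMap.smul_apply, smul_sub, sub_smul]
    abel
  rw [e]
  refine Submodule.add_mem _ (Submodule.neg_mem _ (hρ w)) (Submodule.sub_mem _ ?_ ?_)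
  · exact Submodule.smul_mem _ _ (hinv w)
  · exact Submodule.smul_mem_smul hδ Submodule.mem_top

end Group

/-! ## Galois form -/

section Galois

variable {K Ω O W : Type*} [Field K] [Field Ω] [Algebra K Ω] [CommRing O] [AddCommGroup W]
  [Module O W] [Module.Free O W] [Module.Finite O W]

/-- **Closure** (Galois form).  `ρ` and `δ` are continuous for the `I`-adic topology (in the
spelling of the Prelude's `GaloisActionIsAdicContinuous`), `ρ σ + δ σ • ρ σ⁻¹` is a scalar for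
all `σ ∈ Fr`, and (`hcheb`, weak Chebotarev) every `g` agrees on every finite subextension with a
power of an element of `Fr`.  Then `ρ g + δ g • ρ g⁻¹` is a scalar for every `g`. -/
theorem exists_eq_smul_one_of_continuous (I : Ideal O)
    (hI : ∀ x : O, (∀ k : ℕ, x ∈ I ^ k) → x = 0)
    (ρ : (Ω ≃ₐ[K] Ω) →* Module.End O W) (δ : (Ω ≃ₐ[K] Ω) →* O)
    (hρ : ∀ n : ℕ, ∃ L : IntermediateField K Ω, FiniteDimensional K L ∧
      ∀ σ : Ω ≃ₐ[K] Ω, (∀ x ∈ L, σ x = x) →
        ∀ v : W, ρ σ v - v ∈ I ^ n • (⊤ : Submodule O W))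
    (hδ : ∀ n : ℕ, ∃ L : IntermediateField K Ω, FiniteDimensional K L ∧
      ∀ σ : Ω ≃ₐ[K] Ω, (∀ x ∈ L, σ x = x) → δ σ - 1 ∈ I ^ n)
    (Fr : Set (Ω ≃ₐ[K] Ω))
    (hFr : ∀ σ ∈ Fr, ∃ c : O, ρ σ + δ σ • ρ σ⁻¹ = c • (1 : Module.End O W))
    (hcheb : ∀ L : IntermediateField K Ω, FiniteDimensional K L → ∀ g : Ω ≃ₐ[K] Ω,
      ∃ σ ∈ Fr, ∃ j : ℕ, ∀ x ∈ L, (σ ^ j) x = g x)
    (g : Ω ≃ₐ[K] Ω) : ∃ c : O, ρ g + δ g • ρ g⁻¹ = c • (1 : Module.End O W) := by
  refine exists_eq_smul_one_of_dense_powers I hI ρ δ Fr hFr (fun g k => ?_) g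
  obtain ⟨L₁, hL₁, h₁⟩ := hρ k
  obtain ⟨L₂, hL₂, h₂⟩ := hδ k
  have hfin : FiniteDimensional K (L₁ ⊔ L₂ : IntermediateField K Ω) :=
    IntermediateField.finiteDimensional_sup L₁ L₂
  obtain ⟨σ, hσ, j, hj⟩ := hcheb (L₁ ⊔ L₂) hfin g
  have hτ : ∀ x ∈ (L₁ ⊔ L₂ : IntermediateField K Ω), (g⁻¹ * σ ^ j) x = x := by
    intro x hx
    rw [AlgEquiv.mul_apply, hj x hx]
    exact g.symm_apply_apply x
  have hσj : σ ^ j = g * (g⁻¹ * σ ^ j) := by rw [mul_inv_cancel_left]
  refine ⟨σ, hσ, j, fun w => ?_, ?_⟩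
  · have e : ρ (σ ^ j) w - ρ g w = ρ g (ρ (g⁻¹ * σ ^ j) w - w) := by
      rw [map_sub, ← Module.End.mul_apply, ← map_mul, mul_inv_cancel_left]
    rw [e]
    exact map_mem_smul_top (I ^ k) _ (h₁ _ (fun x hx => hτ x (le_sup_left (a := L₁) hx)) w)
  · have e : δ (σ ^ j) - δ g = δ g * (δ (g⁻¹ * σ ^ j) - 1) := by
      rw [mul_sub, ← map_mul, mul_inv_cancel_left, mul_one]
    rw [e]
    exact (I ^ k).mul_mem_left _ (h₂ _ (fun x hx => hτ x (le_sup_right (b := L₂) hx)))

end Galois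

end Fermat.Agent.Lib.LucasClosure
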