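import Mathlib

/-!
# Manin's count: the x-degree of `Frob - 1` is the number of points

Let `p` be an odd prime, `A B : ZMod p` with `4A³ + 27B² ≠ 0`, `f = X³ + AX + B` and
`E : y² = f(x)`.  For a point `P = (x, y)` of `E` over an extension of `𝔽_p` with `x^p ≠ x`, the
abscissa of `Frob P - P` is

  `((y^p + y)/(x^p - x))² - x^p - x = num(x) / den(x)`,

with `num = f (f^((p-1)/2) + 1)² - (X^p + X)(X^p - X)²` and `den = (X^p - X)²`.  We compute the
reduced form of this fraction: `num = g * N`, `den = g * D` with `N`, `D` coprime,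
`deg N = #E(𝔽_p)` and `deg D = #E(𝔽_p) - 1`.
-/

set_option autoImplicit false

namespace Fermat.Agent.Lib.ManinCount

open Polynomial

section Core

variable (p : ℕ) [Fact p.Prime] (A B : ZMod p)

/-- The cubic `X³ + AX + B`. -/
noncomputable def cubic : (ZMod p)[X] := X ^ 3 + C A * X + C B

/-- The unreduced numerator of the abscissa of `Frob P - P`. -/
noncomputable def num : (ZMod p)[X] :=
  cubic p A B * (cubic p A B ^ (p / 2) + 1) ^ 2 - (X ^ p + X) * (X ^ p - X) ^ 2

/-- The unreduced denominator of the abscissa of `Frob P - P`. -/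
noncomputable def den : (ZMod p)[X] := (X ^ p - X) ^ 2

/-- The number of square roots of `f(a)` in `𝔽_p`. -/
noncomputable def sqc (a : ZMod p) : ℕ :=
  Fintype.card {y : ZMod p // y ^ 2 = (cubic p A B).eval a}

lemma eval_cubic (a : ZMod p) : (cubic p A B).eval a = a ^ 3 + A * a + B := by
  simp [cubic]

lemma X_pow_sub_X_eq_prod : (X ^ p - X : (ZMod p)[X]) = ∏ a : ZMod p, (X - C a) := by
  have hp1 : 1 < p := (Fact.out : p.Prime).one_lt
  have hmonic : (X ^ p - X : (ZMod p)[X]).Monic :=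
    monic_X_pow_sub (by rw [degree_X]; exact_mod_cast hp1)
  have hroots := FiniteField.roots_X_pow_card_sub_X (ZMod p)
  rw [ZMod.card] at hroots
  have hcard : Multiset.card (X ^ p - X : (ZMod p)[X]).roots
      = (X ^ p - X : (ZMod p)[X]).natDegree := by
    rw [hroots, FiniteField.X_pow_card_sub_X_natDegree_eq _ hp1]
    simp [ZMod.card]
  have := prod_multiset_X_sub_C_of_monic_of_roots_card_eq hmonic hcard
  rw [hroots] at this
  exact this.symm

lemma odd_of_ne_two (hp2 : p ≠ 2) : p % 2 = 1 :=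
  Nat.odd_iff.mp ((Fact.out : p.Prime).odd_of_ne_two hp2)

/-- The trichotomy: `f(a) = 0` (one square root), `f(a)` a nonzero square (two square roots),
`f(a)` a non-square (no square root). -/
lemma sqc_cases (hp2 : p ≠ 2) (a : ZMod p) :
    ((cubic p A B).eval a = 0 ∧ sqc p A B a = 1) ∨
    ((cubic p A B).eval a ≠ 0 ∧ (cubic p A B).eval a ^ (p / 2) = 1 ∧ sqc p A B a = 2) ∨
    ((cubic p A B).eval a ^ (p / 2) = -1 ∧ sqc p A B a = 0) := by
  classical
  set c := (cubic p A B).eval a with hc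
  have hF : ringChar (ZMod p) ≠ 2 := by rw [ZMod.ringChar_zmod_n]; exact hp2
  have h1 := quadraticChar_card_sqrts hF c
  have h2 := quadraticChar_eq_pow_of_char_ne_two' hF c
  rw [ZMod.card] at h2
  have hs : (sqc p A B a : ℤ) = quadraticChar (ZMod p) c + 1 := by
    rw [← h1]
    congr 1
    rw [sqc, Set.toFinset_card]
    rfl
  rcases quadraticChar_isQuadratic (ZMod p) c with h | h | h
  · left
    refine ⟨(quadraticChar_eq_zero_iff).mp h, ?_⟩
    rw [h] at hs
    omega
  · right; left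
    have hc0 : c ≠ 0 := by
      intro h0
      rw [h0, MulChar.map_zero] at h
      exact zero_ne_one h
    refine ⟨hc0, ?_, ?_⟩
    · rw [← h2, h]; simp
    · rw [h] at hs; omega
  · right; right
    refine ⟨?_, ?_⟩
    · rw [← h2, h]; simp
    · rw [h] at hs; omega

lemma sqc_le_two (hp2 : p ≠ 2) (a : ZMod p) : sqc p A B a ≤ 2 := by
  rcases sqc_cases p A B hp2 a with ⟨-, h⟩ | ⟨-, -, h⟩ | ⟨-, h⟩ <;> omega

/-- The common factor of `num` and `den`. -/
noncomputable def gPoly : (ZMod p)[X] := ∏ a : ZMod p, (X - C a) ^ (2 - sqc p A B a)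

/-- The reduced denominator. -/
noncomputable def dPoly : (ZMod p)[X] := ∏ a : ZMod p, (X - C a) ^ sqc p A B a

lemma den_eq (hp2 : p ≠ 2) : den p = gPoly p A B * dPoly p A B := by
  rw [den, X_pow_sub_X_eq_prod, gPoly, dPoly, ← Finset.prod_mul_distrib, ← Finset.prod_pow]
  refine Finset.prod_congr rfl fun a _ => ?_
  rw [← pow_add]
  congr 1
  have := sqc_le_two p A B hp2 a
  omega

lemma X_sub_C_dvd_X_pow_sub_X (a : ZMod p) : (X - C a) ∣ (X ^ p - X : (ZMod p)[X]) := by
  rw [dvd_iff_isRoot]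
  simp [ZMod.pow_card]

lemma gPoly_dvd_num (hp2 : p ≠ 2) : gPoly p A B ∣ num p A B := by
  unfold gPoly
  apply Finset.prod_dvd_of_coprime
  · intro a _ b _ hab
    apply IsCoprime.pow
    apply isCoprime_X_sub_C_of_isUnit_sub
    exact (sub_ne_zero.mpr hab).isUnit
  · intro a _
    rcases sqc_cases p A B hp2 a with ⟨hc, hs⟩ | ⟨hc, hm, hs⟩ | ⟨hm, hs⟩
    · rw [hs, show 2 - 1 = 1 from rfl, pow_one, dvd_iff_isRoot]
      simp [num, hc, ZMod.pow_card]
    · rw [hs]
      simp
    · rw [hs]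
      have h1 : (X - C a) ∣ cubic p A B ^ (p / 2) + 1 := by
        rw [dvd_iff_isRoot]
        simp [hm]
      have h2 := X_sub_C_dvd_X_pow_sub_X p a
      exact dvd_sub (Dvd.dvd.mul_left (pow_dvd_pow_of_dvd h1 2) _)
        (Dvd.dvd.mul_left (pow_dvd_pow_of_dvd h2 2) _)

/-- `f` has no double root when `4A³ + 27B² ≠ 0`. -/
lemma not_sq_dvd_cubic (hΔ : 4 * A ^ 3 + 27 * B ^ 2 ≠ 0) (a : ZMod p) :
    ¬ (X - C a) ^ 2 ∣ cubic p A B := by
  rintro ⟨h, hh⟩
  have e1 : a ^ 3 + A * a + B = 0 := by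
    have := congrArg (eval a) hh
    rw [eval_cubic] at this
    simpa using this
  have e2 : 3 * a ^ 2 + A = 0 := by
    have := congrArg (fun q => eval a (derivative q)) hh
    simp only [cubic, derivative_add, derivative_mul, derivative_C, derivative_X,
      derivative_pow, derivative_sub] at this
    simpa using this
  apply hΔ
  linear_combination (27 * (B + 2 * a ^ 3)) * e1
    + (4 * (A ^ 2 - 3 * a ^ 2 * A + 9 * a ^ 4) - 27 * a * (B + 2 * a ^ 3)) * e2

lemma eval_num (a : ZMod p) :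
    (num p A B).eval a = (cubic p A B).eval a * ((cubic p A B).eval a ^ (p / 2) + 1) ^ 2 := by
  simp [num, ZMod.pow_card]

lemma two_ne_zero_zmod (hp2 : p ≠ 2) : (2 : ZMod p) ≠ 0 := by
  intro h
  have h2 : ((2 : ℕ) : ZMod p) = 0 := by exact_mod_cast h
  rw [ZMod.natCast_eq_zero_iff] at h2
  have := (Nat.prime_dvd_prime_iff_eq (Fact.out : p.Prime) Nat.prime_two).mp h2
  exact hp2 this

/-- The reduced numerator does not vanish at the roots of the reduced denominator. -/
lemma eval_ne_zero_of_num_eq (hp2 : p ≠ 2) (hΔ : 4 * A ^ 3 + 27 * B ^ 2 ≠ 0) (N : (ZMod p)[X])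
    (hN : num p A B = gPoly p A B * N) (a : ZMod p) (ha : sqc p A B a ≠ 0) : N.eval a ≠ 0 := by
  intro hNa
  have h2 : (2 : ZMod p) ≠ 0 := two_ne_zero_zmod p hp2
  rcases sqc_cases p A B hp2 a with ⟨hc, hs⟩ | ⟨hc, hm, hs⟩ | ⟨hm, hs⟩
  · -- simple root of `f`
    have hg : (X - C a) ∣ gPoly p A B := by
      have := Finset.dvd_prod_of_mem (fun a : ZMod p => (X - C a) ^ (2 - sqc p A B a))
        (Finset.mem_univ a)
      simpa [hs, gPoly] using this
    have hNd : (X - C a) ∣ N := by rw [dvd_iff_isRoot]; exact hNa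
    have hnum : (X - C a) ^ 2 ∣ num p A B := by
      rw [hN, pow_two]
      exact mul_dvd_mul hg hNd
    have h3 : (X - C a) ^ 2 ∣ cubic p A B * (cubic p A B ^ (p / 2) + 1) ^ 2 := by
      have h4 : (X - C a) ^ 2 ∣ (X ^ p + X) * (X ^ p - X) ^ 2 :=
        Dvd.dvd.mul_left (pow_dvd_pow_of_dvd (X_sub_C_dvd_X_pow_sub_X p a) 2) _
      have := dvd_add hnum h4
      rwa [num, sub_add_cancel] at this
    have hm0 : p / 2 ≠ 0 := by
      have := odd_of_ne_two p hp2
      have := (Fact.out : p.Prime).two_le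
      omega
    have hcop : IsCoprime ((X - C a) ^ 2) ((cubic p A B ^ (p / 2) + 1) ^ 2) := by
      apply IsCoprime.pow
      rw [(irreducible_X_sub_C a).coprime_iff_not_dvd, dvd_iff_isRoot]
      simp [hc, hm0]
    exact not_sq_dvd_cubic p A B hΔ a (hcop.dvd_of_dvd_mul_right h3)
  · -- nonzero square
    have := congrArg (eval a) hN
    rw [eval_num, eval_mul, hNa, mul_zero, hm] at this
    have h4 : (cubic p A B).eval a * 4 = 0 := by
      rw [← this]; ring
    rcases mul_eq_zero.mp h4 with h5 | h5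
    · exact hc h5
    · apply h2
      have : (2 : ZMod p) * 2 = 0 := by rw [← h5]; ring
      rcases mul_eq_zero.mp this with h6 | h6 <;> exact h6
  · exact ha hs

lemma isCoprime_of_num_eq (hp2 : p ≠ 2) (hΔ : 4 * A ^ 3 + 27 * B ^ 2 ≠ 0) (N : (ZMod p)[X])
    (hN : num p A B = gPoly p A B * N) : IsCoprime N (dPoly p A B) := by
  unfold dPoly
  apply IsCoprime.prod_right
  intro a _
  by_cases ha : sqc p A B a = 0
  · rw [ha, pow_zero]
    exact isCoprime_one_right
  · apply IsCoprime.pow_right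
    apply IsCoprime.symm
    rw [(irreducible_X_sub_C a).coprime_iff_not_dvd, dvd_iff_isRoot]
    exact eval_ne_zero_of_num_eq p A B hp2 hΔ N hN a ha

end Core

section Degrees

variable (p : ℕ) [Fact p.Prime] (A B : ZMod p)

lemma natDegree_cubic_le : (cubic p A B).natDegree ≤ 3 := by
  unfold cubic
  compute_degree

lemma cubic_pow_p : cubic p A B ^ p = X ^ (3 * p) + C A * X ^ p + C B := by
  rw [← ZMod.expand_card]
  simp only [cubic, map_add, map_mul, map_pow, expand_X, expand_C]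
  rw [← pow_mul, mul_comm p 3]

/-- `num = X^(2p+1) + lower order terms`. -/
lemma num_eq (hp2 : p ≠ 2) :
    num p A B = X ^ (2 * p + 1) + (C A * X ^ p + C B + 2 * cubic p A B ^ (p / 2 + 1)
      + cubic p A B + X ^ (p + 2) - X ^ 3) := by
  have hodd := odd_of_ne_two p hp2
  have hp : p = 2 * (p / 2) + 1 := by omega
  have h1 : cubic p A B * (cubic p A B ^ (p / 2) + 1) ^ 2
      = cubic p A B ^ p + 2 * cubic p A B ^ (p / 2 + 1) + cubic p A B := by
    have hpp : cubic p A B ^ p = cubic p A B ^ (2 * (p / 2) + 1) := congrArg _ hp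
    rw [hpp]
    ring
  have h2 : (X ^ p + X) * (X ^ p - X) ^ 2
      = (X ^ (3 * p) - X ^ (2 * p + 1) - X ^ (p + 2) + X ^ 3 : (ZMod p)[X]) := by
    ring
  rw [num, h1, h2, cubic_pow_p]
  ring

lemma natDegree_num (hp2 : p ≠ 2) : (num p A B).natDegree = 2 * p + 1 := by
  have hodd := odd_of_ne_two p hp2
  have hp3 : 2 ≤ p := (Fact.out : p.Prime).two_le
  rw [num_eq p A B hp2]
  have hc := natDegree_cubic_le p A B
  have hpow : (cubic p A B ^ (p / 2 + 1)).natDegree ≤ 3 * (p / 2 + 1) := by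
    refine (natDegree_pow_le).trans ?_
    rw [mul_comm]
    exact Nat.mul_le_mul_right _ hc
  have hlt : (C A * X ^ p + C B + 2 * cubic p A B ^ (p / 2 + 1)
      + cubic p A B + X ^ (p + 2) - X ^ 3 : (ZMod p)[X]).natDegree ≤ 2 * p := by
    refine (natDegree_sub_le _ _).trans (max_le ?_ ?_)
    · refine (natDegree_add_le _ _).trans (max_le ?_ ?_)
      · refine (natDegree_add_le _ _).trans (max_le ?_ ?_)
        · refine (natDegree_add_le _ _).trans (max_le ?_ ?_)
          · refine (natDegree_add_le _ _).trans (max_le ?_ ?_)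
            · refine (natDegree_C_mul_le _ _).trans ?_
              rw [natDegree_X_pow]; omega
            · rw [natDegree_C]; omega
          · have h2 : (2 : (ZMod p)[X]) = C 2 := rfl
            rw [h2]
            refine (natDegree_C_mul_le _ _).trans (hpow.trans ?_)
            omega
        · omega
      · rw [natDegree_X_pow]; omega
    · rw [natDegree_X_pow]; omega
  rw [natDegree_add_eq_left_of_natDegree_lt, natDegree_X_pow]
  rw [natDegree_X_pow]
  omega

lemma natDegree_den : (den p : (ZMod p)[X]).natDegree = 2 * p := by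
  have hp1 : 1 < p := (Fact.out : p.Prime).one_lt
  rw [den, natDegree_pow, FiniteField.X_pow_card_sub_X_natDegree_eq _ hp1]

lemma natDegree_dPoly : (dPoly p A B).natDegree = ∑ a : ZMod p, sqc p A B a := by
  unfold dPoly
  rw [natDegree_prod_of_monic _ _ (fun a _ => (monic_X_sub_C a).pow _)]
  refine Finset.sum_congr rfl fun a _ => ?_
  rw [natDegree_pow, natDegree_X_sub_C, mul_one]

lemma den_ne_zero : (den p : (ZMod p)[X]) ≠ 0 := by
  have hp1 : 1 < p := (Fact.out : p.Prime).one_lt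
  exact pow_ne_zero _ (FiniteField.X_pow_card_sub_X_ne_zero _ hp1)

lemma natDegree_gPoly (hp2 : p ≠ 2) :
    (gPoly p A B).natDegree + ∑ a : ZMod p, sqc p A B a = 2 * p := by
  have h := den_eq p A B hp2
  have h0 := den_ne_zero p
  rw [h] at h0
  rw [← natDegree_dPoly, ← natDegree_mul (left_ne_zero_of_mul h0) (right_ne_zero_of_mul h0), ← h,
    natDegree_den]

lemma natDegree_of_num_eq (hp2 : p ≠ 2) (N : (ZMod p)[X])
    (hN : num p A B = gPoly p A B * N) :
    N.natDegree = 1 + ∑ a : ZMod p, sqc p A B a := by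
  have h1 := natDegree_num p A B hp2
  have h0 : num p A B ≠ 0 := by
    intro h
    rw [h, natDegree_zero] at h1
    omega
  rw [hN] at h0
  rw [hN, natDegree_mul (left_ne_zero_of_mul h0) (right_ne_zero_of_mul h0)] at h1
  have h2 := natDegree_gPoly p A B hp2
  omega

end Degrees

section PointCount

variable (p : ℕ) [Fact p.Prime] (A B : ZMod p)

/-- The curve `y² = x³ + Ax + B` over `𝔽_p`. -/
abbrev curve : WeierstrassCurve (ZMod p) := ⟨0, 0, 0, A, B⟩

lemma curve_Δ : (curve p A B).Δ = -16 * (4 * A ^ 3 + 27 * B ^ 2) := by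
  simp only [WeierstrassCurve.Δ, WeierstrassCurve.b₂, WeierstrassCurve.b₄, WeierstrassCurve.b₆,
    WeierstrassCurve.b₈]
  ring

lemma curve_Δ_ne_zero (hp2 : p ≠ 2) (hΔ : 4 * A ^ 3 + 27 * B ^ 2 ≠ 0) : (curve p A B).Δ ≠ 0 := by
  rw [curve_Δ]
  have h2 := two_ne_zero_zmod p hp2
  have h16 : (-16 : ZMod p) = -(2 ^ 4) := by norm_num
  rw [h16]
  exact mul_ne_zero (neg_ne_zero.mpr (pow_ne_zero _ h2)) hΔ

lemma curve_equation_iff (x y : ZMod p) :
    (curve p A B).toAffine.Equation x y ↔ y ^ 2 = (cubic p A B).eval x := by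
  rw [WeierstrassCurve.Affine.equation_iff, eval_cubic]
  simp

/-- `#E(𝔽_p) = 1 + ∑_a #{y | y² = f(a)}`. -/
theorem card_point (hp2 : p ≠ 2) (hΔ : 4 * A ^ 3 + 27 * B ^ 2 ≠ 0) :
    Nat.card (curve p A B).toAffine.Point = 1 + ∑ a : ZMod p, sqc p A B a := by
  classical
  have hΔ' := curve_Δ_ne_zero p A B hp2 hΔ
  have e1 : (curve p A B).toAffine.Point
      ≃ Option {xy : ZMod p × ZMod p // (curve p A B).toAffine.Nonsingular xy.1 xy.2} :=
    (curve p A B).toAffine.nonsingularPointEquiv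
  have e2 : {xy : ZMod p × ZMod p // (curve p A B).toAffine.Nonsingular xy.1 xy.2}
      ≃ {xy : ZMod p × ZMod p // xy.2 ^ 2 = (cubic p A B).eval xy.1} :=
    Equiv.subtypeEquivRight fun xy => by
      rw [← (curve p A B).toAffine.equation_iff_nonsingular_of_Δ_ne_zero hΔ', curve_equation_iff]
  have e3 : {xy : ZMod p × ZMod p // xy.2 ^ 2 = (cubic p A B).eval xy.1}
      ≃ Σ a : ZMod p, {y : ZMod p // y ^ 2 = (cubic p A B).eval a} :=
    Equiv.subtypeProdEquivSigmaSubtype fun a y => y ^ 2 = (cubic p A B).eval a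
  rw [Nat.card_congr e1, Finite.card_option, Nat.card_congr (e2.trans e3), Nat.card_sigma, add_comm]
  congr 1
  refine Finset.sum_congr rfl fun a _ => ?_
  rw [Nat.card_eq_fintype_card]
  rfl

end PointCount

section Main

variable (p : ℕ) [Fact p.Prime] (A B : ZMod p)

/-- **Manin's count** over `𝔽_p`: the reduced form of `num / den`. -/
theorem manin_count_zmod (hp2 : p ≠ 2) (hΔ : 4 * A ^ 3 + 27 * B ^ 2 ≠ 0) :
    ∃ g N D : (ZMod p)[X], num p A B = g * N ∧ den p = g * D ∧ IsCoprime N D ∧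
      N.natDegree = Nat.card (curve p A B).toAffine.Point ∧
      D.natDegree + 1 = Nat.card (curve p A B).toAffine.Point := by
  obtain ⟨N, hN⟩ := gPoly_dvd_num p A B hp2
  refine ⟨gPoly p A B, N, dPoly p A B, hN, den_eq p A B hp2,
    isCoprime_of_num_eq p A B hp2 hΔ N hN, ?_, ?_⟩
  · rw [card_point p A B hp2 hΔ, natDegree_of_num_eq p A B hp2 N hN]
  · rw [card_point p A B hp2 hΔ, natDegree_dPoly, add_comm]

end Main

section Extension

variable (p : ℕ) [Fact p.Prime] (A B : ZMod p) (k : Type*) [Field k] [Algebra (ZMod p) k]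

/-- **Manin's count** over any field `k ⊇ 𝔽_p`: the fraction
`(f (f^(p/2) + 1)² - (X^p + X)(X^p - X)²) / (X^p - X)²`, `f = X³ + AX + B`, has the reduced form
`N / D` with `deg N = #E(𝔽_p)` and `deg D = #E(𝔽_p) - 1`.  (Here `p / 2 = (p - 1) / 2`.) -/
theorem manin_count (hp2 : p ≠ 2) (hΔ : 4 * A ^ 3 + 27 * B ^ 2 ≠ 0) :
    ∃ g N D : k[X],
      (X ^ 3 + C (algebraMap (ZMod p) k A) * X + C (algebraMap (ZMod p) k B))
          * ((X ^ 3 + C (algebraMap (ZMod p) k A) * X + C (algebraMap (ZMod p) k B)) ^ (p / 2)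
            + 1) ^ 2 - (X ^ p + X) * (X ^ p - X) ^ 2 = g * N ∧
      (X ^ p - X) ^ 2 = g * D ∧ IsCoprime N D ∧
      N.natDegree = Nat.card (curve p A B).toAffine.Point ∧
      D.natDegree + 1 = Nat.card (curve p A B).toAffine.Point ∧
      D.natDegree = Nat.card (curve p A B).toAffine.Point - 1 := by
  obtain ⟨g, N, D, h1, h2, h3, h4, h5⟩ := manin_count_zmod p A B hp2 hΔ
  refine ⟨g.map (algebraMap (ZMod p) k), N.map (algebraMap (ZMod p) k),
    D.map (algebraMap (ZMod p) k), ?_, ?_, ?_, ?_, ?_, ?_⟩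
  · rw [← Polynomial.map_mul, ← h1]
    simp [num, cubic]
  · rw [← Polynomial.map_mul, ← h2]
    simp [den]
  · exact h3.map (mapRingHom (algebraMap (ZMod p) k))
  · rw [natDegree_map, h4]
  · rw [natDegree_map, h5]
  · rw [natDegree_map, ← h5, Nat.add_sub_cancel]

/-- The same statement for a short Weierstrass curve `E0` over `𝔽_p` with `Δ ≠ 0`. -/
theorem manin_count_of_short (E0 : WeierstrassCurve (ZMod p)) (h1 : E0.a₁ = 0) (h2 : E0.a₂ = 0)
    (h3 : E0.a₃ = 0) (hΔ : E0.Δ ≠ 0) :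
    ∃ g N D : k[X],
      (X ^ 3 + C (algebraMap (ZMod p) k E0.a₄) * X + C (algebraMap (ZMod p) k E0.a₆))
          * ((X ^ 3 + C (algebraMap (ZMod p) k E0.a₄) * X + C (algebraMap (ZMod p) k E0.a₆))
            ^ (p / 2) + 1) ^ 2 - (X ^ p + X) * (X ^ p - X) ^ 2 = g * N ∧
      (X ^ p - X) ^ 2 = g * D ∧ IsCoprime N D ∧
      N.natDegree = Nat.card E0.toAffine.Point ∧
      D.natDegree + 1 = Nat.card E0.toAffine.Point ∧
      D.natDegree = Nat.card E0.toAffine.Point - 1 := by
  have hE : E0 = curve p E0.a₄ E0.a₆ := by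
    ext <;> simp [h1, h2, h3]
  have hΔ' : E0.Δ = -16 * (4 * E0.a₄ ^ 3 + 27 * E0.a₆ ^ 2) := by
    conv_lhs => rw [hE]
    exact curve_Δ p E0.a₄ E0.a₆
  have hd : 4 * E0.a₄ ^ 3 + 27 * E0.a₆ ^ 2 ≠ 0 := by
    intro h
    rw [hΔ', h, mul_zero] at hΔ
    exact hΔ rfl
  have hp2 : p ≠ 2 := by
    intro hp
    apply hΔ
    rw [hΔ']
    have h2 : ((2 : ℕ) : ZMod p) = 0 := (ZMod.natCast_eq_zero_iff 2 p).mpr (by rw [hp])
    have h2' : (2 : ZMod p) = 0 := by exact_mod_cast h2
    have h16 : (-16 : ZMod p) = -(2 ^ 4) := by norm_num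
    rw [h16, h2']
    simp
  have := manin_count p E0.a₄ E0.a₆ k hp2 hd
  rw [← hE] at this
  exact this

/-- For an odd prime, `p / 2 = (p - 1) / 2` and `2 * (p / 2) + 1 = p`. -/
lemma two_mul_div_two_add_one (hp2 : p ≠ 2) : 2 * (p / 2) + 1 = p := by
  have := odd_of_ne_two p hp2
  omega

lemma div_two_eq (hp2 : p ≠ 2) : p / 2 = (p - 1) / 2 := by
  have := odd_of_ne_two p hp2
  omega

end Extension

end Fermat.Agent.Lib.ManinCount
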