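import Mathlib

set_option autoImplicit false

namespace Fermat.Agent.Lib.McmFree

open RingTheory.Sequence IsLocalRing CategoryTheory Abelian

universe u

/-- In a Noetherian local ring, if some element of the maximal ideal is regular on a
nontrivial finite module `N`, there is an `N`-regular element in `𝔪 ∖ 𝔪²`. -/
theorem exists_regular_not_mem_sq (A : Type u) [CommRing A] [IsLocalRing A] [IsNoetherianRing A]
    (N : Type u) [AddCommGroup N] [Module A N] [Module.Finite A N] [Nontrivial N]
    (y : A) (hy : y ∈ maximalIdeal A) (hreg : IsSMulRegular N y) :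
    ∃ x ∈ maximalIdeal A, x ∉ (maximalIdeal A) ^ 2 ∧ IsSMulRegular N x := by
  classical
  by_contra hcon
  push Not at hcon
  have hfin : (associatedPrimes A N).Finite := associatedPrimes.finite A N
  have hunion := biUnion_associatedPrimes_eq_compl_regular A N
  have hynot : ∀ p ∈ associatedPrimes A N, y ∉ p := by
    intro p hp hyp
    have : y ∈ ⋃ p ∈ associatedPrimes A N, (p : Set A) := Set.mem_biUnion hp hyp
    rw [hunion] at this
    exact this hreg
  have hsub : ((maximalIdeal A : Ideal A) : Set A) ⊆
      ⋃ i ∈ ((insert ((maximalIdeal A) ^ 2) hfin.toFinset : Finset (Ideal A)) : Set (Ideal A)),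
        ((id i : Ideal A) : Set A) := by
    intro x hx
    by_cases hx2 : x ∈ (maximalIdeal A) ^ 2
    · exact Set.mem_biUnion (by simp) hx2
    · have hnr := hcon x hx hx2
      have : x ∈ ⋃ p ∈ associatedPrimes A N, (p : Set A) := by
        rw [hunion]; exact hnr
      obtain ⟨p, hp, hxp⟩ := Set.mem_iUnion₂.mp this
      exact Set.mem_biUnion (by simp [hp]) hxp
  have hprime : ∀ i ∈ (insert ((maximalIdeal A) ^ 2) hfin.toFinset : Finset (Ideal A)),
      i ≠ (maximalIdeal A) ^ 2 → i ≠ (maximalIdeal A) ^ 2 → (id i : Ideal A).IsPrime := by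
    intro i hi hne _
    rcases Finset.mem_insert.mp hi with h | h
    · exact absurd h hne
    · exact (hfin.mem_toFinset.mp h).isPrime
  obtain ⟨i, hi, hle⟩ := (Ideal.subset_union_prime (f := id) ((maximalIdeal A) ^ 2)
    ((maximalIdeal A) ^ 2) hprime).mp hsub
  rcases Finset.mem_insert.mp hi with h | h
  · subst h
    have hbot : (maximalIdeal A : Ideal A) = ⊥ := by
      apply Submodule.eq_bot_of_le_smul_of_le_jacobson_bot (maximalIdeal A) (maximalIdeal A)
        (IsNoetherian.noetherian _)
      · simpa [pow_two] using hle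
      · exact maximalIdeal_le_jacobson _
    rw [hbot] at hy
    have hy0 : y = 0 := by simpa using hy
    subst hy0
    have : Subsingleton N := (IsSMulRegular.zero_iff_subsingleton).mp hreg
    exact not_subsingleton N this
  · exact hynot i (hfin.mem_toFinset.mp h) (hle hy)


/-- The images of `n` generators of the maximal ideal, after removing a suitable one, generate the
maximal ideal of `A ⧸ (x)` when `x ∈ 𝔪 ∖ 𝔪²`. -/
theorem exists_generators_quotient (A : Type u) [CommRing A] [IsLocalRing A]
    (n : ℕ) (t : Fin (n + 1) → A) (ht : Ideal.span (Set.range t) = maximalIdeal A)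
    (x : A) (hx : x ∈ maximalIdeal A) (hx2 : x ∉ (maximalIdeal A) ^ 2) :
    ∃ t' : Fin n → A ⧸ Ideal.span {x},
      Ideal.span (Set.range t') = (maximalIdeal A).map (Ideal.Quotient.mk (Ideal.span {x})) := by
  classical
  have hxs : x ∈ Ideal.span (Set.range t) := by rw [ht]; exact hx
  obtain ⟨c, hc⟩ := (Ideal.mem_span_range_iff_exists_fun).mp hxs
  have hex : ∃ j, c j ∉ maximalIdeal A := by
    by_contra hall
    push Not at hall
    apply hx2
    rw [← hc, pow_two]
    refine Ideal.sum_mem _ fun i _ => Ideal.mul_mem_mul (hall i) ?_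
    rw [← ht]; exact Ideal.subset_span ⟨i, rfl⟩
  obtain ⟨j, hj⟩ := hex
  have hju : IsUnit (c j) := by
    by_contra h
    exact hj ((IsLocalRing.mem_maximalIdeal _).mpr h)
  set mk := Ideal.Quotient.mk (Ideal.span {x}) with hmk
  refine ⟨fun i => mk (t (j.succAbove i)), ?_⟩
  have hsum : mk (c j) * mk (t j) + ∑ i : Fin n, mk (c (j.succAbove i)) * mk (t (j.succAbove i))
      = 0 := by
    have h0 : mk x = 0 := Ideal.Quotient.eq_zero_iff_mem.mpr (Ideal.mem_span_singleton_self x)
    have h1 : mk (∑ i, c i * t i) = 0 := by rw [hc]; exact h0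
    rw [map_sum, Fin.sum_univ_succAbove _ j] at h1
    simpa [map_mul] using h1
  have htj : mk (t j) ∈ Ideal.span (Set.range fun i : Fin n => mk (t (j.succAbove i))) := by
    have hu : IsUnit (mk (c j)) := hju.map mk
    have h1 : mk (c j) * mk (t j) ∈
        Ideal.span (Set.range fun i : Fin n => mk (t (j.succAbove i))) := by
      have : mk (c j) * mk (t j) =
          - ∑ i : Fin n, mk (c (j.succAbove i)) * mk (t (j.succAbove i)) :=
        eq_neg_of_add_eq_zero_left hsum
      rw [this]
      refine neg_mem (Ideal.sum_mem _ fun i _ => Ideal.mul_mem_left _ _ ?_)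
      exact Ideal.subset_span ⟨i, rfl⟩
    exact (Ideal.unit_mul_mem_iff_mem _ hu).mp h1
  apply le_antisymm
  · rw [Ideal.span_le]
    rintro _ ⟨i, rfl⟩
    refine Ideal.mem_map_of_mem _ ?_
    rw [← ht]; exact Ideal.subset_span ⟨_, rfl⟩
  · rw [← ht, Ideal.map_span, Ideal.span_le]
    rintro _ ⟨_, ⟨i, rfl⟩, rfl⟩
    by_cases hij : i = j
    · subst hij; exact htj
    · obtain ⟨i', rfl⟩ := Fin.exists_succAbove_eq hij
      exact Ideal.subset_span ⟨i', rfl⟩


/-- Depth drops by at most one when dividing by a regular element of the maximal ideal: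
if `N` has a regular sequence of length `n + 1` in `𝔪` and `x ∈ 𝔪` is `N`-regular, then
`N ⧸ xN` has a regular sequence of length `n` in `𝔪`. -/
theorem exists_isRegular_quotSMulTop (A : Type u) [CommRing A] [IsLocalRing A] [IsNoetherianRing A]
    (N : Type u) [AddCommGroup N] [Module A N] [Module.Finite A N] [Nontrivial N]
    (n : ℕ) (rs : List A) (hlen : rs.length = n + 1) (hmem : ∀ r ∈ rs, r ∈ maximalIdeal A)
    (hreg : IsWeaklyRegular N rs) (x : A) (hx : x ∈ maximalIdeal A) (hxreg : IsSMulRegular N x) :
    ∃ rs' : List A, rs'.length = n ∧ (∀ r ∈ rs', r ∈ maximalIdeal A) ∧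
      IsWeaklyRegular (QuotSMulTop x N) rs' := by
  have hR : RingTheory.Sequence.IsRegular N rs :=
    IsRegular.of_isWeaklyRegular_of_mem_maximalIdeal N hmem hreg
  have smul_lt : (maximalIdeal A) • (⊤ : Submodule A (ModuleCat.of A N)) < ⊤ := by
    refine lt_top_iff_ne_top.mpr (Ne.symm ?_)
    exact Submodule.top_ne_ideal_smul_of_le_jacobson_annihilator (maximalIdeal_le_jacobson _)
  have tfae1 := ModuleCat.exists_isRegular_tfae (maximalIdeal A) (n + 1) (ModuleCat.of A N) smul_lt
  have h31 := tfae1.out 3 1
  have hext : ∀ i < n + 1, Subsingleton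
      (Ext (ModuleCat.of A (Shrink.{u} (A ⧸ maximalIdeal A))) (ModuleCat.of A N) i) :=
    h31.mp ⟨rs, hlen, hmem, hR⟩
  have : Nontrivial (QuotSMulTop x N) := nontrivial_quotSMulTop_of_mem_maximalIdeal N hx
  have smul_lt' : (maximalIdeal A) • (⊤ : Submodule A (ModuleCat.of A (QuotSMulTop x N))) < ⊤ := by
    refine lt_top_iff_ne_top.mpr (Ne.symm ?_)
    exact Submodule.top_ne_ideal_smul_of_le_jacobson_annihilator (maximalIdeal_le_jacobson _)
  have hext' : ∀ i < n, Subsingleton
      (Ext (ModuleCat.of A (Shrink.{u} (A ⧸ maximalIdeal A)))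
        (ModuleCat.of A (QuotSMulTop x N)) i) := by
    intro i hi
    have zero1 := AddCommGrpCat.isZero_of_iff_subsingleton.mpr (hext i (by omega))
    have zero2 := AddCommGrpCat.isZero_of_iff_subsingleton.mpr (hext (i + 1) (by omega))
    have hx' : IsSMulRegular (ModuleCat.of A N) x := hxreg
    exact AddCommGrpCat.subsingleton_of_isZero <| ShortComplex.Exact.isZero_of_both_zeros
      ((Ext.covariant_sequence_exact₃' (ModuleCat.of A (Shrink.{u} (A ⧸ maximalIdeal A)))
        hx'.smulShortComplex_shortExact) i (i + 1) rfl)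
      (zero1.eq_zero_of_src _) (zero2.eq_zero_of_tgt _)
  have tfae2 := ModuleCat.exists_isRegular_tfae (maximalIdeal A) n
    (ModuleCat.of A (QuotSMulTop x N)) smul_lt'
  have h13 := tfae2.out 1 3
  obtain ⟨rs', hlen', hmem', hreg'⟩ := h13.mp hext'
  exact ⟨rs', hlen', hmem', hreg'.toIsWeaklyRegular⟩


/-- **Maximal Cohen–Macaulay modules over regular local rings are free**, in a form that avoids
Krull dimension: if the maximal ideal of a Noetherian local ring `A` is generated by `n` elements
and the finite `A`-module `N` admits a weakly regular sequence of length `n` inside the maximal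
ideal, then `N` is free. -/
theorem free_of_isWeaklyRegular (n : ℕ) :
    ∀ (A : Type u) [CommRing A] [IsLocalRing A] [IsNoetherianRing A]
      (N : Type u) [AddCommGroup N] [Module A N] [Module.Finite A N]
      (t : Fin n → A) (_ : Ideal.span (Set.range t) = maximalIdeal A)
      (rs : List A) (_ : rs.length = n) (_ : ∀ r ∈ rs, r ∈ maximalIdeal A)
      (_ : IsWeaklyRegular N rs), Module.Free A N := by
  induction n with
  | zero =>
    intro A _ _ _ N _ _ _ t ht rs _ _ _
    have hbot : maximalIdeal A = ⊥ := by
      rw [← ht]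
      have : Set.range t = ∅ := Set.range_eq_empty t
      rw [this, Ideal.span_empty]
    have hf : IsField A := isField_iff_maximalIdeal_eq.mpr hbot
    let := hf.toField
    exact Module.Free.of_divisionRing A N
  | succ n ih =>
    intro A _ _ _ N _ _ _ t ht rs hlen hmem hreg
    by_cases hN : Subsingleton N
    · exact Module.Free.of_subsingleton A N
    · have hNt : Nontrivial N := not_subsingleton_iff_nontrivial.mp hN
      -- first element of the sequence
      obtain ⟨y, rs0, rfl⟩ : ∃ y rs0, rs = y :: rs0 := by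
        cases rs with
        | nil => simp at hlen
        | cons y rs0 => exact ⟨y, rs0, rfl⟩
      have hy : y ∈ maximalIdeal A := hmem y List.mem_cons_self
      have hyreg : IsSMulRegular N y := ((isWeaklyRegular_cons_iff N y rs0).mp hreg).1
      obtain ⟨x, hx, hx2, hxreg⟩ := exists_regular_not_mem_sq A N y hy hyreg
      obtain ⟨rs', hlen', hmem', hreg'⟩ :=
        exists_isRegular_quotSMulTop A N n (y :: rs0) hlen hmem hreg x hx hxreg
      obtain ⟨t', ht'⟩ := exists_generators_quotient A n t ht x hx hx2
      have hne : Ideal.span {x} ≠ (⊤ : Ideal A) := by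
        intro h
        have : x ∈ maximalIdeal A := hx
        have hle : Ideal.span {x} ≤ maximalIdeal A := (Ideal.span_singleton_le_iff_mem _).mpr hx
        rw [h] at hle
        exact (maximalIdeal.isMaximal A).ne_top (top_le_iff.mp hle)
      have : Nontrivial (A ⧸ Ideal.span {x}) := Ideal.Quotient.nontrivial_iff.mpr hne
      have hloc : IsLocalRing (A ⧸ Ideal.span {x}) :=
        IsLocalRing.of_surjective' (Ideal.Quotient.mk (Ideal.span {x}))
          Ideal.Quotient.mk_surjective
      have hmax : (maximalIdeal A).map (Ideal.Quotient.mk (Ideal.span {x})) =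
          maximalIdeal (A ⧸ Ideal.span {x}) :=
        map_maximalIdeal_of_surjective _ Ideal.Quotient.mk_surjective
      have hfinq : Module.Finite (A ⧸ Ideal.span {x}) (QuotSMulTop x N) :=
        Module.Finite.of_restrictScalars_finite A (A ⧸ Ideal.span {x}) (QuotSMulTop x N)
      have hreg'' : IsWeaklyRegular (QuotSMulTop x N)
          (rs'.map (algebraMap A (A ⧸ Ideal.span {x}))) :=
        (isWeaklyRegular_map_algebraMap_iff (A ⧸ Ideal.span {x}) (QuotSMulTop x N) rs').mpr hreg'
      have hfree : Module.Free (A ⧸ Ideal.span {x}) (QuotSMulTop x N) := by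
        refine ih (A ⧸ Ideal.span {x}) (QuotSMulTop x N) t' (ht'.trans hmax)
          (rs'.map (algebraMap A (A ⧸ Ideal.span {x}))) (by simpa using hlen') ?_ hreg''
        intro r hr
        obtain ⟨a, ha, rfl⟩ := List.mem_map.mp hr
        rw [← hmax]
        exact Ideal.mem_map_of_mem _ (hmem' a ha)
      have hfp : Module.FinitePresentation A N := Module.finitePresentation_of_finite A N
      have hjac : x ∈ (⊥ : Ideal A).jacobson := maximalIdeal_le_jacobson _ hx
      exact (Module.free_quotSMulTop_iff_free A N hjac hxreg).mp hfree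

end Fermat.Agent.Lib.McmFree
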