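import Mathlib
import Fermat.Agent.Lib.JStab
import Fermat.Agent.Lib.JSurjPoly

set_option autoImplicit false

/-!
# The characteristic polynomial of a `Γ₀(N)`-modular function over `ℂ[j]`

For a holomorphic `Γ₀(N)`-invariant function `h` on the upper half plane all of whose
`SL₂(ℤ)`-translates have at most a pole of finite order at `i∞` (`IsModFun N h`), the polynomial
`∏_{x ∈ SL₂(ℤ)/Γ₀(N)} (Y - h ∘ x⁻¹)` has coefficients which are complex polynomials in
`j = E₄³/Δ` (`exists_charPoly`), and `h` is a root of it (`exists_monic_relation`).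
-/

namespace Fermat.Agent.Lib.ModCharPoly

open UpperHalfPlane ModularForm Matrix Filter Complex CongruenceSubgroup EisensteinSeries
open Fermat.Agent.Lib.JStab Fermat.Agent.Lib.DeltaLevelN
open scoped MatrixGroups ModularForm Manifold Topology Real

local notation "Δ" => ModularForm.discriminant

/-- A holomorphic `Γ₀(N)`-invariant function on `ℍ` all of whose `SL₂(ℤ)`-translates have at
most a pole of finite order at `i∞`. -/
structure IsModFun (N : ℕ) (h : ℍ → ℂ) : Prop where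
  mdiff : MDiff h
  invariant : ∀ γ ∈ Gamma0 N, ∀ τ : ℍ, h (γ • τ) = h τ
  growth : ∀ g : SL(2, ℤ), ∃ m : ℕ, IsBoundedAtImInfty (fun τ : ℍ => Δ τ ^ m * h (g • τ))

lemma isBounded_disc : IsBoundedAtImInfty (Δ : ℍ → ℂ) :=
  ModularForm.discriminant_isZeroAtImInfty.boundedAtFilter

lemma isBounded_disc_pow (k : ℕ) : IsBoundedAtImInfty (fun τ : ℍ => Δ τ ^ k) := by
  induction k with
  | zero =>
    have : (fun τ : ℍ => Δ τ ^ 0) = fun _ : ℍ => (1 : ℂ) := by
      funext τ
      simp
    rw [this]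
    exact Filter.const_boundedAtFilter atImInfty (1 : ℂ)
  | succ k ih =>
    have : (fun τ : ℍ => Δ τ ^ (k + 1)) = (fun τ : ℍ => Δ τ ^ k) * Δ := by
      funext τ
      simp [pow_succ]
    rw [this]
    exact ih.mul isBounded_disc

lemma growth_mono {F : ℍ → ℂ} {m m' : ℕ} (hmm : m ≤ m')
    (h : IsBoundedAtImInfty (fun τ : ℍ => Δ τ ^ m * F τ)) :
    IsBoundedAtImInfty (fun τ : ℍ => Δ τ ^ m' * F τ) := by
  have : (fun τ : ℍ => Δ τ ^ m' * F τ) =
      (fun τ : ℍ => Δ τ ^ (m' - m)) * (fun τ : ℍ => Δ τ ^ m * F τ) := by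
    funext τ
    simp only [Pi.mul_apply]
    rw [← mul_assoc, ← pow_add, Nat.sub_add_cancel hmm]
  rw [this]
  exact (isBounded_disc_pow _).mul h

namespace IsModFun

variable {N : ℕ} {h h' : ℍ → ℂ}

lemma const (N : ℕ) (c : ℂ) : IsModFun N (fun _ : ℍ => c) where
  mdiff := fun _ => mdifferentiableAt_const
  invariant := fun _ _ _ => rfl
  growth := fun _ => ⟨0, by
    have : (fun τ : ℍ => Δ τ ^ 0 * c) = fun _ : ℍ => c := by
      funext τ
      simp
    rw [this]
    exact Filter.const_boundedAtFilter atImInfty c⟩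

lemma add (hh : IsModFun N h) (hh' : IsModFun N h') : IsModFun N (h + h') where
  mdiff := hh.mdiff.add hh'.mdiff
  invariant := fun γ hγ τ => by
    simp only [Pi.add_apply]
    rw [hh.invariant γ hγ, hh'.invariant γ hγ]
  growth := fun g => by
    obtain ⟨m, hm⟩ := hh.growth g
    obtain ⟨m', hm'⟩ := hh'.growth g
    refine ⟨max m m', ?_⟩
    have : (fun τ : ℍ => Δ τ ^ max m m' * (h + h') (g • τ)) =
        (fun τ : ℍ => Δ τ ^ max m m' * h (g • τ)) + (fun τ : ℍ => Δ τ ^ max m m' * h' (g • τ)) := by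
      funext τ
      simp only [Pi.add_apply]
      ring
    rw [this]
    exact (growth_mono (F := fun τ => h (g • τ)) (le_max_left m m') hm).add
      (growth_mono (F := fun τ => h' (g • τ)) (le_max_right m m') hm')

lemma mul (hh : IsModFun N h) (hh' : IsModFun N h') : IsModFun N (h * h') where
  mdiff := hh.mdiff.mul hh'.mdiff
  invariant := fun γ hγ τ => by
    simp only [Pi.mul_apply]
    rw [hh.invariant γ hγ, hh'.invariant γ hγ]
  growth := fun g => by
    obtain ⟨m, hm⟩ := hh.growth g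
    obtain ⟨m', hm'⟩ := hh'.growth g
    refine ⟨m + m', ?_⟩
    have : (fun τ : ℍ => Δ τ ^ (m + m') * (h * h') (g • τ)) =
        (fun τ : ℍ => Δ τ ^ m * h (g • τ)) * (fun τ : ℍ => Δ τ ^ m' * h' (g • τ)) := by
      funext τ
      simp only [Pi.mul_apply]
      ring
    rw [this]
    exact hm.mul hm'

lemma neg (hh : IsModFun N h) : IsModFun N (-h) := by
  have : -h = (fun _ : ℍ => (-1 : ℂ)) * h := by
    ext z
    simp
  rw [this]
  exact (IsModFun.const N _).mul hh

lemma sub (hh : IsModFun N h) (hh' : IsModFun N h') : IsModFun N (h - h') := by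
  rw [sub_eq_add_neg]
  exact hh.add hh'.neg

lemma pow (hh : IsModFun N h) (n : ℕ) : IsModFun N (h ^ n) := by
  induction n with
  | zero =>
    rw [pow_zero]
    exact IsModFun.const N 1
  | succ n ih =>
    rw [pow_succ]
    exact ih.mul hh

lemma zero (N : ℕ) : IsModFun N (0 : ℍ → ℂ) := IsModFun.const N 0

lemma one (N : ℕ) : IsModFun N (1 : ℍ → ℂ) := IsModFun.const N 1

end IsModFun

/-! ## The generators `j(dτ)` -/

/-- `Δ^a · j((aτ+b)/d)` is bounded at `i∞`. -/
lemma isBounded_disc_pow_mul_jInv_affine {a d : ℕ} (ha : a ≠ 0) (hd : d ≠ 0) (b : ℕ) :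
    IsBoundedAtImInfty
      (fun τ : ℍ => Δ τ ^ a * jInv (ofComplex (((a : ℂ) * τ + b) / d))) := by
  rw [isBoundedAtImInfty_iff]
  have h1 : ∀ᶠ τ in atImInfty, ‖prodFactor τ‖ ≤ 2 := by
    have := tendsto_prodFactor.norm
    rw [norm_one] at this
    exact this.eventually_le_const (by norm_num)
  have h2 : ∀ᶠ τ : ℍ in atImInfty,
      ‖Function.Periodic.qParam 1 (ofComplex (((a : ℂ) * τ + b) / d) : ℍ) *
        jInv (ofComplex (((a : ℂ) * τ + b) / d))‖ ≤ 2 := by
    have := (tendsto_qParam_mul_jInv.comp (tendsto_ofComplex_affine ha hd b)).norm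
    rw [norm_one] at this
    exact this.eventually_le_const (by norm_num)
  obtain ⟨A, hA⟩ := (atImInfty_mem _).mp (h1.and h2)
  refine ⟨2 ^ a * 2, A, fun τ hτ => ?_⟩
  obtain ⟨hP, hJ⟩ := hA τ hτ
  rw [norm_mul, norm_pow, norm_discriminant_eq, norm_jInv, im_ofComplex_affine ha hd b]
  have hy : 0 < τ.im := τ.im_pos
  have hd1 : (1 : ℝ) ≤ d := by exact_mod_cast Nat.one_le_iff_ne_zero.mpr hd
  have ha0 : (0 : ℝ) < a := by exact_mod_cast Nat.pos_of_ne_zero ha
  have hexp : Real.exp (-2 * π * τ.im) ^ a * Real.exp (2 * π * ((a : ℝ) / d * τ.im)) ≤ 1 := by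
    rw [← Real.exp_nat_mul, ← Real.exp_add, Real.exp_le_one_iff]
    have h3 : (a : ℝ) / d ≤ a := div_le_self ha0.le hd1
    have h4 : 2 * π * ((a : ℝ) / d * τ.im) ≤ 2 * π * (a * τ.im) := by
      have := mul_le_mul_of_nonneg_right h3 hy.le
      have hpi : 0 ≤ 2 * π := by positivity
      exact mul_le_mul_of_nonneg_left this hpi
    nlinarith [h4]
  calc (Real.exp (-2 * π * τ.im) * ‖prodFactor τ‖) ^ a *
        (Real.exp (2 * π * ((a : ℝ) / d * τ.im)) *
          ‖Function.Periodic.qParam 1 (ofComplex (((a : ℂ) * τ + b) / d) : ℍ) *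
            jInv (ofComplex (((a : ℂ) * τ + b) / d))‖)
      = (Real.exp (-2 * π * τ.im) ^ a * Real.exp (2 * π * ((a : ℝ) / d * τ.im))) *
          (‖prodFactor τ‖ ^ a *
            ‖Function.Periodic.qParam 1 (ofComplex (((a : ℂ) * τ + b) / d) : ℍ) *
              jInv (ofComplex (((a : ℂ) * τ + b) / d))‖) := by ring
    _ ≤ 1 * (2 ^ a * 2) := by
        refine mul_le_mul hexp ?_ (by positivity) zero_le_one
        exact mul_le_mul (pow_le_pow_left₀ (norm_nonneg _) hP a) hJ (norm_nonneg _) (by positivity)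
    _ = 2 ^ a * 2 := one_mul _

/-- The functions `j(dτ)`, `d ∣ N`, are modular functions for `Γ₀(N)`. -/
theorem isModFun_jN {N d : ℕ} [NeZero N] (hd : d ∣ N) : IsModFun N (jN d) := by
  have hd0 : NeZero d :=
    ⟨fun h0 => NeZero.ne N (by rw [h0] at hd; exact Nat.eq_zero_of_zero_dvd hd)⟩
  refine ⟨mdifferentiable_jN d, fun γ hγ τ => jN_smul_of_mem hd hγ τ, fun g => ?_⟩
  obtain ⟨a, b, d', had, -, -, hform⟩ := jN_smul d g
  have ha : a ≠ 0 := by
    rintro rfl
    rw [zero_mul] at had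
    exact NeZero.ne d had.symm
  have hd' : d' ≠ 0 := by
    rintro rfl
    rw [mul_zero] at had
    exact NeZero.ne d had.symm
  refine ⟨a, ?_⟩
  have : (fun τ : ℍ => Δ τ ^ a * jN d (g • τ)) =
      fun τ : ℍ => Δ τ ^ a * jInv (ofComplex (((a : ℂ) * τ + b) / d')) := by
    funext τ
    rw [hform]
  rw [this]
  exact isBounded_disc_pow_mul_jInv_affine ha hd' b

/-- `j` itself is a modular function (for every level). -/
theorem isModFun_jInv (N : ℕ) [NeZero N] : IsModFun N jInv := by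
  have h := isModFun_jN (N := N) (one_dvd N)
  have : jN 1 = jInv := by
    funext τ
    simp [jN]
  rwa [this] at h

/-! ## Coefficient functions of `∏ (Y - a_i)` -/

section CoeffFun

variable {ι : Type*} [DecidableEq ι] (a : ι → ℍ → ℂ)

/-- The `k`-th coefficient of `∏_{i ∈ s} (Y - a_i(τ))`, as a function of `τ`. -/
noncomputable def coeffFun (s : Finset ι) (k : ℕ) : ℍ → ℂ :=
  fun τ => (∏ i ∈ s, (Polynomial.X - Polynomial.C (a i τ))).coeff k

omit [DecidableEq ι] in
lemma coeffFun_empty (k : ℕ) : coeffFun a ∅ k = fun _ => if k = 0 then 1 else 0 := by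
  funext τ
  simp [coeffFun, Polynomial.coeff_one]

lemma coeffFun_insert_zero {i : ι} {s : Finset ι} (hi : i ∉ s) :
    coeffFun a (insert i s) 0 = (fun _ : ℍ => (-1 : ℂ)) * (a i * coeffFun a s 0) := by
  funext τ
  simp only [coeffFun, Finset.prod_insert hi, Polynomial.mul_coeff_zero, Pi.mul_apply]
  simp

lemma coeffFun_insert_succ {i : ι} {s : Finset ι} (hi : i ∉ s) (k : ℕ) :
    coeffFun a (insert i s) (k + 1) = coeffFun a s k - a i * coeffFun a s (k + 1) := by
  funext τ
  simp only [coeffFun, Finset.prod_insert hi, Pi.sub_apply, Pi.mul_apply, sub_mul,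
    Polynomial.coeff_sub, Polynomial.coeff_X_mul, Polynomial.coeff_C_mul]

lemma mdiff_coeffFun (s : Finset ι) (ha : ∀ i ∈ s, MDiff (a i)) (k : ℕ) :
    MDiff (coeffFun a s k) := by
  induction s using Finset.induction_on generalizing k with
  | empty =>
    rw [coeffFun_empty]
    exact fun _ => mdifferentiableAt_const
  | insert i s hi ih =>
    have hai : MDiff (a i) := ha i (Finset.mem_insert_self i s)
    have ih' := ih (fun j hj => ha j (Finset.mem_insert_of_mem hj))
    cases k with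
    | zero =>
      rw [coeffFun_insert_zero a hi]
      exact (show MDiff (fun _ : ℍ => (-1 : ℂ)) from fun _ => mdifferentiableAt_const).mul
        (hai.mul (ih' 0))
    | succ k =>
      rw [coeffFun_insert_succ a hi]
      exact (ih' k).sub (hai.mul (ih' (k + 1)))

lemma isBounded_coeffFun (s : Finset ι) (m : ℕ)
    (ha : ∀ i ∈ s, IsBoundedAtImInfty (fun τ : ℍ => Δ τ ^ m * a i τ)) (k : ℕ) :
    IsBoundedAtImInfty (fun τ : ℍ => Δ τ ^ (m * s.card) * coeffFun a s k τ) := by
  induction s using Finset.induction_on generalizing k with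
  | empty =>
    rw [coeffFun_empty]
    have : (fun τ : ℍ => Δ τ ^ (m * (∅ : Finset ι).card) * (if k = 0 then (1 : ℂ) else 0)) =
        fun _ : ℍ => (if k = 0 then (1 : ℂ) else 0) := by
      funext τ
      simp
    rw [this]
    exact Filter.const_boundedAtFilter atImInfty _
  | insert i s hi ih =>
    have hai := ha i (Finset.mem_insert_self i s)
    have ih' := ih (fun j hj => ha j (Finset.mem_insert_of_mem hj))
    have hcard : m * (insert i s).card = m + m * s.card := by
      rw [Finset.card_insert_of_notMem hi]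
      ring
    cases k with
    | zero =>
      rw [coeffFun_insert_zero a hi, hcard]
      have : (fun τ : ℍ => Δ τ ^ (m + m * s.card) *
          ((fun _ : ℍ => (-1 : ℂ)) * (a i * coeffFun a s 0)) τ) =
          (fun _ : ℍ => (-1 : ℂ)) * ((fun τ : ℍ => Δ τ ^ m * a i τ) *
            (fun τ : ℍ => Δ τ ^ (m * s.card) * coeffFun a s 0 τ)) := by
        funext τ
        simp only [Pi.mul_apply]
        ring
      rw [this]
      exact (Filter.const_boundedAtFilter atImInfty _).mul (hai.mul (ih' 0))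
    | succ k =>
      rw [coeffFun_insert_succ a hi, hcard]
      have : (fun τ : ℍ => Δ τ ^ (m + m * s.card) *
          (coeffFun a s k - a i * coeffFun a s (k + 1)) τ) =
          (fun τ : ℍ => Δ τ ^ m) * (fun τ : ℍ => Δ τ ^ (m * s.card) * coeffFun a s k τ) -
          (fun τ : ℍ => Δ τ ^ m * a i τ) *
            (fun τ : ℍ => Δ τ ^ (m * s.card) * coeffFun a s (k + 1) τ) := by
        funext τ
        simp only [Pi.mul_apply, Pi.sub_apply]
        ring
      rw [this]
      exact ((isBounded_disc_pow m).mul (ih' k)).sub (hai.mul (ih' (k + 1)))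

end CoeffFun

/-! ## The characteristic polynomial -/

section CharPoly

variable {N : ℕ} {h : ℍ → ℂ}

/-- The conjugate of `h` attached to a coset `x = g Γ₀(N)`: `τ ↦ h(g⁻¹ τ)`. -/
noncomputable def conj (N : ℕ) (h : ℍ → ℂ) (x : SL(2, ℤ) ⧸ Gamma0 N) : ℍ → ℂ :=
  fun τ => h ((x.out)⁻¹ • τ)

lemma conj_mk (hh : IsModFun N h) (g : SL(2, ℤ)) (τ : ℍ) :
    conj N h (QuotientGroup.mk g) τ = h (g⁻¹ • τ) := by
  obtain ⟨γ, hγ⟩ := QuotientGroup.mk_out_eq_mul (Gamma0 N) g
  rw [conj, hγ, _root_.mul_inv_rev, mul_smul]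
  exact hh.invariant _ (inv_mem γ.2) _

lemma conj_one (hh : IsModFun N h) (τ : ℍ) :
    conj N h (QuotientGroup.mk 1) τ = h τ := by
  rw [conj_mk hh, inv_one, one_smul]

lemma conj_smul (hh : IsModFun N h) (γ : SL(2, ℤ)) (x : SL(2, ℤ) ⧸ Gamma0 N) (τ : ℍ) :
    conj N h x (γ • τ) = conj N h (γ⁻¹ • x) τ := by
  have hx : γ⁻¹ • x = QuotientGroup.mk (γ⁻¹ * x.out) := by
    conv_lhs => rw [← QuotientGroup.out_eq' x]
    rfl
  rw [hx, conj_mk hh, _root_.mul_inv_rev, inv_inv, mul_smul]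
  rfl

lemma mdiff_comp_smul (hh : MDiff h) (g : SL(2, ℤ)) : MDiff (fun τ : ℍ => h (g • τ)) := by
  have h1 := hh.slash 0 (Matrix.SpecialLinearGroup.mapGL ℝ g)
  have e : h ∣[(0 : ℤ)] (Matrix.SpecialLinearGroup.mapGL ℝ g) = fun τ : ℍ => h (g • τ) := by
    ext z
    show (h ∣[(0 : ℤ)] g) z = _
    rw [SL_slash_apply, neg_zero, zpow_zero, mul_one]
  rwa [e] at h1

lemma mdiff_conj (hh : IsModFun N h) (x : SL(2, ℤ) ⧸ Gamma0 N) : MDiff (conj N h x) :=
  mdiff_comp_smul hh.mdiff _

/-- **The characteristic polynomial of a modular function over `ℂ[j]`.**  For a modular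
function `h` for `Γ₀(N)` there is a polynomial `P ∈ ℂ[T][Y]`, monic of degree
`[SL₂(ℤ) : Γ₀(N)]` in `Y`, such that `P(j(τ), Y) = ∏_x (Y - h(x⁻¹ τ))` for all `τ`. -/
theorem exists_charPoly [Fintype (SL(2, ℤ) ⧸ Gamma0 N)] (hh : IsModFun N h) :
    ∃ P : Polynomial (Polynomial ℂ), P.Monic ∧
      P.natDegree = Fintype.card (SL(2, ℤ) ⧸ Gamma0 N) ∧
      ∀ τ : ℍ, P.map (Polynomial.evalRingHom (jInv τ)) =
        ∏ x : SL(2, ℤ) ⧸ Gamma0 N, (Polynomial.X - Polynomial.C (conj N h x τ)) := by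
  classical
  set n := Fintype.card (SL(2, ℤ) ⧸ Gamma0 N) with hn
  -- uniform pole order bound
  choose m hm using fun x : SL(2, ℤ) ⧸ Gamma0 N => hh.growth (x.out)⁻¹
  set M := ∑ x, m x with hM
  have hbd : ∀ x ∈ (Finset.univ : Finset (SL(2, ℤ) ⧸ Gamma0 N)),
      IsBoundedAtImInfty (fun τ : ℍ => Δ τ ^ M * conj N h x τ) := fun x _ =>
    growth_mono (F := conj N h x) (Finset.single_le_sum (fun _ _ => Nat.zero_le _)
      (Finset.mem_univ x)) (hm x)
  -- the coefficient functions are invariant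
  have hprod : ∀ (γ : SL(2, ℤ)) (τ : ℍ),
      ∏ x : SL(2, ℤ) ⧸ Gamma0 N, (Polynomial.X - Polynomial.C (conj N h x (γ • τ))) =
      ∏ x : SL(2, ℤ) ⧸ Gamma0 N, (Polynomial.X - Polynomial.C (conj N h x τ)) := by
    intro γ τ
    simp only [conj_smul hh]
    exact Fintype.prod_equiv (MulAction.toPerm γ⁻¹) _ _ (fun x => rfl)
  have hinv : ∀ (k : ℕ) (γ : SL(2, ℤ)) (τ : ℍ),
      coeffFun (conj N h) Finset.univ k (γ • τ) = coeffFun (conj N h) Finset.univ k τ := by
    intro k γ τ
    simp only [coeffFun]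
    rw [hprod γ τ]
  have hpoly : ∀ k : ℕ, ∃ p : Polynomial ℂ, ∀ τ : ℍ,
      coeffFun (conj N h) Finset.univ k τ = p.eval (jInv τ) := by
    intro k
    obtain ⟨p, -, hp⟩ := Fermat.Agent.Lib.JSurjPoly.exists_poly_of_invariant
      (mdiff_coeffFun (conj N h) Finset.univ (fun x _ => mdiff_conj hh x) k) (hinv k)
      (M * (Finset.univ : Finset (SL(2, ℤ) ⧸ Gamma0 N)).card)
      (isBounded_coeffFun (conj N h) Finset.univ M hbd k)
    exact ⟨p, hp⟩
  choose p hp using hpoly
  have hdeg : (∑ k ∈ Finset.range n, Polynomial.C (p k) * Polynomial.X ^ k :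
      Polynomial (Polynomial ℂ)).degree < n := by
    rw [Finset.sum_range]
    exact Polynomial.degree_sum_fin_lt (fun k : Fin n => p k)
  refine ⟨Polynomial.X ^ n + ∑ k ∈ Finset.range n, Polynomial.C (p k) * Polynomial.X ^ k,
    Polynomial.monic_X_pow_add hdeg, ?_, fun τ => ?_⟩
  · refine Polynomial.natDegree_eq_of_degree_eq_some ?_
    rw [Polynomial.degree_add_eq_left_of_degree_lt (by rwa [Polynomial.degree_X_pow]),
      Polynomial.degree_X_pow]
  have hQm : (∏ x : SL(2, ℤ) ⧸ Gamma0 N,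
      (Polynomial.X - Polynomial.C (conj N h x τ))).Monic :=
    Polynomial.monic_prod_of_monic _ _ fun x _ => Polynomial.monic_X_sub_C _
  have hQd : (∏ x : SL(2, ℤ) ⧸ Gamma0 N,
      (Polynomial.X - Polynomial.C (conj N h x τ))).natDegree = n := by
    rw [Polynomial.natDegree_prod_of_monic _ _ fun x _ => Polynomial.monic_X_sub_C _]
    simp [hn]
  rw [hQm.as_sum, hQd, Polynomial.map_add, Polynomial.map_pow, Polynomial.map_X,
    Polynomial.map_sum]
  congr 1
  refine Finset.sum_congr rfl fun k _ => ?_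
  rw [Polynomial.map_mul, Polynomial.map_pow, Polynomial.map_X, Polynomial.map_C,
    Polynomial.coe_evalRingHom, ← hp k τ]
  rfl

/-- A modular function for `Γ₀(N)` is a root of a polynomial over `ℂ[j]`, monic of degree
`[SL₂(ℤ) : Γ₀(N)]`. -/
theorem exists_monic_relation [Fintype (SL(2, ℤ) ⧸ Gamma0 N)] (hh : IsModFun N h) :
    ∃ P : Polynomial (Polynomial ℂ), P.Monic ∧
      P.natDegree = Fintype.card (SL(2, ℤ) ⧸ Gamma0 N) ∧
      ∀ τ : ℍ, (P.map (Polynomial.evalRingHom (jInv τ))).eval (h τ) = 0 := by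
  obtain ⟨P, hm, hd, hP⟩ := exists_charPoly hh
  refine ⟨P, hm, hd, fun τ => ?_⟩
  rw [hP τ, Polynomial.eval_prod]
  refine Finset.prod_eq_zero (Finset.mem_univ (QuotientGroup.mk 1)) ?_
  rw [conj_one hh]
  simp

end CharPoly

end Fermat.Agent.Lib.ModCharPoly
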