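import Mathlib
import Fermat.Agent.Lib.HolVal
import Fermat.Agent.P5.ModFun.LevelOne

/-!
# Calculus of `MerAtInfty`

`Fermat.Agent.P5.ModFun.MerAtInfty f g` (helper91, `P5/ModFun/LevelOne.lean`) says that the
quotient `f / g` of two functions on `ℍ` has at most a pole of finite order at `i∞`
(`‖Δ^m f‖ ≤ C ‖g‖` near `i∞`).  This file proves the closure properties of this notion:

* `merAtInfty_mul`, `merAtInfty_add`, `merAtInfty_neg`, `merAtInfty_pow`, `merAtInfty_one`;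
* `merAtInfty_of_pow` : **root closure** — if `(a'/b')^n = a/b` (i.e. `a'^n b = a b'^n`) and
  `a / b` is meromorphic at `i∞`, so is `a' / b'`;
* `merAtInfty_congr` : independence of the representation (`n = 1`);
* `exists_merAtInfty_of_pow` : the same for elements of `FractionRing Hol`.
-/

set_option autoImplicit false

open Filter Topology UpperHalfPlane
open scoped MatrixGroups Manifold

namespace Fermat.Agent.Lib.MerAtInftyCalc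

open Fermat.Agent.Lib.HolVal Fermat.Agent.P5.ModFun

local notation "Δ" => ModularForm.discriminant

/-- `Δ` is eventually of norm `≤ 1` at `i∞`. -/
theorem eventually_norm_discriminant_le_one : ∀ᶠ τ in atImInfty, ‖Δ τ‖ ≤ 1 := by
  have h : Tendsto (fun τ : ℍ => Δ τ) atImInfty (𝓝 0) := ModularForm.discriminant_isZeroAtImInfty
  have h' := h.norm
  rw [norm_zero] at h'
  exact h'.eventually_le_const zero_lt_one

theorem merAtInfty_one : MerAtInfty 1 1 := by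
  refine ⟨0, 1, Eventually.of_forall fun τ => ?_⟩
  simp

theorem merAtInfty_neg {a b : ℍ → ℂ} (h : MerAtInfty a b) : MerAtInfty (-a) b := by
  obtain ⟨m, C, hC⟩ := h
  refine ⟨m, C, hC.mono fun τ hτ => ?_⟩
  rw [Pi.neg_apply, mul_neg, norm_neg]
  exact hτ

theorem merAtInfty_mul {a₁ b₁ a₂ b₂ : ℍ → ℂ} (h₁ : MerAtInfty a₁ b₁) (h₂ : MerAtInfty a₂ b₂) :
    MerAtInfty (a₁ * a₂) (b₁ * b₂) := by
  obtain ⟨m₁, C₁, hC₁⟩ := h₁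
  obtain ⟨m₂, C₂, hC₂⟩ := h₂
  refine ⟨m₁ + m₂, C₁ * C₂, ?_⟩
  filter_upwards [hC₁, hC₂] with τ h1 h2
  have e : Δ τ ^ (m₁ + m₂) * (a₁ * a₂) τ = (Δ τ ^ m₁ * a₁ τ) * (Δ τ ^ m₂ * a₂ τ) := by
    rw [Pi.mul_apply]
    ring
  have e2 : ‖(b₁ * b₂) τ‖ = ‖b₁ τ‖ * ‖b₂ τ‖ := by rw [Pi.mul_apply, norm_mul]
  rw [e, e2, norm_mul (Δ τ ^ m₁ * a₁ τ) (Δ τ ^ m₂ * a₂ τ)]
  calc ‖Δ τ ^ m₁ * a₁ τ‖ * ‖Δ τ ^ m₂ * a₂ τ‖
      ≤ (C₁ * ‖b₁ τ‖) * (C₂ * ‖b₂ τ‖) :=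
        mul_le_mul h1 h2 (norm_nonneg _) ((norm_nonneg _).trans h1)
    _ = C₁ * C₂ * (‖b₁ τ‖ * ‖b₂ τ‖) := by ring

theorem merAtInfty_pow {a b : ℍ → ℂ} (h : MerAtInfty a b) (k : ℕ) : MerAtInfty (a ^ k) (b ^ k) := by
  induction k with
  | zero => simpa using merAtInfty_one
  | succ k ih =>
    rw [pow_succ, pow_succ]
    exact merAtInfty_mul ih h

theorem merAtInfty_add {a₁ b₁ a₂ b₂ : ℍ → ℂ} (h₁ : MerAtInfty a₁ b₁) (h₂ : MerAtInfty a₂ b₂) :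
    MerAtInfty (a₁ * b₂ + a₂ * b₁) (b₁ * b₂) := by
  obtain ⟨m₁, C₁, hC₁⟩ := h₁
  obtain ⟨m₂, C₂, hC₂⟩ := h₂
  refine ⟨m₁ + m₂, max C₁ 0 + max C₂ 0, ?_⟩
  filter_upwards [hC₁, hC₂, eventually_norm_discriminant_le_one] with τ h1 h2 hΔ
  have e : Δ τ ^ (m₁ + m₂) * (a₁ * b₂ + a₂ * b₁) τ
      = Δ τ ^ m₂ * (Δ τ ^ m₁ * a₁ τ) * b₂ τ + Δ τ ^ m₁ * (Δ τ ^ m₂ * a₂ τ) * b₁ τ := by
    simp only [Pi.add_apply, Pi.mul_apply]
    ring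
  have hp1 : ‖Δ τ ^ m₁‖ ≤ 1 := by
    rw [norm_pow]
    exact pow_le_one₀ (norm_nonneg _) hΔ
  have hp2 : ‖Δ τ ^ m₂‖ ≤ 1 := by
    rw [norm_pow]
    exact pow_le_one₀ (norm_nonneg _) hΔ
  have h1' : ‖Δ τ ^ m₁ * a₁ τ‖ ≤ max C₁ 0 * ‖b₁ τ‖ :=
    h1.trans (mul_le_mul_of_nonneg_right (le_max_left _ _) (norm_nonneg _))
  have h2' : ‖Δ τ ^ m₂ * a₂ τ‖ ≤ max C₂ 0 * ‖b₂ τ‖ :=
    h2.trans (mul_le_mul_of_nonneg_right (le_max_left _ _) (norm_nonneg _))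
  have hc1 : (0 : ℝ) ≤ max C₁ 0 := le_max_right _ _
  have hc2 : (0 : ℝ) ≤ max C₂ 0 := le_max_right _ _
  have e2 : ‖(b₁ * b₂) τ‖ = ‖b₁ τ‖ * ‖b₂ τ‖ := by rw [Pi.mul_apply, norm_mul]
  have n3 : ∀ x y z : ℂ, ‖x * y * z‖ = ‖x‖ * ‖y‖ * ‖z‖ := fun x y z => by
    rw [norm_mul (x * y) z, norm_mul x y]
  rw [e, e2]
  calc ‖Δ τ ^ m₂ * (Δ τ ^ m₁ * a₁ τ) * b₂ τ + Δ τ ^ m₁ * (Δ τ ^ m₂ * a₂ τ) * b₁ τ‖
      ≤ ‖Δ τ ^ m₂ * (Δ τ ^ m₁ * a₁ τ) * b₂ τ‖ + ‖Δ τ ^ m₁ * (Δ τ ^ m₂ * a₂ τ) * b₁ τ‖ :=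
        norm_add_le _ _
    _ = ‖Δ τ ^ m₂‖ * ‖Δ τ ^ m₁ * a₁ τ‖ * ‖b₂ τ‖ + ‖Δ τ ^ m₁‖ * ‖Δ τ ^ m₂ * a₂ τ‖ * ‖b₁ τ‖ := by
        rw [n3, n3]
    _ ≤ 1 * (max C₁ 0 * ‖b₁ τ‖) * ‖b₂ τ‖ + 1 * (max C₂ 0 * ‖b₂ τ‖) * ‖b₁ τ‖ := by
        gcongr
    _ = (max C₁ 0 + max C₂ 0) * (‖b₁ τ‖ * ‖b₂ τ‖) := by ring

/-- A nonzero holomorphic function on `ℍ` is nonzero at points arbitrarily close to any given
point. -/
theorem frequently_ne_zero {b : ℍ → ℂ} (hb : MDiff b) (hb0 : b ≠ 0) (τ₀ : ℍ) :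
    ∃ᶠ τ in 𝓝 τ₀, b τ ≠ 0 := by
  intro hev
  apply hb0
  apply eq_zero_of_eventually hb τ₀
  rw [← isOpenEmbedding_coe.map_nhds_eq τ₀, eventually_map]
  refine hev.mono fun τ hτ => ?_
  simp only [Function.comp_apply, ofComplex_apply]
  exact not_not.mp hτ

/-- **Root closure of `MerAtInfty`.** If `(a'/b')^n = a/b`, in the form `a'^n b = a b'^n`, with
`b` holomorphic and not identically zero, and `a / b` has at most a pole of finite order at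
`i∞`, then so has `a' / b'`. -/
theorem merAtInfty_of_pow {a b a' b' : ℍ → ℂ} (ha' : Continuous a') (hb' : Continuous b')
    (hb : MDiff b) (hb0 : b ≠ 0) {n : ℕ} (hn : 0 < n)
    (hrel : ∀ τ, a' τ ^ n * b τ = a τ * b' τ ^ n) (h : MerAtInfty a b) : MerAtInfty a' b' := by
  obtain ⟨m, C, hC⟩ := h
  obtain ⟨A, hA⟩ := (atImInfty_mem _).mp (hC.and eventually_norm_discriminant_le_one)
  refine ⟨m, max C 1, ?_⟩
  rw [Filter.Eventually, atImInfty_mem]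
  refine ⟨A + 1, fun τ₀ hτ₀ => ?_⟩
  have hΔc : Continuous (fun τ : ℍ => Δ τ) := mdiff_discriminant.continuous
  have hclosed : IsClosed {τ : ℍ | ‖Δ τ ^ m * a' τ‖ ≤ max C 1 * ‖b' τ‖} :=
    isClosed_le (by fun_prop) (by fun_prop)
  have hevA : ∀ᶠ τ in 𝓝 τ₀, A ≤ τ.im := by
    have hlt : A < τ₀.im := by linarith
    exact (UpperHalfPlane.continuous_im.continuousAt.eventually (lt_mem_nhds hlt)).mono
      fun τ hτ => le_of_lt hτ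
  have hfreq : ∃ᶠ τ in 𝓝 τ₀, b τ ≠ 0 ∧ A ≤ τ.im :=
    (frequently_ne_zero hb hb0 τ₀).and_eventually hevA
  refine hclosed.mem_of_frequently_of_tendsto (hfreq.mono ?_) tendsto_id
  rintro τ ⟨hbτ, hAτ⟩
  obtain ⟨h1, h2⟩ := hA τ hAτ
  obtain ⟨k, rfl⟩ : ∃ k, n = k + 1 := Nat.exists_eq_succ_of_ne_zero hn.ne'
  have hbpos : 0 < ‖b τ‖ := norm_pos_iff.mpr hbτ
  have hmax1 : (1 : ℝ) ≤ max C 1 := le_max_right _ _
  have hmax0 : (0 : ℝ) ≤ max C 1 := zero_le_one.trans hmax1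
  show ‖Δ τ ^ m * a' τ‖ ≤ max C 1 * ‖b' τ‖
  rw [← pow_le_pow_iff_left₀ (norm_nonneg _) (mul_nonneg hmax0 (norm_nonneg _))
    (Nat.succ_ne_zero k)]
  have hnorm : ‖a' τ‖ ^ (k + 1) * ‖b τ‖ = ‖a τ‖ * ‖b' τ‖ ^ (k + 1) := by
    have := congrArg norm (hrel τ)
    rwa [norm_mul, norm_mul, norm_pow, norm_pow] at this
  have hΔk : ‖Δ τ‖ ^ (m * k) ≤ 1 := pow_le_one₀ (norm_nonneg _) h2
  have hkey : ‖Δ τ ^ m * a' τ‖ ^ (k + 1) * ‖b τ‖ ≤ (C * ‖b' τ‖ ^ (k + 1)) * ‖b τ‖ := by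
    have e1 : ‖Δ τ ^ m * a' τ‖ ^ (k + 1) * ‖b τ‖
        = ‖Δ τ‖ ^ (m * k) * ‖Δ τ ^ m * a τ‖ * ‖b' τ‖ ^ (k + 1) := by
      have x1 : ‖Δ τ ^ m * a' τ‖ = ‖Δ τ‖ ^ m * ‖a' τ‖ := by rw [norm_mul, norm_pow]
      have x2 : ‖Δ τ ^ m * a τ‖ = ‖Δ τ‖ ^ m * ‖a τ‖ := by rw [norm_mul, norm_pow]
      rw [x1, x2]
      calc (‖Δ τ‖ ^ m * ‖a' τ‖) ^ (k + 1) * ‖b τ‖
          = ‖Δ τ‖ ^ (m * k) * ‖Δ τ‖ ^ m * (‖a' τ‖ ^ (k + 1) * ‖b τ‖) := by ring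
        _ = ‖Δ τ‖ ^ (m * k) * ‖Δ τ‖ ^ m * (‖a τ‖ * ‖b' τ‖ ^ (k + 1)) := by rw [hnorm]
        _ = ‖Δ τ‖ ^ (m * k) * (‖Δ τ‖ ^ m * ‖a τ‖) * ‖b' τ‖ ^ (k + 1) := by ring
    rw [e1]
    calc ‖Δ τ‖ ^ (m * k) * ‖Δ τ ^ m * a τ‖ * ‖b' τ‖ ^ (k + 1)
        ≤ 1 * (C * ‖b τ‖) * ‖b' τ‖ ^ (k + 1) := by
          gcongr
      _ = (C * ‖b' τ‖ ^ (k + 1)) * ‖b τ‖ := by ring
  have hkey' : ‖Δ τ ^ m * a' τ‖ ^ (k + 1) ≤ C * ‖b' τ‖ ^ (k + 1) :=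
    le_of_mul_le_mul_right hkey hbpos
  calc ‖Δ τ ^ m * a' τ‖ ^ (k + 1) ≤ C * ‖b' τ‖ ^ (k + 1) := hkey'
    _ ≤ max C 1 ^ (k + 1) * ‖b' τ‖ ^ (k + 1) := by
        have : C ≤ max C 1 ^ (k + 1) :=
          (le_max_left C 1).trans (le_self_pow₀ hmax1 (Nat.succ_ne_zero k))
        exact mul_le_mul_of_nonneg_right this (pow_nonneg (norm_nonneg _) _)
    _ = (max C 1 * ‖b' τ‖) ^ (k + 1) := by rw [mul_pow]

/-- **Independence of the representation**: if `a / b = a' / b'` (as `a' b = a b'`) and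
`a / b` has at most a pole of finite order at `i∞`, so has `a' / b'`. -/
theorem merAtInfty_congr {a b a' b' : ℍ → ℂ} (ha' : Continuous a') (hb' : Continuous b')
    (hb : MDiff b) (hb0 : b ≠ 0) (hrel : ∀ τ, a' τ * b τ = a τ * b' τ) (h : MerAtInfty a b) :
    MerAtInfty a' b' :=
  merAtInfty_of_pow ha' hb' hb hb0 one_pos (fun τ => by simpa using hrel τ) h

/-- **Root closure in `FractionRing Hol`**: if `G ^ n` is meromorphic at `i∞` (it has a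
representation `a / b` with `MerAtInfty a b`), then so is `G`; in fact *every* representation
`G = a' / b'` satisfies `MerAtInfty a' b'`. -/
theorem merAtInfty_of_pow_mer (G : FractionRing Hol) {n : ℕ} (hn : 0 < n)
    (h : ∃ a b : Hol, b ≠ 0 ∧ G ^ n * algebraMap Hol (FractionRing Hol) b
      = algebraMap Hol (FractionRing Hol) a ∧ MerAtInfty (a : ℍ → ℂ) (b : ℍ → ℂ))
    (a' b' : Hol) (hG : G * algebraMap Hol (FractionRing Hol) b'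
      = algebraMap Hol (FractionRing Hol) a') :
    MerAtInfty (a' : ℍ → ℂ) (b' : ℍ → ℂ) := by
  obtain ⟨a, b, hb0, hab, hmer⟩ := h
  have hrel : a' ^ n * b = a * b' ^ n := by
    apply IsFractionRing.injective Hol (FractionRing Hol)
    rw [map_mul, map_mul, map_pow, map_pow, ← hG, ← hab]
    ring
  refine merAtInfty_of_pow a'.2.continuous b'.2.continuous b.2 (coe_ne_zero hb0) hn ?_ hmer
  intro τ
  have := congrArg (fun f : Hol => (f : ℍ → ℂ) τ) hrel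
  exact this

/-- **Root closure in `FractionRing Hol`**, existential form (this is `IsMerInf (G ^ n) →
IsMerInf G` for the predicate `IsMerInf G := ∃ a b : Hol, b ≠ 0 ∧ G * b = a ∧ MerAtInfty a b`). -/
theorem exists_merAtInfty_of_pow (G : FractionRing Hol) {n : ℕ} (hn : 0 < n)
    (h : ∃ a b : Hol, b ≠ 0 ∧ G ^ n * algebraMap Hol (FractionRing Hol) b
      = algebraMap Hol (FractionRing Hol) a ∧ MerAtInfty (a : ℍ → ℂ) (b : ℍ → ℂ)) :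
    ∃ a b : Hol, b ≠ 0 ∧ G * algebraMap Hol (FractionRing Hol) b
      = algebraMap Hol (FractionRing Hol) a ∧ MerAtInfty (a : ℍ → ℂ) (b : ℍ → ℂ) := by
  obtain ⟨a', b', hb', rfl⟩ := IsFractionRing.div_surjective Hol G
  have hb'0 : b' ≠ 0 := nonZeroDivisors.ne_zero hb'
  have hb'' : algebraMap Hol (FractionRing Hol) b' ≠ 0 := by
    intro h0
    exact hb'0 (IsFractionRing.injective Hol (FractionRing Hol) (by rw [h0, map_zero]))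
  have hG : algebraMap Hol (FractionRing Hol) a' / algebraMap Hol (FractionRing Hol) b'
      * algebraMap Hol (FractionRing Hol) b' = algebraMap Hol (FractionRing Hol) a' :=
    div_mul_cancel₀ _ hb''
  exact ⟨a', b', hb'0, hG, merAtInfty_of_pow_mer _ hn h a' b' hG⟩

end Fermat.Agent.Lib.MerAtInftyCalc
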