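import Mathlib
import Fermat.Prelude.Def_ModularCurve_ArithmeticGalois

set_option autoImplicit false

noncomputable section

namespace Fermat.Agent.Lib.ModFieldLift

open IntermediateField

section General

variable {k E M : Type*} [Field k] [Field E] [Algebra k E] [Field M] {σ : Type*}

theorem aeval_mem_algebraAdjoin (g : σ → E) (P : MvPolynomial σ k) :
    MvPolynomial.aeval g P ∈ Algebra.adjoin k (Set.range g) := by
  rw [Algebra.adjoin_range_eq_range_aeval]
  exact ⟨P, rfl⟩

theorem aeval_mem_adjoin (g : σ → E) (P : MvPolynomial σ k) :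
    MvPolynomial.aeval g P ∈ adjoin k (Set.range g) :=
  algebra_adjoin_le_adjoin k _ (aeval_mem_algebraAdjoin g P)

/-- The polynomial evaluation map onto the subalgebra generated by the family. -/
def piHom (g : σ → E) : MvPolynomial σ k →+* Algebra.adjoin k (Set.range g) :=
  ((MvPolynomial.aeval g).codRestrict (Algebra.adjoin k (Set.range g))
    (aeval_mem_algebraAdjoin g)).toRingHom

theorem piHom_coe (g : σ → E) (P : MvPolynomial σ k) :
    ((piHom g P : Algebra.adjoin k (Set.range g)) : E) = MvPolynomial.aeval g P := rfl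

theorem piHom_surjective (g : σ → E) : Function.Surjective (piHom (k := k) g) := by
  rintro ⟨a, ha⟩
  rw [Algebra.adjoin_range_eq_range_aeval] at ha
  obtain ⟨P, rfl⟩ := ha
  exact ⟨P, Subtype.ext rfl⟩

/-- The ring hom on the generated subalgebra induced by a compatible evaluation. -/
def psiA (g : σ → E) (ι : k →+* M) (J : σ → M)
    (hker : ∀ P : MvPolynomial σ k, MvPolynomial.aeval g P = 0 → MvPolynomial.eval₂ ι J P = 0) :
    Algebra.adjoin k (Set.range g) →+* M :=
  (piHom g).liftOfSurjective (piHom_surjective g)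
    ⟨MvPolynomial.eval₂Hom ι J, fun P hP => by
      rw [RingHom.mem_ker] at hP ⊢
      have h0 : MvPolynomial.aeval g P = 0 := by
        have := congrArg (Subtype.val) hP
        simpa [piHom_coe] using this
      simpa using hker P h0⟩

theorem psiA_piHom (g : σ → E) (ι : k →+* M) (J : σ → M)
    (hker : ∀ P : MvPolynomial σ k, MvPolynomial.aeval g P = 0 → MvPolynomial.eval₂ ι J P = 0)
    (P : MvPolynomial σ k) : psiA g ι J hker (piHom g P) = MvPolynomial.eval₂ ι J P := by
  unfold psiA
  rw [RingHom.liftOfSurjective_comp_apply]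
  rfl

theorem psiA_injective (g : σ → E) (ι : k →+* M) (J : σ → M)
    (hker : ∀ P : MvPolynomial σ k, MvPolynomial.aeval g P = 0 ↔ MvPolynomial.eval₂ ι J P = 0) :
    Function.Injective (psiA g ι J (fun P => (hker P).mp)) := by
  rw [injective_iff_map_eq_zero]
  intro a ha
  obtain ⟨P, rfl⟩ := piHom_surjective g a
  rw [psiA_piHom] at ha
  have h0 := (hker P).mpr ha
  exact Subtype.ext (by simpa [piHom_coe] using h0)

open scoped IntermediateField.algebraAdjoinAdjoin in
/-- The embedding of the generated field induced by a compatible evaluation of the generators. -/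
def liftHom (g : σ → E) (ι : k →+* M) (J : σ → M)
    (hker : ∀ P : MvPolynomial σ k, MvPolynomial.aeval g P = 0 ↔ MvPolynomial.eval₂ ι J P = 0) :
    adjoin k (Set.range g) →+* M :=
  IsFractionRing.lift (A := Algebra.adjoin k (Set.range g)) (psiA_injective g ι J hker)

open scoped IntermediateField.algebraAdjoinAdjoin in
theorem liftHom_aeval (g : σ → E) (ι : k →+* M) (J : σ → M)
    (hker : ∀ P : MvPolynomial σ k, MvPolynomial.aeval g P = 0 ↔ MvPolynomial.eval₂ ι J P = 0)
    (P : MvPolynomial σ k) :
    liftHom g ι J hker ⟨MvPolynomial.aeval g P, aeval_mem_adjoin g P⟩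
      = MvPolynomial.eval₂ ι J P := by
  have h1 : (⟨MvPolynomial.aeval g P, aeval_mem_adjoin g P⟩ : adjoin k (Set.range g))
      = algebraMap (Algebra.adjoin k (Set.range g)) (adjoin k (Set.range g)) (piHom g P) := rfl
  rw [h1]
  unfold liftHom
  rw [IsFractionRing.lift_algebraMap, psiA_piHom]

theorem liftHom_algebraMap (g : σ → E) (ι : k →+* M) (J : σ → M)
    (hker : ∀ P : MvPolynomial σ k, MvPolynomial.aeval g P = 0 ↔ MvPolynomial.eval₂ ι J P = 0)
    (c : k) : liftHom g ι J hker (algebraMap k _ c) = ι c := by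
  have h := liftHom_aeval g ι J hker (MvPolynomial.C c)
  rw [MvPolynomial.eval₂_C] at h
  rw [← h]
  congr 1
  exact Subtype.ext (by simp)

theorem liftHom_gen (g : σ → E) (ι : k →+* M) (J : σ → M)
    (hker : ∀ P : MvPolynomial σ k, MvPolynomial.aeval g P = 0 ↔ MvPolynomial.eval₂ ι J P = 0)
    (i : σ) : liftHom g ι J hker ⟨g i, subset_adjoin k _ ⟨i, rfl⟩⟩ = J i := by
  have h := liftHom_aeval g ι J hker (MvPolynomial.X i)
  rw [MvPolynomial.eval₂_X] at h
  rw [← h]
  congr 1
  exact Subtype.ext (by simp)

/-- Two ring homs out of the generated field agreeing on constants and generators agree. -/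
theorem ringHom_ext_adjoin (g : σ → E) (φ ψ : adjoin k (Set.range g) →+* M)
    (hc : ∀ c : k, φ (algebraMap k _ c) = ψ (algebraMap k _ c))
    (hg : ∀ i, φ ⟨g i, subset_adjoin k _ ⟨i, rfl⟩⟩ = ψ ⟨g i, subset_adjoin k _ ⟨i, rfl⟩⟩) :
    φ = ψ := by
  have key : ∀ P : MvPolynomial σ k,
      φ ⟨MvPolynomial.aeval g P, aeval_mem_adjoin g P⟩
        = ψ ⟨MvPolynomial.aeval g P, aeval_mem_adjoin g P⟩ := by
    intro P
    induction P using MvPolynomial.induction_on with
    | C c =>
      have e : (⟨MvPolynomial.aeval g (MvPolynomial.C c), aeval_mem_adjoin g _⟩ :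
          adjoin k (Set.range g)) = algebraMap k _ c :=
        Subtype.ext (by simp)
      rw [e, hc]
    | add p q hp hq =>
      have e : (⟨MvPolynomial.aeval g (p + q), aeval_mem_adjoin g _⟩ : adjoin k (Set.range g))
          = ⟨MvPolynomial.aeval g p, aeval_mem_adjoin g p⟩
            + ⟨MvPolynomial.aeval g q, aeval_mem_adjoin g q⟩ :=
        Subtype.ext (by simp)
      rw [e, map_add, map_add, hp, hq]
    | mul_X p i hp =>
      have e : (⟨MvPolynomial.aeval g (p * MvPolynomial.X i), aeval_mem_adjoin g _⟩ :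
          adjoin k (Set.range g))
          = ⟨MvPolynomial.aeval g p, aeval_mem_adjoin g p⟩
            * ⟨g i, subset_adjoin k _ ⟨i, rfl⟩⟩ :=
        Subtype.ext (by simp)
      rw [e, map_mul, map_mul, hp, hg]
  refine RingHom.ext fun x => ?_
  obtain ⟨r, s, hx⟩ := (mem_adjoin_range_iff k g x.1).mp x.2
  have hx' : x = (⟨MvPolynomial.aeval g r, aeval_mem_adjoin g r⟩ : adjoin k (Set.range g))
      / ⟨MvPolynomial.aeval g s, aeval_mem_adjoin g s⟩ := Subtype.ext (by simpa using hx)
  rw [hx', map_div₀, map_div₀, key r, key s]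

section OfEq

variable (F : IntermediateField k E) (g : σ → E) (hF : adjoin k (Set.range g) = F)

/-- generators as elements of `F` -/
def genF (hF : adjoin k (Set.range g) = F) (i : σ) : F :=
  ⟨g i, hF ▸ subset_adjoin k _ ⟨i, rfl⟩⟩

theorem coe_aeval_genF (P : MvPolynomial σ k) :
    ((MvPolynomial.aeval (genF F g hF) P : F) : E) = MvPolynomial.aeval g P :=
  MvPolynomial.comp_aeval_apply (genF F g hF) F.val P

theorem exists_ringHom_of_eq (ι : k →+* M) (J : σ → M)
    (hker : ∀ P : MvPolynomial σ k, MvPolynomial.aeval g P = 0 ↔ MvPolynomial.eval₂ ι J P = 0) :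
    ∃ φ : F →+* M, (∀ c : k, φ (algebraMap k F c) = ι c) ∧ (∀ i, φ (genF F g hF i) = J i) ∧
      ∀ P : MvPolynomial σ k, φ (MvPolynomial.aeval (genF F g hF) P) = MvPolynomial.eval₂ ι J P := by
  subst hF
  refine ⟨liftHom g ι J hker, liftHom_algebraMap g ι J hker, liftHom_gen g ι J hker, fun P => ?_⟩
  rw [← liftHom_aeval g ι J hker P]
  congr 1
  exact Subtype.ext (coe_aeval_genF _ g rfl P)

theorem ringHom_ext_of_eq (φ ψ : F →+* M)
    (hc : ∀ c : k, φ (algebraMap k F c) = ψ (algebraMap k F c))
    (hg : ∀ i, φ (genF F g hF i) = ψ (genF F g hF i)) : φ = ψ := by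
  subst hF
  exact ringHom_ext_adjoin g φ ψ hc hg

end OfEq

end General

section Modular

open ModularCurve

variable (L : Type*) [Field L] [Algebra ℚ L]

/-- Index type for the generators: the divisors of `N`. -/
abbrev Dv (N : ℕ) : Type := {d : ℕ // d ∣ N}

theorem Dv.neZero {N : ℕ} [NeZero N] (d : Dv N) : NeZero d.1 :=
  ⟨ne_zero_of_dvd_ne_zero (NeZero.ne N) d.2⟩

/-- The generator `j(q^d)` with coefficients in `L`, as a Laurent series. -/
def gen (N : ℕ) [NeZero N] (d : Dv N) : LaurentSeries L :=
  have := Dv.neZero d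
  coeffEmb L (qExpand ℚ d.1 jq)

theorem gen_eq (N : ℕ) [NeZero N] (d : ℕ) [NeZero d] (hd : d ∣ N) :
    gen L N ⟨d, hd⟩ = coeffEmb L (qExpand ℚ d jq) := rfl

theorem gen_mem (N : ℕ) [NeZero N] (d : Dv N) :
    gen L N d ∈ laurentBaseChange L (modularFunctionFieldFull N) := by
  have := Dv.neZero d
  exact coeffEmb_mem_laurentBaseChange L (jqd_mem_full N d.2)

theorem coeffEmb_algebraMap (c : ℚ) :
    coeffEmb L (algebraMap ℚ (LaurentSeries ℚ) c)
      = algebraMap L (LaurentSeries L) (algebraMap ℚ L c) := by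
  rw [algebraMap_laurentSeries_eq_single, algebraMap_laurentSeries_eq_single, coeffEmb,
    coeffMap_single]

theorem coeffEmb_mem_adjoin_gen (N : ℕ) [NeZero N] {x : LaurentSeries ℚ}
    (hx : x ∈ adjoin ℚ (divisorExpansions N)) :
    coeffEmb L x ∈ adjoin L (Set.range (gen L N)) := by
  induction hx using IntermediateField.adjoin_induction with
  | mem y hy =>
    obtain ⟨d, hne, hdvd, rfl⟩ := hy
    exact subset_adjoin L _ ⟨⟨d, hdvd⟩, rfl⟩
  | algebraMap c =>
    rw [coeffEmb_algebraMap]
    exact (adjoin L _).algebraMap_mem _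
  | add y z _ _ hy hz =>
    rw [map_add]
    exact add_mem hy hz
  | inv y _ hy =>
    rw [map_inv₀]
    exact inv_mem hy
  | mul y z _ _ hy hz =>
    rw [map_mul]
    exact mul_mem hy hz

theorem adjoin_gen (N : ℕ) [NeZero N] :
    adjoin L (Set.range (gen L N)) = laurentBaseChange L (modularFunctionFieldFull N) := by
  apply le_antisymm
  · rw [adjoin_le_iff]
    rintro _ ⟨d, rfl⟩
    exact gen_mem L N d
  · rw [laurentBaseChange, adjoin_le_iff]
    rintro _ ⟨x, hx, rfl⟩
    exact coeffEmb_mem_adjoin_gen L N hx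

/-- The generator `j(q^d)` as an element of the function field. -/
def jd (N : ℕ) [NeZero N] (d : Dv N) : laurentBaseChange L (modularFunctionFieldFull N) :=
  genF _ (gen L N) (adjoin_gen L N) d

@[simp]
theorem jd_coe (N : ℕ) [NeZero N] (d : Dv N) : ((jd L N d : _) : LaurentSeries L) = gen L N d :=
  rfl

theorem coe_aeval_jd (N : ℕ) [NeZero N] (P : MvPolynomial (Dv N) L) :
    ((MvPolynomial.aeval (jd L N) P : laurentBaseChange L (modularFunctionFieldFull N)) :
      LaurentSeries L) = MvPolynomial.aeval (gen L N) P :=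
  coe_aeval_genF _ (gen L N) (adjoin_gen L N) P

variable {L}

/-- LIFT: a compatible evaluation of the generators extends to a ring hom on the field. -/
theorem exists_ringHom (N : ℕ) [NeZero N] {M : Type*} [Field M] (ι : L →+* M) (J : Dv N → M)
    (hker : ∀ P : MvPolynomial (Dv N) L,
      MvPolynomial.aeval (gen L N) P = 0 ↔ MvPolynomial.eval₂ ι J P = 0) :
    ∃ φ : laurentBaseChange L (modularFunctionFieldFull N) →+* M,
      (∀ c : L, φ (algebraMap L _ c) = ι c) ∧ (∀ d, φ (jd L N d) = J d) ∧
      ∀ P : MvPolynomial (Dv N) L, φ (MvPolynomial.aeval (jd L N) P) = MvPolynomial.eval₂ ι J P :=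
  exists_ringHom_of_eq _ (gen L N) (adjoin_gen L N) ι J hker

/-- Two ring homs out of the function field agreeing on constants and generators agree. -/
theorem ringHom_ext (N : ℕ) [NeZero N] {M : Type*} [Field M]
    (φ ψ : laurentBaseChange L (modularFunctionFieldFull N) →+* M)
    (hc : ∀ c : L, φ (algebraMap L _ c) = ψ (algebraMap L _ c))
    (hg : ∀ d, φ (jd L N d) = ψ (jd L N d)) : φ = ψ :=
  ringHom_ext_of_eq _ (gen L N) (adjoin_gen L N) φ ψ hc hg

section Transcendental

variable (L)

theorem coeffEmb_ofPowerSeries (p : PowerSeries ℚ) :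
    coeffEmb L (HahnSeries.ofPowerSeries ℤ ℚ p)
      = HahnSeries.ofPowerSeries ℤ L (p.map (algebraMap ℚ L)) := by
  ext k
  rw [coeffEmb_coeff]
  rcases lt_or_ge k 0 with hk | hk
  · rw [ofPowerSeries_coeff_of_neg _ hk, ofPowerSeries_coeff_of_neg _ hk, map_zero]
  · lift k to ℕ using hk
    rw [HahnSeries.ofPowerSeries_apply_coeff, HahnSeries.ofPowerSeries_apply_coeff,
      PowerSeries.coeff_map]

theorem coeffEmb_jq :
    coeffEmb L jq = HahnSeries.single (-1 : ℤ) 1
      * HahnSeries.ofPowerSeries ℤ L (jNumQ.map (algebraMap ℚ L)) := by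
  rw [jq, map_mul, coeffEmb_ofPowerSeries, coeffEmb, coeffMap_single, map_one]

omit [Algebra ℚ L] in
/-- A Laurent series whose inverse is a power series without constant term is transcendental. -/
theorem transcendental_of_mul_eq_one {x : LaurentSeries L} {p : PowerSeries L}
    (hp0 : PowerSeries.constantCoeff p = 0)
    (hx : x * HahnSeries.ofPowerSeries ℤ L p = 1) : Transcendental L x := by
  intro hxalg
  set y : LaurentSeries L := HahnSeries.ofPowerSeries ℤ L p with hy
  have hy0 : y ≠ 0 := fun h => by rw [h, mul_zero] at hx; exact zero_ne_one hx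
  have hyx : y = x⁻¹ := eq_inv_of_mul_eq_one_right hx
  have hyalg : IsAlgebraic L y := hyx ▸ hxalg.inv
  have hint : IsIntegral L y := hyalg.isIntegral
  have hc0 := minpoly.coeff_zero_ne_zero hint hy0
  have hroot : Polynomial.aeval y (minpoly L y) = 0 := minpoly.aeval L y
  have h1 : Polynomial.aeval y (minpoly L y)
      = HahnSeries.ofPowerSeries ℤ L (Polynomial.aeval p (minpoly L y)) := by
    rw [Polynomial.aeval_def, Polynomial.aeval_def, Polynomial.hom_eval₂]
    congr 1
  rw [h1] at hroot
  have h2 : Polynomial.aeval p (minpoly L y) = 0 := by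
    have hinj := HahnSeries.ofPowerSeries_injective (Γ := ℤ) (R := L)
    exact hinj (by rw [hroot, map_zero])
  have h3 := congrArg (PowerSeries.constantCoeff (R := L)) h2
  rw [map_zero, Polynomial.aeval_def, Polynomial.hom_eval₂, hp0] at h3
  have h4 : (PowerSeries.constantCoeff (R := L)).comp (algebraMap L (PowerSeries L))
      = RingHom.id L := by
    ext c
    simp
  rw [h4, Polynomial.eval₂_id, ← Polynomial.coeff_zero_eq_eval_zero] at h3
  exact hc0 h3

theorem transcendental_coeffEmb_jq : Transcendental L (coeffEmb L jq) := by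
  have hu : PowerSeries.constantCoeff (jNumQ.map (algebraMap ℚ L)) ≠ 0 := by
    rw [← PowerSeries.coeff_zero_eq_constantCoeff_apply, PowerSeries.coeff_map,
      PowerSeries.coeff_zero_eq_constantCoeff_apply, constantCoeff_jNumQ, map_one]
    exact one_ne_zero
  refine transcendental_of_mul_eq_one L
    (p := PowerSeries.X * (jNumQ.map (algebraMap ℚ L))⁻¹) (by simp) ?_
  rw [coeffEmb_jq, map_mul, HahnSeries.ofPowerSeries_X]
  calc HahnSeries.single (-1 : ℤ) (1 : L)
        * HahnSeries.ofPowerSeries ℤ L (jNumQ.map (algebraMap ℚ L))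
        * (HahnSeries.single 1 1
          * HahnSeries.ofPowerSeries ℤ L (jNumQ.map (algebraMap ℚ L))⁻¹)
      = (HahnSeries.single (-1 : ℤ) (1 : L) * HahnSeries.single 1 1)
        * HahnSeries.ofPowerSeries ℤ L
          (jNumQ.map (algebraMap ℚ L) * (jNumQ.map (algebraMap ℚ L))⁻¹) := by
        rw [map_mul]; ring
    _ = 1 := by
        rw [PowerSeries.mul_inv_cancel _ hu, RingHom.map_one, mul_one,
          HahnSeries.single_mul_single]
        simp

/-- `j = jd 1` is transcendental over the constants. -/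
theorem transcendental_jd_one (N : ℕ) [NeZero N] :
    Transcendental L (jd L N ⟨1, one_dvd N⟩) := by
  have h := transcendental_coeffEmb_jq L
  have e : ((jd L N ⟨1, one_dvd N⟩ : _) : LaurentSeries L) = coeffEmb L jq := by
    rw [jd_coe, gen_eq L N 1 (one_dvd N), qExpand_one_apply]
  rw [← e] at h
  intro halg
  exact h (halg.algHom (laurentBaseChange L (modularFunctionFieldFull N)).val)

end Transcendental

section CoeffMap

variable {R S : Type*} [CommRing R] [CommRing S]

theorem coeffMap_injective (f : R →+* S) (hf : Function.Injective f) :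
    Function.Injective (coeffMap f) := by
  intro x y h
  ext k
  have := congrArg (fun z => HahnSeries.coeff z k) h
  simp only [coeffMap_coeff] at this
  exact hf this

theorem coeffMap_algebraMap' {L' M' : Type*} [Field L'] [Field M'] (ι : L' →+* M') (c : L') :
    coeffMap ι (algebraMap L' (LaurentSeries L') c) = algebraMap M' (LaurentSeries M') (ι c) := by
  rw [algebraMap_laurentSeries_eq_single, algebraMap_laurentSeries_eq_single, coeffMap_single]

/-- Base change of coefficients commutes with polynomial evaluation. -/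
theorem coeffMap_aeval {L' M' : Type*} [Field L'] [Field M'] (ι : L' →+* M') {σ : Type*}
    (g : σ → LaurentSeries L') (P : MvPolynomial σ L') :
    coeffMap ι (MvPolynomial.aeval g P)
      = MvPolynomial.eval₂ ((algebraMap M' (LaurentSeries M')).comp ι)
          (fun i => coeffMap ι (g i)) P := by
  rw [MvPolynomial.map_aeval]
  show MvPolynomial.eval₂ _ _ P = _
  congr 1
  ext c : 1
  exact coeffMap_algebraMap' ι c

end CoeffMap

end Modular

end Fermat.Agent.Lib.ModFieldLift
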