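import Mathlib
import Fermat.Agent.S24.ModDefs
import Fermat.Agent.S24.ModRing
import Fermat.Agent.S24.HolField
import Fermat.Agent.S24.Places
import Fermat.Agent.S24.PlaceCuspCore
import Fermat.Agent.Lib.HolVal
import Fermat.Agent.Lib.CuspLaurent
import Fermat.Agent.Lib.JLocal
import Fermat.Agent.Lib.JStab

/-!
# The ambient ring of modular-type functions of level `N` (helper99, P5 block `[AMB]`)

`modRing N` is the ring of all holomorphic functions `f : ℍ → ℂ` such that every translate
`f ∘ γ`, `γ ∈ SL(2, ℤ)`, is `N`-periodic with at most a pole of finite order at `i∞`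
(`CuspLaurent.merCusp N`).  It is the largest ring of holomorphic functions on which

* `SL(2, ℤ)` acts (`S24.IsHolStable`, hence `S24.translate`, `S24.rhoHol` on the fraction field),
* the point valuations (`S24.Places.pointVal`) and the cusp valuation
  (`S24.PlaceCusp.cuspVal`) are defined.

It contains the complex constants, the S24 ring `RN N` and `j`.  We record the two numerical
facts about `j`: the point valuation of `j - j(τ)` at `τ` is `exp (-d)` with `d ∈ {1, 2, 3}`, and
the cusp valuation of `j` is `exp N`.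
-/

set_option autoImplicit false

noncomputable section

namespace Fermat.Agent.Lib.ModMer

open UpperHalfPlane Fermat.Agent.S24 Fermat.Agent.Lib.CuspLaurent Fermat.Agent.Lib.HolVal
open Fermat.Agent.Lib.JStab
open scoped MatrixGroups Manifold WithZero

variable (N : ℕ) [NeZero N]

/-- Holomorphic functions on `ℍ` all of whose `SL(2, ℤ)`-translates are `N`-periodic with a pole
of finite order at `i∞`. -/
def modRing : Subring (ℍ → ℂ) where
  carrier := {f | ∀ γ : SL(2, ℤ), (fun τ : ℍ => f (γ • τ)) ∈ merCusp N}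
  mul_mem' hf hg γ := (merCusp N).mul_mem (hf γ) (hg γ)
  one_mem' _ := (merCusp N).one_mem
  add_mem' hf hg γ := (merCusp N).add_mem (hf γ) (hg γ)
  zero_mem' _ := (merCusp N).zero_mem
  neg_mem' hf γ := (merCusp N).neg_mem (hf γ)

variable {N}

theorem mem_modRing_iff {f : ℍ → ℂ} :
    f ∈ modRing N ↔ ∀ γ : SL(2, ℤ), IsMerCusp (N : ℝ) (fun τ : ℍ => f (γ • τ)) := Iff.rfl

theorem mem_modRing_of_isHolCusp {f : ℍ → ℂ}
    (h : ∀ γ : SL(2, ℤ), IsHolCusp (N : ℝ) (fun τ : ℍ => f (γ • τ))) : f ∈ modRing N :=
  fun γ => (h γ).isMerCusp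

theorem mem_merCusp_of_mem {f : ℍ → ℂ} (hf : f ∈ modRing N) : f ∈ merCusp N := by
  have h := hf 1
  have e : (fun τ : ℍ => f ((1 : SL(2, ℤ)) • τ)) = f := by
    funext τ
    rw [one_smul]
  rwa [e] at h

theorem mdiff_of_mem {f : ℍ → ℂ} (hf : f ∈ modRing N) : MDiff f :=
  (mem_merCusp_of_mem hf).holo

theorem comp_smul_mem {f : ℍ → ℂ} (hf : f ∈ modRing N) (γ : SL(2, ℤ)) :
    (fun τ : ℍ => f (γ • τ)) ∈ modRing N := by
  intro γ'
  have h := hf (γ * γ')
  have e : (fun τ : ℍ => f ((γ * γ') • τ)) = fun τ : ℍ => f (γ • γ' • τ) := by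
    funext τ
    rw [mul_smul]
  rwa [e] at h

variable (N)

theorem modRing_le_merCusp : modRing N ≤ merCusp N := fun _ hf => mem_merCusp_of_mem hf

theorem modRing_le_Hol : modRing N ≤ Hol := fun _ hf => mdiff_of_mem hf

theorem const_mem_modRing (c : ℂ) : (fun _ : ℍ => c) ∈ modRing N :=
  fun _ => const_mem_merCusp N c

instance instIsHolStableModRing : IsHolStable (modRing N) where
  mdiff _ hf := mdiff_of_mem hf
  const_mem c := const_mem_modRing N (Basic.iota c)
  smul_mem γ _ hf := comp_smul_mem hf γ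

/-- The S24 ring `RN N` (generated by `Q̄` and the `j (d γ τ)`, `d ∣ N`) lies in `modRing N`. -/
theorem RN_le_modRing : RN N ≤ modRing N := by
  intro f hf γ
  exact ModRing.RN_le_merCusp N (IsHolStable.smul_mem γ f hf)

theorem jInv_mem_modRing : jInv ∈ modRing N := RN_le_modRing N (jInv_mem_RN N)

/-- The complex constants, as a ring hom into `modRing N`. -/
def constM : ℂ →+* modRing N where
  toFun c := ⟨fun _ => c, const_mem_modRing N c⟩
  map_one' := rfl
  map_mul' _ _ := rfl
  map_zero' := rfl
  map_add' _ _ := rfl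

@[simp] theorem constM_apply (c : ℂ) (τ : ℍ) : ((constM N c : modRing N) : ℍ → ℂ) τ = c := rfl

/-- `j`, as an element of `modRing N`. -/
def jM : modRing N := ⟨jInv, jInv_mem_modRing N⟩

@[simp] theorem jM_apply (τ : ℍ) : ((jM N : modRing N) : ℍ → ℂ) τ = jInv τ := rfl

/-- The fraction field of `modRing N`: the ambient field of meromorphic modular-type functions of
level `N`.  `S24.rhoHol (modRing N)` is the `SL(2, ℤ)`-action on it. -/
abbrev MerN : Type := FractionRing (modRing N)

/-- The point valuation at `τ` on `MerN N`. -/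
def ptVal (τ : ℍ) : Valuation (MerN N) ℤᵐ⁰ := Places.pointVal (modRing N) (M := MerN N) τ

/-- The cusp valuation (order in `t = q^{1/N}` at `i∞`) on `MerN N`. -/
def cuVal : Valuation (MerN N) ℤᵐ⁰ := PlaceCusp.cuspVal N (modRing N) (modRing_le_merCusp N)

theorem ptVal_algebraMap (τ : ℍ) (f : modRing N) :
    ptVal N τ (algebraMap (modRing N) (MerN N) f) = ordAt τ (Places.toHol (modRing N) f) :=
  Places.pointVal_algebraMap (modRing N) τ f

theorem ptVal_algebraMap_le_one (τ : ℍ) (f : modRing N) :
    ptVal N τ (algebraMap (modRing N) (MerN N) f) ≤ 1 := by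
  rw [ptVal_algebraMap]
  exact ordAt_le_one τ _

theorem ptVal_algebraMap_lt_one_iff (τ : ℍ) {f : modRing N} (hf : f ≠ 0) :
    ptVal N τ (algebraMap (modRing N) (MerN N) f) < 1 ↔ (f : ℍ → ℂ) τ = 0 := by
  rw [ptVal_algebraMap]
  have hf' : Places.toHol (modRing N) f ≠ 0 := fun h =>
    hf (Places.toHol_injective (modRing N) (by rw [h, map_zero]))
  exact ordAt_lt_one_iff τ hf'

theorem ptVal_algebraMap_eq_one (τ : ℍ) (f : modRing N) (h : (f : ℍ → ℂ) τ ≠ 0) :
    ptVal N τ (algebraMap (modRing N) (MerN N) f) = 1 := by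
  rw [ptVal_algebraMap]
  exact ordAt_eq_one_of_ne_zero τ _ h

/-- The point valuations are trivial on the nonzero constants. -/
theorem ptVal_const (τ : ℍ) {c : ℂ} (hc : c ≠ 0) :
    ptVal N τ (algebraMap (modRing N) (MerN N) (constM N c)) = 1 :=
  ptVal_algebraMap_eq_one N τ _ hc

/-- Translation: the point valuation at `τ` of `f ∘ γ` is the point valuation of `f` at
`γ • τ`. -/
theorem ptVal_translate (γ : SL(2, ℤ)) (τ : ℍ) (f : modRing N) :
    ptVal N τ (algebraMap (modRing N) (MerN N) (translate (modRing N) γ f))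
      = ptVal N (γ • τ) (algebraMap (modRing N) (MerN N) f) := by
  rw [ptVal_algebraMap, ptVal_algebraMap]
  exact ordAt_compHom γ τ (Places.toHol (modRing N) f)

/-- The action of `SL(2, ℤ)` on `MerN N` permutes the point valuations. -/
theorem ptVal_rhoHol (γ : SL(2, ℤ)) (τ : ℍ) (m : MerN N) :
    ptVal N τ (rhoHol (modRing N) γ m) = ptVal N (γ⁻¹ • τ) m := by
  obtain ⟨a, b, -, rfl⟩ := exists_fractionRing_eq_div (modRing N) m
  rw [rhoHol_div, map_div₀, map_div₀, ptVal_translate, ptVal_translate]

/-- The cusp valuation of an element of `modRing N` is the valuation of its `t`-expansion. -/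
theorem cuVal_algebraMap (f : modRing N) :
    cuVal N (algebraMap (modRing N) (MerN N) f)
      = Valued.v (laurentFun (N : ℝ) (f : ℍ → ℂ)) :=
  PlaceCusp.cuspVal_algebraMap N (modRing N) (modRing_le_merCusp N) f

/-- The cusp valuation is trivial on the nonzero constants. -/
theorem cuVal_const {c : ℂ} (hc : c ≠ 0) :
    cuVal N (algebraMap (modRing N) (MerN N) (constM N c)) = 1 := by
  rw [cuVal_algebraMap]
  have h1 : laurentFun (N : ℝ) ((constM N c : modRing N) : ℍ → ℂ) = HahnSeries.C c :=
    laurent_const N c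
  rw [h1]
  exact PlaceCusp.laurent_val_C hc

/-- `ord_t j = -N` at the cusp. -/
theorem cuVal_jM : cuVal N (algebraMap (modRing N) (MerN N) (jM N)) = WithZero.exp (N : ℤ) :=
  PlaceCusp.cuspVal_jInv N (modRing N) (modRing_le_merCusp N) (jInv_mem_modRing N)

/-- `j - j(τ)` vanishes at `τ` to order `1`, `2` or `3`. -/
theorem exists_ptVal_jM_sub (τ : ℍ) :
    ∃ d : ℕ, (d = 1 ∨ d = 2 ∨ d = 3) ∧
      ptVal N τ (algebraMap (modRing N) (MerN N) (jM N - constM N (jInv τ)))
        = WithZero.exp (-(d : ℤ)) := by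
  have key : ∀ d : ℕ,
      analyticOrderAt (fun z : ℂ => ModularForm.E₄ (ofComplex z) ^ 3 /
        ModularForm.discriminant (ofComplex z) - jInv τ) (τ : ℂ) = d →
      ptVal N τ (algebraMap (modRing N) (MerN N) (jM N - constM N (jInv τ)))
        = WithZero.exp (-(d : ℤ)) := by
    intro d hd
    refine ordAtFrac_of_analyticOrderAt (M := MerN N) (Places.toHol (modRing N))
      (Places.toHol_injective (modRing N)) τ (jM N - constM N (jInv τ)) d ?_
    rw [← hd]
    rfl
  by_cases h4 : ModularForm.E₄ τ = 0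
  · refine ⟨3, Or.inr (Or.inr rfl), key 3 ?_⟩
    have h0 : jInv τ = 0 := (Fermat.Agent.Lib.JLocal.j_eq_zero_iff τ).mpr h4
    rw [h0]
    simp only [sub_zero]
    exact Fermat.Agent.Lib.JLocal.order_j_of_E₄_eq_zero τ h4
  · by_cases h6 : ModularForm.E₆ τ = 0
    · refine ⟨2, Or.inr (Or.inl rfl), key 2 ?_⟩
      have h0 : jInv τ = 1728 := (Fermat.Agent.Lib.JLocal.j_eq_1728_iff τ).mpr h6
      rw [h0]
      exact Fermat.Agent.Lib.JLocal.order_j_of_E₆_eq_zero τ h6
    · refine ⟨1, Or.inl rfl, key 1 ?_⟩
      exact Fermat.Agent.Lib.JLocal.order_j_generic τ h4 h6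

/-- `j` is invariant under `SL(2, ℤ)`. -/
theorem translate_jM (γ : SL(2, ℤ)) : translate (modRing N) γ (jM N) = jM N := by
  apply Subtype.ext
  funext τ
  exact jInv_smul γ τ

theorem translate_constM (γ : SL(2, ℤ)) (c : ℂ) :
    translate (modRing N) γ (constM N c) = constM N c := rfl

theorem rhoHol_jM (γ : SL(2, ℤ)) :
    rhoHol (modRing N) γ (algebraMap (modRing N) (MerN N) (jM N))
      = algebraMap (modRing N) (MerN N) (jM N) := by
  rw [rhoHol_algebraMap, translate_jM]

theorem rhoHol_constM (γ : SL(2, ℤ)) (c : ℂ) :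
    rhoHol (modRing N) γ (algebraMap (modRing N) (MerN N) (constM N c))
      = algebraMap (modRing N) (MerN N) (constM N c) := by
  rw [rhoHol_algebraMap, translate_constM]

/-! ### The map to `Mer = FractionRing Hol` -/

/-- The inclusion of `MerN N` into the fraction field of all holomorphic functions on `ℍ`. -/
def toMer : MerN N →+* FractionRing Hol :=
  liftHol (modRing N) ((algebraMap Hol (FractionRing Hol)).comp (Places.toHol (modRing N)))
    ((IsFractionRing.injective Hol (FractionRing Hol)).comp (Places.toHol_injective (modRing N)))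

theorem toMer_algebraMap (f : modRing N) :
    toMer N (algebraMap (modRing N) (MerN N) f)
      = algebraMap Hol (FractionRing Hol) (Places.toHol (modRing N) f) :=
  liftHol_algebraMap (modRing N) _ _ f

theorem toMer_injective : Function.Injective (toMer N) := (toMer N).injective

/-- The point valuation on `MerN N` is the restriction of the point valuation on
`FractionRing Hol`. -/
theorem ptVal_eq_ordAtFrac_toMer (τ : ℍ) (m : MerN N) :
    ptVal N τ m = ordAtFrac (M := FractionRing Hol) (RingHom.id Hol) Function.injective_id τ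
      (toMer N m) := by
  obtain ⟨a, b, -, rfl⟩ := exists_fractionRing_eq_div (modRing N) m
  rw [map_div₀ (ptVal N τ), map_div₀ (toMer N), toMer_algebraMap, toMer_algebraMap,
    ptVal_algebraMap, ptVal_algebraMap, map_div₀, ordAtFrac_algebraMap, ordAtFrac_algebraMap]
  rfl

/-- Any ring endomorphism of `FractionRing Hol` acting on `Hol` by `f ↦ f ∘ γ⁻¹` restricts to
`rhoHol (modRing N) γ` on `MerN N`. -/
theorem toMer_rhoHol (γ : SL(2, ℤ)) (c : FractionRing Hol →+* FractionRing Hol)
    (hc : ∀ f : Hol, c (algebraMap Hol (FractionRing Hol) f)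
      = algebraMap Hol (FractionRing Hol) (compHom γ⁻¹ f)) (m : MerN N) :
    toMer N (rhoHol (modRing N) γ m) = c (toMer N m) := by
  obtain ⟨a, b, -, rfl⟩ := exists_fractionRing_eq_div (modRing N) m
  rw [rhoHol_div, map_div₀, map_div₀, map_div₀, toMer_algebraMap, toMer_algebraMap,
    toMer_algebraMap, toMer_algebraMap, hc, hc]
  rfl

/-- An element of `FractionRing Hol` lies in (the image of) `MerN N` as soon as it is a quotient
of two elements of `modRing N`. -/
theorem exists_toMer_eq {x : FractionRing Hol} {a b : modRing N} (hb : b ≠ 0)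
    (h : x * algebraMap Hol (FractionRing Hol) (Places.toHol (modRing N) b)
      = algebraMap Hol (FractionRing Hol) (Places.toHol (modRing N) a)) :
    ∃ m : MerN N, toMer N m = x := by
  refine ⟨algebraMap (modRing N) (MerN N) a / algebraMap (modRing N) (MerN N) b, ?_⟩
  have hb' : algebraMap Hol (FractionRing Hol) (Places.toHol (modRing N) b) ≠ 0 := by
    intro h0
    apply hb
    apply Places.toHol_injective (modRing N)
    apply IsFractionRing.injective Hol (FractionRing Hol)
    rw [h0, map_zero, map_zero]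
  rw [map_div₀, toMer_algebraMap, toMer_algebraMap, div_eq_iff hb', h]

end Fermat.Agent.Lib.ModMer
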