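import Mathlib
import Fermat.Agent.Lib.ModMer
import Fermat.Agent.Lib.HolDiv
import Fermat.Agent.Lib.LiouvilleGamma
import Fermat.Agent.P5.Kappa.Plan

/-!
# `modRing N`: division, regular elements, and the Liouville principle

Complements to `Lib/ModMer.lean` (the ambient ring `modRing N` of holomorphic functions on `ℍ`
all of whose `SL(2, ℤ)`-translates are `N`-periodic and meromorphic at `i∞`, and its fraction
field `MerN N`).

* `exists_lower_bound_of_isHolCusp` : a nonzero function holomorphic at the cusp is bounded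
  below by a power of the local parameter.
* `isMerCusp_of_mul_eq` : division inside `merCusp` — if `a = c * b` with `a`, `b` meromorphic
  at the cusp, `b ≠ 0` and `c` holomorphic on `ℍ`, then `c` is meromorphic at the cusp.
* `mem_modRing_of_mul_eq` : the same for `modRing N`.
* `exists_algebraMap_eq_of_ptVal_le_one` : an element of `MerN N` without poles on `ℍ` lies in
  `modRing N`.
* `isBoundedAtImInfty_of_cuVal_le_one` : an element of `modRing N` with cusp valuation `≤ 1` is
  bounded at `i∞`.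
* `toMer_rhoHol_compMer` : the `SL(2, ℤ)`-action on `MerN N` in the vocabulary of `P5/Kappa`.
* `exists_const_of_le_one` : **Liouville** — an element of `MerN N` invariant under a finite
  index subgroup, without poles on `ℍ` and regular at all cusps is constant.
* `mem_range_algebraMap_of_le_one` : the same, for a field realised inside `MerN N`.
-/

set_option autoImplicit false

noncomputable section

namespace Fermat.Agent.Lib.ModMer

open UpperHalfPlane Filter Function
open Fermat.Agent.S24 Fermat.Agent.Lib.CuspLaurent Fermat.Agent.Lib.HolVal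
open Fermat.Agent.P5
open scoped MatrixGroups Manifold WithZero Topology

local notation "𝕢" => Periodic.qParam

/-! ### Division inside `merCusp` -/

section Cusp

variable {h : ℝ}

/-- A holomorphic function on `ℍ` vanishing for large imaginary part is zero. -/
theorem eq_zero_of_eventually_atImInfty {B : ℍ → ℂ} (hB : MDiff B)
    (h0 : ∀ᶠ τ in atImInfty, B τ = 0) : B = 0 := by
  obtain ⟨A, hA⟩ := (atImInfty_mem _).mp h0
  have hpos : (0 : ℝ) < max A 0 + 1 := by positivity
  let τ₀ : ℍ := ⟨⟨0, max A 0 + 1⟩, hpos⟩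
  apply eq_zero_of_eventually hB τ₀
  have hopen : IsOpen {z : ℂ | max A 0 < z.im} := isOpen_lt continuous_const Complex.continuous_im
  have hmem : (τ₀ : ℂ) ∈ {z : ℂ | max A 0 < z.im} := by
    show max A 0 < max A 0 + 1
    linarith
  filter_upwards [hopen.mem_nhds hmem] with z hz
  have hz0 : 0 < z.im := lt_of_le_of_lt (le_max_right A 0) hz
  simp only [Function.comp_apply]
  rw [ofComplex_apply_of_im_pos hz0]
  exact hA _ (le_trans (le_max_left A 0) hz.le)

/-- A nonzero function which is holomorphic at the cusp is bounded below by a power of the local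
parameter `t = exp (2πiτ/h)`. -/
theorem exists_lower_bound_of_isHolCusp (hh : 0 < h) {B : ℍ → ℂ} (hB : IsHolCusp h B)
    (hB0 : B ≠ 0) :
    ∃ (m : ℕ) (c₀ : ℝ), 0 < c₀ ∧ ∀ᶠ τ in atImInfty, c₀ * ‖tParam h τ‖ ^ m ≤ ‖B τ‖ := by
  have hG : AnalyticAt ℂ (cuspFunction h B) 0 := hB.analyticAt hh
  have hne : ¬ ∀ᶠ z in 𝓝 (0 : ℂ), cuspFunction h B z = 0 := by
    intro hev
    apply hB0
    apply eq_zero_of_eventually_atImInfty hB.holo
    filter_upwards [(qParam_tendsto_atImInfty hh).eventually hev] with τ hτ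
    rw [← eq_cuspFunction τ hh.ne' hB.per]
    exact hτ
  obtain ⟨m, g, hg, hg0, hev⟩ := hG.exists_eventuallyEq_pow_smul_nonzero_iff.mpr hne
  have hgpos : 0 < ‖g 0‖ := norm_pos_iff.mpr hg0
  have hgc : ∀ᶠ z in 𝓝 (0 : ℂ), ‖g 0‖ / 2 ≤ ‖g z‖ := by
    have h1 : Tendsto (fun z => ‖g z‖) (𝓝 0) (𝓝 ‖g 0‖) := hg.continuousAt.norm
    exact h1.eventually_const_le (by linarith)
  refine ⟨m, ‖g 0‖ / 2, by positivity, ?_⟩
  filter_upwards [(qParam_tendsto_atImInfty hh).eventually (hev.and hgc)] with τ hτ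
  obtain ⟨h1, h2⟩ := hτ
  rw [← eq_cuspFunction τ hh.ne' hB.per, h1, sub_zero, norm_smul, norm_pow, mul_comm]
  exact mul_le_mul_of_nonneg_left h2 (by positivity)

/-- **Division inside `merCusp`.**  If `a = c * b` with `a`, `b` meromorphic at the cusp,
`b ≠ 0`, and `c` holomorphic on `ℍ`, then `c` is meromorphic at the cusp. -/
theorem isMerCusp_of_mul_eq (hh : 0 < h) {a b c : ℍ → ℂ} (ha : IsMerCusp h a)
    (hb : IsMerCusp h b) (hb0 : b ≠ 0) (hc : MDiff c) (e : a = c * b) : IsMerCusp h c := by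
  refine ⟨hc, ?_, ?_⟩
  · intro w
    simp only [Function.comp_apply]
    by_cases hw : 0 < w.im
    · let d : ℍ → ℂ := fun τ => c (ofComplex ((τ : ℂ) + h)) - c τ
      have hdm : MDiff d := by
        rw [UpperHalfPlane.mdifferentiable_iff]
        have hcd := UpperHalfPlane.mdifferentiable_iff.mp hc
        have h1 : DifferentiableOn ℂ
            (fun z : ℂ => (c ∘ ofComplex) (z + h) - (c ∘ ofComplex) z) {z : ℂ | 0 < z.im} := by
          refine DifferentiableOn.sub ?_ hcd
          refine hcd.comp ((differentiable_id.add_const (h : ℂ)).differentiableOn) ?_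
          intro z hz
          show 0 < (z + h).im
          simpa using hz
        refine h1.congr fun z hz => ?_
        show c (ofComplex (((ofComplex z : ℍ) : ℂ) + h)) - c (ofComplex z)
          = c (ofComplex (z + h)) - c (ofComplex z)
        rw [ofComplex_apply_of_im_pos hz]
      have hdb : d * b = 0 := by
        funext τ
        show (c (ofComplex ((τ : ℂ) + h)) - c τ) * b τ = 0
        have hbper := hb.per (τ : ℂ)
        have haper := ha.per (τ : ℂ)
        simp only [Function.comp_apply, ofComplex_apply] at hbper haper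
        have e1 := congrFun e τ
        have e2 := congrFun e (ofComplex ((τ : ℂ) + h))
        simp only [Pi.mul_apply] at e1 e2
        have h3 : c (ofComplex ((τ : ℂ) + h)) * b τ = c τ * b τ := by
          rw [← e1, ← haper, e2, hbper]
        rw [sub_mul, h3, sub_self]
      rcases eq_zero_or_eq_zero_of_mdiff hdm hb.holo hdb with h0 | h0
      · have h1 := congrFun h0 ⟨w, hw⟩
        have h2 : c (ofComplex (w + h)) - c ⟨w, hw⟩ = 0 := h1
        rw [ofComplex_apply_of_im_pos hw]
        exact sub_eq_zero.mp h2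
      · exact absurd h0 hb0
    · have hw' : ¬ 0 < (w + h).im := by simpa using hw
      rw [ofComplex_apply_eq_of_im_nonpos (not_lt.mp hw') (not_lt.mp hw)]
  · obtain ⟨k, hk⟩ := ha.exists_bdd
    obtain ⟨l, hl⟩ := hb.exists_bdd
    have hB : IsHolCusp h (tParam h ^ l * b) := hb.isHolCusp hh hl
    have hB0 : tParam h ^ l * b ≠ 0 := by
      intro h0
      apply hb0
      funext τ
      have h1 := congrFun h0 τ
      simp only [Pi.mul_apply, Pi.pow_apply, Pi.zero_apply] at h1
      rcases mul_eq_zero.mp h1 with h2 | h2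
      · exact absurd h2 (pow_ne_zero _ (tParam_ne_zero h τ))
      · exact h2
    obtain ⟨m, c₀, hc₀, hlow⟩ := exists_lower_bound_of_isHolCusp hh hB hB0
    refine ⟨k + m, ?_⟩
    obtain ⟨C, hC⟩ := Asymptotics.IsBigO.bound hk
    apply Asymptotics.IsBigO.of_bound (C / c₀)
    filter_upwards [hC, hlow] with τ h1 h2
    simp only [Pi.mul_apply, Pi.pow_apply, Pi.one_apply, norm_mul, norm_pow, norm_one,
      mul_one] at h1 h2 ⊢
    have hr0 : 0 < ‖tParam h τ‖ := norm_pos_iff.mpr (tParam_ne_zero h τ)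
    have hr1 : ‖tParam h τ‖ ≤ 1 := by
      have := Periodic.norm_qParam_lt_one hh τ.im_pos
      exact this.le
    have hb1 : c₀ * ‖tParam h τ‖ ^ m ≤ ‖b τ‖ := by
      refine h2.trans ?_
      have : ‖tParam h τ‖ ^ l ≤ 1 := pow_le_one₀ hr0.le hr1
      calc ‖tParam h τ‖ ^ l * ‖b τ‖ ≤ 1 * ‖b τ‖ :=
            mul_le_mul_of_nonneg_right this (norm_nonneg _)
        _ = ‖b τ‖ := one_mul _
    have e1 : ‖a τ‖ = ‖c τ‖ * ‖b τ‖ := by
      rw [← norm_mul]
      exact congrArg norm (congrFun e τ)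
    rw [le_div_iff₀' hc₀]
    calc c₀ * (‖tParam h τ‖ ^ (k + m) * ‖c τ‖)
        = ‖tParam h τ‖ ^ k * ‖c τ‖ * (c₀ * ‖tParam h τ‖ ^ m) := by rw [pow_add]; ring
      _ ≤ ‖tParam h τ‖ ^ k * ‖c τ‖ * ‖b τ‖ :=
          mul_le_mul_of_nonneg_left hb1 (by positivity)
      _ = ‖tParam h τ‖ ^ k * ‖a τ‖ := by rw [e1]; ring
      _ ≤ C := h1

end Cusp

variable (N : ℕ) [NeZero N]

/-- Division inside `modRing N`: a holomorphic quotient of two elements of `modRing N` lies in
`modRing N`. -/
theorem mem_modRing_of_mul_eq {a b c : ℍ → ℂ} (ha : a ∈ modRing N) (hb : b ∈ modRing N)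
    (hb0 : b ≠ 0) (hc : MDiff c) (e : a = c * b) : c ∈ modRing N := by
  intro γ
  have hN : (0 : ℝ) < (N : ℝ) := Nat.cast_pos.mpr (NeZero.pos N)
  refine isMerCusp_of_mul_eq hN (ha γ) (hb γ) ?_ (mdiff_comp_smul γ hc) ?_
  · intro h0
    apply hb0
    funext τ
    have h1 := congrFun h0 (γ⁻¹ • τ)
    simpa using h1
  · funext τ
    exact congrFun e (γ • τ)

/-- **Regular elements.**  An element of `MerN N` without poles on `ℍ` lies in `modRing N`. -/
theorem exists_algebraMap_eq_of_ptVal_le_one (m : MerN N) (h : ∀ τ : ℍ, ptVal N τ m ≤ 1) :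
    ∃ a : modRing N, algebraMap (modRing N) (MerN N) a = m := by
  obtain ⟨q, hq⟩ := HolDiv.exists_algebraMap_eq_of_ordAtFrac_le_one (toMer N m) (fun τ => by
    rw [← ptVal_eq_ordAtFrac_toMer]
    exact h τ)
  obtain ⟨a, b, hb, rfl⟩ := exists_fractionRing_eq_div (modRing N) m
  have hb' : algebraMap Hol (FractionRing Hol) (Places.toHol (modRing N) b) ≠ 0 := by
    intro h0
    apply hb
    apply Places.toHol_injective (modRing N)
    apply IsFractionRing.injective Hol (FractionRing Hol)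
    rw [h0, map_zero, map_zero]
  rw [map_div₀, toMer_algebraMap, toMer_algebraMap, eq_div_iff hb', ← map_mul] at hq
  have hq' : q * Places.toHol (modRing N) b = Places.toHol (modRing N) a :=
    IsFractionRing.injective Hol (FractionRing Hol) hq
  have e : (a : ℍ → ℂ) = (q : ℍ → ℂ) * (b : ℍ → ℂ) := (congrArg Subtype.val hq').symm
  have hb0 : (b : ℍ → ℂ) ≠ 0 := fun h0 => hb (Subtype.ext h0)
  have hqm : (q : ℍ → ℂ) ∈ modRing N := mem_modRing_of_mul_eq N a.2 b.2 hb0 q.2 e
  refine ⟨⟨q, hqm⟩, ?_⟩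
  have hbm : algebraMap (modRing N) (MerN N) b ≠ 0 := by
    intro h0
    exact hb (IsFractionRing.injective (modRing N) (MerN N) (by rw [h0, map_zero]))
  rw [eq_div_iff hbm, ← map_mul]
  congr 1
  exact Subtype.ext e.symm

/-- An element of `modRing N` whose cusp valuation is `≤ 1` is bounded at `i∞`. -/
theorem isBoundedAtImInfty_of_cuVal_le_one (a : modRing N)
    (h : cuVal N (algebraMap (modRing N) (MerN N) a) ≤ 1) :
    IsBoundedAtImInfty (a : ℍ → ℂ) := by
  have ha : (a : ℍ → ℂ) ∈ merCusp N := modRing_le_merCusp N a.2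
  refine isBoundedAtImInfty_of_coeff_neg N ha ?_
  rw [cuVal_algebraMap] at h
  have h1 : Valued.v (laurentFun (N : ℝ) (a : ℍ → ℂ)) ≤ WithZero.exp (-(0 : ℤ)) := by
    rw [neg_zero, WithZero.exp_zero]
    exact h
  exact (LaurentSeries.valuation_le_iff_coeff_lt_eq_zero ℂ).mp h1

/-- The action of `SL(2, ℤ)` on `MerN N`, in the vocabulary of `P5/Kappa`:
`rhoHol γ` is `F ↦ F ∘ γ⁻¹`. -/
theorem toMer_rhoHol_compMer (γ : SL(2, ℤ)) (m : MerN N) :
    toMer N (rhoHol (modRing N) γ m) = Kappa.compMer γ⁻¹ (toMer N m) :=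
  toMer_rhoHol N γ (Kappa.compMer γ⁻¹) (fun f => Kappa.compMer_algebraMap γ⁻¹ f) m

theorem toMer_rhoHol_inv_compMer (γ : SL(2, ℤ)) (m : MerN N) :
    toMer N (rhoHol (modRing N) γ⁻¹ m) = Kappa.compMer γ (toMer N m) := by
  rw [toMer_rhoHol_compMer, inv_inv]

/-- The constants of `MerN N` go to the constants of `Mer`. -/
theorem toMer_constM (c : ℂ) :
    toMer N (algebraMap (modRing N) (MerN N) (constM N c)) = Kappa.constMer c := by
  rw [toMer_algebraMap]
  rfl

/-- **Liouville for `MerN N`.**  An element of `MerN N` which is invariant under a finite index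
subgroup `Γ`, has no pole on `ℍ`, and is regular at every cusp, is constant. -/
theorem exists_const_of_le_one (Γ : Subgroup SL(2, ℤ)) [Γ.FiniteIndex] (m : MerN N)
    (hinv : ∀ γ ∈ Γ, Kappa.compMer γ (toMer N m) = toMer N m)
    (hpt : ∀ τ : ℍ, ptVal N τ m ≤ 1)
    (hcu : ∀ γ : SL(2, ℤ), cuVal N (rhoHol (modRing N) γ m) ≤ 1) :
    ∃ c : ℂ, m = algebraMap (modRing N) (MerN N) (constM N c) := by
  obtain ⟨a, rfl⟩ := exists_algebraMap_eq_of_ptVal_le_one N m hpt
  have hinv' : ∀ γ ∈ Γ, ∀ τ : ℍ, (a : ℍ → ℂ) (γ • τ) = (a : ℍ → ℂ) τ := by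
    intro γ hγ τ
    have h1 := hinv γ hγ
    rw [toMer_algebraMap, Kappa.compMer_algebraMap] at h1
    have h2 := IsFractionRing.injective Hol (FractionRing Hol) h1
    exact congrFun (congrArg Subtype.val h2) τ
  have hbd : ∀ γ : SL(2, ℤ), IsBoundedAtImInfty (fun τ : ℍ => (a : ℍ → ℂ) (γ • τ)) := by
    intro γ
    have h1 := hcu γ⁻¹
    rw [rhoHol_algebraMap, inv_inv] at h1
    exact isBoundedAtImInfty_of_cuVal_le_one N (translate (modRing N) γ a) h1
  obtain ⟨c, hc⟩ := LiouvilleGamma.eq_const_of_invariant_of_bounded Γ (a : ℍ → ℂ)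
    (mdiff_of_mem a.2) hinv' hbd
  refine ⟨c, ?_⟩
  congr 1
  exact Subtype.ext hc

/-- Variant of `exists_const_of_le_one` with the invariance stated for `rhoHol`. -/
theorem exists_const_of_le_one' (Γ : Subgroup SL(2, ℤ)) [Γ.FiniteIndex] (m : MerN N)
    (hinv : ∀ γ ∈ Γ, rhoHol (modRing N) γ m = m)
    (hpt : ∀ τ : ℍ, ptVal N τ m ≤ 1)
    (hcu : ∀ γ : SL(2, ℤ), cuVal N (rhoHol (modRing N) γ m) ≤ 1) :
    ∃ c : ℂ, m = algebraMap (modRing N) (MerN N) (constM N c) := by
  refine exists_const_of_le_one N Γ m (fun γ hγ => ?_) hpt hcu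
  rw [← toMer_rhoHol_inv_compMer, hinv γ⁻¹ (Γ.inv_mem hγ)]

/-- **The Liouville hypothesis of `PlaceLiouville.exists_valuation_of_place`**, for a field `F`
over `ℂ` realised inside `MerN N` by `Γ`-invariant functions: an element of `F` which is regular
at all points of `ℍ` and at all cusps is constant. -/
theorem mem_range_algebraMap_of_le_one {F : Type*} [Field F] [Algebra ℂ F]
    (ρ : F →+* MerN N)
    (hρc : ∀ c : ℂ, ρ (algebraMap ℂ F c) = algebraMap (modRing N) (MerN N) (constM N c))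
    (Γ : Subgroup SL(2, ℤ)) [Γ.FiniteIndex]
    (hinv : ∀ γ ∈ Γ, ∀ f : F, Kappa.compMer γ (toMer N (ρ f)) = toMer N (ρ f)) (f : F)
    (hpt : ∀ τ : ℍ, ptVal N τ (ρ f) ≤ 1)
    (hcu : ∀ γ : SL(2, ℤ), cuVal N (rhoHol (modRing N) γ (ρ f)) ≤ 1) :
    f ∈ Set.range (algebraMap ℂ F) := by
  obtain ⟨c, hc⟩ := exists_const_of_le_one N Γ (ρ f) (fun γ hγ => hinv γ hγ f) hpt hcu
  exact ⟨c, ρ.injective (by rw [hρc, hc])⟩

end Fermat.Agent.Lib.ModMer
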