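import Mathlib
import Fermat.Agent.Lib.ModMer
import Fermat.Agent.Lib.LiouvilleGamma
import Fermat.Agent.Lib.HolDiv

/-!
# Liouville's theorem in `MerN N` (helper47, P5 block `[ANPL-an]`)

* `isBoundedAtImInfty_of_val_le`: if `Q * b = a` pointwise with `a b ∈ merCusp N`, `b ≠ 0`, and the
  `t`-adic valuation of the expansion of `a` is at most that of `b`, then `Q` is bounded at `i∞`.
* `eq_const_of_regular`: an element `m` of `MerN N = Frac (modRing N)` which is invariant under a
  finite index subgroup `Γ` of `SL(2, ℤ)`, regular at every point of `ℍ` (`ptVal N τ m ≤ 1`) and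
  at every cusp (`cuVal N (rhoHol γ m) ≤ 1` for all `γ ∈ SL(2, ℤ)`) is a constant.
-/

set_option autoImplicit false

noncomputable section

namespace Fermat.Agent.Lib.ModMerLiouville

open UpperHalfPlane Filter Topology Fermat.Agent.S24 Fermat.Agent.Lib.CuspLaurent
open Fermat.Agent.Lib.HolVal Fermat.Agent.Lib.ModMer
open scoped MatrixGroups Manifold WithZero

/-- A function holomorphic at the cusp tends to its value at `i∞`. -/
theorem tendsto_of_isHolCusp {h : ℝ} (hh : 0 < h) {f : ℍ → ℂ} (hf : IsHolCusp h f) :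
    Tendsto f atImInfty (𝓝 (valueAtInfty f)) := by
  have han := hf.analyticAt hh
  have h0 := cuspFunction_apply_zero hh han hf.per
  have e : (cuspFunction h f ∘ fun τ : ℍ => Function.Periodic.qParam h τ : ℍ → ℂ) = f := by
    funext τ
    simpa using eq_cuspFunction τ hh.ne' hf.per
  have h1 := han.continuousAt.tendsto.comp (qParam_tendsto_atImInfty hh)
  rw [e, h0] at h1
  exact h1

variable (N : ℕ) [NeZero N]

/-- `t = q^{1/N}` as a unit of `merCusp N`. -/
def tUnit : (merCusp N)ˣ where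
  val := ⟨tParam (N : ℝ), tParam_mem_merCusp N⟩
  inv := ⟨(tParam (N : ℝ))⁻¹, tParam_inv_mem_merCusp N⟩
  val_inv := by
    apply Subtype.ext
    funext τ
    simp [tParam_ne_zero]
  inv_val := by
    apply Subtype.ext
    funext τ
    simp [tParam_ne_zero]

theorem laurent_tUnit_zpow (k : ℤ) :
    laurent N ((tUnit N ^ k : (merCusp N)ˣ) : merCusp N) = HahnSeries.single k (1 : ℂ) := by
  have h1 : laurent N ((tUnit N ^ k : (merCusp N)ˣ) : merCusp N)
      = ((Units.map (laurent N : merCusp N →* LaurentSeries ℂ) (tUnit N) ^ k :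
          (LaurentSeries ℂ)ˣ) : LaurentSeries ℂ) := by
    rw [← map_zpow]
    rfl
  rw [h1, Units.val_zpow_eq_zpow_val, Units.coe_map]
  show (laurent N ⟨tParam (N : ℝ), tParam_mem_merCusp N⟩) ^ k = _
  rw [laurent_tParam, ← RatFunc.single_zpow]

/-- **Quotients are bounded at the cusp when the valuations say so.** -/
theorem isBoundedAtImInfty_of_val_le (a b : merCusp N) (hb : b ≠ 0) (Q : ℍ → ℂ)
    (hQ : ∀ τ : ℍ, Q τ * (b : ℍ → ℂ) τ = (a : ℍ → ℂ) τ)
    (hv : (Valued.v (laurent N a) : ℤᵐ⁰) ≤ Valued.v (laurent N b)) :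
    IsBoundedAtImInfty Q := by
  have hLb : laurent N b ≠ 0 := fun h => hb (laurent_injective N (h.trans (map_zero _).symm))
  have hvb : (Valued.v (laurent N b) : ℤᵐ⁰) ≠ 0 := (Valuation.ne_zero_iff _).mpr hLb
  obtain ⟨β, hβ⟩ : ∃ β : ℤ, (Valued.v (laurent N b) : ℤᵐ⁰) = WithZero.exp (-β) :=
    ⟨-(WithZero.log (Valued.v (laurent N b) : ℤᵐ⁰)), by rw [neg_neg, WithZero.exp_log hvb]⟩
  have hb1 : ∀ n : ℤ, n < β → (laurent N b).coeff n = 0 :=
    (LaurentSeries.valuation_le_iff_coeff_lt_eq_zero ℂ).mp hβ.le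
  have hb0 : (laurent N b).coeff β ≠ 0 := by
    intro h0
    have h1 : (Valued.v (laurent N b) : ℤᵐ⁰) ≤ WithZero.exp (-(β + 1)) :=
      (LaurentSeries.valuation_le_iff_coeff_lt_eq_zero ℂ).mpr (fun n hn => by
        rcases (show n < β ∨ n = β by omega) with h | h
        · exact hb1 n h
        · rw [h]
          exact h0)
    rw [hβ, WithZero.exp_le_exp] at h1
    omega
  have ha1 : ∀ n : ℤ, n < β → (laurent N a).coeff n = 0 :=
    (LaurentSeries.valuation_le_iff_coeff_lt_eq_zero ℂ).mp (hv.trans hβ.le)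
  -- divide by `t ^ β`
  obtain ⟨u, hLu⟩ : ∃ u : merCusp N, laurent N u = HahnSeries.single (-β) (1 : ℂ) :=
    ⟨_, laurent_tUnit_zpow N (-β)⟩
  have hcoeff : ∀ (f : merCusp N) (n : ℤ),
      (laurent N (u * f)).coeff n = (laurent N f).coeff (n + β) := by
    intro f n
    rw [map_mul, hLu, HahnSeries.coeff_single_mul, one_mul]
    congr 1
    ring
  have ha' : IsHolCusp (N : ℝ) ((u * a : merCusp N) : ℍ → ℂ) :=
    IsMerCusp.isHolCusp_of_coeff_neg (natCast_pos' N) (u * a).2 (fun n hn => by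
      have h := hcoeff a n
      rw [laurent_apply] at h
      rw [h]
      exact ha1 _ (by omega))
  have hb' : IsHolCusp (N : ℝ) ((u * b : merCusp N) : ℍ → ℂ) :=
    IsMerCusp.isHolCusp_of_coeff_neg (natCast_pos' N) (u * b).2 (fun n hn => by
      have h := hcoeff b n
      rw [laurent_apply] at h
      rw [h]
      exact hb1 _ (by omega))
  have hval : valueAtInfty ((u * b : merCusp N) : ℍ → ℂ) = (laurent N b).coeff β := by
    rw [← laurent_coeff_zero_of_isHolCusp N hb']
    have h := hcoeff b 0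
    rw [zero_add] at h
    exact h
  have hta := tendsto_of_isHolCusp (natCast_pos' N) ha'
  have htb := tendsto_of_isHolCusp (natCast_pos' N) hb'
  rw [hval] at htb
  have hQ' : ∀ τ : ℍ,
      Q τ * ((u * b : merCusp N) : ℍ → ℂ) τ = ((u * a : merCusp N) : ℍ → ℂ) τ := by
    intro τ
    show Q τ * ((u : ℍ → ℂ) τ * (b : ℍ → ℂ) τ) = (u : ℍ → ℂ) τ * (a : ℍ → ℂ) τ
    rw [← hQ τ]
    ring
  have hev : ∀ᶠ τ in atImInfty, ((u * b : merCusp N) : ℍ → ℂ) τ ≠ 0 := htb.eventually_ne hb0
  have hlim : Tendsto Q atImInfty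
      (𝓝 (valueAtInfty ((u * a : merCusp N) : ℍ → ℂ) / (laurent N b).coeff β)) := by
    refine (hta.div htb hb0).congr' ?_
    filter_upwards [hev] with τ hτ
    rw [Pi.div_apply, ← hQ' τ, mul_div_cancel_right₀ _ hτ]
  exact hlim.isBigO_one ℝ

/-- **Liouville in `MerN N`.**  An element of `Frac (modRing N)` invariant under a finite index
subgroup of `SL(2, ℤ)`, regular at all points and at all cusps, is constant. -/
theorem eq_const_of_regular (Γ : Subgroup SL(2, ℤ)) [Γ.FiniteIndex] (m : MerN N)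
    (hinv : ∀ γ ∈ Γ, rhoHol (modRing N) γ m = m)
    (hpt : ∀ τ : ℍ, ptVal N τ m ≤ 1)
    (hcu : ∀ γ : SL(2, ℤ), cuVal N (rhoHol (modRing N) γ m) ≤ 1) :
    ∃ c : ℂ, m = algebraMap (modRing N) (MerN N) (constM N c) := by
  -- `m` is a holomorphic function
  obtain ⟨q, hq⟩ := Fermat.Agent.Lib.HolDiv.exists_algebraMap_eq_of_ordAtFrac_le_one (toMer N m)
    (fun τ => by rw [← ptVal_eq_ordAtFrac_toMer]; exact hpt τ)
  obtain ⟨a, b, hb, rfl⟩ := exists_fractionRing_eq_div (modRing N) m
  have hbH : Places.toHol (modRing N) b ≠ 0 := fun h =>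
    hb (Places.toHol_injective (modRing N) (h.trans (map_zero _).symm))
  have hbM : algebraMap Hol (FractionRing Hol) (Places.toHol (modRing N) b) ≠ 0 := fun h =>
    hbH (IsFractionRing.injective Hol (FractionRing Hol) (h.trans (map_zero _).symm))
  -- `q * b = a`
  have hqb : q * Places.toHol (modRing N) b = Places.toHol (modRing N) a := by
    apply IsFractionRing.injective Hol (FractionRing Hol)
    rw [map_mul, hq, map_div₀, toMer_algebraMap, toMer_algebraMap, div_mul_cancel₀ _ hbM]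
  have hqb' : ∀ τ : ℍ, (q : ℍ → ℂ) τ * (b : ℍ → ℂ) τ = (a : ℍ → ℂ) τ := fun τ =>
    congrFun (congrArg Subtype.val hqb) τ
  -- boundedness at the cusps
  have hbd : ∀ γ : SL(2, ℤ), IsBoundedAtImInfty (fun τ : ℍ => (q : ℍ → ℂ) (γ • τ)) := by
    intro γ
    have h1 := hcu γ⁻¹
    rw [rhoHol_div, inv_inv, map_div₀, cuVal_algebraMap, cuVal_algebraMap] at h1
    have hbγ : translate (modRing N) γ b ≠ 0 := translate_ne_zero (modRing N) γ hb
    set a' : merCusp N := Subring.inclusion (modRing_le_merCusp N) (translate (modRing N) γ a)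
      with ha'
    set b' : merCusp N := Subring.inclusion (modRing_le_merCusp N) (translate (modRing N) γ b)
      with hb'
    have hb'0 : b' ≠ 0 := fun h => hbγ
      (Subring.inclusion_injective (modRing_le_merCusp N) (h.trans (map_zero _).symm))
    have hLb : laurent N b' ≠ 0 := fun h =>
      hb'0 (laurent_injective N (h.trans (map_zero _).symm))
    have hvb : (0 : ℤᵐ⁰) < Valued.v (laurent N b') :=
      zero_lt_iff.mpr ((Valuation.ne_zero_iff _).mpr hLb)
    have h2 : (Valued.v (laurent N a') : ℤᵐ⁰) ≤ Valued.v (laurent N b') :=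
      (div_le_one₀ hvb).mp h1
    refine isBoundedAtImInfty_of_val_le N a' b' hb'0 _ (fun τ => ?_) h2
    exact hqb' (γ • τ)
  -- invariance
  have hinv' : ∀ γ ∈ Γ, ∀ τ : ℍ, (q : ℍ → ℂ) (γ • τ) = (q : ℍ → ℂ) τ := by
    intro γ hγ τ
    have h1 := hinv γ⁻¹ (Γ.inv_mem hγ)
    have h2 := toMer_rhoHol N γ⁻¹
      ((IsFractionRing.ringEquivOfRingEquiv (A := Hol) (K := FractionRing Hol)
        (B := Hol) (L := FractionRing Hol) (act γ⁻¹) : FractionRing Hol ≃+* FractionRing Hol) :
          FractionRing Hol →+* FractionRing Hol)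
      (fun f => by
        rw [RingEquiv.coe_toRingHom, IsFractionRing.ringEquivOfRingEquiv_algebraMap]
        rfl)
      (algebraMap (modRing N) (MerN N) a / algebraMap (modRing N) (MerN N) b)
    rw [h1, ← hq, RingEquiv.coe_toRingHom, IsFractionRing.ringEquivOfRingEquiv_algebraMap] at h2
    have h3 := IsFractionRing.injective Hol (FractionRing Hol) h2
    have h4 := congrFun (congrArg Subtype.val h3) τ
    rw [h4]
    show (q : ℍ → ℂ) (γ • τ) = (q : ℍ → ℂ) ((γ⁻¹)⁻¹ • τ)
    rw [inv_inv]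
  obtain ⟨c, hc⟩ := Fermat.Agent.Lib.LiouvilleGamma.eq_const_of_invariant_of_bounded Γ
    (q : ℍ → ℂ) q.2 hinv' hbd
  refine ⟨c, ?_⟩
  apply toMer_injective N
  rw [← hq, toMer_algebraMap]
  congr 1
  apply Subtype.ext
  exact hc

end Fermat.Agent.Lib.ModMerLiouville
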