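import Mathlib
import Fermat.Prelude.Def_AlgebraicCurve_DivisorClassGroup
import Fermat.Prelude.Def_AlgebraicCurve_Repartitions
import Fermat.Agent.Lib.FFSep.LSpace

/-!
# Reduced representatives of degree-zero divisor classes

`F / K` a function field in one variable over an algebraically closed field (`x : F`
transcendental with `F / K(x)` finite separable), `P` a fixed place.  For a divisor `D` of degree
zero let `m` be minimal such that `D + m • P` is linearly equivalent to an effective divisor.  Then
`l(D + m • P) = 1`, so that effective divisor `E` is unique: the *reduced representative*.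

* `IsReduced P D m E` : `E ≥ 0`, `E - m • P - D` is principal, and `m` is minimal.
* `exists_isReduced`, `IsReduced.unique` : existence and uniqueness (for `deg D = 0`).
* `IsReduced.congr` : it depends only on the class of `D`.
* `IsReduced.map` : it is transported by every automorphism of the divisor group which preserves
  effectivity and principal divisors and fixes `P`.
-/

set_option autoImplicit false

noncomputable section

namespace Fermat.Agent.Lib.ReducedDivisor

open AlgebraicCurve IntermediateField

open Fermat.Agent.Lib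

variable {K F : Type*} [Field K] [Field F] [Algebra K F]

/-- `E` is the reduced representative of the class of `D` with respect to the place `P`, with
`m` copies of `P`. -/
def IsReduced (P : Place K F) (D : Divisor K F) (m : ℕ) (E : Divisor K F) : Prop :=
  0 ≤ E ∧ E - Finsupp.single P (m : ℤ) - D ∈ Divisor.principal (K := K) (F := F) ∧
    ∀ (m' : ℕ) (E' : Divisor K F), 0 ≤ E' →
      E' - Finsupp.single P (m' : ℤ) - D ∈ Divisor.principal (K := K) (F := F) → m ≤ m'

/-- A generator of the principal divisor `E - m • P - D` with `E ≥ 0` lies in `L(D + m • P)`. -/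
theorem mem_riemannRochSpace_of_effective {P : Place K F} {D E : Divisor K F} {m : ℕ}
    (hE : 0 ≤ E) {f : F} (hf : ∀ v : Place K F,
      (E - Finsupp.single P (m : ℤ) - D) v = v.ord f) :
    f ∈ riemannRochSpace (D + Finsupp.single P (m : ℤ)) := by
  rw [mem_riemannRochSpace_iff]
  intro v
  right
  have h1 := hf v
  have h2 : 0 ≤ E v := hE v
  simp only [Finsupp.coe_sub, Pi.sub_apply] at h1
  rw [Finsupp.add_apply]
  omega

section Main

variable {x : F} [FiniteDimensional K⟮x⟯ F] [Algebra.IsSeparable K⟮x⟯ F] [IsAlgClosed K]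

omit [IsAlgClosed K] in
/-- A nonzero element of `L(D + m • P)` gives an effective divisor in the class of
`D + m • P`. -/
theorem exists_effective_of_mem (hxt : Transcendental K x) (P : Place K F) (D : Divisor K F)
    (m : ℕ) {f : F} (hf0 : f ≠ 0) (hf : f ∈ riemannRochSpace (D + Finsupp.single P (m : ℤ))) :
    ∃ E : Divisor K F, 0 ≤ E ∧ (∀ v : Place K F,
      (E - Finsupp.single P (m : ℤ) - D) v = v.ord f) ∧
      E - Finsupp.single P (m : ℤ) - D ∈ Divisor.principal (K := K) (F := F) := by
  refine ⟨D + Finsupp.single P (m : ℤ) + FFSep.divOf hxt f, ?_, ?_, ?_⟩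
  · intro v
    have h1 := ((mem_riemannRochSpace_iff.mp hf) v).resolve_left hf0
    rw [Finsupp.add_apply] at h1
    simp only [Finsupp.coe_zero, Pi.zero_apply, Finsupp.coe_add, Pi.add_apply,
      FFSep.divOf_apply]
    omega
  · intro v
    simp only [Finsupp.coe_sub, Finsupp.coe_add, Pi.sub_apply, Pi.add_apply, FFSep.divOf_apply]
    ring
  · have h : D + Finsupp.single P (m : ℤ) + FFSep.divOf hxt f - Finsupp.single P (m : ℤ) - D
        = FFSep.divOf hxt f := by abel
    rw [h]
    exact FFSep.divOf_mem_principal hxt hf0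

/-- Existence of the reduced representative. -/
theorem exists_isReduced (hxt : Transcendental K x) (P : Place K F) (D : Divisor K F) :
    ∃ (m : ℕ) (E : Divisor K F), IsReduced P D m E := by
  classical
  have hex : ∃ m : ℕ, ∃ E : Divisor K F, 0 ≤ E ∧
      E - Finsupp.single P (m : ℤ) - D ∈ Divisor.principal (K := K) (F := F) := by
    obtain ⟨g, d₀, hg, -⟩ := FFSep.exists_riemann (F := F) hxt
    set m : ℕ := (g - Divisor.degree D).toNat with hm
    have hdeg : Divisor.degree (D + Finsupp.single P (m : ℤ)) = Divisor.degree D + m := by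
      rw [map_add, Divisor.degree_single, FFSep.deg_eq_one x P, Nat.cast_one, mul_one]
    have h1 := hg (D + Finsupp.single P (m : ℤ))
    rw [hdeg] at h1
    have h2 : (g - Divisor.degree D) ≤ (m : ℤ) := Int.self_le_toNat _
    have h3 : 0 < Module.finrank K (riemannRochSpace (D + Finsupp.single P (m : ℤ))) := by
      have : (0 : ℤ) < (Module.finrank K (riemannRochSpace (D + Finsupp.single P (m : ℤ))) : ℤ) := by
        omega
      exact_mod_cast this
    have hne : Nontrivial (riemannRochSpace (D + Finsupp.single P (m : ℤ))) :=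
      Module.nontrivial_of_finrank_pos h3
    obtain ⟨f, hf⟩ := exists_ne (0 : riemannRochSpace (D + Finsupp.single P (m : ℤ)))
    have hf0 : (f : F) ≠ 0 := fun h => hf (Subtype.ext h)
    obtain ⟨E, hE, -, hpr⟩ := exists_effective_of_mem hxt P D m hf0 f.2
    exact ⟨m, E, hE, hpr⟩
  obtain ⟨E, hE, hpr⟩ := Nat.find_spec hex
  refine ⟨Nat.find hex, E, hE, hpr, fun m' E' hE' hpr' => Nat.find_min' hex ⟨E', hE', hpr'⟩⟩

/-- For a reduced representative of a degree-zero divisor, `l(D + m • P) ≤ 1`. -/
theorem IsReduced.finrank_le_one (hxt : Transcendental K x) {P : Place K F} {D : Divisor K F}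
    (hD : Divisor.degree D = 0) {m : ℕ} {E : Divisor K F} (h : IsReduced P D m E) :
    Module.finrank K (riemannRochSpace (D + Finsupp.single P (m : ℤ))) ≤ 1 := by
  classical
  rcases Nat.eq_zero_or_pos m with rfl | hm
  · have h1 := FFSep.finrank_riemannRochSpace_le hxt D (by omega)
    rw [hD] at h1
    have h0 : D + Finsupp.single P ((0 : ℕ) : ℤ) = D := by simp
    rw [h0]
    omega
  · -- `L(D + (m - 1) • P) = 0` by minimality
    have hbot : riemannRochSpace (D + Finsupp.single P ((m - 1 : ℕ) : ℤ)) = ⊥ := by
      rw [eq_bot_iff]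
      intro f hf
      rw [Submodule.mem_bot]
      by_contra hf0
      obtain ⟨E', hE', -, hpr'⟩ := exists_effective_of_mem hxt P D (m - 1) hf0 hf
      have := h.2.2 (m - 1) E' hE' hpr'
      omega
    have hle : D + Finsupp.single P ((m - 1 : ℕ) : ℤ) ≤ D + Finsupp.single P (m : ℤ) := by
      refine add_le_add_right ?_ D
      intro v
      rw [Finsupp.single_apply, Finsupp.single_apply]
      split_ifs
      · omega
      · exact le_refl _
    have h1 := FFSep.finrank_riemannRochSpace_sub_le hxt hle
    rw [hbot, finrank_bot, map_add, map_add, Divisor.degree_single, Divisor.degree_single,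
      FFSep.deg_eq_one x P] at h1
    push_cast at h1
    have : ((m - 1 : ℕ) : ℤ) = (m : ℤ) - 1 := by
      rw [Nat.cast_sub hm]
      simp
    rw [this] at h1
    omega

/-- Uniqueness of the reduced representative (of a divisor of degree zero). -/
theorem IsReduced.unique (hxt : Transcendental K x) {P : Place K F} {D : Divisor K F}
    (hD : Divisor.degree D = 0) {m m' : ℕ} {E E' : Divisor K F} (h : IsReduced P D m E)
    (h' : IsReduced P D m' E') : m = m' ∧ E = E' := by
  have hmm : m = m' := le_antisymm (h.2.2 m' E' h'.1 h'.2.1) (h'.2.2 m E h.1 h.2.1)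
  subst hmm
  refine ⟨rfl, ?_⟩
  obtain ⟨f, hf0, hf⟩ := h.2.1
  obtain ⟨f', hf0', hf'⟩ := h'.2.1
  have hfm := mem_riemannRochSpace_of_effective h.1 hf
  have hfm' := mem_riemannRochSpace_of_effective h'.1 hf'
  have hfin := FFSep.finite_riemannRochSpace hxt (D + Finsupp.single P (m : ℤ))
  have hle := h.finrank_le_one hxt hD
  obtain ⟨c, hc⟩ := (finrank_le_one_iff (K := K)
    (V := riemannRochSpace (D + Finsupp.single P (m : ℤ)))).mp hle
  obtain ⟨a, ha⟩ := hc ⟨f, hfm⟩
  obtain ⟨a', ha'⟩ := hc ⟨f', hfm'⟩
  have ha0 : a ≠ 0 := by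
    rintro rfl
    rw [zero_smul] at ha
    exact hf0 (congrArg Subtype.val ha).symm
  have ha0' : a' ≠ 0 := by
    rintro rfl
    rw [zero_smul] at ha'
    exact hf0' (congrArg Subtype.val ha').symm
  have hc0 : (c : F) ≠ 0 := by
    intro hc0
    have := congrArg Subtype.val ha
    simp only [Submodule.coe_smul, hc0, smul_zero] at this
    exact hf0 this.symm
  have e1 : f = algebraMap K F a * (c : F) := by
    have := congrArg Subtype.val ha
    simp only [Submodule.coe_smul, Algebra.smul_def] at this
    exact this.symm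
  have e2 : f' = algebraMap K F a' * (c : F) := by
    have := congrArg Subtype.val ha'
    simp only [Submodule.coe_smul, Algebra.smul_def] at this
    exact this.symm
  ext v
  have h1 := hf v
  have h2 := hf' v
  have o1 : v.ord f = v.ord (c : F) := by
    rw [e1, v.ord_mul ((map_ne_zero _).mpr ha0) hc0, FFPlaces.ord_algebraMap, zero_add]
  have o2 : v.ord f' = v.ord (c : F) := by
    rw [e2, v.ord_mul ((map_ne_zero _).mpr ha0') hc0, FFPlaces.ord_algebraMap, zero_add]
  simp only [Finsupp.coe_sub, Pi.sub_apply] at h1 h2
  omega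

omit [FiniteDimensional K⟮x⟯ F] [Algebra.IsSeparable K⟮x⟯ F] [IsAlgClosed K] in
/-- The reduced representative depends only on the divisor class. -/
theorem IsReduced.congr {P : Place K F} {D D' : Divisor K F}
    (hDD' : D' - D ∈ Divisor.principal (K := K) (F := F)) {m : ℕ} {E : Divisor K F}
    (h : IsReduced P D m E) : IsReduced P D' m E := by
  refine ⟨h.1, ?_, fun m' E' hE' hpr' => h.2.2 m' E' hE' ?_⟩
  · have : E - Finsupp.single P (m : ℤ) - D' = (E - Finsupp.single P (m : ℤ) - D) - (D' - D) := by
      abel
    rw [this]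
    exact AddSubgroup.sub_mem _ h.2.1 hDD'
  · have : E' - Finsupp.single P (m' : ℤ) - D
        = (E' - Finsupp.single P (m' : ℤ) - D') + (D' - D) := by abel
    rw [this]
    exact AddSubgroup.add_mem _ hpr' hDD'

omit [FiniteDimensional K⟮x⟯ F] [Algebra.IsSeparable K⟮x⟯ F] [IsAlgClosed K] in
/-- Transport of the reduced representative along an automorphism of the divisor group which
preserves effective divisors and principal divisors and fixes the multiples of `P`. -/
theorem IsReduced.map {P : Place K F} (e : Divisor K F ≃+ Divisor K F)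
    (he_pos : ∀ E : Divisor K F, 0 ≤ E ↔ 0 ≤ e E)
    (he_pr : ∀ D : Divisor K F, D ∈ Divisor.principal (K := K) (F := F) ↔
      e D ∈ Divisor.principal (K := K) (F := F))
    (heP : ∀ m : ℤ, e (Finsupp.single P m) = Finsupp.single P m)
    {D : Divisor K F} {m : ℕ} {E : Divisor K F} (h : IsReduced P D m E) :
    IsReduced P (e D) m (e E) := by
  refine ⟨(he_pos E).mp h.1, ?_, fun m' E' hE' hpr' => h.2.2 m' (e.symm E') ?_ ?_⟩
  · have : e E - Finsupp.single P (m : ℤ) - e D = e (E - Finsupp.single P (m : ℤ) - D) := by
      rw [map_sub, map_sub, heP]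
    rw [this]
    exact (he_pr _).mp h.2.1
  · rw [he_pos, AddEquiv.apply_symm_apply]
    exact hE'
  · rw [he_pr, map_sub, map_sub, AddEquiv.apply_symm_apply, heP]
    exact hpr'

/-- The degree of the reduced representative. -/
theorem IsReduced.degree_eq (hxt : Transcendental K x) {P : Place K F} {D : Divisor K F}
    {m : ℕ} {E : Divisor K F} (h : IsReduced P D m E) :
    Divisor.degree E = m + Divisor.degree D := by
  have h1 := FFSep.degree_eq_zero_of_mem_principal hxt h.2.1
  rw [map_sub, map_sub, Divisor.degree_single, FFSep.deg_eq_one x P] at h1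
  push_cast at h1
  omega

omit [IsAlgClosed K] in
/-- Minimality in terms of Riemann–Roch spaces. -/
theorem IsReduced.riemannRochSpace_eq_bot (hxt : Transcendental K x) {P : Place K F}
    {D : Divisor K F} {m : ℕ} {E : Divisor K F} (h : IsReduced P D m E) {m' : ℕ}
    (hm' : m' < m) : riemannRochSpace (D + Finsupp.single P (m' : ℤ)) = ⊥ := by
  rw [eq_bot_iff]
  intro f hf
  rw [Submodule.mem_bot]
  by_contra hf0
  obtain ⟨E', hE', -, hpr'⟩ := exists_effective_of_mem hxt P D m' hf0 hf
  have := h.2.2 m' E' hE' hpr'
  omega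

/-- `l(D + m • P) = 1` at the reduced representative of a degree-zero divisor. -/
theorem IsReduced.finrank_eq_one (hxt : Transcendental K x) {P : Place K F} {D : Divisor K F}
    (hD : Divisor.degree D = 0) {m : ℕ} {E : Divisor K F} (h : IsReduced P D m E) :
    Module.finrank K (riemannRochSpace (D + Finsupp.single P (m : ℤ))) = 1 := by
  refine le_antisymm (h.finrank_le_one hxt hD) ?_
  obtain ⟨f, hf0, hf⟩ := h.2.1
  have hfm := mem_riemannRochSpace_of_effective h.1 hf
  have hfin := FFSep.finite_riemannRochSpace hxt (D + Finsupp.single P (m : ℤ))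
  have hne : Nontrivial (riemannRochSpace (D + Finsupp.single P (m : ℤ))) :=
    ⟨⟨⟨f, hfm⟩, 0, fun h0 => hf0 (congrArg Subtype.val h0)⟩⟩
  exact Module.finrank_pos

/-- Existence and uniqueness in one statement. -/
theorem existsUnique_isReduced (hxt : Transcendental K x) (P : Place K F) (D : Divisor K F)
    (hD : Divisor.degree D = 0) :
    ∃ (m : ℕ) (E : Divisor K F), IsReduced P D m E ∧
      ∀ (m' : ℕ) (E' : Divisor K F), IsReduced P D m' E' → m' = m ∧ E' = E := by
  obtain ⟨m, E, h⟩ := exists_isReduced hxt P D
  exact ⟨m, E, h, fun m' E' h' => h'.unique hxt hD h⟩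

end Main

end Fermat.Agent.Lib.ReducedDivisor
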