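import Mathlib
import Fermat.Agent.Lib.ModMerCusp
import Fermat.Agent.P5.ModFun.RealCInf
import Fermat.Agent.P5.Desc.Modular

/-!
# The function field `K_C` of `X₀(N)` over `ℂ` inside `MerN N`

`K_C = laurentBaseChange ℂ (modularFunctionFieldFull N)` is realised inside `Mer = Frac Hol` by
helper50's `P5.ModFun.realC`.  Here the realisation is factored through the ambient field
`MerN N = Frac (modRing N)` of `Lib/ModMer`, where the point and cusp valuations live:

* `rhoC N : K_C →+* MerN N` with `toMer_rhoC : toMer N (rhoC N x) = (realC N).emb x`;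
* `rhoC_algebraMap`, `rhoC_gen`, `rhoC_jBar` : constants, the generators `j(dτ)`, and `j`;
* `compMer_toMer_rhoC`, `rhoHol_rhoC` : `Γ₀(N)`-invariance;
* `mem_range_algebraMap_of_rhoC_le_one` : **Liouville for `K_C`** — an element of `K_C` whose
  function has no pole on `ℍ` and is regular at every cusp is constant (the hypothesis `hconst`
  of `PlaceLiouville.exists_valuation_of_place`).
-/

set_option autoImplicit false

noncomputable section

namespace Fermat.Agent.Lib.ModMer

open UpperHalfPlane ModularCurve CongruenceSubgroup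
open Fermat.Agent.S24 Fermat.Agent.Lib.CuspLaurent Fermat.Agent.Lib.HolVal
open Fermat.Agent.Lib.JStab
open Fermat.Agent.P5 Fermat.Agent.P5.ModFun
open scoped MatrixGroups Manifold WithZero

variable (N : ℕ) [NeZero N]

/-- The function of every element of `K_C` lies in `MerN N`. -/
theorem exists_toMer_eq_emb (x : ↥(laurentBaseChange ℂ (modularFunctionFieldFull N))) :
    ∃ m : MerN N, toMer N m = (realC N).emb x := by
  obtain ⟨a, b, hb0, hab⟩ := RealC.exists_cuspRing_div N x
  have ha : (a : ℍ → ℂ) ∈ modRing N := a.2.2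
  have hb : (b : ℍ → ℂ) ∈ modRing N := b.2.2
  refine exists_toMer_eq N (a := ⟨a, ha⟩) (b := ⟨b, hb⟩) (fun h => hb0 (congrArg Subtype.val h)) ?_
  exact hab

/-- `MerN N` is isomorphic to its image in `Mer`. -/
def toMerEquiv : MerN N ≃+* (toMer N).range :=
  RingEquiv.ofBijective (toMer N).rangeRestrict
    ⟨fun _ _ h => toMer_injective N (congrArg Subtype.val h), (toMer N).rangeRestrict_surjective⟩

theorem coe_toMerEquiv (m : MerN N) : ((toMerEquiv N m : (toMer N).range) : FractionRing Hol)
    = toMer N m := rfl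

/-- **The realisation of `K_C` inside `MerN N`.** -/
def rhoC : ↥(laurentBaseChange ℂ (modularFunctionFieldFull N)) →+* MerN N :=
  ((toMerEquiv N).symm : (toMer N).range →+* MerN N).comp
    ((realC N).emb.codRestrict (toMer N).range (fun x => exists_toMer_eq_emb N x))

/-- `rhoC` followed by `MerN N ⊆ Mer` is `realC`. -/
theorem toMer_rhoC (x : ↥(laurentBaseChange ℂ (modularFunctionFieldFull N))) :
    toMer N (rhoC N x) = (realC N).emb x := by
  have h := (toMerEquiv N).apply_symm_apply
    ((realC N).emb.codRestrict (toMer N).range (fun x => exists_toMer_eq_emb N x) x)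
  exact congrArg Subtype.val h

theorem rhoC_eq_iff (x : ↥(laurentBaseChange ℂ (modularFunctionFieldFull N))) (m : MerN N) :
    rhoC N x = m ↔ (realC N).emb x = toMer N m := by
  rw [← toMer_rhoC]
  exact ⟨fun h => by rw [h], fun h => toMer_injective N h⟩

theorem rhoC_injective : Function.Injective (rhoC N) := (rhoC N).injective

/-- Constants go to constants. -/
theorem rhoC_algebraMap (c : ℂ) :
    rhoC N (algebraMap ℂ ↥(laurentBaseChange ℂ (modularFunctionFieldFull N)) c)
      = algebraMap (modRing N) (MerN N) (constM N c) := by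
  rw [rhoC_eq_iff, realC_emb_algebraMap, toMer_constM]

/-- The generators `j(dτ)`, `d ∣ N`. -/
theorem rhoC_gen (d : ℕ) [NeZero d] (hd : d ∣ N) :
    rhoC N ⟨coeffEmb ℂ (qExpand ℚ d jq),
        coeffEmb_mem_laurentBaseChange ℂ (jqd_mem_full N hd)⟩
      = algebraMap (modRing N) (MerN N) ⟨jN d, RN_le_modRing N (jN_mem_RN hd)⟩ := by
  rw [rhoC_eq_iff, realC_emb_gen N d hd, toMer_algebraMap]
  rfl

/-- The function of `j` (for the standard embedding `Q̄ ⊆ ℂ`). -/
theorem rhoC_jBar_iota :
    rhoC N (Desc.baseMap Basic.iota (modularFunctionFieldFull N) (jBar N))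
      = algebraMap (modRing N) (MerN N) (jM N) := by
  rw [rhoC_eq_iff, realC_emb_baseMap, Kappa.embMer_apply, embFN_jBar, Kappa.mnToMer_algebraMap,
    toMer_algebraMap]
  rfl

/-- The function of `j` (any embedding `Q̄ → ℂ`: the `q`-expansion of `j` is rational). -/
theorem rhoC_jBar (ι : AlgebraicClosure ℚ →+* ℂ) :
    rhoC N (Desc.baseMap ι (modularFunctionFieldFull N) (jBar N))
      = algebraMap (modRing N) (MerN N) (jM N) := by
  have h : Desc.baseMap ι (modularFunctionFieldFull N) (jBar N)
      = Desc.baseMap Basic.iota (modularFunctionFieldFull N) (jBar N) := by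
    apply Subtype.ext
    rw [Desc.coe_baseMap_jBar, Desc.coe_baseMap_jBar]
  rw [h, rhoC_jBar_iota]

/-- `Γ₀(N)`-invariance, in the vocabulary of `P5/Kappa`. -/
theorem compMer_toMer_rhoC {γ : SL(2, ℤ)} (hγ : γ ∈ Gamma0 N)
    (x : ↥(laurentBaseChange ℂ (modularFunctionFieldFull N))) :
    Kappa.compMer γ (toMer N (rhoC N x)) = toMer N (rhoC N x) := by
  rw [toMer_rhoC, realC_comp_emb N hγ]

/-- `Γ₀(N)`-invariance, for the action `rhoHol` on `MerN N`. -/
theorem rhoHol_rhoC {γ : SL(2, ℤ)} (hγ : γ ∈ Gamma0 N)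
    (x : ↥(laurentBaseChange ℂ (modularFunctionFieldFull N))) :
    rhoHol (modRing N) γ (rhoC N x) = rhoC N x := by
  apply toMer_injective N
  rw [toMer_rhoHol_compMer, compMer_toMer_rhoC N ((Gamma0 N).inv_mem hγ)]

/-- **Liouville for `K_C`.**  An element of `K_C` whose function has no pole on `ℍ` and is regular
at every cusp is constant. -/
theorem mem_range_algebraMap_of_rhoC_le_one
    (f : ↥(laurentBaseChange ℂ (modularFunctionFieldFull N)))
    (hpt : ∀ τ : ℍ, ptVal N τ (rhoC N f) ≤ 1)
    (hcu : ∀ γ : SL(2, ℤ), cuVal N (rhoHol (modRing N) γ (rhoC N f)) ≤ 1) :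
    f ∈ Set.range (algebraMap ℂ ↥(laurentBaseChange ℂ (modularFunctionFieldFull N))) :=
  mem_range_algebraMap_of_le_one N (rhoC N) (rhoC_algebraMap N) (Gamma0 N)
    (fun _ hγ x => compMer_toMer_rhoC N hγ x) f hpt hcu

end Fermat.Agent.Lib.ModMer
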