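/-
S24 package "MODULAR TOWER, pure algebra" (helper75).

Input: a domain `𝓗` (think: holomorphic functions on the upper half plane), a `K`-algebra
(`K = ℚ̄`) with an action of `Γ = SL(2,ℤ)` by `K`-algebra automorphisms, elements `J d`
(think `τ ↦ j(dτ)`), and an injective "q-expansion" comparison with the Prelude Laurent series.

Output: the field `L = Frac K[γ • J d]`, the representation `ρ : Γ →* (L ≃ₐ[K] L)` with finite
range, the embedding `Θ : F →ₐ[K] L` of the Prelude function field, the fixed field, the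
fixer of `F`, and transfer of valuations from `𝓗` to `L`.
-/
import Mathlib
import Fermat.Prelude.Def_ModularCurve_ArithmeticGalois
import Fermat.Agent.Lib.FFBridge

set_option autoImplicit false
set_option linter.unusedSectionVars false
set_option linter.unusedVariables false

noncomputable section

namespace Fermat.Agent.Lib.ModTower

open ModularCurve IntermediateField
open scoped MatrixGroups

section Ring

variable (N : ℕ) {𝓗 : Type} [CommRing 𝓗] [Algebra (AlgebraicClosure ℚ) 𝓗]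
  [MulSemiringAction SL(2, ℤ) 𝓗] [SMulCommClass SL(2, ℤ) (AlgebraicClosure ℚ) 𝓗] (J : ℕ → 𝓗)

/-- The set of all translates `γ • J d`, `d ∣ N`. -/
def orbitSet : Set 𝓗 := {f | ∃ (γ : SL(2, ℤ)) (d : ℕ), d ∣ N ∧ f = γ • J d}

theorem smul_mem_orbitSet {f : 𝓗} (hf : f ∈ orbitSet N J) (γ : SL(2, ℤ)) :
    γ • f ∈ orbitSet N J := by
  obtain ⟨γ', d, hd, rfl⟩ := hf
  exact ⟨γ * γ', d, hd, (mul_smul γ γ' (J d)).symm⟩

theorem J_mem_orbitSet {d : ℕ} (hd : d ∣ N) : J d ∈ orbitSet N J :=
  ⟨1, d, hd, (one_smul _ _).symm⟩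

/-- The `K`-algebra generated by all translates `γ • J d`, `d ∣ N`. -/
def ring : Subalgebra (AlgebraicClosure ℚ) 𝓗 := Algebra.adjoin (AlgebraicClosure ℚ) (orbitSet N J)

theorem J_mem_ring {d : ℕ} (hd : d ∣ N) : J d ∈ ring N J :=
  Algebra.subset_adjoin (J_mem_orbitSet N J hd)

theorem smul_mem_ring {f : 𝓗} (hf : f ∈ ring N J) (γ : SL(2, ℤ)) : γ • f ∈ ring N J := by
  induction hf using Algebra.adjoin_induction with
  | mem x hx => exact Algebra.subset_adjoin (smul_mem_orbitSet N J hx γ)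
  | algebraMap a =>
      rw [smul_algebraMap]
      exact Subalgebra.algebraMap_mem _ a
  | add x y _ _ hx hy => rw [smul_add]; exact add_mem hx hy
  | mul x y _ _ hx hy => rw [smul_mul']; exact mul_mem hx hy

instance : MulSemiringAction SL(2, ℤ) ↥(ring N J) where
  smul γ f := ⟨γ • (f : 𝓗), smul_mem_ring N J f.2 γ⟩
  one_smul f := Subtype.ext (one_smul _ _)
  mul_smul γ γ' f := Subtype.ext (mul_smul _ _ _)
  smul_zero γ := Subtype.ext (smul_zero _)
  smul_add γ f g := Subtype.ext (smul_add _ _ _)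
  smul_one γ := Subtype.ext (smul_one _)
  smul_mul γ f g := Subtype.ext (smul_mul' _ _ _)

@[simp]
theorem coe_smul (γ : SL(2, ℤ)) (f : ↥(ring N J)) : ((γ • f : ↥(ring N J)) : 𝓗) = γ • (f : 𝓗) :=
  rfl

instance : SMulCommClass SL(2, ℤ) (AlgebraicClosure ℚ) ↥(ring N J) where
  smul_comm γ a f := Subtype.ext (smul_comm γ a (f : 𝓗))

/-- The action of `Γ` on the ring by `K`-algebra automorphisms. -/
def ringAut : SL(2, ℤ) →* (↥(ring N J) ≃ₐ[AlgebraicClosure ℚ] ↥(ring N J)) :=
  MulSemiringAction.toAlgAut SL(2, ℤ) (AlgebraicClosure ℚ) ↥(ring N J)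

@[simp]
theorem ringAut_apply (γ : SL(2, ℤ)) (f : ↥(ring N J)) : ringAut N J γ f = γ • f := rfl

theorem ringAut_eq_of_eqOn (γ γ' : SL(2, ℤ)) (h : ∀ f ∈ orbitSet N J, γ • f = γ' • f) :
    ringAut N J γ = ringAut N J γ' := by
  have key : ∀ x : 𝓗, x ∈ ring N J → γ • x = γ' • x := by
    intro x hf
    induction hf using Algebra.adjoin_induction with
    | mem x hx => exact h x hx
    | algebraMap a => rw [smul_algebraMap, smul_algebraMap]
    | add x y _ _ hx hy => rw [smul_add, smul_add, hx, hy]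
    | mul x y _ _ hx hy => rw [smul_mul', smul_mul', hx, hy]
  exact AlgEquiv.ext fun f => Subtype.ext (key f.1 f.2)

/-- If there are only finitely many translates `γ • J d`, then `Γ` acts on the ring through a
finite group. -/
theorem finite_range_ringAut (hfin : (orbitSet N J).Finite) :
    (Set.range (ringAut N J)).Finite := by
  classical
  have : Finite ↥(orbitSet N J) := hfin.to_subtype
  let Φ : SL(2, ℤ) → (↥(orbitSet N J) → ↥(orbitSet N J)) :=
    fun γ x => ⟨γ • (x : 𝓗), smul_mem_orbitSet N J x.2 γ⟩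
  let g : (↥(orbitSet N J) → ↥(orbitSet N J)) →
      (↥(ring N J) ≃ₐ[AlgebraicClosure ℚ] ↥(ring N J)) :=
    fun p => if h : ∃ γ, Φ γ = p then ringAut N J h.choose else 1
  refine (Set.finite_range g).subset ?_
  rintro _ ⟨γ, rfl⟩
  refine ⟨Φ γ, ?_⟩
  have hex : ∃ γ', Φ γ' = Φ γ := ⟨γ, rfl⟩
  show (if h : ∃ γ', Φ γ' = Φ γ then ringAut N J h.choose else 1) = ringAut N J γ
  rw [dif_pos hex]
  apply ringAut_eq_of_eqOn
  intro f hf
  have := congrFun hex.choose_spec ⟨f, hf⟩
  exact congrArg Subtype.val this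

end Ring

section Field

variable (N : ℕ) {𝓗 : Type} [CommRing 𝓗] [IsDomain 𝓗] [Algebra (AlgebraicClosure ℚ) 𝓗]
  [MulSemiringAction SL(2, ℤ) 𝓗] [SMulCommClass SL(2, ℤ) (AlgebraicClosure ℚ) 𝓗] (J : ℕ → 𝓗)

/-- The field `L = Frac K[γ • J d]`. -/
abbrev field : Type := FractionRing ↥(ring N J)

/-- The representation of `Γ` on `L` by `K`-algebra automorphisms. -/
def rho : SL(2, ℤ) →* (field N J ≃ₐ[AlgebraicClosure ℚ] field N J) :=
  (IsFractionRing.fieldEquivOfAlgEquivHom (AlgebraicClosure ℚ) (field N J)).comp (ringAut N J)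

@[simp]
theorem rho_algebraMap (γ : SL(2, ℤ)) (f : ↥(ring N J)) :
    rho N J γ (algebraMap ↥(ring N J) (field N J) f) =
      algebraMap ↥(ring N J) (field N J) (γ • f) := by
  simp [rho]

theorem finite_range_rho (hfin : (orbitSet N J).Finite) : (Set.range (rho N J)).Finite := by
  have h := (finite_range_ringAut N J hfin).image
    (IsFractionRing.fieldEquivOfAlgEquivHom (AlgebraicClosure ℚ) (field N J))
  refine h.subset ?_
  rintro _ ⟨γ, rfl⟩
  exact ⟨ringAut N J γ, ⟨γ, rfl⟩, rfl⟩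

theorem rho_eq_one_of_smul_eq (γ : SL(2, ℤ)) (h : ∀ f : 𝓗, γ • f = f) : rho N J γ = 1 := by
  have h1 : ringAut N J γ = 1 := AlgEquiv.ext fun f => Subtype.ext (h f)
  rw [rho, MonoidHom.comp_apply, h1, map_one]

/-- A product over the (finite) group of automorphisms gives an invariant multiple of any
nonzero element. -/
theorem exists_invariant_multiple (hfin : (Set.range (ringAut N J)).Finite)
    (b : ↥(ring N J)) (hb : b ≠ 0) :
    ∃ c' : ↥(ring N J), b * c' ≠ 0 ∧ ∀ γ : SL(2, ℤ), γ • (b * c') = b * c' := by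
  classical
  set T := hfin.toFinset with hT
  have h1 : (1 : ↥(ring N J) ≃ₐ[AlgebraicClosure ℚ] ↥(ring N J)) ∈ T := by
    rw [hT, Set.Finite.mem_toFinset]
    exact ⟨1, map_one _⟩
  have hprod : b * ∏ σ ∈ T.erase 1, σ b = ∏ σ ∈ T, σ b := by
    have := Finset.mul_prod_erase T (fun σ : ↥(ring N J) ≃ₐ[AlgebraicClosure ℚ] ↥(ring N J) => σ b) h1
    simpa using this
  refine ⟨∏ σ ∈ T.erase 1, σ b, ?_, ?_⟩
  · rw [hprod, Finset.prod_ne_zero_iff]
    intro σ _
    exact (map_ne_zero_iff σ σ.injective).mpr hb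
  · intro γ
    rw [hprod]
    have h2 : γ • (∏ σ ∈ T, σ b) = ∏ σ ∈ T, (ringAut N J γ * σ) b := by
      rw [← ringAut_apply, map_prod]
      rfl
    rw [h2]
    refine Finset.prod_equiv (Equiv.mulLeft (ringAut N J γ)) ?_ ?_
    · intro σ
      rw [hT, Set.Finite.mem_toFinset, Set.Finite.mem_toFinset]
      constructor
      · rintro ⟨γ', rfl⟩
        exact ⟨γ * γ', map_mul _ _ _⟩
      · rintro ⟨γ', hγ'⟩
        refine ⟨γ⁻¹ * γ', ?_⟩
        rw [map_mul, hγ', map_inv]
        simp
    · intro σ _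
      rfl

end Field

/-- The hypotheses on the function ring (see the header of this file). -/
structure IsTower (N : ℕ) {𝓗 : Type} [CommRing 𝓗] [Algebra (AlgebraicClosure ℚ) 𝓗]
    [MulSemiringAction SL(2, ℤ) 𝓗] (J : ℕ → 𝓗) {L' : Type*} [CommRing L']
    (c : LaurentSeries (AlgebraicClosure ℚ) →+* L') (e : 𝓗 →+* L') : Prop where
  /-- the comparison map `K((q)) → L'` is injective -/
  c_injective : Function.Injective c
  /-- the expansion map is injective -/
  e_injective : Function.Injective e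
  /-- constants expand to constants -/
  e_algebraMap : ∀ a : AlgebraicClosure ℚ,
    e (algebraMap (AlgebraicClosure ℚ) 𝓗 a) =
      c (algebraMap (AlgebraicClosure ℚ) (LaurentSeries (AlgebraicClosure ℚ)) a)
  /-- `J d` expands to the Prelude generator `j(q^d)` -/
  e_J : ∀ (d : ℕ) [NeZero d], d ∣ N → e (J d) = c (FFBridge.gen d)
  /-- finitely many translates -/
  finite_orbit : (orbitSet N J).Finite
  /-- invariant elements of the ring are polynomials in `J 1` -/
  invariant : ∀ f ∈ ring N J, (∀ γ : SL(2, ℤ), γ • f = f) →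
    f ∈ Algebra.adjoin (AlgebraicClosure ℚ) {J 1}
  /-- `J 1` is invariant -/
  smul_J_one : ∀ γ : SL(2, ℤ), γ • J 1 = J 1
  /-- the stabiliser of `J N` is contained in `Γ₀(N)` -/
  mem_Gamma0_of_smul_J : ∀ γ : SL(2, ℤ), γ • J N = J N → γ ∈ CongruenceSubgroup.Gamma0 N
  /-- `Γ₀(N)` fixes all `J d`, `d ∣ N` -/
  smul_J_of_mem_Gamma0 : ∀ γ ∈ CongruenceSubgroup.Gamma0 N, ∀ d : ℕ, d ∣ N → γ • J d = J d
  /-- `-1` acts trivially -/
  neg_one_smul : ∀ f : 𝓗, (-1 : SL(2, ℤ)) • f = f

section Tower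

variable {N : ℕ} {𝓗 : Type} [CommRing 𝓗] [IsDomain 𝓗] [Algebra (AlgebraicClosure ℚ) 𝓗]
  [MulSemiringAction SL(2, ℤ) 𝓗] [SMulCommClass SL(2, ℤ) (AlgebraicClosure ℚ) 𝓗] {J : ℕ → 𝓗}
  {L' : Type*} [CommRing L'] {c : LaurentSeries (AlgebraicClosure ℚ) →+* L'} {e : 𝓗 →+* L'}

namespace IsTower

/-- (O1) `Γ` acts on `L` through a finite group. -/
theorem finite_range_rho (h : IsTower N J c e) : (Set.range (rho N J)).Finite :=
  ModTower.finite_range_rho N J h.finite_orbit

/-- (O1) `-1` acts trivially on `L`. -/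
theorem rho_neg_one (h : IsTower N J c e) : rho N J (-1) = 1 :=
  rho_eq_one_of_smul_eq N J (-1) h.neg_one_smul

theorem exists_embed (h : IsTower N J c e) :
    ∃ Θ : ↥(modularFunctionFieldBar N) →ₐ[AlgebraicClosure ℚ] field N J,
      ∀ (x : ↥(modularFunctionFieldBar N)) (r : ↥(ring N J)),
        e (r : 𝓗) = c (x : LaurentSeries (AlgebraicClosure ℚ)) →
          Θ x = algebraMap ↥(ring N J) (field N J) r := by
  refine FFBridge.exists_algHom N (c := c) (e := e.comp (ring N J).val.toRingHom)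
    h.c_injective (h.e_injective.comp Subtype.val_injective)
    (algebraMap ↥(ring N J) (field N J)) (IsFractionRing.injective _ _) ?_ ?_
  · intro a
    refine ⟨algebraMap (AlgebraicClosure ℚ) ↥(ring N J) a, ?_, ?_⟩
    · exact h.e_algebraMap a
    · exact (IsScalarTower.algebraMap_apply (AlgebraicClosure ℚ) ↥(ring N J) (field N J) a).symm
  · intro d _ hd
    exact ⟨⟨J d, J_mem_ring N J hd⟩, h.e_J d hd⟩

/-- (O2) The embedding of the Prelude function field into `L`. -/
def embed (h : IsTower N J c e) :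
    ↥(modularFunctionFieldBar N) →ₐ[AlgebraicClosure ℚ] field N J :=
  h.exists_embed.choose

theorem embed_spec (h : IsTower N J c e) (x : ↥(modularFunctionFieldBar N)) (r : ↥(ring N J))
    (hr : e (r : 𝓗) = c (x : LaurentSeries (AlgebraicClosure ℚ))) :
    h.embed x = algebraMap ↥(ring N J) (field N J) r :=
  h.exists_embed.choose_spec x r hr

/-- (O2) `Θ (j(q^d)) = J d`. -/
theorem embed_gen (h : IsTower N J c e) (d : ℕ) [NeZero d] (hd : d ∣ N) :
    h.embed ⟨FFBridge.gen d, FFBridge.gen_mem hd⟩ =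
      algebraMap ↥(ring N J) (field N J) ⟨J d, J_mem_ring N J hd⟩ :=
  h.embed_spec _ ⟨J d, J_mem_ring N J hd⟩ (h.e_J d hd)

/-- (O2) `ρ γ` fixes `Θ j`. -/
theorem rho_embed_gen_one (h : IsTower N J c e) (γ : SL(2, ℤ)) :
    rho N J γ (h.embed ⟨FFBridge.gen 1, FFBridge.gen_mem (one_dvd N)⟩) =
      h.embed ⟨FFBridge.gen 1, FFBridge.gen_mem (one_dvd N)⟩ := by
  rw [h.embed_gen 1 (one_dvd N), rho_algebraMap]
  congr 1
  exact Subtype.ext (h.smul_J_one γ)

/-- (O3) **Fixed field**: an element of `L` fixed by `Γ` lies in `K(J 1)`. -/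
theorem mem_adjoin_of_fixed (h : IsTower N J c e) (m : field N J)
    (hm : ∀ γ : SL(2, ℤ), rho N J γ m = m) :
    m ∈ (AlgebraicClosure ℚ)⟮algebraMap ↥(ring N J) (field N J)
      ⟨J 1, J_mem_ring N J (one_dvd N)⟩⟯ := by
  set j1 : ↥(ring N J) := ⟨J 1, J_mem_ring N J (one_dvd N)⟩ with hj1
  -- elements of `K[J 1]` map into `K(J 1)`
  have key : ∀ x : ↥(ring N J), (x : 𝓗) ∈ Algebra.adjoin (AlgebraicClosure ℚ) {J 1} →
      algebraMap ↥(ring N J) (field N J) x ∈
        (AlgebraicClosure ℚ)⟮algebraMap ↥(ring N J) (field N J) j1⟯ := by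
    intro x hx
    have h1 : Algebra.adjoin (AlgebraicClosure ℚ) {J 1} =
        (Algebra.adjoin (AlgebraicClosure ℚ) {j1}).map (ring N J).val := by
      rw [AlgHom.map_adjoin, Set.image_singleton]
      rfl
    rw [h1] at hx
    obtain ⟨y, hy, hyx⟩ := hx
    have hyx' : y = x := Subtype.ext hyx
    subst hyx'
    have h2 : (Algebra.adjoin (AlgebraicClosure ℚ) {j1}).map
        (IsScalarTower.toAlgHom (AlgebraicClosure ℚ) ↥(ring N J) (field N J)) ≤
        ((AlgebraicClosure ℚ)⟮algebraMap ↥(ring N J) (field N J) j1⟯).toSubalgebra := by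
      rw [AlgHom.map_adjoin, Set.image_singleton]
      exact algebra_adjoin_le_adjoin _ _
    exact h2 ⟨y, hy, rfl⟩
  obtain ⟨a, b, hb, rfl⟩ := IsFractionRing.div_surjective (A := ↥(ring N J)) m
  have hb0 : b ≠ 0 := nonZeroDivisors.ne_zero hb
  obtain ⟨c', hbc, hinv⟩ := exists_invariant_multiple N J
    (finite_range_ringAut N J h.finite_orbit) b hb0
  have hc0 : c' ≠ 0 := fun h0 => hbc (by rw [h0, mul_zero])
  have hinj : Function.Injective (algebraMap ↥(ring N J) (field N J)) :=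
    IsFractionRing.injective _ _
  have hB : algebraMap ↥(ring N J) (field N J) (b * c') ≠ 0 :=
    (map_ne_zero_iff _ hinj).mpr hbc
  have hbF : algebraMap ↥(ring N J) (field N J) b ≠ 0 := (map_ne_zero_iff _ hinj).mpr hb0
  have hcF : algebraMap ↥(ring N J) (field N J) c' ≠ 0 := (map_ne_zero_iff _ hinj).mpr hc0
  have hm' : algebraMap ↥(ring N J) (field N J) a / algebraMap ↥(ring N J) (field N J) b =
      algebraMap ↥(ring N J) (field N J) (a * c') /
        algebraMap ↥(ring N J) (field N J) (b * c') := by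
    rw [map_mul, map_mul]
    field_simp
  -- `a * c'` is invariant
  have hA : ∀ γ : SL(2, ℤ), γ • (a * c') = a * c' := by
    intro γ
    apply hinj
    have e1 : algebraMap ↥(ring N J) (field N J) (a * c') =
        (algebraMap ↥(ring N J) (field N J) a / algebraMap ↥(ring N J) (field N J) b) *
          algebraMap ↥(ring N J) (field N J) (b * c') := by
      rw [hm']
      field_simp
    rw [← rho_algebraMap, e1, map_mul, hm γ, rho_algebraMap, hinv γ]
  have hA' : ((a * c' : ↥(ring N J)) : 𝓗) ∈ Algebra.adjoin (AlgebraicClosure ℚ) {J 1} :=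
    h.invariant _ (a * c').2 fun γ => congrArg Subtype.val (hA γ)
  have hB' : ((b * c' : ↥(ring N J)) : 𝓗) ∈ Algebra.adjoin (AlgebraicClosure ℚ) {J 1} :=
    h.invariant _ (b * c').2 fun γ => congrArg Subtype.val (hinv γ)
  rw [hm']
  exact div_mem (key _ hA') (key _ hB')

/-- (O4) **Fixer**: `ρ γ` fixes the image of the Prelude function field pointwise iff
`γ ∈ Γ₀(N)`. -/
theorem fixer_iff [NeZero N] (h : IsTower N J c e) (γ : SL(2, ℤ)) :
    (∀ f : ↥(modularFunctionFieldBar N), rho N J γ (h.embed f) = h.embed f) ↔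
      γ ∈ CongruenceSubgroup.Gamma0 N := by
  have hinj : Function.Injective (algebraMap ↥(ring N J) (field N J)) :=
    IsFractionRing.injective _ _
  constructor
  · intro hf
    apply h.mem_Gamma0_of_smul_J
    have h1 := hf ⟨FFBridge.gen N, FFBridge.gen_mem dvd_rfl⟩
    rw [h.embed_gen N dvd_rfl, rho_algebraMap] at h1
    exact congrArg Subtype.val (hinj h1)
  · intro hγ
    have key : ((rho N J γ : field N J ≃ₐ[AlgebraicClosure ℚ] field N J) : field N J →+* field N J).comp
        (h.embed : ↥(modularFunctionFieldBar N) →+* field N J) =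
        (h.embed : ↥(modularFunctionFieldBar N) →+* field N J) := by
      refine FFBridge.ringHom_ext N _ _ (fun a => ?_) (fun d _ hd => ?_)
      · simp
      · show rho N J γ (h.embed ⟨FFBridge.gen d, FFBridge.gen_mem hd⟩) =
          h.embed ⟨FFBridge.gen d, FFBridge.gen_mem hd⟩
        rw [h.embed_gen d hd, rho_algebraMap]
        congr 1
        exact Subtype.ext (h.smul_J_of_mem_Gamma0 γ hγ d hd)
    intro f
    exact congrArg (fun φ : ↥(modularFunctionFieldBar N) →+* field N J => φ f) key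

end IsTower

end Tower

section Val

variable (N : ℕ) {𝓗 : Type} [CommRing 𝓗] [IsDomain 𝓗] [Algebra (AlgebraicClosure ℚ) 𝓗]
  [MulSemiringAction SL(2, ℤ) 𝓗] [SMulCommClass SL(2, ℤ) (AlgebraicClosure ℚ) 𝓗] (J : ℕ → 𝓗)
  {Γ₀ : Type*} [LinearOrderedCommGroupWithZero Γ₀]

theorem nonZeroDivisors_le_primeCompl (v : Valuation 𝓗 Γ₀) (hv : ∀ f : 𝓗, v f = 0 → f = 0) :
    nonZeroDivisors ↥(ring N J) ≤ (v.comap (ring N J).val.toRingHom).supp.primeCompl := by
  intro x hx
  rw [Ideal.mem_primeCompl_iff, Valuation.mem_supp_iff]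
  intro h0
  exact nonZeroDivisors.ne_zero hx (Subtype.ext (hv _ h0))

/-- (O5) A valuation on the function ring which vanishes only at `0` extends to `L`. -/
def extendVal (v : Valuation 𝓗 Γ₀) (hv : ∀ f : 𝓗, v f = 0 → f = 0) : Valuation (field N J) Γ₀ :=
  (v.comap (ring N J).val.toRingHom).extendToLocalization
    (nonZeroDivisors_le_primeCompl N J v hv) (field N J)

@[simp]
theorem extendVal_algebraMap (v : Valuation 𝓗 Γ₀) (hv : ∀ f : 𝓗, v f = 0 → f = 0)
    (r : ↥(ring N J)) :
    extendVal N J v hv (algebraMap ↥(ring N J) (field N J) r) = v (r : 𝓗) :=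
  Valuation.extendToLocalization_apply_map_apply _ _ _ r

/-- (O5) triviality on constants is inherited. -/
theorem extendVal_algebraMap_base (v : Valuation 𝓗 Γ₀) (hv : ∀ f : 𝓗, v f = 0 → f = 0)
    (a : AlgebraicClosure ℚ) :
    extendVal N J v hv (algebraMap (AlgebraicClosure ℚ) (field N J) a) =
      v (algebraMap (AlgebraicClosure ℚ) 𝓗 a) := by
  rw [IsScalarTower.algebraMap_apply (AlgebraicClosure ℚ) ↥(ring N J) (field N J),
    extendVal_algebraMap]
  rfl

/-- (O5) invariance under `γ` is inherited. -/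
theorem extendVal_rho (v : Valuation 𝓗 Γ₀) (hv : ∀ f : 𝓗, v f = 0 → f = 0) (γ : SL(2, ℤ))
    (hγ : ∀ f : 𝓗, v (γ • f) = v f) (m : field N J) :
    extendVal N J v hv (rho N J γ m) = extendVal N J v hv m := by
  obtain ⟨a, b, hb, rfl⟩ := IsFractionRing.div_surjective (A := ↥(ring N J)) m
  rw [map_div₀, rho_algebraMap, rho_algebraMap, map_div₀, map_div₀, extendVal_algebraMap,
    extendVal_algebraMap, extendVal_algebraMap, extendVal_algebraMap, coe_smul, coe_smul, hγ, hγ]

end Val

end Fermat.Agent.Lib.ModTower
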