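import Mathlib
import Fermat.Prelude.Def_Algebra_PatchingDatum

set_option autoImplicit false

namespace Fermat.Agent.Lib.MvPSRegular

open MvPowerSeries

variable {R : Type*} [CommRing R] {r : ℕ}

/-- The ideal generated by the first `i` variables. -/
noncomputable def varIdeal (R : Type*) [CommRing R] (r i : ℕ) : Ideal (MvPowerSeries (Fin r) R) :=
  Ideal.span {x | ∃ j : Fin r, j.val < i ∧ x = X j}

theorem varIdeal_mono {i i' : ℕ} (h : i ≤ i') : varIdeal R r i ≤ varIdeal R r i' := by
  apply Ideal.span_mono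
  rintro x ⟨j, hj, rfl⟩
  exact ⟨j, lt_of_lt_of_le hj h, rfl⟩

theorem coeff_eq_zero_of_mem_varIdeal {i : ℕ} {f : MvPowerSeries (Fin r) R}
    (hf : f ∈ varIdeal R r i) (m : Fin r →₀ ℕ) (hm : ∀ j : Fin r, j.val < i → m j = 0) :
    coeff m f = 0 := by
  classical
  induction hf using Submodule.span_induction generalizing m with
  | mem x hx =>
    obtain ⟨j, hj, rfl⟩ := hx
    rw [coeff_X, if_neg]
    intro h
    have := hm j hj
    rw [h] at this
    simp at this
  | zero => simp
  | add x y _ _ hx hy => rw [map_add, hx m hm, hy m hm, add_zero]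
  | smul a x _ hx =>
    rw [smul_eq_mul, coeff_mul]
    apply Finset.sum_eq_zero
    rintro ⟨p, q⟩ hpq
    rw [Finset.HasAntidiagonal.mem_antidiagonal] at hpq
    have : coeff q x = 0 := by
      apply hx
      intro j hj
      have h1 := hm j hj
      rw [← hpq] at h1
      simp only [Finsupp.coe_add, Pi.add_apply, Nat.add_eq_zero_iff] at h1
      exact h1.2
    simp [this]

theorem mem_varIdeal_of_coeff_eq_zero (i : ℕ) (f : MvPowerSeries (Fin r) R)
    (hf : ∀ m : Fin r →₀ ℕ, (∀ j : Fin r, j.val < i → m j = 0) → coeff m f = 0) :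
    f ∈ varIdeal R r i := by
  classical
  induction i generalizing f with
  | zero =>
    have : f = 0 := by
      ext m
      rw [coeff_zero]
      exact hf m (fun j hj => absurd hj (Nat.not_lt_zero _))
    rw [this]
    exact Submodule.zero_mem _
  | succ i ih =>
    by_cases hi : i < r
    · let j₀ : Fin r := ⟨i, hi⟩
      let f₁ : MvPowerSeries (Fin r) R := fun m => if m j₀ = 0 then 0 else coeff m f
      let f₂ : MvPowerSeries (Fin r) R := fun m => if m j₀ = 0 then coeff m f else 0
      have hsum : f = f₁ + f₂ := by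
        ext m
        rw [map_add]
        change coeff m f = (if m j₀ = 0 then 0 else coeff m f) + (if m j₀ = 0 then coeff m f else 0)
        split_ifs <;> simp
      have h1 : f₁ ∈ varIdeal R r (i + 1) := by
        have hdvd : (X j₀ : MvPowerSeries (Fin r) R) ∣ f₁ := by
          rw [X_dvd_iff]
          intro m hm
          change (if m j₀ = 0 then 0 else coeff m f) = 0
          rw [if_pos hm]
        obtain ⟨g, hg⟩ := hdvd
        rw [hg]
        exact Ideal.mul_mem_right _ _ (Ideal.subset_span ⟨j₀, Nat.lt_succ_self i, rfl⟩)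
      have h2 : f₂ ∈ varIdeal R r (i + 1) := by
        apply varIdeal_mono (Nat.le_succ i)
        apply ih
        intro m hm
        change (if m j₀ = 0 then coeff m f else 0) = 0
        split_ifs with h0
        · apply hf
          intro j hj
          rcases Nat.lt_succ_iff_lt_or_eq.mp hj with h | h
          · exact hm j h
          · have : j = j₀ := Fin.ext h
            rw [this]; exact h0
        · rfl
      rw [hsum]
      exact Ideal.add_mem _ h1 h2
    · apply varIdeal_mono (Nat.le_succ i)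
      apply ih
      intro m hm
      apply hf
      intro j _
      exact hm j (lt_of_lt_of_le j.isLt (not_lt.mp hi))

theorem mem_varIdeal_iff (i : ℕ) (f : MvPowerSeries (Fin r) R) :
    f ∈ varIdeal R r i ↔
      ∀ m : Fin r →₀ ℕ, (∀ j : Fin r, j.val < i → m j = 0) → coeff m f = 0 :=
  ⟨fun hf m hm => coeff_eq_zero_of_mem_varIdeal hf m hm, mem_varIdeal_of_coeff_eq_zero i f⟩

theorem mem_varIdeal_top_iff (f : MvPowerSeries (Fin r) R) :
    f ∈ varIdeal R r r ↔ constantCoeff f = 0 := by
  rw [mem_varIdeal_iff]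
  constructor
  · intro h
    exact h 0 (fun _ _ => rfl)
  · intro h m hm
    have : m = 0 := by
      ext j
      exact hm j j.isLt
    rw [this]
    exact h

/-- `X i` is regular modulo the first `i` variables. -/
theorem X_mul_mem_varIdeal {i : ℕ} (hi : i < r) (g : MvPowerSeries (Fin r) R)
    (h : X ⟨i, hi⟩ * g ∈ varIdeal R r i) : g ∈ varIdeal R r i := by
  classical
  rw [mem_varIdeal_iff] at h ⊢
  intro m hm
  have key := h (m + Finsupp.single ⟨i, hi⟩ 1) (by
    intro j hj
    have hne : (⟨i, hi⟩ : Fin r) ≠ j := by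
      intro e
      rw [← e] at hj
      exact lt_irrefl _ hj
    simp [hm j hj, Finsupp.single_eq_of_ne' hne])
  rwa [add_comm, X, coeff_monomial_mul, if_pos (by simp), add_tsub_cancel_left, one_mul] at key

theorem varIdeal_eq_ofList_take (i : ℕ) :
    Ideal.ofList ((List.ofFn (fun j : Fin r => (X j : MvPowerSeries (Fin r) R))).take i) =
      varIdeal R r i := by
  unfold Ideal.ofList varIdeal
  congr 1
  ext x
  simp only [Set.mem_ofPred_eq, List.mem_take_iff_getElem, List.getElem_ofFn, List.length_ofFn]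
  constructor
  · rintro ⟨j, hj, rfl⟩
    exact ⟨⟨j, (lt_min_iff.mp hj).2⟩, (lt_min_iff.mp hj).1, rfl⟩
  · rintro ⟨j, hj, rfl⟩
    exact ⟨j.val, lt_min_iff.mpr ⟨hj, j.isLt⟩, rfl⟩

theorem varIdeal_eq_ofList :
    Ideal.ofList (List.ofFn (fun j : Fin r => (X j : MvPowerSeries (Fin r) R))) =
      varIdeal R r r := by
  rw [← varIdeal_eq_ofList_take r]
  congr 1
  rw [List.take_of_length_le]
  simp

open RingTheory.Sequence in
theorem isWeaklyRegular_X :
    IsWeaklyRegular (MvPowerSeries (Fin r) R)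
      (List.ofFn (fun j : Fin r => (X j : MvPowerSeries (Fin r) R))) := by
  rw [isWeaklyRegular_iff]
  intro i hi
  have hi' : i < r := by simpa using hi
  rw [isSMulRegular_quotient_iff_mem_of_smul_mem]
  intro g hg
  rw [varIdeal_eq_ofList_take, smul_eq_mul, Ideal.mul_top] at hg ⊢
  rw [List.getElem_ofFn, smul_eq_mul] at hg
  exact X_mul_mem_varIdeal hi' g hg

open RingTheory.Sequence in
/-- `[X_0, …, X_{r-1}, C ϖ]` is weakly regular on `R⟦X_0, …, X_{r-1}⟧` for `ϖ` regular. -/
theorem isWeaklyRegular_X_C {ϖ : R} (hϖ : IsSMulRegular R ϖ) :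
    IsWeaklyRegular (MvPowerSeries (Fin r) R)
      (List.ofFn (fun j : Fin r => (X j : MvPowerSeries (Fin r) R)) ++ [C ϖ]) := by
  rw [isWeaklyRegular_append_iff]
  refine ⟨isWeaklyRegular_X, ?_⟩
  rw [isWeaklyRegular_singleton_iff, isSMulRegular_quotient_iff_mem_of_smul_mem]
  intro g hg
  rw [varIdeal_eq_ofList, smul_eq_mul, Ideal.mul_top, mem_varIdeal_top_iff] at hg ⊢
  rw [smul_eq_mul, map_mul, constantCoeff_C] at hg
  exact hϖ (by simpa using hg)


/-- the list `[X_0, …, X_{r-1}, C ϖ]`. -/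
noncomputable def paramList (r : ℕ) (ϖ : R) : List (MvPowerSeries (Fin r) R) :=
  List.ofFn (fun j : Fin r => (X j : MvPowerSeries (Fin r) R)) ++ [C ϖ]

theorem paramList_length (ϖ : R) : (paramList r ϖ).length = r + 1 := by
  simp [paramList]

theorem ofList_paramList (ϖ : R) :
    Ideal.ofList (paramList r ϖ) = varIdeal R r r ⊔ Ideal.span {C ϖ} := by
  rw [paramList, Ideal.ofList_append, varIdeal_eq_ofList, Ideal.ofList_singleton]

theorem ofList_paramList_eq_maximalIdeal [IsLocalRing R] {ϖ : R}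
    (hϖ : IsLocalRing.maximalIdeal R = Ideal.span {ϖ}) :
    Ideal.ofList (paramList r ϖ) = IsLocalRing.maximalIdeal (MvPowerSeries (Fin r) R) := by
  rw [ofList_paramList]
  apply le_antisymm
  · rw [sup_le_iff]
    constructor
    · intro f hf
      rw [mem_varIdeal_top_iff] at hf
      rw [IsLocalRing.mem_maximalIdeal, mem_nonunits_iff, isUnit_iff_constantCoeff, hf]
      exact not_isUnit_zero
    · rw [Ideal.span_le, Set.singleton_subset_iff]
      change C ϖ ∈ IsLocalRing.maximalIdeal (MvPowerSeries (Fin r) R)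
      rw [IsLocalRing.mem_maximalIdeal, mem_nonunits_iff, isUnit_iff_constantCoeff,
        constantCoeff_C, ← mem_nonunits_iff, ← IsLocalRing.mem_maximalIdeal, hϖ]
      exact Ideal.mem_span_singleton_self ϖ
  · intro f hf
    rw [IsLocalRing.mem_maximalIdeal, mem_nonunits_iff, isUnit_iff_constantCoeff,
      ← mem_nonunits_iff, ← IsLocalRing.mem_maximalIdeal, hϖ, Ideal.mem_span_singleton] at hf
    obtain ⟨a, ha⟩ := hf
    have hdecomp : f = (f - C ϖ * C a) + C ϖ * C a := by ring
    rw [hdecomp]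
    apply Ideal.add_mem
    · apply Ideal.mem_sup_left
      rw [mem_varIdeal_top_iff, map_sub, map_mul, constantCoeff_C, constantCoeff_C, ha, sub_self]
    · apply Ideal.mem_sup_right
      exact Ideal.mul_mem_right _ _ (Ideal.mem_span_singleton_self _)

open RingTheory.Sequence in
theorem isWeaklyRegular_paramList {ϖ : R} (hϖ : IsSMulRegular R ϖ) :
    IsWeaklyRegular (MvPowerSeries (Fin r) R) (paramList r ϖ) :=
  isWeaklyRegular_X_C hϖ

open RingTheory.Sequence in
theorem isRegular_paramList [IsLocalRing R] {ϖ : R} (hϖ : IsSMulRegular R ϖ)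
    (hmax : IsLocalRing.maximalIdeal R = Ideal.span {ϖ}) :
    IsRegular (MvPowerSeries (Fin r) R) (paramList r ϖ) := by
  apply IsRegular.of_isWeaklyRegular_of_mem_maximalIdeal
  · intro x hx
    rw [← ofList_paramList_eq_maximalIdeal hmax]
    exact Ideal.subset_span hx
  · exact isWeaklyRegular_paramList hϖ

section Transport

open RingTheory.Sequence

variable {S : Type*} [CommRing S] {N : Type*} [AddCommGroup N] [Module S N]

/-- the `φ`-semilinear additive map `S^d → N` attached to a family `b`. -/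
noncomputable def combHom (φ : S →+* S) {d : ℕ} (b : Fin d → N) : (Fin d → S) →+ N where
  toFun c := ∑ i, φ (c i) • b i
  map_zero' := by simp
  map_add' c c' := by simp [add_smul, Finset.sum_add_distrib]

theorem combHom_apply (φ : S →+* S) {d : ℕ} (b : Fin d → N) (c : Fin d → S) :
    combHom φ b c = ∑ i, φ (c i) • b i := rfl

theorem combHom_smul (φ : S →+* S) {d : ℕ} (b : Fin d → N) (s : S) (c : Fin d → S) :
    combHom φ b (s • c) = φ s • combHom φ b c := by
  simp only [combHom_apply, Pi.smul_apply, smul_eq_mul, map_mul, mul_smul, Finset.smul_sum]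

theorem combHom_bijective (φ : S →+* S) {d : ℕ} (b : Fin d → N)
    (hspan : ∀ x : N, ∃ c : Fin d → S, x = ∑ i, φ (c i) • b i)
    (hrel : ∀ c : Fin d → S, ∑ i, φ (c i) • b i = 0 → ∀ i, c i = 0) :
    Function.Bijective (combHom φ b) := by
  constructor
  · rw [injective_iff_map_eq_zero]
    intro c hc
    funext i
    exact hrel c hc i
  · intro x
    obtain ⟨c, hc⟩ := hspan x
    exact ⟨c, hc.symm⟩

theorem isWeaklyRegular_pi {d : ℕ} {rs : List S} (h : IsWeaklyRegular S rs) :
    IsWeaklyRegular (Fin d → S) rs :=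
  ((TensorProduct.rid S (Fin d → S)).isWeaklyRegular_congr rs).mp
    (h.isWeaklyRegular_lTensor (M₂ := Fin d → S))

/-- transport of a weakly regular sequence of `S` to a module which is free via `φ`. -/
theorem isWeaklyRegular_map_of_freeVia (φ : S →+* S) {d : ℕ} (b : Fin d → N)
    (hspan : ∀ x : N, ∃ c : Fin d → S, x = ∑ i, φ (c i) • b i)
    (hrel : ∀ c : Fin d → S, ∑ i, φ (c i) • b i = 0 → ∀ i, c i = 0)
    {rs : List S} (h : IsWeaklyRegular S rs) : IsWeaklyRegular N (rs.map φ) := by
  let e : (Fin d → S) ≃+ N := AddEquiv.ofBijective (combHom φ b) (combHom_bijective φ b hspan hrel)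
  refine (AddEquiv.isWeaklyRegular_congr (e := e) ?_).mp (isWeaklyRegular_pi (d := d) h)
  rw [List.forall₂_map_right_iff, List.forall₂_same]
  intro s _ c
  exact combHom_smul φ b s c

theorem finite_of_freeVia (φ : S →+* S) {d : ℕ} (b : Fin d → N)
    (hspan : ∀ x : N, ∃ c : Fin d → S, x = ∑ i, φ (c i) • b i) : Module.Finite S N := by
  classical
  refine ⟨⟨Finset.univ.image b, ?_⟩⟩
  rw [eq_top_iff]
  rintro x -
  obtain ⟨c, rfl⟩ := hspan x
  exact Submodule.sum_mem _ fun i _ => Submodule.smul_mem _ _ (Submodule.subset_span (by simp))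

end Transport

/-- A finitely generated module killed by a maximal ideal is artinian. -/
theorem isArtinian_of_finite_of_maximal_kills {A : Type*} [CommRing A] {Q : Type*}
    [AddCommGroup Q] [Module A Q] [Module.Finite A Q] (𝔪 : Ideal A) [h𝔪 : 𝔪.IsMaximal]
    (h : ∀ a ∈ 𝔪, ∀ x : Q, a • x = 0) : IsArtinian A Q := by
  have htors : Module.IsTorsionBySet A Q (𝔪 : Set A) := fun x a => h a.1 a.2 x
  let _ : Field (A ⧸ 𝔪) := Ideal.Quotient.field 𝔪
  let _ : Module (A ⧸ 𝔪) Q := htors.module
  have : IsScalarTower A (A ⧸ 𝔪) Q := htors.isScalarTower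
  have : Module.Finite (A ⧸ 𝔪) Q := Module.Finite.of_restrictScalars_finite A (A ⧸ 𝔪) Q
  have : IsArtinian (A ⧸ 𝔪) Q := inferInstance
  exact isArtinian_of_surjective_algebraMap (R := A ⧸ 𝔪) Ideal.Quotient.mk_surjective


/-- the quotient of a module free via `φ` by the `φ`-image of the parameter list has
finite length. -/
theorem isFiniteLength_quot_of_freeVia [IsLocalRing R] [IsNoetherianRing R] {ϖ : R}
    (hmax : IsLocalRing.maximalIdeal R = Ideal.span {ϖ})
    {N : Type*} [AddCommGroup N] [Module (MvPowerSeries (Fin r) R) N]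
    (φ : MvPowerSeries (Fin r) R →+* MvPowerSeries (Fin r) R) (hφC : ∀ a : R, φ (C a) = C a)
    {d : ℕ} (b : Fin d → N)
    (hspan : ∀ x : N, ∃ c : Fin d → MvPowerSeries (Fin r) R, x = ∑ i, φ (c i) • b i) :
    IsFiniteLength (MvPowerSeries (Fin r) R)
      (N ⧸ (Ideal.ofList ((paramList r ϖ).map φ) • ⊤ :
        Submodule (MvPowerSeries (Fin r) R) N)) := by
  set P : Submodule (MvPowerSeries (Fin r) R) N :=
    Ideal.ofList ((paramList r ϖ).map φ) • ⊤ with hP
  have hfin : Module.Finite (MvPowerSeries (Fin r) R) N := finite_of_freeVia φ b hspan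
  rw [isFiniteLength_iff_isNoetherian_isArtinian]
  refine ⟨inferInstance, ?_⟩
  let _ : Module R (N ⧸ P) :=
    Module.compHom (N ⧸ P) (C : R →+* MvPowerSeries (Fin r) R)
  have hsmul : ∀ (a : R) (q : N ⧸ P), a • q = (C a : MvPowerSeries (Fin r) R) • q :=
    fun _ _ => rfl
  have : IsScalarTower R (MvPowerSeries (Fin r) R) (N ⧸ P) :=
    ⟨fun a s q => by rw [hsmul, smul_eq_C_mul, mul_smul]⟩
  have hkill : ∀ a ∈ IsLocalRing.maximalIdeal R, ∀ q : N ⧸ P, a • q = 0 := by
    intro a ha q
    rw [hmax, Ideal.mem_span_singleton] at ha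
    obtain ⟨a', rfl⟩ := ha
    obtain ⟨n, rfl⟩ := Submodule.Quotient.mk_surjective P q
    rw [hsmul, ← Submodule.Quotient.mk_smul, Submodule.Quotient.mk_eq_zero]
    have h1 : (C ϖ : MvPowerSeries (Fin r) R) • n ∈ P := by
      apply Submodule.smul_mem_smul _ Submodule.mem_top
      apply Ideal.subset_span
      change C ϖ ∈ (paramList r ϖ).map φ
      rw [List.mem_map]
      exact ⟨C ϖ, by simp [paramList], hφC ϖ⟩
    have h2 : (C (ϖ * a') : MvPowerSeries (Fin r) R) • n =
        (C a' : MvPowerSeries (Fin r) R) • ((C ϖ : MvPowerSeries (Fin r) R) • n) := by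
      rw [map_mul, mul_comm, mul_smul]
    rw [h2]
    exact P.smul_mem _ h1
  have hfinR : Module.Finite R (N ⧸ P) := by
    classical
    refine ⟨⟨Finset.univ.image (fun i => Submodule.Quotient.mk (p := P) (b i)), ?_⟩⟩
    rw [eq_top_iff]
    rintro q -
    obtain ⟨n, rfl⟩ := Submodule.Quotient.mk_surjective P q
    obtain ⟨c, rfl⟩ := hspan n
    have key : ∀ i, Submodule.Quotient.mk (p := P) (φ (c i) • b i) =
        constantCoeff (c i) • Submodule.Quotient.mk (p := P) (b i) := by
      intro i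
      rw [hsmul, ← Submodule.Quotient.mk_smul, Submodule.Quotient.eq, ← sub_smul]
      apply Submodule.smul_mem_smul _ Submodule.mem_top
      have h1 : c i - C (constantCoeff (c i)) ∈ varIdeal R r r := by
        rw [mem_varIdeal_top_iff]; simp
      have h2 : φ (c i - C (constantCoeff (c i))) ∈
          Ideal.map φ (Ideal.ofList (paramList r ϖ)) := by
        apply Ideal.mem_map_of_mem
        rw [ofList_paramList]
        exact Ideal.mem_sup_left h1
      rw [Ideal.map_ofList, map_sub, hφC] at h2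
      exact h2
    have hsum : Submodule.Quotient.mk (p := P) (∑ i, φ (c i) • b i) =
        ∑ i, constantCoeff (c i) • Submodule.Quotient.mk (p := P) (b i) := by
      rw [← Submodule.mkQ_apply, map_sum]
      exact Finset.sum_congr rfl fun i _ => key i
    rw [hsum]
    exact Submodule.sum_mem _ fun i _ =>
      Submodule.smul_mem _ _ (Submodule.subset_span (by simp))
  have hart : IsArtinian R (N ⧸ P) :=
    isArtinian_of_finite_of_maximal_kills (IsLocalRing.maximalIdeal R) hkill
  exact isArtinian_of_tower R hart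


section Patching

open RingTheory.Sequence

variable {𝒪 : Type} [CommRing 𝒪] {R' : Type} [CommRing R'] [Algebra 𝒪 R']
  {M : Type} [AddCommGroup M] [Module R' M]

theorem patch_phi_C (L : Algebra.PatchingLevel 𝒪 r R' M ⊥) (a : 𝒪) :
    L.φ (C a) = C a := by
  have h := L.φ.commutes a
  rwa [MvPowerSeries.algebraMap_apply, Algebra.algebraMap_self_apply] at h

theorem patch_span (L : Algebra.PatchingLevel 𝒪 r R' M ⊥) (x : L.N) :
    ∃ c : Fin L.d → MvPowerSeries (Fin r) 𝒪, x = ∑ i, L.φ.toRingHom (c i) • L.b i :=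
  L.b_span x

theorem patch_rel (L : Algebra.PatchingLevel 𝒪 r R' M ⊥)
    (c : Fin L.d → MvPowerSeries (Fin r) 𝒪)
    (h : ∑ i, L.φ.toRingHom (c i) • L.b i = 0) : ∀ i, c i = 0 :=
  fun i => (Submodule.mem_bot _).mp ((L.b_rel c).mp h i)

theorem patch_finite (L : Algebra.PatchingLevel 𝒪 r R' M ⊥) :
    Module.Finite (MvPowerSeries (Fin r) 𝒪) L.N :=
  finite_of_freeVia L.φ.toRingHom L.b (patch_span L)

theorem patch_isWeaklyRegular (L : Algebra.PatchingLevel 𝒪 r R' M ⊥) {ϖ : 𝒪}
    (hϖ : IsSMulRegular 𝒪 ϖ) :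
    IsWeaklyRegular L.N ((paramList r ϖ).map L.φ) :=
  isWeaklyRegular_map_of_freeVia L.φ.toRingHom L.b (patch_span L) (patch_rel L)
    (isWeaklyRegular_paramList hϖ)

theorem patch_isFiniteLength [IsLocalRing 𝒪] [IsNoetherianRing 𝒪]
    (L : Algebra.PatchingLevel 𝒪 r R' M ⊥) {ϖ : 𝒪}
    (hmax : IsLocalRing.maximalIdeal 𝒪 = Ideal.span {ϖ}) :
    IsFiniteLength (MvPowerSeries (Fin r) 𝒪)
      (L.N ⧸ (Ideal.ofList ((paramList r ϖ).map L.φ) • ⊤ :
        Submodule (MvPowerSeries (Fin r) 𝒪) L.N)) :=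
  isFiniteLength_quot_of_freeVia hmax L.φ.toRingHom (patch_phi_C L) L.b (patch_span L)

theorem patch_mem_maximalIdeal [IsLocalRing 𝒪] [Nontrivial M]
    (L : Algebra.PatchingLevel 𝒪 r R' M ⊥) {ϖ : 𝒪}
    (hmax : IsLocalRing.maximalIdeal 𝒪 = Ideal.span {ϖ}) :
    ∀ y ∈ (paramList r ϖ).map L.φ, y ∈ IsLocalRing.maximalIdeal (MvPowerSeries (Fin r) 𝒪) := by
  intro y hy
  rw [List.mem_map] at hy
  obtain ⟨x, hx, rfl⟩ := hy
  rw [paramList, List.mem_append, List.mem_ofFn, List.mem_singleton] at hx
  rcases hx with ⟨i, rfl⟩ | rfl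
  · rw [IsLocalRing.mem_maximalIdeal, mem_nonunits_iff]
    intro hu
    have h0 : IsUnit (L.ψ (L.φ (X i))) := hu.map L.ψ
    rw [L.ψ_φ_X i, isUnit_zero_iff] at h0
    have : Subsingleton R' := subsingleton_of_zero_eq_one h0
    have : Subsingleton M := Module.subsingleton R' M
    exact not_subsingleton M this
  · rw [patch_phi_C, ← ofList_paramList_eq_maximalIdeal (r := r) hmax]
    exact Ideal.subset_span (by simp [paramList])

end Patching

end Fermat.Agent.Lib.MvPSRegular
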