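import Mathlib

/-!
# Goursat's lemma for a subalgebra of `B × B` over a Dedekind domain: the nodes (Mathlib only)

Owner: helper64.  Abstract core of the "NODE" leaf of the S34 program.

Let `k` be a field, `B` a Dedekind domain (not a field) and a `k`-algebra all of whose residue
fields are `k`, and let `R ⊆ B × B` be a `k`-subalgebra with both projections onto.  Put
`I₁ = {a | (a, 0) ∈ R}`, `I₂ = {b | (0, b) ∈ R}` (the conductor).  If for some `m ≥ 2` every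
`a ∈ B` is congruent to an `m`-th power modulo `I₁`, resp. `I₂`, then `I₁`, `I₂` are radical and

  `(a, b) ∈ R ↔ ∀ χ ∈ nodes R, χ a = theta R hsnd χ b`,

where `nodes R` is the (finite) set of characters `χ : B →ₐ[k] k` killing `I₁` and `theta`
is the induced bijection onto the characters killing `I₂`.

Also: the Chinese remainder theorem for characters (`exists_char_apply_eq`), the twisted modules
(`exists_twist`), the swap-invariant case (`theta_theta`) and a filtered dimension lemma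
(`inf_eq_of_graded`).
-/

set_option autoImplicit false

namespace Fermat.Agent.Lib.NodeGoursat

open UniqueFactorizationMonoid

/-! ## Characters -/

section Char

variable {k B : Type*} [Field k] [CommRing B] [Algebra k B]

theorem char_sub_algebraMap_self (χ : B →ₐ[k] k) (a : B) : χ (a - algebraMap k B (χ a)) = 0 := by
  rw [map_sub, AlgHom.commutes]
  simp

/-- A character is determined by its kernel. -/
theorem char_eq_of_ker_le (χ χ' : B →ₐ[k] k)
    (h : RingHom.ker (χ : B →+* k) ≤ RingHom.ker (χ' : B →+* k)) : χ = χ' := by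
  ext a
  have h1 : a - algebraMap k B (χ a) ∈ RingHom.ker (χ : B →+* k) := by
    rw [RingHom.mem_ker]
    exact char_sub_algebraMap_self χ a
  have h2 := h h1
  rw [RingHom.mem_ker] at h2
  have h3 : χ' (a - algebraMap k B (χ a)) = 0 := h2
  rw [map_sub, AlgHom.commutes] at h3
  have h4 : χ' a - χ a = 0 := by simpa using h3
  exact (sub_eq_zero.1 h4).symm

theorem ker_char_isMaximal (χ : B →ₐ[k] k) : (RingHom.ker (χ : B →+* k)).IsMaximal := by
  apply RingHom.ker_isMaximal_of_surjective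
  intro c
  exact ⟨algebraMap k B c, by simp⟩

/-- The character of a maximal ideal with residue field `k`. -/
theorem exists_char_of_isMaximal (𝔪 : Ideal B) (h𝔪 : 𝔪.IsMaximal)
    (hres : Function.Surjective (algebraMap k (B ⧸ 𝔪))) :
    ∃ χ : B →ₐ[k] k, RingHom.ker (χ : B →+* k) = 𝔪 := by
  have := h𝔪
  have hinj : Function.Injective (algebraMap k (B ⧸ 𝔪)) := (algebraMap k (B ⧸ 𝔪)).injective
  let e : k ≃ₐ[k] (B ⧸ 𝔪) := AlgEquiv.ofBijective (Algebra.ofId k (B ⧸ 𝔪)) ⟨hinj, hres⟩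
  refine ⟨(e.symm : (B ⧸ 𝔪) →ₐ[k] k).comp (Ideal.Quotient.mkₐ k 𝔪), ?_⟩
  ext a
  rw [RingHom.mem_ker]
  constructor
  · intro h
    have h' : e.symm (Ideal.Quotient.mk 𝔪 a) = 0 := h
    rw [map_eq_zero_iff e.symm e.symm.injective] at h'
    exact Ideal.Quotient.eq_zero_iff_mem.1 h'
  · intro h
    have h' : e.symm (Ideal.Quotient.mk 𝔪 a) = 0 := by
      rw [Ideal.Quotient.eq_zero_iff_mem.2 h, map_zero]
    exact h'

end Char

/-! ## Radical ideals of a Dedekind domain through characters -/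

section Rad

variable {k B : Type*} [Field k] [CommRing B] [Algebra k B] [IsDedekindDomain B]

theorem maximal_ne_bot (hB : ¬ IsField B) (𝔪 : Ideal B) (h𝔪 : 𝔪.IsMaximal) : 𝔪 ≠ ⊥ := by
  rintro rfl
  exact hB (Ring.isField_iff_maximal_bot.2 h𝔪)

theorem exists_mem_not_mem_sq (hB : ¬ IsField B) (𝔪 : Ideal B) (h𝔪 : 𝔪.IsMaximal) :
    ∃ a ∈ 𝔪, a ∉ 𝔪 ^ 2 := by
  have := h𝔪.isPrime
  have hlt := Ideal.pow_succ_lt_pow (maximal_ne_bot hB 𝔪 h𝔪) 1
  rw [pow_one] at hlt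
  obtain ⟨a, ha, ha'⟩ := SetLike.exists_of_lt hlt
  exact ⟨a, ha, ha'⟩

/-- If every element is an `m`-th power modulo `I` (`m ≥ 2`), then `I ⊄ 𝔪²` for every maximal
ideal `𝔪`. -/
theorem not_le_sq (hB : ¬ IsField B) (I : Ideal B) (m : ℕ) (hm : 2 ≤ m)
    (h : ∀ a : B, ∃ c : B, a - c ^ m ∈ I) (𝔪 : Ideal B) (h𝔪 : 𝔪.IsMaximal) (hI : I ≤ 𝔪) :
    ¬ I ≤ 𝔪 ^ 2 := by
  intro hI2
  have := h𝔪.isPrime
  obtain ⟨a, ha, ha2⟩ := exists_mem_not_mem_sq hB 𝔪 h𝔪
  obtain ⟨c, hc⟩ := h a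
  have hcm : c ^ m ∈ 𝔪 := by
    have : c ^ m = a - (a - c ^ m) := by ring
    rw [this]
    exact 𝔪.sub_mem ha (hI hc)
  have hc𝔪 : c ∈ 𝔪 := Ideal.IsPrime.mem_of_pow_mem inferInstance m hcm
  have hcm2 : c ^ m ∈ 𝔪 ^ 2 := Ideal.pow_le_pow_right hm (Ideal.pow_mem_pow hc𝔪 m)
  apply ha2
  have : a = (a - c ^ m) + c ^ m := by ring
  rw [this]
  exact (𝔪 ^ 2).add_mem (hI2 hc) hcm2

theorem ne_bot_of_pow (hB : ¬ IsField B) (I : Ideal B) (m : ℕ) (hm : 2 ≤ m)
    (h : ∀ a : B, ∃ c : B, a - c ^ m ∈ I) : I ≠ ⊥ := by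
  rintro rfl
  obtain ⟨𝔪, h𝔪⟩ := Ideal.exists_maximal B
  exact not_le_sq hB ⊥ m hm h 𝔪 h𝔪 bot_le bot_le

/-- An ideal `I ≠ 0` of a Dedekind domain with residue fields `k` which is contained in no `𝔪²`
is the intersection of the kernels of the characters killing it. -/
theorem mem_of_forall_char
    (hres : ∀ 𝔪 : Ideal B, 𝔪.IsMaximal → Function.Surjective (algebraMap k (B ⧸ 𝔪)))
    {I : Ideal B} (hI0 : I ≠ ⊥)
    (hsq : ∀ 𝔪 : Ideal B, 𝔪.IsMaximal → I ≤ 𝔪 → ¬ I ≤ 𝔪 ^ 2)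
    {x : B} (hx : ∀ χ : B →ₐ[k] k, I ≤ RingHom.ker (χ : B →+* k) → χ x = 0) : x ∈ I := by
  classical
  by_cases hx0 : x = 0
  · rw [hx0]; exact I.zero_mem
  have hspan : Ideal.span {x} ≠ (⊥ : Ideal B) := by
    rw [Ne, Ideal.span_singleton_eq_bot]; exact hx0
  have hsqf : Squarefree I := by
    intro J hJ
    rw [Ideal.isUnit_iff]
    by_contra hJtop
    obtain ⟨𝔪, h𝔪, hJ𝔪⟩ := Ideal.exists_le_maximal J hJtop
    have h1 : I ≤ J * J := Ideal.dvd_iff_le.1 hJ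
    have h2 : J * J ≤ 𝔪 ^ 2 := by rw [pow_two]; exact Ideal.mul_mono hJ𝔪 hJ𝔪
    exact hsq 𝔪 h𝔪 (h1.trans (Ideal.mul_le_right.trans hJ𝔪)) (h1.trans h2)
  have hnodup := (squarefree_iff_nodup_normalizedFactors hI0).1 hsqf
  have hdvd : I ∣ Ideal.span {x} := by
    rw [dvd_iff_normalizedFactors_le_normalizedFactors hI0 hspan, Multiset.le_iff_subset hnodup]
    intro 𝔭 h𝔭
    rw [Ideal.mem_normalizedFactors_iff hI0] at h𝔭
    rw [Ideal.mem_normalizedFactors_iff hspan]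
    refine ⟨h𝔭.1, ?_⟩
    have h𝔭0 : 𝔭 ≠ ⊥ := fun h => hI0 (le_bot_iff.1 (h ▸ h𝔭.2))
    have hmax : 𝔭.IsMaximal := h𝔭.1.isMaximal h𝔭0
    obtain ⟨χ, hχ⟩ := exists_char_of_isMaximal (k := k) 𝔭 hmax (hres 𝔭 hmax)
    rw [Ideal.span_singleton_le_iff_mem, ← hχ, RingHom.mem_ker]
    exact hx χ (hχ ▸ h𝔭.2)
  exact (Ideal.span_singleton_le_iff_mem I).1 (Ideal.dvd_iff_le.1 hdvd)

/-- The characters killing a nonzero ideal are finite in number. -/
theorem finite_char_of_ne_bot {I : Ideal B} (hI0 : I ≠ ⊥) :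
    {χ : B →ₐ[k] k | I ≤ RingHom.ker (χ : B →+* k)}.Finite := by
  classical
  have hfin : {𝔭 : Ideal B | 𝔭 ∈ normalizedFactors I}.Finite :=
    (normalizedFactors I).toFinset.finite_toSet.subset (fun 𝔭 h => Multiset.mem_toFinset.2 h)
  refine Set.Finite.of_finite_image (f := fun χ : B →ₐ[k] k => RingHom.ker (χ : B →+* k))
    (hfin.subset ?_) ?_
  · rintro _ ⟨χ, hχ, rfl⟩
    show RingHom.ker (χ : B →+* k) ∈ normalizedFactors I
    rw [Ideal.mem_normalizedFactors_iff hI0]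
    exact ⟨(ker_char_isMaximal χ).isPrime, hχ⟩
  · intro χ _ χ' _ h
    exact char_eq_of_ker_le χ χ' (le_of_eq h)

/-- **Chinese remainder theorem** for finitely many characters. -/
theorem exists_char_apply_eq (hB : ¬ IsField B) (S : Finset (B →ₐ[k] k)) (v : (B →ₐ[k] k) → k) :
    ∃ a : B, ∀ χ ∈ S, χ a = v χ := by
  classical
  obtain ⟨y, hy⟩ := IsDedekindDomain.exists_forall_sub_mem_ideal (s := S)
    (fun χ : B →ₐ[k] k => RingHom.ker (χ : B →+* k)) (fun _ => 1)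
    (fun χ _ => Ideal.prime_of_isPrime (maximal_ne_bot hB _ (ker_char_isMaximal χ))
      (ker_char_isMaximal χ).isPrime)
    (fun χ _ χ' _ hne h => hne (char_eq_of_ker_le χ χ' (le_of_eq h)))
    (fun χ => algebraMap k B (v χ))
  refine ⟨y, fun χ hχ => ?_⟩
  have h1 := hy χ hχ
  rw [pow_one, RingHom.mem_ker] at h1
  have h2 : χ (y - algebraMap k B (v χ)) = 0 := h1
  rw [map_sub, AlgHom.commutes] at h2
  have h3 : χ y - v χ = 0 := by simpa using h2
  exact sub_eq_zero.1 h3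

end Rad

/-! ## The conductor of a subalgebra of `B × B` -/

section Conductor

variable {k B : Type*} [Field k] [CommRing B] [Algebra k B] (R : Subalgebra k (B × B))

/-- `I₁ = {a | (a, 0) ∈ R}`. -/
def fstIdeal (hfst : ∀ a : B, ∃ b : B, (a, b) ∈ R) : Ideal B where
  carrier := {a | (a, (0 : B)) ∈ R}
  add_mem' := by
    intro a a' ha ha'
    have h := R.add_mem ha ha'
    simpa using h
  zero_mem' := R.zero_mem
  smul_mem' := by
    intro c a ha
    obtain ⟨b, hb⟩ := hfst c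
    have h := R.mul_mem hb ha
    simpa using h

/-- `I₂ = {b | (0, b) ∈ R}`. -/
def sndIdeal (hsnd : ∀ b : B, ∃ a : B, (a, b) ∈ R) : Ideal B where
  carrier := {b | ((0 : B), b) ∈ R}
  add_mem' := by
    intro a a' ha ha'
    have h := R.add_mem ha ha'
    simpa using h
  zero_mem' := R.zero_mem
  smul_mem' := by
    intro c b hb
    obtain ⟨a, ha⟩ := hsnd c
    have h := R.mul_mem ha hb
    simpa using h

theorem mem_fstIdeal (hfst : ∀ a : B, ∃ b : B, (a, b) ∈ R) {a : B} :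
    a ∈ fstIdeal R hfst ↔ (a, (0 : B)) ∈ R := Iff.rfl

theorem mem_sndIdeal (hsnd : ∀ b : B, ∃ a : B, (a, b) ∈ R) {b : B} :
    b ∈ sndIdeal R hsnd ↔ ((0 : B), b) ∈ R := Iff.rfl

/-- The nodes: the characters killing `I₁`. -/
def nodes : Set (B →ₐ[k] k) := {χ | ∀ a : B, (a, (0 : B)) ∈ R → χ a = 0}

theorem mem_nodes {χ : B →ₐ[k] k} : χ ∈ nodes R ↔ ∀ a : B, (a, (0 : B)) ∈ R → χ a = 0 := Iff.rfl

variable {R}

theorem apply_eq_of_mem {χ : B →ₐ[k] k} (hχ : χ ∈ nodes R) {a a' b : B} (h : (a, b) ∈ R)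
    (h' : (a', b) ∈ R) : χ a = χ a' := by
  have h1 : (a - a', (0 : B)) ∈ R := by
    have := R.sub_mem h h'
    simpa using this
  have h2 := hχ _ h1
  rw [map_sub] at h2
  exact sub_eq_zero.1 h2

variable (R)

/-- A choice of first coordinate. -/
noncomputable def liftFst (hsnd : ∀ b : B, ∃ a : B, (a, b) ∈ R) (b : B) : B := (hsnd b).choose

theorem liftFst_mem (hsnd : ∀ b : B, ∃ a : B, (a, b) ∈ R) (b : B) : (liftFst R hsnd b, b) ∈ R :=
  (hsnd b).choose_spec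

/-- The character `θχ` of the second factor attached to a node `χ`. -/
noncomputable def thetaAux (hsnd : ∀ b : B, ∃ a : B, (a, b) ∈ R) (χ : B →ₐ[k] k)
    (hχ : χ ∈ nodes R) : B →ₐ[k] k where
  toFun b := χ (liftFst R hsnd b)
  map_one' := by
    have h1 : ((1 : B), (1 : B)) ∈ R := R.one_mem
    rw [apply_eq_of_mem hχ (liftFst_mem R hsnd 1) h1, map_one]
  map_mul' := by
    intro b b'
    have h1 : (liftFst R hsnd b * liftFst R hsnd b', b * b') ∈ R := by
      have := R.mul_mem (liftFst_mem R hsnd b) (liftFst_mem R hsnd b')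
      simpa using this
    rw [apply_eq_of_mem hχ (liftFst_mem R hsnd (b * b')) h1, map_mul]
  map_zero' := by
    have h1 : ((0 : B), (0 : B)) ∈ R := R.zero_mem
    rw [apply_eq_of_mem hχ (liftFst_mem R hsnd 0) h1, map_zero]
  map_add' := by
    intro b b'
    have h1 : (liftFst R hsnd b + liftFst R hsnd b', b + b') ∈ R := by
      have := R.add_mem (liftFst_mem R hsnd b) (liftFst_mem R hsnd b')
      simpa using this
    rw [apply_eq_of_mem hχ (liftFst_mem R hsnd (b + b')) h1, map_add]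
  commutes' := by
    intro c
    have h1 : (algebraMap k B c, algebraMap k B c) ∈ R := by
      have := R.algebraMap_mem c
      simpa [Prod.algebraMap_apply] using this
    show χ (liftFst R hsnd (algebraMap k B c)) = algebraMap k k c
    rw [apply_eq_of_mem hχ (liftFst_mem R hsnd _) h1, AlgHom.commutes]

open Classical in
/-- `θ` as a total function on characters (`θχ = χ` outside the nodes). -/
noncomputable def theta (hsnd : ∀ b : B, ∃ a : B, (a, b) ∈ R) (χ : B →ₐ[k] k) : B →ₐ[k] k :=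
  if hχ : χ ∈ nodes R then thetaAux R hsnd χ hχ else χ

variable {R}

/-- `θχ(b) = χ(a)` for `(a, b) ∈ R`. -/
theorem theta_apply_of_mem (hsnd : ∀ b : B, ∃ a : B, (a, b) ∈ R) {χ : B →ₐ[k] k}
    (hχ : χ ∈ nodes R) {a b : B} (h : (a, b) ∈ R) : theta R hsnd χ b = χ a := by
  rw [theta, dif_pos hχ]
  exact apply_eq_of_mem hχ (liftFst_mem R hsnd b) h

/-- `θχ` kills `I₂`. -/
theorem theta_apply_of_zero_mem (hsnd : ∀ b : B, ∃ a : B, (a, b) ∈ R) {χ : B →ₐ[k] k}
    (hχ : χ ∈ nodes R) {b : B} (h : ((0 : B), b) ∈ R) : theta R hsnd χ b = 0 := by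
  rw [theta_apply_of_mem hsnd hχ h, map_zero]

theorem theta_injOn (hfst : ∀ a : B, ∃ b : B, (a, b) ∈ R) (hsnd : ∀ b : B, ∃ a : B, (a, b) ∈ R) :
    Set.InjOn (theta R hsnd) (nodes R) := by
  intro χ hχ χ' hχ' h
  ext a
  obtain ⟨b, hb⟩ := hfst a
  rw [← theta_apply_of_mem hsnd hχ hb, ← theta_apply_of_mem hsnd hχ' hb, h]

/-- Every character killing `I₂` is `θχ` for a node `χ`. -/
theorem exists_theta_eq (hfst : ∀ a : B, ∃ b : B, (a, b) ∈ R)
    (hsnd : ∀ b : B, ∃ a : B, (a, b) ∈ R) (ψ : B →ₐ[k] k)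
    (hψ : ∀ b : B, ((0 : B), b) ∈ R → ψ b = 0) : ∃ χ ∈ nodes R, theta R hsnd χ = ψ := by
  -- `ψ` is a node of the swapped algebra; build `χ` by hand
  have key : ∀ {a b b' : B}, (a, b) ∈ R → (a, b') ∈ R → ψ b = ψ b' := by
    intro a b b' h h'
    have h1 : ((0 : B), b - b') ∈ R := by
      have := R.sub_mem h h'
      simpa using this
    have h2 := hψ _ h1
    rw [map_sub] at h2
    exact sub_eq_zero.1 h2
  let g : B → B := fun a => (hfst a).choose
  have hg : ∀ a, (a, g a) ∈ R := fun a => (hfst a).choose_spec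
  let χ : B →ₐ[k] k :=
    { toFun := fun a => ψ (g a)
      map_one' := by
        have h1 : ((1 : B), (1 : B)) ∈ R := R.one_mem
        rw [key (hg 1) h1, map_one]
      map_mul' := by
        intro a a'
        have h1 : (a * a', g a * g a') ∈ R := by
          have := R.mul_mem (hg a) (hg a')
          simpa using this
        rw [key (hg (a * a')) h1, map_mul]
      map_zero' := by
        have h1 : ((0 : B), (0 : B)) ∈ R := R.zero_mem
        rw [key (hg 0) h1, map_zero]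
      map_add' := by
        intro a a'
        have h1 : (a + a', g a + g a') ∈ R := by
          have := R.add_mem (hg a) (hg a')
          simpa using this
        rw [key (hg (a + a')) h1, map_add]
      commutes' := by
        intro c
        have h1 : (algebraMap k B c, algebraMap k B c) ∈ R := by
          have := R.algebraMap_mem c
          simpa [Prod.algebraMap_apply] using this
        show ψ (g (algebraMap k B c)) = algebraMap k k c
        rw [key (hg _) h1, AlgHom.commutes] }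
  have hχapp : ∀ {a b : B}, (a, b) ∈ R → χ a = ψ b := fun {a b} h => key (hg a) h
  have hχ : χ ∈ nodes R := by
    intro a ha
    rw [hχapp ha, map_zero]
  refine ⟨χ, hχ, ?_⟩
  ext b
  obtain ⟨a, ha⟩ := hsnd b
  rw [theta_apply_of_mem hsnd hχ ha, hχapp ha]

end Conductor

/-! ## The node theorem -/

section Node

variable {k B : Type*} [Field k] [CommRing B] [Algebra k B] [IsDedekindDomain B]
  {R : Subalgebra k (B × B)}

/-- The nodes are finite in number. -/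
theorem finite_nodes (hB : ¬ IsField B) (hfst : ∀ a : B, ∃ b : B, (a, b) ∈ R)
    (m : ℕ) (hm : 2 ≤ m) (h₁ : ∀ a : B, ∃ c : B, (a - c ^ m, (0 : B)) ∈ R) :
    (nodes R).Finite := by
  have hI0 : fstIdeal R hfst ≠ ⊥ := ne_bot_of_pow hB _ m hm h₁
  refine (finite_char_of_ne_bot (k := k) hI0).subset ?_
  intro χ hχ a ha
  rw [RingHom.mem_ker]
  exact hχ a ha

/-- **The node theorem.** `R = {(a, b) | χ a = θχ b for all nodes χ}`. -/
theorem mem_iff (hB : ¬ IsField B)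
    (hres : ∀ 𝔪 : Ideal B, 𝔪.IsMaximal → Function.Surjective (algebraMap k (B ⧸ 𝔪)))
    (hfst : ∀ a : B, ∃ b : B, (a, b) ∈ R) (hsnd : ∀ b : B, ∃ a : B, (a, b) ∈ R)
    (m : ℕ) (hm : 2 ≤ m) (h₂ : ∀ b : B, ∃ c : B, ((0 : B), b - c ^ m) ∈ R) (a b : B) :
    (a, b) ∈ R ↔ ∀ χ ∈ nodes R, χ a = theta R hsnd χ b := by
  constructor
  · intro h χ hχ
    exact (theta_apply_of_mem hsnd hχ h).symm
  · intro h
    obtain ⟨b', hb'⟩ := hfst a
    have hI0 : sndIdeal R hsnd ≠ ⊥ := ne_bot_of_pow hB _ m hm h₂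
    have hmem : b - b' ∈ sndIdeal R hsnd := by
      refine mem_of_forall_char (k := k) hres hI0
        (fun 𝔪 h𝔪 hI => not_le_sq hB _ m hm h₂ 𝔪 h𝔪 hI) ?_
      intro ψ hψ
      obtain ⟨χ, hχ, rfl⟩ := exists_theta_eq hfst hsnd ψ (fun b hb => by
        have := hψ ((mem_sndIdeal R hsnd).2 hb)
        rwa [RingHom.mem_ker] at this)
      rw [map_sub, ← h χ hχ, theta_apply_of_mem hsnd hχ hb', sub_self]
    have h1 : ((0 : B), b - b') ∈ R := hmem
    have h2 := R.add_mem hb' h1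
    simpa using h2

/-- The gluing conditions at the nodes are independent (first coordinate). -/
theorem exists_apply_eq_nodes (hB : ¬ IsField B) (hfst : ∀ a : B, ∃ b : B, (a, b) ∈ R)
    (m : ℕ) (hm : 2 ≤ m) (h₁ : ∀ a : B, ∃ c : B, (a - c ^ m, (0 : B)) ∈ R)
    (v : (B →ₐ[k] k) → k) : ∃ a : B, ∀ χ ∈ nodes R, χ a = v χ := by
  obtain ⟨a, ha⟩ := exists_char_apply_eq hB (finite_nodes hB hfst m hm h₁).toFinset v
  exact ⟨a, fun χ hχ => ha χ ((Set.Finite.mem_toFinset _).2 hχ)⟩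

/-- The gluing conditions at the nodes are independent (second coordinate). -/
theorem exists_theta_apply_eq_nodes (hB : ¬ IsField B) (hfst : ∀ a : B, ∃ b : B, (a, b) ∈ R)
    (hsnd : ∀ b : B, ∃ a : B, (a, b) ∈ R)
    (m : ℕ) (hm : 2 ≤ m) (h₁ : ∀ a : B, ∃ c : B, (a - c ^ m, (0 : B)) ∈ R)
    (v : (B →ₐ[k] k) → k) : ∃ b : B, ∀ χ ∈ nodes R, theta R hsnd χ b = v χ := by
  classical
  have hfin := finite_nodes hB hfst m hm h₁
  let v' : (B →ₐ[k] k) → k := fun ψ =>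
    if h : ∃ χ ∈ nodes R, theta R hsnd χ = ψ then v h.choose else 0
  obtain ⟨b, hb⟩ := exists_char_apply_eq hB (hfin.toFinset.image (theta R hsnd)) v'
  refine ⟨b, fun χ hχ => ?_⟩
  have hmem : theta R hsnd χ ∈ hfin.toFinset.image (theta R hsnd) :=
    Finset.mem_image_of_mem _ ((Set.Finite.mem_toFinset _).2 hχ)
  rw [hb _ hmem]
  have hex : ∃ χ' ∈ nodes R, theta R hsnd χ' = theta R hsnd χ := ⟨χ, hχ, rfl⟩
  show (if h : ∃ χ' ∈ nodes R, theta R hsnd χ' = theta R hsnd χ then v h.choose else 0) = v χ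
  rw [dif_pos hex]
  have := theta_injOn hfst hsnd hex.choose_spec.1 hχ hex.choose_spec.2
  rw [this]

/-- Connectedness: there is no node iff `(1, 0) ∈ R`. -/
theorem nodes_eq_empty_iff (hB : ¬ IsField B)
    (hres : ∀ 𝔪 : Ideal B, 𝔪.IsMaximal → Function.Surjective (algebraMap k (B ⧸ 𝔪)))
    (hfst : ∀ a : B, ∃ b : B, (a, b) ∈ R) (hsnd : ∀ b : B, ∃ a : B, (a, b) ∈ R)
    (m : ℕ) (hm : 2 ≤ m) (h₂ : ∀ b : B, ∃ c : B, ((0 : B), b - c ^ m) ∈ R) :
    nodes R = ∅ ↔ ((1 : B), (0 : B)) ∈ R := by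
  rw [mem_iff hB hres hfst hsnd m hm h₂]
  constructor
  · intro h χ hχ
    rw [h] at hχ
    exact absurd hχ (Set.notMem_empty χ)
  · intro h
    rw [Set.eq_empty_iff_forall_notMem]
    intro χ hχ
    have := h χ hχ
    rw [map_one, map_zero] at this
    exact one_ne_zero this

/-- If the nodes are nonempty, the constants of `R` are the diagonal constants. -/
theorem const_mem_iff (hB : ¬ IsField B)
    (hres : ∀ 𝔪 : Ideal B, 𝔪.IsMaximal → Function.Surjective (algebraMap k (B ⧸ 𝔪)))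
    (hfst : ∀ a : B, ∃ b : B, (a, b) ∈ R) (hsnd : ∀ b : B, ∃ a : B, (a, b) ∈ R)
    (m : ℕ) (hm : 2 ≤ m) (h₂ : ∀ b : B, ∃ c : B, ((0 : B), b - c ^ m) ∈ R)
    (hne : (nodes R).Nonempty) (c c' : k) :
    (algebraMap k B c, algebraMap k B c') ∈ R ↔ c = c' := by
  rw [mem_iff hB hres hfst hsnd m hm h₂]
  constructor
  · intro h
    obtain ⟨χ, hχ⟩ := hne
    have := h χ hχ
    rw [AlgHom.commutes, AlgHom.commutes] at this
    simpa using this
  · rintro rfl χ _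
    rw [AlgHom.commutes, AlgHom.commutes]

/-- **Packaged form.** -/
theorem exists_nodes (hB : ¬ IsField B)
    (hres : ∀ 𝔪 : Ideal B, 𝔪.IsMaximal → Function.Surjective (algebraMap k (B ⧸ 𝔪)))
    (hfst : ∀ a : B, ∃ b : B, (a, b) ∈ R) (hsnd : ∀ b : B, ∃ a : B, (a, b) ∈ R)
    (m : ℕ) (hm : 2 ≤ m) (h₁ : ∀ a : B, ∃ c : B, (a - c ^ m, (0 : B)) ∈ R)
    (h₂ : ∀ b : B, ∃ c : B, ((0 : B), b - c ^ m) ∈ R) :
    ∃ (Z : Finset (B →ₐ[k] k)) (θ : (B →ₐ[k] k) → (B →ₐ[k] k)),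
      Set.InjOn θ Z ∧ (∀ a b : B, (a, b) ∈ R ↔ ∀ χ ∈ Z, χ a = θ χ b) ∧
      (∀ v : (B →ₐ[k] k) → k, ∃ a : B, ∀ χ ∈ Z, χ a = v χ) ∧
      (∀ v : (B →ₐ[k] k) → k, ∃ b : B, ∀ χ ∈ Z, θ χ b = v χ) := by
  have hfin := finite_nodes hB hfst m hm h₁
  refine ⟨hfin.toFinset, theta R hsnd, ?_, ?_, ?_, ?_⟩
  · rw [Set.Finite.coe_toFinset]
    exact theta_injOn hfst hsnd
  · intro a b
    rw [mem_iff hB hres hfst hsnd m hm h₂]
    simp only [Set.Finite.mem_toFinset]
  · intro v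
    obtain ⟨a, ha⟩ := exists_apply_eq_nodes hB hfst m hm h₁ v
    exact ⟨a, fun χ hχ => ha χ ((Set.Finite.mem_toFinset _).1 hχ)⟩
  · intro v
    obtain ⟨b, hb⟩ := exists_theta_apply_eq_nodes hB hfst hsnd m hm h₁ v
    exact ⟨b, fun χ hχ => hb χ ((Set.Finite.mem_toFinset _).1 hχ)⟩

end Node

/-! ## Swap-invariant subalgebras -/

section Swap

variable {k B : Type*} [Field k] [CommRing B] [Algebra k B] {R : Subalgebra k (B × B)}

theorem theta_mem_nodes (hsnd : ∀ b : B, ∃ a : B, (a, b) ∈ R)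
    (hswap : ∀ a b : B, (a, b) ∈ R → (b, a) ∈ R) {χ : B →ₐ[k] k} (hχ : χ ∈ nodes R) :
    theta R hsnd χ ∈ nodes R := by
  intro a ha
  exact theta_apply_of_zero_mem hsnd hχ (hswap _ _ ha)

/-- For a swap-invariant `R`, `θ` is an involution of the nodes. -/
theorem theta_theta (hsnd : ∀ b : B, ∃ a : B, (a, b) ∈ R)
    (hswap : ∀ a b : B, (a, b) ∈ R → (b, a) ∈ R) {χ : B →ₐ[k] k} (hχ : χ ∈ nodes R) :
    theta R hsnd (theta R hsnd χ) = χ := by
  ext b
  obtain ⟨a, ha⟩ := hsnd b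
  rw [theta_apply_of_mem hsnd (theta_mem_nodes hsnd hswap hχ) ha,
    theta_apply_of_mem hsnd hχ (hswap _ _ ha)]

end Swap

/-! ## Twisted modules -/

section Twist

variable {k B : Type*} [Field k] [CommRing B] [Algebra k B] {R : Subalgebra k (B × B)}

/-- **One line per node.** A `k`-subspace `Mod ⊆ B × B` whose elements satisfy
`(u₁ aⁿ, u₂ bⁿ) ∈ R` lies, at every node `χ`, on one line `χ a = ζ · θχ b`, `ζ ≠ 0`. -/
theorem exists_twist_at (hsnd : ∀ b : B, ∃ a : B, (a, b) ∈ R) (Mod : Submodule k (B × B))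
    (u₁ u₂ : k) (hu₁ : u₁ ≠ 0) (hu₂ : u₂ ≠ 0) (n : ℕ) (hn : n ≠ 0)
    (hpow : ∀ p ∈ Mod, (u₁ • p.1 ^ n, u₂ • p.2 ^ n) ∈ R) {χ : B →ₐ[k] k} (hχ : χ ∈ nodes R) :
    ∃ ζ : k, ζ ≠ 0 ∧ ∀ p ∈ Mod, χ p.1 = ζ * theta R hsnd χ p.2 := by
  have hrel : ∀ p ∈ Mod, u₁ * χ p.1 ^ n = u₂ * theta R hsnd χ p.2 ^ n := by
    intro p hp
    have h := theta_apply_of_mem hsnd hχ (hpow p hp)
    rw [map_smul, map_smul, map_pow, map_pow, smul_eq_mul, smul_eq_mul] at h
    exact h.symm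
  by_cases hall : ∀ p ∈ Mod, theta R hsnd χ p.2 = 0
  · refine ⟨1, one_ne_zero, fun p hp => ?_⟩
    have h := hrel p hp
    rw [hall p hp, zero_pow hn, mul_zero] at h
    have h0 : χ p.1 = 0 := by
      rcases mul_eq_zero.1 h with h | h
      · exact absurd h hu₁
      · exact pow_eq_zero_iff hn |>.1 h
    rw [h0, hall p hp, mul_zero]
  · push Not at hall
    obtain ⟨p₀, hp₀, hy₀⟩ := hall
    have hx₀ : χ p₀.1 ≠ 0 := by
      intro h0
      have h := hrel p₀ hp₀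
      rw [h0, zero_pow hn, mul_zero] at h
      exact (mul_ne_zero hu₂ (pow_ne_zero n hy₀)) h.symm
    refine ⟨χ p₀.1 / theta R hsnd χ p₀.2, div_ne_zero hx₀ hy₀, fun p hp => ?_⟩
    have hp' : theta R hsnd χ p₀.2 • p - theta R hsnd χ p.2 • p₀ ∈ Mod :=
      Mod.sub_mem (Mod.smul_mem _ hp) (Mod.smul_mem _ hp₀)
    have h := hrel _ hp'
    have e2 : theta R hsnd χ (theta R hsnd χ p₀.2 • p - theta R hsnd χ p.2 • p₀).2 = 0 := by
      simp only [Prod.snd_sub, Prod.smul_snd, map_sub, map_smul, smul_eq_mul]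
      ring
    have e1 : χ (theta R hsnd χ p₀.2 • p - theta R hsnd χ p.2 • p₀).1 =
        theta R hsnd χ p₀.2 * χ p.1 - theta R hsnd χ p.2 * χ p₀.1 := by
      simp only [Prod.fst_sub, Prod.smul_fst, map_sub, map_smul, smul_eq_mul]
    rw [e2, zero_pow hn, mul_zero, e1] at h
    have h0 : theta R hsnd χ p₀.2 * χ p.1 - theta R hsnd χ p.2 * χ p₀.1 = 0 := by
      rcases mul_eq_zero.1 h with h | h
      · exact absurd h hu₁
      · exact pow_eq_zero_iff hn |>.1 h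
    field_simp
    linear_combination h0

/-- **Twisted modules.** All nodes at once. -/
theorem exists_twist (hsnd : ∀ b : B, ∃ a : B, (a, b) ∈ R) (Mod : Submodule k (B × B))
    (u₁ u₂ : k) (hu₁ : u₁ ≠ 0) (hu₂ : u₂ ≠ 0) (n : ℕ) (hn : n ≠ 0)
    (hpow : ∀ p ∈ Mod, (u₁ • p.1 ^ n, u₂ • p.2 ^ n) ∈ R) :
    ∃ ζ : (B →ₐ[k] k) → k, (∀ χ, ζ χ ≠ 0) ∧
      ∀ p ∈ Mod, ∀ χ ∈ nodes R, χ p.1 = ζ χ * theta R hsnd χ p.2 := by
  classical
  have key : ∀ χ : B →ₐ[k] k, ∃ ζ : k, ζ ≠ 0 ∧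
      (χ ∈ nodes R → ∀ p ∈ Mod, χ p.1 = ζ * theta R hsnd χ p.2) := by
    intro χ
    by_cases hχ : χ ∈ nodes R
    · obtain ⟨ζ, hζ, h⟩ := exists_twist_at hsnd Mod u₁ u₂ hu₁ hu₂ n hn hpow hχ
      exact ⟨ζ, hζ, fun _ => h⟩
    · exact ⟨1, one_ne_zero, fun h => absurd h hχ⟩
  choose ζ hζ h using key
  exact ⟨ζ, hζ, fun p hp χ hχ => h χ hχ p hp⟩

/-- The twist of a product: if `(a, b)` is `ζ''`-twisted, `(a', b')` is `ζ'`-twisted and the
product is again `ζ'`-twisted, with `θχ b ≠ 0`, `θχ b' ≠ 0`, then `ζ'' = 1`. -/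
theorem twist_eq_one {χ ψ : B →ₐ[k] k} {ζ' ζ'' : k} (hζ' : ζ' ≠ 0) {a b a' b' : B}
    (h'' : χ a = ζ'' * ψ b) (h' : χ a' = ζ' * ψ b') (hprod : χ (a * a') = ζ' * ψ (b * b'))
    (hb : ψ b ≠ 0) (hb' : ψ b' ≠ 0) : ζ'' = 1 := by
  rw [map_mul, map_mul, h'', h'] at hprod
  have h0 : (ζ'' - 1) * (ζ' * ψ b * ψ b') = 0 := by linear_combination hprod
  rcases mul_eq_zero.1 h0 with h | h
  · exact sub_eq_zero.1 h
  · exact absurd h (mul_ne_zero (mul_ne_zero hζ' hb) hb')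

end Twist

/-! ## A filtered dimension lemma -/

section Filtered

variable {k V : Type*} [Field k] [AddCommGroup V] [Module k V]

/-- If `Bc c ≤ W c` are increasing filtrations by finite-dimensional subspaces such that, from
`c₀` on, `Bc (c+1)` surjects onto `W (c+1) / W c` and the dimension jumps of `Bc` do not exceed
those of `W`, then `Bc (c+1) ⊓ W c = Bc c` from `c₀` on. -/
theorem inf_eq_of_graded_succ (Bc W : ℕ → Submodule k V) (hB : Monotone Bc)
    (hBW : ∀ c, Bc c ≤ W c) (hfin : ∀ c, Module.Finite k (W c)) (c : ℕ)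
    (hsurj : W (c + 1) ≤ Bc (c + 1) ⊔ W c)
    (hdim : Module.finrank k (Bc (c + 1)) + Module.finrank k (W c) ≤
      Module.finrank k (Bc c) + Module.finrank k (W (c + 1))) :
    Bc (c + 1) ⊓ W c = Bc c := by
  have := hfin c
  have := hfin (c + 1)
  have : Module.Finite k (Bc (c + 1)) := Submodule.finiteDimensional_of_le (hBW (c + 1))
  have : Module.Finite k (Bc c) := Submodule.finiteDimensional_of_le (hBW c)
  have hle : Bc c ≤ Bc (c + 1) ⊓ W c := le_inf (hB (Nat.le_succ c)) (hBW c)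
  have : Module.Finite k ↥(Bc (c + 1) ⊓ W c) := Submodule.finiteDimensional_of_le inf_le_right
  refine (Submodule.eq_of_le_of_finrank_le hle ?_).symm
  have h1 := Submodule.finrank_sup_add_finrank_inf_eq (Bc (c + 1)) (W c)
  have h2 : Module.finrank k (W (c + 1)) ≤ Module.finrank k ↥(Bc (c + 1) ⊔ W c) :=
    Submodule.finrank_mono hsurj
  omega

/-- Iterated form: `Bc c' ⊓ W c = Bc c` for `c' ≥ c ≥ c₀`. -/
theorem inf_eq_of_graded (Bc W : ℕ → Submodule k V) (hB : Monotone Bc) (hW : Monotone W)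
    (hBW : ∀ c, Bc c ≤ W c) (hfin : ∀ c, Module.Finite k (W c)) (c₀ : ℕ)
    (hsurj : ∀ c, c₀ ≤ c → W (c + 1) ≤ Bc (c + 1) ⊔ W c)
    (hdim : ∀ c, c₀ ≤ c → Module.finrank k (Bc (c + 1)) + Module.finrank k (W c) ≤
      Module.finrank k (Bc c) + Module.finrank k (W (c + 1)))
    {c c' : ℕ} (hc : c₀ ≤ c) (hcc' : c ≤ c') : Bc c' ⊓ W c = Bc c := by
  induction c', hcc' using Nat.le_induction with
  | base => exact inf_eq_left.2 (hBW c)
  | succ n hn ih =>
    have h1 := inf_eq_of_graded_succ Bc W hB hBW hfin n (hsurj n (hc.trans hn))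
      (hdim n (hc.trans hn))
    have h2 : W c ≤ W n := hW hn
    calc Bc (n + 1) ⊓ W c = Bc (n + 1) ⊓ (W n ⊓ W c) := by rw [inf_eq_right.2 h2]
      _ = (Bc (n + 1) ⊓ W n) ⊓ W c := by rw [inf_assoc]
      _ = Bc n ⊓ W c := by rw [h1]
      _ = Bc c := ih

/-- The union of the `Bc c'` meets `W c` in `Bc c`. -/
theorem mem_of_mem_iSup_of_graded (Bc W : ℕ → Submodule k V) (hB : Monotone Bc) (hW : Monotone W)
    (hBW : ∀ c, Bc c ≤ W c) (hfin : ∀ c, Module.Finite k (W c)) (c₀ : ℕ)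
    (hsurj : ∀ c, c₀ ≤ c → W (c + 1) ≤ Bc (c + 1) ⊔ W c)
    (hdim : ∀ c, c₀ ≤ c → Module.finrank k (Bc (c + 1)) + Module.finrank k (W c) ≤
      Module.finrank k (Bc c) + Module.finrank k (W (c + 1)))
    {c c' : ℕ} (hc : c₀ ≤ c) {x : V} (hx : x ∈ Bc c') (hxW : x ∈ W c) : x ∈ Bc c := by
  rcases le_total c c' with h | h
  · have := inf_eq_of_graded Bc W hB hW hBW hfin c₀ hsurj hdim hc h
    rw [← this]
    exact ⟨hx, hxW⟩
  · exact hB h hx

end Filtered

end Fermat.Agent.Lib.NodeGoursat
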