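/-
P5 [HECKE-κ] leaf (H2) (helper97): **the norm along `α : F_N → F_{Nℓ}` on the upper half plane.**

For `ℓ` prime, `ℓ ∤ N`, and any family `γ_i ∈ Γ₀(N)` of `ℓ + 1` representatives of
`Γ₀(Nℓ) \ Γ₀(N)`:

  `E_N (Norm_α x) = ∏_i (E_{Nℓ} x) ∘ γ_i`        (`x ∈ F_{Nℓ}`),

in the vocabulary of `P5/HeckeKappa/Ambient.lean` (`MerH`, `pre`, `slp`, `E`).  No Galois closure:
the `ℓ + 1` ring homs `x ↦ (E_{Nℓ} x) ∘ γ_i` are pairwise distinct embeddings of `F_{Nℓ}` into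
`Mer(ℍ)` extending `E_N`, and `[F_{Nℓ} : α F_N] = ℓ + 1` (`S37/Conj/Degree.lean`), so the generic
lemma `Conj.map_norm_eq_prod_of_card` applies.
-/
import Mathlib
import Fermat.Agent.P5.HeckeKappa.Ambient
import Fermat.Agent.S37.Conj.Embeddings
import Fermat.Agent.S37.Conj.Degree
import Fermat.Agent.Lib.Gamma0Count

set_option autoImplicit false

noncomputable section

namespace Fermat.Agent.Lib.NormOnH

open ModularCurve AlgebraicCurve CongruenceSubgroup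
open Fermat.Agent.Lib Fermat.Agent.S24 Fermat.Agent.P5.HeckeKappa
open scoped MatrixGroups

section

variable (N ℓ : ℕ) [NeZero N] [NeZero ℓ]

/-- A transversal of `Γ₀(Nℓ) \ Γ₀(N)`: `ℓ + 1` elements of `Γ₀(N)`, pairwise inequivalent under
left multiplication by `Γ₀(Nℓ)`. -/
theorem exists_transversal (hℓ : ℓ.Prime) (hℓN : ¬ ℓ ∣ N) :
    ∃ γ : Fin (ℓ + 1) → SL(2, ℤ), (∀ i, γ i ∈ Gamma0 N) ∧
      ∀ i j, γ i * (γ j)⁻¹ ∈ Gamma0 (N * ℓ) → i = j := by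
  haveI : Fact ℓ.Prime := ⟨hℓ⟩
  have hidx : ((Gamma0 (N * ℓ)).subgroupOf (Gamma0 N)).index = ℓ + 1 := by
    rw [mul_comm N ℓ]
    exact Fermat.Agent.Lib.Gamma0Count.relIndex_of_not_dvd (NeZero.ne N) hℓN
  have hcard : Nat.card (↥(Gamma0 N) ⧸ (Gamma0 (N * ℓ)).subgroupOf (Gamma0 N)) = ℓ + 1 := by
    rw [← Subgroup.index_eq_card]
    exact hidx
  haveI : Finite (↥(Gamma0 N) ⧸ (Gamma0 (N * ℓ)).subgroupOf (Gamma0 N)) :=
    Nat.finite_of_card_ne_zero (by rw [hcard]; omega)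
  let e : Fin (ℓ + 1) ≃ (↥(Gamma0 N) ⧸ (Gamma0 (N * ℓ)).subgroupOf (Gamma0 N)) :=
    (Finite.equivFinOfCardEq hcard).symm
  refine ⟨fun i => (((e i).out : ↥(Gamma0 N)) : SL(2, ℤ))⁻¹,
    fun i => inv_mem (SetLike.coe_mem _), ?_⟩
  intro i j hij
  apply e.injective
  rw [← QuotientGroup.out_eq' (e i), ← QuotientGroup.out_eq' (e j), QuotientGroup.eq,
    Subgroup.mem_subgroupOf]
  simpa using hij

/-- **(H2) The norm along `α` on `ℍ`.** -/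
theorem norm_on_H (hℓ : ℓ.Prime) (hℓN : ¬ ℓ ∣ N) {ι : Type*} [Fintype ι] (γ : ι → SL(2, ℤ))
    (hγ : ∀ i, γ i ∈ Gamma0 N) (hinj : ∀ i j, γ i * (γ j)⁻¹ ∈ Gamma0 (N * ℓ) → i = j)
    (hcard : Fintype.card ι = ℓ + 1) (x : FN (N * ℓ)) :
    letI := algebraAlong (heckeAlphaBar Kbar N ℓ)
    E N (Algebra.norm (FN N) x) = ∏ i, pre (slp (γ i)) (E (N * ℓ) x) := by
  letI := algebraAlong (heckeAlphaBar Kbar N ℓ)
  have hfr : Module.finrank (FN N) (FN (N * ℓ)) = ℓ + 1 :=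
    Fermat.Agent.S37.Conj.finrankAlong_alpha N ℓ hℓ hℓN
  haveI : FiniteDimensional (FN N) (FN (N * ℓ)) :=
    Module.finite_of_finrank_pos (by rw [hfr]; omega)
  refine Fermat.Agent.S37.Conj.map_norm_eq_prod_of_card (K := FN N) (L := FN (N * ℓ))
    (Ω := MerH) (E N) (fun i => (pre (slp (γ i))).toRingHom.comp (E (N * ℓ))) ?_ ?_ ?_ x
  · intro i y
    show pre (slp (γ i)) (E (N * ℓ) (heckeAlphaBar Kbar N ℓ y)) = E N y
    rw [E_alpha, pre_sl_E N (hγ i)]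
  · intro i j hij
    apply hinj
    apply mem_Gamma0_of_pre_sl_E (N * ℓ)
    have h := RingHom.congr_fun hij ⟨FFBridge.gen (N * ℓ), FFBridge.gen_mem dvd_rfl⟩
    have h' : pre (slp (γ i)) (E (N * ℓ) ⟨FFBridge.gen (N * ℓ), FFBridge.gen_mem dvd_rfl⟩) =
        pre (slp (γ j)) (E (N * ℓ) ⟨FFBridge.gen (N * ℓ), FFBridge.gen_mem dvd_rfl⟩) := h
    rw [map_mul, pre_mul, h', ← pre_mul, ← map_mul, mul_inv_cancel, map_one, pre_one]
  · rw [hcard, hfr]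

/-- (H2) at `x = β f`: the norm of `f(ℓτ)` is the product of the `f ∘ (diag(ℓ,1) γ_i)`. -/
theorem norm_beta_on_H (hℓ : ℓ.Prime) (hℓN : ¬ ℓ ∣ N) {ι : Type*} [Fintype ι]
    (γ : ι → SL(2, ℤ)) (hγ : ∀ i, γ i ∈ Gamma0 N)
    (hinj : ∀ i j, γ i * (γ j)⁻¹ ∈ Gamma0 (N * ℓ) → i = j)
    (hcard : Fintype.card ι = ℓ + 1) (f : FN N) :
    letI := algebraAlong (heckeAlphaBar Kbar N ℓ)
    E N (Algebra.norm (FN N) (heckeBetaBar Kbar N ℓ f)) =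
      ∏ i, pre (dilG ℓ * slp (γ i)) (E N f) := by
  have h := norm_on_H N ℓ hℓ hℓN γ hγ hinj hcard (heckeBetaBar Kbar N ℓ f)
  refine h.trans (Finset.prod_congr rfl fun i _ => ?_)
  rw [E_beta, pre_mul]

end

end Fermat.Agent.Lib.NormOnH
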