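/-
P5 [HECKE-κ] leaf (H2') (helper97): **the norm along `α` of `β f`, in the `T_ℓ` coset family.**

For `ℓ` prime, `ℓ ∤ N` and `f ∈ F_N`:

  `E_N (Norm_α (β f)) = ∏_{y ∈ ℙ¹(𝔽_ℓ)} (E_N f) ∘ heckeRep ℓ y`,

`heckeRep ℓ ∞ = diag(ℓ, 1)`, `heckeRep ℓ j = (1 j; 0 ℓ)` the standard representatives of `T_ℓ`
(the Prelude's `heckeRep`, the family of `Lib/HeckeHomReps.isCosetFamily_heckeRep`), in the
vocabulary of `P5/HeckeKappa/Ambient.lean` (`MerH`, `pre`, `E`).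
-/
import Mathlib
import Fermat.Agent.Lib.NormOnH
import Fermat.Agent.Lib.HeckeHomReps

set_option autoImplicit false

noncomputable section

namespace Fermat.Agent.Lib.NormOnHReps

open ModularCurve AlgebraicCurve CongruenceSubgroup Matrix.SpecialLinearGroup
open Fermat.Agent.Lib Fermat.Agent.S24 Fermat.Agent.P5.HeckeKappa Fermat.Agent.Lib.HeckeHomGL
open P2MW.S_ModularForm_heckeT_slash_eq_self_of_mem_Gamma0.ModularForm.HeckeSlashInvariance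
open scoped MatrixGroups

/-- The standard representatives of `T_ℓ` lie in `GL₂(ℝ)⁺`. -/
theorem heckeRep_mem_glp (ℓ : ℕ) (y : OnePoint (ZMod ℓ)) : heckeRep ℓ y ∈ GLp := by
  rw [Matrix.mem_glpos]
  induction y using OnePoint.rec with
  | infty => exact ModularForm.det_heckeDiagMatrix_pos ℓ
  | coe j => exact ModularForm.det_heckeMatrix_pos ℓ j.val

/-- The standard representatives of `T_ℓ`, as elements of `GL₂(ℝ)⁺`. -/
def heckeRepP (ℓ : ℕ) (y : OnePoint (ZMod ℓ)) : GLp := ⟨heckeRep ℓ y, heckeRep_mem_glp ℓ y⟩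

@[simp] theorem coe_heckeRepP (ℓ : ℕ) (y : OnePoint (ZMod ℓ)) :
    ((heckeRepP ℓ y : GLp) : GL (Fin 2) ℝ) = heckeRep ℓ y := rfl

/-- `diag(ℓ, 1)` is the representative at `∞`. -/
theorem dilG_eq_heckeRepP (ℓ : ℕ) [NeZero ℓ] : dilG ℓ = heckeRepP ℓ OnePoint.infty := by
  apply Subtype.ext
  apply Units.ext
  show (((dilG ℓ : GLp) : GL (Fin 2) ℝ) : Matrix (Fin 2) (Fin 2) ℝ) =
    ((ModularForm.heckeDiagMatrix ℓ : GL (Fin 2) ℝ) : Matrix (Fin 2) (Fin 2) ℝ)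
  rw [ModularForm.val_heckeDiagMatrix (NeZero.ne ℓ)]
  rfl

section

variable (N ℓ : ℕ) [NeZero N] [Fact ℓ.Prime]

/-- `diag(ℓ,1) · γ = γ' · heckeRep y` with `γ' ∈ Γ₀(N)`, for `γ ∈ Γ₀(N)`. -/
theorem dilG_mul_slp (hℓN : ¬ ℓ ∣ N) (γ : SL(2, ℤ)) (hγ : γ ∈ Gamma0 N) :
    ∃ u : SL(2, ℤ), u ∈ Gamma0 N ∧
      dilG ℓ * slp γ = slp u * heckeRepP ℓ (redMatrix ℓ γ • (OnePoint.infty : OnePoint (ZMod ℓ))) := by
  have hcN : (N : ℤ) ∣ γ 1 0 := (ZMod.intCast_zmod_eq_zero_iff_dvd _ _).mp (Gamma0_mem.mp hγ)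
  obtain ⟨u, hu, hmul⟩ := heckeRep_mul hℓN γ hcN (OnePoint.infty : OnePoint (ZMod ℓ))
  refine ⟨u, Gamma0_mem.mpr ((ZMod.intCast_zmod_eq_zero_iff_dvd _ _).mpr hu), ?_⟩
  rw [dilG_eq_heckeRepP]
  apply Subtype.ext
  exact hmul

/-- If `diag(ℓ,1) · η = u · diag(ℓ,1)` with `u ∈ Γ₀(N)`, then `η ∈ Γ₀(Nℓ)`. -/
theorem mem_Gamma0_mul_of_dilG (η u : SL(2, ℤ)) (hu : u ∈ Gamma0 N)
    (h : dilG ℓ * slp η = slp u * dilG ℓ) : η ∈ Gamma0 (N * ℓ) := by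
  have hcN : (N : ℤ) ∣ u 1 0 := (ZMod.intCast_zmod_eq_zero_iff_dvd _ _).mp (Gamma0_mem.mp hu)
  have h1 : (((dilG ℓ : GLp) : GL (Fin 2) ℝ) : Matrix (Fin 2) (Fin 2) ℝ) * ((mapGL ℝ η : GL (Fin 2) ℝ) :
      Matrix (Fin 2) (Fin 2) ℝ) = ((mapGL ℝ u : GL (Fin 2) ℝ) : Matrix (Fin 2) (Fin 2) ℝ) *
        (((dilG ℓ : GLp) : GL (Fin 2) ℝ) : Matrix (Fin 2) (Fin 2) ℝ) := by
    have h2 := congrArg (fun g : GLp => ((g : GL (Fin 2) ℝ) : Matrix (Fin 2) (Fin 2) ℝ)) h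
    exact h2
  have hd : (((dilG ℓ : GLp) : GL (Fin 2) ℝ) : Matrix (Fin 2) (Fin 2) ℝ) = !![(ℓ : ℝ), 0; 0, 1] := rfl
  rw [coe_mapGL, coe_mapGL, hd] at h1
  have h3 := congrFun (congrFun h1 1) 0
  simp [Matrix.mul_apply, Fin.sum_univ_two] at h3
  have h4 : η 1 0 = u 1 0 * (ℓ : ℤ) := by exact_mod_cast h3
  rw [Gamma0_mem, ZMod.intCast_zmod_eq_zero_iff_dvd, h4]
  push_cast
  exact mul_dvd_mul_right hcN _

/-- **(H2')** The norm along `α` of `β f` on `ℍ`, as the product over the standard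
representatives of `T_ℓ`. -/
theorem norm_beta_heckeRep [NeZero ℓ] (hℓN : ¬ ℓ ∣ N) (f : FN N) :
    letI := algebraAlong (heckeAlphaBar Kbar N ℓ)
    E N (Algebra.norm (FN N) (heckeBetaBar Kbar N ℓ f)) =
      ∏ y : OnePoint (ZMod ℓ), pre (heckeRepP ℓ y) (E N f) := by
  have hℓ : ℓ.Prime := Fact.out
  obtain ⟨γ, hγ, hinj⟩ := NormOnH.exists_transversal N ℓ hℓ hℓN
  have h := NormOnH.norm_beta_on_H N ℓ hℓ hℓN γ hγ hinj (by simp) f
  refine h.trans ?_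
  choose u hu hmul using fun i => dilG_mul_slp N ℓ hℓN (γ i) (hγ i)
  let y : Fin (ℓ + 1) → OnePoint (ZMod ℓ) :=
    fun i => redMatrix ℓ (γ i) • (OnePoint.infty : OnePoint (ZMod ℓ))
  have hy : Function.Injective y := by
    intro i j hij
    apply hinj
    apply mem_Gamma0_mul_of_dilG N ℓ _ (u i * (u j)⁻¹) (mul_mem (hu i) (inv_mem (hu j)))
    have hi := hmul i
    have hj := hmul j
    have hij' : redMatrix ℓ (γ i) • (OnePoint.infty : OnePoint (ZMod ℓ)) =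
        redMatrix ℓ (γ j) • (OnePoint.infty : OnePoint (ZMod ℓ)) := hij
    rw [hij'] at hi
    have hj' : heckeRepP ℓ (redMatrix ℓ (γ j) • (OnePoint.infty : OnePoint (ZMod ℓ))) =
        (slp (u j))⁻¹ * (dilG ℓ * slp (γ j)) := by
      rw [hj, inv_mul_cancel_left]
    rw [hj'] at hi
    rw [map_mul, map_mul, map_inv, map_inv, ← mul_assoc, hi]
    group
  have hcard : Fintype.card (Fin (ℓ + 1)) = Fintype.card (OnePoint (ZMod ℓ)) := by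
    rw [Fintype.card_fin]
    show ℓ + 1 = Fintype.card (Option (ZMod ℓ))
    rw [Fintype.card_option, ZMod.card]
  have hbij : Function.Bijective y :=
    (Fintype.bijective_iff_injective_and_card y).mpr ⟨hy, hcard⟩
  rw [← Function.Bijective.prod_comp hbij (fun y => pre (heckeRepP ℓ y) (E N f))]
  refine Finset.prod_congr rfl fun i _ => ?_
  show pre (dilG ℓ * slp (γ i)) (E N f) = pre (heckeRepP ℓ (y i)) (E N f)
  rw [hmul i, pre_mul, pre_sl_E N (hu i)]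

end

end Fermat.Agent.Lib.NormOnHReps
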