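import Mathlib

/-!
# Norms, valuations and residues in Galois extensions of number fields

Design-neutral leaves for the first inequality (unit index squeeze) and for the tame symbol.

* `relIndex_mul_ne_pow_card`: the abstract index squeeze.  If the subgroups `H i` (`i : ι`)
  have index dividing `p`, all contain `Nm`, and `E` contains a "dual family" `u i`, then
  `[E : Nm ⊓ E] * p ≠ p ^ #ι`.
* `valuation_algEquiv`: `W' (σ x) = W x` if `W' = σ • W`.
* `valuation_norm_pow`: `v (N β) ^ e = ∏_σ W (σ β)`; `valuation_norm_of_inertia_eq_bot`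
  (`v (N β) = W β ^ [N:F]` at a prime fixed by the Galois group with trivial inertia) and
  `valuation_norm_of_inertia_eq_top` (`v (N β) = W β` at a totally ramified prime).
* `exists_valuation_norm_sub_pow_lt_one`: at a totally ramified prime the norm of a `W`-unit is
  a `[N:F]`-th power residue.
-/

set_option autoImplicit false
set_option linter.unusedSectionVars false

open NumberField IsDedekindDomain HeightOneSpectrum
open scoped Pointwise

namespace Fermat.Agent.Lib.NormResidue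

/-! ### An abstract index count -/

theorem index_biInf_eq_pow {E : Type*} [CommGroup E] {p : ℕ} (hp : p.Prime) {ι : Type*}
    [DecidableEq ι] (H : ι → Subgroup E) (hidx : ∀ i, (H i).index ∣ p) (u : ι → E)
    (hu : ∀ i j, i ≠ j → u i ∈ H j) (hu' : ∀ i, u i ∉ H i) (s : Finset ι) :
    (⨅ i ∈ s, H i).index = p ^ s.card := by
  induction s using Finset.induction_on with
  | empty => simp
  | insert j s hj ih =>
    rw [Finset.iInf_insert, Finset.card_insert_of_notMem hj, pow_succ,
      ← Subgroup.relIndex_mul_index (inf_le_right : H j ⊓ ⨅ i ∈ s, H i ≤ ⨅ i ∈ s, H i), ih,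
      Subgroup.inf_relIndex_right, mul_comm]
    congr 1
    have h1 : (H j).relIndex (⨅ i ∈ s, H i) ∣ p :=
      (Subgroup.relIndex_dvd_index_of_normal _ _).trans (hidx j)
    have h2 : (H j).relIndex (⨅ i ∈ s, H i) ≠ 1 := by
      rw [Ne, Subgroup.relIndex_eq_one]
      intro hle
      refine hu' j (hle ?_)
      simp only [Subgroup.mem_iInf]
      intro i hi
      exact hu j i (fun h => hj (h ▸ hi))
    exact (Nat.dvd_prime hp).1 h1 |>.resolve_left h2

/-- If the subgroups `H i` all have index dividing the prime `p` and contain `Nm`, and there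
are elements `u i ∈ ⋂_{j ≠ i} H j ∖ H i`, then `p ^ #ι` divides the index of `Nm`. -/
theorem pow_card_dvd_index {E : Type*} [CommGroup E] {p : ℕ} (hp : p.Prime) {ι : Type*}
    [Fintype ι] (Nm : Subgroup E) (H : ι → Subgroup E) (hle : ∀ i, Nm ≤ H i)
    (hidx : ∀ i, (H i).index ∣ p) (u : ι → E) (hu : ∀ i j, i ≠ j → u i ∈ H j)
    (hu' : ∀ i, u i ∉ H i) : p ^ Fintype.card ι ∣ Nm.index := by
  classical
  have h := index_biInf_eq_pow hp H hidx u hu hu' Finset.univ
  rw [Finset.card_univ] at h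
  rw [← h]
  exact Subgroup.index_dvd_of_le (by simpa using fun i => hle i)

/-- Relative form of `pow_card_dvd_index`. -/
theorem pow_card_dvd_relIndex {G : Type*} [CommGroup G] {p : ℕ} (hp : p.Prime) {ι : Type*}
    [Fintype ι] (E Nm : Subgroup G) (H : ι → Subgroup G) (hle : ∀ i, Nm ≤ H i)
    (hidx : ∀ i, (H i).index ∣ p) (u : ι → G) (huE : ∀ i, u i ∈ E)
    (hu : ∀ i j, i ≠ j → u i ∈ H j) (hu' : ∀ i, u i ∉ H i) :
    p ^ Fintype.card ι ∣ Nm.relIndex E := by
  refine pow_card_dvd_index hp (Nm.subgroupOf E) (fun i => (H i).subgroupOf E)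
    (fun i x hx => ?_) (fun i => ?_) (fun i => ⟨u i, huE i⟩) (fun i j hij => ?_) (fun i hi => ?_)
  · exact Subgroup.mem_subgroupOf.2 (hle i (Subgroup.mem_subgroupOf.1 hx))
  · exact (Subgroup.relIndex_dvd_index_of_normal (H i) E).trans (hidx i)
  · exact Subgroup.mem_subgroupOf.2 (hu i j hij)
  · exact hu' i (Subgroup.mem_subgroupOf.1 hi)

/-- The index squeeze: in the situation of `pow_card_dvd_relIndex`, the relative index of `Nm`
in `E` is not `p ^ (#ι - 1)`. -/
theorem relIndex_mul_ne_pow_card {G : Type*} [CommGroup G] {p : ℕ} (hp : p.Prime) {ι : Type*}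
    [Fintype ι] (E Nm : Subgroup G) (H : ι → Subgroup G) (hle : ∀ i, Nm ≤ H i)
    (hidx : ∀ i, (H i).index ∣ p) (u : ι → G) (huE : ∀ i, u i ∈ E)
    (hu : ∀ i j, i ≠ j → u i ∈ H j) (hu' : ∀ i, u i ∉ H i) :
    Nm.relIndex E * p ≠ p ^ Fintype.card ι := by
  intro h
  have hd := pow_card_dvd_relIndex hp E Nm H hle hidx u huE hu hu'
  have hpos : 0 < p ^ Fintype.card ι := pow_pos hp.pos _
  have h0 : Nm.relIndex E ≠ 0 := by
    rintro h0
    rw [h0, zero_mul] at h
    exact hpos.ne h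
  have h1 : Nm.relIndex E * p ≤ Nm.relIndex E := by
    rw [h]; exact Nat.le_of_dvd (Nat.pos_of_ne_zero h0) hd
  have := hp.one_lt
  nlinarith [Nat.pos_of_ne_zero h0]

/-! ### Denominators prime to a given prime -/

/-- An element of valuation `≤ 1` at `W` has a denominator prime to `W`. -/
theorem exists_mul_eq_of_valuation_le_one {R K : Type*} [CommRing R] [IsDedekindDomain R]
    [Field K] [Algebra R K] [IsFractionRing R K] (W : HeightOneSpectrum R) (x : K)
    (hx : W.valuation K x ≤ 1) :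
    ∃ d t : R, t ∉ W.asIdeal ∧ x * algebraMap R K t = algebraMap R K d := by
  obtain ⟨a, b, hb, rfl⟩ := IsFractionRing.div_surjective (A := R) x
  have hb0 : b ≠ 0 := nonZeroDivisors.ne_zero hb
  have hbK : algebraMap R K b ≠ 0 := by
    simpa using hb0
  have hI : Ideal.span {b} ≠ ⊥ := by simpa using hb0
  obtain ⟨Q, n, hQ, hfac⟩ : ∃ (Q : Ideal R) (n : ℕ), W.asIdeal ⊔ Q = ⊤ ∧
      Ideal.span {b} = W.asIdeal ^ n * Q := by
    obtain ⟨Q, hQ, hfac⟩ := Ideal.eq_prime_pow_mul_coprime hI W.asIdeal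
    exact ⟨Q, _, hQ, hfac⟩
  have hbn : b ∈ W.asIdeal ^ n := by
    have h1 : b ∈ Ideal.span {b} := Ideal.mem_span_singleton_self b
    rw [hfac] at h1
    exact (Ideal.mul_le_left : W.asIdeal ^ n * Q ≤ W.asIdeal ^ n) h1
  have han : a ∈ W.asIdeal ^ n := by
    rw [← intValuation_le_pow_iff_mem] at hbn ⊢
    rw [map_div₀, valuation_of_algebraMap, valuation_of_algebraMap] at hx
    have hbv : W.intValuation b ≠ 0 := by
      rw [W.intValuation_if_neg hb0]; exact WithZero.exp_ne_zero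
    have := (div_le_one₀ (zero_lt_iff.2 hbv)).1 hx
    exact this.trans hbn
  obtain ⟨t, htQ, htW⟩ : ∃ t ∈ Q, t ∉ W.asIdeal := by
    by_contra hcon
    push Not at hcon
    have : W.asIdeal ⊔ Q = W.asIdeal := sup_eq_left.2 hcon
    rw [this] at hQ
    exact W.isPrime.ne_top hQ
  have hat : a * t ∈ Ideal.span {b} := by
    rw [hfac]
    exact Ideal.mul_mem_mul han htQ
  obtain ⟨d, hd⟩ := Ideal.mem_span_singleton'.1 hat
  refine ⟨d, t, htW, ?_⟩
  rw [div_mul_eq_mul_div, div_eq_iff hbK, ← map_mul, ← map_mul, ← hd]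

/-! ### Galois action on valuations -/

section Galois

variable {F N : Type*} [Field F] [NumberField F] [Field N] [NumberField N] [Algebra F N]

/-- The action of a `F`-automorphism on the valuations of `N`, integral form. -/
theorem intValuation_smul (σ : N ≃ₐ[F] N) (W W' : HeightOneSpectrum (𝓞 N))
    (h : W'.asIdeal = σ • W.asIdeal) (a : 𝓞 N) :
    W'.intValuation (σ • a) = W.intValuation a := by
  by_cases ha : a = 0
  · subst ha; simp
  have ha' : σ • a ≠ 0 := by
    intro h0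
    apply ha
    have := congrArg (fun x => σ⁻¹ • x) h0
    simpa using this
  have key : ∀ n : ℕ, W'.intValuation (σ • a) ≤ WithZero.exp (-(n : ℤ)) ↔
      W.intValuation a ≤ WithZero.exp (-(n : ℤ)) := fun n => by
    have hpow : (σ • W.asIdeal) ^ n = σ • (W.asIdeal ^ n) := by
      rw [Ideal.pointwise_smul_def, Ideal.pointwise_smul_def, Ideal.map_pow]
    rw [intValuation_le_pow_iff_mem, intValuation_le_pow_iff_mem, h, hpow]
    exact Ideal.smul_mem_pointwise_smul_iff
  rw [W'.intValuation_if_neg ha', W.intValuation_if_neg ha] at key ⊢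
  set k := (Associates.mk W'.asIdeal).count
    (Associates.mk (Ideal.span {σ • a} : Ideal (𝓞 N))).factors
  set l := (Associates.mk W.asIdeal).count (Associates.mk (Ideal.span {a} : Ideal (𝓞 N))).factors
  have h1 := (key k).1 le_rfl
  have h2 := (key l).2 le_rfl
  rw [WithZero.exp_le_exp] at h1 h2
  have : k = l := by omega
  rw [this]

/-- The action of a `F`-automorphism on the valuations of `N`. -/
theorem valuation_algEquiv (σ : N ≃ₐ[F] N) (W W' : HeightOneSpectrum (𝓞 N))
    (h : W'.asIdeal = σ • W.asIdeal) (x : N) :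
    W'.valuation N (σ x) = W.valuation N x := by
  obtain ⟨a, b, hb, rfl⟩ := IsFractionRing.div_surjective (A := 𝓞 N) x
  have h1 : ∀ c : 𝓞 N, σ (algebraMap (𝓞 N) N c) = algebraMap (𝓞 N) N (σ • c) := fun c => rfl
  rw [map_div₀, h1, h1, map_div₀, map_div₀, valuation_of_algebraMap, valuation_of_algebraMap,
    valuation_of_algebraMap, valuation_of_algebraMap, intValuation_smul σ W W' h,
    intValuation_smul σ W W' h]

variable [IsGalois F N]

/-- The valuation of a norm, Galois case: `v(N β)^e = ∏_σ W(σ β)`. -/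
theorem valuation_norm_pow (v : HeightOneSpectrum (𝓞 F)) (W : HeightOneSpectrum (𝓞 N))
    [W.asIdeal.LiesOver v.asIdeal] (β : N) :
    v.valuation F (Algebra.norm F β) ^ (v.asIdeal.ramificationIdx' W.asIdeal) =
      ∏ σ : N ≃ₐ[F] N, W.valuation N (σ β) := by
  rw [valuation_liesOver N v W, Algebra.norm_eq_prod_automorphisms, map_prod]

/-- If `W` is fixed by the Galois group, `v(N β)^e = W(β)^[N:F]`. -/
theorem valuation_norm_pow_of_fixed (v : HeightOneSpectrum (𝓞 F)) (W : HeightOneSpectrum (𝓞 N))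
    [W.asIdeal.LiesOver v.asIdeal] (hW : ∀ σ : N ≃ₐ[F] N, σ • W.asIdeal = W.asIdeal) (β : N) :
    v.valuation F (Algebra.norm F β) ^ (v.asIdeal.ramificationIdx' W.asIdeal) =
      W.valuation N β ^ Module.finrank F N := by
  rw [valuation_norm_pow v W β, ← IsGalois.card_aut_eq_finrank F N, Nat.card_eq_fintype_card,
    ← Finset.card_univ, ← Finset.prod_const]
  exact Finset.prod_congr rfl fun σ _ => valuation_algEquiv σ W W (hW σ).symm β

/-- The ramification index is the order of the inertia group. -/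
theorem ramificationIdx'_eq_card_inertia (v : HeightOneSpectrum (𝓞 F))
    (W : HeightOneSpectrum (𝓞 N)) [W.asIdeal.LiesOver v.asIdeal] :
    v.asIdeal.ramificationIdx' W.asIdeal = Nat.card (W.asIdeal.inertia (N ≃ₐ[F] N)) := by
  rw [Ideal.card_inertia_eq_ramificationIdxIn (G := N ≃ₐ[F] N) v.asIdeal W.asIdeal,
    Ideal.ramificationIdxIn_eq_ramificationIdx v.asIdeal W.asIdeal (N ≃ₐ[F] N),
    Ideal.ramificationIdx'_eq_ramificationIdx v.asIdeal W.asIdeal v.ne_bot]

/-- (N1), inert form: at a prime fixed by the Galois group and with trivial inertia,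
`v(N β) = W(β)^[N:F]`. -/
theorem valuation_norm_of_inertia_eq_bot (v : HeightOneSpectrum (𝓞 F))
    (W : HeightOneSpectrum (𝓞 N)) [W.asIdeal.LiesOver v.asIdeal]
    (hW : ∀ σ : N ≃ₐ[F] N, σ • W.asIdeal = W.asIdeal)
    (hI : W.asIdeal.inertia (N ≃ₐ[F] N) = ⊥) (β : N) :
    v.valuation F (Algebra.norm F β) = W.valuation N β ^ Module.finrank F N := by
  have h := valuation_norm_pow_of_fixed v W hW β
  rwa [ramificationIdx'_eq_card_inertia v W, hI, Subgroup.card_bot, pow_one] at h

/-- (N1), totally ramified form: if the inertia group is everything, `v(N β) = W(β)`. -/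
theorem valuation_norm_of_inertia_eq_top (v : HeightOneSpectrum (𝓞 F))
    (W : HeightOneSpectrum (𝓞 N)) [W.asIdeal.LiesOver v.asIdeal]
    (hI : W.asIdeal.inertia (N ≃ₐ[F] N) = ⊤) (β : N) :
    v.valuation F (Algebra.norm F β) = W.valuation N β := by
  have hW : ∀ σ : N ≃ₐ[F] N, σ • W.asIdeal = W.asIdeal := fun σ => by
    have hσ : σ ∈ W.asIdeal.inertia (N ≃ₐ[F] N) := hI ▸ Subgroup.mem_top _
    exact Ideal.inertia_le_stabilizer W.asIdeal hσ
  have h := valuation_norm_pow_of_fixed v W hW β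
  rw [ramificationIdx'_eq_card_inertia v W, hI, Subgroup.card_top,
    IsGalois.card_aut_eq_finrank] at h
  exact (pow_left_inj₀ zero_le zero_le (Module.finrank_pos (R := F) (M := N)).ne').1 h

attribute [local instance] Ideal.Quotient.field in
/-- If the inertia group of `W` is the whole Galois group, the residue field does not grow. -/
theorem exists_sub_mem_of_inertia_eq_top (v : HeightOneSpectrum (𝓞 F))
    (W : HeightOneSpectrum (𝓞 N)) [W.asIdeal.LiesOver v.asIdeal]
    (hI : W.asIdeal.inertia (N ≃ₐ[F] N) = ⊤) (b : 𝓞 N) :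
    ∃ c : 𝓞 F, b - algebraMap (𝓞 F) (𝓞 N) c ∈ W.asIdeal := by
  have hsurj := Ideal.Quotient.stabilizerHom_surjective (N ≃ₐ[F] N) v.asIdeal W.asIdeal
  have htriv : ∀ f : (𝓞 N ⧸ W.asIdeal) ≃ₐ[𝓞 F ⧸ v.asIdeal] (𝓞 N ⧸ W.asIdeal), f = 1 := by
    intro f
    obtain ⟨g, rfl⟩ := hsurj f
    ext x
    obtain ⟨y, rfl⟩ := Ideal.Quotient.mk_surjective x
    rw [Ideal.Quotient.stabilizerHom_apply]
    have hg : (g : N ≃ₐ[F] N) ∈ W.asIdeal.inertia (N ≃ₐ[F] N) := hI ▸ Subgroup.mem_top _
    have := hg y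
    simp only [AlgEquiv.one_apply]
    exact Ideal.Quotient.eq.2 this
  have : Finite (𝓞 N ⧸ W.asIdeal) := inferInstance
  have hgal : IsGalois (𝓞 F ⧸ v.asIdeal) (𝓞 N ⧸ W.asIdeal) := inferInstance
  have hcard : Nat.card ((𝓞 N ⧸ W.asIdeal) ≃ₐ[𝓞 F ⧸ v.asIdeal] (𝓞 N ⧸ W.asIdeal)) = 1 := by
    rw [Nat.card_eq_one_iff_unique]
    exact ⟨⟨fun f g => (htriv f).trans (htriv g).symm⟩, ⟨1⟩⟩
  rw [IsGalois.card_aut_eq_finrank] at hcard
  have hbt := Subalgebra.bot_eq_top_of_finrank_eq_one hcard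
  have hs : Function.Surjective (algebraMap (𝓞 F ⧸ v.asIdeal) (𝓞 N ⧸ W.asIdeal)) :=
    Algebra.surjective_algebraMap_iff.2 hbt.symm
  obtain ⟨c', hc'⟩ := hs (Ideal.Quotient.mk _ b)
  obtain ⟨c, rfl⟩ := Ideal.Quotient.mk_surjective c'
  refine ⟨c, ?_⟩
  rw [← Ideal.Quotient.eq, ← hc']
  rfl

/-- (N2), integral form: at a totally ramified prime the norm of an integer is congruent to a
`[N:F]`-th power. -/
theorem exists_norm_sub_pow_mem (v : HeightOneSpectrum (𝓞 F))
    (W : HeightOneSpectrum (𝓞 N)) [W.asIdeal.LiesOver v.asIdeal]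
    (hI : W.asIdeal.inertia (N ≃ₐ[F] N) = ⊤) (b : 𝓞 N) :
    ∃ c : 𝓞 F, b - algebraMap (𝓞 F) (𝓞 N) c ∈ W.asIdeal ∧
      RingOfIntegers.norm F b - c ^ Module.finrank F N ∈ v.asIdeal := by
  obtain ⟨c, hc⟩ := exists_sub_mem_of_inertia_eq_top v W hI b
  refine ⟨c, hc, ?_⟩
  have hprod : algebraMap (𝓞 F) (𝓞 N) (RingOfIntegers.norm F b) = ∏ σ : N ≃ₐ[F] N, σ • b := by
    apply RingOfIntegers.ext
    rw [RingOfIntegers.coe_algebraMap_norm, Algebra.norm_eq_prod_automorphisms]
    exact (map_prod (algebraMap (𝓞 N) N) (fun σ : N ≃ₐ[F] N => σ • b) Finset.univ).symm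
  have hmem : algebraMap (𝓞 F) (𝓞 N) (RingOfIntegers.norm F b - c ^ Module.finrank F N) ∈
      W.asIdeal := by
    rw [map_sub, map_pow, hprod, ← Ideal.Quotient.eq, map_prod, map_pow,
      ← IsGalois.card_aut_eq_finrank F N, Nat.card_eq_fintype_card, ← Finset.card_univ,
      ← Finset.prod_const]
    refine Finset.prod_congr rfl fun σ _ => ?_
    rw [Ideal.Quotient.eq]
    have hσ : σ ∈ W.asIdeal.inertia (N ≃ₐ[F] N) := hI ▸ Subgroup.mem_top _
    have h1 : σ • b - b ∈ W.asIdeal := hσ b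
    have := W.asIdeal.add_mem h1 hc
    simpa using this
  rw [Ideal.over_def W.asIdeal v.asIdeal]
  exact hmem

/-- (N2), field form: at a totally ramified prime the norm of a `W`-unit is a `[N:F]`-th power
residue. -/
theorem exists_valuation_norm_sub_pow_lt_one (v : HeightOneSpectrum (𝓞 F))
    (W : HeightOneSpectrum (𝓞 N)) [W.asIdeal.LiesOver v.asIdeal]
    (hI : W.asIdeal.inertia (N ≃ₐ[F] N) = ⊤) (γ : N) (hγ : W.valuation N γ = 1) :
    ∃ c : F, v.valuation F c = 1 ∧
      v.valuation F (Algebra.norm F γ - c ^ Module.finrank F N) < 1 := by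
  obtain ⟨d, t, ht, hdt⟩ := exists_mul_eq_of_valuation_le_one W γ hγ.le
  have hd : d ∉ W.asIdeal := by
    intro hd
    have h1 : W.valuation N (algebraMap (𝓞 N) N d) < 1 := (valuation_lt_one_iff_mem W d).2 hd
    have h2 : W.valuation N (algebraMap (𝓞 N) N t) = 1 := by
      rw [valuation_eq_one_iff_notMem]
      exact ht
    rw [← hdt, map_mul, hγ, h2, one_mul] at h1
    exact lt_irrefl _ h1
  obtain ⟨c₁, hc₁, hn₁⟩ := exists_norm_sub_pow_mem v W hI d
  obtain ⟨c₂, hc₂, hn₂⟩ := exists_norm_sub_pow_mem v W hI t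
  have hcv : ∀ (e : 𝓞 N) (c : 𝓞 F), e ∉ W.asIdeal → e - algebraMap (𝓞 F) (𝓞 N) c ∈ W.asIdeal →
      c ∉ v.asIdeal := by
    intro e c he hec hc
    apply he
    have h1 : algebraMap (𝓞 F) (𝓞 N) c ∈ W.asIdeal := by
      have : c ∈ W.asIdeal.under (𝓞 F) := by rwa [← Ideal.over_def W.asIdeal v.asIdeal]
      exact this
    have := W.asIdeal.add_mem hec h1
    simpa using this
  have h₁ : c₁ ∉ v.asIdeal := hcv d c₁ hd hc₁
  have h₂ : c₂ ∉ v.asIdeal := hcv t c₂ ht hc₂
  set n := Module.finrank F N with hn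
  have hv₁ : v.valuation F (algebraMap (𝓞 F) F c₁) = 1 := (valuation_eq_one_iff_notMem v).2 h₁
  have hv₂ : v.valuation F (algebraMap (𝓞 F) F c₂) = 1 := (valuation_eq_one_iff_notMem v).2 h₂
  have hc₂0 : algebraMap (𝓞 F) F c₂ ≠ 0 := by
    intro h0; rw [h0, map_zero] at hv₂; exact zero_ne_one hv₂
  have ht0 : (t : N) ≠ 0 := by
    intro h0
    apply ht
    have : t = 0 := RingOfIntegers.ext (by simpa using h0)
    rw [this]; exact W.asIdeal.zero_mem
  have hNγ : Algebra.norm F γ = Algebra.norm F (d : N) / Algebra.norm F (t : N) :=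
    eq_div_of_mul_eq (Algebra.norm_ne_zero_iff.2 ht0) (by rw [← map_mul]; exact congrArg _ hdt)
  have hNt : Algebra.norm F (t : N) ≠ 0 := Algebra.norm_ne_zero_iff.2 ht0
  -- the norm of `t` is a unit at `v`
  have hnt : RingOfIntegers.norm F t ∉ v.asIdeal := by
    intro hmem
    have : c₂ ^ n ∈ v.asIdeal := by
      have := v.asIdeal.sub_mem hmem hn₂
      simpa using this
    exact h₂ (v.isPrime.mem_of_pow_mem n this)
  have hvNt : v.valuation F (Algebra.norm F (t : N)) = 1 := by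
    rw [← RingOfIntegers.coe_norm]
    exact (valuation_eq_one_iff_notMem v).2 hnt
  refine ⟨algebraMap (𝓞 F) F c₁ / algebraMap (𝓞 F) F c₂, by rw [map_div₀, hv₁, hv₂, div_one], ?_⟩
  have hkey : Algebra.norm F γ - (algebraMap (𝓞 F) F c₁ / algebraMap (𝓞 F) F c₂) ^ n =
      (algebraMap (𝓞 F) F ((RingOfIntegers.norm F d - c₁ ^ n) * c₂ ^ n -
        (RingOfIntegers.norm F t - c₂ ^ n) * c₁ ^ n)) /
        (Algebra.norm F (t : N) * algebraMap (𝓞 F) F c₂ ^ n) := by
    rw [hNγ, div_pow, div_sub_div _ _ hNt (pow_ne_zero n hc₂0)]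
    congr 1
    simp only [map_sub, map_mul, map_pow]
    rw [show algebraMap (𝓞 F) F (RingOfIntegers.norm F d) = Algebra.norm F (d : N) from
      RingOfIntegers.coe_norm F d, show algebraMap (𝓞 F) F (RingOfIntegers.norm F t) =
      Algebra.norm F (t : N) from RingOfIntegers.coe_norm F t]
    ring
  rw [hkey, map_div₀, map_mul, map_pow, hvNt, hv₂, one_pow, one_mul, div_one,
    valuation_lt_one_iff_mem]
  exact v.asIdeal.sub_mem (v.asIdeal.mul_mem_right _ hn₁) (v.asIdeal.mul_mem_right _ hn₂)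

end Galois

end Fermat.Agent.Lib.NormResidue
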