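/-
The "norm trick" for comparing orders of functions along a specialisation of curves, in an
abstract form (no modular curves here).

Setting: a function field `F / K` (generic fibre) and a function field `Fk / k` (special fibre),
a subring `B ⊆ F` of "chart functions" with a reduction map `ρ : B → Fk`, a set `SP` of places of
`F` and a set `SQ` of places of `Fk` (a fibre of the two `j`-maps over corresponding points),
and a specialisation map `r : SP → SQ` which is compatible with evaluation.  If total orders over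
`SP` and `SQ` agree for all chart functions with nonzero reduction (`hsum`), and there is a chart
function `g` separating the points of `SQ` (`hsep`), then for every chart function `u` with
nonzero reduction and every `Q₀ ∈ SQ`,

    ∑_{P ∈ SP, r P = Q₀} ord_P u = ord_{Q₀} (ρ u).

The proof multiplies `u` by an "idempotent modulo a high power" `E` (a polynomial in `g`), so that
`u E + (1 - E)` has the zeros of `u` at `Q₀` and no other zeros on `SQ`.
-/
import Mathlib
import Fermat.Agent.Lib.FFSep.Places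
import Fermat.Agent.Lib.LocalCount
set_option autoImplicit false

namespace Fermat.Agent.Lib.NormTrick

open AlgebraicCurve Polynomial

section Vge

variable {K F : Type*} [Field K] [Field F] [Algebra K F] (v : Place K F)

/-- `Vge v f n`: "`ord_v f ≥ n`", with the convention `ord_v 0 = ∞`. -/
def Vge (f : F) (n : ℤ) : Prop := f = 0 ∨ n ≤ v.ord f

variable {v}

theorem vge_zero (n : ℤ) : Vge v (0 : F) n := Or.inl rfl

theorem vge_ord (f : F) : Vge v f (v.ord f) := Or.inr le_rfl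

theorem vge_iff_of_ne_zero {f : F} (hf : f ≠ 0) (n : ℤ) : Vge v f n ↔ n ≤ v.ord f := by
  unfold Vge
  constructor
  · rintro (h | h)
    · exact absurd h hf
    · exact h
  · exact Or.inr

theorem Vge.le_ord {f : F} {n : ℤ} (h : Vge v f n) (hf : f ≠ 0) : n ≤ v.ord f :=
  (vge_iff_of_ne_zero hf n).mp h

theorem Vge.mono {f : F} {n m : ℤ} (h : Vge v f n) (hm : m ≤ n) : Vge v f m := by
  rcases h with h | h
  · exact Or.inl h
  · exact Or.inr (hm.trans h)

theorem Vge.add {f g : F} {n : ℤ} (hf : Vge v f n) (hg : Vge v g n) : Vge v (f + g) n := by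
  by_cases h0 : f + g = 0
  · exact Or.inl h0
  rcases hf with rfl | hf
  · rw [zero_add] at h0 ⊢; exact hg
  rcases hg with rfl | hg
  · rw [add_zero]; exact Or.inr hf
  exact Or.inr ((le_min hf hg).trans (FFSep.min_ord_le_ord_add v h0))

theorem Vge.neg {f : F} {n : ℤ} (hf : Vge v f n) : Vge v (-f) n := by
  rcases hf with rfl | hf
  · rw [neg_zero]; exact vge_zero n
  · exact Or.inr (by rw [FFSep.ord_neg_eq]; exact hf)

theorem Vge.sub {f g : F} {n : ℤ} (hf : Vge v f n) (hg : Vge v g n) : Vge v (f - g) n := by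
  rw [sub_eq_add_neg]; exact hf.add hg.neg

theorem Vge.mul {f g : F} {n m : ℤ} (hf : Vge v f n) (hg : Vge v g m) :
    Vge v (f * g) (n + m) := by
  rcases hf with rfl | hf
  · rw [zero_mul]; exact vge_zero _
  rcases hg with rfl | hg
  · rw [mul_zero]; exact vge_zero _
  by_cases hf0 : f = 0
  · rw [hf0, zero_mul]; exact vge_zero _
  by_cases hg0 : g = 0
  · rw [hg0, mul_zero]; exact vge_zero _
  exact Or.inr (by rw [v.ord_mul hf0 hg0]; omega)

theorem vge_zero_iff_mem {f : F} : Vge v f 0 ↔ f ∈ v.toValuationSubring := by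
  by_cases hf : f = 0
  · rw [hf]; exact ⟨fun _ => v.toValuationSubring.zero_mem, fun _ => vge_zero 0⟩
  · rw [vge_iff_of_ne_zero hf, FFPlaces.mem_iff_ord_nonneg v hf]

theorem vge_one_iff_mem_nonunits {f : F} :
    Vge v f 1 ↔ f ∈ v.toValuationSubring.nonunits := by
  by_cases hf : f = 0
  · rw [hf]; exact ⟨fun _ => v.toValuationSubring.nonunits.zero_mem, fun _ => vge_zero 1⟩
  · rw [vge_iff_of_ne_zero hf, ValuationSubring.mem_nonunits_iff_or]
    have h1 := FFPlaces.ord_neg_iff v (inv_ne_zero hf)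
    rw [v.ord_inv] at h1
    constructor
    · intro h
      exact Or.inr (h1.mp (by omega))
    · rintro (h | h)
      · exact absurd h hf
      · have := h1.mpr h
        omega

theorem Vge.pow {f : F} {n : ℤ} (hf : Vge v f n) (j : ℕ) : Vge v (f ^ j) (j * n) := by
  induction j with
  | zero =>
    rw [pow_zero, Nat.cast_zero, zero_mul]
    exact vge_zero_iff_mem.mpr v.toValuationSubring.one_mem
  | succ j ih =>
    rw [pow_succ]
    have := ih.mul hf
    convert this using 1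
    push_cast; ring

/-- A regular function which is not in the maximal ideal has order zero. -/
theorem ord_eq_zero_of_mem_of_notMem {f : F} (h1 : f ∈ v.toValuationSubring)
    (h2 : f ∉ v.toValuationSubring.nonunits) : v.ord f = 0 := by
  have hf : f ≠ 0 := fun h => h2 (h ▸ v.toValuationSubring.nonunits.zero_mem)
  have h3 := (vge_zero_iff_mem.mpr h1).le_ord hf
  have h4 : ¬ (1 : ℤ) ≤ v.ord f := fun h =>
    h2 (vge_one_iff_mem_nonunits.mp (Or.inr h))
  omega

/-- Strict ultrametric: adding something of strictly larger order does not change the order. -/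
theorem ord_add_eq_of_vge {f g : F} (hf : f ≠ 0) (hg : Vge v g (v.ord f + 1)) :
    f + g ≠ 0 ∧ v.ord (f + g) = v.ord f := by
  rcases hg with rfl | hg
  · rw [add_zero]; exact ⟨hf, rfl⟩
  by_cases hg0 : g = 0
  · rw [hg0, add_zero]; exact ⟨hf, rfl⟩
  have hne : f + g ≠ 0 := by
    intro h
    have : f = -g := eq_neg_of_add_eq_zero_left h
    rw [this, FFSep.ord_neg_eq] at hg
    omega
  refine ⟨hne, ?_⟩
  have h1 := FFSep.min_ord_le_ord_add v hne
  have h2 := FFSep.min_ord_le_ord_add v (f := f + g) (g := -g) (by rwa [add_neg_cancel_right])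
  rw [add_neg_cancel_right, FFSep.ord_neg_eq] at h2
  rcases min_le_iff.mp h2 with h | h
  · rcases le_min_iff.mp (le_refl (min (v.ord f) (v.ord g))) with ⟨-, -⟩
    have : min (v.ord f) (v.ord g) = v.ord f := min_eq_left (by omega)
    rw [this] at h1
    omega
  · omega

/-- In a valuation ring, a product of regular elements lying in the maximal ideal has a factor
in the maximal ideal (multiset form). -/
theorem exists_mem_nonunits_of_prod_mem (m : Multiset F)
    (hm : ∀ x ∈ m, x ∈ v.toValuationSubring) (h : m.prod ∈ v.toValuationSubring.nonunits) :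
    ∃ x ∈ m, x ∈ v.toValuationSubring.nonunits := by
  induction m using Multiset.induction_on with
  | empty =>
    rw [Multiset.prod_zero] at h
    exact absurd h (by
      rw [ValuationSubring.mem_nonunits_iff, map_one]; exact lt_irrefl _)
  | cons x m ih =>
    rw [Multiset.prod_cons] at h
    by_cases hx : x ∈ v.toValuationSubring.nonunits
    · exact ⟨x, Multiset.mem_cons_self x m, hx⟩
    · have hm' : ∀ y ∈ m, y ∈ v.toValuationSubring := fun y hy => hm y (Multiset.mem_cons_of_mem hy)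
      have hprod : m.prod ∈ v.toValuationSubring.nonunits := by
        rw [ValuationSubring.mem_nonunits_iff] at h hx ⊢
        rw [map_mul] at h
        have hx1 : v.toValuationSubring.valuation x = 1 := by
          apply le_antisymm
          · exact (ValuationSubring.valuation_le_one_iff _ _).mpr (hm x (Multiset.mem_cons_self x m))
          · exact not_lt.mp hx
        rwa [hx1, one_mul] at h
      obtain ⟨y, hy, hy'⟩ := ih hm' hprod
      exact ⟨y, Multiset.mem_cons_of_mem hy, hy'⟩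

theorem one_notMem_nonunits : (1 : F) ∉ v.toValuationSubring.nonunits := by
  rw [ValuationSubring.mem_nonunits_iff, map_one]; exact lt_irrefl _

theorem mul_mem_nonunits {a m : F} (hm : m ∈ v.toValuationSubring.nonunits)
    (ha : a ∈ v.toValuationSubring) : m * a ∈ v.toValuationSubring.nonunits := by
  have := (vge_one_iff_mem_nonunits.mpr hm).mul (vge_zero_iff_mem.mpr ha)
  rw [add_zero] at this
  exact vge_one_iff_mem_nonunits.mp this

theorem mem_nonunits_of_ord_pos {f : F} (h : 0 < v.ord f) : f ∈ v.toValuationSubring.nonunits :=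
  vge_one_iff_mem_nonunits.mp (Or.inr h)

theorem ord_pos_of_mem_nonunits {f : F} (hf : f ≠ 0) (h : f ∈ v.toValuationSubring.nonunits) :
    0 < v.ord f :=
  (vge_one_iff_mem_nonunits.mpr h).le_ord hf

/-- A nonzero function has finitely many zeros. -/
theorem finite_setOf_mem_nonunits {e : F} (he : e ≠ 0)
    (hfin : {P : Place K F | P.ord e ≠ 0}.Finite) :
    {P : Place K F | e ∈ P.toValuationSubring.nonunits}.Finite := by
  apply hfin.subset
  intro Q hQ
  have := ord_pos_of_mem_nonunits he hQ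
  show Q.ord e ≠ 0
  omega

end Vge

section Core

variable {K F k Fk A₀ : Type*} [Field K] [Field F] [Algebra K F] [Field k] [Field Fk]
  [Algebra k Fk] [CommRing A₀]

/-- **The norm trick, inequality.** -/
theorem sum_ord_le
    (B : Subring F) (ρ : B →+* Fk) (ι₀ : A₀ →+* B)
    (SP : Set (Place K F)) (SQ : Set (Place k Fk)) (r : Place K F → Place k Fk)
    (hr : ∀ P ∈ SP, r P ∈ SQ)
    (hB : ∀ b : B, ∀ P ∈ SP, (b : F) ∈ P.toValuationSubring)
    (hρ : ∀ b : B, ∀ Q ∈ SQ, ρ b ∈ Q.toValuationSubring)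
    (heval : ∀ b : B, ∀ P ∈ SP, (b : F) ∈ P.toValuationSubring.nonunits →
      ρ b ∈ (r P).toValuationSubring.nonunits)
    (hval : ∀ b : B, ∀ P ∈ SP, ∃ a : A₀,
      ((b - ι₀ a : B) : F) ∈ P.toValuationSubring.nonunits)
    (hfin : ∀ b : B, (b : F) ≠ 0 → {P : Place K F | P.ord (b : F) ≠ 0}.Finite)
    (hsum : ∀ b : B, ρ b ≠ 0 → ∑ᶠ P ∈ SP, P.ord (b : F) = ∑ᶠ Q ∈ SQ, Q.ord (ρ b))
    (Q₀ : Place k Fk) (hQ₀ : Q₀ ∈ SQ)
    (hunit : ∀ a : A₀, ρ (ι₀ a) ∉ Q₀.toValuationSubring.nonunits → IsUnit a)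
    (g : B)
    (hsep : ∀ a : A₀, ∀ Q ∈ SQ, Q ≠ Q₀ →
      ¬ (ρ (g - ι₀ a) ∈ Q.toValuationSubring.nonunits ∧
        ρ (g - ι₀ a) ∈ Q₀.toValuationSubring.nonunits))
    (u : B) (hu : ρ u ≠ 0)
    (f : B) (hf0 : ρ f ≠ 0) (hfQ : ∀ Q ∈ SQ, ρ f ∈ Q.toValuationSubring.nonunits)
    (hfQ₀ : Q₀.ord (ρ u) < Q₀.ord (ρ f))
    (hfP : ∀ P ∈ SP, r P = Q₀ → 0 < P.ord (u : F) → P.ord (u : F) ≤ P.ord (f : F))
    (Z : Finset (Place K F)) (hZ : ∀ P ∈ Z, P ∈ SP)
    (hdiv : ∀ b : B, (∀ P ∈ Z, Vge P (b : F) (P.ord (f : F))) → ∃ w : B, b = f * w) :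
    ∑ᶠ P ∈ {P | P ∈ SP ∧ r P = Q₀}, P.ord (u : F) ≤ Q₀.ord (ρ u) := by
  classical
  let _ : Algebra A₀ B := ι₀.toAlgebra
  have hne_of : ∀ b : B, ρ b ≠ 0 → (b : F) ≠ 0 := by
    intro b hb h
    apply hb
    have : b = 0 := Subtype.ext h
    rw [this, map_zero]
  -- values of `g` on `Z`
  have hvalZ : ∀ P : Place K F, ∃ a : A₀, P ∈ Z →
      ((g - ι₀ a : B) : F) ∈ P.toValuationSubring.nonunits := by
    intro P
    by_cases hP : P ∈ Z
    · obtain ⟨a, ha⟩ := hval g P (hZ P hP)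
      exact ⟨a, fun _ => ha⟩
    · exact ⟨0, fun h => absurd h hP⟩
  choose av hav using hvalZ
  obtain ⟨M, hM⟩ : ∃ M : ℕ, ∀ P ∈ Z, P.ord (f : F) ≤ M := by
    refine ⟨(∑ P ∈ Z, |P.ord (f : F)|).toNat, fun P hP => ?_⟩
    have h1 : |P.ord (f : F)| ≤ ∑ P ∈ Z, |P.ord (f : F)| :=
      Finset.single_le_sum (f := fun P => |P.ord (f : F)|) (fun _ _ => abs_nonneg _) hP
    have h2 := le_abs_self (P.ord (f : F))
    have h3 : 0 ≤ ∑ P ∈ Z, |P.ord (f : F)| := Finset.sum_nonneg (fun _ _ => abs_nonneg _)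
    rw [Int.toNat_of_nonneg h3]
    omega
  let s : Multiset A₀ := M • (Z.val.map av)
  have hsmem : ∀ a ∈ s, ∃ P ∈ Z, av P = a := by
    intro a ha
    have h1 : a ∈ Z.val.map av := Multiset.mem_of_mem_nsmul ha
    obtain ⟨P, hP, rfl⟩ := Multiset.mem_map.mp h1
    exact ⟨P, hP, rfl⟩
  set Pg : B := aeval g ((s.map fun a => X - C a).prod) with hPgdef
  have hPg_prod : Pg = (s.map fun a => g - ι₀ a).prod := by
    rw [hPgdef, map_multiset_prod, Multiset.map_map]
    congr 1
    apply Multiset.map_congr rfl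
    intro a _
    simp only [Function.comp_apply, map_sub, aeval_X, aeval_C]
    rfl
  have hPg_pow : Pg = (∏ P ∈ Z, (g - ι₀ (av P))) ^ M := by
    rw [hPg_prod]
    simp only [s]
    rw [Multiset.map_nsmul, Multiset.prod_nsmul, Multiset.map_map]
    rfl
  have hPgZ : ∀ P ∈ Z, Vge P (Pg : F) (P.ord (f : F)) := by
    intro P hP
    have h1 : Vge P ((∏ P' ∈ Z, (g - ι₀ (av P')) : B) : F) 1 := by
      rw [← Finset.mul_prod_erase Z _ hP, Subring.coe_mul]
      have := (vge_one_iff_mem_nonunits.mpr (hav P hP)).mul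
        (vge_zero_iff_mem.mpr (hB (∏ P' ∈ Z.erase P, (g - ι₀ (av P'))) P (hZ P hP)))
      rwa [add_zero] at this
    have h2 := h1.pow M
    rw [mul_one] at h2
    rw [hPg_pow, Subring.coe_pow]
    exact h2.mono (hM P hP)
  obtain ⟨w₀, hw₀⟩ := hdiv Pg hPgZ
  -- the idempotent
  let Dp : A₀ → Prop := fun a => ρ (g - ι₀ a) ∈ Q₀.toValuationSubring.nonunits
  have hDunit : ∀ a ∈ s, ∀ b ∈ s, Dp a → ¬ Dp b → IsUnit (a - b) := by
    intro a _ b _ ha hb
    apply hunit
    intro h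
    apply hb
    have : ρ (g - ι₀ b) = ρ (g - ι₀ a) + ρ (ι₀ (a - b)) := by
      rw [← map_add]; congr 1; rw [map_sub]; ring
    change ρ (g - ι₀ b) ∈ Q₀.toValuationSubring.nonunits
    rw [this]
    exact Q₀.toValuationSubring.nonunits.add_mem ha h
  obtain ⟨U, V, hUV⟩ := LocalCount.isCoprime_polyPos_polyNeg s Dp hDunit
  set Ep : A₀[X] := V * LocalCount.polyNeg s Dp with hEp
  set E : B := aeval g Ep with hE
  have hE1 : ∀ a ∈ s, Dp a → Ep.eval a = 1 := by
    intro a has hDa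
    have h2 := congrArg (Polynomial.eval a) hUV
    rw [Polynomial.eval_add, Polynomial.eval_mul, Polynomial.eval_mul,
      LocalCount.eval_polyPos s Dp has hDa, mul_zero, zero_add, Polynomial.eval_one] at h2
    rw [hEp, Polynomial.eval_mul, h2]
  have hE0 : ∀ a ∈ s, ¬ Dp a → Ep.eval a = 0 := by
    intro a has hDa
    rw [hEp, Polynomial.eval_mul, LocalCount.eval_polyNeg s Dp has hDa, mul_zero]
  set w : B := aeval g (U * V) * w₀ with hw
  have hEE : E * (1 - E) = f * w := by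
    have h1 : Ep * (1 - Ep) = U * V * (s.map fun a => X - C a).prod := by
      rw [← LocalCount.polyPos_mul_polyNeg s Dp]
      have : 1 - Ep = U * LocalCount.polyPos s Dp := by rw [hEp, ← hUV]; ring
      rw [this, hEp]; ring
    have h2 : E * (1 - E) = aeval g (U * V) * Pg := by
      have e1 : E * (1 - E) = aeval g (Ep * (1 - Ep)) := by
        rw [map_mul, map_sub, map_one]
      rw [e1, h1, map_mul]
    rw [h2, hw₀, hw]; ring
  have hcong : ∀ a : A₀, ∃ c : B, E - ι₀ (Ep.eval a) = (g - ι₀ a) * c := by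
    intro a
    have h1 := Polynomial.sub_dvd_eval_sub g (ι₀ a) (Ep.map ι₀)
    rw [Polynomial.eval_map, Polynomial.eval_map, Polynomial.eval₂_at_apply] at h1
    obtain ⟨c, hc⟩ := h1
    exact ⟨c, hc⟩
  -- the special fibre
  have hroot : ∀ Q ∈ SQ, ∃ a ∈ s, ρ (g - ι₀ a) ∈ Q.toValuationSubring.nonunits := by
    intro Q hQ
    have h1 : ρ Pg ∈ Q.toValuationSubring.nonunits := by
      rw [hw₀, map_mul]
      exact mul_mem_nonunits (hfQ Q hQ) (hρ w₀ Q hQ)
    have h2 : ρ Pg = (s.map fun a => ρ (g - ι₀ a)).prod := by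
      rw [hPg_prod, map_multiset_prod, Multiset.map_map]
      rfl
    rw [h2] at h1
    obtain ⟨x, hx, hx'⟩ := exists_mem_nonunits_of_prod_mem _ (fun x hx => by
      obtain ⟨a, _, rfl⟩ := Multiset.mem_map.mp hx
      exact hρ _ Q hQ) h1
    obtain ⟨a, ha, rfl⟩ := Multiset.mem_map.mp hx
    exact ⟨a, ha, hx'⟩
  have hEQ : ∀ Q ∈ SQ, Q ≠ Q₀ → ρ E ∈ Q.toValuationSubring.nonunits := by
    intro Q hQ hne
    obtain ⟨a, has, ha⟩ := hroot Q hQ
    have hDa : ¬ Dp a := fun h => hsep a Q hQ hne ⟨ha, h⟩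
    obtain ⟨c, hc⟩ := hcong a
    rw [hE0 a has hDa, map_zero, sub_zero] at hc
    rw [hc, map_mul]
    exact mul_mem_nonunits ha (hρ c Q hQ)
  have hEQ₀ : ρ E - 1 ∈ Q₀.toValuationSubring.nonunits := by
    obtain ⟨a, has, ha⟩ := hroot Q₀ hQ₀
    obtain ⟨c, hc⟩ := hcong a
    rw [hE1 a has ha, map_one] at hc
    have : ρ E - 1 = ρ (g - ι₀ a) * ρ c := by rw [← map_mul, ← hc, map_sub, map_one]
    rw [this]
    exact mul_mem_nonunits ha (hρ c Q₀ hQ₀)
  have hEQ₀' : ρ E ∉ Q₀.toValuationSubring.nonunits := by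
    intro h
    have h1 := Q₀.toValuationSubring.nonunits.sub_mem h hEQ₀
    rw [sub_sub_cancel] at h1
    exact one_notMem_nonunits h1
  -- the modified function
  set y'' : B := u * E + (1 - E) with hy''
  have hy1 : ∀ Q ∈ SQ, Q ≠ Q₀ → ρ y'' ∉ Q.toValuationSubring.nonunits := by
    intro Q hQ hne h
    have h1 : ρ y'' - 1 = (ρ u - 1) * ρ E := by
      rw [hy'', map_add, map_mul, map_sub, map_one]; ring
    have h2 : ρ y'' - 1 ∈ Q.toValuationSubring.nonunits := by
      rw [h1, mul_comm]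
      exact mul_mem_nonunits (hEQ Q hQ hne)
        (Q.toValuationSubring.sub_mem (hρ u Q hQ) Q.toValuationSubring.one_mem)
    have h3 := Q.toValuationSubring.nonunits.sub_mem h h2
    rw [sub_sub_cancel] at h3
    exact one_notMem_nonunits h3
  have hEord₀ : Q₀.ord (ρ E) = 0 := ord_eq_zero_of_mem_of_notMem (hρ E Q₀ hQ₀) hEQ₀'
  have hEne₀ : ρ E ≠ 0 := fun h => hEQ₀' (h ▸ Q₀.toValuationSubring.nonunits.zero_mem)
  have h1E : Vge Q₀ (1 - ρ E) (Q₀.ord (ρ f)) := by
    by_cases h0 : 1 - ρ E = 0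
    · rw [h0]; exact vge_zero _
    right
    have h2 : ρ E * (1 - ρ E) = ρ f * ρ w := by
      rw [← map_one ρ, ← map_sub, ← map_mul, hEE, map_mul]
    have h3 := Q₀.ord_mul hEne₀ h0
    have h4 : Vge Q₀ (ρ f * ρ w) (Q₀.ord (ρ f) + 0) :=
      Vge.mul (vge_ord (ρ f)) (vge_zero_iff_mem.mpr (hρ w Q₀ hQ₀))
    have h5 := h4.le_ord (by rw [← h2]; exact mul_ne_zero hEne₀ h0)
    rw [← h2, h3, hEord₀] at h5
    omega
  have hρy : ρ y'' = ρ u * ρ E + (1 - ρ E) := by
    rw [hy'', map_add, map_mul, map_sub, map_one]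
  have hord : Q₀.ord (ρ u * ρ E) = Q₀.ord (ρ u) := by
    rw [Q₀.ord_mul hu hEne₀, hEord₀, add_zero]
  obtain ⟨hρyne, hρyord⟩ := ord_add_eq_of_vge (v := Q₀) (f := ρ u * ρ E) (g := 1 - ρ E)
    (mul_ne_zero hu hEne₀) (h1E.mono (by rw [hord]; omega))
  rw [← hρy, hord] at hρyord
  rw [← hρy] at hρyne
  have hsumQ : ∑ᶠ Q ∈ SQ, Q.ord (ρ y'') = Q₀.ord (ρ u) := by
    rw [finsum_mem_def, finsum_eq_single _ Q₀, Set.indicator_of_mem hQ₀, hρyord]
    intro Q hne
    by_cases hQ : Q ∈ SQ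
    · rw [Set.indicator_of_mem hQ]
      exact ord_eq_zero_of_mem_of_notMem (hρ y'' Q hQ) (hy1 Q hQ hne)
    · rw [Set.indicator_of_notMem hQ]
  -- the generic fibre
  have hy''ne : (y'' : F) ≠ 0 := hne_of y'' hρyne
  have hune : (u : F) ≠ 0 := hne_of u hu
  have hfne : (f : F) ≠ 0 := hne_of f hf0
  have hnonneg : ∀ P ∈ SP, 0 ≤ P.ord (y'' : F) := fun P hP =>
    (vge_zero_iff_mem.mpr (hB y'' P hP)).le_ord hy''ne
  have hP1 : ∀ P ∈ SP, r P ≠ Q₀ → P.ord (y'' : F) = 0 := by
    intro P hP hne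
    apply ord_eq_zero_of_mem_of_notMem (hB y'' P hP)
    intro h
    exact hy1 (r P) (hr P hP) hne (heval y'' P hP h)
  have hP2 : ∀ P ∈ SP, r P = Q₀ → P.ord (u : F) ≤ P.ord (y'' : F) := by
    intro P hP hrP
    have hEP : (E : F) ∉ P.toValuationSubring.nonunits := fun h =>
      hEQ₀' (hrP ▸ heval E P hP h)
    have hEord : P.ord (E : F) = 0 := ord_eq_zero_of_mem_of_notMem (hB E P hP) hEP
    have hEne : (E : F) ≠ 0 := fun h => hEP (h ▸ P.toValuationSubring.nonunits.zero_mem)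
    by_cases hpos : 0 < P.ord (u : F)
    · have h1 : Vge P ((1 - E : B) : F) (P.ord (f : F)) := by
        by_cases h0 : ((1 - E : B) : F) = 0
        · rw [h0]; exact vge_zero _
        right
        have h2 : (E : F) * ((1 - E : B) : F) = (f : F) * (w : F) := by
          rw [← Subring.coe_mul, hEE, Subring.coe_mul]
        have h3 := P.ord_mul hEne h0
        have h4 : Vge P ((f : F) * (w : F)) (P.ord (f : F) + 0) :=
          Vge.mul (vge_ord (f : F)) (vge_zero_iff_mem.mpr (hB w P hP))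
        have h5 := h4.le_ord (by rw [← h2]; exact mul_ne_zero hEne h0)
        rw [← h2, h3, hEord] at h5
        omega
      have h2 : Vge P ((u * E : B) : F) (P.ord (u : F)) := by
        right
        rw [Subring.coe_mul, P.ord_mul hune hEne, hEord, add_zero]
      have h3 : Vge P (y'' : F) (P.ord (u : F)) := by
        rw [hy'', Subring.coe_add]
        exact h2.add (h1.mono (hfP P hP hrP hpos))
      exact h3.le_ord hy''ne
    · have h0 : 0 ≤ P.ord (u : F) := (vge_zero_iff_mem.mpr (hB u P hP)).le_ord hune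
      have : P.ord (u : F) = 0 := by omega
      rw [this]
      exact hnonneg P hP
  have hle : ∑ᶠ P ∈ {P | P ∈ SP ∧ r P = Q₀}, P.ord (u : F) ≤ ∑ᶠ P ∈ SP, P.ord (y'' : F) := by
    rw [finsum_mem_def, finsum_mem_def]
    apply finsum_le_finsum'
    · apply Set.Finite.subset (hfin u hune)
      intro P hP
      rw [Function.mem_support] at hP
      intro h0
      apply hP
      by_cases hm : P ∈ {P | P ∈ SP ∧ r P = Q₀}
      · rw [Set.indicator_of_mem hm, h0]
      · rw [Set.indicator_of_notMem hm]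
    · apply Set.Finite.subset (hfin y'' hy''ne)
      intro P hP
      rw [Function.mem_support] at hP
      intro h0
      apply hP
      by_cases hm : P ∈ SP
      · rw [Set.indicator_of_mem hm, h0]
      · rw [Set.indicator_of_notMem hm]
    · intro P
      by_cases hP : P ∈ SP
      · by_cases hrP : r P = Q₀
        · rw [Set.indicator_of_mem (show P ∈ {P | P ∈ SP ∧ r P = Q₀} from ⟨hP, hrP⟩),
            Set.indicator_of_mem hP]
          exact hP2 P hP hrP
        · rw [Set.indicator_of_notMem (show P ∉ {P | P ∈ SP ∧ r P = Q₀} from fun h => hrP h.2),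
            Set.indicator_of_mem hP]
          exact hnonneg P hP
      · rw [Set.indicator_of_notMem (show P ∉ {P | P ∈ SP ∧ r P = Q₀} from fun h => hP h.1),
          Set.indicator_of_notMem hP]
  calc ∑ᶠ P ∈ {P | P ∈ SP ∧ r P = Q₀}, P.ord (u : F) ≤ ∑ᶠ P ∈ SP, P.ord (y'' : F) := hle
    _ = ∑ᶠ Q ∈ SQ, Q.ord (ρ y'') := hsum y'' hρyne
    _ = Q₀.ord (ρ u) := hsumQ

/-- **The norm trick, equality**: the per-point inequalities and the fibre sum give the per-point
equalities. -/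
theorem sum_ord_eq
    (B : Subring F) (ρ : B →+* Fk)
    (SP : Set (Place K F)) (SQ : Set (Place k Fk)) (r : Place K F → Place k Fk)
    (hr : ∀ P ∈ SP, r P ∈ SQ) (hSQ : SQ.Finite)
    (hfin : ∀ b : B, (b : F) ≠ 0 → {P : Place K F | P.ord (b : F) ≠ 0}.Finite)
    (hsum : ∀ b : B, ρ b ≠ 0 → ∑ᶠ P ∈ SP, P.ord (b : F) = ∑ᶠ Q ∈ SQ, Q.ord (ρ b))
    (u : B) (hu : ρ u ≠ 0)
    (hle : ∀ Q₀ ∈ SQ, ∑ᶠ P ∈ {P | P ∈ SP ∧ r P = Q₀}, P.ord (u : F) ≤ Q₀.ord (ρ u))
    (Q₀ : Place k Fk) (hQ₀ : Q₀ ∈ SQ) :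
    ∑ᶠ P ∈ {P | P ∈ SP ∧ r P = Q₀}, P.ord (u : F) = Q₀.ord (ρ u) := by
  classical
  have hune : (u : F) ≠ 0 := by
    intro h
    apply hu
    have : u = 0 := Subtype.ext h
    rw [this, map_zero]
  set T : Finset (Place K F) := (hfin u hune).toFinset.filter (· ∈ SP) with hT
  have hTmem : ∀ P, P ∈ T ↔ P.ord (u : F) ≠ 0 ∧ P ∈ SP := by
    intro P
    rw [hT, Finset.mem_filter, Set.Finite.mem_toFinset]
    rfl
  have h1 : ∑ᶠ P ∈ SP, P.ord (u : F) = ∑ P ∈ T, P.ord (u : F) := by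
    apply finsum_mem_eq_sum_of_inter_support_eq
    ext P
    simp only [Set.mem_inter_iff, Function.mem_support, Finset.mem_coe, hTmem]
    tauto
  have h2 : ∀ Q, ∑ᶠ P ∈ {P | P ∈ SP ∧ r P = Q}, P.ord (u : F)
      = ∑ P ∈ T with r P = Q, P.ord (u : F) := by
    intro Q
    apply finsum_mem_eq_sum_of_inter_support_eq
    ext P
    simp only [Set.mem_inter_iff, Function.mem_support, Finset.mem_coe, Finset.mem_filter, hTmem,
      Set.mem_ofPred_eq]
    tauto
  have h3 : ∑ᶠ Q ∈ SQ, Q.ord (ρ u) = ∑ Q ∈ hSQ.toFinset, Q.ord (ρ u) :=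
    finsum_mem_eq_finite_toFinset_sum _ hSQ
  have h4 : ∑ Q ∈ hSQ.toFinset, ∑ P ∈ T with r P = Q, P.ord (u : F) = ∑ P ∈ T, P.ord (u : F) :=
    Finset.sum_fiberwise_of_maps_to (fun P hP => by
      rw [Set.Finite.mem_toFinset]
      exact hr P ((hTmem P).mp hP).2) _
  have h5 : ∑ Q ∈ hSQ.toFinset, ∑ P ∈ T with r P = Q, P.ord (u : F)
      = ∑ Q ∈ hSQ.toFinset, Q.ord (ρ u) := by
    rw [h4, ← h1, hsum u hu, h3]
  have h6 := (Finset.sum_eq_sum_iff_of_le (fun Q hQ => by
    rw [← h2 Q]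
    exact hle Q ((Set.Finite.mem_toFinset hSQ).mp hQ))).mp h5 Q₀
    ((Set.Finite.mem_toFinset hSQ).mpr hQ₀)
  rw [h2 Q₀, h6]

end Core


/-! ## The local statement: charts of a `j`-line

From here on the sets `SP`, `SQ` are fibres of a coordinate `x`: `SQ` is the set of zeros of
`ρ x - c` and `SP` is the set of places of the chart `TP` at which `x` takes a value reducing
to `c`. -/

section Local

variable {K F k Fk A₀ : Type*} [Field K] [Field F] [Algebra K F] [Field k] [Field Fk]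
  [Algebra k Fk] [CommRing A₀]

/-- A constant in the maximal ideal of a place is zero. -/
theorem algebraMap_mem_nonunits_iff (v : Place K F) (a : K) :
    algebraMap K F a ∈ v.toValuationSubring.nonunits ↔ a = 0 := by
  constructor
  · intro h
    by_contra ha
    have h1 := mul_mem_nonunits h (v.algebraMap_mem' a⁻¹)
    rw [← map_mul, mul_inv_cancel₀ ha, map_one] at h1
    exact one_notMem_nonunits h1
  · rintro rfl
    rw [map_zero]
    exact v.toValuationSubring.nonunits.zero_mem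

theorem mem_nonunits_of_pow_mem (v : Place K F) {z : F} (hz : z ∈ v.toValuationSubring) {M : ℕ}
    (h : z ^ M ∈ v.toValuationSubring.nonunits) : z ∈ v.toValuationSubring.nonunits := by
  obtain ⟨x, hx, hx'⟩ := exists_mem_nonunits_of_prod_mem (v := v) (Multiset.replicate M z)
    (fun x hx => by rw [Multiset.eq_of_mem_replicate hx]; exact hz)
    (by rw [Multiset.prod_replicate]; exact h)
  rwa [Multiset.eq_of_mem_replicate hx] at hx'

theorem pow_mem_nonunits (v : Place K F) {z : F} (hz : z ∈ v.toValuationSubring.nonunits) {M : ℕ}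
    (hM : M ≠ 0) : z ^ M ∈ v.toValuationSubring.nonunits := by
  have h1 := (vge_one_iff_mem_nonunits.mpr hz).pow M
  refine vge_one_iff_mem_nonunits.mp (h1.mono ?_)
  rw [mul_one]
  exact_mod_cast Nat.one_le_iff_ne_zero.mpr hM

/-- **Chart form of the local statement**: for a chart ring `B` (regular on the chart `TP`, values
in `A₀`, closed under division whenever the quotient is regular on `TP`), a coordinate `x ∈ B` and
a point `c` of the special fibre: for every `u ∈ B` with nonzero reduction and every zero `Q₀` of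
`ρ x - c`, the sum of the orders of `u` over the places of `TP` above `c` which map to `Q₀` is
the order of `ρ u` at `Q₀`. -/
theorem chart_eq
    (B : Subring F) (ρ : B →+* Fk) (ι₀ : A₀ →+* B) (π : A₀ →+* k)
    (r : Place K F → Place k Fk)
    (hρι : ∀ a : A₀, ρ (ι₀ a) = algebraMap k Fk (π a))
    (hπ : Function.Surjective π) (hπunit : ∀ a : A₀, π a ≠ 0 → IsUnit a)
    (hfin : ∀ f : F, f ≠ 0 → {P : Place K F | P.ord f ≠ 0}.Finite)
    (hfink : ∀ f : Fk, f ≠ 0 → {Q : Place k Fk | Q.ord f ≠ 0}.Finite)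
    (TP : Set (Place K F))
    (hB : ∀ b : B, ∀ P ∈ TP, (b : F) ∈ P.toValuationSubring)
    (hdiv : ∀ f : B, ρ f ≠ 0 → ∀ b : B, (∀ P ∈ TP, Vge P (b : F) (P.ord (f : F))) →
      ∃ w : B, b = f * w)
    (heval : ∀ b : B, ∀ P ∈ TP, (b : F) ∈ P.toValuationSubring.nonunits →
      ρ b ∈ (r P).toValuationSubring.nonunits)
    (hval : ∀ b : B, ∀ P ∈ TP, ∃ a : A₀,
      ((b - ι₀ a : B) : F) ∈ P.toValuationSubring.nonunits)
    (x : B) (c : k)
    (hxtr : ∀ c' : k, ρ x ≠ algebraMap k Fk c')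
    (hρ : ∀ b : B, ∀ Q : Place k Fk,
      ρ x - algebraMap k Fk c ∈ Q.toValuationSubring.nonunits → ρ b ∈ Q.toValuationSubring)
    (hsum : ∀ b : B, ρ b ≠ 0 →
      ∑ᶠ P ∈ {P | P ∈ TP ∧ ∃ a : A₀, π a = c ∧
          ((x - ι₀ a : B) : F) ∈ P.toValuationSubring.nonunits}, P.ord (b : F)
        = ∑ᶠ Q ∈ {Q : Place k Fk | ρ x - algebraMap k Fk c ∈ Q.toValuationSubring.nonunits},
            Q.ord (ρ b))
    (g : B)
    (hsep : ∀ Q Q' : Place k Fk, ρ x - algebraMap k Fk c ∈ Q.toValuationSubring.nonunits →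
      ρ x - algebraMap k Fk c ∈ Q'.toValuationSubring.nonunits → Q ≠ Q' → ∀ a : k,
        ¬ (ρ g - algebraMap k Fk a ∈ Q.toValuationSubring.nonunits ∧
          ρ g - algebraMap k Fk a ∈ Q'.toValuationSubring.nonunits))
    (u : B) (hu : ρ u ≠ 0) (Q₀ : Place k Fk)
    (hQ₀ : ρ x - algebraMap k Fk c ∈ Q₀.toValuationSubring.nonunits) :
    ∑ᶠ P ∈ {P | (P ∈ TP ∧ ∃ a : A₀, π a = c ∧
        ((x - ι₀ a : B) : F) ∈ P.toValuationSubring.nonunits) ∧ r P = Q₀}, P.ord (u : F)
      = Q₀.ord (ρ u) := by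
  classical
  have he0 : ρ x - algebraMap k Fk c ≠ 0 := fun h => hxtr c (sub_eq_zero.mp h)
  have hSQfin : {Q : Place k Fk |
      ρ x - algebraMap k Fk c ∈ Q.toValuationSubring.nonunits}.Finite := by
    apply (hfink _ he0).subset
    intro Q hQ
    have := (vge_one_iff_mem_nonunits.mpr hQ).le_ord he0
    show Q.ord _ ≠ 0
    omega
  have hρxa : ∀ a : A₀, π a = c → ρ (x - ι₀ a) = ρ x - algebraMap k Fk c := by
    intro a ha
    rw [map_sub, hρι, ha]
  have hr : ∀ P ∈ {P | P ∈ TP ∧ ∃ a : A₀, π a = c ∧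
      ((x - ι₀ a : B) : F) ∈ P.toValuationSubring.nonunits},
      r P ∈ {Q : Place k Fk | ρ x - algebraMap k Fk c ∈ Q.toValuationSubring.nonunits} := by
    rintro P ⟨hPT, a, ha, hxa⟩
    have := heval (x - ι₀ a) P hPT hxa
    rwa [hρxa a ha] at this
  have hfinB : ∀ b : B, (b : F) ≠ 0 → {P : Place K F | P.ord (b : F) ≠ 0}.Finite :=
    fun b hb => hfin _ hb
  have hne_of : ∀ b : B, ρ b ≠ 0 → (b : F) ≠ 0 := by
    intro b hb h
    apply hb
    have : b = 0 := Subtype.ext h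
    rw [this, map_zero]
  have hunit : ∀ Q : Place k Fk, ∀ a : A₀,
      ρ (ι₀ a) ∉ Q.toValuationSubring.nonunits → IsUnit a := by
    intro Q a h
    apply hπunit
    intro h0
    apply h
    rw [hρι, h0, map_zero]
    exact Q.toValuationSubring.nonunits.zero_mem
  -- the inequality
  have hle : ∀ Q₁ ∈ {Q : Place k Fk |
        ρ x - algebraMap k Fk c ∈ Q.toValuationSubring.nonunits},
      ∑ᶠ P ∈ {P | P ∈ {P | P ∈ TP ∧ ∃ a : A₀, π a = c ∧
        ((x - ι₀ a : B) : F) ∈ P.toValuationSubring.nonunits} ∧ r P = Q₁}, P.ord (u : F)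
        ≤ Q₁.ord (ρ u) := by
    intro Q₁ hQ₁
    have hune := hne_of u hu
    set SP : Set (Place K F) := {P | P ∈ TP ∧ ∃ a : A₀, π a = c ∧
      ((x - ι₀ a : B) : F) ∈ P.toValuationSubring.nonunits} with hSP
    set T : Finset (Place K F) := (hfin _ hune).toFinset.filter (· ∈ SP) with hT
    have hTmem : ∀ P, P ∈ T ↔ P.ord (u : F) ≠ 0 ∧ P ∈ SP := by
      intro P; rw [hT, Finset.mem_filter, Set.Finite.mem_toFinset]; rfl
    have hav : ∀ P : Place K F, ∃ a : A₀, π a = c ∧
        (P ∈ SP → ((x - ι₀ a : B) : F) ∈ P.toValuationSubring.nonunits) := by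
      intro P
      by_cases hP : P ∈ SP
      · obtain ⟨-, a, ha, hxa⟩ := hP
        exact ⟨a, ha, fun _ => hxa⟩
      · obtain ⟨a, ha⟩ := hπ c
        exact ⟨a, ha, fun h => absurd h hP⟩
    choose av hav1 hav2 using hav
    obtain ⟨a₀, ha₀⟩ := hπ c
    obtain ⟨M, hM1, hM2, hMpos⟩ : ∃ M : ℕ, Q₁.ord (ρ u) < M ∧ (∀ P ∈ T, P.ord (u : F) ≤ M) ∧
        M ≠ 0 := by
      refine ⟨(Q₁.ord (ρ u)).toNat + 1 + (∑ P ∈ T, |P.ord (u : F)|).toNat, ?_, ?_, by omega⟩
      · have := Int.self_le_toNat (Q₁.ord (ρ u))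
        push_cast
        omega
      · intro P hP
        have h1 : |P.ord (u : F)| ≤ ∑ P ∈ T, |P.ord (u : F)| :=
          Finset.single_le_sum (f := fun P => |P.ord (u : F)|) (fun _ _ => abs_nonneg _) hP
        have h2 := le_abs_self (P.ord (u : F))
        have h3 : 0 ≤ ∑ P ∈ T, |P.ord (u : F)| := Finset.sum_nonneg (fun _ _ => abs_nonneg _)
        push_cast
        rw [Int.toNat_of_nonneg h3]
        have h4 : (0 : ℤ) ≤ ((Q₁.ord (ρ u)).toNat : ℤ) := Int.natCast_nonneg _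
        omega
    set s : Multiset A₀ := a₀ ::ₘ T.val.map av with hs
    have hsc : ∀ a ∈ s, π a = c := by
      intro a ha
      rw [hs, Multiset.mem_cons] at ha
      rcases ha with rfl | ha
      · exact ha₀
      · obtain ⟨P, -, rfl⟩ := Multiset.mem_map.mp ha
        exact hav1 P
    set p : B := (s.map fun a => x - ι₀ a).prod with hp
    have hρp : ρ p = (ρ x - algebraMap k Fk c) ^ (Multiset.card s) := by
      rw [hp, map_multiset_prod, Multiset.map_map]
      have : Multiset.map (⇑ρ ∘ fun a => x - ι₀ a) s =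
          Multiset.map (fun _ => ρ x - algebraMap k Fk c) s :=
        Multiset.map_congr rfl (fun a ha => hρxa a (hsc a ha))
      rw [this, Multiset.map_const', Multiset.prod_replicate]
    have hcard : Multiset.card s ≠ 0 := by rw [hs, Multiset.card_cons]; omega
    have hρf : ρ (p ^ M) = (ρ x - algebraMap k Fk c) ^ (Multiset.card s * M) := by
      rw [map_pow, hρp, pow_mul]
    have hf0 : ρ (p ^ M) ≠ 0 := by rw [hρf]; exact pow_ne_zero _ he0
    have hnM : Multiset.card s * M ≠ 0 := Nat.mul_ne_zero hcard hMpos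
    have hfQ : ∀ Q ∈ {Q : Place k Fk |
        ρ x - algebraMap k Fk c ∈ Q.toValuationSubring.nonunits},
        ρ (p ^ M) ∈ Q.toValuationSubring.nonunits := by
      intro Q hQ
      rw [hρf]
      exact pow_mem_nonunits Q hQ hnM
    have hfQ₁ : Q₁.ord (ρ u) < Q₁.ord (ρ (p ^ M)) := by
      have h1 := ((vge_one_iff_mem_nonunits.mpr hQ₁).pow (Multiset.card s * M)).le_ord
        (by rw [← hρf]; exact hf0)
      rw [← hρf, mul_one] at h1
      have h2 : (M : ℤ) ≤ ((Multiset.card s * M : ℕ) : ℤ) := by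
        exact_mod_cast Nat.le_mul_of_pos_left M (Nat.pos_of_ne_zero hcard)
      omega
    have hfne : ((p ^ M : B) : F) ≠ 0 := hne_of _ hf0
    have hfP : ∀ P ∈ SP, r P = Q₁ → 0 < P.ord (u : F) →
        P.ord (u : F) ≤ P.ord ((p ^ M : B) : F) := by
      intro P hP _ hpos
      have hPT : P ∈ T := (hTmem P).mpr ⟨by omega, hP⟩
      have hmem : av P ∈ s := by
        rw [hs]; exact Multiset.mem_cons_of_mem (Multiset.mem_map_of_mem av hPT)
      have hdvd : (x - ι₀ (av P)) ∣ p := by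
        rw [hp]
        exact Multiset.dvd_prod (Multiset.mem_map_of_mem (fun a => x - ι₀ a) hmem)
      obtain ⟨w, hw⟩ := hdvd
      have h1 : (p : F) ∈ P.toValuationSubring.nonunits := by
        rw [hw, Subring.coe_mul]
        exact mul_mem_nonunits (hav2 P hP) (hB w P hP.1)
      have h2 := ((vge_one_iff_mem_nonunits.mpr h1).pow M).le_ord
        (by rw [← Subring.coe_pow]; exact hfne)
      rw [mul_one, ← Subring.coe_pow] at h2
      have := hM2 P hPT
      omega
    -- the zeros of `f` in `SP`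
    set Z : Finset (Place K F) := (hfin _ hfne).toFinset.filter (· ∈ SP) with hZ
    have hZmem : ∀ P, P ∈ Z ↔ P.ord ((p ^ M : B) : F) ≠ 0 ∧ P ∈ SP := by
      intro P; rw [hZ, Finset.mem_filter, Set.Finite.mem_toFinset]; rfl
    have hordf : ∀ P ∈ TP, P ∉ SP → P.ord ((p ^ M : B) : F) = 0 := by
      intro P hPT hPS
      apply ord_eq_zero_of_mem_of_notMem (hB _ P hPT)
      intro h
      have h1 : (p : F) ∈ P.toValuationSubring.nonunits := by
        rw [Subring.coe_pow] at h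
        exact mem_nonunits_of_pow_mem P (hB p P hPT) h
      have h2 : (p : F) = ((s.map fun a => x - ι₀ a).map B.subtype).prod := by
        rw [hp]; exact map_multiset_prod B.subtype _
      rw [h2] at h1
      obtain ⟨z, hz, hz'⟩ := exists_mem_nonunits_of_prod_mem _ (fun z hz => by
        obtain ⟨b, -, rfl⟩ := Multiset.mem_map.mp hz
        exact hB b P hPT) h1
      obtain ⟨b, hb, rfl⟩ := Multiset.mem_map.mp hz
      obtain ⟨a, ha, rfl⟩ := Multiset.mem_map.mp hb
      exact hPS ⟨hPT, a, hsc a ha, hz'⟩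
    have hdivZ : ∀ b : B, (∀ P ∈ Z, Vge P (b : F) (P.ord ((p ^ M : B) : F))) →
        ∃ w : B, b = p ^ M * w := by
      intro b hb
      apply hdiv (p ^ M) hf0 b
      intro P hPT
      by_cases hPS : P ∈ SP
      · by_cases hPZ : P ∈ Z
        · exact hb P hPZ
        · have h0 : P.ord ((p ^ M : B) : F) = 0 := by
            by_contra h; exact hPZ ((hZmem P).mpr ⟨h, hPS⟩)
          rw [h0]; exact vge_zero_iff_mem.mpr (hB b P hPT)
      · rw [hordf P hPT hPS]; exact vge_zero_iff_mem.mpr (hB b P hPT)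
    exact sum_ord_le B ρ ι₀ SP _ r hr (fun b P hP => hB b P hP.1) (fun b Q hQ => hρ b Q hQ)
      (fun b P hP => heval b P hP.1) (fun b P hP => hval b P hP.1) hfinB hsum Q₁ hQ₁ (hunit Q₁) g
      (fun a Q hQ hne => by
        rw [map_sub, hρι]
        exact hsep Q Q₁ hQ hQ₁ hne (π a))
      u hu (p ^ M) hf0 hfQ hfQ₁ hfP Z (fun P hP => ((hZmem P).mp hP).2) hdivZ
  exact sum_ord_eq B ρ _ _ r hr hSQfin hfinB hsum u hu hle Q₀ hQ₀

/-- The chart ring of a set `TP` of places inside a subring `O`: the elements of `O` regular at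
all places of `TP`. -/
def chartSubring (O : Subring F) (TP : Set (Place K F)) : Subring F where
  carrier := {y | y ∈ O ∧ ∀ P ∈ TP, y ∈ P.toValuationSubring}
  mul_mem' := fun ha hb => ⟨O.mul_mem ha.1 hb.1, fun P hP => mul_mem (ha.2 P hP) (hb.2 P hP)⟩
  one_mem' := ⟨O.one_mem, fun _ _ => one_mem _⟩
  add_mem' := fun ha hb => ⟨O.add_mem ha.1 hb.1, fun P hP => add_mem (ha.2 P hP) (hb.2 P hP)⟩
  zero_mem' := ⟨O.zero_mem, fun _ _ => zero_mem _⟩
  neg_mem' := fun ha => ⟨O.neg_mem ha.1, fun P hP => neg_mem (ha.2 P hP)⟩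

theorem mem_chartSubring {O : Subring F} {TP : Set (Place K F)} {y : F} :
    y ∈ chartSubring O TP ↔ y ∈ O ∧ ∀ P ∈ TP, y ∈ P.toValuationSubring := Iff.rfl

/-- **The local statement.**  `O ⊆ F` is a subring with a reduction map `ρ : O → Fk`, closed under
inverting elements with nonzero reduction; `TP` is a chart (a set of places of `F`), with
coordinate `x`; `c` is a point of the special fibre of the `x`-line.  Then for every `y ∈ O`
with nonzero reduction and every zero `Q₀` of `ρ x - c`,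
`∑_{r P = Q₀} ord_P y = ord_{Q₀} (ρ y)`. -/
theorem local_eq
    (O : Subring F) (ρ : O →+* Fk) (r : Place K F → Place k Fk)
    (hinv : ∀ y : O, ρ y ≠ 0 → (y : F)⁻¹ ∈ O)
    (hfin : ∀ f : F, f ≠ 0 → {P : Place K F | P.ord f ≠ 0}.Finite)
    (hfink : ∀ f : Fk, f ≠ 0 → {Q : Place k Fk | Q.ord f ≠ 0}.Finite)
    (φ : A₀ →+* K) (π : A₀ →+* k)
    (hπ : Function.Surjective π)
    (hπunit : ∀ a : A₀, π a ≠ 0 → IsUnit a)
    (hφO : ∀ a : A₀, algebraMap K F (φ a) ∈ O)
    (hρφ : ∀ a : A₀, ρ ⟨algebraMap K F (φ a), hφO a⟩ = algebraMap k Fk (π a))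
    (TP : Set (Place K F))
    (heval : ∀ b : O, (b : F) ∈ chartSubring O TP → ∀ P ∈ TP,
      (b : F) ∈ P.toValuationSubring.nonunits → ρ b ∈ (r P).toValuationSubring.nonunits)
    (hval : ∀ b : O, (b : F) ∈ chartSubring O TP → ∀ P ∈ TP,
      ∃ a : A₀, (b : F) - algebraMap K F (φ a) ∈ P.toValuationSubring.nonunits)
    (x : O) (hx : (x : F) ∈ chartSubring O TP) (c : k)
    (hxtr : ∀ c' : k, ρ x ≠ algebraMap k Fk c')
    (hbackT : ∀ P, ρ x - algebraMap k Fk c ∈ (r P).toValuationSubring.nonunits → P ∈ TP)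
    (hρ : ∀ b : O, (b : F) ∈ chartSubring O TP → ∀ Q : Place k Fk,
      ρ x - algebraMap k Fk c ∈ Q.toValuationSubring.nonunits → ρ b ∈ Q.toValuationSubring)
    (hsum : ∀ b : O, (b : F) ∈ chartSubring O TP → ρ b ≠ 0 →
      ∑ᶠ P ∈ {P | P ∈ TP ∧ ∃ a : A₀, π a = c ∧
          (x : F) - algebraMap K F (φ a) ∈ P.toValuationSubring.nonunits}, P.ord (b : F)
        = ∑ᶠ Q ∈ {Q : Place k Fk | ρ x - algebraMap k Fk c ∈ Q.toValuationSubring.nonunits},
            Q.ord (ρ b))
    (g : O) (hg : (g : F) ∈ chartSubring O TP)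
    (hsep : ∀ Q Q' : Place k Fk, ρ x - algebraMap k Fk c ∈ Q.toValuationSubring.nonunits →
      ρ x - algebraMap k Fk c ∈ Q'.toValuationSubring.nonunits → Q ≠ Q' → ∀ a : k,
        ¬ (ρ g - algebraMap k Fk a ∈ Q.toValuationSubring.nonunits ∧
          ρ g - algebraMap k Fk a ∈ Q'.toValuationSubring.nonunits))
    (y : O) (hy : ρ y ≠ 0) (Q₀ : Place k Fk)
    (hQ₀ : ρ x - algebraMap k Fk c ∈ Q₀.toValuationSubring.nonunits) :
    ∑ᶠ P ∈ {P | r P = Q₀}, P.ord (y : F) = Q₀.ord (ρ y) := by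
  classical
  have hBO : chartSubring O TP ≤ O := fun _ h => h.1
  let inc : chartSubring O TP →+* O := Subring.inclusion hBO
  let ρB : chartSubring O TP →+* Fk := ρ.comp inc
  let ι₀ : A₀ →+* chartSubring O TP := ((algebraMap K F).comp φ).codRestrict (chartSubring O TP)
    (fun a => ⟨hφO a, fun P _ => P.algebraMap_mem' (φ a)⟩)
  have hρι : ∀ a : A₀, ρB (ι₀ a) = algebraMap k Fk (π a) := fun a => hρφ a
  let xB : chartSubring O TP := ⟨x, hx⟩
  let gB : chartSubring O TP := ⟨g, hg⟩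
  have hρxB : ρB xB = ρ x := rfl
  have hρgB : ρB gB = ρ g := rfl
  have hBreg : ∀ b : chartSubring O TP, ∀ P ∈ TP, (b : F) ∈ P.toValuationSubring :=
    fun b P hP => b.2.2 P hP
  have hne_of : ∀ b : chartSubring O TP, ρB b ≠ 0 → (b : F) ≠ 0 := by
    intro b hb h
    apply hb
    have : b = 0 := Subtype.ext h
    rw [this, map_zero]
  have hdivB : ∀ f : chartSubring O TP, ρB f ≠ 0 → ∀ b : chartSubring O TP,
      (∀ P ∈ TP, Vge P (b : F) (P.ord (f : F))) → ∃ w : chartSubring O TP, b = f * w := by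
    intro f hf0 b hb
    have hfne : (f : F) ≠ 0 := hne_of f hf0
    have hO : (b : F) * (f : F)⁻¹ ∈ O := O.mul_mem (hBO b.2) (hinv (inc f) hf0)
    have hreg : ∀ P ∈ TP, (b : F) * (f : F)⁻¹ ∈ P.toValuationSubring := by
      intro P hP
      have h1 : Vge P ((f : F)⁻¹) (-(P.ord (f : F))) := by
        have := vge_ord (v := P) ((f : F)⁻¹)
        rwa [P.ord_inv] at this
      have h2 := (hb P hP).mul h1
      rw [add_neg_cancel] at h2
      exact vge_zero_iff_mem.mp h2
    refine ⟨⟨(b : F) * (f : F)⁻¹, hO, hreg⟩, Subtype.ext ?_⟩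
    show (b : F) = (f : F) * ((b : F) * (f : F)⁻¹)
    field_simp
  have hchart : ∀ u : chartSubring O TP, ρB u ≠ 0 → ∀ Q₁ : Place k Fk,
      ρ x - algebraMap k Fk c ∈ Q₁.toValuationSubring.nonunits →
      ∑ᶠ P ∈ {P | (P ∈ TP ∧ ∃ a : A₀, π a = c ∧
        ((xB - ι₀ a : chartSubring O TP) : F) ∈ P.toValuationSubring.nonunits) ∧ r P = Q₁},
          P.ord (u : F) = Q₁.ord (ρB u) := by
    intro u hu Q₁ hQ₁
    exact chart_eq (chartSubring O TP) ρB ι₀ π r hρι hπ hπunit hfin hfink TP hBreg hdivB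
      (fun b P hP h => heval (inc b) b.2 P hP h)
      (fun b P hP => hval (inc b) b.2 P hP)
      xB c hxtr (fun b Q hQ => hρ (inc b) b.2 Q hQ)
      (fun b hb => hsum (inc b) b.2 hb) gB hsep u hu Q₁ hQ₁
  have hback : ∀ P, ρ x - algebraMap k Fk c ∈ (r P).toValuationSubring.nonunits →
      (P ∈ TP ∧ ∃ a : A₀, π a = c ∧
        ((xB - ι₀ a : chartSubring O TP) : F) ∈ P.toValuationSubring.nonunits) := by
    intro P hP
    have hPT := hbackT P hP
    obtain ⟨a, ha⟩ := hval x hx P hPT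
    refine ⟨hPT, a, ?_, ha⟩
    have h1 : ρB (xB - ι₀ a) ∈ (r P).toValuationSubring.nonunits :=
      heval (inc (xB - ι₀ a)) (xB - ι₀ a).2 P hPT ha
    rw [map_sub, hρι, hρxB] at h1
    have h2 := (r P).toValuationSubring.nonunits.sub_mem h1 hP
    have h3 : ρ x - algebraMap k Fk (π a) - (ρ x - algebraMap k Fk c) =
        algebraMap k Fk (c - π a) := by
      rw [map_sub]; ring
    rw [h3, algebraMap_mem_nonunits_iff] at h2
    exact (sub_eq_zero.mp h2).symm
  have hyne : (y : F) ≠ 0 := by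
    intro h
    apply hy
    have : y = 0 := Subtype.ext h
    rw [this, map_zero]
  -- write `y = y₁ / y₂` with `y₁, y₂` in the chart ring
  obtain ⟨y₁, y₂, h1, h2, h12F, h12ρ⟩ : ∃ y₁ y₂ : chartSubring O TP, ρB y₁ ≠ 0 ∧ ρB y₂ ≠ 0 ∧
      (y₁ : F) = (y : F) * (y₂ : F) ∧ ρB y₁ = ρ y * ρB y₂ := by
    set T : Finset (Place K F) := (hfin _ hyne).toFinset.filter (· ∈ TP) with hT
    have hTmem : ∀ P, P ∈ T ↔ P.ord (y : F) ≠ 0 ∧ P ∈ TP := by
      intro P; rw [hT, Finset.mem_filter, Set.Finite.mem_toFinset]; rfl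
    have hav : ∀ P : Place K F, ∃ a : A₀, P ∈ TP →
        ((xB - ι₀ a : chartSubring O TP) : F) ∈ P.toValuationSubring.nonunits := by
      intro P
      by_cases hP : P ∈ TP
      · obtain ⟨a, ha⟩ := hval x hx P hP
        exact ⟨a, fun _ => ha⟩
      · exact ⟨0, fun h => absurd h hP⟩
    choose av hav using hav
    obtain ⟨M, hM⟩ : ∃ M : ℕ, ∀ P ∈ T, -P.ord (y : F) ≤ M := by
      refine ⟨(∑ P ∈ T, |P.ord (y : F)|).toNat, fun P hP => ?_⟩
      have h1 : |P.ord (y : F)| ≤ ∑ P ∈ T, |P.ord (y : F)| :=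
        Finset.single_le_sum (f := fun P => |P.ord (y : F)|) (fun _ _ => abs_nonneg _) hP
      have h2 := neg_abs_le (P.ord (y : F))
      have h3 : 0 ≤ ∑ P ∈ T, |P.ord (y : F)| := Finset.sum_nonneg (fun _ _ => abs_nonneg _)
      rw [Int.toNat_of_nonneg h3]
      omega
    set y₂ : chartSubring O TP := (∏ P ∈ T, (xB - ι₀ (av P))) ^ M with hy₂
    have hρy₂ : ρB y₂ ≠ 0 := by
      rw [hy₂, map_pow, map_prod]
      apply pow_ne_zero
      rw [Finset.prod_ne_zero_iff]
      intro P _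
      rw [map_sub, hρι, hρxB]
      exact sub_ne_zero.mpr (hxtr _)
    have hreg : ∀ P ∈ TP, (y : F) * (y₂ : F) ∈ P.toValuationSubring := by
      intro P hP
      by_cases hPT : P ∈ T
      · have h1 : Vge P ((∏ P' ∈ T, (xB - ι₀ (av P')) : chartSubring O TP) : F) 1 := by
          rw [← Finset.mul_prod_erase T _ hPT, Subring.coe_mul]
          have := (vge_one_iff_mem_nonunits.mpr (hav P hP)).mul
            (vge_zero_iff_mem.mpr (hBreg (∏ P' ∈ T.erase P, (xB - ι₀ (av P'))) P hP))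
          rwa [add_zero] at this
        have h2 := h1.pow M
        rw [mul_one] at h2
        have h3 := Vge.mul (vge_ord (v := P) (y : F)) h2
        rw [hy₂, Subring.coe_pow]
        exact vge_zero_iff_mem.mp (h3.mono (by have := hM P hPT; omega))
      · have h0 : P.ord (y : F) = 0 := by
          by_contra h; exact hPT ((hTmem P).mpr ⟨h, hP⟩)
        have h1 : (y : F) ∈ P.toValuationSubring := by
          have := vge_ord (v := P) (y : F)
          rw [h0] at this
          exact vge_zero_iff_mem.mp this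
        exact mul_mem h1 (hBreg y₂ P hP)
    refine ⟨⟨(y : F) * (y₂ : F), O.mul_mem y.2 (hBO y₂.2), hreg⟩, y₂, ?_, hρy₂, rfl, ?_⟩
    · have : ρB ⟨(y : F) * (y₂ : F), O.mul_mem y.2 (hBO y₂.2), hreg⟩ = ρ y * ρB y₂ :=
        map_mul ρ y (inc y₂)
      rw [this]; exact mul_ne_zero hy hρy₂
    · exact map_mul ρ y (inc y₂)
  have hy₂ne : (y₂ : F) ≠ 0 := hne_of y₂ h2
  have hset : {P | r P = Q₀} = {P | (P ∈ TP ∧ ∃ a : A₀, π a = c ∧
      ((xB - ι₀ a : chartSubring O TP) : F) ∈ P.toValuationSubring.nonunits) ∧ r P = Q₀} := by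
    ext P
    constructor
    · intro h
      have h' : r P = Q₀ := h
      exact ⟨hback P (by rw [h']; exact hQ₀), h'⟩
    · intro h; exact h.2
  have e1 := hchart y₁ h1 Q₀ hQ₀
  have e2 := hchart y₂ h2 Q₀ hQ₀
  rw [← hset] at e1 e2
  have hpt : ∀ P : Place K F, P.ord (y₁ : F) = P.ord (y : F) + P.ord (y₂ : F) := by
    intro P; rw [h12F, P.ord_mul hyne hy₂ne]
  have e3 : ∑ᶠ P ∈ {P | r P = Q₀}, P.ord (y₁ : F) =
      ∑ᶠ P ∈ {P | r P = Q₀}, P.ord (y : F) + ∑ᶠ P ∈ {P | r P = Q₀}, P.ord (y₂ : F) := by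
    simp only [hpt]
    exact finsum_mem_add_distrib' ((hfin _ hyne).subset (fun P hP => hP.2))
      ((hfin _ hy₂ne).subset (fun P hP => hP.2))
  have e4 : Q₀.ord (ρB y₁) = Q₀.ord (ρ y) + Q₀.ord (ρB y₂) := by
    rw [h12ρ, Q₀.ord_mul hy h2]
  omega

/-- The coefficient of a push-forward divisor as a sum over the fibre. -/
theorem mapDomain_apply_eq_finsum {α β : Type*} (r : α → β) (D : α →₀ ℤ) (Q : β) :
    Finsupp.mapDomain r D Q = ∑ᶠ P ∈ {P | r P = Q}, D P := by
  classical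
  rw [Finsupp.mapDomain, Finsupp.sum_apply, Finsupp.sum]
  simp only [Finsupp.single_apply]
  rw [finsum_mem_eq_sum_of_inter_support_eq (t := D.support.filter (fun P => r P = Q)),
    Finset.sum_filter]
  ext P
  simp only [Set.mem_inter_iff, Function.mem_support, Finset.coe_filter,
    Finsupp.mem_support_iff]
  constructor
  · rintro ⟨h1, h2⟩
    exact ⟨⟨h2, h1⟩, h2⟩
  · rintro ⟨⟨_, h1⟩, h2⟩
    exact ⟨h1, h2⟩

/-- **The local statement, divisor form**: under the hypotheses of `local_eq`, the push-forward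
under `r` of the divisor of `y` has coefficient `ord_{Q₀} (ρ y)` at `Q₀`. -/
theorem local_mapDomain_eq
    (O : Subring F) (ρ : O →+* Fk) (r : Place K F → Place k Fk)
    (hinv : ∀ y : O, ρ y ≠ 0 → (y : F)⁻¹ ∈ O)
    (hfin : ∀ f : F, f ≠ 0 → {P : Place K F | P.ord f ≠ 0}.Finite)
    (hfink : ∀ f : Fk, f ≠ 0 → {Q : Place k Fk | Q.ord f ≠ 0}.Finite)
    (φ : A₀ →+* K) (π : A₀ →+* k)
    (hπ : Function.Surjective π)
    (hπunit : ∀ a : A₀, π a ≠ 0 → IsUnit a)
    (hφO : ∀ a : A₀, algebraMap K F (φ a) ∈ O)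
    (hρφ : ∀ a : A₀, ρ ⟨algebraMap K F (φ a), hφO a⟩ = algebraMap k Fk (π a))
    (TP : Set (Place K F))
    (heval : ∀ b : O, (b : F) ∈ chartSubring O TP → ∀ P ∈ TP,
      (b : F) ∈ P.toValuationSubring.nonunits → ρ b ∈ (r P).toValuationSubring.nonunits)
    (hval : ∀ b : O, (b : F) ∈ chartSubring O TP → ∀ P ∈ TP,
      ∃ a : A₀, (b : F) - algebraMap K F (φ a) ∈ P.toValuationSubring.nonunits)
    (x : O) (hx : (x : F) ∈ chartSubring O TP) (c : k)
    (hxtr : ∀ c' : k, ρ x ≠ algebraMap k Fk c')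
    (hbackT : ∀ P, ρ x - algebraMap k Fk c ∈ (r P).toValuationSubring.nonunits → P ∈ TP)
    (hρ : ∀ b : O, (b : F) ∈ chartSubring O TP → ∀ Q : Place k Fk,
      ρ x - algebraMap k Fk c ∈ Q.toValuationSubring.nonunits → ρ b ∈ Q.toValuationSubring)
    (hsum : ∀ b : O, (b : F) ∈ chartSubring O TP → ρ b ≠ 0 →
      ∑ᶠ P ∈ {P | P ∈ TP ∧ ∃ a : A₀, π a = c ∧
          (x : F) - algebraMap K F (φ a) ∈ P.toValuationSubring.nonunits}, P.ord (b : F)
        = ∑ᶠ Q ∈ {Q : Place k Fk | ρ x - algebraMap k Fk c ∈ Q.toValuationSubring.nonunits},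
            Q.ord (ρ b))
    (g : O) (hg : (g : F) ∈ chartSubring O TP)
    (hsep : ∀ Q Q' : Place k Fk, ρ x - algebraMap k Fk c ∈ Q.toValuationSubring.nonunits →
      ρ x - algebraMap k Fk c ∈ Q'.toValuationSubring.nonunits → Q ≠ Q' → ∀ a : k,
        ¬ (ρ g - algebraMap k Fk a ∈ Q.toValuationSubring.nonunits ∧
          ρ g - algebraMap k Fk a ∈ Q'.toValuationSubring.nonunits))
    (y : O) (hy : ρ y ≠ 0) (Q₀ : Place k Fk)
    (hQ₀ : ρ x - algebraMap k Fk c ∈ Q₀.toValuationSubring.nonunits)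
    (D : Place K F →₀ ℤ) (hD : ∀ P, D P = P.ord (y : F)) :
    Finsupp.mapDomain r D Q₀ = Q₀.ord (ρ y) := by
  rw [mapDomain_apply_eq_finsum]
  simp only [hD]
  exact local_eq O ρ r hinv hfin hfink φ π hπ hπunit hφO hρφ TP heval hval x hx c hxtr hbackT hρ
    hsum g hg hsep y hy Q₀ hQ₀

end Local

end Fermat.Agent.Lib.NormTrick
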