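import Mathlib

/-!
# Successive approximation on `1 + I₁` for a complete multiplicative filtration

The algebraic core of "the Herbrand quotient of the units of a local field is `1`"
(without exponential / logarithm) and of "units are norms in unramified extensions".

* Abstract part: a commutative ring `B` with an action of a finite group `G` and a
  decreasing, `G`-stable, multiplicative, separated and complete filtration `I n`.
  Then `1 + I (n+1)` consists of units, and the graded exactness hypotheses `E0` / `E1`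
  imply that the `0`-th and `(-1)`-st Tate groups of `1 + I 1` vanish.
* Concrete part: `I n = π ^ n • Λ` for a lattice `Λ` with a "normal basis" over a
  `π`-adically complete domain.
-/

namespace Fermat.Agent.Lib.NormalBasisUnits

open scoped BigOperators

section Abstract

variable {G B : Type*} [Group G] [CommRing B] [MulSemiringAction G B]

/-- A decreasing, `G`-stable, multiplicative, separated and complete filtration of a
commutative ring by additive subgroups. -/
structure IsUnitFiltration (G : Type*) {B : Type*} [Group G] [CommRing B] [MulSemiringAction G B]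
    (I : ℕ → AddSubgroup B) : Prop where
  anti : ∀ n, I (n + 1) ≤ I n
  mul_mem : ∀ {m n : ℕ} {x y : B}, x ∈ I m → y ∈ I n → x * y ∈ I (m + n)
  smul_mem : ∀ (g : G) {n : ℕ} {x : B}, x ∈ I n → g • x ∈ I n
  sep : ∀ x : B, (∀ n, x ∈ I n) → x = 0
  complete : ∀ x : ℕ → B, (∀ n, x n ∈ I (n + 1)) →
    ∃ s : B, ∀ n, s - ∑ j ∈ Finset.range n, x j ∈ I (n + 1)

namespace IsUnitFiltration

variable {I : ℕ → AddSubgroup B} (h : IsUnitFiltration G I)

include h

theorem le_of_le {m n : ℕ} (hmn : m ≤ n) : I n ≤ I m := by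
  induction hmn with
  | refl => exact le_rfl
  | step _ ih => exact (h.anti _).trans ih

/-- Elements of `1 + I 0` preserve each step of the filtration. -/
theorem mul_mem_of_sub_one {c x : B} {n : ℕ} (hc : c - 1 ∈ I 0) (hx : x ∈ I n) :
    c * x ∈ I n := by
  have h1 : c * x = x + (c - 1) * x := by ring
  rw [h1]
  refine (I n).add_mem hx ?_
  have := h.mul_mem hc hx
  simpa using this

theorem mul_mem_of_sub_one' {c x : B} {n : ℕ} (hc : c - 1 ∈ I 1) (hx : x ∈ I n) :
    c * x ∈ I n :=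
  h.mul_mem_of_sub_one (h.anti 0 hc) hx

theorem pow_succ_mem {a : B} (ha : a ∈ I 1) (j : ℕ) : a ^ (j + 1) ∈ I (j + 1) := by
  induction j with
  | zero => simpa using ha
  | succ j ih =>
    rw [pow_succ]
    exact h.mul_mem ih ha

/-- Every element of `1 + I (n+1)` is invertible, with inverse in `1 + I (n+1)`. -/
theorem exists_inv {a : B} {n : ℕ} (ha : a ∈ I (n + 1)) :
    ∃ t ∈ I (n + 1), (1 + a) * (1 + t) = 1 := by
  have ha1 : a ∈ I 1 := h.le_of_le (by omega) ha
  have hna1 : -a ∈ I 1 := (I 1).neg_mem ha1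
  obtain ⟨s, hs⟩ := h.complete (fun j => (-a) ^ (j + 1)) (fun j => h.pow_succ_mem hna1 j)
  have hmult : (1 + a) - 1 ∈ I 1 := by simpa using ha1
  have key : (1 + a) * (1 + s) = 1 := by
    have : (1 + a) * (1 + s) - 1 = 0 := by
      apply h.sep
      intro m
      have hm := hs m
      have hgeom : (1 + a) * (1 + ∑ j ∈ Finset.range m, (-a) ^ (j + 1)) = 1 - (-a) ^ (m + 1) := by
        have h1 : (1 + ∑ j ∈ Finset.range m, (-a) ^ (j + 1)) = ∑ j ∈ Finset.range (m + 1), (-a) ^ j := by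
          rw [Finset.sum_range_succ', pow_zero, add_comm]
        rw [h1]
        have h2 := geom_sum_mul (-a) (m + 1)
        have h3 : (1 + a) = -(-a - 1) := by ring
        rw [h3, neg_mul, mul_comm, h2]
        ring
      have hsplit : (1 + a) * (1 + s) - 1 =
          (1 + a) * (s - ∑ j ∈ Finset.range m, (-a) ^ (j + 1)) - (-a) ^ (m + 1) := by
        have : (1 + a) * (1 + s) = (1 + a) * (s - ∑ j ∈ Finset.range m, (-a) ^ (j + 1)) +
            (1 + a) * (1 + ∑ j ∈ Finset.range m, (-a) ^ (j + 1)) := by ring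
        rw [this, hgeom]; ring
      rw [hsplit]
      have hA : (1 + a) * (s - ∑ j ∈ Finset.range m, (-a) ^ (j + 1)) ∈ I (m + 1) :=
        h.mul_mem_of_sub_one' hmult hm
      have hB : (-a) ^ (m + 1) ∈ I (m + 1) := h.pow_succ_mem hna1 m
      exact h.le_of_le (Nat.le_succ m) ((I (m + 1)).sub_mem hA hB)
    linear_combination this
  have hs1 : s ∈ I 1 := by simpa using hs 0
  refine ⟨s, ?_, key⟩
  have hs_eq : s = (1 + s) * (-a) := by linear_combination key
  rw [hs_eq]
  have hm : (1 + s) - 1 ∈ I 1 := by simpa using hs1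
  exact h.mul_mem_of_sub_one' hm ((I (n + 1)).neg_mem ha)

/-- `∏ (1 + bᵢ) ≡ 1 + ∑ bᵢ` modulo the next step of the filtration. -/
theorem prod_one_add_sub_mem {ι : Type*} (s : Finset ι) (b : ι → B) {n : ℕ}
    (hb : ∀ i ∈ s, b i ∈ I (n + 1)) :
    ∏ i ∈ s, (1 + b i) - 1 - ∑ i ∈ s, b i ∈ I (n + 2) := by
  classical
  induction s using Finset.induction_on with
  | empty => simp
  | insert i s his ih =>
    have hbi : b i ∈ I (n + 1) := hb i (Finset.mem_insert_self i s)
    have hbs : ∀ j ∈ s, b j ∈ I (n + 1) := fun j hj => hb j (Finset.mem_insert_of_mem hj)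
    have ih' := ih hbs
    rw [Finset.prod_insert his, Finset.sum_insert his]
    set P := ∏ j ∈ s, (1 + b j) with hP
    set S := ∑ j ∈ s, b j with hS
    have hSmem : S ∈ I (n + 1) := (I (n + 1)).sum_mem hbs
    have hP1 : P - 1 ∈ I (n + 1) := by
      have : P - 1 = (P - 1 - S) + S := by ring
      rw [this]
      exact (I (n + 1)).add_mem (h.anti (n + 1) ih') hSmem
    have hsplit : (1 + b i) * P - 1 - (b i + S) = (P - 1 - S) + b i * (P - 1) := by ring
    rw [hsplit]
    refine (I (n + 2)).add_mem ih' ?_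
    have := h.mul_mem hbi hP1
    exact h.le_of_le (by omega) this

theorem prod_sub_one_mem {ι : Type*} (s : Finset ι) (x : ι → B) {n : ℕ}
    (hx : ∀ i ∈ s, x i - 1 ∈ I (n + 1)) : ∏ i ∈ s, x i - 1 ∈ I (n + 1) := by
  have h1 := h.prod_one_add_sub_mem s (fun i => x i - 1) hx
  have h2 : ∑ i ∈ s, (x i - 1) ∈ I (n + 1) := (I (n + 1)).sum_mem hx
  have h3 : ∏ i ∈ s, x i - 1 =
      (∏ i ∈ s, (1 + (x i - 1)) - 1 - ∑ i ∈ s, (x i - 1)) + ∑ i ∈ s, (x i - 1) := by
    have : ∀ i, 1 + (x i - 1) = x i := fun i => by ring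
    simp only [this]; ring
  rw [h3]
  exact (I (n + 1)).add_mem (h.anti (n + 1) h1) h2

end IsUnitFiltration

/-- The norm `∏ g, g • x`. -/
def nrm (G : Type*) {B : Type*} [Group G] [Fintype G] [CommRing B] [MulSemiringAction G B]
    (x : B) : B := ∏ g : G, g • x

/-- The trace `∑ g, g • x`. -/
def trc (G : Type*) {B : Type*} [Group G] [Fintype G] [CommRing B] [MulSemiringAction G B]
    (x : B) : B := ∑ g : G, g • x

section NormTrace

variable [Fintype G]

theorem nrm_one : nrm G (1 : B) = 1 := by simp [nrm]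

theorem nrm_mul (x y : B) : nrm G (x * y) = nrm G x * nrm G y := by
  simp [nrm, smul_mul', Finset.prod_mul_distrib]

theorem nrm_smul (σ : G) (x : B) : nrm G (σ • x) = nrm G x := by
  unfold nrm
  refine Fintype.prod_equiv (Equiv.mulRight σ) _ _ (fun g => ?_)
  simp [mul_smul]

theorem smul_nrm (σ : G) (x : B) : σ • nrm G x = nrm G x := by
  unfold nrm
  rw [Finset.smul_prod']
  refine Fintype.prod_equiv (Equiv.mulLeft σ) _ _ (fun g => ?_)
  simp [mul_smul]

theorem smul_trc (σ : G) (x : B) : σ • trc G x = trc G x := by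
  unfold trc
  rw [Finset.smul_sum]
  refine Fintype.sum_equiv (Equiv.mulLeft σ) _ _ (fun g => ?_)
  simp [mul_smul]

end NormTrace

/-- Build a sequence from a step function with a level-dependent invariant. -/
theorem exists_seq_of_step {α : Type*} (inv : ℕ → α → Prop) (rel : ℕ → α → α → Prop)
    (a0 : α) (h0 : inv 0 a0)
    (step : ∀ n a, inv n a → ∃ a', inv (n + 1) a' ∧ rel n a a') :
    ∃ P : ℕ → α, P 0 = a0 ∧ (∀ n, inv n (P n)) ∧ ∀ n, rel n (P n) (P (n + 1)) := by
  classical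
  let F : (n : ℕ) → {a : α // inv n a} := fun n =>
    Nat.rec (motive := fun n => {a : α // inv n a}) ⟨a0, h0⟩
      (fun n a => ⟨Classical.choose (step n a.1 a.2), (Classical.choose_spec (step n a.1 a.2)).1⟩) n
  refine ⟨fun n => (F n).1, rfl, fun n => (F n).2, fun n => ?_⟩
  exact (Classical.choose_spec (step n (F n).1 (F n).2)).2

namespace IsUnitFiltration

variable {I : ℕ → AddSubgroup B} (h : IsUnitFiltration G I)

include h

/-- A sequence starting at `1` whose consecutive differences lie in `I (n+1)` converges. -/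
theorem exists_limit (P : ℕ → B) (hP0 : P 0 = 1) (hP : ∀ n, P (n + 1) - P n ∈ I (n + 1)) :
    ∃ w : B, ∀ n, w - P n ∈ I (n + 1) := by
  obtain ⟨s, hs⟩ := h.complete (fun n => P (n + 1) - P n) hP
  refine ⟨1 + s, fun n => ?_⟩
  have := hs n
  rw [Finset.sum_range_sub, hP0] at this
  have h2 : 1 + s - P n = s - (P n - 1) := by ring
  rw [h2]; exact this

variable [Fintype G]

theorem nrm_sub_one_mem {x : B} {n : ℕ} (hx : x - 1 ∈ I (n + 1)) : nrm G x - 1 ∈ I (n + 1) := by
  unfold nrm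
  apply h.prod_sub_one_mem
  intro g _
  have : g • x - 1 = g • (x - 1) := by simp [smul_sub]
  rw [this]
  exact h.smul_mem g hx

/-- `N(1 + b) ≡ 1 + Tr(b)` modulo the next step. -/
theorem nrm_one_add_sub_mem {b : B} {n : ℕ} (hb : b ∈ I (n + 1)) :
    nrm G (1 + b) - 1 - trc G b ∈ I (n + 2) := by
  unfold nrm trc
  have := h.prod_one_add_sub_mem (Finset.univ : Finset G) (fun g => g • b)
    (fun g _ => h.smul_mem g hb)
  simpa [smul_add] using this

/-- **Vanishing of `Ĥ⁰`**: a `G`-fixed element of `1 + I 1` is a norm from `1 + I 1`. -/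
theorem fixed_eq_norm
    (E0 : ∀ n, ∀ a ∈ I (n + 1), (∀ g : G, g • a = a) →
      ∃ b ∈ I (n + 1), a - trc G b ∈ I (n + 2))
    {u : B} (hu : u - 1 ∈ I 1) (hfix : ∀ g : G, g • u = u) :
    ∃ w : B, w - 1 ∈ I 1 ∧ u = nrm G w := by
  -- the approximating sequence
  have step : ∀ n (P : B), (P - 1 ∈ I 1 ∧ u - nrm G P ∈ I (n + 1)) →
      ∃ P' : B, (P' - 1 ∈ I 1 ∧ u - nrm G P' ∈ I (n + 1 + 1)) ∧ P' - P ∈ I (n + 1) := by
    rintro n P ⟨hP1, hPu⟩
    have hN1 : nrm G P - 1 ∈ I 1 := h.nrm_sub_one_mem hP1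
    obtain ⟨t, ht, hinv⟩ := h.exists_inv hN1
    have hNP : 1 + (nrm G P - 1) = nrm G P := by ring
    rw [hNP] at hinv
    -- `q` is the inverse of the norm of `P`
    set q := 1 + t with hq
    have hq1 : q - 1 ∈ I 1 := by simpa [hq] using ht
    have hqfix : ∀ g : G, g • q = q := by
      intro g
      have h1 : nrm G P * g • q = 1 := by
        have := congrArg (fun z => g • z) hinv
        simpa [smul_mul', smul_nrm] using this
      calc g • q = (nrm G P * q) * g • q := by rw [hinv, one_mul]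
        _ = q * (nrm G P * g • q) := by ring
        _ = q := by rw [h1, mul_one]
    set v := u * q with hv
    have hv1 : v - 1 ∈ I (n + 1) := by
      have : v - 1 = q * (u - nrm G P) := by rw [hv]; linear_combination hinv
      rw [this]
      exact h.mul_mem_of_sub_one' hq1 hPu
    have hvfix : ∀ g : G, g • (v - 1) = v - 1 := by
      intro g
      simp [hv, smul_sub, smul_mul', hfix g, hqfix g]
    obtain ⟨b, hb, hbv⟩ := E0 n (v - 1) hv1 hvfix
    have hNb := h.nrm_one_add_sub_mem hb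
    have hvN : v - nrm G (1 + b) ∈ I (n + 2) := by
      have : v - nrm G (1 + b) = (v - 1 - trc G b) - (nrm G (1 + b) - 1 - trc G b) := by ring
      rw [this]
      exact (I (n + 2)).sub_mem hbv hNb
    refine ⟨P * (1 + b), ⟨?_, ?_⟩, ?_⟩
    · have : P * (1 + b) - 1 = (P - 1) + P * b := by ring
      rw [this]
      exact (I 1).add_mem hP1 (h.mul_mem_of_sub_one' hP1 (h.le_of_le (by omega) hb))
    · have : u - nrm G (P * (1 + b)) = nrm G P * (v - nrm G (1 + b)) := by
        rw [nrm_mul, hv]; linear_combination (-u) * hinv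
      rw [this]
      exact h.mul_mem_of_sub_one' hN1 hvN
    · have : P * (1 + b) - P = P * b := by ring
      rw [this]
      exact h.mul_mem_of_sub_one' hP1 hb
  obtain ⟨P, hP0, hPinv, hPrel⟩ := exists_seq_of_step
    (fun n P => P - 1 ∈ I 1 ∧ u - nrm G P ∈ I (n + 1)) (fun n P P' => P' - P ∈ I (n + 1))
    (1 : B) ⟨by simp, by simpa [nrm_one] using hu⟩ step
  obtain ⟨w, hw⟩ := h.exists_limit P hP0 hPrel
  have hw1 : w - 1 ∈ I 1 := by simpa [hP0] using hw 0
  refine ⟨w, hw1, ?_⟩
  have : u - nrm G w = 0 := by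
    apply h.sep
    intro n
    apply h.anti n
    -- `w = P n * y` with `y ∈ 1 + I (n+1)`
    obtain ⟨hPn1, hPnu⟩ := hPinv n
    obtain ⟨t, ht, hinv⟩ := h.exists_inv (n := 0) hPn1
    have hPn : 1 + (P n - 1) = P n := by ring
    rw [hPn] at hinv
    have ht1 : (1 + t) - 1 ∈ I 1 := by simpa using ht
    set y := w * (1 + t) with hy
    have hy1 : y - 1 ∈ I (n + 1) := by
      have : y - 1 = (1 + t) * (w - P n) := by rw [hy]; linear_combination hinv
      rw [this]
      exact h.mul_mem_of_sub_one' ht1 (hw n)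
    have hwy : w = P n * y := by rw [hy]; linear_combination (-w) * hinv
    have hNy : nrm G y - 1 ∈ I (n + 1) := h.nrm_sub_one_mem hy1
    have hNP1 : nrm G (P n) - 1 ∈ I 1 := h.nrm_sub_one_mem hPn1
    have : u - nrm G w = (u - nrm G (P n)) - nrm G (P n) * (nrm G y - 1) := by
      rw [hwy, nrm_mul]; ring
    rw [this]
    exact (I (n + 1)).sub_mem hPnu (h.mul_mem_of_sub_one' hNP1 hNy)
  linear_combination this

/-- **Vanishing of `Ĥ⁻¹`**: an element of `1 + I 1` of norm `1` is `σ w / w` with `w ∈ 1 + I 1`. -/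
theorem norm_one_eq_div (σ : G)
    (E1 : ∀ n, ∀ a ∈ I (n + 1), trc G a ∈ I (n + 2) →
      ∃ b ∈ I (n + 1), a - (σ • b - b) ∈ I (n + 2))
    {u : B} (hu : u - 1 ∈ I 1) (hN : nrm G u = 1) :
    ∃ w : B, w - 1 ∈ I 1 ∧ u * w = σ • w := by
  have step : ∀ n (P : B), (P - 1 ∈ I 1 ∧ u * P - σ • P ∈ I (n + 1)) →
      ∃ P' : B, (P' - 1 ∈ I 1 ∧ u * P' - σ • P' ∈ I (n + 1 + 1)) ∧ P' - P ∈ I (n + 1) := by
    rintro n P ⟨hP1, hPu⟩
    have hQ1 : σ • P - 1 ∈ I 1 := by
      have : σ • P - 1 = σ • (P - 1) := by simp [smul_sub]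
      rw [this]; exact h.smul_mem σ hP1
    obtain ⟨t, ht, hinv⟩ := h.exists_inv hQ1
    have hQ : 1 + (σ • P - 1) = σ • P := by ring
    rw [hQ] at hinv
    set q := 1 + t with hq
    have hq1 : q - 1 ∈ I 1 := by simpa [hq] using ht
    set v := u * P * q with hv
    have hv1 : v - 1 ∈ I (n + 1) := by
      have : v - 1 = q * (u * P - σ • P) := by rw [hv]; linear_combination hinv
      rw [this]
      exact h.mul_mem_of_sub_one' hq1 hPu
    have hvQ : v * σ • P = u * P := by rw [hv]; linear_combination (u * P) * hinv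
    have hNv : nrm G v = 1 := by
      have h1 : nrm G (σ • P) * nrm G q = 1 := by rw [← nrm_mul, hinv, nrm_one]
      rw [nrm_smul] at h1
      rw [hv, nrm_mul, nrm_mul, hN, one_mul, h1]
    have hTr : trc G (v - 1) ∈ I (n + 2) := by
      have h1 := h.nrm_one_add_sub_mem hv1
      have h2 : (1 : B) + (v - 1) = v := by ring
      rw [h2, hNv] at h1
      have h3 : trc G (v - 1) = -(1 - 1 - trc G (v - 1)) := by ring
      rw [h3]
      exact (I (n + 2)).neg_mem h1
    obtain ⟨b, hb, hbv⟩ := E1 n (v - 1) hv1 hTr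
    have hvy : v * (1 + b) - σ • (1 + b) ∈ I (n + 2) := by
      have : v * (1 + b) - σ • (1 + b) = (v - 1 - (σ • b - b)) + (v - 1) * b := by
        simp only [smul_add, smul_one]; ring
      rw [this]
      refine (I (n + 2)).add_mem hbv ?_
      exact h.le_of_le (by omega) (h.mul_mem hv1 hb)
    refine ⟨P * (1 + b), ⟨?_, ?_⟩, ?_⟩
    · have : P * (1 + b) - 1 = (P - 1) + P * b := by ring
      rw [this]
      exact (I 1).add_mem hP1 (h.mul_mem_of_sub_one' hP1 (h.le_of_le (by omega) hb))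
    · have : u * (P * (1 + b)) - σ • (P * (1 + b)) = σ • P * (v * (1 + b) - σ • (1 + b)) := by
        rw [smul_mul']; linear_combination (-(1 + b)) * hvQ
      rw [this]
      exact h.mul_mem_of_sub_one' hQ1 hvy
    · have : P * (1 + b) - P = P * b := by ring
      rw [this]
      exact h.mul_mem_of_sub_one' hP1 hb
  obtain ⟨P, hP0, hPinv, hPrel⟩ := exists_seq_of_step
    (fun n P => P - 1 ∈ I 1 ∧ u * P - σ • P ∈ I (n + 1)) (fun n P P' => P' - P ∈ I (n + 1))
    (1 : B) ⟨by simp, by simpa using hu⟩ step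
  obtain ⟨w, hw⟩ := h.exists_limit P hP0 hPrel
  have hw1 : w - 1 ∈ I 1 := by simpa [hP0] using hw 0
  refine ⟨w, hw1, ?_⟩
  have : u * w - σ • w = 0 := by
    apply h.sep
    intro n
    apply h.anti n
    obtain ⟨hPn1, hPnu⟩ := hPinv n
    have : u * w - σ • w = u * (w - P n) + (u * P n - σ • P n) - σ • (w - P n) := by
      simp only [smul_sub]; ring
    rw [this]
    refine (I (n + 1)).sub_mem ((I (n + 1)).add_mem ?_ hPnu) (h.smul_mem σ (hw n))
    exact h.mul_mem_of_sub_one' hu (hw n)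
  linear_combination this

end IsUnitFiltration

/-- The action of `g : G` on the units of `B`. -/
def actUnits (g : G) : Bˣ →* Bˣ := Units.map (MulSemiringAction.toRingHom G B g : B →* B)

@[simp] theorem coe_actUnits (g : G) (u : Bˣ) : ((actUnits g u : Bˣ) : B) = g • (u : B) := rfl

namespace IsUnitFiltration

variable {I : ℕ → AddSubgroup B} (h : IsUnitFiltration G I)

/-- The subgroup `1 + I (n+1)` of the units of `B`. -/
def unitsSubgroup (n : ℕ) : Subgroup Bˣ where
  carrier := {u | (u : B) - 1 ∈ I (n + 1)}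
  one_mem' := by simp
  mul_mem' := by
    intro u v hu hv
    have hu' : (u : B) - 1 ∈ I (n + 1) := hu
    have hv' : (v : B) - 1 ∈ I (n + 1) := hv
    show ((u * v : Bˣ) : B) - 1 ∈ I (n + 1)
    rw [Units.val_mul]
    have : (u : B) * v - 1 = (u - 1) + u * (v - 1) := by ring
    rw [this]
    exact (I (n + 1)).add_mem hu' (h.mul_mem_of_sub_one' (h.le_of_le (by omega) hu') hv')
  inv_mem' := by
    intro u hu'
    have hu : (u : B) - 1 ∈ I (n + 1) := hu'
    show ((u⁻¹ : Bˣ) : B) - 1 ∈ I (n + 1)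
    obtain ⟨t, ht, hinv⟩ := h.exists_inv hu
    have h1 : (1 : B) + ((u : B) - 1) = u := by ring
    rw [h1] at hinv
    have h2 : ((u⁻¹ : Bˣ) : B) = 1 + t := by
      have h3 : ((u⁻¹ : Bˣ) : B) * u = 1 := by simp
      calc ((u⁻¹ : Bˣ) : B) = ((u⁻¹ : Bˣ) : B) * ((u : B) * (1 + t)) := by rw [hinv, mul_one]
        _ = (((u⁻¹ : Bˣ) : B) * u) * (1 + t) := by ring
        _ = 1 + t := by rw [h3, one_mul]
    rw [h2]
    simpa using ht

theorem mem_unitsSubgroup {n : ℕ} {u : Bˣ} :
    u ∈ h.unitsSubgroup n ↔ (u : B) - 1 ∈ I (n + 1) := Iff.rfl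

include h

theorem unitsSubgroup_anti (n : ℕ) : h.unitsSubgroup (n + 1) ≤ h.unitsSubgroup n :=
  fun _ hu => h.anti (n + 1) hu

/-- Every `1 + a` with `a ∈ I (n+1)` is (the value of) a unit in `1 + I (n+1)`. -/
theorem exists_unit_of_mem {n : ℕ} {a : B} (ha : a ∈ I (n + 1)) :
    ∃ u ∈ h.unitsSubgroup n, (u : B) = 1 + a := by
  obtain ⟨t, _, hinv⟩ := h.exists_inv ha
  refine ⟨⟨1 + a, 1 + t, hinv, by rw [mul_comm]; exact hinv⟩, ?_, rfl⟩
  show (1 + a) - 1 ∈ I (n + 1)
  simpa using ha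

theorem isUnit_of_sub_one_mem {u : B} (hu : u - 1 ∈ I 1) : IsUnit u := by
  obtain ⟨v, _, hv⟩ := h.exists_unit_of_mem hu
  have : u = v := by rw [hv]; ring
  rw [this]; exact v.isUnit

/-- The subgroups `1 + I (n+1)` are `G`-stable. -/
theorem actUnits_mem {n : ℕ} (g : G) {u : Bˣ} (hu : u ∈ h.unitsSubgroup n) :
    actUnits g u ∈ h.unitsSubgroup n := by
  show g • (u : B) - 1 ∈ I (n + 1)
  have : g • (u : B) - 1 = g • ((u : B) - 1) := by simp [smul_sub]
  rw [this]
  exact h.smul_mem g hu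

variable [Fintype G]

/-- Unit form of `fixed_eq_norm`. -/
theorem fixed_eq_norm_units
    (E0 : ∀ n, ∀ a ∈ I (n + 1), (∀ g : G, g • a = a) →
      ∃ b ∈ I (n + 1), a - trc G b ∈ I (n + 2))
    {u : Bˣ} (hu : u ∈ h.unitsSubgroup 0) (hfix : ∀ g : G, actUnits g u = u) :
    ∃ w ∈ h.unitsSubgroup 0, u = ∏ g : G, actUnits g w := by
  have hfix' : ∀ g : G, g • (u : B) = u := fun g => congrArg Units.val (hfix g)
  obtain ⟨w, hw, huw⟩ := h.fixed_eq_norm E0 hu hfix'
  obtain ⟨w', hw', hww'⟩ := h.exists_unit_of_mem hw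
  have hw2 : (w' : B) = w := by rw [hww']; ring
  refine ⟨w', hw', Units.ext ?_⟩
  rw [huw, Units.coe_prod]
  simp [nrm, hw2]

/-- Unit form of `norm_one_eq_div`. -/
theorem norm_one_eq_div_units (σ : G)
    (E1 : ∀ n, ∀ a ∈ I (n + 1), trc G a ∈ I (n + 2) →
      ∃ b ∈ I (n + 1), a - (σ • b - b) ∈ I (n + 2))
    {u : Bˣ} (hu : u ∈ h.unitsSubgroup 0) (hN : ∏ g : G, actUnits g u = 1) :
    ∃ w ∈ h.unitsSubgroup 0, u = actUnits σ w / w := by
  have hN' : nrm G (u : B) = 1 := by
    have := congrArg Units.val hN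
    rw [Units.coe_prod] at this
    simpa [nrm] using this
  obtain ⟨w, hw, huw⟩ := h.norm_one_eq_div σ E1 hu hN'
  obtain ⟨w', hw', hww'⟩ := h.exists_unit_of_mem hw
  have hw2 : (w' : B) = w := by rw [hww']; ring
  refine ⟨w', hw', ?_⟩
  rw [eq_div_iff_mul_eq']
  apply Units.ext
  simp only [Units.val_mul, coe_actUnits, hw2]
  linear_combination huw

end IsUnitFiltration

end Abstract

section Lattice

variable {R : Type*} [CommRing R] {G : Type*} [Group G] {B : Type*} [CommRing B] [Algebra R B]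
  [MulSemiringAction G B] {J : Type*}

/-- The `R`-lattice spanned by the `G`-conjugates of the `θ j`. -/
def lattice (R : Type*) [CommRing R] (G : Type*) [Group G] {B : Type*} [CommRing B] [Algebra R B]
    [MulSemiringAction G B] {J : Type*} (θ : J → B) : Submodule R B :=
  Submodule.span R (Set.range (fun p : G × J => p.1 • θ p.2))

/-- The filtration `π ^ n • Λ`. -/
def fil (π : R) (Λ : Submodule R B) (n : ℕ) : AddSubgroup B :=
  (Λ.map (LinearMap.lsmul R B (π ^ n))).toAddSubgroup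

theorem mem_fil {π : R} {Λ : Submodule R B} {n : ℕ} {x : B} :
    x ∈ fil π Λ n ↔ ∃ y ∈ Λ, π ^ n • y = x := by
  simp [fil]

theorem mem_fil_zero {π : R} {Λ : Submodule R B} {x : B} : x ∈ fil π Λ 0 ↔ x ∈ Λ := by
  simp [mem_fil]

/-- Hypotheses for the normal-basis lattice: `R` is `π`-adically separated and complete, `π` is
regular, `G` fixes `R`, the conjugates of the `θ j` are linearly independent and their span is
closed under multiplication. -/
structure IsNormalLattice (π : R) (G : Type*) [Group G] [MulSemiringAction G B] (θ : J → B) :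
    Prop where
  sep : ∀ r : R, (∀ n, π ^ n ∣ r) → r = 0
  complete : ∀ c : ℕ → R, ∃ s : R, ∀ n, π ^ n ∣ s - ∑ j ∈ Finset.range n, π ^ j * c j
  regular : ∀ r : R, π * r = 0 → r = 0
  fixed : ∀ (g : G) (r : R), g • algebraMap R B r = algebraMap R B r
  indep : LinearIndependent R (fun p : G × J => p.1 • θ p.2)
  mul_mem : ∀ x ∈ lattice R G θ, ∀ y ∈ lattice R G θ, x * y ∈ lattice R G θ

namespace IsNormalLattice

variable {π : R} {θ : J → B} (H : IsNormalLattice π G θ)

include H

theorem smul_algebra_smul (g : G) (r : R) (b : B) : g • (r • b) = r • g • b := by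
  rw [Algebra.smul_def, Algebra.smul_def, smul_mul', H.fixed]

theorem regular_pow (n : ℕ) (r : R) (hr : π ^ n * r = 0) : r = 0 := by
  induction n with
  | zero => simpa using hr
  | succ n ih =>
    apply ih
    apply H.regular
    rw [← mul_assoc, ← pow_succ']; exact hr

omit H in
theorem basis_mem (g : G) (j : J) : g • θ j ∈ lattice R G θ :=
  Submodule.subset_span ⟨(g, j), rfl⟩

theorem smul_mem_lattice (g : G) {x : B} (hx : x ∈ lattice R G θ) : g • x ∈ lattice R G θ := by
  unfold lattice at hx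
  induction hx using Submodule.span_induction with
  | mem x hx =>
    obtain ⟨p, rfl⟩ := hx
    have : g • p.1 • θ p.2 = (g * p.1) • θ p.2 := by rw [mul_smul]
    rw [this]; exact basis_mem (R := R) _ _
  | zero => rw [smul_zero]; exact Submodule.zero_mem _
  | add x y _ _ hx hy => rw [smul_add]; exact Submodule.add_mem _ hx hy
  | smul r x _ hx => rw [H.smul_algebra_smul]; exact Submodule.smul_mem _ _ hx

variable [Fintype G] [Fintype J]

omit H in
theorem mem_lattice_iff {x : B} :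
    x ∈ lattice R G θ ↔ ∃ c : G × J → R, ∑ p : G × J, c p • (p.1 • θ p.2) = x := by
  unfold lattice
  rw [Submodule.mem_span_range_iff_exists_fun]

omit H in
theorem mem_fil_iff {n : ℕ} {x : B} :
    x ∈ fil π (lattice R G θ) n ↔
      ∃ c : G × J → R, ∑ p : G × J, (π ^ n * c p) • (p.1 • θ p.2) = x := by
  rw [mem_fil]
  constructor
  · rintro ⟨y, hy, rfl⟩
    obtain ⟨c, rfl⟩ := mem_lattice_iff.1 hy
    refine ⟨c, ?_⟩
    rw [Finset.smul_sum]
    exact Finset.sum_congr rfl (fun p _ => by rw [mul_smul])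
  · rintro ⟨c, rfl⟩
    refine ⟨∑ p : G × J, c p • (p.1 • θ p.2), mem_lattice_iff.2 ⟨c, rfl⟩, ?_⟩
    rw [Finset.smul_sum]
    exact Finset.sum_congr rfl (fun p _ => by rw [mul_smul])

theorem coeff_ext {c d : G × J → R}
    (hcd : ∑ p : G × J, c p • (p.1 • θ p.2) = ∑ p : G × J, d p • (p.1 • θ p.2)) : c = d := by
  have hli := Fintype.linearIndependent_iff.1 H.indep (fun p => c p - d p) (by
    simp only [sub_smul, Finset.sum_sub_distrib, hcd, sub_self])
  funext p
  exact sub_eq_zero.1 (hli p)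

/-- The action of `g` on coordinates. -/
theorem smul_sum_coeff (g : G) (c : G × J → R) :
    g • ∑ p : G × J, c p • (p.1 • θ p.2) =
      ∑ p : G × J, c (g⁻¹ * p.1, p.2) • (p.1 • θ p.2) := by
  rw [Finset.smul_sum]
  refine Fintype.sum_equiv ((Equiv.mulLeft g).prodCongr (Equiv.refl J)) _ _ (fun p => ?_)
  rw [H.smul_algebra_smul]
  simp [mul_smul]

/-- The filtration `π ^ n • Λ` is a unit filtration. -/
theorem isUnitFiltration : IsUnitFiltration G (fil π (lattice R G θ)) where
  anti n x hx := by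
    obtain ⟨y, hy, rfl⟩ := mem_fil.1 hx
    refine mem_fil.2 ⟨π • y, Submodule.smul_mem _ _ hy, ?_⟩
    rw [← mul_smul, ← pow_succ]
  mul_mem := by
    intro m n x y hx hy
    obtain ⟨x', hx', rfl⟩ := mem_fil.1 hx
    obtain ⟨y', hy', rfl⟩ := mem_fil.1 hy
    refine mem_fil.2 ⟨x' * y', H.mul_mem _ hx' _ hy', ?_⟩
    rw [smul_mul_smul_comm, pow_add]
  smul_mem g n x hx := by
    obtain ⟨y, hy, rfl⟩ := mem_fil.1 hx
    refine mem_fil.2 ⟨g • y, H.smul_mem_lattice g hy, ?_⟩
    rw [H.smul_algebra_smul]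
  sep x hx := by
    obtain ⟨c, rfl⟩ := mem_lattice_iff.1 (mem_fil_zero.1 (hx 0))
    have hc : c = 0 := by
      funext p
      apply H.sep
      intro n
      obtain ⟨d, hd⟩ := mem_fil_iff.1 (hx n)
      have := H.coeff_ext hd
      rw [← this]
      exact Dvd.intro _ rfl
    simp [hc]
  complete x hx := by
    have hx' : ∀ n, ∃ c : G × J → R, ∑ p : G × J, (π ^ (n + 1) * c p) • (p.1 • θ p.2) = x n :=
      fun n => mem_fil_iff.1 (hx n)
    choose c hc using hx'
    have ht' : ∀ p : G × J, ∃ t : R, ∀ n, π ^ n ∣ t - ∑ j ∈ Finset.range n, π ^ j * c j p :=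
      fun p => H.complete (fun j => c j p)
    choose t ht using ht'
    refine ⟨∑ p : G × J, (π * t p) • (p.1 • θ p.2), fun n => ?_⟩
    have hdiv : ∀ p : G × J, ∃ e : R, t p - ∑ j ∈ Finset.range n, π ^ j * c j p = π ^ n * e :=
      fun p => ht p n
    choose e he using hdiv
    refine mem_fil_iff.2 ⟨e, ?_⟩
    have hsum : ∑ j ∈ Finset.range n, x j =
        ∑ p : G × J, (∑ j ∈ Finset.range n, π ^ (j + 1) * c j p) • (p.1 • θ p.2) := by
      simp only [Finset.sum_smul]
      rw [Finset.sum_comm]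
      exact Finset.sum_congr rfl (fun j _ => (hc j).symm)
    rw [hsum, ← Finset.sum_sub_distrib]
    refine Finset.sum_congr rfl (fun p _ => ?_)
    rw [← sub_smul]
    congr 1
    have : π * t p - ∑ j ∈ Finset.range n, π ^ (j + 1) * c j p =
        π * (t p - ∑ j ∈ Finset.range n, π ^ j * c j p) := by
      rw [mul_sub, Finset.mul_sum]
      congr 1
      exact Finset.sum_congr rfl (fun j _ => by ring)
    rw [this, he p]; ring

/-- Graded exactness for `Ĥ⁰`: a fixed element of `π ^ (n+1) • Λ` is a trace. -/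
theorem E0 (n : ℕ) (a : B) (ha : a ∈ fil π (lattice R G θ) (n + 1)) (hfix : ∀ g : G, g • a = a) :
    ∃ b ∈ fil π (lattice R G θ) (n + 1), a - trc G b ∈ fil π (lattice R G θ) (n + 2) := by
  obtain ⟨c, rfl⟩ := mem_fil_iff.1 ha
  -- coefficients are constant along `G`
  have hconst : ∀ (h : G) (j : J), π ^ (n + 1) * c (h, j) = π ^ (n + 1) * c (1, j) := by
    intro h j
    have h1 := hfix h
    rw [H.smul_sum_coeff h (fun p => π ^ (n + 1) * c p)] at h1
    have h2 := congrFun (H.coeff_ext h1) (h, j)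
    simp only [inv_mul_cancel] at h2
    exact h2.symm
  refine ⟨∑ j : J, (π ^ (n + 1) * c (1, j)) • θ j, ?_, ?_⟩
  · refine (fil π (lattice R G θ) (n + 1)).sum_mem (fun j _ => ?_)
    refine mem_fil.2 ⟨c (1, j) • θ j, Submodule.smul_mem _ _ ?_, by rw [mul_smul]⟩
    have := basis_mem (R := R) (θ := θ) (1 : G) j
    simpa using this
  · have : ∑ p : G × J, (π ^ (n + 1) * c p) • (p.1 • θ p.2) =
        trc G (∑ j : J, (π ^ (n + 1) * c (1, j)) • θ j) := by
      unfold trc
      rw [Fintype.sum_prod_type]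
      refine Finset.sum_congr rfl (fun g _ => ?_)
      rw [Finset.smul_sum]
      refine Finset.sum_congr rfl (fun j _ => ?_)
      rw [H.smul_algebra_smul, hconst g j]
    rw [this, sub_self]
    exact AddSubgroup.zero_mem _

omit [CommRing R] [Algebra R B] H [Fintype G] [Fintype J] in
/-- For `g` a power of `σ`, `g • y - y` is of the form `σ • b - b`. -/
theorem exists_sub_eq (A : AddSubgroup B) (hA : ∀ (g : G) (x : B), x ∈ A → g • x ∈ A) (σ : G)
    (k : ℕ) : ∀ y ∈ A, ∃ b ∈ A, σ ^ k • y - y = σ • b - b := by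
  induction k with
  | zero => intro y _; exact ⟨0, A.zero_mem, by simp⟩
  | succ k ih =>
    intro y hy
    obtain ⟨b, hb, hbe⟩ := ih y hy
    refine ⟨b + σ ^ k • y, A.add_mem hb (hA _ _ hy), ?_⟩
    rw [pow_succ', mul_smul, smul_add]
    linear_combination hbe

/-- Graded exactness for `Ĥ⁻¹` when `G` is generated by `σ`. -/
theorem E1 (σ : G) (hσ : ∀ g : G, g ∈ Subgroup.zpowers σ) (n : ℕ) (a : B)
    (ha : a ∈ fil π (lattice R G θ) (n + 1))
    (hTr : trc G a ∈ fil π (lattice R G θ) (n + 2)) :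
    ∃ b ∈ fil π (lattice R G θ) (n + 1), a - (σ • b - b) ∈ fil π (lattice R G θ) (n + 2) := by
  classical
  have hfilt := H.isUnitFiltration
  obtain ⟨c, rfl⟩ := mem_fil_iff.1 ha
  obtain ⟨d, hd⟩ := mem_fil_iff.1 hTr
  -- the trace in coordinates
  have htr : trc G (∑ p : G × J, (π ^ (n + 1) * c p) • (p.1 • θ p.2)) =
      ∑ p : G × J, (∑ h : G, π ^ (n + 1) * c (h, p.2)) • (p.1 • θ p.2) := by
    unfold trc
    have h1 : ∀ g : G, g • ∑ p : G × J, (π ^ (n + 1) * c p) • (p.1 • θ p.2) =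
        ∑ j : J, ∑ h : G, (π ^ (n + 1) * c (h, j)) • ((g * h) • θ j) := by
      intro g
      rw [Finset.smul_sum, Fintype.sum_prod_type, Finset.sum_comm]
      refine Finset.sum_congr rfl (fun j _ => Finset.sum_congr rfl (fun h _ => ?_))
      rw [H.smul_algebra_smul]
      simp only [mul_smul]
    simp only [h1]
    calc ∑ g : G, ∑ j : J, ∑ h : G, (π ^ (n + 1) * c (h, j)) • ((g * h) • θ j)
        = ∑ j : J, ∑ g : G, ∑ h : G, (π ^ (n + 1) * c (h, j)) • ((g * h) • θ j) :=
          Finset.sum_comm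
      _ = ∑ j : J, ∑ h : G, ∑ g : G, (π ^ (n + 1) * c (h, j)) • ((g * h) • θ j) :=
          Finset.sum_congr rfl (fun j _ => Finset.sum_comm)
      _ = ∑ j : J, ∑ h : G, ∑ k : G, (π ^ (n + 1) * c (h, j)) • (k • θ j) := by
          refine Finset.sum_congr rfl (fun j _ => Finset.sum_congr rfl (fun h _ => ?_))
          exact Fintype.sum_equiv (Equiv.mulRight h) _ _ (fun g => by simp)
      _ = ∑ j : J, ∑ k : G, ∑ h : G, (π ^ (n + 1) * c (h, j)) • (k • θ j) :=
          Finset.sum_congr rfl (fun j _ => Finset.sum_comm)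
      _ = ∑ k : G, ∑ j : J, ∑ h : G, (π ^ (n + 1) * c (h, j)) • (k • θ j) :=
          Finset.sum_comm
      _ = ∑ p : G × J, (∑ h : G, π ^ (n + 1) * c (h, p.2)) • (p.1 • θ p.2) := by
          rw [Fintype.sum_prod_type]
          refine Finset.sum_congr rfl (fun k _ => Finset.sum_congr rfl (fun j _ => ?_))
          rw [Finset.sum_smul]
  rw [htr] at hd
  have hcoef := H.coeff_ext hd
  -- the column sums are divisible by `π`
  have hs : ∀ j : J, ∑ h : G, c (h, j) = π * d (1, j) := by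
    intro j
    have h1 := congrFun hcoef (1, j)
    simp only at h1
    rw [← Finset.mul_sum] at h1
    have h2 : π ^ (n + 1) * (∑ h : G, c (h, j) - π * d (1, j)) = 0 := by
      rw [mul_sub, ← h1]; ring
    exact sub_eq_zero.1 (H.regular_pow (n + 1) _ h2)
  -- the elements `y p`
  obtain ⟨y, hy⟩ : ∃ y : G × J → B, ∀ p, y p = (π ^ (n + 1) * c p) • θ p.2 :=
    ⟨_, fun _ => rfl⟩
  have hymem : ∀ p, y p ∈ fil π (lattice R G θ) (n + 1) := by
    intro p
    refine mem_fil.2 ⟨c p • θ p.2, Submodule.smul_mem _ _ ?_, by rw [hy, mul_smul]⟩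
    have := basis_mem (R := R) (θ := θ) (1 : G) p.2
    simpa using this
  have hex : ∀ p : G × J, ∃ b ∈ fil π (lattice R G θ) (n + 1), p.1 • y p - y p = σ • b - b := by
    intro p
    have hp := hσ p.1
    rw [← (isOfFinOrder_of_finite σ).mem_powers_iff_mem_zpowers, Submonoid.mem_powers_iff] at hp
    obtain ⟨k, hk⟩ := hp
    rw [← hk]
    exact exists_sub_eq _ (fun g x hx => hfilt.smul_mem g hx) σ k (y p) (hymem p)
  choose b hb hbe using hex
  refine ⟨∑ p : G × J, b p, AddSubgroup.sum_mem _ (fun p _ => hb p), ?_⟩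
  have hsum1 : ∑ p : G × J, (π ^ (n + 1) * c p) • (p.1 • θ p.2) = ∑ p : G × J, p.1 • y p := by
    refine Finset.sum_congr rfl (fun p _ => ?_)
    rw [hy, H.smul_algebra_smul]
  have hsum2 : σ • ∑ p : G × J, b p - ∑ p : G × J, b p = ∑ p : G × J, (p.1 • y p - y p) := by
    rw [Finset.smul_sum, ← Finset.sum_sub_distrib]
    exact Finset.sum_congr rfl (fun p _ => (hbe p).symm)
  rw [hsum1, hsum2, ← Finset.sum_sub_distrib]
  have hsum3 : ∑ p : G × J, (p.1 • y p - (p.1 • y p - y p)) =
      ∑ j : J, (π ^ (n + 2) * d (1, j)) • ((1 : G) • θ j) := by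
    simp only [sub_sub_cancel]
    rw [Fintype.sum_prod_type, Finset.sum_comm]
    refine Finset.sum_congr rfl (fun j _ => ?_)
    simp only [hy]
    rw [← Finset.sum_smul, ← Finset.mul_sum, hs j, one_smul]
    congr 1; ring
  rw [hsum3]
  refine AddSubgroup.sum_mem _ (fun j _ => ?_)
  exact mem_fil.2 ⟨d (1, j) • ((1 : G) • θ j), Submodule.smul_mem _ _ (basis_mem (R := R) (1 : G) j),
    by rw [mul_smul]⟩

/-- `1 + π ^ (n+1) x` (`x ∈ Λ`) is invertible with inverse of the same shape. -/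
theorem exists_inv_one_add {a : B} {n : ℕ} (ha : a ∈ fil π (lattice R G θ) (n + 1)) :
    ∃ t ∈ fil π (lattice R G θ) (n + 1), (1 + a) * (1 + t) = 1 :=
  H.isUnitFiltration.exists_inv ha

/-- `1 + π x` is a unit for `x ∈ Λ`. -/
theorem isUnit_one_add_smul {x : B} (hx : x ∈ lattice R G θ) : IsUnit (1 + π • x) := by
  apply H.isUnitFiltration.isUnit_of_sub_one_mem
  refine mem_fil.2 ⟨x, hx, ?_⟩
  rw [pow_one]; ring

/-- **`Ĥ⁰(G, 1 + πΛ) = 0`**: a `G`-fixed element of `1 + πΛ` is a norm from `1 + πΛ`. -/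
theorem fixed_eq_norm {u : B} (hu : u - 1 ∈ fil π (lattice R G θ) 1)
    (hfix : ∀ g : G, g • u = u) :
    ∃ w : B, w - 1 ∈ fil π (lattice R G θ) 1 ∧ u = ∏ g : G, g • w :=
  H.isUnitFiltration.fixed_eq_norm (fun n a ha hf => H.E0 n a ha hf) hu hfix

/-- **`Ĥ⁻¹(G, 1 + πΛ) = 0`** for `G = ⟨σ⟩`: an element of `1 + πΛ` of norm `1` is `σ w / w`. -/
theorem norm_one_eq_div (σ : G) (hσ : ∀ g : G, g ∈ Subgroup.zpowers σ) {u : B}
    (hu : u - 1 ∈ fil π (lattice R G θ) 1) (hN : ∏ g : G, g • u = 1) :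
    ∃ w : B, w - 1 ∈ fil π (lattice R G θ) 1 ∧ u * w = σ • w :=
  H.isUnitFiltration.norm_one_eq_div σ (fun n a ha hT => H.E1 σ hσ n a ha hT) hu hN

/-- The `G`-stable subgroup `1 + π ^ (n+1) Λ` of `Bˣ`. -/
noncomputable def unitsSubgroup (n : ℕ) : Subgroup Bˣ := H.isUnitFiltration.unitsSubgroup n

theorem mem_unitsSubgroup {n : ℕ} {u : Bˣ} :
    u ∈ H.unitsSubgroup n ↔ ∃ x ∈ lattice R G θ, (u : B) = 1 + π ^ (n + 1) • x := by
  unfold unitsSubgroup
  rw [IsUnitFiltration.mem_unitsSubgroup, mem_fil]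
  constructor
  · rintro ⟨y, hy, hyu⟩
    exact ⟨y, hy, by rw [hyu]; ring⟩
  · rintro ⟨x, hx, hxu⟩
    exact ⟨x, hx, by rw [hxu]; ring⟩

theorem actUnits_mem_unitsSubgroup {n : ℕ} (g : G) {u : Bˣ} (hu : u ∈ H.unitsSubgroup n) :
    actUnits g u ∈ H.unitsSubgroup n :=
  H.isUnitFiltration.actUnits_mem g hu

/-- Unit form of `Ĥ⁰ = 0`. -/
theorem fixed_eq_norm_units {u : Bˣ} (hu : u ∈ H.unitsSubgroup 0)
    (hfix : ∀ g : G, actUnits g u = u) :
    ∃ w ∈ H.unitsSubgroup 0, u = ∏ g : G, actUnits g w :=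
  H.isUnitFiltration.fixed_eq_norm_units (fun n a ha hf => H.E0 n a ha hf) hu hfix

/-- Unit form of `Ĥ⁻¹ = 0` for `G = ⟨σ⟩`. -/
theorem norm_one_eq_div_units (σ : G) (hσ : ∀ g : G, g ∈ Subgroup.zpowers σ) {u : Bˣ}
    (hu : u ∈ H.unitsSubgroup 0) (hN : ∏ g : G, actUnits g u = 1) :
    ∃ w ∈ H.unitsSubgroup 0, u = actUnits σ w / w :=
  H.isUnitFiltration.norm_one_eq_div_units σ (fun n a ha hT => H.E1 σ hσ n a ha hT) hu hN

end IsNormalLattice

/-- Elementary separatedness / completeness from `IsAdicComplete`. -/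
theorem sep_complete_of_isAdicComplete {R : Type*} [CommRing R] (π : R)
    [IsAdicComplete (Ideal.span {π}) R] :
    (∀ r : R, (∀ n, π ^ n ∣ r) → r = 0) ∧
      ∀ c : ℕ → R, ∃ s : R, ∀ n, π ^ n ∣ s - ∑ j ∈ Finset.range n, π ^ j * c j := by
  have hmem : ∀ (n : ℕ) (x : R),
      x ∈ ((Ideal.span {π}) ^ n • ⊤ : Submodule R R) ↔ π ^ n ∣ x := by
    intro n x
    rw [smul_eq_mul, Ideal.mul_top, Ideal.span_singleton_pow, Ideal.mem_span_singleton]
  refine ⟨?_, ?_⟩
  · intro r hr
    apply IsHausdorff.haus (I := Ideal.span {π}) inferInstance r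
    intro n
    rw [SModEq.zero, hmem]
    exact hr n
  · intro c
    have hcauchy : ∀ {m n : ℕ}, m ≤ n →
        (∑ j ∈ Finset.range m, π ^ j * c j) ≡ (∑ j ∈ Finset.range n, π ^ j * c j)
          [SMOD ((Ideal.span {π}) ^ m • ⊤ : Submodule R R)] := by
      intro m n hmn
      rw [SModEq.sub_mem, hmem]
      induction n, hmn using Nat.le_induction with
      | base => simp
      | succ n hmn ih =>
        rw [Finset.sum_range_succ]
        have h1 : π ^ m ∣ π ^ n * c n := Dvd.dvd.mul_right (pow_dvd_pow π hmn) _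
        have h2 : ∑ j ∈ Finset.range m, π ^ j * c j - (∑ j ∈ Finset.range n, π ^ j * c j + π ^ n * c n)
            = (∑ j ∈ Finset.range m, π ^ j * c j - ∑ j ∈ Finset.range n, π ^ j * c j) - π ^ n * c n := by
          ring
        rw [h2]
        exact dvd_sub ih h1
    obtain ⟨L, hL⟩ := IsPrecomplete.prec (I := Ideal.span {π}) inferInstance hcauchy
    refine ⟨L, fun n => ?_⟩
    have := hL n
    rw [SModEq.sub_mem, hmem] at this
    rw [← dvd_neg, neg_sub]; exact this

/-- Bridge from Mathlib's `IsAdicComplete`. -/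
theorem isNormalLattice_of_isAdicComplete [IsDomain R] {π : R} (hπ : π ≠ 0)
    [IsAdicComplete (Ideal.span {π}) R] {θ : J → B}
    (fixed : ∀ (g : G) (r : R), g • algebraMap R B r = algebraMap R B r)
    (indep : LinearIndependent R (fun p : G × J => p.1 • θ p.2))
    (mul_mem : ∀ x ∈ lattice R G θ, ∀ y ∈ lattice R G θ, x * y ∈ lattice R G θ) :
    IsNormalLattice π G θ :=
  ⟨(sep_complete_of_isAdicComplete π).1, (sep_complete_of_isAdicComplete π).2,
    fun _ hr => (mul_eq_zero.1 hr).resolve_left hπ, fixed, indep, mul_mem⟩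

end Lattice

section Galois

/-- For a domain `R` with fraction field `K` and a finite Galois extension `L / K`, there is a
normal basis generator `θ` whose conjugates span an `R`-lattice closed under multiplication. -/
theorem exists_normalBasis_lattice (R K L : Type*) [CommRing R] [IsDomain R] [Field K]
    [Algebra R K] [IsFractionRing R K] [Field L] [Algebra K L] [Algebra R L]
    [IsScalarTower R K L] [FiniteDimensional K L] [IsGalois K L] :
    ∃ θ : L, LinearIndependent K (fun g : L ≃ₐ[K] L => g θ) ∧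
      ∀ x ∈ Submodule.span R (Set.range fun g : L ≃ₐ[K] L => g θ),
        ∀ y ∈ Submodule.span R (Set.range fun g : L ≃ₐ[K] L => g θ),
          x * y ∈ Submodule.span R (Set.range fun g : L ≃ₐ[K] L => g θ) := by
  classical
  let b := IsGalois.normalBasis K L
  have hb : ∀ g : L ≃ₐ[K] L, b g = g (b 1) := fun g => IsGalois.normalBasis_apply g
  -- common denominator of the structure constants
  obtain ⟨d, hd⟩ := IsLocalization.exist_integer_multiples_of_finite (nonZeroDivisors R)
    (fun t : (L ≃ₐ[K] L) × (L ≃ₐ[K] L) × (L ≃ₐ[K] L) => b.repr (b t.1 * b t.2.1) t.2.2)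
  have hd0 : algebraMap R K (d : R) ≠ 0 :=
    IsFractionRing.to_map_ne_zero_of_mem_nonZeroDivisors d.2
  have hsm : ∀ x : L, ((d : R) • x) = algebraMap R K (d : R) • x := fun x =>
    (algebraMap_smul K (d : R) x).symm
  have hconj : ∀ g : L ≃ₐ[K] L, g ((d : R) • b 1) = algebraMap R K (d : R) • b g := by
    intro g
    rw [hsm, map_smul, hb g]
  refine ⟨(d : R) • b 1, ?_, ?_⟩
  · have h1 := b.linearIndependent.units_smul (fun _ => Units.mk0 _ hd0)
    have h2 : (fun g : L ≃ₐ[K] L => g ((d : R) • b 1)) =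
        ((fun _ : L ≃ₐ[K] L => Units.mk0 _ hd0) • (b : (L ≃ₐ[K] L) → L)) := by
      funext g
      rw [hconj g]
      simp [Units.smul_def]
    rw [h2]; exact h1
  · have key : ∀ g h : L ≃ₐ[K] L, g ((d : R) • b 1) * h ((d : R) • b 1) ∈
        Submodule.span R (Set.range fun g : L ≃ₐ[K] L => g ((d : R) • b 1)) := by
      intro g h
      rw [hconj g, hconj h, smul_mul_smul_comm, ← b.sum_repr (b g * b h), Finset.smul_sum]
      refine Submodule.sum_mem _ (fun k _ => ?_)
      obtain ⟨r, hr⟩ := hd (g, h, k)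
      have h3 : (algebraMap R K (d : R) * algebraMap R K (d : R)) • (b.repr (b g * b h)) k • b k
          = r • k ((d : R) • b 1) := by
        rw [hconj k, ← algebraMap_smul K r, hr, Algebra.smul_def (d : R), smul_smul, smul_smul]
        congr 1; ring
      rw [h3]
      exact Submodule.smul_mem _ _ (Submodule.subset_span ⟨k, rfl⟩)
    intro x hx y hy
    induction hx using Submodule.span_induction with
    | mem x hx =>
      obtain ⟨g, rfl⟩ := hx
      induction hy using Submodule.span_induction with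
      | mem y hy => obtain ⟨h, rfl⟩ := hy; exact key g h
      | zero => rw [mul_zero]; exact Submodule.zero_mem _
      | add y z _ _ hy hz => rw [mul_add]; exact Submodule.add_mem _ hy hz
      | smul r y _ hy => rw [mul_smul_comm]; exact Submodule.smul_mem _ _ hy
    | zero => rw [zero_mul]; exact Submodule.zero_mem _
    | add x z _ _ hx hz => rw [add_mul]; exact Submodule.add_mem _ hx hz
    | smul r x _ hx => rw [smul_mul_assoc]; exact Submodule.smul_mem _ _ hx

/-- For the Galois group, `actUnits` is Mathlib's action on units. -/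
theorem actUnits_algEquiv {K L : Type*} [Field K] [Field L] [Algebra K L] (g : L ≃ₐ[K] L)
    (u : Lˣ) : actUnits g u = g • u := Units.ext rfl

/-- A normal-basis lattice for a finite Galois extension of the fraction field of a
`π`-adically separated and complete domain. -/
theorem exists_isNormalLattice_galois (R K L : Type*) [CommRing R] [IsDomain R] [Field K]
    [Algebra R K] [IsFractionRing R K] [Field L] [Algebra K L] [Algebra R L]
    [IsScalarTower R K L] [FiniteDimensional K L] [IsGalois K L] {π : R} (hπ : π ≠ 0)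
    (sep : ∀ r : R, (∀ n, π ^ n ∣ r) → r = 0)
    (complete : ∀ c : ℕ → R, ∃ s : R, ∀ n, π ^ n ∣ s - ∑ j ∈ Finset.range n, π ^ j * c j) :
    ∃ θ : L, LinearIndependent K (fun g : L ≃ₐ[K] L => g θ) ∧
      IsNormalLattice π (L ≃ₐ[K] L) (fun _ : Unit => θ) := by
  obtain ⟨θ, hli, hmul⟩ := exists_normalBasis_lattice R K L
  have hrange : Set.range (fun p : (L ≃ₐ[K] L) × Unit => p.1 • (fun _ : Unit => θ) p.2) =
      Set.range (fun g : L ≃ₐ[K] L => g θ) := by
    ext x
    constructor
    · rintro ⟨p, rfl⟩; exact ⟨p.1, rfl⟩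
    · rintro ⟨g, rfl⟩; exact ⟨(g, ()), rfl⟩
  have hlat : lattice R (L ≃ₐ[K] L) (fun _ : Unit => θ) =
      Submodule.span R (Set.range fun g : L ≃ₐ[K] L => g θ) := by
    unfold lattice; rw [hrange]
  refine ⟨θ, hli, sep, complete, fun r hr => (mul_eq_zero.1 hr).resolve_left hπ, ?_, ?_, ?_⟩
  · intro g r
    rw [AlgEquiv.smul_def, IsScalarTower.algebraMap_apply R K L, AlgEquiv.commutes]
  · have h1 : LinearIndependent K (fun p : (L ≃ₐ[K] L) × Unit => p.1 • (fun _ : Unit => θ) p.2) :=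
      hli.comp (Prod.fst : (L ≃ₐ[K] L) × Unit → (L ≃ₐ[K] L))
        (fun p q hpq => Prod.ext hpq rfl)
    refine h1.restrict_scalars ?_
    intro r r' hrr
    apply IsFractionRing.injective R K
    simpa [Algebra.smul_def] using hrr
  · rw [hlat]; exact hmul

/-- **One-stop statement for cyclic extensions.** For a `π`-adically separated and complete
domain `R` with fraction field `K` and a finite cyclic Galois extension `L / K` with group
generated by `σ`, there is a normal basis generator `θ` such that `V = 1 + π • Λ`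
(`Λ = ⊕ R · g θ`) is a Galois-stable subgroup of `Lˣ` with trivial `Ĥ⁰` and `Ĥ⁻¹`. -/
theorem exists_unitsSubgroup_galois (R K L : Type*) [CommRing R] [IsDomain R] [Field K]
    [Algebra R K] [IsFractionRing R K] [Field L] [Algebra K L] [Algebra R L]
    [IsScalarTower R K L] [FiniteDimensional K L] [IsGalois K L] {π : R} (hπ : π ≠ 0)
    (sep : ∀ r : R, (∀ n, π ^ n ∣ r) → r = 0)
    (complete : ∀ c : ℕ → R, ∃ s : R, ∀ n, π ^ n ∣ s - ∑ j ∈ Finset.range n, π ^ j * c j)
    (σ : L ≃ₐ[K] L) (hσ : ∀ g : L ≃ₐ[K] L, g ∈ Subgroup.zpowers σ) :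
    ∃ (θ : L) (V : Subgroup Lˣ), LinearIndependent K (fun g : L ≃ₐ[K] L => g θ) ∧
      (∀ x ∈ Submodule.span R (Set.range fun g : L ≃ₐ[K] L => g θ),
        ∀ y ∈ Submodule.span R (Set.range fun g : L ≃ₐ[K] L => g θ),
          x * y ∈ Submodule.span R (Set.range fun g : L ≃ₐ[K] L => g θ)) ∧
      (∀ u : Lˣ, u ∈ V ↔ ∃ x ∈ Submodule.span R (Set.range fun g : L ≃ₐ[K] L => g θ),
        (u : L) = 1 + π • x) ∧
      (∀ x ∈ Submodule.span R (Set.range fun g : L ≃ₐ[K] L => g θ), IsUnit (1 + π • x)) ∧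
      (∀ (g : L ≃ₐ[K] L), ∀ u ∈ V, g • u ∈ V) ∧
      (∀ u ∈ V, (∀ g : L ≃ₐ[K] L, g • u = u) → ∃ w ∈ V, u = ∏ g : L ≃ₐ[K] L, g • w) ∧
      (∀ u ∈ V, ∏ g : L ≃ₐ[K] L, g • u = 1 → ∃ w ∈ V, u = σ • w / w) := by
  classical
  obtain ⟨θ, hli, H⟩ := exists_isNormalLattice_galois R K L hπ sep complete
  have hrange : Set.range (fun p : (L ≃ₐ[K] L) × Unit => p.1 • (fun _ : Unit => θ) p.2) =
      Set.range (fun g : L ≃ₐ[K] L => g θ) := by
    ext x
    constructor
    · rintro ⟨p, rfl⟩; exact ⟨p.1, rfl⟩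
    · rintro ⟨g, rfl⟩; exact ⟨(g, ()), rfl⟩
  have hlat : lattice R (L ≃ₐ[K] L) (fun _ : Unit => θ) =
      Submodule.span R (Set.range fun g : L ≃ₐ[K] L => g θ) := by
    unfold lattice; rw [hrange]
  refine ⟨θ, H.unitsSubgroup 0, hli, ?_, ?_, ?_, ?_, ?_, ?_⟩
  · rw [← hlat]; exact H.mul_mem
  · intro u
    rw [H.mem_unitsSubgroup, hlat]
    simp only [zero_add, pow_one]
  · intro x hx
    rw [← hlat] at hx
    exact H.isUnit_one_add_smul hx
  · intro g u hu
    rw [← actUnits_algEquiv]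
    exact H.actUnits_mem_unitsSubgroup g hu
  · intro u hu hfix
    obtain ⟨w, hw, huw⟩ := H.fixed_eq_norm_units hu (fun g => by rw [actUnits_algEquiv]; exact hfix g)
    refine ⟨w, hw, ?_⟩
    rw [huw]
    exact Finset.prod_congr rfl (fun g _ => actUnits_algEquiv g w)
  · intro u hu hN
    have hN' : ∏ g : L ≃ₐ[K] L, actUnits g u = 1 := by
      rw [← hN]
      exact Finset.prod_congr rfl (fun g _ => actUnits_algEquiv g u)
    obtain ⟨w, hw, huw⟩ := H.norm_one_eq_div_units σ hσ hu hN'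
    exact ⟨w, hw, by rw [huw, actUnits_algEquiv]⟩

end Galois

end Fermat.Agent.Lib.NormalBasisUnits
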