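import Fermat.Agent.S23.Defs
import Fermat.Agent.S23.IntegralClosure
import Fermat.Agent.Lib.HoloQuotient
import Fermat.Agent.Lib.LevelOneBracket
import Fermat.Agent.Lib.LevelOneZeros

set_option autoImplicit false

/-!
# Division of a modular form by a level one form with simple zeros

If `D` is a level one form all of whose zeros are simple, with a nonzero limit at `i∞`, and `F`
is a form of level `Γ₀(N)` vanishing on the zero set of `D`, then `F / D` is a form of level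
`Γ₀(N)`.  Applied to `D = E₄`, `E₆` or `E₄³ E₆(z₀)² - E₄(z₀)³ E₆²`, whose zero sets are single
`SL(2, ℤ)`-orbits.
-/

namespace Fermat.Agent.Lib.OrbitDivideDirect

open UpperHalfPlane ModularForm EisensteinSeries Filter Derivative
open scoped MatrixGroups ModularForm Manifold Topology
open Fermat.Agent.S23 Fermat.Agent.S23.IntegralClosure
open Fermat.Agent.Lib.LevelOneBracket Fermat.Agent.Lib.LevelOneZeros

/-- Local division by a function with at most a simple zero. -/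
theorem differentiableAt_div_of_simple_zero {F Dc G : ℂ → ℂ} {U : Set ℂ} (hU : IsOpen U)
    (hF : DifferentiableOn ℂ F U) (hD : DifferentiableOn ℂ Dc U) {w : ℂ} (hw : w ∈ U)
    (hG : ∀ z ∈ U, G z = if Dc z = 0 then deriv F z / deriv Dc z else F z / Dc z)
    (hsimple : Dc w = 0 → deriv Dc w ≠ 0) (hzero : Dc w = 0 → F w = 0) :
    DifferentiableAt ℂ G w := by
  have hUw : U ∈ 𝓝 w := hU.mem_nhds hw
  by_cases h0 : Dc w = 0
  · have hF0 := hzero h0
    have hD1 := hsimple h0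
    have hdF : DifferentiableOn ℂ (dslope F w) U := (Complex.differentiableOn_dslope hUw).mpr hF
    have hdD : DifferentiableOn ℂ (dslope Dc w) U := (Complex.differentiableOn_dslope hUw).mpr hD
    have hdDw : dslope Dc w w ≠ 0 := by rw [dslope_same]; exact hD1
    have hcont : ContinuousAt (dslope Dc w) w := (hdD.differentiableAt hUw).continuousAt
    have hne : ∀ᶠ z in 𝓝 w, dslope Dc w z ≠ 0 := hcont.eventually_ne hdDw
    have heq : G =ᶠ[𝓝 w] fun z => dslope F w z / dslope Dc w z := by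
      filter_upwards [hne, hUw] with z hz hzU
      rw [hG z hzU]
      by_cases hzw : z = w
      · subst hzw
        rw [if_pos h0, dslope_same, dslope_same]
      · have hzw' : z - w ≠ 0 := sub_ne_zero.mpr hzw
        have hDz : Dc z = (z - w) * dslope Dc w z := by
          rw [dslope_of_ne _ hzw, slope_def_field, h0, sub_zero]
          field_simp
        have hFz : F z = (z - w) * dslope F w z := by
          rw [dslope_of_ne _ hzw, slope_def_field, hF0, sub_zero]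
          field_simp
        have hDz0 : Dc z ≠ 0 := by rw [hDz]; exact mul_ne_zero hzw' hz
        rw [if_neg hDz0, hFz, hDz]
        field_simp
    exact ((hdF.differentiableAt hUw).div (hdD.differentiableAt hUw)
      hdDw).congr_of_eventuallyEq heq
  · have hcont : ContinuousAt Dc w := (hD.differentiableAt hUw).continuousAt
    have hne : ∀ᶠ z in 𝓝 w, Dc z ≠ 0 := hcont.eventually_ne h0
    have heq : G =ᶠ[𝓝 w] fun z => F z / Dc z := by
      filter_upwards [hne, hUw] with z hz hzU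
      rw [hG z hzU, if_neg hz]
    exact ((hF.differentiableAt hUw).div (hD.differentiableAt hUw) h0).congr_of_eventuallyEq heq

/-- Division of holomorphic functions on the upper half plane: if all zeros of `Dv` are simple
and `f` vanishes at the zeros of `Dv`, then `f = Dv * g` with `g` holomorphic. -/
theorem exists_mdiff_div {f Dv : ℍ → ℂ} (hf : MDiff f) (hD : MDiff Dv)
    (hsimple : ∀ z : ℍ, Dv z = 0 → deriv (Dv ∘ ofComplex) z ≠ 0)
    (hzero : ∀ z : ℍ, Dv z = 0 → f z = 0) :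
    ∃ g : ℍ → ℂ, MDiff g ∧ f = Dv * g := by
  classical
  let g : ℍ → ℂ := fun z =>
    if Dv z = 0 then deriv (f ∘ ofComplex) z / deriv (Dv ∘ ofComplex) z else f z / Dv z
  refine ⟨g, ?_, ?_⟩
  · rw [UpperHalfPlane.mdifferentiable_iff]
    intro w hw
    apply DifferentiableAt.differentiableWithinAt
    have hcoe : ∀ z : ℂ, 0 < z.im → ((ofComplex z : ℍ) : ℂ) = z := by
      intro z hz
      rw [ofComplex_apply_of_im_pos hz]
    refine differentiableAt_div_of_simple_zero isOpen_upperHalfPlaneSet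
      (UpperHalfPlane.mdifferentiable_iff.mp hf) (UpperHalfPlane.mdifferentiable_iff.mp hD) hw
      ?_ ?_ ?_
    · intro z hz
      have hz' : 0 < z.im := hz
      simp only [Function.comp_apply, g]
      rw [hcoe z hz']
    · intro h
      have := hsimple (ofComplex w) h
      rwa [hcoe w hw] at this
    · intro h
      exact hzero (ofComplex w) h
  · funext z
    simp only [Pi.mul_apply, g]
    by_cases h : Dv z = 0
    · rw [if_pos h, h, zero_mul]
      exact hzero z h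
    · rw [if_neg h]
      field_simp

/-- (G) Division of a form of level `Γ₀(N)` by a level one form with simple zeros and nonzero
limit at `i∞`. -/
theorem div_of_simple_zeros (N : ℕ) [NeZero N] {K k : ℤ} {F Dv : ℍ → ℂ} (hF : IsMF (G0 N) K F)
    (hD : IsMF 𝒮ℒ k Dv) (hsimple : ∀ z : ℍ, Dv z = 0 → deriv (Dv ∘ ofComplex) z ≠ 0)
    (hzero : ∀ z : ℍ, Dv z = 0 → F z = 0)
    (hlim : ∃ c : ℂ, c ≠ 0 ∧ Tendsto Dv atImInfty (𝓝 c)) :
    ∃ F', IsMF (G0 N) (K - k) F' ∧ F = Dv * F' := by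
  obtain ⟨c, hc, hDlim⟩ := hlim
  have hFd : MDiff F := mdiff_of_isMF hF
  have hDd : MDiff Dv := mdiff_of_isMF hD
  obtain ⟨g, hgd, hFg⟩ := exists_mdiff_div hFd hDd hsimple hzero
  have hD0 : Dv ≠ 0 := by
    intro h
    rw [h] at hDlim
    have : (0 : ℂ) = c := tendsto_nhds_unique tendsto_const_nhds hDlim
    exact hc this.symm
  have hgD : g * Dv = F := by rw [hFg, mul_comm]
  have hDslash : ∀ δ : SL(2, ℤ), Dv ∣[k] δ = Dv := fun δ => slash_eq_of_isMF_SL hD δ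
  have hginv : ∀ γ ∈ CongruenceSubgroup.Gamma0 N, g ∣[K - k] γ = g := by
    intro γ hγ
    refine Fermat.Agent.Lib.HoloQuotient.slash_eq_of_mul_eq hgd hDd hD0 hgD γ ?_ (hDslash γ)
    rw [sub_add_cancel]
    exact slash_eq_of_isMF_G0 hF hγ
  have hbdd : ∀ δ : SL(2, ℤ), IsBoundedAtImInfty (g ∣[K - k] δ) := by
    intro δ
    have h1 : (g ∣[K - k] δ) * Dv = F ∣[K] δ := by
      have := ModularForm.mul_slash_SL2 (K - k) k δ g Dv
      rw [hgD, hDslash δ, sub_add_cancel] at this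
      exact this.symm
    have hFb : IsBoundedAtImInfty (F ∣[K] δ) := by
      obtain ⟨F₀, rfl⟩ := hF
      exact ModularFormClass.bdd_at_infty_slash F₀ δ
    have hDinv : IsBoundedAtImInfty (fun z => (Dv z)⁻¹) := (hDlim.inv₀ hc).isBigO_one ℝ
    have hev : ∀ᶠ z in atImInfty, Dv z ≠ 0 := hDlim.eventually_ne hc
    have heq : (F ∣[K] δ) * (fun z => (Dv z)⁻¹) =ᶠ[atImInfty] (g ∣[K - k] δ) := by
      filter_upwards [hev] with z hz
      have := congrFun h1 z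
      simp only [Pi.mul_apply] at this ⊢
      rw [← this]
      field_simp
    exact (hFb.mul hDinv).congr' heq (EventuallyEq.refl _ _)
  refine ⟨g, ⟨{ toFun := g
                slash_action_eq' := ?_
                holo' := hgd
                bdd_at_cusps' := ?_ }, rfl⟩, hFg⟩
  · rintro _ ⟨γ, hγ, rfl⟩
    exact hginv γ hγ
  · intro c hc
    rw [Subgroup.IsArithmetic.isCusp_iff_isCusp_SL2Z] at hc
    rw [OnePoint.isBoundedAt_iff_forall_SL2Z hc]
    intro δ _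
    exact hbdd δ

/-! ## The three divisors -/

theorem apply_smul_eq_zero_of_slash {K : ℤ} {F : ℍ → ℂ} {z₀ : ℍ}
    (h0 : ∀ γ : SL(2, ℤ), (F ∣[K] γ) z₀ = 0) (γ : SL(2, ℤ)) : F (γ • z₀) = 0 := by
  have := h0 γ
  rw [ModularForm.SL_slash_apply] at this
  exact (mul_eq_zero.mp this).resolve_right (zpow_ne_zero _ (denom_ne_zero _ _))

/-- Division by `E₄` of a form vanishing on the orbit of a zero of `E₄`. -/
theorem orbit_divide_E₄ (N : ℕ) [NeZero N] {K : ℤ} {F : ℍ → ℂ} (hF : IsMF (G0 N) K F) (z₀ : ℍ)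
    (h₀ : E₄ z₀ = 0) (h0 : ∀ γ : SL(2, ℤ), (F ∣[K] γ) z₀ = 0) :
    ∃ F', IsMF (G0 N) (K - 4) F' ∧ F = ⇑E₄ * F' := by
  refine div_of_simple_zeros N hF (IsMF.coe E₄) ?_ ?_ ⟨1, one_ne_zero, tendsto_E₄⟩
  · intro z hz
    exact (D_ne_zero_iff _ z).mp (D_E₄_ne_zero hz)
  · intro z hz
    obtain ⟨γ, rfl⟩ := exists_smul_eq_of_E₄_eq_zero h₀ hz
    exact apply_smul_eq_zero_of_slash h0 γ

/-- Division by `E₆` of a form vanishing on the orbit of a zero of `E₆`. -/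
theorem orbit_divide_E₆ (N : ℕ) [NeZero N] {K : ℤ} {F : ℍ → ℂ} (hF : IsMF (G0 N) K F) (z₀ : ℍ)
    (h₀ : E₆ z₀ = 0) (h0 : ∀ γ : SL(2, ℤ), (F ∣[K] γ) z₀ = 0) :
    ∃ F', IsMF (G0 N) (K - 6) F' ∧ F = ⇑E₆ * F' := by
  refine div_of_simple_zeros N hF (IsMF.coe E₆) ?_ ?_ ⟨1, one_ne_zero, tendsto_E₆⟩
  · intro z hz
    exact (D_ne_zero_iff _ z).mp (D_E₆_ne_zero hz)
  · intro z hz
    obtain ⟨γ, rfl⟩ := exists_smul_eq_of_E₆_eq_zero h₀ hz
    exact apply_smul_eq_zero_of_slash h0 γ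

theorem genericForm_isMF (z₀ : ℍ) : IsMF 𝒮ℒ 12 (genericForm z₀) := by
  have h4 : IsMF 𝒮ℒ 12 ((E₄ : ℍ → ℂ) ^ 3) := ((IsMF.coe E₄).pow 3).weight_congr (by norm_num)
  have h6 : IsMF 𝒮ℒ 12 ((E₆ : ℍ → ℂ) ^ 2) := ((IsMF.coe E₆).pow 2).weight_congr (by norm_num)
  have e : genericForm z₀ =
      (E₆ z₀ ^ 2) • ((E₄ : ℍ → ℂ) ^ 3) - (E₄ z₀ ^ 3) • ((E₆ : ℍ → ℂ) ^ 2) := by
    ext w; simp [genericForm]; ring
  rw [e]
  exact (h4.smul _).sub (h6.smul _)

theorem tendsto_genericForm (z₀ : ℍ) :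
    Tendsto (genericForm z₀) atImInfty (𝓝 (E₆ z₀ ^ 2 - E₄ z₀ ^ 3)) := by
  have h := ((tendsto_E₄.pow 3).mul_const (E₆ z₀ ^ 2)).sub
    ((tendsto_E₆.pow 2).const_mul (E₄ z₀ ^ 3))
  simp only [one_pow, one_mul, mul_one] at h
  exact h

/-- Division by `E₄³ E₆(z₀)² - E₄(z₀)³ E₆²` of a form vanishing on the orbit of `z₀`. -/
theorem orbit_divide_generic (N : ℕ) [NeZero N] {K : ℤ} {F : ℍ → ℂ} (hF : IsMF (G0 N) K F)
    (z₀ : ℍ) (h4 : E₄ z₀ ≠ 0) (h6 : E₆ z₀ ≠ 0) (h0 : ∀ γ : SL(2, ℤ), (F ∣[K] γ) z₀ = 0) :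
    ∃ F', IsMF (G0 N) (K - 12) F' ∧ F = genericForm z₀ * F' := by
  refine div_of_simple_zeros N hF (genericForm_isMF z₀) ?_ ?_
    ⟨E₆ z₀ ^ 2 - E₄ z₀ ^ 3, ?_, tendsto_genericForm z₀⟩
  · intro z hz
    obtain ⟨γ, rfl⟩ := (cross_eq_zero_iff h4 h6 z).mp hz
    have h4' : E₄ (γ • z₀) ≠ 0 := fun h => h4 ((apply_smul_eq_zero_iff E₄ γ z₀).mp h)
    have h6' : E₆ (γ • z₀) ≠ 0 := fun h => h6 ((apply_smul_eq_zero_iff E₆ γ z₀).mp h)
    rw [← D_ne_zero_iff]
    intro hD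
    have hz' : E₄ (γ • z₀) ^ 3 * E₆ z₀ ^ 2 = E₄ z₀ ^ 3 * E₆ (γ • z₀) ^ 2 := sub_eq_zero.mp hz
    have key : E₄ (γ • z₀) * E₆ (γ • z₀) * D (genericForm z₀) (γ • z₀) =
        E₄ (γ • z₀) ^ 3 * E₆ z₀ ^ 2 * bracket (γ • z₀) := by
      rw [D_genericForm]
      simp only [bracket]
      linear_combination (2 * E₄ (γ • z₀) * D E₆ (γ • z₀)) * hz'
    rw [hD, mul_zero] at key
    exact mul_ne_zero (mul_ne_zero (pow_ne_zero 3 h4') (pow_ne_zero 2 h6))
      (bracket_ne_zero _) key.symm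
  · intro z hz
    obtain ⟨γ, rfl⟩ := (cross_eq_zero_iff h4 h6 z).mp hz
    exact apply_smul_eq_zero_of_slash h0 γ
  · intro h
    exact cube_sub_sq_ne_zero z₀ (by linear_combination -h)

/-! ## The combined statement -/

open Classical in
/-- The weight of the divisor form attached to `z₀`. -/
noncomputable def divWeight (z₀ : ℍ) : ℤ :=
  if E₄ z₀ = 0 then 4 else if E₆ z₀ = 0 then 6 else 12

open Classical in
/-- The level one form vanishing exactly (and simply) on the orbit of `z₀`. -/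
noncomputable def divForm (z₀ : ℍ) : ℍ → ℂ :=
  if E₄ z₀ = 0 then E₄ else if E₆ z₀ = 0 then E₆ else
    fun z => E₄ z ^ 3 * E₆ z₀ ^ 2 - E₄ z₀ ^ 3 * E₆ z ^ 2

theorem divForm_isMF (z₀ : ℍ) : IsMF 𝒮ℒ (divWeight z₀) (divForm z₀) := by
  unfold divWeight divForm
  split_ifs with h4 h6
  · exact IsMF.coe E₄
  · exact IsMF.coe E₆
  · exact genericForm_isMF z₀

theorem divForm_eq_zero_iff (z₀ z : ℍ) : divForm z₀ z = 0 ↔ ∃ γ : SL(2, ℤ), γ • z₀ = z := by
  unfold divForm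
  split_ifs with h4 h6
  · exact E₄_eq_zero_iff h4 z
  · exact E₆_eq_zero_iff h6 z
  · exact cross_eq_zero_iff h4 h6 z

theorem divForm_self (z₀ : ℍ) : divForm z₀ z₀ = 0 :=
  (divForm_eq_zero_iff z₀ z₀).mpr ⟨1, one_smul _ _⟩

/-- (O) If all `SL(2, ℤ)`-conjugates of a form `F` of level `Γ₀(N)` vanish at `z₀`, then `F` is
divisible by `divForm z₀`. -/
theorem orbit_divide (N : ℕ) [NeZero N] {K : ℤ} {F : ℍ → ℂ} (hF : IsMF (G0 N) K F) (z₀ : ℍ)
    (h0 : ∀ γ : SL(2, ℤ), (F ∣[K] γ) z₀ = 0) :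
    ∃ F', IsMF (G0 N) (K - divWeight z₀) F' ∧ F = divForm z₀ * F' := by
  unfold divWeight divForm
  split_ifs with h4 h6
  · exact orbit_divide_E₄ N hF z₀ h4 h0
  · exact orbit_divide_E₆ N hF z₀ h6 h0
  · exact orbit_divide_generic N hF z₀ h4 h6 h0

/-! ## Level one -/

theorem SL_le_G0_one : (𝒮ℒ : Subgroup (GL (Fin 2) ℝ)) ≤ G0 1 := by
  rintro _ ⟨γ, rfl⟩
  have hγ : γ ∈ CongruenceSubgroup.Gamma0 1 := by
    rw [CongruenceSubgroup.Gamma0_mem]
    exact Subsingleton.elim _ _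
  exact ⟨γ, hγ, rfl⟩

/-- A level one form vanishing at `z₀` is divisible by `divForm z₀` in level one. -/
theorem levelOne_divide {m : ℤ} {g : ℍ → ℂ} (hg : IsMF 𝒮ℒ m g) (z₀ : ℍ) (h : g z₀ = 0) :
    ∃ g', IsMF 𝒮ℒ (m - divWeight z₀) g' ∧ g = divForm z₀ * g' := by
  have h0 : ∀ γ : SL(2, ℤ), (g ∣[m] γ) z₀ = 0 := by
    intro γ
    rw [slash_eq_of_isMF_SL hg γ]
    exact h
  obtain ⟨g', hg', e⟩ := orbit_divide 1 (hg.toG0 1) z₀ h0
  exact ⟨g', hg'.mono SL_le_G0_one, e⟩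

theorem isMF_E₄_pow_mul_E₆_pow (a b : ℕ) :
    IsMF 𝒮ℒ (4 * (a : ℤ) + 6 * (b : ℤ)) ((E₄ : ℍ → ℂ) ^ a * (E₆ : ℍ → ℂ) ^ b) :=
  ((IsMF.coe E₄).pow a).mul ((IsMF.coe E₆).pow b)

/-- A level one form of weight `m` taking the value `1` at `z₀`, for all admissible weights. -/
theorem exists_levelOne_eq_one (z₀ : ℍ) (m : ℤ) (hm : Even m) (hm0 : 0 ≤ m) (hm2 : m ≠ 2)
    (h4 : E₄ z₀ = 0 → (6 : ℤ) ∣ m) (h6 : E₆ z₀ = 0 → (4 : ℤ) ∣ m) :
    ∃ a : ℍ → ℂ, IsMF 𝒮ℒ m a ∧ a z₀ = 1 := by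
  obtain ⟨a, b, hab, ha, hb⟩ : ∃ a b : ℕ, m = 4 * (a : ℤ) + 6 * (b : ℤ) ∧
      (E₄ z₀ = 0 → a = 0) ∧ (E₆ z₀ = 0 → b = 0) := by
    by_cases e4 : E₄ z₀ = 0
    · obtain ⟨t, ht⟩ := h4 e4
      have ht0 : 0 ≤ t := by omega
      refine ⟨0, t.toNat, ?_, fun _ => rfl, fun e6 => absurd e6 (E₆_ne_zero_of_E₄_eq_zero e4)⟩
      rw [Int.toNat_of_nonneg ht0]
      omega
    · by_cases e6 : E₆ z₀ = 0
      · obtain ⟨t, ht⟩ := h6 e6
        have ht0 : 0 ≤ t := by omega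
        refine ⟨t.toNat, 0, ?_, fun e => absurd e e4, fun _ => rfl⟩
        rw [Int.toNat_of_nonneg ht0]
        omega
      · obtain ⟨r, hr⟩ := hm
        by_cases hr2 : Even r
        · obtain ⟨t, ht⟩ := hr2
          have ht0 : 0 ≤ t := by omega
          refine ⟨t.toNat, 0, ?_, fun e => absurd e e4, fun e => absurd e e6⟩
          rw [Int.toNat_of_nonneg ht0]
          omega
        · obtain ⟨t, ht⟩ := Int.not_even_iff_odd.mp hr2
          have ht1 : 1 ≤ t := by omega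
          refine ⟨(t - 1).toNat, 1, ?_, fun e => absurd e e4, fun e => absurd e e6⟩
          rw [Int.toNat_of_nonneg (by omega)]
          omega
  have hv : E₄ z₀ ^ a * E₆ z₀ ^ b ≠ 0 := by
    refine mul_ne_zero ?_ ?_
    · by_cases e4 : E₄ z₀ = 0
      · rw [ha e4, pow_zero]; exact one_ne_zero
      · exact pow_ne_zero _ e4
    · by_cases e6 : E₆ z₀ = 0
      · rw [hb e6, pow_zero]; exact one_ne_zero
      · exact pow_ne_zero _ e6
  refine ⟨(E₄ z₀ ^ a * E₆ z₀ ^ b)⁻¹ • ((E₄ : ℍ → ℂ) ^ a * (E₆ : ℍ → ℂ) ^ b), ?_, ?_⟩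
  · exact ((isMF_E₄_pow_mul_E₆_pow a b).smul _).weight_congr hab.symm
  · simp only [Pi.smul_apply, Pi.mul_apply, Pi.pow_apply, smul_eq_mul]
    exact inv_mul_cancel₀ hv

end Fermat.Agent.Lib.OrbitDivideDirect
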