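import Mathlib

set_option autoImplicit false

namespace Fermat.Agent.Lib.PID13KD

open NumberField Polynomial Ideal NumberField.Ideal RingOfIntegers

section general

variable {K : Type*} [Field K] [NumberField K] {n : ℕ} [NeZero n]
  [IsCyclotomicExtension {n} ℚ K]

/-- Kummer–Dedekind for cyclotomic fields: `span {q, Q(ζ)}` is a prime over `q` when `Q mod q`
is a monic irreducible factor of `Φ_n mod q`. -/
theorem span_pair_mem_primesOver {ζ : K} (hζ : IsPrimitiveRoot ζ n) (q : ℕ) [Fact q.Prime]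
    (Q : ℤ[X]) (hirr : Irreducible (Q.map (Int.castRingHom (ZMod q))))
    (hmonic : (Q.map (Int.castRingHom (ZMod q))).Monic)
    (hdvd : Q.map (Int.castRingHom (ZMod q)) ∣ cyclotomic n (ZMod q)) :
    span {(q : 𝓞 K), aeval hζ.toInteger Q} ∈ primesOver (span {(q : ℤ)}) (𝓞 K) := by
  have h₁ : ¬ q ∣ exponent hζ.toInteger := by
    rw [exponent_eq_one_iff.mpr <| IsCyclotomicExtension.Rat.adjoin_singleton_eq_top hζ]
    exact (Fact.out : q.Prime).not_dvd_one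
  have hmin : minpoly ℤ hζ.toInteger = cyclotomic n ℤ := by
    rw [cyclotomic_eq_minpoly hζ (NeZero.pos _), ← RingOfIntegers.minpoly_coe]
    rfl
  have hQ : Q.map (Int.castRingHom (ZMod q)) ∈ monicFactorsMod hζ.toInteger q := by
    rw [Multiset.mem_toFinset, Polynomial.mem_normalizedFactors_iff
      (map_monic_ne_zero (minpoly.monic hζ.toInteger.isIntegral))]
    refine ⟨hirr, hmonic, ?_⟩
    rw [hmin, map_cyclotomic_int]
    exact hdvd
  rw [← primesOverSpanEquivMonicFactorsMod_symm_apply_eq_span h₁ hQ]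
  exact ((primesOverSpanEquivMonicFactorsMod h₁).symm ⟨_, hQ⟩).prop

/-- A principal prime over `q` from an explicit certificate. -/
theorem exists_principal_of_cert {ζ : K} (hζ : IsPrimitiveRoot ζ n) (q : ℕ) [Fact q.Prime]
    (Q : ℤ[X]) (hirr : Irreducible (Q.map (Int.castRingHom (ZMod q))))
    (hmonic : (Q.map (Int.castRingHom (ZMod q))).Monic)
    (hdvd : Q.map (Int.castRingHom (ZMod q)) ∣ cyclotomic n (ZMod q))
    (α β γ s t : 𝓞 K) (h1 : (q : 𝓞 K) = α * β) (h2 : aeval hζ.toInteger Q = α * γ)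
    (h3 : α = (q : 𝓞 K) * s + aeval hζ.toInteger Q * t) :
    ∃ P ∈ primesOver (span {(q : ℤ)}) (𝓞 K), Submodule.IsPrincipal P := by
  refine ⟨_, span_pair_mem_primesOver hζ q Q hirr hmonic hdvd, ⟨α, ?_⟩⟩
  change span {(q : 𝓞 K), aeval hζ.toInteger Q} = span {α}
  apply le_antisymm
  · rw [span_le]
    intro x hx
    simp only [Set.mem_insert_iff, Set.mem_singleton_iff] at hx
    rcases hx with rfl | rfl
    · exact mem_span_singleton.mpr ⟨β, h1⟩
    · exact mem_span_singleton.mpr ⟨γ, h2⟩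
  · rw [span_le, Set.singleton_subset_iff, SetLike.mem_coe, mem_span_pair]
    exact ⟨s, t, by rw [h3]; ring⟩

end general

section thirteen

variable {K : Type*} [Field K] [NumberField K] [IsCyclotomicExtension {13} ℚ K]

theorem geom13 : (1 : 𝓞 K) + (IsCyclotomicExtension.zeta_spec 13 ℚ K).toInteger
    + (IsCyclotomicExtension.zeta_spec 13 ℚ K).toInteger ^ 2
    + (IsCyclotomicExtension.zeta_spec 13 ℚ K).toInteger ^ 3
    + (IsCyclotomicExtension.zeta_spec 13 ℚ K).toInteger ^ 4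
    + (IsCyclotomicExtension.zeta_spec 13 ℚ K).toInteger ^ 5
    + (IsCyclotomicExtension.zeta_spec 13 ℚ K).toInteger ^ 6
    + (IsCyclotomicExtension.zeta_spec 13 ℚ K).toInteger ^ 7
    + (IsCyclotomicExtension.zeta_spec 13 ℚ K).toInteger ^ 8
    + (IsCyclotomicExtension.zeta_spec 13 ℚ K).toInteger ^ 9
    + (IsCyclotomicExtension.zeta_spec 13 ℚ K).toInteger ^ 10
    + (IsCyclotomicExtension.zeta_spec 13 ℚ K).toInteger ^ 11
    + (IsCyclotomicExtension.zeta_spec 13 ℚ K).toInteger ^ 12 = 0 := by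
  have h := (IsCyclotomicExtension.zeta_spec 13 ℚ K).toInteger_isPrimitiveRoot.geom_sum_eq_zero
    (by norm_num)
  simp only [Finset.sum_range_succ, Finset.sum_range_zero] at h
  linear_combination h

theorem exc53 : ∃ P ∈ primesOver (span {((53 : ℕ) : ℤ)}) (𝓞 K), Submodule.IsPrincipal P := by
  have hroot : ∑ x ∈ Finset.range 13, (((36 : ℤ) : ZMod 53)) ^ x = 0 := by decide
  have : Fact (Nat.Prime 53) := ⟨by norm_num⟩
  have : Fact (Nat.Prime 13) := ⟨by norm_num⟩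
  have hΦ := geom13 (K := K)
  set z : 𝓞 K := (IsCyclotomicExtension.zeta_spec 13 ℚ K).toInteger with hz
  have hmap : (X - C (36 : ℤ)).map (Int.castRingHom (ZMod 53)) =
      X - C (((36 : ℤ) : ZMod 53)) := by
    rw [Polynomial.map_sub, Polynomial.map_X, Polynomial.map_C]; rfl
  have haev : aeval z (X - C (36 : ℤ)) = z - 36 := by
    rw [map_sub, aeval_X, aeval_C, eq_intCast]; push_cast; rfl
  refine exists_principal_of_cert (IsCyclotomicExtension.zeta_spec 13 ℚ K) 53 (X - C (36 : ℤ))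
    ?_ ?_ ?_
    (1 + 1 * z + 1 * z ^ 3)
    (1 + (-24) * z + (-35) * z ^ 2 + (-25) * z ^ 3 + (-10) * z ^ 4 + (-14) * z ^ 5 + (-20) * z ^ 6 + (-29) * z ^ 7 + (-16) * z ^ 8 + (-23) * z ^ 9 + (-7) * z ^ 10 + (-36) * z ^ 11)
    (17 * z + 24 * z ^ 2 + 17 * z ^ 3 + 7 * z ^ 4 + 10 * z ^ 5 + 14 * z ^ 6 + 20 * z ^ 7 + 11 * z ^ 8 + 16 * z ^ 9 + 5 * z ^ 10 + 25 * z ^ 11)
    (881)
    (1297 + 36 * z + 1 * z ^ 2) ?_ ?_ ?_
  · rw [hmap]; exact irreducible_X_sub_C _
  · rw [hmap]; exact monic_X_sub_C _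
  · rw [hmap, dvd_iff_isRoot, IsRoot.def, cyclotomic_prime, eval_finsetSum]
    simp only [eval_pow, eval_X]
    exact hroot
  · push_cast
    linear_combination (-((-52) + 29 * z + (-36) * z ^ 2)) * hΦ
  · rw [haev]
    linear_combination (-(36 + (-20) * z + 25 * z ^ 2)) * hΦ
  · rw [haev]
    push_cast
    ring

theorem exc79 : ∃ P ∈ primesOver (span {((79 : ℕ) : ℤ)}) (𝓞 K), Submodule.IsPrincipal P := by
  have hroot : ∑ x ∈ Finset.range 13, (((64 : ℤ) : ZMod 79)) ^ x = 0 := by decide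
  have : Fact (Nat.Prime 79) := ⟨by norm_num⟩
  have : Fact (Nat.Prime 13) := ⟨by norm_num⟩
  have hΦ := geom13 (K := K)
  set z : 𝓞 K := (IsCyclotomicExtension.zeta_spec 13 ℚ K).toInteger with hz
  have hmap : (X - C (64 : ℤ)).map (Int.castRingHom (ZMod 79)) =
      X - C (((64 : ℤ) : ZMod 79)) := by
    rw [Polynomial.map_sub, Polynomial.map_X, Polynomial.map_C]; rfl
  have haev : aeval z (X - C (64 : ℤ)) = z - 64 := by
    rw [map_sub, aeval_X, aeval_C, eq_intCast]; push_cast; rfl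
  refine exists_principal_of_cert (IsCyclotomicExtension.zeta_spec 13 ℚ K) 79 (X - C (64 : ℤ))
    ?_ ?_ ?_
    (1 + 1 * z + (-1) * z ^ 4)
    (24 + (-25) * z + (-27) * z ^ 2 + 10 * z ^ 3 + (-3) * z ^ 4 + (-39) * z ^ 5 + (-5) * z ^ 6 + (-2) * z ^ 7 + (-18) * z ^ 8 + (-38) * z ^ 9 + 16 * z ^ 10 + (-35) * z ^ 11)
    ((-19) + 21 * z + 22 * z ^ 2 + (-8) * z ^ 3 + 3 * z ^ 4 + 32 * z ^ 5 + 4 * z ^ 6 + 2 * z ^ 7 + 15 * z ^ 8 + 31 * z ^ 9 + (-13) * z ^ 10 + 29 * z ^ 11)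
    (-212369)
    ((-262143) + (-4096) * z + (-64) * z ^ 2 + (-1) * z ^ 3) ?_ ?_ ?_
  · rw [hmap]; exact irreducible_X_sub_C _
  · rw [hmap]; exact monic_X_sub_C _
  · rw [hmap, dvd_iff_isRoot, IsRoot.def, cyclotomic_prime, eval_finsetSum]
    simp only [eval_pow, eval_X]
    exact hroot
  · push_cast
    linear_combination (-((-55) + 54 * z + (-51) * z ^ 2 + 35 * z ^ 3)) * hΦ
  · rw [haev]
    linear_combination (-(45 + (-44) * z + 42 * z ^ 2 + (-29) * z ^ 3)) * hΦ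
  · rw [haev]
    push_cast
    ring

theorem exc131 : ∃ P ∈ primesOver (span {((131 : ℕ) : ℤ)}) (𝓞 K), Submodule.IsPrincipal P := by
  have hroot : ∑ x ∈ Finset.range 13, (((80 : ℤ) : ZMod 131)) ^ x = 0 := by decide
  have : Fact (Nat.Prime 131) := ⟨by norm_num⟩
  have : Fact (Nat.Prime 13) := ⟨by norm_num⟩
  have hΦ := geom13 (K := K)
  set z : 𝓞 K := (IsCyclotomicExtension.zeta_spec 13 ℚ K).toInteger with hz
  have hmap : (X - C (80 : ℤ)).map (Int.castRingHom (ZMod 131)) =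
      X - C (((80 : ℤ) : ZMod 131)) := by
    rw [Polynomial.map_sub, Polynomial.map_X, Polynomial.map_C]; rfl
  have haev : aeval z (X - C (80 : ℤ)) = z - 80 := by
    rw [map_sub, aeval_X, aeval_C, eq_intCast]; push_cast; rfl
  refine exists_principal_of_cert (IsCyclotomicExtension.zeta_spec 13 ℚ K) 131 (X - C (80 : ℤ))
    ?_ ?_ ?_
    (1 + (-1) * z + (-1) * z ^ 3)
    (111 + 78 * z + 17 * z ^ 2 + 67 * z ^ 3 + 84 * z ^ 4 + 40 * z ^ 5 + 46 * z ^ 6 + 69 * z ^ 7 + 48 * z ^ 8 + 33 * z ^ 9 + 41 * z ^ 10 + 28 * z ^ 11)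
    ((-68) + (-47) * z + (-10) * z ^ 2 + (-41) * z ^ 3 + (-51) * z ^ 4 + (-24) * z ^ 5 + (-28) * z ^ 6 + (-42) * z ^ 7 + (-29) * z ^ 8 + (-20) * z ^ 9 + (-25) * z ^ 10 + (-17) * z ^ 11)
    (-3909)
    ((-6401) + (-80) * z + (-1) * z ^ 2) ?_ ?_ ?_
  · rw [hmap]; exact irreducible_X_sub_C _
  · rw [hmap]; exact monic_X_sub_C _
  · rw [hmap, dvd_iff_isRoot, IsRoot.def, cyclotomic_prime, eval_finsetSum]
    simp only [eval_pow, eval_X]
    exact hroot
  · push_cast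
    linear_combination (-((-20) + (-13) * z + (-28) * z ^ 2)) * hΦ
  · rw [haev]
    linear_combination (-(12 + 8 * z + 17 * z ^ 2)) * hΦ
  · rw [haev]
    push_cast
    ring

theorem exc157 : ∃ P ∈ primesOver (span {((157 : ℕ) : ℤ)}) (𝓞 K), Submodule.IsPrincipal P := by
  have hroot : ∑ x ∈ Finset.range 13, (((75 : ℤ) : ZMod 157)) ^ x = 0 := by decide
  have : Fact (Nat.Prime 157) := ⟨by norm_num⟩
  have : Fact (Nat.Prime 13) := ⟨by norm_num⟩
  have hΦ := geom13 (K := K)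
  set z : 𝓞 K := (IsCyclotomicExtension.zeta_spec 13 ℚ K).toInteger with hz
  have hmap : (X - C (75 : ℤ)).map (Int.castRingHom (ZMod 157)) =
      X - C (((75 : ℤ) : ZMod 157)) := by
    rw [Polynomial.map_sub, Polynomial.map_X, Polynomial.map_C]; rfl
  have haev : aeval z (X - C (75 : ℤ)) = z - 75 := by
    rw [map_sub, aeval_X, aeval_C, eq_intCast]; push_cast; rfl
  refine exists_principal_of_cert (IsCyclotomicExtension.zeta_spec 13 ℚ K) 157 (X - C (75 : ℤ))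
    ?_ ?_ ?_
    (1 + (-1) * z + 1 * z ^ 2 + 1 * z ^ 4)
    (89 + 86 * z + 42 * z ^ 2 + 77 * z ^ 3 + 67 * z ^ 4 + 25 * z ^ 5 + 37 * z ^ 6 + 56 * z ^ 7 + 73 * z ^ 8 + 113 * z ^ 9 + 124 * z ^ 10 + 76 * z ^ 11)
    ((-43) + (-41) * z + (-20) * z ^ 2 + (-37) * z ^ 3 + (-32) * z ^ 4 + (-12) * z ^ 5 + (-18) * z ^ 6 + (-27) * z ^ 7 + (-35) * z ^ 8 + (-54) * z ^ 9 + (-59) * z ^ 10 + (-36) * z ^ 11)
    (201568)
    (421949 + 5626 * z + 75 * z ^ 2 + 1 * z ^ 3) ?_ ?_ ?_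
  · rw [hmap]; exact irreducible_X_sub_C _
  · rw [hmap]; exact monic_X_sub_C _
  · rw [hmap, dvd_iff_isRoot, IsRoot.def, cyclotomic_prime, eval_finsetSum]
    simp only [eval_pow, eval_X]
    exact hroot
  · push_cast
    linear_combination (-((-68) + 65 * z + 48 * z ^ 2 + 76 * z ^ 3)) * hΦ
  · rw [haev]
    linear_combination (-(32 + (-31) * z + (-23) * z ^ 2 + (-36) * z ^ 3)) * hΦ
  · rw [haev]
    push_cast
    ring

theorem exc3 : ∃ P ∈ primesOver (span {((3 : ℕ) : ℤ)}) (𝓞 K), Submodule.IsPrincipal P := by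
  have h30 : (3 : ZMod 3) = 0 := by decide
  have hnr : ∀ x : ZMod 3, ¬ x ^ 3 - x - 1 = 0 := by decide
  have : Fact (Nat.Prime 3) := ⟨by norm_num⟩
  have : Fact (Nat.Prime 13) := ⟨by norm_num⟩
  have hΦ := geom13 (K := K)
  set z : 𝓞 K := (IsCyclotomicExtension.zeta_spec 13 ℚ K).toInteger with hz
  have hmap : (X ^ 3 - X - 1 : ℤ[X]).map (Int.castRingHom (ZMod 3)) = X ^ 3 - X - 1 := by
    simp
  have h3 : (3 : (ZMod 3)[X]) = 0 := by
    rw [← C_ofNat]
    exact C_eq_zero.mpr h30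
  refine exists_principal_of_cert (IsCyclotomicExtension.zeta_spec 13 ℚ K) 3 (X ^ 3 - X - 1)
    ?_ ?_ ?_
    (1 + 1 * z + (-1) * z ^ 3)
    ((-1) + (-1) * z ^ 2 + (-1) * z ^ 3 + (-2) * z ^ 5 + (-1) * z ^ 7 + (-2) * z ^ 8 + 1 * z ^ 9 + (-3) * z ^ 10)
    (-1) 0 (-1) ?_ ?_ ?_
  · rw [hmap]
    apply irreducible_of_degree_le_three_of_not_isRoot
    · rw [show (X ^ 3 - X - 1 : (ZMod 3)[X]).natDegree = 3 by compute_degree!]
      decide
    · intro x
      simp only [IsRoot.def, eval_sub, eval_pow, eval_X, eval_one]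
      exact hnr x
  · rw [hmap]; monicity!
  · rw [hmap, cyclotomic_prime]
    refine ⟨-1 - X ^ 2 - X ^ 3 + X ^ 5 - X ^ 7 + X ^ 8 + X ^ 9, ?_⟩
    simp only [Finset.sum_range_succ, Finset.sum_range_zero]
    linear_combination (X ^ 5 + X ^ 6 + X ^ 9 + X ^ 10 : (ZMod 3)[X]) * h3
  · push_cast
    linear_combination (-((-4) + 3 * z)) * hΦ
  · simp only [map_sub, map_pow, aeval_X, map_one]
    ring
  · simp only [map_sub, map_pow, aeval_X, map_one]
    push_cast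
    ring

theorem exc13 : ∃ P ∈ primesOver (span {((13 : ℕ) : ℤ)}) (𝓞 K), Submodule.IsPrincipal P := by
  have hroot : ∑ x ∈ Finset.range 13, (((1 : ℤ) : ZMod 13)) ^ x = 0 := by decide
  have : Fact (Nat.Prime 13) := ⟨by norm_num⟩
  set z : 𝓞 K := (IsCyclotomicExtension.zeta_spec 13 ℚ K).toInteger with hz
  have hmap : (X - C (1 : ℤ)).map (Int.castRingHom (ZMod 13)) =
      X - C (((1 : ℤ) : ZMod 13)) := by
    rw [Polynomial.map_sub, Polynomial.map_X, Polynomial.map_C]; rfl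
  have haev : aeval z (X - C (1 : ℤ)) = z - 1 := by
    rw [map_sub, aeval_X, aeval_C, eq_intCast]; push_cast; rfl
  obtain ⟨β, hβ⟩ : z - 1 ∣ ((13 : ℕ) : 𝓞 K) :=
    (IsCyclotomicExtension.zeta_spec 13 ℚ K).toInteger_sub_one_dvd_prime'
  refine exists_principal_of_cert (IsCyclotomicExtension.zeta_spec 13 ℚ K) 13 (X - C (1 : ℤ))
    ?_ ?_ ?_ (z - 1) β 1 0 1 hβ ?_ ?_
  · rw [hmap]; exact irreducible_X_sub_C _
  · rw [hmap]; exact monic_X_sub_C _
  · rw [hmap, dvd_iff_isRoot, IsRoot.def, cyclotomic_prime, eval_finsetSum]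
    simp only [eval_pow, eval_X]
    exact hroot
  · rw [haev]; ring
  · rw [haev]; ring

theorem minkowski13 :
    ⌊(4 / Real.pi) ^ InfinitePlace.nrComplexPlaces K *
      (((Module.finrank ℚ K).factorial : ℝ) / (Module.finrank ℚ K : ℝ) ^ Module.finrank ℚ K *
        √|((NumberField.discr K : ℤ) : ℝ)|)⌋₊ ≤ 306 := by
  have : Fact (Nat.Prime 13) := ⟨by norm_num⟩
  rw [IsCyclotomicExtension.Rat.discr_prime 13 K,
    IsCyclotomicExtension.finrank (n := 13) K (cyclotomic.irreducible_rat (by norm_num)),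
    IsCyclotomicExtension.Rat.nrComplexPlaces_eq_totient_div_two 13,
    Nat.totient_prime (by norm_num)]
  have hpi : (4 / Real.pi) ^ 6 ≤ (4 / 3.1415 : ℝ) ^ 6 := by
    have := Real.pi_gt_d4
    gcongr
  have hsq : √((13 : ℝ) ^ 11) ≤ 1338716 := by
    rw [Real.sqrt_le_left (by norm_num)]
    norm_num
  have hfac : ((12 : ℕ).factorial : ℝ) = 479001600 := by
    norm_num [Nat.factorial]
  rw [← Nat.lt_succ_iff, Nat.floor_lt (by positivity)]
  norm_num only [Nat.reduceSub, Nat.reduceDiv, Int.cast_mul, Int.cast_pow, Int.cast_neg,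
    Int.cast_one, Int.cast_ofNat, Nat.cast_ofNat, even_two, Even.neg_pow, one_pow, one_mul,
    Nat.succ_eq_add_one, Nat.reduceAdd] at hpi hsq hfac ⊢
  calc (4 / Real.pi) ^ 6 * (1925 / 35831808 * √1792160394037)
      ≤ 262144000000000000000000 / 61518021323785860892969 *
          (1925 / 35831808 * 1338716) := by gcongr
    _ < 307 := by norm_num

set_option maxRecDepth 100000 in
theorem key_aux : ∀ q ∈ Finset.Icc 1 306, Nat.Prime q →
    q ∉ ({3, 13, 53, 79, 131, 157} : Finset ℕ) →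
    ((q : ℕ) : ZMod 13) ^ 12 = 1 ∧
    ∀ m ∈ Finset.Icc 1 12, q ^ m ≤ 306 → ((q : ℕ) : ZMod 13) ^ m ≠ 1 := by
  decide

theorem key (q : ℕ) (hq : q.Prime) (hq306 : q ≤ 306)
    (hexc : q ∉ ({3, 13, 53, 79, 131, 157} : Finset ℕ)) :
    ¬ q ∣ 13 ∧ 306 < q ^ orderOf ((q : ℕ) : ZMod 13) := by
  obtain ⟨h12, hm⟩ := key_aux q (Finset.mem_Icc.mpr ⟨hq.one_le, hq306⟩) hq hexc
  constructor
  · intro hdvd
    have h13 : q = 13 := (Nat.prime_dvd_prime_iff_eq hq (by norm_num)).mp hdvd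
    subst h13
    simp at hexc
  · by_contra hle
    rw [not_lt] at hle
    have hdvd : orderOf ((q : ℕ) : ZMod 13) ∣ 12 := orderOf_dvd_of_pow_eq_one h12
    have hpos : 0 < orderOf ((q : ℕ) : ZMod 13) := Nat.pos_of_dvd_of_pos hdvd (by norm_num)
    have hle12 : orderOf ((q : ℕ) : ZMod 13) ≤ 12 := Nat.le_of_dvd (by norm_num) hdvd
    exact hm _ (Finset.mem_Icc.mpr ⟨hpos, hle12⟩) hle (pow_orderOf_eq_one _)

/-- The ring of integers of the 13th cyclotomic field is a principal ideal domain. -/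
theorem pid_thirteen : IsPrincipalIdealRing (𝓞 K) := by
  have : Fact (Nat.Prime 13) := ⟨by norm_num⟩
  have : IsGalois ℚ K := IsCyclotomicExtension.isGalois {13} ℚ K
  apply RingOfIntegers.isPrincipalIdealRing_of_isPrincipal_of_lt_or_isPrincipal_of_mem_primesOver_of_mem_Icc
  intro q hq hqprime
  have hM := minkowski13 (K := K)
  have hq306 : q ≤ 306 := (Finset.mem_Icc.mp hq).2.trans hM
  by_cases hexc : q ∈ ({3, 13, 53, 79, 131, 157} : Finset ℕ)
  · simp only [Finset.mem_insert, Finset.mem_singleton] at hexc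
    rcases hexc with rfl | rfl | rfl | rfl | rfl | rfl
    · obtain ⟨P, hP, hPr⟩ := exc3 (K := K); exact ⟨P, hP, Or.inr hPr⟩
    · obtain ⟨P, hP, hPr⟩ := exc13 (K := K); exact ⟨P, hP, Or.inr hPr⟩
    · obtain ⟨P, hP, hPr⟩ := exc53 (K := K); exact ⟨P, hP, Or.inr hPr⟩
    · obtain ⟨P, hP, hPr⟩ := exc79 (K := K); exact ⟨P, hP, Or.inr hPr⟩
    · obtain ⟨P, hP, hPr⟩ := exc131 (K := K); exact ⟨P, hP, Or.inr hPr⟩
    · obtain ⟨P, hP, hPr⟩ := exc157 (K := K); exact ⟨P, hP, Or.inr hPr⟩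
  · obtain ⟨hnd, hlt⟩ := key q hqprime hq306 hexc
    have : Fact q.Prime := ⟨hqprime⟩
    have hprime : (span {(q : ℤ)}).IsPrime :=
      (Ideal.span_singleton_prime (by exact_mod_cast hqprime.ne_zero)).mpr
        (Nat.prime_iff_prime_int.mp hqprime)
    obtain ⟨⟨P, hP⟩⟩ := Ideal.nonempty_primesOver (S := 𝓞 K) (span {(q : ℤ)})
    refine ⟨P, hP, Or.inl ?_⟩
    have := hP.1
    have := hP.2
    rw [IsCyclotomicExtension.Rat.inertiaDeg_eq_of_not_dvd q K P (m := 13) hnd]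
    exact lt_of_le_of_lt hM hlt

end thirteen

end Fermat.Agent.Lib.PID13KD
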