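import Mathlib

set_option autoImplicit false

namespace Fermat.Agent.Lib.PID7

open NumberField Polynomial InfinitePlace Nat Real

lemma minkowski_floor_le {K : Type*} [Field K] [NumberField K] [IsCyclotomicExtension {7} ℚ K] :
    ⌊(4 / π) ^ nrComplexPlaces K *
      ((Module.finrank ℚ K)! / (Module.finrank ℚ K) ^ (Module.finrank ℚ K) *
        √|(NumberField.discr K : ℝ)|)⌋₊ ≤ 4 := by
  have h7 : Fact (Nat.Prime 7) := ⟨by norm_num⟩
  rw [IsCyclotomicExtension.Rat.discr_prime 7 K, IsCyclotomicExtension.finrank (n := 7) K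
    (Polynomial.cyclotomic.irreducible_rat (by norm_num)),
    IsCyclotomicExtension.Rat.nrComplexPlaces_eq_totient_div_two 7,
    Nat.totient_prime (by norm_num : Nat.Prime 7)]
  apply Nat.lt_succ_iff.mp
  rw [Nat.floor_lt' (by norm_num)]
  have hfact : ((7 - 1)! : ℝ) = 720 := by
    norm_num [Nat.factorial]
  have hsq : √|(((-1) ^ ((7 - 1) / 2) * ((7 : ℕ) : ℤ) ^ (7 - 2) : ℤ) : ℝ)| < 130 := by
    rw [Real.sqrt_lt' (by norm_num)]
    norm_num
  have hpi : (4 / π) ^ 3 < (4 / 3) ^ 3 := by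
    gcongr
    exact pi_gt_three
  have h3 : (7 - 1) / 2 = 3 := by norm_num
  rw [h3, hfact]
  calc (4 / π) ^ 3 * (720 / ((7 - 1 : ℕ) : ℝ) ^ (7 - 1) *
        √|(((-1) ^ 3 * ((7 : ℕ) : ℤ) ^ (7 - 2) : ℤ) : ℝ)|)
      < (4 / 3) ^ 3 * (720 / ((7 - 1 : ℕ) : ℝ) ^ (7 - 1) * 130) := by
        gcongr
    _ < ((4 : ℕ).succ : ℝ) := by norm_num

lemma pow_order_gt (q n : ℕ) (hn : 0 < n)
    (h : (q : ZMod 7) ^ n = 1 ∧ ∀ m < n, 0 < m → (q : ZMod 7) ^ m ≠ 1) (hq : 4 < q ^ n) :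
    4 < q ^ orderOf (q : ZMod 7) := by
  rw [(orderOf_eq_iff hn).mpr h]
  exact hq

lemma generic_bound (q : ℕ) (hq : q.Prime) (hq4 : q ≤ 4) :
    4 < q ^ orderOf (q : ZMod 7) := by
  interval_cases q <;>
    first
    | (exfalso; revert hq; norm_num; done)
    | exact pow_order_gt _ 6 (by norm_num) (by decide) (by norm_num)
    | exact pow_order_gt _ 3 (by norm_num) (by decide) (by norm_num)

theorem pid_seven {K : Type*} [Field K] [NumberField K] [IsCyclotomicExtension {7} ℚ K] :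
    IsPrincipalIdealRing (𝓞 K) := by
  have : IsGalois ℚ K := IsCyclotomicExtension.isGalois {7} ℚ K
  apply RingOfIntegers.isPrincipalIdealRing_of_isPrincipal_of_lt_or_isPrincipal_of_mem_primesOver_of_mem_Icc
  intro p hp hpp
  have hM := minkowski_floor_le (K := K)
  have hp4 : p ≤ 4 := (Finset.mem_Icc.mp hp).2.trans hM
  have : Fact p.Prime := ⟨hpp⟩
  obtain ⟨⟨P, hP1, hP2⟩⟩ := (Ideal.span {(p : ℤ)}).nonempty_primesOver (S := 𝓞 K)
  refine ⟨P, ⟨hP1, hP2⟩, Or.inl ?_⟩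
  have hnd : ¬ p ∣ 7 := by
    intro hdvd
    have := (Nat.prime_dvd_prime_iff_eq hpp (by norm_num)).mp hdvd
    omega
  rw [IsCyclotomicExtension.Rat.inertiaDeg_eq_of_not_dvd p K P hnd]
  exact lt_of_le_of_lt hM (generic_bound p hpp hp4)

end Fermat.Agent.Lib.PID7
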