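/-
# Counting the `p`-torsion of `(R ⧸ v ^ k)ˣ`  (helper62; S14 Route A, leaf [L_v index], core)

`R` a Dedekind domain containing a primitive `p`-th root of unity `ζ` (`p` prime), `v` a height-one
prime with finite residue field, `c = v(ζ - 1)`.

* `exists_sub_mem_of_pow_sub_one_mem`, `pow_sub_one_mem_of_sub_mem`, `eq_of_sub_mem`:
  for `k > p * c`, `x ^ p ≡ 1 mod v ^ k` iff `x ≡ μ mod v ^ (k - (p - 1) * c)` for a (unique)
  `p`-th root of unity `μ` ("exactly one factor of `∏ (x - μ)` is deep").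
* `card_units_pow_eq_one`: `#{x : (R ⧸ v ^ k)ˣ // x ^ p = 1} = p * N(v) ^ ((p - 1) * c)`.
* `card_units_pow_eq_one_of_notMem` (`p ∉ v`: the count is `p`),
  `card_units_pow_eq_one_of_intValuation_natCast` (in terms of `e = v(p)`: `p * N(v) ^ e`
  for `(p - 1) * k > p * e`).
* `card_quotient_pow_eq_card_torsion`: in a finite commutative group `B`,
  `#(B ⧸ B ^ p) = #{x // x ^ p = 1}`.
-/
import Mathlib

set_option autoImplicit false

namespace Fermat.Agent.Lib.PTorsionCount

open IsDedekindDomain WithZero Polynomial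

section Valuation

variable {R : Type*} [CommRing R] [IsDedekindDomain R] (v : HeightOneSpectrum R)

/-- Units have `v`-adic valuation one. -/
theorem intValuation_of_isUnit {u : R} (hu : IsUnit u) : v.intValuation u = 1 := by
  rw [v.intValuation_eq_one_iff_mem_primeCompl]
  intro hmem
  exact v.isPrime.ne_top (Ideal.eq_top_of_isUnit_mem _ hmem hu)

/-- Associated elements have the same `v`-adic valuation. -/
theorem intValuation_eq_of_associated {a b : R} (h : Associated a b) :
    v.intValuation a = v.intValuation b := by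
  obtain ⟨u, rfl⟩ := h
  rw [map_mul, intValuation_of_isUnit v u.isUnit, mul_one]

variable {p : ℕ} {ζ : R}

/-- Two distinct `p`-th roots of unity differ by an associate of `ζ - 1`. -/
theorem associated_sub_of_mem_nthRootsFinset (hp : p.Prime) (hζ : IsPrimitiveRoot ζ p)
    {μ μ' : R} (hμ : μ ∈ nthRootsFinset p (1 : R)) (hμ' : μ' ∈ nthRootsFinset p (1 : R))
    (hne : μ ≠ μ') : Associated (ζ - 1) (μ - μ') := by
  have key : ∀ i j : ℕ, i < j → j < p → Associated (ζ - 1) (ζ ^ j - ζ ^ i) := by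
    intro i j hij hj
    have hcop : (j - i).Coprime p := by
      refine Nat.Coprime.symm ((Nat.Prime.coprime_iff_not_dvd hp).2 ?_)
      exact Nat.not_dvd_of_pos_of_lt (by omega) (by omega)
    have := hζ.associated_pow_add_sub_sub_one hp.two_le i hcop
    rwa [show i + (j - i) = j by omega] at this
  have : NeZero p := ⟨hp.ne_zero⟩
  rw [mem_nthRootsFinset hp.pos (1 : R)] at hμ hμ'
  obtain ⟨i, hi, rfl⟩ := hζ.eq_pow_of_pow_eq_one hμ
  obtain ⟨j, hj, rfl⟩ := hζ.eq_pow_of_pow_eq_one hμ'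
  rcases lt_trichotomy i j with h | h | h
  · have := (key i j h hj).neg_right
    rwa [neg_sub] at this
  · exact absurd (by rw [h]) hne
  · exact key j i h hi

theorem intValuation_sub_of_mem_nthRootsFinset (hp : p.Prime) (hζ : IsPrimitiveRoot ζ p)
    {μ μ' : R} (hμ : μ ∈ nthRootsFinset p (1 : R)) (hμ' : μ' ∈ nthRootsFinset p (1 : R))
    (hne : μ ≠ μ') : v.intValuation (μ - μ') = v.intValuation (ζ - 1) :=
  (intValuation_eq_of_associated v
    (associated_sub_of_mem_nthRootsFinset hp hζ hμ hμ' hne)).symm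

theorem pow_sub_one_eq_prod (hp : p.Prime) (hζ : IsPrimitiveRoot ζ p) (x : R) :
    x ^ p - 1 = ∏ μ ∈ nthRootsFinset p (1 : R), (x - μ) := by
  have := hζ.pow_sub_pow_eq_prod_sub_mul (x := x) (y := 1) hp.pos
  simpa using this

/-- If `x ^ p ≡ 1 mod v ^ k` with `k > p * v(ζ - 1)`, then `x` is congruent to a `p`-th root of
unity modulo `v ^ (k - (p - 1) * v(ζ - 1))`. -/
theorem exists_sub_mem_of_pow_sub_one_mem (hp : p.Prime) (hζ : IsPrimitiveRoot ζ p) {c k : ℕ}
    (hc : v.intValuation (ζ - 1) = exp (-(c : ℤ))) (hk : p * c < k) {x : R}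
    (hx : x ^ p - 1 ∈ v.asIdeal ^ k) :
    ∃ μ ∈ nthRootsFinset p (1 : R), x - μ ∈ v.asIdeal ^ (k - (p - 1) * c) := by
  classical
  set T := nthRootsFinset p (1 : R) with hT
  have hcard : T.card = p := hζ.card_nthRootsFinset
  rw [← v.intValuation_le_pow_iff_mem, pow_sub_one_eq_prod hp hζ, map_prod] at hx
  -- some factor is deeper than `ζ - 1`
  obtain ⟨μ₀, hμ₀, hlt⟩ : ∃ μ₀ ∈ T, v.intValuation (x - μ₀) < exp (-(c : ℤ)) := by
    by_contra hcon
    push Not at hcon
    have h1 : exp (-(c : ℤ)) ^ T.card ≤ ∏ μ ∈ T, v.intValuation (x - μ) :=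
      Finset.pow_card_le_prod T _ _ hcon
    have h2 : exp (-(c : ℤ)) ^ T.card ≤ exp (-(k : ℤ)) := h1.trans hx
    rw [hcard, ← exp_nsmul, exp_le_exp] at h2
    have : (p : ℤ) * c < k := by exact_mod_cast hk
    simp only [nsmul_eq_mul] at h2
    nlinarith
  refine ⟨μ₀, hμ₀, ?_⟩
  have hother : ∀ μ ∈ T.erase μ₀, v.intValuation (x - μ) = exp (-(c : ℤ)) := by
    intro μ hμ
    have hμT := Finset.mem_of_mem_erase hμ
    have hne : μ₀ ≠ μ := (Finset.ne_of_mem_erase hμ).symm
    have h3 : v.intValuation (μ₀ - μ) = exp (-(c : ℤ)) := by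
      rw [intValuation_sub_of_mem_nthRootsFinset v hp hζ hμ₀ hμT hne, hc]
    have h4 : x - μ = (x - μ₀) + (μ₀ - μ) := by ring
    rw [h4, Valuation.map_add_eq_of_lt_right _ (by rw [h3]; exact hlt), h3]
  rw [← Finset.mul_prod_erase T _ hμ₀, Finset.prod_congr rfl hother, Finset.prod_const,
    Finset.card_erase_of_mem hμ₀, hcard] at hx
  rw [← v.intValuation_le_pow_iff_mem]
  have hpos : (0 : ℤᵐ⁰) < exp (-(c : ℤ)) ^ (p - 1) := zero_lt_iff.mpr (pow_ne_zero _ exp_ne_zero)
  rw [← le_mul_inv_iff₀ hpos] at hx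
  refine hx.trans (le_of_eq ?_)
  rw [← exp_nsmul, ← exp_neg, ← exp_add, exp_inj]
  have hle : (p - 1) * c ≤ k := by
    have : (p - 1) * c ≤ p * c := Nat.mul_le_mul_right c (Nat.sub_le p 1)
    omega
  rw [Nat.cast_sub hle]
  simp only [nsmul_eq_mul]
  push_cast
  ring

/-- Conversely, an element congruent to a `p`-th root of unity modulo
`v ^ (k - (p - 1) * v(ζ - 1))` is a `p`-th root of unity modulo `v ^ k`. -/
theorem pow_sub_one_mem_of_sub_mem (hp : p.Prime) (hζ : IsPrimitiveRoot ζ p) {c k : ℕ}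
    (hc : v.intValuation (ζ - 1) = exp (-(c : ℤ))) (hk : p * c < k) {x μ : R}
    (hμ : μ ∈ nthRootsFinset p (1 : R)) (hx : x - μ ∈ v.asIdeal ^ (k - (p - 1) * c)) :
    x ^ p - 1 ∈ v.asIdeal ^ k := by
  classical
  set T := nthRootsFinset p (1 : R) with hT
  have hcard : T.card = p := hζ.card_nthRootsFinset
  have hle : (p - 1) * c ≤ k := by
    have : (p - 1) * c ≤ p * c := Nat.mul_le_mul_right c (Nat.sub_le p 1)
    omega
  have hmc : c ≤ k - (p - 1) * c := by
    have h1 : (p - 1) * c + c = p * c := by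
      have : p - 1 + 1 = p := Nat.sub_add_cancel hp.one_le
      calc (p - 1) * c + c = (p - 1 + 1) * c := by ring
        _ = p * c := by rw [this]
    omega
  rw [← v.intValuation_le_pow_iff_mem] at hx ⊢
  rw [pow_sub_one_eq_prod hp hζ, map_prod, ← Finset.mul_prod_erase T _ hμ]
  have hxc : v.intValuation (x - μ) ≤ exp (-(c : ℤ)) := by
    refine hx.trans ?_
    rw [exp_le_exp]
    have : (c : ℤ) ≤ ((k - (p - 1) * c : ℕ) : ℤ) := by exact_mod_cast hmc
    linarith
  have hother : ∀ μ' ∈ T.erase μ, v.intValuation (x - μ') ≤ exp (-(c : ℤ)) := by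
    intro μ' hμ'
    have hμT := Finset.mem_of_mem_erase hμ'
    have hne : μ ≠ μ' := (Finset.ne_of_mem_erase hμ').symm
    have h3 : v.intValuation (μ - μ') = exp (-(c : ℤ)) := by
      rw [intValuation_sub_of_mem_nthRootsFinset v hp hζ hμ hμT hne, hc]
    have h4 : x - μ' = (x - μ) + (μ - μ') := by ring
    rw [h4]
    exact (v.intValuation.map_add_le_max' _ _).trans (max_le hxc h3.le)
  have h5 : ∏ μ' ∈ T.erase μ, v.intValuation (x - μ') ≤ exp (-(c : ℤ)) ^ (p - 1) := by
    have := Finset.prod_le_pow_card (T.erase μ) _ _ hother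
    rwa [Finset.card_erase_of_mem hμ, hcard] at this
  refine (mul_le_mul' hx h5).trans (le_of_eq ?_)
  rw [← exp_nsmul, ← exp_add, exp_inj, Nat.cast_sub hle]
  simp only [nsmul_eq_mul]
  push_cast
  ring

/-- Distinct `p`-th roots of unity are not congruent modulo `v ^ m` for `m > v(ζ - 1)`. -/
theorem eq_of_sub_mem (hp : p.Prime) (hζ : IsPrimitiveRoot ζ p) {c m : ℕ}
    (hc : v.intValuation (ζ - 1) = exp (-(c : ℤ))) (hm : c < m) {μ μ' : R}
    (hμ : μ ∈ nthRootsFinset p (1 : R)) (hμ' : μ' ∈ nthRootsFinset p (1 : R))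
    (h : μ - μ' ∈ v.asIdeal ^ m) : μ = μ' := by
  by_contra hne
  rw [← v.intValuation_le_pow_iff_mem,
    intValuation_sub_of_mem_nthRootsFinset v hp hζ hμ hμ' hne, hc, exp_le_exp] at h
  have : (c : ℤ) < m := by exact_mod_cast hm
  linarith

/-- Nonzero elements have valuation `exp (-c)` for a natural number `c`. -/
theorem exists_intValuation_eq_exp {x : R} (hx : x ≠ 0) :
    ∃ c : ℕ, v.intValuation x = exp (-(c : ℤ)) :=
  ⟨_, v.intValuation_if_neg hx⟩

/-- `v(p) = (p - 1) * v(ζ - 1)`. -/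
theorem intValuation_natCast_prime (hp : p.Prime) (hζ : IsPrimitiveRoot ζ p) {c : ℕ}
    (hc : v.intValuation (ζ - 1) = exp (-(c : ℤ))) :
    v.intValuation (p : R) = exp (-(((p - 1) * c : ℕ) : ℤ)) := by
  have : Fact p.Prime := ⟨hp⟩
  have h1 : (p : R) = ∏ μ ∈ primitiveRoots p R, (1 - μ) := by
    have := congrArg (eval 1) (cyclotomic_eq_prod_X_sub_primitiveRoots hζ)
    rw [eval_one_cyclotomic_prime, eval_prod] at this
    simpa using this
  rw [h1, map_prod]
  have h2 : ∀ μ ∈ primitiveRoots p R, v.intValuation (1 - μ) = exp (-(c : ℤ)) := by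
    intro μ hμ
    have hμ' : IsPrimitiveRoot μ p := (mem_primitiveRoots hp.pos).1 hμ
    have hμT : μ ∈ nthRootsFinset p (1 : R) := (mem_nthRootsFinset hp.pos 1).2 hμ'.pow_eq_one
    have h1T := one_mem_nthRootsFinset (R := R) hp.pos
    rw [intValuation_sub_of_mem_nthRootsFinset v hp hζ h1T hμT (hμ'.ne_one hp.one_lt).symm, hc]
  rw [Finset.prod_congr rfl h2, Finset.prod_const, hζ.card_primitiveRoots, Nat.totient_prime hp,
    ← exp_nsmul, exp_inj]
  simp only [nsmul_eq_mul]
  push_cast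
  ring

/-- If `p ∉ v` then `ζ - 1` is a `v`-unit. -/
theorem intValuation_sub_one_of_notMem (hp : p.Prime) (hζ : IsPrimitiveRoot ζ p)
    (hpv : (p : R) ∉ v.asIdeal) : v.intValuation (ζ - 1) = exp (-((0 : ℕ) : ℤ)) := by
  have hne : ζ - 1 ≠ 0 := sub_ne_zero.mpr (hζ.ne_one hp.one_lt)
  obtain ⟨c, hc⟩ := exists_intValuation_eq_exp v hne
  have h1 := intValuation_natCast_prime v hp hζ hc
  have h2 : v.intValuation (p : R) = 1 := by
    rw [v.intValuation_eq_one_iff_mem_primeCompl]
    exact hpv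
  rw [h2, ← exp_zero, exp_inj] at h1
  have h3 : (p - 1) * c = 0 := by
    have : (((p - 1) * c : ℕ) : ℤ) = 0 := by linarith
    exact_mod_cast this
  have h4 : c = 0 := by
    rcases Nat.mul_eq_zero.mp h3 with h | h
    · have := hp.two_le
      omega
    · exact h
  rw [hc, h4]

end Valuation


section Counting

/-- Fibre count for a surjective additive homomorphism. -/
theorem card_preimage_finset {A B : Type*} [AddCommGroup A] [AddCommGroup B] (f : A →+ B)
    (hf : Function.Surjective f) (Y : Finset B) :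
    Nat.card {a : A // f a ∈ Y} = Y.card * Nat.card f.ker := by
  classical
  let s : B → A := Function.surjInv hf
  have hs : ∀ b, f (s b) = b := Function.surjInv_eq hf
  let e : {a : A // f a ∈ Y} ≃ {y : B // y ∈ Y} × {t : A // t ∈ f.ker} :=
    { toFun := fun a => (⟨f a.1, a.2⟩, ⟨a.1 - s (f a.1), by
        rw [AddMonoidHom.mem_ker, map_sub, hs, sub_self]⟩)
      invFun := fun yt => ⟨s yt.1.1 + yt.2.1, by
        rw [map_add, hs, (AddMonoidHom.mem_ker).1 yt.2.2, add_zero]; exact yt.1.2⟩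
      left_inv := by
        rintro ⟨a, ha⟩
        simp
      right_inv := by
        rintro ⟨⟨y, hy⟩, ⟨t, ht⟩⟩
        have ht' : f t = 0 := (AddMonoidHom.mem_ker).1 ht
        simp [map_add, hs, ht'] }
  rw [Nat.card_congr e, Nat.card_prod]
  congr 1
  rw [Nat.card_eq_fintype_card, Fintype.card_coe]

/-- In a finite commutative group, the index of the `p`-th powers is the number of elements
killed by `p`. -/
theorem card_quotient_pow_eq_card_torsion (B : Type*) [CommGroup B] [Finite B] (p : ℕ) :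
    Nat.card (B ⧸ (powMonoidHom p : B →* B).range) = Nat.card {x : B // x ^ p = 1} := by
  set f : B →* B := powMonoidHom p with hf
  have h1 : Nat.card f.ker * f.ker.index = Nat.card B := f.ker.card_mul_index
  have h2 : f.ker.index = Nat.card f.range := Subgroup.index_ker f
  have h3 : Nat.card f.range * f.range.index = Nat.card B := f.range.card_mul_index
  have h4 : Nat.card f.range ≠ 0 := Nat.card_pos.ne'
  have h5 : Nat.card f.ker = f.range.index := by
    rw [h2, ← h3, mul_comm] at h1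
    exact Nat.eq_of_mul_eq_mul_left (Nat.pos_of_ne_zero h4) h1
  have h6 : Nat.card {x : B // x ^ p = 1} = Nat.card f.ker :=
    Nat.card_congr (Equiv.subtypeEquivRight (fun x => by
      rw [MonoidHom.mem_ker, hf, powMonoidHom_apply]))
  rw [h6, h5]
  rfl

end Counting

section Main

variable {R : Type*} [CommRing R] [IsDedekindDomain R] (v : HeightOneSpectrum R)

theorem card_quotient_pow (k : ℕ) :
    Nat.card (R ⧸ v.asIdeal ^ k) = Nat.card (R ⧸ v.asIdeal) ^ k := by
  have hprime := v.isPrime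
  have := cardQuot_pow_of_prime (P := v.asIdeal) v.ne_bot (i := k)
  rwa [Submodule.cardQuot_apply, Submodule.cardQuot_apply] at this

/-- The kernel of `R ⧸ v ^ k → R ⧸ v ^ m` has `N(v) ^ (k - m)` elements. -/
theorem card_ker_factor [Finite (R ⧸ v.asIdeal)] {m k : ℕ} (hmk : m ≤ k) :
    Nat.card (Ideal.Quotient.factor (Ideal.pow_le_pow_right hmk :
        v.asIdeal ^ k ≤ v.asIdeal ^ m)).toAddMonoidHom.ker
      = Nat.card (R ⧸ v.asIdeal) ^ (k - m) := by
  set f := (Ideal.Quotient.factor (Ideal.pow_le_pow_right hmk :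
        v.asIdeal ^ k ≤ v.asIdeal ^ m)).toAddMonoidHom with hf
  have hsurj : Function.Surjective f :=
    Ideal.Quotient.factor_surjective (Ideal.pow_le_pow_right hmk)
  have h1 : Nat.card f.ker * f.ker.index = Nat.card (R ⧸ v.asIdeal ^ k) := f.ker.card_mul_index
  have h2 : f.ker.index = Nat.card (R ⧸ v.asIdeal ^ m) := by
    rw [AddSubgroup.index_ker, AddMonoidHom.range_eq_top.mpr hsurj, AddSubgroup.card_top]
  rw [h2, card_quotient_pow, card_quotient_pow] at h1
  have hN : 0 < Nat.card (R ⧸ v.asIdeal) := Nat.card_pos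
  have h3 : Nat.card (R ⧸ v.asIdeal) ^ k
      = Nat.card (R ⧸ v.asIdeal) ^ (k - m) * Nat.card (R ⧸ v.asIdeal) ^ m := by
    rw [← pow_add, Nat.sub_add_cancel hmk]
  rw [h3] at h1
  exact Nat.eq_of_mul_eq_mul_right (pow_pos hN m) h1

/-- **Count of the `p`-torsion of `(R ⧸ v ^ k)ˣ`.** `R` a Dedekind domain containing a primitive
`p`-th root of unity `ζ`, `v` a prime with finite residue field, `c = v(ζ - 1)` and `k > p * c`:
there are exactly `p * N(v) ^ ((p - 1) * c)` units `x` of `R ⧸ v ^ k` with `x ^ p = 1`.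
(For `v ∤ p` this is `c = 0` and the count is `p`; for `v ∣ p`, `(p - 1) * c` is the
ramification index `e` of `v` over `p` and the condition reads `k > e + e / (p - 1)`.) -/
theorem card_units_pow_eq_one [Finite (R ⧸ v.asIdeal)] {p : ℕ} (hp : p.Prime) {ζ : R}
    (hζ : IsPrimitiveRoot ζ p) {c k : ℕ} (hc : v.intValuation (ζ - 1) = exp (-(c : ℤ)))
    (hk : p * c < k) :
    Nat.card {x : (R ⧸ v.asIdeal ^ k)ˣ // x ^ p = 1}
      = p * Nat.card (R ⧸ v.asIdeal) ^ ((p - 1) * c) := by
  classical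
  have hle : (p - 1) * c ≤ k := by
    have : (p - 1) * c ≤ p * c := Nat.mul_le_mul_right c (Nat.sub_le p 1)
    omega
  have hpc : (p - 1) * c + c = p * c := by
    have : p - 1 + 1 = p := Nat.sub_add_cancel hp.one_le
    calc (p - 1) * c + c = (p - 1 + 1) * c := by ring
      _ = p * c := by rw [this]
  set m := k - (p - 1) * c with hm
  have hmk : m ≤ k := Nat.sub_le _ _
  have hcm : c < m := by omega
  set T := nthRootsFinset p (1 : R) with hT
  have hcard : T.card = p := hζ.card_nthRootsFinset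
  let f := Ideal.Quotient.factor (Ideal.pow_le_pow_right hmk : v.asIdeal ^ k ≤ v.asIdeal ^ m)
  have hsurj : Function.Surjective f :=
    Ideal.Quotient.factor_surjective (Ideal.pow_le_pow_right hmk)
  let Y : Finset (R ⧸ v.asIdeal ^ m) := T.image (Ideal.Quotient.mk (v.asIdeal ^ m))
  have hY : Y.card = p := by
    rw [Finset.card_image_of_injOn, hcard]
    intro μ hμ μ' hμ' h
    exact eq_of_sub_mem v hp hζ hc hcm hμ hμ' ((Ideal.Quotient.eq).1 h)
  -- units with `x ^ p = 1` are the elements with `a ^ p = 1`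
  let e1 : {x : (R ⧸ v.asIdeal ^ k)ˣ // x ^ p = 1} ≃ {a : R ⧸ v.asIdeal ^ k // a ^ p = 1} :=
    { toFun := fun x => ⟨(x.1 : R ⧸ v.asIdeal ^ k), by
        have := congrArg Units.val x.2
        simpa using this⟩
      invFun := fun a => ⟨Units.ofPowEqOne a.1 p a.2 hp.ne_zero, by
        ext
        simp⟩
      left_inv := by
        rintro ⟨x, hx⟩
        ext
        simp
      right_inv := by
        rintro ⟨a, ha⟩
        simp }
  have key : ∀ a : R ⧸ v.asIdeal ^ k, a ^ p = 1 ↔ f a ∈ Y := by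
    intro a
    obtain ⟨x, rfl⟩ := Ideal.Quotient.mk_surjective a
    have h1 : (Ideal.Quotient.mk (v.asIdeal ^ k) x) ^ p = 1 ↔ x ^ p - 1 ∈ v.asIdeal ^ k := by
      rw [← map_pow, ← map_one (Ideal.Quotient.mk (v.asIdeal ^ k)), Ideal.Quotient.eq]
    have h2 : f (Ideal.Quotient.mk (v.asIdeal ^ k) x) = Ideal.Quotient.mk (v.asIdeal ^ m) x :=
      Ideal.Quotient.factor_mk _ x
    rw [h1, h2, Finset.mem_image]
    constructor
    · intro hx
      obtain ⟨μ, hμ, hxμ⟩ := exists_sub_mem_of_pow_sub_one_mem v hp hζ hc hk hx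
      refine ⟨μ, hμ, (Ideal.Quotient.eq).2 ?_⟩
      have : μ - x = -(x - μ) := by ring
      rw [this]
      exact neg_mem hxμ
    · rintro ⟨μ, hμ, hxμ⟩
      have h3 : x - μ ∈ v.asIdeal ^ m := (Ideal.Quotient.eq).1 hxμ.symm
      exact pow_sub_one_mem_of_sub_mem v hp hζ hc hk hμ h3
  have e2 : {a : R ⧸ v.asIdeal ^ k // a ^ p = 1}
      ≃ {a : R ⧸ v.asIdeal ^ k // f.toAddMonoidHom a ∈ Y} :=
    Equiv.subtypeEquivRight key
  rw [Nat.card_congr (e1.trans e2), card_preimage_finset f.toAddMonoidHom hsurj Y, hY,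
    card_ker_factor v hmk]
  congr 2
  omega

/-- The tame case `p ∉ v`: exactly `p` units of `R ⧸ v ^ k` (`k ≥ 1`) have `p`-th power one. -/
theorem card_units_pow_eq_one_of_notMem [Finite (R ⧸ v.asIdeal)] {p : ℕ} (hp : p.Prime) {ζ : R}
    (hζ : IsPrimitiveRoot ζ p) (hpv : (p : R) ∉ v.asIdeal) {k : ℕ} (hk : 0 < k) :
    Nat.card {x : (R ⧸ v.asIdeal ^ k)ˣ // x ^ p = 1} = p := by
  have := card_units_pow_eq_one v hp hζ (intValuation_sub_one_of_notMem v hp hζ hpv) (k := k)
    (by simpa using hk)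
  simpa using this

/-- The count in terms of the ramification index `e = v(p)`: for `(p - 1) * k > p * e`
(i.e. `k > e + e / (p - 1)`) there are exactly `p * N(v) ^ e` units of `R ⧸ v ^ k` with `p`-th
power one. -/
theorem card_units_pow_eq_one_of_intValuation_natCast [Finite (R ⧸ v.asIdeal)] {p : ℕ}
    (hp : p.Prime) {ζ : R} (hζ : IsPrimitiveRoot ζ p) {e k : ℕ}
    (he : v.intValuation (p : R) = exp (-(e : ℤ))) (hk : p * e < (p - 1) * k) :
    Nat.card {x : (R ⧸ v.asIdeal ^ k)ˣ // x ^ p = 1} = p * Nat.card (R ⧸ v.asIdeal) ^ e := by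
  have hne : ζ - 1 ≠ 0 := sub_ne_zero.mpr (hζ.ne_one hp.one_lt)
  obtain ⟨c, hc⟩ := exists_intValuation_eq_exp v hne
  have h1 := intValuation_natCast_prime v hp hζ hc
  rw [he, exp_inj, neg_inj] at h1
  have h2 : e = (p - 1) * c := by exact_mod_cast h1
  have h3 : p * c < k := by
    rw [h2] at hk
    have h4 : (p - 1) * (p * c) < (p - 1) * k := by
      calc (p - 1) * (p * c) = p * ((p - 1) * c) := by ring
        _ < (p - 1) * k := hk
    exact Nat.lt_of_mul_lt_mul_left h4
  rw [h2]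
  exact card_units_pow_eq_one v hp hζ hc h3

end Main


end Fermat.Agent.Lib.PTorsionCount
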