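import Mathlib

/-!
# Two lemmas on `ℤ_p`-modules (P5 block [TATE], leaves (T-fg) and (T-ind))

* `span_eq_top_of_separated` : a `p`-adically separated `ℤ_p`-module which is generated modulo
  `p` by a finite set `S` is generated by `S` (digit expansion; no completeness of the module is
  needed, only that of `ℤ_p`).
* `linearIndependent_of_saturated` : if `θ : L → T` is an additive map from a finite free
  `ℤ`-module to a `ℤ_p`-module with `θ x ∈ p ^ k T → x ∈ p ^ k L` for all `k`, then `θ` maps a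
  `ℤ`-basis of `L` to a `ℤ_p`-linearly independent family.
-/

set_option autoImplicit false

namespace Fermat.Agent.Lib.PadicLattice

open PadicInt IsLocalRing

/-- Membership in `𝔪 ^ n` of `ℤ_p` is divisibility by `p ^ n`. -/
theorem mem_maximalIdeal_pow_iff (p : ℕ) [Fact p.Prime] (n : ℕ) (x : ℤ_[p]) :
    x ∈ maximalIdeal ℤ_[p] ^ n ↔ ∃ c : ℤ_[p], x = (p : ℤ_[p]) ^ n * c := by
  rw [maximalIdeal_eq_span_p, Ideal.span_singleton_pow, Ideal.mem_span_singleton']
  constructor
  · rintro ⟨c, hc⟩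
    exact ⟨c, by rw [← hc, mul_comm]⟩
  · rintro ⟨c, hc⟩
    exact ⟨c, by rw [hc, mul_comm]⟩

/-- A `p`-adic integer divisible by every power of `p` is zero. -/
theorem eq_zero_of_forall_dvd (p : ℕ) [Fact p.Prime] (x : ℤ_[p])
    (h : ∀ k : ℕ, ∃ c : ℤ_[p], x = (p : ℤ_[p]) ^ k * c) : x = 0 := by
  have hH : IsHausdorff (maximalIdeal ℤ_[p]) ℤ_[p] := inferInstance
  refine hH.haus x fun n => ?_
  rw [SModEq.sub_mem, sub_zero, smul_eq_mul, Ideal.mul_top]
  exact (mem_maximalIdeal_pow_iff p n x).mpr (h n)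

/-- Every series `∑ ε_j p ^ j` with `ε_j ∈ {0, 1}` selected by a predicate converges in `ℤ_p`:
there is `b` with `∑_{j < n} [P j] p ^ j - b ∈ p ^ n ℤ_p` for all `n`. -/
theorem exists_limit_indicator (p : ℕ) [Fact p.Prime] (P : ℕ → Prop) [DecidablePred P] :
    ∃ b : ℤ_[p], ∀ n : ℕ, ∃ c : ℤ_[p],
      (∑ j ∈ Finset.range n, if P j then (p : ℤ_[p]) ^ j else 0) - b = (p : ℤ_[p]) ^ n * c := by
  have hprec : IsPrecomplete (maximalIdeal ℤ_[p]) ℤ_[p] := inferInstance
  obtain ⟨b, hb⟩ := hprec.prec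
    (f := fun n => ∑ j ∈ Finset.range n, if P j then (p : ℤ_[p]) ^ j else 0) (by
      intro m n hmn
      rw [SModEq.sub_mem, smul_eq_mul, Ideal.mul_top]
      obtain ⟨d, rfl⟩ := Nat.exists_eq_add_of_le hmn
      rw [Finset.sum_range_add, sub_add_cancel_left]
      refine neg_mem (Ideal.sum_mem _ fun j _ => ?_)
      split_ifs
      · rw [mem_maximalIdeal_pow_iff]
        exact ⟨(p : ℤ_[p]) ^ j, by rw [pow_add]⟩
      · exact zero_mem _)
  refine ⟨b, fun n => ?_⟩
  have h1 := hb n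
  rw [SModEq.sub_mem, smul_eq_mul, Ideal.mul_top] at h1
  exact (mem_maximalIdeal_pow_iff p n _).mp h1

/-- Successive approximation: digits of an element with respect to a set of representatives
modulo `p`. -/
theorem exists_digits (p : ℕ) [Fact p.Prime] {M : Type*} [AddCommGroup M] [Module ℤ_[p] M]
    (S : Finset M) (hS : ∀ x : M, ∃ s ∈ S, ∃ y : M, x = s + (p : ℤ_[p]) • y) (x : M) :
    ∃ (a u : ℕ → M), (∀ n, a n ∈ S) ∧
      ∀ n, x = (∑ j ∈ Finset.range n, (p : ℤ_[p]) ^ j • a j) + (p : ℤ_[p]) ^ n • u n := by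
  choose r hr y hy using hS
  let u : ℕ → M := fun n => Nat.rec x (fun _ z => y z) n
  have hu : ∀ n, u n = r (u n) + (p : ℤ_[p]) • u (n + 1) := fun n => hy (u n)
  refine ⟨fun n => r (u n), u, fun n => hr _, fun n => ?_⟩
  induction n with
  | zero =>
    rw [Finset.sum_range_zero, zero_add, pow_zero, one_smul]
    rfl
  | succ n ih =>
    rw [Finset.sum_range_succ, add_assoc, pow_succ, mul_smul, ← smul_add, ← hu n]
    exact ih

/-- **(T-fg)** A `p`-adically separated `ℤ_p`-module generated modulo `p` by a finite set `S` is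
generated by `S`. -/
theorem span_eq_top_of_separated (p : ℕ) [Fact p.Prime] {M : Type*} [AddCommGroup M]
    [Module ℤ_[p] M]
    (hsep : ∀ x : M, (∀ k : ℕ, ∃ y : M, x = (p : ℤ_[p]) ^ k • y) → x = 0)
    (S : Finset M) (hS : ∀ x : M, ∃ s ∈ S, ∃ y : M, x = s + (p : ℤ_[p]) • y) :
    Submodule.span ℤ_[p] (S : Set M) = ⊤ := by
  classical
  rw [eq_top_iff]
  rintro x -
  obtain ⟨a, u, ha, hx⟩ := exists_digits p S hS x
  choose b c hb using fun t : M => exists_limit_indicator p (fun j => a j = t)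
  -- the partial sums, regrouped along `S`
  have hsum : ∀ n, (∑ j ∈ Finset.range n, (p : ℤ_[p]) ^ j • a j) =
      ∑ t ∈ S, (∑ j ∈ Finset.range n, if a j = t then (p : ℤ_[p]) ^ j else 0) • t := by
    intro n
    simp_rw [Finset.sum_smul]
    rw [Finset.sum_comm]
    refine Finset.sum_congr rfl fun j _ => ?_
    simp_rw [ite_smul, zero_smul]
    rw [Finset.sum_ite_eq S (a j), if_pos (ha j)]
  have hz : x - ∑ t ∈ S, b t • t = 0 := by
    refine hsep _ fun k => ⟨∑ t ∈ S, c t k • t + u k, ?_⟩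
    conv_lhs => rw [hx k, hsum k]
    rw [add_sub_right_comm, ← Finset.sum_sub_distrib, smul_add, Finset.smul_sum]
    congr 1
    refine Finset.sum_congr rfl fun t _ => ?_
    rw [← sub_smul, hb t k, mul_smul]
  rw [sub_eq_zero] at hz
  rw [hz]
  exact Submodule.sum_mem _ fun t ht => Submodule.smul_mem _ _ (Submodule.subset_span ht)

/-- Variant of (T-fg) producing finite generation. -/
theorem finite_of_separated (p : ℕ) [Fact p.Prime] {M : Type*} [AddCommGroup M]
    [Module ℤ_[p] M]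
    (hsep : ∀ x : M, (∀ k : ℕ, ∃ y : M, x = (p : ℤ_[p]) ^ k • y) → x = 0)
    (S : Finset M) (hS : ∀ x : M, ∃ s ∈ S, ∃ y : M, x = s + (p : ℤ_[p]) • y) :
    Module.Finite ℤ_[p] M :=
  ⟨⟨S, span_eq_top_of_separated p hsep S hS⟩⟩

/-- **(T-ind)** An additive map `θ` from a finite free `ℤ`-module `L` to a `ℤ_p`-module `T`
which is saturated (`θ x ∈ p ^ k T → x ∈ p ^ k L`) maps a `ℤ`-basis of `L` to a
`ℤ_p`-linearly independent family. -/
theorem linearIndependent_of_saturated (p : ℕ) [Fact p.Prime] {L T κ : Type*} [Fintype κ]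
    [AddCommGroup L] [AddCommGroup T] [Module ℤ_[p] T] (b : Module.Basis κ ℤ L) (θ : L →+ T)
    (H : ∀ (k : ℕ) (x : L), (∃ y : T, θ x = (p : ℤ_[p]) ^ k • y) → ∃ x' : L, x = p ^ k • x') :
    LinearIndependent ℤ_[p] (fun i => θ (b i)) := by
  classical
  rw [Fintype.linearIndependent_iff]
  intro c hc i
  refine eq_zero_of_forall_dvd p (c i) fun k => ?_
  -- `c j = n_j + p ^ k * d_j` with `n_j = (c j).appr k`
  have hd : ∀ j, ∃ d : ℤ_[p], c j - ((c j).appr k : ℤ_[p]) = (p : ℤ_[p]) ^ k * d := by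
    intro j
    obtain ⟨d, hd⟩ := Ideal.mem_span_singleton'.mp (appr_spec k (c j))
    exact ⟨d, by rw [← hd, mul_comm]⟩
  choose d hd using hd
  have h1 : θ (∑ j, (c j).appr k • b j) = (p : ℤ_[p]) ^ k • (-∑ j, d j • θ (b j)) := by
    rw [map_sum, smul_neg, eq_neg_iff_add_eq_zero, Finset.smul_sum, ← Finset.sum_add_distrib,
      ← hc]
    refine Finset.sum_congr rfl fun j _ => ?_
    rw [map_nsmul, ← Nat.cast_smul_eq_nsmul ℤ_[p], ← mul_smul, ← hd j, ← add_smul,
      add_sub_cancel]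
  obtain ⟨x', hx'⟩ := H k _ ⟨_, h1⟩
  -- compare the `i`-th coordinates
  have h2 : ((c i).appr k : ℤ) = (p : ℤ) ^ k * b.equivFun x' i := by
    have h3 : (∑ j, (c j).appr k • b j) = b.equivFun.symm (fun j => ((c j).appr k : ℤ)) := by
      rw [Module.Basis.equivFun_symm_apply]
      refine Finset.sum_congr rfl fun j _ => ?_
      rw [Nat.cast_smul_eq_nsmul]
    have h4 : b.equivFun (∑ j, (c j).appr k • b j) i = b.equivFun (p ^ k • x') i := by
      rw [← hx']
    rw [h3, LinearEquiv.apply_symm_apply, map_nsmul, Pi.smul_apply, nsmul_eq_mul] at h4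
    rw [h4]
    push_cast
    rfl
  have h5 : (c i).appr k = 0 := by
    refine Nat.eq_zero_of_dvd_of_lt ?_ (appr_lt (c i) k)
    have h6 : ((p ^ k : ℕ) : ℤ) ∣ ((c i).appr k : ℤ) := ⟨b.equivFun x' i, by rw [h2]; push_cast; rfl⟩
    exact Int.natCast_dvd_natCast.mp h6
  refine ⟨d i, ?_⟩
  rw [← hd i, h5, Nat.cast_zero, sub_zero]

/-- Variant of (T-ind) for a linear combination: injectivity of the `ℤ_p`-linear extension. -/
theorem eq_zero_of_sum_smul_eq_zero (p : ℕ) [Fact p.Prime] {L T κ : Type*} [Fintype κ]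
    [AddCommGroup L] [AddCommGroup T] [Module ℤ_[p] T] (b : Module.Basis κ ℤ L) (θ : L →+ T)
    (H : ∀ (k : ℕ) (x : L), (∃ y : T, θ x = (p : ℤ_[p]) ^ k • y) → ∃ x' : L, x = p ^ k • x')
    (c : κ → ℤ_[p]) (hc : ∑ i, c i • θ (b i) = 0) : c = 0 :=
  funext fun i => Fintype.linearIndependent_iff.mp (linearIndependent_of_saturated p b θ H) c hc i

end Fermat.Agent.Lib.PadicLattice
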