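/-
Quadratic-form algebra from the parallelogram law.  Owner: helper66.

(A) An integer-valued function `f` on an abelian group with
`f (v + w) + f (v - w) = 2 f v + 2 f w` is a quadratic form: its polar form is biadditive and
`f (x • e₁ + y • e₂ + z • e₃)` is given by the usual formula.

(B) A relational version, tailored to "degree" relations `Dg : G → ℕ → Prop` which are total and
single-valued on a subgroup `H` and satisfy the parallelogram law there: from the values at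
`e₁, e₂, e₃, e₂ - e₁, e₃ - e₂, e₂ + e₁, e₃ - e₁` of a "Frobenius triple" one gets
`Dg (e₃ - (ℓ + 1 - N) • e₂ + ℓ • e₁) 0`.
-/
import Mathlib

set_option autoImplicit false

namespace Fermat.Agent.Lib.ParaQuad

variable {G : Type*} [AddCommGroup G]

/-- The parallelogram law for an integer-valued function on an abelian group. -/
def IsPara (f : G → ℤ) : Prop := ∀ v w : G, f (v + w) + f (v - w) = 2 * f v + 2 * f w

/-- The polar form of `f`. -/
def pol (f : G → ℤ) (v w : G) : ℤ := f (v + w) - f v - f w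

lemma pol_comm (f : G → ℤ) (v w : G) : pol f v w = pol f w v := by
  unfold pol
  rw [add_comm v w]
  ring

namespace IsPara

variable {f : G → ℤ}

lemma map_zero (hf : IsPara f) : f 0 = 0 := by
  have h := hf 0 0
  simp only [add_zero, sub_zero] at h
  linarith

lemma map_neg (hf : IsPara f) (v : G) : f (-v) = f v := by
  have h1 := hf 0 v
  have h0 := hf.map_zero
  simp only [zero_add, zero_sub] at h1
  linarith

lemma map_two_nsmul (hf : IsPara f) (v : G) : f (v + v) = 4 * f v := by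
  have h1 := hf v v
  have h0 := hf.map_zero
  simp only [sub_self] at h1
  linarith

lemma map_add_add (hf : IsPara f) (u v w : G) :
    f (u + v + w) = f (u + v) + f (u + w) + f (v + w) - f u - f v - f w := by
  have h1 := hf (u + v) w
  have h2 := hf (u + w) v
  have h3 := hf u (v - w)
  have h4 := hf v w
  have e1 : u + v - w = u + (v - w) := by abel
  have e2 : u + w - v = u - (v - w) := by abel
  have e3 : u + w + v = u + v + w := by abel
  rw [e1] at h1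
  rw [e2, e3] at h2
  linarith

lemma pol_add_left (hf : IsPara f) (u v w : G) : pol f (u + v) w = pol f u w + pol f v w := by
  unfold pol
  have := hf.map_add_add u v w
  linarith

lemma pol_add_right (hf : IsPara f) (u v w : G) : pol f u (v + w) = pol f u v + pol f u w := by
  rw [pol_comm f u (v + w), hf.pol_add_left, pol_comm f v u, pol_comm f w u]

lemma pol_self (hf : IsPara f) (v : G) : pol f v v = 2 * f v := by
  unfold pol
  rw [hf.map_two_nsmul]
  ring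

/-- The polar form as an additive map in the first variable. -/
def polHom (hf : IsPara f) (w : G) : G →+ ℤ :=
  AddMonoidHom.mk' (fun v => pol f v w) (fun u v => hf.pol_add_left u v w)

lemma pol_zsmul_left (hf : IsPara f) (n : ℤ) (v w : G) : pol f (n • v) w = n * pol f v w := by
  have h := map_zsmul (hf.polHom w) n v
  simpa [polHom] using h

lemma pol_zsmul_right (hf : IsPara f) (n : ℤ) (v w : G) : pol f v (n • w) = n * pol f v w := by
  rw [pol_comm f v (n • w), hf.pol_zsmul_left, pol_comm f w v]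

/-- `f (n • v) = n ^ 2 * f v`. -/
lemma map_zsmul_sq (hf : IsPara f) (n : ℤ) (v : G) : f (n • v) = n ^ 2 * f v := by
  have h := hf.pol_self (n • v)
  rw [hf.pol_zsmul_left, hf.pol_zsmul_right, hf.pol_self] at h
  linarith

/-- The value of a parallelogram-law function on a `ℤ`-combination of three elements. -/
theorem map_three (hf : IsPara f) (e₁ e₂ e₃ : G) (x y z : ℤ) :
    f (x • e₁ + y • e₂ + z • e₃) = x ^ 2 * f e₁ + y ^ 2 * f e₂ + z ^ 2 * f e₃
      + x * y * pol f e₁ e₂ + x * z * pol f e₁ e₃ + y * z * pol f e₂ e₃ := by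
  have h := hf.pol_self (x • e₁ + y • e₂ + z • e₃)
  simp only [hf.pol_add_left, hf.pol_add_right, hf.pol_zsmul_left, hf.pol_zsmul_right,
    hf.pol_self] at h
  rw [pol_comm f e₂ e₁, pol_comm f e₃ e₁, pol_comm f e₃ e₂] at h
  linarith

/-- The value of a parallelogram-law function on a `ℤ`-combination of two elements. -/
theorem map_two (hf : IsPara f) (e₁ e₂ : G) (x y : ℤ) :
    f (x • e₁ + y • e₂) = x ^ 2 * f e₁ + y ^ 2 * f e₂ + x * y * pol f e₁ e₂ := by
  have h := hf.pol_self (x • e₁ + y • e₂)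
  simp only [hf.pol_add_left, hf.pol_add_right, hf.pol_zsmul_left, hf.pol_zsmul_right,
    hf.pol_self] at h
  rw [pol_comm f e₂ e₁] at h
  linarith

/-- polar form from the value at a difference. -/
lemma pol_eq_of_sub (hf : IsPara f) (v w : G) : pol f v w = f v + f w - f (v - w) := by
  unfold pol
  have := hf v w
  linarith

/-- **Frobenius triple, functional form.** If `f e₁ = 1`, `f e₂ = ℓ`, `f e₃ = ℓ²`,
`f (e₂ - e₁) = N`, `f (e₃ - e₂) = N ℓ` and `f (e₃ - e₁) = (2ℓ + 2 - N) N`, then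
`f (e₃ - (ℓ + 1 - N) • e₂ + ℓ • e₁) = 0`. -/
theorem frob_triple (hf : IsPara f) {e₁ e₂ e₃ : G} {ℓ N : ℤ} (h₁ : f e₁ = 1) (h₂ : f e₂ = ℓ)
    (h₃ : f e₃ = ℓ ^ 2) (h₂₁ : f (e₂ - e₁) = N) (h₃₂ : f (e₃ - e₂) = N * ℓ)
    (h₃₁ : f (e₃ - e₁) = (2 * ℓ + 2 - N) * N) :
    f (e₃ - (ℓ + 1 - N) • e₂ + ℓ • e₁) = 0 := by
  have e : e₃ - (ℓ + 1 - N) • e₂ + ℓ • e₁ = ℓ • e₁ + (-(ℓ + 1 - N)) • e₂ + (1 : ℤ) • e₃ := by
    rw [neg_smul, one_smul]
    abel
  rw [e, hf.map_three, pol_comm f e₁ e₂, hf.pol_eq_of_sub e₂ e₁, pol_comm f e₁ e₃,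
    hf.pol_eq_of_sub e₃ e₁, pol_comm f e₂ e₃, hf.pol_eq_of_sub e₃ e₂, h₁, h₂, h₃, h₂₁, h₃₂, h₃₁]
  ring

end IsPara

/-! ### Relational version -/

section Relational

variable (H : AddSubgroup G) (Dg : G → ℕ → Prop)

/-- The degree function on `H` chosen from a total relation. -/
noncomputable def dg (tot : ∀ v ∈ H, ∃ n, Dg v n) (v : H) : ℕ := Classical.choose (tot v v.2)

lemma dg_spec (tot : ∀ v ∈ H, ∃ n, Dg v n) (v : H) : Dg v (dg H Dg tot v) :=
  Classical.choose_spec (tot v v.2)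

lemma dg_eq (tot : ∀ v ∈ H, ∃ n, Dg v n) (uniq : ∀ v n n', Dg v n → Dg v n' → n = n')
    (v : H) {n : ℕ} (h : Dg v n) : dg H Dg tot v = n :=
  uniq v _ _ (dg_spec H Dg tot v) h

lemma isPara_dg (tot : ∀ v ∈ H, ∃ n, Dg v n)
    (para : ∀ v w a b p m, v ∈ H → w ∈ H → Dg v a → Dg w b → Dg (v + w) p → Dg (v - w) m →
      p + m = 2 * a + 2 * b) :
    IsPara (fun v : H => (dg H Dg tot v : ℤ)) := by
  intro v w
  have h := para v w _ _ _ _ v.2 w.2 (dg_spec H Dg tot v) (dg_spec H Dg tot w)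
    (dg_spec H Dg tot (v + w)) (dg_spec H Dg tot (v - w))
  show ((dg H Dg tot (v + w) : ℕ) : ℤ) + (dg H Dg tot (v - w) : ℕ)
    = 2 * (dg H Dg tot v : ℕ) + 2 * (dg H Dg tot w : ℕ)
  exact_mod_cast h

/-- **Frobenius triple, relational form.** `Dg` is a "degree" relation, total and single-valued
on the subgroup `H`, with the parallelogram law on `H`.  From the degrees of
`e₁, e₂, e₃, e₂ - e₁, e₃ - e₂, e₂ + e₁, e₃ - e₁` we get that
`e₃ - (ℓ + 1 - N) • e₂ + ℓ • e₁` has degree `0`. -/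
theorem frob_triple_rel (tot : ∀ v ∈ H, ∃ n, Dg v n)
    (uniq : ∀ v n n', Dg v n → Dg v n' → n = n')
    (para : ∀ v w a b p m, v ∈ H → w ∈ H → Dg v a → Dg w b → Dg (v + w) p → Dg (v - w) m →
      p + m = 2 * a + 2 * b)
    {e₁ e₂ e₃ : G} (h₁ : e₁ ∈ H) (h₂ : e₂ ∈ H) (h₃ : e₃ ∈ H) {ℓ N q : ℕ}
    (d₁ : Dg e₁ 1) (d₂ : Dg e₂ ℓ) (d₃ : Dg e₃ (ℓ ^ 2)) (d₂₁ : Dg (e₂ - e₁) N)
    (d₃₂ : Dg (e₃ - e₂) (N * ℓ)) (s₂₁ : Dg (e₂ + e₁) q) (d₃₁ : Dg (e₃ - e₁) (q * N)) :
    Dg (e₃ - ((ℓ : ℤ) + 1 - (N : ℤ)) • e₂ + (ℓ : ℤ) • e₁) 0 := by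
  set f : H → ℤ := fun v : H => (dg H Dg tot v : ℤ) with hfdef
  have hf : IsPara f := isPara_dg H Dg tot para
  set E₁ : H := ⟨e₁, h₁⟩ with hE₁
  set E₂ : H := ⟨e₂, h₂⟩ with hE₂
  set E₃ : H := ⟨e₃, h₃⟩ with hE₃
  have f₁ : f E₁ = 1 := by
    have := dg_eq H Dg tot uniq E₁ d₁
    simp [hfdef, this]
  have f₂ : f E₂ = ℓ := by
    have := dg_eq H Dg tot uniq E₂ d₂
    simp [hfdef, this]
  have f₃ : f E₃ = (ℓ : ℤ) ^ 2 := by
    have := dg_eq H Dg tot uniq E₃ d₃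
    simp [hfdef, this]
  have f₂₁ : f (E₂ - E₁) = N := by
    have := dg_eq H Dg tot uniq (E₂ - E₁) (n := N) (by simpa [hE₁, hE₂] using d₂₁)
    simp [hfdef, this]
  have f₃₂ : f (E₃ - E₂) = (N : ℤ) * ℓ := by
    have := dg_eq H Dg tot uniq (E₃ - E₂) (n := N * ℓ) (by simpa [hE₃, hE₂] using d₃₂)
    simp [hfdef, this]
  have g₂₁ : f (E₂ + E₁) = q := by
    have := dg_eq H Dg tot uniq (E₂ + E₁) (n := q) (by simpa [hE₁, hE₂] using s₂₁)
    simp [hfdef, this]
  have f₃₁' : f (E₃ - E₁) = (q : ℤ) * N := by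
    have := dg_eq H Dg tot uniq (E₃ - E₁) (n := q * N) (by simpa [hE₃, hE₁] using d₃₁)
    simp [hfdef, this]
  have hq : (q : ℤ) = 2 * ℓ + 2 - N := by
    have := hf E₂ E₁
    rw [g₂₁, f₂₁, f₂, f₁] at this
    linarith
  have f₃₁ : f (E₃ - E₁) = (2 * (ℓ : ℤ) + 2 - N) * N := by rw [f₃₁', hq]
  have key := hf.frob_triple f₁ f₂ f₃ f₂₁ f₃₂ f₃₁
  have hz : dg H Dg tot (E₃ - ((ℓ : ℤ) + 1 - (N : ℤ)) • E₂ + (ℓ : ℤ) • E₁) = 0 := by
    have : ((dg H Dg tot (E₃ - ((ℓ : ℤ) + 1 - (N : ℤ)) • E₂ + (ℓ : ℤ) • E₁) : ℕ) : ℤ) = 0 := key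
    exact_mod_cast this
  have hs := dg_spec H Dg tot (E₃ - ((ℓ : ℤ) + 1 - (N : ℤ)) • E₂ + (ℓ : ℤ) • E₁)
  rw [hz] at hs
  simpa [hE₁, hE₂, hE₃] using hs

end Relational

end Fermat.Agent.Lib.ParaQuad
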