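import Mathlib

set_option autoImplicit false
set_option linter.unusedSectionVars false

/-!
Spectral idempotents of a matrix `P` with `P ^ h = 1`, the associated exponential families
`Dm s = ∑ exp(2πi s θ_m) π_m`, `Em s = ∑ exp(-2πi s θ_m) π_m`, and the determinant of `Dm s`.
-/

namespace Fermat.Agent.Lib.VVSpectral

open Complex
open scoped Real

theorem det_one_add_smul_conj_aux {V : Type*} [AddCommGroup V] [Module ℂ V]
    [FiniteDimensional ℂ V]
    (p q : Submodule ℂ V) (e : (p × q) ≃ₗ[ℂ] V) (t : ℂ) :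
    LinearMap.det (1 + t • e.conj (LinearMap.prodMap LinearMap.id 0)) =
      (1 + t) ^ Module.finrank ℂ p := by
  have h2 : (1 + t • e.conj (LinearMap.prodMap LinearMap.id 0)) =
      e.conj (LinearMap.prodMap ((1 + t) • LinearMap.id) LinearMap.id) := by
    have h3 : (1 : V →ₗ[ℂ] V) = e.conj (LinearMap.prodMap LinearMap.id LinearMap.id) := by
      rw [LinearMap.prodMap_id]
      ext v
      simp [LinearEquiv.conj_apply]
    rw [h3, ← map_smul, ← map_add]
    congr 1
    ext ⟨a, b⟩ <;> simp [add_smul]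
  rw [h2, LinearEquiv.conj_apply, LinearMap.comp_assoc]
  rw [LinearMap.det_conj]
  rw [LinearMap.det_prodMap, LinearMap.det_smul, LinearMap.det_id, LinearMap.det_id]
  simp

/-- `det (1 + t • f) = (1 + t) ^ rank` for a projection `f`. -/
theorem det_one_add_smul_of_isProj {V : Type*} [AddCommGroup V] [Module ℂ V]
    [FiniteDimensional ℂ V]
    (p : Submodule ℂ V) (f : V →ₗ[ℂ] V) (hf : LinearMap.IsProj p f) (t : ℂ) :
    LinearMap.det (1 + t • f) = (1 + t) ^ Module.finrank ℂ p := by
  have h1 := hf.eq_conj_prodMap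
  have := det_one_add_smul_conj_aux p (LinearMap.ker f)
    (p.prodEquivOfIsCompl (LinearMap.ker f) hf.isCompl) t
  rw [← h1] at this
  exact this

variable {X : Type*} [Fintype X] [DecidableEq X]
variable (h : ℕ) [NeZero h] (P : Matrix X X ℂ)

/-- `j ↦ P ^ j` for `j : ZMod h`. -/
noncomputable def rho (j : ZMod h) : Matrix X X ℂ := P ^ j.val

theorem rho_zero : rho h P 0 = 1 := by simp [rho]

variable {h P}

theorem rho_add (hP : P ^ h = 1) (j l : ZMod h) :
    rho h P (j + l) = rho h P j * rho h P l := by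
  simp only [rho, ZMod.val_add, ← pow_add]
  exact (pow_eq_pow_mod _ hP).symm

theorem rho_natCast (hP : P ^ h = 1) (n : ℕ) : rho h P (n : ZMod h) = P ^ n := by
  simp only [rho, ZMod.val_natCast]
  exact (pow_eq_pow_mod _ hP).symm

theorem rho_one (hP : P ^ h = 1) : rho h P 1 = P := by
  have := rho_natCast hP 1
  simpa using this

theorem rho_mul_rho_neg (hP : P ^ h = 1) (j : ZMod h) : rho h P j * rho h P (-j) = 1 := by
  rw [← rho_add hP, add_neg_cancel, rho_zero]

theorem rho_transpose (hP : P ^ h = 1) (hT : P.transpose * P = 1) (j : ZMod h) :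
    (rho h P j).transpose = rho h P (-j) := by
  have h1 : ∀ n : ℕ, (P ^ n).transpose * P ^ n = 1 := by
    intro n
    induction n with
    | zero => simp
    | succ n ih =>
      rw [pow_succ, Matrix.transpose_mul, Matrix.mul_assoc,
        ← Matrix.mul_assoc (P ^ n).transpose, ih, Matrix.one_mul, hT]
  calc (rho h P j).transpose = (rho h P j).transpose * (rho h P j * rho h P (-j)) := by
        rw [rho_mul_rho_neg hP, Matrix.mul_one]
    _ = rho h P (-j) := by
        rw [← Matrix.mul_assoc]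
        have := h1 j.val
        rw [rho, this, Matrix.one_mul]

variable (h P)

/-- The spectral idempotent of `P` for the eigenvalue `exp(2πi m / h)`. -/
noncomputable def proj (m : ZMod h) : Matrix X X ℂ :=
  (h : ℂ)⁻¹ • ∑ j : ZMod h, ZMod.stdAddChar (-(m * j)) • rho h P j

variable {h P}

theorem rho_mul_proj (hP : P ^ h = 1) (l m : ZMod h) :
    rho h P l * proj h P m = ZMod.stdAddChar (m * l) • proj h P m := by
  rw [proj, Matrix.mul_smul, Finset.mul_sum, smul_comm]
  congr 1
  rw [Finset.smul_sum]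
  refine Fintype.sum_equiv (Equiv.addLeft l) _ _ (fun j => ?_)
  rw [Matrix.mul_smul, ← rho_add hP, smul_smul, ← AddChar.map_add_eq_mul]
  simp only [Equiv.coe_addLeft]
  congr 2
  ring

theorem proj_mul_proj (hP : P ^ h = 1) (m n : ZMod h) :
    proj h P m * proj h P n = if m = n then proj h P n else 0 := by
  have hh : (h : ℂ) ≠ 0 := Nat.cast_ne_zero.mpr (NeZero.ne h)
  have key : proj h P m * proj h P n =
      ((h : ℂ)⁻¹ * ∑ j : ZMod h, ZMod.stdAddChar (j * (n - m))) • proj h P n := by
    conv_lhs => rw [proj]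
    rw [Matrix.smul_mul, Finset.sum_mul, mul_smul, Finset.sum_smul]
    congr 1
    refine Finset.sum_congr rfl (fun j _ => ?_)
    rw [Matrix.smul_mul, rho_mul_proj hP, smul_smul, ← AddChar.map_add_eq_mul]
    congr 2
    ring
  rw [key, AddChar.sum_mulShift _ (ZMod.isPrimitive_stdAddChar h)]
  by_cases hmn : m = n
  · subst hmn
    simp [hh]
  · have : n - m ≠ 0 := sub_ne_zero.mpr (Ne.symm hmn)
    simp [this, hmn]

theorem sum_proj : ∑ m : ZMod h, proj h P m = 1 := by
  have hh : (h : ℂ) ≠ 0 := Nat.cast_ne_zero.mpr (NeZero.ne h)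
  simp only [proj]
  rw [← Finset.smul_sum, Finset.sum_comm]
  have : ∀ j : ZMod h, ∑ m : ZMod h, ZMod.stdAddChar (-(m * j)) • rho h P j =
      (if j = 0 then (h : ℂ) else 0) • rho h P j := by
    intro j
    rw [← Finset.sum_smul]
    congr 1
    have h2 := AddChar.sum_mulShift (-j) (ZMod.isPrimitive_stdAddChar h)
    simp only [neg_eq_zero, ZMod.card] at h2
    calc ∑ m : ZMod h, ZMod.stdAddChar (-(m * j))
        = ∑ x : ZMod h, ZMod.stdAddChar (x * -j) :=
          Finset.sum_congr rfl (fun m _ => by rw [mul_neg])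
      _ = (if j = 0 then (h : ℂ) else 0) := by
          rw [h2]; split_ifs <;> simp
  simp_rw [this]
  simp [rho_zero, hh]

theorem proj_transpose (hP : P ^ h = 1) (hT : P.transpose * P = 1) (m : ZMod h) :
    (proj h P m).transpose = proj h P (-m) := by
  simp only [proj, Matrix.transpose_smul, Matrix.transpose_sum]
  congr 1
  refine Fintype.sum_equiv (Equiv.neg _) _ _ (fun j => ?_)
  rw [rho_transpose hP hT]
  simp

variable (h)

/-- The exponent `θ_m = m / h ∈ [0, 1)` attached to `m : ZMod h`. -/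
noncomputable def expo (m : ZMod h) : ℝ := (m.val : ℝ) / h

theorem expo_nonneg (m : ZMod h) : 0 ≤ expo h m := by
  unfold expo; positivity

theorem expo_le (m : ZMod h) : expo h m ≤ 1 - 1 / (h : ℝ) := by
  have hh : (0 : ℝ) < h := Nat.cast_pos.mpr (Nat.pos_of_ne_zero (NeZero.ne h))
  have h1 : m.val + 1 ≤ h := ZMod.val_lt m
  have h2 : (m.val : ℝ) + 1 ≤ h := by exact_mod_cast h1
  unfold expo
  rw [div_le_iff₀ hh, sub_mul, one_mul, one_div, inv_mul_cancel₀ hh.ne']
  linarith

theorem expo_zero : expo h 0 = 0 := by simp [expo]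

theorem expo_neg (m : ZMod h) (hm : m ≠ 0) : expo h (-m) = 1 - expo h m := by
  have hh : (0 : ℝ) < h := Nat.cast_pos.mpr (Nat.pos_of_ne_zero (NeZero.ne h))
  unfold expo
  rw [ZMod.neg_val, if_neg hm, Nat.cast_sub (ZMod.val_lt m).le]
  field_simp

theorem stdAddChar_eq_exp (m : ZMod h) :
    ZMod.stdAddChar m = cexp (2 * π * I * (expo h m : ℂ)) := by
  rw [ZMod.stdAddChar_apply, ZMod.toCircle_apply, expo]
  push_cast
  congr 1
  ring

variable (P)

/-- `D(s) = ∑ exp(2πi s θ_m) π_m`. -/
noncomputable def Dm (s : ℂ) : Matrix X X ℂ :=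
  ∑ m : ZMod h, cexp (2 * π * I * s * (expo h m : ℂ)) • proj h P m

/-- `E(s) = ∑ exp(-2πi s θ_m) π_m`, the inverse of `D(s)`. -/
noncomputable def Em (s : ℂ) : Matrix X X ℂ :=
  ∑ m : ZMod h, cexp (-(2 * π * I * s * (expo h m : ℂ))) • proj h P m

variable {h P}

theorem Em_mul_Dm (hP : P ^ h = 1) (s : ℂ) : Em h P s * Dm h P s = 1 := by
  rw [Em, Dm, Finset.sum_mul_sum]
  simp_rw [Matrix.smul_mul, Matrix.mul_smul, proj_mul_proj hP, smul_smul]
  simp only [smul_ite, smul_zero, Finset.sum_ite_eq, Finset.mem_univ, if_true]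
  rw [← sum_proj (h := h) (P := P)]
  refine Finset.sum_congr rfl (fun m _ => ?_)
  rw [← Complex.exp_add, neg_add_cancel, Complex.exp_zero, one_smul]

theorem Dm_mul_Em (hP : P ^ h = 1) (s : ℂ) : Dm h P s * Em h P s = 1 :=
  mul_eq_one_comm.mp (Em_mul_Dm hP s)

theorem P_mul_proj (hP : P ^ h = 1) (m : ZMod h) :
    P * proj h P m = cexp (2 * π * I * (expo h m : ℂ)) • proj h P m := by
  have := rho_mul_proj hP 1 m
  rwa [rho_one hP, mul_one, stdAddChar_eq_exp] at this

theorem proj_mul_P (hP : P ^ h = 1) (m : ZMod h) :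
    proj h P m * P = cexp (2 * π * I * (expo h m : ℂ)) • proj h P m := by
  have hcomm : ∀ j : ZMod h, rho h P j * P = P * rho h P j := by
    intro j
    simp only [rho]
    exact ((Commute.refl P).pow_left _).eq
  rw [← P_mul_proj hP, proj, Matrix.smul_mul, Matrix.mul_smul, Finset.sum_mul, Finset.mul_sum]
  congr 1
  refine Finset.sum_congr rfl (fun j _ => ?_)
  rw [Matrix.smul_mul, Matrix.mul_smul, hcomm]

theorem Dm_add_one (hP : P ^ h = 1) (s : ℂ) : Dm h P (s + 1) = P * Dm h P s := by
  rw [Dm, Dm, Finset.mul_sum]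
  refine Finset.sum_congr rfl (fun m _ => ?_)
  rw [Matrix.mul_smul, P_mul_proj hP, smul_smul, ← Complex.exp_add]
  congr 2
  ring

theorem Em_add_one_mul (hP : P ^ h = 1) (s : ℂ) : Em h P (s + 1) * P = Em h P s := by
  rw [Em, Em, Finset.sum_mul]
  refine Finset.sum_congr rfl (fun m _ => ?_)
  rw [Matrix.smul_mul, proj_mul_P hP, smul_smul, ← Complex.exp_add]
  congr 2
  ring

theorem Em_mul_proj_zero (hP : P ^ h = 1) (s : ℂ) : Em h P s * proj h P 0 = proj h P 0 := by
  rw [Em, Finset.sum_mul]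
  simp_rw [Matrix.smul_mul, proj_mul_proj hP]
  simp [expo_zero]

/-- Entry bound for `E(s)` in the upper half plane. -/
theorem norm_Em_apply_le (s : ℂ) (hs : 0 ≤ s.im) (x y : X) :
    ‖Em h P s x y‖ ≤ (∑ m : ZMod h, ‖proj h P m x y‖) *
      Real.exp (2 * π * (1 - 1 / (h : ℝ)) * s.im) := by
  rw [Em, Matrix.sum_apply, Finset.sum_mul]
  refine (norm_sum_le _ _).trans (Finset.sum_le_sum (fun m _ => ?_))
  rw [Matrix.smul_apply, smul_eq_mul, norm_mul, mul_comm]
  refine mul_le_mul_of_nonneg_left ?_ (norm_nonneg _)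
  rw [Complex.norm_exp]
  refine Real.exp_le_exp.mpr ?_
  have h1 : (-(2 * π * I * s * (expo h m : ℂ))).re = 2 * π * expo h m * s.im := by
    simp [Complex.mul_re, Complex.mul_im]
    ring
  rw [h1]
  have := expo_le h m
  have hpi : 0 ≤ 2 * π * s.im := by positivity
  nlinarith

/-- Entry bound for `D(s)` in the upper half plane. -/
theorem norm_Dm_apply_le (s : ℂ) (hs : 0 ≤ s.im) (x y : X) :
    ‖Dm h P s x y‖ ≤ ∑ m : ZMod h, ‖proj h P m x y‖ := by
  rw [Dm, Matrix.sum_apply]
  refine (norm_sum_le _ _).trans (Finset.sum_le_sum (fun m _ => ?_))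
  rw [Matrix.smul_apply, smul_eq_mul, norm_mul]
  refine mul_le_of_le_one_left (norm_nonneg _) ?_
  rw [Complex.norm_exp]
  refine Real.exp_le_one_iff.mpr ?_
  have h1 : (2 * π * I * s * (expo h m : ℂ)).re = -(2 * π * expo h m * s.im) := by
    simp [Complex.mul_re, Complex.mul_im]
    ring
  rw [h1]
  have := expo_nonneg h m
  have hpi : 0 ≤ 2 * π * s.im := by positivity
  nlinarith

theorem Dm_transpose (hP : P ^ h = 1) (hT : P.transpose * P = 1) (s : ℂ) :
    (Dm h P s).transpose =
      cexp (2 * π * I * s) • Em h P s + (1 - cexp (2 * π * I * s)) • proj h P 0 := by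
  have h1 : (Dm h P s).transpose =
      ∑ m : ZMod h, cexp (2 * π * I * s * (expo h (-m) : ℂ)) • proj h P m := by
    rw [Dm, Matrix.transpose_sum]
    refine Fintype.sum_equiv (Equiv.neg _) _ _ (fun m => ?_)
    rw [Matrix.transpose_smul, proj_transpose hP hT]
    simp
  have h2 : (1 - cexp (2 * π * I * s)) • proj h P 0 =
      ∑ m : ZMod h, (if m = 0 then (1 - cexp (2 * π * I * s)) else 0) • proj h P m := by
    simp [ite_smul]
  rw [h1, h2, Em, Finset.smul_sum, ← Finset.sum_add_distrib]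
  refine Finset.sum_congr rfl (fun m _ => ?_)
  rw [smul_smul, ← add_smul]
  congr 1
  by_cases hm : m = 0
  · subst hm
    simp [expo_zero]
  · rw [if_neg hm, add_zero, expo_neg h m hm, ← Complex.exp_add]
    congr 1
    push_cast
    ring

/-- The square of `det D(s)` is `q ^ (card X - c)`, where `c` is the rank of `π_0`. -/
theorem det_Dm_sq (hP : P ^ h = 1) (hT : P.transpose * P = 1) (c : ℕ)
    (hc : ∀ t : ℂ, (1 + t • proj h P 0).det = (1 + t) ^ c) (s : ℂ) :
    (Dm h P s).det ^ 2 * cexp (2 * π * I * s) ^ c = cexp (2 * π * I * s) ^ Fintype.card X := by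
  set q := cexp (2 * π * I * s) with hq
  have hq0 : q ≠ 0 := Complex.exp_ne_zero _
  have h1 : (Dm h P s).transpose = Em h P s * (q • (1 + (q⁻¹ - 1) • proj h P 0)) := by
    rw [Dm_transpose hP hT, ← hq, Matrix.mul_smul, Matrix.mul_add, Matrix.mul_one,
      Matrix.mul_smul, Em_mul_proj_zero hP, smul_add, smul_smul]
    congr 2
    field_simp
  have h2 : (Dm h P s).det = (Em h P s).det * (q ^ Fintype.card X * (q⁻¹) ^ c) := by
    rw [← Matrix.det_transpose, h1, Matrix.det_mul, Matrix.det_smul, hc]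
    congr 3
    ring
  have h3 : (Em h P s).det * (Dm h P s).det = 1 := by
    rw [← Matrix.det_mul, Em_mul_Dm hP, Matrix.det_one]
  calc (Dm h P s).det ^ 2 * q ^ c
      = (Dm h P s).det * ((Em h P s).det * (q ^ Fintype.card X * (q⁻¹) ^ c)) * q ^ c := by
        rw [← h2]; ring
    _ = ((Em h P s).det * (Dm h P s).det) * q ^ Fintype.card X * ((q⁻¹) ^ c * q ^ c) := by ring
    _ = q ^ Fintype.card X := by
        rw [h3, ← mul_pow, inv_mul_cancel₀ hq0, one_pow, one_mul, mul_one]

/-- `π_0` is a projection onto the fixed vectors of `P`. -/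
theorem proj_zero_isProj (hP : P ^ h = 1) :
    LinearMap.IsProj (LinearMap.ker (Matrix.toLin' P - 1)) (Matrix.toLin' (proj h P 0)) := by
  have hh : (h : ℂ) ≠ 0 := Nat.cast_ne_zero.mpr (NeZero.ne h)
  constructor
  · intro v
    rw [LinearMap.mem_ker, LinearMap.sub_apply, Module.End.one_apply, sub_eq_zero,
      ← Matrix.toLin'_mul_apply, P_mul_proj hP, expo_zero]
    simp
  · intro v hv
    rw [LinearMap.mem_ker, LinearMap.sub_apply, Module.End.one_apply, sub_eq_zero] at hv
    have h1 : ∀ n : ℕ, Matrix.toLin' (P ^ n) v = v := by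
      intro n
      induction n with
      | zero => simp
      | succ n ih => rw [pow_succ, Matrix.toLin'_mul_apply, hv, ih]
    simp only [proj, map_smul, map_sum, LinearMap.smul_apply, LinearMap.sum_apply, rho, h1]
    ext x
    simp
    field_simp

theorem det_one_add_smul_proj_zero (hP : P ^ h = 1) (t : ℂ) :
    (1 + t • proj h P 0).det =
      (1 + t) ^ Module.finrank ℂ (LinearMap.ker (Matrix.toLin' P - 1)) := by
  rw [← det_one_add_smul_of_isProj _ _ (proj_zero_isProj hP) t, ← LinearMap.det_toLin']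
  congr 1
  rw [map_add, map_smul, Matrix.toLin'_one]
  rfl

end Fermat.Agent.Lib.VVSpectral
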