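import Mathlib
import Fermat.Agent.S23.Defs
import Fermat.Agent.Lib.VVSpectral
import Fermat.Agent.Lib.VVAnalytic

set_option autoImplicit false
set_option linter.unusedSectionVars false

/-!
Vector valued modular forms attached to forms on `Γ₀(N)` (indexed by `SL(2,ℤ) ⧸ Γ₀(N)`),
their leading vectors at `i∞`, and the weight-sum relation for a pointwise invertible
free family.
-/

namespace Fermat.Agent.Lib.VVCusp

open Complex Filter Topology
open UpperHalfPlane hiding I
open scoped MatrixGroups ModularForm Real Manifold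
open Fermat.Agent.S23 (IsMF IsCF G0)
open CongruenceSubgroup (Gamma0)
open Fermat.Agent.Lib.VVSpectral Fermat.Agent.Lib.VVAnalytic

/-- The coset space `SL(2,ℤ) ⧸ Γ₀(N)`. -/
abbrev X (N : ℕ) : Type := SL(2, ℤ) ⧸ Gamma0 N

noncomputable instance instFintypeX (N : ℕ) [NeZero N] : Fintype (X N) := Fintype.ofFinite _

noncomputable instance instDecEqX (N : ℕ) : DecidableEq (X N) := Classical.decEq _

variable (N : ℕ) [NeZero N]

/-- The component of `f` at the coset `x`. -/
noncomputable def comp (K : ℤ) (f : ℍ → ℂ) (x : X N) : ℍ → ℂ := f ∣[K] (x.out)⁻¹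

variable {N}

theorem comp_mk {K : ℤ} {f : ℍ → ℂ} (hf : ∀ γ ∈ Gamma0 N, f ∣[K] γ = f) (g : SL(2, ℤ)) :
    comp N K f (g : X N) = f ∣[K] g⁻¹ := by
  obtain ⟨γ, hγ⟩ := QuotientGroup.mk_out_eq_mul (Gamma0 N) g
  rw [comp, hγ, mul_inv_rev, SlashAction.slash_mul, hf _ (inv_mem γ.2)]

theorem comp_slash {K : ℤ} {f : ℍ → ℂ} (hf : ∀ γ ∈ Gamma0 N, f ∣[K] γ = f) (x : X N)
    (γ : SL(2, ℤ)) : (comp N K f x) ∣[K] γ = comp N K f (γ⁻¹ • x) := by
  induction x using QuotientGroup.induction_on with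
  | H g =>
    rw [MulAction.Quotient.smul_mk, smul_eq_mul, comp_mk hf, comp_mk hf,
      ← SlashAction.slash_mul]
    congr 1
    group

theorem comp_smul {K : ℤ} {f : ℍ → ℂ} (hf : ∀ γ ∈ Gamma0 N, f ∣[K] γ = f) (x : X N)
    (γ : SL(2, ℤ)) (z : ℍ) :
    comp N K f x (γ • z) = denom γ z ^ K * comp N K f (γ⁻¹ • x) z := by
  have h := congrFun (comp_slash hf x γ) z
  rw [ModularForm.SL_slash_apply] at h
  rw [← h, mul_comm, mul_assoc, ← zpow_add₀ (denom_ne_zero γ z), neg_add_cancel, zpow_zero,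
    mul_one]

theorem comp_vadd {K : ℤ} {f : ℍ → ℂ} (hf : ∀ γ ∈ Gamma0 N, f ∣[K] γ = f) (x : X N)
    (z : ℍ) :
    comp N K f x ((1 : ℝ) +ᵥ z) = comp N K f (ModularGroup.T⁻¹ • x) z := by
  have h := comp_smul hf x ModularGroup.T z
  rw [UpperHalfPlane.modular_T_smul] at h
  rw [h]
  have : denom ModularGroup.T z = 1 := by
    rw [Fermat.Agent.Lib.EichlerInj.denom_eq]
    simp [Fermat.Agent.Lib.EichlerInj.denC, ModularGroup.T]
  rw [this, one_zpow, one_mul]

theorem comp_one_mk {K : ℤ} {f : ℍ → ℂ} (hf : ∀ γ ∈ Gamma0 N, f ∣[K] γ = f) :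
    comp N K f ((1 : SL(2, ℤ)) : X N) = f := by
  rw [comp_mk hf, inv_one, SlashAction.slash_one]

/-- The permutation matrix of `γ` acting on `X N`. -/
noncomputable def perm (N : ℕ) [NeZero N] (γ : SL(2, ℤ)) : Matrix (X N) (X N) ℂ :=
  Matrix.of fun x y => if y = γ⁻¹ • x then 1 else 0

theorem perm_mulVec (γ : SL(2, ℤ)) (v : X N → ℂ) :
    (perm N γ).mulVec v = fun x => v (γ⁻¹ • x) := by
  ext x
  simp [perm, Matrix.mulVec, dotProduct]

theorem perm_one : perm N 1 = 1 := by
  ext x y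
  simp [perm, Matrix.one_apply, eq_comm]

theorem perm_mul (a b : SL(2, ℤ)) : perm N (a * b) = perm N a * perm N b := by
  ext x z
  simp only [perm, Matrix.mul_apply, Matrix.of_apply, mul_inv_rev, mul_smul]
  rw [Finset.sum_eq_single (a⁻¹ • x)]
  · simp
  · intro y _ hy
    simp [hy]
  · intro h
    exact absurd (Finset.mem_univ _) h

theorem perm_transpose (γ : SL(2, ℤ)) : (perm N γ).transpose = perm N γ⁻¹ := by
  ext x y
  simp only [perm, Matrix.transpose_apply, Matrix.of_apply, inv_inv]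
  congr 1
  rw [eq_iff_iff]
  constructor
  · intro h; rw [h, smul_inv_smul]
  · intro h; rw [h, inv_smul_smul]

theorem perm_transpose_mul (γ : SL(2, ℤ)) : (perm N γ).transpose * perm N γ = 1 := by
  rw [perm_transpose, ← perm_mul, inv_mul_cancel, perm_one]

theorem perm_pow (γ : SL(2, ℤ)) (n : ℕ) : perm N γ ^ n = perm N (γ ^ n) := by
  induction n with
  | zero => simp [perm_one]
  | succ n ih => rw [pow_succ, pow_succ, ih, perm_mul]

theorem T_pow_smul (x : X N) : (ModularGroup.T ^ N)⁻¹ • x = x := by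
  induction x using QuotientGroup.induction_on with
  | H g =>
    rw [MulAction.Quotient.smul_mk, smul_eq_mul, QuotientGroup.eq]
    have h1 : ModularGroup.T ^ (N : ℤ) ∈ CongruenceSubgroup.Gamma N := by
      simpa using CongruenceSubgroup.ModularGroup_T_pow_mem_Gamma (N : ℤ) (N : ℤ) dvd_rfl
    have h2 : g⁻¹ * ModularGroup.T ^ (N : ℤ) * g ∈ CongruenceSubgroup.Gamma N := by
      have := (CongruenceSubgroup.Gamma_normal N).conj_mem _ h1 g⁻¹
      simpa using this
    have h3 : g⁻¹ * ModularGroup.T ^ (N : ℤ) * g ∈ Gamma0 N := by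
      rw [CongruenceSubgroup.Gamma_mem] at h2
      rw [CongruenceSubgroup.Gamma0_mem]
      exact h2.2.2.1
    have h4 : ((ModularGroup.T ^ N)⁻¹ * g)⁻¹ * g = g⁻¹ * ModularGroup.T ^ (N : ℤ) * g := by
      rw [zpow_natCast]; group
    rw [h4]
    exact h3

theorem perm_T_pow : perm N ModularGroup.T ^ N = 1 := by
  rw [perm_pow]
  ext x y
  simp [perm, Matrix.one_apply, T_pow_smul, eq_comm]

/-! ### Holomorphy helpers -/

theorem mdiff_sum {ι : Type*} (s : Finset ι) (F : ι → ℍ → ℂ) (h : ∀ i ∈ s, MDiff (F i)) :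
    MDiff (fun z => ∑ i ∈ s, F i z) := by
  classical
  induction s using Finset.induction_on with
  | empty => simpa using (mdifferentiable_const : MDiff (fun _ : ℍ => (0 : ℂ)))
  | insert a s ha ih =>
    simp only [Finset.sum_insert ha]
    exact (h a (Finset.mem_insert_self a s)).add (ih fun i hi => h i (Finset.mem_insert_of_mem hi))

theorem mdiff_prod {ι : Type*} (s : Finset ι) (F : ι → ℍ → ℂ) (h : ∀ i ∈ s, MDiff (F i)) :
    MDiff (fun z => ∏ i ∈ s, F i z) := by
  classical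
  induction s using Finset.induction_on with
  | empty => simpa using (mdifferentiable_const : MDiff (fun _ : ℍ => (1 : ℂ)))
  | insert a s ha ih =>
    simp only [Finset.prod_insert ha]
    exact (h a (Finset.mem_insert_self a s)).mul (ih fun i hi => h i (Finset.mem_insert_of_mem hi))

theorem mdiff_det {n : Type*} [Fintype n] [DecidableEq n] (M : ℍ → Matrix n n ℂ)
    (hM : ∀ x y, MDiff (fun z => M z x y)) : MDiff (fun z => (M z).det) := by
  simp only [Matrix.det_apply]
  refine mdiff_sum _ _ (fun σ _ => ?_)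
  have h1 : MDiff (fun z => ∏ i, M z (σ i) i) := mdiff_prod _ _ (fun i _ => hM (σ i) i)
  have h2 : (fun z : ℍ => Equiv.Perm.sign σ • ∏ i, M z (σ i) i) =
      fun z => ((Equiv.Perm.sign σ : ℤ) : ℂ) * ∏ i, M z (σ i) i := by
    ext z
    rw [Units.smul_def, zsmul_eq_mul]
  rw [h2]
  exact mdifferentiable_const.mul h1

theorem differentiable_Em_apply (h : ℕ) [NeZero h] {Y : Type*} [Fintype Y] [DecidableEq Y]
    (P : Matrix Y Y ℂ) (x y : Y) : Differentiable ℂ (fun s : ℂ => Em h P s x y) := by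
  simp only [Em, Matrix.sum_apply, Matrix.smul_apply, smul_eq_mul]
  fun_prop

/-! ### The vector of components and its twist -/

variable (N)

/-- The vector of all components of `f`. -/
noncomputable def vec (K : ℤ) (f : ℍ → ℂ) (z : ℍ) : X N → ℂ := fun x => comp N K f x z

/-- The permutation matrix of `T`. -/
noncomputable abbrev PT : Matrix (X N) (X N) ℂ := perm N ModularGroup.T

/-- The twisted vector `E(z) v_f(z)`, which is `1`-periodic. -/
noncomputable def tw (K : ℤ) (f : ℍ → ℂ) (z : ℍ) : X N → ℂ :=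
  (Em N (PT N) (z : ℂ)).mulVec (vec N K f z)

variable {N}

theorem vec_vadd {K : ℤ} {f : ℍ → ℂ} (hf : ∀ γ ∈ Gamma0 N, f ∣[K] γ = f) (z : ℍ) :
    vec N K f ((1 : ℝ) +ᵥ z) = (PT N).mulVec (vec N K f z) := by
  rw [perm_mulVec]
  ext x
  exact comp_vadd hf x z

theorem tw_vadd {K : ℤ} {f : ℍ → ℂ} (hf : ∀ γ ∈ Gamma0 N, f ∣[K] γ = f) (z : ℍ) :
    tw N K f ((1 : ℝ) +ᵥ z) = tw N K f z := by
  have hc : (((1 : ℝ) +ᵥ z : ℍ) : ℂ) = (z : ℂ) + 1 := by
    simp [add_comm]
  rw [tw, tw, vec_vadd hf, Matrix.mulVec_mulVec, hc, Em_add_one_mul perm_T_pow]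

theorem vec_eq_Dm_tw (K : ℤ) (f : ℍ → ℂ) (z : ℍ) :
    vec N K f z = (Dm N (PT N) (z : ℂ)).mulVec (tw N K f z) := by
  rw [tw, Matrix.mulVec_mulVec, Dm_mul_Em perm_T_pow, Matrix.one_mulVec]

theorem mdiff_comp {K : ℤ} {f : ℍ → ℂ} (hf : MDiff f) (x : X N) : MDiff (comp N K f x) :=
  hf.slash K _

theorem mdiff_tw {K : ℤ} {f : ℍ → ℂ} (hf : MDiff f) (x : X N) :
    MDiff (fun z => tw N K f z x) := by
  simp only [tw, Matrix.mulVec, dotProduct, vec]
  refine mdiff_sum _ _ (fun y _ => ?_)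
  exact (mdiff_comp_coe _ (differentiable_Em_apply N (PT N) x y)).mul (mdiff_comp hf y)

theorem exists_bound_vec {K : ℤ} {f : ℍ → ℂ} (hf : IsMF (G0 N) K f) :
    ∃ M A : ℝ, ∀ z : ℍ, A ≤ z.im → ∀ x, ‖vec N K f z x‖ ≤ M := by
  have h1 : ∀ x : X N, ∃ M A : ℝ, ∀ z : ℍ, A ≤ z.im → ‖comp N K f x z‖ ≤ M := fun x =>
    isBoundedAtImInfty_iff.mp (bdd_slash_of_isMF_G0 hf _)
  choose M A hMA using h1
  refine ⟨∑ x, |M x|, ∑ x, |A x|, fun z hz x => ?_⟩
  have hA : A x ≤ z.im :=
    ((le_abs_self _).trans (Finset.single_le_sum (f := fun x => |A x|)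
      (fun i _ => abs_nonneg _) (Finset.mem_univ x))).trans hz
  exact ((hMA x z hA).trans (le_abs_self _)).trans
    (Finset.single_le_sum (f := fun x => |M x|) (fun i _ => abs_nonneg _) (Finset.mem_univ x))

theorem exists_tendsto_tw {K : ℤ} {f : ℍ → ℂ} (hf : IsMF (G0 N) K f) :
    ∃ l : X N → ℂ, Tendsto (tw N K f) atImInfty (𝓝 l) := by
  have hinv := slash_eq_of_isMF_G0 hf
  have hmd := mdiff_of_isMF hf
  obtain ⟨M, A, hMA⟩ := exists_bound_vec hf
  have key : ∀ x : X N, ∃ l : ℂ, Tendsto (fun z => tw N K f z x) atImInfty (𝓝 l) := by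
    intro x
    refine tendsto_of_periodic_of_expGrowth _ (mdiff_tw hmd x)
      (periodic_of_vadd _ (fun z => by rw [tw_vadd hinv]))
      (∑ y, (∑ m : ZMod N, ‖proj N (PT N) m x y‖) * |M|) (max A 0) (1 - 1 / (N : ℝ)) ?_ ?_
    · have : (0 : ℝ) < N := Nat.cast_pos.mpr (Nat.pos_of_ne_zero (NeZero.ne N))
      have : (0 : ℝ) < 1 / N := by positivity
      linarith
    · intro τ hτ
      have hτ0 : 0 ≤ (τ : ℂ).im := τ.im_pos.le
      have hτA : A ≤ τ.im := (le_max_left _ _).trans hτ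
      simp only [tw, Matrix.mulVec, dotProduct]
      rw [Finset.sum_mul]
      refine (norm_sum_le _ _).trans (Finset.sum_le_sum (fun y _ => ?_))
      rw [norm_mul]
      have h1 := norm_Em_apply_le (h := N) (P := PT N) (τ : ℂ) hτ0 x y
      have h2 : ‖vec N K f τ y‖ ≤ |M| := (hMA τ hτA y).trans (le_abs_self _)
      have h3 : (0 : ℝ) ≤ ∑ m : ZMod N, ‖proj N (PT N) m x y‖ :=
        Finset.sum_nonneg (fun _ _ => norm_nonneg _)
      calc ‖Em N (PT N) (τ : ℂ) x y‖ * ‖vec N K f τ y‖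
          ≤ ((∑ m : ZMod N, ‖proj N (PT N) m x y‖) *
              Real.exp (2 * π * (1 - 1 / (N : ℝ)) * (τ : ℂ).im)) * |M| :=
            mul_le_mul h1 h2 (norm_nonneg _) (mul_nonneg h3 (Real.exp_nonneg _))
        _ = (∑ m : ZMod N, ‖proj N (PT N) m x y‖) * |M| *
              Real.exp (2 * π * (1 - 1 / (N : ℝ)) * τ.im) := by
            rw [UpperHalfPlane.coe_im]; ring
  choose l hl using key
  exact ⟨l, tendsto_pi_nhds.mpr hl⟩

theorem isBigO_comp_of_tw_zero {K : ℤ} {f : ℍ → ℂ} (hf : IsMF (G0 N) K f)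
    (h0 : Tendsto (tw N K f) atImInfty (𝓝 0)) (x : X N) :
    (comp N K f x) =O[atImInfty] fun τ : ℍ => Real.exp (-2 * π * τ.im) := by
  have hinv := slash_eq_of_isMF_G0 hf
  have hmd := mdiff_of_isMF hf
  have hu : ∀ y : X N, (fun z => tw N K f z y) =O[atImInfty]
      fun τ : ℍ => Real.exp (-2 * π * τ.im) := by
    intro y
    have hz : IsZeroAtImInfty (fun z => tw N K f z y) := tendsto_pi_nhds.mp h0 y
    have := UpperHalfPlane.IsZeroAtImInfty.exp_decay_atImInfty hz one_pos
      (periodic_of_vadd _ (fun z => by rw [tw_vadd hinv])) (mdiff_tw hmd y)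
      hz.isBoundedAtImInfty
    simpa using this
  have hcomp : comp N K f x = fun z : ℍ => ∑ y, Dm N (PT N) (z : ℂ) x y * tw N K f z y := by
    ext z
    have := congrFun (vec_eq_Dm_tw K f z) x
    simpa [vec, Matrix.mulVec, dotProduct] using this
  rw [hcomp]
  have hterm : ∀ y ∈ (Finset.univ : Finset (X N)),
      (fun z : ℍ => Dm N (PT N) (z : ℂ) x y * tw N K f z y) =O[atImInfty]
        fun τ : ℍ => Real.exp (-2 * π * τ.im) := by
    intro y _
    have hD : (fun z : ℍ => Dm N (PT N) (z : ℂ) x y) =O[atImInfty] (fun _ => (1 : ℝ)) :=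
      Asymptotics.IsBigO.of_bound (∑ m : ZMod N, ‖proj N (PT N) m x y‖)
        (Eventually.of_forall fun z => by
          simpa using norm_Dm_apply_le (h := N) (P := PT N) (z : ℂ) z.im_pos.le x y)
    simpa using hD.mul (hu y)
  exact Asymptotics.IsBigO.fun_sum hterm

theorem isMF_discriminant : IsMF 𝒮ℒ 12 ModularForm.discriminant := by
  have := (IsCF.coe CuspForm.discriminant).isMF
  rwa [CuspForm.coe_discriminant] at this

theorem isMF_div_discriminant {K : ℤ} {f : ℍ → ℂ} (hf : IsMF (G0 N) K f)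
    (h0 : Tendsto (tw N K f) atImInfty (𝓝 0)) :
    IsMF (G0 N) (K - 12) (f / ModularForm.discriminant) := by
  have hinv := slash_eq_of_isMF_G0 hf
  have hmd := mdiff_of_isMF hf
  have hΔ := isMF_discriminant
  have hsl : ∀ γ : SL(2, ℤ), (f / ModularForm.discriminant) ∣[K - 12] γ =
      (f ∣[K] γ) / ModularForm.discriminant := by
    intro γ
    rw [ModularForm.div_slash_SL2, slash_eq_of_isMF_SL hΔ γ]
  refine isMF_G0_of N (K - 12) _
    (mdiff_div f _ hmd (mdiff_of_isMF hΔ) ModularForm.discriminant_ne_zero) ?_ ?_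
  · intro γ hγ
    rw [hsl, hinv γ hγ]
  · intro γ
    rw [hsl]
    have h1 : f ∣[K] γ = comp N K f ((γ⁻¹ : SL(2, ℤ)) : X N) := by rw [comp_mk hinv, inv_inv]
    rw [h1]
    have h2 := (isBigO_comp_of_tw_zero hf h0 ((γ⁻¹ : SL(2, ℤ)) : X N)).trans
      ModularForm.exp_isBigO_discriminant
    obtain ⟨C, hC⟩ := h2.bound
    refine Asymptotics.IsBigO.of_bound C ?_
    filter_upwards [hC] with z hz
    simp only [Pi.div_apply, norm_div, Pi.one_apply, norm_one, mul_one]
    rw [div_le_iff₀ (norm_pos_iff.mpr (ModularForm.discriminant_ne_zero z))]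
    exact hz

open ModularForm EisensteinSeries in
theorem exists_levelOne_tendsto_one (w : ℤ) (hw : Even w) (h4 : 4 ≤ w) :
    ∃ A : ℍ → ℂ, IsMF 𝒮ℒ w A ∧ Tendsto A atImInfty (𝓝 1) := by
  obtain ⟨a, b, hab⟩ : ∃ a b : ℕ, w = 4 * a + 6 * b := by
    obtain ⟨m, rfl⟩ := hw
    rcases Int.even_or_odd m with ⟨j, hj⟩ | ⟨j, hj⟩
    · exact ⟨j.toNat, 0, by omega⟩
    · exact ⟨(j - 1).toNat, 1, by omega⟩
  refine ⟨(E₄ : ℍ → ℂ) ^ a * (E₆ : ℍ → ℂ) ^ b, ?_, ?_⟩
  · rw [hab]
    exact ((IsMF.coe E₄).pow a).mul ((IsMF.coe E₆).pow b)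
  · have := (Fermat.Agent.Lib.LevelOneBracket.tendsto_E₄.pow a).mul
      (Fermat.Agent.Lib.LevelOneBracket.tendsto_E₆.pow b)
    simp only [one_pow, mul_one] at this
    exact this

theorem even_weight_of_isMF {K : ℤ} {f : ℍ → ℂ} (hf : IsMF (G0 N) K f) (hne : f ≠ 0) :
    Even K := by
  by_contra hodd
  rw [Int.not_even_iff_odd] at hodd
  obtain ⟨G, rfl⟩ := hf
  have hmem : (-1 : GL (Fin 2) ℝ) ∈ G0 N := by
    refine ⟨-1, ?_, ?_⟩
    · simp [CongruenceSubgroup.Gamma0_mem]
    · ext; simp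
  have := ModularForm.eq_zero_of_neg_one_mem hmem hodd G
  exact hne (by rw [this]; rfl)

/-! ### Families of forms and their leading matrix -/

section Family

variable {ι : Type*} [Fintype ι] (k : ι → ℤ) (F : ι → ℍ → ℂ)

variable (N) in
/-- The matrix of all components of the family `F`. -/
noncomputable def Phi (z : ℍ) : Matrix (X N) ι ℂ :=
  Matrix.of fun x i => comp N (k i) (F i) x z

variable (N) in
/-- The twisted matrix `E(z) Φ(z)`. -/
noncomputable def PhiT (z : ℍ) : Matrix (X N) ι ℂ := Em N (PT N) (z : ℂ) * Phi N k F z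

theorem PhiT_apply (z : ℍ) (x : X N) (i : ι) : PhiT N k F z x i = tw N (k i) (F i) z x := by
  simp [PhiT, Phi, tw, vec, Matrix.mul_apply, Matrix.mulVec, dotProduct]

theorem exists_tendsto_PhiT (hF : ∀ i, IsMF (G0 N) (k i) (F i)) :
    ∃ L : Matrix (X N) ι ℂ, Tendsto (PhiT N k F) atImInfty (𝓝 L) := by
  choose l hl using fun i => exists_tendsto_tw (hF i)
  refine ⟨Matrix.of fun x i => l i x, ?_⟩
  refine tendsto_pi_nhds.mpr (fun x => tendsto_pi_nhds.mpr (fun i => ?_))
  simp only [PhiT_apply]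
  exact tendsto_pi_nhds.mp (hl i) x

theorem lead_injective (hF : ∀ i, IsMF (G0 N) (k i) (F i))
    (hgen : ∀ (K : ℤ) (f : ℍ → ℂ), IsMF (G0 N) K f →
      ∃ a : ι → ℍ → ℂ, (∀ i, IsMF 𝒮ℒ (K - k i) (a i)) ∧ f = ∑ i, a i * F i)
    (hinv : ∀ (z : ℍ) (c : ι → ℂ),
      (∀ γ : SL(2, ℤ), ∑ i, c i * ((F i) ∣[k i] γ) z = 0) → c = 0)
    (L : Matrix (X N) ι ℂ) (hL : Tendsto (PhiT N k F) atImInfty (𝓝 L))
    (c : ι → ℂ) (hc : L.mulVec c = 0) : c = 0 := by
  classical
  -- each `F i` is nonzero, hence of even weight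
  have hne : ∀ i, F i ≠ 0 := by
    intro i h0
    have := hinv UpperHalfPlane.I (Pi.single i 1) (fun γ => by
      rw [Finset.sum_eq_single i]
      · simp [h0, SlashAction.zero_slash]
      · intro j _ hj
        simp [Pi.single_eq_of_ne hj]
      · intro h
        exact absurd (Finset.mem_univ i) h)
    have h1 := congrFun this i
    simp at h1
  have heven : ∀ i, Even (k i) := fun i => even_weight_of_isMF (hF i) (hne i)
  -- a common weight
  set K : ℤ := 4 + 2 * ∑ i, |k i| with hK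
  have hK4 : ∀ i, 4 ≤ K - k i := by
    intro i
    have h1 : k i ≤ |k i| := le_abs_self _
    have h2 : |k i| ≤ ∑ j, |k j| :=
      Finset.single_le_sum (f := fun j => |k j|) (fun j _ => abs_nonneg _) (Finset.mem_univ i)
    have h3 : 0 ≤ ∑ j, |k j| := Finset.sum_nonneg (fun j _ => abs_nonneg _)
    rw [hK]
    linarith
  have hKe : ∀ i, Even (K - k i) := by
    intro i
    rw [hK]
    exact ((by decide : Even (4 : ℤ)).add (even_two_mul _)).sub (heven i)
  choose A hA hAlim using fun i => exists_levelOne_tendsto_one (K - k i) (hKe i) (hK4 i)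
  set f : ℍ → ℂ := ∑ i, c i • (A i * F i) with hf
  have hfMF : IsMF (G0 N) K f := by
    rw [hf]
    refine IsMF.sum _ (fun i _ => ?_)
    refine IsMF.smul (c i) ?_
    exact (((hA i).toG0 N).mul (hF i)).weight_congr (by ring)
  have hcomp : ∀ (x : X N) (z : ℍ),
      comp N K f x z = ∑ i, c i * A i z * comp N (k i) (F i) x z := by
    intro x z
    have h1 : comp N K f x = ∑ i, c i • (A i * comp N (k i) (F i) x) := by
      simp only [comp, hf]
      rw [SlashAction.sum_slash]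
      refine Finset.sum_congr rfl (fun i _ => ?_)
      rw [ModularForm.SL_smul_slash]
      congr 1
      have h2 := ModularForm.mul_slash_SL2 (K - k i) (k i) (x.out)⁻¹ (A i) (F i)
      rw [sub_add_cancel, slash_eq_of_isMF_SL (hA i)] at h2
      exact h2
    rw [h1]
    simp [Finset.sum_apply, mul_assoc]
  have htw : Tendsto (tw N K f) atImInfty (𝓝 0) := by
    have h1 : ∀ z, tw N K f z = (PhiT N k F z).mulVec (fun i => c i * A i z) := by
      intro z
      have hv : vec N K f z = (Phi N k F z).mulVec (fun i => c i * A i z) := by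
        ext x
        simp only [vec, hcomp, Matrix.mulVec, dotProduct, Phi, Matrix.of_apply]
        refine Finset.sum_congr rfl (fun i _ => by ring)
      rw [tw, hv, Matrix.mulVec_mulVec, PhiT]
    have h2 : Tendsto (fun z => (PhiT N k F z).mulVec (fun i => c i * A i z)) atImInfty
        (𝓝 (L.mulVec c)) := by
      refine tendsto_pi_nhds.mpr (fun x => ?_)
      simp only [Matrix.mulVec, dotProduct]
      refine tendsto_finsetSum _ (fun i _ => ?_)
      have h3 : Tendsto (fun z => PhiT N k F z x i) atImInfty (𝓝 (L x i)) :=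
        tendsto_pi_nhds.mp (tendsto_pi_nhds.mp hL x) i
      have h4 : Tendsto (fun z => c i * A i z) atImInfty (𝓝 (c i * 1)) :=
        (hAlim i).const_mul (c i)
      rw [mul_one] at h4
      exact h3.mul h4
    rw [hc] at h2
    exact h2.congr (fun z => (h1 z).symm)
  have hdiv := isMF_div_discriminant hfMF htw
  obtain ⟨b, hb, hbf⟩ := hgen (K - 12) _ hdiv
  set a : ι → ℍ → ℂ := fun i => c i • A i - ModularForm.discriminant * b i with ha
  have haMF : ∀ i, IsMF 𝒮ℒ (K - k i) (a i) := by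
    intro i
    refine (IsMF.smul (c i) (hA i)).sub ?_
    exact (isMF_discriminant.mul (hb i)).weight_congr (by ring)
  have hsum0 : ∑ i, a i * F i = 0 := by
    have h1 : f = ModularForm.discriminant * ∑ i, b i * F i := by
      rw [← hbf]
      ext z
      simp only [Pi.mul_apply, Pi.div_apply]
      rw [mul_div_cancel₀ _ (ModularForm.discriminant_ne_zero z)]
    simp only [ha, sub_mul, Finset.sum_sub_distrib]
    rw [sub_eq_zero]
    calc ∑ i, (c i • A i) * F i = f := by
          rw [hf]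
          exact Finset.sum_congr rfl (fun i _ => by rw [smul_mul_assoc])
      _ = ∑ i, (ModularForm.discriminant * b i) * F i := by
          rw [h1, Finset.mul_sum]
          exact Finset.sum_congr rfl (fun i _ => by rw [mul_assoc])
  have hpt : ∀ (z : ℍ) (i : ι), a i z = 0 := by
    intro z
    have := hinv z (fun i => a i z) (fun γ => by
      have h1 : (∑ i, a i * F i) ∣[K] γ = ∑ i, a i * (F i ∣[k i] γ) := by
        rw [SlashAction.sum_slash]
        refine Finset.sum_congr rfl (fun i _ => ?_)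
        have h2 := ModularForm.mul_slash_SL2 (K - k i) (k i) γ (a i) (F i)
        rw [sub_add_cancel, slash_eq_of_isMF_SL (haMF i)] at h2
        exact h2
      rw [hsum0, SlashAction.zero_slash] at h1
      have h3 := congrFun h1 z
      simpa [Finset.sum_apply] using h3.symm)
    exact fun i => congrFun this i
  ext i
  have h1 : Tendsto (fun z => c i * A i z) atImInfty (𝓝 (c i)) := by
    simpa using (hAlim i).const_mul (c i)
  have h2 : Tendsto (fun z => ModularForm.discriminant z * b i z) atImInfty (𝓝 0) := by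
    obtain ⟨M, B, hMB⟩ := isBoundedAtImInfty_iff.mp (bdd_of_isMF_SL (hb i))
    have hΔ0 : Tendsto (fun z => ‖ModularForm.discriminant z‖ * M) atImInfty (𝓝 0) := by
      simpa using (ModularForm.discriminant_isZeroAtImInfty.norm).mul_const M
    refine squeeze_zero_norm' ?_ hΔ0
    have hev : ∀ᶠ z : ℍ in atImInfty, B ≤ z.im := (atImInfty_mem _).mpr ⟨B, fun z hz => hz⟩
    filter_upwards [hev] with z hz
    rw [norm_mul]
    exact mul_le_mul_of_nonneg_left (hMB z hz) (norm_nonneg _)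
  have h3 : ∀ z, c i * A i z = ModularForm.discriminant z * b i z := by
    intro z
    have := hpt z i
    simp only [ha, Pi.sub_apply, Pi.smul_apply, Pi.mul_apply, smul_eq_mul] at this
    linear_combination this
  exact tendsto_nhds_unique (h1.congr h3) h2

end Family

/-! ### The number of `T`-orbits -/

theorem const_on_T_orbit (v : X N → ℂ) (hv : ∀ x, v (ModularGroup.T⁻¹ • x) = v x) (n : ℤ)
    (x : X N) : v (ModularGroup.T ^ n • x) = v x := by
  have hT : ∀ x, v (ModularGroup.T • x) = v x := by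
    intro x
    have := hv (ModularGroup.T • x)
    rw [inv_smul_smul] at this
    exact this.symm
  induction n using Int.induction_on generalizing x with
  | zero => simp
  | succ n ih => rw [zpow_add_one, mul_smul, ih, hT]
  | pred n ih => rw [zpow_sub_one, mul_smul, ih, hv]

theorem finrank_fixed_eq :
    Module.finrank ℂ (LinearMap.ker (Matrix.toLin' (PT N) - 1)) =
      Nat.card (MulAction.orbitRel.Quotient (Subgroup.zpowers ModularGroup.T) (X N)) := by
  classical
  set Q := MulAction.orbitRel.Quotient (Subgroup.zpowers ModularGroup.T) (X N) with hQ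
  have : Fintype Q := Fintype.ofFinite Q
  let mk : X N → Q := Quotient.mk''
  have hmk : Function.Surjective mk := Quotient.mk''_surjective
  have hinj : Function.Injective (LinearMap.funLeft ℂ ℂ mk) :=
    LinearMap.funLeft_injective_of_surjective ℂ ℂ mk hmk
  have hrange : LinearMap.range (LinearMap.funLeft ℂ ℂ mk) =
      LinearMap.ker (Matrix.toLin' (PT N) - 1) := by
    ext v
    rw [LinearMap.mem_ker, LinearMap.sub_apply, Module.End.one_apply, sub_eq_zero,
      Matrix.toLin'_apply, perm_mulVec]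
    constructor
    · rintro ⟨φ, rfl⟩
      ext x
      simp only [LinearMap.funLeft_apply]
      congr 1
      refine Quotient.sound' ?_
      rw [MulAction.orbitRel_apply]
      exact ⟨⟨ModularGroup.T⁻¹, Subgroup.inv_mem _ (Subgroup.mem_zpowers _)⟩, rfl⟩
    · intro hv
      have hv' : ∀ x, v (ModularGroup.T⁻¹ • x) = v x := fun x => congrFun hv x
      refine ⟨fun q => v q.out, ?_⟩
      ext x
      simp only [LinearMap.funLeft_apply]
      have h1 : (mk x).out ∈ MulAction.orbit (Subgroup.zpowers ModularGroup.T) x := by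
        exact (MulAction.orbitRel_apply).mp (Quotient.exact' (Quotient.out_eq' (mk x)))
      obtain ⟨⟨g, hg⟩, hgx⟩ := h1
      obtain ⟨n, rfl⟩ := Subgroup.mem_zpowers_iff.mp hg
      rw [← hgx]
      exact const_on_T_orbit v hv' n x
  rw [← hrange, LinearMap.finrank_range_of_inj hinj, Module.finrank_fintype_fun_eq_card,
    Nat.card_eq_fintype_card]

/-! ### The square case: the determinant -/

section Square

variable (k : X N → ℤ) (F : X N → ℍ → ℂ)

theorem prod_zpow_eq {ι : Type*} (s : Finset ι) (a : ℂ) (ha : a ≠ 0) (e : ι → ℤ) :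
    ∏ i ∈ s, a ^ e i = a ^ ∑ i ∈ s, e i := by
  classical
  induction s using Finset.induction_on with
  | empty => simp
  | insert b s hb ih => rw [Finset.prod_insert hb, Finset.sum_insert hb, ih, zpow_add₀ ha]

theorem det_perm_sq (γ : SL(2, ℤ)) : (perm N γ).det ^ 2 = 1 := by
  have h := congrArg Matrix.det (perm_transpose_mul (N := N) γ)
  rw [Matrix.det_mul, Matrix.det_transpose, Matrix.det_one] at h
  rw [sq]
  exact h

theorem Phi_smul (hF : ∀ i, IsMF (G0 N) (k i) (F i)) (γ : SL(2, ℤ)) (z : ℍ) :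
    Phi N k F (γ • z) =
      perm N γ * Phi N k F z * Matrix.diagonal (fun i => denom γ z ^ k i) := by
  ext x i
  rw [Matrix.mul_diagonal]
  have h1 : (perm N γ * Phi N k F z) x i = Phi N k F z (γ⁻¹ • x) i := by
    have := congrFun (perm_mulVec (N := N) γ (fun y => Phi N k F z y i)) x
    simpa [Matrix.mulVec, dotProduct, Matrix.mul_apply] using this
  rw [h1]
  simp only [Phi, Matrix.of_apply]
  rw [comp_smul (slash_eq_of_isMF_G0 (hF i)), mul_comm]

theorem det_Phi_smul (hF : ∀ i, IsMF (G0 N) (k i) (F i)) (γ : SL(2, ℤ)) (z : ℍ) :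
    (Phi N k F (γ • z)).det ^ 2 = denom γ z ^ (2 * ∑ i, k i) * (Phi N k F z).det ^ 2 := by
  rw [Phi_smul k F hF, Matrix.det_mul, Matrix.det_mul, Matrix.det_diagonal,
    prod_zpow_eq _ _ (denom_ne_zero γ z), mul_pow, mul_pow, det_perm_sq, one_mul]
  have h2 : (denom γ z ^ ∑ i, k i) ^ 2 = denom γ z ^ (2 * ∑ i, k i) := by
    rw [← zpow_natCast, ← zpow_mul]
    congr 1
    push_cast
    ring
  rw [h2, mul_comm]

theorem det_Phi_ne_zero (hF : ∀ i, IsMF (G0 N) (k i) (F i))
    (hinv : ∀ (z : ℍ) (c : X N → ℂ),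
      (∀ γ : SL(2, ℤ), ∑ i, c i * ((F i) ∣[k i] γ) z = 0) → c = 0) (z : ℍ) :
    (Phi N k F z).det ≠ 0 := by
  intro h0
  obtain ⟨v, hv0, hv⟩ := Matrix.exists_mulVec_eq_zero_iff.mpr h0
  refine hv0 (hinv z v (fun γ => ?_))
  have h1 := congrFun hv ((γ⁻¹ : SL(2, ℤ)) : X N)
  simp only [Matrix.mulVec, dotProduct, Phi, Matrix.of_apply, Pi.zero_apply] at h1
  rw [← h1]
  refine Finset.sum_congr rfl (fun i _ => ?_)
  rw [comp_mk (slash_eq_of_isMF_G0 (hF i)), inv_inv, mul_comm]

theorem mdiff_det_Phi_sq (hF : ∀ i, IsMF (G0 N) (k i) (F i)) :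
    MDiff (fun z => (Phi N k F z).det ^ 2) := by
  have h1 : MDiff (fun z => (Phi N k F z).det) :=
    mdiff_det _ (fun x i => mdiff_comp (mdiff_of_isMF (hF i)) x)
  have h2 : (fun z => (Phi N k F z).det ^ 2) =
      fun z => (Phi N k F z).det * (Phi N k F z).det := by
    ext z
    rw [sq]
  rw [h2]
  exact h1.mul h1

/-- **Weight-sum relation.** For a family indexed by the cosets which spans all modular forms
over the level one forms and is pointwise independent, the sum of the weights is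
`6 (ψ - #cusps)`. -/
theorem sum_weights_core (hF : ∀ i, IsMF (G0 N) (k i) (F i))
    (hgen : ∀ (K : ℤ) (f : ℍ → ℂ), IsMF (G0 N) K f →
      ∃ a : X N → ℍ → ℂ, (∀ i, IsMF 𝒮ℒ (K - k i) (a i)) ∧ f = ∑ i, a i * F i)
    (hinv : ∀ (z : ℍ) (c : X N → ℂ),
      (∀ γ : SL(2, ℤ), ∑ i, c i * ((F i) ∣[k i] γ) z = 0) → c = 0) :
    ∑ i, k i = 6 * ((Nat.card (X N) : ℤ) -
      (Nat.card (MulAction.orbitRel.Quotient (Subgroup.zpowers ModularGroup.T) (X N)) : ℤ)) := by
  obtain ⟨L, hL⟩ := exists_tendsto_PhiT k F hF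
  have hLdet : L.det ≠ 0 := by
    intro h0
    obtain ⟨v, hv0, hv⟩ := Matrix.exists_mulVec_eq_zero_iff.mpr h0
    exact hv0 (lead_injective k F hF hgen hinv L hL v hv)
  set c := Module.finrank ℂ (LinearMap.ker (Matrix.toLin' (PT N) - 1)) with hcdef
  have hc : ∀ t : ℂ, (1 + t • proj N (PT N) 0).det = (1 + t) ^ c :=
    fun t => det_one_add_smul_proj_zero perm_T_pow t
  have hcle : c ≤ Fintype.card (X N) := by
    have := Submodule.finrank_le (LinearMap.ker (Matrix.toLin' (PT N) - 1))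
    rwa [Module.finrank_fintype_fun_eq_card] at this
  obtain ⟨μ, hμ⟩ : ∃ μ : ℕ, Fintype.card (X N) = μ + c := ⟨Fintype.card (X N) - c, by omega⟩
  have hΦ : ∀ z : ℍ, Phi N k F z = Dm N (PT N) (z : ℂ) * PhiT N k F z := by
    intro z
    rw [PhiT, ← Matrix.mul_assoc, Dm_mul_Em perm_T_pow, Matrix.one_mul]
  have hq : ∀ z : ℍ, cexp (2 * π * I * (z : ℂ)) ≠ 0 := fun z => Complex.exp_ne_zero _
  have hg1 : ∀ z : ℍ, (Phi N k F z).det ^ 2 =
      cexp (2 * π * I * (z : ℂ)) ^ μ * (PhiT N k F z).det ^ 2 := by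
    intro z
    have h1 := det_Dm_sq perm_T_pow (perm_transpose_mul (N := N) ModularGroup.T) c hc (z : ℂ)
    rw [hμ, pow_add] at h1
    have h2 : (Dm N (PT N) (z : ℂ)).det ^ 2 = cexp (2 * π * I * (z : ℂ)) ^ μ :=
      mul_right_cancel₀ (pow_ne_zero c (hq z)) h1
    rw [hΦ z, Matrix.det_mul, mul_pow, h2]
  have hΔq : ∀ z : ℍ, ModularForm.discriminant z =
      cexp (2 * π * I * (z : ℂ)) * ∏' n, (1 - ModularForm.eta_q n z) ^ 24 := by
    intro z
    rw [ModularForm.discriminant_eq_q_prod]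
    congr 1
    simp [Function.Periodic.qParam]
  set h0 : ℍ → ℂ := fun z => (Phi N k F z).det ^ 2 / ModularForm.discriminant z ^ μ with hh0def
  have hh0 : ∀ z, h0 z =
      (PhiT N k F z).det ^ 2 / (∏' n, (1 - ModularForm.eta_q n z) ^ 24) ^ μ := by
    intro z
    simp only [hh0def]
    rw [hg1, hΔq, mul_pow, mul_div_mul_left _ _ (pow_ne_zero μ (hq z))]
  have hlim : Tendsto h0 atImInfty (𝓝 (L.det ^ 2)) := by
    have h1 : Tendsto (fun z => (PhiT N k F z).det) atImInfty (𝓝 L.det) :=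
      (continuous_id.matrix_det.tendsto L).comp hL
    have h2 := (ModularForm.tendsto_atImInfty_tprod_one_sub_eta_q_pow).pow μ
    have h3 := (h1.pow 2).div h2 (by simp)
    simp only [one_pow, div_one] at h3
    exact h3.congr (fun z => (hh0 z).symm)
  have hΔμ : IsMF 𝒮ℒ (12 * (μ : ℤ)) (ModularForm.discriminant ^ μ) := isMF_discriminant.pow μ
  have hmd : MDiff h0 :=
    mdiff_div _ _ (mdiff_det_Phi_sq k F hF) (mdiff_of_isMF hΔμ)
      (fun z => pow_ne_zero μ (ModularForm.discriminant_ne_zero z))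
  have hne : ∀ z, h0 z ≠ 0 := fun z =>
    div_ne_zero (pow_ne_zero 2 (det_Phi_ne_zero k F hF hinv z))
      (pow_ne_zero μ (ModularForm.discriminant_ne_zero z))
  have hinv0 : ∀ γ : SL(2, ℤ), h0 ∣[2 * ∑ i, k i - 12 * (μ : ℤ)] γ = h0 := by
    intro γ
    have h1 : h0 = (fun z => (Phi N k F z).det ^ 2) / (ModularForm.discriminant ^ μ) := rfl
    rw [h1, ModularForm.div_slash_SL2, slash_eq_of_isMF_SL hΔμ γ]
    congr 1
    ext z
    rw [ModularForm.SL_slash_apply, det_Phi_smul k F hF, mul_comm, ← mul_assoc,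
      ← zpow_add₀ (denom_ne_zero γ z), neg_add_cancel, zpow_zero, one_mul]
  have hw := weight_eq_zero_of_ne_zero _ h0 hmd hinv0 hne (L.det ^ 2) (pow_ne_zero 2 hLdet) hlim
  rw [← finrank_fixed_eq, ← hcdef, Nat.card_eq_fintype_card, hμ]
  push_cast
  linarith

end Square

/-! ### Final statements for an arbitrary index type -/

theorem sum_weights_of_equiv {ι : Type*} [Fintype ι] (e : ι ≃ X N) (k : ι → ℤ)
    (F : ι → ℍ → ℂ) (hF : ∀ i, IsMF (G0 N) (k i) (F i))
    (hgen : ∀ (K : ℤ) (f : ℍ → ℂ), IsMF (G0 N) K f →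
      ∃ a : ι → ℍ → ℂ, (∀ i, IsMF 𝒮ℒ (K - k i) (a i)) ∧ f = ∑ i, a i * F i)
    (hinv : ∀ (z : ℍ) (c : ι → ℂ),
      (∀ γ : SL(2, ℤ), ∑ i, c i * ((F i) ∣[k i] γ) z = 0) → c = 0) :
    ∑ i, k i = 6 * ((Nat.card (X N) : ℤ) -
      (Nat.card (MulAction.orbitRel.Quotient (Subgroup.zpowers ModularGroup.T) (X N)) : ℤ)) := by
  have key := sum_weights_core (N := N) (fun x => k (e.symm x)) (fun x => F (e.symm x))
    (fun x => hF (e.symm x))
    (fun K f hf => by
      obtain ⟨a, ha, hfa⟩ := hgen K f hf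
      refine ⟨fun x => a (e.symm x), fun x => ha (e.symm x), ?_⟩
      rw [hfa]
      exact (Equiv.sum_comp e.symm (fun j => a j * F j)).symm)
    (fun z c' h => by
      have h1 := hinv z (fun i => c' (e i)) (fun γ => by
        rw [← h γ, ← Equiv.sum_comp e]
        simp)
      funext x
      have h2 := congrFun h1 (e.symm x)
      simpa using h2)
  rw [← key]
  exact (Equiv.sum_comp e.symm k).symm

/-- **Weight-sum relation**, in the shape consumed by the final arithmetic of the genus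
formula. -/
theorem sum_weights (N : ℕ) [NeZero N] {n : ℕ} (k : Fin n → ℤ) (F : Fin n → ℍ → ℂ)
    (hF : ∀ i, IsMF (G0 N) (k i) (F i))
    (hgen : ∀ (K : ℤ) (f : ℍ → ℂ), IsMF (G0 N) K f →
      ∃ a : Fin n → ℍ → ℂ, (∀ i, IsMF 𝒮ℒ (K - k i) (a i)) ∧ f = ∑ i, a i * F i)
    (hinv : ∀ (z : ℍ) (c : Fin n → ℂ),
      (∀ γ : SL(2, ℤ), ∑ i, c i * ((F i) ∣[k i] γ) z = 0) → c = 0)
    (hcard : n = (CongruenceSubgroup.Gamma0 N).index) :
    ∑ i, k i = 6 * ((Nat.card (SL(2, ℤ) ⧸ CongruenceSubgroup.Gamma0 N) : ℤ) -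
      (Nat.card (MulAction.orbitRel.Quotient (Subgroup.zpowers ModularGroup.T)
        (SL(2, ℤ) ⧸ CongruenceSubgroup.Gamma0 N)) : ℤ)) := by
  have hc : Fintype.card (Fin n) = Fintype.card (X N) := by
    rw [Fintype.card_fin, hcard, Subgroup.index, Nat.card_eq_fintype_card]
  exact sum_weights_of_equiv (Fintype.equivOfCardEq hc) k F hF hgen hinv

end Fermat.Agent.Lib.VVCusp
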