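import Mathlib
import Fermat.Agent.S21.Shapiro
import Fermat.Agent.S21.LowerBound

/-!
# Integral parabolic lifts of characters of `Γ₀(N)`

With the dimension formula (`S20`) and Eichler–Shimura (`S21`), the injective linear map
`Fermat.Agent.S21.PermDim.bigMap` attached to `Hom_par(Γ₀(N), ℂ)` is a *bijection*.  Hence every
pair of functions `(a, b)` on the coset space `SL₂(ℤ) ⧸ Γ₀(N)` with vanishing `S`-, `T`- and
`ST`-orbit sums is the pair of values `(c(S), c(T))` of the Shapiro cocycle of a parabolic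
homomorphism (twisted by a coboundary).  Integral data give integral homomorphisms, and at prime
level every character killing `-1`, the elliptic elements and `T` lifts to an integer valued
parabolic homomorphism.
-/

set_option autoImplicit false

namespace Fermat.Agent.Lib.ParabolicLift

open MulAction
open scoped MatrixGroups
open CongruenceSubgroup ModularGroup ModularCurve ModularCurve.Period
open Fermat.Agent.S21 Fermat.Agent.S21.PermDim Fermat.Agent.S21.Shapiro

section General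

variable (N : ℕ) [NeZero N]

omit [NeZero N] in
theorem goodPow_S : GoodPow (parabolicHoms ℂ (Gamma0 N) ℂ) (S : SL(2, ℤ)) 4 :=
  goodPow_of_pow_eq_one _ (by norm_num) (by decide)

omit [NeZero N] in
theorem goodPow_ST : GoodPow (parabolicHoms ℂ (Gamma0 N) ℂ) (S * T : SL(2, ℤ)) 6 :=
  goodPow_of_pow_eq_one _ (by norm_num) (by decide)

theorem goodPow_T : GoodPow (parabolicHoms ℂ (Gamma0 N) ℂ) (T : SL(2, ℤ)) N := by
  refine ⟨NeZero.pos N, fun u => ?_⟩
  have hmem : u⁻¹ * T ^ N * u ∈ Gamma0 N := by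
    rw [Gamma0_mem, ← zpow_natCast, conj_T_zpow_entry]
    push_cast
    simp
  refine ⟨hmem, fun φ hφ => ?_⟩
  rw [mem_parabolicHoms_iff] at hφ
  apply hφ
  show ((u⁻¹ * T ^ N * u : SL(2, ℤ)) : Matrix (Fin 2) (Fin 2) ℤ).trace ^ 2 = 4
  rw [← zpow_natCast, conj_T_zpow_trace]
  norm_num

/-- The exact dimension of the space of parabolic homomorphisms. -/
theorem finrank_parabolicHoms :
    (Module.finrank ℂ (parabolicHoms ℂ (Gamma0 N) ℂ) : ℚ) = 2 * genusFormula N := by
  obtain ⟨hinj, hrange⟩ := eichlerShimura_of_genus_le N (genusFormula_le_finrank_cuspForm N)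
  have := (finrank_cuspForm_le N).1
  have h1 : Module.finrank ℂ (LinearMap.range (periodHomPair N))
      = 2 * Module.finrank ℂ (CuspForm (Gamma0 N) 2) := by
    rw [LinearMap.finrank_range_of_inj hinj, Module.finrank_prod, two_mul]
  rw [← hrange, h1]
  push_cast
  rw [finrank_cuspForm_eq_genusFormula]

/-- The Shapiro map of `S21/PermDim` is bijective. -/
theorem bigMap_bijective :
    Function.Bijective (bigMap (parabolicHoms ℂ (Gamma0 N) ℂ) (S : SL(2, ℤ)) T) := by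
  classical
  have : Fintype (SL(2, ℤ) ⧸ Gamma0 N) := Fintype.ofFinite _
  have : Fintype (OQ (Gamma0 N) (S : SL(2, ℤ))) := Fintype.ofFinite _
  have : Fintype (OQ (Gamma0 N) (T : SL(2, ℤ))) := Fintype.ofFinite _
  have : Fintype (OQ (Gamma0 N) (S * T : SL(2, ℤ))) := Fintype.ofFinite _
  have hinj := bigMap_injective (parabolicHoms ℂ (Gamma0 N) ℂ) (S : SL(2, ℤ)) T
    SpecialLinearGroup.SL2Z_generators (goodPow_S N) (goodPow_T N) (goodPow_ST N)
  have : Module.Finite ℂ (parabolicHoms ℂ (Gamma0 N) ℂ) := (finrank_parabolicHoms_le N).1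
  refine ⟨hinj, ?_⟩
  refine (LinearMap.injective_iff_surjective_of_finrank_eq_finrank ?_).mp hinj
  have h2 := two_mul_card_orbits (X := SL(2, ℤ) ⧸ Gamma0 N) (S : SL(2, ℤ)) orderOf_S
    (fun x => by rw [show (S : SL(2, ℤ)) ^ 2 = -1 by decide]; exact neg_one_smul_coset N x)
  have h3 := three_mul_card_orbits (X := SL(2, ℤ) ⧸ Gamma0 N) (S * T : SL(2, ℤ)) orderOf_ST
    (fun x => by rw [show (S * T : SL(2, ℤ)) ^ 3 = -1 by decide]; exact neg_one_smul_coset N x)
  rw [Fermat.Agent.Lib.Gamma0Count.card_quotient N,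
    Fermat.Agent.Lib.Gamma0Count.card_fixedBy_S N] at h2
  rw [Fermat.Agent.Lib.Gamma0Count.card_quotient N,
    Fermat.Agent.Lib.Gamma0Count.card_fixedBy_ST N] at h3
  have h4 := Fermat.Agent.Lib.Gamma0Count.card_orbits_T N
  have h1 := Fermat.Agent.Lib.Gamma0Count.card_quotient N
  have hf := finrank_parabolicHoms N
  unfold genusFormula at hf
  have h2' : (2 : ℚ) * (Nat.card (OQ (Gamma0 N) (S : SL(2, ℤ))) : ℚ)
      = dedekindPsi N + nuTwo N := by exact_mod_cast h2
  have h3' : (3 : ℚ) * (Nat.card (OQ (Gamma0 N) (S * T : SL(2, ℤ))) : ℚ)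
      = dedekindPsi N + 2 * nuThree N := by exact_mod_cast h3
  have h4' : (Nat.card (OQ (Gamma0 N) (T : SL(2, ℤ))) : ℚ) = cuspCount N := by exact_mod_cast h4
  have h1' : (Nat.card (SL(2, ℤ) ⧸ Gamma0 N) : ℚ) = dedekindPsi N := by exact_mod_cast h1
  have key : ((Module.finrank ℂ (parabolicHoms ℂ (Gamma0 N) ℂ)
      + (Nat.card (SL(2, ℤ) ⧸ Gamma0 N) + (Nat.card (OQ (Gamma0 N) (S : SL(2, ℤ)))
        + (Nat.card (OQ (Gamma0 N) (T : SL(2, ℤ)))
          + Nat.card (OQ (Gamma0 N) (S * T : SL(2, ℤ)))))) : ℕ) : ℚ)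
      = ((Nat.card (SL(2, ℤ) ⧸ Gamma0 N) + Nat.card (SL(2, ℤ) ⧸ Gamma0 N) + (1 + 1) : ℕ) : ℚ) := by
    push_cast
    linarith
  have key' := Nat.cast_injective key
  simp only [Module.finrank_prod, Module.finrank_fintype_fun_eq_card, Module.finrank_self]
  simp only [Nat.card_eq_fintype_card] at key'
  exact key'

end General

section Abstract

variable {G : Type*} [Group G] {Γ : Subgroup G}

/-- If the Shapiro map is onto, every pair of functions orthogonal to the invariant functions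
is the pair of values at `S`, `T` of a twisted Shapiro cocycle. -/
theorem exists_pc_eq [Fintype (G ⧸ Γ)] (P : Submodule ℂ (Additive Γ →+ ℂ)) (S T : G)
    {nS nT nR : ℕ} (hS : GoodPow P S nS) (hT : GoodPow P T nT) (hR : GoodPow P (S * T) nR)
    (hsurj : Function.Surjective (bigMap P S T)) (a b : G ⧸ Γ → ℂ)
    (haS : ∀ f : G ⧸ Γ → ℂ, (∀ x, f (S • x) = f x) → ∑ x, a x * f x = 0)
    (hbT : ∀ f : G ⧸ Γ → ℂ, (∀ x, f (T • x) = f x) → ∑ x, b x * f x = 0)
    (habR : ∀ f : G ⧸ Γ → ℂ, (∀ x, f ((S * T) • x) = f x) →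
      ∑ x, (a (T • x) + b x) * f x = 0) :
    ∃ φ ∈ P, ∃ m : G ⧸ Γ → ℂ, (∀ x, pc φ m S x = a x) ∧ (∀ x, pc φ m T x = b x) := by
  obtain ⟨⟨⟨φ, hφ⟩, m, lam, mu, nu⟩, hv⟩ := hsurj ((a, b), (0, 0))
  have hv1 := congrArg (fun z => z.1.1) hv
  have hv2 := congrArg (fun z => z.1.2) hv
  have h1 : ∀ x, pc φ m S x + lam (opi Γ S x) + nu (opi Γ (S * T) (T⁻¹ • x)) = a x :=
    fun x => congrFun hv1 x
  have h2 : ∀ x, pc φ m T x + mu (opi Γ T x) + nu (opi Γ (S * T) x) = b x :=
    fun x => congrFun hv2 x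
  -- orthogonality for the cocycle
  have hA : ∀ (lam' : OQ Γ S → ℂ) (mu' : OQ Γ T → ℂ) (nu' : OQ Γ (S * T) → ℂ),
      ∑ x, pc φ m S x * (lam' (opi Γ S x) + nu' (opi Γ (S * T) (T⁻¹ • x)))
        + ∑ x, pc φ m T x * (mu' (opi Γ T x) + nu' (opi Γ (S * T) x)) = 0 := by
    intro lam' mu' nu'
    have e1 := sum_pc_mul_eq_zero φ m S nS hS.1 (hS.pc_eq_zero hφ m)
      (fun x => lam' (opi Γ S x)) (fun x => by rw [opi_smul])
    have e2 := sum_pc_mul_eq_zero φ m T nT hT.1 (hT.pc_eq_zero hφ m)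
      (fun x => mu' (opi Γ T x)) (fun x => by rw [opi_smul])
    have e3 := sum_pc_mul_eq_zero φ m (S * T) nR hR.1 (hR.pc_eq_zero hφ m)
      (fun x => nu' (opi Γ (S * T) x)) (fun x => by rw [opi_smul])
    have e4 : ∑ x, pc φ m S x * nu' (opi Γ (S * T) (T⁻¹ • x))
        = ∑ x, pc φ m S (T • x) * nu' (opi Γ (S * T) x) := by
      rw [← Equiv.sum_comp (MulAction.toPerm T)
        (fun x => pc φ m S x * nu' (opi Γ (S * T) (T⁻¹ • x)))]
      refine Finset.sum_congr rfl fun x _ => ?_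
      simp [MulAction.toPerm_apply]
    have e3' : ∑ x, pc φ m S (T • x) * nu' (opi Γ (S * T) x)
        + ∑ x, pc φ m T x * nu' (opi Γ (S * T) x) = 0 := by
      rw [← Finset.sum_add_distrib, ← e3]
      refine Finset.sum_congr rfl fun x _ => ?_
      rw [pc_mul]; ring
    simp only [mul_add, Finset.sum_add_distrib]
    rw [e4]
    linear_combination e1 + e2 + e3'
  -- orthogonality for the given pair
  have hA' : ∀ (lam' : OQ Γ S → ℂ) (mu' : OQ Γ T → ℂ) (nu' : OQ Γ (S * T) → ℂ),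
      ∑ x, a x * (lam' (opi Γ S x) + nu' (opi Γ (S * T) (T⁻¹ • x)))
        + ∑ x, b x * (mu' (opi Γ T x) + nu' (opi Γ (S * T) x)) = 0 := by
    intro lam' mu' nu'
    have e1 := haS (fun x => lam' (opi Γ S x)) (fun x => by rw [opi_smul])
    have e2 := hbT (fun x => mu' (opi Γ T x)) (fun x => by rw [opi_smul])
    have e3 := habR (fun x => nu' (opi Γ (S * T) x)) (fun x => by rw [opi_smul])
    have e4 : ∑ x, a x * nu' (opi Γ (S * T) (T⁻¹ • x))
        = ∑ x, a (T • x) * nu' (opi Γ (S * T) x) := by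
      rw [← Equiv.sum_comp (MulAction.toPerm T)
        (fun x => a x * nu' (opi Γ (S * T) (T⁻¹ • x)))]
      refine Finset.sum_congr rfl fun x _ => ?_
      simp [MulAction.toPerm_apply]
    simp only [add_mul, Finset.sum_add_distrib] at e3
    simp only [mul_add, Finset.sum_add_distrib]
    rw [e4]
    linear_combination e1 + e2 + e3
  -- the orbit-function part vanishes
  have hpS : ∀ x, pc φ m S x = a x - (lam (opi Γ S x) + nu (opi Γ (S * T) (T⁻¹ • x))) :=
    fun x => by linear_combination h1 x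
  have hpT : ∀ x, pc φ m T x = b x - (mu (opi Γ T x) + nu (opi Γ (S * T) x)) :=
    fun x => by linear_combination h2 x
  have hB := hA (fun q => starRingEnd ℂ (lam q)) (fun q => starRingEnd ℂ (mu q))
    (fun q => starRingEnd ℂ (nu q))
  have hB' := hA' (fun q => starRingEnd ℂ (lam q)) (fun q => starRingEnd ℂ (mu q))
    (fun q => starRingEnd ℂ (nu q))
  have hsum : (∑ x, Complex.normSq (lam (opi Γ S x) + nu (opi Γ (S * T) (T⁻¹ • x)))
      + ∑ x, Complex.normSq (mu (opi Γ T x) + nu (opi Γ (S * T) x)) : ℝ) = 0 := by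
    have hc : ((∑ x, Complex.normSq (lam (opi Γ S x) + nu (opi Γ (S * T) (T⁻¹ • x)))
      + ∑ x, Complex.normSq (mu (opi Γ T x) + nu (opi Γ (S * T) x)) : ℝ) : ℂ) = 0 := by
      push_cast
      simp only [← Complex.mul_conj, map_add]
      simp only [hpS, hpT, sub_mul, Finset.sum_sub_distrib] at hB
      linear_combination hB' - hB
    exact_mod_cast hc
  have hz := (add_eq_zero_iff_of_nonneg
    (Finset.sum_nonneg fun x _ => Complex.normSq_nonneg _)
    (Finset.sum_nonneg fun x _ => Complex.normSq_nonneg _)).mp hsum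
  have hz1 : ∀ x, lam (opi Γ S x) + nu (opi Γ (S * T) (T⁻¹ • x)) = 0 := fun x =>
    Complex.normSq_eq_zero.mp
      ((Finset.sum_eq_zero_iff_of_nonneg fun x _ => Complex.normSq_nonneg _).mp hz.1 x
        (Finset.mem_univ x))
  have hz2 : ∀ x, mu (opi Γ T x) + nu (opi Γ (S * T) x) = 0 := fun x =>
    Complex.normSq_eq_zero.mp
      ((Finset.sum_eq_zero_iff_of_nonneg fun x _ => Complex.normSq_nonneg _).mp hz.2 x
        (Finset.mem_univ x))
  exact ⟨φ, hφ, m, fun x => by rw [hpS, hz1, sub_zero], fun x => by rw [hpT, hz2, sub_zero]⟩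

theorem pkap_one (x : G ⧸ Γ) : pkap Γ 1 x = 1 := by
  apply Subtype.ext
  simp [pkap]

theorem pkap_inv (g : G) (x : G ⧸ Γ) : pkap Γ g⁻¹ x = (pkap Γ g (g⁻¹ • x))⁻¹ := by
  have h := pkap_mul Γ g g⁻¹ x
  rw [mul_inv_cancel, pkap_one] at h
  exact eq_inv_of_mul_eq_one_right h.symm

/-- Integrality and reduction of the Shapiro cocycle propagate from generators. -/
theorem pc_int_of_gen (φ : Additive Γ →+ ℂ) (m : G ⧸ Γ → ℂ) (S T : G)
    (hgen : Subgroup.closure {S, T} = ⊤) {A : Type*} [AddCommGroup A] (π : ℤ →+ A)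
    (χ : Additive Γ →+ A)
    (hS : ∀ x, ∃ k : ℤ, pc φ m S x = k ∧ π k = χ (Additive.ofMul (pkap Γ S x)))
    (hT : ∀ x, ∃ k : ℤ, pc φ m T x = k ∧ π k = χ (Additive.ofMul (pkap Γ T x))) (g : G) :
    ∀ x, ∃ k : ℤ, pc φ m g x = k ∧ π k = χ (Additive.ofMul (pkap Γ g x)) := by
  have hg : g ∈ Subgroup.closure {S, T} := by rw [hgen]; trivial
  induction hg using Subgroup.closure_induction with
  | mem y hy =>
    rcases hy with rfl | hy
    · exact hS
    · rw [Set.mem_singleton_iff] at hy; subst hy; exact hT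
  | one =>
    intro x
    exact ⟨0, by rw [pc_one]; simp, by rw [pkap_one]; simp⟩
  | mul y z _ _ hy hz =>
    intro x
    obtain ⟨k1, h1, h1'⟩ := hy (z • x)
    obtain ⟨k2, h2, h2'⟩ := hz x
    exact ⟨k1 + k2, by rw [pc_mul, h1, h2]; push_cast; ring,
      by rw [pkap_mul, ofMul_mul, map_add, map_add, h1', h2']⟩
  | inv y _ hy =>
    intro x
    obtain ⟨k, h1, h1'⟩ := hy (y⁻¹ • x)
    exact ⟨-k, by rw [pc_inv, h1]; push_cast; ring,
      by rw [pkap_inv, ofMul_inv, map_neg, map_neg, h1']⟩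

theorem pkap_base (γ : Γ) :
    ∃ s : Γ, pkap Γ (γ : G) (((1 : G) : G ⧸ Γ)) = s⁻¹ * γ * s := by
  have hx0 : (γ : G) • (((1 : G) : G ⧸ Γ)) = (((1 : G) : G ⧸ Γ)) := by
    rw [smul_coe_eq, eq_comm, QuotientGroup.eq]
    simp
  have hmem0 : psec Γ (((1 : G) : G ⧸ Γ)) ∈ Γ := by
    have h := QuotientGroup.eq.mp (psec_spec Γ (((1 : G) : G ⧸ Γ))).symm
    simpa using h
  refine ⟨⟨psec Γ (((1 : G) : G ⧸ Γ)), hmem0⟩, ?_⟩
  apply Subtype.ext
  simp only [pkap, hx0, Subgroup.coe_mul, Subgroup.coe_inv]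

theorem base_smul (γ : Γ) : (γ : G) • (((1 : G) : G ⧸ Γ)) = (((1 : G) : G ⧸ Γ)) := by
  rw [smul_coe_eq, eq_comm, QuotientGroup.eq]
  simp

theorem hom_pkap_base {A : Type*} [AddCommGroup A] (χ : Additive Γ →+ A) (γ : Γ) :
    χ (Additive.ofMul (pkap Γ (γ : G) (((1 : G) : G ⧸ Γ)))) = χ (Additive.ofMul γ) := by
  obtain ⟨s, hs⟩ := pkap_base γ
  rw [hs]
  simp only [ofMul_mul, ofMul_inv, map_add, map_neg]
  abel

theorem pc_base (φ : Additive Γ →+ ℂ) (m : G ⧸ Γ → ℂ) (γ : Γ) :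
    pc φ m (γ : G) (((1 : G) : G ⧸ Γ)) = φ (Additive.ofMul γ) := by
  rw [pc, base_smul, hom_pkap_base]
  ring

/-- A complex valued homomorphism with integer values is the complexification of an integer
valued homomorphism. -/
theorem exists_intHom {M : Type*} [AddGroup M] (φ : M →+ ℂ) (h : ∀ γ, ∃ k : ℤ, φ γ = k) :
    ∃ φZ : M →+ ℤ, ∀ γ, φ γ = (φZ γ : ℂ) := by
  choose k hk using h
  refine ⟨AddMonoidHom.mk' k fun a b => ?_, hk⟩
  apply Int.cast_injective (α := ℂ)
  push_cast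
  rw [← hk, ← hk, ← hk, map_add]

/-- From integral generator values that reduce to a character `χ`, the homomorphism is
integral and reduces to `χ`. -/
theorem exists_intHom_of_gen (φ : Additive Γ →+ ℂ) (m : G ⧸ Γ → ℂ) (S T : G)
    (hgen : Subgroup.closure {S, T} = ⊤) {A : Type*} [AddCommGroup A] (π : ℤ →+ A)
    (χ : Additive Γ →+ A)
    (hS : ∀ x, ∃ k : ℤ, pc φ m S x = k ∧ π k = χ (Additive.ofMul (pkap Γ S x)))
    (hT : ∀ x, ∃ k : ℤ, pc φ m T x = k ∧ π k = χ (Additive.ofMul (pkap Γ T x))) :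
    ∃ φZ : Additive Γ →+ ℤ, (∀ γ, φ γ = (φZ γ : ℂ)) ∧ ∀ γ, π (φZ γ) = χ γ := by
  have key : ∀ γ : Γ, ∃ k : ℤ, φ (Additive.ofMul γ) = k ∧ π k = χ (Additive.ofMul γ) := by
    intro γ
    obtain ⟨k, h1, h2⟩ := pc_int_of_gen φ m S T hgen π χ hS hT (γ : G) (((1 : G) : G ⧸ Γ))
    rw [pc_base] at h1
    rw [hom_pkap_base] at h2
    exact ⟨k, h1, h2⟩
  obtain ⟨φZ, hφZ⟩ := exists_intHom φ (fun γ => by
    obtain ⟨k, h1, -⟩ := key (Additive.toMul γ)
    exact ⟨k, h1⟩)
  refine ⟨φZ, hφZ, fun γ => ?_⟩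
  obtain ⟨k, h1, h2⟩ := key (Additive.toMul γ)
  have h3 : (φZ γ : ℂ) = (k : ℂ) := by rw [← hφZ]; exact h1
  have h4 : φZ γ = k := by exact_mod_cast h3
  rw [h4]
  exact h2

end Abstract

section Lifting

variable {X : Type*} [Finite X] {A : Type*} [AddCommGroup A]

/-- Antisymmetric integral lift along an involution. -/
theorem exists_lift_two (π : ℤ →+ A) (hπ : Function.Surjective π) (s : X → X)
    (hs : ∀ x, s (s x) = x) (c : X → A) (hfix : ∀ x, s x = x → c x = 0)
    (hsum : ∀ x, c (s x) + c x = 0) :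
    ∃ c' : X → ℤ, (∀ x, π (c' x) = c x) ∧ ∀ x, c' (s x) = -c' x := by
  classical
  obtain ⟨e, he⟩ := exists_injective_nat X
  have hL : ∀ a : A, π (Function.surjInv hπ a) = a := Function.surjInv_eq hπ
  refine ⟨fun x => if e x < e (s x) then Function.surjInv hπ (c x)
    else if e (s x) < e x then -Function.surjInv hπ (c (s x)) else 0, fun x => ?_, fun x => ?_⟩
  · dsimp only
    by_cases h1 : e x < e (s x)
    · rw [if_pos h1, hL]
    · rw [if_neg h1]
      by_cases h2 : e (s x) < e x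
      · rw [if_pos h2, map_neg, hL]
        exact neg_eq_of_add_eq_zero_right (hsum x)
      · rw [if_neg h2, map_zero]
        have h3 : e (s x) = e x := by omega
        exact (hfix x (he h3)).symm
  · dsimp only
    rw [hs x]
    split_ifs <;> omega

/-- Integral lift with vanishing orbit sums along a map of order three. -/
theorem exists_lift_three (π : ℤ →+ A) (hπ : Function.Surjective π) (r : X → X)
    (hr : ∀ x, r (r (r x)) = x) (c : X → A) (hfix : ∀ x, r x = x → c x = 0)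
    (hsum : ∀ x, c (r (r x)) + c (r x) + c x = 0) :
    ∃ c' : X → ℤ, (∀ x, π (c' x) = c x) ∧ ∀ x, c' (r (r x)) + c' (r x) + c' x = 0 := by
  classical
  obtain ⟨e, he⟩ := exists_injective_nat X
  have hL : ∀ a : A, π (Function.surjInv hπ a) = a := Function.surjInv_eq hπ
  set L : A → ℤ := Function.surjInv hπ with hLdef
  set c' : X → ℤ := fun x => if r x = x then 0
    else if e (r x) < e x ∧ e (r (r x)) < e x then -L (c (r x)) - L (c (r (r x)))
    else L (c x) with hc'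
  have hc'x : ∀ x, c' x = if r x = x then 0
    else if e (r x) < e x ∧ e (r (r x)) < e x then -L (c (r x)) - L (c (r (r x)))
    else L (c x) := fun x => rfl
  refine ⟨c', fun x => ?_, fun x => ?_⟩
  · rw [hc'x]
    by_cases h1 : r x = x
    · rw [if_pos h1, map_zero, hfix x h1]
    · rw [if_neg h1]
      by_cases h2 : e (r x) < e x ∧ e (r (r x)) < e x
      · rw [if_pos h2, map_sub, map_neg, hL, hL]
        have h3 := hsum x
        have h4 : -c (r x) - c (r (r x)) - c x = -(c (r (r x)) + c (r x) + c x) := by abel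
        rw [h3, neg_zero, sub_eq_zero] at h4
        exact h4
      · rw [if_neg h2, hL]
  · have key : ∀ x y z : X, r x = y → r y = z → r z = x → c' z + c' y + c' x = 0 := by
      intro x y z hxy hyz hzx
      by_cases hfx : y = x
      · have hzx' : z = x := by rw [← hyz, hfx, hxy, hfx]
        rw [hfx] at hxy
        rw [hzx', hfx, hc'x x, if_pos hxy]
        simp
      · have hyz' : z ≠ y := by
          intro h
          apply hfx
          rw [h] at hzx
          rw [← hzx, hyz, h]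
        have hzx' : x ≠ z := by
          intro h
          apply hfx
          rw [← h] at hzx
          rw [← hxy, hzx]
        have e1 : e y ≠ e x := fun h => hfx (he h)
        have e2 : e z ≠ e y := fun h => hyz' (he h)
        have e3 : e x ≠ e z := fun h => hzx' (he h)
        rw [hc'x x, hc'x y, hc'x z]
        simp only [hxy, hyz, hzx]
        rw [if_neg hfx, if_neg hyz', if_neg hzx']
        split_ifs <;> omega
    exact key x (r x) (r (r x)) rfl rfl (hr x)

omit [Finite X] in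
/-- An antisymmetric function is orthogonal to the invariant functions. -/
theorem sum_mul_eq_zero_of_antisymm [Fintype X] (s : Equiv.Perm X) (c : X → ℂ)
    (hc : ∀ x, c (s x) = -c x) (f : X → ℂ) (hf : ∀ x, f (s x) = f x) :
    ∑ x, c x * f x = 0 := by
  have h1 : ∑ x, c x * f x = ∑ x, c (s x) * f (s x) :=
    (Equiv.sum_comp s (fun x => c x * f x)).symm
  have h2 : ∑ x, c (s x) * f (s x) = -∑ x, c x * f x := by
    rw [← Finset.sum_neg_distrib]
    refine Finset.sum_congr rfl fun x _ => ?_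
    rw [hc, hf]
    ring
  rw [h2] at h1
  linear_combination (1 / 2 : ℂ) * h1

omit [Finite X] in
/-- A function with vanishing sums along a permutation of order three is orthogonal to the
invariant functions. -/
theorem sum_mul_eq_zero_of_three [Fintype X] (r : Equiv.Perm X) (c : X → ℂ)
    (hc : ∀ x, c (r (r x)) + c (r x) + c x = 0) (f : X → ℂ) (hf : ∀ x, f (r x) = f x) :
    ∑ x, c x * f x = 0 := by
  have h1 : ∑ x, c x * f x = ∑ x, c (r x) * f x := by
    rw [← Equiv.sum_comp r (fun x => c x * f x)]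
    refine Finset.sum_congr rfl fun x _ => ?_
    rw [hf]
  have h2 : ∑ x, c x * f x = ∑ x, c (r (r x)) * f x := by
    rw [← Equiv.sum_comp r (fun x => c x * f x), ← Equiv.sum_comp r (fun x => c (r x) * f (r x))]
    refine Finset.sum_congr rfl fun x _ => ?_
    rw [hf, hf]
  have h3 : ∑ x, c (r (r x)) * f x + ∑ x, c (r x) * f x + ∑ x, c x * f x = 0 := by
    rw [← Finset.sum_add_distrib, ← Finset.sum_add_distrib]
    refine Finset.sum_eq_zero fun x _ => ?_
    rw [← add_mul, ← add_mul, hc, zero_mul]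
  rw [← h1, ← h2] at h3
  linear_combination (1 / 3 : ℂ) * h3

theorem invariant_zpow {G : Type*} [Group G] {Y Z : Type*} [MulAction G Y] (f : Y → Z) (g : G)
    (h : ∀ x, f (g • x) = f x) (n : ℤ) : ∀ x, f (g ^ n • x) = f x := by
  induction n using Int.induction_on with
  | zero => intro x; simp
  | succ i ih => intro x; rw [zpow_add_one, mul_smul, ih, h]
  | pred i ih =>
    intro x
    rw [zpow_sub_one, mul_smul, ih]
    have h1 := h (g⁻¹ • x)
    rw [smul_inv_smul] at h1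
    exact h1.symm

end Lifting

section Prime

variable (p : ℕ)

local notation "X₀" => SL(2, ℤ) ⧸ Gamma0 p

local notation "x₀" => ((1 : SL(2, ℤ)) : SL(2, ℤ) ⧸ Gamma0 p)

theorem trace_conj (u g : SL(2, ℤ)) :
    ((u⁻¹ * g * u : SL(2, ℤ)) : Matrix (Fin 2) (Fin 2) ℤ).trace
      = (g : Matrix (Fin 2) (Fin 2) ℤ).trace := by
  rw [Matrix.SpecialLinearGroup.coe_mul, Matrix.SpecialLinearGroup.coe_mul,
    Matrix.trace_mul_cycle, ← Matrix.SpecialLinearGroup.coe_mul, mul_inv_cancel,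
    Matrix.SpecialLinearGroup.coe_one, Matrix.one_mul]

/-- At a fixed point the Shapiro cocycle is a conjugate of the element. -/
theorem trace_pkap_of_fixed (g : SL(2, ℤ)) (x : X₀) (h : g • x = x) :
    ((pkap (Gamma0 p) g x : SL(2, ℤ)) : Matrix (Fin 2) (Fin 2) ℤ).trace
      = (g : Matrix (Fin 2) (Fin 2) ℤ).trace := by
  have h1 : (pkap (Gamma0 p) g x : SL(2, ℤ))
      = (psec (Gamma0 p) x)⁻¹ * g * psec (Gamma0 p) x := by
    simp only [pkap, h]
  rw [h1, trace_conj]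

theorem trace_S : ((S : SL(2, ℤ)) : Matrix (Fin 2) (Fin 2) ℤ).trace = 0 := by
  rw [coe_S, Matrix.trace_fin_two_of]
  norm_num

theorem trace_T : ((T : SL(2, ℤ)) : Matrix (Fin 2) (Fin 2) ℤ).trace = 2 := by
  rw [coe_T, Matrix.trace_fin_two_of]
  norm_num

theorem trace_ST : ((S * T : SL(2, ℤ)) : Matrix (Fin 2) (Fin 2) ℤ).trace = 1 := by
  rw [Matrix.SpecialLinearGroup.coe_mul, coe_S, coe_T, Matrix.trace_fin_two]
  simp [Matrix.mul_apply, Fin.sum_univ_two]

theorem trace_neg_one : ((-1 : SL(2, ℤ)) : Matrix (Fin 2) (Fin 2) ℤ).trace = -2 := by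
  rw [Matrix.SpecialLinearGroup.coe_neg, Matrix.SpecialLinearGroup.coe_one, Matrix.trace_neg,
    Matrix.trace_fin_two]
  norm_num

theorem T_smul_base : (T : SL(2, ℤ)) • x₀ = x₀ := by
  rw [smul_coe_eq, Fermat.Agent.Lib.Gamma0Count.mk_eq_mk_iff]
  simp [coe_T]

theorem S_smul_base_ne [Fact p.Prime] : (S : SL(2, ℤ)) • x₀ ≠ x₀ := by
  rw [smul_coe_eq, Ne, Fermat.Agent.Lib.Gamma0Count.mk_eq_mk_iff]
  intro h
  have h1 : (p : ℤ) ∣ 1 := by
    have h2 : ((S * 1 : SL(2, ℤ)) 0 0 * (1 : SL(2, ℤ)) 1 0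
        - (S * 1 : SL(2, ℤ)) 1 0 * (1 : SL(2, ℤ)) 0 0) = -1 := by
      simp [coe_S]
    rw [h2] at h
    exact (dvd_neg.mp h)
  have h3 := Int.natCast_dvd_natCast.mp (by exact_mod_cast h1 : ((p : ℕ) : ℤ) ∣ ((1 : ℕ) : ℤ))
  exact (Fact.out : p.Prime).one_lt.ne' (Nat.dvd_one.mp h3)

/-- At prime level the translation has two orbits on the cosets: a `T`-invariant function is
constant off the base point. -/
theorem invariant_T_const [Fact p.Prime] {Z : Type*} (f : X₀ → Z)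
    (hf : ∀ x, f ((T : SL(2, ℤ)) • x) = f x) (x : X₀) (hx : x ≠ x₀) :
    f x = f ((S : SL(2, ℤ)) • x₀) := by
  induction x using QuotientGroup.induction_on with
  | H g =>
    have hg : ¬ (p : ℤ) ∣ g 1 0 := by
      intro h
      apply hx
      rw [Fermat.Agent.Lib.Gamma0Count.mk_eq_mk_iff]
      simpa using h
    have hu : ((g 1 0 : ℤ) : ZMod p) ≠ 0 := by
      rwa [Ne, ZMod.intCast_zmod_eq_zero_iff_dvd]
    obtain ⟨n, hn⟩ := ZMod.intCast_surjective (-((g 0 0 : ℤ) : ZMod p) * ((g 1 0 : ℤ) : ZMod p)⁻¹)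
    have h1 : (T : SL(2, ℤ)) ^ n • ((g : SL(2, ℤ)) : X₀) = (S : SL(2, ℤ)) • x₀ := by
      rw [smul_coe_eq, smul_coe_eq, Fermat.Agent.Lib.Gamma0Count.mk_eq_mk_iff,
        (Fermat.Agent.Lib.Gamma0Count.T_zpow_mul_apply n g).1,
        (Fermat.Agent.Lib.Gamma0Count.T_zpow_mul_apply n g).2]
      have h2 : (S * 1 : SL(2, ℤ)) 1 0 = 1 ∧ (S * 1 : SL(2, ℤ)) 0 0 = 0 := by
        simp [coe_S]
      rw [h2.1, h2.2, ← ZMod.intCast_zmod_eq_zero_iff_dvd]
      push_cast
      rw [hn]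
      field_simp
      ring
    rw [← h1, invariant_zpow f T hf n]

/-- **Integral parabolic lift at prime level.**  A character of `Γ₀(p)` (values in a quotient
of `ℤ`) which kills the elements of trace `0`, `±1`, `±2` is the reduction of an integer valued
parabolic homomorphism. -/
theorem exists_parabolic_lift [Fact p.Prime] {A : Type*} [AddCommGroup A] (π : ℤ →+ A)
    (hπ : Function.Surjective π) (χ : Additive (Gamma0 p) →+ A)
    (h0 : ∀ γ : Gamma0 p, ((γ : SL(2, ℤ)) : Matrix (Fin 2) (Fin 2) ℤ).trace = 0 →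
      χ (Additive.ofMul γ) = 0)
    (h1 : ∀ γ : Gamma0 p, ((γ : SL(2, ℤ)) : Matrix (Fin 2) (Fin 2) ℤ).trace ^ 2 = 1 →
      χ (Additive.ofMul γ) = 0)
    (h4 : ∀ γ : Gamma0 p, ((γ : SL(2, ℤ)) : Matrix (Fin 2) (Fin 2) ℤ).trace ^ 2 = 4 →
      χ (Additive.ofMul γ) = 0) :
    ∃ φZ : Additive (Gamma0 p) →+ ℤ,
      (Int.castAddHom ℂ).comp φZ ∈ parabolicHoms ℂ (Gamma0 p) ℂ ∧ ∀ γ, π (φZ γ) = χ γ := by
  classical
  have : NeZero p := ⟨(Fact.out : p.Prime).ne_zero⟩
  have : Fintype X₀ := Fintype.ofFinite _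
  have hS2 : (S : SL(2, ℤ)) * S = -1 := by decide
  have hR3 : (S * T : SL(2, ℤ)) * ((S * T) * (S * T)) = -1 := by decide
  have hneg : ∀ x : X₀, χ (Additive.ofMul (pkap (Gamma0 p) (-1) x)) = 0 := by
    intro x
    apply h4
    rw [trace_pkap_of_fixed p (-1) x (neg_one_smul_coset p x), trace_neg_one]
    norm_num
  have hSS : ∀ x : X₀, (S : SL(2, ℤ)) • (S : SL(2, ℤ)) • x = x := by
    intro x
    rw [← mul_smul, hS2]
    exact neg_one_smul_coset p x
  have hRR : ∀ x : X₀, ((S * T) * (S * T) : SL(2, ℤ)) • x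
      = (S * T : SL(2, ℤ)) • (S * T : SL(2, ℤ)) • x := fun x => mul_smul _ _ _
  have hRRR : ∀ x : X₀,
      (S * T : SL(2, ℤ)) • (S * T : SL(2, ℤ)) • (S * T : SL(2, ℤ)) • x = x := by
    intro x
    have e1 : ((S * T : SL(2, ℤ)) * ((S * T) * (S * T))) • x
        = (S * T : SL(2, ℤ)) • ((S * T) * (S * T) : SL(2, ℤ)) • x := mul_smul _ _ _
    rw [← hRR x, ← e1, hR3]
    exact neg_one_smul_coset p x
  -- lift along `S`
  obtain ⟨a0, ha0, ha0'⟩ := exists_lift_two π hπ (fun x : X₀ => (S : SL(2, ℤ)) • x) hSS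
    (fun x => χ (Additive.ofMul (pkap (Gamma0 p) S x)))
    (fun x hx => h0 _ (by rw [trace_pkap_of_fixed p S x hx, trace_S]))
    (fun x => by
      have h := pkap_mul (Gamma0 p) S S x
      rw [hS2] at h
      have h' := hneg x
      rw [h, ofMul_mul, map_add] at h'
      exact h')
  -- lift along `S * T`
  obtain ⟨d0, hd0, hd0'⟩ := exists_lift_three π hπ (fun x : X₀ => (S * T : SL(2, ℤ)) • x) hRRR
    (fun x => χ (Additive.ofMul (pkap (Gamma0 p) (S * T) x)))
    (fun x hx => h1 _ (by rw [trace_pkap_of_fixed p (S * T) x hx, trace_ST]; norm_num))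
    (fun x => by
      have h := pkap_mul (Gamma0 p) (S * T) ((S * T) * (S * T)) x
      rw [pkap_mul (Gamma0 p) (S * T) (S * T) x, hR3, hRR] at h
      have h' := hneg x
      rw [h, ofMul_mul, ofMul_mul, map_add, map_add, ← add_assoc] at h'
      exact h')
  -- the correction at the base point
  have hπk : π (d0 x₀ - a0 x₀) = 0 := by
    rw [map_sub, hd0, ha0]
    have h := pkap_mul (Gamma0 p) S T x₀
    rw [T_smul_base] at h
    rw [h, ofMul_mul, map_add, add_sub_cancel_left]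
    apply h4
    rw [trace_pkap_of_fixed p T x₀ (T_smul_base p), trace_T]
    norm_num
  obtain ⟨k, hk⟩ : ∃ k : ℤ, k = d0 x₀ - a0 x₀ := ⟨_, rfl⟩
  rw [← hk] at hπk
  obtain ⟨a1, ha1⟩ : ∃ a1 : X₀ → ℤ, ∀ x, a1 x = a0 x + (if x = x₀ then k else 0)
      - (if x = (S : SL(2, ℤ)) • x₀ then k else 0) := ⟨_, fun _ => rfl⟩
  have ha1π : ∀ x, π (a1 x) = χ (Additive.ofMul (pkap (Gamma0 p) S x)) := by
    intro x
    rw [ha1, map_sub, map_add, ha0]
    split_ifs <;> simp [hπk]
  have ha1' : ∀ x, a1 ((S : SL(2, ℤ)) • x) = -a1 x := by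
    intro x
    rw [ha1, ha1, ha0' x]
    have e1 : ((S : SL(2, ℤ)) • x = x₀) ↔ (x = (S : SL(2, ℤ)) • x₀) :=
      ⟨fun h => by rw [← h, hSS], fun h => by rw [h, hSS]⟩
    have e2 : ((S : SL(2, ℤ)) • x = (S : SL(2, ℤ)) • x₀) ↔ (x = x₀) := smul_left_cancel_iff _
    simp only [e1, e2]
    ring
  obtain ⟨b1, hb1⟩ : ∃ b1 : X₀ → ℤ, ∀ x, b1 x = d0 x - a1 ((T : SL(2, ℤ)) • x) :=
    ⟨_, fun _ => rfl⟩
  have hb1π : ∀ x, π (b1 x) = χ (Additive.ofMul (pkap (Gamma0 p) T x)) := by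
    intro x
    rw [hb1, map_sub, hd0, ha1π, pkap_mul, ofMul_mul, map_add, add_sub_cancel_left]
  have hb1x0 : b1 x₀ = 0 := by
    rw [hb1, T_smul_base, ha1, if_pos rfl, if_neg (Ne.symm (S_smul_base_ne p)), hk]
    ring
  -- orthogonality relations
  have hOS : ∀ f : X₀ → ℂ, (∀ x, f ((S : SL(2, ℤ)) • x) = f x) →
      ∑ x, (a1 x : ℂ) * f x = 0 := by
    intro f hf
    exact sum_mul_eq_zero_of_antisymm (MulAction.toPerm (S : SL(2, ℤ))) (fun x => (a1 x : ℂ))
      (fun x => by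
        show ((a1 ((S : SL(2, ℤ)) • x) : ℤ) : ℂ) = -(a1 x : ℂ)
        rw [ha1']
        push_cast
        ring) f hf
  have hOR : ∀ f : X₀ → ℂ, (∀ x, f ((S * T : SL(2, ℤ)) • x) = f x) →
      ∑ x, (((a1 ((T : SL(2, ℤ)) • x) : ℤ) : ℂ) + (b1 x : ℂ)) * f x = 0 := by
    intro f hf
    have h := sum_mul_eq_zero_of_three (MulAction.toPerm (S * T : SL(2, ℤ)))
      (fun x => (d0 x : ℂ)) (fun x => by
        show ((d0 ((S * T : SL(2, ℤ)) • (S * T : SL(2, ℤ)) • x) : ℤ) : ℂ)
          + (d0 ((S * T : SL(2, ℤ)) • x) : ℂ) + (d0 x : ℂ) = 0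
        exact_mod_cast hd0' x) f hf
    rw [← h]
    refine Finset.sum_congr rfl fun x _ => ?_
    rw [hb1]
    push_cast
    ring
  have hOT : ∀ f : X₀ → ℂ, (∀ x, f ((T : SL(2, ℤ)) • x) = f x) →
      ∑ x, (b1 x : ℂ) * f x = 0 := by
    intro f hf
    have hsum0 : ∑ x, (b1 x : ℂ) = 0 := by
      have hA := hOS (fun _ => 1) (fun _ => rfl)
      have hD := hOR (fun _ => 1) (fun _ => rfl)
      simp only [mul_one] at hA hD
      have hT := Equiv.sum_comp (MulAction.toPerm (T : SL(2, ℤ))) (fun x : X₀ => (a1 x : ℂ))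
      simp only [MulAction.toPerm_apply] at hT
      rw [Finset.sum_add_distrib, hT, hA, zero_add] at hD
      exact hD
    have hconst : ∀ x, (b1 x : ℂ) * f x = (b1 x : ℂ) * f ((S : SL(2, ℤ)) • x₀) := by
      intro x
      by_cases hx : x = x₀
      · rw [hx, hb1x0]
        simp
      · rw [invariant_T_const p f hf x hx]
    rw [Finset.sum_congr rfl (fun x _ => hconst x), ← Finset.sum_mul, hsum0, zero_mul]
  -- realise the pair by a parabolic homomorphism
  obtain ⟨φ, hφ, m, hmS, hmT⟩ := exists_pc_eq (parabolicHoms ℂ (Gamma0 p) ℂ) (S : SL(2, ℤ)) T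
    (goodPow_S p) (goodPow_T p) (goodPow_ST p) (bigMap_bijective p).2
    (fun x => (a1 x : ℂ)) (fun x => (b1 x : ℂ)) hOS hOT hOR
  obtain ⟨φZ, hφZ, hφZπ⟩ := exists_intHom_of_gen φ m S T SpecialLinearGroup.SL2Z_generators π χ
    (fun x => ⟨a1 x, hmS x, ha1π x⟩) (fun x => ⟨b1 x, hmT x, hb1π x⟩)
  refine ⟨φZ, ?_, hφZπ⟩
  have hcomp : (Int.castAddHom ℂ).comp φZ = φ := by
    refine AddMonoidHom.ext fun γ => ?_
    rw [hφZ]
    rfl
  rw [hcomp]
  exact hφ

end Prime

end Fermat.Agent.Lib.ParabolicLift
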