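import Mathlib
import Fermat.Prelude.Def_Algebra_PatchingDatum

set_option autoImplicit false
set_option linter.style.haveILetI false

namespace Fermat.Agent.Lib.PatchArtinian

open MvPowerSeries

theorem mem_span_X_image {σ : Type*} {R : Type*} [CommRing R] [DecidableEq σ] (s : Finset σ) :
    ∀ f : MvPowerSeries σ R, (∀ m : σ →₀ ℕ, (∀ j ∈ s, m j = 0) → coeff m f = 0) →
      f ∈ Ideal.span ((X : σ → MvPowerSeries σ R) '' (s : Set σ)) := by
  induction s using Finset.induction_on with
  | empty =>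
    intro f hf
    have : f = 0 := by
      ext m
      simpa using hf m (by simp)
    simp [this]
  | insert a s ha ih =>
    intro f hf
    set f2 : MvPowerSeries σ R := fun m => if m a = 0 then coeff m f else 0 with hf2
    have hc : ∀ m, coeff m f2 = if m a = 0 then coeff m f else 0 := fun m => rfl
    have h2 : f2 ∈ Ideal.span ((X : σ → MvPowerSeries σ R) '' (s : Set σ)) := by
      apply ih
      intro m hm
      rw [hc]
      split_ifs with h
      · refine hf m ?_
        intro j hj
        rcases Finset.mem_insert.mp hj with rfl | hj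
        · exact h
        · exact hm j hj
      · rfl
    have h1 : X a ∣ f - f2 := by
      rw [X_dvd_iff]
      intro m hm
      rw [map_sub, hc, if_pos hm, sub_self]
    have hsum : f = (f - f2) + f2 := by ring
    rw [hsum]
    refine Ideal.add_mem _ ?_ ?_
    · obtain ⟨g, hg⟩ := h1
      rw [hg]
      exact Ideal.mul_mem_right _ _ (Ideal.subset_span ⟨a, by simp, rfl⟩)
    · exact Ideal.span_mono (Set.image_mono (by simp)) h2

theorem sub_C_mem_span_range_X {σ : Type*} {R : Type*} [Finite σ] [CommRing R]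
    (f : MvPowerSeries σ R) :
    f - C (constantCoeff f) ∈ Ideal.span (Set.range (X : σ → MvPowerSeries σ R)) := by
  classical
  cases nonempty_fintype σ
  have key := mem_span_X_image (Finset.univ : Finset σ) (f - C (constantCoeff f)) (by
    intro m hm
    have hm0 : m = 0 := by
      ext j
      simpa using hm j (Finset.mem_univ j)
    subst hm0
    simp)
  simpa using key

theorem isArtinian_of_finite_of_smul_eq_zero {O Q : Type*} [CommRing O] [AddCommGroup Q]
    [Module O Q] [Module.Finite O Q] (ϖ : O) (hmax : (Ideal.span {ϖ}).IsMaximal)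
    (h : ∀ x : Q, ϖ • x = 0) : IsArtinian O Q := by
  have htors : Module.IsTorsionBySet O Q (Ideal.span {ϖ} : Set O) := by
    intro x a
    obtain ⟨a, ha⟩ := a
    obtain ⟨c, rfl⟩ := Ideal.mem_span_singleton'.mp ha
    show (c * ϖ) • x = 0
    rw [mul_smul, h, smul_zero]
  letI : Field (O ⧸ Ideal.span {ϖ}) := Ideal.Quotient.field _
  letI : Module (O ⧸ Ideal.span {ϖ}) Q := htors.module
  haveI : IsScalarTower O (O ⧸ Ideal.span {ϖ}) Q := htors.isScalarTower
  haveI : Module.Finite (O ⧸ Ideal.span {ϖ}) Q := Module.Finite.of_restrictScalars_finite O _ Q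
  haveI : IsArtinian (O ⧸ Ideal.span {ϖ}) Q := inferInstance
  exact isArtinian_of_surjective_algebraMap (R := O ⧸ Ideal.span {ϖ}) Ideal.Quotient.mk_surjective

variable {𝒪 : Type} [CommRing 𝒪] {r : ℕ} {R : Type} [CommRing R] [Algebra 𝒪 R]
  {M : Type} [AddCommGroup M] [Module R M] {J : Ideal (MvPowerSeries (Fin r) 𝒪)}

theorem isArtinian_quotient (L : Algebra.PatchingLevel 𝒪 r R M J) (ϖ : 𝒪)
    (hmax : (Ideal.span {ϖ}).IsMaximal) :
    IsArtinian (MvPowerSeries (Fin r) 𝒪)
      (L.N ⧸ Ideal.ofList ((List.ofFn fun i : Fin r => L.φ (X i)) ++ [C ϖ]) •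
        (⊤ : Submodule (MvPowerSeries (Fin r) 𝒪) L.N)) := by
  classical
  set A := MvPowerSeries (Fin r) 𝒪 with hA
  set ys : List A := (List.ofFn fun i : Fin r => L.φ (X i)) ++ [C ϖ] with hys
  set K : Submodule A L.N := Ideal.ofList ys • ⊤ with hK
  letI : Module 𝒪 L.N := Module.compHom L.N (algebraMap 𝒪 A)
  have smul_def : ∀ (a : 𝒪) (x : L.N), a • x = (C a : A) • x := fun a x => rfl
  haveI : IsScalarTower 𝒪 A L.N := ⟨fun a f x => by
    rw [smul_def, smul_eq_C_mul, mul_smul]⟩
  have hφX : ∀ i, L.φ (X i) ∈ Ideal.ofList ys := fun i => Ideal.subset_span (by simp [hys])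
  have hCϖ : (C ϖ : A) ∈ Ideal.ofList ys := Ideal.subset_span (by simp [hys])
  have hφc : ∀ c : A, L.φ c - C (constantCoeff c) ∈ Ideal.ofList ys := by
    intro c
    have h1 := sub_C_mem_span_range_X c
    have h2 : L.φ (c - C (constantCoeff c)) ∈
        Ideal.map L.φ (Ideal.span (Set.range (X : Fin r → A))) := Ideal.mem_map_of_mem _ h1
    rw [Ideal.map_span] at h2
    have h3 : L.φ (C (constantCoeff c)) = C (constantCoeff c) := by
      have := L.φ.commutes (constantCoeff c)
      simpa [← c_eq_algebraMap] using this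
    rw [map_sub, h3] at h2
    refine Ideal.span_le.mpr ?_ h2
    rintro _ ⟨_, ⟨i, rfl⟩, rfl⟩
    exact hφX i
  have hspan : Submodule.span 𝒪 (Set.range fun i => K.mkQ (L.b i)) = ⊤ := by
    rw [eq_top_iff]
    rintro x -
    obtain ⟨n, rfl⟩ := K.mkQ_surjective x
    obtain ⟨c, rfl⟩ := L.b_span n
    rw [map_sum]
    refine Submodule.sum_mem _ fun i _ => ?_
    have hi : K.mkQ (L.φ (c i) • L.b i) = (constantCoeff (c i)) • K.mkQ (L.b i) := by
      have hmem : (L.φ (c i) - C (constantCoeff (c i))) • L.b i ∈ K :=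
        Submodule.smul_mem_smul (hφc (c i)) trivial
      have h0 := (Submodule.Quotient.mk_eq_zero K).mpr hmem
      rw [sub_smul, Submodule.Quotient.mk_sub, sub_eq_zero] at h0
      exact h0
    rw [hi]
    exact Submodule.smul_mem _ _ (Submodule.subset_span ⟨i, rfl⟩)
  have hfin : Module.Finite 𝒪 (L.N ⧸ K) :=
    ⟨⟨Finset.univ.image fun i => K.mkQ (L.b i), by
      rw [Finset.coe_image, Finset.coe_univ, Set.image_univ]; exact hspan⟩⟩
  have hzero : ∀ x : L.N ⧸ K, ϖ • x = 0 := by
    intro x
    obtain ⟨n, rfl⟩ := K.mkQ_surjective x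
    exact (Submodule.Quotient.mk_eq_zero K).mpr (Submodule.smul_mem_smul hCϖ trivial)
  have hart := isArtinian_of_finite_of_smul_eq_zero (O := 𝒪) (Q := L.N ⧸ K) ϖ hmax hzero
  exact isArtinian_of_tower 𝒪 hart

end Fermat.Agent.Lib.PatchArtinian
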