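import Fermat.Agent.Lib.PowerSeriesRegular
import Fermat.Agent.Lib.McmFree

set_option autoImplicit false

namespace Fermat.Agent.Lib.PatchFree

open IsLocalRing RingTheory.Sequence
open Fermat.Agent.Lib.PowerSeriesRegular

/-- The patched module at level `⊥` is free over the power series ring (for its own action). -/
theorem free_N {𝒪 : Type} [CommRing 𝒪] [IsDomain 𝒪] [IsDiscreteValuationRing 𝒪]
    {r : ℕ} {R : Type} [CommRing R] [Algebra 𝒪 R]
    {M : Type} [AddCommGroup M] [Module R M] [Nontrivial M]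
    (L : Algebra.PatchingLevel 𝒪 r R M ⊥) :
    Module.Free (MvPowerSeries (Fin r) 𝒪) L.N := by
  obtain ⟨ϖ, hϖ⟩ := IsDiscreteValuationRing.exists_irreducible 𝒪
  have hmax : maximalIdeal 𝒪 = Ideal.span {ϖ} := hϖ.maximalIdeal_eq
  have hϖm : ϖ ∈ maximalIdeal 𝒪 := hϖ.not_isUnit
  exact Fermat.Agent.Lib.McmFree.free_of_isWeaklyRegular (r + 1) (MvPowerSeries (Fin r) 𝒪) L.N
    (gens r ϖ) (span_range_gens r hmax) ((xs r ϖ).map L.φ) (by simp)
    (fun _ ha => mem_map_φ_xs_mem_maximalIdeal L hϖm ha) (isWeaklyRegular_N L hϖ.ne_zero)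

end Fermat.Agent.Lib.PatchFree
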