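import Fermat.Prelude.Def_Algebra_PatchingDatum
import Mathlib.LinearAlgebra.FreeModule.Basic
import Mathlib.RingTheory.Ideal.Operations
import Mathlib.RingTheory.Ideal.Maps
import Mathlib.LinearAlgebra.Basis.Basic

set_option autoImplicit false

namespace Fermat.Agent.Lib.PatchWiring

open Module

theorem repr_mem_of_mem_smul_top {A : Type} [CommRing A] {N : Type} [AddCommGroup N] [Module A N]
    {ι : Type} (e : Basis ι A N) (I : Ideal A) {x : N}
    (hx : x ∈ I • (⊤ : Submodule A N)) (i : ι) : e.repr x i ∈ I := by
  rw [← e.span_eq, Submodule.mem_ideal_smul_span_iff_exists_sum] at hx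
  obtain ⟨a, ha, rfl⟩ := hx
  have : e.repr (a.sum fun i c => c • e i) = a := by
    have h1 : (a.sum fun i c => c • e i) = Finsupp.linearCombination A e a := rfl
    rw [h1, e.repr_linearCombination]
  rw [this]
  exact ha i

variable {𝒪 : Type} [CommRing 𝒪] {r : ℕ} {R : Type} [CommRing R] [Algebra 𝒪 R]
  {M : Type} [AddCommGroup M] [Module R M] {J : Ideal (MvPowerSeries (Fin r) 𝒪)}

theorem span_le_ker (L : Algebra.PatchingLevel 𝒪 r R M J) :
    Ideal.span (Set.range fun i : Fin r => L.φ (MvPowerSeries.X i)) ≤ RingHom.ker L.ψ := by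
  rw [Ideal.span_le]
  rintro _ ⟨i, rfl⟩
  exact L.ψ_φ_X i

theorem pi_linearCombination (L : Algebra.PatchingLevel 𝒪 r R M J) {ι : Type} (e : ι → L.N)
    (c : ι →₀ MvPowerSeries (Fin r) 𝒪) :
    L.π (Finsupp.linearCombination _ e c) =
      Finsupp.linearCombination R (fun i => L.π (e i)) (c.mapRange L.ψ (map_zero _)) := by
  classical
  induction c using Finsupp.induction_linear with
  | zero => simp
  | add f g hf hg =>
    rw [map_add, map_add, hf, hg, Finsupp.mapRange_add (by intros; simp), map_add]
  | single i a =>
    rw [Finsupp.linearCombination_single, Finsupp.mapRange_single,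
      Finsupp.linearCombination_single, L.π_smul]

theorem wiring [Nontrivial M] (L : Algebra.PatchingLevel 𝒪 r R M J)
    (hfree : Module.Free (MvPowerSeries (Fin r) 𝒪) L.N) :
    Module.Free R M ∧ Module.annihilator R M = ⊥ ∧
      RingHom.ker L.ψ = Ideal.span (Set.range fun i : Fin r => L.φ (MvPowerSeries.X i)) := by
  classical
  set A := MvPowerSeries (Fin r) 𝒪 with hA
  set I : Ideal A := Ideal.span (Set.range fun i : Fin r => L.φ (MvPowerSeries.X i)) with hI
  obtain ⟨⟨ι, e⟩⟩ := hfree
  have hIk : I ≤ RingHom.ker L.ψ := span_le_ker L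

  let v : ι → M := fun i => L.π (e i)
  have hli : LinearIndependent R v := by
    rw [linearIndependent_iff]
    intro l hl

    obtain ⟨c, rfl⟩ : ∃ c : ι →₀ A, c.mapRange L.ψ (map_zero _) = l := by
      exact Finsupp.mapRange_surjective _ (map_zero _) L.ψ_surjective l
    rw [← pi_linearCombination L e c, L.ker_π] at hl
    ext i
    have := repr_mem_of_mem_smul_top e I hl i
    rw [e.repr_linearCombination] at this
    simpa using hIk this
  have hsp : ⊤ ≤ Submodule.span R (Set.range v) := by
    intro m _
    obtain ⟨x, rfl⟩ := L.π_surjective m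
    have hx : x = Finsupp.linearCombination A e (e.repr x) := (e.linearCombination_repr x).symm
    rw [hx, pi_linearCombination L e]
    rw [← Finsupp.range_linearCombination]
    exact LinearMap.mem_range_self _ _
  let bM : Basis ι R M := Basis.mk hli hsp
  have hfreeM : Module.Free R M := Module.Free.of_basis bM
  have hne : Nonempty ι := by
    by_contra h
    rw [not_nonempty_iff] at h
    have : Subsingleton M := by
      refine ⟨fun a b => ?_⟩
      apply bM.ext_elem
      intro i
      exact (h.false i).elim
    exact not_subsingleton M this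
  obtain ⟨i₀⟩ := hne
  refine ⟨hfreeM, ?_, ?_⟩
  · rw [eq_bot_iff]
    intro a ha
    rw [Module.mem_annihilator] at ha
    have h1 := ha (v i₀)
    have h2 : a • v i₀ = Finsupp.linearCombination R v (Finsupp.single i₀ a) := by
      rw [Finsupp.linearCombination_single]
    rw [h2] at h1
    have h3 := (linearIndependent_iff.mp hli) _ h1
    have h4 := congrArg (fun f => f i₀) h3
    simpa using h4
  · apply le_antisymm _ hIk
    intro f hf
    rw [RingHom.mem_ker] at hf
    have h1 : L.π (f • e i₀) = 0 := by rw [L.π_smul, hf, zero_smul]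
    rw [L.ker_π] at h1
    have h2 := repr_mem_of_mem_smul_top e I h1 i₀
    simpa using h2

end Fermat.Agent.Lib.PatchWiring
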