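import Mathlib

set_option autoImplicit false

namespace Fermat.Agent.Lib.PdFree

open CategoryTheory Abelian IsLocalRing Module RingTheory.Sequence

universe u

variable {A : Type u} [CommRing A] [IsLocalRing A] [IsNoetherianRing A]

omit [IsNoetherianRing A] in
theorem hasProjectiveDimensionLT_of_isFiniteLength (n : ℕ)
    (hk : HasProjectiveDimensionLT (ModuleCat.of A (A ⧸ maximalIdeal A)) n)
    (Q : Type u) [AddCommGroup Q] [Module A Q] (hQ : IsFiniteLength A Q) :
    HasProjectiveDimensionLT (ModuleCat.of A Q) n := by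
  induction hQ with
  | of_subsingleton =>
    rename_i M _ _ _
    have hz : Limits.IsZero (ModuleCat.of A M) := ModuleCat.isZero_of_subsingleton _
    have := hz.hasProjectiveDimensionLT_zero
    exact hasProjectiveDimensionLT_of_ge _ 0 n (Nat.zero_le n)
  | of_simple_quotient h ih =>
    rename_i M _ _ N hs
    obtain ⟨I, hI, ⟨e⟩⟩ := isSimpleModule_iff_quot_maximal.mp hs
    have hIm : I = maximalIdeal A := IsLocalRing.eq_maximalIdeal hI
    subst hIm
    let S := (N.mkQ).shortComplexKer
    have hS : S.ShortExact := LinearMap.shortExact_shortComplexKer N.mkQ_surjective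
    have h3 : HasProjectiveDimensionLT S.X₃ n :=
      hasProjectiveDimensionLT_of_iso (e.symm.toModuleIso) n
    have e1 : N ≃ₗ[A] LinearMap.ker N.mkQ := LinearEquiv.ofEq _ _ (Submodule.ker_mkQ N).symm
    have h1 : HasProjectiveDimensionLT S.X₁ n :=
      hasProjectiveDimensionLT_of_iso (e1.toModuleIso) n
    exact hS.hasProjectiveDimensionLT_X₂ n h1 h3

theorem free_of_isWeaklyRegular_of_isFiniteLength
    (rs : List A) (hrs : IsRegular A rs) (hm : Ideal.ofList rs = maximalIdeal A)
    (N : Type u) [AddCommGroup N] [Module A N] [Module.Finite A N]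
    (ys : List A) (hys : IsWeaklyRegular N ys) (hmem : ∀ y ∈ ys, y ∈ maximalIdeal A)
    (hlen : ys.length = rs.length)
    (hQ : IsFiniteLength A (N ⧸ Ideal.ofList ys • (⊤ : Submodule A N))) :
    Module.Free A N := by
  rcases subsingleton_or_nontrivial N with hsub | hnt
  · exact Module.Free.of_subsingleton A N
  have h1 := ModuleCat.projectiveDimension_quotient_eq_add_length_of_isWeaklyRegular
    (ModuleCat.of A N) ys hys hmem
  have h2 := ModuleCat.projectiveDimension_quotient_eq_length.{u} rs hrs
  have e : Shrink.{u} (A ⧸ Ideal.ofList rs) ≃ₗ[A] (A ⧸ maximalIdeal A) :=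
    (Shrink.linearEquiv A _).trans (Submodule.quotEquivOfEq _ _ hm)
  have h3 : projectiveDimension (ModuleCat.of A (A ⧸ maximalIdeal A)) = rs.length := by
    rw [← h2]
    exact (projectiveDimension_eq_of_iso e.toModuleIso).symm
  have hk : HasProjectiveDimensionLT (ModuleCat.of A (A ⧸ maximalIdeal A)) (rs.length + 1) := by
    have : projectiveDimension (ModuleCat.of A (A ⧸ maximalIdeal A)) ≤ (rs.length : ℕ) := h3.le
    exact (projectiveDimension_le_iff _ _).mp this
  have hQ' := hasProjectiveDimensionLT_of_isFiniteLength (rs.length + 1) hk _ hQ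
  have h4 : projectiveDimension (ModuleCat.of A (N ⧸ Ideal.ofList ys • (⊤ : Submodule A N)))
      ≤ (rs.length : ℕ) := (projectiveDimension_le_iff _ _).mpr hQ'
  rw [h1, hlen] at h4
  have h5 : projectiveDimension (ModuleCat.of A N) ≤ ((0 : ℕ) : WithBot ℕ∞) := by
    have : projectiveDimension (ModuleCat.of A N) + (rs.length : ℕ)
        ≤ ((0 : ℕ) : WithBot ℕ∞) + (rs.length : ℕ) := by simpa using h4
    exact ENat.WithBot.add_le_add_natCast_right_iff.mp this
  have h6 : HasProjectiveDimensionLE (ModuleCat.of A N) 0 := (projectiveDimension_le_iff _ _).mp h5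
  have h7 : CategoryTheory.Projective (ModuleCat.of A N) :=
    (projective_iff_hasProjectiveDimensionLE_zero _).mpr h6
  have h8 : Module.Projective A N := (IsProjective.iff_projective N).mpr h7
  exact Module.free_of_flat_of_isLocalRing

theorem free_of_isWeaklyRegular_of_isArtinian
    (rs : List A) (hrs : IsRegular A rs) (hm : Ideal.ofList rs = maximalIdeal A)
    (N : Type u) [AddCommGroup N] [Module A N] [Module.Finite A N]
    (ys : List A) (hys : IsWeaklyRegular N ys) (hmem : ∀ y ∈ ys, y ∈ maximalIdeal A)
    (hlen : ys.length = rs.length)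
    (hQ : IsArtinian A (N ⧸ Ideal.ofList ys • (⊤ : Submodule A N))) :
    Module.Free A N :=
  free_of_isWeaklyRegular_of_isFiniteLength rs hrs hm N ys hys hmem hlen
    (isFiniteLength_iff_isNoetherian_isArtinian.mpr ⟨inferInstance, hQ⟩)

end Fermat.Agent.Lib.PdFree
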