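import Mathlib
import Fermat.Prelude.Def_AlgebraicCurve_DivisorClassGroup
import Fermat.Agent.S24.PlaceBridge
import Fermat.Agent.S24.PlaceVal

/-!
# Places are centred at one of finitely many evaluation points (helper99)

Design-neutral algebra core of the P5 block `[UNR]`.

`R` is a Dedekind domain with fraction field `F`, `K ⊆ R` the constants, `w` a place of `F / K`
whose valuation ring contains `R`.  Suppose we are given finitely many ring homomorphisms
`φ i : R →+* L` into a domain (the "evaluations at the points of a fibre") such that every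
`r ∈ R` lying in the maximal ideal of `w` is killed by one of them (the "norm trick":
`∏ i, φ i r = 0`).  Then the centre of `w` on `R` is the kernel of one `φ i`
(`exists_ker_eq_center`), and any `ℤ`-valued valuation `v` on `F` which is `≤ 1` on `R` and
`< 1` exactly on that kernel is a positive multiple of `w.ord` (`exists_mul_ord_of_ker`,
`exists_mul_ord_of_family`).
-/

set_option autoImplicit false

namespace Fermat.Agent.Lib.PlaceCenter

open AlgebraicCurve IsDedekindDomain Fermat.Agent.S24
open scoped WithZero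

variable {K F : Type*} [Field K] [Field F] [Algebra K F]
variable {R : Type*} [CommRing R] [IsDedekindDomain R] [Algebra R F] [IsFractionRing R F]
  [Algebra K R] [IsScalarTower K R F]

/-- For the place attached to a height one prime `P`, `r ∈ P` iff `r = 0` or `ord r > 0`. -/
theorem mem_asIdeal_iff_ord_pos (P : HeightOneSpectrum R) (r : R) :
    r ∈ P.asIdeal ↔
      (r = 0 ∨ 0 < (Place.ofHeightOneSpectrum (K := K) (F := F) P).ord (algebraMap R F r)) := by
  rcases eq_or_ne r 0 with rfl | hr
  · simp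
  have hr' : algebraMap R F r ≠ 0 := by
    rw [ne_eq, IsFractionRing.to_map_eq_zero_iff]
    exact hr
  have hv0 : P.valuation F (algebraMap R F r) ≠ 0 := (Valuation.ne_zero_iff _).mpr hr'
  rw [ord_ofHeightOneSpectrum (K := K) P, ← P.valuation_lt_one_iff_mem (K := F)]
  constructor
  · intro h
    right
    have h2 : WithZero.log (P.valuation F (algebraMap R F r)) < WithZero.log (1 : ℤᵐ⁰) :=
      (WithZero.log_lt_log hv0 one_ne_zero).mpr h
    rw [WithZero.log_one] at h2
    omega
  · rintro (h | h)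
    · exact absurd h hr
    · have h2 : WithZero.log (P.valuation F (algebraMap R F r)) < WithZero.log (1 : ℤᵐ⁰) := by
        rw [WithZero.log_one]
        omega
      exact (WithZero.log_lt_log hv0 one_ne_zero).mp h2

/-- **Norm trick, abstract form.**  If every element of `R` in the maximal ideal of the place `w`
is killed by one of finitely many ring homomorphisms `φ i` into a domain, then the centre of `w`
on `R` is the kernel of one of them. -/
theorem exists_ker_eq_center {ι : Type*} [Finite ι] {L : Type*} [CommRing L] [IsDomain L]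
    (w : Place K F) (hw : ∀ r : R, algebraMap R F r ∈ w.toValuationSubring)
    (φ : ι → (R →+* L))
    (hprod : ∀ r : R, r ≠ 0 → 0 < w.ord (algebraMap R F r) → ∃ i, φ i r = 0) :
    ∃ i, ∀ r : R, φ i r = 0 ↔ (r = 0 ∨ 0 < w.ord (algebraMap R F r)) := by
  classical
  obtain ⟨P, rfl⟩ := exists_eq_ofHeightOneSpectrum (K := K) w hw
  have _ := Fintype.ofFinite ι
  have hne : Nonempty ι := by
    obtain ⟨x, hxP, hx0⟩ := Submodule.exists_mem_ne_zero_of_ne_bot P.ne_bot
    obtain ⟨i, -⟩ := hprod x hx0
      (((mem_asIdeal_iff_ord_pos (K := K) (F := F) P x).mp hxP).resolve_left hx0)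
    exact ⟨i⟩
  obtain ⟨i₀⟩ := hne
  have hsub : ((P.asIdeal : Ideal R) : Set R) ⊆
      ⋃ i ∈ ((Finset.univ : Finset ι) : Set ι), ((RingHom.ker (φ i) : Ideal R) : Set R) := by
    intro r hr
    rcases eq_or_ne r 0 with rfl | hr0
    · simp only [Finset.coe_univ, Set.mem_univ, Set.iUnion_true, Set.mem_iUnion, SetLike.mem_coe]
      exact ⟨i₀, (RingHom.ker (φ i₀)).zero_mem⟩
    · obtain ⟨i, hi⟩ := hprod r hr0
        (((mem_asIdeal_iff_ord_pos (K := K) (F := F) P r).mp hr).resolve_left hr0)
      simp only [Finset.coe_univ, Set.mem_univ, Set.iUnion_true, Set.mem_iUnion, SetLike.mem_coe]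
      exact ⟨i, (RingHom.mem_ker).mpr hi⟩
  obtain ⟨i, -, hi⟩ := (Ideal.subset_union_prime (s := (Finset.univ : Finset ι))
    (f := fun i => RingHom.ker (φ i)) i₀ i₀
    (fun i _ _ _ => RingHom.ker_isPrime (φ i))).mp hsub
  have hmax : P.asIdeal.IsMaximal := P.isMaximal
  have hne : RingHom.ker (φ i) ≠ ⊤ := (RingHom.ker_isPrime (φ i)).ne_top
  have heq : P.asIdeal = RingHom.ker (φ i) := hmax.eq_of_le hne hi
  refine ⟨i, fun r => ?_⟩
  rw [← mem_asIdeal_iff_ord_pos (K := K) (F := F) P r, heq, RingHom.mem_ker]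

/-- A `ℤ`-valued valuation on `F` which is `≤ 1` on `R`, `< 1` on the centre of `w` and `= 1` on
the rest of `R` is a positive multiple of `w.ord`. -/
theorem exists_mul_ord_of_center (w : Place K F)
    (hw : ∀ r : R, algebraMap R F r ∈ w.toValuationSubring)
    (v : Valuation F ℤᵐ⁰)
    (hv1 : ∀ r : R, r ≠ 0 → 0 < w.ord (algebraMap R F r) → v (algebraMap R F r) < 1)
    (hv2 : ∀ r : R, r ≠ 0 → ¬ 0 < w.ord (algebraMap R F r) → v (algebraMap R F r) = 1) :
    ∃ e : ℕ, 0 < e ∧ ∀ f : F, f ≠ 0 → -(WithZero.log (v f)) = e * w.ord f := by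
  obtain ⟨P, rfl⟩ := exists_eq_ofHeightOneSpectrum (K := K) w hw
  refine PlaceVal.exists_mul_ord _ v ?_
  rw [Place.ofHeightOneSpectrum_toValuationSubring,
    ← HeightOneSpectrum.valuationSubringAtPrime_eq_valuationSubring]
  -- `v.valuationSubring ≠ ⊤`
  have hvtop : v.valuationSubring ≠ ⊤ := by
    obtain ⟨x, hxP, hx0⟩ := Submodule.exists_mem_ne_zero_of_ne_bot P.ne_bot
    have hx1 : v (algebraMap R F x) < 1 := hv1 x hx0
      (((mem_asIdeal_iff_ord_pos (K := K) (F := F) P x).mp hxP).resolve_left hx0)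
    have hx' : algebraMap R F x ≠ 0 := by
      rw [ne_eq, IsFractionRing.to_map_eq_zero_iff]
      exact hx0
    intro htop
    have hmem : (algebraMap R F x)⁻¹ ∈ v.valuationSubring := by
      rw [htop]; exact ValuationSubring.mem_top _
    have h2 : v (algebraMap R F x)⁻¹ ≤ 1 := hmem
    rw [map_inv₀] at h2
    have hv0 : v (algebraMap R F x) ≠ 0 := (Valuation.ne_zero_iff _).mpr hx'
    have h3 : 1 ≤ v (algebraMap R F x) := (inv_le_one₀ (zero_lt_iff.mpr hv0)).mp h2
    exact absurd hx1 (not_lt.mpr h3)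
  refine ValuationSubring.eq_of_le_of_ne_top _ ?_ hvtop
  rintro x ⟨a, s, hs, rfl⟩
  have hva : v (algebraMap R F a) ≤ 1 := by
    rcases eq_or_ne a 0 with rfl | ha0
    · rw [map_zero, map_zero]; exact zero_le
    · by_cases hpos : 0 < (Place.ofHeightOneSpectrum (K := K) (F := F) P).ord (algebraMap R F a)
      · exact (hv1 a ha0 hpos).le
      · exact (hv2 a ha0 hpos).le
  have hs0 : s ≠ 0 := by
    rintro rfl
    exact hs P.asIdeal.zero_mem
  have hvs : v (algebraMap R F s) = 1 := by
    refine hv2 s hs0 fun hpos => hs ?_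
    exact (mem_asIdeal_iff_ord_pos (K := K) (F := F) P s).mpr (Or.inr hpos)
  show v (algebraMap R F a * (algebraMap R F s)⁻¹) ≤ 1
  rw [map_mul, map_inv₀, hvs, inv_one, mul_one]
  exact hva

/-- The valuation attached to a ring homomorphism `φ` whose kernel is the centre of `w`. -/
theorem exists_mul_ord_of_ker {L : Type*} [CommRing L] (w : Place K F)
    (hw : ∀ r : R, algebraMap R F r ∈ w.toValuationSubring)
    (φ : R →+* L) (hφ : ∀ r : R, φ r = 0 ↔ (r = 0 ∨ 0 < w.ord (algebraMap R F r)))
    (v : Valuation F ℤᵐ⁰)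
    (hv1 : ∀ r : R, φ r = 0 → v (algebraMap R F r) < 1)
    (hv2 : ∀ r : R, φ r ≠ 0 → v (algebraMap R F r) = 1) :
    ∃ e : ℕ, 0 < e ∧ ∀ f : F, f ≠ 0 → -(WithZero.log (v f)) = e * w.ord f := by
  refine exists_mul_ord_of_center w hw v (fun r _ hpos => hv1 r ((hφ r).mpr (Or.inr hpos)))
    (fun r hr0 hpos => hv2 r fun h => ?_)
  rcases (hφ r).mp h with h0 | h1
  · exact hr0 h0
  · exact hpos h1

/-- **Every place over the fibre is a point place.**  `φ i` are finitely many "evaluations"
`R →+* L`, `v i` the corresponding `ℤ`-valued "orders of vanishing" on `F`; if every element of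
`R` in the maximal ideal of `w` is killed by some `φ i`, then `w.ord` is, up to a positive
integer factor, one of the `v i`. -/
theorem exists_mul_ord_of_family {ι : Type*} [Finite ι] {L : Type*} [CommRing L] [IsDomain L]
    (w : Place K F) (hw : ∀ r : R, algebraMap R F r ∈ w.toValuationSubring)
    (φ : ι → (R →+* L)) (v : ι → Valuation F ℤᵐ⁰)
    (hprod : ∀ r : R, r ≠ 0 → 0 < w.ord (algebraMap R F r) → ∃ i, φ i r = 0)
    (hv1 : ∀ i (r : R), φ i r = 0 → v i (algebraMap R F r) < 1)
    (hv2 : ∀ i (r : R), φ i r ≠ 0 → v i (algebraMap R F r) = 1) :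
    ∃ i, ∃ e : ℕ, 0 < e ∧ ∀ f : F, f ≠ 0 → -(WithZero.log (v i f)) = e * w.ord f := by
  obtain ⟨i, hi⟩ := exists_ker_eq_center w hw φ hprod
  exact ⟨i, exists_mul_ord_of_ker w hw (φ i) hi (v i) (hv1 i) (hv2 i)⟩

end Fermat.Agent.Lib.PlaceCenter
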