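import Mathlib
import Fermat.Agent.Lib.PlaceCenter

/-!
# Places are centred at one of finitely many valuations (helper99)

Valuation-only form of `Lib/PlaceCenter`: no evaluation homomorphisms are needed.  If
`v i` are finitely many `ℤ`-valued valuations of `F` which are `≤ 1` on the Dedekind ring `R`,
and every nonzero element of `R` in the maximal ideal of the place `w` has `v i < 1` for some
`i`, then `w.ord` is, up to a positive integer factor, one of the `v i`.
-/

set_option autoImplicit false

namespace Fermat.Agent.Lib.PlaceCenter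

open AlgebraicCurve IsDedekindDomain Fermat.Agent.S24
open scoped WithZero

variable {K F : Type*} [Field K] [Field F] [Algebra K F]
variable {R : Type*} [CommRing R] [IsDedekindDomain R] [Algebra R F] [IsFractionRing R F]
  [Algebra K R] [IsScalarTower K R F]

/-- The centre on `R` of a valuation which is `≤ 1` on `R`, as an ideal. -/
def centerIdeal (v : Valuation F ℤᵐ⁰) (hv : ∀ r : R, v (algebraMap R F r) ≤ 1) : Ideal R where
  carrier := {r | v (algebraMap R F r) < 1}
  add_mem' {a b} ha hb := by
    show v (algebraMap R F (a + b)) < 1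
    rw [map_add]
    exact lt_of_le_of_lt (v.map_add _ _) (max_lt ha hb)
  zero_mem' := by
    show v (algebraMap R F 0) < 1
    rw [map_zero, map_zero]
    exact zero_lt_one
  smul_mem' c {a} ha := by
    show v (algebraMap R F (c • a)) < 1
    rw [smul_eq_mul, map_mul, map_mul]
    calc v (algebraMap R F c) * v (algebraMap R F a)
        ≤ 1 * v (algebraMap R F a) := mul_le_mul_left (hv c) _
      _ = v (algebraMap R F a) := one_mul _
      _ < 1 := ha

omit [IsDedekindDomain R] [IsFractionRing R F] in
theorem mem_centerIdeal (v : Valuation F ℤᵐ⁰) (hv : ∀ r : R, v (algebraMap R F r) ≤ 1) (r : R) :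
    r ∈ centerIdeal v hv ↔ v (algebraMap R F r) < 1 := Iff.rfl

omit [IsDedekindDomain R] [IsFractionRing R F] in
theorem centerIdeal_isPrime (v : Valuation F ℤᵐ⁰) (hv : ∀ r : R, v (algebraMap R F r) ≤ 1) :
    (centerIdeal v hv).IsPrime := by
  refine ⟨?_, ?_⟩
  · intro htop
    have h1 : (1 : R) ∈ centerIdeal v hv := by rw [htop]; exact Submodule.mem_top
    rw [mem_centerIdeal, map_one, map_one] at h1
    exact lt_irrefl _ h1
  · intro a b hab
    rw [mem_centerIdeal, map_mul, map_mul] at hab
    by_contra hcon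
    push Not at hcon
    obtain ⟨ha, hb⟩ := hcon
    rw [mem_centerIdeal, not_lt] at ha hb
    have ha1 : v (algebraMap R F a) = 1 := le_antisymm (hv a) ha
    have hb1 : v (algebraMap R F b) = 1 := le_antisymm (hv b) hb
    rw [ha1, hb1, one_mul] at hab
    exact lt_irrefl _ hab

/-- **Every place over the fibre is one of the given valuations** (valuation-only form). -/
theorem exists_mul_ord_of_valuations {ι : Type*} [Finite ι]
    (w : Place K F) (hw : ∀ r : R, algebraMap R F r ∈ w.toValuationSubring)
    (v : ι → Valuation F ℤᵐ⁰) (hv : ∀ i (r : R), v i (algebraMap R F r) ≤ 1)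
    (hprod : ∀ r : R, r ≠ 0 → 0 < w.ord (algebraMap R F r) → ∃ i, v i (algebraMap R F r) < 1) :
    ∃ i, ∃ e : ℕ, 0 < e ∧ ∀ f : F, f ≠ 0 → -(WithZero.log (v i f)) = e * w.ord f := by
  classical
  obtain ⟨P, rfl⟩ := exists_eq_ofHeightOneSpectrum (K := K) w hw
  have _ := Fintype.ofFinite ι
  have hne : Nonempty ι := by
    obtain ⟨x, hxP, hx0⟩ := Submodule.exists_mem_ne_zero_of_ne_bot P.ne_bot
    obtain ⟨i, -⟩ := hprod x hx0
      (((mem_asIdeal_iff_ord_pos (K := K) (F := F) P x).mp hxP).resolve_left hx0)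
    exact ⟨i⟩
  obtain ⟨i₀⟩ := hne
  have hsub : ((P.asIdeal : Ideal R) : Set R) ⊆
      ⋃ i ∈ ((Finset.univ : Finset ι) : Set ι), ((centerIdeal (v i) (hv i) : Ideal R) : Set R) := by
    intro r hr
    simp only [Finset.coe_univ, Set.mem_univ, Set.iUnion_true, Set.mem_iUnion, SetLike.mem_coe]
    rcases eq_or_ne r 0 with rfl | hr0
    · exact ⟨i₀, (centerIdeal (v i₀) (hv i₀)).zero_mem⟩
    · obtain ⟨i, hi⟩ := hprod r hr0
        (((mem_asIdeal_iff_ord_pos (K := K) (F := F) P r).mp hr).resolve_left hr0)
      exact ⟨i, hi⟩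
  obtain ⟨i, -, hi⟩ := (Ideal.subset_union_prime (s := (Finset.univ : Finset ι))
    (f := fun i => centerIdeal (v i) (hv i)) i₀ i₀
    (fun i _ _ _ => centerIdeal_isPrime (v i) (hv i))).mp hsub
  have heq : P.asIdeal = centerIdeal (v i) (hv i) :=
    P.isMaximal.eq_of_le (centerIdeal_isPrime (v i) (hv i)).ne_top hi
  refine ⟨i, exists_mul_ord_of_center _ hw (v i) (fun r _ hpos => ?_) (fun r hr0 hpos => ?_)⟩
  · have hmem : r ∈ P.asIdeal :=
      (mem_asIdeal_iff_ord_pos (K := K) (F := F) P r).mpr (Or.inr hpos)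
    rw [heq] at hmem
    exact hmem
  · have hmem : r ∉ centerIdeal (v i) (hv i) := by
      rw [← heq, mem_asIdeal_iff_ord_pos (K := K) (F := F) P r]
      rintro (h0 | h1)
      · exact hr0 h0
      · exact hpos h1
    rw [mem_centerIdeal, not_lt] at hmem
    exact le_antisymm (hv i r) hmem

end Fermat.Agent.Lib.PlaceCenter
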