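import Fermat.Agent.Lib.PlaceEmbed
import Fermat.Agent.S24.Defs

set_option autoImplicit false

namespace Fermat.Agent.Lib.PlaceGaloisFibre

open AlgebraicCurve Fermat.Agent.Lib.PlaceEmbed

section Generic

variable {K F M : Type*} [Field K] [Field F] [Algebra K F] [Field M] [Algebra K M]

/-- **Exact fibres.** Given `|X| = ∑_{v | T} ord_v T` distinct embeddings agreeing at `T`, every
place over `T = 0` is induced by exactly `ord_v T` of them. -/
theorem fibre_card [IsAlgClosed K] [CharZero K]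
    (W : IntOrd M) (hWK : ∀ a : K, a ≠ 0 → W.ord (algebraMap K M a) = 0)
    (hres : ∀ (v : Place K F) (x : F), 0 ≤ v.ord x →
      ∃ a : K, (placeOrd v).Ge (x - algebraMap K F a) 1)
    (T : F) (P : Finset (Place K F)) (hP : ∀ v : Place K F, v ∈ P ↔ 0 < v.ord T)
    {X : Type*} [Fintype X]
    (hsum : ∑ v ∈ P, v.ord T = (Fintype.card X : ℤ))
    (φ : X → (F →ₐ[K] M)) (hinj : Function.Injective φ)
    (T0 : M) (hT0 : ∀ x, φ x T = T0) (hT0ne : T0 ≠ 0) (hT0ord : 0 < W.ord T0) :
    ∃ pl : X → Place K F, (∀ x, Induces W (φ x) (pl x)) ∧ (∀ x, pl x ∈ P) ∧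
      ∀ v ∈ P, (({x | pl x = v} : Set X).ncard : ℤ) = v.ord T := by
  classical
  rcases isEmpty_or_nonempty X with hX | ⟨⟨x₀⟩⟩
  · have hPe : P = ∅ := by
      by_contra hne
      obtain ⟨v, hv⟩ := Finset.nonempty_iff_ne_empty.mpr hne
      have h1 : v.ord T ≤ ∑ w ∈ P, w.ord T :=
        Finset.single_le_sum (f := fun w : Place K F => w.ord T)
          (fun w hw => ((hP w).mp hw).le) hv
      have h2 := (hP v).mp hv
      rw [hsum] at h1
      simp at h1
      omega
    subst hPe
    exact ⟨fun x => (hX.false x).elim, fun x => (hX.false x).elim,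
      fun x => (hX.false x).elim, by simp⟩
  have hTne : T ≠ 0 := by
    rintro rfl
    have h1 := hT0 x₀
    rw [map_zero] at h1
    exact hT0ne h1.symm
  have hpl : ∀ x, ∃ v : Place K F, Induces W (φ x) v := fun x =>
    exists_place_induces W hWK (φ x) T hTne (by rw [hT0]; exact hT0ord)
  choose pl hpl using hpl
  have hplP : ∀ x, pl x ∈ P := by
    intro x
    rw [hP]
    obtain ⟨π, -, hπ0, hπ, -⟩ := exists_uniformizer (pl x)
    obtain ⟨hm, hord⟩ := (hpl x).ord_eq hπ
    have h1 := hord T hTne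
    rw [hT0] at h1
    by_contra hcon
    have h2 : W.ord (φ x π) * (pl x).ord T ≤ 0 :=
      mul_nonpos_of_nonneg_of_nonpos hm.le (by omega)
    omega
  have hfib : ∀ v ∈ P, ((Finset.univ.filter (fun x => pl x = v)).card : ℤ) ≤ v.ord T := by
    intro v hv
    have h1 := card_le_ord (W := W) (v := v) hWK (hres v) ((hP v).mp hv) T0
      ((Finset.univ.filter (fun x => pl x = v)).image φ) (by
        intro ψ hψ
        obtain ⟨x, hx, rfl⟩ := Finset.mem_image.mp hψ
        have hx' : pl x = v := (Finset.mem_filter.mp hx).2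
        exact ⟨hx' ▸ hpl x, hT0 x⟩)
    rwa [Finset.card_image_of_injective _ hinj] at h1
  have hcardsum : (Fintype.card X : ℤ)
      = ∑ v ∈ P, ((Finset.univ.filter (fun x => pl x = v)).card : ℤ) := by
    have h1 := Finset.card_eq_sum_card_fiberwise (s := (Finset.univ : Finset X)) (t := P)
      (f := pl) (fun x _ => hplP x)
    rw [Finset.card_univ] at h1
    rw [h1]
    push_cast
    rfl
  have hfibeq : ∀ v ∈ P, ((Finset.univ.filter (fun x => pl x = v)).card : ℤ) = v.ord T :=
    (Finset.sum_eq_sum_iff_of_le hfib).mp (by rw [← hcardsum, hsum])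
  refine ⟨pl, hpl, hplP, fun v hv => ?_⟩
  rw [← hfibeq v hv, Set.ncard_eq_toFinset_card']
  congr 2
  ext y
  simp

/-- **Local counting theorem, group version.** If a finite group `C` of order `ord T0` acts on
the index set compatibly with the orders, and elements of `φ x (F)` have order divisible by the
order of the stabiliser of `x`, then the places over `T = 0` correspond to the `C`-orbits. -/
theorem local_count_group [IsAlgClosed K] [CharZero K]
    (W : IntOrd M) (hWK : ∀ a : K, a ≠ 0 → W.ord (algebraMap K M a) = 0)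
    (hres : ∀ (v : Place K F) (x : F), 0 ≤ v.ord x →
      ∃ a : K, (placeOrd v).Ge (x - algebraMap K F a) 1)
    (T : F) (P : Finset (Place K F)) (hP : ∀ v : Place K F, v ∈ P ↔ 0 < v.ord T)
    {X : Type*} [Fintype X]
    (hsum : ∑ v ∈ P, v.ord T = (Fintype.card X : ℤ))
    (φ : X → (F →ₐ[K] M)) (hinj : Function.Injective φ)
    (T0 : M) (hT0 : ∀ x, φ x T = T0) (hT0ne : T0 ≠ 0) (hT0ord : 0 < W.ord T0)
    {C : Type*} [Group C] [Finite C] [MulAction C X]
    (hC : ∀ (c : C) (x : X) (f : F), f ≠ 0 → W.ord (φ (c • x) f) = W.ord (φ x f))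
    (hCcard : (Nat.card C : ℤ) = W.ord T0)
    (hdiv : ∀ (x : X) (f : F), f ≠ 0 →
      (Nat.card (MulAction.stabilizer C x) : ℤ) ∣ W.ord (φ x f)) :
    P.card = Nat.card (MulAction.orbitRel.Quotient C X) := by
  classical
  obtain ⟨pl, hpl, hplP, hfib⟩ :=
    fibre_card W hWK hres T P hP hsum φ hinj T0 hT0 hT0ne hT0ord
  have hplc : ∀ (c : C) (x : X), pl (c • x) = pl x := by
    intro c x
    refine Induces.unique (hpl (c • x)) ?_
    intro f hf
    rw [hC c x f hf]
    exact hpl x f hf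
  have horb : ∀ x : X, MulAction.orbit C x = {y | pl y = pl x} := by
    intro x
    have hsub : MulAction.orbit C x ⊆ {y | pl y = pl x} := by
      rintro _ ⟨c, rfl⟩
      exact hplc c x
    refine Set.eq_of_subset_of_ncard_le hsub ?_ (Set.toFinite _)
    have hos : Nat.card (MulAction.orbit C x) * Nat.card (MulAction.stabilizer C x)
        = Nat.card C := by
      rw [← Nat.card_prod]
      exact Nat.card_congr (MulAction.orbitProdStabilizerEquivGroup C x)
    have hstabpos : 0 < Nat.card (MulAction.stabilizer C x) := Nat.card_pos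
    have hev := hfib (pl x) (hplP x)
    have hTne : T ≠ 0 := by
      rintro rfl
      have h1 := hT0 x
      rw [map_zero] at h1
      exact hT0ne h1.symm
    obtain ⟨π, -, hπ0, hπ, -⟩ := exists_uniformizer (pl x)
    obtain ⟨hm, hord⟩ := (hpl x).ord_eq hπ
    have hT' := hord T hTne
    rw [hT0] at hT'
    obtain ⟨c, hc⟩ := hdiv x π hπ0
    have hsZ : (0 : ℤ) < (Nat.card (MulAction.stabilizer C x) : ℤ) := by exact_mod_cast hstabpos
    have hc1 : 1 ≤ c := by
      by_contra hcon
      have h1 : c ≤ 0 := by omega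
      have h2 : (Nat.card (MulAction.stabilizer C x) : ℤ) * c ≤ 0 :=
        mul_nonpos_of_nonneg_of_nonpos hsZ.le h1
      omega
    have hevpos := (hP (pl x)).mp (hplP x)
    have hosZ : (Nat.card (MulAction.orbit C x) : ℤ) * (Nat.card (MulAction.stabilizer C x) : ℤ)
        = W.ord T0 := by
      rw [← hCcard]
      exact_mod_cast hos
    have h3 : (Nat.card (MulAction.stabilizer C x) : ℤ) * (pl x).ord T
        ≤ (Nat.card (MulAction.stabilizer C x) : ℤ) * (Nat.card (MulAction.orbit C x) : ℤ) := by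
      have h4 : (Nat.card (MulAction.stabilizer C x) : ℤ) * (Nat.card (MulAction.orbit C x) : ℤ)
          = (Nat.card (MulAction.stabilizer C x) : ℤ) * c * (pl x).ord T := by
        rw [mul_comm, hosZ, hT', hc]
      rw [h4]
      nlinarith
    have h5 : (pl x).ord T ≤ (Nat.card (MulAction.orbit C x) : ℤ) :=
      le_of_mul_le_mul_left h3 hsZ
    rw [Nat.card_coe_set_eq] at h5
    have h6 : (({y | pl y = pl x} : Set X).ncard : ℤ) ≤ ((MulAction.orbit C x).ncard : ℤ) := by
      rw [hev]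
      exact h5
    exact_mod_cast h6
  let f : MulAction.orbitRel.Quotient C X → P :=
    Quotient.lift (fun x => (⟨pl x, hplP x⟩ : P)) (by
      intro a b hab
      have h1 : a ∈ MulAction.orbit C b := hab
      rw [horb b] at h1
      exact Subtype.ext h1)
  have hbij : Function.Bijective f := by
    constructor
    · intro a b
      refine Quotient.inductionOn₂' a b fun a b hab => ?_
      apply Quotient.sound'
      show a ∈ MulAction.orbit C b
      rw [horb b]
      exact congrArg Subtype.val hab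
    · rintro ⟨v, hv⟩
      have h1 := hfib v hv
      have h2 := (hP v).mp hv
      have hpos : 0 < ({x | pl x = v} : Set X).ncard := by
        have : (0 : ℤ) < (({x | pl x = v} : Set X).ncard : ℤ) := by omega
        exact_mod_cast this
      obtain ⟨x, hx⟩ := (Set.ncard_pos (Set.toFinite _)).mp hpos
      exact ⟨Quotient.mk'' x, Subtype.ext hx⟩
  rw [Nat.card_eq_of_bijective f hbij]
  simp

end Generic

section Inertia

variable {K M : Type*} [Field K] [Field M] [Algebra K M]

theorem ord_prod_eq_sum (W : IntOrd M) {ι : Type*} (s : Finset ι) (f : ι → M)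
    (hf : ∀ i ∈ s, f i ≠ 0) :
    (∏ i ∈ s, f i) ≠ 0 ∧ W.ord (∏ i ∈ s, f i) = ∑ i ∈ s, W.ord (f i) := by
  classical
  induction s using Finset.induction_on with
  | empty => simp [W.ord_one]
  | insert a s ha ih =>
    obtain ⟨i1, i2⟩ := ih fun i hi => hf i (Finset.mem_insert_of_mem hi)
    have ha0 := hf a (Finset.mem_insert_self a s)
    rw [Finset.prod_insert ha, Finset.sum_insert ha]
    exact ⟨mul_ne_zero ha0 i1, by rw [W.map_mul _ _ ha0 i1, i2]⟩

theorem ord_apply_of_smul_eq (W : Place K M) (σ : M ≃ₐ[K] M) (h : σ • W = W) (m : M) :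
    W.ord (σ m) = W.ord m := by
  have h1 := Place.ord_smul σ W m
  rwa [h] at h1

theorem induces_inv_smul (W : Place K M) (σ : M ≃ₐ[K] M) :
    Induces (placeOrd W) (σ : M →ₐ[K] M) (σ⁻¹ • W) := by
  intro x _
  have h1 := Place.ord_smul σ⁻¹ W (σ x)
  have h2 : σ⁻¹ (σ x) = x := σ.symm_apply_apply x
  rw [h2] at h1
  show 0 ≤ W.ord (σ x) ↔ _
  rw [h1]

theorem induces_of_smul_eq (W : Place K M) (σ : M ≃ₐ[K] M) (h : σ • W = W) :
    Induces (placeOrd W) (σ : M →ₐ[K] M) W := by
  intro x _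
  show 0 ≤ W.ord (σ x) ↔ _
  rw [ord_apply_of_smul_eq W σ h]

/-- **Inertia divisibility.** If a finite group of automorphisms fixing the place `W` fixes
`m ≠ 0`, then its order divides `ord_W m`. -/
theorem card_dvd_ord_of_fixed [IsAlgClosed K] [CharZero K] (W : Place K M)
    (hres : ∀ m : M, 0 ≤ W.ord m → ∃ a : K, (placeOrd W).Ge (m - algebraMap K M a) 1)
    {C : Type*} [Group C] [Finite C] (ι : C →* (M ≃ₐ[K] M)) (hι : Function.Injective ι)
    (hCW : ∀ c, ι c • W = W) (m : M) (hm : m ≠ 0) (hfix : ∀ c, ι c m = m) :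
    (Nat.card C : ℤ) ∣ W.ord m := by
  classical
  have : Fintype C := Fintype.ofFinite C
  obtain ⟨π, -, hπ0, hπ, -⟩ := exists_uniformizer W
  set Nπ : M := ∏ c : C, ι c π with hNπ
  have hfac : ∀ c ∈ (Finset.univ : Finset C), ι c π ≠ 0 := fun c _ =>
    (map_ne_zero (ι c)).mpr hπ0
  obtain ⟨hN0, hNord⟩ := ord_prod_eq_sum (placeOrd W) Finset.univ (fun c : C => ι c π) hfac
  have hNord' : W.ord Nπ = (Nat.card C : ℤ) := by
    have h1 : ∀ c ∈ (Finset.univ : Finset C), (placeOrd W).ord (ι c π) = 1 := fun c _ => by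
      rw [placeOrd_ord, ord_apply_of_smul_eq W (ι c) (hCW c), hπ]
    rw [placeOrd_ord] at hNord
    rw [hNπ, hNord, Finset.sum_congr rfl h1]
    simp [Nat.card_eq_fintype_card]
  have hNfix : ∀ c, ι c Nπ = Nπ := by
    intro c
    rw [hNπ, map_prod]
    refine Fintype.prod_equiv (Equiv.mulLeft c) _ _ fun d => ?_
    simp [map_mul]
  have hrpos : (0 : ℤ) < (Nat.card C : ℤ) := by exact_mod_cast Nat.card_pos
  set r : ℤ := (Nat.card C : ℤ) with hr
  by_contra hnd
  have hspos : 0 < W.ord m % r := (Int.emod_pos_of_not_dvd hnd).resolve_left hrpos.ne'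
  have hslt : W.ord m % r < r := Int.emod_lt_of_pos _ hrpos
  set m₁ : M := m * (Nπ ^ (W.ord m / r))⁻¹ with hm₁
  have hm₁0 : m₁ ≠ 0 := mul_ne_zero hm (inv_ne_zero (zpow_ne_zero _ hN0))
  have hm₁ord : W.ord m₁ = W.ord m % r := by
    rw [hm₁, W.ord_mul hm (inv_ne_zero (zpow_ne_zero _ hN0)), W.ord_inv, W.ord_zpow, hNord']
    have h1 := Int.emod_add_mul_ediv (W.ord m) r
    linarith
  have hm₁fix : ∀ c, ι c m₁ = m₁ := by
    intro c
    rw [hm₁, map_mul, map_inv₀, map_zpow₀, hfix c, hNfix c]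
  have hle := card_le_ord (W := placeOrd W) (v := W) (fun a _ => ord_algebraMap W a) hres
    (T := m₁) (by rw [hm₁ord]; exact hspos) m₁
    (Finset.univ.image (fun c : C => ((ι c : M ≃ₐ[K] M) : M →ₐ[K] M))) (by
      intro ψ hψ
      obtain ⟨c, -, rfl⟩ := Finset.mem_image.mp hψ
      exact ⟨induces_of_smul_eq W (ι c) (hCW c), hm₁fix c⟩)
  have hinj : Function.Injective (fun c : C => ((ι c : M ≃ₐ[K] M) : M →ₐ[K] M)) := by
    intro c d hcd
    apply hι
    ext x
    exact congrArg (fun ψ : M →ₐ[K] M => ψ x) hcd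
  rw [Finset.card_image_of_injective _ hinj, Finset.card_univ, ← Nat.card_eq_fintype_card,
    hm₁ord] at hle
  omega

end Inertia

section Galois

open Fermat.Agent.S24

variable {K F M : Type*} [Field K] [Field F] [Field M] [Algebra K F] [Algebra K M]
  (G : Subgroup (M ≃ₐ[K] M)) [Finite G]

/-- the fibres of `σ ↦ σ⁻¹ • W` over the zeros of a `G`-invariant element. -/
theorem fibres_of_group [IsAlgClosed K] [CharZero K]
    (hresM : ∀ (W : Place K M) (m : M), 0 ≤ W.ord m →
      ∃ a : K, (placeOrd W).Ge (m - algebraMap K M a) 1)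
    (yM : M) (hGy : ∀ σ ∈ G, σ yM = yM)
    (PM : Finset (Place K M)) (hPM : ∀ W : Place K M, W ∈ PM ↔ 0 < W.ord yM)
    (hsumM : ∑ W ∈ PM, W.ord yM = (Nat.card G : ℤ))
    (W : Place K M) (hW : 0 < W.ord yM) :
    ∀ W' ∈ PM, (({σ : G | (σ : M ≃ₐ[K] M)⁻¹ • W = W'} : Set G).ncard : ℤ) = W'.ord yM := by
  classical
  have : Fintype G := Fintype.ofFinite G
  have hy0 : yM ≠ 0 := by
    rintro rfl
    simp at hW
  have hinj : Function.Injective (fun σ : G => ((σ : M ≃ₐ[K] M) : M →ₐ[K] M)) := by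
    intro c d hcd
    apply Subtype.ext
    ext x
    exact congrArg (fun ψ : M →ₐ[K] M => ψ x) hcd
  obtain ⟨pl, hpl, hplP, hfib⟩ := fibre_card (placeOrd W) (fun a _ => ord_algebraMap W a)
    hresM yM PM hPM (by rw [hsumM, Nat.card_eq_fintype_card])
    (fun σ : G => ((σ : M ≃ₐ[K] M) : M →ₐ[K] M)) hinj yM (fun σ => hGy σ σ.2) hy0 hW
  have hpl' : ∀ σ : G, pl σ = (σ : M ≃ₐ[K] M)⁻¹ • W := fun σ =>
    Induces.unique (hpl σ) (induces_inv_smul W σ)
  intro W' hW'
  rw [← hfib W' hW']
  congr 2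
  ext σ
  simp [hpl']

/-- `G` is transitive on the zeros of a `G`-invariant element. -/
theorem exists_smul_eq [IsAlgClosed K] [CharZero K]
    (hresM : ∀ (W : Place K M) (m : M), 0 ≤ W.ord m →
      ∃ a : K, (placeOrd W).Ge (m - algebraMap K M a) 1)
    (yM : M) (hGy : ∀ σ ∈ G, σ yM = yM)
    (PM : Finset (Place K M)) (hPM : ∀ W : Place K M, W ∈ PM ↔ 0 < W.ord yM)
    (hsumM : ∑ W ∈ PM, W.ord yM = (Nat.card G : ℤ))
    (W W' : Place K M) (hW : 0 < W.ord yM) (hW' : 0 < W'.ord yM) : ∃ σ : G, σ • W = W' := by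
  have h := fibres_of_group G hresM yM hGy PM hPM hsumM W hW W' ((hPM W').mpr hW')
  have hpos : 0 < ({σ : G | (σ : M ≃ₐ[K] M)⁻¹ • W = W'} : Set G).ncard := by
    have : (0 : ℤ) < (({σ : G | (σ : M ≃ₐ[K] M)⁻¹ • W = W'} : Set G).ncard : ℤ) := by omega
    exact_mod_cast this
  obtain ⟨σ, hσ⟩ := (Set.ncard_pos (Set.toFinite _)).mp hpos
  exact ⟨σ⁻¹, hσ⟩

/-- the decomposition group has order the ramification index. -/
theorem card_stabilizer [IsAlgClosed K] [CharZero K]
    (hresM : ∀ (W : Place K M) (m : M), 0 ≤ W.ord m →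
      ∃ a : K, (placeOrd W).Ge (m - algebraMap K M a) 1)
    (yM : M) (hGy : ∀ σ ∈ G, σ yM = yM)
    (PM : Finset (Place K M)) (hPM : ∀ W : Place K M, W ∈ PM ↔ 0 < W.ord yM)
    (hsumM : ∑ W ∈ PM, W.ord yM = (Nat.card G : ℤ))
    (W : Place K M) (hW : 0 < W.ord yM) :
    (Nat.card (MulAction.stabilizer G W) : ℤ) = W.ord yM := by
  have h := fibres_of_group G hresM yM hGy PM hPM hsumM W hW W ((hPM W).mpr hW)
  rw [← h, ← Nat.card_coe_set_eq]
  congr 1
  refine Nat.card_congr (Equiv.subtypeEquivRight fun σ => ?_)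
  rw [MulAction.mem_stabilizer_iff]
  show (σ : M ≃ₐ[K] M) • W = W ↔ (σ : M ≃ₐ[K] M)⁻¹ • W = W
  rw [inv_smul_eq_iff]
  exact eq_comm

section Tower

variable [Algebra F M] [IsScalarTower K F M]

/-- the embedding `F → M` attached to a coset of the fixer of `F`. -/
noncomputable def cosetEmb (q : G ⧸ fixerOf F G) : F →ₐ[K] M :=
  (((q.out : G) : M ≃ₐ[K] M) : M →ₐ[K] M).comp (IsScalarTower.toAlgHom K F M)

omit [Finite G] in
theorem cosetEmb_mk (σ : G) (f : F) :
    cosetEmb G (QuotientGroup.mk σ : G ⧸ fixerOf F G) f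
      = (σ : M ≃ₐ[K] M) (algebraMap F M f) := by
  obtain ⟨h, hh⟩ := QuotientGroup.mk_out_eq_mul (fixerOf F G) σ
  show (((QuotientGroup.mk σ : G ⧸ fixerOf F G).out : G) : M ≃ₐ[K] M) (algebraMap F M f) = _
  rw [hh]
  show (σ : M ≃ₐ[K] M) (((h : G) : M ≃ₐ[K] M) (algebraMap F M f)) = _
  rw [h.2 f]

omit [Finite G] in
theorem cosetEmb_injective :
    Function.Injective (cosetEmb G : G ⧸ fixerOf F G → (F →ₐ[K] M)) := by
  intro q q'
  refine Quotient.inductionOn₂' q q' fun σ τ hστ => ?_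
  apply QuotientGroup.eq.mpr
  intro f
  have h1 := congrArg (fun ψ : F →ₐ[K] M => ψ f) hστ
  have h2 : (σ : M ≃ₐ[K] M) (algebraMap F M f) = (τ : M ≃ₐ[K] M) (algebraMap F M f) := by
    have e1 := cosetEmb_mk G σ f
    have e2 := cosetEmb_mk G τ f
    rw [← e1, ← e2]
    exact h1
  show ((σ : M ≃ₐ[K] M)⁻¹ * (τ : M ≃ₐ[K] M)) (algebraMap F M f) = algebraMap F M f
  rw [AlgEquiv.mul_apply, ← h2]
  exact (σ : M ≃ₐ[K] M).symm_apply_apply _

/-- **Places of `F` over `y = 0` are the orbits of the decomposition group on `G ⧸ H`.** -/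
theorem card_zeros_eq_card_orbits [IsAlgClosed K] [CharZero K]
    (hresM : ∀ (W : Place K M) (m : M), 0 ≤ W.ord m →
      ∃ a : K, (placeOrd W).Ge (m - algebraMap K M a) 1)
    (hresF : ∀ (w : Place K F) (f : F), 0 ≤ w.ord f →
      ∃ a : K, (placeOrd w).Ge (f - algebraMap K F a) 1)
    (y : F) (hGy : ∀ σ ∈ G, σ (algebraMap F M y) = algebraMap F M y)
    (PM : Finset (Place K M)) (hPM : ∀ W : Place K M, W ∈ PM ↔ 0 < W.ord (algebraMap F M y))
    (hsumM : ∑ W ∈ PM, W.ord (algebraMap F M y) = (Nat.card G : ℤ))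
    (PF : Finset (Place K F)) (hPF : ∀ w : Place K F, w ∈ PF ↔ 0 < w.ord y)
    (hsumF : ∑ w ∈ PF, w.ord y = (Nat.card (G ⧸ fixerOf F G) : ℤ))
    (W : Place K M) (hW : 0 < W.ord (algebraMap F M y)) :
    PF.card = Nat.card
      (MulAction.orbitRel.Quotient (MulAction.stabilizer G W) (G ⧸ fixerOf F G)) := by
  classical
  have : Fintype (G ⧸ fixerOf F G) := Fintype.ofFinite _
  have hy0 : algebraMap F M y ≠ 0 := by
    intro h0
    rw [h0] at hW
    simp at hW
  have hT0 : ∀ q : G ⧸ fixerOf F G, cosetEmb G q y = algebraMap F M y := by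
    intro q
    refine Quotient.inductionOn' q fun σ => ?_
    exact (cosetEmb_mk G σ y).trans (hGy σ σ.2)
  refine local_count_group (placeOrd W) (fun a _ => ord_algebraMap W a) hresF y PF hPF
    (by rw [hsumF, Nat.card_eq_fintype_card]) (cosetEmb G) (cosetEmb_injective G)
    (algebraMap F M y) hT0 hy0 hW (C := MulAction.stabilizer G W) ?_
    (card_stabilizer G hresM (algebraMap F M y) hGy PM hPM hsumM W hW) ?_
  · intro c q f _
    induction q using QuotientGroup.induction_on with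
    | H σ =>
      have e1 := cosetEmb_mk G ((c : G) * σ) f
      have e2 := cosetEmb_mk G σ f
      have h1 : cosetEmb G (c • (QuotientGroup.mk σ : G ⧸ fixerOf F G)) f
          = ((c : G) : M ≃ₐ[K] M) (cosetEmb G (QuotientGroup.mk σ : G ⧸ fixerOf F G) f) := by
        rw [e2]
        exact e1
      rw [h1]
      exact ord_apply_of_smul_eq W _ c.2 _
  · intro q f hf
    induction q using QuotientGroup.induction_on with
    | H σ =>
      refine card_dvd_ord_of_fixed W (hresM W)
        (C := MulAction.stabilizer (MulAction.stabilizer G W)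
          (QuotientGroup.mk σ : G ⧸ fixerOf F G))
        (G.subtype.comp ((MulAction.stabilizer G W).subtype.comp (Subgroup.subtype _)))
        ?_ ?_ _ ((map_ne_zero _).mpr hf) ?_
      · intro a b hab
        exact Subtype.ext (Subtype.ext (Subtype.ext hab))
      · intro c
        exact (c : MulAction.stabilizer G W).2
      · intro c
        have hc : (c : MulAction.stabilizer G W) • (QuotientGroup.mk σ : G ⧸ fixerOf F G)
            = QuotientGroup.mk σ := c.2
        have e1 := cosetEmb_mk G (((c : MulAction.stabilizer G W) : G) * σ) f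
        have e2 := cosetEmb_mk G σ f
        have h3 : cosetEmb G ((c : MulAction.stabilizer G W) •
            (QuotientGroup.mk σ : G ⧸ fixerOf F G)) f
            = cosetEmb G (QuotientGroup.mk σ : G ⧸ fixerOf F G) f :=
          congrArg (fun q => cosetEmb G q f) hc
        rw [e2] at h3 ⊢
        exact e1.symm.trans h3

/-- unramified criterion. -/
theorem ord_eq_one_of_exists [IsAlgClosed K] [CharZero K]
    (hresF : ∀ (w : Place K F) (f : F), 0 ≤ w.ord f →
      ∃ a : K, (placeOrd w).Ge (f - algebraMap K F a) 1)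
    (y : F) (hGy : ∀ σ ∈ G, σ (algebraMap F M y) = algebraMap F M y)
    (PF : Finset (Place K F)) (hPF : ∀ w : Place K F, w ∈ PF ↔ 0 < w.ord y)
    (hsumF : ∑ w ∈ PF, w.ord y = (Nat.card (G ⧸ fixerOf F G) : ℤ))
    (W : Place K M) (hW : W.ord (algebraMap F M y) = 1)
    (w : Place K F) (hw : 0 < w.ord y) : w.ord y = 1 := by
  classical
  have : Fintype (G ⧸ fixerOf F G) := Fintype.ofFinite _
  have hy0 : algebraMap F M y ≠ 0 := by
    intro h0
    rw [h0] at hW
    simp at hW
  have hyF : y ≠ 0 := by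
    rintro rfl
    simp at hw
  have hT0 : ∀ q : G ⧸ fixerOf F G, cosetEmb G q y = algebraMap F M y := by
    intro q
    refine Quotient.inductionOn' q fun σ => ?_
    exact (cosetEmb_mk G σ y).trans (hGy σ σ.2)
  obtain ⟨pl, hpl, hplP, hfib⟩ := fibre_card (placeOrd W) (fun a _ => ord_algebraMap W a)
    hresF y PF hPF (by rw [hsumF, Nat.card_eq_fintype_card]) (cosetEmb G)
    (cosetEmb_injective G) (algebraMap F M y) hT0 hy0 (by rw [placeOrd_ord, hW]; norm_num)
  have h1 := hfib w ((hPF w).mpr hw)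
  have hpos : 0 < ({x | pl x = w} : Set (G ⧸ fixerOf F G)).ncard := by
    have : (0 : ℤ) < (({x | pl x = w} : Set (G ⧸ fixerOf F G)).ncard : ℤ) := by omega
    exact_mod_cast this
  obtain ⟨x, hx⟩ := (Set.ncard_pos (Set.toFinite _)).mp hpos
  have hind := hpl x
  rw [hx] at hind
  obtain ⟨π, -, hπ0, hπ, -⟩ := exists_uniformizer w
  obtain ⟨hm, hord⟩ := hind.ord_eq hπ
  have h2 := hord y hyF
  rw [hT0 x, placeOrd_ord, hW] at h2
  have h3 : (placeOrd W).ord (cosetEmb G x π) = 1 := by
    rcases Int.eq_one_or_neg_one_of_mul_eq_one h2.symm with h | h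
    · exact h
    · omega
  rw [h3, one_mul] at h2
  exact h2.symm

end Tower

end Galois

end Fermat.Agent.Lib.PlaceGaloisFibre
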