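import Fermat.Agent.Lib.PlaceGaloisPlan
import Fermat.Agent.S24.PlaceBasic

/-!
# Backup of S24 package A5 (b), hypothesis-free (helper84)

The four statements of section A5 (b) of the S24 plan, exactly as stated there, obtained from
the fibre-lemma route (`Lib/PlaceEmbed`, `Lib/PlaceGaloisFibre`, `Lib/PlaceGaloisPlan`) and the
degree theorem of package A1 (`S24/PlaceBasic`: `zerosOf_finite`, `sum_ord_zerosOf`).
-/

set_option autoImplicit false
set_option linter.unusedSectionVars false

namespace Fermat.Agent.Lib.PlaceGaloisFinal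

open AlgebraicCurve IntermediateField Fermat.Agent.S24

variable {K F M : Type*} [Field K] [IsAlgClosed K] [CharZero K] [Field F] [Field M]
  [Algebra K F] [Algebra K M] [Algebra F M] [IsScalarTower K F M]
  (G : Subgroup (M ≃ₐ[K] M)) [Finite G] (y : F) (hy : Transcendental K y)
  (hG : ∀ m : M, (∀ σ ∈ G, σ m = m) ↔ m ∈ K⟮algebraMap F M y⟯)

include hy in
theorem transcendental_top : Transcendental K (algebraMap F M y) :=
  (transcendental_algebraMap_iff (algebraMap F M).injective).mpr hy

include hy hG

/-- `G` is transitive on the places of `M` over `y = 0`. -/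
theorem exists_smul_eq (W W' : Place K M) (hW : 0 < W.ord (algebraMap F M y))
    (hW' : 0 < W'.ord (algebraMap F M y)) : ∃ σ : G, σ • W = W' := by
  obtain ⟨-, hM, -⟩ := isFF1_of_fixed G y hy hG
  have hyM := transcendental_top (M := M) y hy
  exact Fermat.Agent.Lib.PlaceGaloisPlan.exists_smul_eq G y hy hG (zerosOf_finite hyM)
    (sum_ord_zerosOf hyM) W W' hW hW'

/-- decomposition group = ramification index (residue degree is `1`). -/
theorem card_stabilizer (W : Place K M) (hW : 0 < W.ord (algebraMap F M y)) :
    (Nat.card (MulAction.stabilizer G W) : ℤ) = W.ord (algebraMap F M y) := by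
  obtain ⟨-, hM, -⟩ := isFF1_of_fixed G y hy hG
  have hyM := transcendental_top (M := M) y hy
  exact Fermat.Agent.Lib.PlaceGaloisPlan.card_stabilizer G y hy hG (zerosOf_finite hyM)
    (sum_ord_zerosOf hyM) W hW

/-- the places of `F` over `y = 0` are the orbits of the decomposition group on `G ⧸ H`. -/
theorem card_zerosOf_eq_card_orbits (W : Place K M) (hW : 0 < W.ord (algebraMap F M y)) :
    Nat.card (zerosOf K y) =
      Nat.card (MulAction.orbitRel.Quotient (MulAction.stabilizer G W) (G ⧸ fixerOf F G)) := by
  obtain ⟨hF, hM, -⟩ := isFF1_of_fixed G y hy hG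
  have hyM := transcendental_top (M := M) y hy
  exact Fermat.Agent.Lib.PlaceGaloisPlan.card_zerosOf_eq_card_orbits G y hy hG
    (zerosOf_finite hyM) (sum_ord_zerosOf hyM) (zerosOf_finite hy) (sum_ord_zerosOf hy) W hW

/-- unramified criterion. -/
theorem ord_eq_one_of_exists (W : Place K M) (hW : W.ord (algebraMap F M y) = 1)
    (w : Place K F) (hw : 0 < w.ord y) : w.ord y = 1 := by
  obtain ⟨hF, -, -⟩ := isFF1_of_fixed G y hy hG
  exact Fermat.Agent.Lib.PlaceGaloisPlan.ord_eq_one_of_exists G y hy hG
    (zerosOf_finite hy) (sum_ord_zerosOf hy) W hW w hw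

end Fermat.Agent.Lib.PlaceGaloisFinal
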