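import Mathlib
import Fermat.Agent.Lib.FFSep.LSpace
import Fermat.Agent.S24.PlaceVal

set_option autoImplicit false

/-!
# Every place is "analytic": a Liouville principle for function fields

`F / K` a function field in helper2's setting (`K` algebraically closed, `x : F` transcendental,
`F / K(x)` finite separable).

* `exists_not_const_regular_away` : for every place `P` there is a non-constant function which
  is regular at every place `≠ P` (Riemann's theorem, `Lib/FFSep/LSpace`).
* `mem_of_forall_regular_const` : **Liouville principle** — a set `𝒜` of places such that every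
  function regular at all places of `𝒜` is constant contains every place.
* `exists_valuation_of_place` : the same for a family `V` of `ℤ`-valued valuations (e.g. the
  orders at the points of `ℍ` and at the cusps): if every `f` with `v f ≤ 1` for all `v ∈ V` is
  constant, then every place `P` is the place of some `v ∈ V`, and `v = e · ord_P`.
* `dvd_ord_of_root_family` : the "`c`-trick" — divisibility by `n` of `ord_P u` for `u = G ^ n`
  from such a valuation and a family of `(n c)`-th roots.
-/

noncomputable section

namespace Fermat.Agent.Lib.PlaceLiouville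

open AlgebraicCurve IntermediateField Fermat.Agent.Lib.FFSep
open scoped WithZero

section Liouville

variable {K F : Type*} [Field K] [Field F] [Algebra K F] {x : F}
variable [FiniteDimensional K⟮x⟯ F] [Algebra.IsSeparable K⟮x⟯ F] [IsAlgClosed K]

/-- For every place `P` some `L(m P)` contains a non-constant function. -/
theorem exists_not_const_mem_riemannRochSpace (hxt : Transcendental K x) (P : Place K F) :
    ∃ (m : ℕ) (f : F), f ∈ riemannRochSpace (Finsupp.single P (m : ℤ)) ∧
      f ∉ Set.range (algebraMap K F) := by
  obtain ⟨g, d₀, hg, -⟩ := exists_riemann (F := F) hxt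
  set m : ℕ := (g + 1).toNat with hm
  have hdeg : Divisor.degree (Finsupp.single P (m : ℤ)) = m := by
    rw [Divisor.degree_single, deg_eq_one x P, Nat.cast_one, mul_one]
  have h2 : (2 : ℤ) ≤ Module.finrank K (riemannRochSpace (Finsupp.single P (m : ℤ))) := by
    have h1 := hg (Finsupp.single P (m : ℤ))
    rw [hdeg] at h1
    have h3 := Int.self_le_toNat (g + 1)
    omega
  by_contra hcon
  simp only [not_exists, not_and, not_not] at hcon
  have hle : riemannRochSpace (Finsupp.single P (m : ℤ)) ≤ Submodule.span K {(1 : F)} := by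
    intro f hf
    obtain ⟨a, rfl⟩ := hcon m f hf
    rw [Algebra.algebraMap_eq_smul_one]
    exact Submodule.smul_mem _ _ (Submodule.subset_span rfl)
  have h1 : Module.finrank K (riemannRochSpace (Finsupp.single P (m : ℤ))) ≤ 1 := by
    calc Module.finrank K (riemannRochSpace (Finsupp.single P (m : ℤ)))
        ≤ Module.finrank K (Submodule.span K {(1 : F)}) := Submodule.finrank_mono hle
      _ = 1 := finrank_span_singleton one_ne_zero
  omega

/-- For every place `P` there is a non-constant function regular at every place `≠ P`. -/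
theorem exists_not_const_regular_away (hxt : Transcendental K x) (P : Place K F) :
    ∃ f : F, f ∉ Set.range (algebraMap K F) ∧
      ∀ Q : Place K F, Q ≠ P → f ∈ Q.toValuationSubring := by
  obtain ⟨m, f, hf, hfc⟩ := exists_not_const_mem_riemannRochSpace hxt P
  refine ⟨f, hfc, fun Q hQ => ?_⟩
  have hf0 : f ≠ 0 := by
    rintro rfl
    exact hfc ⟨0, map_zero _⟩
  rw [mem_riemannRochSpace_iff] at hf
  have h := (hf Q).resolve_left hf0
  rw [Finsupp.single_eq_of_ne hQ, neg_zero] at h
  exact (FFPlaces.mem_iff_ord_nonneg Q hf0).mpr h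

/-- **Liouville principle.**  If every function which is regular at all places of `𝒜` is
constant, then `𝒜` contains every place. -/
theorem mem_of_forall_regular_const (hxt : Transcendental K x) (𝒜 : Set (Place K F))
    (h : ∀ f : F, (∀ Q ∈ 𝒜, f ∈ Q.toValuationSubring) → f ∈ Set.range (algebraMap K F))
    (P : Place K F) : P ∈ 𝒜 := by
  by_contra hP
  obtain ⟨f, hfc, hf⟩ := exists_not_const_regular_away hxt P
  exact hfc (h f fun Q hQ => hf Q fun e => hP (e ▸ hQ))

/-- **Every place is analytic.**  Let `V` be a family of nontrivial `ℤ`-valued valuations of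
`F`, trivial on `K`, such that every `f` with `v f ≤ 1` for all `v ∈ V` is constant.  Then every
place `P` is the place of some `v ∈ V`, and `v` is a positive multiple of `ord_P`. -/
theorem exists_valuation_of_place (hxt : Transcendental K x) (V : Set (Valuation F ℤᵐ⁰))
    (hK : ∀ v ∈ V, ∀ a : K, a ≠ 0 → v (algebraMap K F a) = 1)
    (hnt : ∀ v ∈ V, ∃ m : F, m ≠ 0 ∧ v m ≠ 1)
    (hconst : ∀ f : F, (∀ v ∈ V, v f ≤ 1) → f ∈ Set.range (algebraMap K F))
    (P : Place K F) :
    ∃ v ∈ V, P.toValuationSubring = v.valuationSubring ∧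
      ∃ e : ℕ, 0 < e ∧ ∀ f : F, f ≠ 0 → -(WithZero.log (v f)) = e * P.ord f := by
  have hP : P ∈ {Q : Place K F | ∃ v ∈ V, Q.toValuationSubring = v.valuationSubring} := by
    refine mem_of_forall_regular_const hxt _ (fun f hf => hconst f fun v hv => ?_) P
    obtain ⟨W, hW, -⟩ := Fermat.Agent.S24.exists_place_of_valuation (K := K) v (hK v hv) (hnt v hv)
    have h1 : f ∈ W.toValuationSubring := hf W ⟨v, hv, hW⟩
    rw [hW] at h1
    exact h1
  obtain ⟨v, hv, hPv⟩ := hP
  exact ⟨v, hv, hPv, Fermat.Agent.S24.PlaceVal.exists_mul_ord P v hPv⟩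

end Liouville

section CTrick

variable {K F M : Type*} [Field K] [Field F] [Algebra K F] [Field M]

/-- **The `c`-trick.**  Let `r : F → M` be a field embedding, `P` a place of `F`, and
`w : M → ℤ` a function with `w (r f) = c · ord_P f` on `F^×` (`c > 0`).  If `u' = u · g ^ n` in
`F` and `r u' = G' ^ (n c)` for some `G' : M` with `w (G' ^ (n c)) = n c · w G'`, then
`n ∣ ord_P u`.  (Application: `r u = G ^ n`, `G' ^ c / G = r g` invariant, `w` an analytic
valuation.) -/
theorem dvd_ord_of_root_family (r : F →+* M) (P : Place K F) (w : M → ℤ) (c : ℕ) (hc : 0 < c)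
    (hw : ∀ f : F, f ≠ 0 → w (r f) = c * P.ord f) (n : ℕ) {u u' g : F} (hu : u ≠ 0)
    (hg : g ≠ 0) (huu' : u' = u * g ^ n) (G' : M) (hG' : G' ^ (n * c) = r u')
    (hpow : w (G' ^ (n * c)) = (n * c : ℕ) * w G') : (n : ℤ) ∣ P.ord u := by
  have hu' : u' ≠ 0 := by
    rw [huu']
    exact mul_ne_zero hu (pow_ne_zero _ hg)
  have h1 : (c : ℤ) * P.ord u' = (n * c : ℕ) * w G' := by
    rw [← hw u' hu', ← hG', hpow]
  have h2 : P.ord u' = n * w G' := by
    have hc' : (c : ℤ) ≠ 0 := by exact_mod_cast hc.ne'
    apply mul_left_cancel₀ hc'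
    rw [h1]
    push_cast
    ring
  have h3 : P.ord u' = P.ord u + n * P.ord g := by
    rw [huu', P.ord_mul hu (pow_ne_zero _ hg), ← zpow_natCast, P.ord_zpow]
  exact ⟨w G' - P.ord g, by linarith⟩

end CTrick

end Fermat.Agent.Lib.PlaceLiouville
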