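import Mathlib
import Fermat.Prelude.Def_FLTPrelim_Ramification

/-!
# Valuations of rational numbers at a place of `ℚ̄` over `2`

Normalisation-free facts about a valuation subring `A` of `AlgebraicClosure ℚ` lying over the
prime `2` (Prelude `ValuationSubring.LiesOverPrime`), used by the `2`-adic analysis of S13:

* `val_two_pos_lt`     : `0 < v 2 < 1`;
* `val_natCast_odd`    : odd integers are units;
* `val_rat_eq_zpow`    : the valuation of a non-zero rational is an integer power of `v 2`;
* `val_rat_sub_one_lt` : a rational unit is `≡ 1` modulo the maximal ideal;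
* `exists_rat_of_fixed`: a Galois-fixed element of `ℚ̄` is rational.
-/

set_option autoImplicit false

namespace Fermat.Agent.Lib.PlaceTwo

/-- `0 < v 2 < 1` at a place over `2`. -/
theorem val_two_pos_lt (A : ValuationSubring (AlgebraicClosure ℚ)) (hA : A.LiesOverPrime 2) :
    0 < A.valuation (2 : AlgebraicClosure ℚ) ∧ A.valuation (2 : AlgebraicClosure ℚ) < 1 := by
  have h2 : (2 : AlgebraicClosure ℚ) ∈ A.nonunits := by
    have h : ((2 : ℕ) : AlgebraicClosure ℚ) ∈ A.nonunits := hA
    simpa using h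
  refine ⟨?_, (A.mem_nonunits_iff).mp h2⟩
  rw [zero_lt_iff, Valuation.ne_zero_iff]
  exact two_ne_zero

/-- Natural numbers have valuation `≤ 1`. -/
theorem val_natCast_le_one (A : ValuationSubring (AlgebraicClosure ℚ)) (n : ℕ) :
    A.valuation (n : AlgebraicClosure ℚ) ≤ 1 :=
  (A.valuation_le_one_iff _).mpr (natCast_mem A n)

/-- Even natural numbers are non-units at a place over `2`. -/
theorem val_natCast_even_lt (A : ValuationSubring (AlgebraicClosure ℚ)) (hA : A.LiesOverPrime 2)
    (m : ℕ) : A.valuation ((2 * m : ℕ) : AlgebraicClosure ℚ) < 1 := by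
  rw [Nat.cast_mul, Nat.cast_ofNat, map_mul]
  calc A.valuation (2 : AlgebraicClosure ℚ) * A.valuation (m : AlgebraicClosure ℚ)
      ≤ A.valuation (2 : AlgebraicClosure ℚ) * 1 := mul_le_mul_right (val_natCast_le_one A m) _
    _ = A.valuation (2 : AlgebraicClosure ℚ) := mul_one _
    _ < 1 := (val_two_pos_lt A hA).2

/-- Odd natural numbers are units at a place over `2`. -/
theorem val_natCast_odd (A : ValuationSubring (AlgebraicClosure ℚ)) (hA : A.LiesOverPrime 2)
    (n : ℕ) (hn : Odd n) : A.valuation (n : AlgebraicClosure ℚ) = 1 := by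
  obtain ⟨m, rfl⟩ := hn
  refine le_antisymm (val_natCast_le_one A _) ?_
  by_contra hlt
  rw [not_le] at hlt
  have h1 : A.valuation (1 : AlgebraicClosure ℚ) < 1 := by
    have e : (1 : AlgebraicClosure ℚ) =
        ((2 * m + 1 : ℕ) : AlgebraicClosure ℚ) - ((2 * m : ℕ) : AlgebraicClosure ℚ) := by
      push_cast; ring
    rw [e]
    exact lt_of_le_of_lt (Valuation.map_sub _ _ _) (max_lt hlt (val_natCast_even_lt A hA m))
  rw [map_one] at h1
  exact lt_irrefl _ h1

/-- The valuation of a non-zero natural number is a power of `v 2`. -/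
theorem val_natCast_eq_pow (A : ValuationSubring (AlgebraicClosure ℚ)) (hA : A.LiesOverPrime 2)
    (n : ℕ) (hn : n ≠ 0) :
    ∃ k : ℕ, A.valuation (n : AlgebraicClosure ℚ) = A.valuation (2 : AlgebraicClosure ℚ) ^ k := by
  obtain ⟨k, m, hm, rfl⟩ := Nat.exists_eq_two_pow_mul_odd hn
  refine ⟨k, ?_⟩
  rw [Nat.cast_mul, Nat.cast_pow, Nat.cast_ofNat, map_mul, map_pow, val_natCast_odd A hA m hm,
    mul_one]

/-- The valuation of a non-zero integer is a power of `v 2`. -/
theorem val_intCast_eq_pow (A : ValuationSubring (AlgebraicClosure ℚ)) (hA : A.LiesOverPrime 2)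
    (n : ℤ) (hn : n ≠ 0) :
    ∃ k : ℕ, A.valuation (n : AlgebraicClosure ℚ) = A.valuation (2 : AlgebraicClosure ℚ) ^ k := by
  obtain ⟨k, hk⟩ := val_natCast_eq_pow A hA n.natAbs (Int.natAbs_ne_zero.mpr hn)
  refine ⟨k, ?_⟩
  rw [← hk]
  rcases Int.natAbs_eq n with h | h
  · conv_lhs => rw [h]
    simp
  · conv_lhs => rw [h]
    simp

/-- `algebraMap ℚ ℚ̄ q = num / den`. -/
theorem algebraMap_rat_eq (q : ℚ) :
    algebraMap ℚ (AlgebraicClosure ℚ) q =
      (q.num : AlgebraicClosure ℚ) / (q.den : AlgebraicClosure ℚ) := by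
  rw [eq_ratCast, Rat.cast_def]

/-- **(R1)** The valuation of a non-zero rational number at a place over `2` is an integer power
of `v 2`. -/
theorem val_rat_eq_zpow (A : ValuationSubring (AlgebraicClosure ℚ)) (hA : A.LiesOverPrime 2)
    (q : ℚ) (hq : q ≠ 0) :
    ∃ j : ℤ, A.valuation (algebraMap ℚ (AlgebraicClosure ℚ) q) =
      A.valuation (2 : AlgebraicClosure ℚ) ^ j := by
  obtain ⟨a, ha⟩ := val_intCast_eq_pow A hA q.num (Rat.num_ne_zero.mpr hq)
  obtain ⟨b, hb⟩ := val_natCast_eq_pow A hA q.den q.den_nz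
  refine ⟨(a : ℤ) - (b : ℤ), ?_⟩
  have h2 : A.valuation (2 : AlgebraicClosure ℚ) ≠ 0 := (val_two_pos_lt A hA).1.ne'
  rw [algebraMap_rat_eq, map_div₀, ha, hb, zpow_sub₀ h2, zpow_natCast, zpow_natCast]

/-- **(R2)** A rational number which is a unit at a place over `2` is congruent to `1` modulo the
maximal ideal. -/
theorem val_rat_sub_one_lt (A : ValuationSubring (AlgebraicClosure ℚ)) (hA : A.LiesOverPrime 2)
    (q : ℚ) (h : A.valuation (algebraMap ℚ (AlgebraicClosure ℚ) q) = 1) :
    A.valuation (algebraMap ℚ (AlgebraicClosure ℚ) q - 1) < 1 := by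
  have hden0 : (q.den : AlgebraicClosure ℚ) ≠ 0 := Nat.cast_ne_zero.mpr q.den_nz
  have hvden0 : A.valuation (q.den : AlgebraicClosure ℚ) ≠ 0 :=
    (Valuation.ne_zero_iff _).mpr hden0
  -- `v num = v den`
  have hnd : A.valuation (q.num : AlgebraicClosure ℚ) = A.valuation (q.den : AlgebraicClosure ℚ) := by
    rw [algebraMap_rat_eq, map_div₀, div_eq_one_iff_eq hvden0] at h
    exact h
  have hnum_abs : A.valuation (q.num : AlgebraicClosure ℚ) =
      A.valuation (q.num.natAbs : AlgebraicClosure ℚ) := by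
    rcases Int.natAbs_eq q.num with h' | h'
    · conv_lhs => rw [h']
      simp
    · conv_lhs => rw [h']
      simp
  -- numerator and denominator are both odd
  have hcop : Nat.Coprime q.num.natAbs q.den := q.reduced
  have hodd : Odd q.num.natAbs ∧ Odd q.den := by
    rcases Nat.even_or_odd q.num.natAbs with hn | hn
    · rcases Nat.even_or_odd q.den with hd | hd
      · exfalso
        have h2 : 2 ∣ Nat.gcd q.num.natAbs q.den :=
          Nat.dvd_gcd (even_iff_two_dvd.mp hn) (even_iff_two_dvd.mp hd)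
        rw [Nat.Coprime] at hcop
        rw [hcop] at h2
        exact absurd h2 (by decide)
      · exfalso
        obtain ⟨m, hm⟩ := hn
        have h1 : A.valuation (q.num.natAbs : AlgebraicClosure ℚ) < 1 := by
          have := val_natCast_even_lt A hA m
          rwa [show 2 * m = q.num.natAbs by omega] at this
        rw [← hnum_abs, hnd, val_natCast_odd A hA _ hd] at h1
        exact lt_irrefl _ h1
    · rcases Nat.even_or_odd q.den with hd | hd
      · exfalso
        obtain ⟨m, hm⟩ := hd
        have h1 : A.valuation (q.den : AlgebraicClosure ℚ) < 1 := by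
          have := val_natCast_even_lt A hA m
          rwa [show 2 * m = q.den by omega] at this
        rw [← hnd, hnum_abs, val_natCast_odd A hA _ hn] at h1
        exact lt_irrefl _ h1
      · exact ⟨hn, hd⟩
  have hvden : A.valuation (q.den : AlgebraicClosure ℚ) = 1 := val_natCast_odd A hA _ hodd.2
  -- `num - den` is even
  have heven : Even (q.num - (q.den : ℤ)) := by
    have h1 : Odd q.num := Int.natAbs_odd.mp hodd.1
    have h2 : Odd (q.den : ℤ) := (Int.odd_coe_nat q.den).mpr hodd.2
    exact h1.sub_odd h2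
  obtain ⟨m, hm⟩ := heven
  have hdiff : A.valuation ((q.num : AlgebraicClosure ℚ) - (q.den : AlgebraicClosure ℚ)) < 1 := by
    have e : (q.num : AlgebraicClosure ℚ) - (q.den : AlgebraicClosure ℚ) =
        2 * (m : AlgebraicClosure ℚ) := by
      have := congrArg (fun z : ℤ => (z : AlgebraicClosure ℚ)) hm
      simp only [Int.cast_sub, Int.cast_natCast, Int.cast_add] at this
      rw [this]; ring
    rw [e, map_mul]
    have hm1 : A.valuation (m : AlgebraicClosure ℚ) ≤ 1 :=
      (A.valuation_le_one_iff _).mpr (intCast_mem A m)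
    calc A.valuation (2 : AlgebraicClosure ℚ) * A.valuation (m : AlgebraicClosure ℚ)
        ≤ A.valuation (2 : AlgebraicClosure ℚ) * 1 := mul_le_mul_right hm1 _
      _ = A.valuation (2 : AlgebraicClosure ℚ) := mul_one _
      _ < 1 := (val_two_pos_lt A hA).2
  have e2 : algebraMap ℚ (AlgebraicClosure ℚ) q - 1 =
      ((q.num : AlgebraicClosure ℚ) - (q.den : AlgebraicClosure ℚ)) /
        (q.den : AlgebraicClosure ℚ) := by
    rw [algebraMap_rat_eq]
    field_simp
  rw [e2, map_div₀, hvden, div_one]
  exact hdiff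

/-- `AlgebraicClosure ℚ` is Galois over `ℚ` (for the `ℚ`-algebra instance found by instance
search). -/
theorem isGalois_rat : IsGalois ℚ (AlgebraicClosure ℚ) := by
  have h : (DivisionRing.toRatAlgebra : Algebra ℚ (AlgebraicClosure ℚ)) =
      AlgebraicClosure.instAlgebra ℚ := Subsingleton.elim _ _
  rw [h]
  infer_instance

/-- **(R3)** An element of `ℚ̄` fixed by the whole Galois group is rational. -/
theorem exists_rat_of_fixed (x : AlgebraicClosure ℚ)
    (h : ∀ σ : AlgebraicClosure ℚ ≃ₐ[ℚ] AlgebraicClosure ℚ, σ x = x) :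
    ∃ q : ℚ, x = algebraMap ℚ (AlgebraicClosure ℚ) q := by
  have := isGalois_rat
  obtain ⟨q, hq⟩ :=
    (InfiniteGalois.mem_range_algebraMap_iff_fixed (k := ℚ) (K := AlgebraicClosure ℚ) x).mpr h
  exact ⟨q, hq.symm⟩

end Fermat.Agent.Lib.PlaceTwo
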