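import Mathlib

/-!
# Polynomial identities by kernel reflection on coefficient lists

Dense univariate (`List ℤ`) and bivariate (`List (List ℤ)`, outer variable `s`, inner variable
`c`) integer polynomials with their ring operations as structurally recursive list programs,
their evaluation in an arbitrary commutative ring, and the homomorphism lemmas. A polynomial
identity `ev2 p c s = ev2 q c s` then follows from `isZero2 (sub2 p q) = true`, which the kernel
checks by evaluation (`by decide +kernel`).

Also: sparse trivariate polynomials (`List (ℤ × ℕ × ℕ × ℕ)`, monomials `z * a^i * b^j * s^k`) and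
the substitution of univariate polynomials in `c` for `a` and `b`.
-/

set_option autoImplicit false

namespace Fermat.Agent.Lib.PolyRefl

variable {R : Type*} [CommRing R]

/-! ### univariate -/

/-- evaluation (Horner) of a coefficient list, lowest degree first. -/
def ev1 : List ℤ → R → R
  | [], _ => 0
  | a :: p, c => (a : R) + c * ev1 p c

/-- addition of coefficient lists. -/
def add1 : List ℤ → List ℤ → List ℤ
  | [], q => q
  | a :: p, [] => a :: p
  | a :: p, b :: q => (a + b) :: add1 p q

/-- multiplication by an integer. -/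
def smul1 (z : ℤ) : List ℤ → List ℤ
  | [] => []
  | b :: q => (z * b) :: smul1 z q

/-- multiplication of coefficient lists. -/
def mul1 : List ℤ → List ℤ → List ℤ
  | [], _ => []
  | a :: p, q => add1 (smul1 a q) (0 :: mul1 p q)

/-- powers. -/
def pow1 (p : List ℤ) : ℕ → List ℤ
  | 0 => [1]
  | n + 1 => mul1 p (pow1 p n)

/-- all coefficients vanish. -/
def isZero1 : List ℤ → Bool
  | [] => true
  | a :: p => decide (a = 0) && isZero1 p

@[simp] theorem ev1_nil (c : R) : ev1 [] c = 0 := rfl

@[simp] theorem ev1_cons (a : ℤ) (p : List ℤ) (c : R) : ev1 (a :: p) c = (a : R) + c * ev1 p c :=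
  rfl

theorem ev1_add1 (p q : List ℤ) (c : R) : ev1 (add1 p q) c = ev1 p c + ev1 q c := by
  induction p generalizing q with
  | nil => simp [add1]
  | cons a p ih =>
    cases q with
    | nil => simp [add1]
    | cons b q =>
      simp only [add1, ev1_cons, ih, Int.cast_add]
      ring

theorem ev1_smul1 (z : ℤ) (q : List ℤ) (c : R) : ev1 (smul1 z q) c = (z : R) * ev1 q c := by
  induction q with
  | nil => simp [smul1]
  | cons b q ih =>
    simp only [smul1, ev1_cons, ih, Int.cast_mul]
    ring

theorem ev1_mul1 (p q : List ℤ) (c : R) : ev1 (mul1 p q) c = ev1 p c * ev1 q c := by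
  induction p with
  | nil => simp [mul1]
  | cons a p ih =>
    simp only [mul1, ev1_add1, ev1_smul1, ev1_cons, ih, Int.cast_zero]
    ring

theorem ev1_pow1 (p : List ℤ) (n : ℕ) (c : R) : ev1 (pow1 p n) c = ev1 p c ^ n := by
  induction n with
  | zero => simp [pow1]
  | succ n ih => simp only [pow1, ev1_mul1, ih]; ring

theorem ev1_of_isZero1 {p : List ℤ} (h : isZero1 p = true) (c : R) : ev1 p c = 0 := by
  induction p with
  | nil => rfl
  | cons a p ih =>
    simp only [isZero1, Bool.and_eq_true, decide_eq_true_eq] at h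
    simp [h.1, ih h.2]

/-! ### bivariate -/

/-- evaluation of a list of coefficient lists: `Σ_k (ev1 p_k c) s^k`. -/
def ev2 : List (List ℤ) → R → R → R
  | [], _, _ => 0
  | a :: p, c, s => ev1 a c + s * ev2 p c s

/-- addition. -/
def add2 : List (List ℤ) → List (List ℤ) → List (List ℤ)
  | [], q => q
  | a :: p, [] => a :: p
  | a :: p, b :: q => add1 a b :: add2 p q

/-- multiplication by a univariate polynomial. -/
def smul2 (a : List ℤ) : List (List ℤ) → List (List ℤ)
  | [] => []
  | b :: q => mul1 a b :: smul2 a q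

/-- multiplication by an integer. -/
def zsmul2 (z : ℤ) : List (List ℤ) → List (List ℤ)
  | [] => []
  | b :: q => smul1 z b :: zsmul2 z q

/-- multiplication. -/
def mul2 : List (List ℤ) → List (List ℤ) → List (List ℤ)
  | [], _ => []
  | a :: p, q => add2 (smul2 a q) ([] :: mul2 p q)

/-- powers. -/
def pow2 (p : List (List ℤ)) : ℕ → List (List ℤ)
  | 0 => [[1]]
  | n + 1 => mul2 p (pow2 p n)

/-- subtraction. -/
def sub2 (p q : List (List ℤ)) : List (List ℤ) := add2 p (zsmul2 (-1) q)

/-- the monomial `u(c) * s^k`. -/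
def monoS : ℕ → List ℤ → List (List ℤ)
  | 0, u => [u]
  | k + 1, u => [] :: monoS k u

/-- all coefficients vanish. -/
def isZero2 : List (List ℤ) → Bool
  | [] => true
  | a :: p => isZero1 a && isZero2 p

@[simp] theorem ev2_nil (c s : R) : ev2 [] c s = 0 := rfl

@[simp] theorem ev2_cons (a : List ℤ) (p : List (List ℤ)) (c s : R) :
    ev2 (a :: p) c s = ev1 a c + s * ev2 p c s := rfl

theorem ev2_add2 (p q : List (List ℤ)) (c s : R) : ev2 (add2 p q) c s = ev2 p c s + ev2 q c s := by
  induction p generalizing q with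
  | nil => simp [add2]
  | cons a p ih =>
    cases q with
    | nil => simp [add2]
    | cons b q =>
      simp only [add2, ev2_cons, ih, ev1_add1]
      ring

theorem ev2_smul2 (a : List ℤ) (q : List (List ℤ)) (c s : R) :
    ev2 (smul2 a q) c s = ev1 a c * ev2 q c s := by
  induction q with
  | nil => simp [smul2]
  | cons b q ih =>
    simp only [smul2, ev2_cons, ih, ev1_mul1]
    ring

theorem ev2_zsmul2 (z : ℤ) (q : List (List ℤ)) (c s : R) :
    ev2 (zsmul2 z q) c s = (z : R) * ev2 q c s := by
  induction q with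
  | nil => simp [zsmul2]
  | cons b q ih =>
    simp only [zsmul2, ev2_cons, ih, ev1_smul1]
    ring

theorem ev2_mul2 (p q : List (List ℤ)) (c s : R) : ev2 (mul2 p q) c s = ev2 p c s * ev2 q c s := by
  induction p with
  | nil => simp [mul2]
  | cons a p ih =>
    simp only [mul2, ev2_add2, ev2_smul2, ev2_cons, ih, ev1_nil]
    ring

theorem ev2_pow2 (p : List (List ℤ)) (n : ℕ) (c s : R) : ev2 (pow2 p n) c s = ev2 p c s ^ n := by
  induction n with
  | zero => simp [pow2]
  | succ n ih => simp only [pow2, ev2_mul2, ih]; ring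

theorem ev2_sub2 (p q : List (List ℤ)) (c s : R) : ev2 (sub2 p q) c s = ev2 p c s - ev2 q c s := by
  simp only [sub2, ev2_add2, ev2_zsmul2]
  push_cast
  ring

theorem ev2_monoS (k : ℕ) (u : List ℤ) (c s : R) : ev2 (monoS k u) c s = ev1 u c * s ^ k := by
  induction k with
  | zero => simp [monoS]
  | succ k ih => simp only [monoS, ev2_cons, ih, ev1_nil]; ring

theorem ev2_of_isZero2 {p : List (List ℤ)} (h : isZero2 p = true) (c s : R) : ev2 p c s = 0 := by
  induction p with
  | nil => rfl
  | cons a p ih =>
    simp only [isZero2, Bool.and_eq_true] at h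
    simp [ev1_of_isZero1 h.1, ih h.2]

/-- **The reflection principle**: two coefficient tables with vanishing difference evaluate to
the same element of any commutative ring. -/
theorem ev2_eq_of_isZero2 {p q : List (List ℤ)} (h : isZero2 (sub2 p q) = true) (c s : R) :
    ev2 p c s = ev2 q c s := by
  have := ev2_of_isZero2 h c s
  rw [ev2_sub2] at this
  exact sub_eq_zero.mp this

/-! ### sparse trivariate -/

/-- evaluation of a list of monomials `z * a^i * b^j * s^k`. -/
def ev3 : List (ℤ × ℕ × ℕ × ℕ) → R → R → R → R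
  | [], _, _, _ => 0
  | (z, i, j, k) :: d, a, b, s => (z : R) * a ^ i * b ^ j * s ^ k + ev3 d a b s

/-- substitute univariate polynomials `p(c)`, `q(c)` for `a`, `b`. -/
def subst3 : List (ℤ × ℕ × ℕ × ℕ) → List ℤ → List ℤ → List (List ℤ)
  | [], _, _ => []
  | (z, i, j, k) :: d, p, q =>
    add2 (monoS k (smul1 z (mul1 (pow1 p i) (pow1 q j)))) (subst3 d p q)

@[simp] theorem ev3_nil (a b s : R) : ev3 [] a b s = 0 := rfl

@[simp] theorem ev3_cons (z : ℤ) (i j k : ℕ) (d : List (ℤ × ℕ × ℕ × ℕ)) (a b s : R) :
    ev3 ((z, i, j, k) :: d) a b s = (z : R) * a ^ i * b ^ j * s ^ k + ev3 d a b s := rfl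

theorem ev2_subst3 (d : List (ℤ × ℕ × ℕ × ℕ)) (p q : List ℤ) (c s : R) :
    ev2 (subst3 d p q) c s = ev3 d (ev1 p c) (ev1 q c) s := by
  induction d with
  | nil => rfl
  | cons m d ih =>
    obtain ⟨z, i, j, k⟩ := m
    simp only [subst3, ev2_add2, ev2_monoS, ev1_smul1, ev1_mul1, ev1_pow1, ih, ev3_cons]
    ring

/-- naturality of `ev1` under ring homomorphisms. -/
theorem map_ev1 {S : Type*} [CommRing S] (φ : R →+* S) (p : List ℤ) (c : R) :
    φ (ev1 p c) = ev1 p (φ c) := by
  induction p with
  | nil => simp
  | cons a p ih => simp [ih]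

/-- naturality of `ev2` under ring homomorphisms. -/
theorem map_ev2 {S : Type*} [CommRing S] (φ : R →+* S) (p : List (List ℤ)) (c s : R) :
    φ (ev2 p c s) = ev2 p (φ c) (φ s) := by
  induction p with
  | nil => simp
  | cons a p ih => simp [ih, map_ev1]

/-- naturality of `ev3` under ring homomorphisms. -/
theorem map_ev3 {S : Type*} [CommRing S] (φ : R →+* S) (d : List (ℤ × ℕ × ℕ × ℕ)) (a b s : R) :
    φ (ev3 d a b s) = ev3 d (φ a) (φ b) (φ s) := by
  induction d with
  | nil => simp
  | cons m d ih =>
    obtain ⟨z, i, j, k⟩ := m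
    simp [ih]

end Fermat.Agent.Lib.PolyRefl
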