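import Mathlib
import Fermat.Prelude.Def_Algebra_PatchingDatum

set_option autoImplicit false

namespace Fermat.Agent.Lib.PowerSeriesRegular

open IsLocalRing RingTheory.Sequence Pointwise

section DropZero

variable (𝒪 : Type*) [CommRing 𝒪]

/-- The surjection `𝒪[[X₀..Xₙ]] → 𝒪[[X₀..Xₙ₋₁]]` killing `X 0`. -/
noncomputable def dropZero (n : ℕ) :
    MvPowerSeries (Fin (n + 1)) 𝒪 →+* MvPowerSeries (Fin n) 𝒪 :=
  (PowerSeries.constantCoeff (R := MvPowerSeries (Fin n) 𝒪)).comp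
    (MvPowerSeries.finSuccEquiv 𝒪 n).toRingEquiv.toRingHom

variable {𝒪}

lemma dropZero_apply (n : ℕ) (f : MvPowerSeries (Fin (n + 1)) 𝒪) :
    dropZero 𝒪 n f = PowerSeries.constantCoeff (MvPowerSeries.finSuccEquiv 𝒪 n f) := rfl

@[simp] lemma dropZero_X_zero (n : ℕ) : dropZero 𝒪 n (MvPowerSeries.X 0) = 0 := by
  simp [dropZero_apply]

@[simp] lemma dropZero_X_succ (n : ℕ) (j : Fin n) :
    dropZero 𝒪 n (MvPowerSeries.X j.succ) = MvPowerSeries.X j := by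
  simp [dropZero_apply]

@[simp] lemma dropZero_C (n : ℕ) (a : 𝒪) :
    dropZero 𝒪 n (MvPowerSeries.C a) = MvPowerSeries.C a := by
  simp [dropZero_apply]

lemma dropZero_surjective (n : ℕ) : Function.Surjective (dropZero 𝒪 n) := by
  intro g
  refine ⟨(MvPowerSeries.finSuccEquiv 𝒪 n).symm (PowerSeries.C g), ?_⟩
  simp [dropZero_apply]

lemma dropZero_eq_zero_iff (n : ℕ) (f : MvPowerSeries (Fin (n + 1)) 𝒪) :
    dropZero 𝒪 n f = 0 ↔ ∃ g, f = MvPowerSeries.X 0 * g := by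
  rw [dropZero_apply, ← PowerSeries.X_dvd_iff]
  constructor
  · rintro ⟨g, hg⟩
    refine ⟨(MvPowerSeries.finSuccEquiv 𝒪 n).symm g, ?_⟩
    apply (MvPowerSeries.finSuccEquiv 𝒪 n).injective
    simp [hg]
  · rintro ⟨g, rfl⟩
    exact ⟨MvPowerSeries.finSuccEquiv 𝒪 n g, by simp⟩

lemma smul_top_eq_ker (n : ℕ) :
    ((MvPowerSeries.X (0 : Fin (n + 1)) : MvPowerSeries (Fin (n + 1)) 𝒪) •
      (⊤ : Submodule (MvPowerSeries (Fin (n + 1)) 𝒪) (MvPowerSeries (Fin (n + 1)) 𝒪)))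
      = LinearMap.ker (dropZero 𝒪 n).toSemilinearMap := by
  ext f
  rw [Submodule.mem_smul_pointwise_iff_exists, LinearMap.mem_ker]
  change _ ↔ dropZero 𝒪 n f = 0
  rw [dropZero_eq_zero_iff]
  constructor
  · rintro ⟨g, -, rfl⟩
    exact ⟨g, rfl⟩
  · rintro ⟨g, rfl⟩
    exact ⟨g, Submodule.mem_top, rfl⟩

/-- The semilinear map `𝒪[[X₀..Xₙ]] / X₀ → 𝒪[[X₀..Xₙ₋₁]]`. -/
noncomputable def quotMap (n : ℕ) :
    QuotSMulTop (MvPowerSeries.X (0 : Fin (n + 1)) : MvPowerSeries (Fin (n + 1)) 𝒪)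
      (MvPowerSeries (Fin (n + 1)) 𝒪) →ₛₗ[dropZero 𝒪 n] MvPowerSeries (Fin n) 𝒪 :=
  Submodule.liftQ _ (dropZero 𝒪 n).toSemilinearMap (smul_top_eq_ker n).le

lemma quotMap_mk (n : ℕ) (f : MvPowerSeries (Fin (n + 1)) 𝒪) :
    quotMap n (Submodule.Quotient.mk f) = dropZero 𝒪 n f := rfl

lemma quotMap_bijective (n : ℕ) : Function.Bijective (quotMap (𝒪 := 𝒪) n) := by
  constructor
  · rw [← LinearMap.ker_eq_bot]
    exact Submodule.ker_liftQ_eq_bot _ _ _ (smul_top_eq_ker n).ge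
  · intro g
    obtain ⟨f, rfl⟩ := dropZero_surjective n g
    exact ⟨Submodule.Quotient.mk f, rfl⟩

/-- `𝒪[[X₀..Xₙ]] / X₀ ≃+ 𝒪[[X₀..Xₙ₋₁]]`. -/
noncomputable def quotEquiv (n : ℕ) :
    QuotSMulTop (MvPowerSeries.X (0 : Fin (n + 1)) : MvPowerSeries (Fin (n + 1)) 𝒪)
      (MvPowerSeries (Fin (n + 1)) 𝒪) ≃+ MvPowerSeries (Fin n) 𝒪 :=
  AddEquiv.ofBijective (quotMap n).toAddMonoidHom (quotMap_bijective n)

lemma quotEquiv_smul (n : ℕ) (a : MvPowerSeries (Fin (n + 1)) 𝒪)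
    (x : QuotSMulTop (MvPowerSeries.X (0 : Fin (n + 1)) : MvPowerSeries (Fin (n + 1)) 𝒪)
      (MvPowerSeries (Fin (n + 1)) 𝒪)) :
    quotEquiv n (a • x) = dropZero 𝒪 n a • quotEquiv n x :=
  (quotMap n).map_smulₛₗ a x


end DropZero

section Regular

variable {𝒪 : Type*} [CommRing 𝒪]

/-- The list `[X 0, ..., X (r-1), C ϖ]`. -/
noncomputable def xs (r : ℕ) (ϖ : 𝒪) : List (MvPowerSeries (Fin r) 𝒪) :=
  List.ofFn (fun i : Fin r => (MvPowerSeries.X i : MvPowerSeries (Fin r) 𝒪)) ++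
    [MvPowerSeries.C ϖ]

@[simp] lemma xs_length (r : ℕ) (ϖ : 𝒪) : (xs r ϖ).length = r + 1 := by simp [xs]

lemma xs_succ (n : ℕ) (ϖ : 𝒪) :
    xs (n + 1) ϖ = MvPowerSeries.X 0 ::
      (List.ofFn (fun i : Fin n => (MvPowerSeries.X i.succ : MvPowerSeries (Fin (n + 1)) 𝒪)) ++
        [MvPowerSeries.C ϖ]) := by
  simp [xs, List.ofFn_succ]

lemma xs_eq_map_dropZero (n : ℕ) (ϖ : 𝒪) :
    xs n ϖ = (List.ofFn (fun i : Fin n =>
      (MvPowerSeries.X i.succ : MvPowerSeries (Fin (n + 1)) 𝒪)) ++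
        [MvPowerSeries.C ϖ]).map (dropZero 𝒪 n) := by
  simp [xs, List.map_ofFn, Function.comp_def]

lemma isSMulRegular_of_ne_zero {A : Type*} [CommRing A] [NoZeroDivisors A] {a : A} (ha : a ≠ 0) :
    IsSMulRegular A a := fun _ _ h => mul_left_cancel₀ ha h

theorem isWeaklyRegular_xs [IsDomain 𝒪] (r : ℕ) {ϖ : 𝒪} (hϖ : ϖ ≠ 0) :
    IsWeaklyRegular (MvPowerSeries (Fin r) 𝒪) (xs r ϖ) := by
  induction r with
  | zero =>
    simp only [xs, List.ofFn_zero, List.nil_append]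
    rw [isWeaklyRegular_singleton_iff]
    refine isSMulRegular_of_ne_zero ?_
    rw [Ne, ← map_zero (MvPowerSeries.C (σ := Fin 0) (R := 𝒪)), MvPowerSeries.C_inj]
    exact hϖ
  | succ n ih =>
    rw [xs_succ, isWeaklyRegular_cons_iff]
    refine ⟨isSMulRegular_of_ne_zero
      (nonZeroDivisors.ne_zero MvPowerSeries.X_mem_nonzeroDivisors), ?_⟩
    refine (AddEquiv.isWeaklyRegular_congr (e := quotEquiv n) ?_).mpr ih
    rw [xs_eq_map_dropZero]
    exact List.forall₂_map_right_iff.mpr <| List.forall₂_same.mpr fun a _ x => quotEquiv_smul n a x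

end Regular


section SpanFinrank

variable {𝒪 : Type*} [CommRing 𝒪] [IsLocalRing 𝒪]

lemma X_mem_maximalIdeal_powerSeries (A : Type*) [CommRing A] [IsLocalRing A] :
    (PowerSeries.X : PowerSeries A) ∈ maximalIdeal (PowerSeries A) := by
  rw [mem_maximalIdeal, mem_nonunits_iff, PowerSeries.isUnit_iff_constantCoeff]
  simp

theorem spanFinrank_maximalIdeal_le (r : ℕ) :
    (maximalIdeal (MvPowerSeries (Fin r) 𝒪)).spanFinrank ≤ r + (maximalIdeal 𝒪).spanFinrank := by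
  induction r with
  | zero =>
    have e := (MvPowerSeries.isEmptyEquiv (σ := Fin 0) (R := 𝒪)).toRingEquiv
    rw [← map_ringEquiv_maximalIdeal e, Ideal.spanFinrank_map_eq_of_ringEquiv]
    simp
  | succ n ih =>
    have e := (MvPowerSeries.finSuccEquiv 𝒪 n).toRingEquiv
    have h1 : (maximalIdeal (MvPowerSeries (Fin (n + 1)) 𝒪)).spanFinrank =
        (maximalIdeal (PowerSeries (MvPowerSeries (Fin n) 𝒪))).spanFinrank := by
      rw [← map_ringEquiv_maximalIdeal e, Ideal.spanFinrank_map_eq_of_ringEquiv]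
    have h2 := PowerSeries.spanFinrank_le_spanFinrank_map_constantCoeff_add_one_of_X_mem
      (X_mem_maximalIdeal_powerSeries (MvPowerSeries (Fin n) 𝒪))
    rw [map_maximalIdeal_of_surjective _ PowerSeries.constantCoeff_surj] at h2
    omega

theorem spanFinrank_maximalIdeal_le_succ [IsDomain 𝒪] [IsPrincipalIdealRing 𝒪] (r : ℕ) :
    (maximalIdeal (MvPowerSeries (Fin r) 𝒪)).spanFinrank ≤ r + 1 := by
  refine (spanFinrank_maximalIdeal_le r).trans ?_
  have : (maximalIdeal 𝒪).spanFinrank ≤ 1 := by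
    obtain ⟨x, hx⟩ := IsPrincipalIdealRing.principal (maximalIdeal 𝒪)
    rw [hx]
    simpa using Submodule.spanFinrank_span_le_ncard_of_finite (Set.finite_singleton x)
  omega

end SpanFinrank


section MaxIdeal

variable {𝒪 : Type*} [CommRing 𝒪] [IsLocalRing 𝒪]

lemma X_mem_maximalIdeal (r : ℕ) (i : Fin r) :
    (MvPowerSeries.X i : MvPowerSeries (Fin r) 𝒪) ∈ maximalIdeal (MvPowerSeries (Fin r) 𝒪) := by
  rw [mem_maximalIdeal, mem_nonunits_iff, MvPowerSeries.isUnit_iff_constantCoeff]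
  simp

lemma C_mem_maximalIdeal' (r : ℕ) {ϖ : 𝒪} (hϖ : ϖ ∈ maximalIdeal 𝒪) :
    (MvPowerSeries.C ϖ : MvPowerSeries (Fin r) 𝒪) ∈ maximalIdeal (MvPowerSeries (Fin r) 𝒪) := by
  rw [mem_maximalIdeal, mem_nonunits_iff, MvPowerSeries.isUnit_iff_constantCoeff]
  simpa using hϖ

lemma mem_xs_mem_maximalIdeal (r : ℕ) {ϖ : 𝒪} (hϖ : ϖ ∈ maximalIdeal 𝒪)
    {a : MvPowerSeries (Fin r) 𝒪} (ha : a ∈ xs r ϖ) :
    a ∈ maximalIdeal (MvPowerSeries (Fin r) 𝒪) := by
  simp only [xs, List.mem_append, List.mem_ofFn, List.mem_singleton] at ha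
  rcases ha with ⟨i, rfl⟩ | rfl
  · exact X_mem_maximalIdeal r i
  · exact C_mem_maximalIdeal' r hϖ

lemma dropZero_mem_maximalIdeal (n : ℕ) {f : MvPowerSeries (Fin (n + 1)) 𝒪}
    (hf : f ∈ maximalIdeal (MvPowerSeries (Fin (n + 1)) 𝒪)) :
    dropZero 𝒪 n f ∈ maximalIdeal (MvPowerSeries (Fin n) 𝒪) := by
  rw [← map_maximalIdeal_of_surjective (dropZero 𝒪 n) (dropZero_surjective n)]
  exact Ideal.mem_map_of_mem _ hf

theorem maximalIdeal_le_ofList_xs (r : ℕ) {ϖ : 𝒪} (hϖ : maximalIdeal 𝒪 = Ideal.span {ϖ}) :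
    maximalIdeal (MvPowerSeries (Fin r) 𝒪) ≤ Ideal.ofList (xs r ϖ) := by
  induction r with
  | zero =>
    intro f hf
    have hf' : MvPowerSeries.constantCoeff f ∈ maximalIdeal 𝒪 := by
      rw [mem_maximalIdeal, mem_nonunits_iff] at hf ⊢
      rwa [MvPowerSeries.isUnit_iff_constantCoeff] at hf
    rw [hϖ, Ideal.mem_span_singleton'] at hf'
    obtain ⟨b, hb⟩ := hf'
    have hfC : f = MvPowerSeries.C (MvPowerSeries.constantCoeff f) :=
      ((MvPowerSeries.isEmptyEquiv (Fin 0) 𝒪).left_inv f).symm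
    rw [hfC, ← hb, map_mul]
    refine Ideal.mul_mem_left _ _ (Ideal.subset_span ?_)
    simp [xs]
  | succ n ih =>
    intro f hf
    have h1 : dropZero 𝒪 n f ∈ Ideal.ofList (xs n ϖ) := ih (dropZero_mem_maximalIdeal n hf)
    rw [xs_eq_map_dropZero, ← Ideal.map_ofList,
      Ideal.mem_map_iff_of_surjective _ (dropZero_surjective n)] at h1
    obtain ⟨g, hg, hgf⟩ := h1
    have h2 : dropZero 𝒪 n (f - g) = 0 := by rw [map_sub, hgf, sub_self]
    obtain ⟨h, hh⟩ := (dropZero_eq_zero_iff n _).mp h2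
    rw [xs_succ, Ideal.ofList_cons]
    have : f = MvPowerSeries.X 0 * h + g := by rw [← hh]; ring
    rw [this]
    exact Ideal.add_mem _
      (Ideal.mem_sup_left (Ideal.mul_mem_right _ _ (Ideal.mem_span_singleton_self _)))
      (Ideal.mem_sup_right hg)

theorem ofList_xs_eq_maximalIdeal (r : ℕ) {ϖ : 𝒪} (hϖ : maximalIdeal 𝒪 = Ideal.span {ϖ}) :
    Ideal.ofList (xs r ϖ) = maximalIdeal (MvPowerSeries (Fin r) 𝒪) := by
  refine le_antisymm (Ideal.span_le.mpr fun a ha => ?_) (maximalIdeal_le_ofList_xs r hϖ)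
  exact mem_xs_mem_maximalIdeal r (hϖ ▸ Ideal.mem_span_singleton_self ϖ) ha

/-- The generators of the maximal ideal as a family indexed by `Fin (r + 1)`. -/
noncomputable def gens (r : ℕ) (ϖ : 𝒪) : Fin (r + 1) → MvPowerSeries (Fin r) 𝒪 :=
  fun i => (xs r ϖ).get (Fin.cast (xs_length r ϖ).symm i)

theorem span_range_gens (r : ℕ) {ϖ : 𝒪} (hϖ : maximalIdeal 𝒪 = Ideal.span {ϖ}) :
    Ideal.span (Set.range (gens r ϖ)) = maximalIdeal (MvPowerSeries (Fin r) 𝒪) := by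
  rw [← ofList_xs_eq_maximalIdeal r hϖ]
  congr 1
  ext a
  simp only [Set.mem_range, gens, Set.mem_ofPred_eq, List.mem_iff_get]
  constructor
  · rintro ⟨i, rfl⟩
    exact ⟨_, rfl⟩
  · rintro ⟨i, rfl⟩
    exact ⟨Fin.cast (xs_length r ϖ) i, by simp⟩

theorem isRegular_xs [IsDomain 𝒪] (r : ℕ) {ϖ : 𝒪} (hϖ : ϖ ≠ 0) (hϖm : ϖ ∈ maximalIdeal 𝒪) :
    IsRegular (MvPowerSeries (Fin r) 𝒪) (xs r ϖ) :=
  IsRegular.of_isWeaklyRegular_of_mem_maximalIdeal _
    (fun _ ha => mem_xs_mem_maximalIdeal r hϖm ha) (isWeaklyRegular_xs r hϖ)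

end MaxIdeal

section Patching

variable {𝒪 : Type} [CommRing 𝒪] {r : ℕ} {R : Type} [CommRing R] [Algebra 𝒪 R]
  {M : Type} [AddCommGroup M] [Module R M]
  (L : Algebra.PatchingLevel 𝒪 r R M ⊥)

/-- The coordinate map `Λ^d → N`, `c ↦ ∑ φ(cᵢ) • bᵢ`. -/
noncomputable def coordMap : (Fin L.d → MvPowerSeries (Fin r) 𝒪) →+ L.N where
  toFun c := ∑ i, L.φ (c i) • L.b i
  map_zero' := by simp
  map_add' c c' := by simp [add_smul, Finset.sum_add_distrib]

lemma coordMap_apply (c : Fin L.d → MvPowerSeries (Fin r) 𝒪) :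
    coordMap L c = ∑ i, L.φ (c i) • L.b i := rfl

lemma coordMap_bijective : Function.Bijective (coordMap L) := by
  constructor
  · rw [injective_iff_map_eq_zero]
    intro c hc
    have h := (L.b_rel c).mp hc
    funext i
    simpa using h i
  · intro x
    obtain ⟨c, hc⟩ := L.b_span x
    exact ⟨c, hc.symm⟩

/-- The coordinate bijection `Λ^d ≃+ N`. -/
noncomputable def coordEquiv : (Fin L.d → MvPowerSeries (Fin r) 𝒪) ≃+ L.N :=
  AddEquiv.ofBijective (coordMap L) (coordMap_bijective L)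

lemma coordEquiv_apply (c : Fin L.d → MvPowerSeries (Fin r) 𝒪) :
    coordEquiv L c = ∑ i, L.φ (c i) • L.b i := rfl

lemma coordEquiv_smul (f : MvPowerSeries (Fin r) 𝒪) (c : Fin L.d → MvPowerSeries (Fin r) 𝒪) :
    coordEquiv L (f • c) = L.φ f • coordEquiv L c := by
  simp [coordEquiv_apply, Finset.smul_sum, mul_smul]

instance finite_N : Module.Finite (MvPowerSeries (Fin r) 𝒪) L.N := by
  refine Module.finite_def.mpr (Submodule.fg_def.mpr ⟨Set.range L.b, Set.finite_range _, ?_⟩)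
  refine eq_top_iff.mpr fun x _ => ?_
  obtain ⟨c, rfl⟩ := L.b_span x
  exact Submodule.sum_mem _ fun i _ =>
    Submodule.smul_mem _ _ (Submodule.subset_span (Set.mem_range_self i))

lemma nontrivial_N [Nontrivial M] : Nontrivial L.N :=
  L.π_surjective.nontrivial

lemma φ_X_mem_maximalIdeal [IsLocalRing 𝒪] [Nontrivial M] (i : Fin r) :
    L.φ (MvPowerSeries.X i) ∈ maximalIdeal (MvPowerSeries (Fin r) 𝒪) := by
  rw [mem_maximalIdeal, mem_nonunits_iff]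
  intro hu
  have h0 : IsUnit (0 : R) := by
    rw [← L.ψ_φ_X i]
    exact hu.map L.ψ
  have : Subsingleton R := isUnit_zero_iff.mp h0 |> subsingleton_of_zero_eq_one
  have : Subsingleton M := Module.subsingleton R M
  exact not_subsingleton M inferInstance

lemma φ_C (a : 𝒪) : L.φ (MvPowerSeries.C a) = MvPowerSeries.C a := by
  have := L.φ.commutes a
  rwa [← MvPowerSeries.c_eq_algebraMap] at this

lemma C_mem_maximalIdeal [IsLocalRing 𝒪] {ϖ : 𝒪} (hϖ : ϖ ∈ maximalIdeal 𝒪) :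
    (MvPowerSeries.C ϖ : MvPowerSeries (Fin r) 𝒪) ∈ maximalIdeal (MvPowerSeries (Fin r) 𝒪) := by
  rw [mem_maximalIdeal, mem_nonunits_iff, MvPowerSeries.isUnit_iff_constantCoeff]
  simpa using hϖ

lemma map_φ_xs (ϖ : 𝒪) :
    (xs r ϖ).map L.φ =
      List.ofFn (fun i : Fin r => L.φ (MvPowerSeries.X i)) ++ [MvPowerSeries.C ϖ] := by
  simp [xs, List.map_ofFn, Function.comp_def, φ_C]

lemma mem_map_φ_xs_mem_maximalIdeal [IsLocalRing 𝒪] [Nontrivial M] {ϖ : 𝒪}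
    (hϖm : ϖ ∈ maximalIdeal 𝒪) {a : MvPowerSeries (Fin r) 𝒪} (ha : a ∈ (xs r ϖ).map L.φ) :
    a ∈ maximalIdeal (MvPowerSeries (Fin r) 𝒪) := by
  rw [map_φ_xs, List.mem_append, List.mem_ofFn, List.mem_singleton] at ha
  rcases ha with ⟨i, rfl⟩ | rfl
  · exact φ_X_mem_maximalIdeal L i
  · exact C_mem_maximalIdeal hϖm

theorem isWeaklyRegular_N [IsDomain 𝒪] {ϖ : 𝒪} (hϖ : ϖ ≠ 0) :
    IsWeaklyRegular L.N ((xs r ϖ).map L.φ) := by
  have h1 : IsWeaklyRegular (Fin L.d → MvPowerSeries (Fin r) 𝒪) (xs r ϖ) := by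
    have h := (isWeaklyRegular_xs r hϖ).isWeaklyRegular_lTensor
      (M₂ := Fin L.d → MvPowerSeries (Fin r) 𝒪)
    exact ((TensorProduct.rid (MvPowerSeries (Fin r) 𝒪)
      (Fin L.d → MvPowerSeries (Fin r) 𝒪)).isWeaklyRegular_congr _).mp h
  refine (AddEquiv.isWeaklyRegular_congr (e := coordEquiv L) ?_).mp h1
  exact List.forall₂_map_right_iff.mpr <|
    List.forall₂_same.mpr fun a _ x => coordEquiv_smul L a x

theorem isRegular_N [IsDomain 𝒪] [IsLocalRing 𝒪] [Nontrivial M] {ϖ : 𝒪} (hϖ : ϖ ≠ 0)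
    (hϖm : ϖ ∈ maximalIdeal 𝒪) :
    IsRegular L.N ((xs r ϖ).map L.φ) := by
  have := nontrivial_N L
  refine IsRegular.of_isWeaklyRegular_of_mem_maximalIdeal L.N ?_ (isWeaklyRegular_N L hϖ)
  intro a ha
  rw [map_φ_xs, List.mem_append, List.mem_ofFn, List.mem_singleton] at ha
  rcases ha with ⟨i, rfl⟩ | rfl
  · exact φ_X_mem_maximalIdeal L i
  · exact C_mem_maximalIdeal hϖm

/-- Packaged form: `L.N` has a regular sequence of length `r + 1`, and the maximal ideal of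
`𝒪[[X₁..X_r]]` is generated by at most `r + 1` elements. -/
theorem exists_isRegular_N [IsDomain 𝒪] [IsDiscreteValuationRing 𝒪] [Nontrivial M] :
    ∃ rs : List (MvPowerSeries (Fin r) 𝒪), IsRegular L.N rs ∧
      (maximalIdeal (MvPowerSeries (Fin r) 𝒪)).spanFinrank ≤ rs.length := by
  obtain ⟨ϖ, hϖ⟩ := IsDiscreteValuationRing.exists_irreducible 𝒪
  refine ⟨(xs r ϖ).map L.φ, isRegular_N L hϖ.ne_zero ?_, ?_⟩
  · exact hϖ.not_isUnit
  · simpa using spanFinrank_maximalIdeal_le_succ (𝒪 := 𝒪) r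

end Patching

end Fermat.Agent.Lib.PowerSeriesRegular
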