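import Mathlib
import Fermat.Agent.CFT.Coh.Herbrand

/-!
# The Herbrand quotient of a finitely generated module over a cyclic group of prime order

For a finitely generated abelian group `A` with an endomorphism `s`, `s ^ p = 1` (`p` prime),
put `f = s - 1`, `N = ∑ i < p, s ^ i`.  Then, with `a = rank (ker f)` and
`rank A = a + c (p - 1)`:

`[ker f : im N] * p ^ c = [ker N : im f] * p ^ a`,

both indices being finite.  The proof only uses index calculus:
`[ker f : im N] / [ker N : im f] = [B : pB] / [C : fC]` with `B = ker f`, `C = ker N`,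
`[B : pB] = p ^ a * |B[p]|`, and `[C : fC] = p ^ c * |B ∩ C|` because
`p = ∏_{0 < i < p} (1 - s ^ i)` on `C` and all the `1 - s ^ i` have the same image and kernel.
-/

namespace Fermat.Agent.Lib.PrimeCyclicHerbrand

open Fermat.Agent.CFT.Herbrand Module

section Fredholm

variable {A : Type*} [AddCommGroup A]

/-- Index of the image of an endomorphism (`0` when infinite). -/
noncomputable def ck (φ : A →+ A) : ℕ := φ.range.index

/-- Cardinality of the kernel of an endomorphism (`0` when infinite). -/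
noncomputable def kr (φ : A →+ A) : ℕ := Nat.card φ.ker

/-- Multiplicativity of the "Fredholm index" `ck / kr` under composition, as an identity of
natural numbers which holds unconditionally (`0` = infinite). -/
theorem ck_comp_mul (φ ψ : A →+ A) :
    ck (φ.comp ψ) * kr φ * kr ψ = ck φ * ck ψ * kr (φ.comp ψ) := by
  -- x = [ker φ : ker φ ∩ im ψ], y = |ker φ ∩ im ψ|
  set x := ψ.range.relIndex φ.ker with hx
  set y := Nat.card ↥(φ.ker ⊓ ψ.range) with hy
  have h1 : ck (φ.comp ψ) = ck φ * (ψ.range ⊔ φ.ker).index := by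
    have hle : (φ.comp ψ).range ≤ φ.range := by
      rintro _ ⟨a, rfl⟩; exact ⟨ψ a, rfl⟩
    have h := AddSubgroup.relIndex_mul_index hle
    have h2 : (φ.comp ψ).range.relIndex φ.range = (ψ.range ⊔ φ.ker).index := by
      have hc : (φ.comp ψ).range = ψ.range.map φ := by
        ext z; constructor
        · rintro ⟨a, rfl⟩; exact ⟨ψ a, ⟨a, rfl⟩, rfl⟩
        · rintro ⟨_, ⟨a, rfl⟩, rfl⟩; exact ⟨a, rfl⟩
      rw [hc, ← AddSubgroup.index_comap, AddSubgroup.comap_map_eq]
    unfold ck
    rw [← h, h2, mul_comm]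
  have h3 : (ψ.range ⊔ φ.ker).index * x = ck ψ := by
    have hle : ψ.range ≤ ψ.range ⊔ φ.ker := le_sup_left
    have h := AddSubgroup.relIndex_mul_index hle
    have h4 : ψ.range.relIndex (ψ.range ⊔ φ.ker) = x := by
      rw [hx, sup_comm, AddSubgroup.relIndex_sup_right]
    unfold ck
    rw [← h, h4, mul_comm]
  have h5 : kr φ = y * x := by
    have hle : φ.ker ⊓ ψ.range ≤ φ.ker := inf_le_left
    have h := AddSubgroup.relIndex_mul_relIndex ⊥ (φ.ker ⊓ ψ.range) φ.ker bot_le hle
    rw [AddSubgroup.relIndex_bot_left, AddSubgroup.relIndex_bot_left,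
      AddSubgroup.inf_relIndex_left] at h
    unfold kr
    rw [← h]
  have h6 : kr (φ.comp ψ) = kr ψ * y := by
    have hk : (φ.comp ψ).ker = φ.ker.comap ψ := by
      ext z; simp [AddMonoidHom.mem_ker]
    have hle : ψ.ker ≤ (φ.comp ψ).ker := by
      intro z hz
      rw [AddMonoidHom.mem_ker] at hz ⊢
      simp [hz]
    have h := AddSubgroup.relIndex_mul_relIndex ⊥ ψ.ker (φ.comp ψ).ker bot_le hle
    rw [AddSubgroup.relIndex_bot_left, AddSubgroup.relIndex_bot_left] at h
    have h7 : ψ.ker.relIndex (φ.comp ψ).ker = y := by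
      have hb : ψ.ker = (⊥ : AddSubgroup A).comap ψ := by
        ext z; simp [AddMonoidHom.mem_ker]
      rw [hb, AddSubgroup.relIndex_comap, AddSubgroup.relIndex_bot_left, hk,
        AddSubgroup.map_comap_eq, inf_comm]
    unfold kr
    rw [← h, h7]
  rw [h1, h5, h6, ← h3]
  ring

theorem idx_zero_left (φ : A →+ A) : idx (0 : A →+ A) φ = ck φ := by
  unfold idx ck
  have : (0 : A →+ A).ker = ⊤ := by ext; simp
  rw [this, AddSubgroup.relIndex_top_right]

theorem idx_zero_right (φ : A →+ A) : idx φ (0 : A →+ A) = kr φ := by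
  unfold idx kr
  have : (0 : A →+ A).range = ⊥ := by ext; simp [eq_comm]
  rw [this, AddSubgroup.relIndex_bot_left]

theorem ck_nsmul (M : Type*) [AddCommGroup M] [Module.Finite ℤ M] (n : ℕ) (hn : n ≠ 0) :
    kr (nsmulAddMonoidHom (α := M) n) ≠ 0 ∧
    ck (nsmulAddMonoidHom (α := M) n) = n ^ finrank ℤ M * kr (nsmulAddMonoidHom (α := M) n) := by
  classical
  set T : Submodule ℤ M := Submodule.torsion ℤ M with hT
  haveI : Module.Finite ℤ T := inferInstance
  haveI : Finite T := Module.finite_of_fg_torsion T (Submodule.torsion_isTorsion (R := ℤ) (M := M))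
  haveI : Module.Free ℤ (M ⧸ T) := Module.free_of_finite_type_torsion_free'
  have hE : Exact3 (T.subtype.toAddMonoidHom) (T.mkQ.toAddMonoidHom)
      (0 : T →+ T) (nsmulAddMonoidHom n) (0 : M →+ M) (nsmulAddMonoidHom n)
      (0 : (M ⧸ T) →+ (M ⧸ T)) (nsmulAddMonoidHom n) := by
    refine ⟨Subtype.val_injective, Submodule.mkQ_surjective T, ?_, by ext; simp, by ext; simp,
      by intro a; simp, by intro a; simp, by intro b; simp, by intro b; simp⟩
    ext x
    simp
  obtain ⟨hiff, heq⟩ := hq_eq_of_finite_ker hE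
  have hck : ck (nsmulAddMonoidHom (α := (M ⧸ T)) n) = n ^ finrank ℤ (M ⧸ T) :=
    AddSubgroup.index_range_nsmul (M ⧸ T) n
  have hkr : kr (nsmulAddMonoidHom (α := (M ⧸ T)) n) = 1 := by
    unfold kr
    have : (nsmulAddMonoidHom (α := (M ⧸ T)) n).ker = ⊥ :=
      (AddMonoidHom.ker_eq_bot_iff _).2
        (AddSubgroup.nsmulAddMonoidHom_injective_of_isTorsionFree hn)
    rw [this]; simp
  have hfr : finrank ℤ (M ⧸ T) = finrank ℤ M := by
    have h1 := Submodule.finrank_quotient_add_finrank T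
    have h2 : finrank ℤ T = 0 :=
      (Module.finrank_eq_zero_iff_isTorsion).2 (Submodule.torsion_isTorsion (R := ℤ) (M := M))
    omega
  have hC : IsFin (0 : (M ⧸ T) →+ (M ⧸ T)) (nsmulAddMonoidHom n) := by
    refine ⟨?_, ?_⟩
    · rw [idx_zero_left, hck]; exact pow_ne_zero _ hn
    · rw [idx_zero_right, hkr]; exact one_ne_zero
  have hB := hiff.2 hC
  have hkr0 : kr (nsmulAddMonoidHom (α := M) n) ≠ 0 := by
    have := hB.2; rwa [idx_zero_right] at this
  refine ⟨hkr0, ?_⟩
  unfold hq at heq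
  rw [idx_zero_left, idx_zero_right, idx_zero_left, idx_zero_right, hck, hkr, hfr] at heq
  have h3 : (kr (nsmulAddMonoidHom (α := M) n) : ℚ) ≠ 0 := Nat.cast_ne_zero.2 hkr0
  field_simp at heq
  have h4 : ck (nsmulAddMonoidHom (α := M) n) * 1
      = kr (nsmulAddMonoidHom (α := M) n) * n ^ finrank ℤ M := by exact_mod_cast heq
  rw [mul_one] at h4
  rw [h4, mul_comm]


end Fredholm

section Lin

variable {M : Type*} [AddCommGroup M]

theorem kr_ne_zero_of_mul {φ ψ : Module.End ℤ M} (h : kr (φ * ψ).toAddMonoidHom ≠ 0) :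
    kr ψ.toAddMonoidHom ≠ 0 := by
  unfold kr at h ⊢
  have hle : ψ.toAddMonoidHom.ker ≤ (φ * ψ).toAddMonoidHom.ker := by
    intro x hx
    rw [AddMonoidHom.mem_ker] at hx ⊢
    change φ (ψ x) = 0
    have : ψ x = 0 := hx
    rw [this, map_zero]
  have hfin : Finite ↥((φ * ψ).toAddMonoidHom.ker) := Nat.finite_of_card_ne_zero h
  have : Finite ↥(ψ.toAddMonoidHom.ker) :=
    Finite.of_injective (AddSubgroup.inclusion hle) (AddSubgroup.inclusion_injective hle)
  exact Nat.card_pos.ne'

/-- Multiplicativity of the Fredholm index along a list of endomorphisms. -/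
theorem ck_list_prod (l : List (Module.End ℤ M)) (h : kr l.prod.toAddMonoidHom ≠ 0) :
    ck l.prod.toAddMonoidHom * (l.map fun φ => kr φ.toAddMonoidHom).prod
      = (l.map fun φ => ck φ.toAddMonoidHom).prod * kr l.prod.toAddMonoidHom := by
  induction l with
  | nil =>
    simp only [List.prod_nil, List.map_nil, mul_one, one_mul]
    unfold ck kr
    have h1 : (LinearMap.toAddMonoidHom (1 : Module.End ℤ M)).range = ⊤ := by
      ext x; simp
    have h2 : (LinearMap.toAddMonoidHom (1 : Module.End ℤ M)).ker = ⊥ := by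
      ext x; simp
    rw [h1, h2]; simp
  | cons φ l ih =>
    rw [List.prod_cons] at h ⊢
    have hP : kr l.prod.toAddMonoidHom ≠ 0 := kr_ne_zero_of_mul h
    have h1 := ck_comp_mul φ.toAddMonoidHom l.prod.toAddMonoidHom
    have h2 := ih hP
    simp only [List.map_cons, List.prod_cons]
    have h3 : φ.toAddMonoidHom.comp l.prod.toAddMonoidHom = (φ * l.prod).toAddMonoidHom := rfl
    rw [h3] at h1
    set P := l.prod
    set K := (l.map fun φ => kr φ.toAddMonoidHom).prod
    set CK := (l.map fun φ => ck φ.toAddMonoidHom).prod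
    have : (ck (φ * P).toAddMonoidHom * (kr φ.toAddMonoidHom * K)) * kr P.toAddMonoidHom
        = (ck φ.toAddMonoidHom * CK * kr (φ * P).toAddMonoidHom) * kr P.toAddMonoidHom := by
      calc (ck (φ * P).toAddMonoidHom * (kr φ.toAddMonoidHom * K)) * kr P.toAddMonoidHom
          = (ck (φ * P).toAddMonoidHom * kr φ.toAddMonoidHom * kr P.toAddMonoidHom) * K := by ring
        _ = (ck φ.toAddMonoidHom * ck P.toAddMonoidHom * kr (φ * P).toAddMonoidHom) * K := by
            rw [h1]
        _ = ck φ.toAddMonoidHom * (ck P.toAddMonoidHom * K) * kr (φ * P).toAddMonoidHom := by ring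
        _ = ck φ.toAddMonoidHom * (CK * kr P.toAddMonoidHom) * kr (φ * P).toAddMonoidHom := by
            rw [h2]
        _ = (ck φ.toAddMonoidHom * CK * kr (φ * P).toAddMonoidHom) * kr P.toAddMonoidHom := by ring
    exact Nat.eq_of_mul_eq_mul_right (Nat.pos_of_ne_zero hP) this

theorem ck_eq_of_range_eq {φ ψ : Module.End ℤ M} (h : LinearMap.range φ = LinearMap.range ψ) :
    ck φ.toAddMonoidHom = ck ψ.toAddMonoidHom := by
  unfold ck
  have h1 : φ.toAddMonoidHom.range = (LinearMap.range φ).toAddSubgroup := by ext; simp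
  have h2 : ψ.toAddMonoidHom.range = (LinearMap.range ψ).toAddSubgroup := by ext; simp
  rw [h1, h2, h]

theorem kr_eq_of_ker_eq {φ ψ : Module.End ℤ M} (h : LinearMap.ker φ = LinearMap.ker ψ) :
    kr φ.toAddMonoidHom = kr ψ.toAddMonoidHom := by
  unfold kr
  have h1 : φ.toAddMonoidHom.ker = (LinearMap.ker φ).toAddSubgroup := by ext; simp
  have h2 : ψ.toAddMonoidHom.ker = (LinearMap.ker ψ).toAddSubgroup := by ext; simp
  rw [h1, h2, h]

theorem range_le_of_eq_mul {φ ψ χ : Module.End ℤ M} (h : φ = ψ * χ) :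
    LinearMap.range φ ≤ LinearMap.range ψ := by
  rw [h]; rintro _ ⟨x, rfl⟩; exact ⟨χ x, rfl⟩

theorem ker_le_of_eq_mul {φ ψ χ : Module.End ℤ M} (h : φ = χ * ψ) :
    LinearMap.ker ψ ≤ LinearMap.ker φ := by
  rw [h]; intro x hx
  rw [LinearMap.mem_ker] at hx ⊢
  rw [Module.End.mul_apply, hx, map_zero]

end Lin

open Polynomial in
theorem cyclotomic_dvd_prod_sub {p : ℕ} (hp : p.Prime) :
    cyclotomic p ℤ ∣ (∏ i ∈ Finset.range (p - 1), (1 - X ^ (i + 1)) - C (p : ℤ)) := by
  have hζ := Complex.isPrimitiveRoot_exp p hp.ne_zero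
  rw [cyclotomic_eq_minpoly hζ hp.pos]
  apply minpoly.isIntegrallyClosed_dvd (hζ.isIntegral hp.pos)
  have hζ' : IsPrimitiveRoot (Complex.exp (2 * ↑Real.pi * Complex.I / ↑p)) (p - 1 + 1) := by
    rwa [Nat.sub_add_cancel hp.pos]
  have := hζ'.prod_one_sub_pow_eq_order
  simp only [map_sub, map_prod, map_one, map_pow, aeval_X, aeval_C, this]
  have h1 : ((p - 1 : ℕ) : ℂ) + 1 = (p : ℂ) := by
    have : ((p - 1 + 1 : ℕ) : ℂ) = (p : ℂ) := by rw [Nat.sub_add_cancel hp.pos]
    rw [← this]; push_cast; ring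
  rw [h1]; simp

theorem finset_prod_range_eq_list {R : Type*} [CommMonoid R] (f : ℕ → R) (n : ℕ) :
    ∏ i ∈ Finset.range n, f i = ((List.range n).map f).prod := by
  induction n with
  | zero => simp
  | succ n ih => rw [Finset.prod_range_succ, List.prod_range_succ, ih]

theorem arith_aux {p m k r : ℕ} (hp : p.Prime) (hk : k ≠ 0)
    (h : p ^ r * k ^ (p - 1) = m ^ (p - 1)) : ∃ c, r = c * (p - 1) ∧ m = p ^ c * k := by
  have hp1 : p - 1 ≠ 0 := by have := hp.two_le; omega
  have hdvd : k ∣ m := by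
    rw [← Nat.pow_dvd_pow_iff hp1, ← h]; exact dvd_mul_left _ _
  obtain ⟨n, rfl⟩ := hdvd
  rw [mul_pow] at h
  have h2 : n ^ (p - 1) = p ^ r := by
    have hk' : 0 < k ^ (p - 1) := Nat.pos_of_ne_zero (pow_ne_zero _ hk)
    have : k ^ (p - 1) * p ^ r = k ^ (p - 1) * n ^ (p - 1) := by rw [← h]; ring
    exact (Nat.eq_of_mul_eq_mul_left hk' this).symm
  have h3 : n ∣ p ^ r := by
    rw [← h2]; exact dvd_pow_self n hp1
  obtain ⟨c, -, rfl⟩ := (Nat.dvd_prime_pow hp).1 h3
  refine ⟨c, ?_, by ring⟩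
  rw [← pow_mul] at h2
  exact (Nat.pow_right_injective hp.two_le h2).symm

section K2

variable {M : Type*} [AddCommGroup M] [Module.Finite ℤ M]

theorem natCast_toAddMonoidHom (n : ℕ) :
    ((n : Module.End ℤ M)).toAddMonoidHom = nsmulAddMonoidHom n := by
  ext x; simp

open Polynomial in
theorem list_prod_one_sub_pow {p : ℕ} (hp : p.Prime) (t : Module.End ℤ M)
    (ht : ∑ i ∈ Finset.range p, t ^ i = 0) :
    ((List.range (p - 1)).map fun i => (1 - t ^ (i + 1) : Module.End ℤ M)).prod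
      = (p : Module.End ℤ M) := by
  haveI : Fact p.Prime := ⟨hp⟩
  obtain ⟨Q, hQ⟩ := cyclotomic_dvd_prod_sub hp
  have h0 : aeval t (cyclotomic p ℤ) = 0 := by
    rw [cyclotomic_prime ℤ p]; simpa using ht
  have h1 := congrArg (aeval t) hQ
  rw [map_mul, h0, zero_mul, map_sub, sub_eq_zero, finset_prod_range_eq_list, map_list_prod,
    List.map_map] at h1
  have h2 : (⇑(aeval t) ∘ fun i : ℕ => (1 - X ^ (i + 1) : ℤ[X]))
      = fun i => (1 - t ^ (i + 1) : Module.End ℤ M) := by
    funext i; simp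
  rw [h2] at h1
  rw [h1]; simp

theorem pow_eq_one_of_sum {p : ℕ} (t : Module.End ℤ M)
    (ht : ∑ i ∈ Finset.range p, t ^ i = 0) : t ^ p = 1 := by
  have := mul_geom_sum t p
  rw [ht, mul_zero] at this
  exact (sub_eq_zero.1 this.symm)

theorem range_one_sub_pow {p : ℕ} (hp : p.Prime) (t : Module.End ℤ M) (htp : t ^ p = 1)
    {j : ℕ} (hj : 0 < j) (hjp : j < p) :
    LinearMap.range (1 - t ^ j) = LinearMap.range (1 - t) ∧
    LinearMap.ker (1 - t ^ j) = LinearMap.ker (1 - t) := by
  have hcop : Nat.Coprime j p :=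
    ((Nat.Prime.coprime_iff_not_dvd hp).2 (Nat.not_dvd_of_pos_of_lt hj hjp)).symm
  obtain ⟨m, -, hm⟩ := Nat.exists_mul_mod_eq_one_of_coprime hcop hp.one_lt
  have hjm : (t ^ j) ^ m = t := by
    have h1 := Nat.div_add_mod (j * m) p
    rw [hm] at h1
    rw [← pow_mul, ← h1, pow_add, pow_mul, htp, one_pow, one_mul, pow_one]
  have e1 : 1 - t ^ j = (1 - t) * ∑ i ∈ Finset.range j, t ^ i := by
    rw [← neg_sub t 1, neg_mul, mul_geom_sum, neg_sub]
  have e1' : 1 - t ^ j = (∑ i ∈ Finset.range j, t ^ i) * (1 - t) := by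
    rw [← neg_sub t 1, mul_neg, geom_sum_mul, neg_sub]
  have e2 : 1 - t = (1 - t ^ j) * ∑ i ∈ Finset.range m, (t ^ j) ^ i := by
    rw [← neg_sub (t ^ j) 1, neg_mul, mul_geom_sum, neg_sub, hjm]
  have e2' : 1 - t = (∑ i ∈ Finset.range m, (t ^ j) ^ i) * (1 - t ^ j) := by
    rw [← neg_sub (t ^ j) 1, mul_neg, geom_sum_mul, neg_sub, hjm]
  exact ⟨le_antisymm (range_le_of_eq_mul e1) (range_le_of_eq_mul e2),
    le_antisymm (ker_le_of_eq_mul e2') (ker_le_of_eq_mul e1')⟩

/-- **K2**: on a finitely generated abelian group killed by `∑ i < p, t ^ i`, the Fredholm index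
of `1 - t` is `p ^ c`, where the rank is `c (p - 1)`. -/
theorem ck_one_sub {p : ℕ} (hp : p.Prime) (t : Module.End ℤ M)
    (ht : ∑ i ∈ Finset.range p, t ^ i = 0) :
    ∃ c : ℕ, finrank ℤ M = c * (p - 1) ∧ kr (1 - t).toAddMonoidHom ≠ 0 ∧
      ck (1 - t).toAddMonoidHom = p ^ c * kr (1 - t).toAddMonoidHom := by
  have htp := pow_eq_one_of_sum t ht
  set l := (List.range (p - 1)).map fun i => (1 - t ^ (i + 1) : Module.End ℤ M) with hl
  have hlp : l.prod = (p : Module.End ℤ M) := list_prod_one_sub_pow hp t ht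
  obtain ⟨hkp, hckp⟩ := ck_nsmul M p hp.ne_zero
  have hkr : kr l.prod.toAddMonoidHom ≠ 0 := by
    rw [hlp, natCast_toAddMonoidHom]; exact hkp
  have h := ck_list_prod l hkr
  have hlen : l.length = p - 1 := by simp [hl]
  have hm : (l.map fun φ => ck φ.toAddMonoidHom).prod = ck (1 - t).toAddMonoidHom ^ (p - 1) := by
    rw [List.prod_eq_pow_card _ (ck (1 - t).toAddMonoidHom), List.length_map, hlen]
    intro x hx
    rw [List.mem_map] at hx
    obtain ⟨φ, hφ, rfl⟩ := hx
    rw [hl, List.mem_map] at hφ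
    obtain ⟨i, hi, rfl⟩ := hφ
    rw [List.mem_range] at hi
    exact ck_eq_of_range_eq (range_one_sub_pow hp t htp (Nat.succ_pos i) (by omega)).1
  have hk : (l.map fun φ => kr φ.toAddMonoidHom).prod = kr (1 - t).toAddMonoidHom ^ (p - 1) := by
    rw [List.prod_eq_pow_card _ (kr (1 - t).toAddMonoidHom), List.length_map, hlen]
    intro x hx
    rw [List.mem_map] at hx
    obtain ⟨φ, hφ, rfl⟩ := hx
    rw [hl, List.mem_map] at hφ
    obtain ⟨i, hi, rfl⟩ := hφ
    rw [List.mem_range] at hi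
    exact kr_eq_of_ker_eq (range_one_sub_pow hp t htp (Nat.succ_pos i) (by omega)).2
  rw [hm, hk, hlp, natCast_toAddMonoidHom, hckp] at h
  have h' : p ^ finrank ℤ M * kr (1 - t).toAddMonoidHom ^ (p - 1)
      = ck (1 - t).toAddMonoidHom ^ (p - 1) := by
    have : (p ^ finrank ℤ M * kr (1 - t).toAddMonoidHom ^ (p - 1)) * kr (nsmulAddMonoidHom (α := M) p)
        = ck (1 - t).toAddMonoidHom ^ (p - 1) * kr (nsmulAddMonoidHom (α := M) p) := by
      rw [← h]; ring
    exact Nat.eq_of_mul_eq_mul_right (Nat.pos_of_ne_zero hkp) this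
  have hk0 : kr (1 - t).toAddMonoidHom ≠ 0 := by
    unfold kr at hkp ⊢
    have hle : (1 - t).toAddMonoidHom.ker ≤ (nsmulAddMonoidHom (α := M) p).ker := by
      intro x hx
      rw [AddMonoidHom.mem_ker] at hx ⊢
      have hx' : t x = x := by
        have : x - t x = 0 := hx
        exact (sub_eq_zero.1 this).symm
      have h1 : (∑ i ∈ Finset.range p, t ^ i) x = p • x := by
        rw [LinearMap.sum_apply]
        have : ∀ i ∈ Finset.range p, (t ^ i) x = x := by
          intro i _
          rw [Module.End.pow_apply]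
          exact Function.iterate_fixed hx' i
        rw [Finset.sum_congr rfl this]; simp
      rw [ht] at h1
      simpa using h1.symm
    have hfin : Finite ↥((nsmulAddMonoidHom (α := M) p).ker) := Nat.finite_of_card_ne_zero hkp
    have : Finite ↥((1 - t).toAddMonoidHom.ker) :=
      Finite.of_injective (AddSubgroup.inclusion hle) (AddSubgroup.inclusion_injective hle)
    exact Nat.card_pos.ne'
  obtain ⟨c, hc1, hc2⟩ := arith_aux hp hk0 h'
  exact ⟨c, hc1, hk0, hc2⟩

end K2


section Rank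

variable {A : Type*} [AddCommGroup A] [Module.Finite ℤ A]

/-- Two nested subgroups with torsion quotient have the same rank. -/
theorem finrank_eq_of_smul_mem {S T : Submodule ℤ A} (hST : S ≤ T) {n : ℕ} (hn : n ≠ 0)
    (h : ∀ x ∈ T, n • x ∈ S) : finrank ℤ S = finrank ℤ T := by
  set S' : Submodule ℤ T := S.comap T.subtype with hS'
  have e : S' ≃ₗ[ℤ] S := Submodule.comapSubtypeEquivOfLe hST
  have h1 := Submodule.finrank_quotient_add_finrank S'
  have h2 : finrank ℤ (T ⧸ S') = 0 := by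
    rw [Module.finrank_eq_zero_iff_isTorsion]
    intro x
    induction x using Submodule.Quotient.induction_on with
    | H x =>
      refine ⟨⟨(n : ℤ), ?_⟩, ?_⟩
      · simp [hn]
      · change (n : ℤ) • (Submodule.Quotient.mk x : T ⧸ S') = 0
        rw [← Submodule.Quotient.mk_smul, Submodule.Quotient.mk_eq_zero]
        change T.subtype ((n : ℤ) • x) ∈ S
        simpa using h x x.2
  rw [← e.finrank_eq]
  omega

end Rank

section Main

variable {A : Type*} [AddCommGroup A] [Module.Finite ℤ A]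

omit [Module.Finite ℤ A] in
theorem geom_mul_self {p : ℕ} (s : Module.End ℤ A) (hs : s ^ p = 1) :
    (∑ i ∈ Finset.range p, s ^ i) * (∑ i ∈ Finset.range p, s ^ i)
      = (p : Module.End ℤ A) * ∑ i ∈ Finset.range p, s ^ i := by
  have h1 : s * (∑ i ∈ Finset.range p, s ^ i) = ∑ i ∈ Finset.range p, s ^ i := by
    have h := mul_geom_sum s p
    rw [hs, sub_self, sub_mul, one_mul, sub_eq_zero] at h
    exact h
  have h2 : ∀ i : ℕ, s ^ i * (∑ i ∈ Finset.range p, s ^ i) = ∑ i ∈ Finset.range p, s ^ i := by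
    intro i
    induction i with
    | zero => simp
    | succ i ih => rw [pow_succ, mul_assoc, h1, ih]
  rw [Finset.sum_mul, Finset.sum_congr rfl (fun i _ => h2 i)]
  simp

/-- **Herbrand quotient of a finitely generated `ℤ[ℤ/p]`-module from ranks** (`1 - s` form). -/
theorem herbrand_one_sub {p : ℕ} (hp : p.Prime) (s : Module.End ℤ A) (hs : s ^ p = 1) :
    ∃ c : ℕ, finrank ℤ A = finrank ℤ (LinearMap.ker (1 - s)) + c * (p - 1) ∧
      idx (1 - s).toAddMonoidHom (∑ i ∈ Finset.range p, s ^ i).toAddMonoidHom ≠ 0 ∧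
      idx (∑ i ∈ Finset.range p, s ^ i).toAddMonoidHom (1 - s).toAddMonoidHom ≠ 0 ∧
      idx (1 - s).toAddMonoidHom (∑ i ∈ Finset.range p, s ^ i).toAddMonoidHom * p ^ c
        = idx (∑ i ∈ Finset.range p, s ^ i).toAddMonoidHom (1 - s).toAddMonoidHom
          * p ^ finrank ℤ (LinearMap.ker (1 - s)) := by
  classical
  set f : Module.End ℤ A := 1 - s with hf
  set g : Module.End ℤ A := ∑ i ∈ Finset.range p, s ^ i with hg
  have hfg : f * g = 0 := by
    rw [hf, hg, ← neg_sub s 1, neg_mul, mul_geom_sum, hs, sub_self, neg_zero]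
  have hgf : g * f = 0 := by
    rw [hf, hg, ← neg_sub s 1, mul_neg, geom_sum_mul, hs, sub_self, neg_zero]
  have hgg : g * g = (p : Module.End ℤ A) * g := geom_mul_self s hs
  have hsg : g * s = g := by
    have h := geom_sum_mul s p
    rw [hs, sub_self, mul_sub, mul_one, sub_eq_zero] at h
    exact h
  set C : Submodule ℤ A := LinearMap.ker g with hC
  have hsC : ∀ x ∈ C, s x ∈ C := by
    intro x hx
    rw [hC, LinearMap.mem_ker] at hx ⊢
    rw [← Module.End.mul_apply, hsg, hx]
  set t : Module.End ℤ C := s.restrict hsC with ht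
  have htpow : ∀ (n : ℕ) (x : C), ((t ^ n) x : A) = (s ^ n) (x : A) := by
    intro n
    induction n with
    | zero => intro x; simp
    | succ n ih =>
      intro x
      rw [pow_succ, Module.End.mul_apply, ih, pow_succ, Module.End.mul_apply]
      rfl
  have htsum : ∑ i ∈ Finset.range p, t ^ i = 0 := by
    ext x
    rw [LinearMap.sum_apply]
    simp only [LinearMap.zero_apply, ZeroMemClass.coe_zero, AddSubmonoidClass.coe_finsetSum, htpow]
    have hx : g (x : A) = 0 := x.2
    rw [hg, LinearMap.sum_apply] at hx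
    exact hx
  obtain ⟨c, hc1, hc2, hc3⟩ := ck_one_sub hp t htsum
  obtain ⟨hk1, hk2⟩ := ck_nsmul (A ⧸ C) p hp.ne_zero
  -- the exact sequence
  have hE : Exact3 (C.subtype.toAddMonoidHom) (C.mkQ.toAddMonoidHom)
      ((1 - t).toAddMonoidHom) (0 : C →+ C) f.toAddMonoidHom g.toAddMonoidHom
      (0 : (A ⧸ C) →+ (A ⧸ C)) (nsmulAddMonoidHom p) := by
    refine ⟨Subtype.val_injective, Submodule.mkQ_surjective C, ?_, ?_, ?_, ?_, ?_, ?_, ?_⟩
    · ext x; simp
    · ext x
      change (f * g) x = 0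
      rw [hfg]; rfl
    · ext x
      change (g * f) x = 0
      rw [hgf]; rfl
    · intro a
      change f (a : A) = ((1 - t) a : A)
      rw [hf]
      simp [ht]
    · intro a
      change g (a : A) = ((0 : C) : A)
      exact a.2
    · intro b
      change (0 : A ⧸ C) = C.mkQ (f b)
      symm
      rw [Submodule.mkQ_apply, Submodule.Quotient.mk_eq_zero, hC, LinearMap.mem_ker,
        ← Module.End.mul_apply, hgf]
      rfl
    · intro b
      change p • (C.mkQ b) = C.mkQ (g b)
      rw [← map_nsmul, Submodule.mkQ_apply, Submodule.mkQ_apply, eq_comm,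
        Submodule.Quotient.eq, hC, LinearMap.mem_ker, map_sub, ← Module.End.mul_apply, hgg]
      simp
  have hA : IsFin ((1 - t).toAddMonoidHom) (0 : C →+ C) := by
    refine ⟨?_, ?_⟩
    · rw [idx_zero_right]; exact hc2
    · rw [idx_zero_left, hc3]; exact mul_ne_zero (pow_ne_zero _ hp.ne_zero) hc2
  have hQ : IsFin (0 : (A ⧸ C) →+ (A ⧸ C)) (nsmulAddMonoidHom p) := by
    refine ⟨?_, ?_⟩
    · rw [idx_zero_left, hk2]; exact mul_ne_zero (pow_ne_zero _ hp.ne_zero) hk1
    · rw [idx_zero_right]; exact hk1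
  have hB := hE.isFin_mid hA hQ
  have hmul := hE.hq_mul hA hQ
  -- ranks
  have hr1 := Submodule.finrank_quotient_add_finrank C
  have hr2 : finrank ℤ (A ⧸ C) = finrank ℤ (LinearMap.range g) :=
    (LinearMap.quotKerEquivRange g).finrank_eq
  have hr3 : finrank ℤ (LinearMap.range g) = finrank ℤ (LinearMap.ker f) := by
    apply finrank_eq_of_smul_mem (n := p) _ hp.ne_zero
    · intro x hx
      rw [LinearMap.mem_ker] at hx
      have hsx : s x = x := by
        rw [hf, LinearMap.sub_apply, Module.End.one_apply, sub_eq_zero] at hx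
        exact hx.symm
      have : g x = p • x := by
        rw [hg, LinearMap.sum_apply]
        have : ∀ i ∈ Finset.range p, (s ^ i) x = x := by
          intro i _
          rw [Module.End.pow_apply]
          exact Function.iterate_fixed hsx i
        rw [Finset.sum_congr rfl this]; simp
      rw [← this]
      exact ⟨x, rfl⟩
    · rintro _ ⟨x, rfl⟩
      rw [LinearMap.mem_ker, ← Module.End.mul_apply, hfg]
      rfl
  refine ⟨c, by omega, hB.1, hB.2, ?_⟩
  unfold hq at hmul
  rw [idx_zero_right, idx_zero_left, idx_zero_left, idx_zero_right, hc3, hk2, hr2, hr3] at hmul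
  have e1 : (idx g.toAddMonoidHom f.toAddMonoidHom : ℚ) ≠ 0 := Nat.cast_ne_zero.2 hB.2
  have e2 : (kr (1 - t).toAddMonoidHom : ℚ) ≠ 0 := Nat.cast_ne_zero.2 hc2
  have e3 : (kr (nsmulAddMonoidHom (α := A ⧸ C) p) : ℚ) ≠ 0 := Nat.cast_ne_zero.2 hk1
  have e4 : (p : ℚ) ≠ 0 := Nat.cast_ne_zero.2 hp.ne_zero
  push_cast at hmul
  field_simp at hmul
  exact_mod_cast hmul


/-- **Herbrand quotient of a finitely generated `ℤ[ℤ/p]`-module from ranks** (`s - 1` form).
With `a = rank (ker (s - 1))` and `rank A = a + c (p - 1)`: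
`[ker (s - 1) : im N] * p ^ c = [ker N : im (s - 1)] * p ^ a`, both indices finite (nonzero). -/
theorem herbrand_sub_one {p : ℕ} (hp : p.Prime) (s : Module.End ℤ A) (hs : s ^ p = 1) :
    ∃ c : ℕ, finrank ℤ A = finrank ℤ (LinearMap.ker (s - 1)) + c * (p - 1) ∧
      idx (s - 1).toAddMonoidHom (∑ i ∈ Finset.range p, s ^ i).toAddMonoidHom ≠ 0 ∧
      idx (∑ i ∈ Finset.range p, s ^ i).toAddMonoidHom (s - 1).toAddMonoidHom ≠ 0 ∧
      idx (s - 1).toAddMonoidHom (∑ i ∈ Finset.range p, s ^ i).toAddMonoidHom * p ^ c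
        = idx (∑ i ∈ Finset.range p, s ^ i).toAddMonoidHom (s - 1).toAddMonoidHom
          * p ^ finrank ℤ (LinearMap.ker (s - 1)) := by
  have h1 : LinearMap.ker (s - 1) = LinearMap.ker (1 - s) := by
    ext x
    rw [LinearMap.mem_ker, LinearMap.mem_ker, ← neg_sub 1 s, LinearMap.neg_apply, neg_eq_zero]
  have h2 : (s - 1).toAddMonoidHom.ker = (1 - s).toAddMonoidHom.ker := by
    ext x
    rw [AddMonoidHom.mem_ker, AddMonoidHom.mem_ker]
    change (s - 1) x = 0 ↔ (1 - s) x = 0
    rw [← neg_sub 1 s, LinearMap.neg_apply, neg_eq_zero]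
  have h3 : (s - 1).toAddMonoidHom.range = (1 - s).toAddMonoidHom.range := by
    ext x
    constructor
    · rintro ⟨y, rfl⟩
      refine ⟨-y, ?_⟩
      change (1 - s) (-y) = (s - 1) y
      rw [map_neg, ← LinearMap.neg_apply, neg_sub]
    · rintro ⟨y, rfl⟩
      refine ⟨-y, ?_⟩
      change (s - 1) (-y) = (1 - s) y
      rw [map_neg, ← LinearMap.neg_apply, neg_sub]
  have h := herbrand_one_sub hp s hs
  unfold idx at h ⊢
  rw [h1, h2, h3]
  exact h

end Main

end Fermat.Agent.Lib.PrimeCyclicHerbrand
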