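import Mathlib
import Fermat.Agent.Lib.CompleteLocal

set_option autoImplicit false

namespace Fermat.Agent.Lib.ProArtin

open IsLocalRing

variable {𝒪 : Type*} [CommRing 𝒪] {P : Type*} [CommRing P] [Algebra 𝒪 P]

/-- The inverse limit of the quotients `P ⧸ I n`, as a subalgebra of the product. -/
def Lim (𝒪 : Type*) [CommRing 𝒪] {P : Type*} [CommRing P] [Algebra 𝒪 P] (I : ℕ → Ideal P) :
    Subalgebra 𝒪 (∀ n, P ⧸ I n) where
  carrier := {f | ∀ (m n : ℕ) (_ : m ≤ n) (hle : I n ≤ I m),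
    Ideal.Quotient.factor hle (f n) = f m}
  mul_mem' := by
    intro f g hf hg m n h hle
    simp only [Pi.mul_apply, map_mul, hf m n h hle, hg m n h hle]
  add_mem' := by
    intro f g hf hg m n h hle
    simp only [Pi.add_apply, map_add, hf m n h hle, hg m n h hle]
  algebraMap_mem' := by
    intro r m n h hle
    rfl

section basic

variable {I : ℕ → Ideal P}

/-- The projection to the `n`-th quotient. -/
def π (n : ℕ) : Lim 𝒪 I →ₐ[𝒪] P ⧸ I n :=
  (Pi.evalAlgHom 𝒪 (fun n => P ⧸ I n) n).comp (Lim 𝒪 I).val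

/-- The canonical map from `P`. -/
def ι : P →ₐ[𝒪] Lim 𝒪 I :=
  AlgHom.codRestrict (AlgHom.pi (fun n => Ideal.Quotient.mkₐ 𝒪 (I n)))
    (Lim 𝒪 I) (by intro p m n h hle; rfl)

@[simp] theorem π_ι (n : ℕ) (p : P) :
    π (𝒪 := 𝒪) n (ι (I := I) p) = Ideal.Quotient.mk (I n) p := rfl

theorem π_apply (n : ℕ) (r : Lim 𝒪 I) : π n r = r.1 n := rfl

theorem factor_π {m n : ℕ} (h : m ≤ n) (hle : I n ≤ I m) (r : Lim 𝒪 I) :
    Ideal.Quotient.factor hle (π n r) = π m r := r.2 m n h hle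

theorem π_surjective (n : ℕ) : Function.Surjective (π (𝒪 := 𝒪) (I := I) n) := by
  intro x
  obtain ⟨p, rfl⟩ := Ideal.Quotient.mk_surjective x
  exact ⟨ι p, rfl⟩

theorem ext_π {r s : Lim 𝒪 I} (h : ∀ n, π n r = π n s) : r = s :=
  Subtype.ext (funext h)

/-- Build an element from a compatible family. -/
def ofCompat (f : ∀ n, P ⧸ I n)
    (hf : ∀ (m n : ℕ) (_ : m ≤ n) (hle : I n ≤ I m), Ideal.Quotient.factor hle (f n) = f m) :
    Lim 𝒪 I :=
  ⟨f, hf⟩

@[simp] theorem π_ofCompat (f : ∀ n, P ⧸ I n)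
    (hf : ∀ (m n : ℕ) (_ : m ≤ n) (hle : I n ≤ I m), Ideal.Quotient.factor hle (f n) = f m)
    (n : ℕ) : π (𝒪 := 𝒪) n (ofCompat f hf) = f n := rfl

end basic

section evalTrunc

variable {𝒪 : Type*} [CommRing 𝒪] {S : Type*} [CommRing S] [Algebra 𝒪 S] {d : ℕ}

theorem prod_pow_mem (J : Ideal S) (a : Fin d → S) (ha : ∀ i, a i ∈ J) (x : Fin d →₀ ℕ) :
    ∏ i ∈ x.support, a i ^ x i ∈ J ^ (Finsupp.degree x) := by
  rw [Finsupp.degree_apply, ← Finset.prod_pow_eq_pow_sum]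
  exact Ideal.prod_mem_prod fun i _ => Ideal.pow_mem_pow (ha i) _

theorem aeval_eq_zero_of_coeff (J : Ideal S) (N : ℕ) (hJ : J ^ N = ⊥) (a : Fin d → S)
    (ha : ∀ i, a i ∈ J) (p : MvPolynomial (Fin d) 𝒪)
    (hp : ∀ x : Fin d →₀ ℕ, Finsupp.degree x < N → p.coeff x = 0) :
    MvPolynomial.aeval a p = 0 := by
  rw [MvPolynomial.aeval_def, MvPolynomial.eval₂_eq]
  refine Finset.sum_eq_zero fun x hx => ?_
  have hdeg : N ≤ Finsupp.degree x := by
    by_contra hlt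
    exact (MvPolynomial.mem_support_iff.mp hx) (hp x (not_le.mp hlt))
  have hmem : ∏ i ∈ x.support, a i ^ x i ∈ J ^ N :=
    Ideal.pow_le_pow_right hdeg (prod_pow_mem J a ha x)
  rw [hJ, Ideal.mem_bot] at hmem
  rw [hmem, mul_zero]

/-- Evaluation of a power series at elements of a nilpotent ideal (truncated evaluation). -/
noncomputable def evalTrunc (J : Ideal S) (N : ℕ) (hN : N ≠ 0) (hJ : J ^ N = ⊥) (a : Fin d → S)
    (ha : ∀ i, a i ∈ J) : MvPowerSeries (Fin d) 𝒪 →ₐ[𝒪] S :=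
  AlgHom.ofLinearMap
    ((MvPolynomial.aeval a).toLinearMap ∘ₗ (MvPowerSeries.truncTotal (R := 𝒪) N))
    (by
      rw [LinearMap.comp_apply, MvPowerSeries.truncTotal_one hN]
      change MvPolynomial.aeval a 1 = 1
      exact map_one _)
    (by
      intro f g
      simp only [LinearMap.comp_apply, AlgHom.toLinearMap_apply]
      rw [← map_mul, ← sub_eq_zero, ← map_sub]
      refine aeval_eq_zero_of_coeff J N hJ a ha _ fun x hx => ?_
      rw [MvPolynomial.coeff_sub, MvPowerSeries.coeff_truncTotal _ hx,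
        MvPowerSeries.coeff_truncTotal_mul_truncTotal_eq_coeff_mul _ _ hx, sub_self])

theorem evalTrunc_apply (J : Ideal S) (N : ℕ) (hN : N ≠ 0) (hJ : J ^ N = ⊥) (a : Fin d → S)
    (ha : ∀ i, a i ∈ J) (f : MvPowerSeries (Fin d) 𝒪) :
    evalTrunc J N hN hJ a ha f = MvPolynomial.aeval a (MvPowerSeries.truncTotal N f) := rfl

theorem truncTotal_X (N : ℕ) (hN : 2 ≤ N) (i : Fin d) :
    MvPowerSeries.truncTotal N (MvPowerSeries.X i : MvPowerSeries (Fin d) 𝒪) =
      MvPolynomial.X i := by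
  classical
  ext x
  rw [MvPowerSeries.coeff_truncTotal_eq_ite, MvPowerSeries.coeff_X, MvPolynomial.coeff_X]
  by_cases hx : x = Finsupp.single i 1
  · subst hx
    have h1 : Finsupp.degree (Finsupp.single i 1) < N := by
      rw [Finsupp.degree_single]
      omega
    rw [if_pos h1, if_pos rfl]
  · have hx' : ¬ Finsupp.single i 1 = x := fun h => hx h.symm
    rw [if_neg hx, if_neg hx']
    split_ifs <;> rfl

theorem evalTrunc_X (J : Ideal S) (N : ℕ) (hN : 2 ≤ N) (hJ : J ^ N = ⊥) (a : Fin d → S)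
    (ha : ∀ i, a i ∈ J) (i : Fin d) :
    evalTrunc (𝒪 := 𝒪) J N (by omega) hJ a ha (MvPowerSeries.X i) = a i := by
  rw [evalTrunc_apply, truncTotal_X N hN, MvPolynomial.aeval_X]

theorem evalTrunc_comp {S' : Type*} [CommRing S'] [Algebra 𝒪 S'] (g : S →ₐ[𝒪] S')
    (J : Ideal S) (N : ℕ) (hN : N ≠ 0) (hJ : J ^ N = ⊥) (a : Fin d → S) (ha : ∀ i, a i ∈ J)
    (J' : Ideal S') (N' : ℕ) (hN' : N' ≠ 0) (hJ' : J' ^ N' = ⊥) (ha' : ∀ i, g (a i) ∈ J')
    (hNN : N' ≤ N) (f : MvPowerSeries (Fin d) 𝒪) :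
    g (evalTrunc J N hN hJ a ha f) = evalTrunc J' N' hN' hJ' (fun i => g (a i)) ha' f := by
  rw [evalTrunc_apply, evalTrunc_apply, MvPolynomial.comp_aeval_apply, ← sub_eq_zero, ← map_sub]
  refine aeval_eq_zero_of_coeff J' N' hJ' _ ha' _ fun x hx => ?_
  rw [MvPolynomial.coeff_sub, MvPowerSeries.coeff_truncTotal _ hx,
    MvPowerSeries.coeff_truncTotal _ (lt_of_lt_of_le hx hNN), sub_self]

theorem evalTrunc_zero (J : Ideal S) (N : ℕ) (hN : N ≠ 0) (hJ : J ^ N = ⊥) (a : Fin d → S)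
    (ha : ∀ i, a i ∈ J) (ha0 : ∀ i, a i = 0) (f : MvPowerSeries (Fin d) 𝒪) :
    evalTrunc J N hN hJ a ha f = algebraMap 𝒪 S (MvPowerSeries.constantCoeff f) := by
  have : a = 0 := funext ha0
  subst this
  rw [evalTrunc_apply, MvPolynomial.aeval_zero, MvPowerSeries.constantCoeff_truncTotal_eq_ite,
    if_pos (Nat.pos_of_ne_zero hN)]

end evalTrunc

/-- Hypotheses on the tower of ideals. -/
class Sys (𝒪 : Type*) [CommRing 𝒪] {P : Type*} [CommRing P] [Algebra 𝒪 P]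
    (I : ℕ → Ideal P) : Prop where
  anti : Antitone I
  isMaximal : (I 0).IsMaximal
  surj : ∀ x : P ⧸ I 0, ∃ r : 𝒪, algebraMap 𝒪 (P ⧸ I 0) r = x
  finite : ∀ n, Finite (P ⧸ I n)
  rel : ∀ m n, m ≤ n → I m = I n ⊔ (I 0) ^ (m + 1)

namespace Sys

variable {I : ℕ → Ideal P} [h : Sys 𝒪 I]

include h

theorem pow_le (n : ℕ) : (I 0) ^ (n + 1) ≤ I n := by
  have := h.rel n n le_rfl
  rw [this]
  exact le_sup_right

theorem isUnit_iff (n : ℕ) (x : P ⧸ I n) :
    IsUnit x ↔ Ideal.Quotient.factor (h.anti (Nat.zero_le n)) x ≠ 0 := by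
  have := h.isMaximal
  constructor
  · intro hx
    exact (hx.map (Ideal.Quotient.factor (h.anti (Nat.zero_le n)))).ne_zero
  · intro hx
    obtain ⟨p, rfl⟩ := Ideal.Quotient.mk_surjective x
    rw [Ideal.Quotient.factor_mk, Ne, Ideal.Quotient.eq_zero_iff_mem] at hx
    obtain ⟨q, hq⟩ := h.isMaximal.exists_inv hx
    obtain ⟨i, hi, hqi⟩ := hq
    have hnil : IsNilpotent (Ideal.Quotient.mk (I n) i) := by
      refine ⟨n + 1, ?_⟩
      rw [← map_pow, Ideal.Quotient.eq_zero_iff_mem]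
      exact pow_le (𝒪 := 𝒪) n (Ideal.pow_mem_pow hi _)
    have hu : IsUnit (Ideal.Quotient.mk (I n) (q * p)) := by
      have : Ideal.Quotient.mk (I n) (q * p) = 1 - Ideal.Quotient.mk (I n) i := by
        rw [← map_one (Ideal.Quotient.mk (I n)), ← hqi, map_add]; ring
      rw [this]
      exact hnil.isUnit_one_sub
    rw [map_mul] at hu
    exact isUnit_of_mul_isUnit_right hu

theorem isUnit_lim_iff (r : Lim 𝒪 I) : IsUnit r ↔ π 0 r ≠ 0 := by
  have := h.isMaximal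
  constructor
  · intro hr
    exact (hr.map (π 0)).ne_zero
  · intro hr
    have hu : ∀ n, IsUnit (π n r) := fun n => by
      rw [isUnit_iff (𝒪 := 𝒪), factor_π (Nat.zero_le n)]; exact hr
    refine IsUnit.of_mul_eq_one (ofCompat (fun n => Ring.inverse (π n r)) ?_) ?_
    · intro m n hmn hle
      have h1 : Ideal.Quotient.factor hle (Ring.inverse (π n r)) * π m r = 1 := by
        rw [← factor_π hmn hle r, ← map_mul, Ring.inverse_mul_cancel _ (hu n), map_one]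
      calc Ideal.Quotient.factor hle (Ring.inverse (π n r))
          = Ideal.Quotient.factor hle (Ring.inverse (π n r)) *
              (π m r * Ring.inverse (π m r)) := by
            rw [Ring.mul_inverse_cancel _ (hu m), mul_one]
        _ = Ring.inverse (π m r) := by rw [← mul_assoc, h1, one_mul]
    · apply ext_π
      intro n
      rw [map_mul, π_ofCompat, map_one]
      exact Ring.mul_inverse_cancel _ (hu n)

theorem nontrivial : Nontrivial (Lim 𝒪 I) := by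
  have := h.isMaximal
  have : Nontrivial (P ⧸ I 0) := Ideal.Quotient.nontrivial_iff.mpr h.isMaximal.ne_top
  exact (π_surjective (𝒪 := 𝒪) (I := I) 0).nontrivial

instance isLocalRing : IsLocalRing (Lim 𝒪 I) := by
  have := nontrivial (𝒪 := 𝒪) (I := I)
  refine IsLocalRing.of_nonunits_add ?_
  intro a b ha hb
  rw [mem_nonunits_iff, isUnit_lim_iff, not_not] at ha hb ⊢
  rw [map_add, ha, hb, add_zero]

theorem mem_maximalIdeal_iff (r : Lim 𝒪 I) :
    r ∈ maximalIdeal (Lim 𝒪 I) ↔ π 0 r = 0 := by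
  rw [IsLocalRing.mem_maximalIdeal, mem_nonunits_iff, isUnit_lim_iff, not_not]

omit h in
theorem sup_pow_le (a b : Ideal P) (k : ℕ) : (a ⊔ b) ^ k ≤ a ^ k ⊔ b := by
  induction k with
  | zero => simp
  | succ k ih =>
    rw [pow_succ, pow_succ]
    refine (Ideal.mul_mono ih le_rfl).trans ?_
    rw [Ideal.mul_le]
    intro r hr s hs
    obtain ⟨r1, hr1, r2, hr2, rfl⟩ := Submodule.mem_sup.mp hr
    obtain ⟨s1, hs1, s2, hs2, rfl⟩ := Submodule.mem_sup.mp hs
    have e : (r1 + r2) * (s1 + s2) = r1 * s1 + (r1 * s2 + r2 * (s1 + s2)) := by ring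
    rw [e]
    refine Ideal.add_mem _ (Ideal.mem_sup_left (Ideal.mul_mem_mul hr1 hs1)) (Ideal.mem_sup_right ?_)
    exact Ideal.add_mem _ (Ideal.mul_mem_left _ _ hs2) (Ideal.mul_mem_right _ _ hr2)

omit h in
theorem exists_gens_aux [Finite (P ⧸ I 1)] :
    ∃ (d : ℕ) (y : Fin d → P), (∀ i, y i ∈ I 0) ∧ I 0 ≤ Ideal.span (Set.range y) ⊔ I 1 := by
  classical
  let T := {x : P ⧸ I 1 // x ∈ (I 0).map (Ideal.Quotient.mk (I 1))}
  have hT : ∀ x : T, ∃ p : P, p ∈ I 0 ∧ Ideal.Quotient.mk (I 1) p = x.1 := fun x =>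
    (Ideal.mem_map_iff_of_surjective _ Ideal.Quotient.mk_surjective).mp x.2
  choose p hp0 hp1 using hT
  let e := Finite.equivFin T
  refine ⟨Nat.card T, fun i => p (e.symm i), fun i => hp0 _, ?_⟩
  intro q hq
  let x : T := ⟨Ideal.Quotient.mk (I 1) q, Ideal.mem_map_of_mem _ hq⟩
  have h1 : q - p x ∈ I 1 := by
    rw [← Ideal.Quotient.eq_zero_iff_mem, map_sub, hp1 x, sub_self]
  have h2 : p x ∈ Ideal.span (Set.range fun i => p (e.symm i)) :=
    Ideal.subset_span ⟨e x, by simp⟩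
  have : q = p x + (q - p x) := by ring
  rw [this]
  exact Ideal.add_mem _ (Ideal.mem_sup_left h2) (Ideal.mem_sup_right h1)

theorem exists_gens :
    ∃ (d : ℕ) (y : Fin d → P), (∀ i, y i ∈ I 0) ∧
      ∀ n, I 0 = Ideal.span (Set.range y) ⊔ I n := by
  have := h.finite 1
  obtain ⟨d, y, hy0, hy1⟩ := exists_gens_aux (I := I)
  refine ⟨d, y, hy0, fun n => ?_⟩
  have hg : Ideal.span (Set.range y) ≤ I 0 := Ideal.span_le.mpr (by rintro _ ⟨i, rfl⟩; exact hy0 i)
  refine le_antisymm ?_ (sup_le hg (h.anti (Nat.zero_le n)))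
  rcases Nat.eq_zero_or_pos n with rfl | hn
  · exact le_sup_right
  set J := Ideal.span (Set.range y) ⊔ I n with hJ
  have hJ0 : J ≤ I 0 := sup_le hg (h.anti (Nat.zero_le n))
  have h1 : I 0 ≤ J ⊔ (I 0) ^ 2 := by
    refine hy1.trans ?_
    rw [h.rel 1 n hn, hJ, ← sup_assoc]
  have key : ∀ j : ℕ, I 0 ≤ J ⊔ (I 0) ^ (j + 1) := by
    intro j
    induction j with
    | zero => simp
    | succ j ih =>
      refine h1.trans (sup_le le_sup_left ?_)
      calc (I 0) ^ 2 = I 0 * I 0 := pow_two _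
        _ ≤ I 0 * (J ⊔ (I 0) ^ (j + 1)) := Ideal.mul_mono_right ih
        _ = I 0 * J ⊔ I 0 * (I 0) ^ (j + 1) := Ideal.mul_sup _ _ _
        _ ≤ J ⊔ (I 0) ^ (j + 1 + 1) := by
          refine sup_le_sup Ideal.mul_le_right ?_
          rw [pow_succ' (I 0) (j + 1)]
  refine (key n).trans (sup_le le_rfl ?_)
  exact (pow_le (𝒪 := 𝒪) n).trans le_sup_right

theorem rel_gens {d : ℕ} {y : Fin d → P} (hy : ∀ n, I 0 = Ideal.span (Set.range y) ⊔ I n)
    {m n : ℕ} (hmn : m ≤ n) : I m = I n ⊔ (Ideal.span (Set.range y)) ^ (m + 1) := by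
  refine le_antisymm ?_ ?_
  · rw [h.rel m n hmn]
    refine sup_le le_sup_left ?_
    conv_lhs => rw [hy n]
    exact (sup_pow_le _ _ _).trans (by rw [sup_comm])
  · refine sup_le (h.anti hmn) ?_
    have hg : Ideal.span (Set.range y) ≤ I 0 := by rw [hy 0]; exact le_sup_left
    exact (Ideal.pow_right_mono hg _).trans (pow_le (𝒪 := 𝒪) m)

omit h in
theorem factor_self_apply {n : ℕ} (hle : I n ≤ I n) (x : P ⧸ I n) :
    Ideal.Quotient.factor hle x = x := by
  obtain ⟨p, rfl⟩ := Ideal.Quotient.mk_surjective x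
  rfl

omit h in
theorem factor_factor_apply {l m n : ℕ} (h1 : I n ≤ I m) (h2 : I m ≤ I l) (x : P ⧸ I n) :
    Ideal.Quotient.factor h2 (Ideal.Quotient.factor h1 x) =
      Ideal.Quotient.factor (h1.trans h2) x := by
  obtain ⟨p, rfl⟩ := Ideal.Quotient.mk_surjective x
  rfl

open CategoryTheory in
/-- The inverse system of coefficient vectors expressing `r` through `S`. -/
def coeffFunctor (S : Finset P) (r : Lim 𝒪 I) : ℕᵒᵖ ⥤ Type _ where
  obj N := {a : S → P ⧸ I N.unop //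
    ∑ s : S, a s * Ideal.Quotient.mk (I N.unop) s.1 = π N.unop r}
  map {N N'} g := ↾(fun a =>
    ⟨fun s => Ideal.Quotient.factor (h.anti (leOfHom g.unop)) (a.1 s), by
      have ha := congrArg (Ideal.Quotient.factor (h.anti (leOfHom g.unop))) a.2
      rw [factor_π (leOfHom g.unop) (h.anti (leOfHom g.unop)) r, map_sum] at ha
      rw [← ha]
      refine Finset.sum_congr rfl fun s _ => ?_
      rw [map_mul, Ideal.Quotient.factor_mk]⟩)
  map_id N := by
    ext a s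
    exact factor_self_apply _ _
  map_comp f g := by
    ext a s
    exact (factor_factor_apply _ _ _).symm

theorem mem_span_ι_of_forall (S : Finset P) (r : Lim 𝒪 I)
    (hr : ∀ N, ∃ a : S → P ⧸ I N, ∑ s : S, a s * Ideal.Quotient.mk (I N) s.1 = π N r) :
    r ∈ Ideal.span ((fun p => (ι p : Lim 𝒪 I)) '' (S : Set P)) := by
  have hne : ∀ N : ℕᵒᵖ, Nonempty ((coeffFunctor S r).obj N) := fun N => by
    obtain ⟨a, ha⟩ := hr N.unop
    exact ⟨⟨a, ha⟩⟩
  have hfin : ∀ N : ℕᵒᵖ, Finite ((coeffFunctor S r).obj N) := fun N => by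
    have := h.finite N.unop
    exact Subtype.finite
  obtain ⟨u, hu⟩ := nonempty_sections_of_finite_inverse_system (coeffFunctor S r)
  have hcompat : ∀ (s : S) (m n : ℕ) (_ : m ≤ n) (hle : I n ≤ I m),
      Ideal.Quotient.factor hle ((u (Opposite.op n)).1 s) = (u (Opposite.op m)).1 s := by
    intro s m n hmn hle
    have := hu (CategoryTheory.homOfLE hmn).op
    exact congrFun (congrArg Subtype.val this) s
  let b : S → Lim 𝒪 I := fun s => ofCompat (fun N => (u (Opposite.op N)).1 s) (hcompat s)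
  have hsum : r = ∑ s : S, b s * ι s.1 := by
    apply ext_π
    intro N
    rw [map_sum]
    simp only [map_mul, π_ι]
    exact (u (Opposite.op N)).2.symm
  rw [hsum]
  exact Ideal.sum_mem _ fun s _ => Ideal.mul_mem_left _ _ (Ideal.subset_span ⟨s.1, s.2, rfl⟩)

theorem ker_π_le {d : ℕ} {y : Fin d → P} (hy : ∀ n, I 0 = Ideal.span (Set.range y) ⊔ I n)
    (m : ℕ) : RingHom.ker (π (𝒪 := 𝒪) (I := I) m) ≤
      (Ideal.span (Set.range fun i => (ι (y i) : Lim 𝒪 I))) ^ (m + 1) := by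
  intro r hr
  rw [RingHom.mem_ker] at hr
  have hfg : ((Ideal.span (Set.range y)) ^ (m + 1)).FG :=
    Ideal.FG.pow ⟨(Set.finite_range y).toFinset, by simp⟩
  obtain ⟨S, hS⟩ := hfg
  have key : ∀ N, ∃ a : S → P ⧸ I N, ∑ s : S, a s * Ideal.Quotient.mk (I N) s.1 = π N r := by
    intro N
    obtain ⟨p, hp⟩ := Ideal.Quotient.mk_surjective (π (max N m) r)
    have hpm : p ∈ I m := by
      rw [← Ideal.Quotient.eq_zero_iff_mem, ← hr,
        ← factor_π (le_max_right N m) (h.anti (le_max_right N m)) r, ← hp,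
        Ideal.Quotient.factor_mk]
    rw [rel_gens (𝒪 := 𝒪) hy (le_max_right N m)] at hpm
    obtain ⟨i, hi, g, hg, rfl⟩ := Submodule.mem_sup.mp hpm
    rw [← hS] at hg
    obtain ⟨c, hc⟩ := Submodule.mem_span_finset'.mp hg
    refine ⟨fun s => Ideal.Quotient.mk (I N) (c s), ?_⟩
    rw [← factor_π (le_max_left N m) (h.anti (le_max_left N m)) r, ← hp,
      Ideal.Quotient.factor_mk, map_add]
    have hi0 : Ideal.Quotient.mk (I N) i = 0 :=
      Ideal.Quotient.eq_zero_iff_mem.mpr (h.anti (le_max_left N m) hi)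
    rw [hi0, zero_add, ← hc, map_sum]
    refine Finset.sum_congr rfl fun s _ => ?_
    rw [smul_eq_mul, map_mul]
  have h1 := mem_span_ι_of_forall (𝒪 := 𝒪) S r key
  have h2 : Ideal.span ((fun p => (ι p : Lim 𝒪 I)) '' (S : Set P)) =
      (Ideal.span (Set.range fun i => (ι (y i) : Lim 𝒪 I))) ^ (m + 1) := by
    have e1 : (Set.range fun i => (ι (y i) : Lim 𝒪 I)) = (ι : P →ₐ[𝒪] Lim 𝒪 I) '' Set.range y := by
      rw [← Set.range_comp]; rfl
    rw [e1]
    have e2 := Ideal.map_span (ι : P →ₐ[𝒪] Lim 𝒪 I).toRingHom (Set.range y)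
    have e3 := Ideal.map_span (ι : P →ₐ[𝒪] Lim 𝒪 I).toRingHom (S : Set P)
    have e4 := Ideal.map_pow (ι : P →ₐ[𝒪] Lim 𝒪 I).toRingHom (Ideal.span (Set.range y)) (m + 1)
    rw [← hS, e3, e2] at e4
    exact e4
  rw [← h2]
  exact h1

theorem maximalIdeal_eq_ker : maximalIdeal (Lim 𝒪 I) = RingHom.ker (π (𝒪 := 𝒪) (I := I) 0) := by
  ext r
  rw [mem_maximalIdeal_iff, RingHom.mem_ker]

theorem maximalIdeal_eq_span {d : ℕ} {y : Fin d → P}
    (hy : ∀ n, I 0 = Ideal.span (Set.range y) ⊔ I n) :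
    maximalIdeal (Lim 𝒪 I) = Ideal.span (Set.range fun i => (ι (y i) : Lim 𝒪 I)) := by
  refine le_antisymm ?_ ?_
  · rw [maximalIdeal_eq_ker]
    have := ker_π_le (𝒪 := 𝒪) hy 0
    rwa [zero_add, pow_one] at this
  · rw [Ideal.span_le]
    rintro _ ⟨i, rfl⟩
    have hyi : y i ∈ I 0 := by
      rw [hy 0]; exact Ideal.mem_sup_left (Ideal.subset_span ⟨i, rfl⟩)
    rw [SetLike.mem_coe, mem_maximalIdeal_iff, π_ι, Ideal.Quotient.eq_zero_iff_mem]
    exact hyi

theorem maximalIdeal_fg : (maximalIdeal (Lim 𝒪 I)).FG := by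
  obtain ⟨d, y, -, hy⟩ := exists_gens (𝒪 := 𝒪) (I := I)
  rw [maximalIdeal_eq_span hy]
  exact ⟨(Set.finite_range fun i => (ι (y i) : Lim 𝒪 I)).toFinset, by simp⟩

theorem ker_π_eq (n : ℕ) :
    RingHom.ker (π (𝒪 := 𝒪) (I := I) n) = (maximalIdeal (Lim 𝒪 I)) ^ (n + 1) := by
  obtain ⟨d, y, -, hy⟩ := exists_gens (𝒪 := 𝒪) (I := I)
  refine le_antisymm ?_ ?_
  · rw [maximalIdeal_eq_span hy]
    exact ker_π_le hy n
  · have h1 : maximalIdeal (Lim 𝒪 I) ≤
        Ideal.comap (π (𝒪 := 𝒪) (I := I) n) ((I 0).map (Ideal.Quotient.mk (I n))) := by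
      intro r hr
      rw [mem_maximalIdeal_iff] at hr
      rw [Ideal.mem_comap]
      obtain ⟨p, hp⟩ := Ideal.Quotient.mk_surjective (π n r)
      rw [← hp]
      refine Ideal.mem_map_of_mem _ ?_
      rw [← Ideal.Quotient.eq_zero_iff_mem, ← hr,
        ← factor_π (Nat.zero_le n) (h.anti (Nat.zero_le n)) r, ← hp, Ideal.Quotient.factor_mk]
    have h2 : ((I 0).map (Ideal.Quotient.mk (I n))) ^ (n + 1) = ⊥ := by
      rw [← Ideal.map_pow, ← le_bot_iff]
      refine (Ideal.map_mono (pow_le (𝒪 := 𝒪) n)).trans ?_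
      rw [Ideal.map_quotient_self]
    calc (maximalIdeal (Lim 𝒪 I)) ^ (n + 1)
        ≤ (Ideal.comap (π (𝒪 := 𝒪) (I := I) n) ((I 0).map (Ideal.Quotient.mk (I n)))) ^ (n + 1) :=
          Ideal.pow_right_mono h1 _
      _ ≤ Ideal.comap (π (𝒪 := 𝒪) (I := I) n) (((I 0).map (Ideal.Quotient.mk (I n))) ^ (n + 1)) :=
          Ideal.le_comap_pow _ _
      _ = RingHom.ker (π (𝒪 := 𝒪) (I := I) n) := by rw [h2]; rfl

theorem mem_maximalIdeal_pow_iff (n : ℕ) (r : Lim 𝒪 I) :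
    r ∈ (maximalIdeal (Lim 𝒪 I)) ^ (n + 1) ↔ π n r = 0 := by
  rw [← ker_π_eq, RingHom.mem_ker]

instance isAdicComplete : IsAdicComplete (maximalIdeal (Lim 𝒪 I)) (Lim 𝒪 I) where
  haus' := by
    intro x hx
    apply ext_π
    intro n
    rw [map_zero, ← mem_maximalIdeal_pow_iff]
    have := hx (n + 1)
    rw [SModEq.zero, smul_eq_mul, Ideal.mul_top] at this
    exact this
  prec' := by
    intro f hf
    have hcompat : ∀ (m n : ℕ) (_ : m ≤ n) (hle : I n ≤ I m),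
        Ideal.Quotient.factor hle (π n (f (n + 1))) = π m (f (m + 1)) := by
      intro m n hmn hle
      rw [factor_π hmn hle]
      have := hf (Nat.succ_le_succ hmn)
      rw [SModEq.sub_mem, smul_eq_mul, Ideal.mul_top, mem_maximalIdeal_pow_iff, map_sub,
        sub_eq_zero] at this
      exact this.symm
    refine ⟨ofCompat (fun n => π n (f (n + 1))) hcompat, fun n => ?_⟩
    cases n with
    | zero =>
      rw [SModEq.sub_mem, pow_zero, Ideal.one_eq_top, smul_eq_mul, Ideal.mul_top]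
      exact Submodule.mem_top
    | succ n =>
      rw [SModEq.sub_mem, smul_eq_mul, Ideal.mul_top, mem_maximalIdeal_pow_iff, map_sub,
        π_ofCompat, sub_self]

theorem isLocalHom_algebraMap [IsLocalRing 𝒪] : IsLocalHom (algebraMap 𝒪 (Lim 𝒪 I)) := by
  have hmax := h.isMaximal
  have : Nontrivial (P ⧸ I 0) := Ideal.Quotient.nontrivial_iff.mpr h.isMaximal.ne_top
  constructor
  intro a ha
  rw [isUnit_lim_iff] at ha
  by_contra hna
  apply ha
  -- the kernel of `𝒪 → P ⧸ I 0` is a maximal ideal, hence the maximal ideal of `𝒪`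
  have hsurj : Function.Surjective (algebraMap 𝒪 (P ⧸ I 0)) := h.surj
  have hker : (RingHom.ker (algebraMap 𝒪 (P ⧸ I 0))).IsMaximal := by
    have hf : IsField (P ⧸ I 0) := (Ideal.Quotient.maximal_ideal_iff_isField_quotient _).mp hmax
    let _ := hf.toField
    exact RingHom.ker_isMaximal_of_surjective _ hsurj
  have hmem : a ∈ RingHom.ker (algebraMap 𝒪 (P ⧸ I 0)) := by
    rw [IsLocalRing.eq_maximalIdeal hker]
    exact (IsLocalRing.mem_maximalIdeal a).mpr hna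
  rw [RingHom.mem_ker] at hmem
  rw [AlgHom.commutes]
  exact hmem

theorem residue_surjective [IsLocalRing 𝒪] :
    Function.Surjective (IsLocalRing.residue (Lim 𝒪 I) ∘ algebraMap 𝒪 (Lim 𝒪 I)) := by
  intro x
  obtain ⟨r, rfl⟩ := IsLocalRing.residue_surjective x
  obtain ⟨c, hc⟩ := h.surj (π 0 r)
  refine ⟨c, ?_⟩
  rw [Function.comp_apply, ← sub_eq_zero, ← map_sub, IsLocalRing.residue_eq_zero_iff,
    mem_maximalIdeal_iff, map_sub, AlgHom.commutes, hc, sub_self]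

theorem map_pow_eq_bot (n : ℕ) : ((I 0).map (Ideal.Quotient.mk (I n))) ^ (n + 1) = ⊥ := by
  rw [← Ideal.map_pow, ← le_bot_iff]
  refine (Ideal.map_mono (pow_le (𝒪 := 𝒪) n)).trans ?_
  rw [Ideal.map_quotient_self]

theorem map_pow_eq_bot' (n : ℕ) : ((I 0).map (Ideal.Quotient.mk (I n))) ^ (n + 2) = ⊥ := by
  rw [pow_succ, map_pow_eq_bot (𝒪 := 𝒪) n, Ideal.bot_mul]

/-- Evaluation of power series at a tuple of elements of `I 0`. -/
noncomputable def evalLim {d : ℕ} (y : Fin d → P) (hy : ∀ i, y i ∈ I 0) :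
    MvPowerSeries (Fin d) 𝒪 →ₐ[𝒪] Lim 𝒪 I :=
  AlgHom.codRestrict
    (AlgHom.pi (fun n => evalTrunc ((I 0).map (Ideal.Quotient.mk (I n))) (n + 2)
      (Nat.succ_ne_zero _) (map_pow_eq_bot' (𝒪 := 𝒪) n) (fun i => Ideal.Quotient.mk (I n) (y i))
      (fun i => Ideal.mem_map_of_mem _ (hy i))))
    (Lim 𝒪 I)
    (by
      intro f m n hmn hle
      exact evalTrunc_comp (Ideal.Quotient.factorₐ 𝒪 hle)
        ((I 0).map (Ideal.Quotient.mk (I n))) (n + 2) (Nat.succ_ne_zero _)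
        (map_pow_eq_bot' (𝒪 := 𝒪) n) (fun i => Ideal.Quotient.mk (I n) (y i))
        (fun i => Ideal.mem_map_of_mem _ (hy i))
        ((I 0).map (Ideal.Quotient.mk (I m))) (m + 2) (Nat.succ_ne_zero _)
        (map_pow_eq_bot' (𝒪 := 𝒪) m) (fun i => Ideal.mem_map_of_mem _ (hy i)) (by omega) f)

theorem π_evalLim {d : ℕ} (y : Fin d → P) (hy : ∀ i, y i ∈ I 0) (n : ℕ)
    (f : MvPowerSeries (Fin d) 𝒪) :
    π n (evalLim (𝒪 := 𝒪) y hy f) =
      evalTrunc ((I 0).map (Ideal.Quotient.mk (I n))) (n + 2) (Nat.succ_ne_zero _)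
        (map_pow_eq_bot' (𝒪 := 𝒪) n) (fun i => Ideal.Quotient.mk (I n) (y i))
        (fun i => Ideal.mem_map_of_mem _ (hy i)) f := rfl

theorem evalLim_X {d : ℕ} (y : Fin d → P) (hy : ∀ i, y i ∈ I 0) (i : Fin d) :
    evalLim (𝒪 := 𝒪) y hy (MvPowerSeries.X i) = ι (y i) := by
  apply ext_π
  intro n
  rw [π_evalLim, π_ι]
  exact evalTrunc_X _ _ (by omega) _ _ _ i

theorem π_zero_evalLim {d : ℕ} (y : Fin d → P) (hy : ∀ i, y i ∈ I 0)
    (f : MvPowerSeries (Fin d) 𝒪) :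
    π 0 (evalLim (𝒪 := 𝒪) y hy f) =
      algebraMap 𝒪 (P ⧸ I 0) (MvPowerSeries.constantCoeff f) := by
  rw [π_evalLim]
  exact evalTrunc_zero _ _ _ _ _ _ (fun i => Ideal.Quotient.eq_zero_iff_mem.mpr (hy i)) f

theorem ker_algebraMap_eq [IsLocalRing 𝒪] :
    RingHom.ker (algebraMap 𝒪 (P ⧸ I 0)) = maximalIdeal 𝒪 := by
  have hmax := h.isMaximal
  have hsurj : Function.Surjective (algebraMap 𝒪 (P ⧸ I 0)) := h.surj
  have hker : (RingHom.ker (algebraMap 𝒪 (P ⧸ I 0))).IsMaximal := by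
    have hf : IsField (P ⧸ I 0) := (Ideal.Quotient.maximal_ideal_iff_isField_quotient _).mp hmax
    let _ := hf.toField
    exact RingHom.ker_isMaximal_of_surjective _ hsurj
  exact IsLocalRing.eq_maximalIdeal hker

theorem evalLim_surjective [IsLocalRing 𝒪] [IsNoetherianRing 𝒪]
    [IsAdicComplete (maximalIdeal 𝒪) 𝒪] {d : ℕ} (y : Fin d → P)
    (hy : ∀ n, I 0 = Ideal.span (Set.range y) ⊔ I n) (hy0 : ∀ i, y i ∈ I 0) :
    Function.Surjective (evalLim (𝒪 := 𝒪) (I := I) y hy0) := by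
  set Ψ : MvPowerSeries (Fin d) 𝒪 →+* Lim 𝒪 I :=
    (evalLim (𝒪 := 𝒪) (I := I) y hy0).toRingHom with hΨ
  have hmapeq : (maximalIdeal (MvPowerSeries (Fin d) 𝒪)).map Ψ = maximalIdeal (Lim 𝒪 I) := by
    refine le_antisymm ?_ ?_
    · rw [Ideal.map_le_iff_le_comap]
      intro l hl
      rw [Ideal.mem_comap, mem_maximalIdeal_iff]
      change π 0 (evalLim y hy0 l) = 0
      rw [π_zero_evalLim]
      have hl' : MvPowerSeries.constantCoeff l ∈ maximalIdeal 𝒪 := by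
        rw [IsLocalRing.mem_maximalIdeal, mem_nonunits_iff] at hl ⊢
        rwa [MvPowerSeries.isUnit_iff_constantCoeff] at hl
      rw [← ker_algebraMap_eq (𝒪 := 𝒪) (I := I)] at hl'
      exact hl'
    · rw [maximalIdeal_eq_span hy, Ideal.span_le]
      rintro _ ⟨i, rfl⟩
      have hX : (ι (y i) : Lim 𝒪 I) = Ψ (MvPowerSeries.X i) := (evalLim_X y hy0 i).symm
      change (ι (y i) : Lim 𝒪 I) ∈ _
      rw [hX]
      refine Ideal.mem_map_of_mem _ ?_
      rw [IsLocalRing.mem_maximalIdeal, mem_nonunits_iff, MvPowerSeries.isUnit_iff_constantCoeff,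
        MvPowerSeries.constantCoeff_X]
      exact not_isUnit_zero
  have hc := Fermat.Agent.Lib.CompleteLocal.isAdicComplete_mvPowerSeries_fin 𝒪 d
  have hH : IsHausdorff ((maximalIdeal (MvPowerSeries (Fin d) 𝒪)).map Ψ) (Lim 𝒪 I) := by
    rw [hmapeq]; infer_instance
  refine surjective_of_mk_map_comp_surjective
    (I := maximalIdeal (MvPowerSeries (Fin d) 𝒪)) Ψ ?_
  intro x
  obtain ⟨r, rfl⟩ := Ideal.Quotient.mk_surjective x
  obtain ⟨c, hc⟩ := h.surj (π 0 r)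
  refine ⟨algebraMap 𝒪 _ c, ?_⟩
  rw [RingHom.comp_apply, Ideal.Quotient.eq, hmapeq, mem_maximalIdeal_iff, map_sub]
  change π 0 (evalLim y hy0 (algebraMap 𝒪 _ c)) - π 0 r = 0
  rw [AlgHom.commutes, AlgHom.commutes, hc, sub_self]

instance isNoetherianRing [IsLocalRing 𝒪] [IsNoetherianRing 𝒪]
    [IsAdicComplete (maximalIdeal 𝒪) 𝒪] : IsNoetherianRing (Lim 𝒪 I) := by
  obtain ⟨d, y, hy0, hy⟩ := exists_gens (𝒪 := 𝒪) (I := I)
  exact isNoetherianRing_of_surjective _ _ (evalLim (𝒪 := 𝒪) (I := I) y hy0).toRingHom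
    (evalLim_surjective y hy hy0)

end Sys

end Fermat.Agent.Lib.ProArtin
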