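import Mathlib

/-!
# Representations satisfying a scalar quadratic relation

Let `ρ : G →* End_K(M)` be a representation on a `K`-vector space, `δ : G →* K` a character and
`t : G → K` a function with

  `ρ g + δ g • ρ g⁻¹ = t g • 1`   for all `g`                                   (`QuadRel ρ δ t`)

(every `g` is killed by `X² - t(g) X + δ(g)`).  We prove, by elementary linear algebra (no
Burnside, no algebraic closure):

* `exists_stable` : if `M ≠ 0` is finite-dimensional and either some `g₀` has two distinct roots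
  `μ ≠ μ'` in `K` (`μ + μ' = t g₀`, `μ μ' = δ g₀`) or every `g` has a double root in `K`, then `M`
  contains a `G`-stable subspace `Y` which is either a line (on which `G` acts through a character
  `ψ` with `ψ + δ ψ⁻¹ = t`) or a plane on which every `g` has characteristic polynomial
  `X² - t(g) X + δ(g)`;
* `exists_quadratic_ext` : in characteristic `≠ 2` the root hypothesis holds after an extension of
  scalars of degree `≤ 2`;
* `exists_ext_stable` : the combination, on `K'' ⊗[K] M`;
* `exists_stable_of_isAlgClosed` : the algebraically closed case (any characteristic);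
* `charpoly_eq_of_finrank_two` : in dimension `2`, one non-scalar element forces
  `charpoly (ρ g) = X² - t(g) X + δ(g)` for all `g`.
-/

set_option autoImplicit false

open Polynomial Module

noncomputable section

namespace Fermat.Agent.Lib.QuadRelation

universe u v w

section Basic

variable {K : Type u} [Field K] {G : Type v} [Group G] {M : Type w} [AddCommGroup M] [Module K M]

/-- The scalar quadratic relation. -/
def QuadRel (ρ : G →* Module.End K M) (δ : G →* K) (t : G → K) : Prop :=
  ∀ g, ρ g + δ g • ρ g⁻¹ = t g • (1 : Module.End K M)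

/-- `G`-stable subspaces. -/
def Stable (ρ : G →* Module.End K M) (Y : Submodule K M) : Prop :=
  ∀ g, ∀ y ∈ Y, ρ g y ∈ Y

variable {ρ : G →* Module.End K M} {δ : G →* K} {t : G → K}

lemma rho_inv_apply (ρ : G →* Module.End K M) (g : G) (x : M) : ρ g⁻¹ (ρ g x) = x := by
  rw [← Module.End.mul_apply, ← map_mul, inv_mul_cancel, map_one, Module.End.one_apply]

lemma rho_mul_apply (ρ : G →* Module.End K M) (g k : G) (x : M) : ρ (g * k) x = ρ g (ρ k x) := by
  rw [map_mul, Module.End.mul_apply]

lemma delta_ne_zero (δ : G →* K) (g : G) : δ g ≠ 0 := by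
  intro h
  have h1 : δ g * δ g⁻¹ = 1 := by rw [← map_mul, mul_inv_cancel, map_one]
  rw [h, zero_mul] at h1
  exact zero_ne_one h1

lemma QuadRel.apply (h : QuadRel ρ δ t) (g : G) (x : M) : ρ g x + δ g • ρ g⁻¹ x = t g • x := by
  have := congrArg (fun f : Module.End K M => f x) (h g)
  simpa using this

/-- Every `g` is killed by `X² - t(g) X + δ(g)`. -/
lemma QuadRel.quad (h : QuadRel ρ δ t) (g : G) (x : M) : ρ g (ρ g x) = t g • ρ g x - δ g • x := by
  have h1 := h.apply g (ρ g x)
  rw [rho_inv_apply] at h1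
  rw [← h1, add_sub_cancel_right]

/-- Polarisation of the relation. -/
lemma QuadRel.polar (h : QuadRel ρ δ t) (g k : G) (x : M) :
    ρ g (ρ k x) + ρ k (ρ g x) =
      t k • ρ g x + t g • ρ k x + (t (g * k) - t g * t k) • x := by
  have h1 : δ g • ρ g⁻¹ x = t g • x - ρ g x := by
    rw [← h.apply g x, add_sub_cancel_left]
  have h2 : ∀ z, δ k • ρ k⁻¹ z = t k • z - ρ k z := by
    intro z
    rw [← h.apply k z, add_sub_cancel_left]
  have h3 := h.apply (g * k) x
  rw [mul_inv_rev, rho_mul_apply, rho_mul_apply, map_mul, mul_comm (δ g) (δ k), mul_smul,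
    ← map_smul (ρ k⁻¹), h1, h2, map_sub, map_smul] at h3
  linear_combination (norm := module) h3

/-- The key consequence: an eigenvector `u` of `ρ g₀` stays "almost an eigenvector" (for the other
root) under the whole group, modulo `K u`. -/
lemma QuadRel.key (h : QuadRel ρ δ t) (g₀ : G) (μ μ' : K) (hsum : μ + μ' = t g₀) (u : M)
    (hu : ρ g₀ u = μ • u) (k : G) :
    ρ g₀ (ρ k u) = μ' • ρ k u + (t k * μ + (t (g₀ * k) - t g₀ * t k)) • u := by
  have h1 := h.polar g₀ k u
  rw [hu, map_smul] at h1
  have h2 : ρ g₀ (ρ k u) =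
      t k • μ • u + t g₀ • ρ k u + (t (g₀ * k) - t g₀ * t k) • u - μ • ρ k u := by
    rw [← h1, add_sub_cancel_right]
  rw [h2, ← hsum]
  module

/-! ### Orbit spans -/

/-- The span of the `G`-orbit of a vector. -/
def orbitSpan (ρ : G →* Module.End K M) (u : M) : Submodule K M :=
  Submodule.span K (Set.range fun g : G => ρ g u)

lemma self_mem_orbitSpan (ρ : G →* Module.End K M) (u : M) : u ∈ orbitSpan ρ u :=
  Submodule.subset_span ⟨1, by
    show ρ 1 u = u
    rw [map_one, Module.End.one_apply]⟩

lemma stable_orbitSpan (ρ : G →* Module.End K M) (u : M) : Stable ρ (orbitSpan ρ u) := by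
  intro g y hy
  induction hy using Submodule.span_induction with
  | mem x hx =>
    obtain ⟨k, rfl⟩ := hx
    exact Submodule.subset_span ⟨g * k, rho_mul_apply ρ g k u⟩
  | zero => rw [map_zero]; exact Submodule.zero_mem _
  | add x y _ _ hx hy => rw [map_add]; exact Submodule.add_mem _ hx hy
  | smul a x _ hx => rw [map_smul]; exact Submodule.smul_mem _ a hx

lemma orbitSpan_le {Y : Submodule K M} (hY : Stable ρ Y) {u : M} (hu : u ∈ Y) :
    orbitSpan ρ u ≤ Y :=
  Submodule.span_le.2 (by rintro _ ⟨g, rfl⟩; exact hY g u hu)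

lemma QuadRel.key_span (h : QuadRel ρ δ t) (g₀ : G) (μ μ' : K) (hsum : μ + μ' = t g₀) (u : M)
    (hu : ρ g₀ u = μ • u) :
    ∀ x ∈ orbitSpan ρ u, ∃ c : K, ρ g₀ x = μ' • x + c • u := by
  intro x hx
  induction hx using Submodule.span_induction with
  | mem x hx =>
    obtain ⟨k, rfl⟩ := hx
    exact ⟨_, h.key g₀ μ μ' hsum u hu k⟩
  | zero => exact ⟨0, by rw [map_zero, smul_zero, zero_smul, add_zero]⟩
  | add x y _ _ hx hy =>
    obtain ⟨c, hc⟩ := hx
    obtain ⟨d, hd⟩ := hy
    exact ⟨c + d, by rw [map_add, hc, hd]; module⟩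
  | smul a x _ hx =>
    obtain ⟨c, hc⟩ := hx
    exact ⟨a * c, by rw [map_smul, hc]; module⟩

/-! ### Distinct roots -/

/-- **Distinct roots, with an eigenvector.**  If `ρ g₀` has an eigenvector for the root `μ` and
the other root `μ'` is different, there is a stable line, or a stable plane spanned by
eigenvectors of `ρ g₀` for `μ` and `μ'`. -/
theorem exists_stable_of_eigen (h : QuadRel ρ δ t) (g₀ : G) (μ μ' : K) (hne : μ ≠ μ')
    (hsum : μ + μ' = t g₀) (hprod : μ * μ' = δ g₀) (u : M) (hu0 : u ≠ 0)
    (hu : ρ g₀ u = μ • u) :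
    ∃ Y : Submodule K M, Stable ρ Y ∧
      ((∃ y, y ≠ 0 ∧ Y = Submodule.span K {y}) ∨
       (∃ y y', ρ g₀ y = μ • y ∧ ρ g₀ y' = μ' • y' ∧ y ≠ 0 ∧ y' ≠ 0 ∧
          Y = Submodule.span K {y, y'})) := by
  have hd : μ - μ' ≠ 0 := sub_ne_zero.2 hne
  have hkey := h.key_span g₀ μ μ' hsum u hu
  by_cases hX : ∀ x ∈ orbitSpan ρ u, ρ g₀ x = μ • x
  · -- the orbit span is the line `K u`
    refine ⟨orbitSpan ρ u, stable_orbitSpan ρ u, Or.inl ⟨u, hu0, le_antisymm ?_ ?_⟩⟩
    · intro x hx
      obtain ⟨c, hc⟩ := hkey x hx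
      rw [hX x hx] at hc
      rw [Submodule.mem_span_singleton]
      refine ⟨c / (μ - μ'), ?_⟩
      have h1 : (μ - μ') • x = c • u := by
        linear_combination (norm := module) hc
      rw [div_eq_inv_mul, mul_smul, ← h1, smul_smul, inv_mul_cancel₀ hd, one_smul]
    · rw [Submodule.span_singleton_le_iff_mem]
      exact self_mem_orbitSpan ρ u
  · push Not at hX
    obtain ⟨x, hx, hxne⟩ := hX
    -- a second eigenvector, for `μ'`, inside the orbit span
    obtain ⟨u', hu'def⟩ : ∃ u', u' = ρ g₀ x - μ • x := ⟨_, rfl⟩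
    have hu'0 : u' ≠ 0 := by
      rw [hu'def]
      exact sub_ne_zero.2 hxne
    have hu'mem : u' ∈ orbitSpan ρ u := by
      rw [hu'def]
      exact Submodule.sub_mem _ (stable_orbitSpan ρ u g₀ x hx) (Submodule.smul_mem _ _ hx)
    have hu' : ρ g₀ u' = μ' • u' := by
      rw [hu'def, map_sub, map_smul, h.quad g₀ x, ← hsum, ← hprod]
      module
    have hle : orbitSpan ρ u' ≤ orbitSpan ρ u := orbitSpan_le (stable_orbitSpan ρ u) hu'mem
    have hkey' := h.key_span g₀ μ' μ (by rw [add_comm]; exact hsum) u' hu'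
    have hpair : orbitSpan ρ u' ≤ Submodule.span K {u, u'} := by
      intro x' hx'
      obtain ⟨c', hc'⟩ := hkey' x' hx'
      obtain ⟨c, hc⟩ := hkey x' (hle hx')
      rw [Submodule.mem_span_pair]
      refine ⟨c / (μ - μ'), -c' / (μ - μ'), ?_⟩
      have h1 : (μ - μ') • x' = c • u - c' • u' := by
        have : μ • x' + c' • u' = μ' • x' + c • u := by rw [← hc', hc]
        linear_combination (norm := module) this
      have h2 : x' = (μ - μ')⁻¹ • (c • u - c' • u') := by
        rw [← h1, smul_smul, inv_mul_cancel₀ hd, one_smul]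
      rw [h2, div_eq_inv_mul, div_eq_inv_mul]
      module
    by_cases huin : u ∈ orbitSpan ρ u'
    · refine ⟨orbitSpan ρ u', stable_orbitSpan ρ u', Or.inr ⟨u, u', hu, hu', hu0, hu'0,
        le_antisymm hpair ?_⟩⟩
      rw [Submodule.span_le]
      rintro y (rfl | rfl)
      · exact huin
      · exact self_mem_orbitSpan ρ _
    · refine ⟨orbitSpan ρ u', stable_orbitSpan ρ u', Or.inl ⟨u', hu'0, le_antisymm ?_ ?_⟩⟩
      · intro x' hx'
        obtain ⟨a, b, hab⟩ := Submodule.mem_span_pair.1 (hpair hx')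
        have ha : a = 0 := by
          by_contra ha
          apply huin
          have : u = a⁻¹ • (x' - b • u') := by
            rw [← hab, add_sub_cancel_right, smul_smul, inv_mul_cancel₀ ha, one_smul]
          rw [this]
          exact Submodule.smul_mem _ _ (Submodule.sub_mem _ hx'
            (Submodule.smul_mem _ _ (self_mem_orbitSpan ρ u')))
        rw [ha, zero_smul, zero_add] at hab
        rw [Submodule.mem_span_singleton]
        exact ⟨b, hab⟩
      · rw [Submodule.span_singleton_le_iff_mem]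
        exact self_mem_orbitSpan ρ u'

/-- **Distinct roots.**  If some `g₀` has two distinct roots in `K` and `M ≠ 0`, there is a stable
line, or a stable plane spanned by eigenvectors of `ρ g₀` for the two roots. -/
theorem exists_stable_of_distinct [Nontrivial M] (h : QuadRel ρ δ t) (g₀ : G) (μ μ' : K)
    (hne : μ ≠ μ') (hsum : μ + μ' = t g₀) (hprod : μ * μ' = δ g₀) :
    ∃ Y : Submodule K M, Stable ρ Y ∧
      ((∃ y, y ≠ 0 ∧ Y = Submodule.span K {y}) ∨
       (∃ y y', ρ g₀ y = μ • y ∧ ρ g₀ y' = μ' • y' ∧ y ≠ 0 ∧ y' ≠ 0 ∧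
          Y = Submodule.span K {y, y'})) := by
  obtain ⟨m, hm⟩ := exists_ne (0 : M)
  by_cases hv : ρ g₀ m - μ' • m = 0
  · -- `m` is an eigenvector for `μ'`
    have hm' : ρ g₀ m = μ' • m := sub_eq_zero.1 hv
    obtain ⟨Y, hY, hcase⟩ := exists_stable_of_eigen h g₀ μ' μ hne.symm
      (by rw [add_comm]; exact hsum) (by rw [mul_comm]; exact hprod) m hm hm'
    refine ⟨Y, hY, ?_⟩
    rcases hcase with hl | ⟨y, y', hy, hy', hy0, hy'0, hYeq⟩
    · exact Or.inl hl
    · exact Or.inr ⟨y', y, hy', hy, hy'0, hy0, by rw [hYeq, Set.pair_comm]⟩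
  · have hv' : ρ g₀ (ρ g₀ m - μ' • m) = μ • (ρ g₀ m - μ' • m) := by
      rw [map_sub, map_smul, h.quad g₀ m, ← hsum, ← hprod]
      module
    exact exists_stable_of_eigen h g₀ μ μ' hne hsum hprod _ hv hv'

/-! ### Sub-representations -/

/-- The restriction of the representation to a stable subspace. -/
def subRep (ρ : G →* Module.End K M) (Y : Submodule K M) (hY : Stable ρ Y) :
    G →* Module.End K Y where
  toFun g := (ρ g).restrict (hY g)
  map_one' := by
    ext y
    show ((ρ 1) (y : M) : M) = y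
    rw [map_one, Module.End.one_apply]
  map_mul' g k := by
    ext y
    show ρ (g * k) (y : M) = ρ g (ρ k (y : M))
    rw [rho_mul_apply]

lemma subRep_apply_coe {Y : Submodule K M} (hY : Stable ρ Y) (g : G) (y : Y) :
    ((subRep ρ Y hY g y : Y) : M) = ρ g (y : M) := rfl

lemma QuadRel.sub (h : QuadRel ρ δ t) (Y : Submodule K M) (hY : Stable ρ Y) :
    QuadRel (subRep ρ Y hY) δ t := by
  intro g
  ext y
  show ρ g (y : M) + δ g • ρ g⁻¹ (y : M) = t g • (y : M)
  exact h.apply g y

/-! ### Lines -/

/-- On a stable line the group acts through a character `ψ` with `ψ + δ ψ⁻¹ = t`. -/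
theorem exists_char_of_line (h : QuadRel ρ δ t) {Y : Submodule K M} (hY : Stable ρ Y) (y₀ : M)
    (hy₀ : y₀ ≠ 0) (hYeq : Y = Submodule.span K {y₀}) :
    ∃ ψ : G →* K, (∀ g, ∀ y ∈ Y, ρ g y = ψ g • y) ∧ ∀ g, ψ g + δ g * ψ g⁻¹ = t g := by
  have hy₀mem : y₀ ∈ Y := by
    rw [hYeq]
    exact Submodule.mem_span_singleton_self y₀
  have hex : ∀ g, ∃ c : K, c • y₀ = ρ g y₀ := fun g => by
    have := hY g y₀ hy₀mem
    rw [hYeq, Submodule.mem_span_singleton] at this
    exact this
  choose ψ hψ using hex
  have hinj : ∀ a b : K, a • y₀ = b • y₀ → a = b := fun a b hab =>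
    smul_left_injective K hy₀ hab
  have h1 : ψ 1 = 1 := by
    apply hinj
    rw [hψ, map_one, Module.End.one_apply, one_smul]
  have hmul : ∀ g k, ψ (g * k) = ψ g * ψ k := by
    intro g k
    apply hinj
    rw [hψ, rho_mul_apply, ← hψ k, map_smul, ← hψ g, smul_smul, mul_comm]
  refine ⟨⟨⟨ψ, h1⟩, hmul⟩, ?_, ?_⟩
  · intro g y hy
    rw [hYeq, Submodule.mem_span_singleton] at hy
    obtain ⟨a, rfl⟩ := hy
    show ρ g (a • y₀) = ψ g • a • y₀
    rw [map_smul, ← hψ g, smul_comm]
  · intro g
    apply hinj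
    show (ψ g + δ g * ψ g⁻¹) • y₀ = t g • y₀
    rw [add_smul, mul_smul, hψ, hψ, h.apply]

/-! ### Planes -/

/-- Cayley–Hamilton for `2 × 2` matrices. -/
lemma matrix_two_mul_self (A : Matrix (Fin 2) (Fin 2) K) :
    A * A = A.trace • A - A.det • (1 : Matrix (Fin 2) (Fin 2) K) := by
  ext i j
  fin_cases i <;> fin_cases j <;>
    simp [Matrix.mul_apply, Fin.sum_univ_two, Matrix.trace_fin_two, Matrix.det_fin_two] <;>
    ring

/-- **Dimension two.**  If `M` is a plane on which some element acts by a non-scalar, then every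
`g` has characteristic polynomial `X² - t(g) X + δ(g)`. -/
theorem charpoly_eq_of_finrank_two [FiniteDimensional K M] (h : QuadRel ρ δ t)
    (hM : finrank K M = 2) (g₁ : G) (hg₁ : ∀ c : K, ρ g₁ ≠ c • (1 : Module.End K M)) (g : G) :
    (ρ g).charpoly = X ^ 2 - C (t g) * X + C (δ g) := by
  classical
  obtain ⟨b⟩ : Nonempty (Basis (Fin 2) K M) := ⟨Module.finBasisOfFinrankEq K M hM⟩
  obtain ⟨Φ, hΦ⟩ : ∃ Φ : Module.End K M ≃ₐ[K] Matrix (Fin 2) (Fin 2) K,
      ∀ f, Φ f = LinearMap.toMatrix b b f := ⟨LinearMap.toMatrixAlgEquiv b, fun _ => rfl⟩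
  have hquad : ∀ g, Φ (ρ g) * Φ (ρ g) =
      t g • Φ (ρ g) - δ g • (1 : Matrix (Fin 2) (Fin 2) K) := by
    intro g
    have h1 : ρ g * ρ g = t g • ρ g - δ g • (1 : Module.End K M) := by
      ext x
      simp only [Module.End.mul_apply, LinearMap.sub_apply, LinearMap.smul_apply,
        Module.End.one_apply]
      exact h.quad g x
    rw [← map_mul, h1, map_sub, map_smul, map_smul, map_one]
  have hcp : ∀ g, (ρ g).charpoly =
      X ^ 2 - C (Φ (ρ g)).trace * X + C (Φ (ρ g)).det := by
    intro g
    rw [← LinearMap.charpoly_toMatrix (ρ g) b, Matrix.charpoly_fin_two, hΦ]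
  -- non-scalar elements have trace `t` and determinant `δ`
  have hns : ∀ g, (∀ c : K, ρ g ≠ c • (1 : Module.End K M)) →
      (Φ (ρ g)).trace = t g ∧ (Φ (ρ g)).det = δ g := by
    intro g hg
    have h1 : ((Φ (ρ g)).trace - t g) • Φ (ρ g) =
        ((Φ (ρ g)).det - δ g) • (1 : Matrix (Fin 2) (Fin 2) K) := by
      have h2 := (matrix_two_mul_self (Φ (ρ g))).symm.trans (hquad g)
      linear_combination (norm := module) h2
    have htr : (Φ (ρ g)).trace = t g := by
      by_contra hne
      have hne' : (Φ (ρ g)).trace - t g ≠ 0 := sub_ne_zero.2 hne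
      apply hg (((Φ (ρ g)).trace - t g)⁻¹ * ((Φ (ρ g)).det - δ g))
      apply Φ.injective
      rw [map_smul, map_one, mul_smul, ← h1, smul_smul, inv_mul_cancel₀ hne', one_smul]
    refine ⟨htr, ?_⟩
    rw [htr, sub_self, zero_smul] at h1
    have h2 := congrFun (congrFun h1 0) 0
    simp only [Matrix.zero_apply, Matrix.smul_apply, Matrix.one_apply_eq, smul_eq_mul,
      mul_one] at h2
    exact sub_eq_zero.1 h2.symm
  by_cases hg : ∀ c : K, ρ g ≠ c • (1 : Module.End K M)
  · obtain ⟨h1, h2⟩ := hns g hg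
    rw [hcp, h1, h2]
  · push Not at hg
    obtain ⟨c, hc⟩ := hg
    have hM' : Nontrivial M := Module.nontrivial_of_finrank_pos (R := K) (by rw [hM]; norm_num)
    obtain ⟨m, hm⟩ := exists_ne (0 : M)
    have hc0 : c ≠ 0 := by
      rintro rfl
      have h1 := rho_inv_apply ρ g m
      rw [hc, zero_smul, LinearMap.zero_apply, map_zero] at h1
      exact hm h1.symm
    have hgg₁ : ∀ d : K, ρ (g * g₁) ≠ d • (1 : Module.End K M) := by
      intro d hd
      apply hg₁ (c⁻¹ * d)
      rw [map_mul, hc, smul_mul_assoc, one_mul] at hd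
      rw [mul_smul, ← hd, smul_smul, inv_mul_cancel₀ hc0, one_smul]
    obtain ⟨-, hdet⟩ := hns (g * g₁) hgg₁
    obtain ⟨-, hdet₁⟩ := hns g₁ hg₁
    have hΦg : Φ (ρ g) = c • (1 : Matrix (Fin 2) (Fin 2) K) := by
      rw [hc, map_smul, map_one]
    rw [map_mul, map_mul, Matrix.det_mul, hdet₁, hΦg, Matrix.det_smul, Matrix.det_one,
      Fintype.card_fin, map_mul, mul_one] at hdet
    have hδ : δ g = c ^ 2 := (mul_right_cancel₀ (delta_ne_zero δ g₁) hdet).symm
    have ht : t g = 2 * c := by
      have h1 := h.quad g m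
      rw [hc] at h1
      simp only [LinearMap.smul_apply, Module.End.one_apply] at h1
      have h2 : (c * c) • m = (t g * c - δ g) • m := by
        rw [mul_smul, h1, sub_smul, mul_smul]
      have h3 := smul_left_injective K hm h2
      rw [hδ] at h3
      have h4 : c * (t g - 2 * c) = 0 := by linear_combination -h3
      have h5 := (mul_eq_zero.1 h4).resolve_left hc0
      exact sub_eq_zero.1 h5
    rw [hcp, hΦg, Matrix.trace_smul, Matrix.trace_one, Matrix.det_smul, Matrix.det_one,
      Fintype.card_fin, ht, hδ]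
    simp only [Nat.cast_ofNat, smul_eq_mul, mul_one]
    rw [mul_comm c 2]

/-- A stable plane spanned by eigenvectors of `ρ g₀` for two distinct roots: dimension two and
the characteristic polynomials. -/
theorem plane_case [FiniteDimensional K M] (h : QuadRel ρ δ t) {Y : Submodule K M} (hY : Stable ρ Y) (g₀ : G) (μ μ' : K)
    (hne : μ ≠ μ') (y y' : M) (hy : ρ g₀ y = μ • y) (hy' : ρ g₀ y' = μ' • y') (hy0 : y ≠ 0)
    (hy'0 : y' ≠ 0) (hYeq : Y = Submodule.span K {y, y'}) :
    finrank K Y = 2 ∧
      ∀ g, (subRep ρ Y hY g).charpoly = X ^ 2 - C (t g) * X + C (δ g) := by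
  have hd : μ - μ' ≠ 0 := sub_ne_zero.2 hne
  have hli : LinearIndependent K ![y, y'] := by
    rw [LinearIndependent.pair_iff]
    intro s r hsr
    have h1 : ρ g₀ (s • y + r • y') - μ' • (s • y + r • y') = (s * (μ - μ')) • y := by
      rw [map_add, map_smul, map_smul, hy, hy']
      module
    rw [hsr, map_zero, smul_zero, sub_zero] at h1
    have hs : s = 0 := by
      rcases smul_eq_zero.1 h1.symm with h2 | h2
      · exact (mul_eq_zero.1 h2).resolve_right hd
      · exact absurd h2 hy0
    rw [hs, zero_smul, zero_add] at hsr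
    exact ⟨hs, (smul_eq_zero.1 hsr).resolve_right hy'0⟩
  have hfin : finrank K Y = 2 := by
    have h1 := finrank_span_eq_card hli
    rw [Matrix.range_cons_cons_empty, ← hYeq] at h1
    rw [h1, Fintype.card_fin]
  have hymem : y ∈ Y := by
    rw [hYeq]
    exact Submodule.subset_span (Set.mem_insert _ _)
  have hy'mem : y' ∈ Y := by
    rw [hYeq]
    exact Submodule.subset_span (Set.mem_insert_of_mem _ rfl)
  refine ⟨hfin, fun g => charpoly_eq_of_finrank_two (h.sub Y hY) hfin g₀ ?_ g⟩
  intro c hc
  have h1 : ρ g₀ y = c • y :=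
    congrArg (fun z : Y => (z : M)) (congrArg (fun f : Module.End K Y => f ⟨y, hymem⟩) hc)
  have h2 : ρ g₀ y' = c • y' :=
    congrArg (fun z : Y => (z : M)) (congrArg (fun f : Module.End K Y => f ⟨y', hy'mem⟩) hc)
  rw [hy] at h1
  rw [hy'] at h2
  exact hne ((smul_left_injective K hy0 h1).trans (smul_left_injective K hy'0 h2).symm)

/-! ### Double roots -/

/-- **Double root.**  If `M` has no proper nonzero stable subspace and some `g₀` with a double
root `μ` does not act by the scalar `μ`, then `M` is a plane. -/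
theorem finrank_eq_two_of_double (h : QuadRel ρ δ t)
    (hmin : ∀ Y : Submodule K M, Stable ρ Y → Y = ⊥ ∨ Y = ⊤) (g₀ : G) (μ : K)
    (hsum : t g₀ = 2 * μ) (hprod : δ g₀ = μ ^ 2)
    (hns : ρ g₀ ≠ μ • (1 : Module.End K M)) : finrank K M = 2 := by
  have hsum' : μ + μ = t g₀ := by rw [hsum, two_mul]
  obtain ⟨m, hm⟩ : ∃ m, ρ g₀ m - μ • m ≠ 0 := by
    by_contra hall
    push Not at hall
    apply hns
    ext x
    rw [LinearMap.smul_apply, Module.End.one_apply]
    exact sub_eq_zero.1 (hall x)
  obtain ⟨u, hudef⟩ : ∃ u, u = ρ g₀ m - μ • m := ⟨_, rfl⟩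
  have hu0 : u ≠ 0 := hudef ▸ hm
  have hm' : ρ g₀ m = μ • m + u := by rw [hudef]; abel
  have hu : ρ g₀ u = μ • u := by
    rw [hudef, map_sub, map_smul, h.quad g₀ m, hsum, hprod]
    module
  have htop : ∀ v : M, v ≠ 0 → orbitSpan ρ v = ⊤ := by
    intro v hv
    rcases hmin _ (stable_orbitSpan ρ v) with h0 | h1
    · exact absurd ((Submodule.eq_bot_iff _).1 h0 v (self_mem_orbitSpan ρ v)) hv
    · exact h1
  have hkey : ∀ x : M, ∃ c : K, ρ g₀ x = μ • x + c • u := fun x =>
    h.key_span g₀ μ μ hsum' u hu x (by rw [htop u hu0]; exact Submodule.mem_top)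
  have hker : ∀ u₁ : M, ρ g₀ u₁ = μ • u₁ → ∃ a : K, u₁ = a • u := by
    intro u₁ hu₁
    by_cases h0 : u₁ = 0
    · exact ⟨0, by rw [h0, zero_smul]⟩
    · obtain ⟨c₁, hc₁⟩ := h.key_span g₀ μ μ hsum' u₁ hu₁ m
        (by rw [htop u₁ h0]; exact Submodule.mem_top)
      have hu_eq : u = c₁ • u₁ := by rw [hudef, hc₁, add_sub_cancel_left]
      have hc₁0 : c₁ ≠ 0 := by
        rintro rfl
        rw [zero_smul] at hu_eq
        exact hu0 hu_eq
      exact ⟨c₁⁻¹, by rw [hu_eq, smul_smul, inv_mul_cancel₀ hc₁0, one_smul]⟩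
  have hspan : Submodule.span K {u, m} = ⊤ := by
    rw [eq_top_iff]
    intro x _
    obtain ⟨c, hc⟩ := hkey x
    have hx : ρ g₀ (x - c • m) = μ • (x - c • m) := by
      rw [map_sub, map_smul, hc, hm']
      module
    obtain ⟨a, ha⟩ := hker _ hx
    rw [Submodule.mem_span_pair]
    exact ⟨a, c, by rw [← ha]; abel⟩
  have hli : LinearIndependent K ![u, m] := by
    rw [LinearIndependent.pair_iff]
    intro s r hsr
    have h1 : ρ g₀ (s • u + r • m) - μ • (s • u + r • m) = r • u := by
      rw [map_add, map_smul, map_smul, hu, hm']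
      module
    rw [hsr, map_zero, smul_zero, sub_zero] at h1
    have hr : r = 0 := (smul_eq_zero.1 h1.symm).resolve_right hu0
    rw [hr, zero_smul, add_zero] at hsr
    exact ⟨(smul_eq_zero.1 hsr).resolve_right hu0, hr⟩
  have h1 := finrank_span_eq_card hli
  rw [Matrix.range_cons_cons_empty, hspan, finrank_top, Fintype.card_fin] at h1
  exact h1

/-! ### The main theorem over a field containing the roots -/

/-- The root hypothesis: some `g₀` has two distinct roots in `K`, or every `g` has a double root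
in `K`. -/
def HasRoots (δ : G →* K) (t : G → K) : Prop :=
  (∃ (g₀ : G) (μ μ' : K), μ ≠ μ' ∧ μ + μ' = t g₀ ∧ μ * μ' = δ g₀) ∨
    (∀ g, ∃ μ : K, t g = 2 * μ ∧ δ g = μ ^ 2)

/-- The conclusion: a stable line with its character, or a stable plane with the characteristic
polynomials. -/
def Good (ρ : G →* Module.End K M) (δ : G →* K) (t : G → K) [FiniteDimensional K M]
    (Y : Submodule K M) (hY : Stable ρ Y) : Prop :=
  (finrank K Y = 1 ∧
      ∃ ψ : G →* K, (∀ g, ∀ y ∈ Y, ρ g y = ψ g • y) ∧ ∀ g, ψ g + δ g * ψ g⁻¹ = t g) ∨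
    (finrank K Y = 2 ∧
      ∀ g, (subRep ρ Y hY g).charpoly = X ^ 2 - C (t g) * X + C (δ g))

lemma good_of_line [FiniteDimensional K M] (h : QuadRel ρ δ t) {Y : Submodule K M}
    (hY : Stable ρ Y) (y₀ : M) (hy₀ : y₀ ≠ 0) (hYeq : Y = Submodule.span K {y₀}) :
    Good ρ δ t Y hY := by
  refine Or.inl ⟨?_, exists_char_of_line h hY y₀ hy₀ hYeq⟩
  rw [hYeq]
  exact finrank_span_singleton hy₀

/-- **Main theorem.**  A nonzero finite-dimensional representation satisfying the scalar quadratic
relation, over a field containing the relevant roots, has a stable line or a stable plane with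
characteristic polynomials `X² - t(g) X + δ(g)`. -/
theorem exists_stable [FiniteDimensional K M] [Nontrivial M] (h : QuadRel ρ δ t)
    (hroots : HasRoots δ t) :
    ∃ (Y : Submodule K M) (hY : Stable ρ Y), Good ρ δ t Y hY := by
  rcases hroots with ⟨g₀, μ, μ', hne, hsum, hprod⟩ | hall
  · -- distinct roots
    obtain ⟨Y, hY, hcase⟩ := exists_stable_of_distinct h g₀ μ μ' hne hsum hprod
    refine ⟨Y, hY, ?_⟩
    rcases hcase with ⟨y, hy0, hYeq⟩ | ⟨y, y', hy, hy', hy0, hy'0, hYeq⟩
    · exact good_of_line h hY y hy0 hYeq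
    · exact Or.inr (plane_case h hY g₀ μ μ' hne y y' hy hy' hy0 hy'0 hYeq)
  · -- only double roots: take a minimal nonzero stable subspace
    choose μ hμt hμδ using hall
    obtain ⟨X, ⟨hXst, hXne⟩, hXmin⟩ :=
      (wellFounded_lt : WellFounded ((· < ·) : Submodule K M → Submodule K M → Prop)).has_min
        {Y : Submodule K M | Stable ρ Y ∧ Y ≠ ⊥} ⟨⊤, fun _ _ _ => Submodule.mem_top, top_ne_bot⟩
    by_cases hsc : ∀ g, ∀ x ∈ X, ρ g x = μ g • x
    · -- all scalars on `X`: any line in `X` is stable
      obtain ⟨x₀, hx₀X, hx₀⟩ := Submodule.exists_mem_ne_zero_of_ne_bot hXne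
      have hst : Stable ρ (Submodule.span K {x₀}) := by
        intro g y hy
        rw [Submodule.mem_span_singleton] at hy ⊢
        obtain ⟨a, rfl⟩ := hy
        exact ⟨μ g * a, by rw [map_smul, hsc g x₀ hx₀X, smul_smul, mul_comm]⟩
      exact ⟨_, hst, good_of_line h hst x₀ hx₀ rfl⟩
    · push Not at hsc
      obtain ⟨g₀, x₁, hx₁X, hx₁⟩ := hsc
      -- `X` has no proper nonzero stable subspace
      have hminX : ∀ Y' : Submodule K X, Stable (subRep ρ X hXst) Y' → Y' = ⊥ ∨ Y' = ⊤ := by
        intro Y' hY'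
        by_cases h0 : Y' = ⊥
        · exact Or.inl h0
        · right
          have hZst : Stable ρ (Y'.map X.subtype) := by
            rintro g _ ⟨y, hy, rfl⟩
            exact ⟨subRep ρ X hXst g y, hY' g y hy, rfl⟩
          have hZne : Y'.map X.subtype ≠ ⊥ := by
            intro hbot
            apply h0
            refine (Submodule.eq_bot_iff _).2 fun y hy => Subtype.ext ?_
            have hmem : (y : M) ∈ Y'.map X.subtype := ⟨y, hy, rfl⟩
            rw [hbot] at hmem
            exact (Submodule.mem_bot K).1 hmem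
          have hZle : Y'.map X.subtype ≤ X := by
            rintro _ ⟨y, -, rfl⟩
            exact y.2
          have hZeq : Y'.map X.subtype = X := by
            by_contra hne
            exact hXmin _ ⟨hZst, hZne⟩ (lt_of_le_of_ne hZle hne)
          apply Submodule.map_injective_of_injective X.injective_subtype
          rw [hZeq, Submodule.map_subtype_top]
      have hns : subRep ρ X hXst g₀ ≠ μ g₀ • (1 : Module.End K X) := by
        intro heq
        apply hx₁
        exact congrArg (fun z : X => (z : M))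
          (congrArg (fun f : Module.End K X => f ⟨x₁, hx₁X⟩) heq)
      have hfin : finrank K X = 2 :=
        finrank_eq_two_of_double (h.sub X hXst) hminX g₀ (μ g₀) (hμt g₀) (hμδ g₀) hns
      refine ⟨X, hXst, Or.inr ⟨hfin, fun g =>
        charpoly_eq_of_finrank_two (h.sub X hXst) hfin g₀ ?_ g⟩⟩
      -- a scalar action of `g₀` would be by the double root
      intro c hc
      apply hns
      obtain ⟨x₀, hx₀X, hx₀⟩ := Submodule.exists_mem_ne_zero_of_ne_bot hXne
      have h1 : ρ g₀ x₀ = c • x₀ :=
        congrArg (fun z : X => (z : M))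
          (congrArg (fun f : Module.End K X => f ⟨x₀, hx₀X⟩) hc)
      have h2 := h.quad g₀ x₀
      rw [h1, map_smul, h1, hμt g₀, hμδ g₀] at h2
      have h3 : ((c - μ g₀) * (c - μ g₀)) • x₀ = 0 := by
        linear_combination (norm := module) h2
      have h4 : c = μ g₀ := by
        rcases smul_eq_zero.1 h3 with h5 | h5
        · exact sub_eq_zero.1 (mul_self_eq_zero.1 h5)
        · exact absurd h5 hx₀
      rw [hc, h4]

/-- Over an algebraically closed field the root hypothesis is automatic (any characteristic). -/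
theorem hasRoots_of_isAlgClosed [IsAlgClosed K] (δ : G →* K) (t : G → K) : HasRoots δ t := by
  have hroot : ∀ g, ∃ μ : K, μ * μ - t g * μ + δ g = 0 := by
    intro g
    have hdeg : (X ^ 2 - C (t g) * X + C (δ g) : K[X]).degree ≠ 0 := by
      rw [show (X ^ 2 - C (t g) * X + C (δ g) : K[X]) = X ^ 2 + (-C (t g) * X + C (δ g)) by ring]
      rw [Polynomial.degree_add_eq_left_of_degree_lt]
      · rw [degree_X_pow]; norm_num
      · rw [degree_X_pow]
        refine lt_of_le_of_lt (Polynomial.degree_add_le _ _) (max_lt ?_ ?_)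
        · rw [← C_neg]
          exact lt_of_le_of_lt (Polynomial.degree_C_mul_X_le _) (by norm_num)
        · exact lt_of_le_of_lt Polynomial.degree_C_le (by norm_num)
    obtain ⟨μ, hμ⟩ := IsAlgClosed.exists_root _ hdeg
    refine ⟨μ, ?_⟩
    have := hμ
    simp only [IsRoot.def, eval_add, eval_sub, eval_pow, eval_X, eval_mul, eval_C] at this
    linear_combination this
  by_cases hd : ∃ g μ, μ * μ - t g * μ + δ g = 0 ∧ μ ≠ t g - μ
  · obtain ⟨g, μ, hμ, hne⟩ := hd
    exact Or.inl ⟨g, μ, t g - μ, hne, by ring, by linear_combination -hμ⟩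
  · push Not at hd
    refine Or.inr fun g => ?_
    obtain ⟨μ, hμ⟩ := hroot g
    have h1 := hd g μ hμ
    exact ⟨μ, by linear_combination -h1, by linear_combination hμ - μ * h1⟩

/-- The algebraically closed case of the main theorem (any characteristic). -/
theorem exists_stable_of_isAlgClosed [IsAlgClosed K] [FiniteDimensional K M] [Nontrivial M]
    (h : QuadRel ρ δ t) : ∃ (Y : Submodule K M) (hY : Stable ρ Y), Good ρ δ t Y hY :=
  exists_stable h (hasRoots_of_isAlgClosed δ t)

end Basic

/-! ### The quadratic extension -/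

section Ext

variable {K : Type u} [Field K] {G : Type v} [Group G]

/-- **The quadratic extension.**  In characteristic `≠ 2` the root hypothesis holds after an
extension of scalars of degree at most `2`. -/
theorem exists_quadratic_ext (h2 : (2 : K) ≠ 0) (δ : G →* K) (t : G → K) :
    ∃ (K'' : Type u) (_ : Field K'') (_ : Algebra K K'') (_ : FiniteDimensional K K''),
      finrank K K'' ≤ 2 ∧
      HasRoots ((algebraMap K K'' : K →* K'').comp δ) (fun g => algebraMap K K'' (t g)) := by
  have h4 : (4 : K) ≠ 0 := by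
    have : (4 : K) = 2 * 2 := by norm_num
    rw [this]
    exact mul_ne_zero h2 h2
  by_cases hdisc : ∀ g, t g ^ 2 = 4 * δ g
  · refine ⟨K, inferInstance, Algebra.id K, inferInstance, ?_, Or.inr fun g => ⟨t g / 2, ?_, ?_⟩⟩
    · rw [finrank_self]; norm_num
    · show t g = 2 * (t g / 2)
      field_simp
    · show δ g = (t g / 2) ^ 2
      have h1 := hdisc g
      have h3 : δ g = t g ^ 2 / 4 := by
        rw [h1, mul_div_cancel_left₀ _ h4]
      rw [h3, div_pow]
      norm_num
  · push Not at hdisc
    obtain ⟨g₀, hg₀⟩ := hdisc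
    by_cases hroot : ∃ μ : K, μ * μ - t g₀ * μ + δ g₀ = 0
    · obtain ⟨μ, hμ⟩ := hroot
      refine ⟨K, inferInstance, Algebra.id K, inferInstance, ?_,
        Or.inl ⟨g₀, μ, t g₀ - μ, ?_, ?_, ?_⟩⟩
      · rw [finrank_self]; norm_num
      · intro heq
        apply hg₀
        have ht : t g₀ = 2 * μ := by linear_combination -heq
        have hδ : δ g₀ = μ ^ 2 := by linear_combination hμ - μ * heq
        rw [ht, hδ]
        ring
      · show μ + (t g₀ - μ) = t g₀
        ring
      · show μ * (t g₀ - μ) = δ g₀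
        linear_combination -hμ
    · push Not at hroot
      obtain ⟨P, hPdef⟩ : ∃ P : K[X], P = C 1 * X ^ 2 + C (-(t g₀)) * X + C (δ g₀) := ⟨_, rfl⟩
      have hPdeg : P.natDegree = 2 := by
        rw [hPdef]
        exact natDegree_quadratic one_ne_zero
      have hP0 : P ≠ 0 := by
        intro h0
        rw [h0, natDegree_zero] at hPdeg
        exact absurd hPdeg (by norm_num)
      have hirr : Irreducible P := by
        refine irreducible_of_degree_le_three_of_not_isRoot ?_ fun x hx => hroot x ?_
        · rw [hPdeg]; decide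
        · rw [hPdef] at hx
          simp only [IsRoot.def, eval_add, eval_mul, eval_C, eval_pow, eval_X] at hx
          linear_combination hx
      have : Fact (Irreducible P) := ⟨hirr⟩
      have hrootP : (AdjoinRoot.root P) * (AdjoinRoot.root P)
          - algebraMap K (AdjoinRoot P) (t g₀) * AdjoinRoot.root P
          + algebraMap K (AdjoinRoot P) (δ g₀) = 0 := by
        have h1 := AdjoinRoot.eval₂_root P
        rw [hPdef] at h1
        rw [eval₂_add, eval₂_add, eval₂_mul, eval₂_mul, eval₂_C, eval₂_C, eval₂_C, eval₂_pow,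
          eval₂_X, ← hPdef, map_one, map_neg] at h1
        rw [AdjoinRoot.algebraMap_eq]
        linear_combination h1
      refine ⟨AdjoinRoot P, inferInstance, inferInstance, (AdjoinRoot.powerBasis hP0).finite, ?_,
        Or.inl ⟨g₀, AdjoinRoot.root P, algebraMap K (AdjoinRoot P) (t g₀) - AdjoinRoot.root P,
          ?_, ?_, ?_⟩⟩
      · rw [(AdjoinRoot.powerBasis hP0).finrank, AdjoinRoot.powerBasis_dim, hPdeg]
      · intro heq
        apply hg₀
        apply (algebraMap K (AdjoinRoot P)).injective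
        rw [map_pow, map_mul]
        have h4' : algebraMap K (AdjoinRoot P) 4 = 4 := map_ofNat _ 4
        rw [h4']
        have ht : algebraMap K (AdjoinRoot P) (t g₀) = 2 * AdjoinRoot.root P := by
          linear_combination -heq
        have hδ : algebraMap K (AdjoinRoot P) (δ g₀) = AdjoinRoot.root P ^ 2 := by
          linear_combination hrootP - AdjoinRoot.root P * heq
        rw [ht, hδ]
        ring
      · show AdjoinRoot.root P + (algebraMap K (AdjoinRoot P) (t g₀) - AdjoinRoot.root P) = _
        ring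
      · show AdjoinRoot.root P * (algebraMap K (AdjoinRoot P) (t g₀) - AdjoinRoot.root P) =
          algebraMap K (AdjoinRoot P) (δ g₀)
        linear_combination -hrootP

end Ext

/-! ### Extension of scalars -/

section BaseChange

open TensorProduct

variable {K : Type u} [Field K] {G : Type v} [Group G] {M : Type w} [AddCommGroup M] [Module K M]
  (K'' : Type u) [Field K''] [Algebra K K'']

/-- Extension of scalars of a representation. -/
def baseChangeRep (ρ : G →* Module.End K M) : G →* Module.End K'' (K'' ⊗[K] M) where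
  toFun g := (ρ g).baseChange K''
  map_one' := by
    rw [map_one]
    exact LinearMap.baseChange_one K M
  map_mul' g k := by
    rw [map_mul, LinearMap.baseChange_mul]

lemma baseChangeRep_apply (ρ : G →* Module.End K M) (g : G) :
    baseChangeRep K'' ρ g = (ρ g).baseChange K'' := rfl

lemma baseChangeRep_tmul (ρ : G →* Module.End K M) (g : G) (a : K'') (x : M) :
    baseChangeRep K'' ρ g (a ⊗ₜ[K] x) = a ⊗ₜ[K] ρ g x := rfl

/-- The relation survives extension of scalars. -/
lemma QuadRel.baseChange {ρ : G →* Module.End K M} {δ : G →* K} {t : G → K} (h : QuadRel ρ δ t) :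
    QuadRel (baseChangeRep K'' ρ) ((algebraMap K K'' : K →* K'').comp δ)
      (fun g => algebraMap K K'' (t g)) := by
  intro g
  apply TensorProduct.AlgebraTensorModule.curry_injective
  ext x
  show (1 : K'') ⊗ₜ[K] ρ g x + algebraMap K K'' (δ g) • ((1 : K'') ⊗ₜ[K] ρ g⁻¹ x) =
    algebraMap K K'' (t g) • ((1 : K'') ⊗ₜ[K] x)
  rw [algebraMap_smul, algebraMap_smul, ← TensorProduct.tmul_smul, ← TensorProduct.tmul_add,
    h.apply g x, TensorProduct.tmul_smul]

/-- **The combined statement.**  In characteristic `≠ 2`, a nonzero finite-dimensional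
representation satisfying the scalar quadratic relation acquires, after an extension of scalars
of degree at most `2`, a stable line (with its character) or a stable plane on which every `g`
has characteristic polynomial `X² - t(g) X + δ(g)`. -/
theorem exists_ext_stable (h2 : (2 : K) ≠ 0) [FiniteDimensional K M] [Nontrivial M]
    {ρ : G →* Module.End K M} {δ : G →* K} {t : G → K} (h : QuadRel ρ δ t) :
    ∃ (K'' : Type u) (_ : Field K'') (_ : Algebra K K'') (_ : FiniteDimensional K K''),
      finrank K K'' ≤ 2 ∧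
      ∃ (Y : Submodule K'' (K'' ⊗[K] M)) (hY : Stable (baseChangeRep K'' ρ) Y),
        Good (baseChangeRep K'' ρ) ((algebraMap K K'' : K →* K'').comp δ)
          (fun g => algebraMap K K'' (t g)) Y hY := by
  obtain ⟨K'', hF, hA, hfd, hdeg, hroots⟩ := exists_quadratic_ext h2 δ t
  refine ⟨K'', hF, hA, hfd, hdeg, ?_⟩
  have hpos : 0 < finrank K'' (K'' ⊗[K] M) := by
    rw [Module.finrank_baseChange]
    exact Module.finrank_pos
  have : Nontrivial (K'' ⊗[K] M) := Module.nontrivial_of_finrank_pos (R := K'') hpos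
  exact exists_stable (h.baseChange K'') hroots

end BaseChange

end Fermat.Agent.Lib.QuadRelation

end
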