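import Mathlib
import Fermat.Prelude.Def_AlgebraicCurve_CanonicalDivisor

set_option autoImplicit false

open KaehlerDifferential AlgebraicCurve

namespace Fermat.Agent.Lib.RHSum

variable {K F : Type*} [Field K] [Field F] [Algebra K F]

/-- `ord` of a sum is at least the minimum. -/
theorem ord_add_ge (v : Place K F) {f g : F} (hf : f ≠ 0) (hg : g ≠ 0) (hfg : f + g ≠ 0) :
    min (v.ord f) (v.ord g) ≤ v.ord (f + g) := by
  have h := v.adicValuation.map_add f g
  have hf' := v.adicValuation_ne_zero hf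
  have hg' := v.adicValuation_ne_zero hg
  have hfg' := v.adicValuation_ne_zero hfg
  simp only [Place.ord]
  rcases le_max_iff.mp h with h1 | h1
  · have := (WithZero.log_le_log hfg' hf').mpr h1
    omega
  · have := (WithZero.log_le_log hfg' hg').mpr h1
    omega

theorem ord_algebraMap (v : Place K F) (a : K) : v.ord (algebraMap K F a) = 0 := by
  by_cases ha : a = 0
  · simp [ha]
  · have hu : IsUnit (algebraMap K v.toValuationSubring a) :=
      (IsUnit.mk0 a ha).map _
    have := v.ord_coe_unit hu.unit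
    simpa using this

theorem ord_neg (v : Place K F) (f : F) : v.ord (-f) = v.ord f := by
  simp [Place.ord]

/-- zeros of `x - a` and of `x - b` are disjoint for `a ≠ b`. -/
theorem not_zero_zero (v : Place K F) (x : F) {a b : K} (hab : a ≠ b)
    (ha : 0 < v.ord (x - algebraMap K F a)) (hb : 0 < v.ord (x - algebraMap K F b)) : False := by
  have h1 : x - algebraMap K F a ≠ 0 := by
    intro h; rw [h] at ha; simp at ha
  have h2 : x - algebraMap K F b ≠ 0 := by
    intro h; rw [h] at hb; simp at hb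
  have h3 : (x - algebraMap K F a) + -(x - algebraMap K F b) = algebraMap K F (b - a) := by
    rw [map_sub]; ring
  have hba : algebraMap K F (b - a) ≠ 0 := by
    rw [Ne, map_eq_zero_iff _ (algebraMap K F).injective]
    exact sub_ne_zero.mpr (Ne.symm hab)
  have h4 := ord_add_ge v h1 (neg_ne_zero.mpr h2) (by rw [h3]; exact hba)
  rw [h3, ord_algebraMap, ord_neg] at h4
  have := lt_min ha hb
  omega

/-- a zero of `x - a` is not a pole of `x`. -/
theorem not_zero_pole (v : Place K F) (x : F) {a : K}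
    (ha : 0 < v.ord (x - algebraMap K F a)) (hp : v.ord x < 0) : False := by
  have h1 : x - algebraMap K F a ≠ 0 := by
    intro h; rw [h] at ha; simp at ha
  by_cases ha0 : a = 0
  · subst ha0
    simp only [map_zero, sub_zero] at ha
    omega
  · have hx : x ≠ 0 := by
      intro h; rw [h] at hp; simp at hp
    have haF : algebraMap K F a ≠ 0 := by
      rw [Ne, map_eq_zero_iff _ (algebraMap K F).injective]; exact ha0
    have h4 := ord_add_ge v h1 haF (by simpa using hx)
    rw [sub_add_cancel, ord_algebraMap] at h4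
    have : 0 ≤ min (v.ord (x - algebraMap K F a)) 0 := le_min ha.le le_rfl
    omega

section Main

variable [AlgebraicCurve.HasCanonicalDivisor (K := K) (F := F)]

/-- **Riemann–Hurwitz degree sum.**  All local inputs are hypotheses. -/
theorem degree_canonicalDivisorOf (x : F) (n : ℕ)
    (hcover : ∀ v : Place K F, v.ord x < 0 ∨ ∃ a : K, 0 < v.ord (x - algebraMap K F a))
    (hdeg : ∀ v : Place K F, v.deg = 1)
    (hfinZ : ∀ a : K, {v : Place K F | 0 < v.ord (x - algebraMap K F a)}.Finite)
    (hsumZ : ∀ a : K, ∑ᶠ v ∈ {v : Place K F | 0 < v.ord (x - algebraMap K F a)},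
        v.ord (x - algebraMap K F a) = n)
    (hfinP : {v : Place K F | v.ord x < 0}.Finite)
    (hsumP : ∑ᶠ v ∈ {v : Place K F | v.ord x < 0}, -v.ord x = n)
    (hprinc : ∀ f : F, f ≠ 0 → {v : Place K F | v.ord f ≠ 0}.Finite ∧ ∑ᶠ v : Place K F, v.ord f = 0)
    (hspan : Submodule.span F {KaehlerDifferential.D K F x} = ⊤)
    (hsmul : ∀ (v : Place K F) (g : F), g ≠ 0 → ∀ ω : Ω[F⁄K], ω ≠ 0 →
        v.ordDifferential (g • ω) = v.ord g + v.ordDifferential ω)
    (hdZ : ∀ (v : Place K F) (a : K), 0 < v.ord (x - algebraMap K F a) →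
        v.ordDifferential (KaehlerDifferential.D K F x) = v.ord (x - algebraMap K F a) - 1)
    (hdP : ∀ v : Place K F, v.ord x < 0 →
        v.ordDifferential (KaehlerDifferential.D K F x) = v.ord x - 1)
    (S : Finset K)
    (hS : ∀ a : K, a ∉ S → ∀ v : Place K F, 0 < v.ord (x - algebraMap K F a) →
        v.ord (x - algebraMap K F a) = 1)
    {ω : Ω[F⁄K]} (hω : ω ≠ 0) :
    Divisor.degree (canonicalDivisorOf hω) =
      ∑ a ∈ S, ((n : ℤ) - (Set.ncard {v : Place K F | 0 < v.ord (x - algebraMap K F a)} : ℤ))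
        - n - (Set.ncard {v : Place K F | v.ord x < 0} : ℤ) := by
  classical
  -- step 1: ω = g • dx
  have hωmem : ω ∈ Submodule.span F {KaehlerDifferential.D K F x} := hspan ▸ Submodule.mem_top
  obtain ⟨g, hg⟩ := Submodule.mem_span_singleton.mp hωmem
  have hg0 : g ≠ 0 := by
    rintro rfl; rw [zero_smul] at hg; exact hω hg.symm
  have hdx : KaehlerDifferential.D K F x ≠ 0 := by
    intro h; rw [h, smul_zero] at hg; exact hω hg.symm
  set od : Place K F → ℤ := fun v => v.ordDifferential (KaehlerDifferential.D K F x) with hod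
  set D := canonicalDivisorOf hω with hD
  have hDv : ∀ v, D v = v.ord g + od v := by
    intro v
    rw [hD, canonicalDivisorOf_apply, ← hg, hsmul v g hg0 _ hdx]
  obtain ⟨hgfin, hgsum⟩ := hprinc g hg0
  -- degree as a finsum
  have hdegD : Divisor.degree D = ∑ᶠ v : Place K F, D v := by
    rw [finsum_eq_sum_of_support_subset (s := D.support)]
    · simp only [Divisor.degree, Finsupp.liftAddHom_apply, Finsupp.sum, AddMonoidHom.coe_mulRight,
        hdeg, Nat.cast_one, mul_one]
    · intro v hv
      simpa using hv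
  -- od has finite support
  have hodfin : (Function.support od).Finite := by
    have : Function.support od ⊆ (D.support : Set (Place K F)) ∪ {v | v.ord g ≠ 0} := by
      intro v hv
      by_contra hcon
      simp only [Set.mem_union, Finset.mem_coe, Finsupp.mem_support_iff, Set.mem_ofPred_eq,
        not_or, not_not] at hcon
      have := hDv v
      rw [hcon.1, hcon.2] at this
      exact hv (by simpa using this.symm)
    exact (D.support.finite_toSet.union hgfin).subset this
  have hsplit : ∑ᶠ v : Place K F, D v = ∑ᶠ v : Place K F, od v := by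
    have h1 : (fun v : Place K F => D v) = fun v => v.ord g + od v := funext hDv
    rw [h1, finsum_add_distrib (by exact hgfin) hodfin, hgsum, zero_add]
  rw [hdegD, hsplit]
  -- the finite sets
  set Zf : K → Finset (Place K F) := fun a => (hfinZ a).toFinset with hZf
  set Pf : Finset (Place K F) := hfinP.toFinset with hPf
  have hmemZ : ∀ a v, v ∈ Zf a ↔ 0 < v.ord (x - algebraMap K F a) := by
    intro a v; simp [hZf]
  have hmemP : ∀ v, v ∈ Pf ↔ v.ord x < 0 := by
    intro v; simp [hPf]
  set U : Finset (Place K F) := S.biUnion Zf ∪ Pf with hU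
  have hsupp : Function.support od ⊆ (U : Set (Place K F)) := by
    intro v hv
    by_contra hcon
    simp only [hU, Finset.coe_union, Finset.coe_biUnion, Set.mem_union, Set.mem_iUnion,
      Finset.mem_coe, exists_prop, not_or, not_exists, not_and] at hcon
    obtain ⟨hc1, hc2⟩ := hcon
    rcases hcover v with hp | ⟨a, ha⟩
    · exact hc2 ((hmemP v).mpr hp)
    · have haS : a ∉ S := fun h => hc1 a h ((hmemZ a v).mpr ha)
      have h1 := hS a haS v ha
      have h2 := hdZ v a ha
      apply hv
      show od v = 0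
      rw [hod]; simp only; rw [h2, h1]; norm_num
  rw [finsum_eq_sum_of_support_subset _ hsupp]
  have hdisj1 : Disjoint (S.biUnion Zf) Pf := by
    rw [Finset.disjoint_left]
    intro v hv hvP
    obtain ⟨a, -, ha⟩ := Finset.mem_biUnion.mp hv
    exact not_zero_pole v x ((hmemZ a v).mp ha) ((hmemP v).mp hvP)
  have hdisj2 : (S : Set K).PairwiseDisjoint Zf := by
    intro a _ b _ hab
    simp only [Function.onFun]
    rw [Finset.disjoint_left]
    intro v hva hvb
    exact not_zero_zero v x hab ((hmemZ a v).mp hva) ((hmemZ b v).mp hvb)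
  rw [hU, Finset.sum_union hdisj1, Finset.sum_biUnion hdisj2]
  have hZsum : ∀ a ∈ S, ∑ v ∈ Zf a, od v =
      (n : ℤ) - (Set.ncard {v : Place K F | 0 < v.ord (x - algebraMap K F a)} : ℤ) := by
    intro a _
    have h1 : ∑ v ∈ Zf a, od v = ∑ v ∈ Zf a, (v.ord (x - algebraMap K F a) - 1) := by
      refine Finset.sum_congr rfl fun v hv => ?_
      exact hdZ v a ((hmemZ a v).mp hv)
    have h2 := hsumZ a
    rw [finsum_mem_eq_finite_toFinset_sum _ (hfinZ a)] at h2
    rw [h1, Finset.sum_sub_distrib, h2, Set.ncard_eq_toFinset_card _ (hfinZ a)]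
    simp [hZf]
  have hPsum : ∑ v ∈ Pf, od v = -(n : ℤ) - (Set.ncard {v : Place K F | v.ord x < 0} : ℤ) := by
    have h1 : ∑ v ∈ Pf, od v = ∑ v ∈ Pf, (v.ord x - 1) := by
      refine Finset.sum_congr rfl fun v hv => ?_
      exact hdP v ((hmemP v).mp hv)
    have h2 := hsumP
    rw [finsum_mem_eq_finite_toFinset_sum _ hfinP] at h2
    rw [h1, Finset.sum_sub_distrib, Set.ncard_eq_toFinset_card _ hfinP]
    simp only [Finset.sum_neg_distrib] at h2
    have h3 : ∑ v ∈ Pf, v.ord x = -(n : ℤ) := by
      rw [hPf]; linarith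
    rw [h3]
    simp [hPf]
  rw [Finset.sum_congr rfl hZsum, hPsum]
  ring

/-- **Genus from the Riemann–Hurwitz data**, in the `toNat / 2` shape of the Prelude `genus`
(no sign or parity hypothesis). -/
theorem genus_eq_toNat (x : F) (n : ℕ)
    (hcover : ∀ v : Place K F, v.ord x < 0 ∨ ∃ a : K, 0 < v.ord (x - algebraMap K F a))
    (hdeg : ∀ v : Place K F, v.deg = 1)
    (hfinZ : ∀ a : K, {v : Place K F | 0 < v.ord (x - algebraMap K F a)}.Finite)
    (hsumZ : ∀ a : K, ∑ᶠ v ∈ {v : Place K F | 0 < v.ord (x - algebraMap K F a)},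
        v.ord (x - algebraMap K F a) = n)
    (hfinP : {v : Place K F | v.ord x < 0}.Finite)
    (hsumP : ∑ᶠ v ∈ {v : Place K F | v.ord x < 0}, -v.ord x = n)
    (hprinc : ∀ f : F, f ≠ 0 → {v : Place K F | v.ord f ≠ 0}.Finite ∧ ∑ᶠ v : Place K F, v.ord f = 0)
    (hspan : Submodule.span F {KaehlerDifferential.D K F x} = ⊤)
    (hdx : KaehlerDifferential.D K F x ≠ 0)
    (hsmul : ∀ (v : Place K F) (g : F), g ≠ 0 → ∀ ω : Ω[F⁄K], ω ≠ 0 →
        v.ordDifferential (g • ω) = v.ord g + v.ordDifferential ω)
    (hdZ : ∀ (v : Place K F) (a : K), 0 < v.ord (x - algebraMap K F a) →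
        v.ordDifferential (KaehlerDifferential.D K F x) = v.ord (x - algebraMap K F a) - 1)
    (hdP : ∀ v : Place K F, v.ord x < 0 →
        v.ordDifferential (KaehlerDifferential.D K F x) = v.ord x - 1)
    (S : Finset K)
    (hS : ∀ a : K, a ∉ S → ∀ v : Place K F, 0 < v.ord (x - algebraMap K F a) →
        v.ord (x - algebraMap K F a) = 1) :
    genus K F =
      (∑ a ∈ S, ((n : ℤ) - (Set.ncard {v : Place K F | 0 < v.ord (x - algebraMap K F a)} : ℤ))
        - n - (Set.ncard {v : Place K F | v.ord x < 0} : ℤ) + 2).toNat / 2 := by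
  have hex : ∃ ω : Ω[F⁄K], ω ≠ 0 := ⟨_, hdx⟩
  have hd := degree_canonicalDivisorOf x n hcover hdeg hfinZ hsumZ hfinP hsumP hprinc hspan hsmul
    hdZ hdP S hS hex.choose_spec
  unfold genus
  rw [dif_pos hex, hd]

/-- **Genus from the Riemann–Hurwitz data** (unfolding of the Prelude `genus`). -/
theorem two_mul_genus (x : F) (n : ℕ)
    (hcover : ∀ v : Place K F, v.ord x < 0 ∨ ∃ a : K, 0 < v.ord (x - algebraMap K F a))
    (hdeg : ∀ v : Place K F, v.deg = 1)
    (hfinZ : ∀ a : K, {v : Place K F | 0 < v.ord (x - algebraMap K F a)}.Finite)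
    (hsumZ : ∀ a : K, ∑ᶠ v ∈ {v : Place K F | 0 < v.ord (x - algebraMap K F a)},
        v.ord (x - algebraMap K F a) = n)
    (hfinP : {v : Place K F | v.ord x < 0}.Finite)
    (hsumP : ∑ᶠ v ∈ {v : Place K F | v.ord x < 0}, -v.ord x = n)
    (hprinc : ∀ f : F, f ≠ 0 → {v : Place K F | v.ord f ≠ 0}.Finite ∧ ∑ᶠ v : Place K F, v.ord f = 0)
    (hspan : Submodule.span F {KaehlerDifferential.D K F x} = ⊤)
    (hdx : KaehlerDifferential.D K F x ≠ 0)
    (hsmul : ∀ (v : Place K F) (g : F), g ≠ 0 → ∀ ω : Ω[F⁄K], ω ≠ 0 →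
        v.ordDifferential (g • ω) = v.ord g + v.ordDifferential ω)
    (hdZ : ∀ (v : Place K F) (a : K), 0 < v.ord (x - algebraMap K F a) →
        v.ordDifferential (KaehlerDifferential.D K F x) = v.ord (x - algebraMap K F a) - 1)
    (hdP : ∀ v : Place K F, v.ord x < 0 →
        v.ordDifferential (KaehlerDifferential.D K F x) = v.ord x - 1)
    (S : Finset K)
    (hS : ∀ a : K, a ∉ S → ∀ v : Place K F, 0 < v.ord (x - algebraMap K F a) →
        v.ord (x - algebraMap K F a) = 1)
    (T : ℤ)
    (hT : T = ∑ a ∈ S, ((n : ℤ) - (Set.ncard {v : Place K F | 0 < v.ord (x - algebraMap K F a)} : ℤ))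
        - n - (Set.ncard {v : Place K F | v.ord x < 0} : ℤ))
    (h0 : 0 ≤ T + 2) (hev : Even (T + 2)) :
    2 * (genus K F : ℤ) = T + 2 := by
  have hex : ∃ ω : Ω[F⁄K], ω ≠ 0 := ⟨_, hdx⟩
  have hd := degree_canonicalDivisorOf x n hcover hdeg hfinZ hsumZ hfinP hsumP hprinc hspan hsmul
    hdZ hdP S hS hex.choose_spec
  rw [← hT] at hd
  have hg : genus K F = (T + 2).toNat / 2 := by
    unfold genus
    rw [dif_pos hex, hd]
  obtain ⟨m, hm⟩ := hev
  have hm0 : 0 ≤ m := by omega
  rw [hg, hm]
  have : (m + m).toNat = 2 * m.toNat := by omega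
  rw [this, Nat.mul_div_cancel_left _ (by norm_num : 0 < 2)]
  rw [Int.toNat_of_nonneg hm0]
  ring

end Main

/-! ### The same statement with hypotheses in "function field in one variable" shape -/

theorem mem_of_ord_nonneg (v : Place K F) {f : F} (hf : f ≠ 0) (h : 0 ≤ v.ord f) :
    f ∈ v.toValuationSubring := by
  obtain ⟨π, hπ⟩ := IsDiscreteValuationRing.exists_irreducible v.toValuationSubring
  obtain ⟨u, hu⟩ := v.exists_unit_mul_zpow hf hπ
  rw [hu]
  obtain ⟨m, hm⟩ := Int.eq_ofNat_of_zero_le h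
  rw [hm, zpow_natCast]
  exact v.toValuationSubring.mul_mem _ _ (u : v.toValuationSubring).2
    (v.toValuationSubring.pow_mem π.2 m)

theorem ord_nonneg_of_mem (v : Place K F) {f : F} (h : f ∈ v.toValuationSubring) :
    0 ≤ v.ord f := by
  have h1 : v.adicValuation f ≤ 1 := by
    have := v.adicValuation_coe ⟨f, h⟩
    rw [this]
    exact IsDedekindDomain.HeightOneSpectrum.intValuation_le_one _ _
  by_cases hf : f = 0
  · simp [hf]
  · have h2 := (WithZero.log_le_log (v.adicValuation_ne_zero hf) one_ne_zero).mpr h1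
    simp only [Place.ord]
    simp only [WithZero.log_one] at h2
    omega

theorem mem_iff_ord_nonneg (v : Place K F) {f : F} (hf : f ≠ 0) :
    f ∈ v.toValuationSubring ↔ 0 ≤ v.ord f :=
  ⟨ord_nonneg_of_mem v, mem_of_ord_nonneg v hf⟩

open IntermediateField in
/-- `deg div(f) = 0`, from the zero and pole counts of transcendental elements. -/
theorem principal_of_zeros_poles
    (hAT : ∀ f : F, (∃ a : K, f = algebraMap K F a) ∨ Transcendental K f)
    (hZfin : ∀ f : F, Transcendental K f → {w : Place K F | 0 < w.ord f}.Finite)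
    (hZsum : ∀ f : F, Transcendental K f →
      ∑ᶠ w ∈ {w : Place K F | 0 < w.ord f}, w.ord f = (Module.finrank K⟮f⟯ F : ℤ))
    (hPfin : ∀ f : F, Transcendental K f → {w : Place K F | w.ord f < 0}.Finite)
    (hPsum : ∀ f : F, Transcendental K f →
      ∑ᶠ w ∈ {w : Place K F | w.ord f < 0}, w.ord f = -(Module.finrank K⟮f⟯ F : ℤ))
    (f : F) (_hf : f ≠ 0) :
    {v : Place K F | v.ord f ≠ 0}.Finite ∧ ∑ᶠ v : Place K F, v.ord f = 0 := by
  rcases hAT f with ⟨a, rfl⟩ | htr
  · have h0 : ∀ v : Place K F, v.ord (algebraMap K F a) = 0 := fun v => ord_algebraMap v a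
    refine ⟨?_, ?_⟩
    · have : {v : Place K F | v.ord (algebraMap K F a) ≠ 0} = ∅ := by
        ext v; simp [h0 v]
      rw [this]; exact Set.finite_empty
    · simp [h0]
  · have hU : {v : Place K F | v.ord f ≠ 0}
        = {w : Place K F | 0 < w.ord f} ∪ {w : Place K F | w.ord f < 0} := by
      ext v
      simp only [Set.mem_ofPred_eq, Set.mem_union]
      omega
    refine ⟨hU ▸ (hZfin f htr).union (hPfin f htr), ?_⟩
    have hsup : Function.support (fun v : Place K F => v.ord f) = {v : Place K F | v.ord f ≠ 0} :=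
      rfl
    rw [← finsum_mem_support, hsup, hU,
      finsum_mem_union _ (hZfin f htr) (hPfin f htr), hZsum f htr, hPsum f htr]
    · ring
    · rw [Set.disjoint_left]
      intro v h1 h2
      simp only [Set.mem_ofPred_eq] at h1 h2
      omega

section Aux

variable [AlgebraicCurve.HasCanonicalDivisor (K := K) (F := F)]

open IntermediateField in
/-- **Riemann–Hurwitz in the shape of the Prelude genus**, every function-field input a
hypothesis: `hAT` (constants are exactly the non-transcendental elements), `hdeg`, `hres`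
(all residue fields are `K`), zero/pole counts, `Ω` one-dimensional generated by `dx`, and
`ord (df) = ord f - 1` when `ord f ≠ 0`. -/
theorem genus_eq_of_ramification_aux (x : F) (hx : Transcendental K x)
    (hAT : ∀ f : F, (∃ a : K, f = algebraMap K F a) ∨ Transcendental K f)
    (hdeg : ∀ w : Place K F, w.deg = 1)
    (hres : ∀ (w : Place K F) (f : F), f ∈ w.toValuationSubring →
      ∃ a : K, f = algebraMap K F a ∨ 0 < w.ord (f - algebraMap K F a))
    (hZfin : ∀ f : F, Transcendental K f → {w : Place K F | 0 < w.ord f}.Finite)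
    (hZsum : ∀ f : F, Transcendental K f →
      ∑ᶠ w ∈ {w : Place K F | 0 < w.ord f}, w.ord f = (Module.finrank K⟮f⟯ F : ℤ))
    (hPfin : ∀ f : F, Transcendental K f → {w : Place K F | w.ord f < 0}.Finite)
    (hPsum : ∀ f : F, Transcendental K f →
      ∑ᶠ w ∈ {w : Place K F | w.ord f < 0}, w.ord f = -(Module.finrank K⟮f⟯ F : ℤ))
    (hnt : Nontrivial Ω[F⁄K])
    (hgen : ∀ w : Place K F, w.DCoordGenerates)
    (hD : ∀ ω : Ω[F⁄K], ∃ g : F, ω = g • KaehlerDifferential.D K F x)
    (hordD : ∀ (w : Place K F) (f : F), w.ord f ≠ 0 →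
      w.ordDifferential (KaehlerDifferential.D K F f) = w.ord f - 1)
    (S : Finset K)
    (hS : ∀ a : K, a ∉ S → ∀ w : Place K F, 0 < w.ord (x - algebraMap K F a) →
      w.ord (x - algebraMap K F a) = 1) :
    genus K F =
      ((∑ a ∈ S, ((Module.finrank K⟮x⟯ F : ℤ)
            - Nat.card {w : Place K F | 0 < w.ord (x - algebraMap K F a)})
          - (Module.finrank K⟮x⟯ F : ℤ) - Nat.card {w : Place K F | w.ord x < 0} + 2).toNat) / 2 := by
  have hx0 : x ≠ 0 := by
    rintro rfl
    exact hx (isAlgebraic_zero)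
  have htr : ∀ a : K, Transcendental K (x - algebraMap K F a) := by
    intro a
    rcases hAT (x - algebraMap K F a) with ⟨b, hb⟩ | h
    · exfalso
      apply hx
      have : x = algebraMap K F (b + a) := by
        rw [map_add, ← hb]; ring
      rw [this]
      exact isAlgebraic_algebraMap _
    · exact h
  have hadj : ∀ a : K, K⟮x - algebraMap K F a⟯ = K⟮x⟯ := by
    intro a
    apply le_antisymm
    · rw [adjoin_simple_le_iff]
      exact sub_mem (mem_adjoin_simple_self K x) (IntermediateField.algebraMap_mem _ a)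
    · rw [adjoin_simple_le_iff]
      have h1 : (x - algebraMap K F a) + algebraMap K F a ∈ K⟮x - algebraMap K F a⟯ :=
        add_mem (mem_adjoin_simple_self K _) (IntermediateField.algebraMap_mem _ a)
      rwa [sub_add_cancel] at h1
  have hcover : ∀ v : Place K F, v.ord x < 0 ∨ ∃ a : K, 0 < v.ord (x - algebraMap K F a) := by
    intro v
    by_cases hxm : x ∈ v.toValuationSubring
    · obtain ⟨a, ha | ha⟩ := hres v x hxm
      · exfalso
        apply hx
        rw [ha]
        exact isAlgebraic_algebraMap _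
      · exact Or.inr ⟨a, ha⟩
    · left
      by_contra hcon
      exact hxm (mem_of_ord_nonneg v hx0 (not_lt.mp hcon))
  have hsumZ : ∀ a : K, ∑ᶠ v ∈ {v : Place K F | 0 < v.ord (x - algebraMap K F a)},
      v.ord (x - algebraMap K F a) = (Module.finrank K⟮x⟯ F : ℕ) := by
    intro a
    have h := hZsum _ (htr a)
    rw [hadj a] at h
    exact h
  have hsumP : ∑ᶠ v ∈ {v : Place K F | v.ord x < 0}, -v.ord x = (Module.finrank K⟮x⟯ F : ℕ) := by
    rw [finsum_mem_neg_distrib _ (hPfin x hx), hPsum x hx, neg_neg]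
  have hspan : Submodule.span F {KaehlerDifferential.D K F x} = ⊤ := by
    rw [Submodule.eq_top_iff']
    intro ω
    obtain ⟨g, rfl⟩ := hD ω
    exact Submodule.smul_mem _ _ (Submodule.mem_span_singleton_self _)
  have hdx : KaehlerDifferential.D K F x ≠ 0 := by
    intro h0
    obtain ⟨ω, hω⟩ := exists_ne (0 : Ω[F⁄K])
    obtain ⟨g, rfl⟩ := hD ω
    exact hω (by rw [h0, smul_zero])
  have hsmul : ∀ (v : Place K F) (g : F), g ≠ 0 → ∀ ω : Ω[F⁄K], ω ≠ 0 →
      v.ordDifferential (g • ω) = v.ord g + v.ordDifferential ω := by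
    intro v g hg ω hω
    have := hgen v
    refine v.ordDifferential_smul hg ?_
    intro h
    apply hω
    rw [← v.differentialCoeff_smul_dCoord ω, h, zero_smul]
  have hdZ : ∀ (v : Place K F) (a : K), 0 < v.ord (x - algebraMap K F a) →
      v.ordDifferential (KaehlerDifferential.D K F x) = v.ord (x - algebraMap K F a) - 1 := by
    intro v a ha
    have h := hordD v _ (ne_of_gt ha)
    rwa [map_sub, Derivation.map_algebraMap, sub_zero] at h
  have hdP : ∀ v : Place K F, v.ord x < 0 →
      v.ordDifferential (KaehlerDifferential.D K F x) = v.ord x - 1 :=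
    fun v hv => hordD v x (ne_of_lt hv)
  have key := genus_eq_toNat x (Module.finrank K⟮x⟯ F) hcover hdeg (fun a => hZfin _ (htr a)) hsumZ
    (hPfin x hx) hsumP (principal_of_zeros_poles hAT hZfin hZsum hPfin hPsum) hspan hdx hsmul
    hdZ hdP S hS
  rw [key]
  simp only [Nat.card_coe_set_eq]

end Aux

end Fermat.Agent.Lib.RHSum
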