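import Mathlib
import Fermat.Prelude.Def_AlgebraicCurve_Repartitions
import Fermat.Agent.Lib.FFPlaces

/-!
# Change of coordinate for Riemann–Roch spaces (S18, leaf [RRl-COORD])

`F / K` a field extension, `t j : F` with `j * Den(t) = Num(t)` for coprime polynomials
`Num, Den : K[X]`, `deg Den < deg Num`.  In the Prelude vocabulary
(`AlgebraicCurve.Place`, `Divisor`, `riemannRochSpace`):

* `pole_eq` : `max 0 (-ord_Q j) = deg Num * max 0 (-ord_Q t) + ord_Q (Den(t))`, i.e.
  `(j)_∞ = deg Num • (t)_∞ + div (Den(t))`;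
* `mem_riemannRochSpace_iff_mul`, `rrEquiv`, `finrank_eq` : multiplication by `Den(t) ^ c`
  is an isomorphism `L(c (j)_∞) ≃ L(c deg Num (t)_∞)`;
* `ord_neg_iff`, `ord_neg_iff_of_splits`, `card_poles_eq` : the poles of `j` are the poles
  of `t` together with the zeros of the `t - a`, `a` a root of `Den`.
-/

set_option autoImplicit false

noncomputable section

namespace Fermat.Agent.Lib.RRCoord

open AlgebraicCurve Polynomial

variable {K F : Type*} [Field K] [Field F] [Algebra K F]

/-! ### Orders of polynomials in `t` -/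

theorem aeval_mem (Q : Place K F) {u : F} (hu : u ∈ Q.toValuationSubring) (p : K[X]) :
    aeval u p ∈ Q.toValuationSubring :=
  FFPlaces.polyRing_mem Q hu ⟨aeval u p, aeval_mem_adjoin_singleton K u⟩

theorem mem_of_ord_nonneg (Q : Place K F) {f : F} (hf : 0 ≤ Q.ord f) :
    f ∈ Q.toValuationSubring := by
  rcases eq_or_ne f 0 with rfl | hf0
  · exact zero_mem _
  · exact (FFPlaces.mem_iff_ord_nonneg Q hf0).mpr hf

theorem ord_nonneg_of_mem (Q : Place K F) {f : F} (hf : f ∈ Q.toValuationSubring) :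
    0 ≤ Q.ord f := by
  rcases eq_or_ne f 0 with rfl | hf0
  · simp
  · exact (FFPlaces.mem_iff_ord_nonneg Q hf0).mp hf

/-- An element of the valuation ring which is a unit there has order `0`. -/
theorem ord_eq_zero_of_inv_mem (Q : Place K F) {f : F} (hf : f ∈ Q.toValuationSubring)
    (hf' : f⁻¹ ∈ Q.toValuationSubring) : Q.ord f = 0 := by
  have h1 := ord_nonneg_of_mem Q hf
  have h2 := ord_nonneg_of_mem Q hf'
  rw [Q.ord_inv] at h2
  omega

/-- If `u` is in the maximal ideal of `Q` and `p` has nonzero constant coefficient then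
`p(u)` is a unit at `Q`. -/
theorem ord_aeval_eq_zero (Q : Place K F) {u : F} (hu : u = 0 ∨ 0 < Q.ord u) (p : K[X])
    (hp : p.coeff 0 ≠ 0) : aeval u p ≠ 0 ∧ Q.ord (aeval u p) = 0 := by
  have hdecomp : aeval u p = aeval u p.divX * u + algebraMap K F (p.coeff 0) := by
    conv_lhs => rw [← divX_mul_X_add p]
    simp
  have ha0 : algebraMap K F (p.coeff 0) ≠ 0 := by simpa using hp
  rcases hu with rfl | hu
  · rw [hdecomp, mul_zero, zero_add]
    exact ⟨ha0, FFPlaces.ord_algebraMap Q _⟩
  have hu0 : u ≠ 0 := by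
    rintro rfl
    simp at hu
  have huO : u ∈ Q.toValuationSubring := mem_of_ord_nonneg Q hu.le
  have huinv : u⁻¹ ∉ Q.toValuationSubring := ((FFPlaces.ord_pos_iff Q hu0).mp hu).2
  set r : F := aeval u p.divX with hr
  have hrO : r ∈ Q.toValuationSubring := aeval_mem Q huO _
  -- work in the local ring
  let a' : Q.toValuationSubring := algebraMap K Q.toValuationSubring (p.coeff 0)
  let z : Q.toValuationSubring := ⟨r, hrO⟩ * ⟨u, huO⟩
  have ha'unit : IsUnit a' := by
    refine IsUnit.of_mul_eq_one (algebraMap K Q.toValuationSubring (p.coeff 0)⁻¹) ?_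
    show algebraMap K Q.toValuationSubring (p.coeff 0) *
      algebraMap K Q.toValuationSubring (p.coeff 0)⁻¹ = 1
    rw [← map_mul, mul_inv_cancel₀ hp, map_one]
  have hunonunit : ¬ IsUnit (⟨u, huO⟩ : Q.toValuationSubring) := by
    intro hunit
    obtain ⟨w, hw⟩ := hunit.exists_right_inv
    have hw' : u * (w : F) = 1 := congrArg Subtype.val hw
    have : u⁻¹ = (w : F) := inv_eq_of_mul_eq_one_right hw'
    exact huinv (this ▸ w.2)
  have hzmax : z ∈ IsLocalRing.maximalIdeal Q.toValuationSubring :=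
    Ideal.mul_mem_left _ _ ((IsLocalRing.mem_maximalIdeal _).mpr hunonunit)
  have hsum : IsUnit (z + a') := by
    by_contra hnot
    have hmem : z + a' ∈ IsLocalRing.maximalIdeal Q.toValuationSubring :=
      (IsLocalRing.mem_maximalIdeal _).mpr hnot
    have : a' ∈ IsLocalRing.maximalIdeal Q.toValuationSubring := by
      have h := Ideal.sub_mem _ hmem hzmax
      simpa using h
    exact (IsLocalRing.mem_maximalIdeal _).mp this ha'unit
  have hcoe : ((z + a' : Q.toValuationSubring) : F) = aeval u p := by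
    rw [hdecomp]
    rfl
  have hne : aeval u p ≠ 0 := by
    rw [← hcoe]
    intro h0
    exact hsum.ne_zero (Subtype.ext h0)
  refine ⟨hne, ?_⟩
  rw [← hcoe]
  exact Q.ord_coe_unit hsum.unit

/-- At a pole of `t`, the order of `p(t)` is `deg p * ord t`. -/
theorem ord_aeval_of_ord_neg (Q : Place K F) {t : F} (ht : Q.ord t < 0) (p : K[X])
    (hp : p ≠ 0) : aeval t p ≠ 0 ∧ Q.ord (aeval t p) = p.natDegree * Q.ord t := by
  have ht0 : t ≠ 0 := by
    rintro rfl
    simp at ht
  have hinv : 0 < Q.ord t⁻¹ := by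
    rw [Q.ord_inv]; omega
  have hrev : (p.reverse).coeff 0 ≠ 0 := by
    rw [coeff_zero_reverse]
    exact leadingCoeff_ne_zero.mpr hp
  obtain ⟨hne, hord⟩ := ord_aeval_eq_zero Q (Or.inr hinv) p.reverse hrev
  have hkey : aeval t⁻¹ p.reverse * t ^ p.natDegree = aeval t p := by
    let _ : Invertible t := invertibleOfNonzero ht0
    have h := eval₂_reverse_mul_pow (algebraMap K F) t p
    rw [invOf_eq_inv] at h
    exact h
  have hpow : t ^ p.natDegree ≠ 0 := pow_ne_zero _ ht0
  refine ⟨by rw [← hkey]; exact mul_ne_zero hne hpow, ?_⟩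
  rw [← hkey, Q.ord_mul hne hpow, hord, zero_add]
  have := Q.ord_zpow t (p.natDegree : ℤ)
  rwa [zpow_natCast] at this

/-! ### The pole divisor of `j = Num(t) / Den(t)` -/

section Coord

variable {t j : F} {Num Den : K[X]}

theorem aeval_den_ne_zero (hcop : IsCoprime Num Den) (hj : j * aeval t Den = aeval t Num) :
    aeval t Den ≠ 0 := by
  intro h0
  obtain ⟨A, B, hAB⟩ := hcop
  have h1 : aeval t A * aeval t Num + aeval t B * aeval t Den = 1 := by
    rw [← map_mul, ← map_mul, ← map_add, hAB, map_one]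
  rw [← hj, h0, mul_zero, mul_zero, mul_zero, add_zero] at h1
  exact zero_ne_one h1

theorem j_eq (hcop : IsCoprime Num Den) (hj : j * aeval t Den = aeval t Num) :
    j = aeval t Num / aeval t Den := by
  rw [eq_div_iff (aeval_den_ne_zero hcop hj), hj]

/-- `(j)_∞ = deg Num • (t)_∞ + div (Den(t))`, pointwise. -/
theorem pole_eq (hcop : IsCoprime Num Den) (hdeg : Den.natDegree < Num.natDegree)
    (hj : j * aeval t Den = aeval t Num) (Q : Place K F) :
    max 0 (-Q.ord j) = Num.natDegree * max 0 (-Q.ord t) + Q.ord (aeval t Den) := by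
  have hden0 := aeval_den_ne_zero hcop hj
  have hjeq := j_eq hcop hj
  have hNum0 : Num ≠ 0 := by
    rintro rfl
    simp at hdeg
  have hDen0 : Den ≠ 0 := by
    rintro rfl
    simp at hden0
  by_cases ht : Q.ord t < 0
  · obtain ⟨hn0, hn⟩ := ord_aeval_of_ord_neg Q ht Num hNum0
    obtain ⟨-, hd⟩ := ord_aeval_of_ord_neg Q ht Den hDen0
    have hordj : Q.ord j = Q.ord (aeval t Num) - Q.ord (aeval t Den) := by
      rw [hjeq, div_eq_mul_inv, Q.ord_mul hn0 (inv_ne_zero hden0), Q.ord_inv]
      ring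
    rw [hordj, hn, hd]
    have hlt : (Den.natDegree : ℤ) < Num.natDegree := by exact_mod_cast hdeg
    have h1 : max 0 (-Q.ord t) = -Q.ord t := max_eq_right (by omega)
    have h2 : max 0 (-((Num.natDegree : ℤ) * Q.ord t - (Den.natDegree : ℤ) * Q.ord t))
        = -((Num.natDegree : ℤ) * Q.ord t - (Den.natDegree : ℤ) * Q.ord t) := by
      apply max_eq_right
      have : ((Num.natDegree : ℤ) - Den.natDegree) * Q.ord t ≤ 0 :=
        mul_nonpos_of_nonneg_of_nonpos (by omega) (by omega)
      nlinarith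
    rw [h1, h2]
    ring
  · push Not at ht
    have htO : t ∈ Q.toValuationSubring := mem_of_ord_nonneg Q ht
    have h1 : max 0 (-Q.ord t) = 0 := max_eq_left (by omega)
    rw [h1, mul_zero, zero_add]
    have hnO : aeval t Num ∈ Q.toValuationSubring := aeval_mem Q htO Num
    have hdO : aeval t Den ∈ Q.toValuationSubring := aeval_mem Q htO Den
    have hdord : 0 ≤ Q.ord (aeval t Den) := ord_nonneg_of_mem Q hdO
    by_cases hdpos : 0 < Q.ord (aeval t Den)
    · -- `Num(t)` is a unit at `Q`
      obtain ⟨A, B, hAB⟩ := hcop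
      have hAB' : aeval t A * aeval t Num + aeval t B * aeval t Den = 1 := by
        rw [← map_mul, ← map_mul, ← map_add, hAB, map_one]
      have hn0 : aeval t Num ≠ 0 := by
        intro h0
        rw [h0, mul_zero, zero_add] at hAB'
        -- `B(t) * Den(t) = 1` contradicts `ord Den(t) > 0`
        have hB0 : aeval t B ≠ 0 := by
          intro hB; rw [hB, zero_mul] at hAB'; exact zero_ne_one hAB'
        have := Q.ord_mul hB0 hden0
        rw [hAB', Q.ord_one] at this
        have hBO := ord_nonneg_of_mem Q (aeval_mem Q htO B)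
        omega
      have hnord : Q.ord (aeval t Num) = 0 := by
        have hnn := ord_nonneg_of_mem Q hnO
        by_contra hne
        have hnpos : 0 < Q.ord (aeval t Num) := by omega
        -- both terms of `A Num + B Den = 1` have positive order
        have hAO := aeval_mem Q htO A
        have hBO := aeval_mem Q htO B
        have hinvN : (aeval t Num)⁻¹ ∉ Q.toValuationSubring :=
          ((FFPlaces.ord_pos_iff Q hn0).mp hnpos).2
        have hinvD : (aeval t Den)⁻¹ ∉ Q.toValuationSubring :=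
          ((FFPlaces.ord_pos_iff Q hden0).mp hdpos).2
        have hNmax : (⟨aeval t Num, hnO⟩ : Q.toValuationSubring) ∈
            IsLocalRing.maximalIdeal Q.toValuationSubring := by
          rw [IsLocalRing.mem_maximalIdeal, mem_nonunits_iff]
          intro hunit
          obtain ⟨w, hw⟩ := hunit.exists_right_inv
          have hw' : aeval t Num * (w : F) = 1 := congrArg Subtype.val hw
          exact hinvN ((inv_eq_of_mul_eq_one_right hw') ▸ w.2)
        have hDmax : (⟨aeval t Den, hdO⟩ : Q.toValuationSubring) ∈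
            IsLocalRing.maximalIdeal Q.toValuationSubring := by
          rw [IsLocalRing.mem_maximalIdeal, mem_nonunits_iff]
          intro hunit
          obtain ⟨w, hw⟩ := hunit.exists_right_inv
          have hw' : aeval t Den * (w : F) = 1 := congrArg Subtype.val hw
          exact hinvD ((inv_eq_of_mul_eq_one_right hw') ▸ w.2)
        have hone : (1 : Q.toValuationSubring) ∈
            IsLocalRing.maximalIdeal Q.toValuationSubring := by
          have hsum := Ideal.add_mem _
            (Ideal.mul_mem_left _ (⟨aeval t A, hAO⟩ : Q.toValuationSubring) hNmax)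
            (Ideal.mul_mem_left _ (⟨aeval t B, hBO⟩ : Q.toValuationSubring) hDmax)
          have heq : (⟨aeval t A, hAO⟩ : Q.toValuationSubring) * ⟨aeval t Num, hnO⟩
              + ⟨aeval t B, hBO⟩ * ⟨aeval t Den, hdO⟩ = 1 := Subtype.ext hAB'
          rwa [heq] at hsum
        exact (IsLocalRing.mem_maximalIdeal _).mp hone isUnit_one
      have hordj : Q.ord j = - Q.ord (aeval t Den) := by
        rw [hjeq, div_eq_mul_inv, Q.ord_mul hn0 (inv_ne_zero hden0), Q.ord_inv, hnord]
        ring
      rw [hordj, neg_neg]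
      exact max_eq_right hdord
    · have hd0 : Q.ord (aeval t Den) = 0 := by omega
      rw [hd0]
      apply max_eq_left
      rcases eq_or_ne (aeval t Num) 0 with hn0 | hn0
      · have : j = 0 := by rw [hjeq, hn0, zero_div]
        rw [this]; simp
      · have hordj : Q.ord j = Q.ord (aeval t Num) := by
          rw [hjeq, div_eq_mul_inv, Q.ord_mul hn0 (inv_ne_zero hden0), Q.ord_inv, hd0]
          ring
        have := ord_nonneg_of_mem Q hnO
        omega

/-- The poles of `j` are the poles of `t` and the zeros of `Den(t)`. -/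
theorem ord_neg_iff (hcop : IsCoprime Num Den) (hdeg : Den.natDegree < Num.natDegree)
    (hj : j * aeval t Den = aeval t Num) (Q : Place K F) :
    Q.ord j < 0 ↔ Q.ord t < 0 ∨ (0 ≤ Q.ord t ∧ 0 < Q.ord (aeval t Den)) := by
  have hpole := pole_eq hcop hdeg hj Q
  have hden0 := aeval_den_ne_zero hcop hj
  have hDen0 : Den ≠ 0 := by
    rintro rfl
    simp at hden0
  have hlt : (Den.natDegree : ℤ) < Num.natDegree := by exact_mod_cast hdeg
  by_cases ht : Q.ord t < 0
  · have hd := (ord_aeval_of_ord_neg Q ht Den hDen0).2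
    rw [hd, max_eq_right (by omega : (0 : ℤ) ≤ -Q.ord t)] at hpole
    have hprod : ((Num.natDegree : ℤ) - Den.natDegree) * (-Q.ord t) > 0 :=
      mul_pos (by omega) (by omega)
    constructor
    · intro _; exact Or.inl ht
    · intro _
      by_contra hnn
      have : max 0 (-Q.ord j) = 0 := max_eq_left (by omega)
      rw [this] at hpole
      nlinarith
  · push Not at ht
    rw [max_eq_left (by omega : -Q.ord t ≤ (0 : ℤ)), mul_zero, zero_add] at hpole
    constructor
    · intro hjneg
      right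
      refine ⟨ht, ?_⟩
      rw [← hpole, max_eq_right (by omega)]
      omega
    · rintro (h | ⟨-, h⟩)
      · omega
      · by_contra hnn
        have : max 0 (-Q.ord j) = 0 := max_eq_left (by omega)
        rw [this] at hpole
        omega

/-! ### The isomorphism `L(c (j)_∞) ≃ L(c deg Num (t)_∞)` -/

/-- Multiplication by `Den(t) ^ c` identifies `L(c (j)_∞)` with `L(c deg Num (t)_∞)`. -/
theorem mem_riemannRochSpace_iff_mul (hcop : IsCoprime Num Den)
    (hdeg : Den.natDegree < Num.natDegree) (hj : j * aeval t Den = aeval t Num) (c : ℕ)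
    (Dj Dt : Divisor K F) (hDj : ∀ Q : Place K F, Dj Q = c * max 0 (-Q.ord j))
    (hDt : ∀ Q : Place K F, Dt Q = (c * Num.natDegree : ℕ) * max 0 (-Q.ord t)) (y : F) :
    y ∈ riemannRochSpace Dj ↔ aeval t Den ^ c * y ∈ riemannRochSpace Dt := by
  have hden0 := aeval_den_ne_zero hcop hj
  have hpow0 : aeval t Den ^ c ≠ 0 := pow_ne_zero _ hden0
  rw [mem_riemannRochSpace_iff, mem_riemannRochSpace_iff]
  refine forall_congr' fun Q => ?_
  rcases eq_or_ne y 0 with rfl | hy0
  · simp
  have hne : aeval t Den ^ c * y ≠ 0 := mul_ne_zero hpow0 hy0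
  rw [or_iff_right hy0, or_iff_right hne, Q.ord_mul hpow0 hy0, hDj Q, hDt Q]
  have hpole := pole_eq hcop hdeg hj Q
  have hordpow : Q.ord (aeval t Den ^ c) = c * Q.ord (aeval t Den) := by
    have := Q.ord_zpow (aeval t Den) (c : ℤ)
    rwa [zpow_natCast] at this
  rw [hordpow, hpole]
  push_cast
  constructor <;> intro h <;> nlinarith

/-- The linear equivalence `L(c (j)_∞) ≃ L(c deg Num (t)_∞)`, `y ↦ Den(t) ^ c * y`. -/
def rrEquiv (hcop : IsCoprime Num Den) (hdeg : Den.natDegree < Num.natDegree)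
    (hj : j * aeval t Den = aeval t Num) (c : ℕ)
    (Dj Dt : Divisor K F) (hDj : ∀ Q : Place K F, Dj Q = c * max 0 (-Q.ord j))
    (hDt : ∀ Q : Place K F, Dt Q = (c * Num.natDegree : ℕ) * max 0 (-Q.ord t)) :
    riemannRochSpace Dj ≃ₗ[K] riemannRochSpace Dt where
  toFun y := ⟨aeval t Den ^ c * (y : F),
    (mem_riemannRochSpace_iff_mul hcop hdeg hj c Dj Dt hDj hDt y).mp y.2⟩
  map_add' y z := by
    apply Subtype.ext
    show aeval t Den ^ c * ((y : F) + (z : F)) = _
    rw [mul_add]
    rfl
  map_smul' a y := by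
    apply Subtype.ext
    show aeval t Den ^ c * (a • (y : F)) = a • (aeval t Den ^ c * (y : F))
    rw [mul_smul_comm]
  invFun z := ⟨(aeval t Den ^ c)⁻¹ * (z : F), by
    rw [mem_riemannRochSpace_iff_mul hcop hdeg hj c Dj Dt hDj hDt,
      mul_inv_cancel_left₀ (pow_ne_zero _ (aeval_den_ne_zero hcop hj))]
    exact z.2⟩
  left_inv y := by
    apply Subtype.ext
    show (aeval t Den ^ c)⁻¹ * (aeval t Den ^ c * (y : F)) = y
    rw [inv_mul_cancel_left₀ (pow_ne_zero _ (aeval_den_ne_zero hcop hj))]
  right_inv z := by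
    apply Subtype.ext
    show aeval t Den ^ c * ((aeval t Den ^ c)⁻¹ * (z : F)) = z
    rw [mul_inv_cancel_left₀ (pow_ne_zero _ (aeval_den_ne_zero hcop hj))]

@[simp]
theorem rrEquiv_apply (hcop : IsCoprime Num Den) (hdeg : Den.natDegree < Num.natDegree)
    (hj : j * aeval t Den = aeval t Num) (c : ℕ)
    (Dj Dt : Divisor K F) (hDj : ∀ Q : Place K F, Dj Q = c * max 0 (-Q.ord j))
    (hDt : ∀ Q : Place K F, Dt Q = (c * Num.natDegree : ℕ) * max 0 (-Q.ord t))
    (y : riemannRochSpace Dj) :
    ((rrEquiv hcop hdeg hj c Dj Dt hDj hDt y : riemannRochSpace Dt) : F)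
      = aeval t Den ^ c * (y : F) := rfl

theorem finrank_eq (hcop : IsCoprime Num Den) (hdeg : Den.natDegree < Num.natDegree)
    (hj : j * aeval t Den = aeval t Num) (c : ℕ)
    (Dj Dt : Divisor K F) (hDj : ∀ Q : Place K F, Dj Q = c * max 0 (-Q.ord j))
    (hDt : ∀ Q : Place K F, Dt Q = (c * Num.natDegree : ℕ) * max 0 (-Q.ord t)) :
    Module.finrank K (riemannRochSpace Dj) = Module.finrank K (riemannRochSpace Dt) :=
  (rrEquiv hcop hdeg hj c Dj Dt hDj hDt).finrank_eq

theorem finite_iff (hcop : IsCoprime Num Den) (hdeg : Den.natDegree < Num.natDegree)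
    (hj : j * aeval t Den = aeval t Num) (c : ℕ)
    (Dj Dt : Divisor K F) (hDj : ∀ Q : Place K F, Dj Q = c * max 0 (-Q.ord j))
    (hDt : ∀ Q : Place K F, Dt Q = (c * Num.natDegree : ℕ) * max 0 (-Q.ord t)) :
    Module.Finite K (riemannRochSpace Dj) ↔ Module.Finite K (riemannRochSpace Dt) :=
  ⟨fun _ => Module.Finite.equiv (rrEquiv hcop hdeg hj c Dj Dt hDj hDt),
   fun _ => Module.Finite.equiv (rrEquiv hcop hdeg hj c Dj Dt hDj hDt).symm⟩

end Coord

/-! ### The pole set of `j` when `Den` splits -/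

/-- Order of a product of nonzero elements of the valuation ring. -/
theorem ord_multiset_prod (Q : Place K F) (s : Multiset F)
    (hs : ∀ x ∈ s, x ≠ 0 ∧ 0 ≤ Q.ord x) :
    s.prod ≠ 0 ∧ 0 ≤ Q.ord s.prod ∧ (0 < Q.ord s.prod ↔ ∃ x ∈ s, 0 < Q.ord x) := by
  induction s using Multiset.induction_on with
  | empty => simp
  | cons a s ih =>
    obtain ⟨ha0, ha⟩ := hs a (Multiset.mem_cons_self a s)
    obtain ⟨hp0, hp, hiff⟩ := ih fun x hx => hs x (Multiset.mem_cons_of_mem hx)
    rw [Multiset.prod_cons]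
    refine ⟨mul_ne_zero ha0 hp0, ?_, ?_⟩
    · rw [Q.ord_mul ha0 hp0]; omega
    · rw [Q.ord_mul ha0 hp0]
      constructor
      · intro h
        by_cases hapos : 0 < Q.ord a
        · exact ⟨a, Multiset.mem_cons_self a s, hapos⟩
        · obtain ⟨x, hx, hxpos⟩ := hiff.mp (by omega)
          exact ⟨x, Multiset.mem_cons_of_mem hx, hxpos⟩
      · rintro ⟨x, hx, hxpos⟩
        rcases Multiset.mem_cons.mp hx with rfl | hx'
        · omega
        · have := hiff.mpr ⟨x, hx', hxpos⟩
          omega

section Split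

variable {t j : F} {Num Den : K[X]}

theorem aeval_eq_prod_of_splits (hsplit : Den.Splits) (t : F) :
    aeval t Den = algebraMap K F Den.leadingCoeff *
      (Den.roots.map fun a => t - algebraMap K F a).prod := by
  conv_lhs => rw [hsplit.eq_prod_roots]
  rw [map_mul, aeval_C, map_multiset_prod, Multiset.map_map]
  congr 2
  apply Multiset.map_congr rfl
  intro a _
  simp

/-- If `t` is regular at `Q`, `Den(t)` vanishes at `Q` iff `t - a` does for a root `a`. -/
theorem ord_aeval_pos_iff_of_splits (hsplit : Den.Splits) (Q : Place K F)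
    (ht : t ∈ Q.toValuationSubring) (hden0 : aeval t Den ≠ 0) :
    0 < Q.ord (aeval t Den) ↔ ∃ a ∈ Den.roots, 0 < Q.ord (t - algebraMap K F a) := by
  have hprod := aeval_eq_prod_of_splits hsplit t
  have hlc0 : algebraMap K F Den.leadingCoeff ≠ 0 := by
    intro h0
    rw [hprod, h0, zero_mul] at hden0
    exact hden0 rfl
  have hP0 : (Den.roots.map fun a => t - algebraMap K F a).prod ≠ 0 := by
    intro h0
    rw [hprod, h0, mul_zero] at hden0
    exact hden0 rfl
  have hfac : ∀ x ∈ Den.roots.map (fun a => t - algebraMap K F a), x ≠ 0 ∧ 0 ≤ Q.ord x := by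
    intro x hx
    obtain ⟨a, ha, rfl⟩ := Multiset.mem_map.mp hx
    refine ⟨?_, ord_nonneg_of_mem Q
      (Q.toValuationSubring.sub_mem ht (Q.algebraMap_mem' a))⟩
    intro h0
    apply hP0
    exact Multiset.prod_eq_zero (h0 ▸ hx)
  obtain ⟨-, -, hiff⟩ := ord_multiset_prod Q _ hfac
  rw [hprod, Q.ord_mul hlc0 hP0, FFPlaces.ord_algebraMap, zero_add, hiff]
  constructor
  · rintro ⟨x, hx, hxpos⟩
    obtain ⟨a, ha, rfl⟩ := Multiset.mem_map.mp hx
    exact ⟨a, ha, hxpos⟩
  · rintro ⟨a, ha, hapos⟩
    exact ⟨_, Multiset.mem_map_of_mem _ ha, hapos⟩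

/-- A zero of `t - a` is a point where `t` is regular. -/
theorem mem_of_ord_sub_pos (Q : Place K F) {t : F} {a : K}
    (h : 0 < Q.ord (t - algebraMap K F a)) : t ∈ Q.toValuationSubring := by
  have h1 : t - algebraMap K F a ∈ Q.toValuationSubring := mem_of_ord_nonneg Q h.le
  have := Q.toValuationSubring.add_mem _ _ h1 (Q.algebraMap_mem' a)
  simpa using this

/-- (C1) The poles of `j` are the poles of `t` and the zeros of `t - a`, `a` a root of
`Den`. -/
theorem ord_neg_iff_of_splits (hcop : IsCoprime Num Den)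
    (hdeg : Den.natDegree < Num.natDegree) (hj : j * aeval t Den = aeval t Num)
    (hsplit : Den.Splits) (Q : Place K F) :
    Q.ord j < 0 ↔ Q.ord t < 0 ∨ ∃ a ∈ Den.roots, 0 < Q.ord (t - algebraMap K F a) := by
  have hden0 := aeval_den_ne_zero hcop hj
  rw [ord_neg_iff hcop hdeg hj Q]
  constructor
  · rintro (h | ⟨h1, h2⟩)
    · exact Or.inl h
    · right
      exact (ord_aeval_pos_iff_of_splits hsplit Q (mem_of_ord_nonneg Q h1) hden0).mp h2
  · rintro (h | ⟨a, ha, hapos⟩)
    · exact Or.inl h
    · right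
      have htO := mem_of_ord_sub_pos Q hapos
      exact ⟨ord_nonneg_of_mem Q htO,
        (ord_aeval_pos_iff_of_splits hsplit Q htO hden0).mpr ⟨a, ha, hapos⟩⟩

/-- The zero sets of `t - a` and `t - b` are disjoint for `a ≠ b`. -/
theorem not_ord_sub_pos_of_ne (Q : Place K F) {t : F} {a b : K} (hab : a ≠ b)
    (ha : 0 < Q.ord (t - algebraMap K F a)) : ¬ 0 < Q.ord (t - algebraMap K F b) := by
  intro hb
  have ha0 : t - algebraMap K F a ≠ 0 := by
    intro h0; rw [h0] at ha; simp at ha
  have hb0 : t - algebraMap K F b ≠ 0 := by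
    intro h0; rw [h0] at hb; simp at hb
  have hc : algebraMap K F (b - a) ≠ 0 := by
    simpa [sub_eq_zero] using hab.symm
  have hdiff : algebraMap K F (b - a) = (t - algebraMap K F a) - (t - algebraMap K F b) := by
    rw [map_sub]; ring
  -- the constant `b - a` would lie in the maximal ideal
  have hinv : (algebraMap K F (b - a))⁻¹ ∈ Q.toValuationSubring := by
    rw [← map_inv₀]; exact Q.algebraMap_mem' _
  have h1 : ((t - algebraMap K F a) * (algebraMap K F (b - a))⁻¹) -
      ((t - algebraMap K F b) * (algebraMap K F (b - a))⁻¹) = 1 := by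
    rw [← sub_mul, ← hdiff, mul_inv_cancel₀ hc]
  have hinv0 : (algebraMap K F (b - a))⁻¹ ≠ 0 := inv_ne_zero hc
  have hordinv : Q.ord (algebraMap K F (b - a))⁻¹ = 0 := by
    rw [Q.ord_inv, FFPlaces.ord_algebraMap, neg_zero]
  have hx : 0 < Q.ord ((t - algebraMap K F a) * (algebraMap K F (b - a))⁻¹) := by
    rw [Q.ord_mul ha0 hinv0, hordinv]; omega
  have hy : 0 < Q.ord ((t - algebraMap K F b) * (algebraMap K F (b - a))⁻¹) := by
    rw [Q.ord_mul hb0 hinv0, hordinv]; omega
  set x := (t - algebraMap K F a) * (algebraMap K F (b - a))⁻¹ with hxdef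
  set y := (t - algebraMap K F b) * (algebraMap K F (b - a))⁻¹ with hydef
  have hx0 : x ≠ 0 := mul_ne_zero ha0 hinv0
  have hy0 : y ≠ 0 := mul_ne_zero hb0 hinv0
  have hxO : x ∈ Q.toValuationSubring := mem_of_ord_nonneg Q hx.le
  have hyO : y ∈ Q.toValuationSubring := mem_of_ord_nonneg Q hy.le
  have hxmax : (⟨x, hxO⟩ : Q.toValuationSubring) ∈
      IsLocalRing.maximalIdeal Q.toValuationSubring := by
    rw [IsLocalRing.mem_maximalIdeal, mem_nonunits_iff]
    intro hunit
    obtain ⟨w, hw⟩ := hunit.exists_right_inv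
    have hw' : x * (w : F) = 1 := congrArg Subtype.val hw
    exact ((FFPlaces.ord_pos_iff Q hx0).mp hx).2 ((inv_eq_of_mul_eq_one_right hw') ▸ w.2)
  have hymax : (⟨y, hyO⟩ : Q.toValuationSubring) ∈
      IsLocalRing.maximalIdeal Q.toValuationSubring := by
    rw [IsLocalRing.mem_maximalIdeal, mem_nonunits_iff]
    intro hunit
    obtain ⟨w, hw⟩ := hunit.exists_right_inv
    have hw' : y * (w : F) = 1 := congrArg Subtype.val hw
    exact ((FFPlaces.ord_pos_iff Q hy0).mp hy).2 ((inv_eq_of_mul_eq_one_right hw') ▸ w.2)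
  have hone : (1 : Q.toValuationSubring) ∈ IsLocalRing.maximalIdeal Q.toValuationSubring := by
    have hsub := Ideal.sub_mem _ hxmax hymax
    have heq : (⟨x, hxO⟩ : Q.toValuationSubring) - ⟨y, hyO⟩ = 1 := Subtype.ext h1
    rwa [heq] at hsub
  exact (IsLocalRing.mem_maximalIdeal _).mp hone isUnit_one

/-- A zero of `t - a` is not a pole of `t`. -/
theorem not_ord_neg_of_ord_sub_pos (Q : Place K F) {t : F} {a : K}
    (ha : 0 < Q.ord (t - algebraMap K F a)) : ¬ Q.ord t < 0 := by
  have := ord_nonneg_of_mem Q (mem_of_ord_sub_pos Q ha)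
  omega

/-- (C2) Counting the poles of `j`: the poles of `t` plus, for every root `a` of `Den`, the
zeros of `t - a`. -/
theorem ncard_poles_eq [DecidableEq K] (hcop : IsCoprime Num Den)
    (hdeg : Den.natDegree < Num.natDegree) (hj : j * aeval t Den = aeval t Num)
    (hsplit : Den.Splits) (hfin : {Q : Place K F | Q.ord t < 0}.Finite)
    (hfina : ∀ a ∈ Den.roots, {Q : Place K F | 0 < Q.ord (t - algebraMap K F a)}.Finite) :
    {Q : Place K F | Q.ord j < 0}.Finite ∧
    {Q : Place K F | Q.ord j < 0}.ncard = {Q : Place K F | Q.ord t < 0}.ncard +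
      ∑ a ∈ Den.roots.toFinset, {Q : Place K F | 0 < Q.ord (t - algebraMap K F a)}.ncard := by
  -- the union over a finset of roots
  have hU : ∀ s : Finset K, (∀ a ∈ s, a ∈ Den.roots) →
      (⋃ a ∈ s, {Q : Place K F | 0 < Q.ord (t - algebraMap K F a)}).Finite ∧
      (⋃ a ∈ s, {Q : Place K F | 0 < Q.ord (t - algebraMap K F a)}).ncard
        = ∑ a ∈ s, {Q : Place K F | 0 < Q.ord (t - algebraMap K F a)}.ncard := by
    intro s
    induction s using Finset.induction_on with
    | empty => intro _; simp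
    | insert a s has ih =>
      intro hs
      obtain ⟨hfin_s, hcard_s⟩ := ih fun b hb => hs b (Finset.mem_insert_of_mem hb)
      have hfin_a := hfina a (hs a (Finset.mem_insert_self a s))
      have hdisj : Disjoint {Q : Place K F | 0 < Q.ord (t - algebraMap K F a)}
          (⋃ b ∈ s, {Q : Place K F | 0 < Q.ord (t - algebraMap K F b)}) := by
        rw [Set.disjoint_left]
        intro Q hQa hQs
        simp only [Set.mem_iUnion, Set.mem_ofPred_eq] at hQs
        obtain ⟨b, hb, hQb⟩ := hQs
        have hab : a ≠ b := fun h => has (h ▸ hb)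
        exact not_ord_sub_pos_of_ne Q hab hQa hQb
      rw [Finset.set_biUnion_insert, Finset.sum_insert has]
      refine ⟨hfin_a.union hfin_s, ?_⟩
      rw [Set.ncard_union_eq hdisj hfin_a hfin_s, hcard_s]
  obtain ⟨hfinU, hcardU⟩ := hU Den.roots.toFinset fun a ha => Multiset.mem_toFinset.mp ha
  have hset : {Q : Place K F | Q.ord j < 0} = {Q : Place K F | Q.ord t < 0} ∪
      ⋃ a ∈ Den.roots.toFinset, {Q : Place K F | 0 < Q.ord (t - algebraMap K F a)} := by
    ext Q
    simp only [Set.mem_ofPred_eq, Set.mem_union, Set.mem_iUnion, Multiset.mem_toFinset,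
      exists_prop]
    exact ord_neg_iff_of_splits hcop hdeg hj hsplit Q
  have hdisj : Disjoint {Q : Place K F | Q.ord t < 0}
      (⋃ a ∈ Den.roots.toFinset, {Q : Place K F | 0 < Q.ord (t - algebraMap K F a)}) := by
    rw [Set.disjoint_left]
    intro Q hQt hQs
    simp only [Set.mem_iUnion, Set.mem_ofPred_eq] at hQs
    obtain ⟨a, -, hQa⟩ := hQs
    exact not_ord_neg_of_ord_sub_pos Q hQa hQt
  rw [hset]
  exact ⟨hfin.union hfinU, by rw [Set.ncard_union_eq hdisj hfin hfinU, hcardU]⟩

/-- (C2'), subtype form. -/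
theorem card_poles_eq [DecidableEq K] (hcop : IsCoprime Num Den)
    (hdeg : Den.natDegree < Num.natDegree) (hj : j * aeval t Den = aeval t Num)
    (hsplit : Den.Splits) (hfin : {Q : Place K F | Q.ord t < 0}.Finite)
    (hfina : ∀ a ∈ Den.roots, {Q : Place K F | 0 < Q.ord (t - algebraMap K F a)}.Finite) :
    Nat.card {Q : Place K F // Q.ord j < 0} = Nat.card {Q : Place K F // Q.ord t < 0} +
      ∑ a ∈ Den.roots.toFinset,
        Nat.card {Q : Place K F // 0 < Q.ord (t - algebraMap K F a)} := by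
  have h := (ncard_poles_eq hcop hdeg hj hsplit hfin hfina).2
  have e : ∀ P : Place K F → Prop, Nat.card {Q : Place K F // P Q} = {Q : Place K F | P Q}.ncard :=
    fun P => Nat.card_coe_set_eq {Q : Place K F | P Q}
  rw [e, e, h]
  exact congrArg _ (Finset.sum_congr rfl fun a _ => (e _).symm)

end Split

end Fermat.Agent.Lib.RRCoord
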