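import Mathlib

/-!
# Radicial subrings: primes, characters and separation

Setting: `S` a commutative ring of exponential characteristic `ℓ` (e.g. `[CharP S ℓ]` with
`ℓ` prime), `R : Subring S` and `b : ℕ` such that `s ^ (ℓ ^ b) ∈ R` for every `s : S`
(`S` is *radicial* over `R`).  Then

* `powHom : S →+* R`, `s ↦ s ^ (ℓ ^ b)` (iterated Frobenius);
* `extPrime I = {s | s ^ (ℓ ^ b) ∈ I}` is the unique prime of `S` above the prime `I` of `R`
  (`extPrime_isPrime`, `extPrime_isMaximal`, `comap_extPrime`, `eq_extPrime`,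
  `comap_injective`, `comap_isMaximal`, `isIntegral`);
* a character `χ : R →+* k` into a perfect ring of characteristic `ℓ` extends uniquely to
  `extChar χ : S →+* k` (`extChar_coe`, `extChar_pow`, `extChar_unique`, `ker_extChar`);
* the same for `R = red.range`, `red : B →+* S`: `extHom`, `extHom_red`, `extHom_unique`,
  `exists_unique_ext`, `ker_extHom_isMaximal`;
* separation: finitely many maximal ideals of a `k`-algebra `S` (`k` an infinite field) are
  separated by an element of `R` (`exists_separating`, `exists_forall_sub_pow_mem`).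
-/

set_option autoImplicit false

noncomputable section

namespace Fermat.Agent.Lib.RadicialPrime

variable {S : Type*} [CommRing S] (ℓ : ℕ) [ExpChar S ℓ] (R : Subring S) (b : ℕ)
  (hR : ∀ s : S, s ^ (ℓ ^ b) ∈ R)

/-- The iterated Frobenius `s ↦ s ^ (ℓ ^ b)`, as a ring homomorphism `S →+* R`. -/
def powHom : S →+* R :=
  (iterateFrobenius S ℓ b).codRestrict R fun s => by
    rw [iterateFrobenius_def]; exact hR s

@[simp] theorem coe_powHom (s : S) : ((powHom ℓ R b hR s : R) : S) = s ^ (ℓ ^ b) := rfl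

theorem powHom_apply (s : S) : powHom ℓ R b hR s = ⟨s ^ (ℓ ^ b), hR s⟩ := rfl

theorem powHom_coe (r : R) : powHom ℓ R b hR (r : S) = r ^ (ℓ ^ b) := Subtype.ext (by simp)

omit R hR in
/-- `ℓ ^ b` is positive. -/
theorem pow_exp_pos (S : Type*) [CommRing S] (ℓ : ℕ) [ExpChar S ℓ] (b : ℕ) : 0 < ℓ ^ b :=
  pow_pos (expChar_pos S ℓ) b

/-- The prime of `S` above the ideal `I` of `R`: `{s | s ^ (ℓ ^ b) ∈ I}`. -/
def extPrime (I : Ideal R) : Ideal S := I.comap (powHom ℓ R b hR)

theorem mem_extPrime {I : Ideal R} {s : S} :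
    s ∈ extPrime ℓ R b hR I ↔ (⟨s ^ (ℓ ^ b), hR s⟩ : R) ∈ I := Iff.rfl

theorem mem_extPrime' {I : Ideal R} {s : S} :
    s ∈ extPrime ℓ R b hR I ↔ powHom ℓ R b hR s ∈ I := Iff.rfl

instance extPrime_isPrime (I : Ideal R) [I.IsPrime] : (extPrime ℓ R b hR I).IsPrime :=
  Ideal.comap_isPrime _ _

theorem extPrime_mono {I J : Ideal R} (h : I ≤ J) : extPrime ℓ R b hR I ≤ extPrime ℓ R b hR J :=
  Ideal.comap_mono h

theorem coe_mem_extPrime {I : Ideal R} [I.IsPrime] {r : R} :
    (r : S) ∈ extPrime ℓ R b hR I ↔ r ∈ I := by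
  rw [mem_extPrime', powHom_coe]
  exact Ideal.IsPrime.pow_mem_iff_mem ‹_› _ (pow_exp_pos S ℓ b)

/-- `extPrime I` lies over `I`. -/
theorem comap_extPrime (I : Ideal R) [I.IsPrime] :
    (extPrime ℓ R b hR I).comap R.subtype = I := by
  ext r; exact coe_mem_extPrime ℓ R b hR

/-- A prime of `S` is determined by its contraction to `R`. -/
theorem eq_extPrime (Q : Ideal S) [Q.IsPrime] : Q = extPrime ℓ R b hR (Q.comap R.subtype) := by
  ext s
  rw [mem_extPrime', Ideal.mem_comap]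
  exact (Ideal.IsPrime.pow_mem_iff_mem ‹_› _ (pow_exp_pos S ℓ b)).symm

theorem eq_extPrime_of_comap {I : Ideal R} (Q : Ideal S) [Q.IsPrime]
    (h : Q.comap R.subtype = I) : Q = extPrime ℓ R b hR I := by
  rw [← h]; exact eq_extPrime ℓ R b hR Q

include hR in
/-- Contraction to `R` is injective on primes of `S`. -/
theorem comap_injective {Q Q' : Ideal S} [Q.IsPrime] [Q'.IsPrime]
    (h : Q.comap R.subtype = Q'.comap R.subtype) : Q = Q' := by
  rw [eq_extPrime ℓ R b hR Q, eq_extPrime ℓ R b hR Q', h]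

theorem extPrime_inj {I J : Ideal R} [I.IsPrime] [J.IsPrime] :
    extPrime ℓ R b hR I = extPrime ℓ R b hR J ↔ I = J := by
  refine ⟨fun h => ?_, fun h => by rw [h]⟩
  rw [← comap_extPrime ℓ R b hR I, ← comap_extPrime ℓ R b hR J, h]

theorem extPrime_le_iff {I J : Ideal R} [I.IsPrime] [J.IsPrime] :
    extPrime ℓ R b hR I ≤ extPrime ℓ R b hR J ↔ I ≤ J := by
  refine ⟨fun h => ?_, extPrime_mono ℓ R b hR⟩
  rw [← comap_extPrime ℓ R b hR I, ← comap_extPrime ℓ R b hR J]
  exact Ideal.comap_mono h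

include hR in
/-- There is exactly one prime of `S` above a prime of `R`. -/
theorem existsUnique_prime_over (I : Ideal R) [I.IsPrime] :
    ∃! Q : Ideal S, Q.IsPrime ∧ Q.comap R.subtype = I :=
  ⟨extPrime ℓ R b hR I, ⟨inferInstance, comap_extPrime ℓ R b hR I⟩,
    fun Q hQ => haveI := hQ.1; eq_extPrime_of_comap ℓ R b hR Q hQ.2⟩

include hR in
/-- `S` is integral over `R`. -/
theorem isIntegral : Algebra.IsIntegral R S := by
  refine ⟨fun s => ⟨Polynomial.X ^ (ℓ ^ b) - Polynomial.C (powHom ℓ R b hR s),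
    Polynomial.monic_X_pow_sub_C _ (pow_exp_pos S ℓ b).ne', ?_⟩⟩
  rw [Polynomial.eval₂_sub, Polynomial.eval₂_pow, Polynomial.eval₂_X, Polynomial.eval₂_C]
  change s ^ (ℓ ^ b) - ((powHom ℓ R b hR s : R) : S) = 0
  rw [coe_powHom, sub_self]

instance extPrime_isMaximal (I : Ideal R) [I.IsMaximal] : (extPrime ℓ R b hR I).IsMaximal := by
  rw [Ideal.isMaximal_iff]
  refine ⟨(Ideal.ne_top_iff_one _).1 (extPrime_isPrime ℓ R b hR I).ne_top, ?_⟩
  intro J x hJ hx hxJ
  obtain ⟨y, i, hi, h⟩ := Ideal.IsMaximal.exists_inv ‹I.IsMaximal› hx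
  have h' : (y : S) * x ^ (ℓ ^ b) + (i : S) = 1 := by
    have := congrArg (Subtype.val) h
    simpa using this
  rw [← h']
  exact J.add_mem (J.mul_mem_left _ (J.pow_mem_of_mem hxJ _ (pow_exp_pos S ℓ b)))
    (hJ ((coe_mem_extPrime ℓ R b hR).2 hi))

include hR in
/-- The contraction of a maximal ideal of `S` is a maximal ideal of `R`. -/
theorem comap_isMaximal (Q : Ideal S) [Q.IsMaximal] : (Q.comap R.subtype).IsMaximal := by
  have := isIntegral ℓ R b hR
  exact Ideal.isMaximal_comap_of_isIntegral_of_isMaximal (R := R) Q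

/-- Two-point separation: if `z ∈ Q`, `z ∉ Q'` then `z ^ (ℓ ^ b) ∈ R` does the same. -/
theorem powHom_mem_iff (Q : Ideal S) [Q.IsPrime] (z : S) :
    powHom ℓ R b hR z ∈ Q.comap R.subtype ↔ z ∈ Q := by
  rw [Ideal.mem_comap]
  exact Ideal.IsPrime.pow_mem_iff_mem ‹_› _ (pow_exp_pos S ℓ b)

include hR in
theorem exists_mem_not_mem {Q Q' : Ideal S} [Q.IsPrime] [Q'.IsPrime] (h : ¬ Q ≤ Q') :
    ∃ r : R, (r : S) ∈ Q ∧ (r : S) ∉ Q' := by
  obtain ⟨z, hz, hz'⟩ := SetLike.not_le_iff_exists.1 h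
  exact ⟨powHom ℓ R b hR z, (powHom_mem_iff ℓ R b hR Q z).2 hz,
    fun h' => hz' ((powHom_mem_iff ℓ R b hR Q' z).1 h')⟩

/-! ## Characters -/

section Char

variable {k : Type*} [CommRing k] [ExpChar k ℓ] [PerfectRing k ℓ]

/-- The unique extension to `S` of a character `χ : R →+* k`, `k` perfect of characteristic
`ℓ`: `s ↦ (χ (s ^ (ℓ ^ b))) ^ (1 / ℓ ^ b)`. -/
def extChar (χ : R →+* k) : S →+* k :=
  ((iterateFrobeniusEquiv k ℓ b).symm : k →+* k).comp (χ.comp (powHom ℓ R b hR))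

theorem extChar_pow (χ : R →+* k) (s : S) :
    extChar ℓ R b hR χ s ^ (ℓ ^ b) = χ ⟨s ^ (ℓ ^ b), hR s⟩ := by
  rw [← iterateFrobeniusEquiv_def]
  exact (iterateFrobeniusEquiv k ℓ b).apply_symm_apply _

theorem extChar_coe (χ : R →+* k) (r : R) : extChar ℓ R b hR χ (r : S) = χ r := by
  apply (iterateFrobeniusEquiv k ℓ b).injective
  rw [iterateFrobeniusEquiv_def, extChar_pow, iterateFrobeniusEquiv_def, ← map_pow]
  rfl

theorem extChar_of_mem (χ : R →+* k) {s : S} (hs : s ∈ R) :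
    extChar ℓ R b hR χ s = χ ⟨s, hs⟩ :=
  extChar_coe ℓ R b hR χ ⟨s, hs⟩

theorem extChar_unique (χ : R →+* k) (ψ : S →+* k) (h : ∀ r : R, ψ r = χ r) :
    ψ = extChar ℓ R b hR χ := by
  ext s
  apply (iterateFrobeniusEquiv k ℓ b).injective
  rw [iterateFrobeniusEquiv_def, iterateFrobeniusEquiv_def, extChar_pow, ← map_pow]
  exact h ⟨_, hR s⟩

theorem mem_ker_extChar (χ : R →+* k) (s : S) :
    s ∈ RingHom.ker (extChar ℓ R b hR χ) ↔ χ ⟨s ^ (ℓ ^ b), hR s⟩ = 0 := by
  rw [RingHom.mem_ker, ← extChar_pow, ← iterateFrobeniusEquiv_def,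
    (iterateFrobeniusEquiv k ℓ b).map_eq_zero_iff]

theorem ker_extChar (χ : R →+* k) :
    RingHom.ker (extChar ℓ R b hR χ) = extPrime ℓ R b hR (RingHom.ker χ) := by
  ext s
  rw [mem_ker_extChar, mem_extPrime, RingHom.mem_ker]

theorem extChar_surjective (χ : R →+* k) (hχ : Function.Surjective χ) :
    Function.Surjective (extChar ℓ R b hR χ) := fun a => by
  obtain ⟨r, rfl⟩ := hχ a
  exact ⟨r, extChar_coe ℓ R b hR χ r⟩

include hR in
/-- Two characters of `S` that agree on `R` are equal. -/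
theorem char_ext {ψ ψ' : S →+* k} (h : ∀ r : R, ψ r = ψ' r) : ψ = ψ' :=
  (extChar_unique ℓ R b hR (ψ'.comp R.subtype) ψ h).trans
    (extChar_unique ℓ R b hR (ψ'.comp R.subtype) ψ' fun _ => rfl).symm

end Char

/-! ## The same for the range of a ring homomorphism -/

section Hom

variable {B : Type*} [CommRing B] (red : B →+* S) (hred : ∀ s : S, s ^ (ℓ ^ b) ∈ red.range)
variable {k : Type*} [CommRing k] [ExpChar k ℓ] [PerfectRing k ℓ]
variable (ev : B →+* k) (hker : RingHom.ker red ≤ RingHom.ker ev)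

/-- The character of `red.range` induced by `ev : B →+* k` when `ker red ≤ ker ev`. -/
def rangeChar : red.range →+* k :=
  RingHom.liftOfSurjective red.rangeRestrict red.rangeRestrict_surjective
    ⟨ev, by rwa [RingHom.ker_rangeRestrict]⟩

theorem rangeChar_apply (y : B) : rangeChar red ev hker ⟨red y, y, rfl⟩ = ev y :=
  RingHom.liftOfRightInverse_comp_apply _ _ _ _ y

/-- `red : B →+* S` with `S` radicial over the image, `ev : B →+* k` a character killing
`ker red`: the unique character `χ` of `S` with `χ ∘ red = ev`. -/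
def extHom : S →+* k := extChar ℓ red.range b hred (rangeChar red ev hker)

theorem extHom_red (y : B) : extHom ℓ b red hred ev hker (red y) = ev y := by
  rw [extHom, extChar_of_mem ℓ red.range b hred _ ⟨y, rfl⟩, rangeChar_apply]

theorem extHom_pow (s : S) (y : B) (h : red y = s ^ (ℓ ^ b)) :
    extHom ℓ b red hred ev hker s ^ (ℓ ^ b) = ev y := by
  rw [← map_pow, ← h, extHom_red]

theorem extHom_unique (ψ : S →+* k) (h : ∀ y : B, ψ (red y) = ev y) :
    ψ = extHom ℓ b red hred ev hker := by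
  refine extChar_unique ℓ red.range b hred _ ψ ?_
  rintro ⟨_, y, rfl⟩
  rw [rangeChar_apply]; exact h y

include hred hker in
theorem exists_unique_ext : ∃! χ : S →+* k, ∀ y : B, χ (red y) = ev y :=
  ⟨extHom ℓ b red hred ev hker, extHom_red ℓ b red hred ev hker,
    fun ψ h => extHom_unique ℓ b red hred ev hker ψ h⟩

theorem mem_ker_extHom (s : S) (y : B) (h : red y = s ^ (ℓ ^ b)) :
    s ∈ RingHom.ker (extHom ℓ b red hred ev hker) ↔ ev y = 0 := by
  rw [RingHom.mem_ker, ← extHom_pow ℓ b red hred ev hker s y h, ← iterateFrobeniusEquiv_def,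
    (iterateFrobeniusEquiv k ℓ b).map_eq_zero_iff]

theorem red_mem_ker_extHom (y : B) :
    red y ∈ RingHom.ker (extHom ℓ b red hred ev hker) ↔ ev y = 0 := by
  rw [RingHom.mem_ker, extHom_red]

theorem extHom_surjective (hev : Function.Surjective ev) :
    Function.Surjective (extHom ℓ b red hred ev hker) := fun a => by
  obtain ⟨y, rfl⟩ := hev a
  exact ⟨red y, extHom_red ℓ b red hred ev hker y⟩

theorem ker_extHom_isMaximal {k : Type*} [Field k] [ExpChar k ℓ] [PerfectRing k ℓ]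
    (ev : B →+* k) (hker : RingHom.ker red ≤ RingHom.ker ev) (hev : Function.Surjective ev) :
    (RingHom.ker (extHom ℓ b red hred ev hker)).IsMaximal :=
  RingHom.ker_isMaximal_of_surjective _ (extHom_surjective ℓ b red hred ev hker hev)

end Hom

/-! ## Separation of finitely many maximal ideals by an element of `R` -/

section Sep

variable {k : Type*} [Field k] [Algebra k S]

omit [ExpChar S ℓ] in
/-- A constant of a proper ideal is zero. -/
theorem algebraMap_mem_iff (Q : Ideal S) (hQ : Q ≠ ⊤) (a : k) : algebraMap k S a ∈ Q ↔ a = 0 := by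
  refine ⟨fun h => ?_, fun h => by rw [h, map_zero]; exact Q.zero_mem⟩
  by_contra ha
  exact hQ (Ideal.eq_top_of_isUnit_mem _ h ((isUnit_iff_ne_zero.2 ha).map (algebraMap k S)))

include hR in
/-- CRT followed by the `ℓ ^ b`-th power: prescribed `ℓ ^ b`-th powers of constants at finitely
many maximal ideals are realised by an element of `R`. -/
theorem exists_forall_sub_pow_mem (T : Finset (Ideal S)) (hT : ∀ Q ∈ T, Q.IsMaximal)
    (c : Ideal S → k) :
    ∃ r : R, ∀ Q ∈ T, (r : S) - algebraMap k S (c Q ^ (ℓ ^ b)) ∈ Q := by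
  have hcop : Pairwise (Function.onFun IsCoprime fun Q : T => (Q : Ideal S)) := by
    intro Q Q' hne
    rw [Function.onFun, Ideal.isCoprime_iff_sup_eq]
    exact Ideal.IsMaximal.coprime_of_ne (hT _ Q.2) (hT _ Q'.2) fun h => hne (Subtype.ext h)
  obtain ⟨z, hz⟩ := Ideal.exists_forall_sub_mem_ideal hcop
    fun Q : T => algebraMap k S (c (Q : Ideal S))
  refine ⟨powHom ℓ R b hR z, fun Q hQ => ?_⟩
  have h1 := hz ⟨Q, hQ⟩
  have h2 : (z - algebraMap k S (c Q)) ^ (ℓ ^ b) ∈ Q :=
    Q.pow_mem_of_mem h1 _ (pow_exp_pos S ℓ b)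
  rwa [sub_pow_expChar_pow, ← map_pow] at h2

include hR in
/-- **Separation.** Finitely many (distinct) maximal ideals of the `k`-algebra `S`, `k` an
infinite field: some `r ∈ R` takes pairwise distinct values at them, in the sense that no
constant `a` satisfies `r - a ∈ Q` and `r - a ∈ Q'` for two distinct members. -/
theorem exists_separating [Infinite k] (T : Finset (Ideal S)) (hT : ∀ Q ∈ T, Q.IsMaximal) :
    ∃ r : R, ∀ Q ∈ T, ∀ Q' ∈ T, Q ≠ Q' → ∀ a : k,
      ¬ ((r : S) - algebraMap k S a ∈ Q ∧ (r : S) - algebraMap k S a ∈ Q') := by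
  classical
  let c : Ideal S → k := fun Q =>
    if h : Q ∈ T then Infinite.natEmbedding k (T.equivFin ⟨Q, h⟩) else 0
  have hc : ∀ Q ∈ T, ∀ Q' ∈ T, c Q = c Q' → Q = Q' := by
    intro Q hQ Q' hQ' h
    simp only [c, dif_pos hQ, dif_pos hQ'] at h
    have := T.equivFin.injective (Fin.val_injective ((Infinite.natEmbedding k).injective h))
    exact congrArg Subtype.val this
  obtain ⟨r, hr⟩ := exists_forall_sub_pow_mem ℓ R b hR T hT c
  refine ⟨r, fun Q hQ Q' hQ' hne a ⟨h1, h2⟩ => hne ?_⟩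
  have : Nontrivial S :=
    ⟨⟨0, 1, fun h => (hT Q hQ).ne_top ((Ideal.eq_top_iff_one Q).2 (h ▸ Q.zero_mem))⟩⟩
  have : ExpChar k ℓ := (algebraMap k S).expChar (algebraMap k S).injective ℓ
  have key : ∀ P ∈ T, (r : S) - algebraMap k S a ∈ P → a = c P ^ (ℓ ^ b) := by
    intro P hP h
    have h3 := P.sub_mem (hr P hP) h
    rw [sub_sub_sub_cancel_left, ← map_sub,
      algebraMap_mem_iff P (hT P hP).ne_top, sub_eq_zero] at h3
    exact h3
  have h3 : c Q ^ (ℓ ^ b) = c Q' ^ (ℓ ^ b) := (key Q hQ h1).symm.trans (key Q' hQ' h2)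
  exact hc Q hQ Q' hQ' (iterateFrobenius_inj k ℓ b h3)

omit R hR in
/-- **Separation**, for the range of a ring homomorphism `red : B →+* S`. -/
theorem exists_separating_hom [Infinite k] {B : Type*} [CommRing B] (red : B →+* S)
    (hred : ∀ s : S, s ^ (ℓ ^ b) ∈ red.range)
    (T : Finset (Ideal S)) (hT : ∀ Q ∈ T, Q.IsMaximal) :
    ∃ y : B, ∀ Q ∈ T, ∀ Q' ∈ T, Q ≠ Q' → ∀ a : k,
      ¬ (red y - algebraMap k S a ∈ Q ∧ red y - algebraMap k S a ∈ Q') := by
  obtain ⟨⟨_, y, rfl⟩, hy⟩ := exists_separating (k := k) ℓ red.range b hred T hT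
  exact ⟨y, hy⟩

omit R hR in
/-- CRT followed by the `ℓ ^ b`-th power, for the range of `red : B →+* S`. -/
theorem exists_forall_sub_pow_mem_hom {B : Type*} [CommRing B] (red : B →+* S)
    (hred : ∀ s : S, s ^ (ℓ ^ b) ∈ red.range)
    (T : Finset (Ideal S)) (hT : ∀ Q ∈ T, Q.IsMaximal) (c : Ideal S → k) :
    ∃ y : B, ∀ Q ∈ T, red y - algebraMap k S (c Q ^ (ℓ ^ b)) ∈ Q := by
  obtain ⟨⟨_, y, rfl⟩, hy⟩ := exists_forall_sub_pow_mem (k := k) ℓ red.range b hred T hT c
  exact ⟨y, hy⟩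

end Sep

end Fermat.Agent.Lib.RadicialPrime
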