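import Mathlib
import Fermat.Agent.Lib.FFSep.Places
import Fermat.Agent.Lib.RadicialPrime

/-!
# Separation of finitely many places by an `ℓ ^ b`-th power

`F / K` a function field in the setting of `Lib/FFSep` (`x : F` with `F / K(x)` finite
separable), `K` infinite, `ℓ` the exponential characteristic.  Finitely many places containing `x`
are separated by `z ^ (ℓ ^ b)` for some `z` integral over `K[x]`
(`exists_separating_places`): CRT in the integral closure of `K[x]`, then the `ℓ ^ b`-th power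
(Frobenius is injective on the constants).

This is the function-field half of `[SEP]` of the S37 plan: if `z ^ (ℓ ^ b)` is the reduction of
a chart element for every `z` integral over `k[x]` (`[RAD]`), the reductions of chart elements
separate finitely many places.
-/

set_option autoImplicit false

noncomputable section

namespace Fermat.Agent.Lib.RadicialSep

open AlgebraicCurve IsDedekindDomain IntermediateField

/-- CRT then Frobenius, without any subring: finitely many maximal ideals of a `k`-algebra `S`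
of exponential characteristic `ℓ` (`k` an infinite field) are separated by an `ℓ ^ b`-th power. -/
theorem exists_pow_separating {S k : Type*} [CommRing S] [Field k] [Algebra k S] [Infinite k]
    (ℓ : ℕ) [ExpChar S ℓ] (b : ℕ) (T : Finset (Ideal S)) (hT : ∀ Q ∈ T, Q.IsMaximal) :
    ∃ z : S, ∀ Q ∈ T, ∀ Q' ∈ T, Q ≠ Q' → ∀ a : k,
      ¬ (z ^ (ℓ ^ b) - algebraMap k S a ∈ Q ∧ z ^ (ℓ ^ b) - algebraMap k S a ∈ Q') := by
  obtain ⟨⟨_, z, rfl⟩, hz⟩ := RadicialPrime.exists_separating (k := k) ℓ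
    (iterateFrobenius S ℓ b).range b (fun s => ⟨s, rfl⟩) T hT
  exact ⟨z, hz⟩

/-- CRT then Frobenius with prescribed values, without any subring. -/
theorem exists_pow_sub_mem {S k : Type*} [CommRing S] [Field k] [Algebra k S]
    (ℓ : ℕ) [ExpChar S ℓ] (b : ℕ) (T : Finset (Ideal S)) (hT : ∀ Q ∈ T, Q.IsMaximal)
    (c : Ideal S → k) :
    ∃ z : S, ∀ Q ∈ T, z ^ (ℓ ^ b) - algebraMap k S (c Q ^ (ℓ ^ b)) ∈ Q := by
  obtain ⟨⟨_, z, rfl⟩, hz⟩ := RadicialPrime.exists_forall_sub_pow_mem (k := k) ℓ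
    (iterateFrobenius S ℓ b).range b (fun s => ⟨s, rfl⟩) T hT c
  exact ⟨z, hz⟩

/-- A finite set injects into an infinite type. -/
theorem exists_injOn_finset {α k : Type*} [Infinite k] (T : Finset α) :
    ∃ c : α → k, Set.InjOn c (T : Set α) := by
  classical
  inhabit k
  refine ⟨fun Q => if h : Q ∈ T then Infinite.natEmbedding k (T.equivFin ⟨Q, h⟩) else default,
    fun Q hQ Q' hQ' h => ?_⟩
  have hQ1 : Q ∈ T := hQ
  have hQ2 : Q' ∈ T := hQ'
  simp only [dif_pos hQ1, dif_pos hQ2] at h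
  have := T.equivFin.injective (Fin.val_injective ((Infinite.natEmbedding k).injective h))
  exact congrArg Subtype.val this

/-- If `z` has pairwise distinct constant values `c Q` at the proper ideals `Q ∈ T`, then every
Frobenius power `z ^ (ℓ ^ b)` separates `T`. -/
theorem pow_separating_of_values {S k : Type*} [CommRing S] [Field k] [Algebra k S]
    (ℓ : ℕ) [ExpChar S ℓ] (T : Finset (Ideal S)) (hT : ∀ Q ∈ T, Q ≠ ⊤) (c : Ideal S → k)
    (hc : Set.InjOn c (T : Set (Ideal S))) (z : S)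
    (hz : ∀ Q ∈ T, z - algebraMap k S (c Q) ∈ Q) (b : ℕ) :
    ∀ Q ∈ T, ∀ Q' ∈ T, Q ≠ Q' → ∀ a : k,
      ¬ (z ^ (ℓ ^ b) - algebraMap k S a ∈ Q ∧ z ^ (ℓ ^ b) - algebraMap k S a ∈ Q') := by
  intro Q hQ Q' hQ' hne a ⟨h1, h2⟩
  have : Nontrivial S :=
    ⟨⟨0, 1, fun h => hT Q hQ ((Ideal.eq_top_iff_one Q).2 (h ▸ Q.zero_mem))⟩⟩
  have : ExpChar k ℓ := (algebraMap k S).expChar (algebraMap k S).injective ℓ
  have key : ∀ P ∈ T, z ^ (ℓ ^ b) - algebraMap k S a ∈ P → a = c P ^ (ℓ ^ b) := by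
    intro P hP h
    have h0 : (z - algebraMap k S (c P)) ^ (ℓ ^ b) ∈ P :=
      P.pow_mem_of_mem (hz P hP) _ (pow_pos (expChar_pos S ℓ) b)
    rw [sub_pow_expChar_pow, ← map_pow] at h0
    have h3 := P.sub_mem h0 h
    rw [sub_sub_sub_cancel_left, ← map_sub,
      RadicialPrime.algebraMap_mem_iff P (hT P hP), sub_eq_zero] at h3
    exact h3
  have h3 : c Q ^ (ℓ ^ b) = c Q' ^ (ℓ ^ b) := (key Q hQ h1).symm.trans (key Q' hQ' h2)
  exact hne (hc hQ hQ' (iterateFrobenius_inj k ℓ b h3))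

/-- CRT: an element with pairwise distinct constant values at finitely many maximal ideals. -/
theorem exists_values {S k : Type*} [CommRing S] [Field k] [Algebra k S]
    (T : Finset (Ideal S)) (hT : ∀ Q ∈ T, Q.IsMaximal) (c : Ideal S → k) :
    ∃ z : S, ∀ Q ∈ T, z - algebraMap k S (c Q) ∈ Q := by
  have hcop : Pairwise (Function.onFun IsCoprime fun Q : T => (Q : Ideal S)) := by
    intro Q Q' hne
    rw [Function.onFun, Ideal.isCoprime_iff_sup_eq]
    exact Ideal.IsMaximal.coprime_of_ne (hT _ Q.2) (hT _ Q'.2) fun h => hne (Subtype.ext h)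
  obtain ⟨z, hz⟩ := Ideal.exists_forall_sub_mem_ideal hcop
    fun Q : T => algebraMap k S (c (Q : Ideal S))
  exact ⟨z, fun Q hQ => hz ⟨Q, hQ⟩⟩

/-- CRT, then **every** Frobenius power separates: `∃ z, ∀ b`. -/
theorem exists_forall_pow_separating {S k : Type*} [CommRing S] [Field k] [Algebra k S]
    [Infinite k] (ℓ : ℕ) [ExpChar S ℓ] (T : Finset (Ideal S)) (hT : ∀ Q ∈ T, Q.IsMaximal) :
    ∃ z : S, ∀ b : ℕ, ∀ Q ∈ T, ∀ Q' ∈ T, Q ≠ Q' → ∀ a : k,
      ¬ (z ^ (ℓ ^ b) - algebraMap k S a ∈ Q ∧ z ^ (ℓ ^ b) - algebraMap k S a ∈ Q') := by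
  obtain ⟨c, hc⟩ := exists_injOn_finset (k := k) T
  obtain ⟨z, hz⟩ := exists_values T hT c
  exact ⟨z, fun b => pow_separating_of_values ℓ T (fun Q hQ => (hT Q hQ).ne_top) c hc z hz b⟩

section Places

variable {K F : Type*} [Field K] [Field F] [Algebra K F] {x : F}
variable [FiniteDimensional K⟮x⟯ F] [Algebra.IsSeparable K⟮x⟯ F]

/-- An element of the integral closure of `K[x]` is a nonunit at the place of a height one
prime iff it belongs to the prime. -/
theorem coe_mem_nonunits_iff (w : HeightOneSpectrum (FFPlaces.intRing K x))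
    (r : FFPlaces.intRing K x) :
    (r : F) ∈ (Place.ofHeightOneSpectrum (K := K) w).toValuationSubring.nonunits ↔
      r ∈ w.asIdeal := by
  rw [Place.ofHeightOneSpectrum_toValuationSubring, ValuationSubring.mem_nonunits_iff,
    ← (Valuation.isEquiv_valuation_valuationSubring (w.valuation F)).lt_one_iff_lt_one]
  exact w.valuation_lt_one_iff_mem r

/-- The height one prime of the integral closure of `K[x]` attached to a place (`⊥` if the
place does not contain `x`). -/
def primeOf (Q : Place K F) : Ideal (FFPlaces.intRing K x) :=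
  open Classical in
  if h : x ∈ Q.toValuationSubring then (FFSep.exists_heightOneSpectrum Q h).choose.asIdeal else ⊥

theorem primeOf_spec (Q : Place K F) (h : x ∈ Q.toValuationSubring) :
    ∃ w : HeightOneSpectrum (FFPlaces.intRing K x),
      Q = Place.ofHeightOneSpectrum w ∧ primeOf (x := x) Q = w.asIdeal :=
  ⟨(FFSep.exists_heightOneSpectrum Q h).choose, (FFSep.exists_heightOneSpectrum Q h).choose_spec,
    by rw [primeOf, dif_pos h]⟩

theorem primeOf_isMaximal (Q : Place K F) (h : x ∈ Q.toValuationSubring) :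
    (primeOf (x := x) Q).IsMaximal := by
  obtain ⟨w, -, hw⟩ := primeOf_spec Q h
  rw [hw]; exact w.isMaximal

theorem primeOf_injOn {Q Q' : Place K F} (h : x ∈ Q.toValuationSubring)
    (h' : x ∈ Q'.toValuationSubring) (he : primeOf (x := x) Q = primeOf (x := x) Q') :
    Q = Q' := by
  obtain ⟨w, hQ, hw⟩ := primeOf_spec Q h
  obtain ⟨w', hQ', hw'⟩ := primeOf_spec Q' h'
  have : w = w' := HeightOneSpectrum.ext (by rw [← hw, ← hw', he])
  rw [hQ, hQ', this]

theorem coe_mem_nonunits_iff_primeOf (Q : Place K F) (h : x ∈ Q.toValuationSubring)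
    (r : FFPlaces.intRing K x) :
    (r : F) ∈ Q.toValuationSubring.nonunits ↔ r ∈ primeOf (x := x) Q := by
  obtain ⟨w, hQ, hw⟩ := primeOf_spec Q h
  rw [hw]
  conv_lhs => rw [hQ]
  exact coe_mem_nonunits_iff w r

/-- **Separation of places by an `ℓ ^ b`-th power.**  Finitely many places containing `x` are
separated by `z ^ (ℓ ^ b)` for some `z` integral over `K[x]`: it is regular at each of them and
no constant `a` is its value at two distinct members. -/
theorem exists_separating_places [Infinite K] (ℓ : ℕ) [ExpChar F ℓ] (b : ℕ)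
    (T : Finset (Place K F)) (hT : ∀ Q ∈ T, x ∈ Q.toValuationSubring) :
    ∃ z : F, IsIntegral (FFPlaces.polyRing K x) z ∧
      (∀ Q ∈ T, z ^ (ℓ ^ b) ∈ Q.toValuationSubring) ∧
      ∀ Q ∈ T, ∀ Q' ∈ T, Q ≠ Q' → ∀ a : K,
        ¬ (z ^ (ℓ ^ b) - algebraMap K F a ∈ Q.toValuationSubring.nonunits ∧
          z ^ (ℓ ^ b) - algebraMap K F a ∈ Q'.toValuationSubring.nonunits) := by
  classical
  have : ExpChar (FFPlaces.intRing K x) ℓ :=
    (algebraMap (FFPlaces.intRing K x) F).expChar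
      (FaithfulSMul.algebraMap_injective (FFPlaces.intRing K x) F) ℓ
  obtain ⟨z, hz⟩ := exists_pow_separating (k := K) ℓ b (T.image (primeOf (x := x)))
    (fun I hI => by
      obtain ⟨Q, hQ, rfl⟩ := Finset.mem_image.1 hI
      exact primeOf_isMaximal Q (hT Q hQ))
  have hcoe : ∀ a : K, ((z ^ (ℓ ^ b) - algebraMap K (FFPlaces.intRing K x) a :
      FFPlaces.intRing K x) : F) = (z : F) ^ (ℓ ^ b) - algebraMap K F a := fun a => by
    rw [IsScalarTower.algebraMap_apply K (FFPlaces.intRing K x) F]; rfl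
  refine ⟨z, z.2, fun Q hQ => ?_, fun Q hQ Q' hQ' hne a ⟨h1, h2⟩ => ?_⟩
  · exact FFPlaces.intRing_mem Q (hT Q hQ) (z ^ (ℓ ^ b))
  · refine hz _ (Finset.mem_image_of_mem _ hQ) _ (Finset.mem_image_of_mem _ hQ')
      (fun he => hne (primeOf_injOn (hT Q hQ) (hT Q' hQ') he)) a ⟨?_, ?_⟩
    · rw [← coe_mem_nonunits_iff_primeOf Q (hT Q hQ), hcoe]; exact h1
    · rw [← coe_mem_nonunits_iff_primeOf Q' (hT Q' hQ'), hcoe]; exact h2

/-- Variant with prescribed residues: for any assignment `c` of constants to places there is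
`z` integral over `K[x]` with `z ^ (ℓ ^ b) - c Q ^ (ℓ ^ b)` vanishing at every `Q ∈ T`. -/
theorem exists_pow_sub_mem_places (ℓ : ℕ) [ExpChar F ℓ] (b : ℕ)
    (T : Finset (Place K F)) (hT : ∀ Q ∈ T, x ∈ Q.toValuationSubring) (c : Place K F → K) :
    ∃ z : F, IsIntegral (FFPlaces.polyRing K x) z ∧
      ∀ Q ∈ T, z ^ (ℓ ^ b) - algebraMap K F (c Q ^ (ℓ ^ b)) ∈ Q.toValuationSubring.nonunits := by
  classical
  have : ExpChar (FFPlaces.intRing K x) ℓ :=
    (algebraMap (FFPlaces.intRing K x) F).expChar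
      (FaithfulSMul.algebraMap_injective (FFPlaces.intRing K x) F) ℓ
  -- a choice of place for each prime in the image
  let c' : Ideal (FFPlaces.intRing K x) → K := fun I =>
    if h : ∃ Q ∈ T, primeOf (x := x) Q = I then c h.choose else 0
  have hc' : ∀ Q ∈ T, c' (primeOf (x := x) Q) = c Q := by
    intro Q hQ
    have h : ∃ Q' ∈ T, primeOf (x := x) Q' = primeOf (x := x) Q := ⟨Q, hQ, rfl⟩
    simp only [c', dif_pos h]
    have := primeOf_injOn (hT _ h.choose_spec.1) (hT Q hQ) h.choose_spec.2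
    rw [this]
  obtain ⟨z, hz⟩ := exists_pow_sub_mem (k := K) ℓ b (T.image (primeOf (x := x)))
    (fun I hI => by
      obtain ⟨Q, hQ, rfl⟩ := Finset.mem_image.1 hI
      exact primeOf_isMaximal Q (hT Q hQ)) c'
  refine ⟨z, z.2, fun Q hQ => ?_⟩
  have h1 := hz _ (Finset.mem_image_of_mem _ hQ)
  rw [hc' Q hQ, ← coe_mem_nonunits_iff_primeOf Q (hT Q hQ)] at h1
  have hcoe : ((z ^ (ℓ ^ b) - algebraMap K (FFPlaces.intRing K x) (c Q ^ (ℓ ^ b)) :
      FFPlaces.intRing K x) : F) = (z : F) ^ (ℓ ^ b) - algebraMap K F (c Q ^ (ℓ ^ b)) := by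
    rw [IsScalarTower.algebraMap_apply K (FFPlaces.intRing K x) F]; rfl
  rw [hcoe] at h1
  exact h1

/-- `exists_separating_places` at the chart `x⁻¹` (places at which `x` is a unit or has a
pole). -/
theorem exists_separating_places_inv [Infinite K] (ℓ : ℕ) [ExpChar F ℓ] (b : ℕ)
    (T : Finset (Place K F)) (hT : ∀ Q ∈ T, x⁻¹ ∈ Q.toValuationSubring) :
    ∃ z : F, IsIntegral (FFPlaces.polyRing K x⁻¹) z ∧
      (∀ Q ∈ T, z ^ (ℓ ^ b) ∈ Q.toValuationSubring) ∧
      ∀ Q ∈ T, ∀ Q' ∈ T, Q ≠ Q' → ∀ a : K,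
        ¬ (z ^ (ℓ ^ b) - algebraMap K F a ∈ Q.toValuationSubring.nonunits ∧
          z ^ (ℓ ^ b) - algebraMap K F a ∈ Q'.toValuationSubring.nonunits) := by
  have : FiniteDimensional K⟮x⁻¹⟯ F := FFSep.finiteDimensional_inv x
  have : Algebra.IsSeparable K⟮x⁻¹⟯ F := FFSep.isSeparable_inv x
  exact exists_separating_places ℓ b T hT

/-- **Separation of places, `∃ z ∀ b` form.**  Finitely many places containing `x` are
separated by **every** Frobenius power `z ^ (ℓ ^ b)` of one `z` integral over `K[x]`. -/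
theorem exists_separating_places_forall [Infinite K] (ℓ : ℕ) [ExpChar F ℓ]
    (T : Finset (Place K F)) (hT : ∀ Q ∈ T, x ∈ Q.toValuationSubring) :
    ∃ z : F, IsIntegral (FFPlaces.polyRing K x) z ∧ ∀ b : ℕ,
      (∀ Q ∈ T, z ^ (ℓ ^ b) ∈ Q.toValuationSubring) ∧
      ∀ Q ∈ T, ∀ Q' ∈ T, Q ≠ Q' → ∀ a : K,
        ¬ (z ^ (ℓ ^ b) - algebraMap K F a ∈ Q.toValuationSubring.nonunits ∧
          z ^ (ℓ ^ b) - algebraMap K F a ∈ Q'.toValuationSubring.nonunits) := by
  classical
  have : ExpChar (FFPlaces.intRing K x) ℓ :=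
    (algebraMap (FFPlaces.intRing K x) F).expChar
      (FaithfulSMul.algebraMap_injective (FFPlaces.intRing K x) F) ℓ
  obtain ⟨z, hz⟩ := exists_forall_pow_separating (k := K) ℓ (T.image (primeOf (x := x)))
    (fun I hI => by
      obtain ⟨Q, hQ, rfl⟩ := Finset.mem_image.1 hI
      exact primeOf_isMaximal Q (hT Q hQ))
  refine ⟨z, z.2, fun b => ?_⟩
  have hcoe : ∀ a : K, ((z ^ (ℓ ^ b) - algebraMap K (FFPlaces.intRing K x) a :
      FFPlaces.intRing K x) : F) = (z : F) ^ (ℓ ^ b) - algebraMap K F a := fun a => by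
    rw [IsScalarTower.algebraMap_apply K (FFPlaces.intRing K x) F]; rfl
  refine ⟨fun Q hQ => ?_, fun Q hQ Q' hQ' hne a ⟨h1, h2⟩ => ?_⟩
  · exact FFPlaces.intRing_mem Q (hT Q hQ) (z ^ (ℓ ^ b))
  · refine hz b _ (Finset.mem_image_of_mem _ hQ) _ (Finset.mem_image_of_mem _ hQ')
      (fun he => hne (primeOf_injOn (hT Q hQ) (hT Q' hQ') he)) a ⟨?_, ?_⟩
    · rw [← coe_mem_nonunits_iff_primeOf Q (hT Q hQ), hcoe]; exact h1
    · rw [← coe_mem_nonunits_iff_primeOf Q' (hT Q' hQ'), hcoe]; exact h2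

/-- `exists_separating_places_forall` at the chart `x⁻¹`. -/
theorem exists_separating_places_forall_inv [Infinite K] (ℓ : ℕ) [ExpChar F ℓ]
    (T : Finset (Place K F)) (hT : ∀ Q ∈ T, x⁻¹ ∈ Q.toValuationSubring) :
    ∃ z : F, IsIntegral (FFPlaces.polyRing K x⁻¹) z ∧ ∀ b : ℕ,
      (∀ Q ∈ T, z ^ (ℓ ^ b) ∈ Q.toValuationSubring) ∧
      ∀ Q ∈ T, ∀ Q' ∈ T, Q ≠ Q' → ∀ a : K,
        ¬ (z ^ (ℓ ^ b) - algebraMap K F a ∈ Q.toValuationSubring.nonunits ∧
          z ^ (ℓ ^ b) - algebraMap K F a ∈ Q'.toValuationSubring.nonunits) := by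
  have : FiniteDimensional K⟮x⁻¹⟯ F := FFSep.finiteDimensional_inv x
  have : Algebra.IsSeparable K⟮x⁻¹⟯ F := FFSep.isSeparable_inv x
  exact exists_separating_places_forall ℓ T hT

end Places

end Fermat.Agent.Lib.RadicialSep
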