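import Mathlib
import Fermat.Agent.Lib.EchelonLattice

set_option autoImplicit false

/-
# Valuation subrings of algebraic extensions of `ℚ` are completely integrally closed

Rank-one input for `Fermat.Agent.Lib.EchelonLattice.coeff_mem_of_forall_mul_pow` (S18, package G2):
if `L` is algebraic over `ℚ` and `A` is a valuation subring of `L` in which a prime `ℓ` is not a
unit, then the value group of `A` is archimedean; concretely `d * x ^ n ∈ A` for all `n` (with
`d ≠ 0`) forces `x ∈ A`.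
-/

namespace Fermat.Agent.Lib.RankOneQbar

variable {L : Type*} [Field L]

/-- Ultrametric principle: in a vanishing finite sum with a nonzero term, the maximal valuation
is attained at least twice. -/
lemma exists_ne_valuation_eq {Γ₀ : Type*} [LinearOrderedCommGroupWithZero Γ₀]
    (v : Valuation L Γ₀) {ι : Type*} (s : Finset ι) (f : ι → L) (hsum : ∑ i ∈ s, f i = 0)
    (i₀ : ι) (hi₀ : i₀ ∈ s) (hf : f i₀ ≠ 0) :
    ∃ i ∈ s, ∃ j ∈ s, i ≠ j ∧ v (f i) = v (f j) ∧ v (f i) ≠ 0 := by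
  classical
  obtain ⟨i, his, hmax⟩ := s.exists_max_image (fun i => v (f i)) ⟨i₀, hi₀⟩
  have hi0 : v (f i) ≠ 0 := by
    have h1 : v (f i₀) ≤ v (f i) := hmax i₀ hi₀
    have h2 : v (f i₀) ≠ 0 := (Valuation.ne_zero_iff v).mpr hf
    exact fun h => h2 (le_antisymm (h ▸ h1) zero_le)
  by_contra hcon
  have hlt : ∀ j ∈ s.erase i, v (f j) < v (f i) := by
    intro j hj
    obtain ⟨hji, hjs⟩ := Finset.mem_erase.mp hj
    exact lt_of_le_of_ne (hmax j hjs)
      fun heq => hcon ⟨i, his, j, hjs, fun h => hji h.symm, heq.symm, hi0⟩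
  have h1 := v.map_sum_lt hi0 hlt
  have h2 : ∑ j ∈ s.erase i, f j = - f i := by
    rw [← Finset.add_sum_erase s f his] at hsum
    exact eq_neg_of_add_eq_zero_right hsum
  rw [h2, Valuation.map_neg] at h1
  exact lt_irrefl _ h1

variable (A : ValuationSubring L) (ℓ : ℕ) [Fact ℓ.Prime]

/-- An integer prime to `ℓ` is a unit of `A` when `ℓ` is not. -/
lemma valuation_natCast_of_not_dvd (hℓ : (ℓ : L) ∈ A.nonunits) (u : ℕ) (hu : ¬ ℓ ∣ u) :
    A.valuation (u : L) = 1 := by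
  have hcop : IsCoprime (u : ℤ) (ℓ : ℤ) := by
    rw [Int.isCoprime_iff_gcd_eq_one, Int.gcd_natCast_natCast]
    exact (Nat.Coprime.symm ((Nat.Prime.coprime_iff_not_dvd Fact.out).2 hu))
  obtain ⟨r, s, hrs⟩ := hcop
  have h1 : (r : L) * (u : L) + (s : L) * (ℓ : L) = 1 := by
    exact_mod_cast congrArg (Int.cast : ℤ → L) hrs
  have hle : A.valuation (u : L) ≤ 1 := (A.valuation_le_one_iff _).2 (natCast_mem A u)
  refine le_antisymm hle (not_lt.mp fun hlt => ?_)
  have hr : A.valuation (r : L) ≤ 1 := (A.valuation_le_one_iff _).2 (intCast_mem A r)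
  have hs : A.valuation (s : L) ≤ 1 := (A.valuation_le_one_iff _).2 (intCast_mem A s)
  have hℓ' : A.valuation (ℓ : L) < 1 := A.mem_nonunits_iff.mp hℓ
  have h2 : A.valuation (1 : L) < 1 := by
    rw [← h1]
    refine lt_of_le_of_lt (A.valuation.map_add _ _) (max_lt ?_ ?_)
    · rw [map_mul]
      exact lt_of_le_of_lt (mul_le_mul' hr le_rfl) (by rwa [one_mul])
    · rw [map_mul]
      exact lt_of_le_of_lt (mul_le_mul' hs le_rfl) (by rwa [one_mul])
  rw [map_one] at h2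
  exact lt_irrefl _ h2

/-- The valuation of a nonzero integer is a power of the valuation of `ℓ`. -/
lemma exists_valuation_intCast (hℓ : (ℓ : L) ∈ A.nonunits) (a : ℤ) (ha : a ≠ 0) :
    ∃ e : ℕ, A.valuation (a : L) = A.valuation (ℓ : L) ^ e := by
  obtain ⟨e, n', hn', h⟩ := Nat.exists_eq_pow_mul_and_not_dvd (Int.natAbs_ne_zero.mpr ha) ℓ
    (Fact.out : ℓ.Prime).ne_one
  refine ⟨e, ?_⟩
  have h1 : A.valuation (a : L) = A.valuation ((a.natAbs : ℕ) : L) := by
    rcases Int.natAbs_eq a with h | h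
    · conv_lhs => rw [h]
      simp
    · conv_lhs => rw [h]
      simp
  rw [h1, h, Nat.cast_mul, Nat.cast_pow, map_mul, map_pow,
    valuation_natCast_of_not_dvd A ℓ hℓ n' hn', mul_one]

/-- The value group of `A` is "torsion over" the value of `ℓ`. -/
lemma exists_pow_valuation_eq [CharZero L] [Algebra.IsAlgebraic ℤ L] (hℓ : (ℓ : L) ∈ A.nonunits)
    (t : L) (ht : t ≠ 0) :
    ∃ m : ℕ, 0 < m ∧ ∃ e₁ e₂ : ℕ,
      A.valuation t ^ m * A.valuation (ℓ : L) ^ e₁ = A.valuation (ℓ : L) ^ e₂ := by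
  have halg : IsAlgebraic ℤ t := Algebra.IsAlgebraic.isAlgebraic t
  obtain ⟨p, hp0, hpt⟩ := halg
  have hsum : ∑ i ∈ p.support, ((p.coeff i : ℤ) : L) * t ^ i = 0 := by
    rw [← hpt, Polynomial.aeval_def, Polynomial.eval₂_eq_sum, Polynomial.sum_def]
    simp
  have hcoe : ∀ i ∈ p.support, ((p.coeff i : ℤ) : L) * t ^ i ≠ 0 := by
    intro i hi
    exact mul_ne_zero (Int.cast_ne_zero.mpr (Polynomial.mem_support_iff.mp hi)) (pow_ne_zero _ ht)
  have hdeg : p.natDegree ∈ p.support := Polynomial.natDegree_mem_support_of_nonzero hp0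
  obtain ⟨i, hi, j, hj, hij, heq, hne⟩ := exists_ne_valuation_eq A.valuation p.support
    (fun i => ((p.coeff i : ℤ) : L) * t ^ i) hsum _ hdeg (hcoe _ hdeg)
  have hvt : A.valuation t ≠ 0 := (Valuation.ne_zero_iff _).mpr ht
  -- the symmetric core
  have core : ∀ i j : ℕ, i < j → i ∈ p.support → j ∈ p.support →
      A.valuation (((p.coeff i : ℤ) : L) * t ^ i) = A.valuation (((p.coeff j : ℤ) : L) * t ^ j) →
      ∃ m : ℕ, 0 < m ∧ ∃ e₁ e₂ : ℕ,
        A.valuation t ^ m * A.valuation (ℓ : L) ^ e₁ = A.valuation (ℓ : L) ^ e₂ := by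
    intro i j hij hi hj heq
    obtain ⟨ei, hei⟩ := exists_valuation_intCast A ℓ hℓ (p.coeff i) (Polynomial.mem_support_iff.mp hi)
    obtain ⟨ej, hej⟩ := exists_valuation_intCast A ℓ hℓ (p.coeff j) (Polynomial.mem_support_iff.mp hj)
    refine ⟨j - i, Nat.sub_pos_of_lt hij, ej, ei, ?_⟩
    rw [map_mul, map_mul, map_pow, map_pow, hei, hej] at heq
    have hj' : j = (j - i) + i := (Nat.sub_add_cancel hij.le).symm
    rw [hj', pow_add] at heq
    have hti : A.valuation t ^ i ≠ 0 := pow_ne_zero _ hvt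
    apply mul_right_cancel₀ hti
    rw [heq, mul_comm (A.valuation t ^ (j - i)) (A.valuation (ℓ : L) ^ ej), mul_assoc]
  rcases lt_or_gt_of_ne hij with h | h
  · exact core i j h hi hj heq
  · exact core j i h hj hi heq.symm

/-- **Rank one.** A valuation subring of an algebraic extension of `ℚ` lying over a prime `ℓ` is
completely integrally closed. -/
theorem mem_of_forall_mul_pow_mem [CharZero L] [Algebra.IsAlgebraic ℤ L]
    (hℓ : (ℓ : L) ∈ A.nonunits) (x d : L) (hd : d ≠ 0) (h : ∀ n : ℕ, d * x ^ n ∈ A) : x ∈ A := by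
  by_contra hx
  have hV : 1 < A.valuation x := not_le.mp fun hle => hx ((A.valuation_le_one_iff x).1 hle)
  have hx0 : x ≠ 0 := fun h0 => hx (h0 ▸ A.zero_mem)
  have hw1 : A.valuation (ℓ : L) < 1 := A.mem_nonunits_iff.mp hℓ
  have hℓ0 : (ℓ : L) ≠ 0 := Nat.cast_ne_zero.mpr (Fact.out : ℓ.Prime).ne_zero
  have hw0 : A.valuation (ℓ : L) ≠ 0 := (Valuation.ne_zero_iff _).mpr hℓ0
  set w := A.valuation (ℓ : L) with hw
  set V := A.valuation x with hVdef
  set D := A.valuation d with hDdef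
  obtain ⟨m, hm, e₁, e₂, hme⟩ := exists_pow_valuation_eq A ℓ hℓ x hx0
  obtain ⟨m', hm', e₁', e₂', hme'⟩ := exists_pow_valuation_eq A ℓ hℓ d hd
  rw [← hw, ← hVdef] at hme
  rw [← hw, ← hDdef] at hme'
  have hVm : 1 < V ^ m := one_lt_pow₀ hV hm.ne'
  -- Claim A
  have hA : 1 ≤ V ^ m * w := by
    rcases lt_or_ge e₂ e₁ with hlt | hge
    · obtain ⟨k, rfl⟩ := Nat.exists_eq_add_of_lt hlt
      have h1 : V ^ m * w ^ (k + 1) = 1 := by
        apply mul_right_cancel₀ (pow_ne_zero e₂ hw0)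
        rw [one_mul, mul_assoc, ← pow_add, ← hme]
        congr 2
        omega
      rw [← h1]
      refine mul_le_mul' le_rfl ?_
      rw [pow_succ]
      calc w ^ k * w ≤ 1 * w := mul_le_mul' (pow_le_one' hw1.le k) le_rfl
        _ = w := one_mul w
    · exfalso
      obtain ⟨k, rfl⟩ := Nat.exists_eq_add_of_le hge
      have h1 : V ^ m = w ^ k := by
        apply mul_right_cancel₀ (pow_ne_zero e₁ hw0)
        rw [hme, ← pow_add, add_comm]
      rw [h1] at hVm
      exact absurd (pow_le_one' hw1.le k) (not_le.mpr hVm)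
  -- Claim D
  have hDM : ∃ M : ℕ, w ^ M ≤ D := by
    rcases le_or_gt D 1 with hD1 | hD1
    · refine ⟨e₂', ?_⟩
      rw [← hme']
      calc D ^ m' * w ^ e₁' ≤ D ^ m' * 1 := mul_le_mul' le_rfl (pow_le_one' hw1.le _)
        _ = D ^ m' := mul_one _
        _ = D ^ (m' - 1) * D := by rw [← pow_succ, Nat.sub_add_cancel hm']
        _ ≤ 1 * D := mul_le_mul' (pow_le_one' hD1 _) le_rfl
        _ = D := one_mul D
    · exact ⟨0, by rw [pow_zero]; exact hD1.le⟩
  obtain ⟨M, hM⟩ := hDM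
  have hfin : D * V ^ (m * (M + 1)) ≤ 1 := by
    have := (A.valuation_le_one_iff _).2 (h (m * (M + 1)))
    rwa [map_mul, map_pow] at this
  have h3 : w ^ M * (V ^ m) ^ (M + 1) ≤ D * V ^ (m * (M + 1)) := by
    rw [pow_mul]
    exact mul_le_mul' hM le_rfl
  have h4 : w ^ M * (V ^ m) ^ (M + 1) = (V ^ m * w) ^ M * V ^ m := by
    rw [mul_pow, pow_succ, mul_comm ((V ^ m) ^ M) (w ^ M), mul_assoc]
  have h5 : 1 ≤ (V ^ m * w) ^ M := one_le_pow_of_one_le' hA M
  have h6 : V ^ m ≤ (V ^ m * w) ^ M * V ^ m := by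
    calc V ^ m = 1 * V ^ m := (one_mul _).symm
      _ ≤ (V ^ m * w) ^ M * V ^ m := mul_le_mul' h5 le_rfl
  have h7 : 1 < D * V ^ (m * (M + 1)) := by
    calc 1 < V ^ m := hVm
      _ ≤ (V ^ m * w) ^ M * V ^ m := h6
      _ = w ^ M * (V ^ m) ^ (M + 1) := h4.symm
      _ ≤ D * V ^ (m * (M + 1)) := h3
  exact absurd hfin (not_le.mpr h7)

/-- `mem_of_forall_mul_pow_mem` in the exact shape of the hypothesis `hA` of
`EchelonLattice.coeff_mem_of_forall_mul_pow`. -/
theorem completelyIntegrallyClosed [CharZero L] [Algebra.IsAlgebraic ℤ L]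
    (hℓ : (ℓ : L) ∈ A.nonunits) :
    ∀ x d : L, d ≠ 0 → (∀ n : ℕ, d * x ^ n ∈ A.toSubring) → x ∈ A.toSubring :=
  fun x d hd h => mem_of_forall_mul_pow_mem A ℓ hℓ x d hd h

open HahnSeries in
/-- (G2a) for valuation subrings of algebraic extensions of `ℚ`: if `g * y ^ n` has coefficients
in `A` for all `n` (`g ≠ 0`), then `y` has coefficients in `A`. -/
theorem coeff_mem_of_forall_mul_pow [CharZero L] [Algebra.IsAlgebraic ℤ L]
    (hℓ : (ℓ : L) ∈ A.nonunits) {Γ : Type*} [AddCommMonoid Γ] [LinearOrder Γ]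
    [IsOrderedCancelAddMonoid Γ] (g y : HahnSeries Γ L) (hg : g ≠ 0)
    (h : ∀ (n : ℕ) (i : Γ), (g * y ^ n).coeff i ∈ A) : ∀ i, y.coeff i ∈ A :=
  EchelonLattice.coeff_mem_of_forall_mul_pow A.toSubring (completelyIntegrallyClosed A ℓ hℓ)
    g y hg h

theorem isAlgebraic_int_algebraicClosure_rat : Algebra.IsAlgebraic ℤ (AlgebraicClosure ℚ) :=
  ⟨fun t => (IsFractionRing.isAlgebraic_iff ℤ ℚ (AlgebraicClosure ℚ)).2
    ((AlgebraicClosure.isAlgebraic ℚ).isAlgebraic t)⟩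

/-- Rank one for valuation subrings of `AlgebraicClosure ℚ` over `ℓ` (the setting of S18), in the
shape of the hypothesis `hA` of `EchelonLattice.coeff_mem_of_forall_mul_pow`. -/
theorem completelyIntegrallyClosed_algClosure (A : ValuationSubring (AlgebraicClosure ℚ))
    (ℓ : ℕ) [Fact ℓ.Prime] (hℓ : (ℓ : AlgebraicClosure ℚ) ∈ A.nonunits) :
    ∀ x d : AlgebraicClosure ℚ, d ≠ 0 → (∀ n : ℕ, d * x ^ n ∈ A.toSubring) → x ∈ A.toSubring :=
  @completelyIntegrallyClosed _ _ A ℓ _ _ isAlgebraic_int_algebraicClosure_rat hℓ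

/-- (G2a) for Laurent series over `AlgebraicClosure ℚ` (the setting of S18). -/
theorem coeff_mem_of_forall_mul_pow_algClosure (A : ValuationSubring (AlgebraicClosure ℚ))
    (ℓ : ℕ) [Fact ℓ.Prime] (hℓ : (ℓ : AlgebraicClosure ℚ) ∈ A.nonunits)
    (g y : LaurentSeries (AlgebraicClosure ℚ)) (hg : g ≠ 0)
    (h : ∀ (n : ℕ) (i : ℤ), (g * y ^ n).coeff i ∈ A) : ∀ i, y.coeff i ∈ A :=
  EchelonLattice.coeff_mem_of_forall_mul_pow A.toSubring
    (completelyIntegrallyClosed_algClosure A ℓ hℓ) g y hg h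

end Fermat.Agent.Lib.RankOneQbar
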