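import Mathlib

set_option autoImplicit false

namespace Fermat.Agent.Lib.RatDescent

open MvPolynomial

theorem exists_ringEquiv_extending {R K : Type*} [Field R] [Field K] [Algebra R K]
    [IsAlgClosed K] (s : Set K) (hs : IsTranscendenceBasis R ((↑) : s → K))
    (e : MvPolynomial s R ≃+* MvPolynomial s R) :
    ∃ σ : K ≃+* K, ∀ p : MvPolynomial s R,
      σ (aeval ((↑) : s → K) p) = aeval ((↑) : s → K) (e p) := by
  classical
  have := IsAlgClosed.isAlgClosure_of_transcendence_basis ((↑) : s → K) hs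
  let E := hs.1.aevalEquiv
  let e' : Algebra.adjoin R (Set.range ((↑) : s → K)) ≃+*
      Algebra.adjoin R (Set.range ((↑) : s → K)) :=
    E.symm.toRingEquiv.trans (e.trans E.toRingEquiv)
  refine ⟨IsAlgClosure.equivOfEquiv K K e', fun p => ?_⟩
  rw [← hs.1.algebraMap_aevalEquiv p, IsAlgClosure.equivOfEquiv_algebraMap,
    ← hs.1.algebraMap_aevalEquiv (e p)]
  congr 1
  show E (e (E.symm (E p))) = E (e p)
  rw [AlgEquiv.symm_apply_apply]

theorem exists_ringEquiv_ne_of_transcendental {x : ℂ} (hx : Transcendental ℚ x) :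
    ∃ σ : ℂ ≃+* ℂ, σ x ≠ x := by
  classical
  have hind : AlgebraicIndepOn ℚ id ({x} : Set ℂ) := by
    have : AlgebraicIndependent ℚ (fun i : ({x} : Set ℂ) => (i : ℂ)) :=
      (algebraicIndependent_singleton_iff (⟨x, rfl⟩ : ({x} : Set ℂ))).mpr hx
    exact this
  obtain ⟨t, hst, ht⟩ := exists_isTranscendenceBasis_superset hind
  have hxt : x ∈ t := hst rfl
  let x0 : t := ⟨x, hxt⟩
  let c : t → ℚ := fun i => if i = x0 then 2 else 1
  have hc : ∀ i, c i ≠ 0 := by
    intro i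
    simp only [c]
    split_ifs <;> norm_num
  let f : MvPolynomial t ℚ →ₐ[ℚ] MvPolynomial t ℚ := aeval (fun i => C (c i) * X i)
  let g : MvPolynomial t ℚ →ₐ[ℚ] MvPolynomial t ℚ := aeval (fun i => C (c i)⁻¹ * X i)
  have hfg : f.comp g = AlgHom.id ℚ _ := by
    apply MvPolynomial.algHom_ext
    intro i
    simp only [f, g, AlgHom.comp_apply, aeval_X, map_mul, AlgHom.id_apply]
    rw [show (aeval fun i => C (c i) * X i) (C (c i)⁻¹ : MvPolynomial t ℚ) = C (c i)⁻¹ from
      (aeval (fun i => C (c i) * X i)).commutes _, ← mul_assoc, ← C_mul, inv_mul_cancel₀ (hc i),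
      C_1, one_mul]
  have hgf : g.comp f = AlgHom.id ℚ _ := by
    apply MvPolynomial.algHom_ext
    intro i
    simp only [f, g, AlgHom.comp_apply, aeval_X, map_mul, AlgHom.id_apply]
    rw [show (aeval fun i => C (c i)⁻¹ * X i) (C (c i) : MvPolynomial t ℚ) = C (c i) from
      (aeval (fun i => C (c i)⁻¹ * X i)).commutes _, ← mul_assoc, ← C_mul, mul_inv_cancel₀ (hc i),
      C_1, one_mul]
  let e : MvPolynomial t ℚ ≃ₐ[ℚ] MvPolynomial t ℚ := AlgEquiv.ofAlgHom f g hfg hgf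
  obtain ⟨σ, hσ⟩ := exists_ringEquiv_extending t ht e.toRingEquiv
  refine ⟨σ, ?_⟩
  have h := hσ (X x0)
  have h2 : e.toRingEquiv (X x0) = C (c x0) * X x0 := by
    show f (X x0) = _
    simp only [f, aeval_X]
  rw [h2, aeval_X, map_mul, aeval_X, aeval_C] at h
  have hc0 : c x0 = 2 := by simp [c]
  rw [hc0] at h
  have hx0 : x ≠ 0 := by
    rintro rfl
    exact hx (isAlgebraic_zero)
  show σ x ≠ x
  have h3 : σ x = 2 * x := by simpa [x0] using h
  rw [h3]
  intro h4
  apply hx0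
  linear_combination h4

theorem exists_ringEquiv_ne_of_isAlgebraic {x : ℂ} (hx : IsAlgebraic ℚ x)
    (hx' : ∀ r : ℚ, x ≠ (r : ℂ)) : ∃ σ : ℂ ≃+* ℂ, σ x ≠ x := by
  classical
  have hclos : IsAlgClosure ℚ (algebraicClosure ℚ ℂ) := algebraicClosure.isAlgClosure ℚ ℂ
  have hgal : IsGalois ℚ (algebraicClosure ℚ ℂ) := IsAlgClosure.isGalois ℚ _
  let x' : algebraicClosure ℚ ℂ := ⟨x, mem_algebraicClosure_iff.mpr hx⟩
  have hx'' : x' ∉ (⊥ : IntermediateField ℚ (algebraicClosure ℚ ℂ)) := by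
    rw [IntermediateField.mem_bot]
    rintro ⟨r, hr⟩
    apply hx' r
    have := congrArg (fun y : algebraicClosure ℚ ℂ => (y : ℂ)) hr
    simpa [x'] using this.symm
  rw [← InfiniteGalois.fixedField_fixingSubgroup (⊥ : IntermediateField ℚ (algebraicClosure ℚ ℂ)),
    IntermediateField.mem_fixedField_iff] at hx''
  push Not at hx''
  obtain ⟨τ, -, hτ⟩ := hx''
  obtain ⟨t, ht⟩ := exists_isTranscendenceBasis (algebraicClosure ℚ ℂ) ℂ
  obtain ⟨σ, hσ⟩ := exists_ringEquiv_extending t ht (MvPolynomial.mapEquiv t τ.toRingEquiv)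
  refine ⟨σ, ?_⟩
  have h := hσ (C x')
  rw [aeval_C, MvPolynomial.mapEquiv_apply, MvPolynomial.map_C, aeval_C] at h
  intro h2
  apply hτ
  apply Subtype.ext
  have h3 : (algebraMap (algebraicClosure ℚ ℂ) ℂ) x' = x := rfl
  rw [h3, h2] at h
  exact h.symm

theorem exists_rat_of_fixed (x : ℂ) (hx : ∀ σ : ℂ →+* ℂ, σ x = x) : ∃ r : ℚ, x = (r : ℂ) := by
  by_contra h
  push Not at h
  by_cases halg : IsAlgebraic ℚ x
  · obtain ⟨σ, hσ⟩ := exists_ringEquiv_ne_of_isAlgebraic halg h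
    exact hσ (hx σ.toRingHom)
  · obtain ⟨σ, hσ⟩ := exists_ringEquiv_ne_of_transcendental halg
    exact hσ (hx σ.toRingHom)

theorem span_rat_of_stable {ι : Type*} (V : Submodule ℂ (ι → ℂ)) [FiniteDimensional ℂ V]
    (hV : ∀ σ : ℂ →+* ℂ, ∀ v ∈ V, (fun i => σ (v i)) ∈ V) :
    Submodule.span ℂ {v : ι → ℂ | v ∈ V ∧ ∀ i, ∃ r : ℚ, v i = (r : ℂ)} = V := by
  classical
  apply le_antisymm
  · exact Submodule.span_le.mpr fun v hv => hv.1
  let ev : ι → Module.Dual ℂ V := fun i => (LinearMap.proj i).comp V.subtype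
  have hev : ∀ (i : ι) (v : V), ev i v = (v : ι → ℂ) i := fun i v => rfl
  have hspan : ⊤ ≤ Submodule.span ℂ (Set.range ev) := by
    have h1 : (Submodule.span ℂ (Set.range ev)).dualCoannihilator = ⊥ := by
      rw [eq_bot_iff]
      intro v hv
      rw [Submodule.mem_dualCoannihilator] at hv
      rw [Submodule.mem_bot]
      apply Subtype.ext
      funext i
      have := hv (ev i) (Submodule.subset_span ⟨i, rfl⟩)
      simpa [hev] using this
    have h2 := Subspace.dualCoannihilator_dualAnnihilator_eq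
      (W := Submodule.span ℂ (Set.range ev))
    rw [h1] at h2
    rw [← h2]
    simp
  obtain ⟨J, β, hβ⟩ : ∃ (J : Type _) (β : Module.Basis J ℂ (Module.Dual ℂ V)),
      ∀ j, ∃ i, β j = ev i := by
    refine ⟨_, Module.Basis.ofSpan hspan, fun j => ?_⟩
    obtain ⟨i, hi⟩ := Module.Basis.ofSpan_subset hspan ⟨j, rfl⟩
    exact ⟨i, hi.symm⟩
  choose idx hidx using hβ
  have : Finite J := Module.Finite.finite_basis β
  let b : Module.Basis J ℂ V := β.dualBasis.map (Module.evalEquiv ℂ V).symm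
  have hb : ∀ j k, β j (b k) = if j = k then 1 else 0 := by
    intro j k
    have h1 : (Module.evalEquiv ℂ V) (b k) = β.dualBasis k := by
      simp [b]
    have h2 : (Module.evalEquiv ℂ V) (b k) (β j) = β j (b k) := by
      rw [Module.evalEquiv_apply, Module.Dual.eval_apply]
    rw [← h2, h1, Module.Basis.dualBasis_apply_self]
  have hsep : ∀ u : V, (∀ j, β j u = 0) → u = 0 := by
    intro u hu
    rw [← Module.forall_dual_apply_eq_zero_iff ℂ u]
    intro φ
    have hφ : φ ∈ Submodule.span ℂ (Set.range β) := by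
      rw [β.span_eq]; trivial
    induction hφ using Submodule.span_induction with
    | mem x hx => obtain ⟨j, rfl⟩ := hx; exact hu j
    | zero => simp
    | add x y _ _ hx hy => simp [hx, hy]
    | smul a x _ hx => simp [hx]
  have hrat : ∀ k, ∀ i, ∃ r : ℚ, ((b k : V) : ι → ℂ) i = (r : ℂ) := by
    intro k i
    apply exists_rat_of_fixed
    intro σ
    have hmem := hV σ (b k) (b k).2
    have heq : (⟨fun i => σ (((b k : V) : ι → ℂ) i), hmem⟩ : V) = b k := by
      rw [← sub_eq_zero]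
      apply hsep
      intro j
      rw [map_sub, hidx j, hev, hev, sub_eq_zero]
      show σ (((b k : V) : ι → ℂ) (idx j)) = ((b k : V) : ι → ℂ) (idx j)
      have h3 : ((b k : V) : ι → ℂ) (idx j) = if j = k then 1 else 0 := by
        rw [← hev, ← hidx j, hb]
      rw [h3]
      split_ifs <;> simp
    exact congrFun (congrArg Subtype.val heq) i
  intro v hv
  have hv' : (⟨v, hv⟩ : V) ∈ Submodule.span ℂ (Set.range b) := by
    rw [b.span_eq]; trivial
  have key : ∀ u : V, u ∈ Submodule.span ℂ (Set.range b) →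
      (u : ι → ℂ) ∈ Submodule.span ℂ {v : ι → ℂ | v ∈ V ∧ ∀ i, ∃ r : ℚ, v i = (r : ℂ)} := by
    intro u hu
    induction hu using Submodule.span_induction with
    | mem x hx =>
      obtain ⟨k, rfl⟩ := hx
      exact Submodule.subset_span ⟨(b k).2, hrat k⟩
    | zero => simp
    | add x y _ _ hx hy => simpa using Submodule.add_mem _ hx hy
    | smul a x _ hx => simpa using Submodule.smul_mem _ a hx
  exact key ⟨v, hv⟩ hv'

theorem span_rat_of_stable' {W : Type*} [AddCommGroup W] [Module ℂ W] [FiniteDimensional ℂ W]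
    {ι : Type*} (c : W →ₗ[ℂ] (ι → ℂ)) (hc : Function.Injective c)
    (hσ : ∀ (σ : ℂ →+* ℂ) (w : W), ∃ w' : W, ∀ i, c w' i = σ (c w i)) :
    Submodule.span ℂ {w : W | ∀ i, ∃ r : ℚ, c w i = (r : ℂ)} = ⊤ := by
  classical
  have hstab : ∀ σ : ℂ →+* ℂ, ∀ v ∈ LinearMap.range c, (fun i => σ (v i)) ∈ LinearMap.range c := by
    rintro σ v ⟨w, rfl⟩
    obtain ⟨w', hw'⟩ := hσ σ w
    exact ⟨w', funext hw'⟩
  have h := span_rat_of_stable (LinearMap.range c) hstab
  rw [eq_top_iff]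
  intro w _
  have hw : c w ∈ Submodule.span ℂ
      {v : ι → ℂ | v ∈ LinearMap.range c ∧ ∀ i, ∃ r : ℚ, v i = (r : ℂ)} := by
    rw [h]; exact ⟨w, rfl⟩
  have hsub : {v : ι → ℂ | v ∈ LinearMap.range c ∧ ∀ i, ∃ r : ℚ, v i = (r : ℂ)} ⊆
      c '' {w : W | ∀ i, ∃ r : ℚ, c w i = (r : ℂ)} := by
    rintro v ⟨⟨u, rfl⟩, hv⟩
    exact ⟨u, hv, rfl⟩
  have hw2 := Submodule.span_mono hsub hw
  rw [Submodule.span_image] at hw2
  obtain ⟨u, hu, huw⟩ := hw2
  rwa [← hc huw]

end Fermat.Agent.Lib.RatDescent
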