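import Mathlib

set_option autoImplicit false

namespace Fermat.Agent.Lib.RationalDescent

open MvPolynomial

/-- An automorphism of the polynomial ring on a transcendence basis of `ℂ` extends to `ℂ`. -/
theorem exists_ringEquiv_extending {R : Type*} [Field R] [Algebra R ℂ] {t : Set ℂ}
    (ht : IsTranscendenceBasis R ((↑) : t → ℂ)) (e : MvPolynomial t R ≃+* MvPolynomial t R) :
    ∃ σ : ℂ ≃+* ℂ, ∀ p : MvPolynomial t R,
      σ (aeval ((↑) : t → ℂ) p) = aeval ((↑) : t → ℂ) (e p) := by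
  classical
  have := IsAlgClosed.isAlgClosure_of_transcendence_basis ((↑) : t → ℂ) ht
  let a : MvPolynomial t R ≃ₐ[R] Algebra.adjoin R (Set.range ((↑) : t → ℂ)) := ht.1.aevalEquiv
  let e' : Algebra.adjoin R (Set.range ((↑) : t → ℂ)) ≃+*
      Algebra.adjoin R (Set.range ((↑) : t → ℂ)) :=
    a.symm.toRingEquiv.trans (e.trans a.toRingEquiv)
  have ha : ∀ p : MvPolynomial t R,
      aeval ((↑) : t → ℂ) p =
        algebraMap (Algebra.adjoin R (Set.range ((↑) : t → ℂ))) ℂ (a p) := by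
    intro p
    simp [a]
  refine ⟨IsAlgClosure.equivOfEquiv ℂ ℂ e', fun p => ?_⟩
  rw [ha p, IsAlgClosure.equivOfEquiv_algebraMap, ha (e p)]
  simp [e']

/-- An element of `ℂ` algebraic over `F` but not in `F` is moved by some automorphism of `ℂ`. -/
theorem exists_ringEquiv_ne_of_isAlgebraic {F : Type*} [Field F] [CharZero F] [Algebra F ℂ]
    (x : ℂ) (hx : IsAlgebraic F x) (hx' : x ∉ Set.range (algebraMap F ℂ)) :
    ∃ σ : ℂ ≃+* ℂ, σ x ≠ x := by
  classical
  let R := algebraicClosure F ℂ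
  have hxR : x ∈ R := mem_algebraicClosure_iff.mpr hx
  have : IsGalois F R := IsAlgClosure.isGalois F R
  -- an automorphism of R moving x
  obtain ⟨σ0, hσ0⟩ : ∃ σ0 : R ≃ₐ[F] R, σ0 ⟨x, hxR⟩ ≠ ⟨x, hxR⟩ := by
    by_contra hcon
    push Not at hcon
    have hmem : (⟨x, hxR⟩ : R) ∈ IntermediateField.fixedField
        (⊥ : IntermediateField F R).fixingSubgroup := by
      rw [IntermediateField.mem_fixedField_iff]
      intro f _
      exact hcon f
    rw [InfiniteGalois.fixedField_fixingSubgroup, IntermediateField.mem_bot] at hmem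
    obtain ⟨r, hr⟩ := hmem
    apply hx'
    refine ⟨r, ?_⟩
    have := congrArg (fun y : R => (y : ℂ)) hr
    simpa using this
  obtain ⟨t, ht⟩ := exists_isTranscendenceBasis R ℂ
  obtain ⟨σ, hσ⟩ := exists_ringEquiv_extending ht (MvPolynomial.mapEquiv t σ0.toRingEquiv)
  refine ⟨σ, ?_⟩
  have h1 := hσ (C ⟨x, hxR⟩)
  simp only [mapEquiv_apply, map_C, aeval_C] at h1
  intro hcon
  apply hσ0
  apply Subtype.ext
  have h2 : algebraMap R ℂ ⟨x, hxR⟩ = x := rfl
  rw [h2, hcon] at h1
  exact h1.symm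

/-- A transcendental element of `ℂ` is moved by some automorphism of `ℂ`. -/
theorem exists_ringEquiv_ne_of_transcendental {F : Type*} [Field F] [Algebra F ℂ]
    (x : ℂ) (hx : Transcendental F x) :
    ∃ σ : ℂ ≃+* ℂ, σ x ≠ x := by
  classical
  have hind : AlgebraicIndepOn F id ({x} : Set ℂ) := by
    have : AlgebraicIndependent F (fun i : ({x} : Set ℂ) => (i : ℂ)) := by
      rw [algebraicIndependent_singleton_iff (⟨x, rfl⟩ : ({x} : Set ℂ))]
      exact hx
    exact this
  obtain ⟨t, hxt, ht⟩ := exists_isTranscendenceBasis_superset hind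
  have hxt' : x ∈ t := hxt rfl
  let c : t → F := fun i => if i = ⟨x, hxt'⟩ then 1 else 0
  let e : MvPolynomial t F ≃ₐ[F] MvPolynomial t F :=
    AlgEquiv.ofAlgHom (aeval fun i => X i + C (c i)) (aeval fun i => X i - C (c i))
      (by ext i; simp) (by ext i; simp)
  obtain ⟨σ, hσ⟩ := exists_ringEquiv_extending ht e.toRingEquiv
  refine ⟨σ, ?_⟩
  have h1 := hσ (X ⟨x, hxt'⟩)
  simp [e, c] at h1
  rw [h1]
  simp

theorem exists_ringEquiv_ne_of_not_rat (x : ℂ) (hx : x ∉ Set.range ((↑) : ℚ → ℂ)) :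
    ∃ σ : ℂ ≃+* ℂ, σ x ≠ x := by
  by_cases h : IsAlgebraic ℚ x
  · refine exists_ringEquiv_ne_of_isAlgebraic x h ?_
    rintro ⟨r, hr⟩
    exact hx ⟨r, by rw [← hr, eq_ratCast]⟩
  · exact exists_ringEquiv_ne_of_transcendental x h

theorem exists_ringHom_ne_of_not_rat (x : ℂ) (hx : x ∉ Set.range ((↑) : ℚ → ℂ)) :
    ∃ σ : ℂ →+* ℂ, σ x ≠ x := by
  obtain ⟨σ, hσ⟩ := exists_ringEquiv_ne_of_not_rat x hx
  exact ⟨σ.toRingHom, hσ⟩

theorem mem_range_ratCast_of_forall_ringHom (x : ℂ) (h : ∀ σ : ℂ →+* ℂ, σ x = x) :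
    x ∈ Set.range ((↑) : ℚ → ℂ) := by
  by_contra hx
  obtain ⟨σ, hσ⟩ := exists_ringHom_ne_of_not_rat x hx
  exact hσ (h σ)

theorem mem_range_ratCast_of_forall_ringEquiv (x : ℂ) (h : ∀ σ : ℂ ≃+* ℂ, σ x = x) :
    x ∈ Set.range ((↑) : ℚ → ℂ) := by
  by_contra hx
  obtain ⟨σ, hσ⟩ := exists_ringEquiv_ne_of_not_rat x hx
  exact hσ (h σ)

/-- A finite-dimensional subspace of `ι → ℂ` is detected by finitely many coordinates. -/
theorem exists_finset_coord_injective {ι : Type*} (W : Submodule ℂ (ι → ℂ))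
    [FiniteDimensional ℂ W] :
    ∃ J : Finset ι, ∀ w ∈ W, (∀ j ∈ J, w j = 0) → w = 0 := by
  classical
  -- K J := elements of W vanishing on J
  let K : Finset ι → Submodule ℂ (ι → ℂ) := fun J =>
    W ⊓ ⨅ j ∈ J, LinearMap.ker (LinearMap.proj (R := ℂ) (φ := fun _ : ι => ℂ) j)
  have hK : ∀ J w, w ∈ K J ↔ w ∈ W ∧ ∀ j ∈ J, w j = 0 := by
    intro J w
    simp [K, Submodule.mem_iInf]
  have hKle : ∀ J, K J ≤ W := fun J => inf_le_left
  have : ∀ J, FiniteDimensional ℂ (K J) := fun J =>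
    Submodule.finiteDimensional_of_le (hKle J)
  obtain ⟨n, ⟨J, rfl⟩, hmin⟩ := Nat.lt_wfRel.wf.has_min
    (Set.range fun J : Finset ι => Module.finrank ℂ (K J)) ⟨_, ⟨∅, rfl⟩⟩
  refine ⟨J, fun w hw hJ => ?_⟩
  by_contra hw0
  obtain ⟨i, hi⟩ : ∃ i, w i ≠ 0 := by
    by_contra hcon
    push Not at hcon
    exact hw0 (funext hcon)
  have hlt : K (insert i J) < K J := by
    refine lt_of_le_of_ne ?_ ?_
    · intro v hv
      rw [hK] at hv ⊢
      exact ⟨hv.1, fun j hj => hv.2 j (Finset.mem_insert_of_mem hj)⟩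
    · intro heq
      have hwK : w ∈ K J := (hK J w).mpr ⟨hw, hJ⟩
      rw [← heq, hK] at hwK
      exact hi (hwK.2 i (Finset.mem_insert_self i J))
  exact hmin _ ⟨insert i J, rfl⟩ (Submodule.finrank_lt_finrank_of_lt hlt)

/-- A finite-dimensional subspace of `ι → ℂ` stable under all coordinatewise ring homomorphisms
of `ℂ` is spanned by its points with rational coordinates. -/
theorem span_rational_points_eq {ι : Type*} (W : Submodule ℂ (ι → ℂ)) [FiniteDimensional ℂ W]
    (hW : ∀ σ : ℂ →+* ℂ, ∀ w ∈ W, (fun i => σ (w i)) ∈ W) :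
    Submodule.span ℂ {w : ι → ℂ | w ∈ W ∧ ∀ i, w i ∈ Set.range ((↑) : ℚ → ℂ)} = W := by
  classical
  apply le_antisymm
  · exact Submodule.span_le.mpr fun w hw => hw.1
  obtain ⟨J, hJ⟩ := exists_finset_coord_injective W
  set S : Set (ι → ℂ) := {w : ι → ℂ | w ∈ W ∧ ∀ i, w i ∈ Set.range ((↑) : ℚ → ℂ)} with hS
  let supp : (ι → ℂ) → Finset ι := fun u => J.filter fun j => u j ≠ 0
  have key : ∀ n : ℕ, ∀ u ∈ W, (supp u).card ≤ n → u ∈ Submodule.span ℂ S := by
    intro n
    induction n with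
    | zero =>
      intro u hu hcard
      have : u = 0 := by
        apply hJ u hu
        intro j hj
        by_contra hne
        have hmem : j ∈ supp u := Finset.mem_filter.mpr ⟨hj, hne⟩
        have := Finset.card_pos.mpr ⟨j, hmem⟩
        omega
      rw [this]; exact Submodule.zero_mem _
    | succ n ih =>
      intro u hu hcard
      by_cases hu0 : u = 0
      · rw [hu0]; exact Submodule.zero_mem _
      let T : Set (ι → ℂ) := {v | v ∈ W ∧ v ≠ 0 ∧ supp v ⊆ supp u}
      obtain ⟨m, ⟨v, hvT, rfl⟩, hmin⟩ := Nat.lt_wfRel.wf.has_min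
        ((fun v => (supp v).card) '' T) ⟨_, ⟨u, ⟨hu, hu0, subset_rfl⟩, rfl⟩⟩
      obtain ⟨hvW, hv0, hvsub⟩ := hvT
      obtain ⟨j0, hj0⟩ : ∃ j0, j0 ∈ supp v := by
        by_contra hcon
        push Not at hcon
        apply hv0
        apply hJ v hvW
        intro j hj
        by_contra hne
        exact hcon j (Finset.mem_filter.mpr ⟨hj, hne⟩)
      have hj0J : j0 ∈ J := (Finset.mem_filter.mp hj0).1
      have hvj0 : v j0 ≠ 0 := (Finset.mem_filter.mp hj0).2
      let v' : ι → ℂ := (v j0)⁻¹ • v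
      have hv'W : v' ∈ W := W.smul_mem _ hvW
      have hv'j0 : v' j0 = 1 := by simp [v', hvj0]
      have hsupp' : supp v' = supp v := by
        ext j; simp [supp, v', hvj0]
      have hfix : ∀ σ : ℂ →+* ℂ, (fun i => σ (v' i)) = v' := by
        intro σ
        by_contra hne
        have hdW : (fun i => σ (v' i)) - v' ∈ W := W.sub_mem (hW σ v' hv'W) hv'W
        have hd0 : (fun i => σ (v' i)) - v' ≠ 0 := sub_ne_zero.mpr hne
        have hdsub : supp ((fun i => σ (v' i)) - v') ⊆ (supp v).erase j0 := by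
          intro j hj
          rw [Finset.mem_filter] at hj
          rw [Finset.mem_erase]
          refine ⟨?_, ?_⟩
          · rintro rfl
            apply hj.2
            simp [hv'j0]
          · rw [← hsupp', Finset.mem_filter]
            refine ⟨hj.1, fun h0 => hj.2 ?_⟩
            simp [h0]
        have hcardlt : (supp ((fun i => σ (v' i)) - v')).card < (supp v).card :=
          lt_of_le_of_lt (Finset.card_le_card hdsub) (Finset.card_erase_lt_of_mem hj0)
        exact hmin _ ⟨_, ⟨hdW, hd0,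
          (hdsub.trans (Finset.erase_subset _ _)).trans hvsub⟩, rfl⟩ hcardlt
      have hv'S : v' ∈ S := by
        refine ⟨hv'W, fun i => ?_⟩
        apply mem_range_ratCast_of_forall_ringHom
        intro σ
        exact congrFun (hfix σ) i
      let u' : ι → ℂ := u - (u j0) • v'
      have hu'W : u' ∈ W := W.sub_mem hu (W.smul_mem _ hv'W)
      have hu'sub : supp u' ⊆ (supp u).erase j0 := by
        intro j hj
        rw [Finset.mem_filter] at hj
        rw [Finset.mem_erase]
        refine ⟨?_, ?_⟩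
        · rintro rfl
          apply hj.2
          simp [u', hv'j0]
        · rw [Finset.mem_filter]
          refine ⟨hj.1, fun h0 => hj.2 ?_⟩
          have hvj : v' j = 0 := by
            by_contra hne
            have hmem : j ∈ supp v' := Finset.mem_filter.mpr ⟨hj.1, hne⟩
            rw [hsupp'] at hmem
            exact (Finset.mem_filter.mp (hvsub hmem)).2 h0
          simp [u', h0, hvj]
      have hj0u : j0 ∈ supp u := hvsub hj0
      have hcard' : (supp u').card ≤ n := by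
        have h1 := Finset.card_le_card hu'sub
        have h2 := Finset.card_erase_lt_of_mem hj0u
        omega
      have hu' := ih u' hu'W hcard'
      have hdecomp : u = u' + (u j0) • v' := by simp [u']
      rw [hdecomp]
      exact Submodule.add_mem _ hu' (Submodule.smul_mem _ _ (Submodule.subset_span hv'S))
  intro u hu
  exact key _ u hu le_rfl

/-- Descent for a linear "coordinate map" `q : V → (ι → ℂ)` (e.g. `q`-expansion coefficients):
if the image is stable under all coefficientwise ring homomorphisms of `ℂ`, then `V` is spanned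
by the vectors with rational coordinates. -/
theorem span_rational_of_stable {V ι : Type*} [AddCommGroup V] [Module ℂ V]
    [FiniteDimensional ℂ V] (q : V →ₗ[ℂ] (ι → ℂ))
    (hσ : ∀ σ : ℂ →+* ℂ, ∀ f : V, ∃ g : V, ∀ i, q g i = σ (q f i)) :
    Submodule.span ℂ {f : V | ∀ i, q f i ∈ Set.range ((↑) : ℚ → ℂ)} = ⊤ := by
  classical
  rw [eq_top_iff]
  intro f _
  have hW : ∀ σ : ℂ →+* ℂ, ∀ w ∈ LinearMap.range q, (fun i => σ (w i)) ∈ LinearMap.range q := by
    rintro σ w ⟨f, rfl⟩
    obtain ⟨g, hg⟩ := hσ σ f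
    exact ⟨g, funext hg⟩
  have hspan := span_rational_points_eq (LinearMap.range q) hW
  have hf : q f ∈ Submodule.span ℂ
      {w : ι → ℂ | w ∈ LinearMap.range q ∧ ∀ i, w i ∈ Set.range ((↑) : ℚ → ℂ)} := by
    rw [hspan]; exact ⟨f, rfl⟩
  have himg : {w : ι → ℂ | w ∈ LinearMap.range q ∧ ∀ i, w i ∈ Set.range ((↑) : ℚ → ℂ)} =
      q '' {f : V | ∀ i, q f i ∈ Set.range ((↑) : ℚ → ℂ)} := by
    ext w
    constructor
    · rintro ⟨⟨g, rfl⟩, hg⟩
      exact ⟨g, hg, rfl⟩
    · rintro ⟨g, hg, rfl⟩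
      exact ⟨⟨g, rfl⟩, hg⟩
  rw [himg, ← Submodule.map_span] at hf
  obtain ⟨g, hg, hgf⟩ := hf
  have hker : f - g ∈ Submodule.span ℂ {f : V | ∀ i, q f i ∈ Set.range ((↑) : ℚ → ℂ)} := by
    apply Submodule.subset_span
    intro i
    refine ⟨0, ?_⟩
    simp [hgf]
  have : f = g + (f - g) := by abel
  rw [this]
  exact Submodule.add_mem _ hg hker

/-- Basis form of `span_rational_of_stable`. -/
theorem exists_basis_rational_of_stable {V ι : Type*} [AddCommGroup V] [Module ℂ V]
    [FiniteDimensional ℂ V] (q : V →ₗ[ℂ] (ι → ℂ))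
    (hσ : ∀ σ : ℂ →+* ℂ, ∀ f : V, ∃ g : V, ∀ i, q g i = σ (q f i)) :
    ∃ (n : ℕ) (b : Module.Basis (Fin n) ℂ V), ∀ j i, q (b j) i ∈ Set.range ((↑) : ℚ → ℂ) := by
  classical
  have hspan := span_rational_of_stable q hσ
  obtain ⟨b, hbS, hbspan, hbli⟩ :=
    exists_linearIndependent ℂ {f : V | ∀ i, q f i ∈ Set.range ((↑) : ℚ → ℂ)}
  rw [hspan] at hbspan
  have hfin : b.Finite := hbli.setFinite
  let _ : Fintype b := hfin.fintype
  let B : Module.Basis b ℂ V := Module.Basis.mk hbli (by rw [Subtype.range_coe, hbspan])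
  let e : b ≃ Fin (Fintype.card b) := Fintype.equivFin b
  refine ⟨Fintype.card b, B.reindex e, fun j i => ?_⟩
  have : (B.reindex e) j = ((e.symm j : b) : V) := by
    simp [B]
  rw [this]
  exact hbS (e.symm j).2 i

end Fermat.Agent.Lib.RationalDescent
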