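import Mathlib
import Fermat.Agent.Lib.EigenChar
import Fermat.Agent.Lib.EigenCharLattice

/-!
# Residual eigenvectors

Let `𝕋` be a commutative ring, finite over `ℤ`, acting faithfully on a finitely generated
abelian group `L`, and let `χ : 𝕋 →+* k` be a character with values in a field of characteristic
`p`.  Then the character `χ` occurs in `L / p L` after extension of scalars to `k`, and in any
`𝔽_p`-vector space `V` receiving `L / p L` injectively:

* `exists_equivariant_functional` : a nonzero additive `f : L → k` with `f (t x) = χ t * f x`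
  (Nakayama for the maximal ideal `ker χ`).
* `exists_eigenvector_of_functional` : a finite-dimensional `F`-vector space `N` with an action of
  `𝕋` and a nonzero `χ`-equivariant functional `N → k` has a `χ`-eigenvector in `k ⊗[F] N`.
* `exists_eigenvector_tensor` : for an additive `lam : L → V` with kernel `p L`, there is
  `x ≠ 0` in `k ⊗[ZMod p] V` which is a `χ t`-eigenvector of `τ ⊗ k` for every endomorphism `τ`
  of `V` with `τ ∘ lam = lam ∘ t`.
-/

set_option autoImplicit false
set_option linter.style.haveILetI false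

namespace Fermat.Agent.Lib.ResidualEigen

open TensorProduct

section Functional

variable {F k : Type*} [Field F] [Field k] [Algebra F k]
variable {N : Type*} [AddCommGroup N] [Module F N] [FiniteDimensional F N]
variable {𝕋 : Type*} [CommRing 𝕋]

/-- A nonzero `χ`-equivariant functional on `N` produces a `χ`-eigenvector in `k ⊗ N`. -/
theorem exists_eigenvector_of_functional (act : 𝕋 →+* Module.End F N) (χ : 𝕋 →+* k)
    (f : N →ₗ[F] k) (hf : f ≠ 0) (hfχ : ∀ t n, f (act t n) = χ t * f n) :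
    ∃ v : k ⊗[F] N, v ≠ 0 ∧ ∀ t, (act t).baseChange k v = χ t • v := by
  classical
  let T : 𝕋 → Module.End k (k ⊗[F] N) := fun t => (act t).baseChange k
  have hT : ∀ s t, Commute (T s) (T t) := by
    intro s t
    show (act s).baseChange k * (act t).baseChange k = (act t).baseChange k * (act s).baseChange k
    rw [← LinearMap.baseChange_mul, ← LinearMap.baseChange_mul, ← map_mul, ← map_mul, mul_comm]
  let φ : MvPolynomial 𝕋 k →ₐ[k] Module.End k (k ⊗[F] N) := EigenCharLattice.evalComm T hT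
  let ψ : MvPolynomial 𝕋 k →ₐ[k] k := MvPolynomial.aeval (fun t => χ t)
  let F' : k ⊗[F] N →ₗ[k] k := f.liftBaseChange k
  have hF'T : ∀ t m, F' (T t m) = χ t * F' m := by
    intro t m
    induction m using TensorProduct.induction_on with
    | zero => simp
    | tmul c n =>
      show F' ((act t).baseChange k (c ⊗ₜ[F] n)) = χ t * F' (c ⊗ₜ[F] n)
      rw [LinearMap.baseChange_tmul, LinearMap.liftBaseChange_tmul, LinearMap.liftBaseChange_tmul,
        hfχ, smul_eq_mul, smul_eq_mul]
      ring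
    | add x y hx hy => rw [map_add, map_add, hx, hy, map_add, mul_add]
  have key : ∀ (P : MvPolynomial 𝕋 k) (m : k ⊗[F] N), F' (φ P m) = ψ P * F' m := by
    intro P
    induction P using MvPolynomial.induction_on with
    | C a =>
      intro m
      show F' (EigenCharLattice.evalComm T hT (MvPolynomial.C a) m) = _
      rw [EigenCharLattice.evalComm_C, Module.algebraMap_end_apply, map_smul]
      simp [ψ]
    | add P Q hP hQ =>
      intro m
      rw [map_add, map_add, LinearMap.add_apply, map_add, hP, hQ, add_mul]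
    | mul_X P t hP =>
      intro m
      rw [map_mul, map_mul, Module.End.mul_apply, hP]
      show ψ P * F' (EigenCharLattice.evalComm T hT (MvPolynomial.X t) m) = _
      rw [EigenCharLattice.evalComm_X, hF'T]
      simp [ψ]
      ring
  have h : ∀ b, φ b = 0 → ψ b = 0 := by
    intro b hb
    obtain ⟨n, hn⟩ : ∃ n, f n ≠ 0 := by
      by_contra hcon
      push Not at hcon
      exact hf (LinearMap.ext hcon)
    have h1 := key b ((1 : k) ⊗ₜ[F] n)
    rw [hb, LinearMap.zero_apply, map_zero] at h1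
    have hF1 : F' ((1 : k) ⊗ₜ[F] n) = f n := by
      show f.liftBaseChange k ((1 : k) ⊗ₜ[F] n) = f n
      rw [LinearMap.liftBaseChange_tmul, one_smul]
    rw [hF1] at h1
    exact (mul_eq_zero.mp h1.symm).resolve_right hn
  obtain ⟨v, hv, hev⟩ := EigenChar.exists_eigenvector φ ψ h
  refine ⟨v, hv, fun t => ?_⟩
  have h2 := hev (MvPolynomial.X t)
  have h3 : φ (MvPolynomial.X t) = (act t).baseChange k := EigenCharLattice.evalComm_X T hT t
  have h4 : ψ (MvPolynomial.X t) = χ t := MvPolynomial.aeval_X _ t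
  rw [h3, h4] at h2
  exact h2

end Functional

section Nakayama

variable {𝕋 : Type*} [CommRing 𝕋] [Module.Finite ℤ 𝕋]
variable {L : Type*} [AddCommGroup L] [Module.Finite ℤ L]

/-- **Nakayama for a character.** If `𝕋` (finite over `ℤ`) acts faithfully on the finitely
generated abelian group `L` and `χ : 𝕋 →+* k` is a character to a field of characteristic `p`,
there is a nonzero additive `χ`-equivariant map `L → k`. -/
theorem exists_equivariant_functional (act : 𝕋 →+* Module.End ℤ L)
    (hact : Function.Injective act) (p : ℕ) [Fact p.Prime] {k : Type*} [Field k] [CharP k p]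
    (χ : 𝕋 →+* k) :
    ∃ f : L →+ k, f ≠ 0 ∧ ∀ t x, f (act t x) = χ t * f x := by
  classical
  letI : Module 𝕋 L := Module.compHom L act
  have hsmul : ∀ (t : 𝕋) (x : L), t • x = act t x := fun _ _ => rfl
  haveI : IsScalarTower ℤ 𝕋 L := ⟨fun z t x => by
    rw [hsmul, hsmul, map_zsmul]
    rfl⟩
  haveI : Module.Finite 𝕋 L := Module.Finite.of_restrictScalars_finite ℤ 𝕋 L
  let 𝔪 : Ideal 𝕋 := RingHom.ker χ
  have hmem : ∀ t : 𝕋, t ∈ 𝔪 ↔ χ t = 0 := fun t => RingHom.mem_ker
  haveI h𝔪p : 𝔪.IsPrime := RingHom.ker_isPrime χ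
  haveI h𝔪 : 𝔪.IsMaximal := by
    apply Ideal.isMaximal_of_isIntegral_of_isMaximal_comap (R := ℤ) 𝔪
    have hc : 𝔪.comap (algebraMap ℤ 𝕋) = Ideal.span {(p : ℤ)} := by
      ext z
      rw [Ideal.mem_comap, hmem, Ideal.mem_span_singleton, eq_intCast, map_intCast,
        CharP.intCast_eq_zero_iff k p]
    rw [hc]
    exact PrincipalIdealRing.isMaximal_of_irreducible
      (Nat.prime_iff_prime_int.mp (Fact.out : p.Prime)).irreducible
  -- Nakayama
  have hne : 𝔪 • (⊤ : Submodule 𝕋 L) ≠ ⊤ := by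
    intro htop
    obtain ⟨r, hr1, hr0⟩ := Submodule.exists_sub_one_mem_and_smul_eq_zero_of_fg_of_le_smul 𝔪
      (⊤ : Submodule 𝕋 L) Module.Finite.fg_top (by rw [htop])
    have hr : act r = 0 := LinearMap.ext fun x => hr0 x trivial
    have hr' : r = 0 := hact (by rw [hr, map_zero])
    rw [hr', zero_sub] at hr1
    have h1 : χ 1 = 0 := by
      have := 𝔪.neg_mem hr1
      rw [neg_neg] at this
      exact (hmem 1).mp this
    rw [map_one] at h1
    exact one_ne_zero h1
  letI : Field (𝕋 ⧸ 𝔪) := Ideal.Quotient.field 𝔪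
  obtain ⟨x₀, hx₀⟩ : ∃ x : L, x ∉ 𝔪 • (⊤ : Submodule 𝕋 L) := by
    by_contra hcon
    push Not at hcon
    exact hne (eq_top_iff.mpr fun x _ => hcon x)
  have hq : (Submodule.Quotient.mk x₀ : L ⧸ 𝔪 • (⊤ : Submodule 𝕋 L)) ≠ 0 := by
    rwa [Ne, Submodule.Quotient.mk_eq_zero]
  obtain ⟨g, hg⟩ : ∃ g : Module.Dual (𝕋 ⧸ 𝔪) (L ⧸ 𝔪 • (⊤ : Submodule 𝕋 L)),
      g (Submodule.Quotient.mk x₀) ≠ 0 := by
    by_contra hcon
    push Not at hcon
    exact hq ((Module.forall_dual_apply_eq_zero_iff (𝕋 ⧸ 𝔪) _).mp hcon)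
  let ι : 𝕋 ⧸ 𝔪 →+* k := RingHom.kerLift χ
  have hι : ∀ t : 𝕋, ι (Ideal.Quotient.mk 𝔪 t) = χ t := fun t => RingHom.kerLift_mk χ t
  have hιinj : Function.Injective ι := RingHom.kerLift_injective χ
  let f : L →+ k :=
    (ι : 𝕋 ⧸ 𝔪 →+ k).comp ((g : (L ⧸ 𝔪 • (⊤ : Submodule 𝕋 L)) →+ 𝕋 ⧸ 𝔪).comp
      (Submodule.mkQ (𝔪 • (⊤ : Submodule 𝕋 L))).toAddMonoidHom)
  have hf : ∀ x, f x = ι (g (Submodule.Quotient.mk x)) := fun _ => rfl
  refine ⟨f, ?_, ?_⟩
  · intro h0
    have : f x₀ = 0 := by rw [h0]; rfl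
    rw [hf] at this
    exact hg (hιinj (by rw [this, map_zero]))
  · intro t x
    rw [hf, hf, ← hι, ← map_mul]
    congr 1
    have : (Submodule.Quotient.mk (act t x) : L ⧸ 𝔪 • (⊤ : Submodule 𝕋 L)) =
        (Ideal.Quotient.mk 𝔪 t) • Submodule.Quotient.mk x := rfl
    rw [this, map_smul, smul_eq_mul]

end Nakayama

section Tensor

variable {𝕋 : Type*} [CommRing 𝕋] [Module.Finite ℤ 𝕋]
variable {L : Type*} [AddCommGroup L] [Module.Finite ℤ L]

omit [Module.Finite ℤ L] in
/-- every element of `ZMod p ⊗[ℤ] L` is a pure tensor `1 ⊗ y` -/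
theorem exists_eq_one_tmul (p : ℕ) (n : ZMod p ⊗[ℤ] L) : ∃ y : L, n = (1 : ZMod p) ⊗ₜ[ℤ] y := by
  induction n using TensorProduct.induction_on with
  | zero => exact ⟨0, by rw [TensorProduct.tmul_zero]⟩
  | tmul a x =>
    obtain ⟨z, rfl⟩ := ZMod.intCast_surjective a
    refine ⟨z • x, ?_⟩
    rw [TensorProduct.tmul_smul, TensorProduct.smul_tmul', zsmul_eq_mul, mul_one]
  | add x y hx hy =>
    obtain ⟨a, rfl⟩ := hx
    obtain ⟨b, rfl⟩ := hy
    exact ⟨a + b, by rw [TensorProduct.tmul_add]⟩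

/-- **Residual eigenvector.** `𝕋` finite over `ℤ` acting faithfully on the finitely generated
abelian group `L`; `χ : 𝕋 →+* k` with `k` of characteristic `p`; `lam : L →+ V` an additive map
to an `𝔽_p`-vector space with kernel `p L`.  Then there is `x ≠ 0` in `k ⊗ V` such that for every
`t : 𝕋` and every endomorphism `τ` of `V` with `τ ∘ lam = lam ∘ t`, `(τ ⊗ k) x = χ t • x`. -/
theorem exists_eigenvector_tensor (act : 𝕋 →+* Module.End ℤ L) (hact : Function.Injective act)
    (p : ℕ) [Fact p.Prime] {k : Type*} [Field k] [Algebra (ZMod p) k] (χ : 𝕋 →+* k)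
    {V : Type*} [AddCommGroup V] [Module (ZMod p) V]
    (lam : L →+ V) (hker : ∀ x, lam x = 0 → ∃ y, x = p • y) :
    ∃ x : k ⊗[ZMod p] V, x ≠ 0 ∧ ∀ (t : 𝕋) (τ : Module.End (ZMod p) V),
      (∀ y, τ (lam y) = lam (act t y)) → τ.baseChange k x = χ t • x := by
  classical
  haveI : CharP k p := charP_of_injective_algebraMap (algebraMap (ZMod p) k).injective p
  obtain ⟨f₀, hf₀, hf₀χ⟩ := exists_equivariant_functional act hact p χ
  let actN : 𝕋 →+* Module.End (ZMod p) (ZMod p ⊗[ℤ] L) :=
    (Module.End.baseChangeHom ℤ (ZMod p) L).toRingHom.comp act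
  have hactN : ∀ t (a : ZMod p) (x : L), actN t (a ⊗ₜ[ℤ] x) = a ⊗ₜ[ℤ] act t x := fun _ _ _ => rfl
  let fN : ZMod p ⊗[ℤ] L →ₗ[ZMod p] k := f₀.toIntLinearMap.liftBaseChange (ZMod p)
  have hfN : ∀ (a : ZMod p) (x : L), fN (a ⊗ₜ[ℤ] x) = a • f₀ x := fun a x =>
    LinearMap.liftBaseChange_tmul _ _ _ _
  let lamN : ZMod p ⊗[ℤ] L →ₗ[ZMod p] V := lam.toIntLinearMap.liftBaseChange (ZMod p)
  have hlamN : ∀ (a : ZMod p) (x : L), lamN (a ⊗ₜ[ℤ] x) = a • lam x := fun a x =>
    LinearMap.liftBaseChange_tmul _ _ _ _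
  -- the functional is nonzero and equivariant
  have hfN0 : fN ≠ 0 := by
    intro h0
    apply hf₀
    ext x
    have := hfN 1 x
    rw [h0, LinearMap.zero_apply, one_smul] at this
    rw [← this]
    rfl
  have hfNχ : ∀ t n, fN (actN t n) = χ t * fN n := by
    intro t n
    induction n using TensorProduct.induction_on with
    | zero => simp
    | tmul a x => rw [hactN, hfN, hfN, hf₀χ, mul_smul_comm]
    | add x y hx hy => rw [map_add, map_add, hx, hy, map_add, mul_add]
  obtain ⟨v, hv, hev⟩ := exists_eigenvector_of_functional actN χ fN hfN0 hfNχ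
  -- injectivity of `lamN`
  have hinj : Function.Injective lamN := by
    rw [injective_iff_map_eq_zero]
    intro n hn
    obtain ⟨y, rfl⟩ := exists_eq_one_tmul p n
    rw [hlamN, one_smul] at hn
    obtain ⟨y', rfl⟩ := hker y hn
    rw [TensorProduct.tmul_smul, TensorProduct.smul_tmul', nsmul_eq_mul, mul_one,
      ZMod.natCast_self, TensorProduct.zero_tmul]
  have hinj' : Function.Injective (lamN.baseChange k) := by
    have := Module.Flat.lTensor_preserves_injective_linearMap (M := k) lamN hinj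
    exact this
  refine ⟨lamN.baseChange k v, fun h0 => hv (hinj' (by rw [h0, map_zero])), ?_⟩
  intro t τ hτ
  have hcomp : τ ∘ₗ lamN = lamN ∘ₗ actN t := by
    apply LinearMap.ext
    intro n
    obtain ⟨y, rfl⟩ := exists_eq_one_tmul p n
    rw [LinearMap.comp_apply, LinearMap.comp_apply, hactN, hlamN, hlamN, one_smul, one_smul, hτ]
  have h1 : τ.baseChange k (lamN.baseChange k v) = (τ ∘ₗ lamN).baseChange k v := by
    rw [LinearMap.baseChange_comp]
    rfl
  rw [h1, hcomp, LinearMap.baseChange_comp, LinearMap.comp_apply, hev t, map_smul]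

end Tensor

end Fermat.Agent.Lib.ResidualEigen
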