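import Mathlib

/-!
# The residue field of a valuation subring of an algebraically closed field is algebraically closed
-/

namespace Fermat.Agent.Lib.ResidueAlgClosed

open Polynomial

/-- A root in `L` of a monic polynomial over a valuation subring `A` lies in `A`. -/
theorem mem_of_monic_root {L : Type*} [Field L] (A : ValuationSubring L) {P : A[X]}
    (hP : P.Monic) {x : L} (hx : (P.map A.subtype).eval x = 0) : x ∈ A := by
  by_contra hxA
  have hx0 : x ≠ 0 := by
    rintro rfl
    exact hxA A.zero_mem
  -- `x⁻¹` is a non-unit of `A`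
  have hinv : A.valuation x⁻¹ < 1 := by
    have h1 : ¬ A.valuation x ≤ 1 := fun h => hxA ((A.valuation_le_one_iff x).mp h)
    rw [not_le] at h1
    rw [map_inv₀]
    exact (inv_lt_one₀ (lt_trans zero_lt_one h1)).mpr h1
  have hxv : 1 < A.valuation x := by
    by_contra h
    exact hxA ((A.valuation_le_one_iff x).mp (not_lt.mp h))
  -- valuation of `P(x)` equals `v(x)^n`
  set n := P.natDegree with hn
  have hsum : (P.map A.subtype).eval x = x ^ n + ∑ i ∈ Finset.range n, (P.coeff i : L) * x ^ i := by
    rw [Polynomial.eval_eq_sum_range, Polynomial.natDegree_map_eq_of_injective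
      (Subtype.val_injective) P, ← hn, Finset.sum_range_succ, add_comm]
    congr 1
    · rw [Polynomial.coeff_map]
      have : P.coeff n = 1 := hP.coeff_natDegree
      rw [this]
      simp
    · refine Finset.sum_congr rfl fun i _ => ?_
      rw [Polynomial.coeff_map]
      rfl
  have hlt : A.valuation (∑ i ∈ Finset.range n, (P.coeff i : L) * x ^ i) < A.valuation (x ^ n) := by
    rcases Nat.eq_zero_or_pos n with h0 | hpos
    · rw [h0, Finset.range_zero, Finset.sum_empty, map_zero, pow_zero, map_one]
      exact zero_lt_one
    · refine Valuation.map_sum_lt _ ?_ ?_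
      · rw [map_pow]
        exact pow_ne_zero _ (ne_of_gt (lt_trans zero_lt_one hxv))
      · intro i hi
        rw [Finset.mem_range] at hi
        rw [map_mul, map_pow, map_pow]
        calc A.valuation (P.coeff i : L) * A.valuation x ^ i ≤ 1 * A.valuation x ^ i :=
              mul_le_mul_left ((A.valuation_le_one_iff _).mpr (P.coeff i).2) _
          _ = A.valuation x ^ i := one_mul _
          _ < A.valuation x ^ n := pow_lt_pow_right₀ hxv hi
  have hval : A.valuation ((P.map A.subtype).eval x) = A.valuation (x ^ n) := by
    rw [hsum]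
    exact Valuation.map_add_eq_of_lt_left _ hlt
  rw [hx, map_zero, map_pow] at hval
  exact (pow_ne_zero _ (ne_of_gt (lt_trans zero_lt_one hxv))) hval.symm

/-- **The residue field of a valuation subring of an algebraically closed field is algebraically
closed.** -/
theorem isAlgClosed_residueField {L : Type*} [Field L] [IsAlgClosed L] (A : ValuationSubring L) :
    IsAlgClosed (IsLocalRing.ResidueField A) := by
  refine IsAlgClosed.of_exists_root _ ?_
  intro p hp hirr
  have hlift : p ∈ Polynomial.lifts (IsLocalRing.residue A) := by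
    rw [Polynomial.lifts_iff_coeff_lifts]
    intro i
    exact IsLocalRing.residue_surjective _
  obtain ⟨P, hPmap, hPdeg, hPmonic⟩ := Polynomial.lifts_and_natDegree_eq_and_monic hlift hp
  have hdeg : (P.map A.subtype).degree ≠ 0 := by
    rw [Polynomial.degree_map_eq_of_injective Subtype.val_injective,
      Polynomial.degree_eq_natDegree hPmonic.ne_zero, hPdeg]
    have := Polynomial.natDegree_pos_iff_degree_pos.mpr (Polynomial.degree_pos_of_irreducible hirr)
    exact_mod_cast this.ne'
  obtain ⟨x, hx⟩ := IsAlgClosed.exists_root (P.map A.subtype) hdeg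
  have hxA : x ∈ A := mem_of_monic_root A hPmonic hx
  refine ⟨IsLocalRing.residue A ⟨x, hxA⟩, ?_⟩
  have hPx : P.eval (⟨x, hxA⟩ : A) = 0 := by
    apply Subtype.val_injective
    have h1 := hx
    rw [Polynomial.IsRoot.def, Polynomial.eval_map] at h1
    have h2 := Polynomial.eval₂_at_apply (p := P) A.subtype ⟨x, hxA⟩
    have h3 : A.subtype (P.eval (⟨x, hxA⟩ : A)) = 0 := by
      rw [← h2]
      exact h1
    exact h3
  have h4 := Polynomial.eval₂_at_apply (p := P) (IsLocalRing.residue A) ⟨x, hxA⟩
  rw [← hPmap, Polynomial.eval_map, h4, hPx, map_zero]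

end Fermat.Agent.Lib.ResidueAlgClosed
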