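import Mathlib

open NumberField
open scoped Pointwise

namespace Fermat.Agent.Lib.ResidueNorm

variable (F M : Type*) [Field F] [Field M] [NumberField F] [NumberField M] [Algebra F M]
  [IsGalois F M]

/-- The integral norm as a product over the Galois group, inside `𝓞 M`. -/
theorem algebraMap_intNorm_eq_prod (γ : 𝓞 M) :
    algebraMap (𝓞 F) (𝓞 M) (Algebra.intNorm (𝓞 F) (𝓞 M) γ) = ∏ σ : (M ≃ₐ[F] M), σ • γ := by
  apply RingOfIntegers.coe_injective
  have h1 := Algebra.algebraMap_intNorm (A := 𝓞 F) (K := F) (L := M) (B := 𝓞 M) γ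
  have h2 := Algebra.norm_eq_prod_automorphisms F (algebraMap (𝓞 M) M γ)
  have h3 : algebraMap (𝓞 M) M (algebraMap (𝓞 F) (𝓞 M) (Algebra.intNorm (𝓞 F) (𝓞 M) γ))
      = algebraMap F M (algebraMap (𝓞 F) F (Algebra.intNorm (𝓞 F) (𝓞 M) γ)) := by
    rw [← IsScalarTower.algebraMap_apply, ← IsScalarTower.algebraMap_apply]
  change algebraMap (𝓞 M) M _ = algebraMap (𝓞 M) M _
  rw [h3, h1, h2, map_prod]
  rfl

/-- Local step: at an unramified prime `w` over `v`, every residue class prime to `v` is the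
residue class of a "decomposition-group norm". -/
theorem exists_local (v : Ideal (𝓞 F)) [v.IsPrime] (hv : v ≠ ⊥) (w : Ideal (𝓞 M)) [w.IsPrime]
    [w.LiesOver v] (hw : w.inertia (M ≃ₐ[F] M) = ⊥) (x : 𝓞 F) (hx : x ∉ v) :
    ∃ u : 𝓞 M, (∏ g : MulAction.stabilizer (M ≃ₐ[F] M) w, (g : M ≃ₐ[F] M) • u)
      - algebraMap (𝓞 F) (𝓞 M) x ∈ w := by
  have : v.IsMaximal := Ideal.IsPrime.isMaximal inferInstance hv
  have : w.IsMaximal := Ideal.IsMaximal.of_liesOver_isMaximal w v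
  let _ : Field (𝓞 F ⧸ v) := Ideal.Quotient.field v
  let _ : Field (𝓞 M ⧸ w) := Ideal.Quotient.field w
  have : Finite (𝓞 M ⧸ w) := inferInstance
  have : Finite (𝓞 F ⧸ v) := inferInstance
  have : IsGalois (𝓞 F ⧸ v) (𝓞 M ⧸ w) := inferInstance
  have hx' : Ideal.Quotient.mk v x ≠ 0 := by rwa [Ne, Ideal.Quotient.eq_zero_iff_mem]
  obtain ⟨u', hu'⟩ := FiniteField.unitsMap_norm_surjective (𝓞 F ⧸ v) (𝓞 M ⧸ w) (Units.mk0 _ hx')
  obtain ⟨u, hu⟩ := Ideal.Quotient.mk_surjective (u' : 𝓞 M ⧸ w)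
  refine ⟨u, ?_⟩
  rw [← Ideal.Quotient.eq]
  have hn : Algebra.norm (𝓞 F ⧸ v) (u' : 𝓞 M ⧸ w) = Ideal.Quotient.mk v x := by
    have := congrArg Units.val hu'
    simpa using this
  have h2 := Algebra.norm_eq_prod_automorphisms (𝓞 F ⧸ v) (u' : 𝓞 M ⧸ w)
  rw [hn] at h2
  have hbij : Function.Bijective (Ideal.Quotient.stabilizerHom w v (M ≃ₐ[F] M)) := by
    refine ⟨?_, Ideal.Quotient.stabilizerHom_surjective (M ≃ₐ[F] M) v w⟩
    rw [← MonoidHom.ker_eq_bot_iff, Ideal.Quotient.ker_stabilizerHom, eq_bot_iff]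
    intro g hg
    have hg' : (g : M ≃ₐ[F] M) ∈ w.inertia (M ≃ₐ[F] M) := Ideal.coe_mem_inertia.mpr hg
    rw [hw] at hg'
    exact Subtype.ext (Subgroup.mem_bot.mp hg')
  have h3 : ∏ σ : (𝓞 M ⧸ w) ≃ₐ[𝓞 F ⧸ v] (𝓞 M ⧸ w), σ (u' : 𝓞 M ⧸ w)
      = ∏ g : MulAction.stabilizer (M ≃ₐ[F] M) w,
          (Ideal.Quotient.stabilizerHom w v (M ≃ₐ[F] M) g) (u' : 𝓞 M ⧸ w) :=
    (Fintype.prod_bijective _ hbij _ _ (fun g => rfl)).symm
  rw [h3] at h2
  rw [map_prod]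
  have h4 : algebraMap (𝓞 F ⧸ v) (𝓞 M ⧸ w) (Ideal.Quotient.mk v x)
      = Ideal.Quotient.mk w (algebraMap (𝓞 F) (𝓞 M) x) := rfl
  rw [← h4, h2]
  refine Finset.prod_congr rfl fun g _ => ?_
  rw [← hu]
  rfl

/-- **Residue norm surjectivity** for an unramified Galois extension of number fields: any `x`
prime to a finite set `S` of primes of `F` is congruent, modulo every `v ∈ S`, to the norm of an
integer of `M`. -/
theorem exists_intNorm_sub_mem
    (hun : ∀ Q : Ideal (𝓞 M), Q.IsPrime → Q ≠ ⊥ → Q.inertia (M ≃ₐ[F] M) = ⊥)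
    (S : Finset (Ideal (𝓞 F))) (hS : ∀ v ∈ S, v.IsPrime ∧ v ≠ ⊥) (x : 𝓞 F)
    (hx : ∀ v ∈ S, x ∉ v) :
    ∃ γ : 𝓞 M, ∀ v ∈ S, Algebra.intNorm (𝓞 F) (𝓞 M) γ - x ∈ v := by
  classical
  have key : ∀ v ∈ S, ∃ w : Ideal (𝓞 M), ∃ u : 𝓞 M, w.IsPrime ∧ w.LiesOver v ∧
      (∏ g : MulAction.stabilizer (M ≃ₐ[F] M) w, (g : M ≃ₐ[F] M) • u)
        - algebraMap (𝓞 F) (𝓞 M) x ∈ w := by
    intro v hvS
    obtain ⟨hvp, hv0⟩ := hS v hvS
    obtain ⟨⟨w, hwp, hwo⟩⟩ := Ideal.nonempty_primesOver (S := 𝓞 M) v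
    have hw0 : w ≠ ⊥ := Ideal.ne_bot_of_liesOver_of_ne_bot hv0 w
    obtain ⟨u, hu⟩ := exists_local F M v hv0 w (hun w hwp hw0) x (hx v hvS)
    exact ⟨w, u, hwp, hwo, hu⟩
  choose! wsel usel hwp hwo hloc using key
  -- the finite set of primes of `M` above `S`
  let T : Finset (Ideal (𝓞 M)) :=
    (Finset.univ ×ˢ S).image (fun p : (M ≃ₐ[F] M) × Ideal (𝓞 F) => p.1 • wsel p.2)
  have hT : ∀ σ : M ≃ₐ[F] M, ∀ v ∈ S, σ • wsel v ∈ T := fun σ v hv =>
    Finset.mem_image.mpr ⟨(σ, v), Finset.mem_product.mpr ⟨Finset.mem_univ _, hv⟩, rfl⟩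
  have hTprime : ∀ i ∈ T, Prime i := by
    intro i hi
    obtain ⟨⟨σ, v⟩, hp, rfl⟩ := Finset.mem_image.mp hi
    have hv : v ∈ S := (Finset.mem_product.mp hp).2
    have := hwp v hv
    have := hwo v hv
    have h0 : σ • wsel v ≠ ⊥ := Ideal.ne_bot_of_liesOver_of_ne_bot (hS v hv).2 (σ • wsel v)
    exact Ideal.prime_of_isPrime h0 inferInstance
  -- the CRT targets
  let t : Ideal (𝓞 M) → 𝓞 M := fun w' =>
    if w' = wsel (w'.under (𝓞 F)) then usel (w'.under (𝓞 F)) else 1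
  obtain ⟨γ, hγ⟩ := IsDedekindDomain.exists_forall_sub_mem_ideal (s := T) (fun i => i)
    (fun _ => 1) hTprime (fun i _ j _ hij => hij) (fun i => t i)
  refine ⟨γ, fun v hv => ?_⟩
  have := hwp v hv
  have := hwo v hv
  have hunder : ∀ σ : M ≃ₐ[F] M, (σ • wsel v).under (𝓞 F) = v := fun σ =>
    (Ideal.LiesOver.over (p := v) (P := σ • wsel v)).symm
  -- it suffices to prove the congruence upstairs
  suffices h : algebraMap (𝓞 F) (𝓞 M) (Algebra.intNorm (𝓞 F) (𝓞 M) γ - x) ∈ wsel v by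
    have h' : Algebra.intNorm (𝓞 F) (𝓞 M) γ - x ∈ (wsel v).under (𝓞 F) := h
    rwa [← Ideal.LiesOver.over (p := v) (P := wsel v)] at h'
  rw [map_sub, algebraMap_intNorm_eq_prod]
  have hl := hloc v hv
  rw [← Ideal.Quotient.eq] at hl ⊢
  rw [← hl, map_prod, map_prod]
  -- termwise
  have hterm : ∀ σ : M ≃ₐ[F] M, Ideal.Quotient.mk (wsel v) (σ • γ)
      = if σ ∈ MulAction.stabilizer (M ≃ₐ[F] M) (wsel v)
        then Ideal.Quotient.mk (wsel v) (σ • usel v) else 1 := by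
    intro σ
    have h1 := hγ (σ⁻¹ • wsel v) (hT σ⁻¹ v hv)
    simp only [pow_one] at h1
    have h2 : σ • γ - σ • t (σ⁻¹ • wsel v) ∈ wsel v := by
      rw [← smul_sub]
      exact Ideal.mem_inv_pointwise_smul_iff.mp h1
    split_ifs with hσ
    · rw [Ideal.Quotient.eq]
      have hσ' : σ⁻¹ • wsel v = wsel v := by
        rw [inv_smul_eq_iff]; exact (MulAction.mem_stabilizer_iff.mp hσ).symm
      have : t (σ⁻¹ • wsel v) = usel v := by
        simp only [t]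
        rw [hunder, if_pos hσ']
      rwa [this] at h2
    · have hσ' : σ⁻¹ • wsel v ≠ wsel v := by
        intro h
        apply hσ
        rw [MulAction.mem_stabilizer_iff]
        rw [inv_smul_eq_iff] at h
        exact h.symm
      have : t (σ⁻¹ • wsel v) = 1 := by
        simp only [t]
        rw [hunder, if_neg hσ']
      rw [this, smul_one] at h2
      rw [← map_one (Ideal.Quotient.mk (wsel v)), Ideal.Quotient.eq]
      exact h2
  rw [Finset.prod_congr rfl (fun σ _ => hterm σ), Finset.prod_ite, Finset.prod_const_one, mul_one]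
  rw [Finset.prod_subtype (p := fun σ => σ ∈ MulAction.stabilizer (M ≃ₐ[F] M) (wsel v))
    (Finset.univ.filter fun σ => σ ∈ MulAction.stabilizer (M ≃ₐ[F] M) (wsel v))
    (fun σ => by simp)]

end Fermat.Agent.Lib.ResidueNorm
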