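import Mathlib
import Fermat.Prelude.Def_CuspForm_IntegralLattice
import Fermat.Prelude.Def_FormalHecke_Eigensystem
import Fermat.Prelude.Def_ModularForm_EisensteinChiNegThree
import Fermat.Prelude.Def_FLTPrelim_Modularity
import Fermat.Agent.Lib.DeligneSerre
import Fermat.Agent.Lib.IntLatticeCongr

set_option autoImplicit false
open CuspForm EisensteinWeightOne CongruenceSubgroup ModularFormClass

namespace Fermat.Agent.Lib.S49Final

open Fermat.Agent.Lib.IntLatticeCongr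

theorem main
    {N : ℕ} [NeZero N] (h : CuspForm.HasIntegralBasis N) {a : ℕ → ℤ}
    (heig : FormalHecke.IsEigensystem
      (fun ℓ => if ℓ ∣ N then 0 else ((chiNegThree ℓ : ℤ) : ℤ)) a)
    (hreal : CuspForm.IsLatticeRealized N a) :
    ∃ (f : CuspForm (Gamma0 N) 2) (_ : f.IsNormalizedEigenform)
      (𝔪' : Ideal (integralClosure ℤ ℂ)), 𝔪'.IsMaximal ∧
      ((3 : ℕ) : integralClosure ℤ ℂ) ∈ 𝔪' ∧
      ∀ (ℓ : ℕ) (_ : ℓ.Prime) (_ : ¬ ℓ ∣ N),
        ∃ c : integralClosure ℤ ℂ, (c : ℂ) = ModularFormClass.qCoeff f ℓ ∧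
          c - (a ℓ : integralClosure ℤ ℂ) ∈ 𝔪' := by
  classical
  obtain ⟨f0, hf0L, hf0', hcong⟩ := heckeFam_congr heig hreal
  -- the choice function
  let G : Set (Module.End ℂ (CuspForm (Gamma0 N) 2)) := Set.range (heckeFam N)
  let χ : Module.End ℂ (CuspForm (Gamma0 N) 2) → ℤ := fun t =>
    if ht : ∃ i, heckeFam N i = t then a (Classical.choose ht).1 else 0
  have hχ : ∀ t ∈ G, ∃ y ∈ CuspForm.intLattice N 2, t f0 - χ t • f0 = (3 : ℤ) • y := by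
    rintro t ht
    have ht' : ∃ i, heckeFam N i = t := ht
    have hspec := Classical.choose_spec ht'
    obtain ⟨y, hy, hyeq⟩ := hcong (Classical.choose ht')
    refine ⟨y, hy, ?_⟩
    simp only [χ, dif_pos ht']
    rw [← hyeq, hspec]
  obtain ⟨w, μ, 𝔪', hw0, hmax, h3, hw⟩ :=
    Fermat.Agent.Lib.DeligneSerre.lifting (CuspForm.intLattice N 2) (CuspForm.intLattice_fg N 2)
      (span_intLattice_eq_top h) G
      (by
        rintro s ⟨i, rfl⟩ t ⟨j, rfl⟩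
        exact (heckeFam_commute i j).eq)
      (by
        rintro t ⟨i, rfl⟩ x hx
        exact heckeFam_mem_intLattice i hx)
      3 Nat.prime_three f0 hf0L
      (fun y hy hfy => hf0' ⟨y, hy, hfy⟩) χ hχ
  obtain ⟨f, hf, hfl⟩ := exists_normalizedEigenform_of_heckeFam_eigen w hw0
    (fun i => ((μ (heckeFam N i) : integralClosure ℤ ℂ) : ℂ))
    (fun i => (hw (heckeFam N i) ⟨i, rfl⟩).1)
  refine ⟨f, hf, 𝔪', hmax, h3, fun ℓ hℓ hℓN => ?_⟩
  refine ⟨μ (heckeFam N ⟨ℓ, hℓ⟩), (hfl ⟨ℓ, hℓ⟩).symm, ?_⟩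
  -- congruence
  have hmem := (hw (heckeFam N ⟨ℓ, hℓ⟩) ⟨⟨ℓ, hℓ⟩, rfl⟩).2
  have ht' : ∃ i, heckeFam N i = heckeFam N ⟨ℓ, hℓ⟩ := ⟨⟨ℓ, hℓ⟩, rfl⟩
  have hspec := Classical.choose_spec ht'
  set j := Classical.choose ht' with hj
  have hχj : χ (heckeFam N ⟨ℓ, hℓ⟩) = a j.1 := by
    simp only [χ, dif_pos ht']
    rfl
  -- 3 ∣ a ℓ - a j
  have hdvd : (3 : ℤ) ∣ a ℓ - a j.1 := by
    obtain ⟨y1, hy1, e1⟩ := hcong ⟨ℓ, hℓ⟩
    obtain ⟨y2, hy2, e2⟩ := hcong j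
    rw [hspec] at e2
    have e3 : (a ℓ - a j.1) • f0 = (3 : ℤ) • (y2 - y1) := by
      rw [sub_smul, smul_sub, ← e1, ← e2]
      abel
    by_contra hnd
    have hcop : IsCoprime (a ℓ - a j.1) 3 := by
      rw [Int.isCoprime_iff_gcd_eq_one]
      have hp3 : Prime (3 : ℤ) := Int.prime_three
      have := (Int.isCoprime_iff_gcd_eq_one).mp
        ((Prime.coprime_iff_not_dvd hp3).mpr hnd)
      rw [Int.gcd_comm]; exact this
    obtain ⟨x, y, hxy⟩ := hcop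
    apply hf0'
    refine ⟨x • (y2 - y1) + y • f0, ?_, ?_⟩
    · exact Submodule.add_mem _ (Submodule.smul_mem _ _ (Submodule.sub_mem _ hy2 hy1))
        (Submodule.smul_mem _ _ hf0L)
    · calc f0 = (x * (a ℓ - a j.1) + y * 3) • f0 := by rw [hxy, one_smul]
        _ = x • ((a ℓ - a j.1) • f0) + (y * 3) • f0 := by rw [add_smul, mul_smul]
        _ = (3 : ℤ) • (x • (y2 - y1) + y • f0) := by
          rw [e3, smul_add, smul_smul, smul_smul, smul_smul, mul_comm x 3, mul_comm y 3]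
  obtain ⟨k, hk⟩ := hdvd
  have h3' : ((3 : ℤ) : integralClosure ℤ ℂ) ∈ 𝔪' := by exact_mod_cast h3
  have : μ (heckeFam N ⟨ℓ, hℓ⟩) - (a ℓ : integralClosure ℤ ℂ)
      = (μ (heckeFam N ⟨ℓ, hℓ⟩) - (χ (heckeFam N ⟨ℓ, hℓ⟩) : integralClosure ℤ ℂ))
        - ((3 : ℤ) : integralClosure ℤ ℂ) * (k : integralClosure ℤ ℂ) := by
    rw [hχj]
    have : (a ℓ : integralClosure ℤ ℂ) = (a j.1 : integralClosure ℤ ℂ) + ((3 * k : ℤ) : integralClosure ℤ ℂ) := by
      rw [← hk]; push_cast; ring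
    rw [this]; push_cast; ring
  rw [this]
  exact 𝔪'.sub_mem hmem (𝔪'.mul_mem_right _ h3')

end Fermat.Agent.Lib.S49Final
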