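import Mathlib

/-!
# Separability from a full family of embeddings

If a finite field extension `E / F` admits `[E : F]` pairwise distinct `F`-embeddings into some
field `Ω`, then `E / F` is separable.  Also the form used for function fields: `E / K`, `x : E`,
and `[E : K(x)]` distinct `K`-embeddings `E → Ω` which all send `x` to the same element.
-/

namespace Fermat.Agent.Lib.SepOfEmb

open IntermediateField

/-- A finite extension with `[E : F]` distinct `F`-embeddings into a field is separable. -/
theorem isSeparable_of_card_algHom {F E Ω : Type*} [Field F] [Field E] [Algebra F E]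
    [FiniteDimensional F E] [Field Ω] [Algebra F Ω] {I : Type*} (ι : I → (E →ₐ[F] Ω))
    (hι : Function.Injective ι) (hcard : Nat.card I = Module.finrank F E) :
    Algebra.IsSeparable F E := by
  rw [← Field.finSepDegree_eq_finrank_iff]
  refine le_antisymm (Field.finSepDegree_le_finrank F E) ?_
  rw [Field.finSepDegree_eq_of_isAlgClosed F E (AlgebraicClosure Ω), ← hcard]
  let j : Ω →ₐ[F] AlgebraicClosure Ω := IsScalarTower.toAlgHom F Ω (AlgebraicClosure Ω)
  have hj : Function.Injective j := (algebraMap Ω (AlgebraicClosure Ω)).injective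
  have : Finite (E →ₐ[F] AlgebraicClosure Ω) :=
    Fintype.finite (minpoly.AlgHom.fintype F E (AlgebraicClosure Ω))
  refine Nat.card_le_card_of_injective (fun i => j.comp (ι i)) ?_
  intro a b h
  apply hι
  ext y
  have := congrArg (fun f : E →ₐ[F] AlgebraicClosure Ω => f y) h
  exact hj this

/-- **Separability over `K(x)` from embeddings.**  If `E / K(x)` is finite and there are
`[E : K(x)]` pairwise distinct `K`-embeddings of `E` into a field `Ω`, all with the same value at
`x`, then `E / K(x)` is separable. -/
theorem isSeparable_adjoin_simple_of_injective_family {K E : Type*} [Field K] [Field E]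
    [Algebra K E] {x : E} [FiniteDimensional K⟮x⟯ E] {Ω : Type*} [Field Ω] [Algebra K Ω]
    {I : Type*} (ι : I → (E →ₐ[K] Ω)) (hι : Function.Injective ι) (X₀ : Ω)
    (hX₀ : ∀ i, ι i x = X₀) (hcard : Nat.card I = Module.finrank K⟮x⟯ E) :
    Algebra.IsSeparable K⟮x⟯ E := by
  have hpos : 0 < Module.finrank K⟮x⟯ E := Module.finrank_pos
  have hne : Nonempty I := by
    by_contra h
    rw [not_nonempty_iff] at h
    rw [Nat.card_of_isEmpty] at hcard
    omega
  obtain ⟨i0⟩ := hne
  let φ0 : K⟮x⟯ →ₐ[K] Ω := (ι i0).comp K⟮x⟯.val
  let _ : Algebra K⟮x⟯ Ω := φ0.toRingHom.toAlgebra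
  have hagree : ∀ i, (ι i).comp K⟮x⟯.val = φ0 := by
    intro i
    apply IntermediateField.adjoin_algHom_ext
    intro y hy
    rw [Set.mem_singleton_iff] at hy
    subst hy
    show ι i y = ι i0 y
    rw [hX₀, hX₀]
  let ι' : I → (E →ₐ[K⟮x⟯] Ω) := fun i =>
    { (ι i : E →+* Ω) with
      commutes' := fun c => by
        have := congrArg (fun f : K⟮x⟯ →ₐ[K] Ω => f c) (hagree i)
        exact this }
  have hι' : Function.Injective ι' := by
    intro a b h
    apply hι
    ext y
    have := congrArg (fun f : E →ₐ[K⟮x⟯] Ω => f y) h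
    exact this
  exact isSeparable_of_card_algHom ι' hι' hcard

end Fermat.Agent.Lib.SepOfEmb
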