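import Mathlib

/-!
# The Shimura character of `Γ₀(p)`

For a prime `p` the upper-left entry gives a homomorphism `Γ₀(p) → (ℤ/p)ˣ`.  Composing with a
discrete logarithm and reducing modulo `n = (p - 1) / gcd (p - 1, 12)` gives a surjective
homomorphism `chi p : Γ₀(p) → ℤ/n` which

* kills every element of trace `0`, `±1`, `±2` (elliptic and parabolic elements, `±1`), and
* is an eigenvector of the Hecke correspondences with eigenvalue "number of cosets":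
  if `δ i * γ = g i * δ (σ i)` for upper triangular integral matrices `δ i` with upper-left
  entries prime to `p`, a permutation `σ` and `γ, g i ∈ Γ₀(p)`, then
  `∑ i, chi (g i) = card ι • chi γ`.

Everything is elementary (Mathlib only).
-/

set_option autoImplicit false

namespace Fermat.Agent.Lib.ShimuraChar

open CongruenceSubgroup MatrixGroups

set_option linter.unusedSectionVars false

variable (p : ℕ) [Fact p.Prime]

/-- The entries of an element of `Γ₀(p)`. -/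
abbrev ent (γ : ↥(Gamma0 p)) (i j : Fin 2) : ℤ := ((γ : SL(2, ℤ)) : Matrix (Fin 2) (Fin 2) ℤ) i j

theorem cast_ent_one_zero (γ : ↥(Gamma0 p)) : ((ent p γ 1 0 : ℤ) : ZMod p) = 0 :=
  Gamma0_mem.mp γ.2

theorem dvd_ent_one_zero (γ : ↥(Gamma0 p)) : (p : ℤ) ∣ ent p γ 1 0 :=
  (ZMod.intCast_zmod_eq_zero_iff_dvd _ _).mp (cast_ent_one_zero p γ)

theorem det_ent (γ : ↥(Gamma0 p)) :
    ent p γ 0 0 * ent p γ 1 1 - ent p γ 0 1 * ent p γ 1 0 = 1 := by
  have h := (γ : SL(2, ℤ)).det_coe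
  rw [Matrix.det_fin_two] at h
  exact h

/-- For `γ ∈ Γ₀(p)`: `γ₀₀ γ₁₁ ≡ 1 mod p`. -/
theorem cast_mul_cast_eq_one (γ : ↥(Gamma0 p)) :
    ((ent p γ 0 0 : ℤ) : ZMod p) * ((ent p γ 1 1 : ℤ) : ZMod p) = 1 := by
  have h := congrArg (Int.cast : ℤ → ZMod p) (det_ent p γ)
  push_cast at h
  rw [cast_ent_one_zero, mul_zero, sub_zero] at h
  exact h

theorem ent_mul_zero_zero (γ γ' : ↥(Gamma0 p)) :
    ent p (γ * γ') 0 0 = ent p γ 0 0 * ent p γ' 0 0 + ent p γ 0 1 * ent p γ' 1 0 := by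
  simp [ent, Matrix.mul_apply, Fin.sum_univ_two]

theorem ent_mul_one_one (γ γ' : ↥(Gamma0 p)) :
    ent p (γ * γ') 1 1 = ent p γ 1 0 * ent p γ' 0 1 + ent p γ 1 1 * ent p γ' 1 1 := by
  simp [ent, Matrix.mul_apply, Fin.sum_univ_two]

/-- The upper-left entry modulo `p`, as a homomorphism `Γ₀(p) → (ℤ/p)ˣ`. -/
def unitHom : ↥(Gamma0 p) →* (ZMod p)ˣ where
  toFun γ := ⟨((ent p γ 0 0 : ℤ) : ZMod p), ((ent p γ 1 1 : ℤ) : ZMod p),
    cast_mul_cast_eq_one p γ, by rw [mul_comm]; exact cast_mul_cast_eq_one p γ⟩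
  map_one' := by
    ext
    simp [ent]
  map_mul' γ γ' := by
    ext
    simp only [Units.val_mul]
    rw [ent_mul_zero_zero]
    push_cast
    rw [cast_ent_one_zero, mul_zero, add_zero]

@[simp]
theorem unitHom_val (γ : ↥(Gamma0 p)) :
    ((unitHom p γ : (ZMod p)ˣ) : ZMod p) = ((ent p γ 0 0 : ℤ) : ZMod p) := rfl

@[simp]
theorem unitHom_inv_val (γ : ↥(Gamma0 p)) :
    (((unitHom p γ)⁻¹ : (ZMod p)ˣ) : ZMod p) = ((ent p γ 1 1 : ℤ) : ZMod p) := rfl

theorem unitHom_surjective : Function.Surjective (unitHom p) := by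
  intro u
  have hp : p.Prime := Fact.out
  set a : ℕ := (u : ZMod p).val with ha
  have hcop : Nat.Coprime a p := ZMod.val_coe_unit_coprime u
  have hcop' : IsCoprime (a : ℤ) (p : ℤ) := Nat.isCoprime_iff_coprime.mpr hcop
  obtain ⟨x, y, hxy⟩ := hcop'
  -- `x * a + y * p = 1`
  let M : SL(2, ℤ) := ⟨!![(a : ℤ), -y; (p : ℤ), x], by
    rw [Matrix.det_fin_two_of]; linarith⟩
  have hM : M ∈ Gamma0 p := by
    rw [Gamma0_mem]
    show (((p : ℤ) : ℤ) : ZMod p) = 0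
    simp
  refine ⟨⟨M, hM⟩, ?_⟩
  ext
  rw [unitHom_val]
  show (((a : ℤ) : ℤ) : ZMod p) = (u : ZMod p)
  rw [ha]
  simp

theorem card_eq : Nat.card (Additive (ZMod p)ˣ) = p - 1 := by
  rw [Nat.card_congr Additive.toMul, Nat.card_eq_fintype_card]
  exact ZMod.card_units p

/-- `n = (p - 1) / gcd (p - 1, 12)` divides the order of `(ℤ/p)ˣ`. -/
theorem num_dvd_card :
    (p - 1) / Nat.gcd (p - 1) 12 ∣ Nat.card (Additive (ZMod p)ˣ) := by
  rw [card_eq]
  exact Nat.div_dvd_of_dvd (Nat.gcd_dvd_left _ _)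

/-- A discrete logarithm `(ℤ/p)ˣ → ℤ/(p-1)`, reduced modulo `n = (p - 1) / gcd (p - 1, 12)`. -/
noncomputable def dlog : Additive (ZMod p)ˣ →+ ZMod ((p - 1) / Nat.gcd (p - 1) 12) :=
  ((ZMod.castHom (num_dvd_card p) (ZMod ((p - 1) / Nat.gcd (p - 1) 12))).toAddMonoidHom).comp
    (zmodAddCyclicAddEquiv (G := Additive (ZMod p)ˣ) inferInstance).symm.toAddMonoidHom

theorem dlog_surjective : Function.Surjective (dlog p) := by
  intro y
  obtain ⟨x, hx⟩ := ZMod.ringHom_surjective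
    (ZMod.castHom (num_dvd_card p) (ZMod ((p - 1) / Nat.gcd (p - 1) 12))) y
  refine ⟨(zmodAddCyclicAddEquiv (G := Additive (ZMod p)ˣ) inferInstance) x, ?_⟩
  simp [dlog, hx]

/-- The discrete logarithm kills the elements of order dividing `gcd (p - 1, 12)`. -/
theorem dlog_eq_zero_of_pow (u : (ZMod p)ˣ) (h : u ^ Nat.gcd (p - 1) 12 = 1) :
    dlog p (Additive.ofMul u) = 0 := by
  have hp : p.Prime := Fact.out
  set N : ℕ := Nat.card (Additive (ZMod p)ˣ) with hN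
  have hNp : N = p - 1 := card_eq p
  have : NeZero N := ⟨by rw [hNp]; have := hp.two_le; omega⟩
  set e := (zmodAddCyclicAddEquiv (G := Additive (ZMod p)ˣ) inferInstance) with he
  set y : ZMod N := e.symm (Additive.ofMul u) with hy
  have h1 : Nat.gcd (p - 1) 12 • y = 0 := by
    rw [hy, ← map_nsmul, ← ofMul_pow, h, ofMul_one, map_zero]
  have h2 : ((Nat.gcd (p - 1) 12 * y.val : ℕ) : ZMod N) = 0 := by
    rw [Nat.cast_mul, ZMod.natCast_zmod_val, ← nsmul_eq_mul]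
    exact h1
  have h3 : N ∣ Nat.gcd (p - 1) 12 * y.val := (ZMod.natCast_eq_zero_iff _ _).mp h2
  have hg : 0 < Nat.gcd (p - 1) 12 := Nat.gcd_pos_of_pos_right _ (by norm_num)
  have h4 : (p - 1) / Nat.gcd (p - 1) 12 ∣ y.val := by
    have h5 : N = Nat.gcd (p - 1) 12 * ((p - 1) / Nat.gcd (p - 1) 12) := by
      rw [hNp, Nat.mul_div_cancel' (Nat.gcd_dvd_left _ _)]
    exact (Nat.mul_dvd_mul_iff_left hg).mp ((Eq.dvd h5.symm).trans h3)
  have h6 : dlog p (Additive.ofMul u) = ((y.val : ℕ) : ZMod ((p - 1) / Nat.gcd (p - 1) 12)) := by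
    simp only [dlog, AddMonoidHom.coe_comp, Function.comp_apply]
    show (ZMod.castHom (num_dvd_card p) (ZMod ((p - 1) / Nat.gcd (p - 1) 12))) y = _
    rw [ZMod.castHom_apply, ZMod.natCast_val]
  rw [h6]
  exact (ZMod.natCast_eq_zero_iff _ _).mpr h4

/-- **The Shimura character** `Γ₀(p) → ℤ/n`, `n = (p - 1) / gcd (p - 1, 12)`. -/
noncomputable def chi : Additive ↥(Gamma0 p) →+ ZMod ((p - 1) / Nat.gcd (p - 1) 12) :=
  (dlog p).comp (MonoidHom.toAdditive (unitHom p))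

theorem chi_apply (γ : ↥(Gamma0 p)) :
    chi p (Additive.ofMul γ) = dlog p (Additive.ofMul (unitHom p γ)) := rfl

theorem chi_surjective : Function.Surjective (chi p) := by
  intro y
  obtain ⟨x, hx⟩ := dlog_surjective p y
  obtain ⟨γ, hγ⟩ := unitHom_surjective p (Additive.toMul x)
  refine ⟨Additive.ofMul γ, ?_⟩
  rw [chi_apply, hγ]
  exact hx

/-- `chi` kills `γ` as soon as `(γ₀₀ mod p)^m = 1` for some `m ∣ 12`. -/
theorem chi_eq_zero_of_pow_eq_one (γ : ↥(Gamma0 p)) (m : ℕ) (hm : m ∣ 12)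
    (h : unitHom p γ ^ m = 1) : chi p (Additive.ofMul γ) = 0 := by
  rw [chi_apply]
  apply dlog_eq_zero_of_pow
  have h1 : unitHom p γ ^ (p - 1) = 1 := ZMod.units_pow_card_sub_one_eq_one p _
  have h2 : unitHom p γ ^ Nat.gcd m (p - 1) = 1 := pow_gcd_eq_one.mpr ⟨h, h1⟩
  have h3 : Nat.gcd m (p - 1) ∣ Nat.gcd (p - 1) 12 :=
    Nat.dvd_gcd (Nat.gcd_dvd_right _ _) ((Nat.gcd_dvd_left _ _).trans hm)
  obtain ⟨k, hk⟩ := h3
  rw [hk, pow_mul, h2, one_pow]

theorem trace_eq (γ : ↥(Gamma0 p)) :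
    ((γ : SL(2, ℤ)) : Matrix (Fin 2) (Fin 2) ℤ).trace = ent p γ 0 0 + ent p γ 1 1 :=
  Matrix.trace_fin_two _

/-- `chi` kills the elements of trace `0`. -/
theorem chi_eq_zero_of_trace_zero (γ : ↥(Gamma0 p))
    (h : ((γ : SL(2, ℤ)) : Matrix (Fin 2) (Fin 2) ℤ).trace = 0) :
    chi p (Additive.ofMul γ) = 0 := by
  apply chi_eq_zero_of_pow_eq_one p γ 4 (by norm_num)
  ext
  rw [Units.val_pow_eq_pow_val, unitHom_val, Units.val_one]
  have h1 := cast_mul_cast_eq_one p γ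
  rw [trace_eq] at h
  have h2 : ((ent p γ 0 0 : ℤ) : ZMod p) + ((ent p γ 1 1 : ℤ) : ZMod p) = 0 := by
    have := congrArg (Int.cast : ℤ → ZMod p) h
    push_cast at this
    exact this
  linear_combination (-((ent p γ 0 0 : ℤ) : ZMod p) ^ 2 + 1) * h1 +
    ((ent p γ 0 0 : ℤ) : ZMod p) ^ 3 * h2 - ((ent p γ 0 0 : ℤ) : ZMod p) * h2

/-- `chi` kills the elements of trace `±1`. -/
theorem chi_eq_zero_of_trace_sq_eq_one (γ : ↥(Gamma0 p))
    (h : ((γ : SL(2, ℤ)) : Matrix (Fin 2) (Fin 2) ℤ).trace ^ 2 = 1) :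
    chi p (Additive.ofMul γ) = 0 := by
  apply chi_eq_zero_of_pow_eq_one p γ 6 (by norm_num)
  ext
  rw [Units.val_pow_eq_pow_val, unitHom_val, Units.val_one]
  have h1 := cast_mul_cast_eq_one p γ
  rw [trace_eq] at h
  have h2 : (((ent p γ 0 0 : ℤ) : ZMod p) + ((ent p γ 1 1 : ℤ) : ZMod p)) ^ 2 = 1 := by
    have := congrArg (Int.cast : ℤ → ZMod p) h
    push_cast at this
    exact this
  -- `a^2 + 2 + d^2 = 1`, `a d = 1`  ⟹  `a^4 + a^2 + 1 = 0`  ⟹  `a^6 = 1`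
  set a := ((ent p γ 0 0 : ℤ) : ZMod p) with ha
  set d := ((ent p γ 1 1 : ℤ) : ZMod p) with hd
  have h3 : a ^ 4 + a ^ 2 + 1 = 0 := by
    linear_combination a ^ 2 * h2 - (2 * a ^ 2 + a * d + 1) * h1
  linear_combination (a ^ 2 - 1) * h3

/-- `chi` kills the elements of trace `±2`; i.e. `chi` is a parabolic homomorphism. -/
theorem chi_eq_zero_of_trace_sq_eq_four (γ : ↥(Gamma0 p))
    (h : ((γ : SL(2, ℤ)) : Matrix (Fin 2) (Fin 2) ℤ).trace ^ 2 = 4) :
    chi p (Additive.ofMul γ) = 0 := by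
  apply chi_eq_zero_of_pow_eq_one p γ 2 (by norm_num)
  ext
  rw [Units.val_pow_eq_pow_val, unitHom_val, Units.val_one]
  have h1 := cast_mul_cast_eq_one p γ
  rw [trace_eq] at h
  have h2 : (((ent p γ 0 0 : ℤ) : ZMod p) + ((ent p γ 1 1 : ℤ) : ZMod p)) ^ 2 = 4 := by
    have := congrArg (Int.cast : ℤ → ZMod p) h
    push_cast at this
    exact this
  set a := ((ent p γ 0 0 : ℤ) : ZMod p) with ha
  set d := ((ent p γ 1 1 : ℤ) : ZMod p) with hd
  have h3 : (a ^ 2 - 1) ^ 2 = 0 := by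
    linear_combination a ^ 2 * h2 - (2 * a ^ 2 + a * d + 1) * h1
  have h4 : a ^ 2 - 1 = 0 := by
    exact pow_eq_zero_iff (two_ne_zero) |>.mp h3
  linear_combination h4

/-! ### The Hecke eigen-property (telescoping of the upper-left entries) -/

/-- If `a i * γ₀₀ ≡ (g i)₀₀ * a (σ i) mod p` for a permutation `σ` and integers `a i` prime
to `p`, then `∏ i, unitHom (g i) = unitHom γ ^ card ι`. -/
theorem prod_unitHom_eq {ι : Type*} [Fintype ι] (a : ι → ℤ) (ha : ∀ i, ¬ (p : ℤ) ∣ a i)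
    (σ : Equiv.Perm ι) (γ : ↥(Gamma0 p)) (g : ι → ↥(Gamma0 p))
    (h : ∀ i, (p : ℤ) ∣ a i * ent p γ 0 0 - ent p (g i) 0 0 * a (σ i)) :
    ∏ i, unitHom p (g i) = unitHom p γ ^ Fintype.card ι := by
  have ha' : ∀ i, ((a i : ℤ) : ZMod p) ≠ 0 := fun i hi =>
    ha i ((ZMod.intCast_zmod_eq_zero_iff_dvd _ _).mp hi)
  set w : ι → (ZMod p)ˣ := fun i => Units.mk0 ((a i : ℤ) : ZMod p) (ha' i) with hw
  have hrel : ∀ i, w i * unitHom p γ = unitHom p (g i) * w (σ i) := by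
    intro i
    ext
    simp only [Units.val_mul, unitHom_val, hw, Units.val_mk0]
    have h1 := (ZMod.intCast_eq_intCast_iff_dvd_sub (ent p (g i) 0 0 * a (σ i))
      (a i * ent p γ 0 0) p).mpr (h i)
    push_cast at h1
    exact h1.symm
  have hprod : (∏ i, w i) * unitHom p γ ^ Fintype.card ι =
      (∏ i, unitHom p (g i)) * ∏ i, w i := by
    calc (∏ i, w i) * unitHom p γ ^ Fintype.card ι
        = ∏ i, (w i * unitHom p γ) := by
          rw [Finset.prod_mul_distrib, Finset.prod_const, Finset.card_univ]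
      _ = ∏ i, (unitHom p (g i) * w (σ i)) := Finset.prod_congr rfl fun i _ => hrel i
      _ = (∏ i, unitHom p (g i)) * ∏ i, w (σ i) := Finset.prod_mul_distrib
      _ = (∏ i, unitHom p (g i)) * ∏ i, w i := by rw [Equiv.prod_comp σ w]
  have h2 : (∏ i, w i) * unitHom p γ ^ Fintype.card ι = (∏ i, w i) * ∏ i, unitHom p (g i) := by
    rw [hprod, mul_comm]
  exact (mul_left_cancel h2).symm

/-- The Hecke eigen-property of the Shimura character, congruence form. -/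
theorem sum_chi_eq {ι : Type*} [Fintype ι] (a : ι → ℤ) (ha : ∀ i, ¬ (p : ℤ) ∣ a i)
    (σ : Equiv.Perm ι) (γ : ↥(Gamma0 p)) (g : ι → ↥(Gamma0 p))
    (h : ∀ i, (p : ℤ) ∣ a i * ent p γ 0 0 - ent p (g i) 0 0 * a (σ i)) :
    ∑ i, chi p (Additive.ofMul (g i)) = Fintype.card ι • chi p (Additive.ofMul γ) := by
  have h1 := prod_unitHom_eq p a ha σ γ g h
  simp only [chi_apply]
  rw [← map_sum, ← ofMul_prod, h1, ofMul_pow, map_nsmul]

/-- The Hecke eigen-property of the Shimura character, matrix form: if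
`δ i * γ = g i * δ (σ i)` with `δ i` integral upper triangular, `p ∤ (δ i)₀₀`, `σ` a permutation
and `γ, g i ∈ Γ₀(p)`, then `∑ i, chi (g i) = card ι • chi γ`. -/
theorem sum_chi_eq_of_matrix {ι : Type*} [Fintype ι] (δ : ι → Matrix (Fin 2) (Fin 2) ℤ)
    (h10 : ∀ i, δ i 1 0 = 0) (h00 : ∀ i, ¬ (p : ℤ) ∣ δ i 0 0)
    (σ : Equiv.Perm ι) (γ : ↥(Gamma0 p)) (g : ι → ↥(Gamma0 p))
    (h : ∀ i, δ i * ((γ : SL(2, ℤ)) : Matrix (Fin 2) (Fin 2) ℤ) =
      ((g i : SL(2, ℤ)) : Matrix (Fin 2) (Fin 2) ℤ) * δ (σ i)) :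
    ∑ i, chi p (Additive.ofMul (g i)) = Fintype.card ι • chi p (Additive.ofMul γ) := by
  refine sum_chi_eq p (fun i => δ i 0 0) h00 σ γ g fun i => ?_
  have h1 := congrFun (congrFun (h i) 0) 0
  simp only [Matrix.mul_apply, Fin.sum_univ_two, h10, mul_zero, add_zero] at h1
  obtain ⟨c, hc⟩ := dvd_ent_one_zero p γ
  refine ⟨-(δ i 0 1 * c), ?_⟩
  have h2 : ent p γ 1 0 = (p : ℤ) * c := hc
  show δ i 0 0 * ((γ : SL(2, ℤ)) : Matrix (Fin 2) (Fin 2) ℤ) 0 0 -
    ((g i : SL(2, ℤ)) : Matrix (Fin 2) (Fin 2) ℤ) 0 0 * δ (σ i) 0 0 = _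
  have h3 : ((γ : SL(2, ℤ)) : Matrix (Fin 2) (Fin 2) ℤ) 1 0 = (p : ℤ) * c := hc
  rw [h3] at h1
  linear_combination h1

/-- `chi` has exact order `n`: an integer killing all values of `chi` is divisible by `n`. -/
theorem dvd_of_smul_chi_eq_zero (c : ℤ)
    (h : ∀ γ : ↥(Gamma0 p), c • chi p (Additive.ofMul γ) = 0) :
    (((p - 1) / Nat.gcd (p - 1) 12 : ℕ) : ℤ) ∣ c := by
  obtain ⟨x, hx⟩ := chi_surjective p 1
  have h1 := h (Additive.toMul x)
  rw [ofMul_toMul, hx, zsmul_one] at h1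
  exact (ZMod.intCast_zmod_eq_zero_iff_dvd _ _).mp h1

/-- Variant: if `c • chi = 0` as a homomorphism. -/
theorem dvd_of_smul_chi_eq_zero' (c : ℤ) (h : c • chi p = 0) :
    (((p - 1) / Nat.gcd (p - 1) 12 : ℕ) : ℤ) ∣ c :=
  dvd_of_smul_chi_eq_zero p c fun γ => by
    have := congrArg (fun f : Additive ↥(Gamma0 p) →+ ZMod ((p - 1) / Nat.gcd (p - 1) 12) =>
      f (Additive.ofMul γ)) h
    simpa using this

/-- The reduction map `ℤ → ℤ/n` used with `chi`. -/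
theorem intCast_surjective :
    Function.Surjective (Int.castAddHom (ZMod ((p - 1) / Nat.gcd (p - 1) 12))) :=
  ZMod.intCast_surjective

end Fermat.Agent.Lib.ShimuraChar
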