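import Mathlib

/-!
# Primes with trivial decomposition group: approximation by elements of the base

`L / K` a Galois extension of number fields, `Q` a nonzero prime of `𝓞 L` whose stabiliser in
`Gal(L/K)` is trivial. Then `e = f = 1`, hence

* `under_pow_eq` : `Q ^ m ∩ 𝓞 K = (Q ∩ 𝓞 K) ^ m`;
* `exists_sub_mem_pow` : every `x : 𝓞 L` is congruent modulo `Q ^ m` to an element of `𝓞 K`.
-/

set_option autoImplicit false

open scoped NumberField Pointwise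
open Module

namespace Fermat.Agent.Lib.SplitPrimePow

variable (K L : Type*) [Field K] [Field L] [NumberField K] [NumberField L] [Algebra K L]
  [IsGalois K L]

/-- Trivial decomposition group forces `e = f = 1`. -/
theorem ramificationIdx_inertiaDeg_eq_one (Q : Ideal (𝓞 L)) [Q.IsPrime]
    (hsplit : ∀ τ : L ≃ₐ[K] L, τ • Q = Q → τ = 1) :
    Q.ramificationIdx (𝓞 K) = 1 ∧ Q.inertiaDeg (𝓞 K) = 1 := by
  have : Q.LiesOver (Q.under (𝓞 K)) := ⟨rfl⟩
  have hst : MulAction.stabilizer (L ≃ₐ[K] L) Q = ⊥ := by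
    rw [eq_bot_iff]
    intro τ hτ
    exact Subgroup.mem_bot.mpr (hsplit τ (MulAction.mem_stabilizer_iff.mp hτ))
  have h := Ideal.card_stabilizer_eq (G := L ≃ₐ[K] L) (Q.under (𝓞 K)) Q
  rw [hst, Subgroup.card_bot,
    Ideal.ramificationIdxIn_eq_ramificationIdx (Q.under (𝓞 K)) Q (L ≃ₐ[K] L),
    Ideal.inertiaDegIn_eq_inertiaDeg (Q.under (𝓞 K)) Q (L ≃ₐ[K] L)] at h
  exact ⟨Nat.eq_one_of_mul_eq_one_right h.symm, Nat.eq_one_of_mul_eq_one_left h.symm⟩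

/-- `Q ^ m ∩ 𝓞 K = (Q ∩ 𝓞 K) ^ m` for a prime with trivial decomposition group. -/
theorem under_pow_eq (Q : Ideal (𝓞 L)) [Q.IsPrime] (hQ : Q ≠ ⊥)
    (hsplit : ∀ τ : L ≃ₐ[K] L, τ • Q = Q → τ = 1) (m : ℕ) :
    (Q ^ m).under (𝓞 K) = (Q.under (𝓞 K)) ^ m := by
  have hlo : Q.LiesOver (Q.under (𝓞 K)) := ⟨rfl⟩
  have hP0 : Q.under (𝓞 K) ≠ ⊥ := Ideal.under_ne_bot (𝓞 K) hQ
  have he := (ramificationIdx_inertiaDeg_eq_one K L Q hsplit).1
  have he' : (Q.under (𝓞 K)).ramificationIdx' Q = 1 := by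
    rw [Ideal.ramificationIdx'_eq_ramificationIdx (Q.under (𝓞 K)) Q hP0, he]
  have hPirr : Irreducible (Q.under (𝓞 K)) := (Ideal.prime_of_isPrime hP0 inferInstance).irreducible
  have hQirr : Irreducible Q := (Ideal.prime_of_isPrime hQ inferInstance).irreducible
  ext z
  rw [Ideal.under_def, Ideal.mem_comap]
  by_cases hz : z = 0
  · simp [hz]
  have hI : Ideal.span {z} ≠ ⊥ := by simpa [Ideal.span_singleton_eq_bot] using hz
  have key := Ideal.IsDedekindDomain.emultiplicity_map_eq_ramificationIdx'_mul (S := 𝓞 L) hI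
    hPirr hQirr hQ
  rw [he', Nat.cast_one, one_mul, Ideal.map_span, Set.image_singleton] at key
  rw [← Ideal.span_singleton_le_iff_mem, ← Ideal.dvd_iff_le, pow_dvd_iff_le_emultiplicity, key,
    ← pow_dvd_iff_le_emultiplicity, Ideal.dvd_iff_le, Ideal.span_singleton_le_iff_mem]

/-- Residue degree one: every integer of `L` is congruent mod `Q` to an integer of `K`. -/
theorem exists_sub_mem (Q : Ideal (𝓞 L)) [Q.IsPrime] (hQ : Q ≠ ⊥)
    (hsplit : ∀ τ : L ≃ₐ[K] L, τ • Q = Q → τ = 1) (x : 𝓞 L) :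
    ∃ y : 𝓞 K, x - algebraMap (𝓞 K) (𝓞 L) y ∈ Q := by
  have hlo : Q.LiesOver (Q.under (𝓞 K)) := ⟨rfl⟩
  have hP0 : Q.under (𝓞 K) ≠ ⊥ := Ideal.under_ne_bot (𝓞 K) hQ
  have hPmax : (Q.under (𝓞 K)).IsMaximal := Ideal.IsPrime.isMaximal inferInstance hP0
  have hQmax : Q.IsMaximal := Ideal.IsPrime.isMaximal inferInstance hQ
  have hf := (ramificationIdx_inertiaDeg_eq_one K L Q hsplit).2
  rw [Ideal.inertiaDeg_eq_of_isMaximal (Q.under (𝓞 K)) Q] at hf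
  let : Field (𝓞 K ⧸ Q.under (𝓞 K)) := Ideal.Quotient.field _
  have htop := Subalgebra.bot_eq_top_of_finrank_eq_one hf
  have hx : Ideal.Quotient.mk Q x ∈ (⊥ : Subalgebra (𝓞 K ⧸ Q.under (𝓞 K)) (𝓞 L ⧸ Q)) := by
    rw [htop]; exact Algebra.mem_top
  obtain ⟨y', hy'⟩ := Algebra.mem_bot.mp hx
  obtain ⟨y, rfl⟩ := Ideal.Quotient.mk_surjective y'
  refine ⟨y, ?_⟩
  rw [← Ideal.Quotient.eq, ← hy']
  rfl

/-- Every integer of `L` is congruent modulo `Q ^ m` to an integer of `K`, for a prime `Q` with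
trivial decomposition group. -/
theorem exists_sub_mem_pow (Q : Ideal (𝓞 L)) [Q.IsPrime] (hQ : Q ≠ ⊥)
    (hsplit : ∀ τ : L ≃ₐ[K] L, τ • Q = Q → τ = 1) (m : ℕ) (x : 𝓞 L) :
    ∃ y : 𝓞 K, x - algebraMap (𝓞 K) (𝓞 L) y ∈ Q ^ m := by
  induction m with
  | zero => exact ⟨0, by simp⟩
  | succ m ih =>
    obtain ⟨y, hy⟩ := ih
    have hP0 : Q.under (𝓞 K) ≠ ⊥ := Ideal.under_ne_bot (𝓞 K) hQ
    obtain ⟨t, htm, htm'⟩ := SetLike.exists_of_lt (Ideal.pow_succ_lt_pow hP0 m)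
    have h1 : algebraMap (𝓞 K) (𝓞 L) t ∈ Q ^ m := by
      have : t ∈ (Q ^ m).under (𝓞 K) := by rw [under_pow_eq K L Q hQ hsplit]; exact htm
      exact this
    have h2 : algebraMap (𝓞 K) (𝓞 L) t ∉ Q ^ (m + 1) := by
      intro h
      apply htm'
      have : t ∈ (Q ^ (m + 1)).under (𝓞 K) := h
      rwa [under_pow_eq K L Q hQ hsplit] at this
    obtain ⟨d, e, he, hde⟩ := Ideal.exists_mul_add_mem_pow_succ hQ _ _ h1 h2 hy
    obtain ⟨d₀, hd₀⟩ := exists_sub_mem K L Q hQ hsplit d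
    refine ⟨y + t * d₀, ?_⟩
    have : x - algebraMap (𝓞 K) (𝓞 L) (y + t * d₀) =
        algebraMap (𝓞 K) (𝓞 L) t * (d - algebraMap (𝓞 K) (𝓞 L) d₀) + e := by
      rw [map_add, map_mul]; linear_combination -hde
    rw [this]
    exact Ideal.add_mem _ (by rw [pow_succ]; exact Ideal.mul_mem_mul h1 hd₀) he

end Fermat.Agent.Lib.SplitPrimePow
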