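import Mathlib
import Fermat.Prelude.Def_Stickelberger_Basic
import Fermat.Prelude.Def_ClassGroup_GaloisAction
import Fermat.Agent.Lib.StickOmega.Factor
import Fermat.Agent.S14.Plan

/-!
# Stickelberger for the `ω⁻¹`-eigenspace of the class group of `ℚ(ζ_p)`

For every odd prime `p` the `ω^(p-2)`-eigenspace of `Cl(ℚ(ζ_p)) / p` is zero
(`eigen_eq_zero`), in the vocabulary of the Prelude (`JacobiSumStickelberger.clGalAction`,
`Stickelberger.IsOmegaEigenvector`).  Only degree-one primes and Jacobi sums are used: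
the eigen-projector kills the class of every prime with a nontrivial decomposition group, and
for a prime above `q ≡ 1 mod p` the Stickelberger element `∑_{0 < c < p/2} σ_c⁻¹` maps it to a
principal ideal and acts on the eigenspace by the unit `(p² - 1) / 8`.
-/

set_option autoImplicit false
set_option linter.unusedSectionVars false
set_option linter.style.haveILetI false

open scoped NumberField nonZeroDivisors

namespace Fermat.Agent.Lib.StickOmega

open JacobiSumStickelberger Stickelberger

section Projector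

variable (p : ℕ) [Fact p.Prime] {A : Type*} [AddCommGroup A] [Module (ZMod p) A]
  (ρ : (ZMod p)ˣ →* Module.End (ZMod p) A)

/-- The (negative of the) projector onto the `ω⁻¹`-eigenspace. -/
noncomputable def omegaProj : Module.End (ZMod p) A :=
  ∑ d : (ZMod p)ˣ, (d : ZMod p) • ρ d

theorem omegaProj_apply (x : A) : omegaProj p ρ x = ∑ d : (ZMod p)ˣ, (d : ZMod p) • ρ d x := by
  simp [omegaProj, LinearMap.sum_apply]

theorem omegaProj_rho (t : (ZMod p)ˣ) (x : A) :
    omegaProj p ρ (ρ t x) = ((t⁻¹ : (ZMod p)ˣ) : ZMod p) • omegaProj p ρ x := by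
  rw [omegaProj_apply, omegaProj_apply, Finset.smul_sum]
  rw [← Equiv.sum_comp (Equiv.mulRight t)
    (fun d : (ZMod p)ˣ => ((t⁻¹ : (ZMod p)ˣ) : ZMod p) • ((d : ZMod p) • ρ d x))]
  refine Finset.sum_congr rfl fun d _ => ?_
  simp only [Equiv.coe_mulRight, map_mul, Module.End.mul_apply, Units.val_mul]
  rw [smul_smul]
  congr 1
  rw [mul_comm, mul_assoc, ← Units.val_mul, mul_inv_cancel, Units.val_one, mul_one]

theorem omegaProj_eigen (a : A) (ha : IsOmegaEigenvector ρ (p - 2) a) :
    omegaProj p ρ a = -a := by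
  have hp : p.Prime := Fact.out
  rw [omegaProj_apply]
  have h1 : ∀ d : (ZMod p)ˣ, (d : ZMod p) • ρ d a = a := by
    intro d
    rw [ha d, smul_smul, ← pow_succ']
    have : p - 2 + 1 = p - 1 := by have := hp.two_le; omega
    rw [this, ZMod.pow_card_sub_one_eq_one (Units.ne_zero d), one_smul]
  rw [Finset.sum_congr rfl (fun d _ => h1 d), Finset.sum_const, Finset.card_univ, ZMod.card_units,
    ← Nat.cast_smul_eq_nsmul (ZMod p), Nat.cast_sub hp.pos, ZMod.natCast_self, Nat.cast_one,
    zero_sub, neg_smul, one_smul]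

theorem omegaProj_eq_zero_of_fixed (t : (ZMod p)ˣ) (ht : t ≠ 1) (x : A) (hx : ρ t x = x) :
    omegaProj p ρ x = 0 := by
  have h1 := omegaProj_rho p ρ t x
  rw [hx] at h1
  have h2 : ((1 : ZMod p) - ((t⁻¹ : (ZMod p)ˣ) : ZMod p)) • omegaProj p ρ x = 0 := by
    rw [sub_smul, one_smul, ← h1, sub_self]
  rcases smul_eq_zero.mp h2 with h3 | h3
  · exfalso
    apply ht
    have h4 : ((t⁻¹ : (ZMod p)ˣ) : ZMod p) = ((1 : (ZMod p)ˣ) : ZMod p) := by
      rw [Units.val_one]
      exact (sub_eq_zero.mp h3).symm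
    have h5 : t⁻¹ = 1 := Units.ext h4
    exact inv_eq_one.mp h5
  · exact h3

theorem eigenvalueScalar_ne_zero (hp2 : p ≠ 2) : ((eigenvalueScalar p : ℕ) : ZMod p) ≠ 0 := by
  have hp : p.Prime := Fact.out
  have hp3 : 2 < p := lt_of_le_of_ne hp.two_le (Ne.symm hp2)
  have hodd : p % 2 = 1 := by
    rcases hp.eq_two_or_odd with h | h
    · omega
    · exact h
  rw [Ne, ZMod.natCast_eq_zero_iff]
  intro hdvd
  have hset : exponentSet p = Finset.Icc 1 ((p - 1) / 2) := by
    ext c
    rw [mem_exponentSet, Finset.mem_Icc]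
    omega
  have hsum : eigenvalueScalar p * 2 = ((p - 1) / 2 + 1) * ((p - 1) / 2) := by
    rw [eigenvalueScalar, hset]
    have h1 := Finset.sum_range_id_mul_two ((p - 1) / 2 + 1)
    rw [Nat.add_sub_cancel] at h1
    rw [← h1]
    congr 1
    have h2 : Finset.range ((p - 1) / 2 + 1) = insert 0 (Finset.Icc 1 ((p - 1) / 2)) := by
      ext c
      simp only [Finset.mem_range, Finset.mem_insert, Finset.mem_Icc]
      omega
    rw [h2, Finset.sum_insert (by simp)]
    simp
  have h3 : p ∣ ((p - 1) / 2 + 1) * ((p - 1) / 2) := by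
    rw [← hsum]
    exact Dvd.dvd.mul_right hdvd 2
  rcases (Nat.Prime.dvd_mul hp).mp h3 with h4 | h4
  · have := Nat.le_of_dvd (by omega) h4
    omega
  · have := Nat.le_of_dvd (by omega) h4
    omega

theorem omegaProj_eq_zero_of_stick (hp2 : p ≠ 2) (x : A) (hx : stickelbergerEnd ρ x = 0) :
    omegaProj p ρ x = 0 := by
  have hp : p.Prime := Fact.out
  have h1 : omegaProj p ρ (stickelbergerEnd ρ x) = 0 := by rw [hx, map_zero]
  rw [stickelbergerEnd, LinearMap.sum_apply, map_sum] at h1
  have h2 : ∀ c ∈ exponentSet p, omegaProj p ρ (ρ (expUnit p c)⁻¹ x) =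
      ((c : ℕ) : ZMod p) • omegaProj p ρ x := by
    intro c hc
    rw [omegaProj_rho, inv_inv]
    congr 1
    have hc' := mem_exponentSet.mp hc
    have hcop : Nat.Coprime c p :=
      Nat.Coprime.symm ((Nat.Prime.coprime_iff_not_dvd hp).mpr
        (Nat.not_dvd_of_pos_of_lt hc'.1 (by omega)))
    rw [expUnit, dif_pos hcop, ZMod.coe_unitOfCoprime]
  rw [Finset.sum_congr rfl h2, ← Finset.sum_smul, ← Nat.cast_sum] at h1
  rcases smul_eq_zero.mp h1 with h3 | h3
  · exact absurd h3 (eigenvalueScalar_ne_zero p hp2)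
  · exact h3

end Projector

/-- The Jacobi sum factorisation at degree-one primes, in the shape of the S14 plan. -/
theorem jacobiFactorStmt (p : ℕ) [Fact p.Prime] : Fermat.Agent.S14.Plan.JacobiFactorStmt p := by
  intro hp2 K _ _ _ Q _ hQ q hq hqQ hq1
  exact exists_span_eq_prod hp2 Q hQ q hq hqQ hq1

end Fermat.Agent.Lib.StickOmega
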