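/-
Stickelberger on the `ω⁻¹`-eigenspace (helper2; S14 add-on piece C3, CFT-free).

For an odd prime `p` and `K = ℚ(ζ_p)`, the `ω^(p-2) = ω⁻¹`-eigenspace of `Cl(K)/p` (the
Prelude's `ClGalModule p (𝓞 K)` with the Prelude action `clGalAction p K`) is trivial:

  `eq_zero_of_isOmegaEigenvector (p) [Fact p.Prime] (hp2 : p ≠ 2) (K) … (a : ClGalModule p (𝓞 K))
     (ha : Stickelberger.IsOmegaEigenvector (clGalAction p K) (p - 2) a) : a = 0`

Proof.  `L := ∑_d d • ρ(d)` satisfies `L ∘ ρ(τ) = τ⁻¹ L` and `L a = -a` on the eigenspace, and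
`Cl(K)/p` is generated by the classes of the primes `P`.  If `P ∣ p` it is principal.  If
`P ∣ q` with `q ≢ 1 (mod p)`, `σ_q` fixes `P`, so `(1 - q⁻¹) L[P] = 0`.  If `q ≡ 1 (mod p)`,
`P` has degree one; for a character `χ` of `𝔽_q` of order `p` with `χ(x) ≡ x^((q-1)/p) mod P`,
the Jacobi sum `J = J(χ, χ)` satisfies `J · σ₋₁(J) = q` and `σ_d(J) ∈ P` for `d < p/2`
(`∑_x xⁿ(1-x)ⁿ = 0` in `𝔽_q` when `2n < q - 1`), hence `(J) = ∏_{0<c<p/2} σ_c⁻¹(P)` by a norm
count: the Prelude's Stickelberger element kills `[P]`, and applying `L` gives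
`((p² - 1)/8) • L[P] = 0`.
-/
import Mathlib
import Fermat.Prelude.Def_ClassGroup_GaloisAction
import Fermat.Prelude.Def_Stickelberger_Basic

set_option autoImplicit false

open scoped NumberField nonZeroDivisors Pointwise
open JacobiSumStickelberger

set_option linter.overlappingInstances false
set_option linter.unusedSectionVars false

namespace Fermat.Agent.Lib.StickelOmega

/-! ## Part A: the `ω⁻¹`-projector on an abstract `(ℤ/p)ˣ`-module -/

section Abstract

variable {p : ℕ} [Fact p.Prime] {A : Type*} [AddCommGroup A] [Module (ZMod p) A]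

/-- The (unnormalised) projector `∑_d d • ρ(d)` onto the `ω⁻¹`-eigenspace. -/
noncomputable def omegaProj (ρ : (ZMod p)ˣ →* Module.End (ZMod p) A) : Module.End (ZMod p) A :=
  ∑ d : (ZMod p)ˣ, (d : ZMod p) • ρ d

theorem omegaProj_apply (ρ : (ZMod p)ˣ →* Module.End (ZMod p) A) (a : A) :
    omegaProj ρ a = ∑ d : (ZMod p)ˣ, (d : ZMod p) • ρ d a := by
  simp [omegaProj, LinearMap.sum_apply]

theorem omegaProj_comp (ρ : (ZMod p)ˣ →* Module.End (ZMod p) A) (τ : (ZMod p)ˣ) (a : A) :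
    omegaProj ρ (ρ τ a) = ((τ⁻¹ : (ZMod p)ˣ) : ZMod p) • omegaProj ρ a := by
  rw [omegaProj_apply, omegaProj_apply, Finset.smul_sum]
  refine Fintype.sum_equiv (Equiv.mulRight τ) _ _ (fun d => ?_)
  simp only [Equiv.coe_mulRight, map_mul, Module.End.mul_apply, smul_smul, Units.val_mul]
  congr 1
  rw [mul_comm, mul_assoc, ← Units.val_mul, mul_inv_cancel, Units.val_one, mul_one]

theorem omegaProj_eigen (ρ : (ZMod p)ˣ →* Module.End (ZMod p) A) (a : A)
    (ha : Stickelberger.IsOmegaEigenvector ρ (p - 2) a) : omegaProj ρ a = -a := by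
  have h2 : 2 ≤ p := (Fact.out : p.Prime).two_le
  rw [omegaProj_apply]
  have hterm : ∀ d : (ZMod p)ˣ, (d : ZMod p) • ρ d a = a := by
    intro d
    rw [ha d, smul_smul, ← pow_succ', show p - 2 + 1 = p - 1 by omega,
      ZMod.pow_card_sub_one_eq_one d.ne_zero, one_smul]
  rw [Finset.sum_congr rfl (fun d _ => hterm d), Finset.sum_const, Finset.card_univ,
    ZMod.card_units p]
  have : ((p - 1 : ℕ) : ZMod p) = -1 := by
    rw [Nat.cast_sub (by omega), ZMod.natCast_self, Nat.cast_one, zero_sub]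
  rw [← Nat.cast_smul_eq_nsmul (ZMod p), this, neg_one_smul]

theorem eq_zero_of_omegaProj_eq_zero (ρ : (ZMod p)ˣ →* Module.End (ZMod p) A)
    (h : ∀ a : A, omegaProj ρ a = 0) (a : A)
    (ha : Stickelberger.IsOmegaEigenvector ρ (p - 2) a) : a = 0 := by
  have := omegaProj_eigen ρ a ha
  rw [h a] at this
  exact neg_eq_zero.mp this.symm

end Abstract

/-! ## Part B: the class group mod `p` is generated by the classes of prime ideals -/

section Generation

variable (p : ℕ) [NeZero p] {R : Type*} [CommRing R] [IsDomain R] [IsDedekindDomain R]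

/-- The class in `Cl(R)/p` of a nonzero ideal. -/
noncomputable def clOf (I : (Ideal R)⁰) : ClGalModule p R :=
  clProj p R (Additive.ofMul (ClassGroup.mk0 I))

theorem clOf_mul (I J : (Ideal R)⁰) : clOf p (I * J) = clOf p I + clOf p J := by
  simp [clOf, map_mul]

theorem clOf_one : clOf p (1 : (Ideal R)⁰) = 0 := by
  simp [clOf]

theorem clOf_eq_zero_of_isPrincipal (I : (Ideal R)⁰) (h : (I : Ideal R).IsPrincipal) :
    clOf p I = 0 := by
  have : ClassGroup.mk0 I = 1 := (ClassGroup.mk0_eq_one_iff I.2).2 h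
  simp [clOf, this]

theorem clOf_surjective (a : ClGalModule p R) : ∃ I : (Ideal R)⁰, clOf p I = a := by
  obtain ⟨C, rfl⟩ := clProj_surjective p R a
  obtain ⟨I, hI⟩ := ClassGroup.mk0_surjective (Additive.toMul C)
  exact ⟨I, by simp [clOf, hI]⟩

theorem clOf_prod {ι : Type*} (s : Finset ι) (f : ι → (Ideal R)⁰) :
    clOf p (∏ i ∈ s, f i) = ∑ i ∈ s, clOf p (f i) := by
  classical
  induction s using Finset.induction_on with
  | empty => simp [clOf_one]
  | insert a s ha ih => rw [Finset.prod_insert ha, Finset.sum_insert ha, clOf_mul, ih]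

/-- An additive map out of `Cl(R)/p` that kills the classes of all nonzero primes is zero. -/
theorem eq_zero_of_forall_prime {B : Type*} [AddCommGroup B] (f : ClGalModule p R →+ B)
    (h : ∀ P : (Ideal R)⁰, (P : Ideal R).IsPrime → f (clOf p P) = 0) (a : ClGalModule p R) :
    f a = 0 := by
  obtain ⟨I, rfl⟩ := clOf_surjective p a
  obtain ⟨I, hI⟩ := I
  induction I using UniqueFactorizationMonoid.induction_on_prime with
  | h₁ => exact absurd hI (by simp)
  | h₂ x hx =>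
    have hx1 : x = 1 := by simpa using hx
    subst hx1
    have : (⟨1, hI⟩ : (Ideal R)⁰) = 1 := rfl
    rw [this, clOf_one, map_zero]
  | h₃ J P hJ hP ih =>
    have hP0 : P ≠ 0 := hP.ne_zero
    have hPm : P ∈ (Ideal R)⁰ := mem_nonZeroDivisors_of_ne_zero hP0
    have hJm : J ∈ (Ideal R)⁰ := mem_nonZeroDivisors_of_ne_zero hJ
    have : (⟨P * J, hI⟩ : (Ideal R)⁰) = ⟨P, hPm⟩ * ⟨J, hJm⟩ := rfl
    rw [this, clOf_mul, map_add, ih hJm, add_zero]
    exact h ⟨P, hPm⟩ ((Ideal.prime_iff_isPrime hP0).1 hP)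

end Generation

/-! ## Part C: the Galois action on `𝓞 K`, `K = ℚ(ζ_p)` -/

section Cyclo

variable (p : ℕ) [Fact p.Prime] (K : Type*) [Field K] [NumberField K]
  [IsCyclotomicExtension {p} ℚ K]

theorem clRingAction_apply_eq_smul (d : (ZMod p)ˣ) (x : 𝓞 K) :
    clRingAction p K d x = ((IsCyclotomicExtension.Rat.galEquivZMod p K).symm d) • x := by
  apply FaithfulSMul.algebraMap_injective (𝓞 K) K
  show algebraMap (𝓞 K) K (galRestrict ℤ ℚ K (𝓞 K) ((cycloGalEquiv p K).symm d) x) = _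
  rw [algebraMap_galRestrict_apply]
  rfl

theorem clRingAction_pow_eq (d : (ZMod p)ˣ) {x : 𝓞 K} (hx : x ^ p = 1) :
    clRingAction p K d x = x ^ (d : ZMod p).val := by
  rw [clRingAction_apply_eq_smul,
    IsCyclotomicExtension.Rat.galEquivZMod_smul_of_pow_eq p K _ hx, MulEquiv.apply_symm_apply]

theorem map_clRingAction_eq_smul (d : (ZMod p)ˣ) (I : Ideal (𝓞 K)) :
    I.map (clRingAction p K d : 𝓞 K →+* 𝓞 K) =
      ((IsCyclotomicExtension.Rat.galEquivZMod p K).symm d) • I := by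
  rw [Ideal.pointwise_smul_def]
  congr 1
  ext x
  exact congrArg _ (clRingAction_apply_eq_smul p K d x)

theorem clRingAction_inv_apply (d : (ZMod p)ˣ) (x : 𝓞 K) :
    clRingAction p K d⁻¹ (clRingAction p K d x) = x := by
  have h : clRingAction p K d⁻¹ * clRingAction p K d = 1 := by
    rw [← map_mul, inv_mul_cancel, map_one]
  exact congrArg (fun e : 𝓞 K ≃+* 𝓞 K => e x) h

theorem clRingAction_apply_inv (d : (ZMod p)ˣ) (x : 𝓞 K) :
    clRingAction p K d (clRingAction p K d⁻¹ x) = x := by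
  have := clRingAction_inv_apply p K d⁻¹ x
  rwa [inv_inv] at this

theorem mem_map_clRingAction_inv (d : (ZMod p)ˣ) (I : Ideal (𝓞 K)) (x : 𝓞 K) :
    x ∈ I.map (clRingAction p K d⁻¹ : 𝓞 K →+* 𝓞 K) ↔ clRingAction p K d x ∈ I := by
  constructor
  · intro hx
    rw [Ideal.map_comap_of_equiv, Ideal.mem_comap] at hx
    have h2 : (clRingAction p K d⁻¹).symm x = clRingAction p K d x := by
      apply (clRingAction p K d⁻¹).injective
      rw [RingEquiv.apply_symm_apply, clRingAction_inv_apply]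
    rw [← h2]
    exact hx
  · intro hx
    have := Ideal.mem_map_of_mem (clRingAction p K d⁻¹ : 𝓞 K →+* 𝓞 K) hx
    rwa [RingEquiv.coe_toRingHom, clRingAction_inv_apply] at this

/-- The action of `ρ(d)` on the class of an ideal. -/
theorem clGalAction_clOf (d : (ZMod p)ˣ) (P : (Ideal (𝓞 K))⁰) :
    clGalAction p K d (clOf p P) = clOf p (Ideal.mapNonZero (clRingAction p K d) P) :=
  clGalAction_clProj_mk0 p K d P

/-- Decomposition groups: `σ_d` fixes a prime `P` over `q ≠ p` iff `d` is a power of `q`. -/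
theorem map_clRingAction_eq_self_iff (q : ℕ) [Fact q.Prime] (hqp : q.Coprime p)
    (P : Ideal (𝓞 K)) [P.IsMaximal] [P.LiesOver (Ideal.span {(q : ℤ)})] (d : (ZMod p)ˣ) :
    P.map (clRingAction p K d : 𝓞 K →+* 𝓞 K) = P ↔
      d ∈ Subgroup.zpowers (ZMod.unitOfCoprime q hqp) := by
  rw [map_clRingAction_eq_smul, ← IsCyclotomicExtension.Rat.galEquivZMod_stabilizer p K q P hqp,
    MulEquiv.mapSubgroup_apply, Subgroup.mem_map]
  constructor
  · intro h
    exact ⟨_, MulAction.mem_stabilizer_iff.2 h, MulEquiv.apply_symm_apply _ _⟩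
  · rintro ⟨σ, hσ, rfl⟩
    have h1 : (IsCyclotomicExtension.Rat.galEquivZMod p K).symm
        ((IsCyclotomicExtension.Rat.galEquivZMod p K) σ) = σ := MulEquiv.symm_apply_apply _ _
    have h2 := MulAction.mem_stabilizer_iff.1 hσ
    rw [← h1] at h2
    exact h2

theorem exists_prime_liesOver (P : Ideal (𝓞 K)) [P.IsPrime] (hP : P ≠ ⊥) :
    ∃ q : ℕ, q.Prime ∧ P.LiesOver (Ideal.span {(q : ℤ)}) := by
  have h1 : P.under ℤ ≠ ⊥ := Ideal.under_ne_bot ℤ hP
  have h2 : (P.under ℤ).IsPrime := inferInstance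
  obtain ⟨n, hn⟩ : ∃ n : ℤ, P.under ℤ = Ideal.span {n} :=
    ⟨_, (Ideal.span_singleton_generator (P.under ℤ)).symm⟩
  have hn0 : n ≠ 0 := by
    rintro rfl
    exact h1 (by rw [hn]; simp)
  have hnp : Prime n := by
    rw [hn] at h2
    exact (Ideal.span_singleton_prime hn0).1 h2
  refine ⟨n.natAbs, Int.prime_iff_natAbs_prime.1 hnp, ⟨?_⟩⟩
  rw [Int.span_natAbs, hn]

end Cyclo

/-! ## Part D: auxiliary computations -/

section Aux

/-- `∑_x xⁿ(1-x)ⁿ = 0` in `𝔽_q` when `2n < q - 1` (a polynomial of degree `< q - 1`). -/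
theorem sum_pow_mul_one_sub_pow (q : ℕ) [Fact q.Prime] (n : ℕ) (h : 2 * n < q - 1) :
    ∑ x : ZMod q, x ^ n * (1 - x) ^ n = 0 := by
  have hexp : ∀ x : ZMod q, x ^ n * (1 - x) ^ n =
      ∑ m ∈ Finset.range (n + 1), ((-1) ^ m * (n.choose m : ZMod q)) * x ^ (n + m) := by
    intro x
    have h1 : (1 - x) ^ n =
        ∑ m ∈ Finset.range (n + 1), (-x) ^ m * 1 ^ (n - m) * (n.choose m : ZMod q) := by
      rw [← add_pow]; ring
    rw [h1, Finset.mul_sum]
    refine Finset.sum_congr rfl (fun m _ => ?_)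
    rw [one_pow, mul_one, neg_pow, pow_add]; ring
  simp_rw [hexp]
  rw [Finset.sum_comm]
  refine Finset.sum_eq_zero (fun m hm => ?_)
  rw [← Finset.mul_sum]
  have hm' : m ≤ n := Nat.lt_succ_iff.mp (Finset.mem_range.mp hm)
  have h2 := FiniteField.sum_pow_lt_card_sub_one (ZMod q) (n + m) (by rw [ZMod.card]; omega)
  rw [h2, mul_zero]

theorem exponentSet_eq_Icc (p : ℕ) (hodd : p % 2 = 1) :
    Stickelberger.exponentSet p = Finset.Icc 1 ((p - 1) / 2) := by
  ext c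
  simp only [Stickelberger.mem_exponentSet, Finset.mem_Icc]
  omega

theorem card_exponentSet (p : ℕ) (hodd : p % 2 = 1) :
    (Stickelberger.exponentSet p).card * 2 = p - 1 := by
  rw [exponentSet_eq_Icc p hodd, Nat.card_Icc]
  omega

theorem sum_Icc_id_mul_two (m : ℕ) : (∑ c ∈ Finset.Icc 1 m, c) * 2 = m * (m + 1) := by
  induction m with
  | zero => simp
  | succ k ih =>
    rw [Finset.sum_Icc_succ_top (by omega), add_mul, ih]
    ring

theorem eigenvalueScalar_ne_zero (p : ℕ) [Fact p.Prime] (hp2 : p ≠ 2) :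
    ((Stickelberger.eigenvalueScalar p : ℕ) : ZMod p) ≠ 0 := by
  have hpr : p.Prime := Fact.out
  have hodd : p % 2 = 1 := hpr.eq_two_or_odd.resolve_left hp2
  have h3 : 3 ≤ p := by
    have := hpr.two_le
    omega
  rw [Ne, ZMod.natCast_eq_zero_iff]
  intro hdvd
  have h1 : p ∣ (Stickelberger.eigenvalueScalar p) * 2 := Dvd.dvd.mul_right hdvd 2
  rw [Stickelberger.eigenvalueScalar, exponentSet_eq_Icc p hodd, sum_Icc_id_mul_two] at h1
  rcases (Nat.Prime.dvd_mul hpr).1 h1 with h | h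
  · have := Nat.le_of_dvd (by omega) h
    omega
  · have := Nat.le_of_dvd (by omega) h
    omega

end Aux

section Norm

variable {K : Type*} [Field K] [NumberField K]

theorem absNorm_map_ringEquiv (e : 𝓞 K ≃+* 𝓞 K) (I : Ideal (𝓞 K)) :
    Ideal.absNorm (I.map (e : 𝓞 K →+* 𝓞 K)) = Ideal.absNorm I := by
  rw [Ideal.absNorm_apply, Ideal.absNorm_apply, Submodule.cardQuot_apply,
    Submodule.cardQuot_apply]
  exact Nat.card_congr (Ideal.quotientEquiv I (I.map (e : 𝓞 K →+* 𝓞 K)) e rfl).symm.toEquiv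

theorem absNorm_span_natCast (q : ℕ) :
    Ideal.absNorm (Ideal.span {(q : 𝓞 K)}) = q ^ Module.finrank ℚ K := by
  rw [Ideal.absNorm_span_singleton]
  have h1 : (q : 𝓞 K) = algebraMap ℤ (𝓞 K) (q : ℤ) := by simp
  rw [h1, Algebra.norm_algebraMap_of_basis (NumberField.RingOfIntegers.basis K),
    ← Module.finrank_eq_card_basis (NumberField.RingOfIntegers.basis K),
    NumberField.RingOfIntegers.rank, Int.natAbs_pow, Int.natAbs_natCast]

/-- A ring hom `𝓞 K → 𝔽_q` with kernel `P`, for a prime `P` of norm `q`. -/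
theorem exists_ringHom_of_absNorm (q : ℕ) [Fact q.Prime] (P : Ideal (𝓞 K))
    (hN : Ideal.absNorm P = q) : ∃ π : 𝓞 K →+* ZMod q, ∀ x, π x = 0 ↔ x ∈ P := by
  have hq : q.Prime := Fact.out
  have hcard : Nat.card (𝓞 K ⧸ P) = q := by
    rw [← hN, Ideal.absNorm_apply, Submodule.cardQuot_apply]
  have : Finite (𝓞 K ⧸ P) := Nat.finite_of_card_ne_zero (by rw [hcard]; exact hq.ne_zero)
  let _ : Fintype (𝓞 K ⧸ P) := Fintype.ofFinite _
  have hcard' : Fintype.card (𝓞 K ⧸ P) = q := by rw [← Nat.card_eq_fintype_card, hcard]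
  let e : ZMod q ≃+* 𝓞 K ⧸ P := ZMod.ringEquivOfPrime (𝓞 K ⧸ P) hq hcard'
  refine ⟨(e.symm : 𝓞 K ⧸ P →+* ZMod q).comp (Ideal.Quotient.mk P), fun x => ?_⟩
  rw [RingHom.comp_apply, RingEquiv.coe_toRingHom, map_eq_zero_iff _ e.symm.injective,
    Ideal.Quotient.eq_zero_iff_mem]

end Norm

/-! ## Part E: degree-one primes and the Jacobi sum -/

section DegreeOne

variable (p : ℕ) [Fact p.Prime] (K : Type*) [Field K] [NumberField K]
  [IsCyclotomicExtension {p} ℚ K]

/-- `p ∉ P` for a prime `P` over `q ≠ p`. -/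
theorem natCast_not_mem (q : ℕ) [Fact q.Prime] (hqp : q ≠ p) (P : Ideal (𝓞 K)) [P.IsPrime]
    [hP : P.LiesOver (Ideal.span {(q : ℤ)})] : (p : 𝓞 K) ∉ P := by
  intro h
  have h1 : (p : ℤ) ∈ P.under ℤ := by
    rw [Ideal.under_def, Ideal.mem_comap]; simpa using h
  rw [← hP.over, Ideal.mem_span_singleton] at h1
  have h2 : q ∣ p := Int.natCast_dvd_natCast.mp h1
  exact hqp ((Nat.prime_dvd_prime_iff_eq Fact.out Fact.out).1 h2)

theorem exists_character (hp2 : p ≠ 2) (q : ℕ) [Fact q.Prime] (hqp : q ≠ p) (hdvd : p ∣ q - 1)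
    (P : Ideal (𝓞 K)) [P.IsPrime] [P.LiesOver (Ideal.span {(q : ℤ)})]
    (π : 𝓞 K →+* ZMod q) (hπ : ∀ x, π x = 0 ↔ x ∈ P) :
    ∃ χ : MulChar (ZMod q) (𝓞 K), (∀ u : (ZMod q)ˣ, χ u ^ p = 1) ∧
      (∀ u : (ZMod q)ˣ, π (χ u) = (u : ZMod q) ^ ((q - 1) / p)) ∧
      ∃ u : (ZMod q)ˣ, χ u ^ 2 ≠ 1 := by
  classical
  have hp : p.Prime := Fact.out
  have hq : q.Prime := Fact.out
  set N := (q - 1) / p with hN
  have hNp : p * N = q - 1 := Nat.mul_div_cancel' hdvd
  have hq1 : 1 < q := hq.one_lt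
  have hNpos : 0 < N := by
    rcases Nat.eq_zero_or_pos N with h | h
    · rw [h, mul_zero] at hNp; omega
    · exact h
  -- the primitive root
  have hζ := IsCyclotomicExtension.zeta_spec p ℚ K
  set ζ : 𝓞 K := hζ.toInteger with hζdef
  have hζp : IsPrimitiveRoot ζ p := hζ.toInteger_isPrimitiveRoot
  have hζ1 : π ζ ≠ 1 := by
    intro h
    have h1 : ζ - 1 ∈ P := (hπ _).1 (by rw [map_sub, h, map_one, sub_self])
    obtain ⟨c, hc⟩ := hζ.toInteger_sub_one_dvd_prime'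
    exact natCast_not_mem p K q hqp P (by rw [hc]; exact P.mul_mem_right c h1)
  have hπζ : IsPrimitiveRoot (π ζ) p := by
    have h1 : (π ζ) ^ p = 1 := by rw [← map_pow, hζp.pow_eq_one, map_one]
    have h2 : orderOf (π ζ) = p := orderOf_eq_prime h1 hζ1
    exact h2 ▸ IsPrimitiveRoot.orderOf (π ζ)
  -- a generator of the unit group of `𝔽_q`
  obtain ⟨g, hg⟩ := IsCyclic.exists_generator (α := (ZMod q)ˣ)
  have hgord : orderOf g = q - 1 := by
    rw [orderOf_eq_card_of_forall_mem_zpowers hg, Nat.card_eq_fintype_card, ZMod.card_units]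
  have hgN : ((g ^ N : (ZMod q)ˣ) : ZMod q) ^ p = 1 := by
    rw [← Units.val_pow_eq_pow_val, ← pow_mul, mul_comm, hNp, ← hgord, pow_orderOf_eq_one,
      Units.val_one]
  obtain ⟨j, -, hj⟩ := hπζ.eq_pow_of_pow_eq_one hgN
  set ξ : 𝓞 K := ζ ^ j with hξdef
  have hξp : ξ ^ p = 1 := by
    rw [hξdef, ← pow_mul, mul_comm, pow_mul, hζp.pow_eq_one, one_pow]
  have hπξ : π ξ = ((g ^ N : (ZMod q)ˣ) : ZMod q) := by rw [hξdef, map_pow, hj]
  let ξu : (𝓞 K)ˣ := Units.ofPowEqOne ξ p hξp hp.ne_zero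
  have hξu : (ξu : 𝓞 K) = ξ := rfl
  have hξup : ξu ^ p = 1 := Units.ext (by rw [Units.val_pow_eq_pow_val, hξu, hξp, Units.val_one])
  have hmem : ξu ∈ rootsOfUnity (Fintype.card (ZMod q)ˣ) (𝓞 K) := by
    rw [mem_rootsOfUnity, ZMod.card_units, ← hNp, pow_mul, hξup, one_pow]
  let χ : MulChar (ZMod q) (𝓞 K) := MulChar.ofRootOfUnity hmem hg
  have hχg : χ g = ξ := by rw [← hξu]; exact MulChar.ofRootOfUnity_spec hmem hg
  have hval : ∀ u : (ZMod q)ˣ, ∃ k : ℤ, u = g ^ k ∧ χ u = ((ξu ^ k : (𝓞 K)ˣ) : 𝓞 K) := by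
    intro u
    obtain ⟨k, hk⟩ := Subgroup.mem_zpowers_iff.1 (hg u)
    refine ⟨k, hk.symm, ?_⟩
    have h1 : χ.toUnitHom g = ξu := Units.ext (by rw [MulChar.coe_toUnitHom, hχg, hξu])
    rw [← hk, ← MulChar.coe_toUnitHom, map_zpow, h1]
  refine ⟨χ, ?_, ?_, ?_⟩
  · intro u
    obtain ⟨k, -, hk⟩ := hval u
    rw [hk, ← Units.val_pow_eq_pow_val, ← zpow_natCast, ← zpow_mul, mul_comm, zpow_mul,
      zpow_natCast, hξup, one_zpow, Units.val_one]
  · intro u
    obtain ⟨k, hu, hk⟩ := hval u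
    have h2 : Units.map (π : 𝓞 K →* ZMod q) ξu = g ^ N :=
      Units.ext (by rw [Units.coe_map]; exact hπξ)
    have h3 : π ((ξu ^ k : (𝓞 K)ˣ) : 𝓞 K) =
        ((Units.map (π : 𝓞 K →* ZMod q) ξu ^ k : (ZMod q)ˣ) : ZMod q) := by
      rw [← map_zpow, Units.coe_map]; rfl
    rw [hk, h3, h2, hu, ← Units.val_pow_eq_pow_val]
    congr 1
    rw [← zpow_natCast, ← zpow_natCast, ← zpow_mul, ← zpow_mul, mul_comm]
  · refine ⟨g, ?_⟩
    rw [hχg]
    intro h
    have h1 : π (ξ ^ 2) = 1 := by rw [h, map_one]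
    rw [map_pow, hπξ, ← Units.val_pow_eq_pow_val, ← pow_mul, Units.val_eq_one] at h1
    have h2 := orderOf_dvd_of_pow_eq_one h1
    rw [hgord] at h2
    have h3 := Nat.le_of_dvd (by omega) h2
    have hp3 : 3 ≤ p := by have := hp.two_le; omega
    nlinarith

/-- Reduction modulo `P` of the conjugates of the Jacobi sum. -/
theorem pi_clRingAction_jacobiSum (q : ℕ) [Fact q.Prime] (hdvd : p ∣ q - 1)
    (π : 𝓞 K →+* ZMod q) (χ : MulChar (ZMod q) (𝓞 K))
    (h1 : ∀ u : (ZMod q)ˣ, χ u ^ p = 1)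
    (h2 : ∀ u : (ZMod q)ˣ, π (χ u) = (u : ZMod q) ^ ((q - 1) / p)) (d : (ZMod p)ˣ) :
    π (clRingAction p K d (jacobiSum χ χ)) =
      ∑ y : ZMod q, y ^ ((q - 1) / p * (d : ZMod p).val) *
        (1 - y) ^ ((q - 1) / p * (d : ZMod p).val) := by
  have hq : q.Prime := Fact.out
  have hp : p.Prime := Fact.out
  have hNp : p * ((q - 1) / p) = q - 1 := Nat.mul_div_cancel' hdvd
  have hq1 : 1 < q := hq.one_lt
  have hNpos : 0 < (q - 1) / p := by
    rcases Nat.eq_zero_or_pos ((q - 1) / p) with h | h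
    · rw [h, mul_zero] at hNp; omega
    · exact h
  have hdpos : 0 < (d : ZMod p).val := by
    rcases Nat.eq_zero_or_pos (d : ZMod p).val with h | h
    · exact absurd ((ZMod.val_eq_zero _).1 h) d.ne_zero
    · exact h
  have hn0 : (q - 1) / p * (d : ZMod p).val ≠ 0 := (Nat.mul_pos hNpos hdpos).ne'
  have key : ∀ y : ZMod q, π (clRingAction p K d (χ y)) =
      y ^ ((q - 1) / p * (d : ZMod p).val) := by
    intro y
    by_cases hy : y = 0
    · subst hy
      rw [MulChar.map_zero, map_zero, map_zero, zero_pow hn0]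
    · have hyu : y = ((Units.mk0 y hy : (ZMod q)ˣ) : ZMod q) := rfl
      rw [hyu, clRingAction_pow_eq p K d (h1 _), map_pow, h2, ← pow_mul]
  rw [jacobiSum, map_sum, map_sum]
  refine Finset.sum_congr rfl (fun y _ => ?_)
  rw [map_mul, map_mul, key, key]

/-- The Jacobi sum lies in the conjugates `σ_d⁻¹ P` with `d < p/2`. -/
theorem jacobiSum_mem (q : ℕ) [Fact q.Prime] (hdvd : p ∣ q - 1) (P : Ideal (𝓞 K))
    (π : 𝓞 K →+* ZMod q) (hπ : ∀ x, π x = 0 ↔ x ∈ P) (χ : MulChar (ZMod q) (𝓞 K))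
    (h1 : ∀ u : (ZMod q)ˣ, χ u ^ p = 1)
    (h2 : ∀ u : (ZMod q)ˣ, π (χ u) = (u : ZMod q) ^ ((q - 1) / p)) (d : (ZMod p)ˣ)
    (hd : 2 * (d : ZMod p).val < p) :
    jacobiSum χ χ ∈ P.map (clRingAction p K d⁻¹ : 𝓞 K →+* 𝓞 K) := by
  rw [mem_map_clRingAction_inv, ← hπ, pi_clRingAction_jacobiSum p K q hdvd π χ h1 h2 d]
  apply sum_pow_mul_one_sub_pow
  have hq : q.Prime := Fact.out
  have hNp : p * ((q - 1) / p) = q - 1 := Nat.mul_div_cancel' hdvd
  have hq1 : 1 < q := hq.one_lt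
  have hNpos : 0 < (q - 1) / p := by
    rcases Nat.eq_zero_or_pos ((q - 1) / p) with h | h
    · rw [h, mul_zero] at hNp; omega
    · exact h
  calc 2 * ((q - 1) / p * (d : ZMod p).val) = (2 * (d : ZMod p).val) * ((q - 1) / p) := by ring
    _ < p * ((q - 1) / p) := Nat.mul_lt_mul_of_pos_right hd hNpos
    _ = q - 1 := hNp

theorem inverse_eq_pow_of_pow_eq_one {R : Type*} [CommRing R] {n : ℕ} (hn : n ≠ 0) {x : R}
    (hx : x ^ n = 1) : Ring.inverse x = x ^ (n - 1) := by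
  let v : Rˣ := Units.ofPowEqOne x n hx hn
  have hv : (v : R) = x := rfl
  have hvn : v ^ (n - 1) * v = 1 := by
    rw [← pow_succ, Nat.sub_add_cancel (Nat.pos_of_ne_zero hn)]
    exact Units.ext (by rw [Units.val_pow_eq_pow_val, hv, hx, Units.val_one])
  rw [← hv, Ring.inverse_unit, ← eq_inv_of_mul_eq_one_left hvn, Units.val_pow_eq_pow_val]

theorem val_neg_one_unit : (((-1 : (ZMod p)ˣ) : (ZMod p)ˣ) : ZMod p).val = p - 1 := by
  have hp : p.Prime := Fact.out
  have h1 : (((-1 : (ZMod p)ˣ) : (ZMod p)ˣ) : ZMod p) = ((p - 1 : ℕ) : ZMod p) := by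
    rw [Nat.cast_sub hp.one_lt.le, ZMod.natCast_self, Nat.cast_one, zero_sub, Units.val_neg,
      Units.val_one]
  rw [h1, ZMod.val_natCast, Nat.mod_eq_of_lt (by have := hp.two_le; omega)]

/-- `J · σ₋₁(J) = q`. -/
theorem jacobiSum_mul_conj (q : ℕ) [Fact q.Prime] (χ : MulChar (ZMod q) (𝓞 K))
    (h1 : ∀ u : (ZMod q)ˣ, χ u ^ p = 1) (h3 : ∃ u : (ZMod q)ˣ, χ u ^ 2 ≠ 1) :
    jacobiSum χ χ * clRingAction p K (-1) (jacobiSum χ χ) = (q : 𝓞 K) := by
  have hp : p.Prime := Fact.out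
  have hq : q.Prime := Fact.out
  -- the conjugate is the Jacobi sum of the inverse character
  have hinv : χ.ringHomComp (clRingAction p K (-1) : 𝓞 K →+* 𝓞 K) = χ⁻¹ := by
    refine MulChar.ext (fun u => ?_)
    rw [MulChar.ringHomComp_apply, RingEquiv.coe_toRingHom, clRingAction_pow_eq p K (-1) (h1 u),
      val_neg_one_unit, MulChar.inv_apply_eq_inv, inverse_eq_pow_of_pow_eq_one hp.ne_zero (h1 u)]
  have hconj : clRingAction p K (-1) (jacobiSum χ χ) = jacobiSum χ⁻¹ χ⁻¹ := by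
    have := jacobiSum_ringHomComp χ χ (clRingAction p K (-1) : 𝓞 K →+* 𝓞 K)
    rw [hinv] at this
    rw [this, RingEquiv.coe_toRingHom]
  rw [hconj]
  apply NumberField.RingOfIntegers.coe_injective
  set f : 𝓞 K →+* K := algebraMap (𝓞 K) K with hf
  have hfi : Function.Injective f := NumberField.RingOfIntegers.coe_injective
  obtain ⟨u, hu⟩ := h3
  have hχ1 : χ.ringHomComp f ≠ 1 := by
    intro h
    have h4 := congrArg (fun ψ : MulChar (ZMod q) K => ψ u) h
    simp only [MulChar.ringHomComp_apply, MulChar.one_apply_coe] at h4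
    have h5 : χ u = 1 := hfi (by rw [h4, map_one])
    exact hu (by rw [h5, one_pow])
  have hχ2 : χ.ringHomComp f * χ.ringHomComp f ≠ 1 := by
    intro h
    have h4 := congrArg (fun ψ : MulChar (ZMod q) K => ψ u) h
    simp only [MulChar.mul_apply, MulChar.ringHomComp_apply, MulChar.one_apply_coe] at h4
    have h5 : χ u ^ 2 = 1 := hfi (by rw [map_pow, pow_two, h4, map_one])
    exact hu h5
  have hchar : ringChar K ≠ ringChar (ZMod q) := by
    rw [ringChar.eq_zero, ZMod.ringChar_zmod_n]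
    exact hq.ne_zero.symm
  have hmain := jacobiSum_mul_jacobiSum_inv hchar hχ1 hχ1 hχ2
  rw [MulChar.ringHomComp_inv, jacobiSum_ringHomComp, jacobiSum_ringHomComp, ZMod.card] at hmain
  show f (jacobiSum χ χ * jacobiSum χ⁻¹ χ⁻¹) = f (q : 𝓞 K)
  rw [map_mul, hmain, map_natCast]

end DegreeOne

/-! ## Part F: assembly -/

section Final

variable (p : ℕ) [Fact p.Prime] (K : Type*) [Field K] [NumberField K]
  [IsCyclotomicExtension {p} ℚ K]

theorem expUnit_val {c : ℕ} (hc : c ∈ Stickelberger.exponentSet p) :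
    ((Stickelberger.expUnit p c : (ZMod p)ˣ) : ZMod p).val = c := by
  have hp : p.Prime := Fact.out
  obtain ⟨h0, h2⟩ := Stickelberger.mem_exponentSet.1 hc
  have hlt : c < p := by omega
  have hcop : Nat.Coprime c p :=
    ((Nat.Prime.coprime_iff_not_dvd hp).2
      (fun h => by have := Nat.le_of_dvd h0 h; omega)).symm
  rw [Stickelberger.expUnit, dif_pos hcop, ZMod.coe_unitOfCoprime, ZMod.val_natCast,
    Nat.mod_eq_of_lt hlt]

/-- **Stickelberger's relation for a prime of degree one**: the Prelude's Stickelberger element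
`∑_{0 < c < p/2} σ_c⁻¹` kills the class of a prime `P` over `q ≡ 1 mod p`. -/
theorem stickelbergerEnd_clOf_eq_zero (hp2 : p ≠ 2) (q : ℕ) [Fact q.Prime] (hqp : q ≠ p)
    (hq1 : (q : ZMod p) = 1) (P : (Ideal (𝓞 K))⁰) [(P : Ideal (𝓞 K)).IsMaximal]
    [(P : Ideal (𝓞 K)).LiesOver (Ideal.span {(q : ℤ)})] :
    Stickelberger.stickelbergerEnd (clGalAction p K) (clOf p P) = 0 := by
  classical
  have hp : p.Prime := Fact.out
  have hq : q.Prime := Fact.out
  have hodd : p % 2 = 1 := hp.eq_two_or_odd.resolve_left hp2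
  have hndvd : ¬ q ∣ p := fun h => hqp ((Nat.prime_dvd_prime_iff_eq hq hp).1 h)
  have hcop : q.Coprime p := (Nat.Prime.coprime_iff_not_dvd hq).2 hndvd
  have hdvd : p ∣ q - 1 := by
    rw [← ZMod.natCast_eq_zero_iff, Nat.cast_sub hq.one_lt.le, hq1, Nat.cast_one, sub_self]
  have hN : Ideal.absNorm (P : Ideal (𝓞 K)) = q := by
    rw [← Ideal.pow_inertiaDeg q (P : Ideal (𝓞 K)),
      IsCyclotomicExtension.Rat.inertiaDeg_eq_of_not_dvd q K (P : Ideal (𝓞 K)) hndvd, hq1,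
      orderOf_one, pow_one]
  obtain ⟨π, hπ⟩ := exists_ringHom_of_absNorm q (P : Ideal (𝓞 K)) hN
  obtain ⟨χ, h1, h2, h3⟩ := exists_character p K hp2 q hqp hdvd (P : Ideal (𝓞 K)) π hπ
  set J : 𝓞 K := jacobiSum χ χ with hJ
  set T := Stickelberger.exponentSet p with hT
  -- the conjugate primes
  let 𝔓 : ℕ → (Ideal (𝓞 K))⁰ := fun c =>
    Ideal.mapNonZero (clRingAction p K (Stickelberger.expUnit p c)⁻¹) P
  have h𝔓 : ∀ c, ((𝔓 c : (Ideal (𝓞 K))⁰) : Ideal (𝓞 K)) =
      (P : Ideal (𝓞 K)).map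
        (clRingAction p K (Stickelberger.expUnit p c)⁻¹ : 𝓞 K →+* 𝓞 K) := fun c => rfl
  have hmem : ∀ c ∈ T, J ∈ ((𝔓 c : (Ideal (𝓞 K))⁰) : Ideal (𝓞 K)) := by
    intro c hc
    rw [h𝔓]
    exact jacobiSum_mem p K q hdvd _ π hπ χ h1 h2 _
      (by rw [expUnit_val p hc]; exact (Stickelberger.mem_exponentSet.1 hc).2)
  have hprime : ∀ c ∈ T, Prime ((𝔓 c : (Ideal (𝓞 K))⁰) : Ideal (𝓞 K)) := by
    intro c _
    have h0 : ((𝔓 c : (Ideal (𝓞 K))⁰) : Ideal (𝓞 K)) ≠ ⊥ := nonZeroDivisors.ne_zero (𝔓 c).2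
    refine (Ideal.prime_iff_isPrime h0).2 ?_
    rw [h𝔓]
    exact Ideal.map_isPrime_of_equiv (clRingAction p K (Stickelberger.expUnit p c)⁻¹)
  have hdist : ∀ c ∈ T, ∀ c' ∈ T, c ≠ c' →
      ((𝔓 c : (Ideal (𝓞 K))⁰) : Ideal (𝓞 K)) ≠ 𝔓 c' := by
    intro c hc c' hc' hne heq
    apply hne
    have hfix : (P : Ideal (𝓞 K)).map (clRingAction p K
        (Stickelberger.expUnit p c * (Stickelberger.expUnit p c')⁻¹)⁻¹ : 𝓞 K →+* 𝓞 K) = P := by
      ext x
      rw [mem_map_clRingAction_inv, map_mul]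
      have e1 : (clRingAction p K (Stickelberger.expUnit p c) *
          clRingAction p K (Stickelberger.expUnit p c')⁻¹) x =
          clRingAction p K (Stickelberger.expUnit p c)
            (clRingAction p K (Stickelberger.expUnit p c')⁻¹ x) := rfl
      rw [e1, ← mem_map_clRingAction_inv p K (Stickelberger.expUnit p c), ← h𝔓 c, heq, h𝔓 c',
        mem_map_clRingAction_inv, clRingAction_apply_inv]
    have hz := (map_clRingAction_eq_self_iff p K q hcop (P : Ideal (𝓞 K)) _).1 hfix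
    have hone : ZMod.unitOfCoprime q hcop = 1 :=
      Units.ext (by rw [ZMod.coe_unitOfCoprime, hq1, Units.val_one])
    rw [hone, Subgroup.zpowers_one_eq_bot, Subgroup.mem_bot, inv_eq_one, mul_inv_eq_one] at hz
    have h4 : ((Stickelberger.expUnit p c : (ZMod p)ˣ) : ZMod p).val =
        ((Stickelberger.expUnit p c' : (ZMod p)ˣ) : ZMod p).val := by rw [hz]
    rwa [expUnit_val p hc, expUnit_val p hc'] at h4
  -- `(J)` is divisible by the product
  have hle : Ideal.span {J} ≤ ∏ c ∈ T, ((𝔓 c : (Ideal (𝓞 K))⁰) : Ideal (𝓞 K)) := by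
    have h4 := IsDedekindDomain.inf_pow_eq_prod_of_prime T
      (fun c => ((𝔓 c : (Ideal (𝓞 K))⁰) : Ideal (𝓞 K))) (fun _ => 1) hprime hdist
    simp only [pow_one] at h4
    rw [← h4]
    exact Finset.le_inf (fun c hc => (Ideal.span_singleton_le_iff_mem _).2 (hmem c hc))
  obtain ⟨𝔠, h𝔠⟩ := Ideal.dvd_iff_le.2 hle
  -- norms
  have hfin : Module.finrank ℚ K = p - 1 := by
    rw [IsCyclotomicExtension.finrank K (Polynomial.cyclotomic.irreducible_rat hp.pos),
      Nat.totient_prime hp]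
  have hNJ : Ideal.absNorm (Ideal.span {J}) * Ideal.absNorm (Ideal.span {J}) = q ^ (p - 1) := by
    have hmul := jacobiSum_mul_conj p K q χ h1 h3
    have h4 : Ideal.span {J} * Ideal.span {clRingAction p K (-1) J} =
        Ideal.span {(q : 𝓞 K)} := by
      rw [Ideal.span_singleton_mul_span_singleton, hmul]
    have h5 : Ideal.span {clRingAction p K (-1) J} =
        (Ideal.span {J}).map (clRingAction p K (-1) : 𝓞 K →+* 𝓞 K) := by
      rw [Ideal.map_span, Set.image_singleton, RingEquiv.coe_toRingHom]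
    rw [← hfin, ← absNorm_span_natCast, ← h4, map_mul, h5, absNorm_map_ringEquiv]
  have hN𝔓 : Ideal.absNorm (∏ c ∈ T, ((𝔓 c : (Ideal (𝓞 K))⁰) : Ideal (𝓞 K))) = q ^ T.card := by
    rw [map_prod, ← Finset.prod_const]
    refine Finset.prod_congr rfl (fun c _ => ?_)
    rw [h𝔓, absNorm_map_ringEquiv, hN]
  have hcard : T.card * 2 = p - 1 := card_exponentSet p hodd
  have h𝔠1 : Ideal.absNorm 𝔠 = 1 := by
    have h6 : Ideal.absNorm (Ideal.span {J}) = q ^ T.card * Ideal.absNorm 𝔠 := by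
      rw [h𝔠, map_mul, hN𝔓]
    rw [h6, ← hcard] at hNJ
    have hqpos : 0 < q ^ T.card := pow_pos hq.pos _
    have h7 : (q ^ T.card * q ^ T.card) * (Ideal.absNorm 𝔠 * Ideal.absNorm 𝔠) =
        (q ^ T.card * q ^ T.card) * 1 := by
      rw [mul_one]
      calc (q ^ T.card * q ^ T.card) * (Ideal.absNorm 𝔠 * Ideal.absNorm 𝔠)
          = q ^ T.card * Ideal.absNorm 𝔠 * (q ^ T.card * Ideal.absNorm 𝔠) := by ring
        _ = q ^ (T.card * 2) := hNJ
        _ = q ^ T.card * q ^ T.card := by rw [mul_two, pow_add]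
    have h8 := Nat.eq_of_mul_eq_mul_left (Nat.mul_pos hqpos hqpos) h7
    exact Nat.eq_one_of_mul_eq_one_left h8
  have h𝔠top : 𝔠 = ⊤ := Ideal.absNorm_eq_one_iff.1 h𝔠1
  have hprod : ∏ c ∈ T, ((𝔓 c : (Ideal (𝓞 K))⁰) : Ideal (𝓞 K)) = Ideal.span {J} := by
    rw [h𝔠, h𝔠top, Ideal.mul_top]
  -- conclusion in the class group
  have hcl : clOf p (∏ c ∈ T, 𝔓 c) = 0 := by
    apply clOf_eq_zero_of_isPrincipal
    rw [Submonoid.coe_finsetProd, hprod]
    exact ⟨⟨J, rfl⟩⟩
  rw [clOf_prod] at hcl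
  rw [Stickelberger.stickelbergerEnd, LinearMap.sum_apply, ← hcl]
  refine Finset.sum_congr rfl (fun c _ => ?_)
  exact clGalAction_clOf p K _ P

theorem omegaProj_clOf_of_eq_one (hp2 : p ≠ 2) (q : ℕ) [Fact q.Prime] (hqp : q ≠ p)
    (hq1 : (q : ZMod p) = 1) (P : (Ideal (𝓞 K))⁰) [(P : Ideal (𝓞 K)).IsMaximal]
    [(P : Ideal (𝓞 K)).LiesOver (Ideal.span {(q : ℤ)})] :
    omegaProj (clGalAction p K) (clOf p P) = 0 := by
  have h := stickelbergerEnd_clOf_eq_zero p K hp2 q hqp hq1 P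
  have h' : omegaProj (clGalAction p K)
      (Stickelberger.stickelbergerEnd (clGalAction p K) (clOf p P)) = 0 := by
    rw [h, map_zero]
  rw [Stickelberger.stickelbergerEnd, LinearMap.sum_apply, map_sum] at h'
  have hterm : ∀ c ∈ Stickelberger.exponentSet p,
      omegaProj (clGalAction p K)
        (clGalAction p K (Stickelberger.expUnit p c)⁻¹ (clOf p P)) =
      (c : ZMod p) • omegaProj (clGalAction p K) (clOf p P) := by
    intro c hc
    rw [omegaProj_comp, inv_inv]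
    congr 1
    rw [← ZMod.natCast_zmod_val ((Stickelberger.expUnit p c : (ZMod p)ˣ) : ZMod p),
      expUnit_val p hc]
  rw [Finset.sum_congr rfl hterm, ← Finset.sum_smul, ← Nat.cast_sum] at h'
  exact (smul_eq_zero.1 h').resolve_left (eigenvalueScalar_ne_zero p hp2)

theorem omegaProj_clOf_of_ne_one (q : ℕ) [Fact q.Prime] (hqp : q ≠ p)
    (hq1 : (q : ZMod p) ≠ 1) (P : (Ideal (𝓞 K))⁰) [(P : Ideal (𝓞 K)).IsMaximal]
    [(P : Ideal (𝓞 K)).LiesOver (Ideal.span {(q : ℤ)})] :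
    omegaProj (clGalAction p K) (clOf p P) = 0 := by
  have hp : p.Prime := Fact.out
  have hq : q.Prime := Fact.out
  have hndvd : ¬ q ∣ p := fun h => hqp ((Nat.prime_dvd_prime_iff_eq hq hp).1 h)
  have hcop : q.Coprime p := (Nat.Prime.coprime_iff_not_dvd hq).2 hndvd
  have hfix : (P : Ideal (𝓞 K)).map
      (clRingAction p K (ZMod.unitOfCoprime q hcop) : 𝓞 K →+* 𝓞 K) = P :=
    (map_clRingAction_eq_self_iff p K q hcop (P : Ideal (𝓞 K)) _).2 (Subgroup.mem_zpowers _)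
  have hρ : clGalAction p K (ZMod.unitOfCoprime q hcop) (clOf p P) = clOf p P := by
    rw [clGalAction_clOf]
    congr 1
    exact Subtype.ext hfix
  have h := omegaProj_comp (clGalAction p K) (ZMod.unitOfCoprime q hcop) (clOf p P)
  rw [hρ] at h
  have h2 : ((1 : ZMod p) - (((ZMod.unitOfCoprime q hcop)⁻¹ : (ZMod p)ˣ) : ZMod p)) •
      omegaProj (clGalAction p K) (clOf p P) = 0 := by
    rw [sub_smul, one_smul, ← h, sub_self]
  refine (smul_eq_zero.1 h2).resolve_left ?_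
  intro h3
  apply hq1
  have h4 : (((ZMod.unitOfCoprime q hcop)⁻¹ : (ZMod p)ˣ) : ZMod p) = 1 := (sub_eq_zero.1 h3).symm
  have h5 : (ZMod.unitOfCoprime q hcop)⁻¹ = 1 := Units.ext (by rw [h4, Units.val_one])
  have h6 : ZMod.unitOfCoprime q hcop = 1 := inv_eq_one.1 h5
  have h7 : ((ZMod.unitOfCoprime q hcop : (ZMod p)ˣ) : ZMod p) = 1 := by rw [h6, Units.val_one]
  rwa [ZMod.coe_unitOfCoprime] at h7

theorem clOf_eq_zero_of_liesOver_self (P : (Ideal (𝓞 K))⁰) [(P : Ideal (𝓞 K)).IsPrime]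
    [(P : Ideal (𝓞 K)).LiesOver (Ideal.span {(p : ℤ)})] : clOf p P = 0 := by
  apply clOf_eq_zero_of_isPrincipal
  rw [IsCyclotomicExtension.Rat.eq_span_zeta_sub_one_of_liesOver' p K
    (IsCyclotomicExtension.zeta_spec p ℚ K) (P : Ideal (𝓞 K))]
  exact ⟨⟨_, rfl⟩⟩

/-- The `ω⁻¹`-projector vanishes on `Cl(ℚ(ζ_p))/p`. -/
theorem omegaProj_eq_zero (hp2 : p ≠ 2) (a : ClGalModule p (𝓞 K)) :
    omegaProj (clGalAction p K) a = 0 := by
  refine eq_zero_of_forall_prime p (omegaProj (clGalAction p K)).toAddMonoidHom ?_ a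
  intro P hP
  show omegaProj (clGalAction p K) (clOf p P) = 0
  have hP0 : (P : Ideal (𝓞 K)) ≠ ⊥ := nonZeroDivisors.ne_zero P.2
  obtain ⟨q, hq, hover⟩ := exists_prime_liesOver K (P : Ideal (𝓞 K)) hP0
  have : Fact q.Prime := ⟨hq⟩
  have := hover
  have : (P : Ideal (𝓞 K)).IsMaximal := hP.isMaximal hP0
  by_cases hqp : q = p
  · subst hqp
    rw [clOf_eq_zero_of_liesOver_self q K P, map_zero]
  · by_cases hq1 : (q : ZMod p) = 1
    · exact omegaProj_clOf_of_eq_one p K hp2 q hqp hq1 P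
    · exact omegaProj_clOf_of_ne_one p K q hqp hq1 P

/-- **The `ω^(p-2) = ω⁻¹`-eigenspace of `Cl(ℚ(ζ_p))/p` is trivial** (`p` odd; the case `B₂` of
Herbrand's theorem, via Stickelberger's relation for Jacobi sums at primes of degree one). -/
theorem eq_zero_of_isOmegaEigenvector (p : ℕ) [Fact p.Prime] (hp2 : p ≠ 2) (K : Type*) [Field K]
    [NumberField K] [IsCyclotomicExtension {p} ℚ K] (a : ClGalModule p (𝓞 K))
    (ha : Stickelberger.IsOmegaEigenvector (clGalAction p K) (p - 2) a) : a = 0 :=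
  eq_zero_of_omegaProj_eq_zero _ (omegaProj_eq_zero p K hp2) a ha

end Final

end Fermat.Agent.Lib.StickelOmega
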