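/-
`Lib/SupersingularElim` (helper88) — Mathlib only.

The "supersingular evaluation" elimination used for S16 (case `ℓ = 2`, `p ≡ 7 mod 8`):
there are no `h, k` integral over an integrally closed domain `R` (think `R = ℤ_(2)[t]`) with
`(t⁴ - 24 t) h - (t⁶ - 36 t³ + 216) = 8 k`, when `t` is a prime element not dividing `2`
and `(2, t)` is a proper ideal.  (`t⁴ - 24t`, `-(t⁶ - 36t³ + 216)`, `t³ - 27` are `c₄`, `c₆`, `Δ`
of the curve `y² + t x y + y = x³`.)
-/
import Mathlib

set_option autoImplicit false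

open Polynomial

namespace Fermat.Agent.Lib.SupersingularElim

section Intersection

variable {R : Type*} [CommRing R] [IsDomain R]

/-- `R[1/t] ∩ R[1/y] = R` inside the fraction field, for `t` prime not dividing `y`. -/
theorem mem_range_of_pow_mul_mem {K : Type*} [Field K] [Algebra R K] [IsFractionRing R K]
    {t y : R} (ht : Prime t) (hty : ¬ t ∣ y) (n m : ℕ) (r : K)
    (h1 : algebraMap R K (t ^ n) * r ∈ (algebraMap R K).range)
    (h2 : algebraMap R K (y ^ m) * r ∈ (algebraMap R K).range) :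
    r ∈ (algebraMap R K).range := by
  obtain ⟨a, ha⟩ := h1
  obtain ⟨b, hb⟩ := h2
  obtain ⟨u, v, hv, rfl⟩ := IsFractionRing.div_surjective (A := R) r
  have inj := IsFractionRing.injective R K
  have hv0 : v ≠ 0 := nonZeroDivisors.ne_zero hv
  have hvK : algebraMap R K v ≠ 0 := by
    intro h
    exact hv0 (inj (by rw [h, map_zero]))
  have e1 : t ^ n * u = a * v := by
    apply inj
    rw [map_mul, map_mul, ha]
    field_simp
  have e2 : y ^ m * u = b * v := by
    apply inj
    rw [map_mul, map_mul, hb]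
    field_simp
  have e3 : y ^ m * a = t ^ n * b := by
    have : (y ^ m * a) * v = (t ^ n * b) * v := by
      calc (y ^ m * a) * v = y ^ m * (a * v) := by ring
        _ = y ^ m * (t ^ n * u) := by rw [e1]
        _ = t ^ n * (y ^ m * u) := by ring
        _ = t ^ n * (b * v) := by rw [e2]
        _ = (t ^ n * b) * v := by ring
    exact mul_right_cancel₀ hv0 this
  have hym : ¬ t ∣ y ^ m := fun h => hty (ht.dvd_of_dvd_pow h)
  have hdvd : t ^ n ∣ a := ht.pow_dvd_of_dvd_mul_left n hym ⟨b, e3⟩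
  obtain ⟨a', rfl⟩ := hdvd
  have htn : t ^ n ≠ 0 := pow_ne_zero n ht.ne_zero
  have e4 : u = a' * v := by
    have : t ^ n * u = t ^ n * (a' * v) := by rw [e1]; ring
    exact mul_left_cancel₀ htn this
  refine ⟨a', ?_⟩
  rw [e4, map_mul]
  field_simp

end Intersection

section Integral

variable {R : Type*} (K : Type*) {Ω : Type*} [CommRing R] [IsDomain R] [IsIntegrallyClosed R]
  [Field K] [Algebra R K] [IsFractionRing R K] [Field Ω] [Algebra R Ω] [Algebra K Ω]
  [IsScalarTower R K Ω]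

omit [IsDomain R] in
/-- If `c • w` is integral over the integrally closed `R` (`c ∈ R`, `c ≠ 0`), then the scaled
minimal polynomial of `w` over the fraction field has coefficients in `R`. -/
theorem coeff_scaleRoots_minpoly_mem (c : R) (hc : algebraMap R K c ≠ 0) (w : Ω)
    (hw : IsIntegral R (algebraMap R Ω c * w)) (j : ℕ) :
    ((minpoly K w).scaleRoots (algebraMap R K c)).coeff j ∈ (algebraMap R K).range := by
  obtain ⟨P, hP, hPz⟩ := hw
  set cK : K := algebraMap R K c with hcK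
  set Q : K[X] := P.map (algebraMap R K) with hQ
  have hz : aeval (algebraMap K Ω cK * w) Q = 0 := by
    rw [hQ, aeval_map_algebraMap, aeval_def, hcK, ← IsScalarTower.algebraMap_apply]
    exact hPz
  have hz' : aeval w (Q.scaleRoots cK⁻¹) = 0 := by
    have := scaleRoots_aeval_eq_zero (r := cK⁻¹) hz
    rwa [← mul_assoc, ← map_mul, inv_mul_cancel₀ hc, map_one, one_mul] at this
  have hdvd : minpoly K w ∣ Q.scaleRoots cK⁻¹ := minpoly.dvd K w hz'
  have hdvd' : (minpoly K w).scaleRoots cK ∣ Q := by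
    have := scaleRoots_dvd _ _ (r := cK) hdvd
    rwa [← scaleRoots_mul, inv_mul_cancel₀ hc, scaleRoots_one] at this
  have hwK : IsIntegral K w := by
    have h1 : IsIntegral K (algebraMap K Ω cK * w) := ⟨Q, hP.map _, by rw [← aeval_def]; exact hz⟩
    have h2 : IsIntegral K (algebraMap K Ω cK⁻¹) := isIntegral_algebraMap
    have := h2.mul h1
    rwa [← mul_assoc, ← map_mul, inv_mul_cancel₀ hc, map_one, one_mul] at this
  have hmonic : ((minpoly K w).scaleRoots cK).Monic :=
    (monic_scaleRoots_iff cK).mpr (minpoly.monic hwK)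
  have hl := integralClosure.mem_lifts_of_monic_of_dvd_map K hP hmonic hdvd'
  obtain ⟨b, hb⟩ := (lifts_iff_coeff_lifts _).mp hl j
  have hbi : IsIntegral R (((minpoly K w).scaleRoots cK).coeff j) := by
    rw [← hb]
    exact b.2
  obtain ⟨r, hr⟩ := IsIntegrallyClosed.isIntegral_iff.mp hbi
  exact ⟨r, hr⟩

include K in
/-- **Key lemma.** `R` an integrally closed domain, `t` prime, `t ∤ y`, `y ≠ 0`.  If `tⁿ w` and
`yᵐ w` are both integral over `R`, then so is `w`. -/
theorem isIntegral_of_pow_smul {t y : R} (ht : Prime t) (hty : ¬ t ∣ y) (hy : y ≠ 0)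
    (n m : ℕ) (w : Ω)
    (h1 : IsIntegral R (algebraMap R Ω (t ^ n) * w))
    (h2 : IsIntegral R (algebraMap R Ω (y ^ m) * w)) :
    IsIntegral R w := by
  have inj := IsFractionRing.injective R K
  have htn : algebraMap R K (t ^ n) ≠ 0 := by
    intro h
    exact pow_ne_zero n ht.ne_zero (inj (by rw [h, map_zero]))
  have hym : algebraMap R K (y ^ m) ≠ 0 := by
    intro h
    exact pow_ne_zero m hy (inj (by rw [h, map_zero]))
  -- `w` is integral over `K`
  have hwK : IsIntegral K w := by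
    have h1' : IsIntegral K (algebraMap R Ω (t ^ n) * w) := h1.tower_top
    have h2' : IsIntegral K (algebraMap K Ω (algebraMap R K (t ^ n))⁻¹) := isIntegral_algebraMap
    have := h2'.mul h1'
    rwa [IsScalarTower.algebraMap_apply R K Ω, ← mul_assoc, ← map_mul, inv_mul_cancel₀ htn,
      map_one, one_mul] at this
  set mp := minpoly K w with hmp
  have hcoeff : ∀ j, mp.coeff j ∈ (algebraMap R K).range := by
    intro j
    have c1 := coeff_scaleRoots_minpoly_mem K (t ^ n) htn w h1 j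
    have c2 := coeff_scaleRoots_minpoly_mem K (y ^ m) hym w h2 j
    rw [coeff_scaleRoots, ← map_pow, ← pow_mul, mul_comm] at c1 c2
    exact mem_range_of_pow_mul_mem ht hty _ _ _ c1 c2
  have hl : mp ∈ lifts (algebraMap R K) := (lifts_iff_coeff_lifts _).mpr hcoeff
  obtain ⟨M, hM, -, hMmonic⟩ := lifts_and_natDegree_eq_and_monic hl (minpoly.monic hwK)
  refine ⟨M, hMmonic, ?_⟩
  have : aeval w (M.map (algebraMap R K)) = 0 := by rw [hM]; exact minpoly.aeval K w
  rwa [aeval_map_algebraMap, aeval_def] at this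

end Integral

section Elimination

variable {R Ω : Type*} [CommRing R] [IsDomain R] [IsIntegrallyClosed R]
  [Field Ω] [Algebra R Ω] [FaithfulSMul R Ω]

omit [IsDomain R] [IsIntegrallyClosed R] in
/-- Lying-over: `1` is not an `(integral closure)`-combination of `2` and `t` when `(2, t)` is a
proper ideal of `R`. -/
theorem false_of_one_eq {t : R} (hI : Ideal.span {(2 : R), t} ≠ ⊤) (b1 b2 : Ω)
    (hb1 : IsIntegral R b1) (hb2 : IsIntegral R b2)
    (h : (1 : Ω) = 2 * b1 - algebraMap R Ω t * b2) : False := by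
  obtain ⟨P, hPmax, hP⟩ := Ideal.exists_le_maximal _ hI
  have := hPmax.isPrime
  have hinj : Function.Injective (algebraMap R (integralClosure R Ω)) := by
    intro x y hxy
    apply FaithfulSMul.algebraMap_injective R Ω
    have := congrArg (algebraMap (integralClosure R Ω) Ω) hxy
    simpa [← IsScalarTower.algebraMap_apply] using this
  obtain ⟨Q, -, hQprime, hQ⟩ := Ideal.exists_ideal_over_prime_of_isIntegral P
    (⊥ : Ideal (integralClosure R Ω)) (by
      rw [Ideal.comap_bot_of_injective _ hinj]; exact bot_le)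
  have h2 : algebraMap R (integralClosure R Ω) 2 ∈ Q := by
    have : (2 : R) ∈ Q.comap (algebraMap R (integralClosure R Ω)) := by
      rw [hQ]; exact hP (Ideal.subset_span (by simp))
    exact this
  have ht : algebraMap R (integralClosure R Ω) t ∈ Q := by
    have : t ∈ Q.comap (algebraMap R (integralClosure R Ω)) := by
      rw [hQ]; exact hP (Ideal.subset_span (by simp))
    exact this
  have h1 : (1 : integralClosure R Ω) =
      algebraMap R (integralClosure R Ω) 2 * ⟨b1, hb1⟩ -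
        algebraMap R (integralClosure R Ω) t * ⟨b2, hb2⟩ := by
    apply Subtype.ext
    simp only [OneMemClass.coe_one, AddSubgroupClass.coe_sub, MulMemClass.coe_mul,
      Subalgebra.coe_algebraMap, map_ofNat]
    exact h
  have hone : (1 : integralClosure R Ω) ∈ Q := by
    rw [h1]; exact Q.sub_mem (Q.mul_mem_right _ h2) (Q.mul_mem_right _ ht)
  exact hQprime.ne_top ((Ideal.eq_top_iff_one _).mpr hone)

/-- **Supersingular elimination.**  Let `R` be an integrally closed domain, `t ∈ R` a prime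
element not dividing `2`, with `(2, t) ≠ R`, and let `Ω` be a field containing `R`.  Then there
are no `h, k ∈ Ω` integral over `R` with `(t⁴ - 24t)·h - (t⁶ - 36t³ + 216) = 8·k`. -/
theorem false_of_integral (t : R) (ht : Prime t) (ht2 : ¬ t ∣ 2)
    (hI : Ideal.span {(2 : R), t} ≠ ⊤) (h k : Ω) (hh : IsIntegral R h) (hk : IsIntegral R k)
    (hrel : algebraMap R Ω (t ^ 4 - 24 * t) * h - algebraMap R Ω (t ^ 6 - 36 * t ^ 3 + 216)
      = 8 * k) : False := by
  let _ := FractionRing.liftAlgebra R Ω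
  have := FractionRing.isScalarTower_liftAlgebra R Ω
  have inj := FaithfulSMul.algebraMap_injective R Ω
  have h2R : (2 : R) ≠ 0 := fun h0 => ht2 (h0 ▸ dvd_zero t)
  set τ : Ω := algebraMap R Ω t with hτ
  have hτ0 : τ ≠ 0 := fun h0 => ht.ne_zero (inj (by rw [← hτ, h0, map_zero]))
  have hτi : IsIntegral R τ := isIntegral_algebraMap
  have hnat : ∀ n : ℕ, IsIntegral R (n : Ω) := fun n => by
    rw [← map_natCast (algebraMap R Ω)]; exact isIntegral_algebraMap
  have h24 : IsIntegral R (24 : Ω) := by exact_mod_cast hnat 24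
  have h27 : IsIntegral R (27 : Ω) := by exact_mod_cast hnat 27
  have h36 : IsIntegral R (36 : Ω) := by exact_mod_cast hnat 36
  have h3 : IsIntegral R (3 : Ω) := by exact_mod_cast hnat 3
  have h2 : IsIntegral R (2 : Ω) := by exact_mod_cast hnat 2
  have h9 : IsIntegral R (9 : Ω) := by exact_mod_cast hnat 9
  have h4 : IsIntegral R (4 : Ω) := by exact_mod_cast hnat 4
  have hrel' : (τ ^ 4 - 24 * τ) * h - (τ ^ 6 - 36 * τ ^ 3 + 216) = 8 * k := by
    simpa [hτ, map_sub, map_mul, map_pow, map_add, map_ofNat] using hrel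
  have e8 : algebraMap R Ω (2 ^ 3) = 8 := by rw [map_pow, map_ofNat]; norm_num
  have e4 : algebraMap R Ω (2 ^ 2) = 4 := by rw [map_pow, map_ofNat]; norm_num
  -- step 1
  set k1 : Ω := (k + 27) / τ with hk1
  have e1 : 8 * k1 = (τ ^ 3 - 24) * h - τ ^ 5 + 36 * τ ^ 2 := by
    rw [hk1, mul_div_assoc', div_eq_iff hτ0]; linear_combination (-1 : Ω) * hrel'
  have hk1i : IsIntegral R k1 := by
    apply isIntegral_of_pow_smul (FractionRing R) ht ht2 h2R 1 3 k1
    · have : algebraMap R Ω (t ^ 1) * k1 = k + 27 := by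
        rw [pow_one, ← hτ, hk1]; field_simp
      rw [this]; exact hk.add h27
    · rw [e8, e1]
      exact ((((hτi.pow 3).sub h24).mul hh).sub (hτi.pow 5)).add (h36.mul (hτi.pow 2))
  -- step 2
  set k2 : Ω := (k1 + 3 * h) / τ ^ 2 with hk2
  have e2 : 8 * k2 = τ * h - τ ^ 3 + 36 := by
    rw [hk2, mul_div_assoc', div_eq_iff (pow_ne_zero 2 hτ0)]; linear_combination e1
  have hk2i : IsIntegral R k2 := by
    apply isIntegral_of_pow_smul (FractionRing R) ht ht2 h2R 2 3 k2
    · have : algebraMap R Ω (t ^ 2) * k2 = k1 + 3 * h := by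
        rw [map_pow, ← hτ, hk2]; field_simp
      rw [this]; exact hk1i.add (h3.mul hh)
    · rw [e8, e2]
      exact ((hτi.mul hh).sub (hτi.pow 3)).add h36
  -- step 3
  set k3 : Ω := (2 * k2 - 9) / τ with hk3
  have e3 : 4 * k3 = h - τ ^ 2 := by
    rw [hk3, mul_div_assoc', div_eq_iff hτ0]; linear_combination e2
  have hk3i : IsIntegral R k3 := by
    apply isIntegral_of_pow_smul (FractionRing R) ht ht2 h2R 1 2 k3
    · have : algebraMap R Ω (t ^ 1) * k3 = 2 * k2 - 9 := by
        rw [pow_one, ← hτ, hk3]; field_simp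
      rw [this]; exact (h2.mul hk2i).sub h9
    · rw [e4, e3]
      exact hh.sub (hτi.pow 2)
  -- conclusion: `1 = 2 (k2 - 4) - t k3`
  refine false_of_one_eq hI (k2 - 4) k3 (hk2i.sub h4) hk3i ?_
  rw [← hτ, hk3]; field_simp; ring

end Elimination

section Instances

/-- The instance `R = A[X]`, `t = X`, for a UFD `A` in which `2` is a nonzero nonunit
(e.g. `A = ℤ_(2)` or `A = ℤ`). -/
theorem false_of_integral_polynomial {A : Type*} [CommRing A] [IsDomain A]
    [UniqueFactorizationMonoid A] (h2u : ¬ IsUnit (2 : A)) (h20 : (2 : A) ≠ 0)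
    {Ω : Type*} [Field Ω] [Algebra A[X] Ω] [FaithfulSMul A[X] Ω] (h k : Ω)
    (hh : IsIntegral A[X] h) (hk : IsIntegral A[X] k)
    (hrel : algebraMap A[X] Ω (X ^ 4 - 24 * X) * h - algebraMap A[X] Ω (X ^ 6 - 36 * X ^ 3 + 216)
      = 8 * k) : False := by
  refine false_of_integral (X : A[X]) prime_X ?_ ?_ h k hh hk hrel
  · rw [X_dvd_iff]
    have : (2 : A[X]).coeff 0 = 2 := by
      rw [show (2 : A[X]) = C (2 : A) from (map_ofNat C 2).symm, coeff_C_zero]
    rw [this]; exact h20
  · intro htop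
    have h1 : (1 : A[X]) ∈ Ideal.span {(2 : A[X]), X} := by rw [htop]; trivial
    obtain ⟨a, b, hab⟩ := Ideal.mem_span_pair.mp h1
    have h0 := congrArg (fun p : A[X] => p.coeff 0) hab
    have e2 : (2 : A[X]) = C (2 : A) := (map_ofNat C 2).symm
    simp only [coeff_add, coeff_one_zero, e2, coeff_mul_C, coeff_mul_X_zero, add_zero] at h0
    exact h2u (IsUnit.of_mul_eq_one _ (by rw [mul_comm]; exact h0))

end Instances

section Consumer

/-- **Consumer shape.**  `A ⊆ B` an integral extension with `B` a domain (think: `A` = level-one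
forms with `ℤ_(2)`-integral `q`-expansion, `B = A[H, K]`), `φ : A →+* R` a ring hom into an
integrally closed domain `R` with `t ∈ R` prime, `t ∤ 2`, `(2, t) ≠ R` (think `R = ℤ_(2)[t]`,
`φ E₄ = t⁴ - 24t`, `φ E₆ = t⁶ - 36t³ + 216`).  Then `E₄·H - E₆ = 8·K` is impossible in `B`. -/
theorem false_of_integral_hom
    {A B R : Type*} [CommRing A] [CommRing B] [IsDomain B] [Algebra A B] [Algebra.IsIntegral A B]
    (hAB : Function.Injective (algebraMap A B))
    [CommRing R] [IsDomain R] [IsIntegrallyClosed R] (φ : A →+* R)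
    (t : R) (ht : Prime t) (ht2 : ¬ t ∣ 2) (hI : Ideal.span {(2 : R), t} ≠ ⊤)
    (e4 e6 : A) (he4 : φ e4 = t ^ 4 - 24 * t) (he6 : φ e6 = t ^ 6 - 36 * t ^ 3 + 216)
    (H K : B) (hrel : algebraMap A B e4 * H - algebraMap A B e6 = 8 * K) : False := by
  classical
  let 𝔭 : Ideal A := RingHom.ker φ
  have h𝔭 : 𝔭.IsPrime := RingHom.ker_isPrime φ
  obtain ⟨𝔓, -, h𝔓, h𝔓𝔭⟩ := Ideal.exists_ideal_over_prime_of_isIntegral 𝔭 (⊥ : Ideal B) (by
    rw [Ideal.comap_bot_of_injective _ hAB]; exact bot_le)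
  have hlo : 𝔓.LiesOver 𝔭 := ⟨h𝔓𝔭.symm⟩
  let Ω := AlgebraicClosure (FractionRing R)
  have hRΩ : Function.Injective (algebraMap R Ω) := by
    rw [IsScalarTower.algebraMap_eq R (FractionRing R) Ω]
    exact (algebraMap (FractionRing R) Ω).injective.comp (IsFractionRing.injective R (FractionRing R))
  have : FaithfulSMul R Ω := (faithfulSMul_iff_algebraMap_injective R Ω).mpr hRΩ
  let φ' : A ⧸ 𝔭 →+* R := RingHom.kerLift φ
  have hφ' : Function.Injective φ' := RingHom.kerLift_injective φ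
  let g : A ⧸ 𝔭 →+* Ω := (algebraMap R Ω).comp φ'
  have hg : Function.Injective g := hRΩ.comp hφ'
  let _ : Algebra (A ⧸ 𝔭) Ω := g.toAlgebra
  have : FaithfulSMul (A ⧸ 𝔭) Ω := (faithfulSMul_iff_algebraMap_injective _ _).mpr hg
  have : IsDomain (A ⧸ 𝔭) := Ideal.Quotient.isDomain 𝔭
  have : IsDomain (B ⧸ 𝔓) := Ideal.Quotient.isDomain 𝔓
  have hfs : FaithfulSMul (A ⧸ 𝔭) (B ⧸ 𝔓) := Ideal.Quotient.instFaithfulSMul 𝔓 𝔭
  have : Module.IsTorsionFree (A ⧸ 𝔭) (B ⧸ 𝔓) := Module.isTorsionFree_iff_faithfulSMul.mpr hfs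
  have : Module.IsTorsionFree (A ⧸ 𝔭) Ω := Module.isTorsionFree_iff_faithfulSMul.mpr inferInstance
  have : Algebra.IsIntegral (A ⧸ 𝔭) (B ⧸ 𝔓) := Ideal.Quotient.algebra_isIntegral_of_liesOver 𝔓 𝔭
  have : Algebra.IsAlgebraic (A ⧸ 𝔭) (B ⧸ 𝔓) := Algebra.IsIntegral.isAlgebraic
  let ψ' : (B ⧸ 𝔓) →ₐ[A ⧸ 𝔭] Ω := IsAlgClosed.lift
  let ψ : B →+* Ω := (ψ' : (B ⧸ 𝔓) →+* Ω).comp (Ideal.Quotient.mk 𝔓)
  have hψ : ∀ a : A, ψ (algebraMap A B a) = algebraMap R Ω (φ a) := by
    intro a
    change ψ' (Ideal.Quotient.mk 𝔓 (algebraMap A B a)) = _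
    rw [← Ideal.Quotient.algebraMap_mk_of_liesOver 𝔓 𝔭 a, ψ'.commutes]
    rfl
  have hint : ∀ b : B, IsIntegral R (ψ b) := by
    intro b
    obtain ⟨P, hP, hPb⟩ := Algebra.IsIntegral.isIntegral (R := A) b
    refine ⟨P.map φ, hP.map φ, ?_⟩
    rw [eval₂_map]
    have hcomp : (algebraMap R Ω).comp φ = ψ.comp (algebraMap A B) :=
      RingHom.ext fun a => (hψ a).symm
    rw [hcomp, ← hom_eval₂, hPb, map_zero]
  refine false_of_integral (Ω := Ω) t ht ht2 hI (ψ H) (ψ K) (hint H) (hint K) ?_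
  rw [← he4, ← he6, ← hψ, ← hψ, ← map_mul, ← map_sub, hrel, map_mul, map_ofNat]

/-- Consumer shape with `R = A₀[X]`, `t = X` (`A₀` a UFD in which `2` is a nonzero nonunit,
e.g. any model of `ℤ_(2)`). -/
theorem false_of_integral_hom_polynomial
    {A B A₀ : Type*} [CommRing A] [CommRing B] [IsDomain B] [Algebra A B] [Algebra.IsIntegral A B]
    (hAB : Function.Injective (algebraMap A B))
    [CommRing A₀] [IsDomain A₀] [UniqueFactorizationMonoid A₀]
    (h2u : ¬ IsUnit (2 : A₀)) (h20 : (2 : A₀) ≠ 0) (φ : A →+* A₀[X])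
    (e4 e6 : A) (he4 : φ e4 = X ^ 4 - 24 * X) (he6 : φ e6 = X ^ 6 - 36 * X ^ 3 + 216)
    (H K : B) (hrel : algebraMap A B e4 * H - algebraMap A B e6 = 8 * K) : False := by
  refine false_of_integral_hom hAB φ (X : A₀[X]) prime_X ?_ ?_ e4 e6 he4 he6 H K hrel
  · rw [X_dvd_iff]
    have : (2 : A₀[X]).coeff 0 = 2 := by
      rw [show (2 : A₀[X]) = C (2 : A₀) from (map_ofNat C 2).symm, coeff_C_zero]
    rw [this]; exact h20
  · intro htop
    have h1 : (1 : A₀[X]) ∈ Ideal.span {(2 : A₀[X]), X} := by rw [htop]; trivial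
    obtain ⟨a, b, hab⟩ := Ideal.mem_span_pair.mp h1
    have h0 := congrArg (fun p : A₀[X] => p.coeff 0) hab
    have e2 : (2 : A₀[X]) = C (2 : A₀) := (map_ofNat C 2).symm
    simp only [coeff_add, coeff_one_zero, e2, coeff_mul_C, coeff_mul_X_zero, add_zero] at h0
    exact h2u (IsUnit.of_mul_eq_one _ (by rw [mul_comm]; exact h0))

end Consumer

/-- Sanity check: the hypotheses on the base ring hold for `ℤ`. -/
example {Ω : Type*} [Field Ω] [Algebra ℤ[X] Ω] [FaithfulSMul ℤ[X] Ω] (h k : Ω)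
    (hh : IsIntegral ℤ[X] h) (hk : IsIntegral ℤ[X] k)
    (hrel : algebraMap ℤ[X] Ω (X ^ 4 - 24 * X) * h - algebraMap ℤ[X] Ω (X ^ 6 - 36 * X ^ 3 + 216)
      = 8 * k) : False :=
  false_of_integral_polynomial (by decide) (by decide) h k hh hk hrel

end Fermat.Agent.Lib.SupersingularElim
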