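import Mathlib

/-!
# The Tate module attached to a Kummer-type embedding (abstract, Mathlib only)

Data (`KummerDatum`): a prime `p`, an abelian group `J`, a group `Γ`, a commutative group `U`
with a compatible system `ζ k` of elements of exact order `p ^ k` generating the `p ^ k`-torsion
of `U`, and a map `ψ : J → (Γ →* U)` which is additive and injective on `p`-power torsion.

Output: the "Tate module" `tate : Submodule ℤ_[p] (Additive Γ →+ ℤ_[p])` of all `h` such that for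
every `k` the character `γ ↦ ζ k ^ (h γ mod p ^ k)` is `ψ x` for some `x` with `p ^ k • x = 0`,
together with its functoriality in `J`.
-/

set_option autoImplicit false

namespace Fermat.Agent.Lib.TateEigen

open PadicInt

/-- A compatible system of elements `ζ k` of exact order `p ^ k` generating the `p ^ k`-torsion. -/
structure RootSystem (p : ℕ) (U : Type*) [CommGroup U] where
  ζ : ℕ → U
  pow_p : ∀ k, ζ (k + 1) ^ p = ζ k
  order : ∀ k, orderOf (ζ k) = p ^ k
  gen : ∀ (k : ℕ) (u : U), u ^ p ^ k = 1 → u ∈ Subgroup.zpowers (ζ k)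

namespace RootSystem

variable {p : ℕ} {U : Type*} [CommGroup U] (R : RootSystem p U)

theorem pow_order (k : ℕ) : R.ζ k ^ p ^ k = 1 := by
  rw [← R.order k]; exact pow_orderOf_eq_one _

theorem pow_mod (k n : ℕ) : R.ζ k ^ (n % p ^ k) = R.ζ k ^ n := by
  rw [← R.order k]; exact pow_mod_orderOf _ _

variable [hp : Fact p.Prime]

/-- The character `z ↦ ζ k ^ (z mod p ^ k)` of `ℤ_[p]`. -/
noncomputable def E (k : ℕ) : AddChar ℤ_[p] U :=
  (AddChar.zmodChar (p ^ k) (R.pow_order k)).compAddMonoidHom (toZModPow k).toAddMonoidHom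

theorem E_apply (k : ℕ) (z : ℤ_[p]) : R.E k z = R.ζ k ^ (toZModPow k z).val := by
  simp [E, AddChar.zmodChar_apply]

theorem E_natCast (k n : ℕ) : R.E k (n : ℤ_[p]) = R.ζ k ^ n := by
  rw [E_apply, map_natCast, ZMod.val_natCast, R.pow_mod]

theorem E_intCast (k : ℕ) (n : ℤ) : R.E k (n : ℤ_[p]) = R.ζ k ^ n := by
  have h1 : R.E k 1 = R.ζ k := by simpa using R.E_natCast k 1
  have h2 : (n : ℤ_[p]) = n • (1 : ℤ_[p]) := by simp
  rw [h2, AddChar.map_zsmul_eq_zpow, h1]

theorem E_eq_one_iff (k : ℕ) (z : ℤ_[p]) : R.E k z = 1 ↔ toZModPow k z = 0 := by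
  rw [E_apply, ← orderOf_dvd_iff_pow_eq_one, R.order k]
  constructor
  · intro h
    have hlt := ZMod.val_lt (toZModPow k z)
    have := Nat.eq_zero_of_dvd_of_lt h hlt
    exact (ZMod.val_eq_zero _).mp this
  · intro h
    rw [h, ZMod.val_zero]
    exact dvd_zero _

theorem E_eq_one_iff_mem (k : ℕ) (z : ℤ_[p]) :
    R.E k z = 1 ↔ z ∈ Ideal.span {(p : ℤ_[p]) ^ k} := by
  rw [E_eq_one_iff, ← ker_toZModPow, RingHom.mem_ker]

theorem E_eq_iff (k : ℕ) (z w : ℤ_[p]) : R.E k z = R.E k w ↔ toZModPow k z = toZModPow k w := by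
  have h : R.E k z = R.E k w ↔ R.E k (z - w) = 1 := by
    rw [sub_eq_add_neg, AddChar.map_add_eq_mul, AddChar.map_neg_eq_inv, mul_inv_eq_one]
  rw [h, E_eq_one_iff, map_sub, sub_eq_zero]

theorem E_succ_pow (k : ℕ) (z : ℤ_[p]) : R.E (k + 1) z ^ p = R.E k z := by
  rw [E_apply, E_apply, ← pow_mul, mul_comm, pow_mul, R.pow_p,
    ← cast_toZModPow k (k + 1) (Nat.le_succ k) z, ← ZMod.natCast_val, ZMod.val_natCast, R.pow_mod]

theorem E_pow_mul (j k : ℕ) (z : ℤ_[p]) : R.E (j + k) ((p : ℤ_[p]) ^ k * z) = R.E j z := by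
  induction k with
  | zero => simp
  | succ k ih =>
    have : (p : ℤ_[p]) ^ (k + 1) * z = p • ((p : ℤ_[p]) ^ k * z) := by
      rw [nsmul_eq_mul, pow_succ]; ring
    rw [this, AddChar.map_nsmul_eq_pow, ← add_assoc, E_succ_pow, ih]

theorem E_mul (k : ℕ) (a z : ℤ_[p]) : R.E k (a * z) = R.E k z ^ (a.appr k) := by
  have h2 : toZModPow k a = (a.appr k : ZMod (p ^ k)) := by
    have := appr_spec k a
    rwa [← ker_toZModPow, RingHom.mem_ker, map_sub, map_natCast, sub_eq_zero] at this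
  rw [← AddChar.map_nsmul_eq_pow, E_eq_iff, nsmul_eq_mul, map_mul, map_mul, map_natCast, h2]

theorem exists_E_eq (k : ℕ) (u : U) (hu : u ^ p ^ k = 1) : ∃ z : ℤ_[p], R.E k z = u := by
  obtain ⟨n, rfl⟩ := Subgroup.mem_zpowers_iff.mp (R.gen k u hu)
  exact ⟨(n : ℤ_[p]), R.E_intCast k n⟩

end RootSystem


/-- a `p`-adically Cauchy sequence of `p`-adic integers has a limit. -/
theorem exists_padic_limit {p : ℕ} [hp : Fact p.Prime] (f : ℕ → ℤ_[p])
    (hf : ∀ m n, m ≤ n → toZModPow m (f n) = toZModPow m (f m)) :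
    ∃ L : ℤ_[p], ∀ n, toZModPow n L = toZModPow n (f n) := by
  have key : ∀ (m : ℕ) (x y : ℤ_[p]),
      x ≡ y [SMOD (IsLocalRing.maximalIdeal ℤ_[p] ^ m • ⊤ : Submodule ℤ_[p] ℤ_[p])] ↔
        toZModPow m x = toZModPow m y := by
    intro m x y
    rw [SModEq.sub_mem, smul_eq_mul, Ideal.mul_top, maximalIdeal_eq_span_p,
      Ideal.span_singleton_pow, ← ker_toZModPow, RingHom.mem_ker, map_sub, sub_eq_zero]
  have hprec : IsPrecomplete (IsLocalRing.maximalIdeal ℤ_[p]) ℤ_[p] := inferInstance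
  obtain ⟨L, hL⟩ := hprec.prec (f := f) (fun {m n} hmn => (key m _ _).mpr (hf m n hmn).symm)
  exact ⟨L, fun n => ((key n _ _).mp (hL n)).symm⟩

/-- A Kummer datum: a root system in `U` and a map `ψ : J → (Γ →* U)` which is additive and
injective on the `p`-power torsion of `J`. -/
structure KummerDatum (p : ℕ) (J Γ U : Type*) [AddCommGroup J] [Group Γ] [CommGroup U]
    extends RootSystem p U where
  ψ : J → Γ →* U
  ψ_add : ∀ (k : ℕ) (x y : J), p ^ k • x = 0 → p ^ k • y = 0 → ψ (x + y) = ψ x * ψ y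
  ψ_inj : ∀ (k : ℕ) (x : J), p ^ k • x = 0 → ψ x = 1 → x = 0

namespace KummerDatum

variable {p : ℕ} {J Γ U : Type*} [AddCommGroup J] [Group Γ] [CommGroup U]
  (D : KummerDatum p J Γ U)

theorem ψ_zero : D.ψ 0 = 1 := by
  have h := D.ψ_add 0 0 0 (by simp) (by simp)
  rw [add_zero] at h
  exact left_eq_mul.mp h

theorem ψ_nsmul (k : ℕ) (x : J) (hx : p ^ k • x = 0) (n : ℕ) : D.ψ (n • x) = D.ψ x ^ n := by
  induction n with
  | zero => simp [D.ψ_zero]
  | succ n ih =>
    rw [succ_nsmul, D.ψ_add k _ _ (by rw [smul_comm, hx, smul_zero]) hx, ih, pow_succ]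

theorem ψ_neg (k : ℕ) (x : J) (hx : p ^ k • x = 0) : D.ψ (-x) = (D.ψ x)⁻¹ := by
  have h := D.ψ_add k x (-x) hx (by rw [smul_neg, hx, neg_zero])
  rw [add_neg_cancel, D.ψ_zero] at h
  exact eq_inv_of_mul_eq_one_right h.symm

theorem ψ_eq (k : ℕ) (x y : J) (hx : p ^ k • x = 0) (hy : p ^ k • y = 0) (h : D.ψ x = D.ψ y) :
    x = y := by
  have h1 := D.ψ_add k x (-y) hx (by rw [smul_neg, hy, neg_zero])
  rw [D.ψ_neg k y hy, h, mul_inv_cancel] at h1
  have h2 := D.ψ_inj k (x + -y) (by rw [smul_add, smul_neg, hx, hy, neg_zero, add_zero]) h1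
  exact add_neg_eq_zero.mp h2

variable [hp : Fact p.Prime]

/-- `x` represents the `p`-adic function `h` at level `k`: `p ^ k • x = 0` and
`ψ x = ζ k ^ (h mod p ^ k)`. -/
def IsRep (k : ℕ) (x : J) (h : Γ → ℤ_[p]) : Prop :=
  p ^ k • x = 0 ∧ ∀ γ : Γ, D.ψ x γ = D.toRootSystem.E k (h γ)

namespace IsRep

variable {D}
variable {k : ℕ} {x y : J} {h g : Γ → ℤ_[p]}

theorem zero (D : KummerDatum p J Γ U) (k : ℕ) : D.IsRep k 0 0 :=
  ⟨smul_zero _, fun γ => by rw [D.ψ_zero]; simp⟩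

theorem add (hx : D.IsRep k x h) (hy : D.IsRep k y g) : D.IsRep k (x + y) (h + g) :=
  ⟨by rw [smul_add, hx.1, hy.1, add_zero], fun γ => by
    rw [D.ψ_add k x y hx.1 hy.1, MonoidHom.mul_apply, hx.2, hy.2, Pi.add_apply,
      AddChar.map_add_eq_mul]⟩

theorem smul (a : ℤ_[p]) (hx : D.IsRep k x h) : D.IsRep k (a.appr k • x) (a • h) :=
  ⟨by rw [smul_comm, hx.1, smul_zero], fun γ => by
    rw [D.ψ_nsmul k x hx.1, MonoidHom.pow_apply, hx.2, Pi.smul_apply, smul_eq_mul,
      RootSystem.E_mul]⟩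

theorem unique_left (hx : D.IsRep k x h) (hy : D.IsRep k y h) : x = y :=
  D.ψ_eq k x y hx.1 hy.1 (MonoidHom.ext fun γ => by rw [hx.2, hy.2])

theorem unique_right (hx : D.IsRep k x h) (hy : D.IsRep k x g) (γ : Γ) :
    toZModPow k (h γ) = toZModPow k (g γ) :=
  (RootSystem.E_eq_iff _ _ _ _).mp ((hx.2 γ).symm.trans (hy.2 γ))

theorem succ (hx : D.IsRep (k + 1) x h) : D.IsRep k (p • x) h :=
  ⟨by rw [smul_smul, ← pow_succ]; exact hx.1, fun γ => by
    rw [D.ψ_nsmul (k + 1) x hx.1, MonoidHom.pow_apply, hx.2, RootSystem.E_succ_pow]⟩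

theorem pow {j : ℕ} (k : ℕ) (hx : D.IsRep (j + k) x h) : D.IsRep j (p ^ k • x) h := by
  induction k generalizing x with
  | zero => simpa using hx
  | succ k ih =>
    have := ih (x := p • x) (succ (k := j + k) hx)
    rwa [smul_smul, ← pow_succ] at this

/-- Division by `p ^ k`. -/
theorem of_pow_smul {j : ℕ} (k : ℕ) (hx : D.IsRep (j + k) x (((p : ℤ_[p]) ^ k) • g))
    (hj : p ^ j • x = 0) : D.IsRep j x g :=
  ⟨hj, fun γ => by rw [hx.2, Pi.smul_apply, smul_eq_mul, RootSystem.E_pow_mul]⟩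

end IsRep

/-- The Tate module of a Kummer datum, as a `ℤ_[p]`-submodule of the functions `Γ → ℤ_[p]`
(its elements are automatically homomorphisms, see `map_mul_of_mem_tate`). -/
def tate : Submodule ℤ_[p] (Γ → ℤ_[p]) where
  carrier := {h | ∀ k, ∃ x, D.IsRep k x h}
  add_mem' := fun {a b} ha hb k => by
    obtain ⟨x, hx⟩ := ha k
    obtain ⟨y, hy⟩ := hb k
    exact ⟨_, hx.add hy⟩
  zero_mem' := fun k => ⟨0, IsRep.zero D k⟩
  smul_mem' := fun a h hh k => by
    obtain ⟨x, hx⟩ := hh k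
    exact ⟨_, hx.smul a⟩

theorem mem_tate {h : Γ → ℤ_[p]} : h ∈ D.tate ↔ ∀ k, ∃ x, D.IsRep k x h := Iff.rfl

/-- Elements of the Tate module are homomorphisms `Γ → ℤ_[p]`. -/
theorem map_mul_of_mem_tate {h : Γ → ℤ_[p]} (hh : h ∈ D.tate) (a b : Γ) :
    h (a * b) = h a + h b := by
  refine ext_of_toZModPow.mp fun k => ?_
  obtain ⟨x, hx⟩ := hh k
  rw [← RootSystem.E_eq_iff D.toRootSystem, AddChar.map_add_eq_mul, ← hx.2, ← hx.2, ← hx.2,
    map_mul]

/-- An element of the Tate module as an additive homomorphism. -/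
noncomputable def homOf (h : D.tate) : Additive Γ →+ ℤ_[p] :=
  AddMonoidHom.mk' (fun γ => (h : Γ → ℤ_[p]) (Additive.toMul γ)) fun a b =>
    D.map_mul_of_mem_tate h.2 (Additive.toMul a) (Additive.toMul b)

@[simp] theorem homOf_apply (h : D.tate) (γ : Γ) :
    D.homOf h (Additive.ofMul γ) = (h : Γ → ℤ_[p]) γ := rfl

/-- The level-`k` component of an element of the Tate module. -/
noncomputable def toJ (k : ℕ) (h : D.tate) : J := (h.2 k).choose

theorem isRep_toJ (k : ℕ) (h : D.tate) : D.IsRep k (D.toJ k h) h := (h.2 k).choose_spec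

theorem toJ_eq {k : ℕ} {h : D.tate} {x : J} (hx : D.IsRep k x h) : D.toJ k h = x :=
  (D.isRep_toJ k h).unique_left hx

theorem pow_smul_toJ (k : ℕ) (h : D.tate) : p ^ k • D.toJ k h = 0 := (D.isRep_toJ k h).1

@[simp] theorem toJ_zero (k : ℕ) : D.toJ k 0 = 0 := D.toJ_eq (IsRep.zero D k)

theorem toJ_add (k : ℕ) (h g : D.tate) : D.toJ k (h + g) = D.toJ k h + D.toJ k g :=
  D.toJ_eq ((D.isRep_toJ k h).add (D.isRep_toJ k g))

theorem toJ_smul (k : ℕ) (a : ℤ_[p]) (h : D.tate) : D.toJ k (a • h) = a.appr k • D.toJ k h :=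
  D.toJ_eq ((D.isRep_toJ k h).smul a)

theorem smul_toJ_succ (k : ℕ) (h : D.tate) : p • D.toJ (k + 1) h = D.toJ k h :=
  (D.toJ_eq (D.isRep_toJ (k + 1) h).succ).symm

theorem pow_smul_toJ_add (j k : ℕ) (h : D.tate) : p ^ k • D.toJ (j + k) h = D.toJ j h :=
  (D.toJ_eq ((D.isRep_toJ (j + k) h).pow k)).symm

theorem ext_toJ {h g : D.tate} (H : ∀ k, D.toJ k h = D.toJ k g) : h = g := by
  refine Subtype.ext (funext fun γ => ext_of_toZModPow.mp fun k => ?_)
  have h1 := D.isRep_toJ k h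
  rw [H k] at h1
  exact h1.unique_right (D.isRep_toJ k g) γ

/-- Lifting: a compatible sequence of `p`-power torsion elements defines an element of the Tate
module. -/
theorem exists_isRep_of_compatible (x : ℕ → J) (h0 : ∀ k, p ^ k • x k = 0)
    (h1 : ∀ k, p • x (k + 1) = x k) :
    ∃ h : Γ → ℤ_[p], ∀ k, D.IsRep k (x k) h := by
  have hpow : ∀ (k : ℕ) (γ : Γ), D.ψ (x k) γ ^ p ^ k = 1 := by
    intro k γ
    rw [← MonoidHom.pow_apply, ← D.ψ_nsmul k (x k) (h0 k), h0 k, D.ψ_zero, MonoidHom.one_apply]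
  choose c hc using fun (γ : Γ) (k : ℕ) => D.toRootSystem.exists_E_eq k _ (hpow k γ)
  have hstep : ∀ (γ : Γ) (k : ℕ), toZModPow k (c γ (k + 1)) = toZModPow k (c γ k) := by
    intro γ k
    rw [← RootSystem.E_eq_iff D.toRootSystem, ← RootSystem.E_succ_pow, hc, hc,
      ← MonoidHom.pow_apply, ← D.ψ_nsmul (k + 1) _ (h0 (k + 1)), h1 k]
  have hcau : ∀ (γ : Γ) (m n : ℕ), m ≤ n → toZModPow m (c γ n) = toZModPow m (c γ m) := by
    intro γ m n hmn
    induction n, hmn using Nat.le_induction with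
    | base => rfl
    | succ n hmn ih =>
      rw [← ih, ← cast_toZModPow m n hmn (c γ (n + 1)), ← cast_toZModPow m n hmn (c γ n),
        hstep γ n]
  choose L hL using fun γ : Γ => exists_padic_limit (c γ) (hcau γ)
  refine ⟨L, fun k => ⟨h0 k, fun γ => ?_⟩⟩
  rw [← hc γ k, RootSystem.E_eq_iff, hL γ k]

/-! ### Functoriality in `J` -/

theorem exists_map (f : AddMonoid.End J) (h : D.tate) :
    ∃ h' : D.tate, ∀ k, D.toJ k h' = f (D.toJ k h) := by
  obtain ⟨h', hh'⟩ := D.exists_isRep_of_compatible (fun k => f (D.toJ k h))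
    (fun k => by rw [← map_nsmul, D.pow_smul_toJ, map_zero])
    (fun k => by rw [← map_nsmul, D.smul_toJ_succ])
  exact ⟨⟨h', fun k => ⟨_, hh' k⟩⟩, fun k => D.toJ_eq (hh' k)⟩

/-- The action of an additive endomorphism of `J` on the Tate module (as a function). -/
noncomputable def mapFun (f : AddMonoid.End J) (h : D.tate) : D.tate := (D.exists_map f h).choose

theorem toJ_mapFun (f : AddMonoid.End J) (h : D.tate) (k : ℕ) :
    D.toJ k (D.mapFun f h) = f (D.toJ k h) :=
  (D.exists_map f h).choose_spec k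

/-- The action of the additive endomorphisms of `J` on the Tate module. -/
noncomputable def tateMap : AddMonoid.End J →+* Module.End ℤ_[p] D.tate where
  toFun f :=
    { toFun := D.mapFun f
      map_add' := fun h g => D.ext_toJ fun k => by
        rw [toJ_mapFun, toJ_add, toJ_add, map_add, toJ_mapFun, toJ_mapFun]
      map_smul' := fun a h => D.ext_toJ fun k => by
        rw [toJ_mapFun, RingHom.id_apply, toJ_smul, toJ_smul, map_nsmul, toJ_mapFun] }
  map_one' := LinearMap.ext fun h => D.ext_toJ fun k => by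
    rw [LinearMap.coe_mk, AddHom.coe_mk, toJ_mapFun]; rfl
  map_mul' := fun f g => LinearMap.ext fun h => D.ext_toJ fun k => by
    rw [Module.End.mul_apply, LinearMap.coe_mk, AddHom.coe_mk, LinearMap.coe_mk, AddHom.coe_mk,
      LinearMap.coe_mk, AddHom.coe_mk, toJ_mapFun, toJ_mapFun, toJ_mapFun]; rfl
  map_zero' := LinearMap.ext fun h => D.ext_toJ fun k => by
    rw [LinearMap.coe_mk, AddHom.coe_mk, toJ_mapFun]; simp
  map_add' := fun f g => LinearMap.ext fun h => D.ext_toJ fun k => by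
    rw [LinearMap.add_apply, LinearMap.coe_mk, AddHom.coe_mk, LinearMap.coe_mk, AddHom.coe_mk,
      LinearMap.coe_mk, AddHom.coe_mk, toJ_mapFun, toJ_add, toJ_mapFun, toJ_mapFun]; rfl

theorem toJ_tateMap (f : AddMonoid.End J) (h : D.tate) (k : ℕ) :
    D.toJ k (D.tateMap f h) = f (D.toJ k h) := D.toJ_mapFun f h k

/-- Two endomorphisms agreeing on the `p`-power torsion induce the same map on the Tate module. -/
theorem tateMap_congr {f g : AddMonoid.End J}
    (H : ∀ (k : ℕ) (x : J), p ^ k • x = 0 → f x = g x) : D.tateMap f = D.tateMap g :=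
  LinearMap.ext fun h => D.ext_toJ fun k => by
    rw [toJ_tateMap, toJ_tateMap, H k _ (D.pow_smul_toJ k h)]

theorem tateMap_eq_zero {f : AddMonoid.End J}
    (H : ∀ (k : ℕ) (x : J), p ^ k • x = 0 → f x = 0) : D.tateMap f = 0 := by
  rw [← map_zero D.tateMap]
  exact D.tateMap_congr fun k x hx => by rw [H k x hx]; rfl

/-- An element of the Tate module whose level-`k` component vanishes is divisible by `p ^ k`. -/
theorem exists_eq_pow_smul_of_toJ_eq_zero (k : ℕ) (g : D.tate) (hg : D.toJ k g = 0) :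
    ∃ q : D.tate, g = (p : ℤ_[p]) ^ k • q := by
  have hmem : ∀ γ : Γ, ∃ z : ℤ_[p], (g : Γ → ℤ_[p]) γ = (p : ℤ_[p]) ^ k * z := by
    intro γ
    have h1 := (D.isRep_toJ k g).2 γ
    rw [hg, D.ψ_zero, MonoidHom.one_apply] at h1
    have h2 := (RootSystem.E_eq_one_iff_mem D.toRootSystem k _).mp h1.symm
    obtain ⟨z, hz⟩ := Ideal.mem_span_singleton'.mp h2
    exact ⟨z, by rw [mul_comm]; exact hz.symm⟩
  choose q hq using hmem
  have hgq : (g : Γ → ℤ_[p]) = (p : ℤ_[p]) ^ k • q :=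
    funext fun γ => by rw [Pi.smul_apply, smul_eq_mul, hq]
  have hq' : q ∈ D.tate := by
    intro j
    refine ⟨D.toJ (j + k) g, IsRep.of_pow_smul k ?_ ?_⟩
    · rw [← hgq]; exact D.isRep_toJ (j + k) g
    · have h4 : p ^ j • D.toJ (j + k) g = D.toJ k g := by
        rw [add_comm j k]; exact D.pow_smul_toJ_add k j g
      rw [h4, hg]
  exact ⟨⟨q, hq'⟩, Subtype.ext hgq⟩

/-- Continuity: an endomorphism fixing the `p ^ k`-torsion of `J` acts trivially on the Tate
module modulo `p ^ k`. -/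
theorem tateMap_sub_mem (k : ℕ) (f : AddMonoid.End J) (H : ∀ x : J, p ^ k • x = 0 → f x = x)
    (h : D.tate) : ∃ q : D.tate, D.tateMap f h - h = (p : ℤ_[p]) ^ k • q := by
  apply D.exists_eq_pow_smul_of_toJ_eq_zero
  have : D.tateMap f h = (D.tateMap f h - h) + h := by abel
  have h2 := congrArg (D.toJ k) this
  rw [toJ_add, toJ_tateMap, H _ (D.pow_smul_toJ k h)] at h2
  exact (add_eq_right.mp h2.symm)

/-! ### Compatible operators on functions `Γ → ℤ_[p]` -/

/-- If `tC` is an operator on functions `Γ → ℤ_[p]` which corresponds to `f` on the level of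
representatives, then `tC` preserves the Tate module and coincides there with `tateMap f`. -/
theorem tateMap_eq_of_compat (f : AddMonoid.End J) (tC : (Γ → ℤ_[p]) → (Γ → ℤ_[p]))
    (H : ∀ (k : ℕ) (x : J) (h : Γ → ℤ_[p]), h ∈ D.tate → D.IsRep k x h → D.IsRep k (f x) (tC h))
    (h : D.tate) : ((D.tateMap f h : D.tate) : Γ → ℤ_[p]) = tC h := by
  have hmem : tC h ∈ D.tate := fun k => ⟨_, H k _ _ h.2 (D.isRep_toJ k h)⟩
  have : D.tateMap f h = ⟨tC h, hmem⟩ := D.ext_toJ fun k => by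
    rw [toJ_tateMap]
    exact (D.toJ_eq (h := ⟨tC h, hmem⟩) (H k _ _ h.2 (D.isRep_toJ k h))).symm
  rw [this]

/-! ### Integral classes -/

/-- An integer-valued function all of whose reductions are represented lies in the Tate
module. -/
theorem intCast_mem_tate (φ : Γ → ℤ)
    (H : ∀ k : ℕ, ∃ x : J, p ^ k • x = 0 ∧ ∀ γ : Γ, D.ψ x γ = D.ζ k ^ φ γ) :
    (fun γ => ((φ γ : ℤ) : ℤ_[p])) ∈ D.tate := by
  intro k
  obtain ⟨x, hx0, hx⟩ := H k
  exact ⟨x, hx0, fun γ => by rw [hx, RootSystem.E_intCast]⟩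

/-! ### Finiteness -/

instance instFiniteTate [Group.FG Γ] : Module.Finite ℤ_[p] D.tate := by
  obtain ⟨S, hS, hfin⟩ := Group.fg_iff.mp (inferInstance : Group.FG Γ)
  have : Finite S := hfin.to_subtype
  let res : D.tate →ₗ[ℤ_[p]] (S → ℤ_[p]) :=
    { toFun := fun h s => (h : Γ → ℤ_[p]) s.1
      map_add' := fun _ _ => rfl
      map_smul' := fun _ _ => rfl }
  refine Module.Finite.of_injective res fun h g hhg => ?_
  have h1 : AddMonoidHom.toMultiplicativeRight (D.homOf h) =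
      AddMonoidHom.toMultiplicativeRight (D.homOf g) :=
    MonoidHom.eq_of_eqOn_dense hS fun s hs => congrFun hhg ⟨s, hs⟩
  have h2 := AddMonoidHom.toMultiplicativeRight.injective h1
  exact Subtype.ext (funext fun γ => DFunLike.congr_fun h2 (Additive.ofMul γ))

theorem free_tate [Group.FG Γ] : Module.Free ℤ_[p] D.tate := inferInstance

theorem isTorsionFree_tate : Module.IsTorsionFree ℤ_[p] D.tate := inferInstance

/-! ### Coefficients -/

section Coeff

open TensorProduct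

variable (O : Type*) [CommRing O] [Algebra ℤ_[p] O]

/-- The action of `End J` on the Tate module with coefficients in `O`. -/
noncomputable def mapO : AddMonoid.End J →+* Module.End O (O ⊗[ℤ_[p]] D.tate) :=
  (Module.End.baseChangeHom ℤ_[p] O D.tate).toRingHom.comp D.tateMap

theorem mapO_tmul (f : AddMonoid.End J) (a : O) (h : D.tate) :
    D.mapO O f (a ⊗ₜ h) = a ⊗ₜ D.tateMap f h := rfl

theorem mapO_congr {f g : AddMonoid.End J}
    (H : ∀ (k : ℕ) (x : J), p ^ k • x = 0 → f x = g x) : D.mapO O f = D.mapO O g := by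
  unfold mapO
  rw [RingHom.comp_apply, RingHom.comp_apply, D.tateMap_congr H]

theorem mapO_eq_zero {f : AddMonoid.End J}
    (H : ∀ (k : ℕ) (x : J), p ^ k • x = 0 → f x = 0) : D.mapO O f = 0 := by
  unfold mapO
  rw [RingHom.comp_apply, D.tateMap_eq_zero H, map_zero]

/-- Continuity with coefficients. -/
theorem mapO_sub_mem (k : ℕ) (f : AddMonoid.End J) (H : ∀ x : J, p ^ k • x = 0 → f x = x)
    (w : O ⊗[ℤ_[p]] D.tate) :
    ∃ q : O ⊗[ℤ_[p]] D.tate, D.mapO O f w - w = (p : O) ^ k • q := by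
  induction w using TensorProduct.induction_on with
  | zero => exact ⟨0, by simp⟩
  | tmul a h =>
    obtain ⟨q, hq⟩ := D.tateMap_sub_mem k f H h
    refine ⟨a ⊗ₜ q, ?_⟩
    have hq' : D.tateMap f h = (p : ℤ_[p]) ^ k • q + h := by rw [← hq, sub_add_cancel]
    rw [mapO_tmul, hq', tmul_add, add_sub_cancel_right, tmul_smul,
      ← algebraMap_smul O ((p : ℤ_[p]) ^ k) (a ⊗ₜ[ℤ_[p]] q), map_pow, map_natCast]
  | add x y hx hy =>
    obtain ⟨q1, h1⟩ := hx
    obtain ⟨q2, h2⟩ := hy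
    exact ⟨q1 + q2, by rw [map_add, add_sub_add_comm, h1, h2, smul_add]⟩

/-- Evaluation `O ⊗ tate → (Γ → O)`. -/
noncomputable def evalO : O ⊗[ℤ_[p]] D.tate →ₗ[O] (Γ → O) :=
  LinearMap.liftBaseChange O
    { toFun := fun h γ => algebraMap ℤ_[p] O ((h : Γ → ℤ_[p]) γ)
      map_add' := fun h g => funext fun γ => by simp
      map_smul' := fun a h => funext fun γ => by simp [Algebra.smul_def] }

theorem evalO_tmul (a : O) (h : D.tate) (γ : Γ) :
    D.evalO O (a ⊗ₜ h) γ = a * algebraMap ℤ_[p] O ((h : Γ → ℤ_[p]) γ) := by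
  simp [evalO]

variable {ι : Type*}

/-- The common eigenlattice of the operators `t i` with eigenvalues `c i`. -/
noncomputable def eigenLattice (t : ι → AddMonoid.End J) (c : ι → O) : Submodule O (O ⊗[ℤ_[p]] D.tate) :=
  ⨅ i, LinearMap.ker (D.mapO O (t i) - c i • (1 : Module.End O (O ⊗[ℤ_[p]] D.tate)))

variable {O}

theorem mem_eigenLattice {t : ι → AddMonoid.End J} {c : ι → O} {w : O ⊗[ℤ_[p]] D.tate} :
    w ∈ D.eigenLattice O t c ↔ ∀ i, D.mapO O (t i) w = c i • w := by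
  simp [eigenLattice, Submodule.mem_iInf, sub_eq_zero]

/-- Endomorphisms of `J` commuting with the `t i` (on `p`-power torsion) preserve the
eigenlattice. -/
theorem mapO_mem_eigenLattice {t : ι → AddMonoid.End J} {c : ι → O} (g : AddMonoid.End J)
    (hg : ∀ (i : ι) (k : ℕ) (x : J), p ^ k • x = 0 → g (t i x) = t i (g x))
    {w : O ⊗[ℤ_[p]] D.tate} (hw : w ∈ D.eigenLattice O t c) :
    D.mapO O g w ∈ D.eigenLattice O t c := by
  rw [mem_eigenLattice] at hw ⊢
  intro i
  have hcomm : D.mapO O (t i) * D.mapO O g = D.mapO O g * D.mapO O (t i) := by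
    rw [← map_mul, ← map_mul]
    exact D.mapO_congr O fun k x hx => (hg i k x hx).symm
  calc D.mapO O (t i) (D.mapO O g w) = (D.mapO O (t i) * D.mapO O g) w := rfl
    _ = D.mapO O g (D.mapO O (t i) w) := by rw [hcomm]; rfl
    _ = c i • D.mapO O g w := by rw [hw i, map_smul]

theorem eigenLattice_saturated [IsDomain O] [Module.IsTorsionFree O (O ⊗[ℤ_[p]] D.tate)]
    {t : ι → AddMonoid.End J} {c : ι → O} {a : O} (ha : a ≠ 0) {q : O ⊗[ℤ_[p]] D.tate}
    (hq : a • q ∈ D.eigenLattice O t c) : q ∈ D.eigenLattice O t c := by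
  rw [mem_eigenLattice] at hq ⊢
  intro i
  have h := hq i
  rw [map_smul, smul_comm (c i) a q] at h
  exact smul_right_injective _ ha h

/-- Continuity on the eigenlattice. -/
theorem mapO_sub_mem_eigenLattice [IsDomain O] [Module.IsTorsionFree O (O ⊗[ℤ_[p]] D.tate)]
    (hpO : (p : O) ≠ 0) {t : ι → AddMonoid.End J} {c : ι → O} (k : ℕ) (f : AddMonoid.End J)
    (H : ∀ x : J, p ^ k • x = 0 → f x = x)
    (hf : ∀ (i : ι) (k : ℕ) (x : J), p ^ k • x = 0 → f (t i x) = t i (f x))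
    {w : O ⊗[ℤ_[p]] D.tate} (hw : w ∈ D.eigenLattice O t c) :
    ∃ q ∈ D.eigenLattice O t c, D.mapO O f w - w = (p : O) ^ k • q := by
  obtain ⟨q, hq⟩ := D.mapO_sub_mem O k f H w
  refine ⟨q, D.eigenLattice_saturated (pow_ne_zero k hpO) ?_, hq⟩
  rw [← hq]
  exact Submodule.sub_mem _ (D.mapO_mem_eigenLattice f hf hw) hw

/-- A quadratic relation on the `p`-power torsion of `J` gives the relation with the eigenvalue
on the eigenlattice. -/
theorem eigen_relation {t : ι → AddMonoid.End J} {c : ι → O} (i : ι) (g : AddMonoid.End J)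
    (n : ℕ) (hg : ∀ (i : ι) (k : ℕ) (x : J), p ^ k • x = 0 → g (t i x) = t i (g x))
    (hrel : ∀ (k : ℕ) (x : J), p ^ k • x = 0 → g (g x) - t i (g x) + n • x = 0)
    {w : O ⊗[ℤ_[p]] D.tate} (hw : w ∈ D.eigenLattice O t c) :
    D.mapO O g (D.mapO O g w) - c i • D.mapO O g w + (n : O) • w = 0 := by
  have h0 : D.mapO O (g * g - t i * g + (n : AddMonoid.End J)) = 0 :=
    D.mapO_eq_zero O fun k x hx => hrel k x hx
  have h1 := congrArg (fun F : Module.End O (O ⊗[ℤ_[p]] D.tate) => F w) h0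
  have h2 := (D.mem_eigenLattice.mp (D.mapO_mem_eigenLattice g hg hw)) i
  simp only [map_add, map_sub, map_mul, map_natCast, LinearMap.add_apply, LinearMap.sub_apply,
    Module.End.mul_apply, LinearMap.zero_apply] at h1
  rw [h2] at h1
  rw [← h1, Module.End.natCast_apply, Nat.cast_smul_eq_nsmul]

/-- The action on the eigenlattice of a monoid acting on `J` through endomorphisms commuting with
the `t i`. -/
noncomputable def eigenRep {G : Type*} [Monoid G] (r : G →* AddMonoid.End J)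
    (t : ι → AddMonoid.End J) (c : ι → O)
    (hr : ∀ (g : G) (i : ι) (k : ℕ) (x : J), p ^ k • x = 0 → r g (t i x) = t i (r g x)) :
    G →* Module.End O (D.eigenLattice O t c) where
  toFun g := (D.mapO O (r g)).restrict fun _ hw => D.mapO_mem_eigenLattice (r g) (hr g) hw
  map_one' := by
    ext w
    simp
  map_mul' := fun g g' => by
    ext w
    simp

@[simp] theorem eigenRep_apply {G : Type*} [Monoid G] (r : G →* AddMonoid.End J)
    (t : ι → AddMonoid.End J) (c : ι → O)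
    (hr : ∀ (g : G) (i : ι) (k : ℕ) (x : J), p ^ k • x = 0 → r g (t i x) = t i (r g x))
    (g : G) (w : D.eigenLattice O t c) :
    ((D.eigenRep r t c hr g w : D.eigenLattice O t c) : O ⊗[ℤ_[p]] D.tate) =
      D.mapO O (r g) w := rfl


/-! ### Finiteness and freeness with coefficients -/

theorem finite_tateO [Group.FG Γ] : Module.Finite O (O ⊗[ℤ_[p]] D.tate) := inferInstance

theorem free_tateO [Group.FG Γ] : Module.Free O (O ⊗[ℤ_[p]] D.tate) := inferInstance

theorem isTorsionFree_tateO [Group.FG Γ] [IsDomain O] :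
    Module.IsTorsionFree O (O ⊗[ℤ_[p]] D.tate) := inferInstance

theorem finite_eigenLattice [Group.FG Γ] [IsNoetherianRing O] (t : ι → AddMonoid.End J)
    (c : ι → O) : Module.Finite O (D.eigenLattice O t c) := inferInstance

theorem free_eigenLattice [Group.FG Γ] [IsDomain O] [IsPrincipalIdealRing O]
    (t : ι → AddMonoid.End J) (c : ι → O) : Module.Free O (D.eigenLattice O t c) := by
  have h1 : Module.IsTorsionFree O (O ⊗[ℤ_[p]] D.tate) := inferInstance
  have h2 : Module.Finite O (D.eigenLattice O t c) := inferInstance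
  have h3 : Module.IsTorsionFree O (D.eigenLattice O t c) := inferInstance
  exact Module.free_of_finite_type_torsion_free' (R := O) (M := D.eigenLattice O t c)

/-- The integral class of an integer-valued function all of whose reductions are represented,
as an element of the Tate module. -/
noncomputable def intClass (φ : Γ → ℤ)
    (H : ∀ k : ℕ, ∃ x : J, p ^ k • x = 0 ∧ ∀ γ : Γ, D.ψ x γ = D.ζ k ^ φ γ) : D.tate :=
  ⟨fun γ => ((φ γ : ℤ) : ℤ_[p]), D.intCast_mem_tate φ H⟩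

theorem isRep_intClass_iff (φ : Γ → ℤ)
    (H : ∀ k : ℕ, ∃ x : J, p ^ k • x = 0 ∧ ∀ γ : Γ, D.ψ x γ = D.ζ k ^ φ γ) (k : ℕ) (x : J) :
    D.IsRep k x (D.intClass φ H) ↔ p ^ k • x = 0 ∧ ∀ γ : Γ, D.ψ x γ = D.ζ k ^ φ γ := by
  unfold IsRep intClass
  simp only [RootSystem.E_intCast]

/-- The operator `t` maps the class of `φ` to the class of `φ'` as soon as it does so on
representatives. -/
theorem tateMap_intClass (f : AddMonoid.End J) (φ φ' : Γ → ℤ)
    (H : ∀ k : ℕ, ∃ x : J, p ^ k • x = 0 ∧ ∀ γ : Γ, D.ψ x γ = D.ζ k ^ φ γ)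
    (H' : ∀ k : ℕ, ∃ x : J, p ^ k • x = 0 ∧ ∀ γ : Γ, D.ψ x γ = D.ζ k ^ φ' γ)
    (hf : ∀ (k : ℕ) (x : J), p ^ k • x = 0 → (∀ γ : Γ, D.ψ x γ = D.ζ k ^ φ γ) →
      ∀ γ : Γ, D.ψ (f x) γ = D.ζ k ^ φ' γ) :
    D.tateMap f (D.intClass φ H) = D.intClass φ' H' := by
  refine D.ext_toJ fun k => ?_
  rw [toJ_tateMap]
  have h1 := (D.isRep_intClass_iff φ H k _).mp (D.isRep_toJ k (D.intClass φ H))
  refine (D.toJ_eq ((D.isRep_intClass_iff φ' H' k _).mpr ⟨?_, hf k _ h1.1 h1.2⟩)).symm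
  rw [← map_nsmul, h1.1, map_zero]

theorem evalO_one_tmul_intClass (φ : Γ → ℤ)
    (H : ∀ k : ℕ, ∃ x : J, p ^ k • x = 0 ∧ ∀ γ : Γ, D.ψ x γ = D.ζ k ^ φ γ) (γ : Γ) :
    D.evalO O ((1 : O) ⊗ₜ D.intClass φ H) γ = ((φ γ : ℤ) : O) := by
  rw [evalO_tmul, one_mul]
  show algebraMap ℤ_[p] O ((φ γ : ℤ) : ℤ_[p]) = _
  rw [map_intCast]

end Coeff

end KummerDatum

end Fermat.Agent.Lib.TateEigen
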