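import Mathlib

/-!
# The Tate module of a module (P5, block [TATE], part (T-A); helper14)

For a commutative ring `O`, a natural number `p` and an `O`-module `J`, the **Tate module**
`tate O p J` is the `O`-module of sequences `w : ℕ → J` with `w 0 = 0` and `p • w (k+1) = w k`
(so `w k` is `p ^ k`-torsion).

* `exists_eq_pow_smul` : if `w k = 0` then `w = p ^ k • w'` (shift);
* `tateMapHom`         : endomorphisms of `J` act componentwise (an algebra homomorphism);
* `isTorsionFree`      : over a discrete valuation ring with `p` in the maximal ideal the Tate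
  module is torsion-free;
* `finite_free`        : over a complete discrete valuation ring with `0 ≠ p ∈ 𝔪`, if the
  `p`-torsion of `J` is finite then the Tate module is finite free;
* `mem_pow_smul_top`   : `w k = 0 → w ∈ 𝔪 ^ k • ⊤`.
-/

set_option autoImplicit false

namespace Fermat.Agent.Lib.TateModule

section Defs

variable (O : Type*) [CommRing O] (p : ℕ) (J : Type*) [AddCommGroup J] [Module O J]

/-- The `p`-adic Tate module of an `O`-module `J`: sequences `w` with `w 0 = 0` and
`p • w (k+1) = w k`. -/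
def tate : Submodule O (ℕ → J) where
  carrier := {w | w 0 = 0 ∧ ∀ k, p • w (k + 1) = w k}
  zero_mem' := ⟨rfl, fun k => by simp⟩
  add_mem' := by
    rintro a b ⟨ha0, ha⟩ ⟨hb0, hb⟩
    exact ⟨by simp [ha0, hb0], fun k => by simp [smul_add, ha k, hb k]⟩
  smul_mem' := by
    rintro c a ⟨ha0, ha⟩
    exact ⟨by simp [ha0], fun k => by simp [smul_comm p c, ha k]⟩

end Defs

section Basic

variable {O : Type*} [CommRing O] {p : ℕ} {J : Type*} [AddCommGroup J] [Module O J]

theorem mem_tate {w : ℕ → J} : w ∈ tate O p J ↔ w 0 = 0 ∧ ∀ k, p • w (k + 1) = w k := Iff.rfl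

theorem apply_zero (w : tate O p J) : (w : ℕ → J) 0 = 0 := w.2.1

theorem smul_apply_succ (w : tate O p J) (k : ℕ) :
    p • (w : ℕ → J) (k + 1) = (w : ℕ → J) k := w.2.2 k

theorem pow_smul_apply_add (w : tate O p J) (k j : ℕ) :
    p ^ k • (w : ℕ → J) (j + k) = (w : ℕ → J) j := by
  induction k with
  | zero => simp
  | succ k ih => rw [pow_succ, mul_smul, ← add_assoc, smul_apply_succ, ih]

theorem pow_smul_apply (w : tate O p J) (k : ℕ) : p ^ k • (w : ℕ → J) k = 0 := by
  have h := pow_smul_apply_add w k 0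
  rwa [zero_add, apply_zero] at h

theorem pow_smul_apply_of_le (w : tate O p J) {k n : ℕ} (h : k ≤ n) :
    p ^ n • (w : ℕ → J) k = 0 := by
  obtain ⟨d, rfl⟩ := Nat.exists_eq_add_of_le h
  rw [pow_add, mul_comm, mul_smul, pow_smul_apply, smul_zero]

@[simp] theorem coe_nsmul (n : ℕ) (w : tate O p J) (k : ℕ) :
    ((n • w : tate O p J) : ℕ → J) k = n • (w : ℕ → J) k := by
  rw [← Nat.cast_smul_eq_nsmul O n w, ← Nat.cast_smul_eq_nsmul O n ((w : ℕ → J) k)]
  rfl

/-- The shift of an element vanishing at level `k`. -/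
def shift (w : tate O p J) (k : ℕ) (h : (w : ℕ → J) k = 0) : tate O p J :=
  ⟨fun j => (w : ℕ → J) (j + k), by simpa using h, fun j => by
    have h1 := smul_apply_succ w (j + k)
    rwa [add_right_comm] at h1⟩

@[simp] theorem shift_apply (w : tate O p J) (k : ℕ) (h : (w : ℕ → J) k = 0) (j : ℕ) :
    ((shift w k h : tate O p J) : ℕ → J) j = (w : ℕ → J) (j + k) := rfl

/-- **(a)** an element of the Tate module vanishing at level `k` is divisible by `p ^ k`. -/
theorem exists_eq_pow_smul (w : tate O p J) (k : ℕ) (h : (w : ℕ → J) k = 0) :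
    ∃ w' : tate O p J, w = (p ^ k : ℕ) • w' := by
  refine ⟨shift w k h, Subtype.ext (funext fun j => ?_)⟩
  rw [coe_nsmul, shift_apply, pow_smul_apply_add]

/-- Conversely a multiple of `p ^ k` vanishes at level `k`. -/
theorem pow_smul_apply_eq_zero (w : tate O p J) (k : ℕ) :
    (((p ^ k : ℕ) • w : tate O p J) : ℕ → J) k = 0 := by
  rw [coe_nsmul, pow_smul_apply]

/-- **(b)** the componentwise action of an endomorphism of `J`. -/
def tateMap (f : J →ₗ[O] J) : tate O p J →ₗ[O] tate O p J where
  toFun w := ⟨fun k => f ((w : ℕ → J) k), by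
    obtain ⟨h0, h⟩ := w.2
    exact ⟨by simp [h0], fun k => by rw [← map_nsmul, h k]⟩⟩
  map_add' a b := by ext k; simp
  map_smul' c a := by ext k; simp

@[simp] theorem tateMap_apply (f : J →ₗ[O] J) (w : tate O p J) (k : ℕ) :
    ((tateMap f w : tate O p J) : ℕ → J) k = f ((w : ℕ → J) k) := rfl

variable (O p J) in
/-- The componentwise action as an algebra homomorphism `End J → End (tate J)`. -/
def tateMapHom : Module.End O J →ₐ[O] Module.End O (tate O p J) where
  toFun := tateMap
  map_one' := by ext w k; rfl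
  map_mul' f g := by ext w k; rfl
  map_zero' := by ext w k; rfl
  map_add' f g := by ext w k; rfl
  commutes' c := by ext w k; rfl

@[simp] theorem tateMapHom_apply (f : Module.End O J) (w : tate O p J) (k : ℕ) :
    ((tateMapHom O p J f w : tate O p J) : ℕ → J) k = f ((w : ℕ → J) k) := rfl

/-- An element of the Tate module is zero iff all its components are. -/
theorem eq_zero_of_forall_apply (w : tate O p J) (h : ∀ k, (w : ℕ → J) k = 0) : w = 0 :=
  Subtype.ext (funext h)

end Basic

section Local

variable {O : Type*} [CommRing O] [IsLocalRing O] {p : ℕ} {J : Type*} [AddCommGroup J]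
  [Module O J]

/-- **(d)** an element vanishing at level `k` lies in `𝔪 ^ k • ⊤`. -/
theorem mem_pow_smul_top (hp : (p : O) ∈ IsLocalRing.maximalIdeal O) (w : tate O p J) (k : ℕ)
    (h : (w : ℕ → J) k = 0) :
    w ∈ (IsLocalRing.maximalIdeal O ^ k) • (⊤ : Submodule O (tate O p J)) := by
  obtain ⟨w', rfl⟩ := exists_eq_pow_smul w k h
  rw [← Nat.cast_smul_eq_nsmul O, Nat.cast_pow]
  exact Submodule.smul_mem_smul (Ideal.pow_mem_pow hp k) Submodule.mem_top

end Local

section DVR

variable {O : Type*} [CommRing O] [IsDomain O] [IsDiscreteValuationRing O] {p : ℕ}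
  {J : Type*} [AddCommGroup J] [Module O J]

/-- In a discrete valuation ring every nonzero ideal is a power of the maximal ideal. -/
theorem exists_eq_maximalIdeal_pow {s : Ideal O} (hs : s ≠ ⊥) :
    ∃ n : ℕ, s = IsLocalRing.maximalIdeal O ^ n := by
  obtain ⟨ϖ, hϖ⟩ := IsDiscreteValuationRing.exists_irreducible O
  obtain ⟨n, hn⟩ := IsDiscreteValuationRing.ideal_eq_span_pow_irreducible hs hϖ
  exact ⟨n, by rw [hn, hϖ.maximalIdeal_eq, Ideal.span_singleton_pow]⟩

theorem exists_pow_mem_span (hp : (p : O) ∈ IsLocalRing.maximalIdeal O) {a : O} (ha : a ≠ 0) :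
    ∃ i : ℕ, (p : O) ^ i ∈ Ideal.span {a} := by
  obtain ⟨n, hn⟩ := exists_eq_maximalIdeal_pow (s := Ideal.span {a})
    (by rwa [Ne, Ideal.span_singleton_eq_bot])
  exact ⟨n, hn ▸ Ideal.pow_mem_pow hp n⟩

theorem smul_eq_zero_imp (hp : (p : O) ∈ IsLocalRing.maximalIdeal O) {a : O} (ha : a ≠ 0)
    (w : tate O p J) (h : a • w = 0) : w = 0 := by
  obtain ⟨i, hi⟩ := exists_pow_mem_span (p := p) hp ha
  obtain ⟨c, hc⟩ := Ideal.mem_span_singleton'.mp hi
  refine eq_zero_of_forall_apply w fun k => ?_
  have h1 : a • (w : ℕ → J) (k + i) = 0 := by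
    have := congrArg (fun x : tate O p J => (x : ℕ → J) (k + i)) h
    simpa using this
  rw [← pow_smul_apply_add w i k, ← Nat.cast_smul_eq_nsmul O, Nat.cast_pow, ← hc, mul_smul, h1,
    smul_zero]

/-- **torsion-freeness** of the Tate module over a discrete valuation ring. -/
theorem isTorsionFree (hp : (p : O) ∈ IsLocalRing.maximalIdeal O) :
    Module.IsTorsionFree O (tate O p J) :=
  Module.IsTorsionFree.of_smul_eq_zero fun a w h => by
    by_cases ha : a = 0
    · exact Or.inl ha
    · exact Or.inr (smul_eq_zero_imp hp ha w h)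

end DVR

section Complete

variable {O : Type*} [CommRing O] [IsDomain O] [IsDiscreteValuationRing O]
  [IsAdicComplete (IsLocalRing.maximalIdeal O) O] {p : ℕ}
  {J : Type*} [AddCommGroup J] [Module O J]

omit [IsDomain O] [IsDiscreteValuationRing O] [IsAdicComplete (IsLocalRing.maximalIdeal O) O] in
/-- If the `p`-torsion of `J` is finite, the Tate module is generated modulo `p` by a finite
set. -/
theorem exists_finset_rep (hfin : {x : J | p • x = 0}.Finite) :
    ∃ R : Finset (tate O p J), ∀ w : tate O p J, ∃ r ∈ R, ∃ w' : tate O p J,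
      w = r + p • w' := by
  classical
  have hrange : (Set.range fun w : tate O p J => (w : ℕ → J) 1).Finite :=
    hfin.subset (by
      rintro _ ⟨w, rfl⟩
      show p • (w : ℕ → J) 1 = 0
      have h := smul_apply_succ w 0
      rw [zero_add] at h
      rw [h, apply_zero])
  let g : J → tate O p J := fun y =>
    if h : ∃ w : tate O p J, (w : ℕ → J) 1 = y then h.choose else 0
  refine ⟨hrange.toFinset.image g, fun w => ?_⟩
  have hw : ∃ w' : tate O p J, (w' : ℕ → J) 1 = (w : ℕ → J) 1 := ⟨w, rfl⟩
  have hg : ((g ((w : ℕ → J) 1) : tate O p J) : ℕ → J) 1 = (w : ℕ → J) 1 := by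
    simp only [g, dif_pos hw]
    exact hw.choose_spec
  refine ⟨g ((w : ℕ → J) 1),
    Finset.mem_image.mpr ⟨_, hrange.mem_toFinset.mpr ⟨w, rfl⟩, rfl⟩, ?_⟩
  obtain ⟨w', hw'⟩ := exists_eq_pow_smul (w - g ((w : ℕ → J) 1)) 1 (by
    rw [Submodule.coe_sub, Pi.sub_apply, hg, sub_self])
  refine ⟨w', ?_⟩
  rw [pow_one] at hw'
  rw [← hw']
  abel

/-- **(c), finiteness.** -/
theorem finite (hp : (p : O) ∈ IsLocalRing.maximalIdeal O) (hp0 : (p : O) ≠ 0)
    (hfin : {x : J | p • x = 0}.Finite) : Module.Finite O (tate O p J) := by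
  classical
  obtain ⟨R, hR⟩ := exists_finset_rep (O := O) hfin
  choose rep hrepR next hnext using hR
  refine ⟨⟨R, ?_⟩⟩
  rw [eq_top_iff]
  rintro w -
  let ws : ℕ → tate O p J := fun n => next^[n] w
  let rs : ℕ → tate O p J := fun n => rep (ws n)
  have hstep : ∀ n, ws n = rs n + p • ws (n + 1) := fun n => by
    show ws n = rep (ws n) + p • next^[n + 1] w
    rw [Function.iterate_succ_apply']
    exact hnext (ws n)
  let S : tate O p J → ℕ → O := fun t n =>
    ∑ j ∈ Finset.range n, if rs j = t then (p : O) ^ j else 0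
  have hS : ∀ t n, S t (n + 1) = S t n + if rs n = t then (p : O) ^ n else 0 :=
    fun t n => Finset.sum_range_succ _ _
  have hsum : ∀ n, w = (∑ t ∈ R, S t n • t) + (p ^ n : ℕ) • ws n := by
    intro n
    induction n with
    | zero => simp [S, ws]
    | succ n ih =>
      have h1 : ∑ t ∈ R, (if rs n = t then (p : O) ^ n else 0) • t = (p ^ n : ℕ) • rs n := by
        rw [Finset.sum_eq_single (rs n)]
        · rw [if_pos rfl, ← Nat.cast_pow, Nat.cast_smul_eq_nsmul]
        · intro t _ ht
          rw [if_neg (Ne.symm ht), zero_smul]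
        · intro h
          exact absurd (hrepR (ws n)) h
      calc w = (∑ t ∈ R, S t n • t) + (p ^ n : ℕ) • ws n := ih
        _ = (∑ t ∈ R, S t n • t) + (p ^ n : ℕ) • (rs n + p • ws (n + 1)) := by rw [← hstep n]
        _ = (∑ t ∈ R, S t (n + 1) • t) + (p ^ (n + 1) : ℕ) • ws (n + 1) := by
          simp only [hS, add_smul, Finset.sum_add_distrib, h1, smul_add, pow_succ, mul_smul]
          abel
  have hterm : ∀ (t : tate O p J) (j : ℕ),
      (if rs j = t then (p : O) ^ j else 0) ∈ IsLocalRing.maximalIdeal O ^ j := fun t j => by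
    split_ifs
    · exact Ideal.pow_mem_pow hp j
    · exact Ideal.zero_mem _
  have hdiff : ∀ (t : tate O p J) (m n : ℕ), m ≤ n →
      S t n - S t m ∈ IsLocalRing.maximalIdeal O ^ m := by
    intro t m n hmn
    induction n, hmn using Nat.le_induction with
    | base => rw [sub_self]; exact Ideal.zero_mem _
    | succ n hmn ih =>
      rw [hS, add_sub_right_comm]
      exact Ideal.add_mem _ ih (Ideal.pow_le_pow_right hmn (hterm t n))
  have hcauchy : ∀ t : tate O p J, ∃ b : O, ∀ n, S t n - b ∈ IsLocalRing.maximalIdeal O ^ n := by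
    intro t
    obtain ⟨b, hb⟩ := IsPrecomplete.prec
      (inferInstance : IsPrecomplete (IsLocalRing.maximalIdeal O) O) (f := S t) (by
        intro m n hmn
        rw [SModEq.sub_mem, smul_eq_mul, Ideal.mul_top, ← neg_sub]
        exact Ideal.neg_mem_iff _ |>.mpr (hdiff t m n hmn))
    refine ⟨b, fun n => ?_⟩
    have := hb n
    rwa [SModEq.sub_mem, smul_eq_mul, Ideal.mul_top] at this
  choose b hb using hcauchy
  have hw : w = ∑ t ∈ R, b t • t := by
    rw [← sub_eq_zero]
    refine eq_zero_of_forall_apply _ fun m => ?_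
    obtain ⟨n₀, hn₀⟩ := exists_eq_maximalIdeal_pow (s := Ideal.span {(p : O) ^ m}) (by
      rw [Ne, Ideal.span_singleton_eq_bot]
      exact pow_ne_zero m hp0)
    have hcoef : ∀ t : tate O p J, ∃ c : O, S t (max m n₀) - b t = c * (p : O) ^ m := fun t => by
      have h1 : S t (max m n₀) - b t ∈ IsLocalRing.maximalIdeal O ^ n₀ :=
        Ideal.pow_le_pow_right (le_max_right m n₀) (hb t _)
      rw [← hn₀] at h1
      obtain ⟨c, hc⟩ := Ideal.mem_span_singleton'.mp h1
      exact ⟨c, hc.symm⟩
    choose c hc using hcoef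
    have hz : w - ∑ t ∈ R, b t • t =
        (∑ t ∈ R, (S t (max m n₀) - b t) • t) + (p ^ (max m n₀) : ℕ) • ws (max m n₀) := by
      have h := hsum (max m n₀)
      have h2 : (∑ t ∈ R, (S t (max m n₀) - b t) • t) =
          (∑ t ∈ R, S t (max m n₀) • t) - ∑ t ∈ R, b t • t := by
        rw [← Finset.sum_sub_distrib]
        refine Finset.sum_congr rfl fun t _ => ?_
        exact sub_smul (S t (max m n₀)) (b t) t
      rw [h2, sub_add_eq_add_sub, ← h]
    rw [hz, Submodule.coe_add, Pi.add_apply, coe_nsmul,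
      pow_smul_apply_of_le _ (le_max_left m n₀), add_zero, Submodule.coe_sum, Finset.sum_apply]
    refine Finset.sum_eq_zero fun t _ => ?_
    rw [hc t, Submodule.coe_smul, Pi.smul_apply, mul_smul, ← Nat.cast_pow,
      Nat.cast_smul_eq_nsmul, pow_smul_apply, smul_zero]
  rw [hw]
  exact Submodule.sum_mem _ fun t ht => Submodule.smul_mem _ _ (Submodule.subset_span ht)

/-- **(c)** over a complete discrete valuation ring `O` with `0 ≠ p ∈ 𝔪`, the Tate module of an
`O`-module with finite `p`-torsion is finite free. -/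
theorem finite_free (hp : (p : O) ∈ IsLocalRing.maximalIdeal O) (hp0 : (p : O) ≠ 0)
    (hfin : {x : J | p • x = 0}.Finite) :
    Module.Finite O (tate O p J) ∧ Module.Free O (tate O p J) := by
  have := finite hp hp0 hfin
  have : Module.IsTorsionFree O (tate O p J) := isTorsionFree hp
  exact ⟨inferInstance, inferInstance⟩

end Complete

end Fermat.Agent.Lib.TateModule
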