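import Fermat.Agent.Lib.TateModule

/-!
# A kit on top of `Lib/TateModule` (P5, block [TATE], second method (T-B); helper33)

Extras for the `O`-linear Tate module `tate O p J` of `Lib/TateModule.lean` (helper14):

* `tateMap_congr`, `tateMap_eq_zero`, `tateMap_eq_one` : the componentwise action only depends
  on the restriction to the `p`-power torsion;
* `tateRep` : a representation on `J` induces one on the Tate module;
* `ofCompat`, `ofCompat_eq_zero_iff`, `tateMap_ofCompat` : the map into the Tate module defined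
  by a compatible family `lam k : L → J`, and its intertwining property;
* `tateMap_sub_apply_mem` : adic continuity (`f = id` on `J[p ^ k]` implies
  `tateMap f w - w ∈ 𝔪 ^ k • ⊤`);
* `Saturated`, `eigen`, `mem_eigen`, `map_mem_eigen`, `saturated_eigen`,
  `finite_free_submodule`, `Saturated.mem_pow_smul_top`, `Saturated.sub_mem_pow_smul_top` :
  common eigen-submodules of a torsion-free module are saturated, and for saturated submodules
  the adic topology is the induced one.
-/

set_option autoImplicit false

namespace Fermat.Agent.Lib.TateModuleKit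

open Fermat.Agent.Lib.TateModule IsLocalRing

/-! ### Functoriality -/

section Functoriality

variable {O : Type*} [CommRing O] {p : ℕ} {J : Type*} [AddCommGroup J] [Module O J]

theorem tate_ext {w w' : tate O p J} (h : ∀ k, (w : ℕ → J) k = (w' : ℕ → J) k) : w = w' :=
  Subtype.ext (funext h)

/-- Two endomorphisms which agree on the `p`-power torsion induce the same map. -/
theorem tateMap_congr (f g : J →ₗ[O] J)
    (h : ∀ (k : ℕ) (x : J), p ^ k • x = 0 → f x = g x) : tateMap (p := p) f = tateMap g :=
  LinearMap.ext fun w => tate_ext fun k => h k _ (pow_smul_apply w k)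

/-- An endomorphism which kills the `p`-power torsion induces zero. -/
theorem tateMap_eq_zero (f : J →ₗ[O] J) (h : ∀ (k : ℕ) (x : J), p ^ k • x = 0 → f x = 0) :
    tateMap (p := p) f = 0 :=
  LinearMap.ext fun w => tate_ext fun k => h k _ (pow_smul_apply w k)

/-- An endomorphism which is the identity on the `p`-power torsion induces the identity. -/
theorem tateMap_eq_one (f : J →ₗ[O] J) (h : ∀ (k : ℕ) (x : J), p ^ k • x = 0 → f x = x) :
    tateMap (p := p) f = 1 :=
  LinearMap.ext fun w => tate_ext fun k => h k _ (pow_smul_apply w k)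

/-- A representation on `J` induces one on the Tate module. -/
def tateRep {G : Type*} [Monoid G] (ρ : G →* Module.End O J) :
    G →* Module.End O (tate O p J) :=
  ((tateMapHom O p J : Module.End O J →ₐ[O] Module.End O (tate O p J)) :
    Module.End O J →* Module.End O (tate O p J)).comp ρ

theorem tateRep_apply_apply {G : Type*} [Monoid G] (ρ : G →* Module.End O J) (g : G)
    (w : tate O p J) (k : ℕ) :
    ((tateRep (p := p) ρ g w : tate O p J) : ℕ → J) k = ρ g ((w : ℕ → J) k) := rfl

/-- The map into the Tate module defined by a compatible family of linear maps. -/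
def ofCompat {L : Type*} [AddCommGroup L] [Module O L] (lam : ℕ → L →ₗ[O] J)
    (h0 : ∀ v, lam 0 v = 0) (h : ∀ k v, p • lam (k + 1) v = lam k v) : L →ₗ[O] tate O p J where
  toFun v := ⟨fun k => lam k v, h0 v, fun k => h k v⟩
  map_add' _ _ := tate_ext fun k => map_add (lam k) _ _
  map_smul' _ _ := tate_ext fun k => map_smul (lam k) _ _

@[simp] theorem ofCompat_apply {L : Type*} [AddCommGroup L] [Module O L] (lam : ℕ → L →ₗ[O] J)
    (h0 : ∀ v, lam 0 v = 0) (h : ∀ k v, p • lam (k + 1) v = lam k v) (v : L) (k : ℕ) :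
    ((ofCompat lam h0 h v : tate O p J) : ℕ → J) k = lam k v := rfl

theorem ofCompat_eq_zero_iff {L : Type*} [AddCommGroup L] [Module O L] (lam : ℕ → L →ₗ[O] J)
    (h0 : ∀ v, lam 0 v = 0) (h : ∀ k v, p • lam (k + 1) v = lam k v) (v : L) :
    ofCompat lam h0 h v = 0 ↔ ∀ k, lam k v = 0 :=
  ⟨fun hv k => congrFun (congrArg Subtype.val hv) k, fun hv => tate_ext fun k => hv k⟩

/-- Intertwining: `f ∘ lam k = lam k ∘ g` for all `k` gives `tateMap f ∘ Θ = Θ ∘ g`. -/
theorem tateMap_ofCompat {L : Type*} [AddCommGroup L] [Module O L] (lam : ℕ → L →ₗ[O] J)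
    (h0 : ∀ v, lam 0 v = 0) (h : ∀ k v, p • lam (k + 1) v = lam k v)
    (f : J →ₗ[O] J) (g : L → L) (hfg : ∀ k v, f (lam k v) = lam k (g v)) (v : L) :
    tateMap f (ofCompat lam h0 h v) = ofCompat lam h0 h (g v) :=
  tate_ext fun k => hfg k v

/-- If `lam k v = 0` only for `v ∈ p ^ k L` (and `L` is `p`-adically separated), then the map
`ofCompat` is injective. -/
theorem ofCompat_injective {L : Type*} [AddCommGroup L] [Module O L] (lam : ℕ → L →ₗ[O] J)
    (h0 : ∀ v, lam 0 v = 0) (h : ∀ k v, p • lam (k + 1) v = lam k v)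
    (hker : ∀ k v, lam k v = 0 → ∃ v' : L, v = p ^ k • v')
    (hsep : ∀ v : L, (∀ k : ℕ, ∃ v' : L, v = p ^ k • v') → v = 0) :
    Function.Injective (ofCompat lam h0 h) := by
  rw [injective_iff_map_eq_zero]
  intro v hv
  exact hsep v fun k => hker k v ((ofCompat_eq_zero_iff lam h0 h v).mp hv k)

end Functoriality

/-! ### Adic continuity -/

section Continuity

variable {O : Type*} [CommRing O] [IsLocalRing O] {p : ℕ} {J : Type*} [AddCommGroup J]
  [Module O J]

/-- The adic-continuity brick: an endomorphism of `J` which is the identity on `J[p ^ k]` acts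
trivially on the Tate module modulo `𝔪 ^ k`. -/
theorem tateMap_sub_apply_mem (hp : (p : O) ∈ maximalIdeal O) (f : J →ₗ[O] J) (k : ℕ)
    (hf : ∀ x : J, p ^ k • x = 0 → f x = x) (w : tate O p J) :
    tateMap f w - w ∈ (maximalIdeal O ^ k) • (⊤ : Submodule O (tate O p J)) := by
  refine mem_pow_smul_top hp _ k ?_
  rw [Submodule.coe_sub, Pi.sub_apply, tateMap_apply, hf _ (pow_smul_apply w k), sub_self]

end Continuity

/-! ### Saturated submodules and eigen-submodules -/

section Saturated

variable {O : Type*} [CommRing O] {T : Type*} [AddCommGroup T] [Module O T]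

/-- A submodule `Λ` is saturated if `a • w ∈ Λ` with `a ≠ 0` implies `w ∈ Λ`. -/
def Saturated (Λ : Submodule O T) : Prop := ∀ (a : O) (w : T), a ≠ 0 → a • w ∈ Λ → w ∈ Λ

theorem saturated_iInf {ι : Sort*} (Λ : ι → Submodule O T) (h : ∀ i, Saturated (Λ i)) :
    Saturated (⨅ i, Λ i) := fun a w ha hw =>
  (Submodule.mem_iInf _).mpr fun i => h i a w ha ((Submodule.mem_iInf _).mp hw i)

/-- The common eigen-submodule of a family of endomorphisms. -/
def eigen {ι : Type*} (f : ι → Module.End O T) (c : ι → O) : Submodule O T :=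
  ⨅ i, LinearMap.ker (f i - c i • (1 : Module.End O T))

theorem mem_eigen {ι : Type*} (f : ι → Module.End O T) (c : ι → O) (w : T) :
    w ∈ eigen f c ↔ ∀ i, f i w = c i • w := by
  simp only [eigen, Submodule.mem_iInf, LinearMap.mem_ker, LinearMap.sub_apply,
    LinearMap.smul_apply, Module.End.one_apply, sub_eq_zero]

/-- An endomorphism commuting with the family preserves the eigen-submodule. -/
theorem map_mem_eigen {ι : Type*} (f : ι → Module.End O T) (c : ι → O) (g : Module.End O T)
    (hg : ∀ i, Commute g (f i)) {w : T} (hw : w ∈ eigen f c) : g w ∈ eigen f c := by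
  rw [mem_eigen] at hw ⊢
  intro i
  have h1 : f i (g w) = g (f i w) := by
    have := congrArg (fun φ : Module.End O T => φ w) (hg i).eq
    exact this.symm
  rw [h1, hw i, map_smul]

/-- Eigen-submodules of a torsion-free module over a domain are saturated. -/
theorem saturated_eigen [IsDomain O] [Module.IsTorsionFree O T] {ι : Type*}
    (f : ι → Module.End O T) (c : ι → O) : Saturated (eigen f c) := by
  intro a w ha hw
  rw [mem_eigen] at hw ⊢
  intro i
  have h1 : a • (f i w - c i • w) = 0 := by
    rw [smul_sub, ← map_smul, hw i, smul_comm, sub_self]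
  rcases smul_eq_zero.mp h1 with h | h
  · exact absurd h ha
  · exact sub_eq_zero.mp h

/-- Submodules of a finite torsion-free module over a principal ideal domain are finite free. -/
theorem finite_free_submodule [IsDomain O] [IsPrincipalIdealRing O] [Module.Finite O T]
    [Module.IsTorsionFree O T] (Λ : Submodule O T) : Module.Finite O Λ ∧ Module.Free O Λ := by
  have : Module.Finite O Λ := Module.Finite.of_injective Λ.subtype Λ.injective_subtype
  exact ⟨inferInstance, Module.free_of_finite_type_torsion_free'⟩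

/-- For a saturated submodule `Λ` over a discrete valuation ring,
`(𝔪 ^ n • ⊤) ⊓ Λ ≤ 𝔪 ^ n • Λ`. -/
theorem Saturated.mem_pow_smul_top [IsDomain O] [IsDiscreteValuationRing O]
    {Λ : Submodule O T} (hΛ : Saturated Λ) (n : ℕ) (w : Λ)
    (hw : (w : T) ∈ (maximalIdeal O ^ n) • (⊤ : Submodule O T)) :
    w ∈ (maximalIdeal O ^ n) • (⊤ : Submodule O Λ) := by
  obtain ⟨ϖ, hϖ⟩ := IsDiscreteValuationRing.exists_irreducible O
  rw [hϖ.maximalIdeal_eq, Ideal.span_singleton_pow, Submodule.ideal_span_singleton_smul] at hw ⊢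
  obtain ⟨w', -, hw'⟩ := hw
  have hw'' : ϖ ^ n • w' = (w : T) := hw'
  have hmem : w' ∈ Λ := hΛ (ϖ ^ n) w' (pow_ne_zero n hϖ.ne_zero) (by rw [hw'']; exact w.2)
  exact ⟨⟨w', hmem⟩, Submodule.mem_top, Subtype.ext hw''⟩

/-- The adic-continuity brick for a saturated submodule: if `g` preserves `Λ` and
`g w - w ∈ 𝔪 ^ n • ⊤`, then the same holds inside `Λ`. -/
theorem Saturated.sub_mem_pow_smul_top [IsDomain O] [IsDiscreteValuationRing O]
    {Λ : Submodule O T} (hΛ : Saturated Λ) (n : ℕ) (g : Module.End O T)
    (hg : ∀ w ∈ Λ, g w ∈ Λ) (w : Λ)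
    (hw : g (w : T) - (w : T) ∈ (maximalIdeal O ^ n) • (⊤ : Submodule O T)) :
    g.restrict hg w - w ∈ (maximalIdeal O ^ n) • (⊤ : Submodule O Λ) :=
  hΛ.mem_pow_smul_top n (g.restrict hg w - w) hw

end Saturated

end Fermat.Agent.Lib.TateModuleKit
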