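import Mathlib

/-!
# The `p`-adic Tate module of an abelian group (intrinsic form, Mathlib only)

For an abelian group `J` and a prime `p`, `Tate p J` is the group of compatible sequences
`x k ∈ J[p ^ k]`, `p • x (k + 1) = x k`.  It is a `ℤ_[p]`-module, functorial in `J`
(`tateMap : AddMonoid.End J →+* Module.End ℤ_[p] (Tate p J)`), torsion-free, `p`-adically
separated, and an element whose level-`k` component vanishes is divisible by `p ^ k`.

With coefficients in a `ℤ_[p]`-algebra `O` we get `mapO`, the eigenlattice of a family of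
operators, the representation of a monoid on it (`eigenRep`), continuity and the transfer of
quadratic relations from the `p`-power torsion of `J`.
-/

set_option autoImplicit false

namespace Fermat.Agent.Lib.TateSeq

open PadicInt

section Padic

variable {p : ℕ} [hp : Fact p.Prime]

theorem toZModPow_eq_appr (k : ℕ) (a : ℤ_[p]) : toZModPow k a = (a.appr k : ZMod (p ^ k)) := by
  have := appr_spec k a
  rwa [← ker_toZModPow, RingHom.mem_ker, map_sub, map_natCast, sub_eq_zero] at this

/-- `a.appr k ≡ n mod p ^ k` as soon as `a` and `n` have the same image in `ZMod (p ^ k)`. -/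
theorem appr_modEq {k : ℕ} {a : ℤ_[p]} {n : ℕ} (h : toZModPow k a = (n : ZMod (p ^ k))) :
    a.appr k ≡ n [MOD p ^ k] := by
  rw [toZModPow_eq_appr] at h
  exact (ZMod.natCast_eq_natCast_iff _ _ _).mp h

theorem appr_succ_modEq (k : ℕ) (a : ℤ_[p]) : a.appr (k + 1) ≡ a.appr k [MOD p ^ k] := by
  refine (appr_modEq ?_).symm
  have h1 := appr_spec (k + 1) a
  have h2 : a - (a.appr (k + 1) : ℤ_[p]) ∈ Ideal.span {(p : ℤ_[p]) ^ k} := by
    obtain ⟨c, hc⟩ := Ideal.mem_span_singleton'.mp h1
    exact Ideal.mem_span_singleton'.mpr ⟨c * p, by rw [← hc, pow_succ]; ring⟩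
  rwa [← ker_toZModPow, RingHom.mem_ker, map_sub, map_natCast, sub_eq_zero] at h2

end Padic

theorem nsmul_eq_of_modEq {J : Type*} [AddCommGroup J] {q n m : ℕ} {y : J} (hy : q • y = 0)
    (h : n ≡ m [MOD q]) :
    n • y = m • y := by
  have key : ∀ n : ℕ, n • y = (n % q) • y := by
    intro n
    conv_lhs => rw [← Nat.div_add_mod n q]
    rw [add_nsmul, mul_nsmul, hy, smul_zero, zero_add]
  rw [key n, key m, h]

section Basic

variable (p : ℕ) (J : Type*) [AddCommGroup J]

/-- The Tate module: compatible sequences of `p`-power torsion elements. -/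
def Tate : AddSubgroup (ℕ → J) where
  carrier := {x | ∀ k, p ^ k • x k = 0 ∧ p • x (k + 1) = x k}
  add_mem' := fun {a b} ha hb k => by
    refine ⟨?_, ?_⟩
    · rw [Pi.add_apply, smul_add, (ha k).1, (hb k).1, add_zero]
    · rw [Pi.add_apply, Pi.add_apply, smul_add, (ha k).2, (hb k).2]
  zero_mem' := fun k => ⟨smul_zero _, smul_zero _⟩
  neg_mem' := fun {a} ha k => by
    refine ⟨?_, ?_⟩
    · rw [Pi.neg_apply, smul_neg, (ha k).1, neg_zero]
    · rw [Pi.neg_apply, Pi.neg_apply, smul_neg, (ha k).2]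

variable {p J}

theorem Tate.pow_smul (x : Tate p J) (k : ℕ) : p ^ k • (x : ℕ → J) k = 0 := (x.2 k).1

theorem Tate.smul_succ (x : Tate p J) (k : ℕ) : p • (x : ℕ → J) (k + 1) = (x : ℕ → J) k :=
  (x.2 k).2

theorem Tate.pow_smul_add (x : Tate p J) (j k : ℕ) :
    p ^ k • (x : ℕ → J) (j + k) = (x : ℕ → J) j := by
  induction k with
  | zero => simp
  | succ k ih => rw [pow_succ, mul_smul, ← add_assoc, Tate.smul_succ x, ih]

theorem Tate.ext' {x y : Tate p J} (h : ∀ k, (x : ℕ → J) k = (y : ℕ → J) k) : x = y :=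
  Subtype.ext (funext h)

/-- A compatible sequence as an element of the Tate module. -/
def Tate.mk' (x : ℕ → J) (h0 : ∀ k, p ^ k • x k = 0) (h1 : ∀ k, p • x (k + 1) = x k) : Tate p J :=
  ⟨x, fun k => ⟨h0 k, h1 k⟩⟩

variable [hp : Fact p.Prime]

noncomputable instance instSMulTate : SMul ℤ_[p] (Tate p J) :=
  ⟨fun a x => ⟨fun k => a.appr k • (x : ℕ → J) k, fun k => by
    refine ⟨by rw [smul_comm, Tate.pow_smul x, smul_zero], ?_⟩
    rw [smul_comm, Tate.smul_succ x]
    exact nsmul_eq_of_modEq (Tate.pow_smul x k) (appr_succ_modEq k a)⟩⟩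

theorem Tate.smul_apply (a : ℤ_[p]) (x : Tate p J) (k : ℕ) :
    ((a • x : Tate p J) : ℕ → J) k = a.appr k • (x : ℕ → J) k := rfl

/-- `(a • x) k = n • x k` as soon as `a ≡ n mod p ^ k`. -/
theorem Tate.smul_apply_of (a : ℤ_[p]) (x : Tate p J) (k n : ℕ)
    (h : toZModPow k a = (n : ZMod (p ^ k))) :
    ((a • x : Tate p J) : ℕ → J) k = n • (x : ℕ → J) k :=
  nsmul_eq_of_modEq (Tate.pow_smul x k) (appr_modEq h)

noncomputable instance instModuleTate : Module ℤ_[p] (Tate p J) where
  one_smul x := Tate.ext' fun k => by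
    rw [Tate.smul_apply_of 1 x k 1 (by simp), one_smul]
  mul_smul a b x := Tate.ext' fun k => by
    rw [Tate.smul_apply_of (a * b) x k (a.appr k * b.appr k)
      (by rw [map_mul, toZModPow_eq_appr, toZModPow_eq_appr, Nat.cast_mul]),
      Tate.smul_apply, Tate.smul_apply, mul_smul]
  smul_zero a := Tate.ext' fun k => by
    rw [Tate.smul_apply]
    exact smul_zero _
  smul_add a x y := Tate.ext' fun k => by
    rw [Tate.smul_apply]
    exact smul_add _ _ _
  add_smul a b x := Tate.ext' fun k => by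
    rw [Tate.smul_apply_of (a + b) x k (a.appr k + b.appr k)
      (by rw [map_add, toZModPow_eq_appr, toZModPow_eq_appr, Nat.cast_add]), add_smul]
    rfl
  zero_smul x := Tate.ext' fun k => by
    rw [Tate.smul_apply_of 0 x k 0 (by simp), zero_smul]
    rfl

theorem Tate.natCast_smul_apply (n : ℕ) (x : Tate p J) (k : ℕ) :
    (((n : ℤ_[p]) • x : Tate p J) : ℕ → J) k = n • (x : ℕ → J) k :=
  Tate.smul_apply_of _ x k n (by rw [map_natCast])

theorem Tate.pow_smul_apply (j : ℕ) (x : Tate p J) (k : ℕ) :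
    ((((p : ℤ_[p]) ^ j) • x : Tate p J) : ℕ → J) k = p ^ j • (x : ℕ → J) k := by
  have := Tate.natCast_smul_apply (p ^ j) x k
  rwa [Nat.cast_pow] at this

/-- An element whose level-`k` component vanishes is divisible by `p ^ k`. -/
theorem Tate.exists_eq_pow_smul (k : ℕ) (x : Tate p J) (hx : (x : ℕ → J) k = 0) :
    ∃ q : Tate p J, x = (p : ℤ_[p]) ^ k • q := by
  refine ⟨Tate.mk' (fun j => (x : ℕ → J) (j + k)) (fun j => ?_) (fun j => ?_), Tate.ext' fun j => ?_⟩
  · have := Tate.pow_smul_add x k j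
    rw [add_comm k j] at this
    rw [this, hx]
  · have := Tate.smul_succ x (j + k)
    rwa [add_right_comm] at this
  · rw [Tate.pow_smul_apply]
    exact (Tate.pow_smul_add x j k).symm

/-- Separatedness. -/
theorem Tate.eq_zero_of_forall_pow_smul (x : Tate p J)
    (h : ∀ k : ℕ, ∃ y : Tate p J, x = (p : ℤ_[p]) ^ k • y) : x = 0 :=
  Tate.ext' fun k => by
    obtain ⟨y, rfl⟩ := h k
    rw [Tate.pow_smul_apply, Tate.pow_smul y]
    rfl


instance instIsTorsionFreeTate : Module.IsTorsionFree ℤ_[p] (Tate p J) :=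
  Module.IsTorsionFree.of_smul_eq_zero fun a x hax => by
    by_cases ha : a = 0
    · exact Or.inl ha
    right
    obtain ⟨u, v, hav⟩ : ∃ (u : ℤ_[p]ˣ) (v : ℕ), a = (u : ℤ_[p]) * (p : ℤ_[p]) ^ v :=
      ⟨unitCoeff ha, a.valuation, unitCoeff_spec ha⟩
    have h1 : (p : ℤ_[p]) ^ v • x = 0 := by
      have h2 : (p : ℤ_[p]) ^ v • x = ((u⁻¹ : ℤ_[p]ˣ) : ℤ_[p]) • (a • x) := by
        rw [smul_smul, hav, Units.inv_mul_cancel_left]
      rw [h2, hax, smul_zero]
    refine Tate.ext' fun k => ?_
    have h3 := Tate.pow_smul_add x k v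
    rw [← h3, ← Tate.pow_smul_apply, h1]
    rfl

end Basic

/-! ### Functoriality in `J` -/

section Map

variable (p : ℕ) {J : Type*} [AddCommGroup J] [hp : Fact p.Prime]

/-- The action of the additive endomorphisms of `J` on the Tate module (componentwise). -/
noncomputable def tateMap : AddMonoid.End J →+* Module.End ℤ_[p] (Tate p J) where
  toFun f :=
    { toFun := fun x => Tate.mk' (fun k => f ((x : ℕ → J) k))
        (fun k => by rw [← map_nsmul, Tate.pow_smul, map_zero])
        (fun k => by rw [← map_nsmul, Tate.smul_succ])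
      map_add' := fun x y => Tate.ext' fun k => map_add f _ _
      map_smul' := fun a x => Tate.ext' fun k => map_nsmul f _ _ }
  map_one' := rfl
  map_mul' _ _ := rfl
  map_zero' := rfl
  map_add' _ _ := rfl

variable {p}

theorem tateMap_apply (f : AddMonoid.End J) (x : Tate p J) (k : ℕ) :
    ((tateMap p f x : Tate p J) : ℕ → J) k = f ((x : ℕ → J) k) := rfl

/-- Two endomorphisms agreeing on the `p`-power torsion induce the same map on the Tate module. -/
theorem tateMap_congr {f g : AddMonoid.End J}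
    (H : ∀ (k : ℕ) (x : J), p ^ k • x = 0 → f x = g x) : tateMap p f = tateMap p g :=
  LinearMap.ext fun x => Tate.ext' fun k => H k _ (Tate.pow_smul x k)

theorem tateMap_eq_zero {f : AddMonoid.End J}
    (H : ∀ (k : ℕ) (x : J), p ^ k • x = 0 → f x = 0) : tateMap p f = 0 := by
  rw [← map_zero (tateMap p)]
  exact tateMap_congr fun k x hx => by rw [H k x hx]; rfl

/-- Continuity: an endomorphism fixing the `p ^ k`-torsion of `J` acts trivially on the Tate
module modulo `p ^ k`. -/
theorem tateMap_sub_mem (k : ℕ) (f : AddMonoid.End J) (H : ∀ x : J, p ^ k • x = 0 → f x = x)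
    (x : Tate p J) : ∃ q : Tate p J, tateMap p f x - x = (p : ℤ_[p]) ^ k • q :=
  Tate.exists_eq_pow_smul k _ (by
    show f ((x : ℕ → J) k) - (x : ℕ → J) k = 0
    rw [H _ (Tate.pow_smul x k), sub_self])

end Map

/-! ### Finite generation -/

section Finite

variable {p : ℕ} {J : Type*} [AddCommGroup J] [hp : Fact p.Prime]

/-- The level-`k` component as an additive map. -/
def Tate.comp (k : ℕ) : Tate p J →+ J where
  toFun x := (x : ℕ → J) k
  map_zero' := rfl
  map_add' _ _ := rfl

omit hp in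
theorem Tate.comp_apply (k : ℕ) (x : Tate p J) : Tate.comp k x = (x : ℕ → J) k := rfl

/-- a `p`-adically Cauchy sequence of `p`-adic integers has a limit. -/
theorem exists_padic_limit (f : ℕ → ℤ_[p])
    (hf : ∀ m n, m ≤ n → toZModPow m (f n) = toZModPow m (f m)) :
    ∃ L : ℤ_[p], ∀ n, toZModPow n L = toZModPow n (f n) := by
  have key : ∀ (m : ℕ) (x y : ℤ_[p]),
      x ≡ y [SMOD (IsLocalRing.maximalIdeal ℤ_[p] ^ m • ⊤ : Submodule ℤ_[p] ℤ_[p])] ↔
        toZModPow m x = toZModPow m y := by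
    intro m x y
    rw [SModEq.sub_mem, smul_eq_mul, Ideal.mul_top, maximalIdeal_eq_span_p,
      Ideal.span_singleton_pow, ← ker_toZModPow, RingHom.mem_ker, map_sub, sub_eq_zero]
  have hprec : IsPrecomplete (IsLocalRing.maximalIdeal ℤ_[p]) ℤ_[p] := inferInstance
  obtain ⟨L, hL⟩ := hprec.prec (f := f) (fun {m n} hmn => (key m _ _).mpr (hf m n hmn).symm)
  exact ⟨L, fun n => ((key n _ _).mp (hL n)).symm⟩

/-- If the `p`-torsion of `J` is finite, the Tate module is a finitely generated
`ℤ_[p]`-module. -/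
theorem finite_tate (hfin : {y : J | p • y = 0}.Finite) : Module.Finite ℤ_[p] (Tate p J) := by
  classical
  -- a finite set of representatives modulo `p`
  have hr : (Set.range fun x : Tate p J => (x : ℕ → J) 1).Finite :=
    hfin.subset (by
      rintro _ ⟨x, rfl⟩
      have := Tate.pow_smul x 1
      rwa [pow_one] at this)
  let sec : J → Tate p J := fun y => if h : ∃ x : Tate p J, (x : ℕ → J) 1 = y then h.choose else 0
  have hsec : ∀ x : Tate p J, (sec ((x : ℕ → J) 1) : ℕ → J) 1 = (x : ℕ → J) 1 := by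
    intro x
    have h : ∃ x' : Tate p J, (x' : ℕ → J) 1 = (x : ℕ → J) 1 := ⟨x, rfl⟩
    show ((if h : ∃ x' : Tate p J, (x' : ℕ → J) 1 = (x : ℕ → J) 1 then h.choose else 0 :
      Tate p J) : ℕ → J) 1 = _
    rw [dif_pos h]
    exact h.choose_spec
  let S : Finset (Tate p J) := hr.toFinset.image sec
  have hS : ∀ x : Tate p J, ∃ s ∈ S, ∃ y : Tate p J, x = s + (p : ℤ_[p]) • y := by
    intro x
    refine ⟨sec ((x : ℕ → J) 1), Finset.mem_image.mpr ⟨_, hr.mem_toFinset.mpr ⟨x, rfl⟩, rfl⟩, ?_⟩
    obtain ⟨q, hq⟩ := Tate.exists_eq_pow_smul 1 (x - sec ((x : ℕ → J) 1)) (by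
      show (x : ℕ → J) 1 - (sec ((x : ℕ → J) 1) : ℕ → J) 1 = 0
      rw [hsec, sub_self])
    refine ⟨q, ?_⟩
    rw [pow_one] at hq
    rw [← hq]
    abel
  choose dig hdig nxt hnxt using hS
  refine ⟨⟨S, ?_⟩⟩
  rw [eq_top_iff]
  rintro x -
  -- digits of `x`
  let r : ℕ → Tate p J := fun n => nxt^[n] x
  let d : ℕ → Tate p J := fun n => dig (r n)
  have hd : ∀ n, d n ∈ S := fun n => hdig _
  have hrec : ∀ n, r n = d n + (p : ℤ_[p]) • r (n + 1) := by
    intro n
    show r n = dig (r n) + (p : ℤ_[p]) • nxt^[n + 1] x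
    rw [Function.iterate_succ_apply']
    exact hnxt (r n)
  have hexp : ∀ n, x = ∑ j ∈ Finset.range n, (p : ℤ_[p]) ^ j • d j + (p : ℤ_[p]) ^ n • r n := by
    intro n
    induction n with
    | zero => simp [r]
    | succ n ih =>
      rw [Finset.sum_range_succ, add_assoc, pow_succ, mul_smul, ← smul_add, ← hrec n]
      exact ih
  -- the coefficients
  let c : Tate p J → ℕ → ℕ := fun s n => ∑ j ∈ Finset.range n, if d j = s then p ^ j else 0
  have hc : ∀ (s : Tate p J) (m n : ℕ), m ≤ n →
      toZModPow m ((c s n : ℕ) : ℤ_[p]) = toZModPow m ((c s m : ℕ) : ℤ_[p]) := by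
    intro s m n hmn
    rw [map_natCast, map_natCast, ZMod.natCast_eq_natCast_iff]
    induction n, hmn using Nat.le_induction with
    | base => rfl
    | succ n hmn ih =>
      show (∑ j ∈ Finset.range (n + 1), if d j = s then p ^ j else 0) ≡ _ [MOD p ^ m]
      rw [Finset.sum_range_succ]
      have h0 : (if d n = s then p ^ n else 0) ≡ 0 [MOD p ^ m] := by
        split_ifs
        · exact (Nat.modEq_zero_iff_dvd).mpr (pow_dvd_pow p hmn)
        · rfl
      exact (ih.add h0)
  choose b hb using fun s : Tate p J => exists_padic_limit (fun n => ((c s n : ℕ) : ℤ_[p])) (hc s)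
  have hx : x = ∑ s ∈ S, b s • s := by
    refine Tate.ext' fun k => ?_
    have h1 : (x : ℕ → J) k = ∑ j ∈ Finset.range k, p ^ j • (d j : ℕ → J) k := by
      have h2 := congrArg (Tate.comp k) (hexp k)
      rw [map_add, map_sum, Tate.comp_apply, Tate.comp_apply, Tate.pow_smul_apply,
        Tate.pow_smul, add_zero] at h2
      rw [h2]
      exact Finset.sum_congr rfl fun j _ => Tate.pow_smul_apply j (d j) k
    have h3 : ((∑ s ∈ S, b s • s : Tate p J) : ℕ → J) k =
        ∑ s ∈ S, (c s k) • (s : ℕ → J) k := by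
      have h4 : ((∑ s ∈ S, b s • s : Tate p J) : ℕ → J) k = Tate.comp k (∑ s ∈ S, b s • s) := rfl
      rw [h4, map_sum]
      refine Finset.sum_congr rfl fun s _ => ?_
      rw [Tate.comp_apply]
      exact Tate.smul_apply_of (b s) s k (c s k) (by rw [hb s k, map_natCast])
    rw [h1, h3]
    simp only [c, Finset.sum_smul, ite_smul, zero_smul]
    rw [Finset.sum_comm]
    refine Finset.sum_congr rfl fun j _ => ?_
    rw [Finset.sum_ite_eq S (d j) (fun s => p ^ j • (s : ℕ → J) k), if_pos (hd j)]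
  rw [hx]
  exact Submodule.sum_mem _ fun s hs => Submodule.smul_mem _ _ (Submodule.subset_span hs)

theorem free_tate (hfin : {y : J | p • y = 0}.Finite) : Module.Free ℤ_[p] (Tate p J) :=
  haveI := finite_tate hfin
  Module.free_of_finite_type_torsion_free' (R := ℤ_[p]) (M := Tate p J)

end Finite

/-! ### Lattices in the Tate module -/

section Lattice

variable {p : ℕ} {J : Type*} [AddCommGroup J] [hp : Fact p.Prime]
variable {L : Type*} [AddCommGroup L]

/-- A compatible family of additive maps into the `p`-power torsion defines a map into the Tate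
module. -/
def theta (lam : ℕ → L →+ J) (h0 : ∀ k ψ, p ^ k • lam k ψ = 0)
    (h1 : ∀ k ψ, p • lam (k + 1) ψ = lam k ψ) : L →+ Tate p J where
  toFun ψ := Tate.mk' (fun k => lam k ψ) (fun k => h0 k ψ) (fun k => h1 k ψ)
  map_zero' := Tate.ext' fun k => map_zero (lam k)
  map_add' a b := Tate.ext' fun k => map_add (lam k) a b

omit hp in
theorem theta_apply (lam : ℕ → L →+ J) (h0 : ∀ k ψ, p ^ k • lam k ψ = 0)
    (h1 : ∀ k ψ, p • lam (k + 1) ψ = lam k ψ) (ψ : L) (k : ℕ) :
    ((theta lam h0 h1 ψ : Tate p J) : ℕ → J) k = lam k ψ := rfl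

/-- If the kernel of `lam k` is `p ^ k • L`, a `ℤ`-basis of `L` maps to a `ℤ_[p]`-linearly
independent family of the Tate module. -/
theorem linearIndependent_theta {κ : Type*} [Fintype κ] (b : Module.Basis κ ℤ L)
    (lam : ℕ → L →+ J) (h0 : ∀ k ψ, p ^ k • lam k ψ = 0)
    (h1 : ∀ k ψ, p • lam (k + 1) ψ = lam k ψ)
    (h2 : ∀ k ψ, lam k ψ = 0 → ∃ ψ' : L, ψ = p ^ k • ψ') :
    LinearIndependent ℤ_[p] (fun i => theta lam h0 h1 (b i)) := by
  rw [Fintype.linearIndependent_iff]
  intro c hc i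
  refine ext_of_toZModPow.mp fun k => ?_
  rw [map_zero, toZModPow_eq_appr]
  have h3 : lam k (∑ j, (c j).appr k • b j) = 0 := by
    have h4 := congrArg (Tate.comp k) hc
    rw [map_sum, map_zero] at h4
    rw [map_sum, ← h4]
    refine Finset.sum_congr rfl fun j _ => ?_
    rw [map_nsmul, Tate.comp_apply, Tate.smul_apply, theta_apply]
  obtain ⟨ψ', hψ'⟩ := h2 k _ h3
  have h5 := congrArg (fun x => b.repr x i) hψ'
  simp only [map_sum, map_nsmul, Finsupp.coe_finsetSum, Finsupp.coe_smul, Finset.sum_apply,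
    Pi.smul_apply, Module.Basis.repr_self] at h5
  rw [Finset.sum_eq_single i (fun j _ hji => by simp [hji])
    (fun hi => absurd (Finset.mem_univ i) hi)] at h5
  simp only [Finsupp.single_eq_same, nsmul_eq_mul, mul_one] at h5
  have h6 : (p ^ k : ℤ) ∣ ((c i).appr k : ℤ) := ⟨b.repr ψ' i, by rw [h5]; push_cast; ring⟩
  have h7 : p ^ k ∣ (c i).appr k := by exact_mod_cast h6
  rw [Nat.eq_zero_of_dvd_of_lt h7 (appr_lt _ _), Nat.cast_zero]

end Lattice

/-! ### Coefficients -/

section Coeff

open TensorProduct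

variable (p : ℕ) {J : Type*} [AddCommGroup J] [hp : Fact p.Prime]
variable (O : Type*) [CommRing O] [Algebra ℤ_[p] O]

/-- The action of `End J` on the Tate module with coefficients in `O`. -/
noncomputable def mapO : AddMonoid.End J →+* Module.End O (O ⊗[ℤ_[p]] Tate p J) :=
  (Module.End.baseChangeHom ℤ_[p] O (Tate p J)).toRingHom.comp (tateMap p)

variable {p O}

theorem mapO_tmul (f : AddMonoid.End J) (a : O) (x : Tate p J) :
    mapO p O f (a ⊗ₜ x) = a ⊗ₜ tateMap p f x := rfl

theorem mapO_congr {f g : AddMonoid.End J}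
    (H : ∀ (k : ℕ) (x : J), p ^ k • x = 0 → f x = g x) : mapO p O f = mapO p O g := by
  unfold mapO
  rw [RingHom.comp_apply, RingHom.comp_apply, tateMap_congr H]

theorem mapO_eq_zero {f : AddMonoid.End J}
    (H : ∀ (k : ℕ) (x : J), p ^ k • x = 0 → f x = 0) : mapO p O f = 0 := by
  unfold mapO
  rw [RingHom.comp_apply, tateMap_eq_zero H, map_zero]

/-- Continuity with coefficients. -/
theorem mapO_sub_mem (k : ℕ) (f : AddMonoid.End J) (H : ∀ x : J, p ^ k • x = 0 → f x = x)
    (w : O ⊗[ℤ_[p]] Tate p J) :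
    ∃ q : O ⊗[ℤ_[p]] Tate p J, mapO p O f w - w = (p : O) ^ k • q := by
  induction w using TensorProduct.induction_on with
  | zero => exact ⟨0, by simp⟩
  | tmul a x =>
    obtain ⟨q, hq⟩ := tateMap_sub_mem k f H x
    refine ⟨a ⊗ₜ q, ?_⟩
    have hq' : tateMap p f x = (p : ℤ_[p]) ^ k • q + x := by rw [← hq, sub_add_cancel]
    rw [mapO_tmul, hq', tmul_add, add_sub_cancel_right, tmul_smul,
      ← algebraMap_smul O ((p : ℤ_[p]) ^ k) (a ⊗ₜ[ℤ_[p]] q), map_pow, map_natCast]
  | add x y hx hy =>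
    obtain ⟨q1, h1⟩ := hx
    obtain ⟨q2, h2⟩ := hy
    exact ⟨q1 + q2, by rw [map_add, add_sub_add_comm, h1, h2, smul_add]⟩

variable {ι : Type*}

variable (p O) in
/-- The common eigenlattice of the operators `t i` with eigenvalues `c i`. -/
noncomputable def eigenLattice (t : ι → AddMonoid.End J) (c : ι → O) :
    Submodule O (O ⊗[ℤ_[p]] Tate p J) :=
  ⨅ i, LinearMap.ker (mapO p O (t i) - c i • (1 : Module.End O (O ⊗[ℤ_[p]] Tate p J)))

theorem mem_eigenLattice {t : ι → AddMonoid.End J} {c : ι → O} {w : O ⊗[ℤ_[p]] Tate p J} :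
    w ∈ eigenLattice p O t c ↔ ∀ i, mapO p O (t i) w = c i • w := by
  simp [eigenLattice, Submodule.mem_iInf, sub_eq_zero]

/-- Endomorphisms of `J` commuting with the `t i` (on `p`-power torsion) preserve the
eigenlattice. -/
theorem mapO_mem_eigenLattice {t : ι → AddMonoid.End J} {c : ι → O} (g : AddMonoid.End J)
    (hg : ∀ (i : ι) (k : ℕ) (x : J), p ^ k • x = 0 → g (t i x) = t i (g x))
    {w : O ⊗[ℤ_[p]] Tate p J} (hw : w ∈ eigenLattice p O t c) :
    mapO p O g w ∈ eigenLattice p O t c := by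
  rw [mem_eigenLattice] at hw ⊢
  intro i
  have hcomm : mapO p O (t i) * mapO p O g = mapO p O g * mapO p O (t i) := by
    rw [← map_mul, ← map_mul]
    exact mapO_congr fun k x hx => (hg i k x hx).symm
  calc mapO p O (t i) (mapO p O g w) = (mapO p O (t i) * mapO p O g) w := rfl
    _ = mapO p O g (mapO p O (t i) w) := by rw [hcomm]; rfl
    _ = c i • mapO p O g w := by rw [hw i, map_smul]

theorem eigenLattice_saturated [IsDomain O] [Module.IsTorsionFree O (O ⊗[ℤ_[p]] Tate p J)]
    {t : ι → AddMonoid.End J} {c : ι → O} {a : O} (ha : a ≠ 0) {q : O ⊗[ℤ_[p]] Tate p J}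
    (hq : a • q ∈ eigenLattice p O t c) : q ∈ eigenLattice p O t c := by
  rw [mem_eigenLattice] at hq ⊢
  intro i
  have h := hq i
  rw [map_smul, smul_comm (c i) a q] at h
  exact smul_right_injective _ ha h

/-- Continuity on the eigenlattice. -/
theorem mapO_sub_mem_eigenLattice [IsDomain O] [Module.IsTorsionFree O (O ⊗[ℤ_[p]] Tate p J)]
    (hpO : (p : O) ≠ 0) {t : ι → AddMonoid.End J} {c : ι → O} (k : ℕ) (f : AddMonoid.End J)
    (H : ∀ x : J, p ^ k • x = 0 → f x = x)
    (hf : ∀ (i : ι) (k : ℕ) (x : J), p ^ k • x = 0 → f (t i x) = t i (f x))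
    {w : O ⊗[ℤ_[p]] Tate p J} (hw : w ∈ eigenLattice p O t c) :
    ∃ q ∈ eigenLattice p O t c, mapO p O f w - w = (p : O) ^ k • q := by
  obtain ⟨q, hq⟩ := mapO_sub_mem (O := O) k f H w
  refine ⟨q, eigenLattice_saturated (pow_ne_zero k hpO) ?_, hq⟩
  rw [← hq]
  exact Submodule.sub_mem _ (mapO_mem_eigenLattice f hf hw) hw

/-- A quadratic relation on the `p`-power torsion of `J` gives the relation with the eigenvalue
on the eigenlattice. -/
theorem eigen_relation {t : ι → AddMonoid.End J} {c : ι → O} (i : ι) (g : AddMonoid.End J)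
    (n : ℕ) (hg : ∀ (i : ι) (k : ℕ) (x : J), p ^ k • x = 0 → g (t i x) = t i (g x))
    (hrel : ∀ (k : ℕ) (x : J), p ^ k • x = 0 → g (g x) - t i (g x) + n • x = 0)
    {w : O ⊗[ℤ_[p]] Tate p J} (hw : w ∈ eigenLattice p O t c) :
    mapO p O g (mapO p O g w) - c i • mapO p O g w + (n : O) • w = 0 := by
  have h0 : mapO p O (g * g - t i * g + (n : AddMonoid.End J)) = 0 :=
    mapO_eq_zero fun k x hx => hrel k x hx
  have h1 := congrArg (fun F : Module.End O (O ⊗[ℤ_[p]] Tate p J) => F w) h0
  have h2 := (mem_eigenLattice.mp (mapO_mem_eigenLattice g hg hw)) i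
  simp only [map_add, map_sub, map_mul, map_natCast, LinearMap.add_apply, LinearMap.sub_apply,
    Module.End.mul_apply, LinearMap.zero_apply] at h1
  rw [h2] at h1
  rw [← h1, Module.End.natCast_apply, Nat.cast_smul_eq_nsmul]

/-- The action on the eigenlattice of a monoid acting on `J` through endomorphisms commuting with
the `t i`. -/
noncomputable def eigenRep {G : Type*} [Monoid G] (r : G →* AddMonoid.End J)
    (t : ι → AddMonoid.End J) (c : ι → O)
    (hr : ∀ (g : G) (i : ι) (k : ℕ) (x : J), p ^ k • x = 0 → r g (t i x) = t i (r g x)) :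
    G →* Module.End O (eigenLattice p O t c) where
  toFun g := (mapO p O (r g)).restrict fun _ hw => mapO_mem_eigenLattice (r g) (hr g) hw
  map_one' := by
    ext w
    simp
  map_mul' := fun g g' => by
    ext w
    simp

@[simp] theorem eigenRep_apply {G : Type*} [Monoid G] (r : G →* AddMonoid.End J)
    (t : ι → AddMonoid.End J) (c : ι → O)
    (hr : ∀ (g : G) (i : ι) (k : ℕ) (x : J), p ^ k • x = 0 → r g (t i x) = t i (r g x))
    (g : G) (w : eigenLattice p O t c) :
    ((eigenRep r t c hr g w : eigenLattice p O t c) : O ⊗[ℤ_[p]] Tate p J) =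
      mapO p O (r g) w := rfl

/-! ### Finiteness and freeness with coefficients -/

theorem isTorsionFree_tateO (hfin : {y : J | p • y = 0}.Finite) [IsDomain O] :
    Module.IsTorsionFree O (O ⊗[ℤ_[p]] Tate p J) :=
  haveI := finite_tate hfin
  haveI := free_tate hfin
  inferInstance

theorem finite_eigenLattice (hfin : {y : J | p • y = 0}.Finite) [IsNoetherianRing O]
    (t : ι → AddMonoid.End J) (c : ι → O) : Module.Finite O (eigenLattice p O t c) :=
  haveI := finite_tate hfin
  inferInstance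

theorem free_eigenLattice (hfin : {y : J | p • y = 0}.Finite) [IsDomain O]
    [IsPrincipalIdealRing O] (t : ι → AddMonoid.End J) (c : ι → O) :
    Module.Free O (eigenLattice p O t c) := by
  have h1 : Module.IsTorsionFree O (O ⊗[ℤ_[p]] Tate p J) := isTorsionFree_tateO hfin
  have h2 : Module.Finite O (eigenLattice p O t c) := finite_eigenLattice hfin t c
  have h3 : Module.IsTorsionFree O (eigenLattice p O t c) := inferInstance
  exact Module.free_of_finite_type_torsion_free' (R := O) (M := eigenLattice p O t c)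

/-! ### Eigenvectors from a lattice -/

variable {L : Type*} [AddCommGroup L]

variable (O) in
/-- The `O`-linear extension `O ⊗ L → O ⊗ Tate` of an additive map `L → Tate`. -/
noncomputable def thetaO (θ : L →+ Tate p J) : O ⊗[ℤ] L →ₗ[O] O ⊗[ℤ_[p]] Tate p J :=
  LinearMap.liftBaseChange O
    (((TensorProduct.mk ℤ_[p] O (Tate p J) 1).toAddMonoidHom.comp θ).toIntLinearMap)

theorem thetaO_tmul (θ : L →+ Tate p J) (a : O) (ψ : L) :
    thetaO O θ (a ⊗ₜ ψ) = a ⊗ₜ θ ψ := by
  simp [thetaO, TensorProduct.smul_tmul']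

theorem thetaO_injective [Module.Flat ℤ_[p] O] {κ : Type*} [Fintype κ] (b : Module.Basis κ ℤ L)
    (θ : L →+ Tate p J) (hθ : LinearIndependent ℤ_[p] (fun i => θ (b i))) :
    Function.Injective (thetaO O θ) := by
  rw [← LinearMap.ker_eq_bot, LinearMap.ker_eq_bot']
  intro x hx
  have hli := Module.Flat.linearIndependent_one_tmul (S := O) hθ
  rw [Fintype.linearIndependent_iff] at hli
  have hx' : ∑ i, (b.baseChange O).repr x i • ((1 : O) ⊗ₜ[ℤ_[p]] θ (b i)) = 0 := by
    rw [← hx]
    conv_rhs => rw [← (b.baseChange O).sum_repr x]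
    rw [map_sum]
    refine Finset.sum_congr rfl fun i _ => ?_
    rw [map_smul, Module.Basis.baseChange_apply, thetaO_tmul]
  have h0 := hli _ hx'
  rw [← (b.baseChange O).sum_repr x]
  simp [h0]

theorem thetaO_comm (θ : L →+ Tate p J) (f : AddMonoid.End J) (g : L →ₗ[ℤ] L)
    (h : ∀ ψ, tateMap p f (θ ψ) = θ (g ψ)) (v : O ⊗[ℤ] L) :
    mapO p O f (thetaO O θ v) = thetaO O θ (LinearMap.lTensor O g v) := by
  induction v using TensorProduct.induction_on with
  | zero => simp
  | tmul a ψ => rw [thetaO_tmul, mapO_tmul, h, LinearMap.lTensor_tmul, thetaO_tmul]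
  | add x y hx hy => rw [map_add, map_add, hx, hy, map_add, map_add]

/-- **Nonvanishing of the eigenlattice.**  An eigenvector in `O ⊗ L` of operators `g i` on a
lattice `L` which embeds compatibly in the Tate module gives a nonzero element of the
eigenlattice. -/
theorem exists_mem_eigenLattice_ne_zero [Module.Flat ℤ_[p] O] {κ : Type*} [Fintype κ]
    (b : Module.Basis κ ℤ L) (θ : L →+ Tate p J)
    (hθ : LinearIndependent ℤ_[p] (fun i => θ (b i)))
    (t : ι → AddMonoid.End J) (c : ι → O) (g : ι → L →ₗ[ℤ] L)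
    (hg : ∀ i ψ, tateMap p (t i) (θ ψ) = θ (g i ψ))
    (v : O ⊗[ℤ] L) (hv : v ≠ 0) (hveig : ∀ i, LinearMap.lTensor O (g i) v = c i • v) :
    ∃ w ∈ eigenLattice p O t c, w ≠ 0 :=
  ⟨thetaO O θ v, mem_eigenLattice.mpr fun i => by
      rw [thetaO_comm θ (t i) (g i) (hg i), hveig i, map_smul],
    fun h0 => hv (thetaO_injective b θ hθ (h0.trans (map_zero _).symm))⟩

end Coeff

end Fermat.Agent.Lib.TateSeq
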