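import Mathlib

set_option autoImplicit false

noncomputable section

namespace Fermat.Agent.Lib.TaylorHom

open Filter Topology

section Complex

/-- The Taylor series of `f : ℂ → ℂ` at `z₀`, as a formal power series. -/
def taylorAt (z₀ : ℂ) (f : ℂ → ℂ) : PowerSeries ℂ :=
  PowerSeries.mk fun m => ((m.factorial : ℂ))⁻¹ * iteratedDeriv m f z₀

lemma coeff_taylorAt (z₀ : ℂ) (f : ℂ → ℂ) (m : ℕ) :
    (taylorAt z₀ f).coeff m = ((m.factorial : ℂ))⁻¹ * iteratedDeriv m f z₀ := by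
  simp [taylorAt]

lemma taylorAt_congr {z₀ : ℂ} {f g : ℂ → ℂ} (h : f =ᶠ[𝓝 z₀] g) :
    taylorAt z₀ f = taylorAt z₀ g := by
  ext m
  rw [coeff_taylorAt, coeff_taylorAt, h.iteratedDeriv_eq m]

lemma coeff_zero_taylorAt (z₀ : ℂ) (f : ℂ → ℂ) : (taylorAt z₀ f).coeff 0 = f z₀ := by
  simp [coeff_taylorAt]

lemma constantCoeff_taylorAt (z₀ : ℂ) (f : ℂ → ℂ) :
    PowerSeries.constantCoeff (taylorAt z₀ f) = f z₀ := by
  rw [← PowerSeries.coeff_zero_eq_constantCoeff_apply, coeff_zero_taylorAt]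

lemma coeff_one_taylorAt (z₀ : ℂ) (f : ℂ → ℂ) : (taylorAt z₀ f).coeff 1 = deriv f z₀ := by
  simp [coeff_taylorAt, iteratedDeriv_one]

lemma taylorAt_mul {z₀ : ℂ} {f g : ℂ → ℂ} (hf : AnalyticAt ℂ f z₀) (hg : AnalyticAt ℂ g z₀) :
    taylorAt z₀ (f * g) = taylorAt z₀ f * taylorAt z₀ g := by
  ext n
  simp only [coeff_taylorAt, iteratedDeriv_mul hf.contDiffAt hg.contDiffAt, Finset.mul_sum,
    PowerSeries.coeff_mul, Finset.Nat.sum_antidiagonal_eq_sum_range_succ_mk, Nat.succ_eq_add_one]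
  refine Finset.sum_congr rfl fun i hi ↦ ?_
  have hi' : i ≤ n := by
    have := Finset.mem_range.mp hi
    omega
  rw [Nat.cast_choose _ hi']
  field_simp [Nat.factorial_ne_zero]

lemma taylorAt_add {z₀ : ℂ} {f g : ℂ → ℂ} (hf : AnalyticAt ℂ f z₀) (hg : AnalyticAt ℂ g z₀) :
    taylorAt z₀ (f + g) = taylorAt z₀ f + taylorAt z₀ g := by
  ext m
  simp only [coeff_taylorAt, map_add]
  rw [iteratedDeriv_add hf.contDiffAt hg.contDiffAt, mul_add]

lemma taylorAt_sub {z₀ : ℂ} {f g : ℂ → ℂ} (hf : AnalyticAt ℂ f z₀) (hg : AnalyticAt ℂ g z₀) :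
    taylorAt z₀ (f - g) = taylorAt z₀ f - taylorAt z₀ g := by
  ext m
  simp only [coeff_taylorAt, map_sub]
  rw [iteratedDeriv_sub hf.contDiffAt hg.contDiffAt, mul_sub]

lemma taylorAt_const (z₀ c : ℂ) : taylorAt z₀ (fun _ => c) = PowerSeries.C c := by
  ext m
  rw [coeff_taylorAt, PowerSeries.coeff_C]
  have h2 : iteratedDeriv m (fun _ : ℂ => c) z₀ = if m = 0 then c else 0 := by
    simpa [ite_apply] using! (iteratedDeriv_const (n := m) (c := c) (x := z₀))
  rw [h2]
  by_cases hm : m = 0 <;> simp [hm]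

lemma taylorAt_one (z₀ : ℂ) : taylorAt z₀ (1 : ℂ → ℂ) = 1 := by
  have h := taylorAt_const z₀ 1
  rw [map_one] at h
  exact h

lemma taylorAt_zero (z₀ : ℂ) : taylorAt z₀ (0 : ℂ → ℂ) = 0 := by
  have h := taylorAt_const z₀ 0
  rw [map_zero] at h
  exact h

lemma taylorAt_pow {z₀ : ℂ} {f : ℂ → ℂ} (hf : AnalyticAt ℂ f z₀) (n : ℕ) :
    taylorAt z₀ (f ^ n) = taylorAt z₀ f ^ n := by
  induction n with
  | zero => rw [pow_zero, pow_zero, taylorAt_one]
  | succ n ih => rw [pow_succ, pow_succ, taylorAt_mul (hf.pow n) hf, ih]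

/-- Coefficients of the Taylor series characterise the vanishing order. -/
lemma natCast_le_order_taylorAt {z₀ : ℂ} {f : ℂ → ℂ} (hf : AnalyticAt ℂ f z₀) (n : ℕ) :
    (n : ℕ∞) ≤ (taylorAt z₀ f).order ↔ (n : ℕ∞) ≤ analyticOrderAt f z₀ := by
  rw [natCast_le_analyticOrderAt_iff_iteratedDeriv_eq_zero hf]
  constructor
  · intro h i hi
    have h1 : ((i : ℕ) : ℕ∞) < (taylorAt z₀ f).order :=
      lt_of_lt_of_le (by exact_mod_cast hi) h
    have h2 := PowerSeries.coeff_of_lt_order i h1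
    rw [coeff_taylorAt] at h2
    rcases mul_eq_zero.mp h2 with h3 | h3
    · exact absurd h3 (inv_ne_zero (Nat.cast_ne_zero.mpr (Nat.factorial_ne_zero i)))
    · exact h3
  · intro h
    refine PowerSeries.nat_le_order _ _ fun i hi => ?_
    rw [coeff_taylorAt, h i hi, mul_zero]

/-- The order of the Taylor series is the analytic order of vanishing. -/
theorem order_taylorAt {z₀ : ℂ} {f : ℂ → ℂ} (hf : AnalyticAt ℂ f z₀) :
    (taylorAt z₀ f).order = analyticOrderAt f z₀ :=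
  ENat.eq_of_forall_natCast_le_iff fun n => natCast_le_order_taylorAt hf n

/-- The Taylor series vanishes iff the function vanishes near the point. -/
theorem taylorAt_eq_zero_iff {z₀ : ℂ} {f : ℂ → ℂ} (hf : AnalyticAt ℂ f z₀) :
    taylorAt z₀ f = 0 ↔ f =ᶠ[𝓝 z₀] 0 := by
  rw [← PowerSeries.order_eq_top, order_taylorAt hf, analyticOrderAt_eq_top]
  rfl

/-- The Taylor series has positive order iff the function vanishes at the point. -/
theorem constantCoeff_taylorAt_eq_zero_iff (z₀ : ℂ) (f : ℂ → ℂ) :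
    PowerSeries.constantCoeff (taylorAt z₀ f) = 0 ↔ f z₀ = 0 := by
  rw [constantCoeff_taylorAt]

/-- The Taylor series of `z - z₀` at `z₀` is `X`. -/
theorem taylorAt_sub_const (z₀ : ℂ) : taylorAt z₀ (fun z => z - z₀) = PowerSeries.X := by
  have hid : AnalyticAt ℂ (fun z : ℂ => z - z₀) z₀ := by fun_prop
  have h1 : (taylorAt z₀ (fun z => z - z₀)).order = 1 := by
    rw [order_taylorAt hid]
    have h2 : deriv (fun z : ℂ => z - z₀) z₀ ≠ 0 := by
      simp
    have h3 := hid.analyticOrderAt_sub_eq_one_of_deriv_ne_zero h2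
    simpa using h3
  ext m
  rw [PowerSeries.coeff_X, coeff_taylorAt]
  rcases Nat.lt_trichotomy m 1 with hm | hm | hm
  · have hm0 : m = 0 := by omega
    subst hm0
    simp
  · subst hm
    simp [iteratedDeriv_one]
  · have h4 : iteratedDeriv m (fun z : ℂ => z - z₀) z₀ = 0 := by
      obtain ⟨k, rfl⟩ : ∃ k, m = k + 2 := ⟨m - 2, by omega⟩
      rw [iteratedDeriv_succ', iteratedDeriv_succ']
      have h5 : deriv (deriv fun z : ℂ => z - z₀) = fun _ => (0 : ℂ) := by
        have h6 : deriv (fun z : ℂ => z - z₀) = fun _ => (1 : ℂ) := by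
          funext z
          simp
        rw [h6]
        funext z
        simp
      rw [h5]
      simpa [ite_apply] using! (iteratedDeriv_const (n := k) (c := (0 : ℂ)) (x := z₀))
    rw [h4, mul_zero, if_neg (by omega)]

/-- The Taylor series of the derivative is the formal derivative of the Taylor series. -/
theorem taylorAt_deriv (z₀ : ℂ) (f : ℂ → ℂ) :
    taylorAt z₀ (deriv f) = PowerSeries.derivative ℂ (taylorAt z₀ f) := by
  ext m
  rw [PowerSeries.coeff_derivative, coeff_taylorAt, coeff_taylorAt, ← iteratedDeriv_succ',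
    Nat.factorial_succ]
  have h1 : ((m.factorial : ℂ)) ≠ 0 := Nat.cast_ne_zero.mpr (Nat.factorial_ne_zero m)
  have h2 : ((m : ℂ) + 1) ≠ 0 := by exact_mod_cast Nat.succ_ne_zero m
  push_cast
  field_simp

end Complex

section UpperHalfPlane

open UpperHalfPlane
open scoped Manifold MatrixGroups

/-- A holomorphic function on `ℍ`, extended by `ofComplex`, is analytic at every point of `ℍ`. -/
theorem analyticAt_comp_ofComplex {F : ℍ → ℂ} (hF : MDiff F) (τ₀ : ℍ) :
    AnalyticAt ℂ (F ∘ ofComplex) (τ₀ : ℂ) :=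
  DifferentiableOn.analyticAt (UpperHalfPlane.mdifferentiable_iff.mp hF)
    (isOpen_upperHalfPlaneSet.mem_nhds τ₀.im_pos)

/-- The Taylor series at `τ₀ : ℍ` of a function on the upper half plane (in the variable
`z - τ₀`). -/
def taylorH (τ₀ : ℍ) (F : ℍ → ℂ) : PowerSeries ℂ := taylorAt (τ₀ : ℂ) (F ∘ ofComplex)

lemma taylorH_def (τ₀ : ℍ) (F : ℍ → ℂ) : taylorH τ₀ F = taylorAt (τ₀ : ℂ) (F ∘ ofComplex) := rfl

lemma constantCoeff_taylorH (τ₀ : ℍ) (F : ℍ → ℂ) :
    PowerSeries.constantCoeff (taylorH τ₀ F) = F τ₀ := by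
  rw [taylorH, constantCoeff_taylorAt, Function.comp_apply, ofComplex_apply]

lemma coeff_zero_taylorH (τ₀ : ℍ) (F : ℍ → ℂ) : (taylorH τ₀ F).coeff 0 = F τ₀ := by
  rw [PowerSeries.coeff_zero_eq_constantCoeff_apply, constantCoeff_taylorH]

lemma taylorH_mul {F G : ℍ → ℂ} (hF : MDiff F) (hG : MDiff G) (τ₀ : ℍ) :
    taylorH τ₀ (F * G) = taylorH τ₀ F * taylorH τ₀ G :=
  taylorAt_mul (analyticAt_comp_ofComplex hF τ₀) (analyticAt_comp_ofComplex hG τ₀)

lemma taylorH_add {F G : ℍ → ℂ} (hF : MDiff F) (hG : MDiff G) (τ₀ : ℍ) :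
    taylorH τ₀ (F + G) = taylorH τ₀ F + taylorH τ₀ G :=
  taylorAt_add (analyticAt_comp_ofComplex hF τ₀) (analyticAt_comp_ofComplex hG τ₀)

lemma taylorH_sub {F G : ℍ → ℂ} (hF : MDiff F) (hG : MDiff G) (τ₀ : ℍ) :
    taylorH τ₀ (F - G) = taylorH τ₀ F - taylorH τ₀ G :=
  taylorAt_sub (analyticAt_comp_ofComplex hF τ₀) (analyticAt_comp_ofComplex hG τ₀)

lemma taylorH_const (τ₀ : ℍ) (c : ℂ) : taylorH τ₀ (fun _ => c) = PowerSeries.C c :=
  taylorAt_const (τ₀ : ℂ) c

lemma taylorH_one (τ₀ : ℍ) : taylorH τ₀ (1 : ℍ → ℂ) = 1 := taylorAt_one (τ₀ : ℂ)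

lemma taylorH_zero (τ₀ : ℍ) : taylorH τ₀ (0 : ℍ → ℂ) = 0 := taylorAt_zero (τ₀ : ℂ)

lemma taylorH_pow {F : ℍ → ℂ} (hF : MDiff F) (τ₀ : ℍ) (n : ℕ) :
    taylorH τ₀ (F ^ n) = taylorH τ₀ F ^ n :=
  taylorAt_pow (analyticAt_comp_ofComplex hF τ₀) n

/-- The order of the Taylor series at `τ₀` is the order of vanishing at `τ₀`. -/
theorem order_taylorH {F : ℍ → ℂ} (hF : MDiff F) (τ₀ : ℍ) :
    (taylorH τ₀ F).order = analyticOrderAt (F ∘ ofComplex) (τ₀ : ℂ) :=
  order_taylorAt (analyticAt_comp_ofComplex hF τ₀)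

/-- **Identity theorem**: a holomorphic function on `ℍ` with vanishing Taylor series at one
point is zero. -/
theorem taylorH_eq_zero_iff {F : ℍ → ℂ} (hF : MDiff F) (τ₀ : ℍ) :
    taylorH τ₀ F = 0 ↔ F = 0 := by
  constructor
  · intro h
    have h1 : (F ∘ ofComplex) =ᶠ[𝓝 (τ₀ : ℂ)] 0 :=
      (taylorAt_eq_zero_iff (analyticAt_comp_ofComplex hF τ₀)).mp h
    have hU : IsPreconnected {z : ℂ | 0 < z.im} := (convex_halfSpace_im_gt 0).isPreconnected
    have han : AnalyticOnNhd ℂ (F ∘ ofComplex) {z : ℂ | 0 < z.im} := fun z hz =>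
      analyticAt_comp_ofComplex hF ⟨z, hz⟩
    have h2 := han.eqOn_zero_of_preconnected_of_eventuallyEq_zero hU τ₀.im_pos h1
    funext τ
    have h3 := h2 τ.im_pos
    simpa [Function.comp_apply, ofComplex_apply] using h3
  · rintro rfl
    exact taylorH_zero τ₀

/-- Precomposition with a Möbius transformation of `SL(2, ℤ)` preserves the order of the
Taylor series. -/
theorem order_taylorH_smul {F : ℍ → ℂ} (hF : MDiff F) (γ : SL(2, ℤ)) (τ₀ : ℍ) :
    (taylorH τ₀ (fun τ => F (γ • τ))).order = (taylorH (γ • τ₀) F).order := by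
  have hdet : 0 < ((γ : GL (Fin 2) ℝ)).val.det := by
    have h0 : ((γ : GL (Fin 2) ℝ)).val.det = 1 := by
      have := Matrix.SpecialLinearGroup.det_mapGL (S := ℝ) γ
      rw [← Matrix.GeneralLinearGroup.val_det_apply]
      exact congrArg Units.val this
    rw [h0]
    exact one_pos
  have hFγ : MDiff (fun τ => F (γ • τ)) := by
    have := hF.comp (UpperHalfPlane.mdifferentiable_smul hdet)
    exact this
  rw [order_taylorH hFγ, order_taylorH hF]
  have h1 : ((fun τ => F (γ • τ)) ∘ ofComplex)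
      = (F ∘ ofComplex) ∘ (fun z : ℂ => (((γ : GL (Fin 2) ℝ) • ofComplex z : ℍ) : ℂ)) := by
    funext z
    simp only [Function.comp_apply, ofComplex_apply]
    rfl
  rw [h1, analyticOrderAt_comp_of_deriv_ne_zero (τ₀.analyticAt_smul hdet)
    (τ₀.deriv_smul_ne_zero hdet)]
  simp only [ofComplex_apply]
  rfl

/-- Precomposition with a Möbius transformation of `SL(2, ℤ)` is holomorphic. -/
theorem mdiff_comp_smul {F : ℍ → ℂ} (hF : MDiff F) (γ : SL(2, ℤ)) :
    MDiff (fun τ => F (γ • τ)) := by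
  have hdet : 0 < ((γ : GL (Fin 2) ℝ)).val.det := by
    have h0 : ((γ : GL (Fin 2) ℝ)).val.det = 1 := by
      have := Matrix.SpecialLinearGroup.det_mapGL (S := ℝ) γ
      rw [← Matrix.GeneralLinearGroup.val_det_apply]
      exact congrArg Units.val this
    rw [h0]
    exact one_pos
  exact hF.comp (UpperHalfPlane.mdifferentiable_smul hdet)

/-- The Taylor series has positive order iff the function vanishes at the point. -/
theorem order_taylorH_pos_iff (τ₀ : ℍ) (F : ℍ → ℂ) :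
    0 < (taylorH τ₀ F).order ↔ F τ₀ = 0 := by
  rw [pos_iff_ne_zero, PowerSeries.order_ne_zero_iff_constCoeff_eq_zero, constantCoeff_taylorH]

end UpperHalfPlane

/-! ### Power series and Laurent series: orders and the `X`-adic valuation -/

section Laurent

open WithZero

/-- The `X`-adic valuation of a nonzero power series, viewed as a Laurent series, is
`exp (-order)`. -/
theorem valuation_ofPowerSeries {φ : PowerSeries ℂ} (hφ : φ ≠ 0) :
    Valued.v (HahnSeries.ofPowerSeries ℤ ℂ φ) = exp (-(φ.order.toNat : ℤ)) := by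
  set x := Valued.v (HahnSeries.ofPowerSeries ℤ ℂ φ) with hx
  have hx0 : x ≠ 0 := by
    rw [hx, Ne, map_eq_zero]
    intro h
    exact hφ (HahnSeries.ofPowerSeries_injective (by rw [h, map_zero]))
  have h1 : x ≤ exp (-(φ.order.toNat : ℤ)) := by
    rw [hx, LaurentSeries.valuation_le_iff_coeff_lt_eq_zero]
    intro m hm
    by_cases hm0 : 0 ≤ m
    · obtain ⟨k, rfl⟩ := Int.eq_ofNat_of_zero_le hm0
      rw [HahnSeries.ofPowerSeries_apply_coeff]
      exact PowerSeries.coeff_of_lt_order_toNat k (by exact_mod_cast hm)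
    · rw [HahnSeries.ofPowerSeries_apply]
      apply HahnSeries.embDomain_of_notMem_range
      rintro ⟨k, hk⟩
      apply hm0
      rw [← hk]
      exact Int.natCast_nonneg k
  have h2 : ¬ x ≤ exp (-(((φ.order.toNat : ℤ)) + 1)) := by
    rw [hx, LaurentSeries.valuation_le_iff_coeff_lt_eq_zero]
    intro h
    have h3 := h (φ.order.toNat : ℤ) (by omega)
    rw [HahnSeries.ofPowerSeries_apply_coeff] at h3
    exact PowerSeries.coeff_order hφ h3
  obtain ⟨m, hm⟩ : ∃ m : ℤ, x = exp m := ⟨log x, (exp_log hx0).symm⟩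
  rw [hm] at h1 h2 ⊢
  rw [exp_le_exp] at h1 h2
  congr 1
  omega

theorem valuation_ofPowerSeries_le_one (φ : PowerSeries ℂ) :
    Valued.v (HahnSeries.ofPowerSeries ℤ ℂ φ) ≤ 1 := by
  by_cases hφ : φ = 0
  · rw [hφ]
    simp only [map_zero]
    exact zero_le_one
  · rw [valuation_ofPowerSeries hφ, ← exp_zero, exp_le_exp]
    omega

theorem valuation_ofPowerSeries_lt_one_iff (φ : PowerSeries ℂ) :
    Valued.v (HahnSeries.ofPowerSeries ℤ ℂ φ) < 1 ↔ PowerSeries.constantCoeff φ = 0 := by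
  by_cases hφ : φ = 0
  · rw [hφ]
    simp only [map_zero]
    simp
  · rw [valuation_ofPowerSeries hφ, ← exp_zero, exp_lt_exp,
      ← PowerSeries.order_ne_zero_iff_constCoeff_eq_zero]
    have h0 := PowerSeries.coe_toNat_order hφ
    have h1 : φ.order ≠ 0 ↔ φ.order.toNat ≠ 0 := by
      constructor
      · intro h h'
        apply h
        rw [← h0, h']
        rfl
      · intro h h'
        apply h
        rw [h']
        rfl
    rw [h1]
    omega

end Laurent

/-! ### Taylor expansion as a ring homomorphism on rings of holomorphic functions -/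

section Hom

open UpperHalfPlane WithZero
open scoped Manifold MatrixGroups

variable (R : Subring (ℍ → ℂ)) (hR : ∀ f ∈ R, MDiff f)

/-- The Taylor expansion at `τ₀` as a ring homomorphism on a ring `R` of holomorphic functions
on the upper half plane. -/
def taylorHom (τ₀ : ℍ) : R →+* PowerSeries ℂ where
  toFun f := taylorH τ₀ (f : ℍ → ℂ)
  map_one' := taylorH_one τ₀
  map_mul' f g := taylorH_mul (hR f f.2) (hR g g.2) τ₀
  map_zero' := taylorH_zero τ₀
  map_add' f g := taylorH_add (hR f f.2) (hR g g.2) τ₀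

theorem taylorHom_apply (τ₀ : ℍ) (f : R) : taylorHom R hR τ₀ f = taylorH τ₀ (f : ℍ → ℂ) := rfl

theorem taylorHom_injective (τ₀ : ℍ) : Function.Injective (taylorHom R hR τ₀) := by
  rw [injective_iff_map_eq_zero]
  intro f hf
  rw [taylorHom_apply, taylorH_eq_zero_iff (hR f f.2)] at hf
  exact Subtype.ext hf

theorem constantCoeff_taylorHom (τ₀ : ℍ) (f : R) :
    PowerSeries.constantCoeff (taylorHom R hR τ₀ f) = (f : ℍ → ℂ) τ₀ :=
  constantCoeff_taylorH τ₀ _

theorem order_taylorHom (τ₀ : ℍ) (f : R) :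
    (taylorHom R hR τ₀ f).order = analyticOrderAt ((f : ℍ → ℂ) ∘ ofComplex) (τ₀ : ℂ) :=
  order_taylorH (hR f f.2) τ₀

theorem taylorHom_const (τ₀ : ℍ) (c : ℂ) (hc : (fun _ => c) ∈ R) :
    taylorHom R hR τ₀ ⟨fun _ => c, hc⟩ = PowerSeries.C c :=
  taylorH_const τ₀ c

/-- Invariance of the order under `SL(2, ℤ)`. -/
theorem order_taylorHom_smul (τ₀ : ℍ) (γ : SL(2, ℤ)) (f g : R)
    (hfg : ∀ τ, (g : ℍ → ℂ) τ = (f : ℍ → ℂ) (γ • τ)) :
    (taylorHom R hR τ₀ g).order = (taylorHom R hR (γ • τ₀) f).order := by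
  rw [taylorHom_apply, taylorHom_apply, ← order_taylorH_smul (hR f f.2) γ τ₀]
  congr 2
  funext τ
  exact hfg τ

/-- The Taylor expansion at `τ₀` as a ring homomorphism into Laurent series. -/
def laurentHom (τ₀ : ℍ) : R →+* LaurentSeries ℂ :=
  (HahnSeries.ofPowerSeries ℤ ℂ).comp (taylorHom R hR τ₀)

theorem laurentHom_apply (τ₀ : ℍ) (f : R) :
    laurentHom R hR τ₀ f = HahnSeries.ofPowerSeries ℤ ℂ (taylorH τ₀ (f : ℍ → ℂ)) := rfl

theorem laurentHom_injective (τ₀ : ℍ) : Function.Injective (laurentHom R hR τ₀) :=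
  HahnSeries.ofPowerSeries_injective.comp (taylorHom_injective R hR τ₀)

/-- The `X`-adic valuation of the Taylor expansion at `τ₀` is `exp (- order of vanishing)`. -/
theorem valuation_laurentHom (τ₀ : ℍ) (f : R) (hf : f ≠ 0) :
    Valued.v (laurentHom R hR τ₀ f)
      = exp (-(analyticOrderNatAt ((f : ℍ → ℂ) ∘ ofComplex) (τ₀ : ℂ) : ℤ)) := by
  have h0 : taylorHom R hR τ₀ f ≠ 0 := fun h =>
    hf (taylorHom_injective R hR τ₀ (by rw [h, map_zero]))
  have h1 := valuation_ofPowerSeries h0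
  rw [order_taylorHom] at h1
  exact h1

/-- Invariance of the valuation under `SL(2, ℤ)`. -/
theorem valuation_laurentHom_smul (τ₀ : ℍ) (γ : SL(2, ℤ)) (f g : R)
    (hfg : ∀ τ, (g : ℍ → ℂ) τ = (f : ℍ → ℂ) (γ • τ)) :
    Valued.v (laurentHom R hR τ₀ g) = Valued.v (laurentHom R hR (γ • τ₀) f) := by
  by_cases hf : f = 0
  · have hg : g = 0 := by
      apply Subtype.ext
      funext τ
      rw [hfg τ, hf]
      rfl
    rw [hf, hg]
    simp only [map_zero]
  · have hg : g ≠ 0 := by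
      intro hg
      apply hf
      apply (taylorHom_injective R hR (γ • τ₀))
      have h1 := order_taylorHom_smul R hR τ₀ γ f g hfg
      rw [hg, map_zero, PowerSeries.order_zero] at h1
      rw [map_zero]
      exact PowerSeries.order_eq_top.mp h1.symm
    have h0f : taylorHom R hR (γ • τ₀) f ≠ 0 := fun h =>
      hf (taylorHom_injective R hR _ (by rw [h, map_zero]))
    have h0g : taylorHom R hR τ₀ g ≠ 0 := fun h =>
      hg (taylorHom_injective R hR _ (by rw [h, map_zero]))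
    have h1 := valuation_ofPowerSeries h0f
    have h2 := valuation_ofPowerSeries h0g
    rw [order_taylorHom_smul R hR τ₀ γ f g hfg] at h2
    exact h2.trans h1.symm

/-- The valuation is `< 1` exactly at the functions vanishing at `τ₀`. -/
theorem valuation_laurentHom_lt_one_iff (τ₀ : ℍ) (f : R) :
    Valued.v (laurentHom R hR τ₀ f) < 1 ↔ (f : ℍ → ℂ) τ₀ = 0 := by
  rw [laurentHom_apply, valuation_ofPowerSeries_lt_one_iff, constantCoeff_taylorH]

/-- The valuation is `≤ 1` on the whole ring. -/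
theorem valuation_laurentHom_le_one (τ₀ : ℍ) (f : R) :
    Valued.v (laurentHom R hR τ₀ f) ≤ 1 :=
  valuation_ofPowerSeries_le_one _

/-- The valuation is `1` on the functions not vanishing at `τ₀`. -/
theorem valuation_laurentHom_eq_one (τ₀ : ℍ) (f : R) (h : (f : ℍ → ℂ) τ₀ ≠ 0) :
    Valued.v (laurentHom R hR τ₀ f) = 1 := by
  refine le_antisymm (valuation_laurentHom_le_one R hR τ₀ f) (not_lt.mp ?_)
  rw [valuation_laurentHom_lt_one_iff]
  exact h

/-- Explicit value of the valuation from the order of vanishing. -/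
theorem valuation_laurentHom_of_order (τ₀ : ℍ) (f : R) (n : ℕ)
    (hn : analyticOrderAt ((f : ℍ → ℂ) ∘ ofComplex) (τ₀ : ℂ) = n) :
    Valued.v (laurentHom R hR τ₀ f) = exp (-(n : ℤ)) := by
  have hf : f ≠ 0 := by
    rintro rfl
    have h1 := order_taylorHom R hR τ₀ 0
    rw [map_zero, PowerSeries.order_zero, hn] at h1
    exact ENat.top_ne_natCast n h1
  rw [valuation_laurentHom R hR τ₀ f hf, analyticOrderNatAt, hn]
  rfl

section Frac

variable {M : Type*} [Field M] [Algebra R M] [IsFractionRing R M]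

/-- The Taylor expansion at `τ₀`, extended to the fraction field. -/
def laurentFrac (τ₀ : ℍ) : M →+* LaurentSeries ℂ :=
  IsFractionRing.lift (laurentHom_injective R hR τ₀)

theorem laurentFrac_algebraMap (τ₀ : ℍ) (f : R) :
    laurentFrac R hR τ₀ (algebraMap R M f) = laurentHom R hR τ₀ f :=
  IsFractionRing.lift_algebraMap _ _

/-- The order-of-vanishing valuation at `τ₀` on the fraction field of a ring of holomorphic
functions. -/
def valFrac (τ₀ : ℍ) : Valuation M ℤᵐ⁰ :=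
  (Valued.v : Valuation (LaurentSeries ℂ) ℤᵐ⁰).comap (laurentFrac R hR (M := M) τ₀)

theorem valFrac_apply (τ₀ : ℍ) (m : M) :
    valFrac R hR τ₀ m = Valued.v (laurentFrac R hR τ₀ m) := rfl

theorem valFrac_algebraMap (τ₀ : ℍ) (f : R) :
    valFrac R hR τ₀ (algebraMap R M f) = Valued.v (laurentHom R hR τ₀ f) := by
  rw [valFrac_apply, laurentFrac_algebraMap]

theorem valFrac_algebraMap_le_one (τ₀ : ℍ) (f : R) :
    valFrac R hR τ₀ (algebraMap R M f) ≤ 1 := by
  rw [valFrac_algebraMap]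
  exact valuation_laurentHom_le_one R hR τ₀ f

theorem valFrac_algebraMap_lt_one_iff (τ₀ : ℍ) (f : R) :
    valFrac R hR τ₀ (algebraMap R M f) < 1 ↔ (f : ℍ → ℂ) τ₀ = 0 := by
  rw [valFrac_algebraMap]
  exact valuation_laurentHom_lt_one_iff R hR τ₀ f

theorem valFrac_algebraMap_eq_one (τ₀ : ℍ) (f : R) (h : (f : ℍ → ℂ) τ₀ ≠ 0) :
    valFrac R hR τ₀ (algebraMap R M f) = 1 := by
  rw [valFrac_algebraMap]
  exact valuation_laurentHom_eq_one R hR τ₀ f h

theorem valFrac_algebraMap_of_order (τ₀ : ℍ) (f : R) (n : ℕ)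
    (hn : analyticOrderAt ((f : ℍ → ℂ) ∘ ofComplex) (τ₀ : ℂ) = n) :
    valFrac R hR τ₀ (algebraMap R M f) = exp (-(n : ℤ)) := by
  rw [valFrac_algebraMap]
  exact valuation_laurentHom_of_order R hR τ₀ f n hn

/-- A ring endomorphism `σ` of the fraction field inducing `f ↦ f ∘ γ` on `R` transports the
valuation at `τ₀` to the valuation at `γ • τ₀`. -/
theorem valFrac_map (τ₀ : ℍ) (γ : SL(2, ℤ)) (σ : M →+* M)
    (hσ : ∀ f : R, ∃ g : R, σ (algebraMap R M f) = algebraMap R M g ∧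
      ∀ τ, (g : ℍ → ℂ) τ = (f : ℍ → ℂ) (γ • τ)) (m : M) :
    valFrac R hR τ₀ (σ m) = valFrac R hR (γ • τ₀) m := by
  obtain ⟨a, b, -, rfl⟩ := IsFractionRing.div_surjective (A := R) m
  obtain ⟨a', ha', ha''⟩ := hσ a
  obtain ⟨b', hb', hb''⟩ := hσ b
  rw [map_div₀, map_div₀, map_div₀, ha', hb', valFrac_algebraMap, valFrac_algebraMap,
    valFrac_algebraMap, valFrac_algebraMap, valuation_laurentHom_smul R hR τ₀ γ a a' ha'',
    valuation_laurentHom_smul R hR τ₀ γ b b' hb'']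

/-- A ring endomorphism `σ` of the fraction field inducing `f ↦ f ∘ γ` on `R`, with `γ` fixing
`τ₀`, preserves the valuation at `τ₀`. -/
theorem valFrac_map_of_fixed (τ₀ : ℍ) (γ : SL(2, ℤ)) (hγ : γ • τ₀ = τ₀) (σ : M →+* M)
    (hσ : ∀ f : R, ∃ g : R, σ (algebraMap R M f) = algebraMap R M g ∧
      ∀ τ, (g : ℍ → ℂ) τ = (f : ℍ → ℂ) (γ • τ)) (m : M) :
    valFrac R hR τ₀ (σ m) = valFrac R hR τ₀ m := by
  rw [valFrac_map R hR τ₀ γ σ hσ m, hγ]

end Frac

end Hom

end Fermat.Agent.Lib.TaylorHom
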