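import Mathlib
import Fermat.Prelude.Def_FLTPrelim_GaloisRep
import Fermat.Agent.S51.Hauptmodul

/-!
# Nontriviality of `E[3]` and `E[5]` over an algebraically closed field of characteristic `0`

`x`-coordinate-only doubling formula on a Weierstrass curve, and explicit construction of points
of exact order `3` and `5`.

Notation: `Mx E x = 4x³ + b₂x² + 2b₄x + b₆` (`= ψ₂²`), `Nmx E x = x⁴ - b₄x² - 2b₆x - b₈`
(numerator of `x(2P)`), `Psi3x E x = 3x⁴ + b₂x³ + 3b₄x² + 3b₆x + b₈`.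
-/

set_option autoImplicit false

namespace Fermat.Agent.Lib.TorsNontriv

open WeierstrassCurve WeierstrassCurve.Affine Polynomial
open Fermat.Agent.S51.Hauptmodul

section Generic

variable {K : Type*} [Field K] (E : Affine K)

/-- `ψ₂²(x) = 4x³ + b₂x² + 2b₄x + b₆` -/
def Mx (x : K) : K := 4 * x ^ 3 + E.b₂ * x ^ 2 + 2 * E.b₄ * x + E.b₆

/-- numerator of the `x`-coordinate of `2P`: `x⁴ - b₄x² - 2b₆x - b₈` -/
def Nmx (x : K) : K := x ^ 4 - E.b₄ * x ^ 2 - 2 * E.b₆ * x - E.b₈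

/-- `Ψ₃(x) = 3x⁴ + b₂x³ + 3b₄x² + 3b₆x + b₈` -/
def Psi3x (x : K) : K := 3 * x ^ 4 + E.b₂ * x ^ 3 + 3 * E.b₄ * x ^ 2 + 3 * E.b₆ * x + E.b₈

theorem Nmx_eq (x : K) : Nmx E x = x * Mx E x - Psi3x E x := by
  simp only [Nmx, Mx, Psi3x]; ring

theorem Mx_eq_tB6 (x : K) : Mx E x = tB6 E.b₂ E.b₄ E.b₆ x := by
  simp only [Mx, tB6]; ring

theorem Psi3x_eq_tB8 (x : K) : Psi3x E x = tB8 E.b₂ E.b₄ E.b₆ E.b₈ x := by
  simp only [Psi3x, tB8]; ring

theorem disc_eq_discOf : E.Δ = discOf E.b₂ E.b₄ E.b₆ E.b₈ := by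
  simp only [WeierstrassCurve.Δ, discOf]

/-- on the curve, `ψ₂²(x) = (2y + a₁x + a₃)²` -/
theorem Mx_eq_sq {x y : K} (h : E.Equation x y) :
    Mx E x = (2 * y + E.a₁ * x + E.a₃) ^ 2 := by
  rw [equation_iff] at h
  simp only [Mx, WeierstrassCurve.b₂, WeierstrassCurve.b₄, WeierstrassCurve.b₆]
  linear_combination (-4 : K) * h

/-- if the translated `b₆` and `b₈` both vanish at `x`, then `Δ = 0` -/
theorem disc_eq_zero_of_tB6_tB8 {x : K} (h6 : tB6 E.b₂ E.b₄ E.b₆ x = 0)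
    (h8 : tB8 E.b₂ E.b₄ E.b₆ E.b₈ x = 0) : E.Δ = 0 := by
  have hrel := tB_relation E.b₂ E.b₄ E.b₆ E.b₈ x E.b_relation
  rw [h6, h8] at hrel
  have h4 : tB4 E.b₂ E.b₄ x = 0 := by
    have : tB4 E.b₂ E.b₄ x ^ 2 = 0 := by linear_combination hrel
    exact pow_eq_zero_iff (two_ne_zero) |>.mp this
  rw [disc_eq_discOf, ← discOf_tB E.b₂ E.b₄ E.b₆ E.b₈ x E.b_relation, h6, h8, h4]
  simp only [discOf]; ring

/-- `ψ₂²` and the doubling numerator have no common root when `Δ ≠ 0` -/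
theorem disc_eq_zero_of_Mx_Nmx {x : K} (hM : Mx E x = 0) (hN : Nmx E x = 0) : E.Δ = 0 := by
  have h6 : tB6 E.b₂ E.b₄ E.b₆ x = 0 := by rw [← Mx_eq_tB6]; exact hM
  have h8 : tB8 E.b₂ E.b₄ E.b₆ E.b₈ x = 0 := by
    rw [← Psi3x_eq_tB8]
    have := Nmx_eq E x
    rw [hN, hM] at this
    linear_combination this
  exact disc_eq_zero_of_tB6_tB8 E h6 h8

variable [DecidableEq K]

/-- the `x`-coordinate of the tangent-line double, multiplied by `ψ₂²`, is the doubling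
numerator -/
theorem addX_slope_mul_Mx {x y : K} (h : E.Equation x y) (hy : y ≠ E.negY x y) :
    E.addX x x (E.slope x x y y) * Mx E x = Nmx E x := by
  have hψ : y - E.negY x y ≠ 0 := sub_ne_zero.mpr hy
  rw [slope_of_Y_ne rfl hy, Mx_eq_sq E h]
  have e : (2 * y + E.a₁ * x + E.a₃) = y - E.negY x y := by simp only [negY]; ring
  rw [e]
  rw [equation_iff] at h
  simp only [addX, Nmx, WeierstrassCurve.b₄, WeierstrassCurve.b₆, WeierstrassCurve.b₈]
  field_simp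
  simp only [negY]
  linear_combination (-(E.a₁ ^ 2 + 4 * E.a₂ + 8 * x)) * h

/-- **Doubling, `x`-coordinate only.** If `ψ₂²(x) ≠ 0` then `2 • (x, y)` is an affine point
`(x', y')` with `x' · ψ₂²(x) = Nm(x)`. -/
theorem two_zsmul_some {x y : K} (h : E.Nonsingular x y) (hM : Mx E x ≠ 0) :
    ∃ (x' y' : K) (h' : E.Nonsingular x' y'),
      (2 : ℤ) • Point.some x y h = Point.some x' y' h' ∧ x' * Mx E x = Nmx E x := by
  have hy : y ≠ E.negY x y := by
    intro hy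
    apply hM
    rw [Mx_eq_sq E h.1]
    have : 2 * y + E.a₁ * x + E.a₃ = 0 := by
      simp only [negY] at hy
      linear_combination hy
    rw [this]; ring
  refine ⟨_, _, nonsingular_add h h fun hxy => hy hxy.right, ?_, addX_slope_mul_Mx E h.1 hy⟩
  rw [two_zsmul]
  exact Point.add_self_of_Y_ne hy

/-- if `ψ₂²(x) = 0` then `2 • (x, y) = 0` -/
theorem two_zsmul_some_eq_zero {x y : K} (h : E.Nonsingular x y) (hM : Mx E x = 0) :
    (2 : ℤ) • Point.some x y h = 0 := by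
  have hy : y = E.negY x y := by
    rw [Mx_eq_sq E h.1] at hM
    have := pow_eq_zero_iff (two_ne_zero) |>.mp hM
    simp only [negY]
    linear_combination this
  rw [two_zsmul]
  exact Point.add_self_of_Y_eq hy

omit [DecidableEq K] in
/-- two affine points with the same `x`-coordinate are equal or opposite -/
theorem eq_or_eq_neg_of_x_eq {x y y' : K} (h : E.Nonsingular x y) (h' : E.Nonsingular x y') :
    Point.some x y h = Point.some x y' h' ∨ Point.some x y h = -Point.some x y' h' :=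
  Point.X_eq_iff.mp rfl

/-! ### Existence of points over an algebraically closed field -/

omit [DecidableEq K] in
/-- a polynomial with a nonzero coefficient in positive degree has a root -/
theorem exists_root_of_coeff_ne_zero [IsAlgClosed K] (p : K[X]) (n : ℕ) (hn : 0 < n)
    (h : p.coeff n ≠ 0) : ∃ x, p.IsRoot x := by
  apply IsAlgClosed.exists_root
  intro h0
  have h1 : p.natDegree = 0 := natDegree_eq_zero_iff_degree_le_zero.mpr h0.le
  have h2 := le_natDegree_of_ne_zero h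
  omega

omit [DecidableEq K] in
theorem exists_root_quadratic [IsAlgClosed K] (a b c : K) (ha : a ≠ 0) :
    ∃ x : K, a * x ^ 2 + b * x + c = 0 := by
  obtain ⟨x, hx⟩ := exists_root_of_coeff_ne_zero (C a * X ^ 2 + C b * X + C c) 2 (by norm_num)
    (by simpa [coeff_X, coeff_C] using ha)
  refine ⟨x, ?_⟩
  simpa only [IsRoot, eval_add, eval_mul, eval_C, eval_pow, eval_X] using hx

omit [DecidableEq K] in
theorem exists_root_quartic [IsAlgClosed K] (a b c d e : K) (ha : a ≠ 0) :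
    ∃ x : K, a * x ^ 4 + b * x ^ 3 + c * x ^ 2 + d * x + e = 0 := by
  obtain ⟨x, hx⟩ := exists_root_of_coeff_ne_zero
    (C a * X ^ 4 + C b * X ^ 3 + C c * X ^ 2 + C d * X + C e) 4 (by norm_num)
    (by simpa [coeff_X, coeff_C] using ha)
  refine ⟨x, ?_⟩
  simpa only [IsRoot, eval_add, eval_mul, eval_C, eval_pow, eval_X] using hx

omit [DecidableEq K] in
theorem exists_root_sextic [IsAlgClosed K] (a b c d e f g : K) (ha : a ≠ 0) :
    ∃ x : K, a * x ^ 6 + b * x ^ 5 + c * x ^ 4 + d * x ^ 3 + e * x ^ 2 + f * x + g = 0 := by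
  obtain ⟨x, hx⟩ := exists_root_of_coeff_ne_zero
    (C a * X ^ 6 + C b * X ^ 5 + C c * X ^ 4 + C d * X ^ 3 + C e * X ^ 2 + C f * X + C g) 6
    (by norm_num) (by simpa [coeff_X, coeff_C] using ha)
  refine ⟨x, ?_⟩
  simpa only [IsRoot, eval_add, eval_mul, eval_C, eval_pow, eval_X] using hx

omit [DecidableEq K] in
/-- every `x` is the `x`-coordinate of a (nonsingular) point -/
theorem exists_y [IsAlgClosed K] (hΔ : E.Δ ≠ 0) (x : K) : ∃ y : K, E.Nonsingular x y := by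
  obtain ⟨y, hy⟩ := exists_root_quadratic (1 : K) (E.a₁ * x + E.a₃)
    (-(x ^ 3 + E.a₂ * x ^ 2 + E.a₄ * x + E.a₆)) one_ne_zero
  refine ⟨y, (equation_iff_nonsingular_of_Δ_ne_zero hΔ).mp ?_⟩
  rw [equation_iff]
  linear_combination hy

/-- **`E[3]` is nontrivial.** -/
theorem exists_three_torsion [IsAlgClosed K] [CharZero K] (hΔ : E.Δ ≠ 0) :
    ∃ P : E.Point, P ≠ 0 ∧ (3 : ℤ) • P = 0 := by
  obtain ⟨x0, hx0⟩ := exists_root_quartic (3 : K) E.b₂ (3 * E.b₄) (3 * E.b₆) E.b₈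
    (by norm_num)
  have h3 : Psi3x E x0 = 0 := by
    simp only [Psi3x]
    linear_combination hx0
  have hM : Mx E x0 ≠ 0 := fun hM =>
    hΔ (disc_eq_zero_of_Mx_Nmx E hM (by rw [Nmx_eq, hM, h3]; ring))
  obtain ⟨y0, h0⟩ := exists_y E hΔ x0
  obtain ⟨x', y', h', h2, hx'⟩ := two_zsmul_some E h0 hM
  have hx'eq : x' = x0 := by
    have : x' * Mx E x0 = x0 * Mx E x0 := by rw [hx', Nmx_eq, h3, sub_zero]
    exact mul_right_cancel₀ hM this
  subst hx'eq
  refine ⟨Point.some x' y0 h0, Point.some_ne_zero h0, ?_⟩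
  rcases eq_or_eq_neg_of_x_eq E h' h0 with h | h
  · exfalso
    rw [← h2, two_zsmul] at h
    exact Point.some_ne_zero h0 (by simp at h)
  · rw [← h2] at h
    have : (3 : ℤ) • Point.some x' y0 h0 = (2 : ℤ) • Point.some x' y0 h0 + Point.some x' y0 h0 := by
      rw [show (3 : ℤ) = 2 + 1 by norm_num, add_zsmul, one_zsmul]
    rw [this, h, neg_add_cancel]

/-- the sextic whose roots are the midpoints `s = (x(P) + x(2P))/2` of the cyclic subgroups of
order `5` -/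
def sextic (s : K) : K :=
  64 * s ^ 6 + 32 * E.b₂ * s ^ 5 + 160 * E.b₄ * s ^ 4 + 320 * E.b₆ * s ^ 3
    + (44 * E.b₂ * E.b₆ - 44 * E.b₄ ^ 2 + 144 * E.b₈) * s ^ 2
    + (-2 * E.b₂ * E.b₄ ^ 2 + 24 * E.b₂ * E.b₈ + 2 * E.b₂ ^ 2 * E.b₆ - 32 * E.b₄ * E.b₆) * s
    + (-E.b₂ * E.b₄ * E.b₆ + E.b₂ ^ 2 * E.b₈ - 5 * E.b₆ ^ 2)

omit [DecidableEq K] in
theorem sextic_eq (s : K) :
    sextic E s = tB8 E.b₂ E.b₄ E.b₆ E.b₈ s * tB2 E.b₂ s ^ 2 - 5 * tB6 E.b₂ E.b₄ E.b₆ s ^ 2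
      - tB4 E.b₂ E.b₄ s * tB6 E.b₂ E.b₄ E.b₆ s * tB2 E.b₂ s := by
  simp only [sextic, tB2, tB4, tB6, tB8]; ring

omit [DecidableEq K] in
/-- existence of the data `(s, ρ)` of a cyclic subgroup of order `5` -/
theorem exists_s_rho [IsAlgClosed K] [CharZero K] (hΔ : E.Δ ≠ 0) :
    ∃ s ρ : K, ρ ≠ 0 ∧ tB6 E.b₂ E.b₄ E.b₆ s = tB2 E.b₂ s * ρ ∧
      tB8 E.b₂ E.b₄ E.b₆ E.b₈ s = 5 * ρ ^ 2 + tB4 E.b₂ E.b₄ s * ρ := by
  obtain ⟨s, hs⟩ := exists_root_sextic (64 : K) (32 * E.b₂) (160 * E.b₄) (320 * E.b₆)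
    (44 * E.b₂ * E.b₆ - 44 * E.b₄ ^ 2 + 144 * E.b₈)
    (-2 * E.b₂ * E.b₄ ^ 2 + 24 * E.b₂ * E.b₈ + 2 * E.b₂ ^ 2 * E.b₆ - 32 * E.b₄ * E.b₆)
    (-E.b₂ * E.b₄ * E.b₆ + E.b₂ ^ 2 * E.b₈ - 5 * E.b₆ ^ 2) (by norm_num)
  have hs' : sextic E s = 0 := by
    simp only [sextic]
    linear_combination hs
  rw [sextic_eq] at hs'
  refine ⟨s, ?_⟩
  set B2 := tB2 E.b₂ s with hB2
  set B4 := tB4 E.b₂ E.b₄ s with hB4
  set B6 := tB6 E.b₂ E.b₄ E.b₆ s with hB6
  set B8 := tB8 E.b₂ E.b₄ E.b₆ E.b₈ s with hB8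
  by_cases h2 : B2 = 0
  · -- then `B6 = 0`; take `ρ` a root of `5ρ² + B4 ρ - B8`
    have h6 : B6 = 0 := by
      have : (5 : K) * B6 ^ 2 = 0 := by rw [h2] at hs'; linear_combination -hs'
      rcases mul_eq_zero.mp this with h | h
      · exact absurd h (by norm_num)
      · exact pow_eq_zero_iff (two_ne_zero) |>.mp h
    have h8 : B8 ≠ 0 := fun h8 => hΔ (disc_eq_zero_of_tB6_tB8 E h6 h8)
    obtain ⟨ρ, hρ⟩ := exists_root_quadratic (5 : K) B4 (-B8) (by norm_num)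
    refine ⟨ρ, ?_, ?_, ?_⟩
    · rintro rfl
      apply h8
      linear_combination -hρ
    · rw [h6, h2, zero_mul]
    · linear_combination -hρ
  · refine ⟨B6 / B2, ?_, ?_, ?_⟩
    · intro h
      have h6 : B6 = 0 := by
        rcases div_eq_zero_iff.mp h with h | h
        · exact h
        · exact absurd h h2
      have h8 : B8 = 0 := by
        rw [h6] at hs'
        have : B8 * B2 ^ 2 = 0 := by linear_combination hs'
        rcases mul_eq_zero.mp this with h | h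
        · exact h
        · exact absurd (pow_eq_zero_iff (two_ne_zero) |>.mp h) h2
      exact hΔ (disc_eq_zero_of_tB6_tB8 E h6 h8)
    · field_simp
    · field_simp
      linear_combination hs'

/-- **`E[5]` is nontrivial.** -/
theorem exists_five_torsion [IsAlgClosed K] [CharZero K] (hΔ : E.Δ ≠ 0) :
    ∃ P : E.Point, P ≠ 0 ∧ (5 : ℤ) • P = 0 := by
  obtain ⟨s, ρ, hρ, h6, h8⟩ := exists_s_rho E hΔ
  obtain ⟨r, hr⟩ := IsAlgClosed.exists_pow_nat_eq ρ (n := 2) (by norm_num)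
  have hr0 : r ≠ 0 := by
    rintro rfl
    apply hρ
    rw [← hr]; ring
  have hA : Nmx E (s + r) = (s - r) * Mx E (s + r) := by
    simp only [Nmx, Mx, tB2, tB4, tB6, tB8] at *
    linear_combination (-1 : K) * h8 - r * h6
      + (5 * (r ^ 2 + ρ) + (E.b₄ + s * E.b₂ + 6 * s ^ 2) + r * (E.b₂ + 12 * s)) * hr
  have hB : Nmx E (s - r) = (s + r) * Mx E (s - r) := by
    simp only [Nmx, Mx, tB2, tB4, tB6, tB8] at *
    linear_combination (-1 : K) * h8 + r * h6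
      + (5 * (r ^ 2 + ρ) + (E.b₄ + s * E.b₂ + 6 * s ^ 2) - r * (E.b₂ + 12 * s)) * hr
  have hM1 : Mx E (s + r) ≠ 0 := fun hM =>
    hΔ (disc_eq_zero_of_Mx_Nmx E hM (by rw [hA, hM, mul_zero]))
  have hM2 : Mx E (s - r) ≠ 0 := fun hM =>
    hΔ (disc_eq_zero_of_Mx_Nmx E hM (by rw [hB, hM, mul_zero]))
  obtain ⟨y1, h1⟩ := exists_y E hΔ (s + r)
  obtain ⟨x2, y2, h2, hd1, hx2⟩ := two_zsmul_some E h1 hM1
  have hx2eq : x2 = s - r := mul_right_cancel₀ hM1 (by rw [hx2, hA])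
  subst hx2eq
  obtain ⟨x4, y4, h4, hd2, hx4⟩ := two_zsmul_some E h2 hM2
  have hx4eq : x4 = s + r := mul_right_cancel₀ hM2 (by rw [hx4, hB])
  subst hx4eq
  refine ⟨Point.some (s + r) y1 h1, Point.some_ne_zero h1, ?_⟩
  set P := Point.some (s + r) y1 h1 with hP
  have h4P : (4 : ℤ) • P = Point.some (s + r) y4 h4 := by
    rw [show (4 : ℤ) = 2 * 2 by norm_num, mul_zsmul, hd1, hd2]
  rcases eq_or_eq_neg_of_x_eq E h4 h1 with h | h
  · -- `4P = P`: then `2P = -P`, so `x(2P) = x(P)`, impossible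
    exfalso
    rw [← h4P, ← hP] at h
    have h3 : (2 : ℤ) • P = -P := by
      have : (4 : ℤ) • P = (2 : ℤ) • P + P + P := by
        rw [show (4 : ℤ) = 2 + 1 + 1 by norm_num, add_zsmul, add_zsmul, one_zsmul]
      rw [this] at h
      have h' : (2 : ℤ) • P + P = 0 := by simpa using h
      exact eq_neg_of_add_eq_zero_left h'
    rw [hd1, hP, Point.neg_some] at h3
    have hx : s - r = s + r := (Point.some.inj h3).1
    apply hr0
    have : (2 : K) * r = 0 := by linear_combination -hx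
    rcases mul_eq_zero.mp this with h | h
    · exact absurd h two_ne_zero
    · exact h
  · rw [← h4P, ← hP] at h
    have : (5 : ℤ) • P = (4 : ℤ) • P + P := by
      rw [show (5 : ℤ) = 4 + 1 by norm_num, add_zsmul, one_zsmul]
    rw [this, h, neg_add_cancel]

end Generic

/-! ### Specialisation to `W : WeierstrassCurve ℤ` base-changed to `ℚ̄` -/

section Weierstrass

variable (W : WeierstrassCurve ℤ)

/-- the base change of `W` to `ℚ̄` (reducible: unifies with the curve in `ModRepIsIrreducible`) -/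
noncomputable abbrev EQbar : Affine (AlgebraicClosure ℚ) :=
  (W.map (Int.castRingHom ℚ))⁄(AlgebraicClosure ℚ)

theorem EQbar_b₂ : (EQbar W).b₂ = algebraMap ℚ (AlgebraicClosure ℚ) (W.b₂ : ℚ) := by
  show ((W.map (Int.castRingHom ℚ)).map (algebraMap ℚ (AlgebraicClosure ℚ))).b₂ = _
  rw [WeierstrassCurve.map_b₂, WeierstrassCurve.map_b₂]; rfl

theorem EQbar_b₄ : (EQbar W).b₄ = algebraMap ℚ (AlgebraicClosure ℚ) (W.b₄ : ℚ) := by
  show ((W.map (Int.castRingHom ℚ)).map (algebraMap ℚ (AlgebraicClosure ℚ))).b₄ = _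
  rw [WeierstrassCurve.map_b₄, WeierstrassCurve.map_b₄]; rfl

theorem EQbar_b₆ : (EQbar W).b₆ = algebraMap ℚ (AlgebraicClosure ℚ) (W.b₆ : ℚ) := by
  show ((W.map (Int.castRingHom ℚ)).map (algebraMap ℚ (AlgebraicClosure ℚ))).b₆ = _
  rw [WeierstrassCurve.map_b₆, WeierstrassCurve.map_b₆]; rfl

theorem EQbar_b₈ : (EQbar W).b₈ = algebraMap ℚ (AlgebraicClosure ℚ) (W.b₈ : ℚ) := by
  show ((W.map (Int.castRingHom ℚ)).map (algebraMap ℚ (AlgebraicClosure ℚ))).b₈ = _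
  rw [WeierstrassCurve.map_b₈, WeierstrassCurve.map_b₈]; rfl

theorem EQbar_disc : (EQbar W).Δ = algebraMap ℚ (AlgebraicClosure ℚ) (W.Δ : ℚ) := by
  show ((W.map (Int.castRingHom ℚ)).map (algebraMap ℚ (AlgebraicClosure ℚ))).Δ = _
  rw [WeierstrassCurve.map_Δ, WeierstrassCurve.map_Δ]; rfl

theorem EQbar_disc_ne_zero (hΔ : W.Δ ≠ 0) : (EQbar W).Δ ≠ 0 := by
  rw [EQbar_disc]
  have : (W.Δ : ℚ) ≠ 0 := by exact_mod_cast hΔ
  simpa using this

/-- `E[3](ℚ̄)` contains a nonzero point -/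
theorem exists_three_torsion_int (hΔ : W.Δ ≠ 0) :
    ∃ P : (EQbar W).Point, P ≠ 0 ∧ (3 : ℤ) • P = 0 :=
  exists_three_torsion (EQbar W) (EQbar_disc_ne_zero W hΔ)

/-- `E[5](ℚ̄)` contains a nonzero point -/
theorem exists_five_torsion_int (hΔ : W.Δ ≠ 0) :
    ∃ P : (EQbar W).Point, P ≠ 0 ∧ (5 : ℤ) • P = 0 :=
  exists_five_torsion (EQbar W) (EQbar_disc_ne_zero W hΔ)

/-- `E[3](ℚ̄)` is nontrivial (first half of `ModRepIsIrreducible 3`) -/
theorem nontrivial_torsion_three (hΔ : W.Δ ≠ 0) :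
    Nontrivial (Submodule.torsionBy ℤ
      ((W.map (Int.castRingHom ℚ))⁄(AlgebraicClosure ℚ)).Point (3 : ℕ)) := by
  obtain ⟨P, hP0, hP⟩ := exists_three_torsion_int W hΔ
  refine ⟨⟨⟨P, ?_⟩, 0, ?_⟩⟩
  · rw [Submodule.mem_torsionBy_iff]
    exact_mod_cast hP
  · intro h
    exact hP0 (congrArg Subtype.val h)

/-- `E[5](ℚ̄)` is nontrivial (first half of `ModRepIsIrreducible 5`) -/
theorem nontrivial_torsion_five (hΔ : W.Δ ≠ 0) :
    Nontrivial (Submodule.torsionBy ℤ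
      ((W.map (Int.castRingHom ℚ))⁄(AlgebraicClosure ℚ)).Point (5 : ℕ)) := by
  obtain ⟨P, hP0, hP⟩ := exists_five_torsion_int W hΔ
  refine ⟨⟨⟨P, ?_⟩, 0, ?_⟩⟩
  · rw [Submodule.mem_torsionBy_iff]
    exact_mod_cast hP
  · intro h
    exact hP0 (congrArg Subtype.val h)

end Weierstrass

end Fermat.Agent.Lib.TorsNontriv
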