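import Mathlib
import Fermat.Prelude.Def_FLTPrelim_GaloisRep
import Fermat.Agent.S51.Hauptmodul
import Fermat.Agent.Lib.TorsNontriv

/-!
# `x`-coordinates of `3`- and `5`-torsion points

* `psi3_of_three_torsion`: a `3`-torsion affine point has `Ψ₃(x) = 0`;
  `exists_finset_three`: a `Finset` of at most `4` elements containing these `x`.
* `five_torsion_data`: for a `5`-torsion affine point `P = (x, y)`, `2P = (x₂, y₂)` with
  `x₂ · M(x) = Nm(x)`, `x · M(x₂) = Nm(x₂)`, `x ≠ x₂`;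
  `exists_finset_five`: a `Finset` of at most `16` elements containing these `x`
  (roots of an explicit polynomial of degree `16` with leading coefficient `-15`).
* `s_rho_of_pair`: the two doubling relations in the symmetric form `(s, ρ)`.
* rational versions for `W : WeierstrassCurve ℤ` in the shapes of the `S51` interfaces.
-/

set_option autoImplicit false

namespace Fermat.Agent.Lib.TorsXBound

open WeierstrassCurve WeierstrassCurve.Affine Polynomial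
open Fermat.Agent.S51.Hauptmodul Fermat.Agent.Lib.TorsNontriv

section Generic

variable {K : Type*} [Field K] (E : Affine K) [DecidableEq K]

/-! ### `3`-torsion -/

/-- **(X3)** a `3`-torsion affine point has `Ψ₃(x) = 0` -/
theorem psi3_of_three_torsion {x y : K} (h : E.Nonsingular x y)
    (h3 : (3 : ℤ) • Point.some x y h = 0) : Psi3x E x = 0 := by
  have hP0 : Point.some x y h ≠ 0 := Point.some_ne_zero h
  have h2 : (2 : ℤ) • Point.some x y h = -Point.some x y h := by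
    have : (3 : ℤ) • Point.some x y h = (2 : ℤ) • Point.some x y h + Point.some x y h := by
      rw [show (3 : ℤ) = 2 + 1 by norm_num, add_zsmul, one_zsmul]
    rw [this] at h3
    exact eq_neg_of_add_eq_zero_left h3
  have hM : Mx E x ≠ 0 := by
    intro hM
    have := two_zsmul_some_eq_zero E h hM
    rw [h2] at this
    exact hP0 (neg_eq_zero.mp this)
  obtain ⟨x', y', h', hd, hx'⟩ := two_zsmul_some E h hM
  rw [h2, Point.neg_some] at hd
  have hxx : x = x' := (Point.some.inj hd).1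
  subst hxx
  have := Nmx_eq E x
  rw [← hx'] at this
  linear_combination this

/-- the polynomial `Ψ₃` -/
noncomputable def psi3Poly (b2 b4 b6 b8 : K) : K[X] :=
  C 3 * X ^ 4 + C b2 * X ^ 3 + C (3 * b4) * X ^ 2 + C (3 * b6) * X + C b8

omit [DecidableEq K] in
theorem psi3Poly_natDegree [CharZero K] (b2 b4 b6 b8 : K) :
    (psi3Poly b2 b4 b6 b8).natDegree = 4 := by
  unfold psi3Poly
  compute_degree!

omit [DecidableEq K] in
theorem psi3Poly_eval (x : K) :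
    (psi3Poly E.b₂ E.b₄ E.b₆ E.b₈).eval x = Psi3x E x := by
  simp only [psi3Poly, Psi3x, eval_add, eval_mul, eval_C, eval_pow, eval_X]

/-- **(X3)** the `x`-coordinates of `3`-torsion affine points lie in a set with `≤ 4` elements -/
theorem exists_finset_three [CharZero K] :
    ∃ s : Finset K, s.card ≤ 4 ∧
      ∀ (x y : K) (h : E.Nonsingular x y), (3 : ℤ) • Point.some x y h = 0 → x ∈ s := by
  classical
  have hdeg := psi3Poly_natDegree E.b₂ E.b₄ E.b₆ E.b₈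
  have hne : psi3Poly E.b₂ E.b₄ E.b₆ E.b₈ ≠ 0 := by
    intro h0
    rw [h0, natDegree_zero] at hdeg
    exact absurd hdeg (by norm_num)
  refine ⟨(psi3Poly E.b₂ E.b₄ E.b₆ E.b₈).roots.toFinset, ?_, ?_⟩
  · calc (psi3Poly E.b₂ E.b₄ E.b₆ E.b₈).roots.toFinset.card
        ≤ Multiset.card (psi3Poly E.b₂ E.b₄ E.b₆ E.b₈).roots := Multiset.toFinset_card_le _
      _ ≤ (psi3Poly E.b₂ E.b₄ E.b₆ E.b₈).natDegree := card_roots' _
      _ = 4 := hdeg
  · intro x y h h3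
    rw [Multiset.mem_toFinset, mem_roots hne, IsRoot, psi3Poly_eval]
    exact psi3_of_three_torsion E h h3

/-! ### `5`-torsion -/

/-- **(X5)** for a `5`-torsion affine point `P = (x, y)`: `2P = (x₂, y₂)` is affine,
`2 • 2P = -P`, `x ≠ x₂`, and the two doubling relations hold. -/
theorem five_torsion_data {x y : K} (h : E.Nonsingular x y)
    (h5 : (5 : ℤ) • Point.some x y h = 0) :
    ∃ (x2 y2 : K) (h2 : E.Nonsingular x2 y2),
      (2 : ℤ) • Point.some x y h = Point.some x2 y2 h2 ∧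
      (2 : ℤ) • Point.some x2 y2 h2 = -Point.some x y h ∧ x ≠ x2 ∧
      Mx E x ≠ 0 ∧ Mx E x2 ≠ 0 ∧
      x2 * Mx E x = Nmx E x ∧ x * Mx E x2 = Nmx E x2 := by
  have hP0 : Point.some x y h ≠ 0 := Point.some_ne_zero h
  have h54 : (5 : ℤ) • Point.some x y h
      = (2 : ℤ) • ((2 : ℤ) • Point.some x y h) + Point.some x y h := by
    rw [← mul_zsmul, show (5 : ℤ) = 2 * 2 + 1 by norm_num, add_zsmul, one_zsmul]
  have hM : Mx E x ≠ 0 := by
    intro hM
    have h2 := two_zsmul_some_eq_zero E h hM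
    rw [h54, h2, smul_zero, zero_add] at h5
    exact hP0 h5
  obtain ⟨x2, y2, h2, hd, hx2⟩ := two_zsmul_some E h hM
  have hM2 : Mx E x2 ≠ 0 := by
    intro hM2
    have h4 := two_zsmul_some_eq_zero E h2 hM2
    rw [h54, hd, h4, zero_add] at h5
    exact hP0 h5
  obtain ⟨x4, y4, h4, hd2, hx4⟩ := two_zsmul_some E h2 hM2
  have h4P : Point.some x4 y4 h4 = -Point.some x y h := by
    rw [h54, hd, hd2] at h5
    exact eq_neg_of_add_eq_zero_left h5
  have hx4x : x4 = x := by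
    rw [Point.neg_some] at h4P
    exact (Point.some.inj h4P).1
  subst hx4x
  refine ⟨x2, y2, h2, hd, by rw [hd2, h4P], ?_, hM, hM2, hx2, hx4⟩
  -- `x ≠ x2`
  intro hxx
  subst hxx
  rcases eq_or_eq_neg_of_x_eq E h2 h with hh | hh
  · -- `2P = P`, so `P = 0`
    rw [← hd, two_zsmul] at hh
    exact hP0 (by simp at hh)
  · -- `2P = -P`, so `3P = 0`, so `2P = 5P - 3P = 0`, so `P = 0`
    rw [← hd] at hh
    rw [h54, hh] at h5
    -- h5 : 2 • (-P) + P = 0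
    rw [smul_neg, hh, neg_neg] at h5
    -- h5 : P + P = 0
    have h2' : (2 : ℤ) • Point.some x4 y h = 0 := by rw [two_zsmul]; exact h5
    rw [hh] at h2'
    exact hP0 (neg_eq_zero.mp h2')

/-- the numerator polynomial of the duplication map -/
noncomputable def nmPoly (b4 b6 b8 : K) : K[X] := X ^ 4 - C b4 * X ^ 2 - C (2 * b6) * X - C b8

/-- the polynomial `ψ₂²` -/
noncomputable def mPoly (b2 b4 b6 : K) : K[X] :=
  C 4 * X ^ 3 + C b2 * X ^ 2 + C (2 * b4) * X + C b6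

/-- the degree `16` polynomial vanishing at the `x`-coordinates of the `5`-torsion points:
the numerator of `x(4P) - x(P)` -/
noncomputable def quinticPoly (b2 b4 b6 b8 : K) : K[X] :=
  nmPoly b4 b6 b8 ^ 4 - C b4 * nmPoly b4 b6 b8 ^ 2 * mPoly b2 b4 b6 ^ 2
    - C (2 * b6) * nmPoly b4 b6 b8 * mPoly b2 b4 b6 ^ 3 - C b8 * mPoly b2 b4 b6 ^ 4
    - X * mPoly b2 b4 b6 *
      (C 4 * nmPoly b4 b6 b8 ^ 3 + C b2 * nmPoly b4 b6 b8 ^ 2 * mPoly b2 b4 b6
        + C (2 * b4) * nmPoly b4 b6 b8 * mPoly b2 b4 b6 ^ 2 + C b6 * mPoly b2 b4 b6 ^ 3)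

omit [DecidableEq K] in
theorem quinticPoly_natDegree [CharZero K] (b2 b4 b6 b8 : K) :
    (quinticPoly b2 b4 b6 b8).natDegree = 16 := by
  unfold quinticPoly nmPoly mPoly
  compute_degree!

omit [DecidableEq K] in
theorem nmPoly_eval (x : K) : (nmPoly E.b₄ E.b₆ E.b₈).eval x = Nmx E x := by
  simp only [nmPoly, Nmx, eval_sub, eval_mul, eval_C, eval_pow, eval_X]

omit [DecidableEq K] in
theorem mPoly_eval (x : K) : (mPoly E.b₂ E.b₄ E.b₆).eval x = Mx E x := by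
  simp only [mPoly, Mx, eval_add, eval_mul, eval_C, eval_pow, eval_X]

omit [DecidableEq K] in
/-- the two doubling relations imply that `x` is a root of the degree `16` polynomial -/
theorem quinticPoly_eval_eq_zero {x x2 : K} (h12 : x2 * Mx E x = Nmx E x)
    (h21 : x * Mx E x2 = Nmx E x2) : (quinticPoly E.b₂ E.b₄ E.b₆ E.b₈).eval x = 0 := by
  simp only [quinticPoly, eval_sub, eval_mul, eval_add, eval_C, eval_pow, eval_X, nmPoly_eval,
    mPoly_eval]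
  rw [← h12]
  simp only [Mx, Nmx] at h21 ⊢
  linear_combination (-(4 * x ^ 3 + E.b₂ * x ^ 2 + 2 * E.b₄ * x + E.b₆) ^ 4) * h21

/-- **(X5)** the `x`-coordinates of `5`-torsion affine points lie in a set with `≤ 16`
elements -/
theorem exists_finset_five [CharZero K] :
    ∃ s : Finset K, s.card ≤ 16 ∧
      ∀ (x y : K) (h : E.Nonsingular x y), (5 : ℤ) • Point.some x y h = 0 → x ∈ s := by
  classical
  have hdeg := quinticPoly_natDegree E.b₂ E.b₄ E.b₆ E.b₈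
  have hne : quinticPoly E.b₂ E.b₄ E.b₆ E.b₈ ≠ 0 := by
    intro h0
    rw [h0, natDegree_zero] at hdeg
    exact absurd hdeg (by norm_num)
  refine ⟨(quinticPoly E.b₂ E.b₄ E.b₆ E.b₈).roots.toFinset, ?_, ?_⟩
  · calc (quinticPoly E.b₂ E.b₄ E.b₆ E.b₈).roots.toFinset.card
        ≤ Multiset.card (quinticPoly E.b₂ E.b₄ E.b₆ E.b₈).roots := Multiset.toFinset_card_le _
      _ ≤ (quinticPoly E.b₂ E.b₄ E.b₆ E.b₈).natDegree := card_roots' _
      _ = 16 := hdeg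
  · intro x y h h5
    obtain ⟨x2, y2, h2, -, -, -, -, -, h12, h21⟩ := five_torsion_data E h h5
    rw [Multiset.mem_toFinset, mem_roots hne, IsRoot]
    exact quinticPoly_eval_eq_zero E h12 h21

omit [DecidableEq K] in
/-- **(R5)** the two doubling relations `x₂·M(x₁) = Nm(x₁)`, `x₁·M(x₂) = Nm(x₂)` (`x₁ ≠ x₂`) in
symmetric form: with `s = (x₁+x₂)/2`, `ρ = ((x₁-x₂)/2)²`:
`ρ ≠ 0`, `B6(s) = B2(s) ρ`, `B8(s) = 5ρ² + B4(s) ρ`. -/
theorem s_rho_of_pair [CharZero K] {x1 x2 : K} (hne : x1 ≠ x2)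
    (h12 : x2 * Mx E x1 = Nmx E x1) (h21 : x1 * Mx E x2 = Nmx E x2) :
    ((x1 - x2) / 2) ^ 2 ≠ 0 ∧
    tB6 E.b₂ E.b₄ E.b₆ ((x1 + x2) / 2) = tB2 E.b₂ ((x1 + x2) / 2) * ((x1 - x2) / 2) ^ 2 ∧
    tB8 E.b₂ E.b₄ E.b₆ E.b₈ ((x1 + x2) / 2)
      = 5 * (((x1 - x2) / 2) ^ 2) ^ 2 + tB4 E.b₂ E.b₄ ((x1 + x2) / 2) * ((x1 - x2) / 2) ^ 2 := by
  have hr : (x1 - x2) / 2 ≠ 0 := div_ne_zero (sub_ne_zero.mpr hne) two_ne_zero
  refine ⟨pow_ne_zero 2 hr, ?_, ?_⟩
  · -- `2 r B = 0`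
    have h : 2 * ((x1 - x2) / 2) *
        (tB2 E.b₂ ((x1 + x2) / 2) * ((x1 - x2) / 2) ^ 2 - tB6 E.b₂ E.b₄ E.b₆ ((x1 + x2) / 2))
          = 0 := by
      simp only [Mx, Nmx, tB2, tB6] at *
      linear_combination (-1 : K) * h12 + h21
    rcases mul_eq_zero.mp h with h | h
    · exact absurd h (mul_ne_zero two_ne_zero hr)
    · linear_combination -h
  · -- `2 A = 0`
    have h : 2 * (5 * (((x1 - x2) / 2) ^ 2) ^ 2
        + tB4 E.b₂ E.b₄ ((x1 + x2) / 2) * ((x1 - x2) / 2) ^ 2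
        - tB8 E.b₂ E.b₄ E.b₆ E.b₈ ((x1 + x2) / 2)) = 0 := by
      simp only [Mx, Nmx, tB4, tB8] at *
      linear_combination (-1 : K) * h12 - h21
    rcases mul_eq_zero.mp h with h | h
    · exact absurd h two_ne_zero
    · linear_combination -h

end Generic

/-! ### Rational versions for `W : WeierstrassCurve ℤ` -/

section Weierstrass

variable (W : WeierstrassCurve ℤ)

local notation "Qb" => AlgebraicClosure ℚ

/-- `Ψ₃` of the base-changed curve at a rational point is the image of the rational `Ψ₃` -/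
theorem Psi3x_EQbar_algebraMap (q : ℚ) :
    Psi3x (EQbar W) (algebraMap ℚ Qb q) = algebraMap ℚ Qb
      (3 * q ^ 4 + (W.b₂ : ℚ) * q ^ 3 + 3 * (W.b₄ : ℚ) * q ^ 2 + 3 * (W.b₆ : ℚ) * q
        + (W.b₈ : ℚ)) := by
  simp only [Psi3x, EQbar_b₂, EQbar_b₄, EQbar_b₆, EQbar_b₈, map_add, map_mul, map_pow, map_ofNat]

/-- **T3, final step**: a `3`-torsion point of `E(ℚ̄)` with rational `x`-coordinate `q` gives a
rational root of `Ψ₃` (shape of `exists_rat_root_of_not_irr3`). -/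
theorem psi3_rat_of_three_torsion (q : ℚ) (y : Qb)
    (hq : (EQbar W).Nonsingular (algebraMap ℚ Qb q) y)
    (h3 : (3 : ℤ) • Point.some (algebraMap ℚ Qb q) y hq = 0) :
    3 * q ^ 4 + (W.b₂ : ℚ) * q ^ 3 + 3 * (W.b₄ : ℚ) * q ^ 2 + 3 * (W.b₆ : ℚ) * q
      + (W.b₈ : ℚ) = 0 := by
  have h := psi3_of_three_torsion (EQbar W) hq h3
  rw [Psi3x_EQbar_algebraMap] at h
  exact (map_eq_zero_iff _ (algebraMap ℚ Qb).injective).mp h

/-- **T5, final step (algebra)**: two conjugate-stable `x`-coordinates `x₁ ≠ x₂` (rational sum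
and product) satisfying the two doubling relations give the rational pair `(s, ρ)`
(shape of `exists_rat_pair_of_not_irr5`). -/
theorem rat_pair_of_doubling_relations (x₁ x₂ : Qb) (s₁ s₂ : ℚ) (hne : x₁ ≠ x₂)
    (h12 : x₂ * Mx (EQbar W) x₁ = Nmx (EQbar W) x₁)
    (h21 : x₁ * Mx (EQbar W) x₂ = Nmx (EQbar W) x₂)
    (hs₁ : x₁ + x₂ = algebraMap ℚ Qb s₁) (hs₂ : x₁ * x₂ = algebraMap ℚ Qb s₂) :
    ∃ s ρ : ℚ, ρ ≠ 0 ∧
      (W.b₆ : ℚ) + 2 * s * W.b₄ + s ^ 2 * W.b₂ + 4 * s ^ 3 = ((W.b₂ : ℚ) + 12 * s) * ρ ∧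
      (W.b₈ : ℚ) + 3 * s * W.b₆ + 3 * s ^ 2 * W.b₄ + s ^ 3 * W.b₂ + 3 * s ^ 4 =
        5 * ρ ^ 2 + ((W.b₄ : ℚ) + s * W.b₂ + 6 * s ^ 2) * ρ := by
  obtain ⟨hρ, h6, h8⟩ := s_rho_of_pair (EQbar W) hne h12 h21
  have hinj := (algebraMap ℚ Qb).injective
  have hs : (x₁ + x₂) / 2 = algebraMap ℚ Qb (s₁ / 2) := by
    simp only [map_div₀, map_ofNat]
    rw [hs₁]
  have hr : ((x₁ - x₂) / 2) ^ 2 = algebraMap ℚ Qb ((s₁ ^ 2 - 4 * s₂) / 4) := by
    simp only [map_div₀, map_sub, map_pow, map_mul, map_ofNat]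
    rw [← hs₁, ← hs₂]
    ring
  rw [hs, hr] at h6 h8
  rw [hr] at hρ
  refine ⟨s₁ / 2, (s₁ ^ 2 - 4 * s₂) / 4, ?_, ?_, ?_⟩
  · rintro h0
    apply hρ
    rw [h0, map_zero]
  · apply hinj
    simp only [tB6, tB2, EQbar_b₂, EQbar_b₄, EQbar_b₆] at h6
    simp only [map_add, map_mul, map_pow, map_ofNat]
    linear_combination h6
  · apply hinj
    simp only [tB8, tB4, EQbar_b₂, EQbar_b₄, EQbar_b₆, EQbar_b₈] at h8
    simp only [map_add, map_mul, map_pow, map_ofNat]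
    linear_combination h8

/-- **T5, final step (points)**: the output of the Galois-stable-line lemma (a `5`-torsion point
`P = (x₁, y₁)`, `2P = (x₂, y₂)`, `2·2P = -P`, with rational `x₁ + x₂` and `x₁ x₂`) gives the
rational pair `(s, ρ)`. -/
theorem rat_pair_of_five_torsion (x₁ y₁ x₂ y₂ : Qb) (h₁ : (EQbar W).Nonsingular x₁ y₁)
    (h₂ : (EQbar W).Nonsingular x₂ y₂) (s₁ s₂ : ℚ)
    (hd : (2 : ℤ) • Point.some x₁ y₁ h₁ = Point.some x₂ y₂ h₂)
    (hd2 : (2 : ℤ) • Point.some x₂ y₂ h₂ = -Point.some x₁ y₁ h₁) (hne : x₁ ≠ x₂)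
    (hs₁ : x₁ + x₂ = algebraMap ℚ Qb s₁) (hs₂ : x₁ * x₂ = algebraMap ℚ Qb s₂) :
    ∃ s ρ : ℚ, ρ ≠ 0 ∧
      (W.b₆ : ℚ) + 2 * s * W.b₄ + s ^ 2 * W.b₂ + 4 * s ^ 3 = ((W.b₂ : ℚ) + 12 * s) * ρ ∧
      (W.b₈ : ℚ) + 3 * s * W.b₆ + 3 * s ^ 2 * W.b₄ + s ^ 3 * W.b₂ + 3 * s ^ 4 =
        5 * ρ ^ 2 + ((W.b₄ : ℚ) + s * W.b₂ + 6 * s ^ 2) * ρ := by
  have hM1 : Mx (EQbar W) x₁ ≠ 0 := by
    intro hM
    have := two_zsmul_some_eq_zero (EQbar W) h₁ hM
    rw [hd] at this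
    exact Point.some_ne_zero h₂ this
  have hM2 : Mx (EQbar W) x₂ ≠ 0 := by
    intro hM
    have := two_zsmul_some_eq_zero (EQbar W) h₂ hM
    rw [hd2] at this
    exact Point.some_ne_zero h₁ (neg_eq_zero.mp this)
  obtain ⟨x', y', h', hd', hx'⟩ := two_zsmul_some (EQbar W) h₁ hM1
  rw [hd] at hd'
  have e1 : x₂ = x' := (Point.some.inj hd').1
  subst e1
  obtain ⟨x'', y'', h'', hd'', hx''⟩ := two_zsmul_some (EQbar W) h₂ hM2
  rw [hd2, Point.neg_some] at hd''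
  have e2 : x₁ = x'' := (Point.some.inj hd'').1
  subst e2
  exact rat_pair_of_doubling_relations W x₁ x₂ s₁ s₂ hne hx' hx'' hs₁ hs₂

end Weierstrass

end Fermat.Agent.Lib.TorsXBound
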