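import Mathlib
import Fermat.Prelude.Def_FLTPrelim_GaloisRep
import Fermat.Prelude.Def_FLTPrelim_ModularRep

set_option autoImplicit false

open WeierstrassCurve WeierstrassCurve.Affine WeierstrassCurve.Affine.Point

namespace Fermat.Agent.Lib.TorsionLine

/-- Pure linear algebra: in a vector space over `ZMod ℓ` with no injection from
`(ZMod ℓ)³`, a subspace that is neither `⊥` nor `⊤` is a line: it has a nonzero vector of
which every other vector of the subspace is a multiple. -/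
theorem exists_line_generator' {ℓ : ℕ} [Fact ℓ.Prime] {M : Type*} [AddCommGroup M]
    [Module (ZMod ℓ) M]
    (hno : ∀ f : ZMod ℓ × ZMod ℓ × ZMod ℓ → M, ¬ Function.Injective f)
    (N : Submodule (ZMod ℓ) M) (hbot : N ≠ ⊥) (htop : N ≠ ⊤) :
    ∃ P ∈ N, P ≠ 0 ∧ ∀ Q ∈ N, ∃ k : ℕ, Q = k • P := by
  have : NeZero ℓ := ⟨(Fact.out : ℓ.Prime).ne_zero⟩
  obtain ⟨P, hPN, hP0⟩ := Submodule.exists_mem_ne_zero_of_ne_bot hbot
  refine ⟨P, hPN, hP0, ?_⟩
  by_contra hcon
  push Not at hcon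
  obtain ⟨Q, hQN, hQ⟩ := hcon
  have hQ' : ∀ a : ZMod ℓ, Q ≠ a • P := by
    intro a h
    apply hQ a.val
    rw [h, ← Nat.cast_smul_eq_nsmul (ZMod ℓ), ZMod.natCast_zmod_val]
  obtain ⟨R, hR⟩ : ∃ R, R ∉ N := by
    by_contra h
    push Not at h
    exact htop (eq_top_iff.mpr fun x _ => h x)
  apply hno (fun t => t.1 • P + t.2.1 • Q + t.2.2 • R)
  rintro ⟨a, b, c⟩ ⟨a', b', c'⟩ h
  simp only at h
  have hc : c = c' := by
    by_contra hc
    have hc' : c - c' ≠ 0 := sub_ne_zero.mpr hc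
    have e : (c - c') • R = (a' - a) • P + (b' - b) • Q := by
      linear_combination (norm := module) h
    apply hR
    have : R = (c - c')⁻¹ • ((a' - a) • P + (b' - b) • Q) := by
      rw [← e, smul_smul, inv_mul_cancel₀ hc', one_smul]
    rw [this]
    exact N.smul_mem _ (N.add_mem (N.smul_mem _ hPN) (N.smul_mem _ hQN))
  subst hc
  have hb : b = b' := by
    by_contra hb
    have hb' : b - b' ≠ 0 := sub_ne_zero.mpr hb
    have e : (b - b') • Q = (a' - a) • P := by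
      linear_combination (norm := module) h
    apply hQ' ((b - b')⁻¹ * (a' - a))
    rw [← smul_smul, ← e, smul_smul, inv_mul_cancel₀ hb', one_smul]
  subst hb
  have ha : a = a' := by
    by_contra ha
    have ha' : a - a' ≠ 0 := sub_ne_zero.mpr ha
    have e : (a - a') • P = 0 := by
      linear_combination (norm := module) h
    exact hP0 ((smul_eq_zero.mp e).resolve_left ha')
  subst ha
  rfl

/-- Pure linear algebra: in a vector space over `ZMod ℓ` with fewer than `ℓ ^ 3` elements, a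
subspace that is neither `⊥` nor `⊤` is a line. -/
theorem exists_line_generator {ℓ : ℕ} [Fact ℓ.Prime] {M : Type*} [AddCommGroup M]
    [Module (ZMod ℓ) M] [Finite M] (hcard : Nat.card M < ℓ ^ 3) (N : Submodule (ZMod ℓ) M)
    (hbot : N ≠ ⊥) (htop : N ≠ ⊤) :
    ∃ P ∈ N, P ≠ 0 ∧ ∀ Q ∈ N, ∃ k : ℕ, Q = k • P := by
  refine exists_line_generator' (fun f hf => ?_) N hbot htop
  have h1 := Nat.card_le_card_of_injective f hf
  rw [Nat.card_prod, Nat.card_prod, Nat.card_zmod] at h1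
  have : ℓ * (ℓ * ℓ) = ℓ ^ 3 := by ring
  omega


theorem nsmul_three_cases {A : Type*} [AddCommGroup A] (P : A) (h3 : 3 • P = 0) (k : ℕ) :
    k • P = 0 ∨ k • P = P ∨ k • P = -P := by
  have hk : k • P = (k % 3) • P := by
    conv_lhs => rw [← Nat.mod_add_div k 3]
    rw [add_nsmul, mul_nsmul, h3, smul_zero, add_zero]
  have hlt : k % 3 < 3 := Nat.mod_lt _ (by norm_num)
  rw [hk]
  interval_cases (k % 3)
  · left; simp
  · right; left; simp
  · right; right
    have : (3 : ℕ) • P = 2 • P + P := by rw [succ_nsmul]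
    rw [this] at h3
    exact eq_neg_of_add_eq_zero_left h3

theorem nsmul_five_cases {A : Type*} [AddCommGroup A] (P : A) (h5 : 5 • P = 0) (k : ℕ) :
    k • P = 0 ∨ k • P = P ∨ k • P = 2 • P ∨ k • P = -(2 • P) ∨ k • P = -P := by
  have hk : k • P = (k % 5) • P := by
    conv_lhs => rw [← Nat.mod_add_div k 5]
    rw [add_nsmul, mul_nsmul, h5, smul_zero, add_zero]
  have hlt : k % 5 < 5 := Nat.mod_lt _ (by norm_num)
  rw [hk]
  interval_cases (k % 5)
  · left; simp
  · right; left; simp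
  · right; right; left; rfl
  · right; right; right; left
    have : (5 : ℕ) • P = 3 • P + 2 • P := by rw [← add_nsmul]
    rw [this] at h5
    exact eq_neg_of_add_eq_zero_left h5
  · right; right; right; right
    have : (5 : ℕ) • P = 4 • P + P := by rw [succ_nsmul]
    rw [this] at h5
    exact eq_neg_of_add_eq_zero_left h5

/-- The curve over `AlgebraicClosure ℚ` whose torsion is used in `ModRepIsIrreducible`. -/
noncomputable abbrev E (W : WeierstrassCurve ℤ) : Affine (AlgebraicClosure ℚ) :=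
  (W.map (Int.castRingHom ℚ))⁄(AlgebraicClosure ℚ)

/-- `AlgebraicClosure ℚ` is Galois over `ℚ` for the `Algebra ℚ` instance that instance search
finds (`DivisionRing.toRatAlgebra`), which is the one used in `ModRepIsIrreducible`. -/
theorem isGalois_rat_algebraicClosure : IsGalois ℚ (AlgebraicClosure ℚ) := by
  have h : (DivisionRing.toRatAlgebra : Algebra ℚ (AlgebraicClosure ℚ)) =
      AlgebraicClosure.instAlgebra ℚ := Subsingleton.elim _ _
  rw [h]
  infer_instance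

/-- An element of `AlgebraicClosure ℚ` fixed by the whole Galois group is rational. -/
theorem galois_fixed_rat (z : AlgebraicClosure ℚ)
    (hz : ∀ σ : AlgebraicClosure ℚ ≃ₐ[ℚ] AlgebraicClosure ℚ, σ z = z) :
    ∃ q : ℚ, algebraMap ℚ (AlgebraicClosure ℚ) q = z := by
  have := isGalois_rat_algebraicClosure
  exact (InfiniteGalois.mem_range_algebraMap_iff_fixed (k := ℚ) (K := AlgebraicClosure ℚ) z).mpr hz

theorem smul_some (W : WeierstrassCurve ℤ)
    (σ : AlgebraicClosure ℚ ≃ₐ[ℚ] AlgebraicClosure ℚ) (x y : AlgebraicClosure ℚ)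
    (h : (E W).Nonsingular x y) :
    ∃ h' : (E W).Nonsingular (σ x) (σ y), σ • (Point.some x y h) = Point.some (σ x) (σ y) h' :=
  ⟨_, rfl⟩

/-- The `x`-coordinate of a point (junk value `0` at the point at infinity). -/
noncomputable def xc (W : WeierstrassCurve ℤ) : (E W).Point → AlgebraicClosure ℚ
  | .zero => 0
  | .some x _ _ => x

theorem xc_some (W : WeierstrassCurve ℤ) (x y : AlgebraicClosure ℚ)
    (h : (E W).Nonsingular x y) : xc W (Point.some x y h) = x := rfl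

theorem xc_neg (W : WeierstrassCurve ℤ) (P : (E W).Point) : xc W (-P) = xc W P := by
  cases P <;> rfl

theorem xc_smul (W : WeierstrassCurve ℤ) (σ : AlgebraicClosure ℚ ≃ₐ[ℚ] AlgebraicClosure ℚ)
    (P : (E W).Point) : xc W (σ • P) = σ (xc W P) := by
  cases P with
  | zero => exact (map_zero σ).symm
  | some x y h => rfl

theorem exists_some_of_ne_zero (W : WeierstrassCurve ℤ) (P : (E W).Point) (hP : P ≠ 0) :
    ∃ (x y : AlgebraicClosure ℚ) (h : (E W).Nonsingular x y), P = Point.some x y h := by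
  cases P with
  | zero => exact absurd rfl hP
  | some x y h => exact ⟨x, y, h, rfl⟩

theorem eq_or_eq_neg_of_xc_eq (W : WeierstrassCurve ℤ) {P Q : (E W).Point} (hP : P ≠ 0)
    (hQ : Q ≠ 0) (h : xc W P = xc W Q) : P = Q ∨ P = -Q := by
  obtain ⟨x₁, y₁, h₁, rfl⟩ := exists_some_of_ne_zero W P hP
  obtain ⟨x₂, y₂, h₂, rfl⟩ := exists_some_of_ne_zero W Q hQ
  exact X_eq_iff.mp h

/-- If the `x`-coordinates of all affine `ℓ`-torsion points lie in a finite set `s` with
`2 * s.card + 2 < ℓ ^ 3`, the `ℓ`-torsion is nontrivial and the mod-`ℓ` representation is not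
irreducible, then some nonzero `ℓ`-torsion point `P` spans a Galois-stable line. -/
theorem exists_eigen_point (W : WeierstrassCurve ℤ) {ℓ : ℕ} [Fact ℓ.Prime]
    (s : Finset (AlgebraicClosure ℚ)) (hs : 2 * s.card + 2 < ℓ ^ 3)
    (hx : ∀ (x y : AlgebraicClosure ℚ) (h : (E W).Nonsingular x y),
      (ℓ : ℤ) • (Point.some x y h) = 0 → x ∈ s)
    (hnt : ∃ P : (E W).Point, P ≠ 0 ∧ (ℓ : ℤ) • P = 0)
    (h : ¬ W.ModRepIsIrreducible ℓ) :
    ∃ P : (E W).Point, P ≠ 0 ∧ (ℓ : ℤ) • P = 0 ∧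
      ∀ σ : AlgebraicClosure ℚ ≃ₐ[ℚ] AlgebraicClosure ℚ, ∃ k : ℕ, σ • P = k • P := by
  have : NeZero ℓ := ⟨(Fact.out : ℓ.Prime).ne_zero⟩
  have hnt' : Nontrivial (Submodule.torsionBy ℤ (E W).Point ℓ) := by
    obtain ⟨P, hP0, hP⟩ := hnt
    refine ⟨⟨⟨P, ?_⟩, 0, ?_⟩⟩
    · rw [Submodule.mem_torsionBy_iff]; exact hP
    · intro h; exact hP0 (congrArg Subtype.val h)
  unfold WeierstrassCurve.ModRepIsIrreducible Affine.Point.GaloisRepIsIrreducible at h
  rw [not_and] at h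
  have h2 := h hnt'
  push Not at h2
  obtain ⟨N, hN, hbot, htop⟩ := h2
  have hno : ∀ f : ZMod ℓ × ZMod ℓ × ZMod ℓ → Submodule.torsionBy ℤ (E W).Point ℓ,
      ¬ Function.Injective f := by
    intro f hf
    have hdec : DecidableEq (Fin 2 → AlgebraicClosure ℚ) := Classical.decEq _
    let t : Finset (Fin 2 → AlgebraicClosure ℚ) := insert ![1, 0] (s.image fun x => ![x, 1])
    have ht : t.card ≤ s.card + 1 :=
      (Finset.card_insert_le _ _).trans (Nat.succ_le_succ Finset.card_image_le)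
    have hmaps : ∀ u ∈ (Finset.univ : Finset (ZMod ℓ × ZMod ℓ × ZMod ℓ)),
        ((f u : (E W).Point)).xRep ∈ t := by
      intro u _
      have hu := (f u).2
      rw [Submodule.mem_torsionBy_iff] at hu
      generalize (f u : (E W).Point) = Pu at hu
      cases Pu with
      | zero => exact Finset.mem_insert_self _ _
      | some x y hxy =>
        exact Finset.mem_insert_of_mem (Finset.mem_image_of_mem _ (hx x y hxy hu))
    have hcard : t.card * 2 < (Finset.univ : Finset (ZMod ℓ × ZMod ℓ × ZMod ℓ)).card := by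
      rw [Finset.card_univ, Fintype.card_prod, Fintype.card_prod, ZMod.card]
      have : ℓ * (ℓ * ℓ) = ℓ ^ 3 := by ring
      omega
    obtain ⟨y, -, hy⟩ := Finset.exists_lt_card_fiber_of_mul_lt_card_of_maps_to hmaps hcard
    obtain ⟨a, ha, b, hb, c, hc, hab, hac, hbc⟩ := Finset.two_lt_card.mp hy
    simp only [Finset.mem_filter, Finset.mem_univ, true_and] at ha hb hc
    have hba : (f b : (E W).Point) = -(f a : (E W).Point) := by
      rcases eq_or_eq_neg_of_xRep_eq_xRep (hb.trans ha.symm) with h1 | h1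
      · exact absurd (hf (Subtype.ext h1)).symm hab
      · exact h1
    have hca : (f c : (E W).Point) = -(f a : (E W).Point) := by
      rcases eq_or_eq_neg_of_xRep_eq_xRep (hc.trans ha.symm) with h1 | h1
      · exact absurd (hf (Subtype.ext h1)).symm hac
      · exact h1
    exact hbc (hf (Subtype.ext (hba.trans hca.symm)))
  obtain ⟨P, hPN, hP0, hP⟩ := exists_line_generator' hno N hbot htop
  refine ⟨P.1, fun h0 => hP0 (Subtype.ext h0), (Submodule.mem_torsionBy_iff _ _).mp P.2, ?_⟩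
  intro σ
  obtain ⟨k, hk⟩ := hP _ (hN σ P hPN)
  refine ⟨k, ?_⟩
  have hk' := congrArg Subtype.val hk
  exact hk'.trans (by simp)


/-- `ℓ = 3`: a nonzero `3`-torsion point with rational `x`-coordinate. -/
theorem exists_rat_x_three (W : WeierstrassCurve ℤ)
    (s : Finset (AlgebraicClosure ℚ)) (hs : s.card ≤ 12)
    (hx : ∀ (x y : AlgebraicClosure ℚ) (h : (E W).Nonsingular x y),
      (3 : ℤ) • (Point.some x y h) = 0 → x ∈ s)
    (hnt : ∃ P : (E W).Point, P ≠ 0 ∧ (3 : ℤ) • P = 0)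
    (h : ¬ W.ModRepIsIrreducible 3) :
    ∃ (q : ℚ) (y : AlgebraicClosure ℚ)
      (hq : (E W).Nonsingular (algebraMap ℚ (AlgebraicClosure ℚ) q) y),
      (3 : ℤ) • (Point.some _ y hq) = 0 := by
  have : Fact (Nat.Prime 3) := ⟨by norm_num⟩
  obtain ⟨P, hP0, hP3, hσ⟩ := exists_eigen_point W (ℓ := 3) s (by norm_num; omega)
    (by simpa using hx) (by simpa using hnt) h
  have hP3' : (3 : ℤ) • P = 0 := by simpa using hP3
  have hP3n : 3 • P = 0 := by
    rw [← hP3', ofNat_zsmul]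
  have hfix : ∀ σ : AlgebraicClosure ℚ ≃ₐ[ℚ] AlgebraicClosure ℚ, σ (xc W P) = xc W P := by
    intro σ
    obtain ⟨k, hk⟩ := hσ σ
    rw [← xc_smul, hk]
    rcases nsmul_three_cases P hP3n k with h0 | h1 | h2
    · exfalso
      rw [h0] at hk
      exact hP0 ((smul_eq_zero_iff_eq σ).mp hk)
    · rw [h1]
    · rw [h2, xc_neg]
  obtain ⟨q, hq⟩ := galois_fixed_rat _ hfix
  obtain ⟨x, y, hxy, rfl⟩ := exists_some_of_ne_zero W P hP0
  have hxq : x = algebraMap ℚ (AlgebraicClosure ℚ) q := hq.symm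
  subst hxq
  exact ⟨q, y, hxy, hP3'⟩

/-- `ℓ = 5`: a nonzero `5`-torsion point `P = (x₁, y₁)` with `2 • P = (x₂, y₂)` such that
`x₁ + x₂` and `x₁ * x₂` are rational. -/
theorem exists_rat_pair_five (W : WeierstrassCurve ℤ)
    (s : Finset (AlgebraicClosure ℚ)) (hs : s.card ≤ 61)
    (hx : ∀ (x y : AlgebraicClosure ℚ) (h : (E W).Nonsingular x y),
      (5 : ℤ) • (Point.some x y h) = 0 → x ∈ s)
    (hnt : ∃ P : (E W).Point, P ≠ 0 ∧ (5 : ℤ) • P = 0)
    (h : ¬ W.ModRepIsIrreducible 5) :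
    ∃ (x₁ y₁ x₂ y₂ : AlgebraicClosure ℚ) (h₁ : (E W).Nonsingular x₁ y₁)
      (h₂ : (E W).Nonsingular x₂ y₂) (s₁ s₂ : ℚ),
      (5 : ℤ) • (Point.some x₁ y₁ h₁) = 0 ∧
      (2 : ℤ) • (Point.some x₁ y₁ h₁) = Point.some x₂ y₂ h₂ ∧
      (2 : ℤ) • (Point.some x₂ y₂ h₂) = - Point.some x₁ y₁ h₁ ∧
      x₁ ≠ x₂ ∧
      x₁ + x₂ = algebraMap ℚ (AlgebraicClosure ℚ) s₁ ∧
      x₁ * x₂ = algebraMap ℚ (AlgebraicClosure ℚ) s₂ := by
  have : Fact (Nat.Prime 5) := ⟨by norm_num⟩
  obtain ⟨P, hP0, hP5, hσ⟩ := exists_eigen_point W (ℓ := 5) s (by norm_num; omega)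
    (by simpa using hx) (by simpa using hnt) h
  have hP5' : (5 : ℤ) • P = 0 := by simpa using hP5
  have hP5n : 5 • P = 0 := by
    rw [← hP5', ofNat_zsmul]
  have hQ0 : 2 • P ≠ 0 := by
    intro h0
    apply hP0
    have e : P = 5 • P - 2 • (2 • P) := by abel
    rw [e, hP5n, h0]
    simp
  have h2Q : 2 • (2 • P) = -P := by
    have e : (5 : ℕ) • P = 2 • (2 • P) + P := by
      rw [← mul_nsmul, ← succ_nsmul]
    rw [e] at hP5n
    exact eq_neg_of_add_eq_zero_left hP5n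
  have hx12 : xc W P ≠ xc W (2 • P) := by
    intro heq
    apply hP0
    rcases eq_or_eq_neg_of_xc_eq W hP0 hQ0 heq with h1 | h1
    · have e : P = 2 • P - P := by rw [two_nsmul, add_sub_cancel_right]
      rw [e, ← h1, sub_self]
    · have e3 : 3 • P = 0 := by
        have : (3 : ℕ) • P = 2 • P + P := by rw [succ_nsmul]
        rw [this]
        nth_rewrite 2 [h1]
        exact add_neg_cancel _
      have e : P = 2 • (3 • P) - 5 • P := by abel
      rw [e, e3, hP5n]
      simp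
  have key : ∀ σ : AlgebraicClosure ℚ ≃ₐ[ℚ] AlgebraicClosure ℚ,
      (σ (xc W P) = xc W P ∧ σ (xc W (2 • P)) = xc W (2 • P)) ∨
      (σ (xc W P) = xc W (2 • P) ∧ σ (xc W (2 • P)) = xc W P) := by
    intro σ
    obtain ⟨k, hk⟩ := hσ σ
    have hkQ : σ • (2 • P) = 2 • (σ • P) := map_nsmul (Point.map σ.toAlgHom) 2 P
    rw [← xc_smul, ← xc_smul, hkQ, hk]
    rcases nsmul_five_cases P hP5n k with h0 | h1 | h2 | h3 | h4
    · exfalso
      rw [h0] at hk
      exact hP0 ((smul_eq_zero_iff_eq σ).mp hk)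
    · left
      rw [h1]
      exact ⟨rfl, rfl⟩
    · right
      rw [h2, h2Q, xc_neg]
      exact ⟨rfl, rfl⟩
    · right
      rw [h3, neg_nsmul, h2Q, neg_neg, xc_neg]
      exact ⟨rfl, rfl⟩
    · left
      rw [h4, neg_nsmul, xc_neg, xc_neg]
      exact ⟨rfl, rfl⟩
  have hs1 : ∀ σ : AlgebraicClosure ℚ ≃ₐ[ℚ] AlgebraicClosure ℚ,
      σ (xc W P + xc W (2 • P)) = xc W P + xc W (2 • P) := by
    intro σ
    rcases key σ with ⟨a, b⟩ | ⟨a, b⟩
    · rw [map_add, a, b]
    · rw [map_add, a, b, add_comm]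
  have hs2 : ∀ σ : AlgebraicClosure ℚ ≃ₐ[ℚ] AlgebraicClosure ℚ,
      σ (xc W P * xc W (2 • P)) = xc W P * xc W (2 • P) := by
    intro σ
    rcases key σ with ⟨a, b⟩ | ⟨a, b⟩
    · rw [map_mul, a, b]
    · rw [map_mul, a, b, mul_comm]
  obtain ⟨s₁, hs₁⟩ := galois_fixed_rat _ hs1
  obtain ⟨s₂, hs₂⟩ := galois_fixed_rat _ hs2
  obtain ⟨x₁, y₁, h₁, rfl⟩ := exists_some_of_ne_zero W P hP0
  obtain ⟨x₂, y₂, h₂, hQ⟩ := exists_some_of_ne_zero W _ hQ0
  rw [hQ] at h2Q hx12 hs₁ hs₂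
  refine ⟨x₁, y₁, x₂, y₂, h₁, h₂, s₁, s₂, hP5', ?_, ?_, hx12, hs₁.symm, hs₂.symm⟩
  · rw [ofNat_zsmul]; exact hQ
  · rw [ofNat_zsmul]; exact h2Q

end Fermat.Agent.Lib.TorsionLine
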