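import Mathlib
import Fermat.Prelude.Def_FLTPrelim_GaloisRep
import Fermat.Prelude.Def_FLTPrelim_ModularRep
import Fermat.Agent.Lib.TorsionLine
import Fermat.Agent.Lib.TorsNontriv
import Fermat.Agent.Lib.TorsXBound

/-!
# S51 / T5: a reducible mod-5 representation gives the rational `X₀(5)` data `(s, ρ)`

Assembly of `Lib/TorsionLine` (Galois-stable line ⇒ rational symmetric functions of the
`x`-coordinates), `Lib/TorsNontriv` (`E[5] ≠ 0`) and `Lib/TorsXBound` (the `x`-coordinates of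
`5`-torsion points are roots of a polynomial of degree `16`; doubling relations in `(s, ρ)` form).
-/

set_option autoImplicit false

namespace Fermat.Agent.Lib.Tors5Assembly

open WeierstrassCurve WeierstrassCurve.Affine

/-- **T5** (exact statement of the S51 interface `exists_rat_pair_of_not_irr5`). -/
theorem exists_rat_pair_of_not_irr5 (W : WeierstrassCurve ℤ) (hΔ : W.Δ ≠ 0)
    (h : ¬ W.ModRepIsIrreducible 5) :
    ∃ s ρ : ℚ, ρ ≠ 0 ∧
      (W.b₆ : ℚ) + 2 * s * W.b₄ + s ^ 2 * W.b₂ + 4 * s ^ 3 = ((W.b₂ : ℚ) + 12 * s) * ρ ∧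
      (W.b₈ : ℚ) + 3 * s * W.b₆ + 3 * s ^ 2 * W.b₄ + s ^ 3 * W.b₂ + 3 * s ^ 4 =
        5 * ρ ^ 2 + ((W.b₄ : ℚ) + s * W.b₂ + 6 * s ^ 2) * ρ := by
  obtain ⟨s, hs, hx⟩ := Fermat.Agent.Lib.TorsXBound.exists_finset_five
    (Fermat.Agent.Lib.TorsNontriv.EQbar W)
  obtain ⟨x₁, y₁, x₂, y₂, h₁, h₂, s₁, s₂, -, hd, hd2, hne, hs₁, hs₂⟩ :=
    Fermat.Agent.Lib.TorsionLine.exists_rat_pair_five W s (hs.trans (by norm_num)) hx
      (Fermat.Agent.Lib.TorsNontriv.exists_five_torsion_int W hΔ) h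
  exact Fermat.Agent.Lib.TorsXBound.rat_pair_of_five_torsion W x₁ y₁ x₂ y₂ h₁ h₂ s₁ s₂
    hd hd2 hne hs₁ hs₂

end Fermat.Agent.Lib.Tors5Assembly
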