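/-
`|E[n]| = n²` for an elliptic curve over an algebraically closed field of characteristic zero,
via the addition-subtraction law on `x`-coordinates (no division polynomial recurrences).
Owner: helper62.
-/
import Mathlib
import Fermat.Agent.Lib.XAddSub

set_option autoImplicit false

namespace Fermat.Agent.Lib.TorsionCard

open Polynomial WeierstrassCurve WeierstrassCurve.Affine Fermat.Agent.Lib.XAddSub

variable {K : Type*} [Field K] (W : WeierstrassCurve.Affine K)

/-- polynomial versions of the three quadratic forms -/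
noncomputable def p0 (S T U : K[X]) : K[X] :=
  S ^ 2 - C W.b₄ * S * U - C W.b₆ * T * U - C W.b₈ * U ^ 2
noncomputable def p1 (S T U : K[X]) : K[X] :=
  C 2 * T * S + C W.b₂ * S * U + C W.b₄ * T * U + C W.b₆ * U ^ 2
noncomputable def p2 (S T U : K[X]) : K[X] := T ^ 2 - C 4 * S * U

lemma eval_p0 (S T U : K[X]) (x : K) :
    (p0 W S T U).eval x = g0 W (S.eval x) (T.eval x) (U.eval x) := by
  simp [p0, g0]

lemma eval_p1 (S T U : K[X]) (x : K) :
    (p1 W S T U).eval x = g1 W (S.eval x) (T.eval x) (U.eval x) := by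
  simp [p1, g1]

lemma eval_p2 (S T U : K[X]) (x : K) :
    (p2 S T U).eval x = g2 (S.eval x) (T.eval x) (U.eval x) := by
  simp [p2, g2]

lemma g0_smul (l s t u : K) : g0 W (l * s) (l * t) (l * u) = l ^ 2 * g0 W s t u := by
  simp only [g0]; ring

lemma g1_smul (l s t u : K) : g1 W (l * s) (l * t) (l * u) = l ^ 2 * g1 W s t u := by
  simp only [g1]; ring

lemma g2_smul (l s t u : K) : g2 (l * s) (l * t) (l * u) = l ^ 2 * g2 s t u := by
  simp only [g2]; ring

/-- two nonzero proportional vectors of `K²` -/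
lemma exists_scale {a b c d : K} (h : a * d = b * c) (hab : a ≠ 0 ∨ b ≠ 0) (hcd : c ≠ 0 ∨ d ≠ 0) :
    ∃ l : K, l ≠ 0 ∧ a = l * c ∧ b = l * d := by
  by_cases hc : c = 0
  · subst hc
    have hd : d ≠ 0 := by tauto
    have ha : a = 0 := by
      have : a * d = 0 := by rw [h, mul_zero]
      exact (mul_eq_zero.mp this).resolve_right hd
    have hb : b ≠ 0 := by tauto
    refine ⟨b / d, div_ne_zero hb hd, by simp [ha], by field_simp⟩
  · have ha : a ≠ 0 := by
      intro ha
      subst ha
      have : b * c = 0 := by rw [← h, zero_mul]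
      have hb : b = 0 := (mul_eq_zero.mp this).resolve_right hc
      tauto
    refine ⟨a / c, div_ne_zero ha hc, by field_simp, ?_⟩
    field_simp
    linear_combination -h

lemma xRep_ne (P : W.Point) : P.xRep 0 ≠ 0 ∨ P.xRep 1 ≠ 0 := by
  cases P <;> simp [Point.xRep]

/-- factorisation of a binary quadratic form with a known root -/
lemma exists_factor {A B s t u : K[X]} (hA : A ≠ 0) (hco : IsCoprime A B)
    (h : u * A ^ 2 - t * A * B + s * B ^ 2 = 0) :
    ∃ A' B' : K[X], s = A' * A ∧ t = A' * B + A * B' ∧ u = B' * B := by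
  have h1 : A ∣ s * B ^ 2 := by
    refine ⟨t * B - u * A, ?_⟩
    linear_combination h
  have h2 : A ∣ s := (hco.pow_right (n := 2)).dvd_of_dvd_mul_right h1
  obtain ⟨A', hA'⟩ := h2
  have h3 : B * (t - A' * B) = u * A := by
    have : A * (B * (t - A' * B) - u * A) = 0 := by
      rw [hA'] at h
      linear_combination -h
    have := (mul_eq_zero.mp this).resolve_left hA
    linear_combination this
  have h4 : A ∣ B * (t - A' * B) := ⟨u, by rw [h3]; ring⟩
  obtain ⟨B', hB'⟩ := hco.dvd_of_dvd_mul_left h4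
  refine ⟨A', B', by rw [hA']; ring, by linear_combination hB', ?_⟩
  have : A * (u - B' * B) = 0 := by
    rw [hB'] at h3
    linear_combination -h3
  have := (mul_eq_zero.mp this).resolve_left hA
  linear_combination this


/-- every `x` is the `x`-coordinate of a point (over an algebraically closed field) -/
lemma exists_point [IsAlgClosed K] (hΔ : W.Δ ≠ 0) (x : K) : ∃ y : K, W.Nonsingular x y := by
  let q : K[X] := X ^ 2 + C (W.a₁ * x + W.a₃) * X - C (x ^ 3 + W.a₂ * x ^ 2 + W.a₄ * x + W.a₆)
  have hq : q.degree ≠ 0 := by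
    have : q.degree = 2 := by
      simp only [q]
      compute_degree!
    rw [this]; norm_num
  obtain ⟨y, hy⟩ := IsAlgClosed.exists_root q hq
  refine ⟨y, (W.equation_iff_nonsingular_of_Δ_ne_zero hΔ).mp ?_⟩
  rw [W.equation_iff]
  have : y ^ 2 + (W.a₁ * x + W.a₃) * y - (x ^ 3 + W.a₂ * x ^ 2 + W.a₄ * x + W.a₆) = 0 := by
    simpa [q, IsRoot] using hy
  linear_combination this

variable [DecidableEq K]

/-- `(A, B)` computes the `x`-coordinate of `n • P` projectively. -/
structure Good (n : ℕ) (A B : K[X]) : Prop where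
  monic : A.Monic
  natDegree_eq : A.natDegree = n ^ 2
  degree_lt : B.degree < (n ^ 2 : ℕ)
  coprime : IsCoprime A B
  rep : ∀ (x y : K) (h : W.Nonsingular x y),
    A.eval x * (n • Point.some x y h).xRep 1 = B.eval x * (n • Point.some x y h).xRep 0

variable {W}

lemma Good.eval_ne {n : ℕ} {A B : K[X]} (h : Good W n A B) (x : K) :
    A.eval x ≠ 0 ∨ B.eval x ≠ 0 := by
  obtain ⟨a, b, hab⟩ := h.coprime
  by_contra hcon
  push Not at hcon
  have := congrArg (Polynomial.eval x) hab
  simp [hcon.1, hcon.2] at this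

lemma good_zero : Good W 0 1 0 where
  monic := monic_one
  natDegree_eq := by simp
  degree_lt := by simp
  coprime := isCoprime_one_left
  rep := fun x y h => by simp

lemma good_one : Good W 1 X 1 where
  monic := monic_X
  natDegree_eq := by simp
  degree_lt := by simp
  coprime := isCoprime_one_right
  rep := fun x y h => by simp

lemma natDegree_lt_of_degree_lt {n : ℕ} {B : K[X]} (hn : 0 < n) (hB : B.degree < (n : ℕ)) :
    B.natDegree < n := by
  by_cases h0 : B = 0
  · simpa [h0] using hn
  · exact (natDegree_lt_iff_degree_lt h0).mpr hB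


/-- the pointwise content of the induction step, scalar form -/
lemma step_pointwise_aux (hΔ : W.Δ ≠ 0) (P : W.Point) (x : K) (hPx : P.xRep = ![x, 1]) {n : ℕ}
    {a b a' b' : K} (hab : a ≠ 0 ∨ b ≠ 0) (hr : a * (n • P).xRep 1 = b * (n • P).xRep 0)
    (hab' : a' ≠ 0 ∨ b' ≠ 0) (hr' : a' * ((n + 1) • P).xRep 1 = b' * ((n + 1) • P).xRep 0) :
    ∃ c : K, c ≠ 0 ∧
      g0 W (a' * x) (a' + x * b') b' = c * (((n + 2) • P).xRep 0 * a) ∧
      g1 W (a' * x) (a' + x * b') b'
        = c * (((n + 2) • P).xRep 0 * b + ((n + 2) • P).xRep 1 * a) ∧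
      g2 (a' * x) (a' + x * b') b' = c * (((n + 2) • P).xRep 1 * b) := by
  obtain ⟨l, hl, hA', hB'⟩ := exists_scale hr' hab' (xRep_ne W ((n + 1) • P))
  obtain ⟨m, hm, hA, hB⟩ := exists_scale hr hab (xRep_ne W (n • P))
  obtain ⟨c, hc, e0, e1, e2⟩ := law hΔ ((n + 1) • P) P
  have hadd : (n + 1) • P + P = (n + 2) • P := (succ_nsmul P (n + 1)).symm
  have hsub : (n + 1) • P - P = n • P := by
    rw [succ_nsmul, add_sub_cancel_right]
  rw [hadd, hsub] at e0 e1 e2
  simp only [hPx, Matrix.cons_val_zero, Matrix.cons_val_one] at e0 e1 e2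
  have hS : a' * x = l * (((n + 1) • P).xRep 0 * x) := by
    rw [hA']; ring
  have hT : a' + x * b' = l * (((n + 1) • P).xRep 0 * 1 + ((n + 1) • P).xRep 1 * x) := by
    rw [hA', hB']; ring
  have hU : b' = l * (((n + 1) • P).xRep 1 * 1) := by
    rw [hB']; ring
  refine ⟨l ^ 2 * c / m, div_ne_zero (mul_ne_zero (pow_ne_zero 2 hl) hc) hm, ?_, ?_, ?_⟩
  · rw [hS, hT, hU, g0_smul, e0, hA]
    field_simp
  · rw [hS, hT, hU, g1_smul, e1, hA, hB]
    field_simp
  · rw [hS, hT, hU, g2_smul, e2, hB]
    field_simp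


/-- the induction step -/
theorem good_step [IsAlgClosed K] (hΔ : W.Δ ≠ 0) {n : ℕ} {A B A' B' : K[X]} (h : Good W n A B)
    (h' : Good W (n + 1) A' B') : ∃ A'' B'' : K[X], Good W (n + 2) A'' B'' := by
  set S : K[X] := A' * X with hS
  set T : K[X] := A' + X * B' with hT
  set s : K[X] := p0 W S T B' with hs
  set t : K[X] := p1 W S T B' with ht
  set u : K[X] := p2 S T B' with hu
  -- pointwise relations
  have hpw : ∀ (x y : K) (hxy : W.Nonsingular x y), ∃ c : K, c ≠ 0 ∧
      s.eval x = c * (((n + 2) • Point.some x y hxy).xRep 0 * A.eval x) ∧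
      t.eval x = c * (((n + 2) • Point.some x y hxy).xRep 0 * B.eval x
            + ((n + 2) • Point.some x y hxy).xRep 1 * A.eval x) ∧
      u.eval x = c * (((n + 2) • Point.some x y hxy).xRep 1 * B.eval x) := by
    intro x y hxy
    obtain ⟨c, hc, e0, e1, e2⟩ := step_pointwise_aux hΔ (Point.some x y hxy) x rfl (h.eval_ne x)
      (h.rep x y hxy) (h'.eval_ne x) (h'.rep x y hxy)
    refine ⟨c, hc, ?_, ?_, ?_⟩
    · rw [hs, eval_p0, hS, hT]; simpa using e0
    · rw [ht, eval_p1, hS, hT]; simpa using e1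
    · rw [hu, eval_p2, hS, hT]; simpa using e2
  -- the polynomial identity
  have hzero : u * A ^ 2 - t * A * B + s * B ^ 2 = 0 := by
    apply Polynomial.funext
    intro x
    obtain ⟨y, hxy⟩ := exists_point W hΔ x
    obtain ⟨c, -, e0, e1, e2⟩ := hpw x y hxy
    simp only [eval_add, eval_sub, eval_mul, eval_pow, eval_zero, e0, e1, e2]
    ring
  obtain ⟨A'', B'', hsA, htA, huA⟩ := exists_factor h.monic.ne_zero h.coprime hzero
  -- degrees
  have hd : A'.natDegree = (n + 1) ^ 2 := h'.natDegree_eq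
  have hd1 : 1 ≤ (n + 1) ^ 2 := Nat.one_le_pow _ _ (Nat.succ_pos n)
  have hB'd : B'.natDegree ≤ (n + 1) ^ 2 - 1 :=
    Nat.le_sub_one_of_lt (natDegree_lt_of_degree_lt hd1 h'.degree_lt)
  have hSm : S.Monic := h'.monic.mul monic_X
  have hSd : S.natDegree = (n + 1) ^ 2 + 1 := by
    rw [hS, h'.monic.natDegree_mul monic_X, natDegree_X, hd]
  have hTd : T.natDegree ≤ (n + 1) ^ 2 := by
    rw [hT]
    compute_degree
    omega
  have hS2m : (S ^ 2).Monic := hSm.pow 2
  have hS2d : (S ^ 2).natDegree = 2 * (n + 1) ^ 2 + 2 := by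
    rw [hSm.natDegree_pow, hSd]; ring
  have hsplit : s = S ^ 2 - (C W.b₄ * S * B' + C W.b₆ * T * B' + C W.b₈ * B' ^ 2) := by
    rw [hs, p0]; ring
  have hRd : (C W.b₄ * S * B' + C W.b₆ * T * B' + C W.b₈ * B' ^ 2).natDegree
      < (S ^ 2).natDegree := by
    rw [hS2d]
    have : (C W.b₄ * S * B' + C W.b₆ * T * B' + C W.b₈ * B' ^ 2).natDegree
        ≤ 2 * (n + 1) ^ 2 := by
      compute_degree
      omega
    omega
  have hsm : s.Monic := by
    rw [hsplit]
    exact hS2m.sub_of_left (degree_lt_degree hRd)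
  have hsd : s.natDegree = 2 * (n + 1) ^ 2 + 2 := by
    rw [hsplit, natDegree_sub_eq_left_of_natDegree_lt hRd, hS2d]
  have htd : t.natDegree ≤ 2 * (n + 1) ^ 2 + 1 := by
    rw [ht, p1]
    compute_degree
    omega
  have hA''m : A''.Monic := by
    rw [hsA] at hsm
    exact h.monic.of_mul_monic_right hsm
  have e1 : (n + 1) ^ 2 = n ^ 2 + 2 * n + 1 := by ring
  have e2 : (n + 2) ^ 2 = n ^ 2 + 4 * n + 4 := by ring
  have hA''d : A''.natDegree = (n + 2) ^ 2 := by
    have := hsd
    rw [hsA, hA''m.natDegree_mul h.monic, h.natDegree_eq] at this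
    omega
  refine ⟨A'', B'', hA''m, hA''d, ?_, ?_, ?_⟩
  · -- degree of B''
    by_cases hB''0 : B'' = 0
    · rw [hB''0, degree_zero]; exact WithBot.bot_lt_coe _
    rw [← natDegree_lt_iff_degree_lt hB''0]
    have hAB'' : A * B'' = t - A'' * B := by rw [htA]; ring
    have h1 : (A * B'').natDegree = n ^ 2 + B''.natDegree := by
      rw [h.monic.natDegree_mul' hB''0, h.natDegree_eq]
    have h2 : (t - A'' * B).natDegree ≤ 2 * (n + 1) ^ 2 + 1 := by
      refine (natDegree_sub_le _ _).trans (max_le htd ?_)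
      by_cases hB0 : B = 0
      · simp [hB0]
      · have hBd : B.natDegree < n ^ 2 := (natDegree_lt_iff_degree_lt hB0).mpr h.degree_lt
        refine natDegree_mul_le.trans ?_
        rw [hA''d]
        omega
    rw [hAB''] at h1
    omega
  · -- coprimality
    rw [Polynomial.isCoprime_iff_aeval_ne_zero_of_isAlgClosed K K A'' B'']
    intro r
    by_contra hcon
    push Not at hcon
    obtain ⟨hA''r, hB''r⟩ := hcon
    simp only [coe_aeval_eq_eval] at hA''r hB''r
    have hs0 : s.eval r = 0 := by rw [hsA, eval_mul, hA''r, zero_mul]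
    have ht0 : t.eval r = 0 := by rw [htA]; simp [hA''r, hB''r]
    have hu0 : u.eval r = 0 := by rw [huA, eval_mul, hB''r, zero_mul]
    rw [hs, eval_p0] at hs0
    rw [ht, eval_p1] at ht0
    rw [hu, eval_p2] at hu0
    obtain ⟨z1, z2, z3⟩ := g_eq_zero W hΔ hs0 ht0 hu0
    have hA'r : A'.eval r = 0 := by
      rw [hT] at z2
      simpa [z3] using z2
    rcases h'.eval_ne r with h1 | h1
    · exact h1 hA'r
    · exact h1 z3
  · -- pointwise
    intro x y hxy
    obtain ⟨c, hc, e0, e1, e2⟩ := hpw x y hxy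
    rw [hsA, eval_mul] at e0
    rw [htA] at e1
    simp only [eval_add, eval_mul] at e1
    rw [huA, eval_mul] at e2
    have key : A''.eval x = c * ((n + 2) • Point.some x y hxy).xRep 0 ∧
        B''.eval x = c * ((n + 2) • Point.some x y hxy).xRep 1 := by
      rcases h.eval_ne x with hA0 | hB0
      · have ha : A''.eval x = c * ((n + 2) • Point.some x y hxy).xRep 0 := by
          apply mul_right_cancel₀ hA0
          rw [e0]; ring
        refine ⟨ha, ?_⟩
        apply mul_left_cancel₀ hA0
        rw [ha] at e1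
        linear_combination e1
      · have hb : B''.eval x = c * ((n + 2) • Point.some x y hxy).xRep 1 := by
          apply mul_right_cancel₀ hB0
          rw [e2]; ring
        refine ⟨?_, hb⟩
        apply mul_right_cancel₀ hB0
        rw [hb] at e1
        linear_combination e1
    rw [key.1, key.2]
    ring


theorem exists_good [IsAlgClosed K] (hΔ : W.Δ ≠ 0) (n : ℕ) : ∃ A B : K[X], Good W n A B := by
  have key : ∀ n : ℕ, (∃ A B : K[X], Good W n A B) ∧ (∃ A B : K[X], Good W (n + 1) A B) := by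
    intro n
    induction n with
    | zero => exact ⟨⟨1, 0, good_zero⟩, ⟨X, 1, good_one⟩⟩
    | succ k ih =>
      obtain ⟨⟨A, B, h⟩, ⟨A', B', h'⟩⟩ := ih
      exact ⟨⟨A', B', h'⟩, good_step hΔ h h'⟩
  exact (key n).1

section count

omit [DecidableEq K] in
/-- the Wronskian of a coprime pair with `natDegree A ≥ 1` is nonzero in characteristic zero -/
lemma wronskian_ne_zero [CharZero K] {A B : K[X]} (hco : IsCoprime A B) (hA : A.natDegree ≠ 0) :
    derivative A * B - A * derivative B ≠ 0 := by
  intro h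
  have h1 : A ∣ derivative A * B := ⟨derivative B, by linear_combination h⟩
  have h2 : A ∣ derivative A := hco.dvd_of_dvd_mul_right h1
  have h3 : derivative A = 0 := eq_zero_of_dvd_of_natDegree_lt h2 (natDegree_derivative_lt hA)
  exact hA (Polynomial.derivative_eq_zero.mp h3)

omit [DecidableEq K] in
/-- for all but finitely many `x₀`, `A - x₀ B` is separable -/
lemma exists_finset_separable [IsAlgClosed K] [CharZero K] {A B : K[X]} (hco : IsCoprime A B) (hA : A.natDegree ≠ 0) :
    ∃ s : Finset K, ∀ x₀ : K, x₀ ∉ s → (A - C x₀ * B).Separable := by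
  classical
  set Wr : K[X] := derivative A * B - A * derivative B with hWr
  have hWr0 : Wr ≠ 0 := wronskian_ne_zero hco hA
  refine ⟨Wr.roots.toFinset.image (fun r => A.eval r / B.eval r), fun x₀ hx₀ => ?_⟩
  rw [separable_def, Polynomial.isCoprime_iff_aeval_ne_zero_of_isAlgClosed K K]
  intro r
  by_contra hcon
  push Not at hcon
  obtain ⟨h1, h2⟩ := hcon
  simp only [coe_aeval_eq_eval, eval_sub, eval_mul, eval_C, derivative_sub, derivative_mul,
    derivative_C, zero_mul, zero_add] at h1 h2
  have hBr : B.eval r ≠ 0 := by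
    intro hB
    obtain ⟨a, b, hab⟩ := hco
    have := congrArg (Polynomial.eval r) hab
    have hAr : A.eval r = 0 := by rw [hB, mul_zero, sub_zero] at h1; exact h1
    simp [hAr, hB] at this
  apply hx₀
  rw [Finset.mem_image]
  refine ⟨r, ?_, ?_⟩
  · rw [Multiset.mem_toFinset, mem_roots hWr0, IsRoot, hWr]
    simp only [eval_sub, eval_mul]
    have e1 : A.eval r = x₀ * B.eval r := by linear_combination h1
    have e2 : (derivative A).eval r = x₀ * (derivative B).eval r := by linear_combination h2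
    rw [e1, e2]; ring
  · field_simp
    linear_combination h1

/-- **The `n`-torsion of an elliptic curve over an algebraically closed field of characteristic
zero has exactly `n²` points.** -/
theorem card_torsionBy [IsAlgClosed K] [CharZero K] (W : WeierstrassCurve.Affine K)
    (hΔ : W.Δ ≠ 0) (n : ℕ) (hn : 0 < n) :
    Nat.card (Submodule.torsionBy ℤ W.Point n) = n ^ 2 := by
  classical
  obtain ⟨A, B, hG⟩ := exists_good (W := W) hΔ n
  have hn2 : 1 ≤ n ^ 2 := Nat.one_le_pow _ _ hn
  have hAd : A.natDegree ≠ 0 := by rw [hG.natDegree_eq]; omega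
  obtain ⟨bad, hbad⟩ := exists_finset_separable hG.coprime hAd
  -- the 2-division polynomial
  set ψ : K[X] := C 4 * X ^ 3 + C W.b₂ * X ^ 2 + C (2 * W.b₄) * X + C W.b₆ with hψ
  have hψ0 : ψ ≠ 0 := by
    intro h
    have := congrArg (fun p : K[X] => p.coeff 3) h
    simp [hψ] at this
  obtain ⟨x₀, hx₀⟩ := Infinite.exists_notMem_finset (bad ∪ ψ.roots.toFinset)
  rw [Finset.mem_union, not_or] at hx₀
  obtain ⟨hx₀bad, hx₀ψ⟩ := hx₀
  have hψx₀ : ψ.eval x₀ ≠ 0 := by
    intro h
    exact hx₀ψ (Multiset.mem_toFinset.mpr ((mem_roots hψ0).mpr h))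
  set F : K[X] := A - C x₀ * B with hF
  have hFsep : F.Separable := hbad x₀ hx₀bad
  have hBd : B.natDegree < n ^ 2 := natDegree_lt_of_degree_lt (by omega) hG.degree_lt
  have hCB : (C x₀ * B).natDegree < A.natDegree := by
    rw [hG.natDegree_eq]
    exact lt_of_le_of_lt (natDegree_C_mul_le _ _) hBd
  have hFd : F.natDegree = n ^ 2 := by
    rw [hF, natDegree_sub_eq_left_of_natDegree_lt hCB, hG.natDegree_eq]
  have hF0 : F ≠ 0 := by
    intro h; rw [h, natDegree_zero] at hFd; omega
  have hRcard : F.roots.toFinset.card = n ^ 2 := by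
    rw [Multiset.toFinset_card_of_nodup (nodup_roots hFsep), IsAlgClosed.card_roots_eq_natDegree,
      hFd]
  have hFeval : ∀ x : K, F.eval x = A.eval x - x₀ * B.eval x := by
    intro x; simp [hF]
  -- the point Q
  obtain ⟨y₀, hQ⟩ := exists_point W hΔ x₀
  have hy₀ : y₀ ≠ W.negY x₀ y₀ := by
    intro h
    apply hψx₀
    have e := (W.equation_iff x₀ y₀).mp hQ.1
    simp only [negY] at h
    have h' : 2 * y₀ + W.a₁ * x₀ + W.a₃ = 0 := by linear_combination h
    simp only [hψ, eval_add, eval_mul, eval_C, eval_pow, eval_X, WeierstrassCurve.b₂,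
      WeierstrassCurve.b₄, WeierstrassCurve.b₆]
    linear_combination (2 * y₀ + W.a₁ * x₀ + W.a₃) * h' - 4 * e
  obtain ⟨Q, hQdef⟩ : ∃ Q : W.Point, Q = Point.some x₀ y₀ hQ := ⟨_, rfl⟩
  have hQx : Q.xRep = ![x₀, 1] := by rw [hQdef]; rfl
  have hQne : Q ≠ -Q := by
    rw [hQdef, Point.neg_some]
    intro h
    rw [Point.some.injEq] at h
    exact hy₀ h.2
  have hQ0 : Q ≠ 0 := by rw [hQdef]; exact Point.some_ne_zero _
  have hnQ0 : -Q ≠ 0 := by rw [neg_ne_zero]; exact hQ0
  let S : Set W.Point := {P | n • P = Q ∨ n • P = -Q}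
  have hS_of_root : ∀ (x y : K) (h : W.Nonsingular x y), F.eval x = 0 → Point.some x y h ∈ S := by
    intro x y h hx
    rw [hFeval] at hx
    have hAx : A.eval x = x₀ * B.eval x := by linear_combination hx
    have hBx : B.eval x ≠ 0 := by
      intro hB
      rcases hG.eval_ne x with h1 | h1
      · exact h1 (by rw [hAx, hB, mul_zero])
      · exact h1 hB
    have hrep := hG.rep x y h
    show n • Point.some x y h = Q ∨ n • Point.some x y h = -Q
    apply Point.xRep_eq_xRep_iff.mp
    rw [hQx]
    rcases hnP : n • Point.some x y h with _ | ⟨x', y', h'⟩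
    · exfalso
      rw [hnP] at hrep
      have : (Point.zero : W.Point).xRep = ![1, 0] := rfl
      rw [this] at hrep
      simp at hrep
      exact hBx hrep.symm
    · rw [hnP] at hrep
      have : (Point.some x' y' h').xRep = ![x', 1] := rfl
      rw [this] at hrep ⊢
      simp at hrep
      have hx' : x' = x₀ := by
        apply mul_left_cancel₀ hBx
        rw [← hrep, hAx]; ring
      rw [hx']
  have hroot_of_S : ∀ P ∈ S, ∃ (x y : K) (h : W.Nonsingular x y),
      P = Point.some x y h ∧ F.eval x = 0 := by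
    intro P hP
    have hP' : n • P = Q ∨ n • P = -Q := hP
    rcases P with _ | ⟨x, y, h⟩
    · exfalso
      have h0 : n • (Point.zero : W.Point) = 0 := smul_zero n
      rw [h0] at hP'
      rcases hP' with h1 | h1
      · exact hQ0 h1.symm
      · exact hnQ0 h1.symm
    · refine ⟨x, y, h, rfl, ?_⟩
      have hx := Point.xRep_eq_xRep_iff.mpr hP'
      have hrep := hG.rep x y h
      rw [hx, hQx] at hrep
      simp at hrep
      rw [hFeval, hrep]; ring
  have hS_neg : ∀ P ∈ S, -P ∈ S := by
    intro P hP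
    have hP' : n • P = Q ∨ n • P = -Q := hP
    show n • -P = Q ∨ n • -P = -Q
    rw [smul_neg]
    rcases hP' with h1 | h1
    · right; rw [h1]
    · left; rw [h1, neg_neg]
  have hS_ne_neg : ∀ P ∈ S, P ≠ -P := by
    intro P hP hPP
    have hP' : n • P = Q ∨ n • P = -Q := hP
    have h2 : n • P = -(n • P) := by
      conv_lhs => rw [hPP]
      rw [smul_neg]
    rcases hP' with h1 | h1
    · rw [h1] at h2; exact hQne h2
    · rw [h1, neg_neg] at h2; exact hQne h2.symm
  -- first count
  let Pt : K → W.Point := fun r =>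
    Point.some r (Classical.choose (exists_point W hΔ r)) (Classical.choose_spec (exists_point W hΔ r))
  have hPtx : ∀ r, (Pt r).xRep = ![r, 1] := fun r => rfl
  have hPtS : ∀ r ∈ F.roots.toFinset, Pt r ∈ S := by
    intro r hr
    rw [Multiset.mem_toFinset, mem_roots hF0] at hr
    exact hS_of_root _ _ _ hr
  let φ : F.roots.toFinset × Bool → W.Point := fun p => if p.2 then Pt p.1 else -Pt p.1
  have hφx : ∀ p, (φ p).xRep = ![(p.1 : K), 1] := by
    rintro ⟨r, b⟩
    cases b
    · show (-Pt r).xRep = _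
      rw [Point.xRep_neg]; exact hPtx r
    · exact hPtx r
  have hφ_inj : Function.Injective φ := by
    rintro ⟨r, b⟩ ⟨r', b'⟩ h
    have hx := congrArg (fun P : W.Point => P.xRep 0) h
    simp only [hφx] at hx
    simp only [Matrix.cons_val_zero] at hx
    have hr : r = r' := Subtype.ext hx
    subst hr
    have hne := hS_ne_neg _ (hPtS r r.2)
    cases b <;> cases b'
    · rfl
    · exfalso
      have h' : -Pt r = Pt r := h
      exact hne h'.symm
    · exfalso
      have h' : Pt r = -Pt r := h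
      exact hne h'
    · rfl
  have hφ_range : Set.range φ = S := by
    ext P
    constructor
    · rintro ⟨⟨r, b⟩, rfl⟩
      cases b
      · exact hS_neg _ (hPtS r r.2)
      · exact hPtS r r.2
    · intro hP
      obtain ⟨x, y, h, rfl, hx⟩ := hroot_of_S P hP
      have hxr : x ∈ F.roots.toFinset := by
        rw [Multiset.mem_toFinset, mem_roots hF0]; exact hx
      have : (Point.some x y h).xRep = (Pt x).xRep := rfl
      rcases Point.xRep_eq_xRep_iff.mp this with h1 | h1
      · exact ⟨(⟨x, hxr⟩, true), h1.symm⟩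
      · exact ⟨(⟨x, hxr⟩, false), h1.symm⟩
  have hcard1 : Nat.card S = n ^ 2 * 2 := by
    rw [← hφ_range, Nat.card_range_of_injective hφ_inj, Nat.card_prod, Nat.card_eq_fintype_card,
      Fintype.card_coe, hRcard, Nat.card_eq_fintype_card, Fintype.card_bool]
  -- second count
  obtain ⟨P₀, hP₀⟩ : ∃ P₀ : W.Point, n • P₀ = Q := by
    have hne : F.roots.toFinset.Nonempty := by
      rw [← Finset.card_pos, hRcard]; omega
    obtain ⟨r, hr⟩ := hne
    have h1 : n • Pt r = Q ∨ n • Pt r = -Q := hPtS r hr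
    rcases h1 with h1 | h1
    · exact ⟨Pt r, h1⟩
    · exact ⟨-Pt r, by rw [smul_neg, h1, neg_neg]⟩
  have htors : ∀ T : Submodule.torsionBy ℤ W.Point n, n • (T : W.Point) = 0 := by
    intro T
    have := (Submodule.mem_torsionBy_iff _ _).mp T.2
    rwa [natCast_zsmul] at this
  let χ : Submodule.torsionBy ℤ W.Point n × Bool → W.Point :=
    fun p => if p.2 then P₀ + (p.1 : W.Point) else -(P₀ + (p.1 : W.Point))
  have hχn : ∀ T : Submodule.torsionBy ℤ W.Point n, n • (P₀ + (T : W.Point)) = Q := by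
    intro T
    rw [smul_add, hP₀, htors T, add_zero]
  have hχ_inj : Function.Injective χ := by
    rintro ⟨T, b⟩ ⟨T', b'⟩ h
    cases b <;> cases b'
    · have h' : -(P₀ + (T : W.Point)) = -(P₀ + (T' : W.Point)) := h
      have : (T : W.Point) = T' := add_left_cancel (neg_injective h')
      rw [Subtype.ext this]
    · exfalso
      have h' : -(P₀ + (T : W.Point)) = P₀ + (T' : W.Point) := h
      have h2 := congrArg (fun P : W.Point => n • P) h'
      simp only [smul_neg, hχn] at h2
      exact hQne h2.symm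
    · exfalso
      have h' : P₀ + (T : W.Point) = -(P₀ + (T' : W.Point)) := h
      have h2 := congrArg (fun P : W.Point => n • P) h'
      simp only [smul_neg, hχn] at h2
      exact hQne h2
    · have h' : P₀ + (T : W.Point) = P₀ + (T' : W.Point) := h
      have : (T : W.Point) = T' := add_left_cancel h'
      rw [Subtype.ext this]
  have hχ_range : Set.range χ = S := by
    ext P
    constructor
    · rintro ⟨⟨T, b⟩, rfl⟩
      cases b
      · show n • -(P₀ + (T : W.Point)) = Q ∨ n • -(P₀ + (T : W.Point)) = -Q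
        right; rw [smul_neg, hχn]
      · show n • (P₀ + (T : W.Point)) = Q ∨ n • (P₀ + (T : W.Point)) = -Q
        left; exact hχn T
    · intro hP
      have hP' : n • P = Q ∨ n • P = -Q := hP
      rcases hP' with h1 | h1
      · have hT : P - P₀ ∈ Submodule.torsionBy ℤ W.Point n := by
          rw [Submodule.mem_torsionBy_iff, natCast_zsmul, smul_sub, h1, hP₀, sub_self]
        refine ⟨(⟨P - P₀, hT⟩, true), ?_⟩
        show P₀ + (P - P₀) = P
        abel
      · have hT : -P - P₀ ∈ Submodule.torsionBy ℤ W.Point n := by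
          rw [Submodule.mem_torsionBy_iff, natCast_zsmul, smul_sub, smul_neg, h1, hP₀, neg_neg,
            sub_self]
        refine ⟨(⟨-P - P₀, hT⟩, false), ?_⟩
        show -(P₀ + (-P - P₀)) = P
        abel
  have hcard2 : Nat.card S = Nat.card (Submodule.torsionBy ℤ W.Point n) * 2 := by
    rw [← hχ_range, Nat.card_range_of_injective hχ_inj, Nat.card_prod, Nat.card_eq_fintype_card (α := Bool),
      Fintype.card_bool]
  have := hcard1.symm.trans hcard2
  omega


theorem finite_torsionBy [IsAlgClosed K] [CharZero K] (W : WeierstrassCurve.Affine K)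
    (hΔ : W.Δ ≠ 0) (n : ℕ) (hn : 0 < n) : Finite (Submodule.torsionBy ℤ W.Point n) := by
  apply Nat.finite_of_card_ne_zero
  rw [card_torsionBy W hΔ n hn]
  positivity

theorem nontrivial_torsionBy [IsAlgClosed K] [CharZero K] (W : WeierstrassCurve.Affine K)
    (hΔ : W.Δ ≠ 0) (n : ℕ) (hn : 1 < n) : Nontrivial (Submodule.torsionBy ℤ W.Point n) := by
  have := finite_torsionBy W hΔ n (by omega)
  rw [← Finite.one_lt_card_iff_nontrivial, card_torsionBy W hΔ n (by omega)]
  nlinarith

/-- `E[p]` is two-dimensional over `𝔽_p`, for any `𝔽_p`-module structure on it. -/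
theorem finrank_torsionBy_prime [IsAlgClosed K] [CharZero K] (W : WeierstrassCurve.Affine K)
    (hΔ : W.Δ ≠ 0) (p : ℕ) [Fact p.Prime]
    [Module (ZMod p) (Submodule.torsionBy ℤ W.Point p)] :
    Module.finrank (ZMod p) (Submodule.torsionBy ℤ W.Point p) = 2 := by
  have hp : p.Prime := Fact.out
  have := finite_torsionBy W hΔ p hp.pos
  have h1 := Module.natCard_eq_pow_finrank (K := ZMod p) (V := Submodule.torsionBy ℤ W.Point p)
  rw [card_torsionBy W hΔ p hp.pos, Nat.card_zmod] at h1
  exact (Nat.pow_right_injective hp.two_le h1).symm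

/-- base-change form (the shape of the Prelude's `E[n]`): `W'` over any ring mapping to `K`. -/
theorem card_torsionBy_baseChange [IsAlgClosed K] [CharZero K] {R : Type*} [CommRing R]
    [Algebra R K] (W' : WeierstrassCurve.Affine R) (hΔ : algebraMap R K W'.Δ ≠ 0) (n : ℕ)
    (hn : 0 < n) : Nat.card (Submodule.torsionBy ℤ (W'⁄K).Point n) = n ^ 2 :=
  card_torsionBy (W'⁄K) (by
    show (WeierstrassCurve.map W' (algebraMap R K)).Δ ≠ 0
    rwa [WeierstrassCurve.map_Δ]) n hn

theorem nontrivial_torsionBy_baseChange [IsAlgClosed K] [CharZero K] {R : Type*} [CommRing R]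
    [Algebra R K] (W' : WeierstrassCurve.Affine R) (hΔ : algebraMap R K W'.Δ ≠ 0) (n : ℕ)
    (hn : 1 < n) : Nontrivial (Submodule.torsionBy ℤ (W'⁄K).Point n) :=
  nontrivial_torsionBy (W'⁄K) (by
    show (WeierstrassCurve.map W' (algebraMap R K)).Δ ≠ 0
    rwa [WeierstrassCurve.map_Δ]) n hn

theorem finrank_torsionBy_prime_baseChange [IsAlgClosed K] [CharZero K] {R : Type*} [CommRing R]
    [Algebra R K] (W' : WeierstrassCurve.Affine R) (hΔ : algebraMap R K W'.Δ ≠ 0) (p : ℕ)
    [Fact p.Prime] [Module (ZMod p) (Submodule.torsionBy ℤ (W'⁄K).Point p)] :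
    Module.finrank (ZMod p) (Submodule.torsionBy ℤ (W'⁄K).Point p) = 2 :=
  finrank_torsionBy_prime (W'⁄K) (by
    show (WeierstrassCurve.map W' (algebraMap R K)).Δ ≠ 0
    rwa [WeierstrassCurve.map_Δ]) p

end count

end Fermat.Agent.Lib.TorsionCard
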