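/-
An integral "division polynomial" for odd `n = 2m+1` from the `x`-only recursion of
`Lib/TorsionCard` (no Mathlib division polynomials): a polynomial with coefficients in a subring
containing `b₂, b₄, b₆, b₈`, of degree `≤ (n²-1)/2` with coefficient `-n` there, vanishing at the
abscissas of all nonzero `n`-torsion points.
Owner: helper62.
-/
import Mathlib
import Fermat.Agent.Lib.XAddSub
import Fermat.Agent.Lib.TorsionCard

set_option autoImplicit false

namespace Fermat.Agent.Lib.TorsionPoly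

open Polynomial WeierstrassCurve WeierstrassCurve.Affine Fermat.Agent.Lib.XAddSub
  Fermat.Agent.Lib.TorsionCard

section range

variable {K : Type*} [Field K] {R : Type*} [CommRing R] (φ : R →+* K)

/-- exact division by a monic polynomial preserves integrality of the coefficients -/
lemma div_mem_range (hφ : Function.Injective φ) {F G Q : K[X]}
    (hF : F ∈ (mapRingHom φ).range) (hG : G ∈ (mapRingHom φ).range) (hGm : G.Monic)
    (h : F = Q * G) : Q ∈ (mapRingHom φ).range := by
  obtain ⟨f, rfl⟩ := hF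
  obtain ⟨g, rfl⟩ := hG
  rw [coe_mapRingHom] at hGm h
  have hg : g.Monic := monic_of_injective hφ hGm
  refine ⟨f /ₘ g, ?_⟩
  rw [coe_mapRingHom, map_divByMonic φ hg, h, mul_comm, mul_divByMonic_cancel_left _ hGm]

lemma C_mem_range {a : K} (ha : a ∈ φ.range) : (C a : K[X]) ∈ (mapRingHom φ).range := by
  obtain ⟨r, rfl⟩ := ha
  exact ⟨C r, by simp⟩

lemma X_mem_range : (X : K[X]) ∈ (mapRingHom φ).range := ⟨X, by simp⟩

end range

variable {K : Type*} [Field K] [DecidableEq K] {W : WeierstrassCurve.Affine K}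

/-- the induction step of `TorsionCard.good_step`, exporting the three polynomial identities -/
theorem good_step' [IsAlgClosed K] (hΔ : W.Δ ≠ 0) {n : ℕ} {A B A' B' : K[X]} (h : Good W n A B)
    (h' : Good W (n + 1) A' B') : ∃ A'' B'' : K[X], Good W (n + 2) A'' B'' ∧
      p0 W (A' * X) (A' + X * B') B' = A'' * A ∧
      p1 W (A' * X) (A' + X * B') B' = A'' * B + A * B'' ∧
      p2 (A' * X) (A' + X * B') B' = B'' * B := by
  set S : K[X] := A' * X with hS
  set T : K[X] := A' + X * B' with hT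
  set s : K[X] := p0 W S T B' with hs
  set t : K[X] := p1 W S T B' with ht
  set u : K[X] := p2 S T B' with hu
  -- pointwise relations
  have hpw : ∀ (x y : K) (hxy : W.Nonsingular x y), ∃ c : K, c ≠ 0 ∧
      s.eval x = c * (((n + 2) • Point.some x y hxy).xRep 0 * A.eval x) ∧
      t.eval x = c * (((n + 2) • Point.some x y hxy).xRep 0 * B.eval x
            + ((n + 2) • Point.some x y hxy).xRep 1 * A.eval x) ∧
      u.eval x = c * (((n + 2) • Point.some x y hxy).xRep 1 * B.eval x) := by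
    intro x y hxy
    obtain ⟨c, hc, e0, e1, e2⟩ := step_pointwise_aux hΔ (Point.some x y hxy) x rfl (h.eval_ne x)
      (h.rep x y hxy) (h'.eval_ne x) (h'.rep x y hxy)
    refine ⟨c, hc, ?_, ?_, ?_⟩
    · rw [hs, eval_p0, hS, hT]; simpa using e0
    · rw [ht, eval_p1, hS, hT]; simpa using e1
    · rw [hu, eval_p2, hS, hT]; simpa using e2
  -- the polynomial identity
  have hzero : u * A ^ 2 - t * A * B + s * B ^ 2 = 0 := by
    apply Polynomial.funext
    intro x
    obtain ⟨y, hxy⟩ := exists_point W hΔ x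
    obtain ⟨c, -, e0, e1, e2⟩ := hpw x y hxy
    simp only [eval_add, eval_sub, eval_mul, eval_pow, eval_zero, e0, e1, e2]
    ring
  obtain ⟨A'', B'', hsA, htA, huA⟩ := exists_factor h.monic.ne_zero h.coprime hzero
  -- degrees
  have hd : A'.natDegree = (n + 1) ^ 2 := h'.natDegree_eq
  have hd1 : 1 ≤ (n + 1) ^ 2 := Nat.one_le_pow _ _ (Nat.succ_pos n)
  have hB'd : B'.natDegree ≤ (n + 1) ^ 2 - 1 :=
    Nat.le_sub_one_of_lt (natDegree_lt_of_degree_lt hd1 h'.degree_lt)
  have hSm : S.Monic := h'.monic.mul monic_X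
  have hSd : S.natDegree = (n + 1) ^ 2 + 1 := by
    rw [hS, h'.monic.natDegree_mul monic_X, natDegree_X, hd]
  have hTd : T.natDegree ≤ (n + 1) ^ 2 := by
    rw [hT]
    compute_degree
    omega
  have hS2m : (S ^ 2).Monic := hSm.pow 2
  have hS2d : (S ^ 2).natDegree = 2 * (n + 1) ^ 2 + 2 := by
    rw [hSm.natDegree_pow, hSd]; ring
  have hsplit : s = S ^ 2 - (C W.b₄ * S * B' + C W.b₆ * T * B' + C W.b₈ * B' ^ 2) := by
    rw [hs, p0]; ring
  have hRd : (C W.b₄ * S * B' + C W.b₆ * T * B' + C W.b₈ * B' ^ 2).natDegree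
      < (S ^ 2).natDegree := by
    rw [hS2d]
    have : (C W.b₄ * S * B' + C W.b₆ * T * B' + C W.b₈ * B' ^ 2).natDegree
        ≤ 2 * (n + 1) ^ 2 := by
      compute_degree
      omega
    omega
  have hsm : s.Monic := by
    rw [hsplit]
    exact hS2m.sub_of_left (degree_lt_degree hRd)
  have hsd : s.natDegree = 2 * (n + 1) ^ 2 + 2 := by
    rw [hsplit, natDegree_sub_eq_left_of_natDegree_lt hRd, hS2d]
  have htd : t.natDegree ≤ 2 * (n + 1) ^ 2 + 1 := by
    rw [ht, p1]
    compute_degree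
    omega
  have hA''m : A''.Monic := by
    rw [hsA] at hsm
    exact h.monic.of_mul_monic_right hsm
  have e1 : (n + 1) ^ 2 = n ^ 2 + 2 * n + 1 := by ring
  have e2 : (n + 2) ^ 2 = n ^ 2 + 4 * n + 4 := by ring
  have hA''d : A''.natDegree = (n + 2) ^ 2 := by
    have := hsd
    rw [hsA, hA''m.natDegree_mul h.monic, h.natDegree_eq] at this
    omega
  refine ⟨A'', B'', ⟨hA''m, hA''d, ?_, ?_, ?_⟩, hsA, htA, huA⟩
  · -- degree of B''
    by_cases hB''0 : B'' = 0
    · rw [hB''0, degree_zero]; exact WithBot.bot_lt_coe _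
    rw [← natDegree_lt_iff_degree_lt hB''0]
    have hAB'' : A * B'' = t - A'' * B := by rw [htA]; ring
    have h1 : (A * B'').natDegree = n ^ 2 + B''.natDegree := by
      rw [h.monic.natDegree_mul' hB''0, h.natDegree_eq]
    have h2 : (t - A'' * B).natDegree ≤ 2 * (n + 1) ^ 2 + 1 := by
      refine (natDegree_sub_le _ _).trans (max_le htd ?_)
      by_cases hB0 : B = 0
      · simp [hB0]
      · have hBd : B.natDegree < n ^ 2 := (natDegree_lt_iff_degree_lt hB0).mpr h.degree_lt
        refine natDegree_mul_le.trans ?_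
        rw [hA''d]
        omega
    rw [hAB''] at h1
    omega
  · -- coprimality
    rw [Polynomial.isCoprime_iff_aeval_ne_zero_of_isAlgClosed K K A'' B'']
    intro r
    by_contra hcon
    push Not at hcon
    obtain ⟨hA''r, hB''r⟩ := hcon
    simp only [coe_aeval_eq_eval] at hA''r hB''r
    have hs0 : s.eval r = 0 := by rw [hsA, eval_mul, hA''r, zero_mul]
    have ht0 : t.eval r = 0 := by rw [htA]; simp [hA''r, hB''r]
    have hu0 : u.eval r = 0 := by rw [huA, eval_mul, hB''r, zero_mul]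
    rw [hs, eval_p0] at hs0
    rw [ht, eval_p1] at ht0
    rw [hu, eval_p2] at hu0
    obtain ⟨z1, z2, z3⟩ := g_eq_zero W hΔ hs0 ht0 hu0
    have hA'r : A'.eval r = 0 := by
      rw [hT] at z2
      simpa [z3] using z2
    rcases h'.eval_ne r with h1 | h1
    · exact h1 hA'r
    · exact h1 z3
  · -- pointwise
    intro x y hxy
    obtain ⟨c, hc, e0, e1, e2⟩ := hpw x y hxy
    rw [hsA, eval_mul] at e0
    rw [htA] at e1
    simp only [eval_add, eval_mul] at e1
    rw [huA, eval_mul] at e2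
    have key : A''.eval x = c * ((n + 2) • Point.some x y hxy).xRep 0 ∧
        B''.eval x = c * ((n + 2) • Point.some x y hxy).xRep 1 := by
      rcases h.eval_ne x with hA0 | hB0
      · have ha : A''.eval x = c * ((n + 2) • Point.some x y hxy).xRep 0 := by
          apply mul_right_cancel₀ hA0
          rw [e0]; ring
        refine ⟨ha, ?_⟩
        apply mul_left_cancel₀ hA0
        rw [ha] at e1
        linear_combination e1
      · have hb : B''.eval x = c * ((n + 2) • Point.some x y hxy).xRep 1 := by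
          apply mul_right_cancel₀ hB0
          rw [e2]; ring
        refine ⟨?_, hb⟩
        apply mul_right_cancel₀ hB0
        rw [hb] at e1
        linear_combination e1
    rw [key.1, key.2]
    ring

section integral

variable {R : Type*} [CommRing R] (φ : R →+* K)

variable (W) in
/-- the invariant of the integral recursion -/
structure Inv (n : ℕ) (A B : K[X]) : Prop where
  good : Good W n A B
  memA : A ∈ (mapRingHom φ).range
  memB : B ∈ (mapRingHom φ).range
  coeffB : B.coeff (n ^ 2 - 1) = (n : K) ^ 2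

lemma inv_zero : Inv W φ 0 1 0 where
  good := good_zero
  memA := one_mem _
  memB := zero_mem _
  coeffB := by simp

lemma inv_one : Inv W φ 1 X 1 where
  good := good_one
  memA := X_mem_range φ
  memB := one_mem _
  coeffB := by simp

lemma good_natDegree_le {n : ℕ} {A B : K[X]} (h : Good W n A B) : B.natDegree ≤ n ^ 2 - 1 := by
  rcases Nat.eq_zero_or_pos n with rfl | hn
  · have : B = 0 := by
      have := h.degree_lt
      simpa using this
    simp [this]
  · have h1 : 1 ≤ n ^ 2 := Nat.one_le_pow _ _ hn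
    exact Nat.le_sub_one_of_lt (natDegree_lt_of_degree_lt h1 h.degree_lt)

lemma good_eq_zero {A B : K[X]} (h : Good W 0 A B) : B = 0 := by
  have := h.degree_lt
  simpa using this

theorem inv_step [IsAlgClosed K] (hφ : Function.Injective φ) (hΔ : W.Δ ≠ 0)
    (h₂ : W.b₂ ∈ φ.range) (h₄ : W.b₄ ∈ φ.range) (h₆ : W.b₆ ∈ φ.range) (h₈ : W.b₈ ∈ φ.range)
    {n : ℕ} {A B A' B' : K[X]} (h : Inv W φ n A B) (h' : Inv W φ (n + 1) A' B') :
    ∃ A'' B'' : K[X], Inv W φ (n + 2) A'' B'' := by
  obtain ⟨A'', B'', hg, e0, e1, e2⟩ := good_step' hΔ h.good h'.good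
  have hS : A' * X ∈ (mapRingHom φ).range := mul_mem h'.memA (X_mem_range φ)
  have hT : A' + X * B' ∈ (mapRingHom φ).range :=
    add_mem h'.memA (mul_mem (X_mem_range φ) h'.memB)
  have h2' : (C 2 : K[X]) ∈ (mapRingHom φ).range := C_mem_range φ ⟨2, map_ofNat φ 2⟩
  have hp0 : p0 W (A' * X) (A' + X * B') B' ∈ (mapRingHom φ).range := by
    rw [p0]
    exact sub_mem (sub_mem (sub_mem (pow_mem hS 2)
      (mul_mem (mul_mem (C_mem_range φ h₄) hS) h'.memB))
      (mul_mem (mul_mem (C_mem_range φ h₆) hT) h'.memB))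
      (mul_mem (C_mem_range φ h₈) (pow_mem h'.memB 2))
  have hp1 : p1 W (A' * X) (A' + X * B') B' ∈ (mapRingHom φ).range := by
    rw [p1]
    exact add_mem (add_mem (add_mem (mul_mem (mul_mem h2' hT) hS)
      (mul_mem (mul_mem (C_mem_range φ h₂) hS) h'.memB))
      (mul_mem (mul_mem (C_mem_range φ h₄) hT) h'.memB))
      (mul_mem (C_mem_range φ h₆) (pow_mem h'.memB 2))
  have hA'' : A'' ∈ (mapRingHom φ).range :=
    div_mem_range φ hφ hp0 h.memA h.good.monic e0
  have hB'' : B'' ∈ (mapRingHom φ).range := by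
    refine div_mem_range φ hφ (F := p1 W (A' * X) (A' + X * B') B' - A'' * B)
      (sub_mem hp1 (mul_mem hA'' h.memB)) h.memA h.good.monic ?_
    rw [e1]; ring
  refine ⟨A'', B'', hg, hA'', hB'', ?_⟩
  -- the coefficient of `B''`
  have hd' : A'.natDegree = (n + 1) ^ 2 := h'.good.natDegree_eq
  have hB'd : B'.natDegree ≤ (n + 1) ^ 2 - 1 := (good_natDegree_le h'.good)
  have hd1 : 1 ≤ (n + 1) ^ 2 := Nat.one_le_pow _ _ (Nat.succ_pos n)
  have q1 : (n + 1) ^ 2 = n ^ 2 + 2 * n + 1 := by ring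
  have q2 : (n + 2) ^ 2 = n ^ 2 + 4 * n + 4 := by ring
  have hexp : p1 W (A' * X) (A' + X * B') B' = C 2 * (X * A' ^ 2) + C 2 * (X ^ 2 * (A' * B'))
      + (C W.b₂ * (A' * X) * B' + C W.b₄ * (A' + X * B') * B' + C W.b₆ * B' ^ 2) := by
    rw [p1]; ring
  have hlow : (C W.b₂ * (A' * X) * B' + C W.b₄ * (A' + X * B') * B'
      + C W.b₆ * B' ^ 2).natDegree ≤ 2 * (n + 1) ^ 2 := by
    compute_degree
    omega
  have c1 : (X * A' ^ 2).coeff (2 * (n + 1) ^ 2 + 1) = 1 := by
    rw [coeff_X_mul]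
    have hm : (A' ^ 2).Monic := h'.good.monic.pow 2
    have hdeg : (A' ^ 2).natDegree = 2 * (n + 1) ^ 2 := by
      rw [h'.good.monic.natDegree_pow, hd']
    rw [← hdeg]
    exact hm.coeff_natDegree
  have c2 : (X ^ 2 * (A' * B')).coeff (2 * (n + 1) ^ 2 + 1) = ((n + 1 : ℕ) : K) ^ 2 := by
    have e : 2 * (n + 1) ^ 2 + 1 = ((n + 1) ^ 2 + ((n + 1) ^ 2 - 1)) + 2 := by omega
    rw [e, coeff_X_pow_mul, coeff_mul_add_eq_of_natDegree_le hd'.le hB'd, h'.coeffB, ← hd',
      h'.good.monic.coeff_natDegree, one_mul]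
  have c3 : (p1 W (A' * X) (A' + X * B') B').coeff (2 * (n + 1) ^ 2 + 1)
      = 2 * (1 + ((n + 1 : ℕ) : K) ^ 2) := by
    rw [hexp, coeff_add, coeff_add, coeff_C_mul, coeff_C_mul, c1, c2,
      coeff_eq_zero_of_natDegree_lt (lt_of_le_of_lt hlow (Nat.lt_succ_self _))]
    ring
  have c4 : (A'' * B).coeff (2 * (n + 1) ^ 2 + 1) = (n : K) ^ 2 := by
    rcases Nat.eq_zero_or_pos n with rfl | hn
    · have : B = 0 := (good_eq_zero h.good)
      simp [this]
    · have h1 : 1 ≤ n ^ 2 := Nat.one_le_pow _ _ hn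
      have e : 2 * (n + 1) ^ 2 + 1 = (n + 2) ^ 2 + (n ^ 2 - 1) := by omega
      rw [e, coeff_mul_add_eq_of_natDegree_le hg.natDegree_eq.le (good_natDegree_le h.good), h.coeffB,
        ← hg.natDegree_eq, hg.monic.coeff_natDegree, one_mul]
  have c5 : (A * B'').coeff (2 * (n + 1) ^ 2 + 1) = B''.coeff ((n + 2) ^ 2 - 1) := by
    have e : 2 * (n + 1) ^ 2 + 1 = n ^ 2 + ((n + 2) ^ 2 - 1) := by omega
    rw [e, coeff_mul_add_eq_of_natDegree_le h.good.natDegree_eq.le (good_natDegree_le hg),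
      ← h.good.natDegree_eq, h.good.monic.coeff_natDegree, one_mul]
  have := congrArg (fun p : K[X] => p.coeff (2 * (n + 1) ^ 2 + 1)) e1
  simp only [coeff_add, c3, c4, c5] at this
  push_cast
  push_cast at this
  linear_combination -this

theorem exists_inv [IsAlgClosed K] (hφ : Function.Injective φ) (hΔ : W.Δ ≠ 0)
    (h₂ : W.b₂ ∈ φ.range) (h₄ : W.b₄ ∈ φ.range) (h₆ : W.b₆ ∈ φ.range) (h₈ : W.b₈ ∈ φ.range)
    (n : ℕ) : ∃ A B A' B' : K[X], Inv W φ n A B ∧ Inv W φ (n + 1) A' B' := by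
  induction n with
  | zero => exact ⟨1, 0, X, 1, inv_zero φ, inv_one φ⟩
  | succ k ih =>
    obtain ⟨A, B, A', B', h, h'⟩ := ih
    obtain ⟨A'', B'', h''⟩ := inv_step φ hφ hΔ h₂ h₄ h₆ h₈ h h'
    exact ⟨A', B', A'', B'', h', h''⟩

/-- **Integral odd division polynomial.** -/
theorem exists_torsion_poly [IsAlgClosed K] (hφ : Function.Injective φ)
    (W : WeierstrassCurve.Affine K) (hΔ : W.Δ ≠ 0)
    (h₂ : W.b₂ ∈ φ.range) (h₄ : W.b₄ ∈ φ.range) (h₆ : W.b₆ ∈ φ.range) (h₈ : W.b₈ ∈ φ.range)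
    (m : ℕ) : ∃ ψ : Polynomial R, ψ.natDegree ≤ 2 * m * (m + 1) ∧
      ψ.coeff (2 * m * (m + 1)) = -((2 * m + 1 : ℕ) : R) ∧
      ∀ (x y : K) (h : W.Nonsingular x y),
        (2 * m + 1) • WeierstrassCurve.Affine.Point.some x y h = 0 → (ψ.map φ).eval x = 0 := by
  obtain ⟨A, B, A', B', h, h'⟩ := exists_inv φ hφ hΔ h₂ h₄ h₆ h₈ m
  have hmem : A' * B - A * B' ∈ (mapRingHom φ).range :=
    sub_mem (mul_mem h'.memA h.memB) (mul_mem h.memA h'.memB)
  obtain ⟨ψ, hψ⟩ := hmem
  rw [coe_mapRingHom] at hψ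
  have q1 : (m + 1) ^ 2 = m ^ 2 + 2 * m + 1 := by ring
  have q0 : 2 * m * (m + 1) = 2 * m ^ 2 + 2 * m := by ring
  have hdeg : (A' * B - A * B').natDegree ≤ 2 * m * (m + 1) := by
    refine (natDegree_sub_le _ _).trans (max_le ?_ ?_)
    · rcases Nat.eq_zero_or_pos m with rfl | hm
      · simp [(good_eq_zero h.good)]
      · have h1 : 1 ≤ m ^ 2 := Nat.one_le_pow _ _ hm
        refine natDegree_mul_le.trans ?_
        have := (good_natDegree_le h.good)
        rw [h'.good.natDegree_eq]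
        omega
    · refine natDegree_mul_le.trans ?_
      have := (good_natDegree_le h'.good)
      rw [h.good.natDegree_eq]
      omega
  have c1 : (A' * B).coeff (2 * m * (m + 1)) = (m : K) ^ 2 := by
    rcases Nat.eq_zero_or_pos m with rfl | hm
    · simp [(good_eq_zero h.good)]
    · have h1 : 1 ≤ m ^ 2 := Nat.one_le_pow _ _ hm
      have e : 2 * m * (m + 1) = (m + 1) ^ 2 + (m ^ 2 - 1) := by omega
      rw [e, coeff_mul_add_eq_of_natDegree_le h'.good.natDegree_eq.le (good_natDegree_le h.good),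
        h.coeffB, ← h'.good.natDegree_eq, h'.good.monic.coeff_natDegree, one_mul]
  have c2 : (A * B').coeff (2 * m * (m + 1)) = ((m + 1 : ℕ) : K) ^ 2 := by
    have e : 2 * m * (m + 1) = m ^ 2 + ((m + 1) ^ 2 - 1) := by omega
    rw [e, coeff_mul_add_eq_of_natDegree_le h.good.natDegree_eq.le (good_natDegree_le h'.good),
      h'.coeffB, ← h.good.natDegree_eq, h.good.monic.coeff_natDegree, one_mul]
  refine ⟨ψ, ?_, ?_, ?_⟩
  · rw [← natDegree_map_eq_of_injective hφ ψ, hψ]
    exact hdeg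
  · apply hφ
    rw [← coeff_map, hψ, coeff_sub, c1, c2, map_neg, map_natCast]
    push_cast
    ring
  · intro x y hxy hP
    rw [hψ]
    have hneg : (m + 1) • Point.some x y hxy = -(m • Point.some x y hxy) := by
      rw [eq_neg_iff_add_eq_zero, ← add_nsmul]
      have : m + 1 + m = 2 * m + 1 := by ring
      rw [this]
      exact hP
    have r := h.good.rep x y hxy
    have r' := h'.good.rep x y hxy
    rw [hneg, Point.xRep_neg] at r'
    simp only [eval_sub, eval_mul]
    rcases xRep_ne W (m • Point.some x y hxy) with h0 | h0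
    · apply mul_right_cancel₀ h0
      linear_combination (-(A'.eval x)) * r + (A.eval x) * r'
    · apply mul_right_cancel₀ h0
      linear_combination (B.eval x) * r' - (B'.eval x) * r

end integral

end Fermat.Agent.Lib.TorsionPoly
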