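import Mathlib
import Fermat.Agent.Lib.HeckeHom

/-!
# The Hecke operator of a coset family on multiplicative characters, and semi-invariants

Companion of `Fermat/Agent/Lib/HeckeHom.lean` (`IsCosetFamily e δ`, `heckeHom` on
`Hom(Γ, A)` for additive `A`).

* `heckeChar h ψ : Γ →* M` for `ψ : Γ →* M` (`M` a commutative group):
  `heckeChar h ψ γ = ∏ i, ψ (cof γ i)`; it is `heckeHom` read through `Additive`.
* `prod_pre`: the transfer formula for semi-invariants of a CONTRAVARIANT action.  If a subgroup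
  `S` of `G` containing `e Γ` and the `δ i` acts on a commutative monoid `K` by monoid
  endomorphisms `P s` with `P (a * b) = P b ∘ P a` ("precomposition"), the "constants" `c γ` are
  fixed by every `P s`, and `P (e γ) F = c γ * F` for all `γ`, then `G := ∏ i, P (δ i) F`
  satisfies `P (e γ) G = (∏ i, c (cof γ i)) * G`.
* `prod_smul`: the same for functions on a set with a (covariant) `G`-action:
  `F (e γ • x) = c γ * F x` for all `γ, x` implies
  `∏ i, F (δ i • e γ • x) = (∏ i, c (cof γ i)) * ∏ i, F (δ i • x)`.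
-/

set_option autoImplicit false

namespace Fermat.Agent.Lib.TransferChar

open Fermat.Agent.Lib.HeckeHom

variable {Γ G : Type*} [Group Γ] [Group G] {ι : Type*} [Fintype ι]
  {e : Γ →* G} {δ : ι → G} (h : IsCosetFamily e δ)

section Char

variable {M : Type*} [CommGroup M]

/-- The Hecke operator of the family on multiplicative characters:
`(Θ ψ)(γ) = ∏ i, ψ (cof γ i)`. -/
noncomputable def heckeChar (ψ : Γ →* M) : Γ →* M where
  toFun γ := ∏ i, ψ (h.cof γ i)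
  map_one' := by simp
  map_mul' γ₁ γ₂ := by
    simp only [h.cof_mul, map_mul, Finset.prod_mul_distrib]
    congr 1
    exact Equiv.prod_comp (h.nxtPerm γ₁) (fun i => ψ (h.cof γ₂ i))

theorem heckeChar_apply (ψ : Γ →* M) (γ : Γ) : heckeChar h ψ γ = ∏ i, ψ (h.cof γ i) := rfl

/-- `heckeChar` is `heckeHom` read through `Additive`. -/
theorem heckeHom_toAdditive (ψ : Γ →* M) :
    h.heckeHom (MonoidHom.toAdditive ψ) = MonoidHom.toAdditive (heckeChar h ψ) := by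
  refine AddMonoidHom.ext fun γa => ?_
  obtain ⟨γ, rfl⟩ : ∃ γ : Γ, Additive.ofMul γ = γa := ⟨Additive.toMul γa, rfl⟩
  rw [h.heckeHom_apply]
  show ∑ i, Additive.ofMul (ψ (h.cof γ i)) = Additive.ofMul (∏ i, ψ (h.cof γ i))
  rw [ofMul_prod]

theorem heckeChar_mul (ψ ψ' : Γ →* M) :
    heckeChar h (ψ * ψ') = heckeChar h ψ * heckeChar h ψ' := by
  refine MonoidHom.ext fun γ => ?_
  show ∏ i, (ψ * ψ') (h.cof γ i) = (∏ i, ψ (h.cof γ i)) * ∏ i, ψ' (h.cof γ i)
  simp only [MonoidHom.mul_apply, Finset.prod_mul_distrib]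

theorem heckeChar_one : heckeChar h (1 : Γ →* M) = 1 := by
  refine MonoidHom.ext fun γ => ?_
  show ∏ i, (1 : Γ →* M) (h.cof γ i) = 1
  simp

theorem heckeChar_pow (ψ : Γ →* M) (n : ℕ) : heckeChar h (ψ ^ n) = heckeChar h ψ ^ n := by
  refine MonoidHom.ext fun γ => ?_
  show ∏ i, (ψ ^ n) (h.cof γ i) = (∏ i, ψ (h.cof γ i)) ^ n
  simp only [MonoidHom.pow_apply, Finset.prod_pow]

/-- Naturality in the coefficient group. -/
theorem heckeChar_comp {M' : Type*} [CommGroup M'] (f : M →* M') (ψ : Γ →* M) :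
    heckeChar h (f.comp ψ) = f.comp (heckeChar h ψ) := by
  refine MonoidHom.ext fun γ => ?_
  show ∏ i, f (ψ (h.cof γ i)) = f (∏ i, ψ (h.cof γ i))
  rw [map_prod]

end Char

section Pre

variable {K : Type*} [CommMonoid K]

/-- **Transfer for a contravariant action.**  See the header. -/
theorem prod_pre (S : Subgroup G) (he : ∀ γ, e γ ∈ S) (hδ : ∀ i, δ i ∈ S)
    (P : S → K →* K) (hP : ∀ (a b : S) (m : K), P (a * b) m = P b (P a m))
    (F : K) (c : Γ → K) (hc : ∀ (s : S) (γ : Γ), P s (c γ) = c γ)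
    (hF : ∀ γ, P ⟨e γ, he γ⟩ F = c γ * F) (γ : Γ) :
    P ⟨e γ, he γ⟩ (∏ i, P ⟨δ i, hδ i⟩ F) =
      (∏ i, c (h.cof γ i)) * ∏ i, P ⟨δ i, hδ i⟩ F := by
  rw [map_prod]
  have h1 : ∀ i, P ⟨e γ, he γ⟩ (P ⟨δ i, hδ i⟩ F) =
      c (h.cof γ i) * P ⟨δ (h.nxt γ i), hδ _⟩ F := by
    intro i
    rw [← hP]
    have h2 : (⟨δ i, hδ i⟩ : S) * ⟨e γ, he γ⟩ =
        ⟨e (h.cof γ i), he _⟩ * ⟨δ (h.nxt γ i), hδ _⟩ := Subtype.ext (h.spec γ i)
    rw [h2, hP, hF, map_mul, hc]
  simp only [h1, Finset.prod_mul_distrib]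
  congr 1
  exact Equiv.prod_comp (h.nxtPerm γ) (fun i => P ⟨δ i, hδ i⟩ F)

omit [Fintype ι] in
/-- The factor at `i` of the transfer: `P (e γ) (P (δ i) F) = c (cof γ i) * P (δ (nxt γ i)) F`. -/
theorem pre_pre (S : Subgroup G) (he : ∀ γ, e γ ∈ S) (hδ : ∀ i, δ i ∈ S)
    (P : S → K →* K) (hP : ∀ (a b : S) (m : K), P (a * b) m = P b (P a m))
    (F : K) (c : Γ → K) (hc : ∀ (s : S) (γ : Γ), P s (c γ) = c γ)
    (hF : ∀ γ, P ⟨e γ, he γ⟩ F = c γ * F) (γ : Γ) (i : ι) :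
    P ⟨e γ, he γ⟩ (P ⟨δ i, hδ i⟩ F) = c (h.cof γ i) * P ⟨δ (h.nxt γ i), hδ _⟩ F := by
  rw [← hP]
  have h2 : (⟨δ i, hδ i⟩ : S) * ⟨e γ, he γ⟩ =
      ⟨e (h.cof γ i), he _⟩ * ⟨δ (h.nxt γ i), hδ _⟩ := Subtype.ext (h.spec γ i)
  rw [h2, hP, hF, map_mul, hc]

end Pre

section Smul

variable {X : Type*} [MulAction G X] {K : Type*} [CommMonoid K]

/-- **Transfer for functions on a `G`-set.** -/
theorem prod_smul (F : X → K) (c : Γ → K)
    (hF : ∀ (γ : Γ) (x : X), F (e γ • x) = c γ * F x) (γ : Γ) (x : X) :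
    ∏ i, F (δ i • e γ • x) = (∏ i, c (h.cof γ i)) * ∏ i, F (δ i • x) := by
  have h1 : ∀ i, F (δ i • e γ • x) = c (h.cof γ i) * F (δ (h.nxt γ i) • x) := by
    intro i
    rw [← mul_smul, h.spec γ i, mul_smul, hF]
  simp only [h1, Finset.prod_mul_distrib]
  congr 1
  exact Equiv.prod_comp (h.nxtPerm γ) (fun i => F (δ i • x))

end Smul

end Fermat.Agent.Lib.TransferChar
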