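import Mathlib

/-!
# Trace of a field automorphism on the unit lattice

For a number field `K` and `σ : K ≃ₐ[ℚ] K`, the automorphism `σ` acts on the units of `𝓞 K`,
hence on the unit lattice `unitLattice K` (the image of Mathlib's logarithmic embedding), and

  `trace_ℤ (σ | unitLattice K) = #{w : InfinitePlace K | σ • w = w} - 1`.
-/

namespace Fermat.Agent.Lib.UnitTrace

open NumberField NumberField.Units NumberField.InfinitePlace
  NumberField.Units.dirichletUnitTheorem Module

variable (K : Type*) [Field K] [NumberField K]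

/-- The action of a field automorphism on the units of the ring of integers. -/
noncomputable def unitMap (σ : K ≃ₐ[ℚ] K) : (𝓞 K)ˣ →* (𝓞 K)ˣ :=
  Units.map (RingOfIntegers.mapRingEquiv (σ : K ≃+* K)).toMonoidHom

@[simp]
theorem unitMap_coe (σ : K ≃ₐ[ℚ] K) (u : (𝓞 K)ˣ) :
    (((unitMap K σ u : (𝓞 K)ˣ) : 𝓞 K) : K) = σ (u : K) := rfl

theorem unitMap_algebraMap (σ : K ≃ₐ[ℚ] K) (u : (𝓞 K)ˣ) :
    algebraMap (𝓞 K) K ((unitMap K σ u : (𝓞 K)ˣ) : 𝓞 K) = σ (algebraMap (𝓞 K) K (u : 𝓞 K)) := rfl

theorem unitMap_mul (σ τ : K ≃ₐ[ℚ] K) (u : (𝓞 K)ˣ) :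
    unitMap K (σ * τ) u = unitMap K σ (unitMap K τ u) := by
  apply Units.ext
  apply RingOfIntegers.ext
  simp [AlgEquiv.mul_apply]

theorem unitMap_one (u : (𝓞 K)ˣ) : unitMap K 1 u = u := by
  apply Units.ext
  apply RingOfIntegers.ext
  simp

theorem mult_symm_smul (σ : K ≃ₐ[ℚ] K) (w : InfinitePlace K) :
    mult (σ • w) = mult w := by
  unfold mult
  by_cases h : w.IsReal
  · rw [if_pos h, if_pos (isReal_smul_iff.mpr h)]
  · rw [if_neg h, if_neg (fun h' => h (isReal_smul_iff.mp h'))]

open scoped Classical in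
/-- The real-linear map on `logSpace K` induced by `σ`. -/
noncomputable def logMap (σ : K ≃ₐ[ℚ] K) : logSpace K →ₗ[ℝ] logSpace K where
  toFun x := fun w => if h : σ.symm • w.1 = w₀ then - ∑ v, x v else x ⟨σ.symm • w.1, h⟩
  map_add' x y := by
    funext w
    by_cases h : σ.symm • w.1 = w₀
    · simp only [h, dif_pos, Pi.add_apply, Finset.sum_add_distrib, neg_add]
    · simp only [h, dif_neg, not_false_eq_true, Pi.add_apply]
  map_smul' c x := by
    funext w
    by_cases h : σ.symm • w.1 = w₀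
    · simp only [h, dif_pos, Pi.smul_apply, smul_eq_mul, RingHom.id_apply, ← Finset.mul_sum,
        mul_neg]
    · simp only [h, dif_neg, not_false_eq_true, Pi.smul_apply, smul_eq_mul, RingHom.id_apply]

theorem logMap_logEmbedding (σ : K ≃ₐ[ℚ] K) (u : (𝓞 K)ˣ) :
    logMap K σ (logEmbedding K (Additive.ofMul u)) =
      logEmbedding K (Additive.ofMul (unitMap K σ u)) := by
  classical
  funext w
  have hval : ∀ v : InfinitePlace K, (σ.symm • v) (u : K) = v (σ (u : K)) := by
    intro v
    rw [InfinitePlace.smul_apply, AlgEquiv.symm_symm]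
  rw [logEmbedding_component, unitMap_algebraMap]
  by_cases h : σ.symm • w.1 = w₀
  · simp only [logMap, LinearMap.coe_mk, AddHom.coe_mk, h, dif_pos]
    rw [sum_logEmbedding_component, neg_mul, neg_neg]
    have h1 : (w₀ : InfinitePlace K) (algebraMap (𝓞 K) K (u : 𝓞 K)) =
        w.1 (σ (algebraMap (𝓞 K) K (u : 𝓞 K))) := by
      rw [← hval, h]
    have h2 : mult (w₀ : InfinitePlace K) = mult w.1 :=
      (congrArg mult h).symm.trans (mult_symm_smul K σ.symm w.1)
    rw [h1, h2]
  · simp only [logMap, LinearMap.coe_mk, AddHom.coe_mk, h, dif_neg, not_false_eq_true]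
    rw [logEmbedding_component, hval, mult_symm_smul]

theorem trace_pi_eq_sum {ι : Type*} [Fintype ι] [DecidableEq ι] (f : (ι → ℝ) →ₗ[ℝ] (ι → ℝ)) :
    LinearMap.trace ℝ (ι → ℝ) f = ∑ i, f (Pi.single i 1) i := by
  rw [LinearMap.trace_eq_matrix_trace ℝ (Pi.basisFun ℝ ι), Matrix.trace]
  simp

open scoped Classical in
theorem logMap_single (σ : K ≃ₐ[ℚ] K) (w : {w : InfinitePlace K // w ≠ w₀}) :
    logMap K σ (Pi.single w 1) w =
      if σ.symm • w.1 = w₀ then -1 else if σ.symm • w.1 = w.1 then 1 else 0 := by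
  by_cases h : σ.symm • w.1 = w₀
  · simp [logMap, h]
  · simp [logMap, h, Pi.single_apply, Subtype.ext_iff]

open scoped Classical in
/-- The trace of the map induced by `σ` on `logSpace K` is the number of infinite places fixed by
`σ`, minus one. -/
theorem trace_logMap (σ : K ≃ₐ[ℚ] K) :
    LinearMap.trace ℝ (logSpace K) (logMap K σ) =
      (Fintype.card {w : InfinitePlace K // σ • w = w} : ℝ) - 1 := by
  rw [trace_pi_eq_sum]
  simp_rw [logMap_single]
  have hinv : ∀ w v : InfinitePlace K, σ.symm • w = v ↔ w = σ • v := by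
    intro w v
    rw [← AlgEquiv.aut_inv, inv_smul_eq_iff]
  rw [← Finset.sum_subtype (Finset.univ.filter (fun w : InfinitePlace K => w ≠ w₀))
    (by simp) (fun w : InfinitePlace K =>
      if σ.symm • w = w₀ then (-1 : ℝ) else if σ.symm • w = w then 1 else 0)]
  rw [Finset.sum_filter]
  have key : ∀ w : InfinitePlace K,
      (if w ≠ w₀ then (if σ.symm • w = w₀ then (-1 : ℝ) else if σ.symm • w = w then 1 else 0)
        else 0) =
      (if σ • w = w then (1 : ℝ) else 0) - ((if w = w₀ ∧ σ • w₀ = (w₀ : InfinitePlace K)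
        then (1 : ℝ) else 0) + (if w = σ • w₀ ∧ σ • w₀ ≠ (w₀ : InfinitePlace K) then 1 else 0)) := by
    intro w
    have h1 : σ.symm • w = w ↔ σ • w = w := by
      rw [hinv]; exact eq_comm
    by_cases hw : w = w₀
    · subst hw
      by_cases hf : σ • (w₀ : InfinitePlace K) = w₀
      · simp [hf]
      · have : ¬ ((w₀ : InfinitePlace K) = σ • w₀) := fun h => hf h.symm
        simp [hf, this]
    · by_cases hw' : w = σ • w₀
      · have h2 : σ.symm • w = w₀ := (hinv _ _).mpr hw'
        have h3 : σ • (w₀ : InfinitePlace K) ≠ w₀ := fun h => hw (hw'.trans h)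
        have h4 : ¬ (σ • w = w) := by
          intro h
          apply hw
          have := h1.mpr h
          rw [h2] at this
          exact this.symm
        rw [if_pos hw, if_pos h2, if_neg h4, if_neg (fun h => hw h.1), if_pos ⟨hw', h3⟩]
        norm_num
      · have h2 : ¬ (σ.symm • w = w₀) := fun h => hw' ((hinv _ _).mp h)
        simp [hw, h2, h1, hw']
  rw [Finset.sum_congr rfl fun w _ => key w, Finset.sum_sub_distrib, Finset.sum_add_distrib]
  have e1 : ∑ w : InfinitePlace K, (if σ • w = w then (1 : ℝ) else 0) =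
      (Fintype.card {w : InfinitePlace K // σ • w = w} : ℝ) := by
    rw [Finset.sum_boole, Fintype.card_subtype]
  have e2 : ∑ w : InfinitePlace K, (if w = w₀ ∧ σ • w₀ = (w₀ : InfinitePlace K)
      then (1 : ℝ) else 0) = if σ • w₀ = (w₀ : InfinitePlace K) then 1 else 0 := by
    by_cases hf : σ • (w₀ : InfinitePlace K) = w₀
    · simp [hf]
    · simp [hf]
  have e3 : ∑ w : InfinitePlace K, (if w = σ • w₀ ∧ σ • w₀ ≠ (w₀ : InfinitePlace K)
      then (1 : ℝ) else 0) = if σ • w₀ = (w₀ : InfinitePlace K) then 0 else 1 := by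
    by_cases hf : σ • (w₀ : InfinitePlace K) = w₀
    · simp [hf]
    · simp [hf]
  rw [e1, e2, e3]
  by_cases hf : σ • (w₀ : InfinitePlace K) = w₀
  · simp [hf]
  · simp [hf]

/-- The trace of a `ℤ`-endomorphism of a `ℤ`-lattice equals the trace of any real-linear map
extending it. -/
theorem trace_restrict_zlattice {E : Type*} [NormedAddCommGroup E] [NormedSpace ℝ E]
    [FiniteDimensional ℝ E] (L : Submodule ℤ E) [DiscreteTopology L] [IsZLattice ℝ L]
    (T : E →ₗ[ℝ] E) (t : L →ₗ[ℤ] L) (h : ∀ x : L, T (x : E) = (t x : E)) :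
    ((LinearMap.trace ℤ L t : ℤ) : ℝ) = LinearMap.trace ℝ E T := by
  classical
  have : Module.Finite ℤ L := ZLattice.module_finite ℝ L
  have : Module.Free ℤ L := ZLattice.module_free ℝ L
  let b := Module.Free.chooseBasis ℤ L
  rw [LinearMap.trace_eq_matrix_trace ℤ b,
    LinearMap.trace_eq_matrix_trace ℝ (b.ofZLatticeBasis ℝ L)]
  simp only [Matrix.trace, Matrix.diag_apply, LinearMap.toMatrix_apply, Int.cast_sum]
  refine Finset.sum_congr rfl fun i _ => ?_
  rw [Basis.ofZLatticeBasis_apply, h, Basis.ofZLatticeBasis_repr_apply]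

/-- The class of a unit in the unit lattice. -/
noncomputable def logLat (u : (𝓞 K)ˣ) : unitLattice K :=
  ⟨logEmbedding K (Additive.ofMul u), Submodule.mem_map_of_mem (Submodule.mem_top)⟩

@[simp]
theorem logLat_coe (u : (𝓞 K)ˣ) :
    (logLat K u : logSpace K) = logEmbedding K (Additive.ofMul u) := rfl

theorem exists_eq_logLat (x : unitLattice K) : ∃ u : (𝓞 K)ˣ, x = logLat K u := by
  obtain ⟨x, hx⟩ := x
  obtain ⟨u, -, rfl⟩ := Submodule.mem_map.mp hx
  exact ⟨Additive.toMul u, rfl⟩

theorem logLat_mul (u v : (𝓞 K)ˣ) : logLat K (u * v) = logLat K u + logLat K v := by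
  apply Subtype.ext
  simp [ofMul_mul]

theorem logLat_pow (u : (𝓞 K)ˣ) (n : ℕ) : logLat K (u ^ n) = n • logLat K u := by
  apply Subtype.ext
  simp [ofMul_pow]

theorem logLat_eq_zero_iff (u : (𝓞 K)ˣ) : logLat K u = 0 ↔ u ∈ torsion K := by
  rw [← logEmbedding_eq_zero_iff, Subtype.ext_iff]
  rfl

theorem logMap_mem_unitLattice (σ : K ≃ₐ[ℚ] K) {x : logSpace K} (hx : x ∈ unitLattice K) :
    logMap K σ x ∈ unitLattice K := by
  obtain ⟨u, hu⟩ := exists_eq_logLat K ⟨x, hx⟩
  have hx' : x = logEmbedding K (Additive.ofMul u) := congrArg Subtype.val hu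
  rw [hx', logMap_logEmbedding]
  exact (logLat K (unitMap K σ u)).2

/-- The `ℤ`-linear action of `σ` on the unit lattice. -/
noncomputable def latMap (σ : K ≃ₐ[ℚ] K) : unitLattice K →ₗ[ℤ] unitLattice K :=
  ((logMap K σ).restrictScalars ℤ).restrict (fun _ hx => logMap_mem_unitLattice K σ hx)

theorem latMap_coe (σ : K ≃ₐ[ℚ] K) (x : unitLattice K) :
    (latMap K σ x : logSpace K) = logMap K σ (x : logSpace K) := rfl

theorem latMap_logLat (σ : K ≃ₐ[ℚ] K) (u : (𝓞 K)ˣ) :
    latMap K σ (logLat K u) = logLat K (unitMap K σ u) := by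
  apply Subtype.ext
  rw [latMap_coe, logLat_coe, logMap_logEmbedding, logLat_coe]

theorem latMap_mul (σ τ : K ≃ₐ[ℚ] K) : latMap K (σ * τ) = latMap K σ ∘ₗ latMap K τ := by
  ext1 x
  obtain ⟨u, rfl⟩ := exists_eq_logLat K x
  rw [LinearMap.comp_apply, latMap_logLat, latMap_logLat, latMap_logLat, unitMap_mul]

theorem latMap_one : latMap K 1 = LinearMap.id := by
  ext1 x
  obtain ⟨u, rfl⟩ := exists_eq_logLat K x
  rw [latMap_logLat, unitMap_one, LinearMap.id_apply]

/-- **Trace of a field automorphism on the unit lattice**: the number of fixed infinite places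
minus one. -/
theorem trace_latMap (σ : K ≃ₐ[ℚ] K) :
    LinearMap.trace ℤ (unitLattice K) (latMap K σ) =
      (Nat.card {w : InfinitePlace K // σ • w = w} : ℤ) - 1 := by
  classical
  have h := trace_restrict_zlattice (unitLattice K) (logMap K σ) (latMap K σ) (fun x => rfl)
  rw [trace_logMap, ← Nat.card_eq_fintype_card] at h
  exact_mod_cast h

section ModP

open TensorProduct

variable (p : ℕ) [Fact p.Prime]

instance instFreeUnitLattice : Module.Free ℤ (unitLattice K) := by
  classical exact inferInstance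

instance instFiniteUnitLattice : Module.Finite ℤ (unitLattice K) := by
  classical exact inferInstance

/-- The action of the automorphism group on the unit lattice modulo `p`. -/
noncomputable def modRep :
    (K ≃ₐ[ℚ] K) →* Module.End (ZMod p) (ZMod p ⊗[ℤ] unitLattice K) where
  toFun σ := (latMap K σ).baseChange (ZMod p)
  map_one' := by
    rw [latMap_one, LinearMap.baseChange_id]
    rfl
  map_mul' σ τ := by
    rw [latMap_mul, LinearMap.baseChange_comp]
    rfl

theorem modRep_apply (σ : K ≃ₐ[ℚ] K) :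
    modRep K p σ = (latMap K σ).baseChange (ZMod p) := rfl

theorem trace_modRep (σ : K ≃ₐ[ℚ] K) :
    LinearMap.trace (ZMod p) (ZMod p ⊗[ℤ] unitLattice K) (modRep K p σ) =
      (Nat.card {w : InfinitePlace K // σ • w = w} : ZMod p) - 1 := by
  rw [modRep_apply, LinearMap.trace_baseChange, trace_latMap]
  simp

theorem finrank_modLat :
    finrank (ZMod p) (ZMod p ⊗[ℤ] unitLattice K) = NumberField.Units.rank K := by
  rw [Module.finrank_baseChange, unitLattice_rank]

/-- The class of a unit in the unit lattice modulo `p`. -/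
noncomputable def unitClass (u : (𝓞 K)ˣ) : ZMod p ⊗[ℤ] unitLattice K :=
  (1 : ZMod p) ⊗ₜ[ℤ] logLat K u

theorem unitClass_mul (u v : (𝓞 K)ˣ) :
    unitClass K p (u * v) = unitClass K p u + unitClass K p v := by
  rw [unitClass, logLat_mul, TensorProduct.tmul_add]
  rfl

theorem unitClass_pow (u : (𝓞 K)ˣ) (n : ℕ) :
    unitClass K p (u ^ n) = (n : ZMod p) • unitClass K p u := by
  rw [unitClass, logLat_pow, TensorProduct.tmul_smul, unitClass, Nat.cast_smul_eq_nsmul]

theorem unitClass_unitMap (σ : K ≃ₐ[ℚ] K) (u : (𝓞 K)ˣ) :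
    unitClass K p (unitMap K σ u) = modRep K p σ (unitClass K p u) := by
  rw [unitClass, unitClass, modRep_apply, LinearMap.baseChange_tmul, latMap_logLat]

theorem unitClass_pow_prime (v : (𝓞 K)ˣ) : unitClass K p (v ^ p) = 0 := by
  rw [unitClass_pow, ZMod.natCast_self, zero_smul]

theorem unitClass_of_mem_torsion {t : (𝓞 K)ˣ} (ht : t ∈ torsion K) : unitClass K p t = 0 := by
  rw [unitClass, (logLat_eq_zero_iff K t).mpr ht, TensorProduct.tmul_zero]

/-- In a finite free `ℤ`-module, `1 ⊗ x = 0` in `ZMod p ⊗ L` forces `x ∈ p L`. -/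
theorem exists_smul_of_tmul_eq_zero {L : Type*} [AddCommGroup L] [Module.Free ℤ L]
    [Module.Finite ℤ L] (x : L) (hx : (1 : ZMod p) ⊗ₜ[ℤ] x = 0) : ∃ y : L, x = p • y := by
  classical
  let b := Module.Free.chooseBasis ℤ L
  have h1 : ∀ i, ((b.repr x i : ℤ) : ZMod p) = 0 := by
    intro i
    have h2 := congrArg (fun z => (Algebra.TensorProduct.basis (ZMod p) b).repr z i) hx
    simpa using h2
  have h3 : ∀ i, ∃ c : ℤ, b.repr x i = p * c := by
    intro i
    exact (ZMod.intCast_zmod_eq_zero_iff_dvd _ p).mp (h1 i)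
  choose c hc using h3
  refine ⟨∑ i, c i • b i, ?_⟩
  conv_lhs => rw [← b.sum_repr x]
  rw [Finset.smul_sum]
  refine Finset.sum_congr rfl fun i _ => ?_
  rw [hc i, mul_smul, Nat.cast_smul_eq_nsmul]

/-- The kernel of `unitClass`: roots of unity times `p`-th powers. -/
theorem unitClass_eq_zero_iff (u : (𝓞 K)ˣ) :
    unitClass K p u = 0 ↔ ∃ t ∈ torsion K, ∃ v : (𝓞 K)ˣ, u = t * v ^ p := by
  constructor
  · intro h
    obtain ⟨y, hy⟩ := exists_smul_of_tmul_eq_zero p (logLat K u) h
    obtain ⟨v, rfl⟩ := exists_eq_logLat K y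
    rw [← logLat_pow] at hy
    refine ⟨u * (v ^ p)⁻¹, ?_, v, by simp⟩
    rw [← logLat_eq_zero_iff]
    have h2 : logLat K (u * (v ^ p)⁻¹) + logLat K (v ^ p) = logLat K u := by
      rw [← logLat_mul]
      simp
    rw [hy] at h2
    exact add_eq_right.mp h2
  · rintro ⟨t, ht, v, rfl⟩
    rw [unitClass_mul, unitClass_of_mem_torsion K p ht, unitClass_pow_prime, add_zero]

end ModP

end Fermat.Agent.Lib.UnitTrace
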