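import Mathlib

/-!
# S14 [KG-b]: unramified `n`-th roots have `n`-th power ideals (helper41)

`exists_ideal_pow_eq_span`: for a Galois extension `L/K` of number fields with trivial inertia
groups at all nonzero primes, if `a ∈ 𝓞 K` is an `n`-th power in `𝓞 L` then `(a) = 𝔞 ^ n` for an
ideal `𝔞` of `𝓞 K`.  Auxiliary general lemmas: `count_normalizedFactors_map` (multiplicity of a
prime in an extended ideal, Dedekind extension) and `exists_pow_eq_of_forall_dvd_count`.
-/

set_option autoImplicit false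

namespace Fermat.Agent.Lib.UnramPow

open scoped NumberField
open UniqueFactorizationMonoid

section Dedekind

variable {A B : Type*} [CommRing A] [CommRing B] [IsDedekindDomain A] [IsDedekindDomain B]
  [Algebra A B] [Module.IsTorsionFree A B]

/-- In an extension of Dedekind domains: the multiplicity of a prime `Q` of `B` in `I B` is
`e(Q | P)` times the multiplicity of `P = Q ∩ A` in `I`. -/
theorem count_normalizedFactors_map (I : Ideal A) (hI : I ≠ ⊥) (P : Ideal A) [hP : P.IsPrime]
    (hP0 : P ≠ ⊥) (Q : Ideal B) [Q.IsPrime] [hQP : Q.LiesOver P] :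
    (normalizedFactors (I.map (algebraMap A B))).count Q =
      Q.ramificationIdx A * (normalizedFactors I).count P := by
  classical
  have hPmax : P.IsMaximal := hP.isMaximal hP0
  obtain ⟨J, hPJ, hIJ⟩ := Ideal.eq_prime_pow_mul_coprime hI P
  have hinj : Function.Injective (algebraMap A B) := FaithfulSMul.algebraMap_injective A B
  have hmapP0 : P.map (algebraMap A B) ≠ ⊥ := Ideal.map_ne_bot_of_ne_bot hP0
  have hJ0 : J ≠ ⊥ := by
    rintro rfl
    rw [Ideal.mul_bot] at hIJ
    exact hI hIJ
  have hmapJ0 : J.map (algebraMap A B) ≠ ⊥ := Ideal.map_ne_bot_of_ne_bot hJ0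
  have hpow0 : (P.map (algebraMap A B)) ^ ((normalizedFactors I).count P) ≠ ⊥ :=
    pow_ne_zero _ hmapP0
  have hcountJ : (normalizedFactors (J.map (algebraMap A B))).count Q = 0 := by
    rw [Multiset.count_eq_zero]
    intro hmem
    have hdvd : Q ∣ J.map (algebraMap A B) := dvd_of_mem_normalizedFactors hmem
    have hle : J.map (algebraMap A B) ≤ Q := Ideal.le_of_dvd hdvd
    have hJP : J ≤ P := by
      rw [Ideal.map_le_iff_le_comap] at hle
      rw [hQP.over]
      exact hle
    have : P ⊔ J = P := sup_eq_left.mpr hJP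
    rw [this] at hPJ
    exact hP.ne_top hPJ
  have hcountP : (normalizedFactors (P.map (algebraMap A B))).count Q = Q.ramificationIdx A :=
    (Ideal.IsDedekindDomain.ramificationIdx_eq_normalizedFactors_count P Q hmapP0).symm
  conv_lhs => rw [hIJ]
  rw [Ideal.map_mul, Ideal.map_pow, normalizedFactors_mul hpow0 hmapJ0, Multiset.count_add,
    normalizedFactors_pow, Multiset.count_nsmul, hcountJ, hcountP, add_zero, mul_comm]

end Dedekind

section DedekindPow

variable {A : Type*} [CommRing A] [IsDedekindDomain A]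

/-- An ideal all of whose prime multiplicities are divisible by `n` is an `n`-th power. -/
theorem exists_pow_eq_of_forall_dvd_count (I : Ideal A) (hI : I ≠ ⊥) (n : ℕ)
    (h : ∀ P ∈ normalizedFactors I, n ∣ (normalizedFactors I).count P) :
    ∃ J : Ideal A, I = J ^ n := by
  classical
  refine ⟨∏ P ∈ (normalizedFactors I).toFinset, P ^ ((normalizedFactors I).count P / n), ?_⟩
  rw [← Finset.prod_pow]
  conv_lhs => rw [← Ideal.prod_normalizedFactors_eq_self hI, Finset.prod_multiset_count]
  refine Finset.prod_congr rfl fun P hP => ?_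
  rw [← pow_mul, Nat.div_mul_cancel (h P (Multiset.mem_toFinset.mp hP))]

end DedekindPow

section NumberField

variable (K L : Type*) [Field K] [Field L] [NumberField K] [NumberField L] [Algebra K L]

/-- trivial inertia group ⇒ ramification index one -/
theorem ramificationIdx_eq_one_of_inertia_eq_bot [IsGalois K L] (Q : Ideal (𝓞 L)) [hQ : Q.IsPrime]
    (h : Q.inertia (L ≃ₐ[K] L) = ⊥) : Q.ramificationIdx (𝓞 K) = 1 := by
  have h1 : Nat.card (Q.inertia (L ≃ₐ[K] L)) = (Q.under (𝓞 K)).ramificationIdxIn (𝓞 L) :=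
    Ideal.card_inertia_eq_ramificationIdxIn (Q.under (𝓞 K)) Q
  have h2 : (Q.under (𝓞 K)).ramificationIdxIn (𝓞 L) = Q.ramificationIdx (𝓞 K) :=
    Ideal.ramificationIdxIn_eq_ramificationIdx (Q.under (𝓞 K)) Q (L ≃ₐ[K] L)
  rw [← h2, ← h1, h]
  simp

/-- **[KG-b].** If `L/K` is a Galois extension of number fields with trivial inertia groups at
all nonzero primes, and `a ∈ 𝓞 K` is an `n`-th power in `𝓞 L`, then the ideal `(a)` is an
`n`-th power of an ideal of `𝓞 K`. -/
theorem exists_ideal_pow_eq_span [IsGalois K L]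
    (hunr : ∀ Q : Ideal (𝓞 L), Q.IsPrime → Q ≠ ⊥ → Q.inertia (L ≃ₐ[K] L) = ⊥)
    (n : ℕ) (hn : 0 < n) (a : 𝓞 K) (ha : a ≠ 0) (θ : 𝓞 L)
    (hθ : θ ^ n = algebraMap (𝓞 K) (𝓞 L) a) : ∃ 𝔞 : Ideal (𝓞 K), Ideal.span {a} = 𝔞 ^ n := by
  classical
  have _ := hn
  have hI : Ideal.span {a} ≠ ⊥ := by
    simpa [Ideal.span_singleton_eq_bot] using ha
  refine exists_pow_eq_of_forall_dvd_count (Ideal.span {a}) hI n fun P hP => ?_
  have hPprime : Prime P := prime_of_normalized_factor P hP
  have hP0 : P ≠ ⊥ := hPprime.ne_zero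
  have hPp : P.IsPrime := Ideal.isPrime_of_prime hPprime
  -- a prime `Q` of `𝓞 L` over `P`
  obtain ⟨⟨Q, hQp, hQP⟩⟩ := P.nonempty_primesOver (S := 𝓞 L)
  have hQ0 : Q ≠ ⊥ := Ideal.ne_bot_of_liesOver_of_ne_bot hP0 Q
  have he : Q.ramificationIdx (𝓞 K) = 1 :=
    ramificationIdx_eq_one_of_inertia_eq_bot K L Q (hunr Q hQp hQ0)
  have hcount := count_normalizedFactors_map (Ideal.span {a}) hI P hP0 Q
  rw [he, one_mul] at hcount
  have hmap : (Ideal.span {a}).map (algebraMap (𝓞 K) (𝓞 L)) = (Ideal.span {θ}) ^ n := by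
    rw [Ideal.map_span, Set.image_singleton, ← hθ, Ideal.span_singleton_pow]
  rw [hmap, normalizedFactors_pow, Multiset.count_nsmul] at hcount
  exact ⟨_, hcount.symm⟩

end NumberField

end Fermat.Agent.Lib.UnramPow
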