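import Mathlib
import Fermat.Prelude.Def_FLTPrelim_Ramification

set_option autoImplicit false

open scoped NumberField Pointwise
open Polynomial

namespace Fermat.Agent.Lib.UnramTrivial

section Loc

variable {L : Type*} [Field L]

/-- The localisation of the ring of all algebraic integers of `L` at a prime `Q`, as a subset
of `L`: fractions `a / b` with `a, b` integral and `b ∉ Q`. -/
def locCarrier (Q : Ideal (𝓞 L)) : Set L :=
  {x | ∃ a b : 𝓞 L, b ∉ Q ∧ x * (algebraMap (𝓞 L) L b) = (algebraMap (𝓞 L) L a)}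

theorem coe_mem_locCarrier (Q : Ideal (𝓞 L)) [Q.IsPrime] (a : 𝓞 L) : (algebraMap (𝓞 L) L a) ∈ locCarrier Q :=
  ⟨a, 1, fun h => Ideal.IsPrime.ne_top' ((Ideal.eq_top_iff_one Q).mpr h), by simp⟩

theorem coe_ne_zero_of_not_mem (Q : Ideal (𝓞 L)) {b : 𝓞 L} (hb : b ∉ Q) : (algebraMap (𝓞 L) L b) ≠ 0 := by
  intro h
  apply hb
  have : b = 0 := NumberField.RingOfIntegers.coe_injective (by simpa using h)
  rw [this]
  exact Q.zero_mem

/-- Key step: a root `x` of a polynomial with integral coefficients, not all in `Q`, satisfies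
`x ∈ B_Q` or `x⁻¹ ∈ B_Q`. -/
theorem mem_or_inv_mem_aux (Q : Ideal (𝓞 L)) [Q.IsPrime] (x : L) (n : ℕ) :
    ∀ g : (𝓞 L)[X], g.natDegree ≤ n → aeval x g = 0 → (∃ i, g.coeff i ∉ Q) →
      x ∈ locCarrier Q ∨ x⁻¹ ∈ locCarrier Q := by
  induction n with
  | zero =>
    intro g hg hx ⟨i, hi⟩
    exfalso
    have hg0 : g.natDegree = 0 := Nat.le_zero.mp hg
    rw [Polynomial.eq_C_of_natDegree_eq_zero hg0] at hx hi
    rw [aeval_C] at hx
    have h0 : g.coeff 0 = 0 := NumberField.RingOfIntegers.coe_injective (by simpa using hx)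
    rw [h0] at hi
    apply hi
    simp
  | succ n ih =>
    intro g hg hx ⟨i, hi⟩
    by_cases hdeg : g.natDegree = 0
    · exfalso
      rw [Polynomial.eq_C_of_natDegree_eq_zero hdeg] at hx hi
      rw [aeval_C] at hx
      have h0 : g.coeff 0 = 0 := NumberField.RingOfIntegers.coe_injective (by simpa using hx)
      rw [h0] at hi
      apply hi
      simp
    set c : 𝓞 L := g.leadingCoeff with hc
    have hint : IsIntegral ℤ (c • x) := isIntegral_trans _ (isIntegral_leadingCoeff_smul g x hx)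
    have hmem : c • x ∈ integralClosure ℤ L := hint
    set y : 𝓞 L := ⟨c • x, hmem⟩ with hy
    have hyx : (algebraMap (𝓞 L) L y) = (algebraMap (𝓞 L) L c) * x :=
      (NumberField.RingOfIntegers.map_mk (c • x) hmem).trans (Algebra.smul_def c x)
    by_cases hcQ : c ∈ Q
    · by_cases hyQ : y ∈ Q
      · -- reduce the degree
        set g₁ : (𝓞 L)[X] := g.eraseLead + C y * X ^ (g.natDegree - 1) with hg₁
        have hdeg₁ : g₁.natDegree ≤ n := by
          have h1 : g.eraseLead.natDegree ≤ g.natDegree - 1 := eraseLead_natDegree_le g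
          have h2 : (C y * X ^ (g.natDegree - 1)).natDegree ≤ g.natDegree - 1 :=
            natDegree_C_mul_X_pow_le y _
          have h3 : g₁.natDegree ≤ g.natDegree - 1 := natDegree_add_le_of_degree_le h1 h2
          omega
        have hx₁ : aeval x g₁ = 0 := by
          have h1 : aeval x g.eraseLead = - ((algebraMap (𝓞 L) L c) * x ^ g.natDegree) := by
            have h2 := congrArg (aeval x) (eraseLead_add_C_mul_X_pow g)
            rw [map_add, hx] at h2
            simp only [map_mul, aeval_C, map_pow, aeval_X] at h2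
            rw [← hc] at h2
            linear_combination h2
          rw [hg₁, map_add, h1]
          simp only [map_mul, aeval_C, map_pow, aeval_X]
          rw [show algebraMap (𝓞 L) L y = (algebraMap (𝓞 L) L c) * x from hyx]
          have h3 : x ^ g.natDegree = x * x ^ (g.natDegree - 1) := by
            rw [← pow_succ']
            congr 1
            omega
          rw [h3]
          ring
        have hcoeff : ∃ j, g₁.coeff j ∉ Q := by
          have hi_ne : i ≠ g.natDegree := by
            intro h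
            apply hi
            rw [h]
            exact hcQ
          refine ⟨i, ?_⟩
          rw [hg₁, coeff_add, eraseLead_coeff_of_ne i hi_ne, coeff_C_mul_X_pow]
          split_ifs with h
          · intro hmem
            exact hi ((Ideal.add_mem_iff_left Q hyQ).mp hmem)
          · simpa using hi
        exact ih g₁ hdeg₁ hx₁ hcoeff
      · -- `x⁻¹ = c / y`
        right
        refine ⟨c, y, hyQ, ?_⟩
        have hy0 : (algebraMap (𝓞 L) L y) ≠ 0 := coe_ne_zero_of_not_mem Q hyQ
        have hx0 : x ≠ 0 := by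
          intro h
          rw [hyx, h, mul_zero] at hy0
          exact hy0 rfl
        rw [hyx]
        field_simp
    · -- `x = y / c`
      left
      exact ⟨y, c, hcQ, by rw [hyx]; ring⟩


/-- Every element of an algebraic extension of `ℚ` is a root of a polynomial with integral
coefficients, not all of which lie in the prime `Q`. -/
theorem exists_poly (Q : Ideal (𝓞 L)) [Q.IsPrime] [Algebra ℚ L] [Algebra.IsAlgebraic ℚ L]
    (x : L) : ∃ g : (𝓞 L)[X], aeval x g = 0 ∧ ∃ i, g.coeff i ∉ Q := by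
  have halg : IsAlgebraic ℤ x :=
    (IsFractionRing.isAlgebraic_iff ℤ ℚ L).mpr (Algebra.IsAlgebraic.isAlgebraic x)
  obtain ⟨f, hf0, hfx⟩ := halg
  have hprim : f.primPart.IsPrimitive := isPrimitive_primPart f
  have hx' : aeval x f.primPart = 0 := by
    have h1 : aeval x f = aeval x (C f.content * f.primPart) := by
      rw [← eq_C_content_mul_primPart]
    rw [hfx, map_mul, aeval_C] at h1
    have hc : (algebraMap ℤ L) f.content ≠ 0 := by
      have h0 : f.content ≠ 0 := fun h => hf0 (content_eq_zero_iff.mp h)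
      have : CharZero L := algebraRat.charZero L
      rw [eq_intCast]
      exact Int.cast_ne_zero.mpr h0
    exact (mul_eq_zero.mp h1.symm).resolve_left hc
  refine ⟨f.primPart.map (algebraMap ℤ (𝓞 L)), ?_, ?_⟩
  · rw [aeval_map_algebraMap]
    exact hx'
  · by_contra hall
    push Not at hall
    -- all coefficients lie in the prime `Q ∩ ℤ`
    set 𝔭 : Ideal ℤ := Q.comap (algebraMap ℤ (𝓞 L)) with h𝔭
    have h𝔭top : 𝔭 ≠ ⊤ := (Ideal.comap_isPrime (algebraMap ℤ (𝓞 L)) Q).ne_top
    have hcoeff : ∀ i, f.primPart.coeff i ∈ 𝔭 := by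
      intro i
      have := hall i
      rw [coeff_map] at this
      exact this
    obtain ⟨d, hd⟩ : ∃ d : ℤ, 𝔭 = Ideal.span {d} :=
      ⟨_, (Ideal.span_singleton_generator 𝔭).symm⟩
    have hdvd : C d ∣ f.primPart := by
      rw [C_dvd_iff_dvd_coeff]
      intro i
      have := hcoeff i
      rw [hd, Ideal.mem_span_singleton] at this
      exact this
    have hunit : IsUnit d := hprim d hdvd
    apply h𝔭top
    rw [hd]
    exact Ideal.span_singleton_eq_top.mpr hunit

theorem mem_or_inv_mem (Q : Ideal (𝓞 L)) [Q.IsPrime] [Algebra ℚ L] [Algebra.IsAlgebraic ℚ L]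
    (x : L) : x ∈ locCarrier Q ∨ x⁻¹ ∈ locCarrier Q := by
  obtain ⟨g, hg, hi⟩ := exists_poly Q x
  exact mem_or_inv_mem_aux Q x g.natDegree g le_rfl hg hi

/-- `B_Q` as a subring of `L`. -/
def locSubring (Q : Ideal (𝓞 L)) [Q.IsPrime] : Subring L where
  carrier := locCarrier Q
  mul_mem' := by
    rintro x y ⟨a, b, hb, hab⟩ ⟨a', b', hb', hab'⟩
    refine ⟨a * a', b * b', fun h => ?_, ?_⟩
    · rcases Ideal.IsPrime.mem_or_mem ‹Q.IsPrime› h with h | h
      · exact hb h
      · exact hb' h
    · rw [map_mul, map_mul]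
      linear_combination (y * (algebraMap (𝓞 L) L b')) * hab + (algebraMap (𝓞 L) L a) * hab'
  one_mem' := by
    have := coe_mem_locCarrier Q (1 : 𝓞 L)
    simpa using this
  add_mem' := by
    rintro x y ⟨a, b, hb, hab⟩ ⟨a', b', hb', hab'⟩
    refine ⟨a * b' + a' * b, b * b', fun h => ?_, ?_⟩
    · rcases Ideal.IsPrime.mem_or_mem ‹Q.IsPrime› h with h | h
      · exact hb h
      · exact hb' h
    · rw [map_mul, map_add, map_mul, map_mul]
      linear_combination (algebraMap (𝓞 L) L b') * hab + (algebraMap (𝓞 L) L b) * hab'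
  zero_mem' := by
    have := coe_mem_locCarrier Q (0 : 𝓞 L)
    simpa using this
  neg_mem' := by
    rintro x ⟨a, b, hb, hab⟩
    refine ⟨-a, b, hb, ?_⟩
    rw [map_neg]
    linear_combination -hab

/-- `B_Q` as a valuation subring of `L` (for `L` algebraic over `ℚ`). -/
def locValuationSubring (Q : Ideal (𝓞 L)) [Q.IsPrime] [Algebra ℚ L] [Algebra.IsAlgebraic ℚ L] :
    ValuationSubring L :=
  { locSubring Q with
    mem_or_inv_mem' := mem_or_inv_mem Q }

theorem mem_locValuationSubring_iff (Q : Ideal (𝓞 L)) [Q.IsPrime] [Algebra ℚ L]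
    [Algebra.IsAlgebraic ℚ L] (x : L) :
    x ∈ locValuationSubring Q ↔ ∃ a b : 𝓞 L, b ∉ Q ∧ x * (algebraMap (𝓞 L) L b) = (algebraMap (𝓞 L) L a) := Iff.rfl

/-- A fraction `n / d` with `n ∈ Q`, `d ∉ Q` is a non-unit of `B_Q`. -/
theorem mem_nonunits_of (Q : Ideal (𝓞 L)) [Q.IsPrime] [Algebra ℚ L] [Algebra.IsAlgebraic ℚ L]
    {x : L} {n d : 𝓞 L} (hn : n ∈ Q) (hd : d ∉ Q) (hx : x * (algebraMap (𝓞 L) L d) = (algebraMap (𝓞 L) L n)) :
    x ∈ (locValuationSubring Q).nonunits := by
  rw [ValuationSubring.mem_nonunits_iff_or]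
  by_cases hx0 : x = 0
  · exact Or.inl hx0
  right
  rintro ⟨a', b', hb', hab'⟩
  -- `x⁻¹ * b' = a'`, so `d * b' = a' * n ∈ Q`
  have hd0 : (algebraMap (𝓞 L) L d) ≠ 0 := coe_ne_zero_of_not_mem Q hd
  have h1 : algebraMap (𝓞 L) L (d * b') = algebraMap (𝓞 L) L (a' * n) := by
    rw [map_mul, map_mul, ← hx, ← hab']
    field_simp
  have h2 : d * b' = a' * n := NumberField.RingOfIntegers.coe_injective h1
  have h3 : d * b' ∈ Q := by
    rw [h2]
    exact Ideal.mul_mem_left Q a' hn
  rcases Ideal.IsPrime.mem_or_mem ‹Q.IsPrime› h3 with h | h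
  · exact hd h
  · exact hb' h

theorem natCast_mem_nonunits (Q : Ideal (𝓞 L)) [Q.IsPrime] [Algebra ℚ L]
    [Algebra.IsAlgebraic ℚ L] (p : ℕ) (hp : (p : 𝓞 L) ∈ Q) :
    (p : L) ∈ (locValuationSubring Q).nonunits := by
  refine mem_nonunits_of Q (n := (p : 𝓞 L)) (d := 1) hp
    (fun h => Ideal.IsPrime.ne_top' ((Ideal.eq_top_iff_one Q).mpr h)) ?_
  simp

end Loc

section Inertia

/-- Membership in the Prelude inertia group from the elementwise description. -/
theorem mem_inertiaSubgroupIn_of {K L : Type*} [Field K] [Field L] [Algebra K L]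
    (A : ValuationSubring L) (σ : L ≃ₐ[K] L) (hσ : σ ∈ A.decompositionSubgroup K)
    (h : ∀ x ∈ A, σ x - x ∈ A.nonunits) : σ ∈ A.inertiaSubgroupIn K := by
  refine ⟨⟨σ, hσ⟩, ?_, rfl⟩
  show MulSemiringAction.toRingAut (A.decompositionSubgroup K)
      (IsLocalRing.ResidueField A) ⟨σ, hσ⟩ = 1
  ext r
  obtain ⟨a, rfl⟩ := IsLocalRing.residue_surjective r
  show (⟨σ, hσ⟩ : A.decompositionSubgroup K) • IsLocalRing.residue A a = IsLocalRing.residue A a
  rw [← IsLocalRing.ResidueField.residue_smul]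
  have h1 : ((⟨σ, hσ⟩ : A.decompositionSubgroup K) • a - a : A) ∈ IsLocalRing.maximalIdeal A := by
    rw [← ValuationSubring.coe_mem_nonunits_iff]
    exact h a a.2
  exact (Ideal.Quotient.eq).mpr h1

variable {L : Type*} [Field L] [Algebra ℚ L] [Algebra.IsAlgebraic ℚ L]

/-- An automorphism acting trivially on `B / Q` lies in the inertia group of the valuation
ring `B_Q`. -/
theorem mem_inertiaSubgroupIn_loc (Q : Ideal (𝓞 L)) [Q.IsPrime] (g : L ≃ₐ[ℚ] L)
    (hg : ∀ b : 𝓞 L, g • b - b ∈ Q) :
    g ∈ (locValuationSubring Q).inertiaSubgroupIn ℚ := by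
  -- `g` and `g⁻¹` preserve the complement of `Q`
  have hnot : ∀ b : 𝓞 L, b ∉ Q → g • b ∉ Q := by
    intro b hb hgb
    apply hb
    have := Q.sub_mem hgb (hg b)
    simpa using this
  have hg' : ∀ b : 𝓞 L, g⁻¹ • b - b ∈ Q := by
    intro b
    have h1 := hg (g⁻¹ • b)
    rw [smul_inv_smul] at h1
    have := Q.neg_mem h1
    simpa using this
  have hnot' : ∀ b : 𝓞 L, b ∉ Q → g⁻¹ • b ∉ Q := by
    intro b hb hgb
    apply hb
    have := Q.sub_mem hgb (hg' b)
    simpa using this
  have hmap : ∀ x ∈ locValuationSubring Q, g x ∈ locValuationSubring Q := by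
    rintro x ⟨a, b, hb, hab⟩
    refine ⟨g • a, g • b, hnot b hb, ?_⟩
    show g x * g (algebraMap (𝓞 L) L b) = g (algebraMap (𝓞 L) L a)
    rw [← map_mul, hab]
  have hmap' : ∀ x ∈ locValuationSubring Q, g⁻¹ x ∈ locValuationSubring Q := by
    rintro x ⟨a, b, hb, hab⟩
    refine ⟨g⁻¹ • a, g⁻¹ • b, hnot' b hb, ?_⟩
    show g⁻¹ x * g⁻¹ (algebraMap (𝓞 L) L b) = g⁻¹ (algebraMap (𝓞 L) L a)
    rw [← map_mul, hab]
  have hdec : g ∈ (locValuationSubring Q).decompositionSubgroup ℚ := by
    show g • locValuationSubring Q = locValuationSubring Q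
    ext x
    rw [ValuationSubring.mem_smul_pointwise_iff_exists]
    constructor
    · rintro ⟨s, hs, rfl⟩
      exact hmap s hs
    · intro hx
      refine ⟨g⁻¹ x, hmap' x hx, ?_⟩
      show g (g⁻¹ x) = x
      exact g.apply_symm_apply x
  refine mem_inertiaSubgroupIn_of _ g hdec ?_
  rintro x ⟨a, b, hb, hab⟩
  -- `g x - x = ((g a - a) b - a (g b - b)) / (b · g b)`
  refine mem_nonunits_of Q (n := (g • a - a) * b - a * (g • b - b)) (d := b * g • b) ?_ ?_ ?_
  · exact Q.sub_mem (Ideal.mul_mem_right _ Q (hg a)) (Ideal.mul_mem_left Q _ (hg b))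
  · intro h
    rcases Ideal.IsPrime.mem_or_mem ‹Q.IsPrime› h with h | h
    · exact hb h
    · exact hnot b hb h
  · have hga : g x * g (algebraMap (𝓞 L) L b) = g (algebraMap (𝓞 L) L a) := by rw [← map_mul, hab]
    have e1 : algebraMap (𝓞 L) L (g • a) = g (algebraMap (𝓞 L) L a) := rfl
    have e2 : algebraMap (𝓞 L) L (g • b) = g (algebraMap (𝓞 L) L b) := rfl
    simp only [map_mul, map_sub]
    rw [e1, e2]
    linear_combination (algebraMap (𝓞 L) L b) * hga - g (algebraMap (𝓞 L) L b) * hab

end Inertia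

section Center

variable {L : Type*} [Field L]

/-- Every algebraic integer lies in every valuation subring. -/
theorem coe_mem_valuationSubring (A : ValuationSubring L) (b : 𝓞 L) :
    algebraMap (𝓞 L) L b ∈ A := by
  have h1 : IsIntegral ℤ (algebraMap (𝓞 L) L b) := b.2
  have h2 : IsIntegral A (algebraMap (𝓞 L) L b) := h1.tower_top
  obtain ⟨y, hy⟩ := (IsIntegrallyClosed.isIntegral_iff (R := A) (K := L)).mp h2
  rw [← hy]
  exact y.2

/-- The inclusion of the ring of all algebraic integers into a valuation subring. -/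
def toValuationSubring (A : ValuationSubring L) : 𝓞 L →+* A :=
  (algebraMap (𝓞 L) L).codRestrict A.toSubring (coe_mem_valuationSubring A)

/-- The centre of a valuation subring on the ring of all algebraic integers. -/
def center (A : ValuationSubring L) : Ideal (𝓞 L) :=
  Ideal.comap (toValuationSubring A) (IsLocalRing.maximalIdeal A)

instance center_isPrime (A : ValuationSubring L) : (center A).IsPrime := by
  unfold center
  infer_instance

theorem mem_center_iff (A : ValuationSubring L) (b : 𝓞 L) :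
    b ∈ center A ↔ algebraMap (𝓞 L) L b ∈ A.nonunits := by
  unfold center
  rw [Ideal.mem_comap, ← ValuationSubring.coe_mem_nonunits_iff]
  rfl

theorem natCast_mem_center (A : ValuationSubring L) (p : ℕ) (hp : A.LiesOverPrime p) :
    (p : 𝓞 L) ∈ center A := by
  rw [mem_center_iff, map_natCast]
  exact hp

variable [Algebra ℚ L] [Algebra.IsAlgebraic ℚ L]

/-- A valuation subring of an algebraic extension of `ℚ` is the localisation of the ring of
algebraic integers at its centre. -/
theorem locValuationSubring_center (A : ValuationSubring L) :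
    locValuationSubring (center A) = A := by
  have key : ∀ x : L, x ∈ locValuationSubring (center A) → x ∈ A := by
    rintro x ⟨a, b, hb, hab⟩
    rw [mem_center_iff, ValuationSubring.mem_nonunits_iff_or, not_or, not_not] at hb
    have hx : x = algebraMap (𝓞 L) L a * (algebraMap (𝓞 L) L b)⁻¹ := by
      rw [← hab, mul_assoc, mul_inv_cancel₀ hb.1, mul_one]
    rw [hx]
    exact A.mul_mem _ _ (coe_mem_valuationSubring A a) hb.2
  ext x
  refine ⟨key x, fun hx => ?_⟩
  rcases (locValuationSubring (center A)).mem_or_inv_mem x with h | h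
  · exact h
  · by_cases hx0 : x = 0
    · rw [hx0]
      exact (locValuationSubring (center A)).zero_mem
    obtain ⟨a, b, hb, hab⟩ := h
    -- `x⁻¹ * b = a`, so `x * a = b`
    have hxa : x * algebraMap (𝓞 L) L a = algebraMap (𝓞 L) L b := by
      rw [← hab, ← mul_assoc, mul_inv_cancel₀ hx0, one_mul]
    refine ⟨b, a, fun ha => hb ?_, hxa⟩
    rw [mem_center_iff] at ha ⊢
    rw [← hxa]
    rw [ValuationSubring.mem_nonunits_iff] at ha ⊢
    rw [map_mul]
    have hx1 : A.valuation x ≤ 1 := (A.valuation_le_one_iff x).mpr hx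
    calc A.valuation x * A.valuation (algebraMap (𝓞 L) L a)
        ≤ 1 * A.valuation (algebraMap (𝓞 L) L a) := mul_le_mul_left hx1 _
      _ = A.valuation (algebraMap (𝓞 L) L a) := one_mul _
      _ < 1 := ha

/-- An automorphism acting trivially on the algebraic integers modulo the centre of `A` lies in
the inertia group of `A`. -/
theorem mem_inertiaSubgroupIn_center (A : ValuationSubring L) (g : L ≃ₐ[ℚ] L)
    (hg : ∀ b : 𝓞 L, g • b - b ∈ center A) : g ∈ A.inertiaSubgroupIn ℚ := by
  have h := mem_inertiaSubgroupIn_loc (center A) g hg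
  rwa [locValuationSubring_center A] at h

end Center

section Lift

open MulAction

variable {G : Type*} [Group G] [TopologicalSpace G] [CompactSpace G] [TotallyDisconnectedSpace G]
  [IsTopologicalGroup G] {B : Type*} [CommRing B] [TopologicalSpace B] [DiscreteTopology B]
  [MulSemiringAction G B] [ContinuousSMul G B]

/-- **Lifting inertia**: let `H` be a closed normal subgroup of a profinite group `G` acting
continuously on a (discrete) ring `B`, with ring of `H`-invariants `A`.  If `τ ∈ G` acts trivially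
on `A` modulo the prime `Q` of `B`, then some element of the coset `H τ` acts trivially on all
of `B` modulo `Q`. -/
theorem exists_mul_mem_inertia (H : Subgroup G) [hN : H.Normal] (hH : IsClosed (H : Set G))
    {A : Type*} [CommRing A] [Algebra A B] [SMulCommClass H A B] [Algebra.IsInvariant A B H]
    (Q : Ideal B) [Q.IsPrime] (τ : G)
    (hτ : ∀ a : A, τ • algebraMap A B a - algebraMap A B a ∈ Q) :
    ∃ h ∈ H, ∀ b : B, (h * τ) • b - b ∈ Q := by
  have : CompactSpace H := isCompact_iff_compactSpace.mp hH.isCompact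
  -- elements of `H` fix the image of `A`
  have hfix : ∀ (h : G), h ∈ H → ∀ a : A, h • algebraMap A B a = algebraMap A B a := by
    intro h hh a
    exact smul_algebraMap (⟨h, hh⟩ : H) a
  -- the image of `A` is stable under `G`
  have hstab : ∀ (ρ : G) (a : A), ∃ a' : A, algebraMap A B a' = ρ • algebraMap A B a := by
    intro ρ a
    apply Algebra.IsInvariant.isInvariant (A := A) (G := H)
    intro h
    have hn : ρ⁻¹ * (h : G) * ρ ∈ H := by
      have := hN.conj_mem (h : G) h.2 ρ⁻¹
      simpa using this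
    have h2 := hfix _ hn a
    show (h : G) • ρ • algebraMap A B a = ρ • algebraMap A B a
    calc (h : G) • ρ • algebraMap A B a
        = ρ • (ρ⁻¹ * (h : G) * ρ) • algebraMap A B a := by
          simp only [mul_smul, smul_inv_smul]
      _ = ρ • algebraMap A B a := by rw [h2]
  -- `τ⁻¹` also acts trivially on `A` modulo `Q`
  have hτ' : ∀ a : A, τ⁻¹ • algebraMap A B a - algebraMap A B a ∈ Q := by
    intro a
    obtain ⟨a', ha'⟩ := hstab τ⁻¹ a
    have h1 := hτ a'
    rw [ha', smul_inv_smul] at h1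
    have := Q.neg_mem h1
    simpa using this
  -- `τ • Q` and `Q` have the same contraction to `A`
  have hunder : (τ • Q).under A = Q.under A := by
    ext a
    rw [Ideal.under_def, Ideal.under_def, Ideal.mem_comap, Ideal.mem_comap,
      Ideal.mem_pointwise_smul_iff_inv_smul_mem]
    constructor
    · intro h
      have := Q.sub_mem h (hτ' a)
      simpa using this
    · intro h
      have := Q.add_mem (hτ' a) h
      simpa using this
  obtain ⟨h₁, hh₁⟩ := Algebra.IsInvariant.exists_smul_of_under_eq_of_profinite (A := A)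
    (G := H) (τ • Q) Q hunder
  -- `g₁ := h₁ τ` stabilises `Q`
  set g₁ : G := (h₁ : G) * τ with hg₁
  have hg₁Q : g₁ • Q = Q := by
    rw [hg₁, mul_smul]
    exact hh₁.symm
  have hg₁A : ∀ a : A, g₁ • algebraMap A B a - algebraMap A B a ∈ Q := by
    intro a
    obtain ⟨a', ha'⟩ := hstab τ a
    rw [hg₁, mul_smul, ← ha', hfix _ h₁.2 a', ha']
    exact hτ a
  -- the automorphism of `B / Q` induced by `g₁`, which is `A / P`-linear
  let e : (B ⧸ Q) ≃+* (B ⧸ Q) := Ideal.quotientEquiv Q Q (MulSemiringAction.toRingEquiv G B g₁)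
    (by
      conv_lhs => rw [← hg₁Q]
      rfl)
  have he : ∀ b : B, e (Ideal.Quotient.mk Q b) = Ideal.Quotient.mk Q (g₁ • b) := fun b => rfl
  let φ : (B ⧸ Q) ≃ₐ[A ⧸ Q.under A] (B ⧸ Q) := AlgEquiv.ofRingEquiv (f := e) (by
    intro x
    obtain ⟨a, rfl⟩ := Ideal.Quotient.mk_surjective x
    rw [Ideal.Quotient.algebraMap_mk_of_liesOver, he]
    exact (Ideal.Quotient.eq).mpr (hg₁A a))
  obtain ⟨h₂, hh₂⟩ := Ideal.Quotient.stabilizerHom_surjective_of_profinite (G := H)
    (Q.under A) Q φ
  have key : ∀ b : B, g₁ • b - (h₂ : H) • b ∈ Q := by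
    intro b
    have h1 : Ideal.Quotient.stabilizerHom Q (Q.under A) H h₂ (Ideal.Quotient.mk Q b)
        = φ (Ideal.Quotient.mk Q b) := by rw [hh₂]
    rw [Ideal.Quotient.stabilizerHom_apply] at h1
    have h2 : φ (Ideal.Quotient.mk Q b) = Ideal.Quotient.mk Q (g₁ • b) := rfl
    rw [h2] at h1
    exact (Ideal.Quotient.eq).mp h1.symm
  obtain ⟨k, hkH, hkQ, hkey⟩ : ∃ k : G, k ∈ H ∧ k • Q = Q ∧ ∀ b : B, g₁ • b - k • b ∈ Q :=
    ⟨((h₂ : H) : G), (h₂ : H).2, h₂.2, key⟩
  refine ⟨k⁻¹ * (h₁ : G), H.mul_mem (H.inv_mem hkH) h₁.2, fun b => ?_⟩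
  have h5 : k⁻¹ • Q = Q := by
    rw [inv_smul_eq_iff]
    exact hkQ.symm
  have h3 : k⁻¹ • (g₁ • b - k • b) ∈ Q := by
    have h4 := Ideal.smul_mem_pointwise_smul k⁻¹ _ Q (hkey b)
    rwa [h5] at h4
  have h6 : k⁻¹ • (g₁ • b - k • b) = (k⁻¹ * (h₁ : G) * τ) • b - b := by
    rw [smul_sub, inv_smul_smul, hg₁, mul_smul, mul_smul, mul_smul]
  rwa [h6] at h3

end Lift

section Main

open MulAction

variable {L : Type*} [Field L] [Algebra ℚ L] [IsGalois ℚ L]

/-- The Galois action on the ring of all algebraic integers of `L` is continuous for the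
discrete topology. -/
theorem continuousSMul_ringOfIntegers [TopologicalSpace (𝓞 L)] [DiscreteTopology (𝓞 L)] :
    ContinuousSMul (L ≃ₐ[ℚ] L) (𝓞 L) := by
  rw [continuousSMul_iff_stabilizer_isOpen]
  intro b
  have h : (stabilizer (L ≃ₐ[ℚ] L) b : Set (L ≃ₐ[ℚ] L))
      = stabilizer (L ≃ₐ[ℚ] L) (algebraMap (𝓞 L) L b) := by
    ext g
    simp only [SetLike.mem_coe, mem_stabilizer_iff]
    constructor
    · intro hg
      have := congrArg (algebraMap (𝓞 L) L) hg
      exact this
    · intro hg
      exact NumberField.RingOfIntegers.coe_injective hg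
  rw [h]
  exact stabilizer_isOpen_of_isIntegral (K := ℚ) (L := L) _

/-- **Core of the Minkowski glue.**  A Galois number field `K ≠ ℚ` inside a Galois extension
`L/ℚ` is ramified at some prime `p`: for EVERY valuation subring `A` of `L` lying over `p`, some
element of the inertia group of `A` (in the Prelude sense) moves `K`. -/
theorem exists_inertia_ne (K : Type*) [Field K] [NumberField K] [IsGalois ℚ K] [Algebra K L]
    [IsScalarTower ℚ K L] (hK : 1 < Module.finrank ℚ K) :
    ∃ p : ℕ, p.Prime ∧ ∀ A : ValuationSubring L, A.LiesOverPrime p →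
      ∃ g : L ≃ₐ[ℚ] L, g ∈ A.inertiaSubgroupIn ℚ ∧
        ∃ x : K, g (algebraMap K L x) ≠ algebraMap K L x := by
  obtain ⟨p, hp, hram⟩ :=
    NumberField.exists_not_isUnramifiedAt_int_of_isGalois (K := K) (𝒪 := 𝓞 K) hK
  refine ⟨p, hp, fun A hA => ?_⟩
  set Q : Ideal (𝓞 L) := center A with hQ
  have hQprime : Q.IsPrime := center_isPrime A
  have hpQ : (p : 𝓞 L) ∈ Q := natCast_mem_center A p hA
  -- the prime `P` of `𝓞 K` below `Q`; it is ramified
  set P : Ideal (𝓞 K) := Q.under (𝓞 K) with hP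
  have hPprime : P.IsPrime := inferInstance
  have hpP : (p : 𝓞 K) ∈ P := by
    rw [hP, Ideal.under_def, Ideal.mem_comap]
    simpa using hpQ
  have hPram : ¬ Algebra.IsUnramifiedAt ℤ P := hram P hPprime hpP
  -- hence its inertia group in `Gal(K/ℚ)` is non-trivial
  have hGG : IsGaloisGroup (K ≃ₐ[ℚ] K) ℤ (𝓞 K) :=
    IsGaloisGroup.of_isFractionRing (K ≃ₐ[ℚ] K) ℤ (𝓞 K) ℚ K
  have hcard := Ideal.card_inertia_eq_ramificationIdxIn (G := K ≃ₐ[ℚ] K) (P.under ℤ) P
  rw [Ideal.ramificationIdxIn_eq_ramificationIdx (P.under ℤ) P (K ≃ₐ[ℚ] K)] at hcard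
  have hne1 : P.ramificationIdx ℤ ≠ 1 := fun h => hPram (Ideal.ramificationIdx_eq_one_iff.mp h)
  obtain ⟨σ, hσ, hσ1⟩ : ∃ σ : K ≃ₐ[ℚ] K, σ ∈ Ideal.inertia (K ≃ₐ[ℚ] K) P ∧ σ ≠ 1 := by
    by_contra hall
    push Not at hall
    apply hne1
    rw [← hcard, Subgroup.card_eq_one, Subgroup.eq_bot_iff_forall]
    exact hall
  -- lift `σ` to `τ ∈ Gal(L/ℚ)`
  obtain ⟨τ, hτ⟩ := AlgEquiv.restrictNormalHom_surjective (F := ℚ) (K₁ := K) L σ
  have hτK : ∀ x : K, τ (algebraMap K L x) = algebraMap K L (σ x) := by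
    intro x
    rw [← hτ]
    exact (AlgEquiv.restrictNormal_commutes τ K x).symm
  -- the subgroup `H = Gal(L/K)`
  set E : IntermediateField ℚ L := (IsScalarTower.toAlgHom ℚ K L).fieldRange with hE
  set H : Subgroup (L ≃ₐ[ℚ] L) := E.fixingSubgroup with hH
  have hHmem : ∀ h : L ≃ₐ[ℚ] L, h ∈ H ↔ ∀ x : K, h (algebraMap K L x) = algebraMap K L x := by
    intro h
    rw [hH, IntermediateField.mem_fixingSubgroup_iff]
    constructor
    · intro hh x
      exact hh _ ⟨x, rfl⟩
    · rintro hh _ ⟨x, rfl⟩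
      exact hh x
  have hHker : H = (AlgEquiv.restrictNormalHom K : (L ≃ₐ[ℚ] L) →* (K ≃ₐ[ℚ] K)).ker := by
    ext h
    rw [hHmem, MonoidHom.mem_ker]
    constructor
    · intro hh
      ext x
      apply (algebraMap K L).injective
      have := AlgEquiv.restrictNormal_commutes h K x
      rw [hh x] at this
      exact this
    · intro hh x
      have := AlgEquiv.restrictNormal_commutes h K x
      rw [← this]
      have h2 : h.restrictNormal K = 1 := hh
      rw [h2]
      rfl
  have hHnormal : H.Normal := by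
    rw [hHker]
    exact MonoidHom.normal_ker _
  have hEfin : FiniteDimensional ℚ E :=
    LinearEquiv.finiteDimensional
      (AlgEquiv.ofInjectiveField (IsScalarTower.toAlgHom ℚ K L)).toLinearEquiv
  have hHclosed : IsClosed (H : Set (L ≃ₐ[ℚ] L)) := IntermediateField.fixingSubgroup_isClosed E
  -- the action on the ring of all algebraic integers of `L`
  let _ : TopologicalSpace (𝓞 L) := ⊥
  have : DiscreteTopology (𝓞 L) := ⟨rfl⟩
  have : ContinuousSMul (L ≃ₐ[ℚ] L) (𝓞 L) := continuousSMul_ringOfIntegers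
  have hfixK : ∀ (h : H) (a : 𝓞 K), h • algebraMap (𝓞 K) (𝓞 L) a = algebraMap (𝓞 K) (𝓞 L) a := by
    intro h a
    apply NumberField.RingOfIntegers.coe_injective
    exact (hHmem h).mp h.2 (algebraMap (𝓞 K) K a)
  have : SMulCommClass H (𝓞 K) (𝓞 L) := by
    refine ⟨fun h a b => ?_⟩
    rw [Algebra.smul_def, Algebra.smul_def, smul_mul', hfixK]
  have : Algebra.IsInvariant (𝓞 K) (𝓞 L) H := by
    refine ⟨fun b hb => ?_⟩
    have hbE : algebraMap (𝓞 L) L b ∈ E := by
      have h1 : algebraMap (𝓞 L) L b ∈ IntermediateField.fixedField E.fixingSubgroup := by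
        rw [IntermediateField.mem_fixedField_iff]
        intro h hh
        have := hb ⟨h, hh⟩
        exact congrArg (algebraMap (𝓞 L) L) this
      rwa [InfiniteGalois.fixedField_fixingSubgroup E] at h1
    obtain ⟨x, hx⟩ := hbE
    have hxint : IsIntegral ℤ x := by
      have h1 : IsIntegral ℤ (algebraMap K L x) := by
        have h2 : algebraMap K L x = algebraMap (𝓞 L) L b := hx
        rw [h2]
        exact b.2
      exact (isIntegral_algebraMap_iff (algebraMap K L).injective).mp h1
    refine ⟨⟨x, hxint⟩, ?_⟩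
    apply NumberField.RingOfIntegers.coe_injective
    exact hx
  -- `τ` acts trivially on `𝓞 K` modulo `Q`
  have hτQ : ∀ a : 𝓞 K, τ • algebraMap (𝓞 K) (𝓞 L) a - algebraMap (𝓞 K) (𝓞 L) a ∈ Q := by
    intro a
    have h1 : τ • algebraMap (𝓞 K) (𝓞 L) a = algebraMap (𝓞 K) (𝓞 L) (σ • a) := by
      apply NumberField.RingOfIntegers.coe_injective
      exact hτK (algebraMap (𝓞 K) K a)
    rw [h1, ← map_sub]
    have h2 : σ • a - a ∈ P := hσ a
    rw [hP, Ideal.under_def, Ideal.mem_comap] at h2
    exact h2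
  obtain ⟨h, hh, hg⟩ := exists_mul_mem_inertia H hHclosed Q τ hτQ
  refine ⟨h * τ, mem_inertiaSubgroupIn_center A (h * τ) hg, ?_⟩
  obtain ⟨x, hx⟩ : ∃ x : K, σ x ≠ x := by
    by_contra hall
    push Not at hall
    apply hσ1
    ext x
    exact hall x
  refine ⟨x, ?_⟩
  show h (τ (algebraMap K L x)) ≠ algebraMap K L x
  rw [hτK, (hHmem h).mp hh]
  exact fun hcontra => hx ((algebraMap K L).injective hcontra)

/-- Variant of `exists_inertia_ne` for an arbitrary `ℚ`-algebra instance on `K` (to avoid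
instance diamonds for intermediate fields). -/
theorem exists_inertia_ne' (K : Type*) [Field K] [CharZero K] [instA : Algebra ℚ K]
    [hfin : FiniteDimensional ℚ K] [hgal : IsGalois ℚ K] [Algebra K L] [hst : IsScalarTower ℚ K L]
    (hK : 1 < Module.finrank ℚ K) :
    ∃ p : ℕ, p.Prime ∧ ∀ A : ValuationSubring L, A.LiesOverPrime p →
      ∃ g : L ≃ₐ[ℚ] L, g ∈ A.inertiaSubgroupIn ℚ ∧
        ∃ x : K, g (algebraMap K L x) ≠ algebraMap K L x := by
  have e : instA = DivisionRing.toRatAlgebra := Subsingleton.elim _ _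
  subst e
  have : NumberField K := { to_charZero := inferInstance, to_finiteDimensional := hfin }
  exact exists_inertia_ne K hK

/-- **Minkowski glue.**  An open normal subgroup of `Gal(L/ℚ)` containing, for every prime
number `q`, the inertia group of at least one valuation subring of `L` lying over `q`, is
everything. -/
theorem eq_top_of_inertia_le (N : Subgroup (L ≃ₐ[ℚ] L)) [N.Normal]
    (hN : IsOpen (N : Set (L ≃ₐ[ℚ] L)))
    (h : ∀ q : ℕ, q.Prime →
      ∃ A : ValuationSubring L, A.LiesOverPrime q ∧ A.inertiaSubgroupIn ℚ ≤ N) :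
    N = ⊤ := by
  by_contra hne
  have hclosed : IsClosed (N : Set (L ≃ₐ[ℚ] L)) := Subgroup.isClosed_of_isOpen N hN
  set F : IntermediateField ℚ L := IntermediateField.fixedField N with hF
  have hfix : F.fixingSubgroup = N := InfiniteGalois.fixingSubgroup_fixedField ⟨N, hclosed⟩
  have hgal : @IsGalois ℚ _ F _ F.algebra' := IsGalois.of_fixedField_normal_subgroup N
  have hfin : @FiniteDimensional ℚ F _ _ F.module' :=
    (InfiniteGalois.isOpen_iff_finite F).mp (by rw [hfix]; exact hN)
  have hrank : 1 < @Module.finrank ℚ F _ _ F.module' := by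
    by_contra hle
    have h1 : @Module.finrank ℚ F _ _ F.module' = 1 := by
      have hpos : 0 < @Module.finrank ℚ F _ _ F.module' := Module.finrank_pos
      omega
    have h2 : F = ⊥ := IntermediateField.finrank_eq_one_iff.mp h1
    apply hne
    rw [← hfix, h2, IntermediateField.fixingSubgroup_bot]
  have hst : @IsScalarTower ℚ F L F.algebra'.toSMul _ _ := inferInstance
  obtain ⟨p, hp, hA⟩ := @exists_inertia_ne' L _ _ _ F _ _ F.algebra' hfin hgal _ hst hrank
  obtain ⟨A, hAp, hAN⟩ := h p hp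
  obtain ⟨g, hg, x, hx⟩ := hA A hAp
  apply hx
  have hxF : (x : L) ∈ IntermediateField.fixedField N := x.2
  rw [IntermediateField.mem_fixedField_iff] at hxF
  exact hxF g (hAN hg)

/-- Level form of `eq_top_of_inertia_le`: openness given by a finite subextension. -/
theorem eq_top_of_fixingSubgroup_le (N : Subgroup (L ≃ₐ[ℚ] L)) [N.Normal]
    (hopen : ∃ F : IntermediateField ℚ L, FiniteDimensional ℚ F ∧ F.fixingSubgroup ≤ N)
    (h : ∀ q : ℕ, q.Prime →
      ∃ A : ValuationSubring L, A.LiesOverPrime q ∧ A.inertiaSubgroupIn ℚ ≤ N) :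
    N = ⊤ := by
  obtain ⟨F, hfin, hF⟩ := hopen
  have hfin' : @FiniteDimensional ℚ F _ _ F.module' := by
    convert hfin using 1
  exact eq_top_of_inertia_le N
    (Subgroup.isOpen_mono hF (@IntermediateField.fixingSubgroup_isOpen _ _ _ _ _ F hfin')) h

/-- A homomorphism from `Gal(L/ℚ)` with open kernel which is trivial on the inertia group of
one valuation subring over each prime number is trivial. -/
theorem monoidHom_eq_one {M : Type*} [MulOneClass M] (χ : (L ≃ₐ[ℚ] L) →* M)
    (hχ : IsOpen (χ.ker : Set (L ≃ₐ[ℚ] L)))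
    (h : ∀ q : ℕ, q.Prime →
      ∃ A : ValuationSubring L, A.LiesOverPrime q ∧ ∀ σ ∈ A.inertiaSubgroupIn ℚ, χ σ = 1)
    (σ : L ≃ₐ[ℚ] L) : χ σ = 1 := by
  have hker : χ.ker = ⊤ := by
    refine eq_top_of_inertia_le χ.ker hχ (fun q hq => ?_)
    obtain ⟨A, hA, hAχ⟩ := h q hq
    exact ⟨A, hA, fun τ hτ => MonoidHom.mem_ker.mpr (hAχ τ hτ)⟩
  have : σ ∈ χ.ker := by
    rw [hker]
    exact Subgroup.mem_top σ
  exact MonoidHom.mem_ker.mp this

end Main

section Qbar

/-- `AlgebraicClosure ℚ` is Galois over `ℚ` (for the `ℚ`-algebra instance found by instance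
search). -/
theorem isGalois_algebraicClosure_rat : IsGalois ℚ (AlgebraicClosure ℚ) := by
  have h : (DivisionRing.toRatAlgebra : Algebra ℚ (AlgebraicClosure ℚ)) =
      AlgebraicClosure.instAlgebra ℚ := Subsingleton.elim _ _
  rw [h]
  infer_instance

/-- **Minkowski glue over `ℚ̄`** (the statement `minkowski` of the S13 plan): a normal subgroup
of the absolute Galois group of `ℚ` that contains the fixing subgroup of a finite extension and,
for every prime number `q`, the inertia group of some valuation subring of `ℚ̄` lying over `q`,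
is the whole group. -/
theorem minkowski (H : Subgroup (AlgebraicClosure ℚ ≃ₐ[ℚ] AlgebraicClosure ℚ)) (hH : H.Normal)
    (hopen : ∃ F : IntermediateField ℚ (AlgebraicClosure ℚ),
      FiniteDimensional ℚ F ∧ F.fixingSubgroup ≤ H)
    (hunr : ∀ q : ℕ, q.Prime →
      ∃ A : ValuationSubring (AlgebraicClosure ℚ), A.LiesOverPrime q ∧
        A.inertiaSubgroupIn ℚ ≤ H) :
    H = ⊤ := by
  have := isGalois_algebraicClosure_rat
  exact eq_top_of_fixingSubgroup_le H hopen hunr

/-- Character form over `ℚ̄`: a homomorphism from the absolute Galois group of `ℚ` that factors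
through a finite level and is trivial on one inertia group over each prime number is trivial. -/
theorem monoidHom_eq_one_of_level {M : Type*} [MulOneClass M]
    (χ : (AlgebraicClosure ℚ ≃ₐ[ℚ] AlgebraicClosure ℚ) →* M)
    (hopen : ∃ F : IntermediateField ℚ (AlgebraicClosure ℚ),
      FiniteDimensional ℚ F ∧ F.fixingSubgroup ≤ χ.ker)
    (hunr : ∀ q : ℕ, q.Prime →
      ∃ A : ValuationSubring (AlgebraicClosure ℚ), A.LiesOverPrime q ∧
        ∀ σ ∈ A.inertiaSubgroupIn ℚ, χ σ = 1)
    (σ : AlgebraicClosure ℚ ≃ₐ[ℚ] AlgebraicClosure ℚ) : χ σ = 1 := by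
  have hker : χ.ker = ⊤ := by
    refine minkowski χ.ker (MonoidHom.normal_ker χ) hopen (fun q hq => ?_)
    obtain ⟨A, hA, hAχ⟩ := hunr q hq
    exact ⟨A, hA, fun τ hτ => MonoidHom.mem_ker.mpr (hAχ τ hτ)⟩
  have : σ ∈ χ.ker := by
    rw [hker]
    exact Subgroup.mem_top σ
  exact MonoidHom.mem_ker.mp this

end Qbar

end Fermat.Agent.Lib.UnramTrivial
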