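import Mathlib
import Fermat.Agent.S23.Defs
import Fermat.Agent.Lib.VVSpectral
import Fermat.Agent.Lib.VVAnalytic
import Fermat.Agent.Lib.VVCusp
import Fermat.Agent.Lib.HeckeTrivialWeights
import Fermat.Agent.Lib.CoeffLattice

set_option autoImplicit false
set_option linter.unusedSectionVars false

/-!
The dual frame of a pointwise invertible free family of modular forms on `Γ₀(N)`:
the rows of `Δ · Φ⁻¹` are cusp forms of weight `12 - k i`.  Consequences: all weights are
at most `10`, and the number of weights equal to `10` is at most the dimension of the space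
of cusp forms of weight two.
-/

namespace Fermat.Agent.Lib.VVDual

open Complex Filter Topology
open UpperHalfPlane hiding I
open scoped MatrixGroups ModularForm Real Manifold
open Fermat.Agent.S23 (IsMF IsCF G0)
open CongruenceSubgroup (Gamma0)
open Fermat.Agent.Lib.VVSpectral Fermat.Agent.Lib.VVAnalytic Fermat.Agent.Lib.VVCusp

variable {N : ℕ} [NeZero N]

section Square

variable (k : X N → ℤ) (F : X N → ℍ → ℂ)

theorem mul_perm_transpose_apply (A : Matrix (X N) (X N) ℂ) (γ : SL(2, ℤ)) (i x : X N) :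
    (A * (perm N γ).transpose) i x = A i (γ⁻¹ • x) := by
  simp [perm, Matrix.mul_apply]

/-- The transformation law of `Φ⁻¹`. -/
theorem Phi_inv_smul (hF : ∀ i, IsMF (G0 N) (k i) (F i))
    (hdet : ∀ z, (Phi N k F z).det ≠ 0) (γ : SL(2, ℤ)) (z : ℍ) (i x : X N) :
    (Phi N k F (γ • z))⁻¹ i x = denom γ z ^ (-k i) * (Phi N k F z)⁻¹ i (γ⁻¹ • x) := by
  have h1 : (Phi N k F (γ • z))⁻¹ =
      Matrix.diagonal (fun i => denom γ z ^ (-k i)) * (Phi N k F z)⁻¹ *
        (perm N γ).transpose := by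
    apply Matrix.inv_eq_left_inv
    rw [Phi_smul k F hF γ z]
    calc Matrix.diagonal (fun i => denom γ z ^ (-k i)) * (Phi N k F z)⁻¹ *
          (perm N γ).transpose *
          (perm N γ * Phi N k F z * Matrix.diagonal (fun i => denom γ z ^ k i))
        = Matrix.diagonal (fun i => denom γ z ^ (-k i)) * ((Phi N k F z)⁻¹ *
          (((perm N γ).transpose * perm N γ) * Phi N k F z)) *
            Matrix.diagonal (fun i => denom γ z ^ k i) := by
          simp only [Matrix.mul_assoc]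
      _ = 1 := by
          rw [perm_transpose_mul, Matrix.one_mul,
            Matrix.nonsing_inv_mul _ (isUnit_iff_ne_zero.mpr (hdet z)), Matrix.mul_one,
            Matrix.diagonal_mul_diagonal]
          rw [← Matrix.diagonal_one]
          congr 1
          funext j
          rw [← zpow_add₀ (denom_ne_zero γ z), neg_add_cancel, zpow_zero]
  rw [h1, mul_perm_transpose_apply, Matrix.diagonal_mul]

variable (N) in
/-- The dual family: the entries of `Δ · Φ⁻¹`. -/
noncomputable def dual (i x : X N) : ℍ → ℂ :=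
  fun z => ModularForm.discriminant z * (Phi N k F z)⁻¹ i x

theorem discriminant_smul (γ : SL(2, ℤ)) (z : ℍ) :
    ModularForm.discriminant (γ • z) = denom γ z ^ (12 : ℤ) * ModularForm.discriminant z := by
  have h := congrFun (slash_eq_of_isMF_SL isMF_discriminant γ) z
  rw [ModularForm.SL_slash_apply] at h
  rw [← h, mul_comm, mul_assoc, ← zpow_add₀ (denom_ne_zero γ z), neg_add_cancel, zpow_zero,
    mul_one]

theorem dual_smul (hF : ∀ i, IsMF (G0 N) (k i) (F i))
    (hdet : ∀ z, (Phi N k F z).det ≠ 0) (γ : SL(2, ℤ)) (z : ℍ) (i x : X N) :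
    dual N k F i x (γ • z) = denom γ z ^ (12 - k i) * dual N k F i (γ⁻¹ • x) z := by
  simp only [dual]
  rw [Phi_inv_smul k F hF hdet, discriminant_smul, sub_eq_add_neg,
    zpow_add₀ (denom_ne_zero γ z)]
  ring

theorem dual_slash (hF : ∀ i, IsMF (G0 N) (k i) (F i))
    (hdet : ∀ z, (Phi N k F z).det ≠ 0) (γ : SL(2, ℤ)) (i x : X N) :
    dual N k F i x ∣[12 - k i] γ = dual N k F i (γ⁻¹ • x) := by
  ext z
  rw [ModularForm.SL_slash_apply, dual_smul k F hF hdet, mul_comm, ← mul_assoc,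
    ← zpow_add₀ (denom_ne_zero γ z), neg_add_cancel, zpow_zero, one_mul]

theorem mdiff_dual (hF : ∀ i, IsMF (G0 N) (k i) (F i))
    (hdet : ∀ z, (Phi N k F z).det ≠ 0) (i x : X N) : MDiff (dual N k F i x) := by
  have hΦ : ∀ a b, MDiff (fun z => Phi N k F z a b) :=
    fun a b => mdiff_comp (mdiff_of_isMF (hF b)) a
  have h1 : MDiff (fun z => (Phi N k F z).det) := mdiff_det _ hΦ
  have h2 : MDiff (fun z => (Phi N k F z).adjugate i x) := by
    simp only [Matrix.adjugate_apply]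
    refine mdiff_det _ (fun a b => ?_)
    simp only [Matrix.updateRow_apply]
    by_cases ha : a = x
    · simp only [ha, if_true]
      exact mdifferentiable_const
    · simp only [ha, if_false]
      exact hΦ a b
  have h3 : MDiff (fun z => (Phi N k F z).adjugate i x / (Phi N k F z).det) :=
    mdiff_div _ _ h2 h1 hdet
  have h4 : dual N k F i x = fun z => ModularForm.discriminant z *
      ((Phi N k F z).adjugate i x / (Phi N k F z).det) := by
    ext z
    simp only [dual]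
    rw [Matrix.inv_def, Matrix.smul_apply, Ring.inverse_eq_inv', smul_eq_mul]
    ring
  rw [h4]
  exact (mdiff_of_isMF isMF_discriminant).mul h3

/-- `Φ⁻¹ = (EΦ)⁻¹ E`. -/
theorem Phi_inv_eq (hdet : ∀ z, (Phi N k F z).det ≠ 0) (z : ℍ) :
    (Phi N k F z)⁻¹ = (PhiT N k F z)⁻¹ * Em N (PT N) (z : ℂ) := by
  apply Matrix.inv_eq_left_inv
  have hE : (Em N (PT N) (z : ℂ)).det ≠ 0 := by
    have h := congrArg Matrix.det (Em_mul_Dm (h := N) (P := PT N) perm_T_pow (z : ℂ))
    rw [Matrix.det_mul, Matrix.det_one] at h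
    exact left_ne_zero_of_mul_eq_one h
  have hT : (PhiT N k F z).det ≠ 0 := by
    rw [PhiT, Matrix.det_mul]
    exact mul_ne_zero hE (hdet z)
  rw [Matrix.mul_assoc]
  exact Matrix.nonsing_inv_mul _ (isUnit_iff_ne_zero.mpr hT)

theorem tendsto_discriminant_mul_Em (y x : X N) :
    Tendsto (fun z : ℍ => ModularForm.discriminant z * Em N (PT N) (z : ℂ) y x) atImInfty
      (𝓝 0) := by
  have hΔ : (ModularForm.discriminant : ℍ → ℂ) =O[atImInfty]
      fun τ : ℍ => Real.exp (-2 * π * τ.im) := by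
    have h := CuspFormClass.exp_decay_atImInfty (h := 1) CuspForm.discriminant one_pos
      one_mem_strictPeriods_SL
    simpa using h
  obtain ⟨C, hC⟩ := hΔ.bound
  set S : ℝ := ∑ m : ZMod N, ‖proj N (PT N) m y x‖ with hS
  have hN : (0 : ℝ) < N := Nat.cast_pos.mpr (Nat.pos_of_ne_zero (NeZero.ne N))
  have hlim : Tendsto (fun z : ℍ => C * S * Real.exp (-(2 * π / N) * z.im)) atImInfty
      (𝓝 0) := by
    have h1 : Tendsto (fun z : ℍ => z.im) atImInfty atTop := tendsto_comap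
    have h2 : Tendsto (fun t : ℝ => Real.exp (-(2 * π / N) * t)) atTop (𝓝 0) := by
      have h3 : Tendsto (fun t : ℝ => -(2 * π / N) * t) atTop atBot :=
        tendsto_id.const_mul_atTop_of_neg (by
          have : 0 < 2 * π / N := by positivity
          linarith)
      exact Real.tendsto_exp_atBot.comp h3
    have h4 := (h2.comp h1).const_mul (C * S)
    simpa using h4
  refine squeeze_zero_norm' ?_ hlim
  filter_upwards [hC] with z hz
  rw [norm_mul]
  have h1 := norm_Em_apply_le (h := N) (P := PT N) (z : ℂ) z.im_pos.le y x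
  have hz' : ‖ModularForm.discriminant z‖ ≤ C * Real.exp (-2 * π * z.im) := by
    have h5 : ‖Real.exp (-2 * π * z.im)‖ = Real.exp (-2 * π * z.im) :=
      Real.norm_of_nonneg (Real.exp_nonneg _)
    rwa [h5] at hz
  calc ‖ModularForm.discriminant z‖ * ‖Em N (PT N) (z : ℂ) y x‖
      ≤ (C * Real.exp (-2 * π * z.im)) *
          (S * Real.exp (2 * π * (1 - 1 / (N : ℝ)) * (z : ℂ).im)) :=
        mul_le_mul hz' h1 (norm_nonneg _) ((norm_nonneg _).trans hz')
    _ = C * S * Real.exp (-(2 * π / N) * z.im) := by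
        rw [mul_mul_mul_comm, ← Real.exp_add, UpperHalfPlane.coe_im]
        congr 2
        field_simp
        ring

theorem isZeroAtImInfty_dual (hF : ∀ i, IsMF (G0 N) (k i) (F i))
    (hgen : ∀ (K : ℤ) (f : ℍ → ℂ), IsMF (G0 N) K f →
      ∃ a : X N → ℍ → ℂ, (∀ i, IsMF 𝒮ℒ (K - k i) (a i)) ∧ f = ∑ i, a i * F i)
    (hinv : ∀ (z : ℍ) (c : X N → ℂ),
      (∀ γ : SL(2, ℤ), ∑ i, c i * ((F i) ∣[k i] γ) z = 0) → c = 0) (i x : X N) :
    IsZeroAtImInfty (dual N k F i x) := by
  obtain ⟨L, hL⟩ := exists_tendsto_PhiT k F hF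
  have hLdet : L.det ≠ 0 := by
    intro h0
    obtain ⟨v, hv0, hv⟩ := Matrix.exists_mulVec_eq_zero_iff.mpr h0
    exact hv0 (lead_injective k F hF hgen hinv L hL v hv)
  have hdet := det_Phi_ne_zero k F hF hinv
  have hinvT : Tendsto (fun z => (PhiT N k F z)⁻¹) atImInfty (𝓝 L⁻¹) := by
    have hc : ContinuousAt Inv.inv L := continuousAt_matrix_inv L (by
      have h := continuousAt_inv₀ hLdet
      rw [Ring.inverse_eq_inv']
      exact h)
    exact hc.tendsto.comp hL
  have heq : dual N k F i x = fun z => ∑ y, (PhiT N k F z)⁻¹ i y *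
      (ModularForm.discriminant z * Em N (PT N) (z : ℂ) y x) := by
    ext z
    simp only [dual]
    rw [Phi_inv_eq k F hdet z, Matrix.mul_apply, Finset.mul_sum]
    exact Finset.sum_congr rfl (fun y _ => by ring)
  rw [heq]
  have h : Tendsto (fun z => ∑ y, (PhiT N k F z)⁻¹ i y *
      (ModularForm.discriminant z * Em N (PT N) (z : ℂ) y x)) atImInfty
      (𝓝 (∑ y : X N, L⁻¹ i y * 0)) :=
    tendsto_finsetSum _ (fun y _ =>
      (tendsto_pi_nhds.mp (tendsto_pi_nhds.mp hinvT i) y).mul (tendsto_discriminant_mul_Em y x))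
  simp only [mul_zero, Finset.sum_const_zero] at h
  exact h

/-- The rows of `Δ Φ⁻¹` are cusp forms of weight `12 - k i`. -/
theorem isCF_dual (hF : ∀ i, IsMF (G0 N) (k i) (F i))
    (hgen : ∀ (K : ℤ) (f : ℍ → ℂ), IsMF (G0 N) K f →
      ∃ a : X N → ℍ → ℂ, (∀ i, IsMF 𝒮ℒ (K - k i) (a i)) ∧ f = ∑ i, a i * F i)
    (hinv : ∀ (z : ℍ) (c : X N → ℂ),
      (∀ γ : SL(2, ℤ), ∑ i, c i * ((F i) ∣[k i] γ) z = 0) → c = 0) (i : X N) :
    IsCF (G0 N) (12 - k i) (dual N k F i ((1 : SL(2, ℤ)) : X N)) := by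
  have hdet := det_Phi_ne_zero k F hF hinv
  refine isCF_G0_of N (12 - k i) _ (mdiff_dual k F hF hdet i _) ?_ ?_
  · intro γ hγ
    rw [dual_slash k F hF hdet]
    congr 1
    rw [MulAction.Quotient.smul_mk, smul_eq_mul, QuotientGroup.eq]
    simpa using hγ
  · intro γ
    rw [dual_slash k F hF hdet]
    exact isZeroAtImInfty_dual k F hF hgen hinv i _

theorem dual_eq_zero_of_base (hF : ∀ i, IsMF (G0 N) (k i) (F i))
    (hdet : ∀ z, (Phi N k F z).det ≠ 0) (i : X N)
    (h0 : dual N k F i ((1 : SL(2, ℤ)) : X N) = 0) (x : X N) : dual N k F i x = 0 := by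
  induction x using QuotientGroup.induction_on with
  | H g =>
    have h1 := dual_slash k F hF hdet g⁻¹ i ((1 : SL(2, ℤ)) : X N)
    rw [h0, SlashAction.zero_slash, inv_inv, MulAction.Quotient.smul_mk, smul_eq_mul,
      mul_one] at h1
    exact h1.symm

theorem dual_ne_zero (hF : ∀ i, IsMF (G0 N) (k i) (F i))
    (hdet : ∀ z, (Phi N k F z).det ≠ 0) (i : X N) :
    dual N k F i ((1 : SL(2, ℤ)) : X N) ≠ 0 := by
  intro h0
  have hrow : ∀ x, (Phi N k F UpperHalfPlane.I)⁻¹ i x = 0 := by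
    intro x
    have h := congrFun (dual_eq_zero_of_base k F hF hdet i h0 x) UpperHalfPlane.I
    simp only [dual, Pi.zero_apply, mul_eq_zero] at h
    exact h.resolve_left (ModularForm.discriminant_ne_zero _)
  have h1 : ((Phi N k F UpperHalfPlane.I)⁻¹ * Phi N k F UpperHalfPlane.I) i i = 1 := by
    rw [Matrix.nonsing_inv_mul _ (isUnit_iff_ne_zero.mpr (hdet _)), Matrix.one_apply_eq]
  rw [Matrix.mul_apply] at h1
  simp [hrow] at h1

/-- **All weights are at most `10`** (square case). -/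
theorem weight_le_ten_core (hF : ∀ i, IsMF (G0 N) (k i) (F i))
    (hgen : ∀ (K : ℤ) (f : ℍ → ℂ), IsMF (G0 N) K f →
      ∃ a : X N → ℍ → ℂ, (∀ i, IsMF 𝒮ℒ (K - k i) (a i)) ∧ f = ∑ i, a i * F i)
    (hinv : ∀ (z : ℍ) (c : X N → ℂ),
      (∀ γ : SL(2, ℤ), ∑ i, c i * ((F i) ∣[k i] γ) z = 0) → c = 0) (i : X N) :
    k i ≤ 10 := by
  have hdet := det_Phi_ne_zero k F hF hinv
  have hcf := isCF_dual k F hF hgen hinv i
  have hne := dual_ne_zero k F hF hdet i
  have hev : Even (12 - k i) := even_weight_of_isMF hcf.isMF hne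
  have hpos : 0 < 12 - k i := by
    by_contra hle
    rw [not_lt] at hle
    obtain ⟨G, hG⟩ := hcf
    have h0 := Fermat.Agent.Lib.HeckeTrivialWeights.cuspForm_eq_zero_of_nonpos N hle G
    rw [h0] at hG
    exact hne hG.symm
  obtain ⟨m, hm⟩ := hev
  omega

theorem dual_slash_two (hF : ∀ i, IsMF (G0 N) (k i) (F i))
    (hdet : ∀ z, (Phi N k F z).det ≠ 0) (γ : SL(2, ℤ)) (i x : X N) (hi : k i = 10) :
    dual N k F i x ∣[(2 : ℤ)] γ = dual N k F i (γ⁻¹ • x) := by
  have h := dual_slash k F hF hdet γ i x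
  have h2 : (12 : ℤ) - k i = 2 := by rw [hi]; norm_num
  rwa [h2] at h

/-- The coercion from cusp forms to functions, as a linear map. -/
noncomputable def coeLin (Γ : Subgroup (GL (Fin 2) ℝ)) [Γ.HasDetOne] (K : ℤ) :
    CuspForm Γ K →ₗ[ℂ] (ℍ → ℂ) where
  toFun f := f
  map_add' _ _ := rfl
  map_smul' _ _ := rfl

/-- **The number of weights equal to `10` is at most `dim S₂(Γ₀(N))`** (square case). -/
theorem card_ten_le_finrank_core (hF : ∀ i, IsMF (G0 N) (k i) (F i))
    (hgen : ∀ (K : ℤ) (f : ℍ → ℂ), IsMF (G0 N) K f →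
      ∃ a : X N → ℍ → ℂ, (∀ i, IsMF 𝒮ℒ (K - k i) (a i)) ∧ f = ∑ i, a i * F i)
    (hinv : ∀ (z : ℍ) (c : X N → ℂ),
      (∀ γ : SL(2, ℤ), ∑ i, c i * ((F i) ∣[k i] γ) z = 0) → c = 0)
    [FiniteDimensional ℂ (CuspForm (G0 N) 2)] :
    Fintype.card {i : X N // k i = 10} ≤ Module.finrank ℂ (CuspForm (G0 N) 2) := by
  classical
  have hdet := det_Phi_ne_zero k F hF hinv
  have hcf : ∀ j : {i : X N // k i = 10},
      IsCF (G0 N) 2 (dual N k F j.1 ((1 : SL(2, ℤ)) : X N)) := fun j =>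
    (isCF_dual k F hF hgen hinv j.1).weight_congr (by rw [j.2]; norm_num)
  choose G hG using hcf
  have hli : LinearIndependent ℂ G := by
    refine LinearIndependent.of_comp (coeLin (G0 N) 2) ?_
    have hcomp : (coeLin (G0 N) 2) ∘ G =
        fun j : {i : X N // k i = 10} => dual N k F j.1 ((1 : SL(2, ℤ)) : X N) :=
      funext hG
    rw [hcomp, Fintype.linearIndependent_iff]
    intro g hg j0
    have h1 : ∀ x : X N, ∑ j : {i : X N // k i = 10}, g j • dual N k F j.1 x = 0 := by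
      intro x
      induction x using QuotientGroup.induction_on with
      | H γ =>
        have h2 := congrArg (fun f : ℍ → ℂ => f ∣[(2 : ℤ)] γ⁻¹) hg
        simp only [SlashAction.sum_slash, ModularForm.SL_smul_slash,
          SlashAction.zero_slash] at h2
        rw [← h2]
        refine Finset.sum_congr rfl (fun j _ => ?_)
        rw [dual_slash_two k F hF hdet _ _ _ j.2, inv_inv, MulAction.Quotient.smul_mk,
          smul_eq_mul, mul_one]
    have z : ℍ := UpperHalfPlane.I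
    have h4 : ∀ x : X N, ∑ j : {i : X N // k i = 10}, g j * (Phi N k F z)⁻¹ j.1 x = 0 := by
      intro x
      have h3 := congrFun (h1 x) z
      simp only [Finset.sum_apply, Pi.smul_apply, dual, smul_eq_mul, Pi.zero_apply] at h3
      have h5 : ModularForm.discriminant z *
          ∑ j : {i : X N // k i = 10}, g j * (Phi N k F z)⁻¹ j.1 x = 0 := by
        rw [← h3, Finset.mul_sum]
        exact Finset.sum_congr rfl (fun j _ => by ring)
      exact (mul_eq_zero.mp h5).resolve_left (ModularForm.discriminant_ne_zero z)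
    have h5 : ∑ j : {i : X N // k i = 10},
        g j * ((Phi N k F z)⁻¹ * Phi N k F z) j.1 j0.1 = 0 := by
      simp only [Matrix.mul_apply, Finset.mul_sum]
      rw [Finset.sum_comm]
      refine Finset.sum_eq_zero (fun x _ => ?_)
      calc ∑ j : {i : X N // k i = 10},
            g j * ((Phi N k F z)⁻¹ j.1 x * Phi N k F z x j0.1)
          = (∑ j : {i : X N // k i = 10}, g j * (Phi N k F z)⁻¹ j.1 x) *
              Phi N k F z x j0.1 := by
            rw [Finset.sum_mul]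
            exact Finset.sum_congr rfl (fun j _ => by ring)
        _ = 0 := by rw [h4 x, zero_mul]
    rw [Matrix.nonsing_inv_mul _ (isUnit_iff_ne_zero.mpr (hdet z))] at h5
    simp only [Matrix.one_apply] at h5
    rw [Finset.sum_eq_single j0] at h5
    · simpa using h5
    · intro j _ hj
      rw [if_neg (fun h => hj (Subtype.ext h)), mul_zero]
    · intro h
      exact absurd (Finset.mem_univ _) h
  exact hli.fintype_card_le_finrank

end Square

/-! ### Final statements for an arbitrary index type -/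

theorem transport_hyps {ι : Type*} [Fintype ι] (e : ι ≃ X N) (k : ι → ℤ)
    (F : ι → ℍ → ℂ) (hF : ∀ i, IsMF (G0 N) (k i) (F i))
    (hgen : ∀ (K : ℤ) (f : ℍ → ℂ), IsMF (G0 N) K f →
      ∃ a : ι → ℍ → ℂ, (∀ i, IsMF 𝒮ℒ (K - k i) (a i)) ∧ f = ∑ i, a i * F i)
    (hinv : ∀ (z : ℍ) (c : ι → ℂ),
      (∀ γ : SL(2, ℤ), ∑ i, c i * ((F i) ∣[k i] γ) z = 0) → c = 0) :
    (∀ x, IsMF (G0 N) (k (e.symm x)) (F (e.symm x))) ∧
    (∀ (K : ℤ) (f : ℍ → ℂ), IsMF (G0 N) K f →
      ∃ a : X N → ℍ → ℂ, (∀ x, IsMF 𝒮ℒ (K - k (e.symm x)) (a x)) ∧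
        f = ∑ x, a x * F (e.symm x)) ∧
    (∀ (z : ℍ) (c : X N → ℂ),
      (∀ γ : SL(2, ℤ), ∑ x, c x * ((F (e.symm x)) ∣[k (e.symm x)] γ) z = 0) → c = 0) := by
  refine ⟨fun x => hF (e.symm x), fun K f hf => ?_, fun z c' h => ?_⟩
  · obtain ⟨a, ha, hfa⟩ := hgen K f hf
    refine ⟨fun x => a (e.symm x), fun x => ha (e.symm x), ?_⟩
    rw [hfa]
    exact (Equiv.sum_comp e.symm (fun j => a j * F j)).symm
  · have h1 := hinv z (fun i => c' (e i)) (fun γ => by
      rw [← h γ, ← Equiv.sum_comp e]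
      simp)
    funext x
    have h2 := congrFun h1 (e.symm x)
    simpa using h2

theorem weight_le_ten_of_equiv {ι : Type*} [Fintype ι] (e : ι ≃ X N) (k : ι → ℤ)
    (F : ι → ℍ → ℂ) (hF : ∀ i, IsMF (G0 N) (k i) (F i))
    (hgen : ∀ (K : ℤ) (f : ℍ → ℂ), IsMF (G0 N) K f →
      ∃ a : ι → ℍ → ℂ, (∀ i, IsMF 𝒮ℒ (K - k i) (a i)) ∧ f = ∑ i, a i * F i)
    (hinv : ∀ (z : ℍ) (c : ι → ℂ),
      (∀ γ : SL(2, ℤ), ∑ i, c i * ((F i) ∣[k i] γ) z = 0) → c = 0) (i : ι) :
    k i ≤ 10 := by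
  obtain ⟨h1, h2, h3⟩ := transport_hyps e k F hF hgen hinv
  have h := weight_le_ten_core (fun x => k (e.symm x)) (fun x => F (e.symm x)) h1 h2 h3 (e i)
  simpa using h

theorem card_ten_le_finrank_of_equiv {ι : Type*} [Fintype ι] (e : ι ≃ X N) (k : ι → ℤ)
    (F : ι → ℍ → ℂ) (hF : ∀ i, IsMF (G0 N) (k i) (F i))
    (hgen : ∀ (K : ℤ) (f : ℍ → ℂ), IsMF (G0 N) K f →
      ∃ a : ι → ℍ → ℂ, (∀ i, IsMF 𝒮ℒ (K - k i) (a i)) ∧ f = ∑ i, a i * F i)
    (hinv : ∀ (z : ℍ) (c : ι → ℂ),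
      (∀ γ : SL(2, ℤ), ∑ i, c i * ((F i) ∣[k i] γ) z = 0) → c = 0)
    [FiniteDimensional ℂ (CuspForm (G0 N) 2)] :
    Nat.card {i : ι // k i = 10} ≤ Module.finrank ℂ (CuspForm (G0 N) 2) := by
  obtain ⟨h1, h2, h3⟩ := transport_hyps e k F hF hgen hinv
  have h := card_ten_le_finrank_core (fun x => k (e.symm x)) (fun x => F (e.symm x)) h1 h2 h3
  rw [← Nat.card_eq_fintype_card] at h
  refine le_of_eq_of_le (Nat.card_congr ?_) h
  exact e.subtypeEquiv (fun i => by simp)

/-- **(D1)** All weights of a good basis are at most `10`. -/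
theorem weight_le_ten (N : ℕ) [NeZero N] {n : ℕ} (k : Fin n → ℤ) (F : Fin n → ℍ → ℂ)
    (hF : ∀ i, IsMF (G0 N) (k i) (F i))
    (hgen : ∀ (K : ℤ) (f : ℍ → ℂ), IsMF (G0 N) K f →
      ∃ a : Fin n → ℍ → ℂ, (∀ i, IsMF 𝒮ℒ (K - k i) (a i)) ∧ f = ∑ i, a i * F i)
    (hinv : ∀ (z : ℍ) (c : Fin n → ℂ),
      (∀ γ : SL(2, ℤ), ∑ i, c i * ((F i) ∣[k i] γ) z = 0) → c = 0)
    (hcard : n = (CongruenceSubgroup.Gamma0 N).index) (i : Fin n) : k i ≤ 10 := by
  have hc : Fintype.card (Fin n) = Fintype.card (X N) := by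
    rw [Fintype.card_fin, hcard, Subgroup.index, Nat.card_eq_fintype_card]
  exact weight_le_ten_of_equiv (Fintype.equivOfCardEq hc) k F hF hgen hinv i

/-- **(LB1)** The number of weights of a good basis equal to `10` is at most the dimension of
the space of cusp forms of weight two. -/
theorem card_ten_le_finrank (N : ℕ) [NeZero N] {n : ℕ} (k : Fin n → ℤ) (F : Fin n → ℍ → ℂ)
    (hF : ∀ i, IsMF (G0 N) (k i) (F i))
    (hgen : ∀ (K : ℤ) (f : ℍ → ℂ), IsMF (G0 N) K f →
      ∃ a : Fin n → ℍ → ℂ, (∀ i, IsMF 𝒮ℒ (K - k i) (a i)) ∧ f = ∑ i, a i * F i)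
    (hinv : ∀ (z : ℍ) (c : Fin n → ℂ),
      (∀ γ : SL(2, ℤ), ∑ i, c i * ((F i) ∣[k i] γ) z = 0) → c = 0)
    (hcard : n = (CongruenceSubgroup.Gamma0 N).index) :
    Nat.card {i : Fin n // k i = 10} ≤
      Module.finrank ℂ (CuspForm (CongruenceSubgroup.Gamma0 N) 2) := by
  have hc : Fintype.card (Fin n) = Fintype.card (X N) := by
    rw [Fintype.card_fin, hcard, Subgroup.index, Nat.card_eq_fintype_card]
  have hfd : FiniteDimensional ℂ (CuspForm (G0 N) 2) :=
    Fermat.Agent.Lib.CoeffLattice.finiteDimensional_cuspForm N 2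
  exact card_ten_le_finrank_of_equiv (Fintype.equivOfCardEq hc) k F hF hgen hinv

/-- **(LB1)**, `Fintype.card` form. -/
theorem fintype_card_ten_le_finrank (N : ℕ) [NeZero N] {n : ℕ} (k : Fin n → ℤ)
    (F : Fin n → ℍ → ℂ) (hF : ∀ i, IsMF (G0 N) (k i) (F i))
    (hgen : ∀ (K : ℤ) (f : ℍ → ℂ), IsMF (G0 N) K f →
      ∃ a : Fin n → ℍ → ℂ, (∀ i, IsMF 𝒮ℒ (K - k i) (a i)) ∧ f = ∑ i, a i * F i)
    (hinv : ∀ (z : ℍ) (c : Fin n → ℂ),
      (∀ γ : SL(2, ℤ), ∑ i, c i * ((F i) ∣[k i] γ) z = 0) → c = 0)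
    (hcard : n = (CongruenceSubgroup.Gamma0 N).index) [Fintype {i : Fin n // k i = 10}] :
    Fintype.card {i : Fin n // k i = 10} ≤
      Module.finrank ℂ (CuspForm (CongruenceSubgroup.Gamma0 N) 2) := by
  rw [← Nat.card_eq_fintype_card]
  exact card_ten_le_finrank N k F hF hgen hinv hcard

end Fermat.Agent.Lib.VVDual
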