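import Mathlib

/-!
# Splitting polynomials relative to a valuation subring (helper98)

`K` an algebraically closed field, `A : ValuationSubring K`.  Every nonzero `P ∈ K[X]` factors as

  `P = c · ∏ (X - a_i) · ∏ (1 - b_t X)`,   `c ∈ Kˣ`, `a_i ∈ A`, `b_t ∈ 𝔪_A`

(the `a_i` are the roots of `P` in `A`, the `b_t` the inverses of the other roots).  The product
`splitPoly A a b ∈ A[X]` is primitive: its reduction is the monic polynomial `∏ (X - ā_i)`.

* `splitPoly`, `map_splitPoly`, `eval₂_splitPoly`, `map_residue_splitPoly`;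
* `exists_split` : the factorisation;
* `coeff_mem_iff` : Gauss: `c · splitPoly a b` has coefficients in `A` iff `c ∈ A`;
* `eval_eq_zero_iff_of_mem`, `eval_eq_zero_iff_of_notMem` : the roots of `splitPoly a b`.
-/

set_option autoImplicit false

noncomputable section

namespace Fermat.Agent.Lib.ValSplit

open Polynomial

variable {K : Type*} [Field K] (A : ValuationSubring K)

/-- `∏ (X - a_i) · ∏ (1 - b_t X) ∈ A[X]`. -/
def splitPoly (a b : Multiset A) : A[X] :=
  (a.map fun x => X - C x).prod * (b.map fun x => 1 - C x * X).prod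

theorem splitPoly_zero_zero : splitPoly A 0 0 = 1 := by simp [splitPoly]

theorem splitPoly_cons_left (x : A) (a b : Multiset A) :
    splitPoly A (x ::ₘ a) b = (X - C x) * splitPoly A a b := by
  simp [splitPoly, mul_assoc]

theorem splitPoly_cons_right (x : A) (a b : Multiset A) :
    splitPoly A a (x ::ₘ b) = (1 - C x * X) * splitPoly A a b := by
  simp only [splitPoly, Multiset.map_cons, Multiset.prod_cons]
  ring

/-- Evaluation of `splitPoly` along any ring homomorphism. -/
theorem eval₂_splitPoly {S : Type*} [CommRing S] (f : A →+* S) (s : S) (a b : Multiset A) :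
    (splitPoly A a b).eval₂ f s =
      (a.map fun x => s - f x).prod * (b.map fun x => 1 - f x * s).prod := by
  induction a using Multiset.induction with
  | empty =>
    induction b using Multiset.induction with
    | empty => simp [splitPoly_zero_zero]
    | cons x b ih =>
      rw [splitPoly_cons_right, eval₂_mul, ih]
      simp [eval₂_sub, eval₂_mul]
  | cons x a ih =>
    rw [splitPoly_cons_left, eval₂_mul, ih]
    simp only [eval₂_sub, eval₂_X, eval₂_C, Multiset.map_cons, Multiset.prod_cons]
    ring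

/-- The image of `splitPoly` under a ring homomorphism. -/
theorem map_splitPoly {S : Type*} [CommRing S] (f : A →+* S) (a b : Multiset A) :
    (splitPoly A a b).map f =
      (a.map fun x => X - C (f x)).prod * (b.map fun x => 1 - C (f x) * X).prod := by
  have h := eval₂_splitPoly A (C.comp f) (X : S[X]) a b
  simpa [Polynomial.map] using h

/-- `splitPoly` over `K`. -/
theorem map_subtype_splitPoly (a b : Multiset A) :
    (splitPoly A a b).map A.subtype =
      (a.map fun x => X - C (x : K)).prod * (b.map fun x => 1 - C (x : K) * X).prod := by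
  simpa using map_splitPoly A A.subtype a b

/-- **Reduction of `splitPoly`**: if the `b_t` lie in the maximal ideal, the reduction is the
monic polynomial `∏ (X - ā_i)`. -/
theorem map_residue_splitPoly (a b : Multiset A)
    (hb : ∀ x ∈ b, x ∈ IsLocalRing.maximalIdeal A) :
    (splitPoly A a b).map (IsLocalRing.residue A) =
      (a.map fun x => X - C (IsLocalRing.residue A x)).prod := by
  rw [map_splitPoly]
  have h1 : (b.map fun x => (1 : (IsLocalRing.ResidueField A)[X]) -
      C (IsLocalRing.residue A x) * X).prod = 1 := by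
    apply Multiset.prod_eq_one
    intro y hy
    obtain ⟨x, hx, rfl⟩ := Multiset.mem_map.1 hy
    have : IsLocalRing.residue A x = 0 := (IsLocalRing.residue_eq_zero_iff x).2 (hb x hx)
    simp [this]
  rw [h1, mul_one]

theorem monic_map_residue_splitPoly (a b : Multiset A)
    (hb : ∀ x ∈ b, x ∈ IsLocalRing.maximalIdeal A) :
    ((splitPoly A a b).map (IsLocalRing.residue A)).Monic := by
  rw [map_residue_splitPoly A a b hb]
  exact monic_multiset_prod_of_monic _ _ fun x _ => monic_X_sub_C _

theorem natDegree_map_residue_splitPoly (a b : Multiset A)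
    (hb : ∀ x ∈ b, x ∈ IsLocalRing.maximalIdeal A) :
    ((splitPoly A a b).map (IsLocalRing.residue A)).natDegree = Multiset.card a := by
  rw [map_residue_splitPoly A a b hb]
  have := natDegree_multiset_prod_X_sub_C_eq_card (a.map fun x => IsLocalRing.residue A x)
  simpa [Multiset.map_map] using this

theorem map_residue_splitPoly_ne_zero (a b : Multiset A)
    (hb : ∀ x ∈ b, x ∈ IsLocalRing.maximalIdeal A) :
    (splitPoly A a b).map (IsLocalRing.residue A) ≠ 0 :=
  (monic_map_residue_splitPoly A a b hb).ne_zero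

/-- If no `a_i` occurs, the reduction of `splitPoly` is the constant `1`. -/
theorem map_residue_splitPoly_zero (b : Multiset A)
    (hb : ∀ x ∈ b, x ∈ IsLocalRing.maximalIdeal A) :
    (splitPoly A 0 b).map (IsLocalRing.residue A) = 1 := by
  rw [map_residue_splitPoly A 0 b hb]; simp

theorem splitPoly_ne_zero (a b : Multiset A)
    (hb : ∀ x ∈ b, x ∈ IsLocalRing.maximalIdeal A) : splitPoly A a b ≠ 0 := by
  intro h
  apply map_residue_splitPoly_ne_zero A a b hb
  rw [h, Polynomial.map_zero]

theorem map_subtype_splitPoly_ne_zero (a b : Multiset A)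
    (hb : ∀ x ∈ b, x ∈ IsLocalRing.maximalIdeal A) : (splitPoly A a b).map A.subtype ≠ 0 := by
  intro h
  apply splitPoly_ne_zero A a b hb
  exact (Polynomial.map_eq_zero_iff (Subtype.val_injective)).1 h

/-! ## Gauss -/

/-- **Gauss lemma**: `c · splitPoly a b` has all its coefficients in `A` iff `c ∈ A`. -/
theorem coeff_mem_iff (a b : Multiset A) (hb : ∀ x ∈ b, x ∈ IsLocalRing.maximalIdeal A) (c : K) :
    (∀ i, (C c * (splitPoly A a b).map A.subtype).coeff i ∈ A) ↔ c ∈ A := by
  constructor
  · intro h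
    by_contra hc
    have hc0 : c ≠ 0 := fun h0 => hc (h0 ▸ A.zero_mem)
    have hinv : c⁻¹ ∈ A := (A.mem_or_inv_mem c).resolve_left hc
    have hmax : (⟨c⁻¹, hinv⟩ : A) ∈ IsLocalRing.maximalIdeal A := by
      rw [IsLocalRing.mem_maximalIdeal, mem_nonunits_iff]
      intro hu
      apply hc
      obtain ⟨u, hu⟩ := hu
      have h1 : ((u⁻¹ : Aˣ) : A) * (⟨c⁻¹, hinv⟩ : A) = 1 := by rw [← hu]; exact u.inv_mul
      have h2 : (((u⁻¹ : Aˣ) : A) : K) * c⁻¹ = 1 := by
        have := congrArg (Subtype.val) h1
        simpa using this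
      have h3 : (((u⁻¹ : Aˣ) : A) : K) = c := by
        field_simp at h2
        exact h2
      rw [← h3]
      exact ((u⁻¹ : Aˣ) : A).2
    apply map_residue_splitPoly_ne_zero A a b hb
    ext i
    rw [coeff_map, coeff_zero, IsLocalRing.residue_eq_zero_iff]
    have hi := h i
    rw [coeff_C_mul, coeff_map] at hi
    have e : (splitPoly A a b).coeff i = ⟨c⁻¹, hinv⟩ * ⟨_, hi⟩ := by
      apply Subtype.ext
      show ((splitPoly A a b).coeff i : K) = c⁻¹ * (c * A.subtype ((splitPoly A a b).coeff i))
      rw [← mul_assoc, inv_mul_cancel₀ hc0, one_mul]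
      rfl
    rw [e]
    exact Ideal.mul_mem_right _ _ hmax
  · intro hc i
    rw [coeff_C_mul, coeff_map]
    exact A.mul_mem _ _ hc ((splitPoly A a b).coeff i).2

/-! ## Roots -/

/-- A point of `A` is a root of `splitPoly a b` iff it is one of the `a_i`. -/
theorem eval_eq_zero_iff_of_mem (a b : Multiset A)
    (hb : ∀ x ∈ b, x ∈ IsLocalRing.maximalIdeal A) (x : A) :
    ((splitPoly A a b).map A.subtype).eval (x : K) = 0 ↔ x ∈ a := by
  rw [eval_map, eval₂_splitPoly, mul_eq_zero, Multiset.prod_eq_zero_iff, Multiset.prod_eq_zero_iff]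
  constructor
  · rintro (h | h)
    · obtain ⟨y, hy, hxy⟩ := Multiset.mem_map.1 h
      have : x = y := Subtype.ext (sub_eq_zero.1 hxy)
      rwa [this]
    · exfalso
      obtain ⟨y, hy, hxy⟩ := Multiset.mem_map.1 h
      have hmax := hb y hy
      rw [IsLocalRing.mem_maximalIdeal, mem_nonunits_iff] at hmax
      apply hmax
      have h1 : y * x = 1 := by
        apply Subtype.ext
        have : (1 : K) - (y : K) * (x : K) = 0 := hxy
        have := sub_eq_zero.1 this
        simpa using this.symm
      exact IsUnit.of_mul_eq_one x h1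
  · intro h
    exact Or.inl (Multiset.mem_map.2 ⟨x, h, sub_self _⟩)

/-- A point outside `A` is a root of `splitPoly a b` iff its inverse is one of the `b_t`. -/
theorem eval_eq_zero_iff_of_notMem (a b : Multiset A) {x : K} (hx : x ∉ A) :
    ((splitPoly A a b).map A.subtype).eval x = 0 ↔ ∃ y ∈ b, (y : K) = x⁻¹ := by
  have hx0 : x ≠ 0 := fun h0 => hx (h0 ▸ A.zero_mem)
  rw [eval_map, eval₂_splitPoly, mul_eq_zero, Multiset.prod_eq_zero_iff, Multiset.prod_eq_zero_iff]
  constructor
  · rintro (h | h)
    · exfalso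
      obtain ⟨y, hy, hxy⟩ := Multiset.mem_map.1 h
      apply hx
      have : x = (y : K) := sub_eq_zero.1 hxy
      rw [this]
      exact y.2
    · obtain ⟨y, hy, hxy⟩ := Multiset.mem_map.1 h
      refine ⟨y, hy, ?_⟩
      have : (1 : K) - (y : K) * x = 0 := hxy
      have h1 : (y : K) * x = 1 := (sub_eq_zero.1 this).symm
      exact eq_inv_of_mul_eq_one_left h1
  · rintro ⟨y, hy, hxy⟩
    refine Or.inr (Multiset.mem_map.2 ⟨y, hy, ?_⟩)
    show (1 : K) - (y : K) * x = 0
    rw [hxy, inv_mul_cancel₀ hx0, sub_self]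

/-! ## The factorisation -/

/-- A product of linear factors `∏ (X - r)` is `c · splitPoly a b`. -/
theorem exists_split_prod (m : Multiset K) :
    ∃ (c : K) (a b : Multiset A), c ≠ 0 ∧ (∀ x ∈ b, x ∈ IsLocalRing.maximalIdeal A) ∧
      (m.map fun r => X - C r).prod = C c * (splitPoly A a b).map A.subtype := by
  induction m using Multiset.induction with
  | empty => exact ⟨1, 0, 0, one_ne_zero, by simp, by simp [splitPoly_zero_zero]⟩
  | cons r m ih =>
    obtain ⟨c, a, b, hc, hb, h⟩ := ih
    by_cases hr : r ∈ A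
    · refine ⟨c, ⟨r, hr⟩ ::ₘ a, b, hc, hb, ?_⟩
      rw [Multiset.map_cons, Multiset.prod_cons, h, splitPoly_cons_left, Polynomial.map_mul]
      simp only [Polynomial.map_sub, map_X, map_C, ValuationSubring.subtype_apply]
      ring
    · have hr0 : r ≠ 0 := fun h0 => hr (h0 ▸ A.zero_mem)
      have hinv : r⁻¹ ∈ A := (A.mem_or_inv_mem r).resolve_left hr
      have hmax : (⟨r⁻¹, hinv⟩ : A) ∈ IsLocalRing.maximalIdeal A := by
        rw [IsLocalRing.mem_maximalIdeal, mem_nonunits_iff]
        intro hu
        apply hr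
        obtain ⟨u, hu⟩ := hu
        have h1 : ((u⁻¹ : Aˣ) : A) * (⟨r⁻¹, hinv⟩ : A) = 1 := by rw [← hu]; exact u.inv_mul
        have h2 : (((u⁻¹ : Aˣ) : A) : K) * r⁻¹ = 1 := by
          have := congrArg (Subtype.val) h1
          simpa using this
        have h3 : (((u⁻¹ : Aˣ) : A) : K) = r := by
          field_simp at h2
          exact h2
        rw [← h3]
        exact ((u⁻¹ : Aˣ) : A).2
      refine ⟨-r * c, a, ⟨r⁻¹, hinv⟩ ::ₘ b, mul_ne_zero (neg_ne_zero.2 hr0) hc, ?_, ?_⟩
      · intro x hx
        rcases Multiset.mem_cons.1 hx with rfl | hx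
        · exact hmax
        · exact hb x hx
      · rw [Multiset.map_cons, Multiset.prod_cons, h, splitPoly_cons_right, Polynomial.map_mul]
        simp only [Polynomial.map_sub, Polynomial.map_mul, Polynomial.map_one, map_X, map_C,
          ValuationSubring.subtype_apply]
        have e : (X : K[X]) - C r = C (-r) * (1 - C r⁻¹ * X) := by
          have h1 : (C (-r) : K[X]) * (C r⁻¹ * X) = -X := by
            rw [← mul_assoc, ← C_mul, neg_mul, mul_inv_cancel₀ hr0]
            simp
          rw [mul_sub, mul_one, h1, C_neg]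
          ring
        rw [e, C_mul]
        ring

/-- **The factorisation**: a nonzero polynomial over an algebraically closed field `K` is
`c · ∏ (X - a_i) · ∏ (1 - b_t X)` with `c ≠ 0`, `a_i ∈ A`, `b_t ∈ 𝔪_A`. -/
theorem exists_split [IsAlgClosed K] (P : K[X]) (hP : P ≠ 0) :
    ∃ (c : K) (a b : Multiset A), c ≠ 0 ∧ (∀ x ∈ b, x ∈ IsLocalRing.maximalIdeal A) ∧
      P = C c * (splitPoly A a b).map A.subtype := by
  obtain ⟨c, a, b, hc, hb, h⟩ := exists_split_prod A P.roots
  refine ⟨P.leadingCoeff * c, a, b, mul_ne_zero (leadingCoeff_ne_zero.2 hP) hc, hb, ?_⟩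
  have h1 := (IsAlgClosed.splits P).eq_prod_roots
  rw [C_mul, mul_assoc, ← h]
  exact h1

/-- Rational functions: `P / Q` with `P, Q ≠ 0`. -/
theorem exists_split_pair [IsAlgClosed K] (P Q : K[X]) (hP : P ≠ 0) (hQ : Q ≠ 0) :
    ∃ (c : K) (a b a' b' : Multiset A), c ≠ 0 ∧ (∀ x ∈ b, x ∈ IsLocalRing.maximalIdeal A) ∧
      (∀ x ∈ b', x ∈ IsLocalRing.maximalIdeal A) ∧
      P * (splitPoly A a' b').map A.subtype = C c * (splitPoly A a b).map A.subtype * Q := by
  obtain ⟨c, a, b, hc, hb, h⟩ := exists_split A P hP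
  obtain ⟨c', a', b', hc', hb', h'⟩ := exists_split A Q hQ
  refine ⟨c / c', a, b, a', b', div_ne_zero hc hc', hb, hb', ?_⟩
  rw [h, h']
  have : (C c : K[X]) = C (c / c') * C c' := by rw [← C_mul, div_mul_cancel₀ c hc']
  rw [this]
  ring

end Fermat.Agent.Lib.ValSplit

end
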