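import Mathlib
import Fermat.Agent.Lib.DedekindWeber.IntegralBasis

/-!
# Valuation subrings of a function field over the poles of a rational function

`L` a field over `RatFunc κ`, `t` the image of `X`, `r : RatFunc κ`.  The valuation subrings of
`L` (containing the constants) centred at a root of the denominator of `r`, or at `t = ∞` when
`deg num > deg denom`, are poles of `r`; these sets are pairwise disjoint; hence their
cardinalities add up to at most the number of poles of `r` in `L`.
-/

set_option linter.unusedSectionVars false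

namespace Fermat.Agent.Lib.ValsPoles

open Polynomial

section Val

variable {κ : Type*} [Field κ] {L : Type*} [Field L] [Algebra κ L]
variable {Γ₀ : Type*} [LinearOrderedCommGroupWithZero Γ₀] (v : Valuation L Γ₀)

/-- constants have valuation one -/
theorem val_const (hc : ∀ c : κ, v (algebraMap κ L c) ≤ 1) {c : κ} (hc0 : c ≠ 0) :
    v (algebraMap κ L c) = 1 := by
  refine le_antisymm (hc c) ?_
  have h1 : v (algebraMap κ L c) * v (algebraMap κ L c⁻¹) = 1 := by
    rw [← map_mul, ← map_mul, mul_inv_cancel₀ hc0, map_one, map_one]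
  have h2 := hc c⁻¹
  by_contra hlt
  rw [not_le] at hlt
  have : v (algebraMap κ L c) * v (algebraMap κ L c⁻¹) < 1 := by
    calc v (algebraMap κ L c) * v (algebraMap κ L c⁻¹) ≤ v (algebraMap κ L c) * 1 :=
          mul_le_mul_right h2 _
      _ = v (algebraMap κ L c) := mul_one _
      _ < 1 := hlt
  rw [h1] at this
  exact lt_irrefl _ this

theorem val_aeval_le_one (hc : ∀ c : κ, v (algebraMap κ L c) ≤ 1) {t : L} (ht : v t ≤ 1)
    (p : κ[X]) : v (aeval t p) ≤ 1 := by
  induction p using Polynomial.induction_on with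
  | C a => simpa using hc a
  | add p q hp hq =>
    rw [map_add]
    exact (v.map_add _ _).trans (max_le hp hq)
  | monomial n a _ =>
    rw [map_mul, map_pow, aeval_C, aeval_X, map_mul, map_pow]
    exact mul_le_one' (hc a) (pow_le_one' ht _)

theorem val_aeval_lt_one_iff (hc : ∀ c : κ, v (algebraMap κ L c) ≤ 1) {t : L} {a : κ}
    (hta : v (t - algebraMap κ L a) < 1) (p : κ[X]) :
    v (aeval t p) < 1 ↔ p.eval a = 0 := by
  have ht : v t ≤ 1 := by
    have : t = (t - algebraMap κ L a) + algebraMap κ L a := by ring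
    rw [this]
    exact (v.map_add _ _).trans (max_le hta.le (hc a))
  have hdecomp : aeval t p = (t - algebraMap κ L a) * aeval t (p /ₘ (X - C a))
      + algebraMap κ L (p.eval a) := by
    conv_lhs => rw [← Polynomial.modByMonic_add_div p (X - C a)]
    rw [Polynomial.modByMonic_X_sub_C_eq_C_eval]
    simp [add_comm]
  have hlt : v ((t - algebraMap κ L a) * aeval t (p /ₘ (X - C a))) < 1 := by
    rw [map_mul]
    calc v (t - algebraMap κ L a) * v (aeval t (p /ₘ (X - C a)))
        ≤ v (t - algebraMap κ L a) * 1 := mul_le_mul_right (val_aeval_le_one v hc ht _) _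
      _ = v (t - algebraMap κ L a) := mul_one _
      _ < 1 := hta
  constructor
  · intro h
    by_contra hne
    have h1 := val_const v hc hne
    have : v (aeval t p) = 1 := by
      rw [hdecomp, ← h1]
      exact Valuation.map_add_eq_of_lt_right v (by rw [h1]; exact hlt)
    rw [this] at h
    exact lt_irrefl _ h
  · intro h
    rw [hdecomp, h, map_zero, add_zero]
    exact hlt

theorem val_aeval_le_pow (hc : ∀ c : κ, v (algebraMap κ L c) ≤ 1) {t : L} (ht : 1 ≤ v t)
    (p : κ[X]) : v (aeval t p) ≤ v t ^ p.natDegree := by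
  rw [Polynomial.aeval_eq_sum_range]
  refine Valuation.map_sum_le v ?_
  intro i hi
  rw [Algebra.smul_def, map_mul, map_pow]
  have hi' : i ≤ p.natDegree := by
    rw [Finset.mem_range] at hi; omega
  calc v (algebraMap κ L (p.coeff i)) * v t ^ i ≤ 1 * v t ^ i := mul_le_mul_left (hc _) _
    _ = v t ^ i := one_mul _
    _ ≤ v t ^ p.natDegree := pow_le_pow_right₀ ht hi'

theorem val_aeval_eq_pow (hc : ∀ c : κ, v (algebraMap κ L c) ≤ 1) {t : L} (ht : 1 < v t)
    {p : κ[X]} (hp : p ≠ 0) : v (aeval t p) = v t ^ p.natDegree := by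
  have hlead : v (algebraMap κ L p.leadingCoeff * t ^ p.natDegree) = v t ^ p.natDegree := by
    rw [map_mul, map_pow, val_const v hc (Polynomial.leadingCoeff_ne_zero.mpr hp), one_mul]
  have hsplit : aeval t p = aeval t p.eraseLead + algebraMap κ L p.leadingCoeff * t ^ p.natDegree := by
    conv_lhs => rw [← Polynomial.eraseLead_add_C_mul_X_pow p]
    rw [map_add, map_mul, map_pow, aeval_C, aeval_X]
  rw [hsplit, ← hlead]
  refine Valuation.map_add_eq_of_lt_right v ?_
  rw [hlead]
  by_cases h0 : p.eraseLead = 0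
  · rw [h0, map_zero, map_zero]
    exact pow_pos (lt_trans zero_lt_one ht) _
  · have hdeg : p.eraseLead.natDegree < p.natDegree := by
      have := Polynomial.eraseLead_natDegree_lt_or_eraseLead_eq_zero p
      rcases this with h | h
      · exact h
      · exact absurd h h0
    calc v (aeval t p.eraseLead) ≤ v t ^ p.eraseLead.natDegree := val_aeval_le_pow v hc ht.le _
      _ < v t ^ p.natDegree := pow_lt_pow_right₀ ht hdeg

theorem val_aeval_eq_pow_rootMultiplicity (hc : ∀ c : κ, v (algebraMap κ L c) ≤ 1) {t : L} {a : κ}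
    (hta : v (t - algebraMap κ L a) < 1) {p : κ[X]} (hp : p ≠ 0) :
    v (aeval t p) = v (t - algebraMap κ L a) ^ p.rootMultiplicity a := by
  obtain ⟨q, hq, hndvd⟩ := Polynomial.exists_eq_pow_rootMultiplicity_mul_and_not_dvd p hp a
  have ht : v t ≤ 1 := by
    have : t = (t - algebraMap κ L a) + algebraMap κ L a := by ring
    rw [this]
    exact (v.map_add _ _).trans (max_le hta.le (hc a))
  have hq1 : v (aeval t q) = 1 := by
    refine le_antisymm (val_aeval_le_one v hc ht q) ?_
    by_contra hlt
    rw [not_le] at hlt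
    exact hndvd (Polynomial.dvd_iff_isRoot.mpr ((val_aeval_lt_one_iff v hc hta q).mp hlt))
  conv_lhs => rw [hq]
  rw [map_mul, map_pow, map_sub, aeval_X, aeval_C, map_mul, map_pow, hq1, mul_one]

/-- over an algebraically closed field, a polynomial expression of valuation `< 1` in an
integral `t` forces some `t - a` to have valuation `< 1`. -/
theorem exists_root_val_lt [IsAlgClosed κ] (hc : ∀ c : κ, v (algebraMap κ L c) ≤ 1) {t : L}
    (ht : v t ≤ 1) : ∀ (n : ℕ) (q : κ[X]), q.natDegree = n → q ≠ 0 → v (aeval t q) < 1 →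
      ∃ a : κ, v (t - algebraMap κ L a) < 1 := by
  intro n
  induction n with
  | zero =>
    intro q hq hq0 hlt
    exfalso
    rw [Polynomial.eq_C_of_natDegree_eq_zero hq, aeval_C] at hlt
    have hne : q.coeff 0 ≠ 0 := by
      intro h
      apply hq0
      rw [Polynomial.eq_C_of_natDegree_eq_zero hq, h, map_zero]
    rw [val_const v hc hne] at hlt
    exact lt_irrefl _ hlt
  | succ n ih =>
    intro q hq hq0 hlt
    have hdeg : q.degree ≠ 0 := by
      rw [Polynomial.degree_eq_natDegree hq0, hq]
      exact_mod_cast Nat.succ_ne_zero n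
    obtain ⟨a, ha⟩ := IsAlgClosed.exists_root q hdeg
    by_cases hta : v (t - algebraMap κ L a) < 1
    · exact ⟨a, hta⟩
    · have hta1 : v (t - algebraMap κ L a) = 1 := by
        refine le_antisymm ?_ (not_lt.mp hta)
        exact (v.map_sub _ _).trans (max_le ht (hc a))
      have hfac : (X - C a) * (q /ₘ (X - C a)) = q := Polynomial.mul_divByMonic_eq_iff_isRoot.mpr ha
      have hq'0 : q /ₘ (X - C a) ≠ 0 := by
        intro h
        rw [h, mul_zero] at hfac
        exact hq0 hfac.symm
      have hq'deg : (q /ₘ (X - C a)).natDegree = n := by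
        rw [Polynomial.natDegree_divByMonic q (Polynomial.monic_X_sub_C a), hq,
          Polynomial.natDegree_X_sub_C]
        rfl
      refine ih _ hq'deg hq'0 ?_
      have : v (aeval t q) = v (aeval t (q /ₘ (X - C a))) := by
        conv_lhs => rw [← hfac]
        rw [map_mul, map_mul, map_sub, aeval_X, aeval_C, hta1, one_mul]
      rw [← this]
      exact hlt

end Val

section RatFunc

variable {κ : Type*} [Field κ] {L : Type*} [Field L] [Algebra κ L]
  [Algebra (RatFunc κ) L] [IsScalarTower κ (RatFunc κ) L]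

theorem algebraMap_poly (p : κ[X]) :
    algebraMap (RatFunc κ) L (algebraMap κ[X] (RatFunc κ) p)
      = aeval (algebraMap (RatFunc κ) L RatFunc.X) p := by
  induction p using Polynomial.induction_on with
  | C a =>
    rw [aeval_C, RatFunc.algebraMap_C, ← RatFunc.algebraMap_eq_C,
      ← IsScalarTower.algebraMap_apply κ (RatFunc κ) L]
  | add p q hp hq => rw [map_add, map_add, map_add, hp, hq]
  | monomial n a _ =>
    rw [map_mul, map_mul, map_pow, map_pow, map_mul, map_pow, aeval_C, aeval_X,
      RatFunc.algebraMap_C, RatFunc.algebraMap_X, ← RatFunc.algebraMap_eq_C,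
      ← IsScalarTower.algebraMap_apply κ (RatFunc κ) L]

theorem algebraMap_eq_div (r : RatFunc κ) :
    algebraMap (RatFunc κ) L r
      = aeval (algebraMap (RatFunc κ) L RatFunc.X) r.num
        / aeval (algebraMap (RatFunc κ) L RatFunc.X) r.denom := by
  conv_lhs => rw [← RatFunc.num_div_denom r]
  rw [map_div₀, algebraMap_poly, algebraMap_poly]

theorem num_eval_ne_zero_of_denom_eval (r : RatFunc κ) {a : κ} (ha : r.denom.eval a = 0) :
    r.num.eval a ≠ 0 := by
  intro h
  obtain ⟨u, w, huw⟩ := RatFunc.isCoprime_num_denom r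
  have := congrArg (Polynomial.eval a) huw
  rw [eval_add, eval_mul, eval_mul, h, ha, mul_zero, mul_zero, add_zero, eval_one] at this
  exact zero_ne_one this

variable {Γ₀ : Type*} [LinearOrderedCommGroupWithZero Γ₀] (v : Valuation L Γ₀)

/-- (P1), finite point, valuation form. -/
theorem val_inv_lt_one_of_root (hc : ∀ c : κ, v (algebraMap κ L c) ≤ 1) {a : κ}
    (hta : v (algebraMap (RatFunc κ) L RatFunc.X - algebraMap κ L a) < 1) (r : RatFunc κ)
    (ha : r.denom.eval a = 0) : v (algebraMap (RatFunc κ) L r)⁻¹ < 1 := by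
  have ht : v (algebraMap (RatFunc κ) L RatFunc.X) ≤ 1 := by
    have : algebraMap (RatFunc κ) L RatFunc.X
        = (algebraMap (RatFunc κ) L RatFunc.X - algebraMap κ L a) + algebraMap κ L a := by ring
    rw [this]
    exact (v.map_add _ _).trans (max_le hta.le (hc a))
  have hnum : v (aeval (algebraMap (RatFunc κ) L RatFunc.X) r.num) = 1 := by
    refine le_antisymm (val_aeval_le_one v hc ht _) ?_
    by_contra hlt
    rw [not_le] at hlt
    exact num_eval_ne_zero_of_denom_eval r ha ((val_aeval_lt_one_iff v hc hta _).mp hlt)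
  have hden : v (aeval (algebraMap (RatFunc κ) L RatFunc.X) r.denom) < 1 :=
    (val_aeval_lt_one_iff v hc hta _).mpr ha
  rw [algebraMap_eq_div, inv_div, map_div₀, hnum, div_one]
  exact hden

/-- the valuation of a rational function at a valuation with `1 < v t`. -/
theorem val_eq_pow_div_pow (hc : ∀ c : κ, v (algebraMap κ L c) ≤ 1)
    (ht : 1 < v (algebraMap (RatFunc κ) L RatFunc.X)) {r : RatFunc κ} (hr : r ≠ 0) :
    v (algebraMap (RatFunc κ) L r)
      = v (algebraMap (RatFunc κ) L RatFunc.X) ^ r.num.natDegree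
        / v (algebraMap (RatFunc κ) L RatFunc.X) ^ r.denom.natDegree := by
  rw [algebraMap_eq_div, map_div₀, val_aeval_eq_pow v hc ht (RatFunc.num_ne_zero hr),
    val_aeval_eq_pow v hc ht (RatFunc.denom_ne_zero r)]

/-- (P1), point at infinity, valuation form. -/
theorem val_inv_lt_one_of_inf (hc : ∀ c : κ, v (algebraMap κ L c) ≤ 1)
    (ht : v (algebraMap (RatFunc κ) L RatFunc.X)⁻¹ < 1) (r : RatFunc κ)
    (hdeg : r.denom.natDegree < r.num.natDegree) : v (algebraMap (RatFunc κ) L r)⁻¹ < 1 := by
  have ht0 : v (algebraMap (RatFunc κ) L RatFunc.X) ≠ 0 :=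
    (Valuation.ne_zero_iff v).mpr ((_root_.map_ne_zero _).mpr RatFunc.X_ne_zero)
  have ht1 : 1 < v (algebraMap (RatFunc κ) L RatFunc.X) := by
    rw [map_inv₀] at ht
    exact (inv_lt_one₀ (zero_lt_iff.mpr ht0)).mp ht
  have hr : r ≠ 0 := by
    rintro rfl
    simp at hdeg
  rw [map_inv₀, val_eq_pow_div_pow v hc ht1 hr, inv_div]
  rw [div_lt_one₀ (pow_pos (zero_lt_iff.mpr ht0) _)]
  exact pow_lt_pow_right₀ ht1 hdeg

/-! ### The sets of valuation subrings -/

variable (κ L)

/-- valuation subrings of `L` containing the constants and centred at the finite point `t = a`. -/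
def valsAt (a : κ) : Set (ValuationSubring L) :=
  {V | (∀ c : κ, algebraMap κ L c ∈ V) ∧
    algebraMap (RatFunc κ) L RatFunc.X - algebraMap κ L a ∈ V.nonunits}

/-- valuation subrings of `L` containing the constants and centred at `t = ∞`. -/
def valsInf : Set (ValuationSubring L) :=
  {V | (∀ c : κ, algebraMap κ L c ∈ V) ∧ (algebraMap (RatFunc κ) L RatFunc.X)⁻¹ ∈ V.nonunits}

/-- valuation subrings of `L` containing the constants at which `r` has a pole (`r⁻¹` is a
non-unit). -/
def cusps (r : RatFunc κ) : Set (ValuationSubring L) :=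
  {V | (∀ c : κ, algebraMap κ L c ∈ V) ∧ (algebraMap (RatFunc κ) L r)⁻¹ ∈ V.nonunits}

variable {κ L}

theorem mem_valsAt {a : κ} {V : ValuationSubring L} :
    V ∈ valsAt κ L a ↔ (∀ c : κ, algebraMap κ L c ∈ V) ∧
      algebraMap (RatFunc κ) L RatFunc.X - algebraMap κ L a ∈ V.nonunits := Iff.rfl

theorem mem_valsInf {V : ValuationSubring L} :
    V ∈ valsInf κ L ↔ (∀ c : κ, algebraMap κ L c ∈ V) ∧
      (algebraMap (RatFunc κ) L RatFunc.X)⁻¹ ∈ V.nonunits := Iff.rfl

theorem mem_cusps {r : RatFunc κ} {V : ValuationSubring L} :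
    V ∈ cusps κ L r ↔ (∀ c : κ, algebraMap κ L c ∈ V) ∧
      (algebraMap (RatFunc κ) L r)⁻¹ ∈ V.nonunits := Iff.rfl

theorem val_const_le_one {V : ValuationSubring L} (hc : ∀ c : κ, algebraMap κ L c ∈ V) (c : κ) :
    V.valuation (algebraMap κ L c) ≤ 1 := (V.valuation_le_one_iff _).mpr (hc c)

/-- **(P1), finite points.** A valuation subring centred at a root of the denominator of `r`
is a pole of `r`. -/
theorem valsAt_subset_cusps {r : RatFunc κ} {a : κ} (ha : r.denom.eval a = 0) :
    valsAt κ L a ⊆ cusps κ L r := by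
  rintro V ⟨hc, hta⟩
  refine ⟨hc, ?_⟩
  rw [ValuationSubring.mem_nonunits_iff] at hta ⊢
  exact val_inv_lt_one_of_root V.valuation (val_const_le_one hc) hta r ha

/-- **(P1), infinity.** If `deg num > deg denom`, a valuation subring centred at `t = ∞` is a
pole of `r`. -/
theorem valsInf_subset_cusps {r : RatFunc κ} (hdeg : r.denom.natDegree < r.num.natDegree) :
    valsInf κ L ⊆ cusps κ L r := by
  rintro V ⟨hc, ht⟩
  refine ⟨hc, ?_⟩
  rw [ValuationSubring.mem_nonunits_iff] at ht ⊢
  exact val_inv_lt_one_of_inf V.valuation (val_const_le_one hc) ht r hdeg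

/-- **(P2).** Distinct finite points have disjoint sets of valuation subrings. -/
theorem disjoint_valsAt {a b : κ} (hab : a ≠ b) : Disjoint (valsAt κ L a) (valsAt κ L b) := by
  rw [Set.disjoint_left]
  rintro V ⟨hc, hta⟩ ⟨-, htb⟩
  rw [ValuationSubring.mem_nonunits_iff] at hta htb
  have hne : b - a ≠ 0 := sub_ne_zero.mpr (Ne.symm hab)
  have h1 := val_const V.valuation (val_const_le_one hc) hne
  have h2 : algebraMap κ L (b - a) = (algebraMap (RatFunc κ) L RatFunc.X - algebraMap κ L a)
      - (algebraMap (RatFunc κ) L RatFunc.X - algebraMap κ L b) := by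
    rw [map_sub]; ring
  rw [h2] at h1
  have h3 := (V.valuation.map_sub _ _).trans_lt (max_lt hta htb)
  rw [h1] at h3
  exact lt_irrefl _ h3

/-- **(P2).** Finite points and the point at infinity have disjoint sets of valuation subrings. -/
theorem disjoint_valsAt_valsInf (a : κ) : Disjoint (valsAt κ L a) (valsInf κ L) := by
  rw [Set.disjoint_left]
  rintro V ⟨hc, hta⟩ ⟨-, ht⟩
  have htV : algebraMap (RatFunc κ) L RatFunc.X ∈ V := by
    have : algebraMap (RatFunc κ) L RatFunc.X
        = (algebraMap (RatFunc κ) L RatFunc.X - algebraMap κ L a) + algebraMap κ L a := by ring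
    rw [this]
    exact V.add_mem _ _ (ValuationSubring.nonunits_subset hta) (hc a)
  rw [ValuationSubring.mem_nonunits_iff, map_inv₀] at ht
  rw [← V.valuation_le_one_iff] at htV
  have ht0 : V.valuation (algebraMap (RatFunc κ) L RatFunc.X) ≠ 0 :=
    (Valuation.ne_zero_iff _).mpr ((_root_.map_ne_zero _).mpr RatFunc.X_ne_zero)
  exact absurd ((inv_lt_one₀ (zero_lt_iff.mpr ht0)).mp ht) (not_lt.mpr htV)

/-- **(P3), `ncard` form.** The valuation subrings over finitely many roots of the denominator
of `r` (and over `∞` when `deg num > deg denom`) are counted by the poles of `r`. -/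
theorem sum_ncard_le (r : RatFunc κ) (S : Finset κ) (hS : ∀ a ∈ S, r.denom.eval a = 0)
    (hfin : (cusps κ L r).Finite) :
    ∑ a ∈ S, (valsAt κ L a).ncard
        + (if r.denom.natDegree < r.num.natDegree then (valsInf κ L).ncard else 0)
      ≤ (cusps κ L r).ncard := by
  classical
  have hsub : ∀ a ∈ S, valsAt κ L a ⊆ cusps κ L r := fun a ha => valsAt_subset_cusps (hS a ha)
  have hdisj : (S : Set κ).PairwiseDisjoint (fun a => valsAt κ L a) := by
    intro a _ b _ hab
    exact disjoint_valsAt hab
  have hU : (⋃ a ∈ S, valsAt κ L a).ncard = ∑ a ∈ S, (valsAt κ L a).ncard := by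
    have hfinA : ∀ a ∈ S, (valsAt κ L a).Finite := fun a ha => hfin.subset (hsub a ha)
    have hUfin : (⋃ a ∈ S, valsAt κ L a).Finite := S.finite_toSet.biUnion hfinA
    rw [Set.ncard_eq_toFinset_card _ hUfin]
    have : hUfin.toFinset = S.attach.biUnion (fun a => (hfinA a.1 a.2).toFinset) := by
      ext V
      simp only [Set.Finite.mem_toFinset, Set.mem_iUnion, exists_prop, Finset.mem_biUnion,
        Finset.mem_attach, true_and, Subtype.exists]
    rw [this, Finset.card_biUnion]
    · rw [← Finset.sum_attach S (fun a => (valsAt κ L a).ncard)]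
      refine Finset.sum_congr rfl ?_
      intro a _
      rw [Set.ncard_eq_toFinset_card _ (hfinA a.1 a.2)]
    · intro a _ b _ hab
      change Disjoint (hfinA a.1 a.2).toFinset (hfinA b.1 b.2).toFinset
      rw [Finset.disjoint_left]
      intro V hVa hVb
      rw [Set.Finite.mem_toFinset] at hVa hVb
      have hab' : a.1 ≠ b.1 := fun h => hab (Subtype.ext h)
      exact Set.disjoint_left.mp (disjoint_valsAt hab') hVa hVb
  have hUsub : (⋃ a ∈ S, valsAt κ L a) ⊆ cusps κ L r := Set.iUnion₂_subset hsub
  rw [← hU]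
  split_ifs with hdeg
  · have hdisj2 : Disjoint (⋃ a ∈ S, valsAt κ L a) (valsInf κ L) := by
      rw [Set.disjoint_iUnion₂_left]
      intro a _
      exact disjoint_valsAt_valsInf a
    have hIsub : valsInf κ L ⊆ cusps κ L r := valsInf_subset_cusps hdeg
    rw [← Set.ncard_union_eq hdisj2 (hfin.subset hUsub) (hfin.subset hIsub)]
    exact Set.ncard_le_ncard (Set.union_subset hUsub hIsub) hfin
  · rw [add_zero]
    exact Set.ncard_le_ncard hUsub hfin

/-- **(P3), `Nat.card` form.** -/
theorem sum_natCard_le (r : RatFunc κ) (S : Finset κ) (hS : ∀ a ∈ S, r.denom.eval a = 0)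
    (hfin : (cusps κ L r).Finite) :
    ∑ a ∈ S, Nat.card (valsAt κ L a)
        + (if r.denom.natDegree < r.num.natDegree then Nat.card (valsInf κ L) else 0)
      ≤ Nat.card (cusps κ L r) := by
  simp only [Nat.card_coe_set_eq]
  exact sum_ncard_le r S hS hfin

/-! ### Bridges to other spellings of `Vals(κ[X], X - a)` and `Vals(O_∞, X⁻¹)` -/

theorem mem_valsAt_iff_poly {a : κ} {V : ValuationSubring L} :
    V ∈ valsAt κ L a ↔
      (∀ p : κ[X], algebraMap (RatFunc κ) L (algebraMap κ[X] (RatFunc κ) p) ∈ V) ∧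
        algebraMap (RatFunc κ) L (algebraMap κ[X] (RatFunc κ) (X - C a)) ∈ V.nonunits := by
  have hXa : algebraMap (RatFunc κ) L (algebraMap κ[X] (RatFunc κ) (X - C a))
      = algebraMap (RatFunc κ) L RatFunc.X - algebraMap κ L a := by
    rw [algebraMap_poly, map_sub, aeval_X, aeval_C]
  rw [hXa]
  constructor
  · rintro ⟨hc, hta⟩
    refine ⟨fun p => ?_, hta⟩
    have htV : algebraMap (RatFunc κ) L RatFunc.X ∈ V := by
      have : algebraMap (RatFunc κ) L RatFunc.X
          = (algebraMap (RatFunc κ) L RatFunc.X - algebraMap κ L a) + algebraMap κ L a := by ring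
      rw [this]
      exact V.add_mem _ _ (ValuationSubring.nonunits_subset hta) (hc a)
    rw [algebraMap_poly, ← V.valuation_le_one_iff]
    exact val_aeval_le_one V.valuation (val_const_le_one hc)
      ((V.valuation_le_one_iff _).mpr htV) p
  · rintro ⟨hp, hta⟩
    refine ⟨fun c => ?_, hta⟩
    have := hp (C c)
    rwa [algebraMap_poly, aeval_C] at this

theorem mem_valsInf_iff_Oinf [DecidableEq (RatFunc κ)] {V : ValuationSubring L} :
    V ∈ valsInf κ L ↔
      (∀ f : RatFunc κ, f ∈ Lib.DedekindWeber.Oinf κ → algebraMap (RatFunc κ) L f ∈ V) ∧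
        algebraMap (RatFunc κ) L (RatFunc.X)⁻¹ ∈ V.nonunits := by
  rw [map_inv₀]
  constructor
  · rintro ⟨hc, ht⟩
    refine ⟨fun f hf => ?_, ht⟩
    rcases eq_or_ne f 0 with rfl | hf0
    · rw [map_zero]; exact V.zero_mem
    have ht' := ht
    rw [ValuationSubring.mem_nonunits_iff, map_inv₀] at ht'
    have ht0 : V.valuation (algebraMap (RatFunc κ) L RatFunc.X) ≠ 0 :=
      (Valuation.ne_zero_iff _).mpr ((_root_.map_ne_zero _).mpr RatFunc.X_ne_zero)
    have ht1 : 1 < V.valuation (algebraMap (RatFunc κ) L RatFunc.X) :=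
      (inv_lt_one₀ (zero_lt_iff.mpr ht0)).mp ht'
    have hdeg : f.num.natDegree ≤ f.denom.natDegree := by
      have h1 : RatFunc.inftyValuation κ f ≤ 1 := (Valuation.mem_valuationSubring_iff _ _).mp hf
      rw [RatFunc.inftyValuation_apply, RatFunc.inftyValuation_of_nonzero κ hf0,
        ← WithZero.exp_zero, WithZero.exp_le_exp] at h1
      unfold RatFunc.intDegree at h1
      omega
    rw [← V.valuation_le_one_iff, val_eq_pow_div_pow V.valuation (val_const_le_one hc) ht1 hf0,
      div_le_one₀ (pow_pos (zero_lt_iff.mpr ht0) _)]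
    exact pow_le_pow_right₀ ht1.le hdeg
  · rintro ⟨hO, ht⟩
    refine ⟨fun c => ?_, ht⟩
    have hmem : algebraMap κ (RatFunc κ) c ∈ Lib.DedekindWeber.Oinf κ := by
      rw [Valuation.mem_valuationSubring_iff]
      rcases eq_or_ne c 0 with rfl | hc0
      · simp
      · exact (RatFunc.inftyValuation.C κ hc0).le
    have := hO _ hmem
    rwa [← IsScalarTower.algebraMap_apply κ (RatFunc κ) L] at this

end RatFunc

end Fermat.Agent.Lib.ValsPoles
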