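import Mathlib

/-!
# An orbit formula for Weil-type theta families (helper77; S16 lower bound, theta route)

Let `q ≡ 3 mod 4` be a prime and `θ : ZMod q → (ℍ → ℂ)` a family of functions with the `T`- and
`S`-transformation laws of the coset theta functions of a positive definite binary quadratic form
of discriminant `-q`.  Then the whole `SL(2, ℤ)`-orbit of `θ 0` is explicit:
for `γ` with bottom row `(c, e)`,

* `θ 0 ∣[k] γ = (e / q) • θ 0` if `q ∣ c`,
* `θ 0 ∣[k] γ = cS * (c / q) • ∑ j, ψ (c⁻¹ e j²) • θ j` otherwise.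

The proof is by induction on right multiplication by the generators `S`, `T` of `SL(2, ℤ)`; no
generating set of `Γ₀(q)` and no evaluation of the sign of the quadratic Gauss sum are needed
(the relation `cS * g = 1` follows from `S T S = T⁻¹ S T⁻¹`).
-/

set_option autoImplicit false

namespace Fermat.Agent.Lib.WeilOrbit

open UpperHalfPlane
open scoped MatrixGroups ModularForm

/-! ## Finite sums over `ZMod q` -/

section FiniteSums

variable {q : ℕ} [Fact q.Prime]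

/-- The quadratic character of `ZMod q` with values in `ℂ`. -/
noncomputable def chi (q : ℕ) [Fact q.Prime] (x : ZMod q) : ℂ :=
  ((quadraticChar (ZMod q) x : ℤ) : ℂ)

theorem chi_zero : chi q 0 = 0 := by simp [chi]

theorem chi_one : chi q 1 = 1 := by simp [chi]

theorem chi_mul (x y : ZMod q) : chi q (x * y) = chi q x * chi q y := by
  unfold chi
  rw [map_mul, Int.cast_mul]

theorem chi_sq {x : ZMod q} (hx : x ≠ 0) : chi q x * chi q x = 1 := by
  have h := quadraticChar_sq_one hx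
  have h2 : (((quadraticChar (ZMod q) x : ℤ) ^ 2 : ℤ) : ℂ) = 1 := by rw [h]; simp
  rw [← h2]; simp [chi, pow_two]

theorem chi_ne_zero {x : ZMod q} (hx : x ≠ 0) : chi q x ≠ 0 := by
  intro h
  have := chi_sq hx
  rw [h] at this
  simp at this

theorem chi_inv {x : ZMod q} (hx : x ≠ 0) : chi q x⁻¹ = chi q x := by
  have h1 : chi q x⁻¹ * chi q x = 1 := by
    rw [← chi_mul, inv_mul_cancel₀ hx, chi_one]
  have h2 := chi_sq hx
  exact mul_right_cancel₀ (chi_ne_zero hx) (h1.trans h2.symm)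

theorem two_ne_zero_of_mod_four (hq : q % 4 = 3) : (2 : ZMod q) ≠ 0 := by
  intro h
  have h2 : ((2 : ℕ) : ZMod q) = 0 := by exact_mod_cast h
  rw [ZMod.natCast_eq_zero_iff] at h2
  have := Nat.le_of_dvd (by norm_num) h2
  have hq2 : q = 2 := by
    have := (Fact.out : q.Prime).two_le
    omega
  omega

theorem ringChar_ne_two_of_mod_four (hq : q % 4 = 3) : ringChar (ZMod q) ≠ 2 := by
  rw [ZMod.ringChar_zmod_n]
  omega

theorem chi_neg_one (hq : q % 4 = 3) : chi q (-1) = -1 := by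
  have h : quadraticChar (ZMod q) (-1) = -1 := by
    rw [quadraticChar_neg_one_iff_not_isSquare, FiniteField.isSquare_neg_one_iff, ZMod.card]
    simp [hq]
  simp [chi, h]

theorem chi_neg (hq : q % 4 = 3) (x : ZMod q) : chi q (-x) = -chi q x := by
  rw [← neg_one_mul, chi_mul, chi_neg_one hq, neg_one_mul]

/-- Sums over squares: `∑ x, f (x²) = ∑ y, (χ(y) + 1) f(y)`. -/
theorem sum_comp_sq (hq : q % 4 = 3) (f : ZMod q → ℂ) :
    ∑ x : ZMod q, f (x ^ 2) = ∑ y : ZMod q, (chi q y + 1) * f y := by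
  classical
  rw [← Finset.sum_fiberwise (Finset.univ : Finset (ZMod q)) (fun x => x ^ 2) (fun x => f (x ^ 2))]
  refine Finset.sum_congr rfl fun y _ => ?_
  have h1 : ∀ x ∈ Finset.univ.filter (fun x : ZMod q => x ^ 2 = y), f (x ^ 2) = f y := by
    intro x hx
    rw [(Finset.mem_filter.mp hx).2]
  rw [Finset.sum_congr rfl h1, Finset.sum_const, nsmul_eq_mul]
  congr 1
  have h2 := quadraticChar_card_sqrts (ringChar_ne_two_of_mod_four hq) y
  have h3 : (Finset.univ.filter (fun x : ZMod q => x ^ 2 = y)).card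
      = ({x : ZMod q | x ^ 2 = y} : Set (ZMod q)).toFinset.card := by
    congr 1
    ext x
    simp
  rw [h3]
  have h4 : (((({x : ZMod q | x ^ 2 = y} : Set (ZMod q)).toFinset.card : ℕ) : ℤ) : ℂ)
      = ((quadraticChar (ZMod q) y + 1 : ℤ) : ℂ) := by rw [h2]
  simpa [chi] using h4

variable {ψ : AddChar (ZMod q) ℂ}

/-- The quadratic Gauss sum `g = ∑ x, ψ (x²)`. -/
noncomputable def gS (ψ : AddChar (ZMod q) ℂ) : ℂ := ∑ x : ZMod q, ψ (x ^ 2)

theorem sum_char_mul (hψ : ψ ≠ 1) (a : ZMod q) :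
    ∑ x : ZMod q, ψ (a * x) = if a = 0 then (q : ℂ) else 0 := by
  classical
  have h := AddChar.sum_mulShift (ψ := ψ) a (AddChar.IsPrimitive.of_ne_one hψ)
  simp_rw [mul_comm a]
  rw [h, ZMod.card]
  split_ifs <;> simp

/-- `∑ x, ψ (s x²) = χ(s) g` for `s ≠ 0`. -/
theorem sum_char_sq (hq : q % 4 = 3) (hψ : ψ ≠ 1) {s : ZMod q} (hs : s ≠ 0) :
    ∑ x : ZMod q, ψ (s * x ^ 2) = chi q s * gS ψ := by
  have key : ∀ t : ZMod q, t ≠ 0 →
      ∑ x : ZMod q, ψ (t * x ^ 2) = ∑ y : ZMod q, chi q y * ψ (t * y) := by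
    intro t ht
    rw [sum_comp_sq hq (fun y => ψ (t * y))]
    simp_rw [add_mul, one_mul]
    rw [Finset.sum_add_distrib, sum_char_mul hψ t, if_neg ht, add_zero]
  have h1 : gS ψ = ∑ y : ZMod q, chi q y * ψ y := by
    have := key 1 one_ne_zero
    simpa [gS] using this
  rw [key s hs, h1, Finset.mul_sum]
  -- reindex `y ↦ s⁻¹ y`
  rw [← Equiv.sum_comp (Equiv.mulLeft₀ s⁻¹ (inv_ne_zero hs))
    (fun y => chi q y * ψ (s * y))]
  refine Finset.sum_congr rfl fun y _ => ?_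
  show chi q (s⁻¹ * y) * ψ (s * (s⁻¹ * y)) = chi q s * (chi q y * ψ y)
  rw [chi_mul, chi_inv hs, mul_inv_cancel_left₀ hs, mul_assoc]

/-- Completing the square. -/
theorem sum_char_quad (hq : q % 4 = 3) (hψ : ψ ≠ 1) {b : ZMod q} (hb : b ^ 2 = 4) {s : ZMod q}
    (hs : s ≠ 0) (j : ZMod q) :
    ∑ i : ZMod q, ψ (s * i ^ 2 + b * i * j) = ψ (-(s⁻¹ * j ^ 2)) * (chi q s * gS ψ) := by
  have h2 := two_ne_zero_of_mod_four hq
  rw [← sum_char_sq hq hψ hs, Finset.mul_sum]
  rw [← Equiv.sum_comp (Equiv.addRight (b * 2⁻¹ * s⁻¹ * j))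
    (fun i => ψ (-(s⁻¹ * j ^ 2)) * ψ (s * i ^ 2))]
  refine Finset.sum_congr rfl fun i _ => ?_
  simp only [Equiv.coe_addRight]
  rw [← AddChar.map_add_eq_mul]
  congr 1
  have h4 : (4 : ZMod q) = 2 * 2 := by norm_num
  have hb' : b * 2⁻¹ * (b * 2⁻¹) = 1 := by
    have : b * 2⁻¹ * (b * 2⁻¹) = b ^ 2 * (2⁻¹ * 2⁻¹) := by ring
    rw [this, hb, h4]
    field_simp
  have e1 : s * (i + b * 2⁻¹ * s⁻¹ * j) ^ 2
      = s * i ^ 2 + (2 * 2⁻¹) * (s * s⁻¹) * (b * i * j)
        + (b * 2⁻¹ * (b * 2⁻¹)) * (s * s⁻¹) * (s⁻¹ * j ^ 2) := by ring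
  rw [e1, hb', mul_inv_cancel₀ hs, mul_inv_cancel₀ h2]
  ring

end FiniteSums

/-! ## Weil families and the orbit formula -/

/-- A family `θ : ZMod q → (ℍ → ℂ)` with the `T`- and `S`-laws of the Weil representation of the
discriminant form `(ℤ/q, x ↦ x²/q)`: the laws of the coset theta functions of a positive definite
binary quadratic form of discriminant `-q`.  `b = ±2` is the sign convention of the `S`-kernel
and `cS = -i/√q`. -/
structure IsWeilFamily (q : ℕ) [NeZero q] (k : ℤ) (ψ : AddChar (ZMod q) ℂ) (b : ZMod q) (cS : ℂ)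
    (θ : ZMod q → ℍ → ℂ) : Prop where
  slash_T : ∀ j, θ j ∣[k] ModularGroup.T = ψ (j ^ 2) • θ j
  slash_S : ∀ j, θ j ∣[k] ModularGroup.S = cS • ∑ i, ψ (b * i * j) • θ i
  b_sq : b ^ 2 = 4
  cS_sq : cS ^ 2 * q = -1
  ne_zero : θ 0 ≠ 0

section Orbit

variable {q : ℕ} [Fact q.Prime] {k : ℤ} {ψ : AddChar (ZMod q) ℂ} {b : ZMod q} {cS : ℂ}
  {θ : ZMod q → ℍ → ℂ}

/-- The linear combination `∑ j, w j • θ j`. -/
noncomputable def comb (θ : ZMod q → ℍ → ℂ) (w : ZMod q → ℂ) : ℍ → ℂ := ∑ j, w j • θ j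

/-- The explicit orbit of `θ 0`, as a function of the bottom row `(c, e)` modulo `q`. -/
noncomputable def orb (ψ : AddChar (ZMod q) ℂ) (cS : ℂ) (θ : ZMod q → ℍ → ℂ) (c e : ZMod q) :
    ℍ → ℂ :=
  if c = 0 then chi q e • θ 0 else (cS * chi q c) • comb θ (fun j => ψ (c⁻¹ * e * j ^ 2))

theorem addChar_ne_zero (ψ : AddChar (ZMod q) ℂ) (x : ZMod q) : ψ x ≠ 0 := by
  intro h0
  have h1 : ψ x * ψ (-x) = 1 := by
    rw [← AddChar.map_add_eq_mul, add_neg_cancel, AddChar.map_zero_eq_one]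
  rw [h0, zero_mul] at h1
  exact zero_ne_one h1

namespace IsWeilFamily

theorem cS_ne_zero (h : IsWeilFamily q k ψ b cS θ) : cS ≠ 0 := by
  intro h0
  have := h.cS_sq
  rw [h0] at this
  norm_num at this

theorem slash_T_inv (h : IsWeilFamily q k ψ b cS θ) (j : ZMod q) :
    θ j ∣[k] ModularGroup.T⁻¹ = ψ (-(j ^ 2)) • θ j := by
  have h2 : (θ j ∣[k] ModularGroup.T) ∣[k] ModularGroup.T⁻¹ = θ j := by
    rw [← SlashAction.slash_mul, mul_inv_cancel, SlashAction.slash_one]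
  rw [h.slash_T j, ModularForm.SL_smul_slash] at h2
  rw [AddChar.map_neg_eq_inv]
  calc θ j ∣[k] ModularGroup.T⁻¹
      = (ψ (j ^ 2))⁻¹ • (ψ (j ^ 2) • (θ j ∣[k] ModularGroup.T⁻¹)) := by
        rw [smul_smul, inv_mul_cancel₀ (addChar_ne_zero ψ _), one_smul]
    _ = (ψ (j ^ 2))⁻¹ • θ j := by rw [h2]

theorem comb_slash_T (h : IsWeilFamily q k ψ b cS θ) (w : ZMod q → ℂ) :
    comb θ w ∣[k] ModularGroup.T = comb θ (fun j => w j * ψ (j ^ 2)) := by
  unfold comb
  rw [SlashAction.sum_slash]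
  refine Finset.sum_congr rfl fun j _ => ?_
  rw [ModularForm.SL_smul_slash, h.slash_T, smul_smul]

theorem comb_slash_T_inv (h : IsWeilFamily q k ψ b cS θ) (w : ZMod q → ℂ) :
    comb θ w ∣[k] ModularGroup.T⁻¹ = comb θ (fun j => w j * ψ (-(j ^ 2))) := by
  unfold comb
  rw [SlashAction.sum_slash]
  refine Finset.sum_congr rfl fun j _ => ?_
  rw [ModularForm.SL_smul_slash, h.slash_T_inv, smul_smul]

theorem comb_slash_S (h : IsWeilFamily q k ψ b cS θ) (w : ZMod q → ℂ) :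
    comb θ w ∣[k] ModularGroup.S = cS • comb θ (fun i => ∑ j, w j * ψ (b * i * j)) := by
  unfold comb
  rw [SlashAction.sum_slash]
  simp_rw [ModularForm.SL_smul_slash, h.slash_S, Finset.smul_sum, smul_smul]
  rw [Finset.sum_comm]
  refine Finset.sum_congr rfl fun i _ => ?_
  rw [Finset.mul_sum, Finset.sum_smul]
  refine Finset.sum_congr rfl fun j _ => ?_
  congr 1
  ring

theorem comb_single (θ : ZMod q → ℍ → ℂ) :
    comb θ (fun j => if j = 0 then 1 else 0) = θ 0 := by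
  classical
  unfold comb
  simp [ite_smul]

theorem theta_zero_slash_S (h : IsWeilFamily q k ψ b cS θ) :
    θ 0 ∣[k] ModularGroup.S = cS • comb θ (fun _ => 1) := by
  rw [h.slash_S 0]
  unfold comb
  simp

/-- The sign of the Gauss sum, from `S T S = T⁻¹ S T⁻¹`. -/
theorem cS_mul_gS (h : IsWeilFamily q k ψ b cS θ) (hq : q % 4 = 3) (hψ : ψ ≠ 1) :
    cS * gS ψ = 1 := by
  have e : ModularGroup.S * ModularGroup.T * ModularGroup.S
      = ModularGroup.T⁻¹ * ModularGroup.S * ModularGroup.T⁻¹ := by decide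
  have hL : θ 0 ∣[k] (ModularGroup.S * ModularGroup.T * ModularGroup.S)
      = (cS * cS * gS ψ) • comb θ (fun i => ψ (-(i ^ 2))) := by
    rw [SlashAction.slash_mul, SlashAction.slash_mul, h.theta_zero_slash_S,
      ModularForm.SL_smul_slash, h.comb_slash_T, ModularForm.SL_smul_slash, h.comb_slash_S,
      smul_smul]
    have hw : (fun i : ZMod q => ∑ j : ZMod q, 1 * ψ (j ^ 2) * ψ (b * i * j))
        = fun i => gS ψ * ψ (-(i ^ 2)) := by
      funext i
      have := sum_char_quad hq hψ h.b_sq (one_ne_zero) i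
      rw [chi_one, one_mul, inv_one, one_mul] at this
      rw [mul_comm (gS ψ), ← this]
      refine Finset.sum_congr rfl fun j _ => ?_
      rw [one_mul, ← AddChar.map_add_eq_mul]
      congr 1
      ring
    rw [hw]
    unfold comb
    rw [Finset.smul_sum, Finset.smul_sum]
    refine Finset.sum_congr rfl fun j _ => ?_
    rw [smul_smul, smul_smul]
    congr 1
    ring
  have hR : θ 0 ∣[k] (ModularGroup.T⁻¹ * ModularGroup.S * ModularGroup.T⁻¹)
      = cS • comb θ (fun i => ψ (-(i ^ 2))) := by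
    rw [SlashAction.slash_mul, SlashAction.slash_mul, h.slash_T_inv 0]
    have : ψ (-((0 : ZMod q) ^ 2)) = 1 := by simp
    rw [this, one_smul, h.theta_zero_slash_S, ModularForm.SL_smul_slash, h.comb_slash_T_inv]
    simp
  have hM : comb θ (fun i => ψ (-(i ^ 2))) ≠ 0 := by
    intro h0
    rw [h0, smul_zero] at hR
    exact h.ne_zero ((SlashAction.slash_eq_zero_iff _ _ _).mp hR)
  rw [e, hR] at hL
  have h3 : (cS - cS * cS * gS ψ) • comb θ (fun i => ψ (-(i ^ 2))) = 0 := by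
    rw [sub_smul, ← hL, sub_self]
  rcases smul_eq_zero.mp h3 with h4 | h4
  · have h5 : cS * (1 - cS * gS ψ) = 0 := by rw [← h4]; ring
    rcases mul_eq_zero.mp h5 with h6 | h6
    · exact absurd h6 h.cS_ne_zero
    · exact (sub_eq_zero.mp h6).symm
  · exact absurd h4 hM

theorem orb_slash_T (h : IsWeilFamily q k ψ b cS θ) (c e : ZMod q) :
    orb ψ cS θ c e ∣[k] ModularGroup.T = orb ψ cS θ c (e + c) := by
  unfold orb
  by_cases hc : c = 0
  · rw [if_pos hc, if_pos hc, ModularForm.SL_smul_slash, h.slash_T 0, hc, add_zero]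
    simp
  · rw [if_neg hc, if_neg hc, ModularForm.SL_smul_slash, h.comb_slash_T]
    congr 2
    funext j
    rw [← AddChar.map_add_eq_mul]
    congr 1
    rw [mul_add, inv_mul_cancel₀ hc]
    ring

theorem orb_slash_T_inv (h : IsWeilFamily q k ψ b cS θ) (c e : ZMod q) :
    orb ψ cS θ c e ∣[k] ModularGroup.T⁻¹ = orb ψ cS θ c (e - c) := by
  unfold orb
  by_cases hc : c = 0
  · rw [if_pos hc, if_pos hc, ModularForm.SL_smul_slash, h.slash_T_inv 0, hc, sub_zero]
    simp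
  · rw [if_neg hc, if_neg hc, ModularForm.SL_smul_slash, h.comb_slash_T_inv]
    congr 2
    funext j
    rw [← AddChar.map_add_eq_mul]
    congr 1
    rw [mul_sub, inv_mul_cancel₀ hc]
    ring

theorem orb_slash_S (h : IsWeilFamily q k ψ b cS θ) (hq : q % 4 = 3) (hψ : ψ ≠ 1)
    (c e : ZMod q) (hce : c ≠ 0 ∨ e ≠ 0) :
    orb ψ cS θ c e ∣[k] ModularGroup.S = orb ψ cS θ e (-c) := by
  classical
  unfold orb
  by_cases hc : c = 0
  · have he : e ≠ 0 := by
      rcases hce with h1 | h1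
      · exact absurd hc h1
      · exact h1
    rw [if_pos hc, if_neg he, ModularForm.SL_smul_slash, h.theta_zero_slash_S, smul_smul, hc,
      mul_comm]
    congr 2
    funext j
    simp
  · by_cases he : e = 0
    · have hnc : -c ≠ 0 := neg_ne_zero.mpr hc
      rw [if_neg hc, if_pos he, ModularForm.SL_smul_slash, h.comb_slash_S, smul_smul, he]
      have hw : (fun i : ZMod q => ∑ j : ZMod q, ψ (c⁻¹ * 0 * j ^ 2) * ψ (b * i * j))
          = fun i => (q : ℂ) * (if i = 0 then 1 else 0) := by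
        funext i
        have hb0 : b ≠ 0 := by
          intro hb
          have h4 := h.b_sq
          rw [hb] at h4
          have h2 := two_ne_zero_of_mod_four hq
          have : (2 : ZMod q) * 2 = 0 := by
            have : (4 : ZMod q) = 2 * 2 := by norm_num
            rw [← this, ← h4]; ring
          rcases mul_eq_zero.mp this with h5 | h5 <;> exact h2 h5
        have := sum_char_mul hψ (b * i)
        simp only [mul_zero, zero_mul, AddChar.map_zero_eq_one, one_mul]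
        rw [this]
        by_cases hi : i = 0
        · simp [hi]
        · simp [hi, hb0]
      rw [hw]
      have hcomb : comb θ (fun i : ZMod q => (q : ℂ) * (if i = 0 then 1 else 0))
          = (q : ℂ) • θ 0 := by
        unfold comb
        simp [ite_smul]
      rw [hcomb, smul_smul, chi_neg hq]
      congr 1
      have := h.cS_sq
      linear_combination (chi q c) * this
    · rw [if_neg hc, if_neg he, ModularForm.SL_smul_slash, h.comb_slash_S, smul_smul]
      have hs : c⁻¹ * e ≠ 0 := mul_ne_zero (inv_ne_zero hc) he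
      have hw : (fun i : ZMod q => ∑ j : ZMod q, ψ (c⁻¹ * e * j ^ 2) * ψ (b * i * j))
          = fun i => (chi q (c⁻¹ * e) * gS ψ) * ψ (e⁻¹ * -c * i ^ 2) := by
        funext i
        have := sum_char_quad hq hψ h.b_sq hs i
        rw [mul_comm (chi q (c⁻¹ * e) * gS ψ)]
        have e2 : e⁻¹ * -c * i ^ 2 = -((c⁻¹ * e)⁻¹ * i ^ 2) := by
          rw [mul_inv, inv_inv]
          ring
        rw [e2, ← this]
        refine Finset.sum_congr rfl fun j _ => ?_
        rw [← AddChar.map_add_eq_mul]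
        congr 1
        ring
      rw [hw]
      have hcomb : comb θ (fun i : ZMod q => (chi q (c⁻¹ * e) * gS ψ) * ψ (e⁻¹ * -c * i ^ 2))
          = (chi q (c⁻¹ * e) * gS ψ) • comb θ (fun i => ψ (e⁻¹ * -c * i ^ 2)) := by
        unfold comb
        rw [Finset.smul_sum]
        refine Finset.sum_congr rfl fun j _ => ?_
        rw [smul_smul]
      rw [hcomb, smul_smul]
      congr 1
      have hg := h.cS_mul_gS hq hψ
      have hchi : chi q c * chi q (c⁻¹ * e) = chi q e := by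
        rw [← chi_mul, mul_inv_cancel_left₀ hc]
      linear_combination (cS * chi q c * chi q (c⁻¹ * e)) * hg + cS * hchi

/-- The bottom row of an element of `SL(2, ℤ)` is nonzero modulo `q`. -/
theorem bottom_row_ne_zero (γ : SL(2, ℤ)) :
    ((γ 1 0 : ℤ) : ZMod q) ≠ 0 ∨ ((γ 1 1 : ℤ) : ZMod q) ≠ 0 := by
  by_contra hcon
  rw [not_or, not_not, not_not] at hcon
  have hdet : γ 0 0 * γ 1 1 - γ 0 1 * γ 1 0 = 1 := by
    have := γ.det_coe
    rwa [Matrix.det_fin_two] at this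
  have h1 : (((γ 0 0 * γ 1 1 - γ 0 1 * γ 1 0 : ℤ)) : ZMod q) = 1 := by
    rw [hdet]; simp
  rw [Int.cast_sub, Int.cast_mul, Int.cast_mul, hcon.1, hcon.2] at h1
  simp at h1

theorem step_S (h : IsWeilFamily q k ψ b cS θ) (hq : q % 4 = 3) (hψ : ψ ≠ 1) (γ : SL(2, ℤ))
    (hγ : θ 0 ∣[k] γ = orb ψ cS θ ((γ 1 0 : ℤ) : ZMod q) ((γ 1 1 : ℤ) : ZMod q)) :
    θ 0 ∣[k] (γ * ModularGroup.S)
      = orb ψ cS θ (((γ * ModularGroup.S) 1 0 : ℤ) : ZMod q)
          (((γ * ModularGroup.S) 1 1 : ℤ) : ZMod q) := by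
  have e10 : (γ * ModularGroup.S) 1 0 = γ 1 1 := by
    simp [Matrix.SpecialLinearGroup.coe_mul, ModularGroup.coe_S, Matrix.mul_apply,
      Fin.sum_univ_two]
  have e11 : (γ * ModularGroup.S) 1 1 = -γ 1 0 := by
    simp [Matrix.SpecialLinearGroup.coe_mul, ModularGroup.coe_S, Matrix.mul_apply,
      Fin.sum_univ_two]
  rw [SlashAction.slash_mul, hγ, h.orb_slash_S hq hψ _ _ (bottom_row_ne_zero γ), e10, e11,
    Int.cast_neg]

theorem step_T (h : IsWeilFamily q k ψ b cS θ) (γ : SL(2, ℤ))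
    (hγ : θ 0 ∣[k] γ = orb ψ cS θ ((γ 1 0 : ℤ) : ZMod q) ((γ 1 1 : ℤ) : ZMod q)) :
    θ 0 ∣[k] (γ * ModularGroup.T)
      = orb ψ cS θ (((γ * ModularGroup.T) 1 0 : ℤ) : ZMod q)
          (((γ * ModularGroup.T) 1 1 : ℤ) : ZMod q) := by
  have e10 : (γ * ModularGroup.T) 1 0 = γ 1 0 := by
    simp [Matrix.SpecialLinearGroup.coe_mul, ModularGroup.coe_T, Matrix.mul_apply,
      Fin.sum_univ_two]
  have e11 : (γ * ModularGroup.T) 1 1 = γ 1 1 + γ 1 0 := by
    simp [Matrix.SpecialLinearGroup.coe_mul, ModularGroup.coe_T, Matrix.mul_apply,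
      Fin.sum_univ_two]
    ring
  rw [SlashAction.slash_mul, hγ, h.orb_slash_T, e10, e11, Int.cast_add]

theorem step_T_inv (h : IsWeilFamily q k ψ b cS θ) (γ : SL(2, ℤ))
    (hγ : θ 0 ∣[k] γ = orb ψ cS θ ((γ 1 0 : ℤ) : ZMod q) ((γ 1 1 : ℤ) : ZMod q)) :
    θ 0 ∣[k] (γ * ModularGroup.T⁻¹)
      = orb ψ cS θ (((γ * ModularGroup.T⁻¹) 1 0 : ℤ) : ZMod q)
          (((γ * ModularGroup.T⁻¹) 1 1 : ℤ) : ZMod q) := by
  have e10 : (γ * ModularGroup.T⁻¹) 1 0 = γ 1 0 := by
    simp [Matrix.SpecialLinearGroup.coe_mul, Matrix.mul_apply, Fin.sum_univ_two]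
  have e11 : (γ * ModularGroup.T⁻¹) 1 1 = γ 1 1 - γ 1 0 := by
    simp [Matrix.SpecialLinearGroup.coe_mul, Matrix.mul_apply, Fin.sum_univ_two]
    ring
  rw [SlashAction.slash_mul, hγ, h.orb_slash_T_inv, e10, e11, Int.cast_sub]

/-- **Orbit formula**, in terms of `orb`. -/
theorem slash_zero_eq_orb (h : IsWeilFamily q k ψ b cS θ) (hq : q % 4 = 3) (hψ : ψ ≠ 1)
    (γ : SL(2, ℤ)) :
    θ 0 ∣[k] γ = orb ψ cS θ ((γ 1 0 : ℤ) : ZMod q) ((γ 1 1 : ℤ) : ZMod q) := by
  have hmem : γ ∈ Subgroup.closure ({ModularGroup.S, ModularGroup.T} : Set SL(2, ℤ)) := by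
    rw [SpecialLinearGroup.SL2Z_generators]
    exact Subgroup.mem_top γ
  induction hmem using Subgroup.closure_induction_right with
  | one =>
    rw [SlashAction.slash_one]
    unfold orb
    simp [chi_one]
  | mul_right x hx y hy ih =>
    rcases hy with rfl | rfl
    · exact h.step_S hq hψ x ih
    · exact h.step_T x ih
  | mul_inv_cancel x hx y hy ih =>
    rcases hy with rfl | rfl
    · have e : ModularGroup.S⁻¹ = ModularGroup.S * ModularGroup.S * ModularGroup.S := by decide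
      rw [e, ← mul_assoc, ← mul_assoc]
      exact h.step_S hq hψ _ (h.step_S hq hψ _ (h.step_S hq hψ x ih))
    · exact h.step_T_inv x ih

/-- **Orbit formula** for the `SL(2, ℤ)`-translates of `θ 0`. -/
theorem slash_zero (h : IsWeilFamily q k ψ b cS θ) (hq : q % 4 = 3) (hψ : ψ ≠ 1)
    (γ : SL(2, ℤ)) :
    θ 0 ∣[k] γ =
      if ((γ 1 0 : ℤ) : ZMod q) = 0 then
        ((quadraticChar (ZMod q) ((γ 1 1 : ℤ) : ZMod q) : ℤ) : ℂ) • θ 0
      else
        (cS * ((quadraticChar (ZMod q) ((γ 1 0 : ℤ) : ZMod q) : ℤ) : ℂ)) •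
          ∑ j, ψ ((((γ 1 0 : ℤ) : ZMod q))⁻¹ * ((γ 1 1 : ℤ) : ZMod q) * j ^ 2) • θ j :=
  h.slash_zero_eq_orb hq hψ γ

/-- **Character law** on `Γ₀(q)`: `θ 0 ∣[k] γ = (γ₁₁ / q) • θ 0`. -/
theorem slash_zero_of_mem_Gamma0 (h : IsWeilFamily q k ψ b cS θ) (hq : q % 4 = 3) (hψ : ψ ≠ 1)
    (γ : SL(2, ℤ)) (hγ : γ ∈ CongruenceSubgroup.Gamma0 q) :
    θ 0 ∣[k] γ = ((jacobiSym (γ 1 1) q : ℤ) : ℂ) • θ 0 := by
  rw [h.slash_zero hq hψ γ, if_pos (CongruenceSubgroup.Gamma0_mem.mp hγ)]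
  rw [← jacobiSym.legendreSym.to_jacobiSym]
  rfl

/-- The translates by elements outside `Γ₀(q)`. -/
theorem slash_zero_of_not_mem_Gamma0 (h : IsWeilFamily q k ψ b cS θ) (hq : q % 4 = 3)
    (hψ : ψ ≠ 1) (γ : SL(2, ℤ)) (hγ : γ ∉ CongruenceSubgroup.Gamma0 q) :
    θ 0 ∣[k] γ = (cS * ((jacobiSym (γ 1 0) q : ℤ) : ℂ)) •
      ∑ j, ψ ((((γ 1 0 : ℤ) : ZMod q))⁻¹ * ((γ 1 1 : ℤ) : ZMod q) * j ^ 2) • θ j := by
  rw [h.slash_zero hq hψ γ, if_neg (fun h0 => hγ (CongruenceSubgroup.Gamma0_mem.mpr h0))]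
  rw [← jacobiSym.legendreSym.to_jacobiSym]
  rfl

/-- All `SL(2, ℤ)`-translates of `θ 0` are bounded at `i∞` if the `θ j` are. -/
theorem isBoundedAtImInfty_slash_zero (h : IsWeilFamily q k ψ b cS θ) (hq : q % 4 = 3)
    (hψ : ψ ≠ 1) (hbd : ∀ j, IsBoundedAtImInfty (θ j)) (γ : SL(2, ℤ)) :
    IsBoundedAtImInfty (θ 0 ∣[k] γ) := by
  have hsum : ∀ w : ZMod q → ℂ, IsBoundedAtImInfty (∑ j, w j • θ j) := by
    intro w
    unfold IsBoundedAtImInfty
    have : ∀ s : Finset (ZMod q), Filter.BoundedAtFilter atImInfty (∑ j ∈ s, w j • θ j) := by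
      intro s
      classical
      induction s using Finset.induction_on with
      | empty => simpa using Filter.const_boundedAtFilter atImInfty (0 : ℂ)
      | insert a s ha ih =>
        rw [Finset.sum_insert ha]
        exact ((hbd a).smul (w a)).add ih
    exact this Finset.univ
  rw [h.slash_zero hq hψ γ]
  split_ifs
  · exact (hbd 0).smul _
  · exact (hsum _).smul _

end IsWeilFamily

end Orbit

end Fermat.Agent.Lib.WeilOrbit
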