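import Mathlib
import Fermat.Agent.Lib.WeilOrbit
import Fermat.Agent.Lib.DeltaSlash

/-!
# The full Weil kernel of a Weil family and the pair form `∑_ν θ_{sν}(τ) θ_ν(pτ)`

Let `d ≡ 3 mod 4` be a prime and `θ : ZMod d → ℍ → ℂ` a Weil family of weight `1`
(`Fermat.Agent.Lib.WeilOrbit.IsWeilFamily d 1 ψ (-2) cS θ`: the `T`-law
`θ_j ∣ T = ψ(j²) θ_j` and the `S`-law `θ_j ∣ S = cS ∑_i ψ(-2 i j) θ_i`; these are the laws of the
coset theta series of a positive definite binary quadratic form of discriminant `-d`).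

* `slash_all`: for every `γ = [a, b; c, e] ∈ SL(2, ℤ)` and every `j`,
  `θ_j ∣[1] γ = ∑_t K_γ(j, t) θ_t`, where the Weil kernel `K_γ = kerSL ψ cS γ` is
  `cS χ(c) ψ(c⁻¹ (a j² - 2 j t + e t²))` if `d ∤ c` and `χ(a) ψ(a b j²) [t = a j]` if `d ∣ c`
  (`χ` the quadratic character).  Proof: induction on words in `S`, `T`.
* `ker_pair`: the finite pairing identity
  `∑_ν K_γ(sν, μ) K_γ'(ν, ν') = [μ = s ν']` for `γ ∈ Γ₀(p)`, `γ' = [a, p b; c/p, e]`, `s² = -p`.
* `exists_pairForm`: if `s² = -p` in `𝔽_d`, then `H(τ) = ∑_ν θ_{sν}(τ) θ_ν(pτ)` is (the function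
  of) a modular form of weight `2` on `Γ₀(p)`.  No trace, no coset representatives, no
  Atkin–Lehner operator: `H ∣[2] γ = H` follows from `slash_all` and `ker_pair`, and the
  boundedness at the cusps from the Hermite decomposition `diag(p,1) γ = δ [a, b; 0, d']`.
-/

set_option autoImplicit false

namespace Fermat.Agent.Lib.WeilPair

open Finset

section Finite

variable {d : ℕ} [Fact d.Prime]

/-- The quadratic Gauss sum `∑ₜ ψ(t²)`. -/
noncomputable def gS (ψ : AddChar (ZMod d) ℂ) : ℂ := ∑ t : ZMod d, ψ (t ^ 2)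

/-- The quadratic character of `𝔽_d` with complex values. -/
noncomputable def chi (x : ZMod d) : ℂ := ((quadraticChar (ZMod d) x : ℤ) : ℂ)

lemma chi_mul (x y : ZMod d) : chi (x * y) = chi x * chi y := by
  simp [chi, map_mul]

lemma chi_zero : chi (0 : ZMod d) = 0 := by simp [chi]

lemma chi_one : chi (1 : ZMod d) = 1 := by simp [chi]

lemma chi_mul_self {x : ZMod d} (hx : x ≠ 0) : chi x * chi x = 1 := by
  have h := quadraticChar_sq_one hx
  have h2 : ((quadraticChar (ZMod d) x : ℤ) : ℂ) ^ 2 = 1 := by exact_mod_cast h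
  simpa [chi, pow_two] using h2

lemma chi_sq_mul {x : ZMod d} (hx : x ≠ 0) (y : ZMod d) : chi (x ^ 2 * y) = chi y := by
  rw [pow_two, chi_mul, chi_mul, chi_mul_self hx, one_mul]

lemma chi_inv (x : ZMod d) : chi x⁻¹ = chi x := by
  by_cases hx : x = 0
  · simp [hx]
  · have h1 : chi x⁻¹ * chi x = 1 := by rw [← chi_mul, inv_mul_cancel₀ hx, chi_one]
    have h2 := chi_mul_self hx
    have hne : chi x ≠ 0 := by
      intro h0; rw [h0] at h2; simp at h2
    exact mul_right_cancel₀ hne (h1.trans h2.symm)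

lemma ringChar_ne_two (hd4 : d % 4 = 3) : ringChar (ZMod d) ≠ 2 := by
  rw [ZMod.ringChar_zmod_n]; omega

lemma chi_neg_one (hd4 : d % 4 = 3) : chi (-1 : ZMod d) = -1 := by
  have h := quadraticChar_neg_one (F := ZMod d) (ringChar_ne_two hd4)
  rw [ZMod.card, ZMod.χ₄_nat_three_mod_four hd4] at h
  simp [chi, h]

lemma chi_neg (hd4 : d % 4 = 3) (x : ZMod d) : chi (-x) = - chi x := by
  rw [← neg_one_mul, chi_mul, chi_neg_one hd4, neg_one_mul]

variable (ψ : AddChar (ZMod d) ℂ)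

lemma sum_psi_mul (hψ : ψ ≠ 1) (β : ZMod d) :
    ∑ t : ZMod d, ψ (t * β) = if β = 0 then (d : ℂ) else 0 := by
  rw [AddChar.sum_mulShift β (AddChar.IsPrimitive.of_ne_one hψ), ZMod.card]
  split_ifs <;> simp

lemma sum_psi_sq_mul (hd4 : d % 4 = 3) (hψ : ψ ≠ 1) {α : ZMod d} (hα : α ≠ 0) :
    ∑ t : ZMod d, ψ (α * t ^ 2) = chi α * gS ψ := by
  classical
  -- general: ∑ₜ f(t²) = ∑_y (χ(y) + 1) f(y)
  have key : ∀ f : ZMod d → ℂ, ∑ t : ZMod d, f (t ^ 2) = ∑ y : ZMod d, (chi y + 1) * f y := by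
    intro f
    have h1 : ∑ t : ZMod d, f (t ^ 2) =
        ∑ y : ZMod d, ∑ t ∈ (univ.filter fun t : ZMod d => t ^ 2 = y), f (t ^ 2) :=
      (Finset.sum_fiberwise univ (fun t : ZMod d => t ^ 2) (fun t => f (t ^ 2))).symm
    rw [h1]
    refine Finset.sum_congr rfl fun y _ => ?_
    have h2 : ∑ t ∈ (univ.filter fun t : ZMod d => t ^ 2 = y), f (t ^ 2) =
        ∑ t ∈ (univ.filter fun t : ZMod d => t ^ 2 = y), f y :=
      Finset.sum_congr rfl fun t ht => by rw [(Finset.mem_filter.mp ht).2]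
    rw [h2, Finset.sum_const, nsmul_eq_mul]
    have h3 := quadraticChar_card_sqrts (ringChar_ne_two hd4) y
    have h4 : ((univ.filter fun t : ZMod d => t ^ 2 = y).card : ℤ) = quadraticChar (ZMod d) y + 1 := by
      rw [← h3]; congr 1; congr 1; ext t; simp
    have h5 : (((univ.filter fun t : ZMod d => t ^ 2 = y).card : ℤ) : ℂ) = chi y + 1 := by
      rw [h4]; simp [chi]
    rw [← h5]; simp
  have h0 : ∀ β : ZMod d, β ≠ 0 → ∑ t : ZMod d, ψ (β * t ^ 2) = ∑ y : ZMod d, chi y * ψ (β * y) := by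
    intro β hβ
    rw [key (fun y => ψ (β * y))]
    simp only [add_mul, one_mul, Finset.sum_add_distrib]
    have : ∑ y : ZMod d, ψ (β * y) = 0 := by
      have := sum_psi_mul ψ hψ β
      simp only [hβ, if_false] at this
      rw [← this]; exact Finset.sum_congr rfl fun y _ => by rw [mul_comm]
    rw [this, add_zero]
  rw [h0 α hα]
  have hG : gS ψ = ∑ y : ZMod d, chi y * ψ y := by
    have := h0 1 one_ne_zero
    simpa [gS] using this
  rw [hG, Finset.mul_sum]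
  -- substitute y ↦ α⁻¹ y
  refine Fintype.sum_equiv (Equiv.mulLeft₀ α hα) _ _ fun y => ?_
  simp only [Equiv.mulLeft₀_apply]
  rw [chi_mul, ← mul_assoc, ← mul_assoc, chi_mul_self hα, one_mul]

lemma sum_psi_quad (hd4 : d % 4 = 3) (hψ : ψ ≠ 1) {α : ZMod d} (hα : α ≠ 0) (β : ZMod d) :
    ∑ t : ZMod d, ψ (α * t ^ 2 + β * t) = chi α * gS ψ * ψ (-(β ^ 2 * (4 * α)⁻¹)) := by
  have h2 : (2 : ZMod d) ≠ 0 := by
    have := ringChar_ne_two hd4
    exact Ring.two_ne_zero this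
  have h4 : (4 : ZMod d) ≠ 0 := by
    have : (4 : ZMod d) = 2 * 2 := by norm_num
    rw [this]; exact mul_ne_zero h2 h2
  have h4α : (4 * α) ≠ 0 := mul_ne_zero h4 hα
  rw [← sum_psi_sq_mul ψ hd4 hψ hα, Finset.sum_mul]
  refine Fintype.sum_equiv (Equiv.addRight (β * (2 * α)⁻¹)) _ _ fun t => ?_
  simp only [Equiv.coe_addRight]
  rw [← AddChar.map_add_eq_mul]
  congr 1
  have h2α : (2 * α) ≠ 0 := mul_ne_zero h2 hα
  field_simp
  ring


/-- The Weil kernel of the matrix `[a, b; c, e]` mod `d`. -/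
noncomputable def ker (ψ : AddChar (ZMod d) ℂ) (cS : ℂ) (a b c e h t : ZMod d) : ℂ :=
  if c = 0 then chi a * ψ (a * b * h ^ 2) * (if t = a * h then 1 else 0)
  else cS * chi c * ψ (c⁻¹ * (a * h ^ 2 - 2 * h * t + e * t ^ 2))

lemma ker_T (cS : ℂ) (a b c e h t : ZMod d) :
    ker ψ cS a (a + b) c (c + e) h t = ker ψ cS a b c e h t * ψ (t ^ 2) := by
  unfold ker
  by_cases hc : c = 0
  · rw [if_pos hc, if_pos hc]
    by_cases ht : t = a * h
    · rw [if_pos ht, mul_one, mul_one, ht,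
        show a * (a + b) * h ^ 2 = a * b * h ^ 2 + (a * h) ^ 2 by ring, AddChar.map_add_eq_mul]
      ring
    · rw [if_neg ht]; ring
  · rw [if_neg hc, if_neg hc,
      show c⁻¹ * (a * h ^ 2 - 2 * h * t + (c + e) * t ^ 2)
        = c⁻¹ * (a * h ^ 2 - 2 * h * t + e * t ^ 2) + t ^ 2 by field_simp; ring,
      AddChar.map_add_eq_mul]
    ring

lemma ker_T_inv (cS : ℂ) (a b c e h t : ZMod d) :
    ker ψ cS a (b - a) c (e - c) h t = ker ψ cS a b c e h t * ψ (-(t ^ 2)) := by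
  unfold ker
  by_cases hc : c = 0
  · rw [if_pos hc, if_pos hc]
    by_cases ht : t = a * h
    · rw [if_pos ht, mul_one, mul_one, ht,
        show a * (b - a) * h ^ 2 = a * b * h ^ 2 + (-((a * h) ^ 2)) by ring,
        AddChar.map_add_eq_mul]
      ring
    · rw [if_neg ht]; ring
  · rw [if_neg hc, if_neg hc,
      show c⁻¹ * (a * h ^ 2 - 2 * h * t + (e - c) * t ^ 2)
        = c⁻¹ * (a * h ^ 2 - 2 * h * t + e * t ^ 2) + (-(t ^ 2)) by field_simp; ring,
      AddChar.map_add_eq_mul]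
    ring

lemma two_ne_zero' (hd4 : d % 4 = 3) : (2 : ZMod d) ≠ 0 :=
  Ring.two_ne_zero (ringChar_ne_two hd4)

lemma ker_S (hd4 : d % 4 = 3) (hψ : ψ ≠ 1) (cS : ℂ) (hcS : cS ^ 2 * d = -1)
    (hG : cS * gS ψ = 1) (a b c e : ZMod d) (hdet : a * e - b * c = 1) (h u : ZMod d) :
    ker ψ cS b (-a) e (-c) h u = cS * ∑ t : ZMod d, ker ψ cS a b c e h t * ψ (-2 * t * u) := by
  have h2 := two_ne_zero' hd4
  by_cases hc : c = 0
  · -- `c = 0`: then `a e = 1`
    have hae : a * e = 1 := by rw [hc] at hdet; simpa using hdet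
    have he : e ≠ 0 := by rintro rfl; simp at hae
    have ha : a ≠ 0 := by rintro rfl; simp at hae
    have hea : e⁻¹ = a := by
      rw [← mul_one e⁻¹, ← hae, mul_comm a e, ← mul_assoc, inv_mul_cancel₀ he, one_mul]
    have hchi : chi e = chi a := by rw [← chi_inv e, hea]
    unfold ker
    rw [if_neg he]
    simp only [if_pos hc]
    rw [Finset.sum_eq_single (a * h)]
    · rw [if_pos rfl, mul_one, hchi, hea,
        show a * (b * h ^ 2 - 2 * h * u + -c * u ^ 2) = a * b * h ^ 2 + (-2 * (a * h) * u) by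
          rw [hc]; ring,
        AddChar.map_add_eq_mul]
      ring
    · intro t _ ht; rw [if_neg ht]; ring
    · intro hh; exact absurd (Finset.mem_univ _) hh
  · by_cases he : e = 0
    · -- `c ≠ 0`, `e = 0`: then `b c = -1`
      have hbc : b * c = -1 := by rw [he] at hdet; linear_combination -hdet
      have hb : b = -c⁻¹ := by
        field_simp; linear_combination hbc
      unfold ker
      rw [if_pos he]
      simp only [if_neg hc]
      have hsum : ∀ t : ZMod d,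
          cS * chi c * ψ (c⁻¹ * (a * h ^ 2 - 2 * h * t + e * t ^ 2)) * ψ (-2 * t * u)
          = cS * chi c * ψ (c⁻¹ * a * h ^ 2) * ψ (t * (-2 * (c⁻¹ * h + u))) := by
        intro t
        rw [mul_assoc (cS * chi c) (ψ (c⁻¹ * a * h ^ 2)), ← AddChar.map_add_eq_mul,
          mul_assoc (cS * chi c), ← AddChar.map_add_eq_mul]
        congr 2; rw [he]; ring
      simp_rw [hsum]
      rw [← Finset.mul_sum, sum_psi_mul ψ hψ]
      have hchib : chi b = - chi c := by rw [hb, chi_neg hd4, chi_inv]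
      have hpsi : ψ (b * -a * h ^ 2) = ψ (c⁻¹ * a * h ^ 2) := by
        congr 1; rw [hb]; ring
      by_cases hu : u = b * h
      · have hz : -2 * (c⁻¹ * h + u) = 0 := by rw [hu, hb]; ring
        rw [if_pos hu, if_pos hz, hchib, hpsi]
        linear_combination (-(chi c) * ψ (c⁻¹ * a * h ^ 2)) * hcS
      · have hz : -2 * (c⁻¹ * h + u) ≠ 0 := by
          intro h0
          apply hu
          have h1 : c⁻¹ * h + u = 0 := by
            rcases mul_eq_zero.mp h0 with h' | h'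
            · exact absurd (neg_eq_zero.mp h') h2
            · exact h'
          rw [hb]; linear_combination h1
        rw [if_neg hu, if_neg hz]; ring
    · -- `c ≠ 0`, `e ≠ 0`
      unfold ker
      rw [if_neg he]
      simp only [if_neg hc]
      have hsum : ∀ t : ZMod d,
          cS * chi c * ψ (c⁻¹ * (a * h ^ 2 - 2 * h * t + e * t ^ 2)) * ψ (-2 * t * u)
          = cS * chi c * ψ (c⁻¹ * a * h ^ 2) *
              ψ ((c⁻¹ * e) * t ^ 2 + (-2 * (c⁻¹ * h + u)) * t) := by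
        intro t
        rw [mul_assoc (cS * chi c) (ψ (c⁻¹ * a * h ^ 2)), ← AddChar.map_add_eq_mul,
          mul_assoc (cS * chi c), ← AddChar.map_add_eq_mul]
        congr 2; ring
      simp_rw [hsum]
      have hα : c⁻¹ * e ≠ 0 := mul_ne_zero (inv_ne_zero hc) he
      rw [← Finset.mul_sum, sum_psi_quad ψ hd4 hψ hα]
      rw [chi_mul, chi_inv]
      have hexp : ψ (c⁻¹ * a * h ^ 2) * ψ (-((-2 * (c⁻¹ * h + u)) ^ 2 * (4 * (c⁻¹ * e))⁻¹))
          = ψ (e⁻¹ * (b * h ^ 2 - 2 * h * u + -c * u ^ 2)) := by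
        rw [← AddChar.map_add_eq_mul]
        congr 1
        have h4 : (4 : ZMod d) ≠ 0 := by
          have : (4 : ZMod d) = 2 * 2 := by norm_num
          rw [this]; exact mul_ne_zero h2 h2
        field_simp
        linear_combination (4 * h ^ 2) * hdet
      have hcc := chi_mul_self hc
      calc cS * chi e * ψ (e⁻¹ * (b * h ^ 2 - 2 * h * u + -c * u ^ 2))
          = (cS * gS ψ) * (chi c * chi c) * (cS * chi e *
              (ψ (c⁻¹ * a * h ^ 2) * ψ (-((-2 * (c⁻¹ * h + u)) ^ 2 * (4 * (c⁻¹ * e))⁻¹)))) := by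
            rw [hG, hcc, hexp]; ring
        _ = _ := by ring

/-- The pairing identity. -/
lemma ker_pair (hd4 : d % 4 = 3) (hψ : ψ ≠ 1) (cS : ℂ) (hcS : cS ^ 2 * d = -1)
    (a b c c' e p s : ZMod d) (hdet : a * e - b * c = 1) (hc' : c' * p = c) (hp : p ≠ 0)
    (hs : s ^ 2 = -p) (μ ν' : ZMod d) :
    ∑ ν : ZMod d, ker ψ cS a b c e (s * ν) μ * ker ψ cS a (p * b) c' e ν ν' =
      if μ = s * ν' then 1 else 0 := by
  have h2 := two_ne_zero' hd4
  have hs0 : s ≠ 0 := by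
    rintro rfl
    apply hp
    have : (0 : ZMod d) ^ 2 = -p := hs
    simpa using this.symm
  by_cases hc : c = 0
  · have hc'0 : c' = 0 := by
      rw [hc] at hc'
      rcases mul_eq_zero.mp hc' with h' | h'
      · exact h'
      · exact absurd h' hp
    have hae : a * e = 1 := by rw [hc] at hdet; simpa using hdet
    have ha : a ≠ 0 := by rintro rfl; simp at hae
    unfold ker
    simp only [hc, hc'0, if_true]
    rw [Finset.sum_eq_single (a⁻¹ * ν')]
    · have h1 : a * (a⁻¹ * ν') = ν' := by rw [← mul_assoc, mul_inv_cancel₀ ha, one_mul]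
      have h3 : a * (s * (a⁻¹ * ν')) = s * ν' := by
        field_simp
      rw [h1, h3]
      by_cases hμ : μ = s * ν'
      · simp only [hμ, if_true, mul_one]
        have : chi a * ψ (a * b * (s * (a⁻¹ * ν')) ^ 2) * (chi a * ψ (a * (p * b) * (a⁻¹ * ν') ^ 2))
            = (chi a * chi a) * (ψ (a * b * (s * (a⁻¹ * ν')) ^ 2) * ψ (a * (p * b) * (a⁻¹ * ν') ^ 2)) := by
          ring
        rw [this, chi_mul_self ha, ← AddChar.map_add_eq_mul]
        have h0 : a * b * (s * (a⁻¹ * ν')) ^ 2 + a * (p * b) * (a⁻¹ * ν') ^ 2 = 0 := by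
          have : a * b * (s * (a⁻¹ * ν')) ^ 2 + a * (p * b) * (a⁻¹ * ν') ^ 2
              = a * b * (a⁻¹ * ν') ^ 2 * (s ^ 2 + p) := by ring
          rw [this, hs]; ring
        rw [h0]; simp
      · simp [hμ]
    · intro ν _ hν
      have : ¬ (ν' = a * ν) := by
        intro h'
        apply hν
        rw [h', ← mul_assoc, inv_mul_cancel₀ ha, one_mul]
      simp [this]
    · intro hh; exact absurd (Finset.mem_univ _) hh
  · have hc'0 : c' ≠ 0 := by
      rintro rfl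
      apply hc; rw [← hc']; simp
    have hcinv : c'⁻¹ = p * c⁻¹ := by
      rw [← hc']; field_simp
    unfold ker
    simp only [hc, hc'0, if_false]
    have hsum : ∀ ν : ZMod d,
        cS * chi c * ψ (c⁻¹ * (a * (s * ν) ^ 2 - 2 * (s * ν) * μ + e * μ ^ 2)) *
          (cS * chi c' * ψ (c'⁻¹ * (a * ν ^ 2 - 2 * ν * ν' + e * ν' ^ 2)))
        = cS ^ 2 * (chi c * chi c') * ψ (c⁻¹ * e * (μ ^ 2 + p * ν' ^ 2)) *
            ψ (ν * (-2 * c⁻¹ * (s * μ + p * ν'))) := by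
      intro ν
      have hexp : c⁻¹ * (a * (s * ν) ^ 2 - 2 * (s * ν) * μ + e * μ ^ 2) +
          c'⁻¹ * (a * ν ^ 2 - 2 * ν * ν' + e * ν' ^ 2)
          = c⁻¹ * e * (μ ^ 2 + p * ν' ^ 2) + ν * (-2 * c⁻¹ * (s * μ + p * ν')) := by
        rw [hcinv]
        have : c⁻¹ * (a * (s * ν) ^ 2 - 2 * (s * ν) * μ + e * μ ^ 2) +
            p * c⁻¹ * (a * ν ^ 2 - 2 * ν * ν' + e * ν' ^ 2)
            = c⁻¹ * e * (μ ^ 2 + p * ν' ^ 2) + ν * (-2 * c⁻¹ * (s * μ + p * ν'))
              + c⁻¹ * a * ν ^ 2 * (s ^ 2 + p) := by ring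
        rw [this, hs]; ring
      calc _ = cS ^ 2 * (chi c * chi c') *
            (ψ (c⁻¹ * (a * (s * ν) ^ 2 - 2 * (s * ν) * μ + e * μ ^ 2)) *
              ψ (c'⁻¹ * (a * ν ^ 2 - 2 * ν * ν' + e * ν' ^ 2))) := by ring
        _ = _ := by rw [← AddChar.map_add_eq_mul, hexp, AddChar.map_add_eq_mul]; ring
    simp_rw [hsum]
    rw [← Finset.mul_sum, sum_psi_mul ψ hψ]
    have hchip : chi p = -1 := by
      have h1 : chi (-p) = 1 := by
        rw [← hs, pow_two, chi_mul, chi_mul_self hs0]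
      rw [chi_neg hd4] at h1
      linear_combination -h1
    have hcc : chi c * chi c' = -1 := by
      rw [← hc', chi_mul, hchip]
      have := chi_mul_self hc'0
      linear_combination -this
    by_cases hμ : μ = s * ν'
    · have hz : -2 * c⁻¹ * (s * μ + p * ν') = 0 := by
        rw [hμ]
        have : s * (s * ν') + p * ν' = (s ^ 2 + p) * ν' := by ring
        rw [this, hs]; ring
      have h0 : c⁻¹ * e * (μ ^ 2 + p * ν' ^ 2) = 0 := by
        rw [hμ]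
        have : (s * ν') ^ 2 + p * ν' ^ 2 = (s ^ 2 + p) * ν' ^ 2 := by ring
        rw [this, hs]; ring
      simp only [hμ, if_true] at hz h0 ⊢
      rw [hz, h0, hcc]
      simp only [AddChar.map_zero_eq_one, if_true, mul_one]
      linear_combination -hcS
    · have hz : -2 * c⁻¹ * (s * μ + p * ν') ≠ 0 := by
        intro h0
        apply hμ
        have h1 : s * μ + p * ν' = 0 := by
          rcases mul_eq_zero.mp h0 with h' | h'
          · rcases mul_eq_zero.mp h' with h'' | h''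
            · exact absurd (neg_eq_zero.mp h'') h2
            · exact absurd h'' (inv_ne_zero hc)
          · exact h'
        have h3 : s * (μ - s * ν') = 0 := by
          have : s * (μ - s * ν') = s * μ + p * ν' - (s ^ 2 + p) * ν' := by ring
          rw [this, hs, h1]; ring
        rcases mul_eq_zero.mp h3 with h' | h'
        · exact absurd h' hs0
        · exact sub_eq_zero.mp h'
      rw [if_neg hμ, if_neg hz]; ring

end Finite


/-! ## The full Weil kernel of a Weil family -/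

section Kernel

open UpperHalfPlane
open scoped MatrixGroups ModularForm
open Fermat.Agent.Lib.WeilOrbit (IsWeilFamily comb)

variable {d : ℕ} [Fact d.Prime] {ψ : AddChar (ZMod d) ℂ} {cS : ℂ} {θ : ZMod d → ℍ → ℂ}

/-- The Weil kernel of `γ ∈ SL(2, ℤ)`. -/
noncomputable def kerSL (ψ : AddChar (ZMod d) ℂ) (cS : ℂ) (γ : SL(2, ℤ)) (h t : ZMod d) : ℂ :=
  ker ψ cS ((γ 0 0 : ℤ) : ZMod d) ((γ 0 1 : ℤ) : ZMod d) ((γ 1 0 : ℤ) : ZMod d)
    ((γ 1 1 : ℤ) : ZMod d) h t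

lemma det_zmod (γ : SL(2, ℤ)) :
    ((γ 0 0 : ℤ) : ZMod d) * ((γ 1 1 : ℤ) : ZMod d) -
      ((γ 0 1 : ℤ) : ZMod d) * ((γ 1 0 : ℤ) : ZMod d) = 1 := by
  have hdet : γ 0 0 * γ 1 1 - γ 0 1 * γ 1 0 = 1 := by
    have := γ.det_coe
    rwa [Matrix.det_fin_two] at this
  have h1 : (((γ 0 0 * γ 1 1 - γ 0 1 * γ 1 0 : ℤ)) : ZMod d) = 1 := by
    rw [hdet]; simp
  rwa [Int.cast_sub, Int.cast_mul, Int.cast_mul] at h1

lemma gS_eq (ψ : AddChar (ZMod d) ℂ) : gS ψ = Fermat.Agent.Lib.WeilOrbit.gS ψ := rfl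

lemma smul_comb (c : ℂ) (w : ZMod d → ℂ) : c • comb θ w = comb θ (fun t => c * w t) := by
  unfold comb
  rw [Finset.smul_sum]
  exact Finset.sum_congr rfl fun t _ => by rw [smul_smul]

theorem step_T (h : IsWeilFamily d 1 ψ (-2) cS θ) (γ : SL(2, ℤ)) (j : ZMod d)
    (hγ : θ j ∣[(1 : ℤ)] γ = comb θ (kerSL ψ cS γ j)) :
    θ j ∣[(1 : ℤ)] (γ * ModularGroup.T) = comb θ (kerSL ψ cS (γ * ModularGroup.T) j) := by
  have e00 : (γ * ModularGroup.T) 0 0 = γ 0 0 := by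
    simp [Matrix.SpecialLinearGroup.coe_mul, ModularGroup.coe_T, Matrix.mul_apply,
      Fin.sum_univ_two]
  have e01 : (γ * ModularGroup.T) 0 1 = γ 0 0 + γ 0 1 := by
    simp [Matrix.SpecialLinearGroup.coe_mul, ModularGroup.coe_T, Matrix.mul_apply,
      Fin.sum_univ_two]
  have e10 : (γ * ModularGroup.T) 1 0 = γ 1 0 := by
    simp [Matrix.SpecialLinearGroup.coe_mul, ModularGroup.coe_T, Matrix.mul_apply,
      Fin.sum_univ_two]
  have e11 : (γ * ModularGroup.T) 1 1 = γ 1 0 + γ 1 1 := by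
    simp [Matrix.SpecialLinearGroup.coe_mul, ModularGroup.coe_T, Matrix.mul_apply,
      Fin.sum_univ_two]
  rw [SlashAction.slash_mul, hγ, h.comb_slash_T]
  congr 1
  funext t
  unfold kerSL
  rw [e00, e01, e10, e11, Int.cast_add, Int.cast_add, ker_T]

theorem step_T_inv (h : IsWeilFamily d 1 ψ (-2) cS θ) (γ : SL(2, ℤ)) (j : ZMod d)
    (hγ : θ j ∣[(1 : ℤ)] γ = comb θ (kerSL ψ cS γ j)) :
    θ j ∣[(1 : ℤ)] (γ * ModularGroup.T⁻¹) = comb θ (kerSL ψ cS (γ * ModularGroup.T⁻¹) j) := by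
  have e00 : (γ * ModularGroup.T⁻¹) 0 0 = γ 0 0 := by
    simp [Matrix.SpecialLinearGroup.coe_mul, Matrix.mul_apply, Fin.sum_univ_two]
  have e01 : (γ * ModularGroup.T⁻¹) 0 1 = γ 0 1 - γ 0 0 := by
    simp [Matrix.SpecialLinearGroup.coe_mul, Matrix.mul_apply, Fin.sum_univ_two]
    ring
  have e10 : (γ * ModularGroup.T⁻¹) 1 0 = γ 1 0 := by
    simp [Matrix.SpecialLinearGroup.coe_mul, Matrix.mul_apply, Fin.sum_univ_two]
  have e11 : (γ * ModularGroup.T⁻¹) 1 1 = γ 1 1 - γ 1 0 := by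
    simp [Matrix.SpecialLinearGroup.coe_mul, Matrix.mul_apply, Fin.sum_univ_two]
    ring
  rw [SlashAction.slash_mul, hγ, h.comb_slash_T_inv]
  congr 1
  funext t
  unfold kerSL
  rw [e00, e01, e10, e11, Int.cast_sub, Int.cast_sub, ker_T_inv]

theorem step_S (h : IsWeilFamily d 1 ψ (-2) cS θ) (hd4 : d % 4 = 3) (hψ : ψ ≠ 1)
    (γ : SL(2, ℤ)) (j : ZMod d)
    (hγ : θ j ∣[(1 : ℤ)] γ = comb θ (kerSL ψ cS γ j)) :
    θ j ∣[(1 : ℤ)] (γ * ModularGroup.S) = comb θ (kerSL ψ cS (γ * ModularGroup.S) j) := by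
  have e00 : (γ * ModularGroup.S) 0 0 = γ 0 1 := by
    simp [Matrix.SpecialLinearGroup.coe_mul, ModularGroup.coe_S, Matrix.mul_apply,
      Fin.sum_univ_two]
  have e01 : (γ * ModularGroup.S) 0 1 = -γ 0 0 := by
    simp [Matrix.SpecialLinearGroup.coe_mul, ModularGroup.coe_S, Matrix.mul_apply,
      Fin.sum_univ_two]
  have e10 : (γ * ModularGroup.S) 1 0 = γ 1 1 := by
    simp [Matrix.SpecialLinearGroup.coe_mul, ModularGroup.coe_S, Matrix.mul_apply,
      Fin.sum_univ_two]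
  have e11 : (γ * ModularGroup.S) 1 1 = -γ 1 0 := by
    simp [Matrix.SpecialLinearGroup.coe_mul, ModularGroup.coe_S, Matrix.mul_apply,
      Fin.sum_univ_two]
  rw [SlashAction.slash_mul, hγ, h.comb_slash_S, smul_comb]
  congr 1
  funext u
  unfold kerSL
  rw [e00, e01, e10, e11, Int.cast_neg, Int.cast_neg,
    ker_S ψ hd4 hψ cS h.cS_sq (by rw [gS_eq]; exact h.cS_mul_gS hd4 hψ) _ _ _ _ (det_zmod γ)]
  congr 1
  refine Finset.sum_congr rfl fun t _ => ?_
  congr 2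
  ring

/-- **The full Weil kernel**: every `SL(2, ℤ)`-translate of every `θ j`. -/
theorem slash_all (h : IsWeilFamily d 1 ψ (-2) cS θ) (hd4 : d % 4 = 3) (hψ : ψ ≠ 1)
    (γ : SL(2, ℤ)) : ∀ j : ZMod d, θ j ∣[(1 : ℤ)] γ = comb θ (kerSL ψ cS γ j) := by
  have hmem : γ ∈ Subgroup.closure ({ModularGroup.S, ModularGroup.T} : Set SL(2, ℤ)) := by
    rw [SpecialLinearGroup.SL2Z_generators]
    exact Subgroup.mem_top γ
  induction hmem using Subgroup.closure_induction_right with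
  | one =>
    intro j
    rw [SlashAction.slash_one]
    have : kerSL ψ cS (1 : SL(2, ℤ)) j = fun t => if t = j then 1 else 0 := by
      funext t
      unfold kerSL ker
      simp [chi_one]
    rw [this]
    unfold comb
    simp [ite_smul]
  | mul_right x hx y hy ih =>
    intro j
    rcases hy with rfl | rfl
    · exact step_S h hd4 hψ x j (ih j)
    · exact step_T h x j (ih j)
  | mul_inv_cancel x hx y hy ih =>
    intro j
    rcases hy with rfl | rfl
    · have e : ModularGroup.S⁻¹ = ModularGroup.S * ModularGroup.S * ModularGroup.S := by decide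
      rw [e, ← mul_assoc, ← mul_assoc]
      exact step_S h hd4 hψ _ j (step_S h hd4 hψ _ j (step_S h hd4 hψ x j (ih j)))
    · exact step_T_inv h x j (ih j)

end Kernel


/-! ## The pair form `H(τ) = ∑_ν θ_{sν}(τ) θ_ν(pτ)` -/

section PairForm

open UpperHalfPlane Complex
open scoped MatrixGroups ModularForm Manifold
open Fermat.Agent.Lib.WeilOrbit (IsWeilFamily comb)
open Fermat.Agent.Lib.DeltaSlash (exists_decomp coe_sl_smul sl_denom_ne_zero im_affine_pos)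

lemma sl_slash_apply (k : ℤ) (f : ℍ → ℂ) (γ : SL(2, ℤ)) (z : ℍ) :
    (f ∣[k] γ) z = f (γ • z) * ((γ 1 0 : ℂ) * z + (γ 1 1 : ℂ)) ^ (-k) := by
  rw [ModularForm.SL_slash_apply]
  rfl

/-- Slash of a dilated function, via the Hermite decomposition `diag(N,1) γ = δ [a, b; 0, d]`. -/
lemma dil_slash (N : ℕ) [NeZero N] (γ δ : SL(2, ℤ)) (a b d : ℕ) (had : a * d = N)
    (h00 : δ 0 0 * a = N * γ 0 0) (h01 : δ 0 0 * b + δ 0 1 * d = N * γ 0 1)
    (h10 : δ 1 0 * a = γ 1 0) (h11 : δ 1 0 * b + δ 1 1 * d = γ 1 1) (k : ℤ) (f : ℍ → ℂ)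
    (z : ℍ) :
    ((fun τ : ℍ => f (ofComplex ((N : ℂ) * τ))) ∣[k] γ) z =
      (d : ℂ) ^ (-k) * (f ∣[k] δ) (ofComplex (((a : ℂ) * z + b) / d)) := by
  have hN0 : N ≠ 0 := NeZero.ne N
  have ha0 : a ≠ 0 := by rintro rfl; simp at had; exact hN0 had.symm
  have hd0 : d ≠ 0 := by rintro rfl; simp at had; exact hN0 had.symm
  have haC : (a : ℂ) ≠ 0 := by exact_mod_cast ha0
  have hdC : (d : ℂ) ≠ 0 := by exact_mod_cast hd0
  have hwim : 0 < (((a : ℂ) * z + b) / d).im := im_affine_pos ha0 hd0 b z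
  obtain ⟨w, hw⟩ : ∃ w : ℍ, (w : ℂ) = ((a : ℂ) * z + b) / d := ⟨⟨_, hwim⟩, rfl⟩
  have hden := sl_denom_ne_zero γ z
  have hdenδ := sl_denom_ne_zero δ w
  have c00 : (δ 0 0 : ℂ) * a = N * (γ 0 0 : ℂ) := by exact_mod_cast h00
  have c01 : (δ 0 0 : ℂ) * b + (δ 0 1 : ℂ) * d = N * (γ 0 1 : ℂ) := by exact_mod_cast h01
  have c10 : (δ 1 0 : ℂ) * a = (γ 1 0 : ℂ) := by exact_mod_cast h10
  have c11 : (δ 1 0 : ℂ) * b + (δ 1 1 : ℂ) * d = (γ 1 1 : ℂ) := by exact_mod_cast h11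
  have hdenrel : (δ 1 0 : ℂ) * w + (δ 1 1 : ℂ) = ((γ 1 0 : ℂ) * z + (γ 1 1 : ℂ)) / d := by
    rw [hw]; field_simp; linear_combination (z : ℂ) * c10 + c11
  have key : ofComplex ((N : ℂ) * ((γ • z : ℍ) : ℂ)) = δ • w := by
    have him : 0 < ((N : ℂ) * ((γ • z : ℍ) : ℂ)).im := by
      have : ((N : ℂ) * ((γ • z : ℍ) : ℂ)).im = N * (γ • z : ℍ).im := by simp
      rw [this]
      have := (γ • z : ℍ).im_pos
      positivity
    rw [ofComplex_apply_of_im_pos him]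
    apply UpperHalfPlane.ext
    show (N : ℂ) * ((γ • z : ℍ) : ℂ) = ((δ • w : ℍ) : ℂ)
    rw [coe_sl_smul, coe_sl_smul, hdenrel]
    have hnum : (δ 0 0 : ℂ) * w + (δ 0 1 : ℂ) =
        ((N : ℂ) * ((γ 0 0 : ℂ) * z + (γ 0 1 : ℂ))) / d := by
      rw [hw]; field_simp; linear_combination (z : ℂ) * c00 + c01
    rw [hnum]
    field_simp
  have hw' : ofComplex (((a : ℂ) * z + b) / d) = w := by
    rw [ofComplex_apply_of_im_pos hwim]; exact UpperHalfPlane.ext hw.symm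
  rw [sl_slash_apply, hw', sl_slash_apply, hdenrel]
  rw [key, div_zpow]
  have hdk : (d : ℂ) ^ (-k) ≠ 0 := zpow_ne_zero _ hdC
  field_simp

/-- Composition with `z ↦ (a z + b)/d` preserves boundedness at `i∞`. -/
lemma bdd_comp_affine {f : ℍ → ℂ} (hf : IsBoundedAtImInfty f) {a d : ℕ} (ha : a ≠ 0)
    (hd : d ≠ 0) (b : ℕ) :
    IsBoundedAtImInfty (fun z : ℍ => f (ofComplex (((a : ℂ) * z + b) / d))) := by
  rw [isBoundedAtImInfty_iff] at hf ⊢
  obtain ⟨M, A, hMA⟩ := hf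
  refine ⟨M, A * d / a, fun z hz => ?_⟩
  apply hMA
  have hwim : 0 < (((a : ℂ) * z + b) / d).im := im_affine_pos ha hd b z
  rw [ofComplex_apply_of_im_pos hwim]
  show A ≤ (((a : ℂ) * z + b) / d).im
  have him : (((a : ℂ) * z + b) / d).im = (a : ℝ) * z.im / d := by
    rw [Complex.div_natCast_im]
    simp [Complex.add_im, Complex.mul_im]
  rw [him]
  have ha' : (0 : ℝ) < a := by exact_mod_cast Nat.pos_of_ne_zero ha
  have hd' : (0 : ℝ) < d := by exact_mod_cast Nat.pos_of_ne_zero hd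
  rw [div_le_iff₀ ha'] at hz
  rw [le_div_iff₀ hd']
  linarith

lemma mul_slash_two (f g : ℍ → ℂ) (γ : SL(2, ℤ)) :
    (f * g) ∣[(2 : ℤ)] γ = f ∣[(1 : ℤ)] γ * g ∣[(1 : ℤ)] γ := by
  have h := ModularForm.mul_slash_SL2 1 1 γ f g
  rwa [show ((1 : ℤ) + 1) = 2 from rfl] at h

lemma comb_apply {d : ℕ} [Fact d.Prime] (θ : ZMod d → ℍ → ℂ) (w : ZMod d → ℂ) (z : ℍ) :
    comb θ w z = ∑ t, w t * θ t z := by
  unfold comb
  simp [Finset.sum_apply]

lemma pair_sum {ι : Type*} [Fintype ι] [DecidableEq ι] (A B : ι → ι → ℂ) (x y : ι → ℂ)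
    (σ : ι → ι) (hAB : ∀ μ ν', ∑ ν, A ν μ * B ν ν' = if μ = σ ν' then 1 else 0) :
    ∑ ν, (∑ μ, A ν μ * x μ) * (∑ ν', B ν ν' * y ν') = ∑ ν', x (σ ν') * y ν' := by
  calc ∑ ν, (∑ μ, A ν μ * x μ) * (∑ ν', B ν ν' * y ν')
      = ∑ ν, ∑ μ, ∑ ν', (A ν μ * B ν ν') * (x μ * y ν') := by
        refine Finset.sum_congr rfl fun ν _ => ?_
        rw [Finset.sum_mul_sum]
        refine Finset.sum_congr rfl fun μ _ => Finset.sum_congr rfl fun ν' _ => ?_
        ring
    _ = ∑ μ, ∑ ν', ∑ ν, (A ν μ * B ν ν') * (x μ * y ν') := by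
        rw [Finset.sum_comm]
        refine Finset.sum_congr rfl fun μ _ => ?_
        rw [Finset.sum_comm]
    _ = ∑ μ, ∑ ν', (if μ = σ ν' then 1 else 0) * (x μ * y ν') := by
        refine Finset.sum_congr rfl fun μ _ => Finset.sum_congr rfl fun ν' _ => ?_
        rw [← Finset.sum_mul, hAB]
    _ = ∑ ν', ∑ μ, (if μ = σ ν' then 1 else 0) * (x μ * y ν') := Finset.sum_comm
    _ = ∑ ν', x (σ ν') * y ν' := by
        refine Finset.sum_congr rfl fun ν' _ => ?_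
        simp [ite_mul]

variable {d : ℕ} [Fact d.Prime] {ψ : AddChar (ZMod d) ℂ} {cS : ℂ} {θ : ZMod d → ℍ → ℂ}

/-- The pair form `H(τ) = ∑_ν θ_{sν}(τ) θ_ν(pτ)`. -/
noncomputable def pairH (θ : ZMod d → ℍ → ℂ) (p : ℕ) (s : ZMod d) : ℍ → ℂ :=
  fun τ => ∑ ν : ZMod d, θ (s * ν) τ * θ ν (ofComplex ((p : ℂ) * τ))

/-- Every `SL(2, ℤ)`-translate of the pair form, in terms of the Weil kernels of `γ` and of the
Hermite partner `δ` of `γ`. -/
theorem pairH_slash (h : IsWeilFamily d 1 ψ (-2) cS θ) (hd4 : d % 4 = 3) (hψ : ψ ≠ 1)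
    (p : ℕ) [NeZero p] (s : ZMod d) (γ δ : SL(2, ℤ)) (a b d' : ℕ) (had : a * d' = p)
    (h00 : δ 0 0 * a = p * γ 0 0) (h01 : δ 0 0 * b + δ 0 1 * d' = p * γ 0 1)
    (h10 : δ 1 0 * a = γ 1 0) (h11 : δ 1 0 * b + δ 1 1 * d' = γ 1 1) (z : ℍ) :
    (pairH θ p s ∣[(2 : ℤ)] γ) z =
      ∑ ν : ZMod d, (∑ μ, kerSL ψ cS γ (s * ν) μ * θ μ z) *
        ((d' : ℂ) ^ (-(1 : ℤ)) *
          ∑ ν', kerSL ψ cS δ ν ν' * θ ν' (ofComplex (((a : ℂ) * z + b) / d'))) := by
  have hH : pairH θ p s =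
      ∑ ν : ZMod d, θ (s * ν) * (fun τ : ℍ => θ ν (ofComplex ((p : ℂ) * τ))) := by
    funext τ
    simp [pairH, Finset.sum_apply]
  rw [hH, SlashAction.sum_slash, Finset.sum_apply]
  refine Finset.sum_congr rfl fun ν _ => ?_
  rw [mul_slash_two, Pi.mul_apply, slash_all h hd4 hψ γ (s * ν), comb_apply,
    dil_slash p γ δ a b d' had h00 h01 h10 h11 1 (θ ν) z, slash_all h hd4 hψ δ ν, comb_apply]

/-- The pair form is invariant under `Γ₀(p)`. -/
theorem pairH_slash_of_mem (h : IsWeilFamily d 1 ψ (-2) cS θ) (hd4 : d % 4 = 3) (hψ : ψ ≠ 1)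
    (p : ℕ) [NeZero p] (s : ZMod d) (hs : s ^ 2 = -(p : ZMod d)) (hp : (p : ZMod d) ≠ 0)
    (γ : SL(2, ℤ)) (hγ : γ ∈ CongruenceSubgroup.Gamma0 p) :
    pairH θ p s ∣[(2 : ℤ)] γ = pairH θ p s := by
  classical
  obtain ⟨a, b, d', δ, had, hbd, hd1, h00, h01, h10, h11⟩ := exists_decomp p γ
  have hdvd : (p : ℤ) ∣ γ 1 0 := by
    have := CongruenceSubgroup.Gamma0_mem.mp hγ
    exact (ZMod.intCast_zmod_eq_zero_iff_dvd _ _).mp this
  have hd'1 : d' = 1 := hd1.mpr hdvd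
  subst hd'1
  have hb0 : b = 0 := by omega
  subst hb0
  have hap : a = p := by simpa using had
  subst hap
  have hp0 : (a : ℤ) ≠ 0 := by exact_mod_cast NeZero.ne a
  have e00 : δ 0 0 = γ 0 0 := by
    have : δ 0 0 * a = γ 0 0 * a := by rw [h00]; ring
    exact mul_right_cancel₀ hp0 this
  have e01 : δ 0 1 = a * γ 0 1 := by
    have := h01; simp at this; linarith
  have e11 : δ 1 1 = γ 1 1 := by
    have := h11; simp at this; linarith
  funext z
  rw [pairH_slash h hd4 hψ a s γ δ a 0 1 had h00 h01 h10 h11 z]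
  have hW : ofComplex (((a : ℂ) * z + ((0 : ℕ) : ℂ)) / ((1 : ℕ) : ℂ)) = ofComplex ((a : ℂ) * z) := by
    simp
  rw [hW]
  simp only [Nat.cast_one, one_zpow, one_mul]
  unfold pairH
  refine pair_sum (fun ν μ => kerSL ψ cS γ (s * ν) μ) (fun ν ν' => kerSL ψ cS δ ν ν')
    (fun μ => θ μ z) (fun ν' => θ ν' (ofComplex ((a : ℂ) * z))) (fun ν' => s * ν') ?_
  intro μ ν'
  unfold kerSL
  rw [e00, e01, e11, Int.cast_mul, Int.cast_natCast]
  refine ker_pair ψ hd4 hψ cS h.cS_sq _ _ _ _ _ (a : ZMod d) s (det_zmod γ) ?_ hp hs μ ν'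
  have : ((δ 1 0 * (a : ℤ) : ℤ) : ZMod d) = ((γ 1 0 : ℤ) : ZMod d) := by rw [h10]
  simpa using this


lemma mdiff_dil {f : ℍ → ℂ} (hf : MDiff f) (p : ℕ) [NeZero p] :
    MDiff (fun τ : ℍ => f (ofComplex ((p : ℂ) * τ))) := by
  rw [UpperHalfPlane.mdifferentiable_iff] at hf ⊢
  have hp0 : (0 : ℝ) < p := by exact_mod_cast Nat.pos_of_ne_zero (NeZero.ne p)
  have hmaps : Set.MapsTo (fun z : ℂ => (p : ℂ) * z) {z : ℂ | 0 < z.im} {z : ℂ | 0 < z.im} := by
    intro z hz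
    have hz' : 0 < z.im := hz
    show 0 < ((p : ℂ) * z).im
    have : ((p : ℂ) * z).im = p * z.im := by simp
    rw [this]; positivity
  have h1 : DifferentiableOn ℂ (fun z : ℂ => (f ∘ ofComplex) ((p : ℂ) * z)) {z : ℂ | 0 < z.im} :=
    hf.comp ((differentiable_id.const_mul (p : ℂ)).differentiableOn) hmaps
  refine h1.congr fun z hz => ?_
  have hz' : 0 < z.im := hz
  simp only [Function.comp_apply]
  rw [ofComplex_apply_of_im_pos hz']

lemma bdd_finset_sum {ι : Type*} (s : Finset ι) (F : ι → ℍ → ℂ)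
    (hF : ∀ i ∈ s, IsBoundedAtImInfty (F i)) : IsBoundedAtImInfty (∑ i ∈ s, F i) := by
  classical
  unfold IsBoundedAtImInfty
  induction s using Finset.induction_on with
  | empty => simpa using Filter.const_boundedAtFilter atImInfty (0 : ℂ)
  | insert a s ha ih =>
    rw [Finset.sum_insert ha]
    exact (hF a (Finset.mem_insert_self a s)).add
      (ih fun i hi => hF i (Finset.mem_insert_of_mem hi))

theorem mdiff_pairH (hmd : ∀ j, MDiff (θ j)) (p : ℕ) [NeZero p] (s : ZMod d) :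
    MDiff (pairH θ p s) := by
  rw [UpperHalfPlane.mdifferentiable_iff]
  have h1 : ∀ ν : ZMod d, DifferentiableOn ℂ (θ (s * ν) ∘ ofComplex) {z : ℂ | 0 < z.im} :=
    fun ν => UpperHalfPlane.mdifferentiable_iff.mp (hmd (s * ν))
  have h2 : ∀ ν : ZMod d, DifferentiableOn ℂ
      ((fun τ : ℍ => θ ν (ofComplex ((p : ℂ) * τ))) ∘ ofComplex) {z : ℂ | 0 < z.im} :=
    fun ν => UpperHalfPlane.mdifferentiable_iff.mp (mdiff_dil (hmd ν) p)
  have h3 : DifferentiableOn ℂ (fun z : ℂ => ∑ ν : ZMod d, (θ (s * ν) ∘ ofComplex) z *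
      ((fun τ : ℍ => θ ν (ofComplex ((p : ℂ) * τ))) ∘ ofComplex) z) {z : ℂ | 0 < z.im} :=
    DifferentiableOn.fun_sum fun ν _ => (h1 ν).mul (h2 ν)
  exact h3

theorem bdd_pairH_slash (h : IsWeilFamily d 1 ψ (-2) cS θ) (hd4 : d % 4 = 3) (hψ : ψ ≠ 1)
    (hbd : ∀ j, IsBoundedAtImInfty (θ j)) (p : ℕ) [NeZero p] (s : ZMod d) (γ : SL(2, ℤ)) :
    IsBoundedAtImInfty (pairH θ p s ∣[(2 : ℤ)] γ) := by
  obtain ⟨a, b, d', δ, had, hbd', hd1, h00, h01, h10, h11⟩ := exists_decomp p γ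
  have hp0 : p ≠ 0 := NeZero.ne p
  have ha0 : a ≠ 0 := by rintro rfl; simp at had; exact hp0 had.symm
  have hd0 : d' ≠ 0 := by rintro rfl; simp at had; exact hp0 had.symm
  have key : pairH θ p s ∣[(2 : ℤ)] γ =
      ∑ ν : ZMod d, (∑ μ : ZMod d, kerSL ψ cS γ (s * ν) μ • θ μ) *
        (((d' : ℂ) ^ (-(1 : ℤ))) • ∑ ν' : ZMod d, kerSL ψ cS δ ν ν' •
          (fun z : ℍ => θ ν' (ofComplex (((a : ℂ) * z + b) / d')))) := by
    funext z
    rw [pairH_slash h hd4 hψ p s γ δ a b d' had h00 h01 h10 h11 z]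
    simp only [Finset.sum_apply, Pi.mul_apply, Pi.smul_apply, smul_eq_mul]
  rw [key]
  refine bdd_finset_sum _ _ fun ν _ => ?_
  refine Filter.BoundedAtFilter.mul ?_ ?_
  · exact bdd_finset_sum _ _ fun μ _ => (hbd μ).smul _
  · refine Filter.BoundedAtFilter.smul _ ?_
    exact bdd_finset_sum _ _ fun ν' _ => (bdd_comp_affine (hbd ν') ha0 hd0 b).smul _

/-- **The pair form is a modular form of weight 2 on `Γ₀(p)`.** -/
theorem exists_pairForm (h : IsWeilFamily d 1 ψ (-2) cS θ) (hd4 : d % 4 = 3) (hψ : ψ ≠ 1)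
    (hmd : ∀ j, MDiff (θ j)) (hbd : ∀ j, IsBoundedAtImInfty (θ j))
    (p : ℕ) [NeZero p] (s : ZMod d) (hs : s ^ 2 = -(p : ZMod d)) (hp : (p : ZMod d) ≠ 0) :
    ∃ F : ModularForm (CongruenceSubgroup.Gamma0 p) 2,
      ∀ τ : ℍ, F τ = ∑ ν : ZMod d, θ (s * ν) τ * θ ν (ofComplex ((p : ℂ) * τ)) := by
  refine ⟨{ toFun := pairH θ p s
            slash_action_eq' := ?_
            holo' := mdiff_pairH hmd p s
            bdd_at_cusps' := ?_ }, fun τ => rfl⟩
  · rintro γ ⟨γ', hγ', rfl⟩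
    exact pairH_slash_of_mem h hd4 hψ p s hs hp γ' hγ'
  · intro c hc
    have hc' := (Subgroup.IsArithmetic.isCusp_iff_isCusp_SL2Z _).mp hc
    exact (OnePoint.isBoundedAt_iff_forall_SL2Z hc').mpr
      (fun δ _ => bdd_pairH_slash h hd4 hψ hbd p s δ)

end PairForm

end Fermat.Agent.Lib.WeilPair
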