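import Mathlib

set_option autoImplicit false

namespace Fermat.Agent.Lib.X015Identity

variable {K : Type*} [Field K]

/-- `ψ₂²` in terms of the `b`-invariants. -/
def Mb (b2 b4 b6 x : K) : K := 4 * x ^ 3 + b2 * x ^ 2 + 2 * b4 * x + b6

/-- Numerator of the duplication map on `x`-coordinates. -/
def Nb (b4 b6 b8 x : K) : K := x ^ 4 - b4 * x ^ 2 - 2 * b6 * x - b8

/-- The discriminant in terms of the `b`-invariants. -/
def Db (b2 b4 b6 b8 : K) : K := -b2 ^ 2 * b8 - 8 * b4 ^ 3 - 27 * b6 ^ 2 + 9 * b2 * b4 * b6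

/-- The cubic of the normalised family `y² = x³ + lam (x+1)²`. -/
def hL (lam x : K) : K := x ^ 3 + lam * (x + 1) ^ 2

/-- Numerator of duplication on the normalised family, divided by `x`. -/
def nL (lam x : K) : K := x ^ 3 - 4 * lam * x - 8 * lam

/-- The 3-division polynomial of the normalised family, divided by `x`. -/
def p3L (lam x : K) : K := 3 * x ^ 3 + 4 * lam * x ^ 2 + 12 * lam * x + 12 * lam

/-- The 5-division polynomial of the normalised family. -/
def psi5L (lam x : K) : K :=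
    -256*lam^4*x^5 - 1280*lam^4*x^4 - 2560*lam^4*x^3 - 2560*lam^4*x^2 - 1280*lam^4*x - 256*lam^4
    - 960*lam^3*x^6 - 3264*lam^3*x^5 - 3840*lam^3*x^4 - 1600*lam^3*x^3 + 16*lam^2*x^10 + 160*lam^2*x^9
    + 720*lam^2*x^8 + 480*lam^2*x^7 - 240*lam^2*x^6 + 20*lam*x^11 + 124*lam*x^10 + 380*lam*x^9
    + 5*x^12

/-- Part 0 of the cofactor certificate. -/
def QL0 (lam x : K) : K :=
    -163840*lam^4*x^22 - 81920*lam^3*x^23 - 1672960*lam^3*x^22 - 16384*lam^2*x^24 - 200448*lam^2*x^23
    - 9829296*lam^2*x^22 + 34560*lam*x^24 - 583200*lam*x^23 - 18225*x^24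

/-- Part 1 of the cofactor certificate. -/
def QL1 (lam x : K) : K :=
    -81920*lam^6*x^20 - 163840*lam^5*x^21 - 4469760*lam^5*x^20 - 3994880*lam^4*x^21 - 124519680*lam^4*x^20
    - 50440640*lam^3*x^21 - 64124352*lam^2*x^21 - 2609820*lam*x^22 - 2770200*lam*x^21

/-- Part 2 of the cofactor certificate. -/
def QL2 (lam x : K) : K :=
    -16384*lam^7*x^19 - 524288*lam^7*x^18 - 2437120*lam^6*x^19 - 175319040*lam^5*x^19 - 1135281664*lam^4*x^19
    - 392843520*lam^3*x^20 - 1381864320*lam^3*x^19 - 169431264*lam^2*x^20 - 209718720*lam^2*x^19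

/-- Part 3 of the cofactor certificate. -/
def QL3 (lam x : K) : K :=
    -89194496*lam^7*x^17 - 153579520*lam^6*x^18 - 1969664000*lam^6*x^17 - 1882163200*lam^5*x^18
    - 9605268480*lam^5*x^17 - 4879372288*lam^4*x^18 - 11423897856*lam^4*x^17 - 2523744000*lam^3*x^18
    - 103518000*lam^2*x^18

/-- Part 4 of the cofactor certificate. -/
def QL4 (lam x : K) : K :=
    -9175040*lam^9*x^15 - 35717120*lam^8*x^16 - 642580480*lam^8*x^15 - 1373601792*lam^7*x^16 - 11828224000*lam^6*x^16
    - 27437168640*lam^5*x^16 - 14485588992*lam^4*x^16 - 2296175040*lam^3*x^17 - 711037440*lam^3*x^16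

/-- Part 5 of the cofactor certificate. -/
def QL5 (lam x : K) : K :=
    -1048576*lam^10*x^14 - 183500800*lam^9*x^14 - 5214437376*lam^8*x^14 - 9656090624*lam^7*x^15
    - 39438778368*lam^7*x^14 - 40528424960*lam^6*x^15 - 44703088640*lam^5*x^15 - 7787003904*lam^4*x^15
    + 144633600*lam^3*x^15

/-- Part 6 of the cofactor certificate. -/
def QL6 (lam x : K) : K :=
    -23068672*lam^10*x^13 - 1680343040*lam^9*x^13 - 25079119872*lam^8*x^13 - 101182980096*lam^7*x^13
    - 83111342080*lam^6*x^14 - 94691471360*lam^6*x^13 - 35226925056*lam^5*x^14 + 3090521088*lam^5*x^13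
    + 1772928000*lam^4*x^14

/-- Part 7 of the cofactor certificate. -/
def QL7 (lam x : K) : K :=
    -234881024*lam^10*x^12 - 1465909248*lam^10*x^11 - 9307422720*lam^9*x^12 - 78928216064*lam^8*x^12
    - 163175923712*lam^7*x^12 - 31312691200*lam^6*x^12 + 29699398656*lam^5*x^12 + 3534658560*lam^4*x^13
    + 846339840*lam^4*x^12

/-- Part 8 of the cofactor certificate. -/
def QL8 (lam x : K) : K :=
    -6261047296*lam^10*x^10 - 34711797760*lam^9*x^11 - 91852636160*lam^9*x^10 - 169081110528*lam^8*x^11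
    - 248170807296*lam^8*x^10 - 148665974784*lam^7*x^11 - 35672096768*lam^7*x^10 + 62395453440*lam^6*x^11
    + 21373673472*lam^5*x^11

/-- Part 9 of the cofactor certificate. -/
def QL9 (lam x : K) : K :=
    -19349372928*lam^10*x^9 - 44602228736*lam^10*x^8 - 177259413504*lam^9*x^9 - 246037282816*lam^8*x^9
    + 65760772096*lam^7*x^9 + 87462236160*lam^6*x^10 + 36970905600*lam^6*x^9 + 4414777344*lam^5*x^10
    - 418037760*lam^5*x^9

/-- Part 10 of the cofactor certificate. -/
def QL10 (lam x : K) : K :=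
    -77879836672*lam^10*x^7 - 253467557888*lam^9*x^8 - 273313693696*lam^9*x^7 - 167643512832*lam^8*x^8
    - 112045522944*lam^8*x^7 + 45198508032*lam^7*x^8 - 42306748416*lam^7*x^7 - 6539304960*lam^6*x^8
    - 9629798400*lam^6*x^7

/-- Part 11 of the cofactor certificate. -/
def QL11 (lam x : K) : K :=
    -103488159744*lam^10*x^6 - 104126742528*lam^10*x^5 - 232569700352*lam^9*x^6 - 174402043904*lam^9*x^5
    - 134361776128*lam^8*x^6 - 164309630976*lam^8*x^5 - 74213425152*lam^7*x^6 - 41732112384*lam^7*x^5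
    - 1955819520*lam^6*x^6

/-- Part 12 of the cofactor certificate. -/
def QL12 (lam x : K) : K :=
    -78079066112*lam^10*x^4 - 42303750144*lam^10*x^3 - 15653142528*lam^10*x^2 - 130525954048*lam^9*x^4
    - 92499869696*lam^9*x^3 - 129006895104*lam^8*x^4 - 58921648128*lam^8*x^3 - 9794027520*lam^7*x^4
    - 597196800*lam^7*x^3

/-- Part 13 of the cofactor certificate. -/
def QL13 (lam x : K) : K :=
    -3539992576*lam^10*x - 369098752*lam^10 - 50493652992*lam^9*x^2 - 17185112064*lam^9*x - 2661285888*lam^9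
    - 14046068736*lam^8*x^2 - 1337720832*lam^8*x - 47775744*lam^8

/-- The cofactor certificate. -/
def QL (lam x : K) : K :=
  QL0 lam x + QL1 lam x + QL2 lam x + QL3 lam x + QL4 lam x + QL5 lam x + QL6 lam x + QL7 lam x + QL8 lam x + QL9 lam x + QL10 lam x + QL11 lam x + QL12 lam x + QL13 lam x

/-- The homogeneous form of the `X₀(15)` relation. -/
def CC (t A B : K) : K :=
  t ^ 2 * (A * B) ^ 6 - t ^ 2 * (A * B) ^ 5 * (A - B) ^ 2 - 5 * t * (A * B) ^ 3 * (A - B) ^ 6
    - 9 * (A * B) * (A - B) ^ 10 - (A - B) ^ 12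

theorem CC_homog (t c A B : K) : CC t (c * A) (c * B) = c ^ 12 * CC t A B := by
  unfold CC; ring

set_option maxHeartbeats 4000000 in
theorem CC_cert (lam x : K) :
    CC (4 * lam - 27) (4 * hL lam x) (nL lam x) = QL lam x * psi5L lam x := by
  unfold CC hL nL QL QL0 QL1 QL2 QL3 QL4 QL5 QL6 QL7 QL8 QL9 QL10 QL11 QL12 QL13 psi5L; ring

set_option maxHeartbeats 4000000 in
theorem N_cert (lam x : K) :
    (x * nL lam x) ^ 4 - 4 * lam * (x * nL lam x) ^ 2 * (4 * hL lam x) ^ 2
        - 8 * lam * (x * nL lam x) * (4 * hL lam x) ^ 3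
      - 4 * x * (4 * hL lam x) *
        ((x * nL lam x) ^ 3 + lam * (x * nL lam x + 4 * hL lam x) ^ 2 * (4 * hL lam x))
      = -(x * p3L lam x) * psi5L lam x := by
  unfold hL nL p3L psi5L; ring

end Fermat.Agent.Lib.X015Identity
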