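import Fermat.Agent.Lib.X015Cert

set_option autoImplicit false

namespace Fermat.Agent.Lib.X015Identity

variable {K : Type*} [Field K] [CharZero K]

/-- The relation on the normalised family `y² = x³ + lam (x+1)²`, with the point of order three
at `x = 0`: if `x2 = dup x1`, `x1 = dup x2` and `x1 ≠ x2`, the `X₀(15)` relation holds. -/
theorem core (lam x1 x2 : K)
    (h12 : x2 * (4 * hL lam x1) = x1 * nL lam x1)
    (h21 : x1 * (4 * hL lam x2) = x2 * nL lam x2)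
    (hh1 : hL lam x1 ≠ 0) (hne : x1 ≠ x2) :
    CC (4 * lam - 27) x1 x2 = 0 := by
  have h4 : (4 : K) ≠ 0 := by norm_num
  have hd : (4 * hL lam x1) ≠ 0 := mul_ne_zero h4 hh1
  have hp3 : x1 * p3L lam x1 ≠ 0 := by
    have e : x1 * p3L lam x1 = x1 * (4 * hL lam x1) - x1 * nL lam x1 := by
      unfold p3L hL nL; ring
    have e' : x1 * p3L lam x1 = (x1 - x2) * (4 * hL lam x1) := by
      rw [e, ← h12]; ring
    rw [e']
    exact mul_ne_zero (sub_ne_zero.mpr hne) hd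
  have h5 : psi5L lam x1 = 0 := by
    have key := N_cert lam x1
    rw [← h12] at key
    have hz : (x2 * (4 * hL lam x1)) ^ 4
          - 4 * lam * (x2 * (4 * hL lam x1)) ^ 2 * (4 * hL lam x1) ^ 2
          - 8 * lam * (x2 * (4 * hL lam x1)) * (4 * hL lam x1) ^ 3
        - 4 * x1 * (4 * hL lam x1) *
          ((x2 * (4 * hL lam x1)) ^ 3
            + lam * (x2 * (4 * hL lam x1) + 4 * hL lam x1) ^ 2 * (4 * hL lam x1))
        = (4 * hL lam x1) ^ 4 * (x2 * nL lam x2 - x1 * (4 * hL lam x2)) := by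
      unfold hL nL; ring
    rw [hz, h21, sub_self, mul_zero] at key
    have key' : x1 * p3L lam x1 * psi5L lam x1 = 0 := by
      linear_combination key
    rcases mul_eq_zero.mp key' with h | h
    · exact absurd h hp3
    · exact h
  have hom : (4 * hL lam x1) ^ 12 * CC (4 * lam - 27) x1 x2 = 0 := by
    rw [← CC_homog, mul_comm (4 * hL lam x1) x2, h12, mul_comm (4 * hL lam x1) x1, CC_homog,
      CC_cert, h5, mul_zero, mul_zero]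
  rcases mul_eq_zero.mp hom with h | h
  · exact absurd (pow_eq_zero_iff (by norm_num) |>.mp h) hd
  · exact h

/-- Scaled version of `core`: the family `y² = X³ + lam * mu * (X + mu)²`. -/
theorem core_scaled (lam mu X1 X2 : K) (hmu : mu ≠ 0)
    (h12 : X2 * (4 * X1 ^ 3 + 4 * lam * mu * X1 ^ 2 + 2 * (4 * lam * mu ^ 2) * X1
        + 4 * lam * mu ^ 3) = X1 ^ 4 - 4 * lam * mu ^ 2 * X1 ^ 2 - 2 * (4 * lam * mu ^ 3) * X1)
    (h21 : X1 * (4 * X2 ^ 3 + 4 * lam * mu * X2 ^ 2 + 2 * (4 * lam * mu ^ 2) * X2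
        + 4 * lam * mu ^ 3) = X2 ^ 4 - 4 * lam * mu ^ 2 * X2 ^ 2 - 2 * (4 * lam * mu ^ 3) * X2)
    (hM1 : 4 * X1 ^ 3 + 4 * lam * mu * X1 ^ 2 + 2 * (4 * lam * mu ^ 2) * X1
        + 4 * lam * mu ^ 3 ≠ 0) (hne : X1 ≠ X2) :
    CC (4 * lam - 27) X1 X2 = 0 := by
  obtain ⟨y1, rfl⟩ : ∃ y1, X1 = mu * y1 := ⟨X1 / mu, by field_simp⟩
  obtain ⟨y2, rfl⟩ : ∃ y2, X2 = mu * y2 := ⟨X2 / mu, by field_simp⟩
  have hmu4 : mu ^ 4 ≠ 0 := pow_ne_zero _ hmu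
  have e1 : 4 * (mu * y1) ^ 3 + 4 * lam * mu * (mu * y1) ^ 2 + 2 * (4 * lam * mu ^ 2) * (mu * y1)
      + 4 * lam * mu ^ 3 = mu ^ 3 * (4 * hL lam y1) := by unfold hL; ring
  have e2 : 4 * (mu * y2) ^ 3 + 4 * lam * mu * (mu * y2) ^ 2 + 2 * (4 * lam * mu ^ 2) * (mu * y2)
      + 4 * lam * mu ^ 3 = mu ^ 3 * (4 * hL lam y2) := by unfold hL; ring
  rw [e1] at h12 hM1
  rw [e2] at h21
  have h12' : y2 * (4 * hL lam y1) = y1 * nL lam y1 := by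
    apply mul_left_cancel₀ hmu4
    have : (mu * y1) ^ 4 - 4 * lam * mu ^ 2 * (mu * y1) ^ 2 - 2 * (4 * lam * mu ^ 3) * (mu * y1)
        = mu ^ 4 * (y1 * nL lam y1) := by unfold nL; ring
    rw [← this, ← h12]; ring
  have h21' : y1 * (4 * hL lam y2) = y2 * nL lam y2 := by
    apply mul_left_cancel₀ hmu4
    have : (mu * y2) ^ 4 - 4 * lam * mu ^ 2 * (mu * y2) ^ 2 - 2 * (4 * lam * mu ^ 3) * (mu * y2)
        = mu ^ 4 * (y2 * nL lam y2) := by unfold nL; ring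
    rw [← this, ← h21]; ring
  have hh1 : hL lam y1 ≠ 0 := by
    intro h; apply hM1; rw [h]; ring
  have hne' : y1 ≠ y2 := fun h => hne (by rw [h])
  rw [CC_homog, core lam y1 y2 h12' h21' hh1 hne', mul_zero]

/-- **The `X₀(15)` relation**, homogeneous form, for a general Weierstrass model given by its
`b`-invariants: `x3` is the `x`-coordinate of a point of order three, `x1` and `x2` those of
a point of order five and of its double. -/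
theorem x015_CC (b2 b4 b6 b8 x3 x1 x2 : K) (hb : 4 * b8 = b2 * b6 - b4 ^ 2)
    (h3 : 3 * x3 ^ 4 + b2 * x3 ^ 3 + 3 * b4 * x3 ^ 2 + 3 * b6 * x3 + b8 = 0)
    (hM3 : Mb b2 b4 b6 x3 ≠ 0) (hc4 : b2 ^ 2 - 24 * b4 ≠ 0)
    (h12 : x2 * Mb b2 b4 b6 x1 = Nb b4 b6 b8 x1) (h21 : x1 * Mb b2 b4 b6 x2 = Nb b4 b6 b8 x2)
    (hM1 : Mb b2 b4 b6 x1 ≠ 0) (hne : x1 ≠ x2) :
    CC (Db b2 b4 b6 b8 / (Mb b2 b4 b6 x3) ^ 2) (x1 - x3) (x2 - x3) = 0 := by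
  obtain ⟨B2, hB2⟩ : ∃ B2 : K, B2 = b2 + 12 * x3 := ⟨_, rfl⟩
  obtain ⟨B4, hB4⟩ : ∃ B4 : K, B4 = b4 + b2 * x3 + 6 * x3 ^ 2 := ⟨_, rfl⟩
  obtain ⟨B6, hB6⟩ : ∃ B6 : K, B6 = 4 * x3 ^ 3 + b2 * x3 ^ 2 + 2 * b4 * x3 + b6 := ⟨_, rfl⟩
  have hMB : Mb b2 b4 b6 x3 = B6 := by rw [hB6]; rfl
  rw [hMB] at hM3 ⊢
  have hB : B4 ^ 2 = B2 * B6 := by
    rw [hB2, hB4, hB6]; linear_combination (-4 : K) * h3 + hb
  have hB4ne : B4 ≠ 0 := by
    intro h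
    have h0 : B2 * B6 = 0 := by rw [← hB, h]; ring
    have hB20 : B2 = 0 := (mul_eq_zero.mp h0).resolve_right hM3
    apply hc4
    have : b2 ^ 2 - 24 * b4 = B2 ^ 2 - 24 * B4 := by rw [hB2, hB4]; ring
    rw [this, hB20, h]; ring
  obtain ⟨mu, hmu⟩ : ∃ mu : K, mu = B6 / B4 := ⟨_, rfl⟩
  obtain ⟨lam, hlam⟩ : ∃ lam : K, lam = B4 ^ 3 / (4 * B6 ^ 2) := ⟨_, rfl⟩
  have hmune : mu ≠ 0 := by rw [hmu]; exact div_ne_zero hM3 hB4ne
  have e4 : 4 * lam * mu ^ 2 = B4 := by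
    rw [hlam, hmu]; field_simp
  have e6 : 4 * lam * mu ^ 3 = B6 := by
    rw [hlam, hmu]; field_simp
  have e2 : 4 * lam * mu = B2 := by
    have h1 : 4 * lam * mu = B4 ^ 2 / B6 := by rw [hlam, hmu]; field_simp
    rw [h1, hB]; field_simp
  have hMtr : ∀ x : K, Mb b2 b4 b6 x = 4 * (x - x3) ^ 3 + 4 * lam * mu * (x - x3) ^ 2
      + 2 * (4 * lam * mu ^ 2) * (x - x3) + 4 * lam * mu ^ 3 := by
    intro x; rw [e2, e4, e6, hB2, hB4, hB6]; unfold Mb; ring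
  have hNtr : ∀ x : K, Nb b4 b6 b8 x - x3 * Mb b2 b4 b6 x = (x - x3) ^ 4
      - 4 * lam * mu ^ 2 * (x - x3) ^ 2 - 2 * (4 * lam * mu ^ 3) * (x - x3) := by
    intro x; rw [e4, e6, hB4, hB6]; unfold Mb Nb; linear_combination (-1 : K) * h3
  have ht : Db b2 b4 b6 b8 / B6 ^ 2 = 4 * lam - 27 := by
    have hD : Db b2 b4 b6 b8 = B4 ^ 3 - 27 * B6 ^ 2 := by
      have hD1 : Db b2 b4 b6 b8 = 9 * B2 * B4 * B6 - 8 * B4 ^ 3 - 27 * B6 ^ 2 := by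
        rw [hB2, hB4, hB6]; unfold Db
        linear_combination (-b2 ^ 2 - 4 * (6 * b2 * x3 + 36 * x3 ^ 2)) * h3
          + (6 * b2 * x3 + 36 * x3 ^ 2) * hb
      rw [hD1]; linear_combination (-(9 : K) * B4) * hB
    rw [hD, hlam]; field_simp
  rw [ht]
  apply core_scaled lam mu (x1 - x3) (x2 - x3) hmune
  · rw [← hMtr, ← hNtr, ← h12]; ring
  · rw [← hMtr, ← hNtr, ← h21]; ring
  · rw [← hMtr]; exact hM1
  · exact fun h => hne (sub_left_injective h)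

/-- **The `X₀(15)` relation** `u²v² - uv² - 5uv - 9u - 1 = 0` for
`u = (x1 - x3)(x2 - x3)/(x1 - x2)²`, `t = Δ / ψ₂²(x3)²`, `v = t u²`. -/
theorem x015_identity (b2 b4 b6 b8 x3 x1 x2 : K) (hb : 4 * b8 = b2 * b6 - b4 ^ 2)
    (h3 : 3 * x3 ^ 4 + b2 * x3 ^ 3 + 3 * b4 * x3 ^ 2 + 3 * b6 * x3 + b8 = 0)
    (hM3 : Mb b2 b4 b6 x3 ≠ 0) (hc4 : b2 ^ 2 - 24 * b4 ≠ 0)
    (h12 : x2 * Mb b2 b4 b6 x1 = Nb b4 b6 b8 x1) (h21 : x1 * Mb b2 b4 b6 x2 = Nb b4 b6 b8 x2)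
    (hM1 : Mb b2 b4 b6 x1 ≠ 0) (hne : x1 ≠ x2)
    (u t v : K) (hu : u = (x1 - x3) * (x2 - x3) / (x1 - x2) ^ 2)
    (ht : t = Db b2 b4 b6 b8 / (Mb b2 b4 b6 x3) ^ 2) (hv : v = t * u ^ 2) :
    u ^ 2 * v ^ 2 - u * v ^ 2 - 5 * u * v - 9 * u - 1 = 0 := by
  have hC := x015_CC b2 b4 b6 b8 x3 x1 x2 hb h3 hM3 hc4 h12 h21 hM1 hne
  rw [← ht] at hC
  have hd : x1 - x2 ≠ 0 := sub_ne_zero.mpr hne
  have hd12 : (x1 - x2) ^ 12 ≠ 0 := pow_ne_zero _ hd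
  have e : (x1 - x2) ^ 12 * (u ^ 2 * v ^ 2 - u * v ^ 2 - 5 * u * v - 9 * u - 1)
      = CC t (x1 - x3) (x2 - x3) := by
    rw [hv, hu]; unfold CC; field_simp; ring
  rw [hC] at e
  exact (mul_eq_zero.mp e).resolve_left hd12

omit [CharZero K] in
/-- The Weierstrass form of the relation: `(X, Z) = (36u, 36(2(u²-u)v - 5u))` lies on
`Z² = X (X - 16) (X + 9)`. -/
theorem weierstrass_of_relation (u v : K)
    (h : u ^ 2 * v ^ 2 - u * v ^ 2 - 5 * u * v - 9 * u - 1 = 0) :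
    (36 * (2 * (u ^ 2 - u) * v - 5 * u)) ^ 2 = (36 * u) * (36 * u - 16) * (36 * u + 9) := by
  linear_combination (5184 * (u ^ 2 - u)) * h

end Fermat.Agent.Lib.X015Identity
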