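import Mathlib

set_option autoImplicit false
set_option linter.unusedTactic false
set_option linter.unreachableTactic false

/-!
# Rational points of the elliptic curves 15a2 and 15a1 (= X₀(15))

* `no_three_squares`: there are no rationals `u v w` with `u² - v² = 1`, `u² - w² = 81`.
* `points_15a2`: the rational solutions of `y² = x (x - 1) (x - 81)` have `x ∈ {0, 1, 81}`.
* `points_15a1`: the rational solutions of `y² = x (x + 9) (x - 16)` have
  `x ∈ {0, -9, 16, 36, -4}`.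

The proof is a complete 2-descent on `y² = x (x - 1) (x - 81)` using x-coordinates only,
followed by an infinite descent on the denominator of `u`.
-/

namespace Fermat.Agent.Lib.X015Points

/-! ### Elementary coprimality helpers -/

theorem isCoprime_mul_sub {m s : ℤ} (h : IsCoprime m s) (t : ℤ) : IsCoprime m (t * m - s) := by
  obtain ⟨u, v, huv⟩ := h
  exact ⟨u + v * t, -v, by linear_combination huv⟩

theorem isCoprime_sub_mul {m s : ℤ} (h : IsCoprime m s) (t : ℤ) : IsCoprime m (s - t * m) := by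
  obtain ⟨u, v, huv⟩ := h
  exact ⟨u + v * t, v, by linear_combination huv⟩

theorem isCoprime_of_not_dvd {p : ℕ} (hp : p.Prime) {m : ℤ} (h : ¬ (p : ℤ) ∣ m) :
    IsCoprime m (p : ℤ) := by
  rw [Int.isCoprime_iff_gcd_eq_one]
  have h1 : Int.gcd m (p : ℤ) ∣ p := by
    have := Int.gcd_dvd_right m (p : ℤ)
    exact_mod_cast this
  rcases (Nat.dvd_prime hp).1 h1 with h2 | h2
  · exact h2
  · exfalso
    apply h
    have := Int.gcd_dvd_left m (p : ℤ)
    rw [h2] at this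
    exact this

theorem not_both_dvd {a e : ℤ} (h : IsCoprime a e) {p : ℤ} (hp : ¬ IsUnit p) (ha : p ∣ a) :
    ¬ p ∣ e := fun he => hp (h.isUnit_of_dvd' ha he)

theorem not_isUnit_two : ¬ IsUnit (2 : ℤ) := by
  rw [Int.isUnit_iff]; omega

theorem not_isUnit_three : ¬ IsUnit (3 : ℤ) := by
  rw [Int.isUnit_iff]; omega

/-- A positive integer coprime to two cofactors whose total product is a square is a square. -/
theorem sq_of_coprime_mul {m F G N : ℤ} (hm : 0 < m) (hF : IsCoprime m F) (hG : IsCoprime m G)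
    (h : N ^ 2 = m * F * G) : ∃ a : ℤ, m = a ^ 2 := by
  have hc : IsCoprime m (F * G) := IsCoprime.mul_right hF hG
  obtain ⟨a, ha | ha⟩ := Int.sq_of_isCoprime (c := N) hc (by rw [h]; ring)
  · exact ⟨a, ha⟩
  · exfalso; nlinarith [sq_nonneg a]

/-- Same as above without positivity: the integer is plus or minus a square. -/
theorem pm_sq_of_coprime_mul {B C M : ℤ} (hc : IsCoprime B C) (h : B * C = M ^ 2) :
    ∃ b : ℤ, B = b ^ 2 ∨ B = -b ^ 2 :=
  Int.sq_of_isCoprime hc h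

/-! ### The 3-adic part: `m` is a square -/

theorem step3 (A B m e N : ℤ) (h : N ^ 2 = m * (A * m - e ^ 2) * (m - 3 * B * e ^ 2))
    (h3 : (3 : ℤ) ∣ m) :
    ∃ m' N' : ℤ, m = 3 * m' ∧ N' ^ 2 = m' * (3 * A * m' - e ^ 2) * (m' - B * e ^ 2) := by
  obtain ⟨m', rfl⟩ := h3
  have h1 : (3 : ℤ) ∣ N ^ 2 := ⟨3 * (m' * (3 * A * m' - e ^ 2) * (m' - B * e ^ 2)), by rw [h]; ring⟩
  have h2 : (3 : ℤ) ∣ N := Int.prime_three.dvd_of_dvd_pow h1
  obtain ⟨N', rfl⟩ := h2
  refine ⟨m', N', rfl, ?_⟩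
  have h9 : 9 * N' ^ 2 = 9 * (m' * (3 * A * m' - e ^ 2) * (m' - B * e ^ 2)) := by
    linear_combination h
  exact mul_left_cancel₀ (by norm_num) h9

theorem term_sq (A B m e N : ℤ) (hm : 0 < m) (hme : IsCoprime m e) (hB : IsCoprime m B)
    (h : N ^ 2 = m * (A * m - e ^ 2) * (m - B * e ^ 2)) : ∃ a : ℤ, m = a ^ 2 := by
  have h1 : IsCoprime m (A * m - e ^ 2) := isCoprime_mul_sub (hme.pow_right (n := 2)) A
  have h2 : IsCoprime m (m - B * e ^ 2) := by
    have := isCoprime_mul_sub (IsCoprime.mul_right hB (hme.pow_right (n := 2))) 1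
    simpa using this
  exact sq_of_coprime_mul hm h1 h2 h

theorem zmod3_contra : ∀ n m e : ZMod 3, m ≠ 0 → e ≠ 0 → n ^ 2 = m * (0 * m - e ^ 2) * (m - 0 * e ^ 2) →
    False := by decide

theorem term_contra (A B m e N : ℤ) (hA : (3 : ℤ) ∣ A) (hB : (3 : ℤ) ∣ B) (h3m : ¬ (3 : ℤ) ∣ m)
    (h3e : ¬ (3 : ℤ) ∣ e) (h : N ^ 2 = m * (A * m - e ^ 2) * (m - B * e ^ 2)) : False := by
  have hz := congrArg (Int.cast : ℤ → ZMod 3) h
  push_cast at hz
  have hA' : (A : ZMod 3) = 0 := (ZMod.intCast_zmod_eq_zero_iff_dvd A 3).2 (by exact_mod_cast hA)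
  have hB' : (B : ZMod 3) = 0 := (ZMod.intCast_zmod_eq_zero_iff_dvd B 3).2 (by exact_mod_cast hB)
  have hm' : (m : ZMod 3) ≠ 0 := by
    rw [Ne, ZMod.intCast_zmod_eq_zero_iff_dvd]; exact_mod_cast h3m
  have he' : (e : ZMod 3) ≠ 0 := by
    rw [Ne, ZMod.intCast_zmod_eq_zero_iff_dvd]; exact_mod_cast h3e
  rw [hA', hB'] at hz
  exact zmod3_contra _ _ _ hm' he' hz

/-- The numerator is a square. -/
theorem num_sq (m e N : ℤ) (hcop : IsCoprime m e) (hm : 0 < m)
    (hN : N ^ 2 = m * (m - e ^ 2) * (m - 81 * e ^ 2)) : ∃ a : ℤ, m = a ^ 2 := by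
  by_cases h3 : (3 : ℤ) ∣ m
  · have h3e : ¬ (3 : ℤ) ∣ e := not_both_dvd hcop not_isUnit_three h3
    obtain ⟨m1, N1, rfl, h1⟩ := step3 1 27 m e N (by rw [hN]; ring) h3
    by_cases h3' : (3 : ℤ) ∣ m1
    · obtain ⟨m2, N2, rfl, h2⟩ := step3 3 9 m1 e N1 (by rw [h1]; ring) h3'
      by_cases h3'' : (3 : ℤ) ∣ m2
      · obtain ⟨m3, N3, rfl, h3a⟩ := step3 9 3 m2 e N2 (by rw [h2]; ring) h3''
        by_cases h3''' : (3 : ℤ) ∣ m3
        · obtain ⟨m4, N4, rfl, h4⟩ := step3 27 1 m3 e N3 (by rw [h3a]; ring) h3'''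
          have hm4 : 0 < m4 := by linarith
          have hc4 : IsCoprime m4 e :=
            IsCoprime.of_mul_left_right (IsCoprime.of_mul_left_right (IsCoprime.of_mul_left_right
              (IsCoprime.of_mul_left_right hcop)))
          obtain ⟨a, ha⟩ := term_sq 81 1 m4 e N4 hm4 hc4 isCoprime_one_right (by rw [h4]; ring)
          exact ⟨9 * a, by rw [ha]; ring⟩
        · exact (term_contra 27 3 m3 e N3 ⟨9, by norm_num⟩ ⟨1, by norm_num⟩ h3''' h3e
            (by rw [h3a]; ring)).elim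
      · have hm2 : 0 < m2 := by linarith
        have hc2 : IsCoprime m2 e :=
          IsCoprime.of_mul_left_right (IsCoprime.of_mul_left_right hcop)
        have h9 : IsCoprime m2 (9 : ℤ) := by
          have : IsCoprime m2 ((3 : ℕ) : ℤ) := isCoprime_of_not_dvd Nat.prime_three (by exact_mod_cast h3'')
          have h' := this.pow_right (n := 2)
          norm_num at h'
          exact h'
        obtain ⟨a, ha⟩ := term_sq 9 9 m2 e N2 hm2 hc2 h9 (by rw [h2]; ring)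
        exact ⟨3 * a, by rw [ha]; ring⟩
    · exact (term_contra 3 27 m1 e N1 ⟨1, by norm_num⟩ ⟨9, by norm_num⟩ h3' h3e
        (by rw [h1]; ring)).elim
  · have h81 : IsCoprime m (81 : ℤ) := by
      have : IsCoprime m ((3 : ℕ) : ℤ) := isCoprime_of_not_dvd Nat.prime_three (by exact_mod_cast h3)
      have h' := this.pow_right (n := 4)
      norm_num at h'
      exact h'
    exact term_sq 1 81 m e N hm hcop h81 (by rw [hN]; ring)

/-! ### The 2-adic and 5-adic part: `m - e²` is `±1` or `±5` times a square -/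

theorem five_split (B s M : ℤ) (hBs : IsCoprime B s) (h : B * (B - 5 * s) = M ^ 2) :
    ∃ b d : ℤ, (d = 1 ∨ d = -1 ∨ d = 5 ∨ d = -5) ∧ d * B = b ^ 2 := by
  by_cases h5 : (5 : ℤ) ∣ B
  · obtain ⟨B2, rfl⟩ := h5
    have h1 : (5 : ℤ) ∣ M ^ 2 := ⟨5 * (B2 * (B2 - s)), by rw [← h]; ring⟩
    have h2 : (5 : ℤ) ∣ M := Int.Prime.dvd_pow' (p := 5) (by norm_num) (by exact_mod_cast h1)
    obtain ⟨M2, rfl⟩ := h2
    have h25 : 25 * (B2 * (B2 - s)) = 25 * M2 ^ 2 := by linear_combination h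
    have h' : B2 * (B2 - s) = M2 ^ 2 := mul_left_cancel₀ (by norm_num) h25
    have hc : IsCoprime B2 s := IsCoprime.of_mul_left_right hBs
    have hc' : IsCoprime B2 (B2 - s) := by
      have := isCoprime_mul_sub hc 1
      simpa using this
    obtain ⟨b, hb | hb⟩ := pm_sq_of_coprime_mul hc' h'
    · exact ⟨5 * b, 5, by simp, by rw [hb]; ring⟩
    · exact ⟨5 * b, -5, by simp, by rw [hb]; ring⟩
  · have hc5 : IsCoprime B ((5 : ℕ) : ℤ) :=
      isCoprime_of_not_dvd (by norm_num) (by exact_mod_cast h5)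
    have hc : IsCoprime B (5 * s) := IsCoprime.mul_right (by exact_mod_cast hc5) hBs
    have hc' : IsCoprime B (B - 5 * s) := by
      have := isCoprime_mul_sub hc 1
      simpa using this
    obtain ⟨b, hb | hb⟩ := pm_sq_of_coprime_mul hc' h
    · exact ⟨b, 1, by simp, by rw [hb]; ring⟩
    · exact ⟨b, -1, by simp, by rw [hb]; ring⟩

theorem zmod8_contra : ∀ j l m : ZMod 8,
    m ^ 2 = (2 * j + 1) * ((2 * j + 1) - 10 * (2 * l + 1) ^ 2) → False := by decide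

/-- For odd `a`, `e` the difference `a² - e²` is divisible by `8`. -/
theorem odd_sq_sub (a e : ℤ) (ha : Odd a) (he : Odd e) : ∃ D : ℤ, a ^ 2 - e ^ 2 = 8 * D := by
  obtain ⟨k, rfl⟩ := ha
  obtain ⟨l, rfl⟩ := he
  obtain ⟨p, hp⟩ := Int.even_mul_succ_self k
  obtain ⟨q, hq⟩ := Int.even_mul_succ_self l
  exact ⟨p - q, by linear_combination 4 * hp - 4 * hq⟩

theorem descent_B (a e M : ℤ) (hcop : IsCoprime a e)
    (hM : (a ^ 2 - e ^ 2) * (a ^ 2 - 81 * e ^ 2) = M ^ 2) :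
    ∃ b d : ℤ, (d = 1 ∨ d = -1 ∨ d = 5 ∨ d = -5) ∧ d * (a ^ 2 - e ^ 2) = b ^ 2 := by
  have hBe : IsCoprime (a ^ 2 - e ^ 2) e := by
    have h1 : IsCoprime e (a ^ 2) := (hcop.pow_left (m := 2)).symm
    have h2 := isCoprime_sub_mul h1 e
    have h3 : a ^ 2 - e * e = a ^ 2 - e ^ 2 := by ring
    rw [h3] at h2
    exact h2.symm
  -- the case where `a² - e²` is odd
  have oddcase : Odd (a ^ 2 - e ^ 2) →
      ∃ b d : ℤ, (d = 1 ∨ d = -1 ∨ d = 5 ∨ d = -5) ∧ d * (a ^ 2 - e ^ 2) = b ^ 2 := by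
    intro hodd
    have h2 : IsCoprime (a ^ 2 - e ^ 2) ((2 : ℕ) : ℤ) := by
      apply isCoprime_of_not_dvd Nat.prime_two
      intro hdvd
      have : Even (a ^ 2 - e ^ 2) := (even_iff_two_dvd).2 (by exact_mod_cast hdvd)
      exact (Int.not_even_iff_odd.2 hodd) this
    have h16 : IsCoprime (a ^ 2 - e ^ 2) (16 : ℤ) := by
      have h' := h2.pow_right (n := 4)
      norm_num at h'
      exact h'
    have hs : IsCoprime (a ^ 2 - e ^ 2) (16 * e ^ 2) :=
      IsCoprime.mul_right h16 (hBe.pow_right (n := 2))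
    exact five_split (a ^ 2 - e ^ 2) (16 * e ^ 2) M hs (by rw [← hM]; ring)
  rcases Int.even_or_odd a with ha | ha <;> rcases Int.even_or_odd e with he | he
  · exfalso
    exact not_both_dvd hcop not_isUnit_two (even_iff_two_dvd.1 ha) (even_iff_two_dvd.1 he)
  · apply oddcase
    have : Even (a ^ 2) := (Int.even_pow' (by norm_num)).2 ha
    have h2 : Odd (e ^ 2) := he.pow
    exact Even.sub_odd this h2
  · apply oddcase
    have : Odd (a ^ 2) := ha.pow
    have h2 : Even (e ^ 2) := (Int.even_pow' (by norm_num)).2 he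
    exact Odd.sub_even this h2
  · -- both odd
    obtain ⟨B', hB'⟩ := odd_sq_sub a e ha he
    have hM1 : (8 : ℤ) ^ 2 ∣ M ^ 2 := ⟨B' * (B' - 10 * e ^ 2), by rw [← hM]; linear_combination (8 * B' + a ^ 2 - 81 * e ^ 2) * hB'⟩
    have hM2 : (8 : ℤ) ∣ M := (Int.pow_dvd_pow_iff (by norm_num)).1 hM1
    obtain ⟨M', rfl⟩ := hM2
    have hM' : B' * (B' - 10 * e ^ 2) = M' ^ 2 := by
      have h64 : 64 * (B' * (B' - 10 * e ^ 2)) = 64 * M' ^ 2 := by
        linear_combination hM - (8 * B' + a ^ 2 - 81 * e ^ 2) * hB'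
      exact mul_left_cancel₀ (by norm_num) h64
    rcases Int.even_or_odd B' with hBev | hBodd
    · obtain ⟨B'', hB''⟩ := hBev
      have hB2 : B' = 2 * B'' := by rw [hB'']; ring
      subst hB2
      have hM3 : (2 : ℤ) ^ 2 ∣ M' ^ 2 := ⟨B'' * (B'' - 5 * e ^ 2), by rw [← hM']; ring⟩
      have hM4 : (2 : ℤ) ∣ M' := (Int.pow_dvd_pow_iff (by norm_num)).1 hM3
      obtain ⟨M'', rfl⟩ := hM4
      have hM'' : B'' * (B'' - 5 * e ^ 2) = M'' ^ 2 := by
        have h4 : 4 * (B'' * (B'' - 5 * e ^ 2)) = 4 * M'' ^ 2 := by linear_combination hM'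
        exact mul_left_cancel₀ (by norm_num) h4
      have hc : IsCoprime B'' (e ^ 2) := by
        have h1 : IsCoprime (16 * B'') e := by
          have : a ^ 2 - e ^ 2 = 16 * B'' := by rw [hB']; ring
          rw [← this]; exact hBe
        exact (IsCoprime.of_mul_left_right h1).pow_right
      obtain ⟨b, d, hd, hb⟩ := five_split B'' (e ^ 2) M'' hc hM''
      exact ⟨4 * b, d, hd, by rw [hB']; linear_combination 16 * hb⟩
    · exfalso
      obtain ⟨j, rfl⟩ := hBodd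
      obtain ⟨l, rfl⟩ := he
      have hz := congrArg (Int.cast : ℤ → ZMod 8) hM'
      push_cast at hz
      exact zmod8_contra _ _ _ hz.symm

/-- The integral 2-descent statement for `y² = x (x - 1) (x - 81)`. -/
theorem descent_int (m e N : ℤ) (hcop : IsCoprime m e)
    (hN : N ^ 2 = m * (m - e ^ 2) * (m - 81 * e ^ 2)) (hN0 : N ≠ 0) :
    ∃ a b c d : ℤ, (d = 1 ∨ d = -1 ∨ d = 5 ∨ d = -5) ∧ m = a ^ 2 ∧
      d * (m - e ^ 2) = b ^ 2 ∧ d * (m - 81 * e ^ 2) = c ^ 2 := by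
  have hNpos : 0 < N ^ 2 := by positivity
  have hm : 0 < m := by
    by_contra hle
    rw [not_lt] at hle
    have h1 : m - e ^ 2 ≤ 0 := by nlinarith [sq_nonneg e]
    have h2 : m - 81 * e ^ 2 ≤ 0 := by nlinarith [sq_nonneg e]
    have h3 : m * (m - e ^ 2) * (m - 81 * e ^ 2) ≤ 0 :=
      mul_nonpos_of_nonneg_of_nonpos (mul_nonneg_of_nonpos_of_nonpos hle h1) h2
    linarith
  obtain ⟨a, rfl⟩ := num_sq m e N hcop hm hN
  have ha0 : a ≠ 0 := by
    rintro rfl
    simp at hm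
  have hcop' : IsCoprime a e := IsCoprime.of_mul_left_left (by rw [← sq]; exact hcop)
  have hdiv : a ^ 2 ∣ N ^ 2 := ⟨(a ^ 2 - e ^ 2) * (a ^ 2 - 81 * e ^ 2), by rw [hN]; ring⟩
  have hdiv' : a ∣ N := (Int.pow_dvd_pow_iff (by norm_num)).1 hdiv
  obtain ⟨M, rfl⟩ := hdiv'
  have hM : (a ^ 2 - e ^ 2) * (a ^ 2 - 81 * e ^ 2) = M ^ 2 := by
    have h1 : a ^ 2 * ((a ^ 2 - e ^ 2) * (a ^ 2 - 81 * e ^ 2)) = a ^ 2 * M ^ 2 := by
      linear_combination -hN
    exact mul_left_cancel₀ (pow_ne_zero 2 ha0) h1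
  have hM0 : M ≠ 0 := by
    rintro rfl
    simp at hN0
  obtain ⟨b, d, hd, hb⟩ := descent_B a e M hcop' hM
  have hd0 : d ≠ 0 := by
    rcases hd with rfl | rfl | rfl | rfl <;> norm_num
  have hB0 : a ^ 2 - e ^ 2 ≠ 0 := by
    intro h0
    rw [h0, zero_mul] at hM
    exact hM0 ((pow_eq_zero_iff (by norm_num)).1 hM.symm)
  have hb0 : b ≠ 0 := by
    rintro rfl
    have : d * (a ^ 2 - e ^ 2) = 0 := by rw [hb]; ring
    rcases mul_eq_zero.1 this with h | h
    · exact hd0 h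
    · exact hB0 h
  have hdiv2 : b ^ 2 ∣ (d * M) ^ 2 := ⟨d * (a ^ 2 - 81 * e ^ 2), by rw [← hb]; linear_combination (-d ^ 2) * hM⟩
  have hdiv2' : b ∣ d * M := (Int.pow_dvd_pow_iff (by norm_num)).1 hdiv2
  obtain ⟨c, hc⟩ := hdiv2'
  refine ⟨a, b, c, d, hd, rfl, hb, ?_⟩
  have h1 : b ^ 2 * (d * (a ^ 2 - 81 * e ^ 2)) = b ^ 2 * c ^ 2 := by
    have : (d * M) ^ 2 = b ^ 2 * c ^ 2 := by rw [hc]; ring
    rw [← this, ← hb]; linear_combination d ^ 2 * hM
  exact mul_left_cancel₀ (pow_ne_zero 2 hb0) h1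

/-! ### The rational 2-descent statement -/

theorem descent_rat (x y : ℚ) (h : y ^ 2 = x * (x - 1) * (x - 81)) (h0 : x ≠ 0) (h1 : x ≠ 1)
    (h81 : x ≠ 81) :
    ∃ s t r d : ℚ, (d = 1 ∨ d = -1 ∨ d = 5 ∨ d = -5) ∧ x = s ^ 2 ∧ d * (x - 1) = t ^ 2 ∧
      d * (x - 81) = r ^ 2 := by
  obtain ⟨m, n, hnpos, hcop, hx⟩ : ∃ m n : ℤ, 0 < n ∧ IsCoprime m n ∧ x = (m : ℚ) / n :=
    ⟨x.num, x.den, by exact_mod_cast x.den_pos, Rat.isCoprime_num_den x, (Rat.num_div_den x).symm⟩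
  have hn0 : (n : ℚ) ≠ 0 := by exact_mod_cast hnpos.ne'
  have hK : IsSquare (n * (m * (m - n) * (m - 81 * n)) : ℤ) := by
    rw [← Rat.isSquare_intCast_iff]
    refine ⟨y * n ^ 2, ?_⟩
    push_cast
    rw [show y * (n : ℚ) ^ 2 * (y * (n : ℚ) ^ 2) = y ^ 2 * (n : ℚ) ^ 4 by ring, h, hx]
    field_simp
  obtain ⟨N₀, hN₀⟩ := hK
  have hc1 : IsCoprime n m := hcop.symm
  have hc2 : IsCoprime n (m - n) := by
    have := isCoprime_sub_mul hc1 1
    simpa using this
  have hc3 : IsCoprime n (m - 81 * n) := isCoprime_sub_mul hc1 81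
  have hc : IsCoprime n (m * (m - n) * (m - 81 * n)) := (hc1.mul_right hc2).mul_right hc3
  obtain ⟨e, he | he⟩ := Int.sq_of_isCoprime (c := N₀) hc (by rw [hN₀]; ring)
  swap
  · exfalso; nlinarith [sq_nonneg e]
  have he0 : e ≠ 0 := by
    rintro rfl
    simp at he
    omega
  have hdiv : e ^ 2 ∣ N₀ ^ 2 := ⟨m * (m - n) * (m - 81 * n), by rw [← he, sq, ← hN₀]⟩
  have hdiv' : e ∣ N₀ := (Int.pow_dvd_pow_iff (by norm_num)).1 hdiv
  obtain ⟨N, rfl⟩ := hdiv'
  have hN : N ^ 2 = m * (m - e ^ 2) * (m - 81 * e ^ 2) := by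
    have hN₀' : e ^ 2 * (m * (m - e ^ 2) * (m - 81 * e ^ 2)) = e * N * (e * N) := by
      rw [← he]; exact hN₀
    have h2 : e ^ 2 * N ^ 2 = e ^ 2 * (m * (m - e ^ 2) * (m - 81 * e ^ 2)) := by
      linear_combination (-1 : ℤ) * hN₀'
    exact mul_left_cancel₀ (pow_ne_zero 2 he0) h2
  have hnq : (n : ℚ) = (e : ℚ) ^ 2 := by exact_mod_cast he
  have heq0 : (e : ℚ) ≠ 0 := by exact_mod_cast he0
  have hN0 : N ≠ 0 := by
    rintro rfl
    have h3 : m * (m - e ^ 2) * (m - 81 * e ^ 2) = 0 := by rw [← hN]; ring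
    rcases mul_eq_zero.1 h3 with h4 | h4
    · rcases mul_eq_zero.1 h4 with h5 | h5
      · apply h0; rw [hx, h5]; simp
      · apply h1
        have : (m : ℚ) = (e : ℚ) ^ 2 := by
          have : m = e ^ 2 := by linarith
          exact_mod_cast this
        rw [hx, hnq, this]; field_simp
    · apply h81
      have : (m : ℚ) = 81 * (e : ℚ) ^ 2 := by
        have : m = 81 * e ^ 2 := by linarith
        exact_mod_cast this
      rw [hx, hnq, this]; field_simp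
  have hcop' : IsCoprime m e := by
    have : IsCoprime m (e * e) := by rw [← sq, ← he]; exact hcop
    exact IsCoprime.of_mul_right_left this
  obtain ⟨a, b, c, d, hd, hma, hb, hc⟩ := descent_int m e N hcop' hN hN0
  have hmq : (m : ℚ) = (a : ℚ) ^ 2 := by exact_mod_cast hma
  have hbq : (d : ℚ) * ((m : ℚ) - (e : ℚ) ^ 2) = (b : ℚ) ^ 2 := by exact_mod_cast hb
  have hcq : (d : ℚ) * ((m : ℚ) - 81 * (e : ℚ) ^ 2) = (c : ℚ) ^ 2 := by exact_mod_cast hc
  refine ⟨a / e, b / e, c / e, d, ?_, ?_, ?_, ?_⟩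
  · rcases hd with rfl | rfl | rfl | rfl <;> simp
  · rw [hx, hnq, hmq, div_pow]
  · rw [hx, hnq, div_pow, ← hbq]; field_simp
  · rw [hx, hnq, div_pow, ← hcq]; field_simp

/-- Every rational point of `y² = x (x - 1) (x - 81)` other than the 2-torsion points can be
moved by a translation (a Möbius map in `x`) to a point whose three coordinates
`x, x - 1, x - 81` are squares; the last equation says that the translation does not change
the "double" of the point. -/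
theorem class_one_of_point (x y : ℚ) (h : y ^ 2 = x * (x - 1) * (x - 81)) (h0 : x ≠ 0)
    (h1 : x ≠ 1) (h81 : x ≠ 81) :
    ∃ u v w : ℚ, u ^ 2 - v ^ 2 = 1 ∧ u ^ 2 - w ^ 2 = 81 ∧
      (x ^ 2 - 81) ^ 2 * (4 * u ^ 2 * v ^ 2 * w ^ 2) =
        (u ^ 4 - 81) ^ 2 * (4 * x * (x - 1) * (x - 81)) := by
  obtain ⟨s, t, r, d, hd, hs, ht, hr⟩ := descent_rat x y h h0 h1 h81
  have hx1 : x - 1 ≠ 0 := sub_ne_zero.2 h1
  have hx81 : x - 81 ≠ 0 := sub_ne_zero.2 h81
  have hs0 : s ≠ 0 := by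
    rintro rfl
    apply h0; rw [hs]; ring
  rcases hd with rfl | rfl | rfl | rfl
  · -- class 1
    refine ⟨s, t, r, ?_, ?_, ?_⟩
    · rw [← hs, ← ht]; ring
    · rw [← hs, ← hr]; ring
    · have hu4 : s ^ 4 = (s ^ 2) ^ 2 := by ring
      rw [hu4, ← hs, ← ht, ← hr]; ring
  · -- class -1 : translate by (0,0)
    have hu2 : (9 / s) ^ 2 = 81 / x := by rw [hs]; first | (field_simp; ring) | (field_simp; norm_num) | field_simp
    have hv2 : (r / s) ^ 2 = -(x - 81) / x := by rw [div_pow, ← hr, ← hs]; ring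
    have hw2 : (9 * t / s) ^ 2 = -81 * (x - 1) / x := by
      rw [div_pow, mul_pow, ← ht, ← hs]; ring
    refine ⟨9 / s, r / s, 9 * t / s, ?_, ?_, ?_⟩
    · rw [hu2, hv2]; first | (field_simp; ring) | (field_simp; norm_num) | field_simp
    · rw [hu2, hw2]; first | (field_simp; ring) | (field_simp; norm_num) | field_simp
    · have hu4 : (9 / s) ^ 4 = ((9 / s) ^ 2) ^ 2 := by ring
      rw [hu4, hu2, hv2, hw2]; first | (field_simp; ring) | (field_simp; norm_num) | field_simp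
  · -- class 5 : translate by (81,0)
    have hr0 : r ≠ 0 := by
      rintro rfl
      have : (5 : ℚ) * (x - 81) = 0 := by rw [hr]; ring
      rcases mul_eq_zero.1 this with h5 | h5
      · norm_num at h5
      · exact hx81 h5
    have hr2 : r ^ 2 ≠ 0 := pow_ne_zero 2 hr0
    have hu2 : (9 * t / r) ^ 2 = 81 * (x - 1) / (x - 81) := by
      rw [div_pow, mul_pow, ← ht, ← hr]; first | (field_simp; ring) | (field_simp; norm_num) | field_simp
    have hv2 : (20 * s / r) ^ 2 = 80 * x / (x - 81) := by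
      rw [div_pow, mul_pow, ← hs, ← hr]; first | (field_simp; ring) | (field_simp; norm_num) | field_simp
    have hw2 : (180 / r) ^ 2 = 6480 / (x - 81) := by
      rw [div_pow, ← hr]; first | (field_simp; ring) | (field_simp; norm_num) | field_simp
    refine ⟨9 * t / r, 20 * s / r, 180 / r, ?_, ?_, ?_⟩
    · rw [hu2, hv2]; first | (field_simp; ring) | (field_simp; norm_num) | field_simp
    · rw [hu2, hw2]; first | (field_simp; ring) | (field_simp; norm_num) | field_simp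
    · have hu4 : (9 * t / r) ^ 4 = ((9 * t / r) ^ 2) ^ 2 := by ring
      rw [hu4, hu2, hv2, hw2]; first | (field_simp; ring) | (field_simp; norm_num) | field_simp
  · -- class -5 : translate by (1,0)
    have ht0 : t ≠ 0 := by
      rintro rfl
      have : (-5 : ℚ) * (x - 1) = 0 := by rw [ht]; ring
      rcases mul_eq_zero.1 this with h5 | h5
      · norm_num at h5
      · exact hx1 h5
    have hu2 : (r / t) ^ 2 = (x - 81) / (x - 1) := by
      rw [div_pow, ← ht, ← hr]; first | (field_simp; ring) | (field_simp; norm_num) | field_simp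
    have hv2 : (20 / t) ^ 2 = -80 / (x - 1) := by
      rw [div_pow, ← ht]; first | (field_simp; ring) | (field_simp; norm_num) | field_simp
    have hw2 : (20 * s / t) ^ 2 = -80 * x / (x - 1) := by
      rw [div_pow, mul_pow, ← hs, ← ht]; first | (field_simp; ring) | (field_simp; norm_num) | field_simp
    refine ⟨r / t, 20 / t, 20 * s / t, ?_, ?_, ?_⟩
    · rw [hu2, hv2]; first | (field_simp; ring) | (field_simp; norm_num) | field_simp
    · rw [hu2, hw2]; first | (field_simp; ring) | (field_simp; norm_num) | field_simp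
    · have hu4 : (r / t) ^ 4 = ((r / t) ^ 2) ^ 2 := by ring
      rw [hu4, hu2, hv2, hw2]; first | (field_simp; ring) | (field_simp; norm_num) | field_simp

/-! ### The infinite descent -/

theorem four_dvd_of_sq_eq (b D : ℤ) (h : b ^ 2 = 8 * D) : ∃ β : ℤ, b = 4 * β := by
  have h1 : Even (b ^ 2) := by rw [h]; exact Even.mul_right (by decide) D
  have h2 : Even b := (Int.even_pow' (by norm_num)).1 h1
  obtain ⟨β, hβ⟩ := h2
  have hb : b = 2 * β := by rw [hβ]; ring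
  subst hb
  have h3 : β ^ 2 = 2 * D := by linarith
  have h4 : Even (β ^ 2) := by rw [h3]; exact even_two_mul D
  have h5 : Even β := (Int.even_pow' (by norm_num)).1 h4
  obtain ⟨γ, hγ⟩ := h5
  exact ⟨γ, by rw [hγ]; ring⟩

theorem parity_contra (a a₀ b₀ c₀ e₀ : ℤ) (hcop : IsCoprime a₀ e₀)
    (hb : a₀ ^ 2 - e₀ ^ 2 = b₀ ^ 2) (hc : a₀ ^ 2 - 81 * e₀ ^ 2 = c₀ ^ 2)
    (h : 2 * a * a₀ * b₀ * c₀ = a₀ ^ 4 - 81 * e₀ ^ 4 ∨
      2 * a * a₀ * b₀ * c₀ = -(a₀ ^ 4 - 81 * e₀ ^ 4)) : False := by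
  have hev : Even (a₀ ^ 4 - 81 * e₀ ^ 4) := by
    rcases h with h | h
    · rw [← h]; exact ⟨a * a₀ * b₀ * c₀, by ring⟩
    · have : a₀ ^ 4 - 81 * e₀ ^ 4 = -(2 * a * a₀ * b₀ * c₀) := by linarith
      rw [this]; exact ⟨-(a * a₀ * b₀ * c₀), by ring⟩
  have hodd : Odd a₀ ∧ Odd e₀ := by
    rcases Int.even_or_odd a₀ with ha | ha <;> rcases Int.even_or_odd e₀ with he | he
    · exfalso
      exact not_both_dvd hcop not_isUnit_two (even_iff_two_dvd.1 ha) (even_iff_two_dvd.1 he)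
    · exfalso
      have h1 : Even (a₀ ^ 4) := (Int.even_pow' (by norm_num)).2 ha
      have h2 : Odd (81 * e₀ ^ 4) := Odd.mul (by decide) he.pow
      exact (Int.not_even_iff_odd.2 (Even.sub_odd h1 h2)) hev
    · exfalso
      have h1 : Odd (a₀ ^ 4) := ha.pow
      have h2 : Even (81 * e₀ ^ 4) := Even.mul_left ((Int.even_pow' (by norm_num)).2 he) 81
      exact (Int.not_even_iff_odd.2 (Odd.sub_even h1 h2)) hev
    · exact ⟨ha, he⟩
  obtain ⟨ha, he⟩ := hodd
  obtain ⟨D, hD⟩ := odd_sq_sub a₀ e₀ ha he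
  obtain ⟨β, rfl⟩ := four_dvd_of_sq_eq b₀ D (by rw [← hb, hD])
  obtain ⟨γ, rfl⟩ := four_dvd_of_sq_eq c₀ (D - 10 * e₀ ^ 2) (by rw [← hc]; linear_combination hD)
  -- `a₀² = e₀² + 16 β²`
  have hkey : ∃ K : ℤ, 5 * e₀ ^ 4 = 2 * K := by
    rcases h with h | h
    · refine ⟨e₀ ^ 2 * β ^ 2 + 8 * β ^ 4 - a * a₀ * β * γ, ?_⟩
      have h80 : 16 * (5 * e₀ ^ 4) = 16 * (2 * (e₀ ^ 2 * β ^ 2 + 8 * β ^ 4 - a * a₀ * β * γ)) := by
        linear_combination h + (a₀ ^ 2 + e₀ ^ 2 + 16 * β ^ 2) * hb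
      exact mul_left_cancel₀ (by norm_num) h80
    · refine ⟨e₀ ^ 2 * β ^ 2 + 8 * β ^ 4 + a * a₀ * β * γ, ?_⟩
      have h80 : 16 * (5 * e₀ ^ 4) = 16 * (2 * (e₀ ^ 2 * β ^ 2 + 8 * β ^ 4 + a * a₀ * β * γ)) := by
        linear_combination -h + (a₀ ^ 2 + e₀ ^ 2 + 16 * β ^ 2) * hb
      exact mul_left_cancel₀ (by norm_num) h80
  obtain ⟨K, hK⟩ := hkey
  have h5 : Odd (5 * e₀ ^ 4) := Odd.mul (by decide) he.pow
  have h6 : Even (5 * e₀ ^ 4) := by rw [hK]; exact even_two_mul K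
  exact (Int.not_even_iff_odd.2 h5) h6

theorem no_three_squares_aux : ∀ n : ℕ, ∀ u v w : ℚ, u.den = n → u ^ 2 - v ^ 2 = 1 →
    u ^ 2 - w ^ 2 = 81 → False := by
  intro n
  induction n using Nat.strong_induction_on with
  | _ n ih =>
    intro u v w hun huv huw
    -- the half point
    have h1 : (u - v) * (u + v) = 1 := by linear_combination huv
    have h2 : (u - w) * (u + w) = 81 := by linear_combination huw
    have h3 : (v - w) * (v + w) = 80 := by linear_combination huw - huv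
    have huv0 : u + v ≠ 0 := by
      intro h0; rw [h0] at h1; norm_num at h1
    have huw0 : u + w ≠ 0 := by
      intro h0; rw [h0] at h2; norm_num at h2
    have hvw0 : v + w ≠ 0 := by
      intro h0; rw [h0] at h3; norm_num at h3
    set x₀ : ℚ := (u + v) * (u + w) with hx₀
    set y₀ : ℚ := (u + v) * (u + w) * (v + w) with hy₀
    have hx1 : x₀ - 1 = (u + v) * (v + w) := by rw [hx₀]; linear_combination h1
    have hx81 : x₀ - 81 = (u + w) * (v + w) := by rw [hx₀]; linear_combination h2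
    have hy : y₀ ^ 2 = x₀ * (x₀ - 1) * (x₀ - 81) := by rw [hx1, hx81, hx₀, hy₀]; ring
    have hx0 : x₀ ≠ 0 := mul_ne_zero huv0 huw0
    have hx1' : x₀ ≠ 1 := by
      intro h; have : x₀ - 1 = 0 := by rw [h]; ring
      rw [hx1] at this
      exact mul_ne_zero huv0 hvw0 this
    have hx81' : x₀ ≠ 81 := by
      intro h; have : x₀ - 81 = 0 := by rw [h]; ring
      rw [hx81] at this
      exact mul_ne_zero huw0 hvw0 this
    have hy0 : y₀ ≠ 0 := mul_ne_zero (mul_ne_zero huv0 huw0) hvw0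
    have hdup : (x₀ ^ 2 - 81) ^ 2 = u ^ 2 * (4 * x₀ * (x₀ - 1) * (x₀ - 81)) := by
      have h4 : x₀ ^ 2 - 81 = 2 * u * y₀ := by
        rw [hx₀, hy₀]; linear_combination ((u - w) * (u + w)) * h1 + h2
      have h5 : 4 * x₀ * (x₀ - 1) * (x₀ - 81) = 4 * y₀ ^ 2 := by rw [hy]; ring
      rw [h4, h5]; ring
    obtain ⟨u₀, v₀, w₀, hu₀v₀, hu₀w₀, hrel⟩ := class_one_of_point x₀ y₀ hy hx0 hx1' hx81'
    have hkey : (2 * u * u₀ * v₀ * w₀) ^ 2 = (u₀ ^ 4 - 81) ^ 2 := by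
      have h6 : 4 * x₀ * (x₀ - 1) * (x₀ - 81) ≠ 0 := by
        have : 4 * x₀ * (x₀ - 1) * (x₀ - 81) = 4 * y₀ ^ 2 := by rw [hy]; ring
        rw [this]; positivity
      rw [hdup] at hrel
      have h7 : (4 * x₀ * (x₀ - 1) * (x₀ - 81)) * (2 * u * u₀ * v₀ * w₀) ^ 2 =
          (4 * x₀ * (x₀ - 1) * (x₀ - 81)) * (u₀ ^ 4 - 81) ^ 2 := by linear_combination hrel
      exact mul_left_cancel₀ h6 h7
    -- pass to integers
    obtain ⟨a₀, e₀, he₀pos, hcop₀, hu₀, he₀den⟩ :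
        ∃ a₀ e₀ : ℤ, 0 < e₀ ∧ IsCoprime a₀ e₀ ∧ u₀ = (a₀ : ℚ) / e₀ ∧ e₀ = (u₀.den : ℤ) :=
      ⟨u₀.num, u₀.den, by exact_mod_cast u₀.den_pos, Rat.isCoprime_num_den u₀,
        (Rat.num_div_den u₀).symm, rfl⟩
    obtain ⟨a, e, hepos, hcop, hu, heden⟩ :
        ∃ a e : ℤ, 0 < e ∧ IsCoprime a e ∧ u = (a : ℚ) / e ∧ e = (u.den : ℤ) :=
      ⟨u.num, u.den, by exact_mod_cast u.den_pos, Rat.isCoprime_num_den u,
        (Rat.num_div_den u).symm, rfl⟩
    have he₀q : (e₀ : ℚ) ≠ 0 := by exact_mod_cast he₀pos.ne'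
    have heq : (e : ℚ) ≠ 0 := by exact_mod_cast hepos.ne'
    have hv₀sq : v₀ ^ 2 = ((a₀ : ℚ) ^ 2 - (e₀ : ℚ) ^ 2) / (e₀ : ℚ) ^ 2 := by
      have : v₀ ^ 2 = u₀ ^ 2 - 1 := by linarith
      rw [this, hu₀]; field_simp
    have hw₀sq : w₀ ^ 2 = ((a₀ : ℚ) ^ 2 - 81 * (e₀ : ℚ) ^ 2) / (e₀ : ℚ) ^ 2 := by
      have : w₀ ^ 2 = u₀ ^ 2 - 81 := by linarith
      rw [this, hu₀]; field_simp
    obtain ⟨b₀, hb₀⟩ : ∃ b₀ : ℤ, a₀ ^ 2 - e₀ ^ 2 = b₀ ^ 2 := by
      have : IsSquare ((a₀ ^ 2 - e₀ ^ 2 : ℤ) : ℚ) := by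
        refine ⟨v₀ * e₀, ?_⟩
        push_cast
        rw [show v₀ * (e₀ : ℚ) * (v₀ * (e₀ : ℚ)) = v₀ ^ 2 * (e₀ : ℚ) ^ 2 by ring, hv₀sq]
        field_simp
      obtain ⟨b₀, hb₀⟩ := Rat.isSquare_intCast_iff.1 this
      exact ⟨b₀, by rw [hb₀]; ring⟩
    obtain ⟨c₀, hc₀⟩ : ∃ c₀ : ℤ, a₀ ^ 2 - 81 * e₀ ^ 2 = c₀ ^ 2 := by
      have : IsSquare ((a₀ ^ 2 - 81 * e₀ ^ 2 : ℤ) : ℚ) := by
        refine ⟨w₀ * e₀, ?_⟩
        push_cast
        rw [show w₀ * (e₀ : ℚ) * (w₀ * (e₀ : ℚ)) = w₀ ^ 2 * (e₀ : ℚ) ^ 2 by ring, hw₀sq]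
        field_simp
      obtain ⟨c₀, hc₀⟩ := Rat.isSquare_intCast_iff.1 this
      exact ⟨c₀, by rw [hc₀]; ring⟩
    -- the key integral identity
    have hint : (2 * a * a₀ * b₀ * c₀ * e₀) ^ 2 = (e * (a₀ ^ 4 - 81 * e₀ ^ 4)) ^ 2 := by
      have hq : ((2 * a * a₀ * b₀ * c₀ * e₀ : ℤ) : ℚ) ^ 2 =
          ((e * (a₀ ^ 4 - 81 * e₀ ^ 4) : ℤ) : ℚ) ^ 2 := by
        push_cast
        have hb₀q : (b₀ : ℚ) ^ 2 = (a₀ : ℚ) ^ 2 - (e₀ : ℚ) ^ 2 := by exact_mod_cast hb₀.symm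
        have hc₀q : (c₀ : ℚ) ^ 2 = (a₀ : ℚ) ^ 2 - 81 * (e₀ : ℚ) ^ 2 := by exact_mod_cast hc₀.symm
        have e1 : (2 * u * u₀ * v₀ * w₀) ^ 2 = 4 * u ^ 2 * u₀ ^ 2 * v₀ ^ 2 * w₀ ^ 2 := by ring
        rw [e1, hv₀sq, hw₀sq, ← hb₀q, ← hc₀q, hu, hu₀] at hkey
        field_simp at hkey
        linear_combination hkey
      exact_mod_cast hq
    have hint' : 2 * a * a₀ * b₀ * c₀ * e₀ = e * (a₀ ^ 4 - 81 * e₀ ^ 4) ∨
        2 * a * a₀ * b₀ * c₀ * e₀ = -(e * (a₀ ^ 4 - 81 * e₀ ^ 4)) :=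
      sq_eq_sq_iff_eq_or_eq_neg.1 hint
    have hcop₁ : IsCoprime e₀ (a₀ ^ 4 - 81 * e₀ ^ 4) := by
      have h1 : IsCoprime e₀ (a₀ ^ 4) := (hcop₀.symm).pow_right
      have h2 := isCoprime_sub_mul h1 (81 * e₀ ^ 3)
      have h3 : a₀ ^ 4 - 81 * e₀ ^ 3 * e₀ = a₀ ^ 4 - 81 * e₀ ^ 4 := by ring
      rw [h3] at h2
      exact h2
    have hdvd : e₀ ∣ e := by
      have h1 : e₀ ∣ e * (a₀ ^ 4 - 81 * e₀ ^ 4) := by
        rcases hint' with h | h
        · exact ⟨2 * a * a₀ * b₀ * c₀, by rw [← h]; ring⟩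
        · exact ⟨-(2 * a * a₀ * b₀ * c₀), by linear_combination h⟩
      exact hcop₁.dvd_of_dvd_mul_right h1
    have hle : e₀ ≤ e := Int.le_of_dvd hepos hdvd
    rcases lt_or_eq_of_le hle with hlt | heq'
    · -- strictly smaller denominator: induction hypothesis
      have hlt' : u₀.den < n := by
        rw [← hun]
        have : (u₀.den : ℤ) < (u.den : ℤ) := by rw [← he₀den, ← heden]; exact hlt
        exact_mod_cast this
      exact ih u₀.den hlt' u₀ v₀ w₀ rfl hu₀v₀ hu₀w₀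
    · -- equal denominators: parity contradiction
      have he₀0 : e₀ ≠ 0 := he₀pos.ne'
      apply parity_contra a a₀ b₀ c₀ e₀ hcop₀ hb₀ hc₀
      rcases hint' with h | h
      · left
        have : e₀ * (2 * a * a₀ * b₀ * c₀) = e₀ * (a₀ ^ 4 - 81 * e₀ ^ 4) := by
          rw [← heq'] at h; linear_combination h
        exact mul_left_cancel₀ he₀0 this
      · right
        have : e₀ * (2 * a * a₀ * b₀ * c₀) = e₀ * (-(a₀ ^ 4 - 81 * e₀ ^ 4)) := by
          rw [← heq'] at h; linear_combination h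
        exact mul_left_cancel₀ he₀0 this

/-- There are no rational numbers `u, v, w` with `u² - v² = 1` and `u² - w² = 81`. -/
theorem no_three_squares (u v w : ℚ) (h1 : u ^ 2 - v ^ 2 = 1) (h2 : u ^ 2 - w ^ 2 = 81) : False :=
  no_three_squares_aux u.den u v w rfl h1 h2

/-- Rational points of 15a2: `y² = x (x - 1) (x - 81)`. -/
theorem points_15a2 (x y : ℚ) (h : y ^ 2 = x * (x - 1) * (x - 81)) : x = 0 ∨ x = 1 ∨ x = 81 := by
  by_contra hcon
  have h0 : x ≠ 0 := fun h' => hcon (Or.inl h')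
  have h1 : x ≠ 1 := fun h' => hcon (Or.inr (Or.inl h'))
  have h81 : x ≠ 81 := fun h' => hcon (Or.inr (Or.inr h'))
  obtain ⟨u, v, w, huv, huw, -⟩ := class_one_of_point x y h h0 h1 h81
  exact no_three_squares u v w huv huw

/-- Rational points of 15a1 = X₀(15): `y² = x (x + 9) (x - 16)`. -/
theorem points_15a1 (x y : ℚ) (h : y ^ 2 = x * (x + 9) * (x - 16)) :
    x = 0 ∨ x = -9 ∨ x = 16 ∨ x = 36 ∨ x = -4 := by
  by_cases h16 : x = 16
  · exact Or.inr (Or.inr (Or.inl h16))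
  have hx16 : x - 16 ≠ 0 := sub_ne_zero.2 h16
  have key := points_15a2 (x * (x + 9) / (x - 16)) (y * (x + 4) * (x - 36) / (x - 16) ^ 2) (by
    have e1 : x * (x + 9) / (x - 16) - 1 = (x + 4) ^ 2 / (x - 16) := by field_simp; ring
    have e2 : x * (x + 9) / (x - 16) - 81 = (x - 36) ^ 2 / (x - 16) := by field_simp; ring
    rw [e1, e2, div_pow, mul_pow, mul_pow, h]
    field_simp)
  rcases key with h' | h' | h'
  · have : x * (x + 9) = 0 := by
      rcases div_eq_zero_iff.1 h' with h'' | h''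
      · exact h''
      · exact absurd h'' hx16
    rcases mul_eq_zero.1 this with h'' | h''
    · exact Or.inl h''
    · right; left; linarith
  · have h'' : x * (x + 9) = x - 16 := by
      rw [div_eq_iff hx16] at h'; linarith
    have : (x + 4) ^ 2 = 0 := by linear_combination h''
    right; right; right; right
    have := pow_eq_zero_iff (n := 2) (by norm_num) |>.1 this
    linarith
  · have h'' : x * (x + 9) = 81 * (x - 16) := by
      rw [div_eq_iff hx16] at h'; linarith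
    have : (x - 36) ^ 2 = 0 := by linear_combination h''
    right; right; right; left
    have := pow_eq_zero_iff (n := 2) (by norm_num) |>.1 this
    linarith

/-- Scaled form: rational points of `y² = x (x + 9 k²) (x - 16 k²)`, `k ≠ 0`. -/
theorem points_15a1_scaled (k x y : ℚ) (hk : k ≠ 0)
    (h : y ^ 2 = x * (x + 9 * k ^ 2) * (x - 16 * k ^ 2)) :
    x = 0 ∨ x = -9 * k ^ 2 ∨ x = 16 * k ^ 2 ∨ x = 36 * k ^ 2 ∨ x = -4 * k ^ 2 := by
  have hk2 : k ^ 2 ≠ 0 := pow_ne_zero 2 hk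
  have key := points_15a1 (x / k ^ 2) (y / k ^ 3) (by
    rw [div_pow, h]; field_simp)
  rcases key with h' | h' | h' | h' | h'
  · left; rw [div_eq_iff hk2] at h'; linarith
  · right; left; rw [div_eq_iff hk2] at h'; linarith
  · right; right; left; rw [div_eq_iff hk2] at h'; linarith
  · right; right; right; left; rw [div_eq_iff hk2] at h'; linarith
  · right; right; right; right; rw [div_eq_iff hk2] at h'; linarith

/-- The model with the 2-torsion point `(16,0)` moved to the origin: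
`y² = x (x + 16) (x + 25)`. -/
theorem points_15a1_shift16 (x y : ℚ) (h : y ^ 2 = x * (x + 16) * (x + 25)) :
    x = 0 ∨ x = -16 ∨ x = -25 ∨ x = 20 ∨ x = -20 := by
  have key := points_15a1 (x + 16) y (by rw [h]; ring)
  rcases key with h' | h' | h' | h' | h'
  · right; left; linarith
  · right; right; left; linarith
  · left; linarith
  · right; right; right; left; linarith
  · right; right; right; right; linarith

/-- The model with the 2-torsion point `(-9,0)` moved to the origin: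
`y² = x (x - 9) (x - 25)`. -/
theorem points_15a1_shift9 (x y : ℚ) (h : y ^ 2 = x * (x - 9) * (x - 25)) :
    x = 0 ∨ x = 9 ∨ x = 25 ∨ x = 45 ∨ x = 5 := by
  have key := points_15a1 (x - 9) y (by rw [h]; ring)
  rcases key with h' | h' | h' | h' | h'
  · right; left; linarith
  · left; linarith
  · right; right; left; linarith
  · right; right; right; left; linarith
  · right; right; right; right; linarith

/-- Scaled form of 15a2: rational points of `y² = x (x - k²) (x - 81 k²)`, `k ≠ 0`. -/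
theorem points_15a2_scaled (k x y : ℚ) (hk : k ≠ 0)
    (h : y ^ 2 = x * (x - k ^ 2) * (x - 81 * k ^ 2)) :
    x = 0 ∨ x = k ^ 2 ∨ x = 81 * k ^ 2 := by
  have hk2 : k ^ 2 ≠ 0 := pow_ne_zero 2 hk
  have key := points_15a2 (x / k ^ 2) (y / k ^ 3) (by
    rw [div_pow, h]; field_simp)
  rcases key with h' | h' | h'
  · left; rw [div_eq_iff hk2] at h'; linarith
  · right; left; rw [div_eq_iff hk2] at h'; linarith
  · right; right; rw [div_eq_iff hk2] at h'; linarith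

/-- The class lemma for 15a2 in disjunctive form. -/
theorem class_15a2 (x y : ℚ) (h : y ^ 2 = x * (x - 1) * (x - 81)) (hy : y ≠ 0) :
    ∃ s : ℚ, x = s ^ 2 ∧
      ((∃ t r : ℚ, x - 1 = t ^ 2 ∧ x - 81 = r ^ 2) ∨
       (∃ t r : ℚ, 1 - x = t ^ 2 ∧ 81 - x = r ^ 2) ∨
       (∃ t r : ℚ, 5 * (x - 1) = t ^ 2 ∧ 5 * (x - 81) = r ^ 2) ∨
       (∃ t r : ℚ, 5 * (1 - x) = t ^ 2 ∧ 5 * (81 - x) = r ^ 2)) := by
  have hy2 : y ^ 2 ≠ 0 := pow_ne_zero 2 hy
  have h0 : x ≠ 0 := by rintro rfl; apply hy2; rw [h]; ring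
  have h1 : x ≠ 1 := by rintro rfl; apply hy2; rw [h]; ring
  have h81 : x ≠ 81 := by rintro rfl; apply hy2; rw [h]; ring
  obtain ⟨s, t, r, d, hd, hs, ht, hr⟩ := descent_rat x y h h0 h1 h81
  refine ⟨s, hs, ?_⟩
  rcases hd with rfl | rfl | rfl | rfl
  · exact Or.inl ⟨t, r, by linarith, by linarith⟩
  · exact Or.inr (Or.inl ⟨t, r, by linarith, by linarith⟩)
  · exact Or.inr (Or.inr (Or.inl ⟨t, r, by linarith, by linarith⟩))
  · exact Or.inr (Or.inr (Or.inr ⟨t, r, by linarith, by linarith⟩))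

/-- Rational points of 15a1 with `y ≠ 0`. -/
theorem points_15a1_of_ne (x y : ℚ) (h : y ^ 2 = x * (x + 9) * (x - 16)) (hy : y ≠ 0) :
    x = 36 ∨ x = -4 := by
  have hy2 : y ^ 2 ≠ 0 := pow_ne_zero 2 hy
  rcases points_15a1 x y h with h' | h' | h' | h' | h'
  · exfalso; apply hy2; rw [h, h']; ring
  · exfalso; apply hy2; rw [h, h']; ring
  · exfalso; apply hy2; rw [h, h']; ring
  · exact Or.inl h'
  · exact Or.inr h'

end Fermat.Agent.Lib.X015Points
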