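import Mathlib
import Fermat.Agent.S51.Tors0

/-!
# Lib / XLadder: a binary x-only (Montgomery) ladder on a general Weierstrass curve

For a Weierstrass curve with invariants `b₂ b₄ b₆ b₈` we define, with no division and
no reference to division polynomials, pairs `(A_n, B_n)` such that for every nonsingular
affine point `P = (x, y)` the pair `(A_n(x) : B_n(x))` is a projective representative of
the abscissa of `n • P` (degenerate cases included).  The top coefficients are tracked,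
which gives an integral polynomial with leading coefficient `-(2m+1)` killing the abscissas
of the nonzero `(2m+1)`-torsion points.
-/

set_option autoImplicit false

namespace Fermat.Agent.Lib.XLadder

open Polynomial

section defs

variable {S : Type*} [CommRing S]

/-- numerator of the duplication map on projective abscissas -/
def dblA (c₄ c₆ c₈ a b : S) : S := a ^ 4 - c₄ * a ^ 2 * b ^ 2 - 2 * c₆ * a * b ^ 3 - c₈ * b ^ 4

/-- denominator of the duplication map on projective abscissas -/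
def dblB (c₂ c₄ c₆ a b : S) : S :=
  b * (4 * a ^ 3 + c₂ * a ^ 2 * b + 2 * c₄ * a * b ^ 2 + c₆ * b ^ 3)

/-- denominator of the differential addition on projective abscissas -/
def addB (a b a' b' : S) : S := (a * b' - a' * b) ^ 2

/-- numerator of the differential addition on projective abscissas; `x` is the abscissa of
the difference of the two points. -/
def addA (c₂ c₄ c₆ x a b a' b' : S) : S :=
  2 * (a * a') * (a * b' + a' * b) + c₂ * (a * a') * (b * b') + c₄ * (a * b' + a' * b) * (b * b')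
    + c₆ * (b * b') ^ 2 - x * (a * b' - a' * b) ^ 2

/-- The ladder: `lad n = (A_n, B_n)`. -/
def lad (c₂ c₄ c₆ c₈ x : S) : ℕ → S × S
  | 0 => (1, 0)
  | 1 => (x, 1)
  | (n + 2) =>
    if h : (n + 2) % 2 = 0 then
      (dblA c₄ c₆ c₈ (lad c₂ c₄ c₆ c₈ x ((n + 2) / 2)).1 (lad c₂ c₄ c₆ c₈ x ((n + 2) / 2)).2,
        dblB c₂ c₄ c₆ (lad c₂ c₄ c₆ c₈ x ((n + 2) / 2)).1 (lad c₂ c₄ c₆ c₈ x ((n + 2) / 2)).2)
    else
      (addA c₂ c₄ c₆ x (lad c₂ c₄ c₆ c₈ x ((n + 2) / 2)).1 (lad c₂ c₄ c₆ c₈ x ((n + 2) / 2)).2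
          (lad c₂ c₄ c₆ c₈ x ((n + 2) / 2 + 1)).1 (lad c₂ c₄ c₆ c₈ x ((n + 2) / 2 + 1)).2,
        addB (lad c₂ c₄ c₆ c₈ x ((n + 2) / 2)).1 (lad c₂ c₄ c₆ c₈ x ((n + 2) / 2)).2
          (lad c₂ c₄ c₆ c₈ x ((n + 2) / 2 + 1)).1 (lad c₂ c₄ c₆ c₈ x ((n + 2) / 2 + 1)).2)
termination_by n => n
decreasing_by all_goals omega

variable (c₂ c₄ c₆ c₈ x : S)

@[simp] theorem lad_zero : lad c₂ c₄ c₆ c₈ x 0 = (1, 0) := by rw [lad]

@[simp] theorem lad_one : lad c₂ c₄ c₆ c₈ x 1 = (x, 1) := by rw [lad]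

theorem lad_two_mul (k : ℕ) : lad c₂ c₄ c₆ c₈ x (2 * k) =
    (dblA c₄ c₆ c₈ (lad c₂ c₄ c₆ c₈ x k).1 (lad c₂ c₄ c₆ c₈ x k).2,
      dblB c₂ c₄ c₆ (lad c₂ c₄ c₆ c₈ x k).1 (lad c₂ c₄ c₆ c₈ x k).2) := by
  rcases k with _ | k
  · simp [dblA, dblB]
  · have e : 2 * (k + 1) = 2 * k + 2 := by ring
    rw [e, lad]
    have h1 : (2 * k + 2) % 2 = 0 := by omega
    have h2 : (2 * k + 2) / 2 = k + 1 := by omega
    rw [dif_pos h1, h2]

theorem lad_two_mul_add_one (k : ℕ) : lad c₂ c₄ c₆ c₈ x (2 * k + 1) =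
    (addA c₂ c₄ c₆ x (lad c₂ c₄ c₆ c₈ x k).1 (lad c₂ c₄ c₆ c₈ x k).2
        (lad c₂ c₄ c₆ c₈ x (k + 1)).1 (lad c₂ c₄ c₆ c₈ x (k + 1)).2,
      addB (lad c₂ c₄ c₆ c₈ x k).1 (lad c₂ c₄ c₆ c₈ x k).2
        (lad c₂ c₄ c₆ c₈ x (k + 1)).1 (lad c₂ c₄ c₆ c₈ x (k + 1)).2) := by
  rcases k with _ | k
  · simp [addA, addB]; ring
  · have e : 2 * (k + 1) + 1 = (2 * k + 1) + 2 := by ring
    rw [e, lad]
    have h1 : ¬ ((2 * k + 1 + 2) % 2 = 0) := by omega
    have h2 : (2 * k + 1 + 2) / 2 = k + 1 := by omega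
    rw [dif_neg h1, h2]

/-- Induction along the ladder. -/
theorem ladder_induction {P : ℕ → Prop} (h0 : P 0) (h1 : P 1)
    (hd : ∀ k, 1 ≤ k → P k → P (2 * k))
    (ha : ∀ k, 1 ≤ k → P k → P (k + 1) → P (2 * k + 1)) : ∀ n, P n := by
  intro n
  induction n using Nat.strong_induction_on with
  | _ n ih =>
    rcases Nat.even_or_odd' n with ⟨k, rfl | rfl⟩
    · rcases Nat.eq_zero_or_pos k with rfl | hk
      · exact h0
      · exact hd k hk (ih k (by omega))
    · rcases Nat.eq_zero_or_pos k with rfl | hk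
      · exact h1
      · exact ha k hk (ih k (by omega)) (ih (k + 1) (by omega))

/-- The ladder commutes with ring homomorphisms. -/
theorem map_lad {T : Type*} [CommRing T] (f : S →+* T) (n : ℕ) :
    (f (lad c₂ c₄ c₆ c₈ x n).1, f (lad c₂ c₄ c₆ c₈ x n).2)
      = lad (f c₂) (f c₄) (f c₆) (f c₈) (f x) n := by
  induction n using Nat.strong_induction_on with
  | _ n ih =>
    rcases Nat.even_or_odd' n with ⟨k, rfl | rfl⟩
    · rcases Nat.eq_zero_or_pos k with rfl | hk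
      · simp
      · have h := ih k (by omega)
        rw [lad_two_mul, lad_two_mul, ← h]
        have e2 : f 2 = 2 := map_ofNat f 2
        have e4 : f 4 = 4 := map_ofNat f 4
        simp [dblA, dblB, e2, e4]
    · rcases Nat.eq_zero_or_pos k with rfl | hk
      · simp
      · have h := ih k (by omega)
        have h' := ih (k + 1) (by omega)
        rw [lad_two_mul_add_one, lad_two_mul_add_one, ← h, ← h']
        have e2 : f 2 = 2 := map_ofNat f 2
        simp [addA, addB, e2]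

end defs

section points

open WeierstrassCurve WeierstrassCurve.Affine
open Fermat.Agent.S51

variable {K : Type*} [Field K] [DecidableEq K] (W : WeierstrassCurve.Affine K)

/-- the numerator of `x(P+Q) + x(P-Q)` -/
def Ssum (x₁ x₂ : K) : K :=
  2 * (x₁ * x₂) * (x₁ + x₂) + W.b₂ * (x₁ * x₂) + W.b₄ * (x₁ + x₂) + W.b₆

omit [DecidableEq K] in
theorem Ssum_self (x : K) : Ssum W x x = Tors0.M W x := by
  simp only [Ssum, Tors0.M]; ring

/-- The x-only sum formula: `(x(P+Q) + x(Q-P)) (x_P - x_Q)² = S(x_P, x_Q)`. -/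
theorem add_sub_X {x₁ y₁ x₂ y₂ : K} (h₁ : W.Nonsingular x₁ y₁) (h₂ : W.Nonsingular x₂ y₂)
    (hx : x₁ ≠ x₂) :
    ∃ (x₃ y₃ : K) (h₃ : W.Nonsingular x₃ y₃) (x₄ y₄ : K) (h₄ : W.Nonsingular x₄ y₄),
      Point.some x₁ y₁ h₁ + Point.some x₂ y₂ h₂ = Point.some x₃ y₃ h₃ ∧
      Point.some x₂ y₂ h₂ - Point.some x₁ y₁ h₁ = Point.some x₄ y₄ h₄ ∧
      (x₃ + x₄) * (x₁ - x₂) ^ 2 = Ssum W x₁ x₂ := by
  refine ⟨_, _, _, W.addX x₂ x₁ (W.slope x₂ x₁ y₂ (W.negY x₁ y₁)),
    W.addY x₂ x₁ y₂ (W.slope x₂ x₁ y₂ (W.negY x₁ y₁)),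
    nonsingular_add h₂ ((nonsingular_neg ..).mpr h₁) fun hxy => hx hxy.left.symm,
    Point.add_of_X_ne hx, ?_, ?_⟩
  · rw [sub_eq_add_neg, Point.neg_some]
    exact Point.add_of_X_ne (Ne.symm hx)
  · have e₁ := (W.equation_iff x₁ y₁).mp h₁.1
    have e₂ := (W.equation_iff x₂ y₂).mp h₂.1
    rw [Affine.slope_of_X_ne hx, Affine.slope_of_X_ne (Ne.symm hx)]
    have hd : x₁ - x₂ ≠ 0 := sub_ne_zero.mpr hx
    have hd' : x₂ - x₁ ≠ 0 := sub_ne_zero.mpr (Ne.symm hx)
    have hℓ : (y₁ - y₂) / (x₁ - x₂) * (x₁ - x₂) = y₁ - y₂ := div_mul_cancel₀ _ hd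
    have hℓ' : (y₂ - W.negY x₁ y₁) / (x₂ - x₁) * (x₂ - x₁) = y₂ - W.negY x₁ y₁ :=
      div_mul_cancel₀ _ hd'
    generalize (y₁ - y₂) / (x₁ - x₂) = ℓ at hℓ
    generalize (y₂ - W.negY x₁ y₁) / (x₂ - x₁) = ℓ' at hℓ'
    simp only [Affine.negY] at hℓ'
    simp only [Ssum, Affine.addX, WeierstrassCurve.b₂, WeierstrassCurve.b₄, WeierstrassCurve.b₆]
    linear_combination (ℓ * (x₁ - x₂) + (y₁ - y₂) + W.a₁ * (x₁ - x₂)) * hℓ
      + (ℓ' * (x₂ - x₁) + (y₂ + y₁ + W.a₁ * x₁ + W.a₃) + W.a₁ * (x₂ - x₁)) * hℓ'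
      + 2 * e₁ + 2 * e₂

/-- `(a : b)` is a projective representative of the abscissa of a point. -/
def Rep (a b : K) : W.Point → Prop
  | .zero => b = 0 ∧ a ≠ 0
  | .some x' _ _ => b ≠ 0 ∧ x' * b = a

omit [DecidableEq K] in
theorem rep_zero_iff (a b : K) : Rep W a b 0 ↔ b = 0 ∧ a ≠ 0 := Iff.rfl

omit [DecidableEq K] in
theorem rep_some_iff (a b : K) {x' y' : K} (h' : W.Nonsingular x' y') :
    Rep W a b (Point.some x' y' h') ↔ b ≠ 0 ∧ x' * b = a := Iff.rfl

/-- Duplication preserves projective representatives. -/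
theorem rep_dbl (hΔ : W.Δ ≠ 0) {a b : K} (Q : W.Point) (h : Rep W a b Q) :
    Rep W (dblA W.b₄ W.b₆ W.b₈ a b) (dblB W.b₂ W.b₄ W.b₆ a b) (Q + Q) := by
  cases Q with
  | zero =>
    obtain ⟨hb, ha⟩ := h
    change Rep W _ _ ((0 : W.Point) + 0)
    rw [add_zero]
    refine ⟨by simp [dblB, hb], ?_⟩
    simp only [dblA, hb]
    simpa using ha
  | some x' y' h' =>
    obtain ⟨hb, hx⟩ := h
    have eM : dblB W.b₂ W.b₄ W.b₆ a b = Tors0.M W x' * b ^ 4 := by
      rw [← hx]; simp only [dblB, Tors0.M]; ring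
    have eN : dblA W.b₄ W.b₆ W.b₈ a b = Tors0.Nm W x' * b ^ 4 := by
      rw [← hx]; simp only [dblA, Tors0.Nm]; ring
    by_cases hM : Tors0.M W x' = 0
    · rw [Tors0.add_self_of_M_eq W h' hM]
      refine ⟨by rw [eM, hM, zero_mul], ?_⟩
      rw [eN]
      exact mul_ne_zero (fun hN => hΔ (Tors0.disc_eq_zero_of_M_Nm W hM hN)) (pow_ne_zero 4 hb)
    · obtain ⟨x'', y'', h'', hadd, hxx⟩ := Tors0.add_self_of_M_ne W h' hM
      rw [hadd]
      refine ⟨by rw [eM]; exact mul_ne_zero hM (pow_ne_zero 4 hb), ?_⟩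
      rw [eM, eN, ← hxx]; ring

/-- Differential addition preserves projective representatives: if `Q' - Q` is the affine
point with abscissa `x`, then `addA`, `addB` represent `Q + Q'`. -/
theorem rep_add {a b a' b' : K} (Q Q' : W.Point) (hQ : Rep W a b Q) (hQ' : Rep W a' b' Q')
    {x y : K} (h : W.Nonsingular x y) (hd : Q' - Q = Point.some x y h) :
    Rep W (addA W.b₂ W.b₄ W.b₆ x a b a' b') (addB a b a' b') (Q + Q') := by
  cases Q with
  | zero =>
    obtain ⟨hb, ha⟩ := hQ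
    change Q' - 0 = _ at hd
    rw [sub_zero] at hd
    subst hd
    obtain ⟨hb', hx'⟩ := hQ'
    change Rep W _ _ ((0 : W.Point) + _)
    rw [zero_add]
    refine ⟨?_, ?_⟩
    · simp only [addB, hb, mul_zero, sub_zero]
      exact pow_ne_zero 2 (mul_ne_zero ha hb')
    · rw [← hx', hb]; simp only [addA, addB]; ring
  | some x₁ y₁ h₁ =>
    obtain ⟨hb, hx₁⟩ := hQ
    cases Q' with
    | zero =>
      obtain ⟨hb', ha'⟩ := hQ'
      change (0 : W.Point) - _ = _ at hd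
      rw [zero_sub, Point.neg_some] at hd
      have hxx : x₁ = x := by injection hd
      subst hxx
      change Rep W _ _ (_ + (0 : W.Point))
      rw [add_zero]
      refine ⟨?_, ?_⟩
      · simp only [addB, hb', mul_zero, zero_sub, neg_sq]
        exact pow_ne_zero 2 (mul_ne_zero ha' hb)
      · rw [← hx₁, hb']; simp only [addA, addB]; ring
    | some x₂ y₂ h₂ =>
      obtain ⟨hb', hx₂⟩ := hQ'
      by_cases hx : x₁ = x₂
      · subst hx
        have hne : Point.some x₁ y₂ h₂ ≠ Point.some x₁ y₁ h₁ := by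
          intro he
          rw [he, sub_self] at hd
          exact Point.some_ne_zero h hd.symm
        have hneg : Point.some x₁ y₂ h₂ = -Point.some x₁ y₁ h₁ := by
          rcases Tors0.eq_or_eq_neg_of_X_eq W h₂ h₁ with he | he
          · exact absurd he hne
          · exact he
        have hM : Tors0.M W x₁ ≠ 0 := by
          intro hM
          have h2 := Tors0.add_self_of_M_eq W h₁ hM
          apply hne
          rw [hneg]
          exact neg_eq_of_add_eq_zero_left h2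
        rw [hneg, add_neg_cancel]
        refine ⟨?_, ?_⟩
        · rw [← hx₁, ← hx₂]; simp only [addB]; ring
        · have e : addA W.b₂ W.b₄ W.b₆ x a b a' b' = Tors0.M W x₁ * (b * b') ^ 2 := by
            rw [← hx₁, ← hx₂]; simp only [addA, Tors0.M]; ring
          rw [e]
          exact mul_ne_zero hM (pow_ne_zero 2 (mul_ne_zero hb hb'))
      · obtain ⟨x₃, y₃, h₃, x₄, y₄, h₄, hadd, hsub, hS⟩ := add_sub_X W h₁ h₂ hx
        rw [hsub] at hd
        have hxx : x₄ = x := by injection hd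
        subst hxx
        rw [hadd]
        refine ⟨?_, ?_⟩
        · have e : addB a b a' b' = (x₁ - x₂) ^ 2 * (b * b') ^ 2 := by
            rw [← hx₁, ← hx₂]; simp only [addB]; ring
          rw [e]
          exact mul_ne_zero (pow_ne_zero 2 (sub_ne_zero.mpr hx))
            (pow_ne_zero 2 (mul_ne_zero hb hb'))
        · rw [← hx₁, ← hx₂]
          simp only [Ssum] at hS
          simp only [addA, addB]
          linear_combination (b * b') ^ 2 * hS

/-- **The ladder is exact**: `(A_n(x) : B_n(x))` represents the abscissa of `n • (x, y)`. -/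
theorem rep_nsmul (hΔ : W.Δ ≠ 0) {x y : K} (h : W.Nonsingular x y) (n : ℕ) :
    Rep W (lad W.b₂ W.b₄ W.b₆ W.b₈ x n).1 (lad W.b₂ W.b₄ W.b₆ W.b₈ x n).2
      (n • Point.some x y h) := by
  induction n using ladder_induction with
  | h0 => rw [zero_smul, lad_zero]; exact ⟨rfl, one_ne_zero⟩
  | h1 => rw [one_smul, lad_one]; exact ⟨one_ne_zero, mul_one x⟩
  | hd k hk ih =>
    rw [lad_two_mul, two_mul, add_smul]
    exact rep_dbl W hΔ _ ih
  | ha k hk ih ih' =>
    rw [lad_two_mul_add_one]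
    have e : (2 * k + 1) • Point.some x y h = k • Point.some x y h + (k + 1) • Point.some x y h := by
      rw [← add_smul]; congr 1; ring
    rw [e]
    refine rep_add W _ _ ih ih' h ?_
    rw [add_smul, one_smul, add_sub_cancel_left]

end points

section poly

variable {R : Type*} [CommRing R]

/-- `f` has degree at most `d` and its coefficient at `X ^ d` is `c`. -/
def TopCoeff (f : R[X]) (d : ℕ) (c : R) : Prop := f.natDegree ≤ d ∧ f.coeff d = c

namespace TopCoeff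

variable {f g : R[X]} {d e : ℕ} {c c' : R}

theorem mul (h₁ : TopCoeff f d c) (h₂ : TopCoeff g e c') : TopCoeff (f * g) (d + e) (c * c') :=
  ⟨natDegree_mul_le.trans (add_le_add h₁.1 h₂.1), by
    rw [coeff_mul_add_eq_of_natDegree_le h₁.1 h₂.1, h₁.2, h₂.2]⟩

theorem pow (h : TopCoeff f d c) (m : ℕ) : TopCoeff (f ^ m) (m * d) (c ^ m) :=
  ⟨natDegree_pow_le_of_le m h.1, by rw [coeff_pow_of_natDegree_le h.1, h.2]⟩

theorem add (h₁ : TopCoeff f d c) (h₂ : TopCoeff g d c') : TopCoeff (f + g) d (c + c') :=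
  ⟨(natDegree_add_le _ _).trans (max_le h₁.1 h₂.1), by rw [coeff_add, h₁.2, h₂.2]⟩

theorem sub (h₁ : TopCoeff f d c) (h₂ : TopCoeff g d c') : TopCoeff (f - g) d (c - c') :=
  ⟨(natDegree_sub_le _ _).trans (max_le h₁.1 h₂.1), by rw [coeff_sub, h₁.2, h₂.2]⟩

theorem const (r : R) : TopCoeff (C r) 0 r := ⟨by simp, by simp⟩

theorem one : TopCoeff (1 : R[X]) 0 1 := by simpa using const (1 : R)

theorem two : TopCoeff (2 : R[X]) 0 2 := by
  have := const (2 : R); rwa [C_ofNat] at this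

theorem four : TopCoeff (4 : R[X]) 0 4 := by
  have := const (4 : R); rwa [C_ofNat] at this

theorem varX : TopCoeff (X : R[X]) 1 1 := ⟨natDegree_X_le, by simp⟩

theorem lift (h : TopCoeff f d c) (hlt : d < e) : TopCoeff f e 0 :=
  ⟨h.1.trans hlt.le, coeff_eq_zero_of_natDegree_lt (h.1.trans_lt hlt)⟩

theorem congr (h : TopCoeff f d c) (hd : d = e) (hc : c = c') : TopCoeff f e c' := hd ▸ hc ▸ h

end TopCoeff

variable (b₂ b₄ b₆ b₈ : R)

theorem top_dblA {A B : R[X]} {q : ℕ} {β : R} (hq : 1 ≤ q) (hA : TopCoeff A q 1)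
    (hB : TopCoeff B (q - 1) β) : TopCoeff (dblA (C b₄) (C b₆) (C b₈) A B) (4 * q) 1 := by
  have t1 := hA.pow 4
  have t2 := (((TopCoeff.const b₄).mul (hA.pow 2)).mul (hB.pow 2)).lift
    (show 0 + 2 * q + 2 * (q - 1) < 4 * q by omega)
  have t3 := (((TopCoeff.two.mul (TopCoeff.const b₆)).mul hA).mul (hB.pow 3)).lift
    (show 0 + 0 + q + 3 * (q - 1) < 4 * q by omega)
  have t4 := ((TopCoeff.const b₈).mul (hB.pow 4)).lift (show 0 + 4 * (q - 1) < 4 * q by omega)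
  exact (((t1.sub t2).sub t3).sub t4).congr rfl (by simp)

theorem top_dblB {A B : R[X]} {q : ℕ} {β : R} (hq : 1 ≤ q) (hA : TopCoeff A q 1)
    (hB : TopCoeff B (q - 1) β) : TopCoeff (dblB (C b₂) (C b₄) (C b₆) A B) (4 * q - 1) (4 * β) := by
  have t1 := (TopCoeff.four.mul (hA.pow 3)).congr (show 0 + 3 * q = 3 * q by omega) rfl
  have t2 := (((TopCoeff.const b₂).mul (hA.pow 2)).mul hB).lift
    (show 0 + 2 * q + (q - 1) < 3 * q by omega)
  have t3 := (((TopCoeff.two.mul (TopCoeff.const b₄)).mul hA).mul (hB.pow 2)).lift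
    (show 0 + 0 + q + 2 * (q - 1) < 3 * q by omega)
  have t4 := ((TopCoeff.const b₆).mul (hB.pow 3)).lift (show 0 + 3 * (q - 1) < 3 * q by omega)
  exact (hB.mul (((t1.add t2).add t3).add t4)).congr (by omega) (by simp; ring)

theorem top_addB {A B A' B' : R[X]} {q q' : ℕ} {β β' : R} (hq : 1 ≤ q) (hq' : 1 ≤ q')
    (hA : TopCoeff A q 1) (hB : TopCoeff B (q - 1) β) (hA' : TopCoeff A' q' 1) (hB' : TopCoeff B' (q' - 1) β') :
    TopCoeff (addB A B A' B') (2 * (q + q') - 2) ((β' - β) ^ 2) := by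
  have t1 := (hA.mul hB').congr (show q + (q' - 1) = q + q' - 1 by omega) (one_mul _)
  have t2 := (hA'.mul hB).congr (show q' + (q - 1) = q + q' - 1 by omega) (one_mul _)
  exact ((t1.sub t2).pow 2).congr (by omega) rfl

theorem top_addA {A B A' B' : R[X]} {q q' : ℕ} {β β' : R} (hq : 1 ≤ q) (hq' : 1 ≤ q')
    (hA : TopCoeff A q 1) (hB : TopCoeff B (q - 1) β) (hA' : TopCoeff A' q' 1) (hB' : TopCoeff B' (q' - 1) β') :
    TopCoeff (addA (C b₂) (C b₄) (C b₆) X A B A' B') (2 * (q + q') - 1)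
      (2 * (β' + β) - (β' - β) ^ 2) := by
  have t1 := (hA.mul hB').congr (show q + (q' - 1) = q + q' - 1 by omega) (one_mul _)
  have t2 := (hA'.mul hB).congr (show q' + (q - 1) = q + q' - 1 by omega) (one_mul _)
  have tE := t1.add t2
  have tD := t1.sub t2
  have tAA := hA.mul hA'
  have tBB := hB.mul hB'
  have s1 := ((TopCoeff.two.mul tAA).mul tE).congr
    (show 0 + (q + q') + (q + q' - 1) = 2 * (q + q') - 1 by omega) rfl
  have s2 := (((TopCoeff.const b₂).mul tAA).mul tBB).lift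
    (show 0 + (q + q') + (q - 1 + (q' - 1)) < 2 * (q + q') - 1 by omega)
  have s3 := (((TopCoeff.const b₄).mul tE).mul tBB).lift
    (show 0 + (q + q' - 1) + (q - 1 + (q' - 1)) < 2 * (q + q') - 1 by omega)
  have s4 := ((TopCoeff.const b₆).mul (tBB.pow 2)).lift
    (show 0 + 2 * (q - 1 + (q' - 1)) < 2 * (q + q') - 1 by omega)
  have s5 := (TopCoeff.varX.mul (tD.pow 2)).congr
    (show 1 + 2 * (q + q' - 1) = 2 * (q + q') - 1 by omega) rfl
  exact ((((s1.add s2).add s3).add s4).sub s5).congr rfl (by ring)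

/-- The ladder polynomials `(A_n, B_n)` in `R[X]`. -/
noncomputable def ladP (n : ℕ) : R[X] × R[X] := lad (C b₂) (C b₄) (C b₆) (C b₈) X n

/-- TopCoeff coefficients: `A_n = X^(n²) + ⋯`, `B_n = n² X^(n²-1) + ⋯`. -/
theorem top_ladP (n : ℕ) (hn : 1 ≤ n) :
    TopCoeff (ladP b₂ b₄ b₆ b₈ n).1 (n ^ 2) 1 ∧ TopCoeff (ladP b₂ b₄ b₆ b₈ n).2 (n ^ 2 - 1) ((n : R) ^ 2) := by
  induction n using ladder_induction with
  | h0 => omega
  | h1 =>
    simp only [ladP, lad_one]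
    exact ⟨TopCoeff.varX.congr (by norm_num) rfl, TopCoeff.one.congr (by norm_num) (by simp)⟩
  | hd k hk ih =>
    obtain ⟨hA, hB⟩ := ih hk
    have hq : 1 ≤ k ^ 2 := Nat.one_le_pow _ _ hk
    have e : (2 * k) ^ 2 = 4 * k ^ 2 := by ring
    simp only [ladP, lad_two_mul]
    refine ⟨(top_dblA b₄ b₆ b₈ hq hA hB).congr e.symm rfl,
      (top_dblB b₂ b₄ b₆ hq hA hB).congr (by rw [e]) (by push_cast; ring)⟩
  | ha k hk ih ih' =>
    obtain ⟨hA, hB⟩ := ih hk
    obtain ⟨hA', hB'⟩ := ih' (by omega)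
    have hq : 1 ≤ k ^ 2 := Nat.one_le_pow _ _ hk
    have hq' : 1 ≤ (k + 1) ^ 2 := Nat.one_le_pow _ _ (by omega)
    have e : (2 * k + 1) ^ 2 + 1 = 2 * (k ^ 2 + (k + 1) ^ 2) := by ring
    simp only [ladP, lad_two_mul_add_one]
    refine ⟨(top_addA b₂ b₄ b₆ hq hq' hA hB hA' hB').congr (by omega) (by push_cast; ring),
      (top_addB hq hq' hA hB hA' hB').congr (by omega) (by push_cast; ring)⟩

end poly

section exports

variable {R : Type*} [CommRing R]

/-- Evaluating the ladder polynomials gives the ladder at the value. -/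
theorem eval_ladP (b₂ b₄ b₆ b₈ x : R) (n : ℕ) :
    ((ladP b₂ b₄ b₆ b₈ n).1.eval x, (ladP b₂ b₄ b₆ b₈ n).2.eval x) = lad b₂ b₄ b₆ b₈ x n := by
  have := map_lad (C b₂) (C b₄) (C b₆) (C b₈) (X : R[X]) (evalRingHom x) n
  simpa [ladP] using this

/-- The ladder polynomials commute with base change. -/
theorem map_ladP {T : Type*} [CommRing T] (f : R →+* T) (b₂ b₄ b₆ b₈ : R) (n : ℕ) :
    ((ladP b₂ b₄ b₆ b₈ n).1.map f, (ladP b₂ b₄ b₆ b₈ n).2.map f)
      = ladP (f b₂) (f b₄) (f b₆) (f b₈) n := by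
  have := map_lad (C b₂) (C b₄) (C b₆) (C b₈) (X : R[X]) (mapRingHom f) n
  simpa [ladP] using this

/-- The odd "division polynomial" produced by the ladder:
`A_(m+1) B_m - A_m B_(m+1)` (it vanishes at the abscissas of the nonzero `(2m+1)`-torsion). -/
noncomputable def divPoly (b₂ b₄ b₆ b₈ : R) (m : ℕ) : R[X] :=
  (ladP b₂ b₄ b₆ b₈ (m + 1)).1 * (ladP b₂ b₄ b₆ b₈ m).2
    - (ladP b₂ b₄ b₆ b₈ m).1 * (ladP b₂ b₄ b₆ b₈ (m + 1)).2

theorem map_divPoly {T : Type*} [CommRing T] (f : R →+* T) (b₂ b₄ b₆ b₈ : R) (m : ℕ) :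
    (divPoly b₂ b₄ b₆ b₈ m).map f = divPoly (f b₂) (f b₄) (f b₆) (f b₈) m := by
  have h1 := map_ladP f b₂ b₄ b₆ b₈ m
  have h2 := map_ladP f b₂ b₄ b₆ b₈ (m + 1)
  simp only [divPoly, Polynomial.map_sub, Polynomial.map_mul, ← h1, ← h2]

/-- `divPoly m = -(2m+1) X^(2m²+2m) + ⋯`. -/
theorem top_divPoly (b₂ b₄ b₆ b₈ : R) (m : ℕ) :
    TopCoeff (divPoly b₂ b₄ b₆ b₈ m) (2 * m ^ 2 + 2 * m) (-(2 * (m : R) + 1)) := by
  rcases Nat.eq_zero_or_pos m with rfl | hm
  · simp only [divPoly, ladP, lad_zero, zero_add, lad_one]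
    refine ⟨by simp, by simp⟩
  · obtain ⟨hA, hB⟩ := top_ladP b₂ b₄ b₆ b₈ m hm
    obtain ⟨hA', hB'⟩ := top_ladP b₂ b₄ b₆ b₈ (m + 1) (by omega)
    have hq : 1 ≤ m ^ 2 := Nat.one_le_pow _ _ hm
    have e : (m + 1) ^ 2 = m ^ 2 + 2 * m + 1 := by ring
    have t1 := (hA'.mul hB).congr (show (m + 1) ^ 2 + (m ^ 2 - 1) = 2 * m ^ 2 + 2 * m by omega) rfl
    have t2 := (hA.mul hB').congr (show m ^ 2 + ((m + 1) ^ 2 - 1) = 2 * m ^ 2 + 2 * m by omega) rfl
    exact (t1.sub t2).congr rfl (by push_cast; ring)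

theorem natDegree_divPoly (b₂ b₄ b₆ b₈ : R) (m : ℕ) (h : 2 * (m : R) + 1 ≠ 0) :
    (divPoly b₂ b₄ b₆ b₈ m).natDegree = 2 * m ^ 2 + 2 * m := by
  obtain ⟨h1, h2⟩ := top_divPoly b₂ b₄ b₆ b₈ m
  exact natDegree_eq_of_le_of_coeff_ne_zero h1 (by rw [h2]; exact neg_ne_zero.mpr h)

theorem leadingCoeff_divPoly (b₂ b₄ b₆ b₈ : R) (m : ℕ) (h : 2 * (m : R) + 1 ≠ 0) :
    (divPoly b₂ b₄ b₆ b₈ m).leadingCoeff = -(2 * (m : R) + 1) := by
  rw [leadingCoeff, natDegree_divPoly b₂ b₄ b₆ b₈ m h]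
  exact (top_divPoly b₂ b₄ b₆ b₈ m).2

theorem natDegree_ladP_fst [Nontrivial R] (b₂ b₄ b₆ b₈ : R) (n : ℕ) :
    (ladP b₂ b₄ b₆ b₈ n).1.natDegree = n ^ 2 := by
  rcases Nat.eq_zero_or_pos n with rfl | hn
  · simp [ladP]
  · obtain ⟨h1, h2⟩ := (top_ladP b₂ b₄ b₆ b₈ n hn).1
    exact natDegree_eq_of_le_of_coeff_ne_zero h1 (by rw [h2]; exact one_ne_zero)

theorem monic_ladP_fst [Nontrivial R] (b₂ b₄ b₆ b₈ : R) (n : ℕ) :
    (ladP b₂ b₄ b₆ b₈ n).1.Monic := by
  rcases Nat.eq_zero_or_pos n with rfl | hn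
  · simp [ladP]
  · rw [Monic, leadingCoeff, natDegree_ladP_fst]
    exact (top_ladP b₂ b₄ b₆ b₈ n hn).1.2

theorem natDegree_ladP_snd_lt (b₂ b₄ b₆ b₈ : R) (n : ℕ) (hn : 1 ≤ n) :
    (ladP b₂ b₄ b₆ b₈ n).2.natDegree < n ^ 2 := by
  have hq : 1 ≤ n ^ 2 := Nat.one_le_pow _ _ hn
  have := (top_ladP b₂ b₄ b₆ b₈ n hn).2.1
  omega

theorem coeff_ladP_snd (b₂ b₄ b₆ b₈ : R) (n : ℕ) (hn : 1 ≤ n) :
    (ladP b₂ b₄ b₆ b₈ n).2.coeff (n ^ 2 - 1) = (n : R) ^ 2 :=
  (top_ladP b₂ b₄ b₆ b₈ n hn).2.2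

theorem ladP_snd_ne_zero (b₂ b₄ b₆ b₈ : R) (n : ℕ) (hn : 1 ≤ n) (h : (n : R) ^ 2 ≠ 0) :
    (ladP b₂ b₄ b₆ b₈ n).2 ≠ 0 := by
  intro h0
  have := coeff_ladP_snd b₂ b₄ b₆ b₈ n hn
  rw [h0, coeff_zero] at this
  exact h this.symm

end exports

section pointExports

open WeierstrassCurve WeierstrassCurve.Affine

variable {K : Type*} [Field K] [DecidableEq K] (W : WeierstrassCurve.Affine K)

/-- (X1a) `n • P = 0` iff `B_n` vanishes at the abscissa of `P`. -/
theorem ladder_nsmul_eq_zero_iff (hΔ : W.Δ ≠ 0) {x y : K} (h : W.Nonsingular x y) (n : ℕ) :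
    n • Point.some x y h = 0 ↔ (ladP W.b₂ W.b₄ W.b₆ W.b₈ n).2.eval x = 0 := by
  have hr := rep_nsmul W hΔ h n
  have e := eval_ladP W.b₂ W.b₄ W.b₆ W.b₈ x n
  rw [← e] at hr
  generalize n • Point.some x y h = Q at hr
  cases Q with
  | zero => exact ⟨fun _ => hr.1, fun _ => rfl⟩
  | some x' y' h' => exact ⟨fun h0 => absurd h0 (Point.some_ne_zero h'), fun h0 => absurd h0 hr.1⟩

/-- (X1b) if `n • P` is the affine point with abscissa `x'` then `x' B_n(x) = A_n(x)`. -/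
theorem ladder_x_nsmul (hΔ : W.Δ ≠ 0) {x y : K} (h : W.Nonsingular x y) (n : ℕ) {x' y' : K}
    (h' : W.Nonsingular x' y') (hn : n • Point.some x y h = Point.some x' y' h') :
    x' * (ladP W.b₂ W.b₄ W.b₆ W.b₈ n).2.eval x = (ladP W.b₂ W.b₄ W.b₆ W.b₈ n).1.eval x := by
  have hr := rep_nsmul W hΔ h n
  have e := eval_ladP W.b₂ W.b₄ W.b₆ W.b₈ x n
  rw [← e, hn] at hr
  exact hr.2

/-- (X1c) `A_n` and `B_n` do not vanish simultaneously at the abscissa of a point. -/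
theorem ladder_not_both_zero (hΔ : W.Δ ≠ 0) {x y : K} (h : W.Nonsingular x y) (n : ℕ) :
    ¬ ((ladP W.b₂ W.b₄ W.b₆ W.b₈ n).1.eval x = 0 ∧ (ladP W.b₂ W.b₄ W.b₆ W.b₈ n).2.eval x = 0) := by
  have hr := rep_nsmul W hΔ h n
  have e := eval_ladP W.b₂ W.b₄ W.b₆ W.b₈ x n
  rw [← e] at hr
  generalize n • Point.some x y h = Q at hr
  rintro ⟨hA, hB⟩
  cases Q with
  | zero => exact hr.2 hA
  | some x' y' h' => exact hr.1 hB

/-- (X3) the abscissa of a nonzero `(2m+1)`-torsion point is a root of `divPoly m`. -/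
theorem eval_divPoly_eq_zero (hΔ : W.Δ ≠ 0) {x y : K} (h : W.Nonsingular x y) (m : ℕ)
    (hT : (2 * m + 1) • Point.some x y h = 0) :
    (divPoly W.b₂ W.b₄ W.b₆ W.b₈ m).eval x = 0 := by
  have hr := rep_nsmul W hΔ h m
  have hr' := rep_nsmul W hΔ h (m + 1)
  have e := eval_ladP W.b₂ W.b₄ W.b₆ W.b₈ x m
  have e' := eval_ladP W.b₂ W.b₄ W.b₆ W.b₈ x (m + 1)
  rw [← e] at hr
  rw [← e'] at hr'
  have hneg : (m + 1) • Point.some x y h = -(m • Point.some x y h) := by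
    rw [eq_neg_iff_add_eq_zero, ← add_smul]
    convert hT using 2; ring
  have hone : (m + 1) • Point.some x y h = m • Point.some x y h + Point.some x y h := by
    rw [add_smul, one_smul]
  rw [hneg] at hr'
  generalize hQ : m • Point.some x y h = Q at hr hr' hneg hone
  cases Q with
  | zero =>
    exfalso
    change (m + 1) • Point.some x y h = -(0 : W.Point) at hneg
    change (m + 1) • Point.some x y h = (0 : W.Point) + _ at hone
    rw [hneg, neg_zero, zero_add] at hone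
    exact Point.some_ne_zero h hone.symm
  | some x' y' h' =>
    rw [Point.neg_some] at hr'
    obtain ⟨-, h1⟩ := hr
    obtain ⟨-, h2⟩ := hr'
    dsimp only at h1 h2
    simp only [divPoly, eval_sub, eval_mul]
    rw [← h1, ← h2]; ring

end pointExports

section intModel

open WeierstrassCurve WeierstrassCurve.Affine

variable (W : WeierstrassCurve ℤ)

/-- The integral odd division polynomial of an integral Weierstrass model, for the odd
number `2m+1`. -/
noncomputable def intDivPoly (m : ℕ) : Polynomial ℤ := divPoly W.b₂ W.b₄ W.b₆ W.b₈ m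

theorem natDegree_intDivPoly (m : ℕ) : (intDivPoly W m).natDegree = 2 * m ^ 2 + 2 * m :=
  natDegree_divPoly _ _ _ _ m (by omega)

theorem leadingCoeff_intDivPoly (m : ℕ) : (intDivPoly W m).leadingCoeff = -(2 * (m : ℤ) + 1) :=
  leadingCoeff_divPoly _ _ _ _ m (by omega)

theorem intDivPoly_ne_zero (m : ℕ) : intDivPoly W m ≠ 0 := by
  intro h
  have := leadingCoeff_intDivPoly W m
  rw [h, leadingCoeff_zero] at this
  omega

/-- (X3) **Integral division polynomial**: for an integral model `W` and any field `K` over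
which the base change `W'` is nonsingular (`Δ ≠ 0`), the abscissa of every nonzero
`(2m+1)`-torsion point of `W'(K)` is a root of `intDivPoly W m ∈ ℤ[X]`, a polynomial of
degree `2m²+2m` with leading coefficient `-(2m+1)`. -/
theorem aeval_intDivPoly {K : Type*} [Field K] [DecidableEq K] (W' : WeierstrassCurve.Affine K)
    (hW : W.map (Int.castRingHom K) = W') (hΔ : W'.Δ ≠ 0) {x y : K}
    (h : W'.Nonsingular x y) (m : ℕ) (hT : (2 * m + 1) • Point.some x y h = 0) :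
    aeval x (intDivPoly W m) = 0 := by
  subst hW
  rw [aeval_def, eval₂_eq_eval_map, algebraMap_int_eq, intDivPoly, map_divPoly,
    ← map_b₂, ← map_b₄, ← map_b₆, ← map_b₈]
  exact eval_divPoly_eq_zero _ hΔ h m hT

/-- Variant for an odd number `p` given as such: `intDivPoly W (p / 2)` has leading
coefficient `-p`, degree `(p² - 1) / 2`, and kills the nonzero `p`-torsion abscissas. -/
theorem leadingCoeff_intDivPoly_odd {p : ℕ} (hp : Odd p) :
    (intDivPoly W (p / 2)).leadingCoeff = -(p : ℤ) := by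
  rw [leadingCoeff_intDivPoly]
  obtain ⟨k, rfl⟩ := hp
  have : (2 * k + 1) / 2 = k := by omega
  rw [this]; push_cast; ring

theorem natDegree_intDivPoly_odd {p : ℕ} (hp : Odd p) :
    (intDivPoly W (p / 2)).natDegree = (p ^ 2 - 1) / 2 := by
  rw [natDegree_intDivPoly]
  obtain ⟨k, rfl⟩ := hp
  have : (2 * k + 1) / 2 = k := by omega
  rw [this]
  have e : (2 * k + 1) ^ 2 = 2 * (2 * k ^ 2 + 2 * k) + 1 := by ring
  rw [e]; omega

theorem aeval_intDivPoly_odd {K : Type*} [Field K] [DecidableEq K]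
    (W' : WeierstrassCurve.Affine K) (hW : W.map (Int.castRingHom K) = W') (hΔ : W'.Δ ≠ 0)
    {p : ℕ} (hp : Odd p) {x y : K} (h : W'.Nonsingular x y)
    (hT : p • Point.some x y h = 0) : aeval x (intDivPoly W (p / 2)) = 0 := by
  refine aeval_intDivPoly W W' hW hΔ h (p / 2) ?_
  obtain ⟨k, rfl⟩ := hp
  have : (2 * k + 1) / 2 = k := by omega
  rw [this]; exact hT

end intModel

end Fermat.Agent.Lib.XLadder
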